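import Mathlib
import Fermat.Prelude.Def_EllipticCurve_FrobeniusTrace
import Fermat.Statements.S22
import Fermat.Prelude.Thm_ModularForm_sturm_bound_Gamma0
import Fermat.Prelude.Thm_CongruenceSubgroup_one_mem_strictPeriods_Gamma0
import Fermat.Prelude.Def_GaloisRep_Adic
import Mathlib.NumberTheory.ModularForms.QExpansion
import Mathlib.Analysis.Complex.TaylorSeries
import Fermat.Prelude.Def_AlgebraicCurve_DivisorClassGroup
import Fermat.Prelude.Def_AlgebraicCurve_Repartitions
import Fermat.Prelude.Def_ModularCurve_X0ModL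

-- ===== PACK-BEGIN S55/H414/CycloOrder.lean
section


/-!
# S55, leaf CYC-INF (helper414), part 2: orders of integers modulo `p ^ n`

Elementary number theory: if `q ≥ 2` then the `p`-part of the multiplicative order of `q`
modulo `p ^ n` tends to infinity with `n`.
-/

set_option autoImplicit false

namespace Fermat.Agent.S55.H414

/-- If `o ∣ (p - 1) * p ^ m` and `p ^ k ∤ o` (with `k ≥ 1`), then `o ∣ (p - 1) * p ^ (k - 1)`. -/
theorem dvd_pred_mul_pow_of_not_pow_dvd {p : ℕ} (hp : p.Prime) {o m k : ℕ}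
    (ho : o ∣ (p - 1) * p ^ m) (hk : ¬ p ^ k ∣ o) : o ∣ (p - 1) * p ^ (k - 1) := by
  have ho0 : o ≠ 0 := by
    rintro rfl
    exact hk (dvd_zero _)
  obtain ⟨j, a, ha, rfl⟩ := Nat.exists_eq_pow_mul_and_not_dvd ho0 p hp.ne_one
  have hcop : Nat.Coprime a (p ^ m) := Nat.Coprime.pow_right _
    ((Nat.Prime.coprime_iff_not_dvd hp).2 ha).symm
  have ha1 : a ∣ p - 1 := by
    have : a ∣ (p - 1) * p ^ m := (Dvd.intro_left _ rfl).trans ho
    exact hcop.dvd_of_dvd_mul_right this
  have hj : j < k := by
    by_contra hjk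
    exact hk ((pow_dvd_pow p (Nat.le_of_not_lt hjk)).trans (Dvd.intro _ rfl))
  have hj' : p ^ j ∣ p ^ (k - 1) := pow_dvd_pow p (by omega)
  rw [mul_comm (p - 1)]
  exact Nat.mul_dvd_mul hj' ha1

/-- For `q ≥ 2` and every `k`, for all large `n`, every unit of `ZMod (p ^ n)` which is the class
of `q` has order divisible by `p ^ k`. -/
theorem exists_forall_pow_dvd_orderOf (p q : ℕ) (hp : p.Prime) (hq : 2 ≤ q) (k : ℕ) :
    ∃ n₀ : ℕ, ∀ n, n₀ ≤ n → ∀ u : (ZMod (p ^ n))ˣ, (u : ZMod (p ^ n)) = (q : ZMod (p ^ n)) →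
      p ^ k ∣ orderOf u := by
  set E : ℕ := (p - 1) * p ^ (k - 1) with hE
  have hE0 : 0 < E := Nat.mul_pos (Nat.sub_pos_of_lt hp.one_lt) (pow_pos hp.pos _)
  set m : ℕ := q ^ E with hm
  have hm2 : 2 ≤ m := by
    calc 2 ≤ q := hq
      _ = q ^ 1 := (pow_one q).symm
      _ ≤ q ^ E := Nat.pow_le_pow_right (by omega) hE0
  refine ⟨m, fun n hn u hu => ?_⟩
  by_contra hk
  haveI : NeZero (p ^ n) := ⟨pow_ne_zero _ hp.ne_zero⟩
  have hn0 : n ≠ 0 := by
    rintro rfl
    omega
  have hcard : Nat.card (ZMod (p ^ n))ˣ = (p - 1) * p ^ (n - 1) := by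
    rw [Nat.card_eq_fintype_card, ZMod.card_units_eq_totient,
      Nat.totient_prime_pow hp (Nat.pos_of_ne_zero hn0), mul_comm]
  have ho : orderOf u ∣ (p - 1) * p ^ (n - 1) := by
    rw [← hcard]
    exact orderOf_dvd_natCard u
  have hoE : orderOf u ∣ E := dvd_pred_mul_pow_of_not_pow_dvd hp ho hk
  have h1 : u ^ E = 1 := orderOf_dvd_iff_pow_eq_one.1 hoE
  have h2 : ((m : ℕ) : ZMod (p ^ n)) = 1 := by
    have := congrArg (fun v : (ZMod (p ^ n))ˣ => (v : ZMod (p ^ n))) h1
    simp only [Units.val_pow_eq_pow_val, Units.val_one, hu] at this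
    rw [hm, Nat.cast_pow]
    exact this
  have h3 : ((m - 1 : ℕ) : ZMod (p ^ n)) = 0 := by
    rw [Nat.cast_sub (by omega), h2]
    simp
  have h4 : p ^ n ∣ m - 1 := (ZMod.natCast_eq_zero_iff _ _).1 h3
  have h5 : p ^ n ≤ m - 1 := Nat.le_of_dvd (by omega) h4
  have h6 : m < p ^ m := Nat.lt_pow_self hp.one_lt
  have h7 : p ^ m ≤ p ^ n := Nat.pow_le_pow_right hp.pos hn
  omega

end Fermat.Agent.S55.H414

end
-- ===== PACK-END S55/H414/CycloOrder.lean

-- ===== PACK-BEGIN S54/ValRing.lean
section



set_option autoImplicit false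

namespace Fermat.Agent.S54

open Polynomial

/-- Valuation subrings contain all algebraic integers. -/
theorem isIntegral_mem_valuationSubring {K : Type*} [Field K] (A : ValuationSubring K)
    {b : K} (hb : IsIntegral ℤ b) : b ∈ A := by
  have h1 : IsIntegral A.toSubring b := by
    obtain ⟨p, hp, hpb⟩ := hb
    refine ⟨p.map (algebraMap ℤ A.toSubring), hp.map _, ?_⟩
    rw [Polynomial.eval₂_map]
    have : (algebraMap A.toSubring K).comp (algebraMap ℤ A.toSubring) = algebraMap ℤ K := by
      ext; simp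
    rw [this]
    exact hpb
  have h2 := (IsIntegrallyClosed.isIntegral_iff (R := A) (K := K)).mp h1
  obtain ⟨y, hy⟩ := h2
  rw [← hy]
  exact y.2

/-- An element lying in every valuation subring is integral over `ℤ`. -/
theorem isIntegral_of_forall_mem_valuationSubring {K : Type*} [Field K] (y : K)
    (H : ∀ V : ValuationSubring K, y ∈ V) : IsIntegral ℤ y := by
  by_contra hy
  let R : Subring K := (integralClosure ℤ K).toSubring
  have hyR : y ∉ R := hy
  have : IsIntegrallyClosedIn R K := inferInstanceAs (IsIntegrallyClosedIn (integralClosure ℤ K) K)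
  obtain ⟨V, -, hV⟩ := R.exists_le_valuationSubring_of_isIntegrallyClosedIn hyR
  exact hV (H V)

theorem aeval_mem_valuationSubring {K : Type*} [Field K] (V : ValuationSubring K) {x : K}
    (hx : x ∈ V) (q : ℤ[X]) : aeval x q ∈ V := by
  induction q using Polynomial.induction_on with
  | C a => simp
  | add p q hp hq => rw [map_add]; exact V.add_mem _ _ hp hq
  | monomial n a h =>
    rw [pow_succ, ← mul_assoc, map_mul, aeval_X]
    exact V.mul_mem _ _ h hx

theorem coeff_iterate_divX (p : ℤ[X]) (r n : ℕ) :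
    ((divX^[r]) p).coeff n = p.coeff (n + r) := by
  induction r generalizing n with
  | zero => simp
  | succ r ih =>
    rw [Function.iterate_succ_apply', coeff_divX, ih]
    congr 1
    ring

/-- The Horner recursion for the tails `divX^[r] p` of a polynomial. -/
theorem aeval_iterate_divX {K : Type*} [Field K] (x : K) (p : ℤ[X]) (r : ℕ) :
    aeval x ((divX^[r]) p) = aeval x ((divX^[r + 1]) p) * x + (p.coeff r : K) := by
  conv_lhs => rw [← divX_mul_X_add ((divX^[r]) p)]
  rw [map_add, map_mul, aeval_X, aeval_C, coeff_iterate_divX, zero_add,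
    Function.iterate_succ_apply']
  simp

/-- The Horner tails of an integer polynomial killing `x` lie in every valuation subring. -/
theorem horner_mem_valuationSubring {K : Type*} [Field K] (x : K) (p : ℤ[X])
    (hp : aeval x p = 0) (V : ValuationSubring K) (r : ℕ) :
    aeval x ((divX^[r]) p) ∈ V := by
  rcases V.mem_or_inv_mem x with hx | hx
  · exact aeval_mem_valuationSubring V hx _
  · induction r with
    | zero => simp [hp]
    | succ r ih =>
      have h := aeval_iterate_divX x p r
      by_cases hx0 : x = 0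
      · exact aeval_mem_valuationSubring V (hx0 ▸ V.zero_mem) _
      have : aeval x ((divX^[r + 1]) p) = x⁻¹ * (aeval x ((divX^[r]) p) - (p.coeff r : K)) := by
        rw [h]; field_simp; ring
      rw [this]
      exact V.mul_mem _ _ hx (sub_mem ih (intCast_mem V _))

theorem horner_isIntegral {K : Type*} [Field K] (x : K) (p : ℤ[X])
    (hp : aeval x p = 0) (r : ℕ) :
    IsIntegral ℤ (aeval x ((divX^[r]) p)) :=
  isIntegral_of_forall_mem_valuationSubring _ fun V => horner_mem_valuationSubring x p hp V r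

theorem horner_mul_isIntegral {K : Type*} [Field K] (x : K) (p : ℤ[X])
    (hp : aeval x p = 0) (r : ℕ) :
    IsIntegral ℤ (x * aeval x ((divX^[r + 1]) p)) := by
  have h := aeval_iterate_divX x p r
  have : x * aeval x ((divX^[r + 1]) p) = aeval x ((divX^[r]) p) - (p.coeff r : K) := by
    rw [h]; ring
  rw [this]
  exact (horner_isIntegral x p hp r).sub isIntegral_algebraMap

/-- An integer which is a non-unit of a valuation subring over `ℓ` is divisible by `ℓ`. -/
theorem dvd_of_intCast_mem_nonunits {K : Type*} [Field K] (A : ValuationSubring K) (ℓ : ℕ)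
    (hℓ : ℓ.Prime) (hA : A.LiesOverPrime ℓ) (a : ℤ) (ha : (a : K) ∈ A.nonunits) :
    (ℓ : ℤ) ∣ a := by
  by_contra hdvd
  have hcop : IsCoprime (ℓ : ℤ) a :=
    (Nat.prime_iff_prime_int.mp hℓ).coprime_iff_not_dvd.mpr hdvd
  obtain ⟨u, v, huv⟩ := hcop
  have h1 : ((u * ℓ + v * a : ℤ) : K) ∈ A.nonunits := by
    push_cast
    refine A.nonunits.add_mem ?_ ?_
    · obtain ⟨h1, h2⟩ := ValuationSubring.mem_nonunits_iff_exists_mem_maximalIdeal.mp hA
      have := Ideal.mul_mem_left _ (⟨(u : K), intCast_mem A u⟩ : A) h2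
      exact ValuationSubring.mem_nonunits_iff_exists_mem_maximalIdeal.mpr ⟨_, this⟩
    · obtain ⟨h1, h2⟩ := ValuationSubring.mem_nonunits_iff_exists_mem_maximalIdeal.mp ha
      have := Ideal.mul_mem_left _ (⟨(v : K), intCast_mem A v⟩ : A) h2
      exact ValuationSubring.mem_nonunits_iff_exists_mem_maximalIdeal.mpr ⟨_, this⟩
  rw [huv, ValuationSubring.mem_nonunits_iff] at h1
  simp at h1

/-- (4b) A valuation subring over `ℓ` of an algebraic extension of `ℚ` is the localisation of
the ring of algebraic integers at the prime below it. -/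
theorem mem_valuationSubring_iff {K : Type*} [Field K] [CharZero K] [Algebra.IsAlgebraic ℚ K]
    (A : ValuationSubring K) (ℓ : ℕ)
    (hℓ : ℓ.Prime) (hA : A.LiesOverPrime ℓ) (x : K) :
    x ∈ A ↔ ∃ b s, IsIntegral ℤ b ∧ IsIntegral ℤ s ∧ s ∉ A.nonunits ∧ x * s = b := by
  constructor
  · intro hx
    -- a primitive integer polynomial killing `x`
    have halg : IsAlgebraic ℤ x :=
      (IsFractionRing.isAlgebraic_iff ℤ ℚ K).mpr (Algebra.IsAlgebraic.isAlgebraic x)
    obtain ⟨f, hf0, hfx⟩ := halg
    set p := f.primPart with hp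
    have hpprim : p.IsPrimitive := f.isPrimitive_primPart
    have hpx : aeval x p = 0 := by
      have h1 : f = C f.content * p := f.eq_C_content_mul_primPart
      rw [h1, map_mul, aeval_C] at hfx
      rcases mul_eq_zero.mp hfx with h | h
      · exfalso
        have : f.content = 0 := by simpa using h
        exact hf0 (Polynomial.content_eq_zero_iff.mp this)
      · exact h
    -- some coefficient is not in the maximal ideal
    have hcoeff : ∃ i, ((p.coeff i : ℤ) : K) ∉ A.nonunits := by
      by_contra hcon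
      push Not at hcon
      have hdvd : C (ℓ : ℤ) ∣ p := by
        rw [Polynomial.C_dvd_iff_dvd_coeff]
        intro i
        exact dvd_of_intCast_mem_nonunits A ℓ hℓ hA _ (hcon i)
      have hu := hpprim _ hdvd
      rw [Int.isUnit_iff] at hu
      have := hℓ.one_lt
      omega
    -- some Horner tail is a unit
    have hex : ∃ r, aeval x ((divX^[r + 1]) p) ∉ A.nonunits := by
      by_contra hcon
      push Not at hcon
      obtain ⟨i, hi⟩ := hcoeff
      apply hi
      have h := aeval_iterate_divX x p i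
      have h2 : ((p.coeff i : ℤ) : K) =
          aeval x ((divX^[i]) p) - aeval x ((divX^[i + 1]) p) * x := by
        rw [h]; ring
      rw [h2]
      have hmul : aeval x ((divX^[i + 1]) p) * x ∈ A.nonunits := by
        obtain ⟨h1, h2⟩ := ValuationSubring.mem_nonunits_iff_exists_mem_maximalIdeal.mp (hcon i)
        have := Ideal.mul_mem_right (⟨x, hx⟩ : A) _ h2
        exact ValuationSubring.mem_nonunits_iff_exists_mem_maximalIdeal.mpr ⟨_, this⟩
      refine A.nonunits.sub_mem ?_ hmul
      rcases i with _ | i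
      · simp [hpx, A.nonunits.zero_mem]
      · exact hcon i
    obtain ⟨r, hr⟩ := hex
    exact ⟨x * aeval x ((divX^[r + 1]) p), aeval x ((divX^[r + 1]) p),
      horner_mul_isIntegral x p hpx r, horner_isIntegral x p hpx (r + 1), hr, rfl⟩
  · rintro ⟨b, s, hb, hs, hsA, hxs⟩
    have hbA : b ∈ A := isIntegral_mem_valuationSubring A hb
    have hs0 : s ≠ 0 := fun h => hsA (h ▸ A.nonunits.zero_mem)
    have hsinv : s⁻¹ ∈ A := by
      by_contra h
      exact hsA (A.mem_nonunits_iff_or.mpr (Or.inr h))
    have : x = b * s⁻¹ := by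
      rw [← hxs]; field_simp
    rw [this]
    exact A.mul_mem _ _ hbA hsinv

end Fermat.Agent.S54

end
-- ===== PACK-END S54/ValRing.lean

-- ===== PACK-BEGIN Lib/Cheb/Spec.lean
section



/-!
# Shared library CHEB — frozen interface statements

Tier 1 ("FROB", Frobenius' density theorem, qualitative): every `σ ∈ Gal(ℚ̄/ℚ)` generates, on any
finite extension, the same cyclic group as some Frobenius element at a prime outside a given
finite set.  Needs only the simple pole of Dedekind zeta functions.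

Tier 2 (exact qualitative Chebotarev): `σ` itself is a Frobenius.  Needs Dirichlet `L`-series
over number fields (statement `CycStatement`).

All blocks prove one of the `Prop`s below, e.g. `theorem primeSum : Spec.PrimeSumStatement`.
Plan, owners, status: `coord/CHEB.md` on branch `origin/helper993`.
-/

set_option autoImplicit false

open NumberField
open scoped Pointwise

namespace Fermat.Agent.Lib.Cheb.Spec

/-- `ℚ̄`. -/
abbrev Qb : Type := AlgebraicClosure ℚ

/-- `Gal(ℚ̄/ℚ)`. -/
abbrev GQ : Type := Qb ≃ₐ[ℚ] Qb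

/-- Number of prime ideals of `𝓞 F` of absolute norm `p` (the degree-one primes above `p`). -/
noncomputable def primeCount (F : Type) [Field F] [NumberField F] (p : ℕ) : ℕ :=
  Nat.card {𝔮 : Ideal (𝓞 F) // 𝔮.IsPrime ∧ Ideal.absNorm 𝔮 = p}

/-- The decomposition group of a prime `P` of `𝓞 L` in `Gal(L/ℚ)`. -/
abbrev decomp (L : Type) [Field L] [NumberField L] (P : Ideal (𝓞 L)) :
    Subgroup (L ≃ₐ[ℚ] L) :=
  MulAction.stabilizer (L ≃ₐ[ℚ] L) P

/-- The primes `P` of `𝓞 L` above `p` whose decomposition group is contained in `H`. -/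
def primesLe (L : Type) [Field L] [NumberField L] (H : Subgroup (L ≃ₐ[ℚ] L)) (p : ℕ) :
    Set (Ideal (𝓞 L)) :=
  {P | P.IsPrime ∧ (p : 𝓞 L) ∈ P ∧ decomp L P ≤ H}

/-- `∑_{P ∣ p, D_P ≤ H} |D_P|`. -/
noncomputable def decompWeight (L : Type) [Field L] [NumberField L]
    (H : Subgroup (L ≃ₐ[ℚ] L)) (p : ℕ) : ℕ :=
  ∑ᶠ P : primesLe L H p, Nat.card (decomp L P.1)

/-- The inertia group of `P` is trivial. -/
def InertiaTrivial (L : Type) [Field L] [NumberField L] (P : Ideal (𝓞 L)) : Prop :=
  ∀ ι : L ≃ₐ[ℚ] L, (∀ x : 𝓞 L, ι • x - x ∈ P) → ι = 1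

/-! ## Tier 1 -/

/-- (Z) = F1 = W1: prime sums of degree-one primes, any number field. -/
def PrimeSumStatement : Prop :=
  ∀ (F : Type) [Field F] [NumberField F], ∃ C : ℝ, ∀ s : ℝ, 1 < s → s ≤ 2 →
    |(∑' p : Nat.Primes, (primeCount F p : ℝ) * (p : ℝ) ^ (-s)) - Real.log (1 / (s - 1))| ≤ C

/-- (B0): at most `[F:ℚ]` primes of norm `p`. -/
def PrimeCountBoundStatement : Prop :=
  ∀ (F : Type) [Field F] [NumberField F] (p : ℕ), primeCount F p ≤ Module.finrank ℚ F

/-- (A) = F2+F3: degree-one primes of the fixed field `L^H` versus decomposition groups. -/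
def CountStatement : Prop :=
  ∀ (L : Type) [Field L] [NumberField L] [IsGalois ℚ L] (H : Subgroup (L ≃ₐ[ℚ] L)),
    ∃ B : Finset ℕ, ∀ p : ℕ, p.Prime → p ∉ B →
      primeCount (IntermediateField.fixedField H) p * Nat.card H = decompWeight L H p

/-- (D) = F5: outside a finite set of primes the decomposition group is generated by an
arithmetic Frobenius and the inertia group is trivial. -/
def FrobStatement : Prop :=
  ∀ (L : Type) [Field L] [NumberField L] [IsGalois ℚ L],
    ∃ B : Finset ℕ, ∀ p : ℕ, p.Prime → p ∉ B →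
      ∀ P : Ideal (𝓞 L), P.IsPrime → (p : 𝓞 L) ∈ P →
        InertiaTrivial L P ∧
        ∃ τ : L ≃ₐ[ℚ] L, IsArithFrobAt ℤ τ P ∧ decomp L P = Subgroup.zpowers τ

/-- (M) = F4: finite-level Frobenius density theorem (qualitative). -/
def FrobFiniteStatement : Prop :=
  ∀ (L : Type) [Field L] [NumberField L] [IsGalois ℚ L] (σ : L ≃ₐ[ℚ] L) (S : Finset ℕ),
    ∃ (p : ℕ) (P : Ideal (𝓞 L)) (τ : L ≃ₐ[ℚ] L),
      p.Prime ∧ p ∉ S ∧ P.IsPrime ∧ (p : 𝓞 L) ∈ P ∧ InertiaTrivial L P ∧
      IsArithFrobAt ℤ τ P ∧ Subgroup.zpowers τ = Subgroup.zpowers σ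

/-- FROB, Prelude level: on every finite extension `E` of `ℚ` inside `ℚ̄`, `σ` and some Frobenius
element `τ` (at a prime `ℓ ∉ S`, with inertia acting trivially on `E`) are powers of each other. -/
def FrobeniusDivisionStatement : Prop :=
  ∀ (E : IntermediateField ℚ Qb), FiniteDimensional ℚ E → ∀ (σ : GQ) (S : Finset ℕ),
    ∃ (ℓ : ℕ) (A : ValuationSubring Qb) (τ : GQ) (k j : ℕ),
      ℓ.Prime ∧ ℓ ∉ S ∧ A.LiesOverPrime ℓ ∧ A.IsFrobeniusAt τ ℓ ∧
      (∀ ι ∈ A.inertiaSubgroupIn ℚ, ∀ x ∈ E, ι x = x) ∧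
      (∀ x ∈ E, τ x = (σ ^ k) x) ∧ (∀ x ∈ E, (τ ^ j) x = σ x)

/-- F6 = W5 (bridge), Tier 1. -/
def BridgeDivisionStatement : Prop :=
  FrobFiniteStatement → FrobeniusDivisionStatement

/-! ## Tier 2 -/

/-- Number of ideals of `𝓞 F` of absolute norm `n`. -/
noncomputable def idealCount (F : Type) [Field F] [NumberField F] (n : ℕ) : ℕ :=
  Nat.card {I : Ideal (𝓞 F) // Ideal.absNorm I = n}

/-- (AN) analytic core of Tier 2: for a Dirichlet character `χ` mod `m` such that `χ ∘ N` is not
trivial on the ideals of `𝓞 F` prime to `m`, the series `L_F(s, χ ∘ N) = ∑_I χ(N I) N I ^ (-s)`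
has a limit as `s → 1⁺`. -/
def DirichletLimitStatement : Prop :=
  ∀ (F : Type) [Field F] [NumberField F] (m : ℕ) [NeZero m] (χ : DirichletCharacter ℂ m),
    (∃ I : Ideal (𝓞 F), χ (Ideal.absNorm I : ZMod m) ≠ 0 ∧ χ (Ideal.absNorm I : ZMod m) ≠ 1) →
    ∃ c : ℂ, Filter.Tendsto
      (fun s : ℝ => LSeries (fun n => χ (n : ZMod m) * (idealCount F n : ℂ)) (s : ℂ))
      (nhdsWithin 1 (Set.Ioi 1)) (nhds c)

/-- (CYC) cyclotomic case, stated inside a Galois number field `L ∋ ζ_m`: if the cyclic group
`⟨g⟩` acts faithfully on `ζ`, then `g` is an arithmetic Frobenius at a prime outside `S`. -/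
def CycStatement : Prop :=
  ∀ (L : Type) [Field L] [NumberField L] [IsGalois ℚ L] (m : ℕ) (ζ : L), 0 < m →
    IsPrimitiveRoot ζ m → ∀ g : L ≃ₐ[ℚ] L, (∀ k : ℕ, (g ^ k) ζ = ζ → g ^ k = 1) →
    ∀ S : Finset ℕ, ∃ (p : ℕ) (P : Ideal (𝓞 L)),
      p.Prime ∧ p ∉ S ∧ P.IsPrime ∧ (p : 𝓞 L) ∈ P ∧ InertiaTrivial L P ∧ IsArithFrobAt ℤ g P

/-- Finite-level qualitative Chebotarev. -/
def ChebFiniteStatement : Prop :=
  ∀ (L : Type) [Field L] [NumberField L] [IsGalois ℚ L] (σ : L ≃ₐ[ℚ] L) (S : Finset ℕ),
    ∃ (p : ℕ) (P : Ideal (𝓞 L)),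
      p.Prime ∧ p ∉ S ∧ P.IsPrime ∧ (p : 𝓞 L) ∈ P ∧ InertiaTrivial L P ∧ IsArithFrobAt ℤ σ P

/-- (CROSS) field crossing (may use (D) to discard ramified primes). -/
def CrossStatement : Prop :=
  FrobStatement → CycStatement → ChebFiniteStatement

/-- Qualitative Chebotarev, Prelude level. -/
def ChebotarevStatement : Prop :=
  ∀ (E : IntermediateField ℚ Qb), FiniteDimensional ℚ E → ∀ (σ : GQ) (S : Finset ℕ),
    ∃ (ℓ : ℕ) (A : ValuationSubring Qb) (τ : GQ),
      ℓ.Prime ∧ ℓ ∉ S ∧ A.LiesOverPrime ℓ ∧ A.IsFrobeniusAt τ ℓ ∧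
      (∀ ι ∈ A.inertiaSubgroupIn ℚ, ∀ x ∈ E, ι x = x) ∧ (∀ x ∈ E, τ x = σ x)

/-- Bridge, Tier 2. -/
def BridgeStatement : Prop :=
  ChebFiniteStatement → ChebotarevStatement

end Fermat.Agent.Lib.Cheb.Spec

end
-- ===== PACK-END Lib/Cheb/Spec.lean

-- ===== PACK-BEGIN Lib/Cheb/H764/Orbit.lean
section


/-!
# CHEB / piece A: decomposition groups and primes of a fixed field (orbit count)

Abstract setting: `R ⊆ T ⊆ S` Dedekind-like rings, `G` a finite Galois group of `S/R`,
`H ≤ G` a Galois group of `S/T`.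
-/

set_option autoImplicit false
set_option linter.unusedSectionVars false

namespace Fermat.Agent.Lib.Cheb.H764

open Ideal MulAction
open scoped Pointwise

section abstract

variable {R T S : Type*} [CommRing R] [CommRing T] [CommRing S]
  [IsDomain R] [IsDomain T] [IsDomain S]
  [Algebra R T] [Algebra T S] [Algebra R S] [IsScalarTower R T S]
  [Module.Finite R S] [Module.Finite T S]
  [Module.Flat R S] [Module.Flat T S]
  {G : Type*} [Group G] [Finite G] [MulSemiringAction G S] [IsGaloisGroup G R S]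
  (H : Subgroup G) [IsGaloisGroup H T S]

/-- the stabilizer in the subgroup is the intersection with the subgroup -/
lemma stabilizer_subgroup_eq (Q : Ideal S) :
    stabilizer H Q = (stabilizer G Q).subgroupOf H := by
  ext h
  simp [Subgroup.mem_subgroupOf, Subgroup.smul_def]

lemma card_stabilizer_eq_mul (p : Ideal R) [p.IsPrime] [PerfectField p.ResidueField]
    (Q : Ideal S) [Q.IsPrime] [Q.LiesOver p] :
    Nat.card (stabilizer G Q) = Q.ramificationIdx R * Q.inertiaDeg R := by
  rw [Ideal.card_stabilizer_eq (G := G) p Q, ramificationIdxIn_eq_ramificationIdx p Q G,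
    inertiaDegIn_eq_inertiaDeg p Q G]

/-- `|D_Q(G)| = e(𝔮|p) f(𝔮|p) |D_Q(H)|` for `𝔮 = Q ∩ T`. -/
lemma card_stabilizer_eq_mul_card_stabilizer (p : Ideal R) [p.IsPrime]
    [PerfectField p.ResidueField]
    (q : Ideal T) [q.IsPrime] [q.LiesOver p] [PerfectField q.ResidueField]
    (Q : Ideal S) [Q.IsPrime] [Q.LiesOver q] [Q.LiesOver p] :
    Nat.card (stabilizer G Q) =
      (q.ramificationIdx R * q.inertiaDeg R) * Nat.card (stabilizer H Q) := by
  have h1 : Nat.card (stabilizer H Q) = Q.ramificationIdx T * Q.inertiaDeg T :=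
    card_stabilizer_eq_mul (G := H) q Q
  rw [card_stabilizer_eq_mul (G := G) p Q, h1,
    ramificationIdx_tower (R := R) q Q, inertiaDeg_tower (R := R) q Q]
  ring

lemma card_subgroupOf_eq_iff (A B : Subgroup G) :
    Nat.card (A.subgroupOf B) = Nat.card A ↔ A ≤ B := by
  constructor
  · intro h
    have h1 : Nat.card (A.subgroupOf B) = Nat.card (A ⊓ B : Subgroup G) := by
      rw [← Subgroup.inf_subgroupOf_right]
      exact Nat.card_congr (Subgroup.subgroupOfEquivOfLe inf_le_right).toEquiv
    rw [h1] at h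
    have h2 : (A ⊓ B : Subgroup G) = A :=
      Subgroup.eq_of_le_of_card_ge inf_le_left h.ge
    rw [← h2]
    exact inf_le_right
  · intro h
    exact Nat.card_congr (Subgroup.subgroupOfEquivOfLe h).toEquiv

/-- `e(𝔮|p) f(𝔮|p) = 1` iff the decomposition group of `Q` is contained in `H`. -/
lemma ramificationIdx_mul_inertiaDeg_eq_one_iff (p : Ideal R) [p.IsPrime]
    [PerfectField p.ResidueField]
    (q : Ideal T) [q.IsPrime] [q.LiesOver p] [PerfectField q.ResidueField]
    (Q : Ideal S) [Q.IsPrime] [Q.LiesOver q] [Q.LiesOver p] :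
    q.ramificationIdx R * q.inertiaDeg R = 1 ↔ stabilizer G Q ≤ H := by
  have key := card_stabilizer_eq_mul_card_stabilizer H p q Q
  have hpos : 0 < Nat.card (stabilizer H Q) := Nat.card_pos
  rw [stabilizer_subgroup_eq H Q] at key hpos
  rw [← card_subgroupOf_eq_iff]
  constructor
  · intro h
    rw [key, h, one_mul]
  · intro h
    rw [← h] at key
    have h3 : 1 * Nat.card ((stabilizer G Q).subgroupOf H) =
        (q.ramificationIdx R * q.inertiaDeg R) * Nat.card ((stabilizer G Q).subgroupOf H) := by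
      rw [one_mul]; exact key
    exact (Nat.eq_of_mul_eq_mul_right hpos h3).symm

/-- orbit-stabilizer for the primes above `p` -/
lemma ncard_primesOver_mul_card_stabilizer_aux
    (p : Ideal R) [p.IsPrime] (P : Ideal S) [P.IsPrime] [P.LiesOver p] :
    (p.primesOver S).ncard * Nat.card (stabilizer G P) = Nat.card G := by
  rw [← Algebra.IsInvariant.orbit_eq_primesOver R S G p P]
  simpa using Nat.card_congr (MulAction.orbitProdStabilizerEquivGroup G P)

/-- the number of primes of `S` above `𝔮` times the order of the decomposition group in `H` -/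
lemma ncard_primesOver_mul_card_stabilizer
    (q : Ideal T) [q.IsPrime] (Q : Ideal S) [Q.IsPrime] [Q.LiesOver q] :
    (q.primesOver S).ncard * Nat.card (stabilizer H Q) = Nat.card H :=
  ncard_primesOver_mul_card_stabilizer_aux (G := H) q Q

/-- inner sum of the orbit count: the primes of `S` above a prime `𝔮` of `T` with `e f = 1`
contribute `|H|`. -/
lemma finsum_card_stabilizer_primesOver (p : Ideal R) [p.IsPrime] [PerfectField p.ResidueField]
    (q : Ideal T) [q.IsPrime] [q.LiesOver p] [PerfectField q.ResidueField]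
    (hq : q.ramificationIdx R * q.inertiaDeg R = 1) (hfin : (q.primesOver S).Finite)
    (hne : (q.primesOver S).Nonempty) :
    ∑ᶠ Q ∈ q.primesOver S, Nat.card (stabilizer G Q) = Nat.card H := by
  classical
  have key : ∀ Q ∈ q.primesOver S,
      (q.primesOver S).ncard * Nat.card (stabilizer G Q) = Nat.card H := by
    intro Q hQ
    haveI : Q.IsPrime := hQ.1
    haveI : Q.LiesOver q := hQ.2
    haveI : Q.LiesOver p := LiesOver.trans Q q p
    rw [card_stabilizer_eq_mul_card_stabilizer H p q Q, hq, one_mul]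
    exact ncard_primesOver_mul_card_stabilizer H q Q
  have hn : 0 < (q.primesOver S).ncard := (Set.ncard_pos hfin).mpr hne
  have hconst : ∀ Q ∈ q.primesOver S,
      Nat.card (stabilizer G Q) = Nat.card H / (q.primesOver S).ncard := by
    intro Q hQ
    rw [← key Q hQ, Nat.mul_div_cancel_left _ hn]
  rw [finsum_mem_congr rfl hconst, finsum_mem_eq_finite_toFinset_sum _ hfin, Finset.sum_const,
    smul_eq_mul, ← Set.ncard_eq_toFinset_card _ hfin]
  obtain ⟨Q, hQ⟩ := hne
  rw [← hconst Q hQ]
  exact key Q hQ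

end abstract

end Fermat.Agent.Lib.Cheb.H764

end
-- ===== PACK-END Lib/Cheb/H764/Orbit.lean

-- ===== PACK-BEGIN S22/H262/EasyCases.lean
section




set_option autoImplicit false

/-!
# S22: cusp forms of weight `k ≤ 1` on `Γ₀(N)` vanish.
-/

namespace Fermat.Agent.S22.H262

open CuspForm UpperHalfPlane
open scoped MatrixGroups

/-- Cusp forms of non-positive weight on `Γ₀(N)` vanish (Sturm bound from the prelude). -/
theorem cuspForm_eq_zero_of_nonpos {N : ℕ} [NeZero N] {k : ℤ} (hk : k ≤ 0)
    (f : CuspForm (CongruenceSubgroup.Gamma0 N) k) : f = 0 := by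
  have h0 : (CuspForm.toModularFormₗ f) = 0 := by
    apply ModularForm.sturm_bound_Gamma0 N
    intro n hn
    have hz : (k * ((CongruenceSubgroup.Gamma0 N).index : ℤ)).toNat = 0 := by
      rw [Int.toNat_eq_zero]
      exact mul_nonpos_of_nonpos_of_nonneg hk (by positivity)
    rw [hz, Nat.zero_div, Nat.le_zero] at hn
    subst hn
    exact CuspFormClass.qExpansion_coeff_zero (f := f) one_pos
      (CongruenceSubgroup.one_mem_strictPeriods_Gamma0 N)
  exact CuspForm.toModularFormₗ_injective (by rw [h0, map_zero])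

/-- Cusp forms of odd weight on `Γ₀(N)` vanish, since `-1 ∈ Γ₀(N)`. -/
theorem cuspForm_eq_zero_of_odd {N : ℕ} {k : ℤ} (hk : Odd k)
    (f : CuspForm (CongruenceSubgroup.Gamma0 N) k) : f = 0 := by
  have hmem : (-1 : GL (Fin 2) ℝ) ∈
      (Subgroup.map (Matrix.SpecialLinearGroup.mapGL ℝ) (CongruenceSubgroup.Gamma0 N)) := by
    refine ⟨-1, ?_, ?_⟩
    · simp [CongruenceSubgroup.Gamma0_mem]
    · ext i j
      simp
  have h0 : (CuspForm.toModularFormₗ f) = 0 :=
    ModularForm.eq_zero_of_neg_one_mem hmem hk _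
  exact CuspForm.toModularFormₗ_injective (by rw [h0, map_zero])

/-- Cusp forms of weight `k ≤ 1` on `Γ₀(N)` vanish. -/
theorem cuspForm_eq_zero_of_le_one {N : ℕ} [NeZero N] {k : ℤ} (hk : k ≤ 1)
    (f : CuspForm (CongruenceSubgroup.Gamma0 N) k) : f = 0 := by
  rcases hk.lt_or_eq with h | h
  · exact cuspForm_eq_zero_of_nonpos (by omega) f
  · exact cuspForm_eq_zero_of_odd (by rw [h]; exact odd_one) f

end Fermat.Agent.S22.H262

end
-- ===== PACK-END S22/H262/EasyCases.lean

-- ===== PACK-BEGIN S22/H262/Prim.lean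
section


set_option autoImplicit false

/-!
# Primitive towers on the upper half plane

For a holomorphic periodic function `h` on `ℍ` vanishing at `i∞` we construct the tower
`E 0 = h`, `(E (r+1))' = E r`, with every `E (r+1)` vanishing at `i∞`, and prove uniqueness.
(The one-step primitive lemma is due to helper502.)
-/

open Complex Filter Function Metric Set
open UpperHalfPlane hiding I
open scoped Real Topology Manifold

namespace Fermat.Agent.S22.H262

/-- One-step primitive: a holomorphic `h`-periodic function on `ℍ` that is zero at `i∞` has a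
holomorphic `h`-periodic primitive that is zero at `i∞`. -/
theorem exists_primitive_isZeroAtImInfty {f : ℍ → ℂ} {h : ℝ} (hh : 0 < h)
    (hfper : Periodic (f ∘ ofComplex) h) (hfhol : MDiff f) (hfzero : IsZeroAtImInfty f) :
    ∃ F : ℍ → ℂ, Periodic (F ∘ ofComplex) h ∧ MDiff F ∧ IsZeroAtImInfty F ∧
      ∀ τ : ℍ, HasDerivAt (F ∘ ofComplex) (f τ) (τ : ℂ) := by
  set φ := cuspFunction h f with hφ
  have hφd : DifferentiableOn ℂ φ (ball 0 1) :=
    differentiableOn_cuspFunction_ball hh hfper hfhol hfzero.isBoundedAtImInfty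
  have hφ0 : φ 0 = 0 := hfzero.cuspFunction_apply_zero hh
  have hball : ball (0 : ℂ) 1 ∈ 𝓝 (0 : ℂ) := ball_mem_nhds _ one_pos
  have hψd : DifferentiableOn ℂ (dslope φ 0) (ball 0 1) :=
    (differentiableOn_dslope hball).2 hφd
  obtain ⟨Ψ, hΨ0, hΨ⟩ := (hψd.isExactOn_ball).with_val_at 0 0
  have hq : ∀ z : ℂ, 0 < z.im → Periodic.qParam h z ∈ ball (0 : ℂ) 1 := fun z hz ↦ by
    simpa using Periodic.norm_qParam_lt_one hh hz
  -- the primitive as a function on `ℂ`
  set G : ℂ → ℂ := fun z ↦ (h / (2 * π * I)) * Ψ (Periodic.qParam h z) with hG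
  have hGderiv : ∀ τ : ℍ, HasDerivAt G (f τ) (τ : ℂ) := by
    intro τ
    have hqτ := hq τ τ.im_pos
    have h1 : HasDerivAt (Periodic.qParam h) (Periodic.qParam h τ * (2 * π * I / h)) (τ : ℂ) := by
      simpa only [id_eq, mul_one] using!
        (((hasDerivAt_id (τ : ℂ)).const_mul (2 * π * I)).div_const (h : ℂ)).cexp
    have h2 := (hΨ _ hqτ).comp (τ : ℂ) h1
    have h3 := h2.const_mul ((h : ℂ) / (2 * π * I))
    have hne : Periodic.qParam h (τ : ℂ) ≠ 0 := Periodic.qParam_ne_zero _
    have hval : (h : ℂ) / (2 * π * I) *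
        (dslope φ 0 (Periodic.qParam h τ) * (Periodic.qParam h τ * (2 * π * I / h))) = f τ := by
      rw [dslope_of_ne _ hne, slope_def_field, hφ0, sub_zero, sub_zero]
      have hh' : (h : ℂ) ≠ 0 := by exact_mod_cast hh.ne'
      have : φ (Periodic.qParam h τ) = f τ := eq_cuspFunction τ hh.ne' hfper
      rw [this]
      field_simp [two_pi_I_ne_zero]
    rw [← hval]
    exact h3
  refine ⟨fun τ ↦ G τ, ?_, ?_, ?_, ?_⟩
  · intro w
    by_cases hw : 0 < im w
    · have hw' : 0 < im (w + h) := by simpa using hw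
      simp only [comp_apply, ofComplex_apply_of_im_pos hw', ofComplex_apply_of_im_pos hw, hG]
      congr 2
      simp only [Periodic.qParam]
      have hh' : (h : ℂ) ≠ 0 := by exact_mod_cast hh.ne'
      rw [show 2 * π * I * (w + h) / h = 2 * π * I * w / h + 2 * π * I by field_simp,
        Complex.exp_add, Complex.exp_two_pi_mul_I, mul_one]
    · have hw' : im (w + h) ≤ 0 := by simpa using not_lt.mp hw
      simp [ofComplex_apply_of_im_nonpos hw', ofComplex_apply_of_im_nonpos (not_lt.mp hw)]
  · rw [UpperHalfPlane.mdifferentiable_iff]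
    intro z hz
    have := hGderiv ⟨z, hz⟩
    refine (this.differentiableAt.differentiableWithinAt).congr ?_ ?_
    · intro w hw
      simp [ofComplex_apply_of_im_pos hw]
    · simp [ofComplex_apply_of_im_pos hz]
  · have hΨc : ContinuousAt Ψ 0 := (hΨ 0 (mem_ball_self one_pos)).continuousAt
    have h1 : Tendsto (fun τ : ℍ ↦ Ψ (Periodic.qParam h τ)) atImInfty (𝓝 0) := by
      have := hΨc.tendsto.comp (qParam_tendsto_atImInfty hh)
      rwa [hΨ0] at this
    have h2 := h1.const_mul ((h : ℂ) / (2 * π * I))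
    rw [mul_zero] at h2
    exact h2
  · intro τ
    refine (hGderiv τ).congr_of_eventuallyEq ?_
    have hopen : {z : ℂ | 0 < z.im} ∈ 𝓝 (τ : ℂ) :=
      (isOpen_lt continuous_const Complex.continuous_im).mem_nhds τ.im_pos
    filter_upwards [hopen] with z hz
    simp [ofComplex_apply_of_im_pos hz]

/-- A *primitive tower* of `h`: `E 0 = h`, `E (r+1)` is a primitive of `E r` on `ℍ`
which vanishes at `i∞`. -/
structure IsTower (h : ℍ → ℂ) (E : ℕ → ℍ → ℂ) : Prop where
  zero : E 0 = h
  hasDeriv : ∀ (r : ℕ) (z : ℍ), HasDerivAt (E (r + 1) ∘ ofComplex) (E r z) (z : ℂ)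
  isZero : ∀ r : ℕ, IsZeroAtImInfty (E (r + 1))

/-- A function on `ℍ` with vanishing derivative everywhere is constant. -/
theorem const_of_hasDerivAt_zero {D : ℍ → ℂ}
    (hD : ∀ z : ℍ, HasDerivAt (D ∘ ofComplex) 0 (z : ℂ)) (z w : ℍ) : D z = D w := by
  have hopen : IsOpen {z : ℂ | 0 < z.im} := isOpen_lt continuous_const Complex.continuous_im
  have hconv : Convex ℝ {z : ℂ | 0 < z.im} := by
    intro x hx y hy a b ha hb hab
    simp only [Set.mem_ofPred_eq, add_im, smul_im] at *
    rcases ha.eq_or_lt with rfl | ha'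
    · simp only [zero_add] at hab
      subst hab
      simpa using hy
    · have : 0 < a * x.im := mul_pos ha' hx
      have : 0 ≤ b * y.im := mul_nonneg hb hy.le
      simpa using by linarith
  have hdiff : DifferentiableOn ℂ (D ∘ ofComplex) {z : ℂ | 0 < z.im} := fun z hz =>
    (hD ⟨z, hz⟩).differentiableAt.differentiableWithinAt
  have hderiv : EqOn (deriv (D ∘ ofComplex)) 0 {z : ℂ | 0 < z.im} := fun z hz =>
    (hD ⟨z, hz⟩).deriv
  have := hopen.is_const_of_deriv_eq_zero hconv.isPreconnected hdiff hderiv z.im_pos w.im_pos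
  simpa using this

/-- A function on `ℍ` with vanishing derivative which tends to zero at `i∞` is zero. -/
theorem eq_zero_of_hasDerivAt_zero_of_isZero {D : ℍ → ℂ}
    (hD : ∀ z : ℍ, HasDerivAt (D ∘ ofComplex) 0 (z : ℂ)) (h0 : IsZeroAtImInfty D) : D = 0 := by
  funext z
  have hconst : D = fun _ => D z := funext fun w => const_of_hasDerivAt_zero hD w z
  have h1 : Tendsto D atImInfty (𝓝 0) := h0
  have h2 : Tendsto D atImInfty (𝓝 (D z)) := by
    conv => enter [1]; rw [hconst]
    exact tendsto_const_nhds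
  exact tendsto_nhds_unique h2 h1

theorem IsTower.unique {h : ℍ → ℂ} {E E' : ℕ → ℍ → ℂ} (hE : IsTower h E) (hE' : IsTower h E') :
    E = E' := by
  funext r
  induction r with
  | zero => rw [hE.zero, hE'.zero]
  | succ r ih =>
    have hD : ∀ z : ℍ, HasDerivAt ((E (r + 1) - E' (r + 1)) ∘ ofComplex) 0 (z : ℂ) := by
      intro z
      have := (hE.hasDeriv r z).sub (hE'.hasDeriv r z)
      rw [ih, sub_self] at this
      exact this
    have h0 : IsZeroAtImInfty (E (r + 1) - E' (r + 1)) := by
      have : Tendsto (fun z => E (r + 1) z - E' (r + 1) z) atImInfty (𝓝 (0 - 0)) :=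
        Tendsto.sub (hE.isZero r) (hE'.isZero r)
      rw [sub_zero] at this
      exact this
    have := eq_zero_of_hasDerivAt_zero_of_isZero hD h0
    exact sub_eq_zero.mp this

theorem IsTower.mdiff {h : ℍ → ℂ} {E : ℕ → ℍ → ℂ} (hE : IsTower h E) (r : ℕ) :
    MDiff (E (r + 1)) := by
  rw [UpperHalfPlane.mdifferentiable_iff]
  intro z hz
  exact (hE.hasDeriv r ⟨z, hz⟩).differentiableAt.differentiableWithinAt

theorem IsTower.add {h₁ h₂ : ℍ → ℂ} {E₁ E₂ : ℕ → ℍ → ℂ} (h1 : IsTower h₁ E₁)
    (h2 : IsTower h₂ E₂) : IsTower (h₁ + h₂) (E₁ + E₂) where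
  zero := by rw [Pi.add_apply, h1.zero, h2.zero]
  hasDeriv r z := (h1.hasDeriv r z).add (h2.hasDeriv r z)
  isZero r := by
    have : Tendsto (fun z => E₁ (r + 1) z + E₂ (r + 1) z) atImInfty (𝓝 (0 + 0)) :=
      Tendsto.add (h1.isZero r) (h2.isZero r)
    rw [add_zero] at this
    exact this

theorem IsTower.smul {h : ℍ → ℂ} {E : ℕ → ℍ → ℂ} (hE : IsTower h E) (c : ℂ) :
    IsTower (c • h) (c • E) where
  zero := by rw [Pi.smul_apply, hE.zero]
  hasDeriv r z := (hE.hasDeriv r z).const_smul c
  isZero r := by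
    have : Tendsto (fun z => c * E (r + 1) z) atImInfty (𝓝 (c * 0)) :=
      (hE.isZero r).const_mul c
    rw [mul_zero] at this
    exact this

theorem isTower_zero : IsTower 0 0 where
  zero := rfl
  hasDeriv _ z := by
    have : ((0 : ℕ → ℍ → ℂ) 0 ∘ ofComplex) = fun _ => (0 : ℂ) := rfl
    simp
  isZero _ := tendsto_const_nhds

/-- Existence of towers for holomorphic periodic functions vanishing at `i∞`. -/
theorem exists_isTower {h : ℍ → ℂ} {p : ℝ} (hp : 0 < p)
    (hper : Periodic (h ∘ ofComplex) p) (hhol : MDiff h) (hzero : IsZeroAtImInfty h) :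
    ∃ E : ℕ → ℍ → ℂ, IsTower h E := by
  classical
  let X := {F : ℍ → ℂ // Periodic (F ∘ ofComplex) p ∧ MDiff F ∧ IsZeroAtImInfty F}
  have step : ∀ F : X, ∃ F' : X, ∀ τ : ℍ, HasDerivAt (F'.1 ∘ ofComplex) (F.1 τ) (τ : ℂ) := by
    rintro ⟨F, h1, h2, h3⟩
    obtain ⟨F', h1', h2', h3', h4'⟩ := exists_primitive_isZeroAtImInfty hp h1 h2 h3
    exact ⟨⟨F', h1', h2', h3'⟩, h4'⟩
  choose next hnext using step
  let E : ℕ → X := fun r => Nat.rec ⟨h, hper, hhol, hzero⟩ (fun _ F => next F) r
  refine ⟨fun r => (E r).1, rfl, fun r z => ?_, fun r => ?_⟩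
  · exact hnext (E r) z
  · exact (E (r + 1)).2.2.2

/-- The chosen tower of a function (junk value `0` if no tower exists). -/
noncomputable def tower (h : ℍ → ℂ) : ℕ → ℍ → ℂ :=
  open Classical in if hex : ∃ E, IsTower h E then hex.choose else 0

/-- `h` admits a tower. -/
def HasTower (h : ℍ → ℂ) : Prop := ∃ E, IsTower h E

theorem HasTower.isTower {h : ℍ → ℂ} (hh : HasTower h) : IsTower h (tower h) := by
  unfold tower
  have hh' : ∃ E, IsTower h E := hh
  rw [dif_pos hh']
  exact hh'.choose_spec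

theorem IsTower.tower_eq {h : ℍ → ℂ} {E : ℕ → ℍ → ℂ} (hE : IsTower h E) : tower h = E :=
  (HasTower.isTower ⟨E, hE⟩).unique hE

theorem HasTower.add {h₁ h₂ : ℍ → ℂ} (h1 : HasTower h₁) (h2 : HasTower h₂) :
    HasTower (h₁ + h₂) := ⟨_, h1.isTower.add h2.isTower⟩

theorem HasTower.smul {h : ℍ → ℂ} (hh : HasTower h) (c : ℂ) : HasTower (c • h) :=
  ⟨_, hh.isTower.smul c⟩

theorem hasTower_zero : HasTower 0 := ⟨_, isTower_zero⟩

theorem tower_add {h₁ h₂ : ℍ → ℂ} (h1 : HasTower h₁) (h2 : HasTower h₂) :
    tower (h₁ + h₂) = tower h₁ + tower h₂ :=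
  (h1.isTower.add h2.isTower).tower_eq

theorem tower_smul {h : ℍ → ℂ} (hh : HasTower h) (c : ℂ) : tower (c • h) = c • tower h :=
  (hh.isTower.smul c).tower_eq

theorem tower_zero_fun : tower 0 = 0 := isTower_zero.tower_eq

theorem tower_sum {ι : Type*} (s : Finset ι) (h : ι → ℍ → ℂ) (hh : ∀ i ∈ s, HasTower (h i)) :
    HasTower (∑ i ∈ s, h i) ∧ tower (∑ i ∈ s, h i) = ∑ i ∈ s, tower (h i) := by
  classical
  induction s using Finset.induction_on with
  | empty => exact ⟨by simpa using hasTower_zero, by simpa using tower_zero_fun⟩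
  | insert a s ha ih =>
    have ih' := ih fun i hi => hh i (Finset.mem_insert_of_mem hi)
    have ha' := hh a (Finset.mem_insert_self a s)
    rw [Finset.sum_insert ha, Finset.sum_insert ha]
    exact ⟨ha'.add ih'.1, by rw [tower_add ha' ih'.1, ih'.2]⟩

end Fermat.Agent.S22.H262

end
-- ===== PACK-END S22/H262/Prim.lean

-- ===== PACK-BEGIN S18/H845/PrimElt.lean
section


/-!
# S18 / d1(c): compositum with algebraic constants, elementwise

`E ⊆ K ⊆ L`, `E` perfect.  If `L` is generated over `K` by elements algebraic over `E`, then every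
element of `L` lies in `K[α]` for a single `α` algebraic over `E`.
-/

set_option autoImplicit false
set_option linter.unusedSectionVars false

namespace Fermat.Agent.S18.H845

open IntermediateField

section PE

variable {E K L : Type*} [Field E] [Field K] [Field L] [Algebra E K] [Algebra K L] [Algebra E L]
  [IsScalarTower E K L] [PerfectField E]

omit [PerfectField E] in
lemma adjoin_E_le_adjoin_K (α : L) :
    ((Algebra.adjoin E {α} : Subalgebra E L) : Set L) ⊆ (Algebra.adjoin K {α} : Subalgebra K L) := by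
  have h : Algebra.adjoin E {α} ≤ (Algebra.adjoin K {α}).restrictScalars E :=
    Algebra.adjoin_le (by
      rintro x ⟨rfl⟩
      exact Algebra.self_mem_adjoin_singleton K _)
  exact h

/-- Two algebraic constants lie in `E[α]` for a single algebraic constant `α`. -/
lemma exists_common_adjoin {α₁ α₂ : L} (h₁ : IsAlgebraic E α₁) (h₂ : IsAlgebraic E α₂) :
    ∃ α : L, IsAlgebraic E α ∧ α₁ ∈ Algebra.adjoin K {α} ∧ α₂ ∈ Algebra.adjoin K {α} := by
  let M : IntermediateField E L := IntermediateField.adjoin E {α₁, α₂}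
  have hfin : FiniteDimensional E M :=
    IntermediateField.finiteDimensional_adjoin_pair h₁.isIntegral h₂.isIntegral
  have halg : Algebra.IsAlgebraic E M := Algebra.IsAlgebraic.of_finite E M
  obtain ⟨β, hβ⟩ := Field.exists_primitive_element E M
  have hβalg : IsAlgebraic E (β : L) := by
    have := halg.isAlgebraic β
    exact (isAlgebraic_algebraMap_iff (algebraMap M L).injective).mpr this
  have hM : E⟮(β : L)⟯ = M := by
    have h1 := congrArg (IntermediateField.map M.val) hβ
    rw [IntermediateField.adjoin_map, Set.image_singleton] at h1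
    rw [show M.val β = (β : L) from rfl] at h1
    rw [h1]
    ext x
    simp only [IntermediateField.mem_map, IntermediateField.mem_top, true_and]
    constructor
    · rintro ⟨y, rfl⟩
      exact y.2
    · intro hx
      exact ⟨⟨x, hx⟩, rfl⟩
  have hsub : ∀ x ∈ M, x ∈ Algebra.adjoin K {(β : L)} := by
    intro x hx
    rw [← hM] at hx
    have hx' : x ∈ (E⟮(β : L)⟯).toSubalgebra := hx
    rw [IntermediateField.adjoin_simple_toSubalgebra_of_isAlgebraic hβalg] at hx'
    exact adjoin_E_le_adjoin_K (K := K) (β : L) hx'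
  refine ⟨β, hβalg, hsub _ ?_, hsub _ ?_⟩
  · exact IntermediateField.subset_adjoin E _ (by simp)
  · exact IntermediateField.subset_adjoin E _ (by simp)

/-- If `L` is generated over `K` by elements algebraic over `E`, every element of `L` lies in
`K[α]` for one `α` algebraic over `E`. -/
theorem exists_mem_adjoin_singleton
    (hgen : IntermediateField.adjoin K {α : L | IsAlgebraic E α} = ⊤) (f : L) :
    ∃ α : L, IsAlgebraic E α ∧ f ∈ Algebra.adjoin K {α} := by
  have hf : f ∈ IntermediateField.adjoin K {α : L | IsAlgebraic E α} := by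
    rw [hgen]; exact IntermediateField.mem_top
  induction hf using IntermediateField.adjoin_induction with
  | mem x hx => exact ⟨x, hx, Algebra.self_mem_adjoin_singleton K x⟩
  | algebraMap x => exact ⟨0, isAlgebraic_zero, Subalgebra.algebraMap_mem _ x⟩
  | add x y _ _ hx hy =>
    obtain ⟨α₁, h₁, hx⟩ := hx
    obtain ⟨α₂, h₂, hy⟩ := hy
    obtain ⟨α, hα, ha₁, ha₂⟩ := exists_common_adjoin (K := K) h₁ h₂
    have l₁ : Algebra.adjoin K {α₁} ≤ Algebra.adjoin K {α} :=
      Algebra.adjoin_le (by rintro z ⟨rfl⟩; exact ha₁)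
    have l₂ : Algebra.adjoin K {α₂} ≤ Algebra.adjoin K {α} :=
      Algebra.adjoin_le (by rintro z ⟨rfl⟩; exact ha₂)
    exact ⟨α, hα, add_mem (l₁ hx) (l₂ hy)⟩
  | mul x y _ _ hx hy =>
    obtain ⟨α₁, h₁, hx⟩ := hx
    obtain ⟨α₂, h₂, hy⟩ := hy
    obtain ⟨α, hα, ha₁, ha₂⟩ := exists_common_adjoin (K := K) h₁ h₂
    have l₁ : Algebra.adjoin K {α₁} ≤ Algebra.adjoin K {α} :=
      Algebra.adjoin_le (by rintro z ⟨rfl⟩; exact ha₁)
    have l₂ : Algebra.adjoin K {α₂} ≤ Algebra.adjoin K {α} :=
      Algebra.adjoin_le (by rintro z ⟨rfl⟩; exact ha₂)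
    exact ⟨α, hα, mul_mem (l₁ hx) (l₂ hy)⟩
  | inv x _ hx =>
    obtain ⟨α, hα, hx⟩ := hx
    refine ⟨α, hα, ?_⟩
    have hαK : IsAlgebraic K α := hα.tower_top K
    rw [← IntermediateField.adjoin_simple_toSubalgebra_of_isAlgebraic hαK] at hx ⊢
    have hx' : x ∈ K⟮α⟯ := hx
    exact (show x⁻¹ ∈ K⟮α⟯ from inv_mem hx')

end PE

end Fermat.Agent.S18.H845

end
-- ===== PACK-END S18/H845/PrimElt.lean

-- ===== PACK-BEGIN S30/H330/AdicAlg.lean
section
/-
S30 -- ADIC MODULE LAYER, piece 1 (pure algebra).  helper330.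

For a complete discrete valuation ring `O` (char 0, residue characteristic `p`, finite residue
field), `L = Frac O`, and an abelian group `J` with finite `p`-torsion, the group
`Hom_ℤ(L/O, J)` with `O` acting through the source is a finite free `O`-module.  Its simultaneous
eigen-submodule `M` for a family of endomorphisms of `J` inherits a Galois action which is
adically continuous, and relations valid on `J[p^∞]` pass to `M`.
-/



set_option autoImplicit false

noncomputable section

namespace Fermat.Agent.S30.H330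

/-! ### `Hom_ℤ(Frac O, J)` as an `O`-module through the source -/

section SrcHom

variable (O : Type) [CommRing O] (J : Type) [AddCommGroup J]

/-- `Hom_ℤ(Frac O, J)`, with `O` acting by multiplication on the source. -/
def SrcHom : Type := FractionRing O →+ J

namespace SrcHom

variable {O J}

/-- The underlying additive map. -/
def hom (g : SrcHom O J) : FractionRing O →+ J := g

/-- Constructor. -/
def of (g : FractionRing O →+ J) : SrcHom O J := g

@[simp] theorem hom_of (g : FractionRing O →+ J) : (of g : SrcHom O J).hom = g := rfl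

@[ext] theorem ext {g h : SrcHom O J} (H : ∀ x, g.hom x = h.hom x) : g = h :=
  AddMonoidHom.ext H

instance : AddCommGroup (SrcHom O J) := inferInstanceAs (AddCommGroup (FractionRing O →+ J))

@[simp] theorem hom_add (g h : SrcHom O J) (x : FractionRing O) :
    (g + h).hom x = g.hom x + h.hom x := rfl

@[simp] theorem hom_zero (x : FractionRing O) : (0 : SrcHom O J).hom x = 0 := rfl

@[simp] theorem hom_neg (g : SrcHom O J) (x : FractionRing O) : (-g).hom x = -g.hom x := rfl

@[simp] theorem hom_sub (g h : SrcHom O J) (x : FractionRing O) :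
    (g - h).hom x = g.hom x - h.hom x := rfl

instance : SMul O (SrcHom O J) :=
  ⟨fun a g => of (g.hom.comp (AddMonoidHom.mulLeft (algebraMap O (FractionRing O) a)))⟩

@[simp] theorem hom_smul (a : O) (g : SrcHom O J) (x : FractionRing O) :
    (a • g).hom x = g.hom (algebraMap O (FractionRing O) a * x) := rfl

instance : Module O (SrcHom O J) where
  one_smul g := by ext x; simp
  mul_smul a b g := by
    ext x
    simp only [hom_smul, map_mul]
    congr 1
    ring
  smul_zero a := by ext x; simp
  smul_add a g h := by ext x; simp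
  add_smul a b g := by ext x; simp [add_mul]
  zero_smul g := by ext x; simp

end SrcHom

end SrcHom

/-! ### Precompleteness of finite powers -/

open Submodule in
/-- Finite powers of a precomplete ring are precomplete. -/
theorem isPrecomplete_pi {R : Type*} [CommRing R] (I : Ideal R) [IsPrecomplete I R]
    (k : ℕ) : IsPrecomplete I (Fin k → R) := by
  refine ⟨fun f hf => ?_⟩
  have hcomp : ∀ (n : ℕ) (g : Fin k → R), g ∈ (I ^ n • ⊤ : Submodule R (Fin k → R)) →
      ∀ i, g i ∈ (I ^ n • ⊤ : Submodule R R) := by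
    intro n g hg i
    refine Submodule.smul_induction_on hg (fun r hr m _ => ?_) (fun x y hx hy => ?_)
    · exact Submodule.smul_mem_smul hr trivial
    · exact Submodule.add_mem _ hx hy
  have hC : ∀ i, ∃ L : R, ∀ n, f n i ≡ L [SMOD (I ^ n • ⊤ : Submodule R R)] := by
    intro i
    refine IsPrecomplete.prec ‹_› (f := fun n => f n i) ?_
    intro m n hmn
    have := hf hmn
    rw [SModEq.sub_mem] at this ⊢
    exact hcomp m _ this i
  choose L hL using hC
  refine ⟨L, fun n => ?_⟩
  rw [SModEq.sub_mem]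
  have hsum : f n - L = ∑ i, (f n i - L i) • (Pi.single i (1 : R) : Fin k → R) := by
    funext j
    simp [Finset.sum_apply, Pi.single_apply]
  rw [hsum]
  refine Submodule.sum_mem _ fun i _ => ?_
  have hi := hL i n
  rw [SModEq.sub_mem] at hi
  have hi' : f n i - L i ∈ I ^ n := by
    simpa using hi
  exact Submodule.smul_mem_smul hi' trivial

/-! ### The eigen-submodule -/

section Main

variable {O : Type} [CommRing O]
variable {J : Type} [AddCommGroup J]
variable {ι : Type} (t : ι → J →+ J) (a : ι → O)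

/-- The simultaneous eigen-submodule of `Hom_ℤ(L/O, J)`. -/
def eigenSub : Submodule O (SrcHom O J) where
  carrier := {g | (∀ r : O, g.hom (algebraMap O (FractionRing O) r) = 0) ∧
    ∀ i x, t i (g.hom x) = g.hom (algebraMap O (FractionRing O) (a i) * x)}
  add_mem' := by
    rintro g h ⟨g0, ge⟩ ⟨h0, he⟩
    refine ⟨fun r => by simp [g0, h0], fun i x => ?_⟩
    simp only [SrcHom.hom_add, map_add, ge, he]
  zero_mem' := ⟨fun r => rfl, fun i x => by simp⟩
  smul_mem' := by
    rintro c g ⟨g0, ge⟩
    refine ⟨fun r => ?_, fun i x => ?_⟩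
    · rw [SrcHom.hom_smul, ← map_mul]; exact g0 _
    · rw [SrcHom.hom_smul, SrcHom.hom_smul, ge]
      congr 1
      ring

theorem mem_eigenSub {g : SrcHom O J} : g ∈ eigenSub t a ↔
    (∀ r : O, g.hom (algebraMap O (FractionRing O) r) = 0) ∧
    ∀ i x, t i (g.hom x) = g.hom (algebraMap O (FractionRing O) (a i) * x) := Iff.rfl

variable {t a}
variable [IsDomain O] [IsDiscreteValuationRing O]

/-- Every element of `L` is `y / ϖ ^ n`. -/
theorem exists_eq_div_pow {ϖ : O} (hϖ : Irreducible ϖ) (x : FractionRing O) :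
    ∃ (n : ℕ) (y : O), x = algebraMap O (FractionRing O) y /
      algebraMap O (FractionRing O) ϖ ^ n := by
  obtain ⟨c, d, hd, rfl⟩ := IsFractionRing.div_surjective O x
  have hd0 : d ≠ 0 := nonZeroDivisors.ne_zero hd
  obtain ⟨n, u, hu⟩ := IsDiscreteValuationRing.associated_pow_irreducible hd0 hϖ
  refine ⟨n, c * u, ?_⟩
  have hϖ0 : algebraMap O (FractionRing O) ϖ ≠ 0 := by
    simpa using hϖ.ne_zero
  have hd0' : algebraMap O (FractionRing O) d ≠ 0 := by
    simpa using hd0
  rw [div_eq_div_iff hd0' (pow_ne_zero _ hϖ0), ← map_pow, ← hu]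
  simp only [map_mul]
  ring

/-- Division lemma: an element of the eigen-submodule killing `ϖ⁻ⁿ O` is divisible by `ϖ ^ n`. -/
theorem exists_eq_pow_smul {ϖ : O} (hϖ : Irreducible ϖ) (n : ℕ) {g : SrcHom O J}
    (hg : g ∈ eigenSub t a)
    (hkill : ∀ y : O, g.hom (algebraMap O (FractionRing O) y /
      algebraMap O (FractionRing O) ϖ ^ n) = 0) :
    ∃ g' ∈ eigenSub t a, g = ϖ ^ n • g' := by
  have hϖ0 : algebraMap O (FractionRing O) ϖ ≠ 0 := by
    simpa using hϖ.ne_zero
  have hpow : algebraMap O (FractionRing O) ϖ ^ n ≠ 0 := pow_ne_zero _ hϖ0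
  refine ⟨SrcHom.of (g.hom.comp (AddMonoidHom.mulLeft ((algebraMap O (FractionRing O) ϖ ^ n)⁻¹))),
    ⟨fun r => ?_, fun i x => ?_⟩, ?_⟩
  · show g.hom ((algebraMap O (FractionRing O) ϖ ^ n)⁻¹ * algebraMap O (FractionRing O) r) = 0
    rw [mul_comm, ← div_eq_mul_inv]
    exact hkill r
  · show t i (g.hom ((algebraMap O (FractionRing O) ϖ ^ n)⁻¹ * x)) =
      g.hom ((algebraMap O (FractionRing O) ϖ ^ n)⁻¹ * (algebraMap O (FractionRing O) (a i) * x))
    rw [hg.2]
    congr 1
    ring
  · ext x
    show g.hom x = g.hom ((algebraMap O (FractionRing O) ϖ ^ n)⁻¹ *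
      (algebraMap O (FractionRing O) (ϖ ^ n) * x))
    congr 1
    rw [map_pow]
    field_simp

end Main

/-! ### Separatedness and torsion-freeness -/

section Finite

variable {O : Type} [CommRing O] [IsDomain O] [IsDiscreteValuationRing O]
variable {J : Type} [AddCommGroup J]
variable {ι : Type} {t : ι → J →+ J} {a : ι → O}

omit [IsDomain O] [IsDiscreteValuationRing O] in
theorem algebraMap_irreducible_ne_zero {ϖ : O} (hϖ : Irreducible ϖ) :
    algebraMap O (FractionRing O) ϖ ≠ 0 := by
  simpa using hϖ.ne_zero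

/-- Elements of `𝔪ⁿ M` kill `ϖ⁻ⁿ O`. -/
theorem kill_of_mem_pow_smul_top {ϖ : O} (hϖ : Irreducible ϖ) (n : ℕ)
    {x : eigenSub t a}
    (hx : x ∈ (IsLocalRing.maximalIdeal O ^ n • ⊤ : Submodule O (eigenSub t a))) (y : O) :
    x.1.hom (algebraMap O (FractionRing O) y / algebraMap O (FractionRing O) ϖ ^ n) = 0 := by
  have hϖ0 := algebraMap_irreducible_ne_zero hϖ
  revert y
  refine Submodule.smul_induction_on hx (fun r hr m _ y => ?_) (fun u v hu hv y => ?_)
  · rw [hϖ.maximalIdeal_eq, Ideal.span_singleton_pow, Ideal.mem_span_singleton'] at hr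
    obtain ⟨b, rfl⟩ := hr
    show (m.1).hom (algebraMap O (FractionRing O) (b * ϖ ^ n) *
      (algebraMap O (FractionRing O) y / algebraMap O (FractionRing O) ϖ ^ n)) = 0
    have : algebraMap O (FractionRing O) (b * ϖ ^ n) *
        (algebraMap O (FractionRing O) y / algebraMap O (FractionRing O) ϖ ^ n) =
        algebraMap O (FractionRing O) (b * y) := by
      simp only [map_mul, map_pow]
      field_simp
    rw [this]
    exact m.2.1 _
  · show (u.1 + v.1).hom _ = 0
    rw [SrcHom.hom_add, hu y, hv y, add_zero]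

/-- Conversely, elements killing `ϖ⁻ⁿ O` lie in `𝔪ⁿ M`. -/
theorem mem_pow_smul_top_of_kill {ϖ : O} (hϖ : Irreducible ϖ) (n : ℕ)
    {x : eigenSub t a}
    (hx : ∀ y : O, x.1.hom (algebraMap O (FractionRing O) y /
      algebraMap O (FractionRing O) ϖ ^ n) = 0) :
    x ∈ (IsLocalRing.maximalIdeal O ^ n • ⊤ : Submodule O (eigenSub t a)) := by
  obtain ⟨g', hg', hgg'⟩ := exists_eq_pow_smul hϖ n x.2 hx
  have hxe : x = ϖ ^ n • (⟨g', hg'⟩ : eigenSub t a) := Subtype.ext hgg'
  rw [hxe]
  refine Submodule.smul_mem_smul ?_ trivial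
  exact Ideal.pow_mem_pow (hϖ.maximalIdeal_eq ▸ Ideal.mem_span_singleton_self ϖ) n

/-- The eigen-submodule is `𝔪`-adically separated. -/
theorem isHausdorff_eigenSub : IsHausdorff (IsLocalRing.maximalIdeal O) (eigenSub t a) := by
  obtain ⟨ϖ, hϖ⟩ := IsDiscreteValuationRing.exists_irreducible O
  refine ⟨fun x hx => ?_⟩
  apply Subtype.ext
  apply SrcHom.ext
  intro z
  obtain ⟨n, y, rfl⟩ := exists_eq_div_pow hϖ z
  have h := hx n
  rw [SModEq.zero] at h
  exact kill_of_mem_pow_smul_top hϖ n h y

/-- The eigen-submodule is torsion-free. -/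
theorem isTorsionFree_eigenSub : Module.IsTorsionFree O (eigenSub t a) := by
  refine ⟨fun r hr x y hxy => ?_⟩
  have hr0 : r ≠ 0 := hr.ne_zero
  have hr0' : algebraMap O (FractionRing O) r ≠ 0 := by simpa using hr0
  apply Subtype.ext
  apply SrcHom.ext
  intro z
  have h := congrArg (fun w : eigenSub t a => w.1.hom ((algebraMap O (FractionRing O) r)⁻¹ * z)) hxy
  simp only [Submodule.coe_smul, SrcHom.hom_smul] at h
  rwa [mul_inv_cancel_left₀ hr0'] at h

end Finite

/-! ### Finiteness of `M / 𝔪 M` -/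

section Finiteness

variable {O : Type} [CommRing O] [IsDomain O] [IsDiscreteValuationRing O]
variable {J : Type} [AddCommGroup J]
variable {ι : Type} {t : ι → J →+ J} {a : ι → O}

/-- Values on `ϖ⁻ⁿ O` are killed by `pⁿ`. -/
theorem pow_smul_hom_div_eq_zero {p : ℕ} (hpO : (p : O) ∈ IsLocalRing.maximalIdeal O)
    {ϖ : O} (hϖ : Irreducible ϖ) (n : ℕ) {g : SrcHom O J} (hg : g ∈ eigenSub t a) (y : O) :
    p ^ n • g.hom (algebraMap O (FractionRing O) y / algebraMap O (FractionRing O) ϖ ^ n) = 0 := by
  have hϖ0 := algebraMap_irreducible_ne_zero hϖ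
  rw [hϖ.maximalIdeal_eq, Ideal.mem_span_singleton'] at hpO
  obtain ⟨b, hb⟩ := hpO
  rw [← map_nsmul]
  have : p ^ n • (algebraMap O (FractionRing O) y / algebraMap O (FractionRing O) ϖ ^ n) =
      algebraMap O (FractionRing O) (b ^ n * y) := by
    rw [nsmul_eq_mul]
    have hp : ((p ^ n : ℕ) : FractionRing O) = algebraMap O (FractionRing O) ((b * ϖ) ^ n) := by
      rw [hb]; simp
    rw [hp]
    simp only [map_mul, map_pow]
    field_simp
    ring
  rw [this]
  exact hg.1 _

/-- Every value of an element of the eigen-submodule is `p`-power torsion. -/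
theorem exists_pow_smul_hom_eq_zero {p : ℕ} (hpO : (p : O) ∈ IsLocalRing.maximalIdeal O)
    {g : SrcHom O J} (hg : g ∈ eigenSub t a) (z : FractionRing O) :
    ∃ n : ℕ, p ^ n • g.hom z = 0 := by
  obtain ⟨ϖ, hϖ⟩ := IsDiscreteValuationRing.exists_irreducible O
  obtain ⟨n, y, rfl⟩ := exists_eq_div_pow hϖ z
  exact ⟨n, pow_smul_hom_div_eq_zero hpO hϖ n hg y⟩

variable [Finite (IsLocalRing.ResidueField O)]

/-- `M / 𝔪 M` is finite when `J[p]` is. -/
theorem finite_quotient_eigenSub {p : ℕ} (hpO : (p : O) ∈ IsLocalRing.maximalIdeal O)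
    (hfin : {x : J | p • x = 0}.Finite) :
    Finite ((eigenSub t a) ⧸
      (IsLocalRing.maximalIdeal O • ⊤ : Submodule O (eigenSub t a))) := by
  classical
  obtain ⟨ϖ, hϖ⟩ := IsDiscreteValuationRing.exists_irreducible O
  have hϖ0 := algebraMap_irreducible_ne_zero hϖ
  have : Finite {x : J | p • x = 0} := hfin.to_subtype
  -- a section of the residue map
  let sec : IsLocalRing.ResidueField O → O := Function.surjInv IsLocalRing.residue_surjective
  have hsec : ∀ x, IsLocalRing.residue O (sec x) = x :=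
    Function.surjInv_eq IsLocalRing.residue_surjective
  -- the restriction map
  let res : eigenSub t a → (IsLocalRing.ResidueField O → {x : J | p • x = 0}) := fun g x =>
    ⟨g.1.hom (algebraMap O (FractionRing O) (sec x) / algebraMap O (FractionRing O) ϖ ^ 1), by
      have := pow_smul_hom_div_eq_zero hpO hϖ 1 g.2 (sec x)
      simpa using this⟩
  have hres : ∀ g h : eigenSub t a, res g = res h →
      (Submodule.Quotient.mk g : (eigenSub t a) ⧸
        (IsLocalRing.maximalIdeal O • ⊤ : Submodule O (eigenSub t a))) =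
        Submodule.Quotient.mk h := by
    intro g h hgh
    rw [Submodule.Quotient.eq]
    have hpow : (IsLocalRing.maximalIdeal O • ⊤ : Submodule O (eigenSub t a)) =
        (IsLocalRing.maximalIdeal O ^ 1 • ⊤ : Submodule O (eigenSub t a)) := by
      rw [pow_one]
    rw [hpow]
    apply mem_pow_smul_top_of_kill hϖ 1
    intro y
    -- y = sec (residue y) + ϖ z
    have hy : y - sec (IsLocalRing.residue O y) ∈ IsLocalRing.maximalIdeal O := by
      rw [← Ideal.Quotient.eq_zero_iff_mem]
      change IsLocalRing.residue O (y - sec (IsLocalRing.residue O y)) = 0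
      rw [map_sub, hsec, sub_self]
    rw [hϖ.maximalIdeal_eq, Ideal.mem_span_singleton'] at hy
    obtain ⟨z, hz⟩ := hy
    have hyz : algebraMap O (FractionRing O) y / algebraMap O (FractionRing O) ϖ ^ 1 =
        algebraMap O (FractionRing O) (sec (IsLocalRing.residue O y)) /
          algebraMap O (FractionRing O) ϖ ^ 1 + algebraMap O (FractionRing O) z := by
      have : y = sec (IsLocalRing.residue O y) + z * ϖ := by rw [hz]; ring
      conv_lhs => rw [this]
      simp only [map_add, map_mul, pow_one]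
      field_simp
    have hval := congrArg (fun F => (F (IsLocalRing.residue O y) : J)) hgh
    simp only [res] at hval
    show ((g : SrcHom O J) - (h : SrcHom O J)).hom _ = 0
    rw [SrcHom.hom_sub, hyz, map_add, map_add, g.2.1, h.2.1, hval]
    simp
  let F : Set.range res → (eigenSub t a) ⧸
      (IsLocalRing.maximalIdeal O • ⊤ : Submodule O (eigenSub t a)) :=
    fun v => Submodule.Quotient.mk (Classical.choose v.2)
  refine Finite.of_surjective F ?_
  intro q
  obtain ⟨g, rfl⟩ := Submodule.Quotient.mk_surjective _ q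
  refine ⟨⟨res g, g, rfl⟩, ?_⟩
  exact hres _ _ (Classical.choose_spec (⟨g, rfl⟩ : res g ∈ Set.range res))

end Finiteness

/-! ### Finite generation and freeness -/

section FiniteFree

variable {O : Type} [CommRing O] [IsDomain O] [IsDiscreteValuationRing O]
  [IsAdicComplete (IsLocalRing.maximalIdeal O) O] [Finite (IsLocalRing.ResidueField O)]
variable {J : Type} [AddCommGroup J]
variable {ι : Type} {t : ι → J →+ J} {a : ι → O}

/-- The eigen-submodule is a finitely generated `O`-module. -/
theorem finite_eigenSub {p : ℕ} (hpO : (p : O) ∈ IsLocalRing.maximalIdeal O)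
    (hfin : {x : J | p • x = 0}.Finite) : Module.Finite O (eigenSub t a) := by
  classical
  have hq := finite_quotient_eigenSub (t := t) (a := a) hpO hfin
  obtain ⟨k, ⟨e⟩⟩ := Finite.exists_equiv_fin ((eigenSub t a) ⧸
      (IsLocalRing.maximalIdeal O • ⊤ : Submodule O (eigenSub t a)))
  let s : Fin k → eigenSub t a := fun i => Quotient.out (e.symm i)
  have hs : ∀ i, (Submodule.Quotient.mk (s i) : (eigenSub t a) ⧸
      (IsLocalRing.maximalIdeal O • ⊤ : Submodule O (eigenSub t a))) = e.symm i := fun i =>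
    Quotient.out_eq (e.symm i)
  let φ : (Fin k → O) →ₗ[O] eigenSub t a := Fintype.linearCombination O s
  have hsurj : Function.Surjective
      ((IsLocalRing.maximalIdeal O • ⊤ : Submodule O (eigenSub t a)).mkQ ∘ₗ φ) := by
    intro q
    refine ⟨Pi.single (e q) 1, ?_⟩
    simp only [LinearMap.coe_comp, Function.comp_apply, Submodule.mkQ_apply, φ]
    rw [Fintype.linearCombination_apply_single, one_smul, hs, Equiv.symm_apply_apply]
  have h1 : IsPrecomplete (IsLocalRing.maximalIdeal O) (Fin k → O) :=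
    isPrecomplete_pi (IsLocalRing.maximalIdeal O) k
  have h2 : IsHausdorff (IsLocalRing.maximalIdeal O) (eigenSub t a) := isHausdorff_eigenSub
  have := surjective_of_mkQ_comp_surjective (I := IsLocalRing.maximalIdeal O) hsurj
  exact Module.Finite.of_surjective φ this

/-- The eigen-submodule is free. -/
theorem free_eigenSub {p : ℕ} (hpO : (p : O) ∈ IsLocalRing.maximalIdeal O)
    (hfin : {x : J | p • x = 0}.Finite) : Module.Free O (eigenSub t a) := by
  have h1 : Module.Finite O (eigenSub t a) := finite_eigenSub hpO hfin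
  have h2 : Module.IsTorsionFree O (eigenSub t a) := isTorsionFree_eigenSub
  exact Module.free_of_finite_type_torsion_free'

end FiniteFree

/-- Finiteness of `J[pⁿ]` from finiteness of `J[p]`. -/
theorem finite_pow_torsion {J : Type} [AddCommGroup J] {p : ℕ}
    (hfin : {x : J | p • x = 0}.Finite) (n : ℕ) : {x : J | p ^ n • x = 0}.Finite := by
  induction n with
  | zero =>
    refine (Set.finite_singleton (0 : J)).subset ?_
    intro x hx
    simpa using hx
  | succ n ih =>
    have hsub : {x : J | p ^ (n + 1) • x = 0} ⊆ (fun x : J => p • x) ⁻¹' {x : J | p ^ n • x = 0} := by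
      intro x hx
      simp only [Set.mem_preimage, Set.mem_ofPred_eq] at hx ⊢
      rw [← mul_smul, ← pow_succ]
      exact hx
    refine (Set.Finite.preimage' ih fun b _ => ?_).subset hsub
    by_cases hb : ∃ x₀ : J, p • x₀ = b
    · obtain ⟨x₀, hx₀⟩ := hb
      refine (hfin.image (fun z => x₀ + z)).subset ?_
      intro x hx
      simp only [Set.mem_preimage, Set.mem_singleton_iff] at hx
      refine ⟨x - x₀, ?_, by simp⟩
      simp only [Set.mem_ofPred_eq, smul_sub, hx, hx₀, sub_self]
    · refine Set.Finite.subset Set.finite_empty ?_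
      intro x hx
      exact (hb ⟨x, hx⟩).elim

/-! ### The Galois action and the main theorem -/

section Galois

variable {O : Type} [CommRing O]
variable {J : Type} [AddCommGroup J]
variable {G : Type} [Monoid G] [DistribMulAction G J]
variable {ι : Type} {t : ι → J →+ J} {a : ι → O}

/-- The action of `G` on `Hom_ℤ(L, J)` through the target. -/
def galSrc (σ : G) (g : SrcHom O J) : SrcHom O J :=
  SrcHom.of ((DistribSMul.toAddMonoidHom J σ).comp g.hom)

@[simp] theorem galSrc_hom (σ : G) (g : SrcHom O J) (x : FractionRing O) :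
    (galSrc σ g).hom x = σ • g.hom x := rfl

theorem galSrc_mem (ht : ∀ i (σ : G) (x : J), σ • t i x = t i (σ • x)) (σ : G)
    {g : SrcHom O J} (hg : g ∈ eigenSub t a) : galSrc σ g ∈ eigenSub t a := by
  refine ⟨fun r => ?_, fun i x => ?_⟩
  · rw [galSrc_hom, hg.1, smul_zero]
  · rw [galSrc_hom, galSrc_hom, ← ht, hg.2]

/-- The action of `G` on the eigen-submodule, as `O`-linear endomorphisms. -/
def galEnd (ht : ∀ i (σ : G) (x : J), σ • t i x = t i (σ • x)) (σ : G) :
    Module.End O (eigenSub t a) where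
  toFun g := ⟨galSrc σ g.1, galSrc_mem ht σ g.2⟩
  map_add' g h := by
    apply Subtype.ext
    apply SrcHom.ext
    intro x
    simp [smul_add]
  map_smul' c g := by
    apply Subtype.ext
    apply SrcHom.ext
    intro x
    simp

@[simp] theorem galEnd_hom (ht : ∀ i (σ : G) (x : J), σ • t i x = t i (σ • x)) (σ : G)
    (g : eigenSub t a) (x : FractionRing O) :
    ((galEnd ht σ g : eigenSub t a) : SrcHom O J).hom x = σ • (g : SrcHom O J).hom x := rfl

/-- The representation of `G` on the eigen-submodule. -/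
def galRep (ht : ∀ i (σ : G) (x : J), σ • t i x = t i (σ • x)) :
    G →* Module.End O (eigenSub t a) where
  toFun := galEnd ht
  map_one' := by
    apply LinearMap.ext
    intro g
    apply Subtype.ext
    apply SrcHom.ext
    intro x
    simp
  map_mul' σ τ := by
    apply LinearMap.ext
    intro g
    apply Subtype.ext
    apply SrcHom.ext
    intro x
    simp [mul_smul]

@[simp] theorem galRep_hom (ht : ∀ i (σ : G) (x : J), σ • t i x = t i (σ • x)) (σ : G)
    (g : eigenSub t a) (x : FractionRing O) :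
    ((galRep ht σ g : eigenSub t a) : SrcHom O J).hom x = σ • (g : SrcHom O J).hom x := rfl

end Galois

/-- PIECE 1 of the adic module layer (pure algebra). -/
theorem adicModule_of_torsion
    {p : ℕ} (_hp : p.Prime)
    {O : Type} [CommRing O] [IsDomain O] [IsDiscreteValuationRing O]
    [IsAdicComplete (IsLocalRing.maximalIdeal O) O] [Finite (IsLocalRing.ResidueField O)]
    [CharZero O] (hpO : (p : O) ∈ IsLocalRing.maximalIdeal O)
    {J : Type} [AddCommGroup J]
    [DistribMulAction (AlgebraicClosure ℚ ≃ₐ[ℚ] AlgebraicClosure ℚ) J]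
    (hsm : ∀ x : J, ∃ L : IntermediateField ℚ (AlgebraicClosure ℚ), FiniteDimensional ℚ L ∧
      ∀ σ : AlgebraicClosure ℚ ≃ₐ[ℚ] AlgebraicClosure ℚ, (∀ y ∈ L, σ y = y) → σ • x = x)
    (hfin : {x : J | p • x = 0}.Finite)
    {ι : Type} (t : ι → J →+ J)
    (ht : ∀ i (σ : AlgebraicClosure ℚ ≃ₐ[ℚ] AlgebraicClosure ℚ) (x : J), σ • t i x = t i (σ • x))
    (a : ι → O)
    (f : FractionRing O →+ J) (hf0 : ∀ r : O, f (algebraMap O (FractionRing O) r) = 0)
    (hf : f ≠ 0)
    (hfe : ∀ i x, t i (f x) = f (algebraMap O (FractionRing O) (a i) * x)) :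
    ∃ (M : Type) (_ : AddCommGroup M) (_ : Module O M) (_ : Module.Free O M)
      (_ : Module.Finite O M)
      (ρ : (AlgebraicClosure ℚ ≃ₐ[ℚ] AlgebraicClosure ℚ) →* Module.End O M),
      Nontrivial M ∧ GaloisActionIsAdicContinuous O ρ ∧
      (∀ σ : AlgebraicClosure ℚ ≃ₐ[ℚ] AlgebraicClosure ℚ,
        (∀ x : J, (∃ n : ℕ, p ^ n • x = 0) → σ • x = x) → ρ σ = 1) ∧
      (∀ (i : ι) (n : ℕ) (σ : AlgebraicClosure ℚ ≃ₐ[ℚ] AlgebraicClosure ℚ),
        (∀ x : J, (∃ k : ℕ, p ^ k • x = 0) → σ • σ • x - t i (σ • x) + n • x = 0) →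
        ρ σ * ρ σ - a i • ρ σ + (n : O) • (1 : Module.End O M) = 0) := by
  classical
  obtain ⟨ϖ, hϖ⟩ := IsDiscreteValuationRing.exists_irreducible O
  refine ⟨eigenSub t a, inferInstance, inferInstance, free_eigenSub hpO hfin,
    finite_eigenSub hpO hfin, galRep ht, ?_, ?_, ?_, ?_⟩
  · -- nontrivial
    have hfm : SrcHom.of f ∈ eigenSub t a := ⟨hf0, hfe⟩
    refine ⟨⟨⟨SrcHom.of f, hfm⟩, 0, ?_⟩⟩
    intro h
    apply hf
    have := congrArg (fun w : eigenSub t a => (w : SrcHom O J)) h
    exact this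
  · -- adic continuity
    intro n
    have hfinn := finite_pow_torsion hfin n
    choose Lx hLx using hsm
    have hfd : ∀ x, FiniteDimensional ℚ (Lx x) := fun x => (hLx x).1
    refine ⟨⨆ x ∈ hfinn.toFinset, Lx x,
      IntermediateField.finiteDimensional_iSup_of_finset, ?_⟩
    intro σ hσ v
    have hfix : ∀ x : J, p ^ n • x = 0 → σ • x = x := by
      intro x hx
      refine (hLx x).2 σ fun y hy => hσ y ?_
      have hle : Lx x ≤ ⨆ x ∈ hfinn.toFinset, Lx x := by
        refine le_iSup₂_of_le x ?_ le_rfl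
        simpa using hx
      exact hle hy
    have hmem : galRep ht σ v - v ∈
        (IsLocalRing.maximalIdeal O ^ n • ⊤ : Submodule O (eigenSub t a)) := by
      apply mem_pow_smul_top_of_kill hϖ n
      intro y
      show ((galRep ht σ v : eigenSub t a) : SrcHom O J).hom _ - (v : SrcHom O J).hom _ = 0
      rw [galRep_hom, hfix _ (pow_smul_hom_div_eq_zero hpO hϖ n v.2 y), sub_self]
    exact hmem
  · -- unramified
    intro σ hσ
    apply LinearMap.ext
    intro g
    apply Subtype.ext
    apply SrcHom.ext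
    intro x
    rw [galRep_hom]
    exact hσ _ (exists_pow_smul_hom_eq_zero hpO g.2 x)
  · -- quadratic relation
    intro i n σ hσ
    apply LinearMap.ext
    intro g
    simp only [LinearMap.add_apply, LinearMap.sub_apply, LinearMap.smul_apply,
      Module.End.mul_apply, Module.End.one_apply, LinearMap.zero_apply]
    apply Subtype.ext
    apply SrcHom.ext
    intro x
    have h := hσ _ (exists_pow_smul_hom_eq_zero hpO g.2 x)
    show σ • σ • (g : SrcHom O J).hom x -
          σ • (g : SrcHom O J).hom (algebraMap O (FractionRing O) (a i) * x) +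
          (g : SrcHom O J).hom (algebraMap O (FractionRing O) (n : O) * x) = 0
    rw [← g.2.2, ht]
    have e2 : (g : SrcHom O J).hom (algebraMap O (FractionRing O) (n : O) * x) =
        n • (g : SrcHom O J).hom x := by
      rw [map_natCast, ← nsmul_eq_mul, map_nsmul]
    rw [e2]
    exact h

end Fermat.Agent.S30.H330

end
end
-- ===== PACK-END S30/H330/AdicAlg.lean

-- ===== PACK-BEGIN S24/JFun/QFun.lean
section



/-!
# Functions on the upper half plane of the form `τ ↦ g (q(τ))`

For `g` holomorphic on the open unit disc, `ofQ g τ = g (exp (2πiτ))` is `1`-periodic, holomorphic,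
bounded at `i∞`, and its `q`-expansion is the Taylor series of `g` at `0`.
-/

set_option autoImplicit false

namespace Fermat.Agent.S24.JFun

open Filter Topology Complex Metric Function
open UpperHalfPlane hiding I
open scoped Manifold

local notation "𝕢" => Function.Periodic.qParam

/-- The function `τ ↦ g (exp (2πiτ))` on the upper half plane. -/
noncomputable def ofQ (g : ℂ → ℂ) : ℍ → ℂ := fun τ => g (𝕢 1 τ)

theorem ofQ_apply (g : ℂ → ℂ) (τ : ℍ) : ofQ g τ = g (𝕢 1 τ) := rfl

theorem norm_qParam_one_lt_one (τ : ℍ) : ‖𝕢 1 (τ : ℂ)‖ < 1 :=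
  Function.Periodic.norm_qParam_lt_one one_pos τ.im_pos

theorem qParam_one_mem_ball (τ : ℍ) : 𝕢 1 (τ : ℂ) ∈ ball (0 : ℂ) 1 := by
  simpa using norm_qParam_one_lt_one τ

/-- A function on `ℍ` invariant under `τ ↦ τ + 1` gives a `1`-periodic function on `ℂ`. -/
theorem periodic_comp_ofComplex_of_vadd {f : ℍ → ℂ} (hf : ∀ τ : ℍ, f ((1 : ℝ) +ᵥ τ) = f τ) :
    Periodic (f ∘ ofComplex) ((1 : ℝ) : ℂ) := by
  intro w
  by_cases hw : 0 < im w
  · have hw1 : 0 < im (w + ((1 : ℝ) : ℂ)) := by simpa using hw
    simp only [comp_apply, ofComplex_apply_of_im_pos hw1, ofComplex_apply_of_im_pos hw]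
    rw [← hf ⟨w, hw⟩]
    congr 1
    ext
    simp [add_comm]
  · have hw' : im w ≤ 0 := not_lt.mp hw
    have hw1 : im (w + ((1 : ℝ) : ℂ)) ≤ 0 := by simpa using hw'
    simp only [comp_apply]
    rw [ofComplex_apply_eq_of_im_nonpos hw1 hw']

theorem qParam_one_add_one (z : ℂ) : 𝕢 1 (z + 1) = 𝕢 1 z := by
  unfold Function.Periodic.qParam
  have h : 2 * (Real.pi : ℂ) * I * (z + 1) / ((1 : ℝ) : ℂ)
      = 2 * (Real.pi : ℂ) * I * z / ((1 : ℝ) : ℂ) + 2 * (Real.pi : ℂ) * I := by
    simp
    ring
  rw [h, Complex.exp_add, Complex.exp_two_pi_mul_I, mul_one]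

theorem qParam_one_vadd (τ : ℍ) : 𝕢 1 (((1 : ℝ) +ᵥ τ : ℍ) : ℂ) = 𝕢 1 (τ : ℂ) := by
  have h := qParam_one_add_one (τ : ℂ)
  rw [← h]
  congr 1
  simp [add_comm]

theorem ofQ_vadd (g : ℂ → ℂ) (τ : ℍ) : ofQ g ((1 : ℝ) +ᵥ τ) = ofQ g τ := by
  rw [ofQ_apply, ofQ_apply, qParam_one_vadd]

theorem ofQ_periodic (g : ℂ → ℂ) : Periodic (ofQ g ∘ ofComplex) ((1 : ℝ) : ℂ) :=
  periodic_comp_ofComplex_of_vadd (ofQ_vadd g)

theorem ofQ_mdiff {g : ℂ → ℂ} (hg : DifferentiableOn ℂ g (ball 0 1)) : MDiff (ofQ g) := by
  rw [UpperHalfPlane.mdifferentiable_iff]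
  have h1 : DifferentiableOn ℂ (fun z : ℂ => g (𝕢 1 z)) {z : ℂ | 0 < z.im} := by
    intro z hz
    have hq : 𝕢 1 z ∈ ball (0 : ℂ) 1 := by
      simpa using Function.Periodic.norm_qParam_lt_one one_pos hz
    have hgz : DifferentiableAt ℂ g (𝕢 1 z) := hg.differentiableAt (isOpen_ball.mem_nhds hq)
    have hqz : DifferentiableAt ℂ (𝕢 1) z := by
      unfold Function.Periodic.qParam
      fun_prop
    exact (hgz.comp z hqz).differentiableWithinAt
  refine h1.congr fun z hz => ?_
  simp [ofQ, ofComplex_apply_of_im_pos hz]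

theorem ofQ_tendsto {g : ℂ → ℂ} (hg : DifferentiableOn ℂ g (ball 0 1)) :
    Tendsto (ofQ g) atImInfty (𝓝 (g 0)) := by
  have h0 : ContinuousAt g 0 :=
    (hg.differentiableAt (isOpen_ball.mem_nhds (mem_ball_self one_pos))).continuousAt
  exact h0.tendsto.comp (UpperHalfPlane.qParam_tendsto_atImInfty one_pos)

theorem ofQ_bdd {g : ℂ → ℂ} (hg : DifferentiableOn ℂ g (ball 0 1)) :
    IsBoundedAtImInfty (ofQ g) :=
  (ofQ_tendsto hg).isBigO_one ℝ

theorem ofQ_analyticAt {g : ℂ → ℂ} (hg : DifferentiableOn ℂ g (ball 0 1)) :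
    AnalyticAt ℂ (cuspFunction 1 (ofQ g)) 0 :=
  analyticAt_cuspFunction_zero one_pos (ofQ_periodic g) (ofQ_mdiff hg) (ofQ_bdd hg)

theorem ofQ_hasSum {g : ℂ → ℂ} (hg : DifferentiableOn ℂ g (ball 0 1)) (τ : ℍ) :
    HasSum (fun m : ℕ => (((m.factorial : ℂ))⁻¹ * iteratedDeriv m g 0) • 𝕢 1 (τ : ℂ) ^ m)
      (ofQ g τ) := by
  have h := Complex.hasSum_taylorSeries_on_ball (f := g) (c := 0) (r := 1) hg
    (z := 𝕢 1 (τ : ℂ)) (by simpa using norm_qParam_one_lt_one τ)
  have heq : (fun n : ℕ => ((n.factorial : ℂ))⁻¹ • (𝕢 1 (τ : ℂ) - 0) ^ n • iteratedDeriv n g 0)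
      = fun m : ℕ => (((m.factorial : ℂ))⁻¹ * iteratedDeriv m g 0) • 𝕢 1 (τ : ℂ) ^ m := by
    funext m
    simp only [sub_zero, smul_eq_mul]
    ring
  rw [heq] at h
  exact h

/-- Uniqueness of `q`-expansion coefficients, for plain functions on `ℍ`. -/
theorem qExpansion_coeff_unique_fun {f : ℍ → ℂ} {c : ℕ → ℂ}
    (hfanalytic : AnalyticAt ℂ (cuspFunction 1 f) 0)
    (hf : ∀ τ : ℍ, HasSum (fun m : ℕ => c m • 𝕢 1 (τ : ℂ) ^ m) (f τ)) (m : ℕ) :
    (qExpansion 1 f).coeff m = c m := by
  have h1 := (hasFPowerSeriesOnBall_cuspFunction one_pos hfanalytic hf).hasFPowerSeriesAt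
  have h2 := hfanalytic.hasFPowerSeriesAt
  have h3 := congr_arg (FormalMultilinearSeries.coeff · m) (h1.eq_formalMultilinearSeries h2)
  simp only [FormalMultilinearSeries.coeff_ofScalars] at h3
  rw [qExpansion_coeff, h3, div_eq_inv_mul]

/-- The `q`-expansion of `τ ↦ g (q(τ))` is the Taylor expansion of `g` at `0`. -/
theorem qExpansion_ofQ_coeff {g : ℂ → ℂ} (hg : DifferentiableOn ℂ g (ball 0 1)) (m : ℕ) :
    (qExpansion 1 (ofQ g)).coeff m = ((m.factorial : ℂ))⁻¹ * iteratedDeriv m g 0 :=
  qExpansion_coeff_unique_fun (ofQ_analyticAt hg) (ofQ_hasSum hg) m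

end Fermat.Agent.S24.JFun

end
-- ===== PACK-END S24/JFun/QFun.lean

-- ===== PACK-BEGIN Lib/RR/Defs.lean
section




/-!
# Shared library RR: Riemann's theorem and the Riemann–Roch theorem for function fields

Language: the Prelude's `AlgebraicCurve.Place`, `Divisor`, `riemannRochSpace`, `repartitions`,
`repartitionsOf`, `principalRepartitions`, `H1`, `genusFF`.

Standing hypotheses (`FF1 K F`): every nonzero function has a divisor of degree `0`
(`HasPrincipalDivisors`), every place has degree one (e.g. `K` algebraically closed and finite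
residue fields), there is at least one place, and `F` is finite over `K(x)` for some
transcendental `x`.
-/

set_option autoImplicit false

noncomputable section

open AlgebraicCurve

namespace Fermat.Agent.Lib.RR

variable (K F : Type*) [Field K] [Field F] [Algebra K F]

/-- Standing hypotheses of the RR library: a function field of one variable over `K`, all of whose
places have degree one. -/
class FF1 : Prop where
  /-- every nonzero function has a divisor, of degree zero -/
  hpd : HasPrincipalDivisors K F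
  /-- every place has degree one -/
  deg_eq_one : ∀ v : Place K F, v.deg = 1
  /-- there is a place -/
  nonempty_place : Nonempty (Place K F)
  /-- `F` is a finite extension of a rational function field -/
  exists_finite : ∃ x : F, Transcendental K x ∧
    FiniteDimensional (IntermediateField.adjoin K {x}) F

variable {K F}

/-- `ℓ(D) = dim_K L(D)`. -/
def ell (D : Divisor K F) : ℕ := Module.finrank K (riemannRochSpace D)

/-- The prime divisor of a place. -/
def prim (v : Place K F) : Divisor K F := Finsupp.single v 1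

end Fermat.Agent.Lib.RR

end
end
-- ===== PACK-END Lib/RR/Defs.lean

-- ===== PACK-BEGIN S24/H84/Kaehler.lean
section


/-!
# Kähler differentials of a function field in one variable (helper84, S24 piece KD1)

`K` a field of characteristic zero, `F/K` a field extension, `x : F` with `F` algebraic over
`K(x)`.  Then `Ω[F⁄K]` is spanned by `D x`.
-/

set_option autoImplicit false

open KaehlerDifferential Polynomial IntermediateField TensorProduct

namespace Fermat.Agent.S24.H84

section Kaehler

variable {K F : Type*} [Field K] [Field F] [Algebra K F]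

/-- `D e ∈ span {D x}` for `e ∈ K⟮x⟯`. -/
theorem D_mem_span_of_mem_adjoin_simple (x : F) {e : F} (he : e ∈ K⟮x⟯) :
    D K F e ∈ Submodule.span F {D K F x} := by
  obtain ⟨r, s, rfl⟩ := (IntermediateField.mem_adjoin_simple_iff K e).1 he
  rw [Derivation.leibniz_div, Derivation.map_aeval, Derivation.map_aeval]
  refine Submodule.smul_mem _ _ (Submodule.sub_mem _ ?_ ?_) <;>
  exact Submodule.smul_mem _ _ (Submodule.smul_mem _ _ (Submodule.mem_span_singleton_self _))

theorem map_mem_span_D (x : F) (y : Ω[K⟮x⟯⁄K]) :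
    KaehlerDifferential.map K K K⟮x⟯ F y ∈ Submodule.span F {D K F x} := by
  have hy : y ∈ Submodule.span K⟮x⟯ (Set.range (D K K⟮x⟯)) := by
    rw [span_range_derivation]; trivial
  induction hy using Submodule.span_induction with
  | mem z hz =>
    obtain ⟨e, rfl⟩ := hz
    rw [map_D]
    exact D_mem_span_of_mem_adjoin_simple x e.2
  | zero => simp
  | add u v _ _ hu hv => rw [map_add]; exact Submodule.add_mem _ hu hv
  | smul c u _ hu =>
    rw [map_smul, ← algebraMap_smul F c]
    exact Submodule.smul_mem _ _ hu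

theorem mapBaseChange_mem_span_D (x : F) (t : F ⊗[K⟮x⟯] Ω[K⟮x⟯⁄K]) :
    KaehlerDifferential.mapBaseChange K K⟮x⟯ F t ∈ Submodule.span F {D K F x} := by
  induction t using TensorProduct.induction_on with
  | zero => simp
  | tmul b y =>
    rw [mapBaseChange_tmul]
    exact Submodule.smul_mem _ _ (map_mem_span_D x y)
  | add a b ha hb => rw [map_add]; exact Submodule.add_mem _ ha hb

/-- If `F` is algebraic over `K⟮x⟯` (characteristic zero), then `D x` spans `Ω[F⁄K]`. -/
theorem span_D_eq_top [CharZero K] (x : F) [Algebra.IsAlgebraic K⟮x⟯ F] :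
    Submodule.span F {D K F x} = ⊤ := by
  have : CharZero K⟮x⟯ := charZero_of_injective_algebraMap (algebraMap K K⟮x⟯).injective
  have : Algebra.IsSeparable K⟮x⟯ F := Algebra.IsAlgebraic.isSeparable_of_perfectField
  have : Algebra.FormallyUnramified K⟮x⟯ F := Algebra.FormallyUnramified.of_isSeparable _ _
  have : Subsingleton Ω[F⁄K⟮x⟯] := Algebra.FormallyUnramified.subsingleton_kaehlerDifferential
  rw [eq_top_iff]
  intro ω _
  have hex := KaehlerDifferential.exact_mapBaseChange_map K K⟮x⟯ F
  have h0 : KaehlerDifferential.map K K⟮x⟯ F F ω = 0 := Subsingleton.elim _ _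
  obtain ⟨t, rfl⟩ := (hex ω).1 h0
  exact mapBaseChange_mem_span_D x t

end Kaehler

end Fermat.Agent.S24.H84

end
-- ===== PACK-END S24/H84/Kaehler.lean

-- ===== PACK-BEGIN S24/H84/LaurentDeriv.lean
section


/-!
# `d/dz` on Laurent series as a derivation (helper84, S24 piece KD3)

Mathlib has `LaurentSeries.derivative` only as a linear map.  We prove the Leibniz rule,
package it as a `Derivation`, and compute orders.
-/

set_option autoImplicit false

noncomputable section

namespace Fermat.Agent.S24.H84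

open HahnSeries

section Ring

variable {C : Type*} [CommRing C]

theorem laurent_derivative_coeff (f : LaurentSeries C) (n : ℤ) :
    (LaurentSeries.derivative C f).coeff n = ((n + 1 : ℤ) : C) * f.coeff (n + 1) := by
  rw [LaurentSeries.derivative_apply, LaurentSeries.hasseDeriv_coeff]
  simp [zsmul_eq_mul]

theorem laurent_derivative_ofPowerSeries (P : PowerSeries C) :
    LaurentSeries.derivative C (P : LaurentSeries C) =
      ((PowerSeries.derivative C P : PowerSeries C) : LaurentSeries C) := by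
  ext n
  rw [laurent_derivative_coeff, PowerSeries.coeff_coe, PowerSeries.coeff_coe]
  by_cases hn : n < 0
  · rw [if_pos hn]
    by_cases hn1 : n + 1 < 0
    · rw [if_pos hn1, mul_zero]
    · have : n + 1 = 0 := by omega
      rw [this]; simp
  · rw [if_neg hn, if_neg (by omega)]
    obtain ⟨k, rfl⟩ := Int.eq_ofNat_of_zero_le (not_lt.mp hn)
    have h1 : ((k : ℤ) + 1).natAbs = k + 1 := by omega
    rw [h1, Int.natAbs_natCast, PowerSeries.coeff_derivative]
    push_cast
    ring

theorem laurent_derivative_single_mul (n : ℤ) (h : LaurentSeries C) :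
    LaurentSeries.derivative C (single n (1 : C) * h) =
      (n : C) • (single (n - 1) (1 : C) * h) + single n (1 : C) * LaurentSeries.derivative C h := by
  ext k
  rw [laurent_derivative_coeff, HahnSeries.coeff_add, HahnSeries.coeff_smul,
    coeff_single_mul, coeff_single_mul, coeff_single_mul, laurent_derivative_coeff]
  have e1 : k - (n - 1) = k + 1 - n := by ring
  have e2 : k - n + 1 = k + 1 - n := by ring
  rw [e1, e2]
  simp only [one_mul, smul_eq_mul]
  push_cast
  ring

theorem laurent_derivative_mul (f g : LaurentSeries C) :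
    LaurentSeries.derivative C (f * g) =
      f * LaurentSeries.derivative C g + g * LaurentSeries.derivative C f := by
  obtain ⟨a, P, rfl⟩ : ∃ (a : ℤ) (P : PowerSeries C), f = single a (1 : C) * (P : LaurentSeries C) :=
    ⟨_, _, (LaurentSeries.single_order_mul_powerSeriesPart f).symm⟩
  obtain ⟨b, Q, rfl⟩ : ∃ (b : ℤ) (Q : PowerSeries C), g = single b (1 : C) * (Q : LaurentSeries C) :=
    ⟨_, _, (LaurentSeries.single_order_mul_powerSeriesPart g).symm⟩
  have hfg : single a (1 : C) * (P : LaurentSeries C) * (single b (1 : C) * (Q : LaurentSeries C))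
      = single (a + b) (1 : C) * ((P * Q : PowerSeries C) : LaurentSeries C) := by
    have : single (a + b) (1 : C) = single a (1 : C) * single b (1 : C) := by
      rw [single_mul_single, one_mul]
    rw [this]
    push_cast
    ring
  rw [hfg, laurent_derivative_single_mul, laurent_derivative_single_mul,
    laurent_derivative_single_mul, laurent_derivative_ofPowerSeries,
    laurent_derivative_ofPowerSeries, laurent_derivative_ofPowerSeries,
    Derivation.leibniz, smul_eq_mul, smul_eq_mul]
  have h1 : single (a + b - 1) (1 : C) = single (a - 1) (1 : C) * single b (1 : C) := by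
    rw [single_mul_single, one_mul, show a - 1 + b = a + b - 1 by omega]
  have h2 : single (a + b - 1) (1 : C) = single a (1 : C) * single (b - 1) (1 : C) := by
    rw [single_mul_single, one_mul, show a + (b - 1) = a + b - 1 by omega]
  have h3 : single (a + b) (1 : C) = single a (1 : C) * single b (1 : C) := by
    rw [single_mul_single, one_mul]
  simp only [← HahnSeries.C_mul_eq_smul, PowerSeries.coe_add, PowerSeries.coe_mul]
  push_cast
  rw [h3]
  have h4 : (HahnSeries.C ((a : C) + (b : C)) : LaurentSeries C) * single (a + b - 1) (1 : C)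
      = HahnSeries.C (a : C) * (single (a - 1) (1 : C) * single b (1 : C))
        + HahnSeries.C (b : C) * (single a (1 : C) * single (b - 1) (1 : C)) := by
    rw [← h1, ← h2, map_add]; ring
  linear_combination ((P : LaurentSeries C) * (Q : LaurentSeries C)) * h4

theorem laurent_algebraMap_eq_C (c : C) :
    algebraMap C (LaurentSeries C) c = HahnSeries.C c := by
  rw [HahnSeries.algebraMap_apply', ← HahnSeries.ofPowerSeries_C]
  rfl

/-- The two `C`-actions on `C((z))` (via `Algebra.toModule` and via `HahnSeries.instModule`)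
agree. -/
theorem laurent_algebra_smul_eq (c : C) (f : LaurentSeries C) :
    (@HSMul.hSMul C (LaurentSeries C) _
      (@instHSMul C (LaurentSeries C) (Algebra.toModule.toSMul)) c f) = HahnSeries.C c * f := by
  rw [Algebra.smul_def, laurent_algebraMap_eq_C]

/-- `d/dz` on `C((z))` as a `C`-derivation. -/
def laurentD (C : Type*) [CommRing C] : Derivation C (LaurentSeries C) (LaurentSeries C) where
  toFun f := LaurentSeries.derivative C f
  map_add' f g := map_add _ f g
  map_smul' c f := by
    ext n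
    simp only [RingHom.id_apply, laurent_derivative_coeff]
    rw [laurent_algebra_smul_eq,
      HahnSeries.C_mul_eq_smul, HahnSeries.coeff_smul,
      HahnSeries.coeff_smul, laurent_derivative_coeff]
    simp only [smul_eq_mul]
    ring
  map_one_eq_zero' := by
    ext n
    show (LaurentSeries.derivative C (1 : LaurentSeries C)).coeff n = _
    rw [laurent_derivative_coeff]
    by_cases hn : n + 1 = 0
    · rw [hn]; simp
    · rw [HahnSeries.coeff_one, if_neg hn]; simp
  leibniz' f g := by
    show LaurentSeries.derivative C (f * g) = _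
    rw [laurent_derivative_mul]
    simp [smul_eq_mul]

@[simp] theorem laurentD_apply (f : LaurentSeries C) :
    laurentD C f = LaurentSeries.derivative C f := rfl

theorem laurentD_coeff (f : LaurentSeries C) (n : ℤ) :
    (laurentD C f).coeff n = ((n + 1 : ℤ) : C) * f.coeff (n + 1) :=
  laurent_derivative_coeff f n

theorem laurentD_C (c : C) : laurentD C (HahnSeries.C c) = 0 := by
  ext n
  rw [laurentD_coeff, HahnSeries.C_apply, HahnSeries.coeff_single]
  by_cases hn : n + 1 = 0
  · rw [hn]; simp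
  · rw [if_neg hn]; simp

end Ring

section Field

variable {C : Type*} [Field C] [CharZero C]

/-- In characteristic zero, `ord (df/dz) = ord f - 1` whenever `ord f ≠ 0`. -/
theorem laurentD_order {f : LaurentSeries C} (hf : f.order ≠ 0) :
    (laurentD C f).order = f.order - 1 := by
  have hf0 : f ≠ 0 := by rintro rfl; simp at hf
  have hc : (laurentD C f).coeff (f.order - 1) ≠ 0 := by
    rw [laurentD_coeff, sub_add_cancel]
    refine mul_ne_zero (by exact_mod_cast hf) ?_
    rw [← HahnSeries.leadingCoeff_eq]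
    exact HahnSeries.leadingCoeff_ne_zero.2 hf0
  have hne : laurentD C f ≠ 0 := by
    intro h; rw [h] at hc; simp at hc
  refine le_antisymm (HahnSeries.order_le_of_coeff_ne_zero hc) ?_
  by_contra hlt
  rw [not_le] at hlt
  have h2 : (laurentD C f).coeff (laurentD C f).order ≠ 0 := by
    rw [← HahnSeries.leadingCoeff_eq]
    exact HahnSeries.leadingCoeff_ne_zero.2 hne
  apply h2
  rw [laurentD_coeff, HahnSeries.coeff_eq_zero_of_lt_order (by omega), mul_zero]

theorem laurentD_ne_zero {f : LaurentSeries C} (hf : f.order ≠ 0) : laurentD C f ≠ 0 := by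
  have hf0 : f ≠ 0 := by rintro rfl; simp at hf
  intro h
  have hc : (laurentD C f).coeff (f.order - 1) ≠ 0 := by
    rw [laurentD_coeff, sub_add_cancel]
    refine mul_ne_zero (by exact_mod_cast hf) ?_
    rw [← HahnSeries.leadingCoeff_eq]
    exact HahnSeries.leadingCoeff_ne_zero.2 hf0
  rw [h] at hc
  simp at hc

omit [CharZero C] in
/-- In general `ord (df/dz) ≥ ord f - 1` (when `df/dz ≠ 0`). -/
theorem laurentD_order_ge {f : LaurentSeries C} (hdf : laurentD C f ≠ 0) :
    f.order - 1 ≤ (laurentD C f).order := by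
  by_contra hlt
  rw [not_le] at hlt
  have h2 : (laurentD C f).coeff (laurentD C f).order ≠ 0 := by
    rw [← HahnSeries.leadingCoeff_eq]
    exact HahnSeries.leadingCoeff_ne_zero.2 hdf
  apply h2
  rw [laurentD_coeff, HahnSeries.coeff_eq_zero_of_lt_order (by omega), mul_zero]

/-- `df/dz = 0` iff `f` is constant (characteristic zero). -/
theorem laurentD_eq_zero_iff {f : LaurentSeries C} :
    laurentD C f = 0 ↔ f = HahnSeries.C (f.coeff 0) := by
  constructor
  · intro h
    ext n
    rw [HahnSeries.C_apply, HahnSeries.coeff_single]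
    by_cases hn : n = 0
    · rw [if_pos hn, hn]
    · rw [if_neg hn]
      have := congrArg (fun g : LaurentSeries C => g.coeff (n - 1)) h
      simp only [laurentD_coeff, sub_add_cancel, HahnSeries.coeff_zero] at this
      rcases mul_eq_zero.1 this with h1 | h1
      · exact absurd (by exact_mod_cast h1) hn
      · exact h1
  · intro h
    rw [h, laurentD_C]

end Field

end Fermat.Agent.S24.H84

end
end
-- ===== PACK-END S24/H84/LaurentDeriv.lean

-- ===== PACK-BEGIN S30/H709/EigenAlg.lean
section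


/-!
# S30-OCC, algebra: a ring homomorphism from a faithfully acting commutative ring occurs

`T` a commutative ring acting faithfully on a finitely generated module `L`, `χ : T →+* K` a ring
homomorphism to a field: there is a nonzero additive `μ : L → K` with `μ (t • x) = χ t * μ x`.
No hypothesis on the kernel of `χ` (maximality is not needed), no characteristic hypothesis.

Lattice form: if `L` is a free `ℤ`-module of finite rank with basis `b`, and `χ` takes values in a
domain `A`, there is a nonzero vector `w` of elements of `A` which is a left eigenvector with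
eigenvalue `χ t` of the integer matrix of every `t` in the basis `b`.
-/

set_option autoImplicit false

namespace Fermat.Agent.S30.H709

open scoped TensorProduct

/-- A ring homomorphism `χ : T →+* K` to a field occurs in every faithful finitely generated
`T`-module: there is a nonzero `χ`-semilinear additive functional. -/
theorem exists_semilinear_functional {T : Type*} [CommRing T] {L : Type*} [AddCommGroup L]
    [Module T L] [Module.Finite T L] (hfaith : ∀ t : T, (∀ x : L, t • x = 0) → t = 0)
    {K : Type*} [Field K] (χ : T →+* K) :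
    ∃ μ : L →+ K, μ ≠ 0 ∧ ∀ (t : T) (x : L), μ (t • x) = χ t * μ x := by
  classical
  let 𝔭 : Ideal T := RingHom.ker χ
  have h𝔭 : 𝔭.IsPrime := RingHom.ker_isPrime χ
  let P : PrimeSpectrum T := ⟨𝔭, h𝔭⟩
  have hsupp : P ∈ Module.support T L := by
    rw [Module.mem_support_iff_of_finite]
    intro t ht
    rw [Module.mem_annihilator] at ht
    rw [hfaith t ht]
    exact zero_mem _
  have hnt : Nontrivial (𝔭.ResidueField ⊗[T] L) :=
    (Module.mem_support_iff_nontrivial_residueField_tensorProduct P).mp hsupp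
  obtain ⟨v, hv⟩ := exists_ne (0 : 𝔭.ResidueField ⊗[T] L)
  obtain ⟨φ, hφ⟩ := Module.Projective.exists_dual_ne_zero 𝔭.ResidueField hv
  have hunit : 𝔭.primeCompl ≤ (IsUnit.submonoid K).comap χ := by
    intro t ht
    rw [Submonoid.mem_comap, IsUnit.mem_submonoid_iff]
    exact IsUnit.mk0 _ (fun h => ht (RingHom.mem_ker.mpr h))
  let ι : 𝔭.ResidueField →+* K := Ideal.ResidueField.lift 𝔭 χ le_rfl hunit
  have hι : ∀ t : T, ι (algebraMap T 𝔭.ResidueField t) = χ t := fun t =>
    Ideal.ResidueField.lift_algebraMap 𝔭 χ le_rfl hunit t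
  let μ : L →+ K :=
    { toFun := fun x => ι (φ ((1 : 𝔭.ResidueField) ⊗ₜ[T] x))
      map_zero' := by rw [TensorProduct.tmul_zero, map_zero, map_zero]
      map_add' := fun x y => by rw [TensorProduct.tmul_add, map_add, map_add] }
  have hμ : ∀ x, μ x = ι (φ ((1 : 𝔭.ResidueField) ⊗ₜ[T] x)) := fun _ => rfl
  refine ⟨μ, ?_, ?_⟩
  · intro h0
    apply hφ
    have hzero : ∀ x : L, φ ((1 : 𝔭.ResidueField) ⊗ₜ[T] x) = 0 := by
      intro x
      have := congrArg (fun m : L →+ K => m x) h0
      simp only [hμ, AddMonoidHom.zero_apply] at this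
      exact (map_eq_zero ι).mp this
    have hall : ∀ w : 𝔭.ResidueField ⊗[T] L, φ w = 0 := by
      intro w
      induction w using TensorProduct.induction_on with
      | zero => exact map_zero φ
      | tmul a x =>
        have : a ⊗ₜ[T] x = a • ((1 : 𝔭.ResidueField) ⊗ₜ[T] x) := by
          rw [TensorProduct.smul_tmul', smul_eq_mul, mul_one]
        rw [this, map_smul, hzero, smul_zero]
      | add x y hx hy => rw [map_add, hx, hy, add_zero]
    exact hall v
  · intro t x
    rw [hμ, hμ, ← hι t, ← map_mul]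
    congr 1
    have : (1 : 𝔭.ResidueField) ⊗ₜ[T] (t • x)
        = (algebraMap T 𝔭.ResidueField t) • ((1 : 𝔭.ResidueField) ⊗ₜ[T] x) := by
      rw [TensorProduct.tmul_smul, TensorProduct.smul_tmul', TensorProduct.smul_tmul',
        smul_eq_mul, mul_one, Algebra.smul_def, mul_one]
    rw [this, map_smul, smul_eq_mul]

/-- Auxiliary form of `exists_eigen_coeffs` with an arbitrary fraction field. -/
theorem exists_eigen_coeffs_aux {T : Type*} [CommRing T] {L : Type*} [AddCommGroup L]
    (ρ : T →+* Module.End ℤ L) (hρ : Function.Injective ρ)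
    {ι : Type*} [Fintype ι] (b : Module.Basis ι ℤ L)
    {A : Type*} [CommRing A] [IsDomain A] (K : Type*) [Field K] [Algebra A K]
    [IsFractionRing A K] (χ : T →+* A) :
    ∃ w : ι → A, w ≠ 0 ∧
      ∀ (t : T) (k : ι), ∑ j, w j * ((b.repr (ρ t (b k)) j : ℤ) : A) = χ t * w k := by
  classical
  let _ : Module T L := Module.compHom L ρ
  have hsmul : ∀ (t : T) (x : L), t • x = ρ t x := fun _ _ => rfl
  have : Module.Finite T L := by
    refine ⟨⟨Finset.univ.image b, ?_⟩⟩
    rw [eq_top_iff]
    intro x _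
    rw [← b.sum_repr x]
    refine Submodule.sum_mem _ fun j _ => ?_
    have hb : b j ∈ Submodule.span T ((Finset.univ.image b : Finset L) : Set L) :=
      Submodule.subset_span (by simp)
    have : (b.repr x j) • b j = ((b.repr x j : ℤ) : T) • b j := by
      rw [hsmul, map_intCast]
      rfl
    rw [this]
    exact Submodule.smul_mem _ _ hb
  have hfaith : ∀ t : T, (∀ x : L, t • x = 0) → t = 0 := by
    intro t ht
    apply hρ
    rw [map_zero]
    exact LinearMap.ext fun x => ht x
  obtain ⟨μ, hμ0, hμ⟩ := exists_semilinear_functional hfaith ((algebraMap A K).comp χ)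
  obtain ⟨d, hd⟩ := IsLocalization.exist_integer_multiples_of_finite (nonZeroDivisors A)
    (fun j : ι => μ (b j))
  choose w hw using hd
  have hd0 : algebraMap A K (d : A) ≠ 0 := by
    intro h
    exact nonZeroDivisors.coe_ne_zero d ((IsFractionRing.injective A K) (by rw [h, map_zero]))
  have hw' : ∀ j, algebraMap A K (w j) = algebraMap A K (d : A) * μ (b j) := by
    intro j
    rw [hw j, Algebra.smul_def]
  refine ⟨w, ?_, ?_⟩
  · intro hw0
    apply hμ0
    have hb0 : ∀ j, μ (b j) = 0 := by
      intro j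
      have h1 := hw' j
      rw [hw0, Pi.zero_apply, map_zero] at h1
      rcases mul_eq_zero.mp h1.symm with h | h
      · exact absurd h hd0
      · exact h
    have hall : ∀ x : L, μ x = 0 := by
      intro x
      rw [← b.sum_repr x, map_sum]
      refine Finset.sum_eq_zero fun j _ => ?_
      rw [map_zsmul, hb0, smul_zero]
    exact AddMonoidHom.ext hall
  · intro t k
    apply IsFractionRing.injective A K
    have h1 : μ (ρ t (b k)) = algebraMap A K (χ t) * μ (b k) := hμ t (b k)
    have h2 : μ (ρ t (b k)) = ∑ j, ((b.repr (ρ t (b k)) j : ℤ) : K) * μ (b j) := by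
      conv_lhs => rw [← b.sum_repr (ρ t (b k))]
      rw [map_sum]
      refine Finset.sum_congr rfl fun j _ => ?_
      rw [map_zsmul, zsmul_eq_mul]
    rw [map_sum, map_mul, hw' k]
    calc ∑ j, algebraMap A K (w j * ((b.repr (ρ t (b k)) j : ℤ) : A))
        = ∑ j, algebraMap A K (d : A) * (((b.repr (ρ t (b k)) j : ℤ) : K) * μ (b j)) := by
          refine Finset.sum_congr rfl fun j _ => ?_
          rw [map_mul, hw' j, map_intCast]
          ring
      _ = algebraMap A K (d : A) * μ (ρ t (b k)) := by rw [h2, Finset.mul_sum]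
      _ = algebraMap A K (χ t) * (algebraMap A K (d : A) * μ (b k)) := by rw [h1]; ring

/-- Lattice form of `exists_semilinear_functional`: a commutative ring `T` acting faithfully
(through `ρ`) on a free abelian group `L` of finite rank with basis `b`, and a ring homomorphism
`χ` from `T` to a domain `A`.  There is a nonzero `w : ι → A` with
`∑ j, w j * [ρ t]_{j k} = χ t * w k` for all `t`, where `[ρ t]_{j k} = b.repr (ρ t (b k)) j`. -/
theorem exists_eigen_coeffs {T : Type*} [CommRing T] {L : Type*} [AddCommGroup L]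
    (ρ : T →+* Module.End ℤ L) (hρ : Function.Injective ρ)
    {ι : Type*} [Fintype ι] (b : Module.Basis ι ℤ L)
    {A : Type*} [CommRing A] [IsDomain A] (χ : T →+* A) :
    ∃ w : ι → A, w ≠ 0 ∧
      ∀ (t : T) (k : ι), ∑ j, w j * ((b.repr (ρ t (b k)) j : ℤ) : A) = χ t * w k :=
  exists_eigen_coeffs_aux ρ hρ b (FractionRing A) χ

end Fermat.Agent.S30.H709

end
-- ===== PACK-END S30/H709/EigenAlg.lean

-- ===== PACK-BEGIN S28/H565/TExp.lean
section



/-!
# S28 analytic bridge, part 1: convergent `t`-expansions (helper565)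

`HasTExp h f φ` says that the function `f : ℍ → ℂ` is given, at every point of the upper
half plane, by the (absolutely) convergent Laurent expansion `φ` in the local parameter
`t = exp (2 π i τ / h)`.  We prove that this relation is compatible with the ring operations,
that `φ` is determined by `f`, and that it is compatible with `qExpand`.
-/

set_option autoImplicit false

noncomputable section

open UpperHalfPlane Complex Function
open scoped Real

namespace Fermat.Agent.S28.H565

local notation "𝕢" => Periodic.qParam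

/-- `f` is given on all of `ℍ` by the convergent power series `P` in `t = exp (2πiτ/h)`. -/
def HasPExp (h : ℝ) (f : ℍ → ℂ) (P : PowerSeries ℂ) : Prop :=
  ∀ τ : ℍ, HasSum (fun n : ℕ => PowerSeries.coeff n P * 𝕢 h τ ^ n) (f τ)

/-- `f` is given on all of `ℍ` by the convergent Laurent series `φ` in `t = exp (2πiτ/h)`. -/
def HasTExp (h : ℝ) (f : ℍ → ℂ) (φ : LaurentSeries ℂ) : Prop :=
  ∀ τ : ℍ, HasSum (fun n : ℤ => φ.coeff n * 𝕢 h τ ^ n) (f τ)

section PExp

variable {h : ℝ} {f g : ℍ → ℂ} {P Q : PowerSeries ℂ}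

theorem HasPExp.congr (hf : HasPExp h f P) (hfg : ∀ τ, f τ = g τ) : HasPExp h g P :=
  fun τ => hfg τ ▸ hf τ

theorem HasPExp.add (hf : HasPExp h f P) (hg : HasPExp h g Q) : HasPExp h (f + g) (P + Q) := by
  intro τ
  have := (hf τ).add (hg τ)
  simpa [add_mul] using this

theorem HasPExp.zero : HasPExp h 0 0 := by
  intro τ
  simp [hasSum_zero]

theorem HasPExp.const (c : ℂ) : HasPExp h (fun _ => c) (PowerSeries.C c) := by
  intro τ
  have := hasSum_ite_eq (0 : ℕ) c
  refine this.congr_fun ?_ |>.mono_left le_rfl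
  intro n
  by_cases hn : n = 0
  · subst hn; simp
  · simp [PowerSeries.coeff_C, hn]

theorem HasPExp.smul (c : ℂ) (hf : HasPExp h f P) : HasPExp h (c • f) (c • P) := by
  intro τ
  have := (hf τ).mul_left c
  simpa [mul_assoc] using this

theorem HasPExp.neg (hf : HasPExp h f P) : HasPExp h (-f) (-P) := by
  intro τ
  have := (hf τ).neg
  simpa using this

theorem HasPExp.sub (hf : HasPExp h f P) (hg : HasPExp h g Q) : HasPExp h (f - g) (P - Q) := by
  intro τ
  have := (hf τ).sub (hg τ)
  simpa [sub_mul] using this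

theorem HasPExp.mul (hf : HasPExp h f P) (hg : HasPExp h g Q) : HasPExp h (f * g) (P * Q) := by
  intro τ
  have h1 := hf τ
  have h2 := hg τ
  have n1 : Summable fun n : ℕ => ‖PowerSeries.coeff n P * 𝕢 h τ ^ n‖ := h1.summable.norm
  have n2 : Summable fun n : ℕ => ‖PowerSeries.coeff n Q * 𝕢 h τ ^ n‖ := h2.summable.norm
  have key := tsum_mul_tsum_eq_tsum_sum_antidiagonal_of_summable_norm n1 n2
  have hs := (summable_norm_sum_mul_antidiagonal_of_summable_norm n1 n2).of_norm
  rw [h1.tsum_eq, h2.tsum_eq] at key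
  have hfun : (fun n : ℕ => PowerSeries.coeff n (P * Q) * 𝕢 h τ ^ n) =
      fun n => ∑ kl ∈ Finset.HasAntidiagonal.antidiagonal n,
        (PowerSeries.coeff kl.1 P * 𝕢 h τ ^ kl.1) * (PowerSeries.coeff kl.2 Q * 𝕢 h τ ^ kl.2) := by
    funext n
    rw [PowerSeries.coeff_mul, Finset.sum_mul]
    refine Finset.sum_congr rfl fun kl hkl => ?_
    rw [Finset.HasAntidiagonal.mem_antidiagonal] at hkl
    rw [← hkl, pow_add]
    ring
  rw [hfun]
  simpa [Pi.mul_apply, key] using hs.hasSum

theorem HasPExp.X : HasPExp h (fun τ => 𝕢 h τ) PowerSeries.X := by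
  intro τ
  have := hasSum_ite_eq (1 : ℕ) (𝕢 h τ)
  refine this.congr_fun ?_ |>.mono_left le_rfl
  intro n
  by_cases hn : n = 1
  · subst hn; simp
  · simp [PowerSeries.coeff_X, hn]

theorem HasPExp.pow (hf : HasPExp h f P) (n : ℕ) : HasPExp h (f ^ n) (P ^ n) := by
  induction n with
  | zero =>
    have := HasPExp.const (h := h) 1
    rw [map_one] at this
    rw [pow_zero, pow_zero]
    exact this
  | succ n ih =>
    rw [pow_succ, pow_succ]
    exact ih.mul hf

theorem cuspFunction_zero_fun (h : ℝ) : cuspFunction h (0 : ℍ → ℂ) = 0 := by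
  simpa [cuspFunction, Periodic.cuspFunction]
      using! (tendsto_const_nhds.mono_left nhdsWithin_le_nhds).limUnder_eq

theorem coeff_eq_zero_of_hasSum_zero {h : ℝ} (hh : 0 < h) (c : ℕ → ℂ)
    (H : ∀ τ : ℍ, HasSum (fun n : ℕ => c n * 𝕢 h τ ^ n) 0) (m : ℕ) : c m = 0 := by
  have han : AnalyticAt ℂ (cuspFunction h (0 : ℍ → ℂ)) 0 := by
    rw [cuspFunction_zero_fun]; exact analyticAt_const
  have H' : ∀ τ : ℍ, HasSum (fun n : ℕ => c n • 𝕢 h τ ^ n) ((0 : ℍ → ℂ) τ) := fun τ => H τ
  have h1 := (hasFPowerSeriesOnBall_cuspFunction hh han H').hasFPowerSeriesAt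
  rw [cuspFunction_zero_fun] at h1
  have h2 := h1.eq_zero
  have h3 := congrArg (fun p => FormalMultilinearSeries.coeff p m) h2
  simp only [FormalMultilinearSeries.coeff_ofScalars] at h3
  rw [h3]
  rfl

theorem HasPExp.eq_zero (hh : 0 < h) (H : HasPExp h 0 P) : P = 0 := by
  ext m
  simpa using coeff_eq_zero_of_hasSum_zero hh (fun n => PowerSeries.coeff n P) (fun τ => H τ) m

theorem HasPExp.unique (hh : 0 < h) (hP : HasPExp h f P) (hQ : HasPExp h f Q) : P = Q := by
  have := (hP.sub hQ)
  rw [sub_self] at this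
  exact sub_eq_zero.mp (this.eq_zero hh)

/-- A function with a convergent power series expansion is bounded at `i∞`. -/
theorem HasPExp.isBoundedAtImInfty (hh : 0 < h) (hf : HasPExp h f P) :
    IsBoundedAtImInfty f :=
  UpperHalfPlane.isBoundedAtImInfty_of_hasSum_qExpansion (c := fun n => PowerSeries.coeff n P) hh
    (fun τ => by simpa using hf τ)

end PExp

section TExp

variable {h : ℝ} {f g : ℍ → ℂ} {φ ψ : LaurentSeries ℂ}

theorem HasTExp.congr (hf : HasTExp h f φ) (hfg : ∀ τ, f τ = g τ) : HasTExp h g φ :=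
  fun τ => hfg τ ▸ hf τ

theorem HasTExp.add (hf : HasTExp h f φ) (hg : HasTExp h g ψ) : HasTExp h (f + g) (φ + ψ) := by
  intro τ
  have := (hf τ).add (hg τ)
  simpa [add_mul] using this

theorem HasTExp.zero : HasTExp h 0 0 := by
  intro τ
  simp [hasSum_zero]

theorem HasTExp.neg (hf : HasTExp h f φ) : HasTExp h (-f) (-φ) := by
  intro τ
  have := (hf τ).neg
  simpa using this

theorem HasTExp.sub (hf : HasTExp h f φ) (hg : HasTExp h g ψ) : HasTExp h (f - g) (φ - ψ) := by
  intro τ
  have := (hf τ).sub (hg τ)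
  simpa [sub_mul] using this

theorem HasTExp.smul (c : ℂ) (hf : HasTExp h f φ) : HasTExp h (c • f) (c • φ) := by
  intro τ
  have := (hf τ).mul_left c
  simpa [mul_assoc] using this

/-- Key bridge between Laurent and power series expansions. -/
theorem hasTExp_single_mul_iff (m : ℤ) (P : PowerSeries ℂ) :
    HasTExp h f (HahnSeries.single m (1 : ℂ) * HahnSeries.ofPowerSeries ℤ ℂ P) ↔
      HasPExp h (fun τ => f τ * 𝕢 h τ ^ (-m)) P := by
  have key : ∀ τ : ℍ,
      HasSum (fun n : ℤ =>
        (HahnSeries.single m (1 : ℂ) * HahnSeries.ofPowerSeries ℤ ℂ P).coeff n * 𝕢 h τ ^ n) (f τ) ↔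
      HasSum (fun n : ℕ => PowerSeries.coeff n P * 𝕢 h τ ^ n) (f τ * 𝕢 h τ ^ (-m)) := by
    intro τ
    have hq : 𝕢 h τ ≠ 0 := Periodic.qParam_ne_zero _
    have hι : Function.Injective (fun k : ℕ => (k : ℤ) + m) := by
      intro a b hab
      simpa using hab
    have hzero : ∀ n ∉ Set.range (fun k : ℕ => (k : ℤ) + m),
        (HahnSeries.single m (1 : ℂ) * HahnSeries.ofPowerSeries ℤ ℂ P).coeff n * 𝕢 h τ ^ n = 0 := by
      intro n hn
      have hlt : n - m < 0 := by
        by_contra hge
        rw [not_lt] at hge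
        exact hn ⟨(n - m).toNat, by simp [Int.toNat_of_nonneg hge]⟩
      rw [HahnSeries.coeff_single_mul, ModularCurve.ofPowerSeries_coeff_of_neg _ hlt]
      simp
    rw [← hι.hasSum_iff hzero]
    have hfun : ((fun n : ℤ =>
        (HahnSeries.single m (1 : ℂ) * HahnSeries.ofPowerSeries ℤ ℂ P).coeff n * 𝕢 h τ ^ n) ∘
          fun k : ℕ => (k : ℤ) + m) =
        fun k : ℕ => (PowerSeries.coeff k P * 𝕢 h τ ^ k) * 𝕢 h τ ^ m := by
      funext k
      simp only [Function.comp_apply]
      rw [HahnSeries.coeff_single_mul_add, HahnSeries.ofPowerSeries_apply_coeff, one_mul,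
        zpow_add₀ hq, zpow_natCast, mul_assoc]
    rw [hfun]
    have hval : f τ = (f τ * 𝕢 h τ ^ (-m)) * 𝕢 h τ ^ m := by
      rw [mul_assoc, ← zpow_add₀ hq, neg_add_cancel, zpow_zero, mul_one]
    conv_lhs => rw [hval]
    exact hasSum_mul_right_iff (zpow_ne_zero m hq)
  exact ⟨fun H τ => (key τ).mp (H τ), fun H τ => (key τ).mpr (H τ)⟩

/-- Any Laurent expansion can be rewritten as a power series expansion. -/
theorem HasTExp.hasPExp (hf : HasTExp h f φ) :
    HasPExp h (fun τ => f τ * 𝕢 h τ ^ (-φ.order)) φ.powerSeriesPart := by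
  rw [← hasTExp_single_mul_iff, LaurentSeries.single_order_mul_powerSeriesPart]
  exact hf

theorem HasPExp.hasTExp {P : PowerSeries ℂ} (hf : HasPExp h f P) :
    HasTExp h f (HahnSeries.ofPowerSeries ℤ ℂ P) := by
  have := (hasTExp_single_mul_iff (h := h) (f := f) 0 P).mpr (by simpa using hf)
  simpa using this

theorem HasTExp.mul (hf : HasTExp h f φ) (hg : HasTExp h g ψ) : HasTExp h (f * g) (φ * ψ) := by
  have h1 := hf.hasPExp
  have h2 := hg.hasPExp
  have h3 := h1.mul h2
  have hφψ : φ * ψ = HahnSeries.single (φ.order + ψ.order) (1 : ℂ) *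
      HahnSeries.ofPowerSeries ℤ ℂ (φ.powerSeriesPart * ψ.powerSeriesPart) := by
    conv_lhs => rw [← LaurentSeries.single_order_mul_powerSeriesPart φ,
      ← LaurentSeries.single_order_mul_powerSeriesPart ψ]
    rw [map_mul, ← mul_one (1 : ℂ), ← HahnSeries.single_mul_single, mul_one]
    ring
  rw [hφψ, hasTExp_single_mul_iff]
  refine h3.congr fun τ => ?_
  have hq : 𝕢 h τ ≠ 0 := Periodic.qParam_ne_zero _
  simp only [Pi.mul_apply]
  rw [neg_add, zpow_add₀ hq]
  ring

theorem HasTExp.const (c : ℂ) : HasTExp h (fun _ => c) (HahnSeries.C c) := by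
  have := (HasPExp.const (h := h) c).hasTExp
  rwa [HahnSeries.ofPowerSeries_C] at this

theorem HasTExp.one : HasTExp h 1 1 := by
  have := HasTExp.const (h := h) 1
  rw [map_one] at this
  exact this

theorem HasTExp.pow (hf : HasTExp h f φ) (n : ℕ) : HasTExp h (f ^ n) (φ ^ n) := by
  induction n with
  | zero =>
    rw [pow_zero, pow_zero]
    exact HasTExp.one
  | succ n ih =>
    rw [pow_succ, pow_succ]
    exact ih.mul hf

theorem HasTExp.single (m : ℤ) : HasTExp h (fun τ => 𝕢 h τ ^ m) (HahnSeries.single m (1 : ℂ)) := by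
  have h1 : HasPExp h (fun τ => 𝕢 h τ ^ m * 𝕢 h τ ^ (-m)) 1 := by
    have := HasPExp.const (h := h) 1
    rw [map_one] at this
    refine this.congr fun τ => ?_
    have hq : 𝕢 h τ ≠ 0 := Periodic.qParam_ne_zero _
    rw [← zpow_add₀ hq, add_neg_cancel, zpow_zero]
  have := (hasTExp_single_mul_iff (h := h) (f := fun τ => 𝕢 h τ ^ m) m 1).mpr h1
  simpa using this

theorem HasTExp.eq_zero (hh : 0 < h) (H : HasTExp h 0 φ) : φ = 0 := by
  have h1 := H.hasPExp
  have h2 : HasPExp h 0 φ.powerSeriesPart := h1.congr fun τ => by simp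
  have h3 := h2.eq_zero hh
  rw [← LaurentSeries.single_order_mul_powerSeriesPart φ, h3]
  simp

theorem HasTExp.unique (hh : 0 < h) (hφ : HasTExp h f φ) (hψ : HasTExp h f ψ) : φ = ψ := by
  have := hφ.sub hψ
  rw [sub_self] at this
  exact sub_eq_zero.mp (this.eq_zero hh)

/-- If a function has an expansion, the function is determined by the expansion. -/
theorem HasTExp.fun_unique (hf : HasTExp h f φ) (hg : HasTExp h g φ) : f = g :=
  funext fun τ => (hf τ).unique (hg τ)

/-- Polynomial expressions: if `f` has expansion `φ` then `Q ∘ f` has expansion `Q(φ)`. -/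
theorem HasTExp.polynomial_aeval (hf : HasTExp h f φ) (Q : Polynomial ℂ) :
    HasTExp h (fun τ => Q.eval (f τ)) (Polynomial.aeval φ Q) := by
  induction Q using Polynomial.induction_on' with
  | add p q hp hq =>
    rw [map_add]
    exact (hp.add hq).congr fun τ => by simp
  | monomial n a =>
    rw [Polynomial.aeval_monomial]
    have h1 := (HasTExp.const (h := h) a).mul (hf.pow n)
    have h2 : algebraMap ℂ (LaurentSeries ℂ) a = HahnSeries.C a := by
      rw [ModularCurve.algebraMap_laurentSeries_eq_single]; rfl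
    rw [h2]
    exact h1.congr fun τ => by simp [Polynomial.eval_monomial]

theorem qParam_mul_pow (h : ℝ) (m : ℕ) (hm : m ≠ 0) (z : ℂ) (k : ℤ) :
    𝕢 (h * m) z ^ ((m : ℤ) * k) = 𝕢 h z ^ k := by
  have hm' : (m : ℂ) ≠ 0 := by exact_mod_cast hm
  simp only [Periodic.qParam]
  rw [← Complex.exp_int_mul, ← Complex.exp_int_mul]
  congr 1
  push_cast
  rcases eq_or_ne (h : ℂ) 0 with h0 | h0
  · simp [h0]
  · field_simp

/-- Change of parameter `t ↦ t^m`: an expansion in `exp (2πiτ/h)` gives one in
`exp (2πiτ/(hm))`. -/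
theorem HasTExp.qExpand (m : ℕ) [NeZero m] (hf : HasTExp h f φ) :
    HasTExp (h * m) f (ModularCurve.qExpand ℂ m φ) := by
  intro τ
  have hm : (m : ℤ) ≠ 0 := by exact_mod_cast NeZero.ne m
  have hι : Function.Injective (fun k : ℤ => (m : ℤ) * k) := mul_right_injective₀ hm
  have hzero : ∀ n ∉ Set.range (fun k : ℤ => (m : ℤ) * k),
      (ModularCurve.qExpand ℂ m φ).coeff n * 𝕢 (h * m) τ ^ n = 0 := by
    intro n hn
    rw [ModularCurve.qExpand_coeff_of_not_dvd, zero_mul]
    rintro ⟨c, rfl⟩
    exact hn ⟨c, rfl⟩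
  rw [← hι.hasSum_iff hzero]
  have hfun : ((fun n : ℤ => (ModularCurve.qExpand ℂ m φ).coeff n * 𝕢 (h * m) τ ^ n) ∘
      fun k : ℤ => (m : ℤ) * k) = fun k : ℤ => φ.coeff k * 𝕢 h τ ^ k := by
    funext k
    simp only [Function.comp_apply]
    rw [ModularCurve.qExpand_coeff_mul, qParam_mul_pow h m (NeZero.ne m)]
  rw [hfun]
  exact hf τ

theorem HasTExp.qExpand_one (m : ℕ) [NeZero m] (hf : HasTExp 1 f φ) :
    HasTExp m f (ModularCurve.qExpand ℂ m φ) := by
  have := hf.qExpand m
  rwa [one_mul] at this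

end TExp

end Fermat.Agent.S28.H565

end
end
-- ===== PACK-END S28/H565/TExp.lean

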