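import Mathlib
import Fermat.Prelude.Thm_ModularForm_sturm_bound_Gamma0
import Fermat.Prelude.Def_GaloisRep_Residual
import Mathlib.NumberTheory.ModularForms.QExpansion
import Mathlib.RingTheory.LaurentSeries
import Fermat.Prelude.Def_AlgebraicCurve_Correspondence
import Fermat.Prelude.Def_ModularCurve_PeriodHomPair
import Fermat.Prelude.Def_ModularForm_HeckeOperatorForms
import Fermat.Prelude.Thm_ModularForm_heckeT_slash_eq_self_of_mem_Gamma0
import Fermat.Prelude.Def_ModularCurve_PeriodMap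

-- ===== PACK-BEGIN S30/H990/Quad.lean
section
/-
S30 top glue (helper990): pure algebra, part 1.

* `lucas`           : `h² - a h + b = 0`  ⟹  `(h^j)² - t (h^j) + b^j = 0` for some scalar `t`.
* `anticomm_of_rel` : quadratic relations for `x`, `x y` with `y² = 1` and "determinants" `d`, `-d`
                      give `x y + y x = a' + a y`.
* `Matrix` lemmas for `2 × 2` matrices satisfying a quadratic relation.
-/


set_option autoImplicit false

namespace Fermat.Agent.S30.H990

section Lucas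

variable {R A : Type*} [CommRing R] [Ring A] [Algebra R A]

/-- If `h` satisfies `X² - aX + b`, then `h ^ j` satisfies `X² - tX + b ^ j` for some `t`. -/
theorem lucas (h : A) (a b : R) (hrel : h * h - a • h + b • (1 : A) = 0) (j : ℕ) :
    ∃ t : R, h ^ j * h ^ j - t • h ^ j + (b ^ j) • (1 : A) = 0 := by
  -- the "conjugate" of `h`
  set k : A := a • (1 : A) - h with hk
  have hcomm : Commute h k := by
    have : Commute h (a • (1 : A)) := (Commute.one_right h).smul_right a
    exact this.sub_right (Commute.refl h)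
  have hhk : h * k = b • (1 : A) := by
    have : h * k = a • h - h * h := by
      rw [hk, mul_sub, mul_smul_comm, mul_one]
    rw [this]
    calc a • h - h * h = b • (1 : A) - (h * h - a • h + b • (1 : A)) := by abel
      _ = b • (1 : A) := by rw [hrel, sub_zero]
  have hsum : h + k = a • (1 : A) := by rw [hk]; abel
  -- power sums are scalars
  have key : ∀ n : ℕ, (∃ t : R, h ^ n + k ^ n = t • (1 : A)) ∧
      (∃ t : R, h ^ (n + 1) + k ^ (n + 1) = t • (1 : A)) := by
    intro n
    induction n with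
    | zero =>
      refine ⟨⟨2, ?_⟩, ⟨a, ?_⟩⟩
      · rw [pow_zero, pow_zero, two_smul]
      · rw [zero_add, pow_one, pow_one, hsum]
    | succ n ih =>
      obtain ⟨⟨t0, h0⟩, ⟨t1, h1⟩⟩ := ih
      refine ⟨⟨t1, h1⟩, ⟨a * t1 - b * t0, ?_⟩⟩
      have e1 : h ^ (n + 1 + 1) + k ^ (n + 1 + 1)
          = (h + k) * (h ^ (n + 1) + k ^ (n + 1)) - (h * k) * (h ^ n + k ^ n) := by
        have c1 : k * h ^ (n + 1) = (h * k) * h ^ n := by
          rw [pow_succ', ← mul_assoc, hcomm.eq]
        have c2 : h * k ^ (n + 1) = (h * k) * k ^ n := by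
          rw [pow_succ', ← mul_assoc]
        rw [add_mul, mul_add, mul_add, mul_add, c1, c2, pow_succ' h (n + 1), pow_succ' k (n + 1)]
        abel
      rw [e1, hsum, hhk, h1, h0]
      simp only [mul_smul_comm, mul_one, smul_smul, sub_smul]
      rw [mul_comm t1 a, mul_comm t0 b]
  obtain ⟨t, ht⟩ := (key j).1
  refine ⟨t, ?_⟩
  have hprod : h ^ j * k ^ j = (b ^ j) • (1 : A) := by
    rw [← hcomm.mul_pow, hhk, smul_pow, one_pow]
  have : h ^ j * h ^ j - t • h ^ j + (b ^ j) • (1 : A) = h ^ j * (h ^ j + k ^ j - t • (1 : A)) := by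
    rw [mul_sub, mul_add, hprod, mul_smul_comm, mul_one]
    abel
  rw [this, ht, sub_self, mul_zero]

end Lucas

section Anticomm

variable {R A : Type*} [CommRing R] [Ring A] [Algebra R A]

/-- The anticommutator identity. -/
theorem anticomm_of_rel (x y : A) (a a' : R) (d : Rˣ) (hy : y * y = 1)
    (hx : x * x - a • x + (d : R) • (1 : A) = 0)
    (hxy : (x * y) * (x * y) - a' • (x * y) + (-(d : R)) • (1 : A) = 0) :
    x * y + y * x = a' • (1 : A) + a • y := by
  -- `x y x = a' x + d y`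
  have h1 : x * y * x = a' • x + (d : R) • y := by
    have := congrArg (· * y) hxy
    simp only [zero_mul, add_mul, sub_mul, smul_mul_assoc, neg_smul, neg_mul, one_mul] at this
    have e : x * y * (x * y) * y = x * y * x := by
      rw [mul_assoc (x * y) (x * y) y, mul_assoc x y y, hy, mul_one]
    have e' : x * y * y = x := by rw [mul_assoc, hy, mul_one]
    rw [e, e'] at this
    calc x * y * x = (x * y * x - a' • x + -((d : R) • y)) + (a' • x + (d : R) • y) := by abel
      _ = a' • x + (d : R) • y := by rw [this, zero_add]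
  -- `(a - x) x = d`
  have h2 : (a • (1 : A) - x) * x = (d : R) • (1 : A) := by
    rw [sub_mul, smul_mul_assoc, one_mul]
    calc a • x - x * x = (d : R) • (1 : A) - (x * x - a • x + (d : R) • (1 : A)) := by abel
      _ = (d : R) • (1 : A) := by rw [hx, sub_zero]
  have h3 : (d : R) • (y * x) = (d : R) • (a' • (1 : A) + a • y - x * y) := by
    have : (a • (1 : A) - x) * (x * y * x) = (d : R) • (y * x) := by
      rw [← mul_assoc, ← mul_assoc, h2, smul_mul_assoc, one_mul, smul_mul_assoc]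
    rw [← this, h1, mul_add, mul_smul_comm, mul_smul_comm, h2, sub_mul, smul_mul_assoc, one_mul]
    simp only [smul_add, smul_sub, smul_smul]
    rw [mul_comm a' (d : R), mul_comm (d : R) a]
    abel
  have h4 : y * x = a' • (1 : A) + a • y - x * y := by
    have := congrArg (fun z => ((d⁻¹ : Rˣ) : R) • z) h3
    simpa only [smul_smul, Units.inv_mul, one_smul] using this
  rw [h4]; abel

end Anticomm

end Fermat.Agent.S30.H990

namespace Fermat.Agent.S30.H990

section Mat2

open Matrix

variable {R : Type*} [CommRing R]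

/-- Cayley–Hamilton for `2 × 2` matrices, by hand. -/
theorem mat2_cayley (X : Matrix (Fin 2) (Fin 2) R) :
    X * X - X.trace • X + X.det • (1 : Matrix (Fin 2) (Fin 2) R) = 0 := by
  ext i j
  fin_cases i <;> fin_cases j <;>
    simp [Matrix.mul_apply, Fin.sum_univ_two, Matrix.trace_fin_two, Matrix.det_fin_two] <;> ring

variable [IsDomain R]

/-- A `2 × 2` matrix satisfying `X² - aX + d = 0` has trace `a` and determinant `d`,
or it is a scalar matrix. -/
theorem mat2_dichotomy (X : Matrix (Fin 2) (Fin 2) R) (a d : R)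
    (h : X * X - a • X + d • (1 : Matrix (Fin 2) (Fin 2) R) = 0) :
    (X.trace = a ∧ X.det = d) ∨ ∃ l : R, X = l • (1 : Matrix (Fin 2) (Fin 2) R) := by
  have hc := mat2_cayley X
  have key : (X.trace - a) • X = (X.det - d) • (1 : Matrix (Fin 2) (Fin 2) R) := by
    have : (X.trace - a) • X - (X.det - d) • (1 : Matrix (Fin 2) (Fin 2) R)
        = (X * X - a • X + d • (1 : Matrix (Fin 2) (Fin 2) R))
          - (X * X - X.trace • X + X.det • (1 : Matrix (Fin 2) (Fin 2) R)) := by
      simp only [sub_smul]; abel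
    rw [h, hc, sub_zero] at this
    exact sub_eq_zero.mp this
  by_cases ht : X.trace = a
  · left
    refine ⟨ht, ?_⟩
    have h00 := congrFun (congrFun key 0) 0
    simp only [ht, sub_self, Matrix.smul_apply, Matrix.one_apply_eq,
      smul_eq_mul, mul_one, zero_mul] at h00
    exact (sub_eq_zero.mp h00.symm)
  · right
    have hne : X.trace - a ≠ 0 := sub_ne_zero.mpr ht
    have h00 := congrFun (congrFun key 0) 0
    have h01 := congrFun (congrFun key 0) 1
    have h10 := congrFun (congrFun key 1) 0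
    have h11 := congrFun (congrFun key 1) 1
    simp only [Matrix.smul_apply, smul_eq_mul, Matrix.one_apply_eq, mul_one] at h00 h11
    simp only [Matrix.smul_apply, smul_eq_mul, ne_eq, zero_ne_one, not_false_eq_true,
      Matrix.one_apply_ne, mul_zero, mul_eq_zero, hne, false_or] at h01
    simp only [Matrix.smul_apply, smul_eq_mul, ne_eq, one_ne_zero, not_false_eq_true,
      Matrix.one_apply_ne, mul_zero, mul_eq_zero, hne, false_or] at h10
    have hd : X 0 0 = X 1 1 := mul_left_cancel₀ hne (h00.trans h11.symm)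
    refine ⟨X 0 0, ?_⟩
    ext i j
    fin_cases i <;> fin_cases j <;> simp [h01, h10, hd]

/-- If `l • C` is scalar with `l ≠ 0`, then `C` is scalar. -/
theorem mat2_scalar_of_smul_scalar (C : Matrix (Fin 2) (Fin 2) R) (l m : R) (hl : l ≠ 0)
    (h : l • C = m • (1 : Matrix (Fin 2) (Fin 2) R)) :
    ∃ n : R, C = n • (1 : Matrix (Fin 2) (Fin 2) R) := by
  have h00 := congrFun (congrFun h 0) 0
  have h01 := congrFun (congrFun h 0) 1
  have h10 := congrFun (congrFun h 1) 0
  have h11 := congrFun (congrFun h 1) 1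
  simp only [Matrix.smul_apply, smul_eq_mul, Matrix.one_apply_eq, mul_one] at h00 h11
  simp only [Matrix.smul_apply, smul_eq_mul, ne_eq, zero_ne_one, not_false_eq_true,
    Matrix.one_apply_ne, mul_zero, mul_eq_zero, hl, false_or] at h01
  simp only [Matrix.smul_apply, smul_eq_mul, ne_eq, one_ne_zero, not_false_eq_true,
    Matrix.one_apply_ne, mul_zero, mul_eq_zero, hl, false_or] at h10
  have hd : C 0 0 = C 1 1 := mul_left_cancel₀ hl (h00.trans h11.symm)
  refine ⟨C 0 0, ?_⟩
  ext i j
  fin_cases i <;> fin_cases j <;> simp [h01, h10, hd]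

/-- Trace and determinant of a two-dimensional matrix representation all of whose elements
satisfy quadratic relations with multiplicative constant term, in the presence of a non-scalar
element `c` with `d c = -1`. -/
theorem mat2_trace_det_of_rel {G : Type*} [Group G] (A : G →* Matrix (Fin 2) (Fin 2) R)
    (d : G →* Rˣ)
    (hrel : ∀ g, ∃ a : R, A g * A g - a • A g + ((d g : Rˣ) : R) • 1 = 0)
    (c : G) (hdc : d c = -1) (hcns : ¬ ∃ l : R, A c = l • (1 : Matrix (Fin 2) (Fin 2) R))
    (g : G) (a : R) (hg : A g * A g - a • A g + ((d g : Rˣ) : R) • 1 = 0) :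
    (A g).trace = a ∧ (A g).det = ((d g : Rˣ) : R) := by
  rcases mat2_dichotomy (A g) a _ hg with h | ⟨l, hl⟩
  · exact h
  -- scalar case
  have hdetc : (A c).det = -1 := by
    obtain ⟨ac, hac⟩ := hrel c
    rcases mat2_dichotomy (A c) ac _ hac with h | h
    · rw [h.2, hdc]; simp
    · exact absurd h hcns
  have hl0 : l ≠ 0 := by
    intro h0
    have h1 : A g * A g⁻¹ = 1 := by rw [← map_mul, mul_inv_cancel, map_one]
    rw [hl, h0, zero_smul, zero_mul] at h1
    exact zero_ne_one h1
  have hgc : A (g * c) = l • A c := by rw [map_mul, hl, smul_mul_assoc, one_mul]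
  obtain ⟨a', ha'⟩ := hrel (g * c)
  have hdetgc : (A (g * c)).det = -((d g : Rˣ) : R) := by
    rcases mat2_dichotomy (A (g * c)) a' _ ha' with h | ⟨m, hm⟩
    · rw [h.2, map_mul, hdc]; simp
    · rw [hgc] at hm
      exact absurd (mat2_scalar_of_smul_scalar (A c) l m hl0 hm) hcns
  have hd : ((d g : Rˣ) : R) = l ^ 2 := by
    rw [hgc, Matrix.det_smul, hdetc, Fintype.card_fin] at hdetgc
    linear_combination hdetgc
  have ha : a = 2 * l := by
    have h00 := congrFun (congrFun hg 0) 0
    rw [hl, hd] at h00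
    simp only [Matrix.add_apply, Matrix.sub_apply, Matrix.mul_apply, Fin.sum_univ_two,
      Matrix.smul_apply, Matrix.one_apply_eq, smul_eq_mul, mul_one, Matrix.zero_apply, ne_eq,
      zero_ne_one, not_false_eq_true, Matrix.one_apply_ne, mul_zero, add_zero] at h00
    have : l * (2 * l - a) = 0 := by linear_combination h00
    rcases mul_eq_zero.mp this with h | h
    · exact absurd h hl0
    · exact (sub_eq_zero.mp h).symm
  constructor
  · rw [hl, Matrix.trace_fin_two]; simp [ha]; ring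
  · rw [hl, hd, Matrix.det_fin_two]; simp; ring

end Mat2

end Fermat.Agent.S30.H990

end
-- ===== PACK-END S30/H990/Quad.lean

-- ===== PACK-BEGIN Lib/Cheb/H993/LogAsymp.lean
section


/-!
# `f = a · log (1/(s-1)) + O(1)` on `(1, 2]`, and prime Dirichlet sums

Small calculus used by the glue piece `M` of the shared library CHEB.
-/

set_option autoImplicit false

namespace Fermat.Agent.Lib.Cheb.H993

noncomputable section

/-- The main term `log (1 / (s - 1))`. -/
def ell (s : ℝ) : ℝ := Real.log (1 / (s - 1))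

/-- `f = a · ell + O(1)` on `(1, 2]`. -/
def LogAsymp (f : ℝ → ℝ) (a : ℝ) : Prop :=
  ∃ C : ℝ, ∀ s : ℝ, 1 < s → s ≤ 2 → |f s - a * ell s| ≤ C

theorem LogAsymp.congr {f g : ℝ → ℝ} {a : ℝ} (hf : LogAsymp f a)
    (h : ∀ s : ℝ, 1 < s → s ≤ 2 → g s = f s) : LogAsymp g a := by
  obtain ⟨C, hC⟩ := hf
  exact ⟨C, fun s h1 h2 => by rw [h s h1 h2]; exact hC s h1 h2⟩

theorem LogAsymp.add {f g : ℝ → ℝ} {a b : ℝ} (hf : LogAsymp f a) (hg : LogAsymp g b) :
    LogAsymp (fun s => f s + g s) (a + b) := by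
  obtain ⟨C, hC⟩ := hf
  obtain ⟨D, hD⟩ := hg
  refine ⟨C + D, fun s h1 h2 => ?_⟩
  have e : f s + g s - (a + b) * ell s = (f s - a * ell s) + (g s - b * ell s) := by ring
  rw [e]
  exact (abs_add_le _ _).trans (add_le_add (hC s h1 h2) (hD s h1 h2))

theorem LogAsymp.sub {f g : ℝ → ℝ} {a b : ℝ} (hf : LogAsymp f a) (hg : LogAsymp g b) :
    LogAsymp (fun s => f s - g s) (a - b) := by
  obtain ⟨C, hC⟩ := hf
  obtain ⟨D, hD⟩ := hg
  refine ⟨C + D, fun s h1 h2 => ?_⟩
  have e : f s - g s - (a - b) * ell s = (f s - a * ell s) - (g s - b * ell s) := by ring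
  rw [e]
  exact (abs_sub _ _).trans (add_le_add (hC s h1 h2) (hD s h1 h2))

theorem LogAsymp.const_mul {f : ℝ → ℝ} {a : ℝ} (c : ℝ) (hf : LogAsymp f a) :
    LogAsymp (fun s => c * f s) (c * a) := by
  obtain ⟨C, hC⟩ := hf
  refine ⟨|c| * C, fun s h1 h2 => ?_⟩
  have e : c * f s - c * a * ell s = c * (f s - a * ell s) := by ring
  rw [e, abs_mul]
  exact mul_le_mul_of_nonneg_left (hC s h1 h2) (abs_nonneg c)

theorem LogAsymp.zero_of_bounded {f : ℝ → ℝ} {K : ℝ}
    (h : ∀ s : ℝ, 1 < s → s ≤ 2 → |f s| ≤ K) : LogAsymp f 0 :=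
  ⟨K, fun s h1 h2 => by simpa using h s h1 h2⟩

theorem LogAsymp.sum {ι : Type*} (t : Finset ι) {f : ι → ℝ → ℝ} {a : ι → ℝ}
    (h : ∀ i ∈ t, LogAsymp (f i) (a i)) :
    LogAsymp (fun s => ∑ i ∈ t, f i s) (∑ i ∈ t, a i) := by
  classical
  induction t using Finset.induction_on with
  | empty =>
    exact ⟨0, fun s _ _ => by simp⟩
  | insert i t hi ih =>
    have h1 := h i (Finset.mem_insert_self i t)
    have h2 := ih (fun j hj => h j (Finset.mem_insert_of_mem hj))
    have h3 := h1.add h2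
    rw [Finset.sum_insert hi]
    exact h3.congr (fun s _ _ => Finset.sum_insert hi)

/-- `ell` is unbounded above on `(1, 2]`. -/
theorem exists_ell_gt (M : ℝ) : ∃ s : ℝ, 1 < s ∧ s ≤ 2 ∧ M < ell s := by
  refine ⟨1 + Real.exp (-(|M| + 1)), ?_, ?_, ?_⟩
  · have := Real.exp_pos (-(|M| + 1)); linarith
  · have h : Real.exp (-(|M| + 1)) ≤ 1 := by
      rw [Real.exp_le_one_iff]; have := abs_nonneg M; linarith
    linarith
  · unfold ell
    have e : (1 + Real.exp (-(|M| + 1)) - 1) = Real.exp (-(|M| + 1)) := by ring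
    rw [e, one_div, ← Real.exp_neg, Real.log_exp]
    have := le_abs_self M
    linarith

/-- If `f = a · ell + O(1)` with `a > 0` then `f` takes arbitrarily large values. -/
theorem LogAsymp.exists_gt {f : ℝ → ℝ} {a : ℝ} (hf : LogAsymp f a) (ha : 0 < a) (M : ℝ) :
    ∃ s : ℝ, 1 < s ∧ s ≤ 2 ∧ M < f s := by
  obtain ⟨C, hC⟩ := hf
  obtain ⟨s, h1, h2, hs⟩ := exists_ell_gt ((M + C) / a)
  refine ⟨s, h1, h2, ?_⟩
  have := (abs_le.mp (hC s h1 h2)).1
  have h3 : M + C < a * ell s := by
    rw [div_lt_iff₀ ha] at hs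
    linarith
  linarith

/-- The prime Dirichlet sum `∑_p a(p) p^{-s}`. -/
def pSum (a : ℕ → ℝ) (s : ℝ) : ℝ := ∑' p : Nat.Primes, a p * ((p : ℕ) : ℝ) ^ (-s)

theorem summable_pSum {a : ℕ → ℝ} {K : ℝ} (h0 : ∀ p, 0 ≤ a p) (hK : ∀ p, a p ≤ K)
    {s : ℝ} (hs : 1 < s) : Summable (fun p : Nat.Primes => a p * ((p : ℕ) : ℝ) ^ (-s)) := by
  have hsum : Summable (fun p : Nat.Primes => K * ((p : ℕ) : ℝ) ^ (-s)) :=
    (Nat.Primes.summable_rpow.mpr (by linarith)).mul_left K
  refine Summable.of_nonneg_of_le (fun p => ?_) (fun p => ?_) hsum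
  · exact mul_nonneg (h0 p) (Real.rpow_nonneg (Nat.cast_nonneg _) _)
  · exact mul_le_mul_of_nonneg_right (hK p) (Real.rpow_nonneg (Nat.cast_nonneg _) _)

theorem pSum_nonneg {a : ℕ → ℝ} (h0 : ∀ p, 0 ≤ a p) (s : ℝ) : 0 ≤ pSum a s :=
  tsum_nonneg fun p => mul_nonneg (h0 p) (Real.rpow_nonneg (Nat.cast_nonneg _) _)

theorem pSum_finset_sum {ι : Type*} (t : Finset ι) {a : ι → ℕ → ℝ} {K : ℝ}
    (h0 : ∀ i p, 0 ≤ a i p) (hK : ∀ i p, a i p ≤ K) {s : ℝ} (hs : 1 < s) :
    pSum (fun p => ∑ i ∈ t, a i p) s = ∑ i ∈ t, pSum (a i) s := by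
  unfold pSum
  rw [← Summable.tsum_finsetSum (fun i _ => summable_pSum (h0 i) (hK i) hs)]
  congr 1
  funext p
  rw [Finset.sum_mul]

/-- A prime sum supported on a finite set of primes is bounded. -/
theorem abs_pSum_le_of_support {a : ℕ → ℝ} {K : ℝ} (B : Finset ℕ) (h0 : ∀ p, 0 ≤ a p)
    (hK : ∀ p, a p ≤ K) (hB : ∀ p, p ∉ B → a p = 0) {s : ℝ} (hs : 1 < s) :
    |pSum a s| ≤ K * B.card := by
  have hK0 : 0 ≤ K := (h0 0).trans (hK 0)
  rw [abs_of_nonneg (pSum_nonneg h0 s)]
  unfold pSum
  -- compare with the finite sum over `B`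
  let T : Finset Nat.Primes := (B.filter Nat.Prime).attach.map
    ⟨fun p => ⟨p.1, (Finset.mem_filter.mp p.2).2⟩, fun p q h => by
      apply Subtype.ext; simpa using congrArg Subtype.val h⟩
  have hT : ∀ p : Nat.Primes, p ∉ T → a p * ((p : ℕ) : ℝ) ^ (-s) = 0 := by
    intro p hp
    have : (p : ℕ) ∉ B := by
      intro hpB
      apply hp
      simp only [T, Finset.mem_map, Finset.mem_attach, true_and]
      exact ⟨⟨p.1, Finset.mem_filter.mpr ⟨hpB, p.2⟩⟩, rfl⟩
    rw [hB _ this, zero_mul]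
  rw [tsum_eq_sum hT]
  have hcard : T.card ≤ B.card := by
    simp only [T, Finset.card_map, Finset.card_attach]
    exact Finset.card_filter_le _ _
  calc ∑ p ∈ T, a p * ((p : ℕ) : ℝ) ^ (-s) ≤ ∑ _p ∈ T, K := by
        refine Finset.sum_le_sum fun p _ => ?_
        have h1 : ((p : ℕ) : ℝ) ^ (-s) ≤ 1 := by
          apply Real.rpow_le_one_of_one_le_of_nonpos
          · exact_mod_cast p.2.one_lt.le
          · linarith
        calc a p * ((p : ℕ) : ℝ) ^ (-s) ≤ K * 1 :=
              mul_le_mul (hK p) h1 (Real.rpow_nonneg (Nat.cast_nonneg _) _) hK0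
          _ = K := mul_one K
    _ = K * T.card := by rw [Finset.sum_const, nsmul_eq_mul, mul_comm]
    _ ≤ K * B.card := by
        apply mul_le_mul_of_nonneg_left _ hK0
        exact_mod_cast hcard

end

end Fermat.Agent.Lib.Cheb.H993

end
-- ===== PACK-END Lib/Cheb/H993/LogAsymp.lean

-- ===== PACK-BEGIN S22/H262/WeightNonpos.lean
section



set_option autoImplicit false

/-! Function-level vanishing in weight `≤ 0` (proof by helper442). -/

namespace Fermat.Agent.S22.H262

open UpperHalfPlane ModularForm CongruenceSubgroup Matrix.SpecialLinearGroup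
open scoped MatrixGroups Manifold

/-- Function-level vanishing in weight `≤ 0`: a holomorphic function on `ℍ`, invariant under
`Γ₀(N)` for the weight `k ≤ 0` slash action, and such that every `SL(2,ℤ)`-translate is zero at
`i∞`, vanishes identically. -/
theorem eq_zero_of_weight_nonpos (N : ℕ) [NeZero N] {k : ℤ} (hk : k ≤ 0) (G : ℍ → ℂ)
    (hol : MDiff G)
    (inv : ∀ γ ∈ (Gamma0 N : Subgroup (GL (Fin 2) ℝ)), G ∣[k] γ = G)
    (cusp : ∀ g : SL(2, ℤ), IsZeroAtImInfty (G ∣[k] g)) : G = 0 := by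
  have hG0 : IsZeroAtImInfty G := by
    have := cusp 1
    simpa using this
  let F : ModularForm (Gamma0 N : Subgroup (GL (Fin 2) ℝ)) k :=
    { toFun := G
      slash_action_eq' := inv
      holo' := hol
      bdd_at_cusps' := fun {c} hc => by
        have hc' : IsCusp c 𝒮ℒ := (Subgroup.IsArithmetic.isCusp_iff_isCusp_SL2Z _).mp hc
        rw [OnePoint.isBoundedAt_iff_forall_SL2Z hc']
        intro γ _
        exact (cusp γ).isBoundedAtImInfty }
  have hF : F = 0 := by
    apply ModularForm.sturm_bound_Gamma0 N F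
    intro n hn
    have h0 : (k * ((Gamma0 N).index : ℤ)).toNat = 0 := by
      apply Int.toNat_of_nonpos
      exact mul_nonpos_of_nonpos_of_nonneg hk (by positivity)
    rw [h0] at hn
    have hn0 : n = 0 := by omega
    subst hn0
    have h1 : (1 : ℝ) ∈ (Gamma0 N : Subgroup (GL (Fin 2) ℝ)).strictPeriods := by
      simp
    have hper : Function.Periodic ((F : ℍ → ℂ) ∘ UpperHalfPlane.ofComplex) 1 := by
      have := SlashInvariantFormClass.periodic_comp_ofComplex F h1
      simpa using this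
    have han : AnalyticAt ℂ (cuspFunction 1 (F : ℍ → ℂ)) 0 :=
      ModularFormClass.analyticAt_cuspFunction_zero F one_pos h1
    rw [UpperHalfPlane.qExpansion_coeff_zero one_pos han hper]
    exact hG0.valueAtInfty_eq_zero
  have : (F : ℍ → ℂ) = 0 := by rw [hF]; rfl
  exact this

end Fermat.Agent.S22.H262

end
-- ===== PACK-END S22/H262/WeightNonpos.lean

-- ===== PACK-BEGIN S29/Defs.lean
section
/-
S29 row — FROZEN interface definitions (row-lead helper269).
Namespace `Fermat.Agent.S29`.  Do not edit; propose changes via a note kind='question' stmt='S29'.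
-/



set_option autoImplicit false

namespace Fermat.Agent.S29

open Polynomial

/-- The absolute Galois group of `ℚ`, as used by every frozen statement. -/
abbrev GQ : Type := AlgebraicClosure ℚ ≃ₐ[ℚ] AlgebraicClosure ℚ

/-- Valuation subrings of `ℚ̄` (the "places" of the frozen statements). -/
abbrev VQ : Type := ValuationSubring (AlgebraicClosure ℚ)

section Module

variable {F : Type} [Field F] {M : Type} [AddCommGroup M] [Module F M]

/-- Every vector is fixed by an open subgroup `Gal(ℚ̄/L)`, `L/ℚ` finite. -/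
def IsSmoothRep (ρ : GQ →* Module.End F M) : Prop :=
  ∀ x : M, ∃ L : IntermediateField ℚ (AlgebraicClosure ℚ), FiniteDimensional ℚ L ∧
    ∀ σ : GQ, (∀ y ∈ L, σ y = y) → ρ σ x = x

/-- Inertia at every prime `ℓ ∤ S` (all places above `ℓ`) acts trivially. -/
def IsUnramOutside (ρ : GQ →* Module.End F M) (S : ℕ) : Prop :=
  ∀ ℓ : ℕ, ℓ.Prime → ¬ ℓ ∣ S → ∀ A : VQ, A.LiesOverPrime ℓ →
    ∀ σ ∈ A.inertiaSubgroupIn ℚ, ρ σ = 1

/-- Every Frobenius element at every place above every prime `ℓ ∤ S` satisfies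
`σ² - a ℓ • σ + ℓ = 0` on the module. -/
def IsFrobQuadratic (ρ : GQ →* Module.End F M) (S : ℕ) (a : ℕ → F) : Prop :=
  ∀ ℓ : ℕ, ℓ.Prime → ¬ ℓ ∣ S → ∀ A : VQ, A.LiesOverPrime ℓ →
    ∀ σ : GQ, A.IsFrobeniusAt σ ℓ →
      ρ σ * ρ σ - a ℓ • ρ σ + (ℓ : F) • (1 : Module.End F M) = 0

end Module

/-- (UNUSED since skeleton v2: the assembly consumes CHEB Tier 1
`Fermat.Agent.Lib.Cheb.Spec.FrobeniusDivisionStatement` instead.)  Qualitative Chebotarev:
every element of `Gal(L/ℚ)` (`L/ℚ` finite) is the restriction of a Frobenius element at a place over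
some prime `ℓ ∤ S`. -/
def ChebStatement : Prop :=
  ∀ (L : IntermediateField ℚ (AlgebraicClosure ℚ)), FiniteDimensional ℚ L →
    ∀ (σ : GQ) (S : ℕ), S ≠ 0 →
      ∃ (ℓ : ℕ) (A : VQ) (τ : GQ), ℓ.Prime ∧ ¬ ℓ ∣ S ∧ A.LiesOverPrime ℓ ∧
        A.IsFrobeniusAt τ ℓ ∧ ∀ x ∈ L, τ x = σ x

/-- The conclusion of the assembly layer for a coefficient field `F` and a system `a`. -/
def HasAttachedRep (F : Type) [Field F] (S : ℕ) (a : ℕ → F) : Prop :=
  ∃ r : ResidualGaloisRep F,
    (∀ ℓ : ℕ, ℓ.Prime → ¬ ℓ ∣ S → ∀ A : VQ, A.LiesOverPrime ℓ →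
      ∀ σ : GQ, A.IsFrobeniusAt σ ℓ →
        LinearMap.charpoly (r.ρ σ) = X ^ 2 - C (a ℓ) * X + C ((ℓ : F))) ∧
    (∀ ℓ : ℕ, ℓ.Prime → ¬ ℓ ∣ S → r.IsUnramifiedAt ℓ)

/-- The output of the module layer ("torsion module"): a nonzero smooth `F[G_ℚ]`-module,
unramified outside `S`, on which all Frobenii at `ℓ ∤ S` satisfy the Eichler–Shimura relation. -/
def HasFrobModule (F : Type) [Field F] (S : ℕ) (a : ℕ → F) : Prop :=
  ∃ (M : Type) (_ : AddCommGroup M) (_ : Module F M) (ρ : GQ →* Module.End F M),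
    Nontrivial M ∧ IsSmoothRep ρ ∧ IsUnramOutside ρ S ∧ IsFrobQuadratic ρ S a

end Fermat.Agent.S29

end
-- ===== PACK-END S29/Defs.lean

-- ===== PACK-BEGIN S24/Deg/H457_Bound.lean
section


/-!
# S24 / DEG-ALG (helper457), part 2: bounded degree ⇒ bounded dimension

If every element of a field extension `F/k` (char. 0) is algebraic of degree `≤ n`, then
`F/k` is finite of degree `≤ n` (primitive element theorem).
-/

set_option autoImplicit false

noncomputable section

open Polynomial Module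

namespace Fermat.Agent.S24.Deg457

/-- In characteristic zero, an extension all of whose elements are algebraic of degree `≤ n`
is finite-dimensional of dimension `≤ n`. -/
theorem finiteDimensional_and_finrank_le_of_forall_natDegree_minpoly_le
    {k F : Type*} [Field k] [Field F] [Algebra k F] [CharZero k] (n : ℕ)
    (h : ∀ x : F, IsIntegral k x ∧ (minpoly k x).natDegree ≤ n) :
    FiniteDimensional k F ∧ finrank k F ≤ n := by
  haveI : Algebra.IsAlgebraic k F := ⟨fun x => (h x).1.isAlgebraic⟩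
  have key : ∀ L : IntermediateField k F, FiniteDimensional k L → finrank k L ≤ n := by
    intro L hL
    obtain ⟨α, hα⟩ := Field.exists_primitive_element k L
    have h1 : finrank k L = (minpoly k α).natDegree := by
      rw [← IntermediateField.adjoin.finrank (IsIntegral.of_finite k α), hα]
      exact (IntermediateField.finrank_top').symm
    rw [h1]
    have h2 : minpoly k (α : F) = minpoly k α :=
      (minpoly.algebraMap_eq (algebraMap L F).injective α)
    rw [← h2]
    exact (h (α : F)).2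
  have hfd : FiniteDimensional k F := by
    by_contra hnot
    obtain ⟨L, hL, hlt⟩ := IntermediateField.exists_lt_finrank_of_infinite_dimensional hnot n
    exact absurd (key L hL) (not_le.mpr hlt)
  refine ⟨hfd, ?_⟩
  have := key ⊤ inferInstance
  rwa [IntermediateField.finrank_top'] at this

end Fermat.Agent.S24.Deg457

end
end
-- ===== PACK-END S24/Deg/H457_Bound.lean

-- ===== PACK-BEGIN S24/Mod/H708QInf.lean
section



/-!
# S24 / MOD-QINF (helper708): Laurent `q^(1/h)`-expansions at `i∞`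

For `h : ℕ`, `h ≠ 0`, we consider functions `f : ℍ → ℂ` which are holomorphic, `h`-periodic and
meromorphic at `i∞` (`f * q_h ^ M` bounded at `i∞` for some `M`, `q_h τ = exp (2 π i τ / h)`).
They form a subalgebra `merInf h`, and the Laurent expansion in `q_h` is an injective algebra
homomorphism `qexpInf h : merInf h →ₐ[ℂ] LaurentSeries ℂ`.

Everything is over `ℂ`, Mathlib only.
-/

set_option autoImplicit false
set_option linter.unusedSectionVars false

noncomputable section

namespace Fermat.Agent.S24.H708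

open Complex Function Filter
open UpperHalfPlane hiding I
open scoped Manifold Real Topology

/-- The local parameter `q_h τ = exp (2 π i τ / h)` at `i∞`, as a function on `ℍ`. -/
def qh (h : ℕ) : ℍ → ℂ := fun τ => Function.Periodic.qParam (h : ℝ) (τ : ℂ)

lemma qh_apply (h : ℕ) (τ : ℍ) : qh h τ = Function.Periodic.qParam (h : ℝ) (τ : ℂ) := rfl

lemma qh_ne_zero (h : ℕ) (τ : ℍ) : qh h τ ≠ 0 := Function.Periodic.qParam_ne_zero _

lemma qh_pow_ne_zero (h : ℕ) (M : ℕ) (τ : ℍ) : (qh h ^ M) τ ≠ 0 := by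
  simpa using pow_ne_zero M (qh_ne_zero h τ)

section basic

variable (h : ℕ) [NeZero h]

lemma hpos : (0 : ℝ) < (h : ℝ) := by exact_mod_cast Nat.pos_of_ne_zero (NeZero.ne h)

lemma norm_qh_lt_one (τ : ℍ) : ‖qh h τ‖ < 1 :=
  Function.Periodic.norm_qParam_lt_one (hpos h) τ.im_pos

omit [NeZero h] in
lemma mdiff_qh : MDiff (qh h) := by
  rw [UpperHalfPlane.mdifferentiable_iff]
  have hd : DifferentiableOn ℂ (Function.Periodic.qParam (h : ℝ)) {z : ℂ | 0 < z.im} :=
    (Function.Periodic.differentiable_qParam (h := (h : ℝ))).differentiableOn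
  refine hd.congr ?_
  intro z hz
  simp only [comp_apply, qh_apply, ofComplex_apply_of_im_pos hz]

lemma periodic_qh : Periodic (qh h ∘ ofComplex) (h : ℝ) := by
  intro w
  by_cases hw : 0 < im w
  · have hw' : 0 < im (w + (h : ℝ)) := by simpa using hw
    simp only [comp_apply, qh_apply, ofComplex_apply_of_im_pos hw',
      ofComplex_apply_of_im_pos hw]
    simp only [Function.Periodic.qParam]
    have hh : ((h : ℝ) : ℂ) ≠ 0 := by
      exact_mod_cast (NeZero.ne h)
    rw [show 2 * (π : ℂ) * I * (w + ((h : ℝ) : ℂ)) / ((h : ℝ) : ℂ)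
        = 2 * (π : ℂ) * I * w / ((h : ℝ) : ℂ) + 2 * π * I by field_simp]
    rw [Complex.exp_add, Complex.exp_two_pi_mul_I, mul_one]
  · have hw0 : im w ≤ 0 := not_lt.mp hw
    have hw' : im (w + (h : ℝ)) ≤ 0 := by simpa using hw0
    simp only [comp_apply]
    rw [ofComplex_apply_of_im_nonpos hw', ofComplex_apply_of_im_nonpos hw0]

lemma isBounded_qh : IsBoundedAtImInfty (qh h) := by
  rw [UpperHalfPlane.isBoundedAtImInfty_iff]
  exact ⟨1, 0, fun τ _ => (norm_qh_lt_one h τ).le⟩

end basic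

/-- The class of holomorphic `h`-periodic functions bounded at `i∞`. -/
structure IsHolInf (h : ℕ) (f : ℍ → ℂ) : Prop where
  hol : MDiff f
  per : Periodic (f ∘ ofComplex) (h : ℝ)
  bdd : IsBoundedAtImInfty f

namespace IsHolInf

variable {h : ℕ} {f g : ℍ → ℂ}

lemma mul (hf : IsHolInf h f) (hg : IsHolInf h g) : IsHolInf h (f * g) :=
  ⟨hf.hol.mul hg.hol, hf.per.mul hg.per, hf.bdd.mul hg.bdd⟩

lemma add (hf : IsHolInf h f) (hg : IsHolInf h g) : IsHolInf h (f + g) :=
  ⟨hf.hol.add hg.hol, hf.per.add hg.per, hf.bdd.add hg.bdd⟩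

lemma const (h : ℕ) (c : ℂ) : IsHolInf h (fun _ => c) :=
  ⟨mdifferentiable_const, fun _ => rfl, Filter.const_boundedAtFilter _ c⟩

lemma one (h : ℕ) : IsHolInf h (1 : ℍ → ℂ) := const h 1

lemma qh (h : ℕ) [NeZero h] : IsHolInf h (_root_.Fermat.Agent.S24.H708.qh h) :=
  ⟨mdiff_qh h, periodic_qh h, isBounded_qh h⟩

lemma pow (hf : IsHolInf h f) (n : ℕ) : IsHolInf h (f ^ n) := by
  induction n with
  | zero => simpa using one h
  | succ n ih => rw [pow_succ]; exact ih.mul hf

lemma analyticAt [NeZero h] (hf : IsHolInf h f) : AnalyticAt ℂ (cuspFunction (h : ℝ) f) 0 :=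
  analyticAt_cuspFunction_zero (hpos h) hf.per hf.hol hf.bdd

lemma qExpansion_mul [NeZero h] (hf : IsHolInf h f) (hg : IsHolInf h g) :
    qExpansion (h : ℝ) (f * g) = qExpansion (h : ℝ) f * qExpansion (h : ℝ) g :=
  UpperHalfPlane.qExpansion_mul hf.analyticAt hg.analyticAt

lemma qExpansion_add [NeZero h] (hf : IsHolInf h f) (hg : IsHolInf h g) :
    qExpansion (h : ℝ) (f + g) = qExpansion (h : ℝ) f + qExpansion (h : ℝ) g :=
  UpperHalfPlane.qExpansion_add hf.analyticAt hg.analyticAt

lemma hasSum [NeZero h] (hf : IsHolInf h f) (τ : ℍ) :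
    HasSum (fun m : ℕ => (qExpansion (h : ℝ) f).coeff m * H708.qh h τ ^ m) (f τ) := by
  simpa [smul_eq_mul, qh_apply] using hasSum_qExpansion (hpos h) hf.per hf.hol hf.bdd τ

lemma qExpansion_eq_zero_iff [NeZero h] (hf : IsHolInf h f) :
    qExpansion (h : ℝ) f = 0 ↔ f = 0 :=
  UpperHalfPlane.qExpansion_eq_zero_iff (hpos h) hf.per hf.hol hf.bdd

end IsHolInf


section qExpansion_qh

variable (h : ℕ) [NeZero h]

omit [NeZero h] in
/-- `UpperHalfPlane.qExpansion_coeff_unique` for plain functions. -/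
lemma qExpansion_coeff_unique_fun {g : ℍ → ℂ} (hh : (0 : ℝ) < (h : ℝ)) (hcont : Continuous g)
    {c : ℕ → ℂ} (hg : AnalyticAt ℂ (cuspFunction (h : ℝ) g) 0)
    (hs : ∀ τ : ℍ, HasSum (fun m ↦ c m • Function.Periodic.qParam (h : ℝ) (τ : ℂ) ^ m) (g τ))
    (m : ℕ) : c m = (qExpansion (h : ℝ) g).coeff m :=
  UpperHalfPlane.qExpansion_coeff_unique (ContinuousMap.mk g hcont) hh hg hs m

omit [NeZero h] in
lemma hasSum_qh_aux (τ : ℍ) : HasSum (fun m : ℕ => (if m = 1 then (1 : ℂ) else 0) •
      Function.Periodic.qParam (h : ℝ) (τ : ℂ) ^ m) (qh h τ) := by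
  have h1 := hasSum_ite_eq (1 : ℕ) (qh h τ)
  have h2 : (fun m : ℕ => (if m = 1 then (1 : ℂ) else 0) •
      Function.Periodic.qParam (h : ℝ) (τ : ℂ) ^ m) = fun m : ℕ => if m = 1 then qh h τ else 0 := by
    funext m
    by_cases hm : m = 1
    · subst hm; simp [qh_apply]
    · simp [hm]
  rw [h2]
  exact h1

lemma qExpansion_qh : qExpansion (h : ℝ) (qh h) = PowerSeries.X := by
  ext m
  have h3 := qExpansion_coeff_unique_fun h (hpos h) (mdiff_qh h).continuous
    (IsHolInf.qh h).analyticAt (hasSum_qh_aux h) m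
  rw [PowerSeries.coeff_X]
  exact h3.symm

end qExpansion_qh

/-- `f` is holomorphic on `ℍ`, `h`-periodic, and meromorphic at `i∞`. -/
structure IsMerInf (h : ℕ) (f : ℍ → ℂ) : Prop where
  hol : MDiff f
  per : Periodic (f ∘ ofComplex) (h : ℝ)
  bdd : ∃ M : ℕ, IsBoundedAtImInfty (f * qh h ^ M)

/-- The candidate Laurent expansion of `f` computed with pole order bound `M`. -/
def lau (h : ℕ) (M : ℕ) (f : ℍ → ℂ) : LaurentSeries ℂ :=
  HahnSeries.single (-(M : ℤ)) (1 : ℂ) *
    HahnSeries.ofPowerSeries ℤ ℂ (qExpansion (h : ℝ) (f * qh h ^ M))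

namespace IsMerInf

variable {h : ℕ} {f g : ℍ → ℂ}

lemma isHolInf_mul_pow [NeZero h] (hf : IsMerInf h f) {M : ℕ}
    (hM : IsBoundedAtImInfty (f * qh h ^ M)) : IsHolInf h (f * qh h ^ M) :=
  ⟨hf.hol.mul ((mdiff_qh h).pow M), hf.per.mul ((IsHolInf.qh h).pow M).per, hM⟩

lemma of_isHolInf [NeZero h] (hf : IsHolInf h f) : IsMerInf h f :=
  ⟨hf.hol, hf.per, 0, by simpa using hf.bdd⟩

lemma bdd_succ [NeZero h] {M : ℕ}
    (hM : IsBoundedAtImInfty (f * qh h ^ M)) : IsBoundedAtImInfty (f * qh h ^ (M + 1)) := by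
  rw [pow_succ, ← mul_assoc]
  exact hM.mul (isBounded_qh h)

lemma bdd_of_le [NeZero h] {M M' : ℕ} (hle : M ≤ M')
    (hM : IsBoundedAtImInfty (f * qh h ^ M)) : IsBoundedAtImInfty (f * qh h ^ M') := by
  induction M', hle using Nat.le_induction with
  | base => exact hM
  | succ n _ ih => exact bdd_succ ih

lemma lau_succ [NeZero h] (hf : IsMerInf h f) {M : ℕ}
    (hM : IsBoundedAtImInfty (f * qh h ^ M)) : lau h (M + 1) f = lau h M f := by
  unfold lau
  have h1 : f * qh h ^ (M + 1) = (f * qh h ^ M) * qh h := by rw [pow_succ, mul_assoc]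
  rw [h1, (hf.isHolInf_mul_pow hM).qExpansion_mul (IsHolInf.qh h), qExpansion_qh, map_mul,
    HahnSeries.ofPowerSeries_X, mul_comm (HahnSeries.ofPowerSeries ℤ ℂ _), ← mul_assoc,
    HahnSeries.single_mul_single]
  have h2 : (-((M + 1 : ℕ) : ℤ) + 1) = -(M : ℤ) := by push_cast; ring1
  rw [h2, mul_one]

lemma lau_of_le [NeZero h] (hf : IsMerInf h f) {M M' : ℕ} (hle : M ≤ M')
    (hM : IsBoundedAtImInfty (f * qh h ^ M)) : lau h M' f = lau h M f := by
  induction M', hle using Nat.le_induction with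
  | base => rfl
  | succ n hn ih => rw [hf.lau_succ (bdd_of_le hn hM), ih]

lemma lau_eq [NeZero h] (hf : IsMerInf h f) {M M' : ℕ}
    (hM : IsBoundedAtImInfty (f * qh h ^ M)) (hM' : IsBoundedAtImInfty (f * qh h ^ M')) :
    lau h M f = lau h M' f := by
  rcases le_total M M' with hle | hle
  · exact (hf.lau_of_le hle hM).symm
  · exact hf.lau_of_le hle hM'


lemma mul [NeZero h] (hf : IsMerInf h f) (hg : IsMerInf h g) : IsMerInf h (f * g) := by
  obtain ⟨M, hM⟩ := hf.bdd
  obtain ⟨M', hM'⟩ := hg.bdd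
  refine ⟨hf.hol.mul hg.hol, hf.per.mul hg.per, M + M', ?_⟩
  have : f * g * qh h ^ (M + M') = (f * qh h ^ M) * (g * qh h ^ M') := by
    rw [pow_add]; ring1
  rw [this]
  exact hM.mul hM'

lemma add [NeZero h] (hf : IsMerInf h f) (hg : IsMerInf h g) : IsMerInf h (f + g) := by
  obtain ⟨M, hM⟩ := hf.bdd
  obtain ⟨M', hM'⟩ := hg.bdd
  refine ⟨hf.hol.add hg.hol, hf.per.add hg.per, max M M', ?_⟩
  rw [add_mul]
  exact (bdd_of_le (le_max_left _ _) hM).add (bdd_of_le (le_max_right _ _) hM')

lemma const (h : ℕ) [NeZero h] (c : ℂ) : IsMerInf h (fun _ => c) :=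
  of_isHolInf (IsHolInf.const h c)

lemma one (h : ℕ) [NeZero h] : IsMerInf h (1 : ℍ → ℂ) := const h 1

lemma zero (h : ℕ) [NeZero h] : IsMerInf h (0 : ℍ → ℂ) := const h 0

lemma neg [NeZero h] (hf : IsMerInf h f) : IsMerInf h (-f) := by
  have := (const h (-1)).mul hf
  convert this using 1
  ext τ; simp

lemma sub [NeZero h] (hf : IsMerInf h f) (hg : IsMerInf h g) : IsMerInf h (f - g) := by
  rw [sub_eq_add_neg]; exact hf.add hg.neg

lemma pow [NeZero h] (hf : IsMerInf h f) (n : ℕ) : IsMerInf h (f ^ n) := by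
  induction n with
  | zero => simpa using one h
  | succ n ih => rw [pow_succ]; exact ih.mul hf

end IsMerInf

/-- The Laurent `q_h`-expansion of a function (junk value `0` outside `IsMerInf`). -/
def qexpFun (h : ℕ) (f : ℍ → ℂ) : LaurentSeries ℂ := by
  classical
  exact if hf : IsMerInf h f then lau h hf.bdd.choose f else 0

section qexpFun

variable {h : ℕ} [NeZero h] {f g : ℍ → ℂ}

lemma qexpFun_eq_lau (hf : IsMerInf h f) {M : ℕ} (hM : IsBoundedAtImInfty (f * qh h ^ M)) :
    qexpFun h f = lau h M f := by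
  classical
  rw [qexpFun, dif_pos hf]
  exact hf.lau_eq hf.bdd.choose_spec hM

lemma qexpFun_of_isHolInf (hf : IsHolInf h f) :
    qexpFun h f = HahnSeries.ofPowerSeries ℤ ℂ (qExpansion (h : ℝ) f) := by
  have hb : IsBoundedAtImInfty (f * qh h ^ 0) := by simpa using hf.bdd
  rw [qexpFun_eq_lau (IsMerInf.of_isHolInf hf) hb, lau]
  simp

lemma qexpFun_mul (hf : IsMerInf h f) (hg : IsMerInf h g) :
    qexpFun h (f * g) = qexpFun h f * qexpFun h g := by
  obtain ⟨M, hM⟩ := hf.bdd
  obtain ⟨M', hM'⟩ := hg.bdd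
  have hfg : f * g * qh h ^ (M + M') = (f * qh h ^ M) * (g * qh h ^ M') := by
    rw [pow_add]; ring1
  have hb : IsBoundedAtImInfty (f * g * qh h ^ (M + M')) := by
    rw [hfg]; exact hM.mul hM'
  rw [qexpFun_eq_lau (hf.mul hg) hb, qexpFun_eq_lau hf hM, qexpFun_eq_lau hg hM']
  unfold lau
  rw [hfg, (hf.isHolInf_mul_pow hM).qExpansion_mul (hg.isHolInf_mul_pow hM'), map_mul]
  have hs : (HahnSeries.single (-((M + M' : ℕ) : ℤ)) (1 : ℂ) : LaurentSeries ℂ)
      = HahnSeries.single (-(M : ℤ)) 1 * HahnSeries.single (-(M' : ℤ)) 1 := by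
    rw [HahnSeries.single_mul_single, mul_one]
    have h2 : (-((M + M' : ℕ) : ℤ)) = -(M : ℤ) + -(M' : ℤ) := by push_cast; ring1
    rw [h2]
  rw [hs]
  ring1

lemma qexpFun_add (hf : IsMerInf h f) (hg : IsMerInf h g) :
    qexpFun h (f + g) = qexpFun h f + qexpFun h g := by
  obtain ⟨M, hM⟩ := hf.bdd
  obtain ⟨M', hM'⟩ := hg.bdd
  have hM1 := IsMerInf.bdd_of_le (le_max_left M M') hM
  have hM2 := IsMerInf.bdd_of_le (le_max_right M M') hM'
  have hb : IsBoundedAtImInfty ((f + g) * qh h ^ (max M M')) := by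
    rw [add_mul]; exact hM1.add hM2
  rw [qexpFun_eq_lau (hf.add hg) hb, qexpFun_eq_lau hf hM1, qexpFun_eq_lau hg hM2]
  unfold lau
  rw [add_mul, (hf.isHolInf_mul_pow hM1).qExpansion_add (hg.isHolInf_mul_pow hM2), map_add,
    mul_add]

lemma qExpansion_const (h : ℕ) [NeZero h] (c : ℂ) :
    qExpansion (h : ℝ) (fun _ : ℍ => c) = PowerSeries.C c := by
  have h1 : (fun _ : ℍ => c) = c • (1 : ℍ → ℂ) := by
    ext τ; simp
  rw [h1, UpperHalfPlane.qExpansion_smul (IsHolInf.one h).analyticAt, qExpansion_one]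
  ext n
  simp [PowerSeries.coeff_C, PowerSeries.coeff_one]

lemma qexpFun_const (h : ℕ) [NeZero h] (c : ℂ) :
    qexpFun h (fun _ : ℍ => c) = HahnSeries.C c := by
  rw [qexpFun_of_isHolInf (IsHolInf.const h c), qExpansion_const, HahnSeries.ofPowerSeries_C]

lemma qexpFun_eq_zero_iff (hf : IsMerInf h f) : qexpFun h f = 0 ↔ f = 0 := by
  obtain ⟨M, hM⟩ := hf.bdd
  rw [qexpFun_eq_lau hf hM, lau]
  have hne : (HahnSeries.single (-(M : ℤ)) (1 : ℂ) : LaurentSeries ℂ) ≠ 0 := by
    simp
  rw [mul_eq_zero, or_iff_right hne, map_eq_zero_iff _ HahnSeries.ofPowerSeries_injective,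
    (hf.isHolInf_mul_pow hM).qExpansion_eq_zero_iff]
  constructor
  · intro h0
    ext τ
    have := congrFun h0 τ
    simp only [Pi.mul_apply, Pi.zero_apply, mul_eq_zero] at this
    exact this.resolve_right (qh_pow_ne_zero h M τ)
  · rintro rfl; simp

end qexpFun

/-- The algebra of holomorphic `h`-periodic functions on `ℍ`, meromorphic at `i∞`. -/
def merInf (h : ℕ) [NeZero h] : Subalgebra ℂ (ℍ → ℂ) where
  carrier := {f | IsMerInf h f}
  mul_mem' := fun hf hg => IsMerInf.mul hf hg
  add_mem' := fun hf hg => IsMerInf.add hf hg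
  algebraMap_mem' := fun c => IsMerInf.const h c

lemma mem_merInf {h : ℕ} [NeZero h] {f : ℍ → ℂ} : f ∈ merInf h ↔ IsMerInf h f := Iff.rfl

/-- The Laurent expansion in `q_h = exp (2 π i τ / h)` at `i∞`. -/
def qexpInf (h : ℕ) [NeZero h] : merInf h →ₐ[ℂ] LaurentSeries ℂ where
  toFun f := qexpFun h (f : ℍ → ℂ)
  map_one' := by
    show qexpFun h (1 : ℍ → ℂ) = 1
    have := qexpFun_const h (1 : ℂ)
    rw [show (1 : ℍ → ℂ) = fun _ => (1 : ℂ) from rfl, this]
    simp
  map_mul' f g := qexpFun_mul f.2 g.2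
  map_zero' := by
    show qexpFun h (0 : ℍ → ℂ) = 0
    exact (qexpFun_eq_zero_iff (IsMerInf.zero h)).mpr rfl
  map_add' f g := qexpFun_add f.2 g.2
  commutes' c := by
    show qexpFun h (fun _ : ℍ => c) = algebraMap ℂ (LaurentSeries ℂ) c
    rw [qexpFun_const]
    have h1 : algebraMap ℂ (PowerSeries ℂ) c = PowerSeries.C c := by simp
    rw [HahnSeries.algebraMap_apply', h1, HahnSeries.ofPowerSeries_C]

lemma qexpInf_apply {h : ℕ} [NeZero h] (f : merInf h) : qexpInf h f = qexpFun h (f : ℍ → ℂ) := rfl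

lemma qexpInf_injective (h : ℕ) [NeZero h] : Function.Injective (qexpInf h) := by
  rw [injective_iff_map_eq_zero]
  intro f hf
  have := (qexpFun_eq_zero_iff f.2).mp hf
  exact Subtype.ext this


/-! ### Convergence of the Laurent expansion and uniqueness -/

section hasSum

/-- Reindexing a Laurent-type sum over `ℤ` (vanishing below `-M`) as a sum over `ℕ`. -/
lemma hasSum_int_iff_nat (φ : ℤ → ℂ) (M : ℕ) (hφ : ∀ n : ℤ, n < -(M : ℤ) → φ n = 0)
    (x : ℂ) (hx : x ≠ 0) (s : ℂ) :
    HasSum (fun n : ℤ => φ n * x ^ n) s ↔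
      HasSum (fun m : ℕ => φ ((m : ℤ) - M) * x ^ m) (s * x ^ M) := by
  have hinj : Function.Injective (fun m : ℕ => (m : ℤ) - (M : ℤ)) := by
    intro a b hab
    simp only [sub_left_inj] at hab
    exact_mod_cast hab
  have hrange : ∀ n : ℤ, n ∉ Set.range (fun m : ℕ => (m : ℤ) - (M : ℤ)) →
      (fun n : ℤ => φ n * x ^ n) n = 0 := by
    intro n hn
    have hlt : n < -(M : ℤ) := by
      by_contra hge
      rw [not_lt] at hge
      apply hn
      refine ⟨(n + M).toNat, ?_⟩
      simp only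
      rw [Int.toNat_of_nonneg (by omega)]
      ring
    simp [hφ n hlt]
  rw [← hinj.hasSum_iff hrange]
  have hxM : x ^ M ≠ 0 := pow_ne_zero M hx
  rw [← hasSum_mul_right_iff hxM]
  have hfun : (fun i : ℕ => ((fun n : ℤ => φ n * x ^ n) ∘ fun m : ℕ => (m : ℤ) - (M : ℤ)) i * x ^ M)
      = fun m : ℕ => φ ((m : ℤ) - M) * x ^ m := by
    funext m
    simp only [comp_apply]
    rw [zpow_sub₀ hx, zpow_natCast, zpow_natCast]
    field_simp
  rw [hfun]

variable {h : ℕ} [NeZero h] {f : ℍ → ℂ}

lemma lau_coeff (M : ℕ) (f : ℍ → ℂ) (n : ℤ) :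
    (lau h M f).coeff n = (HahnSeries.ofPowerSeries ℤ ℂ
      (qExpansion (h : ℝ) (f * qh h ^ M))).coeff (n + M) := by
  rw [lau, HahnSeries.coeff_single_mul, one_mul, sub_neg_eq_add]

lemma lau_coeff_of_lt (M : ℕ) (f : ℍ → ℂ) {n : ℤ} (hn : n < -(M : ℤ)) :
    (lau h M f).coeff n = 0 := by
  rw [lau_coeff, PowerSeries.coeff_coe, if_pos (by omega)]

lemma lau_coeff_natCast_sub (M : ℕ) (f : ℍ → ℂ) (m : ℕ) :
    (lau h M f).coeff ((m : ℤ) - M) = (qExpansion (h : ℝ) (f * qh h ^ M)).coeff m := by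
  rw [lau_coeff, sub_add_cancel, HahnSeries.ofPowerSeries_apply_coeff]

/-- The Laurent expansion converges to `f` on all of `ℍ`. -/
theorem hasSum_qexpFun (hf : IsMerInf h f) (τ : ℍ) :
    HasSum (fun n : ℤ => (qexpFun h f).coeff n * qh h τ ^ n) (f τ) := by
  obtain ⟨M, hM⟩ := hf.bdd
  rw [qexpFun_eq_lau hf hM,
    hasSum_int_iff_nat _ M (fun n hn => lau_coeff_of_lt M f hn) _ (qh_ne_zero h τ)]
  have := (hf.isHolInf_mul_pow hM).hasSum τ
  simpa [lau_coeff_natCast_sub] using this

/-- If a Laurent series converges to a holomorphic `f` on all of `ℍ`, then `f` is `h`-periodic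
and meromorphic at `i∞`. -/
theorem IsMerInf.of_hasSum (hol : MDiff f) (φ : LaurentSeries ℂ)
    (hs : ∀ τ : ℍ, HasSum (fun n : ℤ => φ.coeff n * qh h τ ^ n) (f τ)) : IsMerInf h f := by
  refine ⟨hol, ?_, ?_⟩
  · intro w
    by_cases hw : 0 < im w
    · have hw' : 0 < im (w + (h : ℝ)) := by simpa using hw
      have hq : qh h (ofComplex (w + (h : ℝ))) = qh h (ofComplex w) := periodic_qh h w
      have h1 := hs (ofComplex (w + (h : ℝ)))
      rw [hq] at h1
      exact h1.unique (hs (ofComplex w))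
    · have hw0 : im w ≤ 0 := not_lt.mp hw
      have hw' : im (w + (h : ℝ)) ≤ 0 := by simpa using hw0
      simp only [comp_apply]
      rw [ofComplex_apply_of_im_nonpos hw', ofComplex_apply_of_im_nonpos hw0]
  · refine ⟨(-φ.order).toNat, ?_⟩
    set M := (-φ.order).toNat with hMdef
    have hφ : ∀ n : ℤ, n < -(M : ℤ) → φ.coeff n = 0 := by
      intro n hn
      apply HahnSeries.coeff_eq_zero_of_lt_order
      have : -φ.order ≤ (M : ℤ) := by rw [hMdef]; exact Int.self_le_toNat _
      omega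
    have hs' : ∀ τ : ℍ, HasSum (fun m : ℕ => φ.coeff ((m : ℤ) - M) •
        Function.Periodic.qParam (h : ℝ) (τ : ℂ) ^ m) ((f * qh h ^ M) τ) := by
      intro τ
      have := (hasSum_int_iff_nat _ M hφ _ (qh_ne_zero h τ) _).mp (hs τ)
      simpa [smul_eq_mul, qh_apply] using this
    exact isBoundedAtImInfty_of_hasSum_qExpansion (hpos h) hs'

/-- Uniqueness of the Laurent expansion. -/
theorem qexpFun_eq_of_hasSum (hol : MDiff f) (φ : LaurentSeries ℂ)
    (hs : ∀ τ : ℍ, HasSum (fun n : ℤ => φ.coeff n * qh h τ ^ n) (f τ)) : qexpFun h f = φ := by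
  have hf := IsMerInf.of_hasSum hol φ hs
  obtain ⟨M₀, hM₀⟩ := hf.bdd
  set M := max M₀ (-φ.order).toNat with hMdef
  have hM : IsBoundedAtImInfty (f * qh h ^ M) := IsMerInf.bdd_of_le (le_max_left _ _) hM₀
  have hφ : ∀ n : ℤ, n < -(M : ℤ) → φ.coeff n = 0 := by
    intro n hn
    apply HahnSeries.coeff_eq_zero_of_lt_order
    have h1 : -φ.order ≤ ((-φ.order).toNat : ℤ) := Int.self_le_toNat _
    have h2 : ((-φ.order).toNat : ℤ) ≤ (M : ℤ) := by
      exact_mod_cast le_max_right M₀ (-φ.order).toNat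
    omega
  have hs' : ∀ τ : ℍ, HasSum (fun m : ℕ => φ.coeff ((m : ℤ) - M) •
      Function.Periodic.qParam (h : ℝ) (τ : ℂ) ^ m) ((f * qh h ^ M) τ) := by
    intro τ
    have := (hasSum_int_iff_nat _ M hφ _ (qh_ne_zero h τ) _).mp (hs τ)
    simpa [smul_eq_mul, qh_apply] using this
  have hco := qExpansion_coeff_unique_fun h (hpos h)
    (hf.isHolInf_mul_pow hM).hol.continuous (hf.isHolInf_mul_pow hM).analyticAt hs'
  rw [qexpFun_eq_lau hf hM]
  ext n
  by_cases hn : n < -(M : ℤ)
  · rw [lau_coeff_of_lt M f hn, hφ n hn]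
  · rw [not_lt] at hn
    obtain ⟨m, rfl⟩ : ∃ m : ℕ, n = (m : ℤ) - M := ⟨(n + M).toNat, by
      rw [Int.toNat_of_nonneg (by omega)]; ring⟩
    rw [lau_coeff_natCast_sub, ← hco m]

end hasSum

/-- `HasQExp h f φ`: `f` is holomorphic on `ℍ`, `h`-periodic, meromorphic at `i∞` and `φ` is its
Laurent expansion in `q_h = exp (2 π i τ / h)`. -/
def HasQExp (h : ℕ) (f : ℍ → ℂ) (φ : LaurentSeries ℂ) : Prop :=
  IsMerInf h f ∧ qexpFun h f = φ

namespace HasQExp

variable {h : ℕ} [NeZero h] {f g : ℍ → ℂ} {φ ψ : LaurentSeries ℂ}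

lemma isMerInf (hf : HasQExp h f φ) : IsMerInf h f := hf.1

lemma qexpFun_eq (hf : HasQExp h f φ) : qexpFun h f = φ := hf.2

lemma mdiff (hf : HasQExp h f φ) : MDiff f := hf.1.hol

lemma of_isMerInf (hf : IsMerInf h f) : HasQExp h f (qexpFun h f) := ⟨hf, rfl⟩

lemma hasSum (hf : HasQExp h f φ) (τ : ℍ) :
    HasSum (fun n : ℤ => φ.coeff n * qh h τ ^ n) (f τ) := by
  have := hasSum_qexpFun hf.1 τ
  rwa [hf.2] at this

lemma of_hasSum (hol : MDiff f)
    (hs : ∀ τ : ℍ, HasSum (fun n : ℤ => φ.coeff n * qh h τ ^ n) (f τ)) : HasQExp h f φ :=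
  ⟨IsMerInf.of_hasSum hol φ hs, qexpFun_eq_of_hasSum hol φ hs⟩

lemma iff_hasSum (hol : MDiff f) :
    HasQExp h f φ ↔ ∀ τ : ℍ, HasSum (fun n : ℤ => φ.coeff n * qh h τ ^ n) (f τ) :=
  ⟨fun hf => hf.hasSum, of_hasSum hol⟩

lemma mul (hf : HasQExp h f φ) (hg : HasQExp h g ψ) : HasQExp h (f * g) (φ * ψ) :=
  ⟨hf.1.mul hg.1, by rw [qexpFun_mul hf.1 hg.1, hf.2, hg.2]⟩

lemma add (hf : HasQExp h f φ) (hg : HasQExp h g ψ) : HasQExp h (f + g) (φ + ψ) :=
  ⟨hf.1.add hg.1, by rw [qexpFun_add hf.1 hg.1, hf.2, hg.2]⟩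

lemma const (h : ℕ) [NeZero h] (c : ℂ) : HasQExp h (fun _ => c) (HahnSeries.C c) :=
  ⟨IsMerInf.const h c, qexpFun_const h c⟩

lemma one (h : ℕ) [NeZero h] : HasQExp h (1 : ℍ → ℂ) 1 := by
  have := const h 1
  rwa [map_one] at this

lemma zero (h : ℕ) [NeZero h] : HasQExp h (0 : ℍ → ℂ) 0 := by
  have := const h 0
  rwa [map_zero] at this

lemma neg (hf : HasQExp h f φ) : HasQExp h (-f) (-φ) := by
  have := (const h (-1)).mul hf
  have e1 : (fun _ : ℍ => (-1 : ℂ)) * f = -f := by ext τ; simp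
  have e2 : (HahnSeries.C (-1 : ℂ) : LaurentSeries ℂ) * φ = -φ := by
    rw [map_neg, map_one, neg_one_mul]
  rwa [e1, e2] at this

lemma sub (hf : HasQExp h f φ) (hg : HasQExp h g ψ) : HasQExp h (f - g) (φ - ψ) := by
  rw [sub_eq_add_neg, sub_eq_add_neg]; exact hf.add hg.neg

lemma pow (hf : HasQExp h f φ) (n : ℕ) : HasQExp h (f ^ n) (φ ^ n) := by
  induction n with
  | zero => simpa using one h
  | succ n ih => rw [pow_succ, pow_succ]; exact ih.mul hf

/-- The expansion determines the function. -/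
lemma eq_of_eq (hf : HasQExp h f φ) (hg : HasQExp h g φ) : f = g := by
  ext τ
  exact (hf.hasSum τ).unique (hg.hasSum τ)

/-- The function determines the expansion. -/
lemma unique (hf : HasQExp h f φ) (hg : HasQExp h f ψ) : φ = ψ := hf.2.symm.trans hg.2

lemma eq_zero_iff (hf : HasQExp h f φ) : φ = 0 ↔ f = 0 := by
  rw [← hf.2]; exact qexpFun_eq_zero_iff hf.1

lemma qexpInf_eq (hf : HasQExp h f φ) : qexpInf h ⟨f, hf.1⟩ = φ := hf.2

end HasQExp

lemma hasQExp_qh (h : ℕ) [NeZero h] : HasQExp h (qh h) (HahnSeries.single 1 1) := by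
  refine ⟨IsMerInf.of_isHolInf (IsHolInf.qh h), ?_⟩
  rw [qexpFun_of_isHolInf (IsHolInf.qh h), qExpansion_qh, HahnSeries.ofPowerSeries_X]

end Fermat.Agent.S24.H708

end
end
-- ===== PACK-END S24/Mod/H708QInf.lean

-- ===== PACK-BEGIN S24/H624/HoloRing.lean
section


/-!
# The ring of holomorphic functions on the upper half-plane and Taylor expansions

Architecture-independent analytic foundation for the S24 / S28 long shots.
-/

set_option autoImplicit false

namespace Fermat.Agent.S24.H624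

open UpperHalfPlane Complex
open scoped Manifold Topology

/-- The `ℂ`-algebra of holomorphic functions on the upper half-plane. -/
def holoRing : Subalgebra ℂ (ℍ → ℂ) where
  carrier := {f | MDiff f}
  mul_mem' := fun hf hg => hf.mul hg
  add_mem' := fun hf hg => hf.add hg
  algebraMap_mem' := fun _ => mdifferentiable_const

theorem mem_holoRing {f : ℍ → ℂ} : f ∈ holoRing ↔ MDiff f := Iff.rfl

/-- A holomorphic function on `ℍ`, extended by junk to `ℂ`, is analytic at every point of `ℍ`. -/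
theorem analyticAt_of_mdiff {f : ℍ → ℂ} (hf : MDiff f) (τ : ℍ) :
    AnalyticAt ℂ (f ∘ ofComplex) (τ : ℂ) :=
  ((UpperHalfPlane.mdifferentiable_iff.mp hf).analyticOnNhd isOpen_upperHalfPlaneSet) _ τ.im_pos

theorem analyticAt_of_mdiff' {f : ℍ → ℂ} (hf : MDiff f) {z : ℂ} (hz : 0 < z.im) :
    AnalyticAt ℂ (f ∘ ofComplex) z :=
  ((UpperHalfPlane.mdifferentiable_iff.mp hf).analyticOnNhd isOpen_upperHalfPlaneSet) _ hz

/-- Order of vanishing at `τ` of a function on the upper half-plane. -/
noncomputable def ordAt (τ : ℍ) (f : ℍ → ℂ) : ℕ∞ := analyticOrderAt (f ∘ ofComplex) (τ : ℂ)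

theorem ordAt_def (τ : ℍ) (f : ℍ → ℂ) : ordAt τ f = analyticOrderAt (f ∘ ofComplex) (τ : ℂ) := rfl

theorem eq_zero_of_eventually_zero {f : ℍ → ℂ} (hf : MDiff f) {τ : ℍ}
    (h : ∀ᶠ z in 𝓝 (τ : ℂ), (f ∘ ofComplex) z = 0) : f = 0 := by
  have han := (UpperHalfPlane.mdifferentiable_iff.mp hf).analyticOnNhd isOpen_upperHalfPlaneSet
  have hpre : IsPreconnected {z : ℂ | 0 < z.im} :=
    (Complex.isConnected_of_upperHalfPlane subset_rfl
      (fun z (hz : 0 < z.im) => le_of_lt hz)).isPreconnected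
  have := han.eqOn_zero_of_preconnected_of_eventuallyEq_zero hpre τ.im_pos h
  funext w
  have hw := this w.im_pos
  simpa [Function.comp_apply, ofComplex_apply] using hw

theorem ordAt_eq_top_iff {f : ℍ → ℂ} (hf : MDiff f) (τ : ℍ) : ordAt τ f = ⊤ ↔ f = 0 := by
  constructor
  · intro h
    exact eq_zero_of_eventually_zero hf (analyticOrderAt_eq_top.mp h)
  · rintro rfl
    rw [ordAt_def, analyticOrderAt_eq_top]
    exact Filter.Eventually.of_forall fun z => rfl

theorem ordAt_ne_top {f : ℍ → ℂ} (hf : MDiff f) (hf0 : f ≠ 0) (τ : ℍ) : ordAt τ f ≠ ⊤ :=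
  fun h => hf0 ((ordAt_eq_top_iff hf τ).mp h)

theorem ordAt_mul {f g : ℍ → ℂ} (hf : MDiff f) (hg : MDiff g) (τ : ℍ) :
    ordAt τ (f * g) = ordAt τ f + ordAt τ g :=
  analyticOrderAt_mul (analyticAt_of_mdiff hf τ) (analyticAt_of_mdiff hg τ)

theorem ordAt_eq_zero_iff {f : ℍ → ℂ} (hf : MDiff f) (τ : ℍ) : ordAt τ f = 0 ↔ f τ ≠ 0 := by
  rw [ordAt_def, (analyticAt_of_mdiff hf τ).analyticOrderAt_eq_zero]
  simp [Function.comp_apply, ofComplex_apply]

theorem le_ordAt_add {f g : ℍ → ℂ} (τ : ℍ) :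
    min (ordAt τ f) (ordAt τ g) ≤ ordAt τ (f + g) :=
  le_analyticOrderAt_add

theorem ordAt_zero (τ : ℍ) : ordAt τ (0 : ℍ → ℂ) = ⊤ := by
  rw [ordAt_def, analyticOrderAt_eq_top]
  exact Filter.Eventually.of_forall fun z => rfl

theorem mul_eq_zero_of_mdiff {f g : ℍ → ℂ} (hf : MDiff f) (hg : MDiff g) (h : f * g = 0) :
    f = 0 ∨ g = 0 := by
  by_contra hcon
  rw [not_or] at hcon
  have h1 := ordAt_mul hf hg UpperHalfPlane.I
  rw [h, ordAt_zero] at h1
  have h3 := ordAt_ne_top hf hcon.1 UpperHalfPlane.I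
  have h4 := ordAt_ne_top hg hcon.2 UpperHalfPlane.I
  exact (WithTop.add_ne_top.mpr ⟨h3, h4⟩) h1.symm

instance instNontrivialHoloRing : Nontrivial holoRing :=
  ⟨⟨0, 1, fun h => by
    have := congrArg (fun f : holoRing => (f : ℍ → ℂ) UpperHalfPlane.I) h
    simp at this⟩⟩

instance instNoZeroDivisorsHoloRing : NoZeroDivisors holoRing :=
  ⟨by
    intro a b hab
    have h2 : ((a : ℍ → ℂ) * (b : ℍ → ℂ)) = 0 := by
      have := congrArg (Subtype.val) hab
      simpa using this
    rcases mul_eq_zero_of_mdiff a.2 b.2 h2 with h | h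
    · exact Or.inl (Subtype.ext h)
    · exact Or.inr (Subtype.ext h)⟩

instance instIsDomainHoloRing : IsDomain holoRing := NoZeroDivisors.to_isDomain _

end Fermat.Agent.S24.H624

end
-- ===== PACK-END S24/H624/HoloRing.lean

-- ===== PACK-BEGIN S24/H117/OrbitCount.lean
section


/-!
# S24 / H117 — an abstract orbit-counting squeeze

Let `perm` be a permutation of a finite set `X`, `φ : X → β` a `perm`-invariant map and
`e : β → ℕ` such that `e (φ x)` divides every period of `x`.  If `#X ≤ ∑_{v ∈ range φ} e v`, then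
`φ` induces a bijection between the cycles of `perm` and `range φ`, and the cycle through `x`
has exactly `e (φ x)` elements.
-/

set_option autoImplicit false

noncomputable section

open MulAction

namespace Fermat.Agent.S24.H117

variable {X β : Type*}

theorem map_eq_of_mem_orbit_zpowers (perm : Equiv.Perm X) (φ : X → β)
    (hperm : ∀ x, φ (perm x) = φ x) {x y : X}
    (h : y ∈ orbit (Subgroup.zpowers perm) x) : φ y = φ x := by
  obtain ⟨⟨g, hg⟩, rfl⟩ := h
  obtain ⟨k, rfl⟩ := Subgroup.mem_zpowers_iff.mp hg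
  show φ ((perm ^ k) x) = φ x
  have hinv : ∀ z, φ (perm⁻¹ z) = φ z := fun z => by
    have := hperm (perm⁻¹ z)
    simpa using this.symm
  induction k using Int.induction_on generalizing x with
  | zero => simp
  | succ n ih =>
    rw [zpow_add_one, Equiv.Perm.mul_apply, ih (x := perm x), hperm]
    exact Subgroup.zpow_mem _ (Subgroup.mem_zpowers perm) _
  | pred n ih =>
    rw [zpow_sub_one, Equiv.Perm.mul_apply, ih (x := perm⁻¹ x), hinv]
    exact Subgroup.zpow_mem _ (Subgroup.mem_zpowers perm) _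

theorem orbit_count_squeeze [Fintype X] [DecidableEq β] (perm : Equiv.Perm X) (φ : X → β)
    (e : β → ℕ)
    (hperm : ∀ x, φ (perm x) = φ x)
    (hdiv : ∀ x (i : ℕ), (perm ^ i) x = x → e (φ x) ∣ i)
    (hsum : Fintype.card X ≤ ∑ v ∈ Finset.univ.image φ, e v) :
    Nat.card (orbitRel.Quotient (Subgroup.zpowers perm) X) = (Finset.univ.image φ).card ∧
      (∀ x, Nat.card (orbit (Subgroup.zpowers perm) x) = e (φ x)) ∧
      (∑ v ∈ Finset.univ.image φ, e v = Fintype.card X) := by
  classical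
  -- orbit sizes
  have hper : ∀ x, e (φ x) ≤ Fintype.card (orbit (Subgroup.zpowers perm) x) := by
    intro x
    have h1 : Function.minimalPeriod (perm • ·) x
        = Fintype.card (orbit (Subgroup.zpowers perm) x) := minimalPeriod_eq_card perm x
    have h2 : (perm ^ Function.minimalPeriod (perm • ·) x) x = x := by
      have := Function.iterate_minimalPeriod (f := (perm • ·)) (x := x)
      rw [smul_iterate] at this
      exact this
    have h3 := hdiv x _ h2
    rw [h1] at h3
    have : Nonempty (orbit (Subgroup.zpowers perm) x) := (nonempty_orbit x).to_subtype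
    exact Nat.le_of_dvd Fintype.card_pos h3
  -- the orbit is inside the fibre
  have hsub : ∀ x, (Finset.univ.filter (fun y : X => y ∈ orbit (Subgroup.zpowers perm) x))
      ⊆ Finset.univ.filter (fun y : X => φ y = φ x) := by
    intro x y hy
    simp only [Finset.mem_filter, Finset.mem_univ, true_and] at hy ⊢
    exact map_eq_of_mem_orbit_zpowers perm φ hperm hy
  have hcardO : ∀ x, (Finset.univ.filter (fun y : X => y ∈ orbit (Subgroup.zpowers perm) x)).card
      = Fintype.card (orbit (Subgroup.zpowers perm) x) := by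
    intro x
    rw [Fintype.card_subtype]
  have hle : ∀ v ∈ Finset.univ.image φ, e v ≤ (Finset.univ.filter (fun y : X => φ y = v)).card := by
    intro v hv
    obtain ⟨x, -, rfl⟩ := Finset.mem_image.mp hv
    calc e (φ x) ≤ Fintype.card (orbit (Subgroup.zpowers perm) x) := hper x
      _ = _ := (hcardO x).symm
      _ ≤ _ := Finset.card_le_card (hsub x)
  have htot : Fintype.card X = ∑ v ∈ Finset.univ.image φ, (Finset.univ.filter (fun y : X => φ y = v)).card := by
    rw [← Finset.card_univ]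
    exact Finset.card_eq_sum_card_fiberwise (fun x _ => Finset.mem_image_of_mem φ (Finset.mem_univ x))
  have hsumeq : ∑ v ∈ Finset.univ.image φ, e v
      = ∑ v ∈ Finset.univ.image φ, (Finset.univ.filter (fun y : X => φ y = v)).card := by
    apply le_antisymm (Finset.sum_le_sum hle)
    rw [← htot]
    exact hsum
  have hfib : ∀ v ∈ Finset.univ.image φ, e v = (Finset.univ.filter (fun y : X => φ y = v)).card :=
    (Finset.sum_eq_sum_iff_of_le hle).mp hsumeq
  have hOeq : ∀ x, (Finset.univ.filter (fun y : X => y ∈ orbit (Subgroup.zpowers perm) x))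
      = Finset.univ.filter (fun y : X => φ y = φ x) := by
    intro x
    apply Finset.eq_of_subset_of_card_le (hsub x)
    rw [← hfib _ (Finset.mem_image_of_mem φ (Finset.mem_univ x)), hcardO]
    exact hper x
  refine ⟨?_, ?_, ?_⟩
  · -- bijection between orbits and the image
    let Φ : orbitRel.Quotient (Subgroup.zpowers perm) X → (Finset.univ.image φ : Finset β) :=
      fun ω => Quotient.liftOn' ω
        (fun x => (⟨φ x, Finset.mem_image_of_mem φ (Finset.mem_univ x)⟩ :
          (Finset.univ.image φ : Finset β)))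
        (fun a b hab => Subtype.ext (map_eq_of_mem_orbit_zpowers perm φ hperm hab))
    have hΦbij : Function.Bijective Φ := by
      constructor
      · intro ω₁ ω₂ h
        induction ω₁ using Quotient.inductionOn' with | _ x
        induction ω₂ using Quotient.inductionOn' with | _ y
        have hxy : φ x = φ y := congrArg Subtype.val h
        apply Quotient.sound'
        show x ∈ orbit (Subgroup.zpowers perm) y
        have : x ∈ Finset.univ.filter (fun z : X => φ z = φ y) := by simp [hxy]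
        rw [← hOeq y] at this
        simpa using this
      · rintro ⟨v, hv⟩
        obtain ⟨x, -, rfl⟩ := Finset.mem_image.mp hv
        exact ⟨Quotient.mk'' x, rfl⟩
    rw [Nat.card_congr (Equiv.ofBijective Φ hΦbij), Nat.card_eq_fintype_card, Fintype.card_coe]
  · intro x
    rw [Nat.card_eq_fintype_card, ← hcardO, hOeq, hfib _ (Finset.mem_image_of_mem φ (Finset.mem_univ x))]
  · rw [hsumeq, ← htot]

end Fermat.Agent.S24.H117

end
end
-- ===== PACK-END S24/H117/OrbitCount.lean

-- ===== PACK-BEGIN S29/H571/Equivariant.lean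
section


/-!
# Equivariance of pull-back / push-forward / correspondences of divisors
under semilinear automorphisms (helper571, piece GEQ of the S29 route)

If `φ : F →ₐ[K] F'` and semilinear automorphisms `g` of `F`, `g'` of `F'` satisfy
`g' (φ x) = φ (g x)` (`SemilinearAut.IntertwinesAlong`), then restriction of places,
ramification indices, inertia degrees, pull-back and push-forward of divisors along `φ`
commute with the actions of `g`, `g'`.  Consequently a correspondence
`Pic0.correspondence φ ψ` commutes with `(g, g')` as soon as both legs intertwine.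
-/

set_option autoImplicit false
set_option linter.style.haveILetI false

noncomputable section

namespace Fermat.Agent.S29.H571

open AlgebraicCurve
open scoped Pointwise

variable {K F F' : Type*} [Field K] [Field F] [Field F'] [Algebra K F] [Algebra K F']

section PlaceLemmas

variable (φ : F →ₐ[K] F') (hφ : φ.toRingHom.IsIntegral)
  {g : SemilinearAut K F} {g' : SemilinearAut K F'}

theorem mem_restrictAlong_iff (w : Place K F') (x : F) :
    x ∈ (w.restrictAlong φ hφ).toValuationSubring ↔ φ x ∈ w.toValuationSubring :=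
  Iff.rfl

theorem restrictAlong_smul (h : SemilinearAut.IntertwinesAlong (φ : F →+* F') g g')
    (w : Place K F') :
    (g' • w).restrictAlong φ hφ = g • (w.restrictAlong φ hφ) := by
  apply Place.ext
  ext x
  rw [mem_restrictAlong_iff, SemilinearAut.smul_toValuationSubring,
    SemilinearAut.smul_toValuationSubring,
    ValuationSubring.mem_pointwise_smul_iff_inv_smul_mem,
    ValuationSubring.mem_pointwise_smul_iff_inv_smul_mem, mem_restrictAlong_iff]
  have := h.inv x
  rw [show (φ : F →+* F') x = φ x from rfl] at this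
  rw [this]
  rfl

theorem ord_smul_apply (h : SemilinearAut.IntertwinesAlong (φ : F →+* F') g g')
    (w : Place K F') (f : F) :
    (g' • w).ord (φ (g • f)) = w.ord (φ f) := by
  have h1 : φ (g • f) = g' • (φ f) := (h f).symm
  rw [h1, SemilinearAut.ord_smul]

theorem ramificationIndexAlong_smul
    (h : SemilinearAut.IntertwinesAlong (φ : F →+* F') g g') (w : Place K F') :
    (g' • w).ramificationIndexAlong φ = w.ramificationIndexAlong φ := by
  unfold Place.ramificationIndexAlong Place.ramificationIndex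
  congr 1
  ext n
  simp only [Set.mem_ofPred_eq]
  constructor
  · rintro ⟨hn, f, hf, hfn⟩
    refine ⟨hn, g⁻¹ • f, by simpa using hf, ?_⟩
    rw [← hfn]
    have := ord_smul_apply φ h w (g⁻¹ • f)
    rw [smul_inv_smul] at this
    exact this.symm
  · rintro ⟨hn, f, hf, hfn⟩
    refine ⟨hn, g • f, by simpa using hf, ?_⟩
    rw [← hfn]
    exact ord_smul_apply φ h w f

/-- The ring isomorphism between the valuation rings of `w.restrictAlong φ` and
`(g' • w).restrictAlong φ` induced by `g`. -/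
def restrictSMulEquiv (h : SemilinearAut.IntertwinesAlong (φ : F →+* F') g g')
    (w : Place K F') :
    (w.restrictAlong φ hφ).toValuationSubring ≃+*
      ((g' • w).restrictAlong φ hφ).toValuationSubring where
  toFun x := ⟨g • (x : F), by
    rw [mem_restrictAlong_iff, SemilinearAut.smul_toValuationSubring,
      show φ (g • (x : F)) = g' • φ (x : F) from (h (x : F)).symm]
    exact ValuationSubring.smul_mem_pointwise_smul g' _ _ ((mem_restrictAlong_iff φ hφ w _).mp x.2)⟩
  invFun y := ⟨g⁻¹ • (y : F), by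
    rw [mem_restrictAlong_iff,
      show φ (g⁻¹ • (y : F)) = g'⁻¹ • φ (y : F) from (h.inv (y : F)).symm]
    have hy := (mem_restrictAlong_iff φ hφ (g' • w) _).mp y.2
    rw [SemilinearAut.smul_toValuationSubring,
      ValuationSubring.mem_pointwise_smul_iff_inv_smul_mem] at hy
    exact hy⟩
  left_inv x := Subtype.ext (inv_smul_smul g (x : F))
  right_inv y := Subtype.ext (smul_inv_smul g (y : F))
  map_mul' x y := Subtype.ext (smul_mul' g (x : F) (y : F))
  map_add' x y := Subtype.ext (smul_add g (x : F) (y : F))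

@[simp]
theorem coe_restrictSMulEquiv_apply (h : SemilinearAut.IntertwinesAlong (φ : F →+* F') g g')
    (w : Place K F') (x : (w.restrictAlong φ hφ).toValuationSubring) :
    ((restrictSMulEquiv φ hφ h w x :
      ((g' • w).restrictAlong φ hφ).toValuationSubring) : F) = g • (x : F) := rfl

theorem inertiaDegAlong_smul (h : SemilinearAut.IntertwinesAlong (φ : F →+* F') g g')
    (w : Place K F') :
    (g' • w).inertiaDegAlong φ hφ = w.inertiaDegAlong φ hφ := by
  letI := algebraAlong φ
  haveI := isScalarTower_along φ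
  haveI := isIntegral_along φ hφ
  show Module.finrank ((g' • w).restrict F).ResidueField (g' • w).ResidueField
    = Module.finrank (w.restrict F).ResidueField w.ResidueField
  symm
  let e : (Place.restrict F w).toValuationSubring ≃+*
      (Place.restrict F (g' • w)).toValuationSubring := restrictSMulEquiv φ hφ h w
  refine Algebra.finrank_eq_of_equiv_equiv
    (IsLocalRing.ResidueField.mapEquiv e)
    (SemilinearAut.smulResidueRingEquiv g' w) ?_
  refine Ideal.Quotient.ringHom_ext (RingHom.ext fun x => ?_)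
  show algebraMap ((g' • w).restrict F).ResidueField (g' • w).ResidueField
      (IsLocalRing.ResidueField.mapEquiv e
        (IsLocalRing.residue (Place.restrict F w).toValuationSubring x))
    = SemilinearAut.smulResidueRingEquiv g' w
        (algebraMap (w.restrict F).ResidueField w.ResidueField
          (IsLocalRing.residue (Place.restrict F w).toValuationSubring x))
  rw [IsLocalRing.ResidueField.mapEquiv_apply, IsLocalRing.ResidueField.map_residue,
    Place.algebraMap_residueField_eq, Place.algebraMap_residueField_eq,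
    Place.restrictResidueMap_residue, Place.restrictResidueMap_residue]
  show IsLocalRing.residue _ _ = IsLocalRing.ResidueField.mapEquiv _ (IsLocalRing.residue _ _)
  rw [IsLocalRing.ResidueField.mapEquiv_apply, IsLocalRing.ResidueField.map_residue]
  refine congrArg _ (Subtype.ext ?_)
  exact (h (x : F)).symm

end PlaceLemmas

section DivisorLemmas

variable (φ : F →ₐ[K] F') (hφ : φ.toRingHom.IsIntegral)
  {g : SemilinearAut K F} {g' : SemilinearAut K F'}

theorem pushforwardAlong_smul (h : SemilinearAut.IntertwinesAlong (φ : F →+* F') g g')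
    (D : Divisor K F') :
    Divisor.pushforwardAlong φ hφ (g' • D) = g • Divisor.pushforwardAlong φ hφ D := by
  induction D using Finsupp.induction with
  | zero => simp
  | single_add w n D _ _ ih =>
    rw [smul_add, map_add, map_add, smul_add, ih, SemilinearAut.smul_single,
      Divisor.pushforwardAlong_single, Divisor.pushforwardAlong_single,
      SemilinearAut.smul_single, restrictAlong_smul φ hφ h, inertiaDegAlong_smul φ hφ h]

theorem pullbackAlong_smul [HasPrincipalDivisors K F']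
    (h : SemilinearAut.IntertwinesAlong (φ : F →+* F') g g') (D : Divisor K F) :
    Divisor.pullbackAlong φ hφ (g • D) = g' • Divisor.pullbackAlong φ hφ D := by
  ext w
  rw [Divisor.pullbackAlong_apply, SemilinearAut.divisor_smul_apply,
    SemilinearAut.divisor_smul_apply, Divisor.pullbackAlong_apply,
    restrictAlong_smul φ hφ h.inv, ramificationIndexAlong_smul φ h.inv]

end DivisorLemmas

section CorrespondenceLemmas

variable [HasPrincipalDivisors K F']
variable (φ ψ : F →ₐ[K] F') (hφ : φ.toRingHom.IsIntegral) (hψ : ψ.toRingHom.IsIntegral)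
  {g : SemilinearAut K F} {g' : SemilinearAut K F'}

theorem divisor_correspondence_smul
    (h₁ : SemilinearAut.IntertwinesAlong (φ : F →+* F') g g')
    (h₂ : SemilinearAut.IntertwinesAlong (ψ : F →+* F') g g') (D : Divisor K F) :
    Divisor.correspondence φ ψ hφ hψ (g • D) = g • Divisor.correspondence φ ψ hφ hψ D := by
  rw [Divisor.correspondence_apply, Divisor.correspondence_apply,
    pullbackAlong_smul φ hφ h₁, pushforwardAlong_smul ψ hψ h₂]

theorem pic0_correspondence_smul
    (hFI : FundamentalIdentityAlong K φ hφ)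
    (hfin : FiniteAlong K ψ) (hN : NormFormulaAlong K ψ hfin)
    (h₁ : SemilinearAut.IntertwinesAlong (φ : F →+* F') g g')
    (h₂ : SemilinearAut.IntertwinesAlong (ψ : F →+* F') g g') (x : Pic0 K F) :
    Pic0.correspondence φ ψ hφ hψ hFI hfin hN (g • x)
      = g • Pic0.correspondence φ ψ hφ hψ hFI hfin hN x := by
  obtain ⟨D, rfl⟩ := Pic0.mk_surjective x
  rw [SemilinearAut.pic0_smul_mk, Pic0.correspondence_mk, Pic0.correspondence_mk,
    SemilinearAut.pic0_smul_mk]
  refine congrArg Pic0.mk (Subtype.ext ?_)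
  rw [Pic0.coe_degZeroCorrespondence, SemilinearAut.coe_degZeroSMulHom,
    SemilinearAut.coe_degZeroSMulHom, Pic0.coe_degZeroCorrespondence]
  exact divisor_correspondence_smul φ ψ hφ hψ h₁ h₂ (D : Divisor K F)

end CorrespondenceLemmas

end Fermat.Agent.S29.H571

end
end
-- ===== PACK-END S29/H571/Equivariant.lean

-- ===== PACK-BEGIN S21/H381/Primitive.lean
section



/-!
# S21, piece A (part 1): decaying primitives of periodic holomorphic functions on `ℍ`

`exists_disc_primitive`: if `g : ℍ → ℂ` is holomorphic, `h`-periodic and tends to `0` at `i∞`,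
there is `Ψ` holomorphic on the open unit disc with `Ψ 0 = 0` such that `z ↦ Ψ (𝕢 h z)` is a
primitive of `g` on `ℍ`.
-/

set_option autoImplicit false

namespace Fermat.Agent.S21.H381

open Filter Topology Function Complex
open UpperHalfPlane hiding I
open scoped Manifold

/-- On the upper half plane, `G ∘ ofComplex` and `G' := fun z => Ψ (𝕢 h z)` agree near any point
as soon as `G τ = Ψ (𝕢 h τ)` on `ℍ`. -/
theorem comp_ofComplex_eventuallyEq {G : ℍ → ℂ} {P : ℂ → ℂ} (hGP : ∀ τ : ℍ, G τ = P ↑τ)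
    (τ : ℍ) : G ∘ ofComplex =ᶠ[𝓝 (τ : ℂ)] P := by
  have hopen : IsOpen {z : ℂ | 0 < z.im} := isOpen_lt continuous_const Complex.continuous_im
  filter_upwards [hopen.mem_nhds τ.2] with z hz
  simp only [Function.comp_apply, ofComplex_apply_of_im_pos hz, hGP]

/-- **One-step decaying primitive.** -/
theorem exists_disc_primitive {g : ℍ → ℂ} {h : ℝ} (hh : 0 < h)
    (hper : Periodic (g ∘ ofComplex) h) (hhol : MDiff g) (hzero : IsZeroAtImInfty g) :
    ∃ Ψ : ℂ → ℂ, DifferentiableOn ℂ Ψ (Metric.ball 0 1) ∧ Ψ 0 = 0 ∧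
      ∀ τ : ℍ, HasDerivAt (fun z : ℂ => (h / (2 * Real.pi * I)) * Ψ (Periodic.qParam h z))
        (g τ) ↑τ := by
  have hbdd : IsBoundedAtImInfty g := hzero.isBoundedAtImInfty
  set φ : ℂ → ℂ := cuspFunction h g with hφ
  have hφdiff : DifferentiableOn ℂ φ (Metric.ball 0 1) :=
    differentiableOn_cuspFunction_ball hh hper hhol hbdd
  have hφ0 : φ 0 = 0 := by
    have h1 := cuspFunction_apply_zero hh
      (analyticAt_cuspFunction_zero hh hper hhol hbdd) hper
    rw [hφ, h1]
    exact hzero.valueAtInfty_eq_zero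
  have hball : Metric.ball (0 : ℂ) 1 ∈ 𝓝 (0 : ℂ) := Metric.ball_mem_nhds 0 one_pos
  have hψdiff : DifferentiableOn ℂ (dslope φ 0) (Metric.ball 0 1) :=
    (Complex.differentiableOn_dslope hball).2 hφdiff
  obtain ⟨Ψ, hΨ0, hΨ⟩ := (hψdiff.isExactOn_ball).with_val_at 0 0
  refine ⟨Ψ, ?_, hΨ0, ?_⟩
  · intro z hz
    exact (hΨ z hz).differentiableAt.differentiableWithinAt
  · intro τ
    set q : ℂ := Periodic.qParam h ↑τ with hq
    have hqball : q ∈ Metric.ball (0 : ℂ) 1 := by
      rw [mem_ball_zero_iff]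
      exact Periodic.norm_qParam_lt_one hh τ.2
    have hq0 : q ≠ 0 := Periodic.qParam_ne_zero _
    have hqd : HasDerivAt (Periodic.qParam h) (q * (2 * Real.pi * I / h)) ↑τ := by
      have hs : HasStrictDerivAt (Periodic.qParam h) (q * (2 * Real.pi * I / h)) (τ : ℂ) := by
        simpa only [id_eq, mul_one] using!
          (((hasStrictDerivAt_id (τ : ℂ)).const_mul _).div_const _).cexp
      exact hs.hasDerivAt
    have hcomp := (hΨ q hqball).comp (τ : ℂ) hqd
    have hval : (h / (2 * Real.pi * I) : ℂ) * (dslope φ 0 q * (q * (2 * Real.pi * I / h)))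
        = g τ := by
      have hφq : φ q = g τ := eq_cuspFunction τ hh.ne' hper
      rw [dslope_of_ne _ hq0, slope_def_field, hφ0, sub_zero, sub_zero, hφq]
      have hh' : (h : ℂ) ≠ 0 := by exact_mod_cast hh.ne'
      have hpi : (2 * Real.pi * I : ℂ) ≠ 0 := Complex.two_pi_I_ne_zero
      field_simp
    have h3 := hcomp.const_mul (h / (2 * Real.pi * I) : ℂ)
    rw [hval] at h3
    exact h3

end Fermat.Agent.S21.H381

end
-- ===== PACK-END S21/H381/Primitive.lean

-- ===== PACK-BEGIN S21/H81/InjCore.lean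
section



/-!
# S21, piece C (core): a holomorphic function on `ℍ` whose real part is `Γ₀(N)`-invariant and
which has a limit at every cusp has vanishing derivative.
-/

set_option autoImplicit false

open UpperHalfPlane CongruenceSubgroup Filter Topology Complex
open scoped MatrixGroups Manifold

namespace Fermat.Agent.S21.H81

/-- `SL(2,ℤ)` acts holomorphically on `ℍ`. -/
theorem injCore_mdiff_smul (g : SL(2, ℤ)) : MDiff (fun τ : ℍ => g • τ) := by
  have h : (0 : ℝ) < ((g : GL (Fin 2) ℝ).det : ℝ) := by simp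
  exact mdifferentiable_smul h

theorem injCore_mdiff_of_differentiableAt {A : ℍ → ℂ}
    (hol : ∀ τ : ℍ, DifferentiableAt ℂ (A ∘ ofComplex) (τ : ℂ)) : MDiff A := by
  intro τ
  exact UpperHalfPlane.mdifferentiableAt_iff.mpr (hol τ)

/-- `T ^ N` conjugated by anything lies in `Γ₀(N)`. -/
theorem injCore_conj_T_pow_mem (N : ℕ) (δ : SL(2, ℤ)) :
    δ * ModularGroup.T ^ (N : ℤ) * δ⁻¹ ∈ Gamma0 N := by
  have h1 : ModularGroup.T ^ (N : ℤ) ∈ CongruenceSubgroup.Gamma N := by
    rw [Gamma_mem, ModularGroup.coe_T_zpow]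
    simp
  have h2 : δ * ModularGroup.T ^ (N : ℤ) * δ⁻¹ ∈ CongruenceSubgroup.Gamma N :=
    (Gamma_normal N).conj_mem _ h1 δ
  exact Gamma0_mem.mpr (Gamma_mem.mp h2).2.2.1

theorem injCore_tendsto_vadd (x : ℝ) :
    Tendsto (fun w : ℍ => x +ᵥ w) atImInfty atImInfty := by
  rw [atImInfty, tendsto_comap_iff]
  have : (UpperHalfPlane.im ∘ fun w : ℍ => x +ᵥ w) = UpperHalfPlane.im := by
    funext w; simp
  rw [this]
  exact tendsto_comap


section core

variable {N : ℕ} {A : ℍ → ℂ}

theorem injCore_vadd_eq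
    (hinv : ∀ γ ∈ Gamma0 N, ∃ c : ℂ, c.re = 0 ∧ ∀ z : ℍ, A (γ • z) - A z = c)
    (hcusp : ∀ δ : SL(2, ℤ), ∃ L : ℂ, Tendsto (fun w : ℍ => A (δ • w)) atImInfty (𝓝 L))
    (δ : SL(2, ℤ)) (w : ℍ) : A (δ • ((N : ℝ) +ᵥ w)) = A (δ • w) := by
  obtain ⟨c, -, hc⟩ := hinv _ (injCore_conj_T_pow_mem N δ)
  have key : ∀ w : ℍ, A (δ • ((N : ℝ) +ᵥ w)) - A (δ • w) = c := by
    intro w
    have h := hc (δ • w)
    have e : (δ * ModularGroup.T ^ (N : ℤ) * δ⁻¹) • (δ • w) = δ • ((N : ℝ) +ᵥ w) := by
      rw [mul_smul, mul_smul, inv_smul_smul, modular_T_zpow_smul]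
      simp
    rwa [e] at h
  obtain ⟨L, hL⟩ := hcusp δ
  have h1 : Tendsto (fun w : ℍ => A (δ • ((N : ℝ) +ᵥ w))) atImInfty (𝓝 L) :=
    hL.comp (injCore_tendsto_vadd (N : ℝ))
  have h2 : Tendsto (fun w : ℍ => A (δ • ((N : ℝ) +ᵥ w)) - A (δ • w)) atImInfty (𝓝 (L - L)) :=
    h1.sub hL
  have h3 : Tendsto (fun _ : ℍ => c) atImInfty (𝓝 (L - L)) := by
    refine h2.congr ?_
    intro w
    exact key w
  have hc0 : c = 0 := by
    have := tendsto_nhds_unique h3 tendsto_const_nhds
    simpa using this.symm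
  have := key w
  rw [hc0, sub_eq_zero] at this
  exact this

/-- The functions `E δ w = exp (A (δ • w))`. -/
noncomputable def injCoreE (A : ℍ → ℂ) (δ : SL(2, ℤ)) : ℍ → ℂ := fun w => cexp (A (δ • w))

theorem injCoreE_mdiff (hA : MDiff A) (δ : SL(2, ℤ)) : MDiff (injCoreE A δ) := by
  have h1 : MDiff (fun w : ℍ => A (δ • w)) := hA.comp (injCore_mdiff_smul δ)
  exact (Complex.differentiable_exp.mdifferentiable).comp h1

theorem injCoreE_periodic [NeZero N]
    (hinv : ∀ γ ∈ Gamma0 N, ∃ c : ℂ, c.re = 0 ∧ ∀ z : ℍ, A (γ • z) - A z = c)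
    (hcusp : ∀ δ : SL(2, ℤ), ∃ L : ℂ, Tendsto (fun w : ℍ => A (δ • w)) atImInfty (𝓝 L))
    (δ : SL(2, ℤ)) : Function.Periodic (injCoreE A δ ∘ ofComplex) ((N : ℝ) : ℂ) := by
  intro w
  by_cases hw : 0 < im w
  · have hw' : 0 < im (w + ((N : ℝ) : ℂ)) := by simpa using hw
    simp only [Function.comp_apply, ofComplex_apply_of_im_pos hw', ofComplex_apply_of_im_pos hw]
    have e : (⟨w + ((N : ℝ) : ℂ), hw'⟩ : ℍ) = (N : ℝ) +ᵥ (⟨w, hw⟩ : ℍ) := by
      ext
      simp [add_comm]
    rw [e]
    unfold injCoreE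
    rw [injCore_vadd_eq hinv hcusp δ]
  · have hw' : im (w + ((N : ℝ) : ℂ)) ≤ 0 := by simpa using not_lt.mp hw
    simp only [Function.comp_apply]
    rw [ofComplex_apply_of_im_nonpos hw', ofComplex_apply_of_im_nonpos (not_lt.mp hw)]

theorem injCoreE_bdd
    (hcusp : ∀ δ : SL(2, ℤ), ∃ L : ℂ, Tendsto (fun w : ℍ => A (δ • w)) atImInfty (𝓝 L))
    (δ : SL(2, ℤ)) : IsBoundedAtImInfty (injCoreE A δ) := by
  obtain ⟨L, hL⟩ := hcusp δ
  have h : Tendsto (injCoreE A δ) atImInfty (𝓝 (cexp L)) :=
    (Complex.continuous_exp.tendsto L).comp hL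
  exact h.isBigO_one ℝ


theorem injCore_norm_qParam_le (hN : (0 : ℝ) < N) {w : ℍ} (hw : 1 / 2 ≤ w.im) :
    ‖Function.Periodic.qParam (N : ℝ) (w : ℂ)‖ ≤ Real.exp (-Real.pi / N) := by
  rw [Function.Periodic.norm_qParam, Real.exp_le_exp]
  have hpi := Real.pi_pos
  rw [div_le_div_iff_of_pos_right hN]
  have : (w : ℂ).im = w.im := rfl
  rw [this]
  nlinarith

theorem injCore_exp_const [NeZero N] (hol : MDiff A)
    (hinv : ∀ γ ∈ Gamma0 N, ∃ c : ℂ, c.re = 0 ∧ ∀ z : ℍ, A (γ • z) - A z = c)
    (hcusp : ∀ δ : SL(2, ℤ), ∃ L : ℂ, Tendsto (fun w : ℍ => A (δ • w)) atImInfty (𝓝 L)) :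
    ∃ K : ℂ, ∀ z : ℍ, cexp (A z) = K := by
  have hNpos : (0 : ℝ) < N := Nat.cast_pos.mpr (NeZero.pos N)
  set r := Real.exp (-Real.pi / N) with hr
  have hr0 : 0 ≤ r := (Real.exp_pos _).le
  have hr1 : r < 1 := by
    rw [hr, ← Real.exp_zero, Real.exp_lt_exp]
    exact div_neg_of_neg_of_pos (neg_lt_zero.mpr Real.pi_pos) hNpos
  -- cusp functions
  let Et : SL(2, ℤ) → ℂ → ℂ := fun δ => cuspFunction (N : ℝ) (injCoreE A δ)
  have hdiff : ∀ δ, DifferentiableOn ℂ (Et δ) (Metric.ball 0 1) := fun δ =>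
    differentiableOn_cuspFunction_ball hNpos (injCoreE_periodic hinv hcusp δ)
      (injCoreE_mdiff hol δ) (injCoreE_bdd hcusp δ)
  have heq : ∀ δ (w : ℍ), Et δ (Function.Periodic.qParam (N : ℝ) (w : ℂ)) = cexp (A (δ • w)) :=
    fun δ w => eq_cuspFunction w hNpos.ne' (injCoreE_periodic hinv hcusp δ)
  -- maxima on the closed ball
  have hmax : ∀ δ, ∃ q ∈ Metric.closedBall (0 : ℂ) r,
      IsMaxOn (norm ∘ Et δ) (Metric.closedBall 0 r) q := fun δ =>
    (isCompact_closedBall 0 r).exists_isMaxOn (Metric.nonempty_closedBall.mpr hr0)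
      ((hdiff δ).continuousOn.mono (Metric.closedBall_subset_ball hr1)).norm
  choose qmax hqmem hqmax using hmax
  -- finite quotient
  let δof : SL(2, ℤ) ⧸ Gamma0 N → SL(2, ℤ) := fun c => (Quotient.out c)⁻¹
  obtain ⟨c₀, hc₀⟩ := Finite.exists_max
    (fun c : SL(2, ℤ) ⧸ Gamma0 N => ‖Et (δof c) (qmax (δof c))‖)
  -- key bound
  have hbound : ∀ z : ℍ, ‖cexp (A z)‖ ≤ ‖Et (δof c₀) (qmax (δof c₀))‖ := by
    intro z
    obtain ⟨g, hg⟩ := ModularGroup.exists_smul_mem_fd z
    have him : 1 / 2 ≤ (g • z).im := by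
      have := ModularGroup.three_le_four_mul_im_sq_of_mem_fd hg
      nlinarith [(g • z).im_pos]
    set c : SL(2, ℤ) ⧸ Gamma0 N := (g : SL(2, ℤ) ⧸ Gamma0 N) with hcdef
    have hγ : (Quotient.out c)⁻¹ * g ∈ Gamma0 N :=
      QuotientGroup.eq.mp (QuotientGroup.out_eq' c)
    obtain ⟨c', hc're, hc'⟩ := hinv _ ((Gamma0 N).inv_mem hγ)
    have hz : ((Quotient.out c)⁻¹ * g)⁻¹ • (δof c • (g • z)) = z := by
      simp only [δof, mul_inv_rev, inv_inv, mul_smul, smul_inv_smul, inv_smul_smul]
    have h1 := hc' (δof c • (g • z))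
    rw [hz] at h1
    have hre : (A z).re = (A (δof c • (g • z))).re := by
      have := congrArg Complex.re h1
      simp only [Complex.sub_re] at this
      linarith
    have hnorm : ‖cexp (A z)‖ = ‖cexp (A (δof c • (g • z)))‖ := by
      rw [Complex.norm_exp, Complex.norm_exp, hre]
    rw [hnorm, ← heq]
    have hmem : Function.Periodic.qParam (N : ℝ) ((g • z : ℍ) : ℂ) ∈ Metric.closedBall (0 : ℂ) r := by
      rw [mem_closedBall_zero_iff]
      exact injCore_norm_qParam_le hNpos him
    exact (hqmax (δof c) hmem).trans (hc₀ c)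
  -- max on the open ball
  have hmaxball : IsMaxOn (norm ∘ Et (δof c₀)) (Metric.ball 0 1) (qmax (δof c₀)) := by
    intro q hq
    show ‖Et (δof c₀) q‖ ≤ ‖Et (δof c₀) (qmax (δof c₀))‖
    by_cases hq0 : q = 0
    · subst hq0
      exact hqmax _ (Metric.mem_closedBall_self hr0)
    · have him := Function.Periodic.im_invQParam_pos_of_norm_lt_one hNpos
        (mem_ball_zero_iff.mp hq) hq0
      have h2 := heq (δof c₀) ⟨_, him⟩
      rw [UpperHalfPlane.coe_mk, Function.Periodic.qParam_right_inv hNpos.ne' hq0] at h2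
      rw [h2]
      exact hbound _
  have hconst := Complex.eq_const_of_exists_max (hdiff (δof c₀))
    (Metric.closedBall_subset_ball hr1 (hqmem _)) hmaxball
  refine ⟨Et (δof c₀) (qmax (δof c₀)), fun z => ?_⟩
  have h3 := heq (δof c₀) ((δof c₀)⁻¹ • z)
  rw [smul_inv_smul] at h3
  rw [← h3]
  refine hconst ?_
  rw [mem_ball_zero_iff]
  exact Function.Periodic.norm_qParam_lt_one hNpos (UpperHalfPlane.im_pos _)

/-- **Core of the injectivity argument.** A holomorphic function on `ℍ` whose real part is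
`Γ₀(N)`-invariant and which has a limit at every cusp has vanishing derivative. -/
theorem injCore_deriv_eq_zero [NeZero N]
    (hol : ∀ τ : ℍ, DifferentiableAt ℂ (A ∘ ofComplex) (τ : ℂ))
    (hinv : ∀ γ ∈ Gamma0 N, ∃ c : ℂ, c.re = 0 ∧ ∀ z : ℍ, A (γ • z) - A z = c)
    (hcusp : ∀ δ : SL(2, ℤ), ∃ L : ℂ, Tendsto (fun w : ℍ => A (δ • w)) atImInfty (𝓝 L))
    (τ : ℍ) : deriv (A ∘ ofComplex) (τ : ℂ) = 0 := by
  obtain ⟨K, hK⟩ := injCore_exp_const (injCore_mdiff_of_differentiableAt hol) hinv hcusp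
  have h1 : (fun z : ℂ => cexp ((A ∘ ofComplex) z)) =ᶠ[𝓝 (τ : ℂ)] fun _ => K := by
    have hopen : {z : ℂ | 0 < z.im} ∈ 𝓝 (τ : ℂ) :=
      isOpen_upperHalfPlaneSet.mem_nhds τ.im_pos
    filter_upwards [hopen] with z hz
    simp only [Function.comp_apply]
    exact hK _
  have h2 : deriv (fun z : ℂ => cexp ((A ∘ ofComplex) z)) (τ : ℂ) = 0 := by
    rw [h1.deriv_eq]
    simp
  have h3 : HasDerivAt (fun z : ℂ => cexp ((A ∘ ofComplex) z))
      (cexp ((A ∘ ofComplex) (τ : ℂ)) * deriv (A ∘ ofComplex) (τ : ℂ)) (τ : ℂ) :=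
    (hol τ).hasDerivAt.cexp
  rw [h3.deriv] at h2
  exact (mul_eq_zero.mp h2).resolve_left (Complex.exp_ne_zero _)

end core

end Fermat.Agent.S21.H81

end
-- ===== PACK-END S21/H81/InjCore.lean

-- ===== PACK-BEGIN S29/H201/Transfer.lean
section





/-!
# S29 / P5-E2 (helper201) — the Hecke operator `T_p` on `Hom(Γ₀(N), A)` (transfer formula)

For a prime `p ∤ N`, the Prelude's coset representatives `heckeRep p x`
(`x : OnePoint (ZMod p)`, i.e. `(1 j; 0 p)` and `(p 0; 0 1)`) satisfy
`heckeRep p x * γ = t * heckeRep p (redMatrix p γ • x)` with a unique `t ∈ Γ₀(N)`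
(`heckeRep_mul` of the Prelude).  We call it `trf hpN γ x` and define
`(heckeHom p hpN A φ) γ = ∑ x, φ (trf hpN γ x)`.
-/

set_option autoImplicit false

open CongruenceSubgroup Matrix.SpecialLinearGroup
open scoped MatrixGroups
open P2MW.S_ModularForm_heckeT_slash_eq_self_of_mem_Gamma0.ModularForm.HeckeSlashInvariance

namespace Fermat.Agent.S29.H201

variable {N : ℕ} {p : ℕ} [Fact p.Prime]

theorem dvd_of_mem_Gamma0 (γ : Gamma0 N) : (N : ℤ) ∣ (γ : SL(2, ℤ)) 1 0 :=
  (ZMod.intCast_zmod_eq_zero_iff_dvd _ _).mp (Gamma0_mem.mp γ.2)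

theorem exists_trf (hpN : ¬ p ∣ N) (γ : Gamma0 N) (x : OnePoint (ZMod p)) :
    ∃ t : Gamma0 N, _root_.P2MW.S_ModularForm_heckeT_slash_eq_self_of_mem_Gamma0.ModularForm.HeckeSlashInvariance.heckeRep p x * mapGL ℝ (γ : SL(2, ℤ))
      = mapGL ℝ (t : SL(2, ℤ)) * _root_.P2MW.S_ModularForm_heckeT_slash_eq_self_of_mem_Gamma0.ModularForm.HeckeSlashInvariance.heckeRep p (redMatrix p (γ : SL(2, ℤ)) • x) := by
  obtain ⟨g', hg', h⟩ := heckeRep_mul hpN (γ : SL(2, ℤ)) (dvd_of_mem_Gamma0 γ) x
  exact ⟨⟨g', Gamma0_mem.mpr ((ZMod.intCast_zmod_eq_zero_iff_dvd _ _).mpr hg')⟩, h⟩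

/-- The transfer element: `heckeRep p x * γ = trf γ x * heckeRep p (redMatrix p γ • x)`. -/
noncomputable def trf (hpN : ¬ p ∣ N) (γ : Gamma0 N) (x : OnePoint (ZMod p)) : Gamma0 N :=
  (exists_trf hpN γ x).choose

theorem trf_spec (hpN : ¬ p ∣ N) (γ : Gamma0 N) (x : OnePoint (ZMod p)) :
    _root_.P2MW.S_ModularForm_heckeT_slash_eq_self_of_mem_Gamma0.ModularForm.HeckeSlashInvariance.heckeRep p x * mapGL ℝ (γ : SL(2, ℤ))
      = mapGL ℝ ((trf hpN γ x : Gamma0 N) : SL(2, ℤ))
        * _root_.P2MW.S_ModularForm_heckeT_slash_eq_self_of_mem_Gamma0.ModularForm.HeckeSlashInvariance.heckeRep p (redMatrix p (γ : SL(2, ℤ)) • x) :=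
  (exists_trf hpN γ x).choose_spec

theorem trf_unique (hpN : ¬ p ∣ N) (γ t : Gamma0 N) (x : OnePoint (ZMod p))
    (h : _root_.P2MW.S_ModularForm_heckeT_slash_eq_self_of_mem_Gamma0.ModularForm.HeckeSlashInvariance.heckeRep p x * mapGL ℝ (γ : SL(2, ℤ))
      = mapGL ℝ (t : SL(2, ℤ)) * _root_.P2MW.S_ModularForm_heckeT_slash_eq_self_of_mem_Gamma0.ModularForm.HeckeSlashInvariance.heckeRep p (redMatrix p (γ : SL(2, ℤ)) • x)) :
    t = trf hpN γ x := by
  have h2 := trf_spec hpN γ x
  rw [h] at h2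
  have h3 := mul_right_cancel h2
  exact Subtype.ext (mapGL_injective h3)

theorem redMatrix_mul (g g' : SL(2, ℤ)) :
    redMatrix p (g * g') = redMatrix p g' * redMatrix p g := by
  apply Matrix.GeneralLinearGroup.ext
  intro i j
  rw [Matrix.GeneralLinearGroup.coe_mul]
  fin_cases i <;> fin_cases j <;>
    simp [redMatrix, Matrix.mul_apply, Fin.sum_univ_two] <;> ring

theorem redMatrix_one : redMatrix p (1 : SL(2, ℤ)) = 1 := by
  apply Matrix.GeneralLinearGroup.ext
  intro i j
  fin_cases i <;> fin_cases j <;> simp [redMatrix]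

theorem trf_one (hpN : ¬ p ∣ N) (x : OnePoint (ZMod p)) : trf hpN (1 : Gamma0 N) x = 1 := by
  symm
  apply trf_unique
  simp [redMatrix_one]

theorem trf_mul (hpN : ¬ p ∣ N) (γ γ' : Gamma0 N) (x : OnePoint (ZMod p)) :
    trf hpN (γ * γ') x
      = trf hpN γ x * trf hpN γ' (redMatrix p (γ : SL(2, ℤ)) • x) := by
  symm
  apply trf_unique
  have h1 := trf_spec hpN γ x
  have h2 := trf_spec hpN γ' (redMatrix p (γ : SL(2, ℤ)) • x)
  calc _root_.P2MW.S_ModularForm_heckeT_slash_eq_self_of_mem_Gamma0.ModularForm.HeckeSlashInvariance.heckeRep p x * mapGL ℝ ((γ * γ' : Gamma0 N) : SL(2, ℤ))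
      = (_root_.P2MW.S_ModularForm_heckeT_slash_eq_self_of_mem_Gamma0.ModularForm.HeckeSlashInvariance.heckeRep p x * mapGL ℝ (γ : SL(2, ℤ))) * mapGL ℝ (γ' : SL(2, ℤ)) := by
        rw [Subgroup.coe_mul, map_mul, mul_assoc]
    _ = mapGL ℝ ((trf hpN γ x : Gamma0 N) : SL(2, ℤ)) *
          (_root_.P2MW.S_ModularForm_heckeT_slash_eq_self_of_mem_Gamma0.ModularForm.HeckeSlashInvariance.heckeRep p (redMatrix p (γ : SL(2, ℤ)) • x) * mapGL ℝ (γ' : SL(2, ℤ))) := by
        rw [h1, mul_assoc]
    _ = mapGL ℝ ((trf hpN γ x : Gamma0 N) : SL(2, ℤ)) *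
          (mapGL ℝ ((trf hpN γ' (redMatrix p (γ : SL(2, ℤ)) • x) : Gamma0 N) : SL(2, ℤ)) *
            _root_.P2MW.S_ModularForm_heckeT_slash_eq_self_of_mem_Gamma0.ModularForm.HeckeSlashInvariance.heckeRep p (redMatrix p (γ' : SL(2, ℤ)) • redMatrix p (γ : SL(2, ℤ)) • x)) := by
        rw [h2]
    _ = _ := by
        rw [Subgroup.coe_mul, map_mul, Subgroup.coe_mul, redMatrix_mul, mul_smul, mul_assoc]

instance instNeZeroOfFactPrime : NeZero p := ⟨(Fact.out : p.Prime).ne_zero⟩

/-- The permutation of `ℙ¹(𝔽_p)` induced by `γ` (a right action). -/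
noncomputable def permOf (γ : Gamma0 N) : Equiv.Perm (OnePoint (ZMod p)) :=
  MulAction.toPerm (redMatrix p (γ : SL(2, ℤ)))

theorem permOf_apply (γ : Gamma0 N) (x : OnePoint (ZMod p)) :
    permOf γ x = redMatrix p (γ : SL(2, ℤ)) • x := rfl

/-- The Hecke operator `T_p` on `Hom(Γ₀(N), A)` defined by the transfer formula. -/
noncomputable def heckeHom (p : ℕ) [Fact p.Prime] (hpN : ¬ p ∣ N) (A : Type*) [AddCommGroup A] :
    (Additive (Gamma0 N) →+ A) →+ (Additive (Gamma0 N) →+ A) where
  toFun φ :=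
    { toFun := fun γ => ∑ x : OnePoint (ZMod p), φ (Additive.ofMul (trf hpN (Additive.toMul γ) x))
      map_zero' := by
        show ∑ x : OnePoint (ZMod p), φ (Additive.ofMul (trf hpN (1 : Gamma0 N) x)) = 0
        simp [trf_one]
      map_add' := fun γ γ' => by
        show ∑ x : OnePoint (ZMod p),
            φ (Additive.ofMul (trf hpN (Additive.toMul γ * Additive.toMul γ') x)) = _
        simp only [trf_mul, ofMul_mul, map_add, Finset.sum_add_distrib]
        congr 1
        exact Equiv.sum_comp (permOf (Additive.toMul γ))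
          (fun y => φ (Additive.ofMul (trf hpN (Additive.toMul γ') y))) }
  map_zero' := by
    ext γ
    simp
  map_add' φ ψ := by
    ext γ
    simp [Finset.sum_add_distrib]

theorem heckeHom_apply (hpN : ¬ p ∣ N) {A : Type*} [AddCommGroup A]
    (φ : Additive (Gamma0 N) →+ A) (γ : Gamma0 N) :
    heckeHom p hpN A φ (Additive.ofMul γ)
      = ∑ x : OnePoint (ZMod p), φ (Additive.ofMul (trf hpN γ x)) := rfl

/-- Functoriality of `heckeHom` in the coefficient group. -/
theorem heckeHom_comp (hpN : ¬ p ∣ N) {A B : Type*} [AddCommGroup A] [AddCommGroup B]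
    (u : A →+ B) (φ : Additive (Gamma0 N) →+ A) :
    heckeHom p hpN B (u.comp φ) = u.comp (heckeHom p hpN A φ) := by
  ext γ
  show ∑ x : OnePoint (ZMod p), u (φ _) = u (∑ x : OnePoint (ZMod p), φ _)
  rw [map_sum]

end Fermat.Agent.S29.H201

end
-- ===== PACK-END S29/H201/Transfer.lean

-- ===== PACK-BEGIN S29/H152/DescAut.lean
section
/-
S29 / DESC (helper152) — part 1: automorphisms of an algebraically closed field over an
algebraically closed subfield.  Mathlib-only.

* `descAut_exists_add_one` : `x` transcendental over `K` in an algebraically closed field `C`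
  ⇒ some `σ : C ≃ₐ[K] C` has `σ x = x + 1`.
* `descAut_mem_range_of_fixed` : `K`, `C` algebraically closed, `C` of characteristic zero,
  `H ≤ Aut(C/K)` of finite index, `x` fixed by `H` ⇒ `x ∈ K`.
-/


set_option autoImplicit false

namespace Fermat.Agent.S29.H152

open MvPolynomial

section Shift

variable {K : Type*} [Field K] {ι : Type*} [DecidableEq ι]

/-- The `K`-algebra endomorphism of `K[X_i]` with `X_{i₀} ↦ X_{i₀} + c`, other variables fixed. -/
noncomputable def descShift (i₀ : ι) (c : K) : MvPolynomial ι K →ₐ[K] MvPolynomial ι K :=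
  aeval fun i => if i = i₀ then X i + C c else X i

theorem descShift_X_self (i₀ : ι) (c : K) : descShift i₀ c (X i₀) = X i₀ + C c := by
  simp [descShift]

theorem descShift_X_of_ne (i₀ : ι) (c : K) {i : ι} (h : i ≠ i₀) :
    descShift i₀ c (X i) = X i := by
  simp [descShift, h]

theorem descShift_comp (i₀ : ι) (c d : K) :
    (descShift i₀ c).comp (descShift i₀ d) = descShift i₀ (c + d) := by
  apply MvPolynomial.algHom_ext
  intro i
  by_cases h : i = i₀
  · subst h
    simp only [AlgHom.comp_apply, descShift_X_self, map_add]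
    rw [show (descShift i c) (C d) = C d from (descShift i c).commutes d]
    ring
  · simp only [AlgHom.comp_apply, descShift_X_of_ne _ _ h]

theorem descShift_zero (i₀ : ι) : descShift i₀ (0 : K) = AlgHom.id K _ := by
  apply MvPolynomial.algHom_ext
  intro i
  by_cases h : i = i₀
  · subst h
    simp [descShift_X_self]
  · simp [descShift_X_of_ne _ _ h]

/-- The shift as an algebra automorphism. -/
noncomputable def descShiftEquiv (i₀ : ι) (c : K) : MvPolynomial ι K ≃ₐ[K] MvPolynomial ι K :=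
  AlgEquiv.ofAlgHom (descShift i₀ c) (descShift i₀ (-c))
    (by rw [descShift_comp, add_neg_cancel, descShift_zero])
    (by rw [descShift_comp, neg_add_cancel, descShift_zero])

theorem descShiftEquiv_X_self (i₀ : ι) (c : K) : descShiftEquiv i₀ c (X i₀) = X i₀ + C c :=
  descShift_X_self i₀ c

end Shift

section Aut

variable {K Ω : Type*} [Field K] [Field Ω] [Algebra K Ω] [IsAlgClosed Ω]

/-- For `x` transcendental over `K` in an algebraically closed field `C`, some `K`-automorphism
of `C` maps `x` to `x + 1`. -/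
theorem descAut_exists_add_one (x : Ω) (hx : Transcendental K x) :
    ∃ σ : Ω ≃ₐ[K] Ω, σ x = x + 1 := by
  classical
  have hind : AlgebraicIndepOn K id ({x} : Set Ω) := by
    show AlgebraicIndependent K fun i : ({x} : Set Ω) => id (i : Ω)
    let _ : Unique ({x} : Set Ω) := Set.uniqueSingleton x
    rw [algebraicIndependent_unique_type_iff]
    exact hx
  obtain ⟨B, hxB, hB⟩ := exists_isTranscendenceBasis_superset hind
  have hxB' : x ∈ B := hxB (Set.mem_singleton x)
  let i₀ : B := ⟨x, hxB'⟩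
  -- the subalgebra generated by the basis
  let A := Algebra.adjoin K (Set.range ((↑) : B → Ω))
  have hAC : IsAlgClosure A Ω := IsAlgClosed.isAlgClosure_of_transcendence_basis _ hB
  -- the automorphism of `A`
  let e : A ≃ₐ[K] A := (hB.1.aevalEquiv.symm.trans (descShiftEquiv i₀ 1)).trans hB.1.aevalEquiv
  let σ₀ : Ω ≃+* Ω := IsAlgClosure.equivOfEquiv Ω Ω e.toRingEquiv
  have hσ₀ : ∀ a : A, σ₀ (algebraMap A Ω a) = algebraMap A Ω (e a) := fun a =>
    IsAlgClosure.equivOfEquiv_algebraMap Ω Ω e.toRingEquiv a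
  have hK : ∀ r : K, σ₀ (algebraMap K Ω r) = algebraMap K Ω r := by
    intro r
    have h1 : algebraMap K Ω r = algebraMap A Ω (algebraMap K A r) := rfl
    rw [h1, hσ₀, e.commutes]
  refine ⟨AlgEquiv.ofRingEquiv (f := σ₀) hK, ?_⟩
  show σ₀ x = x + 1
  have hx1 : x = algebraMap A Ω (hB.1.aevalEquiv (X i₀)) := by
    rw [hB.1.algebraMap_aevalEquiv, aeval_X]
  have he : e (hB.1.aevalEquiv (X i₀)) = hB.1.aevalEquiv (X i₀ + C 1) := by
    show hB.1.aevalEquiv ((descShiftEquiv i₀ 1) (hB.1.aevalEquiv.symm (hB.1.aevalEquiv (X i₀)))) = _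
    rw [AlgEquiv.symm_apply_apply, descShiftEquiv_X_self]
  conv_lhs => rw [hx1]
  rw [hσ₀, he, hB.1.algebraMap_aevalEquiv, map_add, aeval_X, aeval_C]
  simp [i₀]

omit [IsAlgClosed Ω] in
/-- Iterating: `σ ^ n` maps `x` to `x + n`. -/
theorem descAut_pow_apply {σ : Ω ≃ₐ[K] Ω} {x : Ω} (h : σ x = x + 1) (n : ℕ) :
    (σ ^ n) x = x + n := by
  induction n with
  | zero => simp
  | succ n ih =>
    rw [pow_succ', AlgEquiv.mul_apply, ih, map_add, h, map_natCast]
    push_cast
    ring

end Aut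

section Fixed

variable {K Ω : Type*} [Field K] [Field Ω] [Algebra K Ω] [IsAlgClosed K] [IsAlgClosed Ω]
  [CharZero Ω]

/-- An element of `C` fixed by a finite-index subgroup of `Aut(C/K)` lies in `K`. -/
theorem descAut_mem_range_of_fixed (H : Subgroup (Ω ≃ₐ[K] Ω)) (hH : H.index ≠ 0) (x : Ω)
    (hx : ∀ σ ∈ H, σ x = x) : x ∈ Set.range (algebraMap K Ω) := by
  by_contra hxK
  have htr : Transcendental K x := by
    intro halg
    apply hxK
    have hint : IsIntegral K x := halg.isIntegral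
    have hdeg : (minpoly K x).degree = 1 :=
      IsAlgClosed.degree_eq_one_of_irreducible K (minpoly.irreducible hint)
    exact minpoly.mem_range_of_degree_eq_one K x hdeg
  obtain ⟨σ, hσ⟩ := descAut_exists_add_one x htr
  obtain ⟨n, hn, -, hmem⟩ := Subgroup.exists_pow_mem_of_index_ne_zero hH σ
  have h1 := hx _ hmem
  rw [descAut_pow_apply hσ] at h1
  have : (n : Ω) = 0 := by simpa using h1
  exact hn.ne' (by exact_mod_cast this)

end Fixed

end Fermat.Agent.S29.H152

end
-- ===== PACK-END S29/H152/DescAut.lean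

-- ===== PACK-BEGIN S29/H152/DescBound.lean
section
/-
S29 / DESC (helper152) — part 3: the order bound.  Mathlib-only.

`j : C((q))` of order `-1`, `t = j⁻¹`.  If `v ≠ 0` is integral over `C[j]`, `v * t ^ m` is integral
over `C[t]` and `v` has degree `≤ D` over `C(j)`, then `ord_q v ≤ m * (D - 1)`.
(Global sections of a line bundle on a curve finite over the `j`-line have bounded order at a cusp.)
-/


set_option autoImplicit false

namespace Fermat.Agent.S29.H152

open Polynomial

variable {C : Type*} [Field C]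

/-! ### Power series inside Laurent series -/

theorem descBound_algebraMap_eq (c : C) :
    algebraMap C (LaurentSeries C) c
      = HahnSeries.ofPowerSeries ℤ C (algebraMap C (PowerSeries C) c) := rfl

theorem descBound_order_coe_nonneg (F : PowerSeries C) :
    0 ≤ (HahnSeries.ofPowerSeries ℤ C F).order := by
  by_cases h : HahnSeries.ofPowerSeries ℤ C F = 0
  · rw [h, HahnSeries.order_zero]
  · rw [HahnSeries.le_order_iff_forall h]
    intro j hj
    have := PowerSeries.coeff_coe (f := F) j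
    rw [if_pos hj] at this
    exact this

theorem descBound_exists_coe_of_order_nonneg {x : LaurentSeries C} (hx : 0 ≤ x.order) :
    ∃ F : PowerSeries C, HahnSeries.ofPowerSeries ℤ C F = x := by
  refine ⟨PowerSeries.mk fun n => x.coeff n, ?_⟩
  ext i
  have := PowerSeries.coeff_coe (f := PowerSeries.mk fun n => x.coeff n) i
  rw [this]
  split_ifs with hi
  · exact (HahnSeries.coeff_eq_zero_of_lt_order (lt_of_lt_of_le hi hx)).symm
  · rw [PowerSeries.coeff_mk]
    congr 1
    omega

/-- The subalgebra of power series. -/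
noncomputable def descBoundPS : Subalgebra C (LaurentSeries C) :=
  { (HahnSeries.ofPowerSeries ℤ C).range with
    algebraMap_mem' := fun c => ⟨algebraMap C (PowerSeries C) c, rfl⟩ }

theorem descBound_mem_PS {x : LaurentSeries C} :
    x ∈ descBoundPS (C := C) ↔ ∃ F : PowerSeries C, HahnSeries.ofPowerSeries ℤ C F = x :=
  Iff.rfl

theorem descBound_mem_PS_of_order_nonneg {x : LaurentSeries C} (hx : 0 ≤ x.order) :
    x ∈ descBoundPS (C := C) :=
  descBound_mem_PS.mpr (descBound_exists_coe_of_order_nonneg hx)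

theorem descBound_order_nonneg_of_mem_PS {x : LaurentSeries C} (hx : x ∈ descBoundPS (C := C)) :
    0 ≤ x.order := by
  obtain ⟨F, rfl⟩ := descBound_mem_PS.mp hx
  exact descBound_order_coe_nonneg F

/-- Power series are integrally closed in Laurent series. -/
theorem descBound_mem_PS_of_isIntegral {x : LaurentSeries C}
    (hx : IsIntegral (descBoundPS (C := C)) x) : x ∈ descBoundPS (C := C) := by
  have h1 : IsIntegral (PowerSeries C) x := by
    obtain ⟨p, hp, hpx⟩ := hx
    -- transport the polynomial along `PS → PowerSeries`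
    have hl : p.map (algebraMap (descBoundPS (C := C)) (LaurentSeries C))
        ∈ Polynomial.lifts (algebraMap (PowerSeries C) (LaurentSeries C)) := by
      rw [Polynomial.lifts_iff_coeff_lifts]
      intro n
      rw [Polynomial.coeff_map]
      obtain ⟨F, hF⟩ := descBound_mem_PS.mp (p.coeff n).2
      exact ⟨F, hF⟩
    obtain ⟨q, hq, -, hqm⟩ := Polynomial.lifts_and_natDegree_eq_and_monic hl (hp.map _)
    refine ⟨q, hqm, ?_⟩
    rw [← Polynomial.eval_map, hq, Polynomial.eval_map]
    exact hpx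
  obtain ⟨F, hF⟩ := IsIntegrallyClosed.isIntegral_iff.mp h1
  exact descBound_mem_PS.mpr ⟨F, hF⟩

/-- Monotonicity of integrality in the base subalgebra. -/
theorem descBound_isIntegral_mono {A : Type*} [CommRing A] [Algebra C A] {R S : Subalgebra C A}
    (h : R ≤ S) {x : A} (hx : IsIntegral R x) : IsIntegral S x := by
  refine IsIntegral.map_of_comp_eq (Subalgebra.inclusion h).toRingHom (RingHom.id A) ?_ hx
  ext r
  rfl

/-! ### Polynomials in an element of positive order -/

theorem descBound_aeval_pos_order {t : LaurentSeries C} (ht : 0 < t.order) (r : C[X]) :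
    aeval t r ∈ descBoundPS (C := C) ∧ (aeval t r).coeff 0 = r.coeff 0 := by
  obtain ⟨T, hT⟩ := descBound_exists_coe_of_order_nonneg ht.le
  have hT0 : PowerSeries.constantCoeff T = 0 := by
    have h1 : t.coeff 0 = 0 := HahnSeries.coeff_eq_zero_of_lt_order ht
    rw [← hT] at h1
    have h2 := LaurentSeries.coeff_coe_powerSeries T 0
    rw [Nat.cast_zero] at h2
    rw [h2] at h1
    rwa [PowerSeries.coeff_zero_eq_constantCoeff] at h1
  have key : aeval t r = HahnSeries.ofPowerSeries ℤ C (aeval T r) := by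
    rw [aeval_def, aeval_def, Polynomial.hom_eval₂, hT]
    rfl
  refine ⟨descBound_mem_PS.mpr ⟨_, key.symm⟩, ?_⟩
  rw [key]
  have h2 := LaurentSeries.coeff_coe_powerSeries (aeval T r) 0
  rw [Nat.cast_zero] at h2
  rw [h2, PowerSeries.coeff_zero_eq_constantCoeff_apply, aeval_def, Polynomial.hom_eval₂, hT0,
    Polynomial.eval₂_at_zero]
  simp

/-! ### `j` of order `-1` -/

section J

variable {j : LaurentSeries C}

theorem descBound_j_ne_zero (hj : j.order = -1) : j ≠ 0 := by
  rintro rfl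
  simp at hj

theorem descBound_order_inv (hj : j.order = -1) : (j⁻¹).order = 1 := by
  have h0 := descBound_j_ne_zero hj
  have h1 : (j * j⁻¹).order = j.order + (j⁻¹).order := HahnSeries.order_mul h0 (inv_ne_zero h0)
  rw [mul_inv_cancel₀ h0, HahnSeries.order_one, hj] at h1
  omega

theorem descBound_aeval_eq (hj : j.order = -1) (b : C[X]) :
    aeval j b = aeval j⁻¹ b.reverse * j ^ b.natDegree := by
  have h0 := descBound_j_ne_zero hj
  let _ := invertibleOfNonzero h0
  have := Polynomial.eval₂_reverse_mul_pow (algebraMap C (LaurentSeries C)) j b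
  rw [invOf_eq_inv] at this
  rw [aeval_def, aeval_def, this]

theorem descBound_aeval_j (hj : j.order = -1) (b : C[X]) (hb : b ≠ 0) :
    aeval j b ≠ 0 ∧ (aeval j b).order = -(b.natDegree : ℤ) := by
  have h0 := descBound_j_ne_zero hj
  have ht : 0 < (j⁻¹).order := by rw [descBound_order_inv hj]; exact one_pos
  obtain ⟨hz, hz0⟩ := descBound_aeval_pos_order ht b.reverse
  rw [Polynomial.coeff_zero_reverse] at hz0
  have hlc : b.leadingCoeff ≠ 0 := Polynomial.leadingCoeff_ne_zero.mpr hb
  have hzc : (aeval j⁻¹ b.reverse).coeff 0 ≠ 0 := by rw [hz0]; exact hlc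
  have hzne : aeval j⁻¹ b.reverse ≠ 0 := HahnSeries.ne_zero_of_coeff_ne_zero hzc
  have hzo : (aeval j⁻¹ b.reverse).order = 0 :=
    le_antisymm (HahnSeries.order_le_of_coeff_ne_zero hzc) (descBound_order_nonneg_of_mem_PS hz)
  rw [descBound_aeval_eq hj b]
  refine ⟨mul_ne_zero hzne (pow_ne_zero _ h0), ?_⟩
  rw [HahnSeries.order_mul hzne (pow_ne_zero _ h0), hzo, HahnSeries.order_pow, hj]
  simp

theorem descBound_transcendental_j (hj : j.order = -1) : Transcendental C j := by
  rw [transcendental_iff]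
  intro b hb
  by_contra hb0
  exact (descBound_aeval_j hj b hb0).1 hb

theorem descBound_transcendental_inv (hj : j.order = -1) : Transcendental C j⁻¹ := by
  intro h
  have := h.inv
  rw [inv_inv] at this
  exact descBound_transcendental_j hj this

theorem descBound_order_nonpos_of_mem_adjoin (hj : j.order = -1) {c : LaurentSeries C}
    (hc : c ∈ Algebra.adjoin C {j}) (hc0 : c ≠ 0) : c.order ≤ 0 := by
  rw [Algebra.adjoin_singleton_eq_range_aeval] at hc
  obtain ⟨b, rfl⟩ := hc
  have hb : b ≠ 0 := by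
    rintro rfl
    simp at hc0
  have := (descBound_aeval_j hj b hb).2
  change (aeval j b).order = _ at this
  show (aeval j b).order ≤ 0
  rw [this]
  omega

theorem descBound_adjoin_inv_le_PS (hj : j.order = -1) :
    Algebra.adjoin C {j⁻¹} ≤ descBoundPS (C := C) := by
  rw [Algebra.adjoin_le_iff]
  rintro x hx
  rw [Set.mem_singleton_iff] at hx
  subst hx
  exact descBound_mem_PS_of_order_nonneg (by rw [descBound_order_inv hj]; exact zero_le_one)

/-- An element of `C[j]` times a high power of `t = j⁻¹` lies in `C[t]`. -/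
theorem descBound_mul_inv_pow_mem (hj : j.order = -1) {c : LaurentSeries C}
    (hc : c ∈ Algebra.adjoin C {j}) :
    ∃ D₀ : ℕ, ∀ k, D₀ ≤ k → c * j⁻¹ ^ k ∈ Algebra.adjoin C {j⁻¹} := by
  have h0 := descBound_j_ne_zero hj
  rw [Algebra.adjoin_singleton_eq_range_aeval] at hc
  obtain ⟨b, rfl⟩ := hc
  refine ⟨b.natDegree, fun k hk => ?_⟩
  show aeval j b * j⁻¹ ^ k ∈ _
  rw [descBound_aeval_eq hj b]
  have hk' : j⁻¹ ^ k = j⁻¹ ^ b.natDegree * j⁻¹ ^ (k - b.natDegree) := by
    rw [← pow_add, Nat.add_sub_cancel' hk]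
  rw [hk', mul_assoc, ← mul_assoc (j ^ b.natDegree), ← mul_pow, mul_inv_cancel₀ h0, one_pow,
    one_mul]
  refine Subalgebra.mul_mem _ ?_ (Subalgebra.pow_mem _ (Algebra.self_mem_adjoin_singleton C _) _)
  rw [Algebra.adjoin_singleton_eq_range_aeval]
  exact ⟨b.reverse, rfl⟩

end J

/-! ### Coefficients of minimal polynomials -/

open scoped IntermediateField.algebraAdjoinAdjoin

/-- For `s` transcendental over `C` and `x` integral over `C[s]`, the coefficients of the minimal
polynomial of `x` over `C(s)` lie in `C[s]`. -/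
theorem descBound_coeff_minpoly_mem {s : LaurentSeries C} (hs : Transcendental C s)
    {x : LaurentSeries C} (hx : IsIntegral (Algebra.adjoin C {s}) x) (i : ℕ) :
    (((minpoly (IntermediateField.adjoin C {s}) x).coeff i :
      IntermediateField.adjoin C {s}) : LaurentSeries C) ∈ Algebra.adjoin C {s} := by
  have : IsIntegrallyClosed (Algebra.adjoin C {s}) :=
    IsIntegrallyClosed.of_equiv (Polynomial.algEquivOfTranscendental C s hs).toRingEquiv
  rw [minpoly.isIntegrallyClosed_eq_field_fractions' (IntermediateField.adjoin C {s}) hx,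
    coeff_map]
  exact ((minpoly (Algebra.adjoin C {s}) x).coeff i).2

theorem descBound_adjoin_inv_eq {j : LaurentSeries C} :
    IntermediateField.adjoin C {j⁻¹} = IntermediateField.adjoin C {j} := by
  apply le_antisymm
  · rw [IntermediateField.adjoin_simple_le_iff]
    exact inv_mem (IntermediateField.mem_adjoin_simple_self C j)
  · rw [IntermediateField.adjoin_simple_le_iff]
    have := inv_mem (IntermediateField.mem_adjoin_simple_self C j⁻¹)
    rwa [inv_inv] at this

theorem descBound_minpoly_map_congr {E E' : IntermediateField C (LaurentSeries C)} (h : E = E')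
    (x : LaurentSeries C) :
    (minpoly E x).map (algebraMap E (LaurentSeries C))
      = (minpoly E' x).map (algebraMap E' (LaurentSeries C)) := by
  subst h
  rfl

/-- Evaluating a polynomial with coefficients in a subalgebra at an element of the subalgebra. -/
theorem descBound_eval_mem {A : Type*} [CommRing A] [Algebra C A] (S : Subalgebra C A)
    (p : A[X]) (hp : ∀ i, p.coeff i ∈ S) {u : A} (hu : u ∈ S) : p.eval u ∈ S := by
  rw [Polynomial.eval_eq_sum_range]
  exact Subalgebra.sum_mem _ fun i _ => Subalgebra.mul_mem _ (hp i) (Subalgebra.pow_mem _ hu i)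

/-- **The order bound.** -/
theorem descBound_order_add_le {j : LaurentSeries C} (hj : j.order = -1) (m : ℕ)
    {v : LaurentSeries C} (hv0 : v ≠ 0)
    (h1 : IsIntegral (Algebra.adjoin C {j}) v)
    (h2 : IsIntegral (Algebra.adjoin C {j⁻¹}) (v * j⁻¹ ^ m)) :
    v.order + m ≤ m * ((minpoly (IntermediateField.adjoin C {j}) v).natDegree : ℤ) := by
  have hj0 := descBound_j_ne_zero hj
  set E := IntermediateField.adjoin C {j} with hE
  have hvE : IsIntegral E v := h1.tower_top
  set P := minpoly E v with hP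
  set d := P.natDegree with hd
  -- the scalar `τ = t ^ m`
  let τ : E := ⟨j⁻¹, inv_mem (IntermediateField.mem_adjoin_simple_self C j)⟩ ^ m
  have hτL : (τ : LaurentSeries C) = j⁻¹ ^ m := by simp [τ]
  have hτ0 : τ ≠ 0 := by
    intro h
    have : (τ : LaurentSeries C) = 0 := by rw [h]; rfl
    rw [hτL] at this
    exact pow_ne_zero _ (inv_ne_zero hj0) this
  have hu : τ • v = v * j⁻¹ ^ m := by
    rw [Algebra.smul_def, mul_comm]
    congr 1
  have hsmul : minpoly E (τ • v) = P.scaleRoots τ := IsIntegrallyClosed.minpoly_smul hτ0 hvE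
  -- constant coefficients
  have hc0 : P.coeff 0 ≠ 0 := minpoly.coeff_zero_ne_zero hvE hv0
  have hc0L : ((P.coeff 0 : E) : LaurentSeries C) ≠ 0 := fun h => hc0 (Subtype.ext h)
  have hc0mem : ((P.coeff 0 : E) : LaurentSeries C) ∈ Algebra.adjoin C {j} :=
    descBound_coeff_minpoly_mem (descBound_transcendental_j hj) h1 0
  have hc0ord : ((P.coeff 0 : E) : LaurentSeries C).order ≤ 0 :=
    descBound_order_nonpos_of_mem_adjoin hj hc0mem hc0L
  -- the polynomial of `u = v t^m` over `L`
  set u := v * j⁻¹ ^ m with hu'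
  have hu0 : u ≠ 0 := mul_ne_zero hv0 (pow_ne_zero _ (inv_ne_zero hj0))
  set Q : (LaurentSeries C)[X] := (minpoly E u).map (algebraMap E (LaurentSeries C)) with hQ
  have hQcoeff : ∀ i, Q.coeff i ∈ descBoundPS (C := C) := by
    intro i
    have h3 := descBound_coeff_minpoly_mem (descBound_transcendental_inv hj) h2 i
    have h4 := descBound_minpoly_map_congr (descBound_adjoin_inv_eq (j := j)) u
    have h5 : Q.coeff i = ((minpoly (IntermediateField.adjoin C {j⁻¹}) u).map
        (algebraMap (IntermediateField.adjoin C {j⁻¹}) (LaurentSeries C))).coeff i := by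
      rw [hQ, ← h4]
    rw [h5, coeff_map]
    exact descBound_adjoin_inv_le_PS hj h3
  have huPS : u ∈ descBoundPS (C := C) :=
    descBound_mem_PS_of_isIntegral (descBound_isIntegral_mono (descBound_adjoin_inv_le_PS hj) h2)
  have hQu : Q.eval u = 0 := by
    rw [hQ, Polynomial.eval_map, ← Polynomial.aeval_def]
    exact minpoly.aeval E u
  have hQ0 : Q.coeff 0 = ((P.coeff 0 : E) : LaurentSeries C) * j⁻¹ ^ (m * d) := by
    rw [hQ, coeff_map, ← hu, hsmul, coeff_scaleRoots, Nat.sub_zero]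
    show ((P.coeff 0 * τ ^ P.natDegree : E) : LaurentSeries C) = _
    push_cast
    rw [hτL, ← pow_mul]
  have hQ0ne : Q.coeff 0 ≠ 0 := by
    rw [hQ0]
    exact mul_ne_zero hc0L (pow_ne_zero _ (inv_ne_zero hj0))
  -- `Q = divX Q * X + C (Q.coeff 0)`
  have hz : Q.divX.eval u ∈ descBoundPS (C := C) :=
    descBound_eval_mem _ _ (fun i => by rw [coeff_divX]; exact hQcoeff _) huPS
  have hrel : Q.divX.eval u * u + Q.coeff 0 = 0 := by
    have := congrArg (Polynomial.eval u) (Polynomial.divX_mul_X_add Q)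
    rw [Polynomial.eval_add, Polynomial.eval_mul, Polynomial.eval_X, Polynomial.eval_C, hQu]
      at this
    exact this
  have hzne : Q.divX.eval u ≠ 0 := by
    intro h
    rw [h, zero_mul, zero_add] at hrel
    exact hQ0ne hrel
  have hord : (Q.coeff 0).order = (Q.divX.eval u).order + u.order := by
    have : Q.coeff 0 = -(Q.divX.eval u * u) := eq_neg_of_add_eq_zero_right hrel
    rw [this, HahnSeries.order_neg, HahnSeries.order_mul hzne hu0]
  have hzord : 0 ≤ (Q.divX.eval u).order := descBound_order_nonneg_of_mem_PS hz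
  have huord : u.order = v.order + m := by
    rw [hu', HahnSeries.order_mul hv0 (pow_ne_zero _ (inv_ne_zero hj0)), HahnSeries.order_pow,
      descBound_order_inv hj]
    simp
  have hQ0ord : (Q.coeff 0).order = ((P.coeff 0 : E) : LaurentSeries C).order + (m * d : ℕ) := by
    rw [hQ0, HahnSeries.order_mul hc0L (pow_ne_zero _ (inv_ne_zero hj0)), HahnSeries.order_pow,
      descBound_order_inv hj]
    simp
  have : v.order + m ≤ (m * d : ℕ) := by
    have h6 : u.order ≤ (Q.coeff 0).order := by rw [hord]; omega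
    rw [huord, hQ0ord] at h6
    omega
  exact_mod_cast this

/-- The order bound with an explicit degree bound `D`. -/
theorem descBound_order_le {j : LaurentSeries C} (hj : j.order = -1) (m D : ℕ)
    {v : LaurentSeries C} (hv0 : v ≠ 0)
    (h1 : IsIntegral (Algebra.adjoin C {j}) v)
    (h2 : IsIntegral (Algebra.adjoin C {j⁻¹}) (v * j⁻¹ ^ m))
    (hD : (minpoly (IntermediateField.adjoin C {j}) v).natDegree ≤ D) :
    v.order ≤ m * D := by
  have h := descBound_order_add_le hj m hv0 h1 h2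
  have h' : (m : ℤ) * ((minpoly (IntermediateField.adjoin C {j}) v).natDegree : ℤ) ≤ m * D := by
    exact_mod_cast Nat.mul_le_mul_left m hD
  have hm : (0 : ℤ) ≤ m := Int.natCast_nonneg m
  omega

end Fermat.Agent.S29.H152

end
-- ===== PACK-END S29/H152/DescBound.lean

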