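import Fermat.Prelude.Def_CuspForm_HeckeGaloisRepDatum
import Mathlib
import Fermat.Statements.S22
import Fermat.Prelude.Def_ModularCurve_ReductionModL
import Mathlib.NumberTheory.ModularForms.LevelOne.GradedRing
import Mathlib.NumberTheory.ModularForms.Derivative
import Fermat.Prelude.Def_AlgebraicCurve_DivisorClassGroup
import Fermat.Prelude.Def_ModularCurve_LaurentCoeff

-- ===== PACK-BEGIN S30/H990/Interface.lean
section
/-
S30 top glue (helper990): interface.

`ChebWeak`       : weak qualitative Chebotarev (hypothesis, to be supplied by the CHEB library).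
`AdicEigenModule`: the output expected from the Galois tower for an eigencharacter `χ`:
                   a nonzero finite free `𝒪`-module with continuous Galois action, unramified
                   outside `N p`, on which Frobenius elements satisfy the Eichler–Shimura relation.
-/


set_option autoImplicit false

namespace Fermat.Agent.S30.H990

/-- The absolute Galois group of `ℚ`. -/
abbrev GQ : Type := AlgebraicClosure ℚ ≃ₐ[ℚ] AlgebraicClosure ℚ

/-- Weak qualitative Chebotarev: for every finite subextension `L`, every `σ` and every finite set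
`T` of primes there is a Frobenius element `τ` at a prime `ℓ ∉ T` such that `σ` agrees on `L`
with a power of `τ`.  (The usual qualitative Chebotarev theorem gives `j = 1`.) -/
def ChebWeak : Prop :=
  ∀ L : IntermediateField ℚ (AlgebraicClosure ℚ), FiniteDimensional ℚ L →
    ∀ (σ : GQ) (T : Finset ℕ),
      ∃ ℓ : ℕ, ℓ.Prime ∧ ℓ ∉ T ∧
        ∃ A : ValuationSubring (AlgebraicClosure ℚ), A.LiesOverPrime ℓ ∧
          ∃ τ : GQ, A.IsFrobeniusAt τ ℓ ∧ ∃ j : ℕ, ∀ x ∈ L, σ x = (τ ^ j) x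

/-- The adic eigenmodule attached to an eigencharacter `χ` of the Hecke algebra away from `S`. -/
structure AdicEigenModule (p N : ℕ) [NeZero N] (S : Finset ℕ)
    (𝒪 : Type) [CommRing 𝒪] [IsLocalRing 𝒪]
    (χ : CuspForm.heckeAlgebra N 2 (↑S : Set ℕ) →+* 𝒪) : Type 1 where
  M : Type
  [instAddCommGroup : AddCommGroup M]
  [instModule : Module 𝒪 M]
  [instFree : Module.Free 𝒪 M]
  [instFinite : Module.Finite 𝒪 M]
  [instNontrivial : Nontrivial M]
  ρ : GQ →* Module.End 𝒪 M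
  cont : GaloisActionIsAdicContinuous 𝒪 ρ
  unram : ∀ q : ℕ, q.Prime → ¬ q ∣ N → q ≠ p →
    ∀ P : ValuationSubring (AlgebraicClosure ℚ), P.LiesOverPrime q →
      ∀ σ ∈ P.inertiaSubgroupIn ℚ, ρ σ = 1
  frob : ∀ (ℓ : ℕ) (hℓ : ℓ.Prime) (hℓN : ¬ ℓ ∣ N) (hℓS : ℓ ∉ (↑S : Set ℕ)),
    ∀ A : ValuationSubring (AlgebraicClosure ℚ), A.LiesOverPrime ℓ →
      ∀ σ : GQ, A.IsFrobeniusAt σ ℓ →
        ρ σ * ρ σ - χ (CuspForm.heckeAlgebra.T hℓ hℓN hℓS) • ρ σ + (ℓ : 𝒪) • 1 = 0

attribute [instance] AdicEigenModule.instAddCommGroup AdicEigenModule.instModule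
  AdicEigenModule.instFree AdicEigenModule.instFinite AdicEigenModule.instNontrivial

/-- The tower hypothesis: every eigencharacter has an adic eigenmodule. -/
def HasAdicEigenModules : Prop :=
  ∀ (p : ℕ) [Fact p.Prime] (N : ℕ) [NeZero N] (S : Finset ℕ)
    (_hpS : p ∈ S) (_hNS : ∀ q : ℕ, q.Prime → q ∣ N → q ∈ S)
    (𝒪' : Type) [CommRing 𝒪'] [IsDomain 𝒪'] [IsDiscreteValuationRing 𝒪']
    [IsAdicComplete (IsLocalRing.maximalIdeal 𝒪') 𝒪'] [Finite (IsLocalRing.ResidueField 𝒪')]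
    [CharZero 𝒪'] (_hp𝒪' : (p : 𝒪') ∈ IsLocalRing.maximalIdeal 𝒪')
    (χ : CuspForm.heckeAlgebra N 2 (↑S : Set ℕ) →+* 𝒪'),
    Nonempty (AdicEigenModule p N S 𝒪' χ)

end Fermat.Agent.S30.H990

end
-- ===== PACK-END S30/H990/Interface.lean

-- ===== PACK-BEGIN Lib/Cheb/H761/Sieve.lean
section


/-!
# Euler products over the prime ideals of a Dedekind domain, sieve form

Let `R` be a Dedekind domain and `f : Ideal R → 𝕜` a summable, completely multiplicative function
(`f (I * J) = f I * f J`, `f ⊤ = 1`).  For a set `S` of nonzero primes let `sieveSet S` be the set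
of nonzero ideals divisible by no prime of `S`.  Then

* `tsum_sieve_finset` : `∑_{I ∈ sieveSet T} f I = ∏_{𝔭 ∈ T} (1 - f 𝔭) * ∑_{I ≠ 0} f I`
  for every finite set `T` of primes;
* `tendsto_tsum_sieve` : `∑_{I ∈ sieveSet T} f I → 1` along `T → all primes`;
* `tendsto_prod_one_sub` : `∏_{𝔭 ∈ T} (1 - f 𝔭) → (∑_{I ≠ 0} f I)⁻¹`, and `∑_{I ≠ 0} f I ≠ 0`.
-/

set_option autoImplicit false

namespace Fermat.Agent.Lib.Cheb.H761

open IsDedekindDomain Filter Topology

section Sieve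

set_option linter.unusedSectionVars false

variable {R : Type*} [CommRing R] [IsDedekindDomain R]

/-- nonzero ideals not divisible by any prime of `S` -/
def sieveSet (S : Set (HeightOneSpectrum R)) : Set (Ideal R) :=
  {I | I ≠ ⊥ ∧ ∀ 𝔭 ∈ S, ¬ I ≤ 𝔭.asIdeal}

lemma mem_sieveSet {S : Set (HeightOneSpectrum R)} {I : Ideal R} :
    I ∈ sieveSet S ↔ I ≠ ⊥ ∧ ∀ 𝔭 ∈ S, ¬ I ≤ 𝔭.asIdeal := Iff.rfl

lemma mem_sieveSet_empty {I : Ideal R} :
    I ∈ sieveSet (∅ : Set (HeightOneSpectrum R)) ↔ I ≠ ⊥ := by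
  simp [sieveSet]

lemma top_mem_sieveSet (S : Set (HeightOneSpectrum R)) : (⊤ : Ideal R) ∈ sieveSet S := by
  refine ⟨top_ne_bot, fun 𝔭 _ h => ?_⟩
  exact 𝔭.isPrime.ne_top (top_le_iff.mp h)

lemma sieveSet_anti {S T : Set (HeightOneSpectrum R)} (h : S ⊆ T) : sieveSet T ⊆ sieveSet S :=
  fun _ hI => ⟨hI.1, fun 𝔭 h𝔭 => hI.2 𝔭 (h h𝔭)⟩

lemma mul_mem_sieveSet {S : Set (HeightOneSpectrum R)} {𝔭 : HeightOneSpectrum R} (h𝔭 : 𝔭 ∉ S)
    {J : Ideal R} (hJ : J ∈ sieveSet S) : 𝔭.asIdeal * J ∈ sieveSet S := by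
  refine ⟨?_, fun 𝔮 h𝔮 hle => ?_⟩
  · rw [← Ideal.zero_eq_bot]
    exact mul_ne_zero (by rw [Ideal.zero_eq_bot]; exact 𝔭.ne_bot)
      (by rw [Ideal.zero_eq_bot]; exact hJ.1)
  · rcases 𝔮.isPrime.mul_le.mp hle with h | h
    · have : 𝔭 = 𝔮 := by
        apply HeightOneSpectrum.ext
        exact (𝔭.isMaximal.eq_of_le 𝔮.isPrime.ne_top h)
      exact h𝔭 (this ▸ h𝔮)
    · exact hJ.2 𝔮 h𝔮 h

lemma sieveSet_eq_union (S : Set (HeightOneSpectrum R)) {𝔭 : HeightOneSpectrum R} (h𝔭 : 𝔭 ∉ S) :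
    sieveSet S = sieveSet (insert 𝔭 S) ∪ (fun I => 𝔭.asIdeal * I) '' sieveSet S := by
  ext I
  constructor
  · intro hI
    by_cases hle : I ≤ 𝔭.asIdeal
    · right
      obtain ⟨J, rfl⟩ := Ideal.dvd_iff_le.mpr hle
      refine ⟨J, ⟨?_, fun 𝔮 h𝔮 hJ => ?_⟩, rfl⟩
      · rintro rfl
        exact hI.1 (by simp)
      · exact hI.2 𝔮 h𝔮 (Ideal.mul_le_right.trans hJ)
    · left
      refine ⟨hI.1, fun 𝔮 h𝔮 => ?_⟩
      rcases Set.mem_insert_iff.mp h𝔮 with rfl | h
      · exact hle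
      · exact hI.2 𝔮 h
  · rintro (hI | ⟨J, hJ, rfl⟩)
    · exact sieveSet_anti (Set.subset_insert _ _) hI
    · exact mul_mem_sieveSet h𝔭 hJ

lemma disjoint_sieveSet_image (S : Set (HeightOneSpectrum R)) (𝔭 : HeightOneSpectrum R) :
    Disjoint (sieveSet (insert 𝔭 S)) ((fun I => 𝔭.asIdeal * I) '' sieveSet S) := by
  rw [Set.disjoint_left]
  rintro I hI ⟨J, -, rfl⟩
  exact hI.2 𝔭 (Set.mem_insert _ _) (show 𝔭.asIdeal * J ≤ 𝔭.asIdeal from Ideal.mul_le_left)

lemma injOn_mul (S : Set (HeightOneSpectrum R)) (𝔭 : HeightOneSpectrum R) :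
    Set.InjOn (fun I => 𝔭.asIdeal * I) (sieveSet S) := by
  intro I _ J _ h
  have h0 : 𝔭.asIdeal ≠ 0 := by rw [Ideal.zero_eq_bot]; exact 𝔭.ne_bot
  exact mul_left_cancel₀ h0 h

variable {𝕜 : Type*} [NormedField 𝕜] [CompleteSpace 𝕜] {f : Ideal R → 𝕜}

/-- One sieve step. -/
theorem tsum_sieve_insert (hf : Summable f) (hmul : ∀ I J, f (I * J) = f I * f J)
    (S : Set (HeightOneSpectrum R)) {𝔭 : HeightOneSpectrum R} (h𝔭 : 𝔭 ∉ S) :
    ∑' I : sieveSet (insert 𝔭 S), f I = (1 - f 𝔭.asIdeal) * ∑' I : sieveSet S, f I := by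
  have h1 : ∑' I : sieveSet S, f I =
      ∑' I : ↥(sieveSet (insert 𝔭 S) ∪ (fun I => 𝔭.asIdeal * I) '' sieveSet S), f I :=
    tsum_congr_set_coe f (sieveSet_eq_union S h𝔭)
  rw [(hf.subtype _).tsum_union_disjoint (disjoint_sieveSet_image S 𝔭) (hf.subtype _),
    tsum_image f (injOn_mul S 𝔭)] at h1
  simp only [hmul] at h1
  rw [tsum_mul_left] at h1
  linear_combination -h1

/-- Finitely many sieve steps. -/
theorem tsum_sieve_finset (hf : Summable f) (hmul : ∀ I J, f (I * J) = f I * f J)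
    (T : Finset (HeightOneSpectrum R)) :
    ∑' I : sieveSet (T : Set (HeightOneSpectrum R)), f I =
      (∏ 𝔭 ∈ T, (1 - f 𝔭.asIdeal)) * ∑' I : sieveSet (∅ : Set (HeightOneSpectrum R)), f I := by
  classical
  induction T using Finset.induction_on with
  | empty =>
    rw [Finset.prod_empty, one_mul]
    exact tsum_congr_set_coe f (by rw [Finset.coe_empty])
  | insert 𝔭 T h𝔭 ih =>
    rw [Finset.coe_insert, tsum_sieve_insert hf hmul _ (by simpa using h𝔭), ih,
      Finset.prod_insert h𝔭, mul_assoc]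

/-- Every nonzero proper ideal is contained in a nonzero prime. -/
lemma exists_le_heightOneSpectrum {I : Ideal R} (h0 : I ≠ ⊥) (h1 : I ≠ ⊤) :
    ∃ 𝔭 : HeightOneSpectrum R, I ≤ 𝔭.asIdeal := by
  obtain ⟨M, hM, hle⟩ := Ideal.exists_le_maximal I h1
  refine ⟨⟨M, hM.isPrime, ?_⟩, hle⟩
  rintro rfl
  exact h0 (le_bot_iff.mp hle)

/-- The sieved sums tend to `1`. -/
theorem tendsto_tsum_sieve (hf : Summable f) (h1 : f ⊤ = 1) :
    Tendsto (fun T : Finset (HeightOneSpectrum R) =>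
      ∑' I : sieveSet (T : Set (HeightOneSpectrum R)), f I) atTop (𝓝 1) := by
  classical
  rw [tendsto_nhds]
  intro e he_open he1
  have he0 : (fun x : 𝕜 => 1 + x) ⁻¹' e ∈ 𝓝 (0 : 𝕜) := by
    apply (continuous_const.add continuous_id).continuousAt.preimage_mem_nhds
    simpa using he_open.mem_nhds he1
  obtain ⟨A, hA⟩ := hf.tsum_vanishing he0
  -- a prime above each nonzero proper ideal of `A`
  let g : Ideal R → Finset (HeightOneSpectrum R) := fun I =>
    if h : I ≠ ⊥ ∧ I ≠ ⊤ then {(exists_le_heightOneSpectrum h.1 h.2).choose} else ∅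
  have hg : ∀ I, I ≠ ⊥ → I ≠ ⊤ → ∃ 𝔭 ∈ g I, I ≤ 𝔭.asIdeal := by
    intro I h0 h1
    refine ⟨(exists_le_heightOneSpectrum h0 h1).choose, ?_,
      (exists_le_heightOneSpectrum h0 h1).choose_spec⟩
    simp only [g, dif_pos (And.intro h0 h1), Finset.mem_singleton]
  rw [Filter.mem_atTop_sets]
  refine ⟨A.biUnion g, fun T hT => ?_⟩
  rw [Set.mem_preimage]
  -- split off the unit ideal
  have hsplit : sieveSet (T : Set (HeightOneSpectrum R)) =
      {⊤} ∪ (sieveSet (T : Set (HeightOneSpectrum R)) \ {⊤}) := by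
    rw [Set.union_sdiff_self, Set.union_eq_self_of_subset_left]
    exact Set.singleton_subset_iff.mpr (top_mem_sieveSet _)
  have hdisj : Disjoint ({⊤} : Set (Ideal R))
      (sieveSet (T : Set (HeightOneSpectrum R)) \ {⊤}) := Set.disjoint_sdiff_right
  have hsum : ∑' I : sieveSet (T : Set (HeightOneSpectrum R)), f I =
      1 + ∑' I : ↥(sieveSet (T : Set (HeightOneSpectrum R)) \ {⊤}), f I := by
    rw [tsum_congr_set_coe f hsplit,
      (hf.subtype _).tsum_union_disjoint hdisj (hf.subtype _), tsum_singleton (⊤ : Ideal R) f, h1]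
  rw [hsum]
  apply hA
  rw [Set.disjoint_left]
  rintro I ⟨hI, hItop⟩ hIA
  obtain ⟨𝔭, h𝔭, hle⟩ := hg I hI.1 (by simpa using hItop)
  exact hI.2 𝔭 (Finset.mem_coe.mpr (hT (Finset.mem_biUnion.mpr ⟨I, hIA, h𝔭⟩))) hle

/-- The sum over all nonzero ideals is nonzero. -/
theorem tsum_sieve_empty_ne_zero (hf : Summable f) (hmul : ∀ I J, f (I * J) = f I * f J)
    (h1 : f ⊤ = 1) : ∑' I : sieveSet (∅ : Set (HeightOneSpectrum R)), f I ≠ 0 := by
  intro h0
  have h := tendsto_tsum_sieve hf h1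
  simp only [tsum_sieve_finset hf hmul, h0, mul_zero] at h
  exact zero_ne_one (tendsto_nhds_unique tendsto_const_nhds h)

/-- **Euler product**: the finite products `∏_{𝔭 ∈ T} (1 - f 𝔭)` tend to the inverse of the sum of
`f` over all nonzero ideals. -/
theorem tendsto_prod_one_sub (hf : Summable f) (hmul : ∀ I J, f (I * J) = f I * f J)
    (h1 : f ⊤ = 1) :
    Tendsto (fun T : Finset (HeightOneSpectrum R) => ∏ 𝔭 ∈ T, (1 - f 𝔭.asIdeal)) atTop
      (𝓝 (∑' I : sieveSet (∅ : Set (HeightOneSpectrum R)), f I)⁻¹) := by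
  have hZ := tsum_sieve_empty_ne_zero hf hmul h1
  have h := (tendsto_tsum_sieve hf h1).mul_const
    (∑' I : sieveSet (∅ : Set (HeightOneSpectrum R)), f I)⁻¹
  simp only [tsum_sieve_finset hf hmul, one_mul] at h
  refine h.congr fun T => ?_
  rw [mul_assoc, mul_inv_cancel₀ hZ, mul_one]

/-- **Euler product**, `HasProd` form. -/
theorem hasProd_one_sub (hf : Summable f) (hmul : ∀ I J, f (I * J) = f I * f J)
    (h1 : f ⊤ = 1) :
    HasProd (fun 𝔭 : HeightOneSpectrum R => 1 - f 𝔭.asIdeal)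
      (∑' I : sieveSet (∅ : Set (HeightOneSpectrum R)), f I)⁻¹ := by
  simpa [HasProd] using tendsto_prod_one_sub hf hmul h1

end Sieve

end Fermat.Agent.Lib.Cheb.H761

end
-- ===== PACK-END Lib/Cheb/H761/Sieve.lean

-- ===== PACK-BEGIN S31/H202/MatOrth.lean
section


/-!
# S31 / ALG-1, matrix core (helper202)

`A` a local ring, `r : A →+* K` a ring hom to a field killing the maximal ideal, `F : G → Mₙ(A)` a
family of matrices whose reductions span `Mₙ(K)`.  Then

* `mat_eq_zero_of_trace_orth`: `tr (F g * X) = 0` for all `g` implies `X = 0`;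
* `span_eq_top_of_span_map_eq_top`: the `F g` span `Mₙ(A)` over `A`.
-/

set_option autoImplicit false

namespace Fermat.Agent.S31.H202

open Matrix

section Core

variable {A K : Type*} [CommRing A] [IsLocalRing A] [Field K] (r : A →+* K)
variable {ι G : Type*} [Fintype ι] [DecidableEq ι]

/-- the reductions of a spanning family contain a family indexed by `ι × ι` whose coefficient matrix
is invertible. -/
theorem exists_invertible_coeff (hr : ∀ a ∈ IsLocalRing.maximalIdeal A, r a = 0)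
    (F : G → Matrix ι ι A)
    (hspan : Submodule.span K (Set.range fun g => (F g).map r) = ⊤) :
    ∃ f : ι × ι → G, IsUnit (Matrix.of fun (a b : ι × ι) => F (f a) b.1 b.2) := by
  classical
  set s : Set (Matrix ι ι K) := Set.range fun g => (F g).map r with hs
  obtain ⟨f0, hf0, -, hli⟩ := Submodule.exists_fun_fin_finrank_span_eq K s
  have hcard : Module.finrank K (Submodule.span K s) = Fintype.card (ι × ι) := by
    rw [hspan, finrank_top, Module.finrank_matrix, Module.finrank_self, mul_one,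
      Fintype.card_prod]
  let e : ι × ι ≃ Fin (Module.finrank K (Submodule.span K s)) :=
    (Fintype.equivFinOfCardEq hcard.symm)
  choose f1 hf1 using hf0
  refine ⟨fun a => f1 (e a), ?_⟩
  set P : Matrix (ι × ι) (ι × ι) A := Matrix.of fun (a b : ι × ι) => F (f1 (e a)) b.1 b.2 with hP
  -- the reduction of `P` has linearly independent rows
  have hrow : LinearIndependent K (P.map r).row := by
    have h1 : LinearIndependent K (f0 ∘ e) := hli.comp _ e.injective
    have h2 := h1.map' ((LinearEquiv.curry K K ι ι).symm : (ι → ι → K) →ₗ[K] (ι × ι → K))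
      (LinearEquiv.ker _)
    have heq : (P.map r).row
        = ((LinearEquiv.curry K K ι ι).symm : (ι → ι → K) →ₗ[K] (ι × ι → K)) ∘ (f0 ∘ e) := by
      funext a
      funext b
      have := hf1 (e a)
      show r (F (f1 (e a)) b.1 b.2) = (f0 (e a)) b.1 b.2
      rw [← this]
      rfl
    rw [heq]
    exact h2
  have hunit : IsUnit (P.map r) := Matrix.linearIndependent_rows_iff_isUnit.mp hrow
  rw [Matrix.isUnit_iff_isUnit_det] at hunit ⊢
  have hdet : (P.map r).det = r P.det := by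
    rw [← RingHom.mapMatrix_apply, ← RingHom.map_det]
  rw [hdet] at hunit
  by_contra hnu
  have : P.det ∈ IsLocalRing.maximalIdeal A := (IsLocalRing.mem_maximalIdeal _).mpr hnu
  exact hunit.ne_zero (hr _ this)

/-- **Trace orthogonality**: if the reductions of `F g` span `Mₙ(K)` and `tr (F g * X) = 0` for all
`g`, then `X = 0`. -/
theorem mat_eq_zero_of_trace_orth (hr : ∀ a ∈ IsLocalRing.maximalIdeal A, r a = 0)
    (F : G → Matrix ι ι A)
    (hspan : Submodule.span K (Set.range fun g => (F g).map r) = ⊤)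
    (X : Matrix ι ι A) (hX : ∀ g, Matrix.trace (F g * X) = 0) : X = 0 := by
  classical
  obtain ⟨f, hf⟩ := exists_invertible_coeff r hr F hspan
  set P : Matrix (ι × ι) (ι × ι) A := Matrix.of fun (a b : ι × ι) => F (f a) b.1 b.2 with hP
  have hPx : P *ᵥ (fun b : ι × ι => X b.2 b.1) = 0 := by
    funext a
    have := hX (f a)
    simp only [Matrix.trace, Matrix.diag, Matrix.mul_apply] at this
    simp only [Matrix.mulVec, dotProduct, hP, Matrix.of_apply, Pi.zero_apply]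
    rw [Fintype.sum_prod_type]
    exact this
  have hx : (fun b : ι × ι => X b.2 b.1) = 0 := by
    have := Matrix.mulVec_injective_of_isUnit hf
    exact this (by rw [hPx, Matrix.mulVec_zero])
  ext i j
  have := congrFun hx (j, i)
  simpa using this

/-- **Lifting a spanning family**: if the reductions of `F g` span `Mₙ(K)` over `K`, then the
`F g` span `Mₙ(A)` over `A`. -/
theorem span_eq_top_of_span_map_eq_top (hr : ∀ a ∈ IsLocalRing.maximalIdeal A, r a = 0)
    (F : G → Matrix ι ι A)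
    (hspan : Submodule.span K (Set.range fun g => (F g).map r) = ⊤) :
    Submodule.span A (Set.range F) = ⊤ := by
  classical
  obtain ⟨f, hf⟩ := exists_invertible_coeff r hr F hspan
  set P : Matrix (ι × ι) (ι × ι) A := Matrix.of fun (a b : ι × ι) => F (f a) b.1 b.2 with hP
  obtain ⟨Q, hQ⟩ : ∃ Q : Matrix (ι × ι) (ι × ι) A, Q * P = 1 := by
    obtain ⟨u, hu⟩ := hf
    exact ⟨(u⁻¹ : (Matrix (ι × ι) (ι × ι) A)ˣ), by rw [← hu]; exact Units.inv_mul u⟩
  rw [eq_top_iff]
  intro M _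
  -- `M = ∑_a (∑_b M b * Q b a) • F (f a)`
  have hM : M = ∑ a : ι × ι, (∑ b : ι × ι, M b.1 b.2 * Q b a) • F (f a) := by
    ext i j
    rw [Matrix.sum_apply]
    simp only [Matrix.smul_apply, smul_eq_mul]
    have h1 : ∀ a : ι × ι, (∑ b : ι × ι, M b.1 b.2 * Q b a) * F (f a) i j
        = ∑ b : ι × ι, M b.1 b.2 * (Q b a * P a (i, j)) := by
      intro a
      rw [Finset.sum_mul]
      refine Finset.sum_congr rfl fun b _ => ?_
      rw [hP, Matrix.of_apply, mul_assoc]
    simp_rw [h1]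
    rw [Finset.sum_comm]
    have h2 : ∀ b : ι × ι, ∑ a : ι × ι, M b.1 b.2 * (Q b a * P a (i, j))
        = M b.1 b.2 * (1 : Matrix (ι × ι) (ι × ι) A) b (i, j) := by
      intro b
      rw [← hQ, Matrix.mul_apply, Finset.mul_sum]
    simp_rw [h2]
    rw [Finset.sum_eq_single (i, j)]
    · simp
    · intro b _ hb
      rw [Matrix.one_apply_ne hb, mul_zero]
    · intro h
      exact absurd (Finset.mem_univ _) h
  rw [hM]
  refine Submodule.sum_mem _ fun a _ => Submodule.smul_mem _ _ (Submodule.subset_span ⟨f a, rfl⟩)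

end Core

end Fermat.Agent.S31.H202

end
-- ===== PACK-END S31/H202/MatOrth.lean

-- ===== PACK-BEGIN S22/H262/Glue.lean
section


set_option autoImplicit false

/-!
# S22 glue: a finitely generated, Hecke-stable, separating lattice of functionals
forces the Hecke algebra to be a finite `ℤ`-module.
-/

namespace Fermat.Agent.S22.H262

open CuspForm

section Abstract

variable {V : Type*} [AddCommGroup V] [Module ℂ V]

/-- The `ℤ`-subalgebra of endomorphisms `t` such that `l ∘ t ∈ Λ` for all `l ∈ Λ`. -/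
def stabAlg (Λ : Submodule ℤ (Module.Dual ℂ V)) : Subalgebra ℤ (Module.End ℂ V) where
  carrier := {t | ∀ l ∈ Λ, l ∘ₗ t ∈ Λ}
  mul_mem' := by
    intro a b ha hb l hl
    have : l ∘ₗ (a * b) = (l ∘ₗ a) ∘ₗ b := rfl
    rw [this]
    exact hb _ (ha _ hl)
  one_mem' := by
    intro l hl
    have : l ∘ₗ (1 : Module.End ℂ V) = l := rfl
    rw [this]
    exact hl
  add_mem' := by
    intro a b ha hb l hl
    rw [LinearMap.comp_add]
    exact Λ.add_mem (ha _ hl) (hb _ hl)
  zero_mem' := by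
    intro l _
    rw [LinearMap.comp_zero]
    exact Λ.zero_mem
  algebraMap_mem' := by
    intro n l hl
    have : l ∘ₗ (algebraMap ℤ (Module.End ℂ V) n) = n • l := by
      ext v
      simp
    rw [this]
    exact Λ.smul_mem n hl

theorem mem_stabAlg {Λ : Submodule ℤ (Module.Dual ℂ V)} {t : Module.End ℂ V} :
    t ∈ stabAlg Λ ↔ ∀ l ∈ Λ, l ∘ₗ t ∈ Λ := Iff.rfl

/-- The transpose action of the stabiliser algebra on the lattice, as a `ℤ`-linear map. -/
def stabAct (Λ : Submodule ℤ (Module.Dual ℂ V)) : stabAlg Λ →ₗ[ℤ] (Λ →ₗ[ℤ] Λ) where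
  toFun t :=
    { toFun := fun l => ⟨(l : Module.Dual ℂ V) ∘ₗ (t : Module.End ℂ V), t.2 _ l.2⟩
      map_add' := fun l l' => Subtype.ext (by simp [LinearMap.add_comp])
      map_smul' := fun n l => Subtype.ext (by
        ext v
        simp) }
  map_add' := fun t t' => LinearMap.ext fun l => Subtype.ext (by
    simp [LinearMap.comp_add])
  map_smul' := fun n t => LinearMap.ext fun l => Subtype.ext (by
    ext v
    simp)

theorem stabAct_injective (Λ : Submodule ℤ (Module.Dual ℂ V))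
    (hsep : ∀ v : V, (∀ l ∈ Λ, l v = 0) → v = 0) : Function.Injective (stabAct Λ) := by
  rw [injective_iff_map_eq_zero]
  intro t ht
  apply Subtype.ext
  apply LinearMap.ext
  intro v
  apply hsep
  intro l hl
  have := congrArg (fun (φ : Λ →ₗ[ℤ] Λ) => ((φ ⟨l, hl⟩ : Λ) : Module.Dual ℂ V) v) ht
  simpa [stabAct] using this

theorem moduleFinite_stabAlg (Λ : Submodule ℤ (Module.Dual ℂ V)) (hfg : Λ.FG)
    (hsep : ∀ v : V, (∀ l ∈ Λ, l v = 0) → v = 0) : Module.Finite ℤ (stabAlg Λ) := by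
  have : Module.Finite ℤ Λ := Module.Finite.iff_fg.mpr hfg
  have : IsAddTorsionFree (Module.Dual ℂ V) := .of_isTorsionFree ℂ _
  have : Module.Free ℤ Λ := Module.free_of_finite_type_torsion_free'
  have : Module.Finite ℤ (Λ →ₗ[ℤ] Λ) := Module.Finite.linearMap ℤ ℤ Λ Λ
  exact Module.Finite.of_injective (stabAct Λ) (stabAct_injective Λ hsep)

end Abstract

/-- **Glue lemma**: a finitely generated `ℤ`-lattice of functionals on `S_k(Γ₀(N))` which is
stable under precomposition with the Hecke generators and separates points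
forces the Hecke algebra to be module-finite over `ℤ`. -/
theorem moduleFinite_heckeAlgebra_of_lattice {N : ℕ} [NeZero N] {k : ℤ} {S : Set ℕ}
    (Λ : Submodule ℤ (Module.Dual ℂ (CuspForm (CongruenceSubgroup.Gamma0 N) k)))
    (hfg : Λ.FG)
    (hstab : ∀ T ∈ heckeGenerators N k S, ∀ l ∈ Λ, l ∘ₗ T ∈ Λ)
    (hsep : ∀ f : CuspForm (CongruenceSubgroup.Gamma0 N) k, (∀ l ∈ Λ, l f = 0) → f = 0) :
    Module.Finite ℤ (heckeAlgebra N k S) := by
  have hle : heckeAlgebra N k S ≤ stabAlg Λ := Algebra.adjoin_le fun T hT => hstab T hT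
  have := moduleFinite_stabAlg Λ hfg hsep
  exact Module.Finite.of_injective (Subalgebra.inclusion hle).toLinearMap
    (Subalgebra.inclusion_injective hle)

/-- If the space of cusp forms is trivial, the Hecke algebra is module-finite. -/
theorem moduleFinite_heckeAlgebra_of_subsingleton {N : ℕ} [NeZero N] {k : ℤ} {S : Set ℕ}
    (h : ∀ f : CuspForm (CongruenceSubgroup.Gamma0 N) k, f = 0) :
    Module.Finite ℤ (heckeAlgebra N k S) :=
  moduleFinite_heckeAlgebra_of_lattice ⊥ Submodule.fg_bot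
    (fun T _ l hl => by
      rw [Submodule.mem_bot] at hl ⊢
      rw [hl, LinearMap.zero_comp])
    (fun f _ => h f)

end Fermat.Agent.S22.H262

end
-- ===== PACK-END S22/H262/Glue.lean

-- ===== PACK-BEGIN S18/H602/Descent.lean
section



/-!
# S18, piece d1 : descent from `Q̄` to a number field  (owner helper602)

`Q̄ = AlgebraicClosure ℚ`, `A ⊆ Q̄` a valuation subring, `E ⊆ Q̄` a finite extension of `ℚ`,
`R_E := A ∩ E = A.comap (algebraMap E Q̄)`.

Main results (namespace `Fermat.Agent.S18.H602`):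

* `coeffMap_mem_laurentBaseChange` : functoriality of `laurentBaseChange` in the field.
* `exists_finite_descent`, `exists_finite_descent₂` : every element (pair of elements) of
  `laurentBaseChange Q̄ F₀` comes from `laurentBaseChange E F₀` for a finite `E/ℚ`
  (containing any prescribed finite `E₀`).
* `exists_series_descent₂` : the same for Laurent series with coefficients in `A`; they descend
  to Laurent series with coefficients in `R_E`.
* `coreStatement_of_coreAt` : CORE over `A` follows from CORE over all `R_E`.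
-/

set_option autoImplicit false

noncomputable section

namespace Fermat.Agent.S18.H602

open ModularCurve AlgebraicCurve HahnSeries IntermediateField

local notation "Q̄" => AlgebraicClosure ℚ

/-! ## 1. Generalities on `coeffMap` -/

section CoeffMap

variable {R S : Type*} [CommRing R] [CommRing S]

theorem coeffMap_injective (f : R →+* S) (hf : Function.Injective f) :
    Function.Injective (coeffMap f) := by
  intro x y h
  ext n
  apply hf
  have := congrArg (fun z => z.coeff n) h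
  simpa using this

/-- A Laurent series all of whose coefficients lie in the range of an injective ring
homomorphism comes from a Laurent series over the source. -/
theorem exists_coeffMap_eq (f : R →+* S) (hf : Function.Injective f) (y : LaurentSeries S)
    (h : ∀ n, y.coeff n ∈ Set.range f) : ∃ x : LaurentSeries R, coeffMap f x = y := by
  choose c hc using h
  have hsupp : Function.support c = y.support := by
    ext n
    simp only [Function.mem_support, HahnSeries.mem_support, ne_eq, ← hc n]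
    rw [map_eq_zero_iff f hf]
  refine ⟨⟨c, ?_⟩, ?_⟩
  · rw [hsupp]
    exact y.isPWO_support
  · ext n
    simp [hc]

theorem coeffMap_algebraMap' {L L' : Type*} [Field L] [Field L'] (φ : L →+* L') (c : L) :
    coeffMap φ (algebraMap L (LaurentSeries L) c) = algebraMap L' (LaurentSeries L') (φ c) := by
  rw [algebraMap_laurentSeries_eq_single, algebraMap_laurentSeries_eq_single, coeffMap_single]

end CoeffMap

/-! ## 2. Functoriality of `laurentBaseChange` -/

section Functoriality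

variable {L L' : Type*} [Field L] [Field L'] [Algebra ℚ L] [Algebra ℚ L']
variable (F₀ : IntermediateField ℚ (LaurentSeries ℚ))

theorem coeffMap_coeffEmb' (φ : L →+* L') (x : LaurentSeries ℚ) :
    coeffMap φ (coeffEmb L x) = coeffEmb L' x := by
  rw [coeffEmb, coeffMap_coeffMap]
  exact coeffMap_congr (Subsingleton.elim _ _) x

theorem coeffMap_mem_laurentBaseChange (φ : L →+* L') {x : LaurentSeries L}
    (hx : x ∈ laurentBaseChange L F₀) : coeffMap φ x ∈ laurentBaseChange L' F₀ := by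
  rw [mem_laurentBaseChange_iff] at hx
  induction hx using Subfield.closure_induction with
  | mem y hy =>
      rcases hy with ⟨a, rfl⟩ | ⟨z, hz, rfl⟩
      · rw [coeffMap_algebraMap']
        exact (laurentBaseChange L' F₀).algebraMap_mem _
      · rw [coeffMap_coeffEmb']
        exact coeffEmb_mem_laurentBaseChange L' hz
  | one => simp
  | add x y _ _ hx hy => simpa using add_mem hx hy
  | neg x _ hx => simpa using neg_mem hx
  | inv x _ hx => simpa using inv_mem hx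
  | mul x y _ _ hx hy => simpa using mul_mem hx hy

end Functoriality

/-! ## 3. Descent of elements of `laurentBaseChange Q̄ F₀` to a finite extension of `ℚ` -/

section FiniteDescent

variable (F₀ : IntermediateField ℚ (LaurentSeries ℚ))

/-- `x ∈ Q̄((q))` is defined over the finite extension `E` (inside the base change of `F₀`). -/
def DescendsTo (E : IntermediateField ℚ Q̄) (x : LaurentSeries Q̄) : Prop :=
  ∃ y ∈ laurentBaseChange E F₀, coeffMap (algebraMap E Q̄) y = x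

variable {F₀}

theorem DescendsTo.mem {E : IntermediateField ℚ Q̄} {x : LaurentSeries Q̄}
    (h : DescendsTo F₀ E x) : x ∈ laurentBaseChange Q̄ F₀ := by
  obtain ⟨y, hy, rfl⟩ := h
  exact coeffMap_mem_laurentBaseChange F₀ _ hy

theorem DescendsTo.mono {E E' : IntermediateField ℚ Q̄} (hE : E ≤ E') {x : LaurentSeries Q̄}
    (h : DescendsTo F₀ E x) : DescendsTo F₀ E' x := by
  obtain ⟨y, hy, rfl⟩ := h
  refine ⟨coeffMap (IntermediateField.inclusion hE : E →+* E') y,
    coeffMap_mem_laurentBaseChange F₀ _ hy, ?_⟩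
  rw [coeffMap_coeffMap]
  exact coeffMap_congr (RingHom.ext fun _ => rfl) y

theorem DescendsTo.add {E : IntermediateField ℚ Q̄} {x x' : LaurentSeries Q̄}
    (h : DescendsTo F₀ E x) (h' : DescendsTo F₀ E x') : DescendsTo F₀ E (x + x') := by
  obtain ⟨y, hy, rfl⟩ := h
  obtain ⟨y', hy', rfl⟩ := h'
  exact ⟨y + y', add_mem hy hy', map_add _ _ _⟩

theorem DescendsTo.mul {E : IntermediateField ℚ Q̄} {x x' : LaurentSeries Q̄}
    (h : DescendsTo F₀ E x) (h' : DescendsTo F₀ E x') : DescendsTo F₀ E (x * x') := by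
  obtain ⟨y, hy, rfl⟩ := h
  obtain ⟨y', hy', rfl⟩ := h'
  exact ⟨y * y', mul_mem hy hy', map_mul _ _ _⟩

theorem DescendsTo.neg {E : IntermediateField ℚ Q̄} {x : LaurentSeries Q̄}
    (h : DescendsTo F₀ E x) : DescendsTo F₀ E (-x) := by
  obtain ⟨y, hy, rfl⟩ := h
  exact ⟨-y, neg_mem hy, map_neg _ _⟩

theorem DescendsTo.inv {E : IntermediateField ℚ Q̄} {x : LaurentSeries Q̄}
    (h : DescendsTo F₀ E x) : DescendsTo F₀ E x⁻¹ := by
  obtain ⟨y, hy, rfl⟩ := h
  exact ⟨y⁻¹, inv_mem hy, map_inv₀ _ _⟩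

theorem DescendsTo.one (E : IntermediateField ℚ Q̄) : DescendsTo F₀ E 1 :=
  ⟨1, one_mem _, map_one _⟩

theorem descendsTo_const (a : Q̄) :
    DescendsTo F₀ ℚ⟮a⟯ (algebraMap Q̄ (LaurentSeries Q̄) a) := by
  refine ⟨algebraMap ℚ⟮a⟯ (LaurentSeries ℚ⟮a⟯) ⟨a, mem_adjoin_simple_self ℚ a⟩,
    (laurentBaseChange ℚ⟮a⟯ F₀).algebraMap_mem _, ?_⟩
  rw [coeffMap_algebraMap']
  rfl

theorem descendsTo_coeffEmb (E : IntermediateField ℚ Q̄) {z : LaurentSeries ℚ} (hz : z ∈ F₀) :
    DescendsTo F₀ E (coeffEmb Q̄ z) :=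
  ⟨coeffEmb E z, coeffEmb_mem_laurentBaseChange E hz, coeffMap_coeffEmb' _ z⟩

theorem isAlgebraic_Qbar : Algebra.IsAlgebraic ℚ Q̄ := AlgebraicClosure.isAlgebraic ℚ

/-- Every element of `laurentBaseChange Q̄ F₀` is defined over a finite extension of `ℚ`. -/
theorem exists_finite_descent {x : LaurentSeries Q̄} (hx : x ∈ laurentBaseChange Q̄ F₀) :
    ∃ E : IntermediateField ℚ Q̄, FiniteDimensional ℚ E ∧ DescendsTo F₀ E x := by
  have := isAlgebraic_Qbar
  rw [mem_laurentBaseChange_iff] at hx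
  induction hx using Subfield.closure_induction with
  | mem y hy =>
      rcases hy with ⟨a, rfl⟩ | ⟨z, hz, rfl⟩
      · exact ⟨ℚ⟮a⟯, IntermediateField.adjoin.finiteDimensional
          (Algebra.IsAlgebraic.isAlgebraic a).isIntegral, descendsTo_const a⟩
      · exact ⟨⊥, inferInstance, descendsTo_coeffEmb ⊥ hz⟩
  | one => exact ⟨⊥, inferInstance, DescendsTo.one ⊥⟩
  | add x y _ _ hx hy =>
      obtain ⟨E₁, h₁, hx⟩ := hx
      obtain ⟨E₂, h₂, hy⟩ := hy
      exact ⟨E₁ ⊔ E₂, IntermediateField.finiteDimensional_sup E₁ E₂,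
        (hx.mono le_sup_left).add (hy.mono le_sup_right)⟩
  | neg x _ hx =>
      obtain ⟨E₁, h₁, hx⟩ := hx
      exact ⟨E₁, h₁, hx.neg⟩
  | inv x _ hx =>
      obtain ⟨E₁, h₁, hx⟩ := hx
      exact ⟨E₁, h₁, hx.inv⟩
  | mul x y _ _ hx hy =>
      obtain ⟨E₁, h₁, hx⟩ := hx
      obtain ⟨E₂, h₂, hy⟩ := hy
      exact ⟨E₁ ⊔ E₂, IntermediateField.finiteDimensional_sup E₁ E₂,
        (hx.mono le_sup_left).mul (hy.mono le_sup_right)⟩

/-- Two elements of `laurentBaseChange Q̄ F₀` are defined over a common finite extension of `ℚ`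
containing a prescribed finite extension `E₀`. -/
theorem exists_finite_descent₂ (E₀ : IntermediateField ℚ Q̄) [FiniteDimensional ℚ E₀]
    {x₁ x₂ : LaurentSeries Q̄} (h₁ : x₁ ∈ laurentBaseChange Q̄ F₀)
    (h₂ : x₂ ∈ laurentBaseChange Q̄ F₀) :
    ∃ E : IntermediateField ℚ Q̄, FiniteDimensional ℚ E ∧ E₀ ≤ E ∧
      DescendsTo F₀ E x₁ ∧ DescendsTo F₀ E x₂ := by
  obtain ⟨E₁, hE₁, d₁⟩ := exists_finite_descent h₁
  obtain ⟨E₂, hE₂, d₂⟩ := exists_finite_descent h₂
  have : FiniteDimensional ℚ ↥(E₁ ⊔ E₂) := IntermediateField.finiteDimensional_sup E₁ E₂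
  exact ⟨E₀ ⊔ (E₁ ⊔ E₂), IntermediateField.finiteDimensional_sup _ _, le_sup_left,
    d₁.mono (le_sup_left.trans le_sup_right), d₂.mono (le_sup_right.trans le_sup_right)⟩

end FiniteDescent

/-! ## 4. The valuation ring `R_E = A ∩ E` -/

section RE

variable (A : ValuationSubring Q̄) (E : IntermediateField ℚ Q̄)

/-- `R_E := A ∩ E`, a valuation subring of `E`. -/
def RE : ValuationSubring E := A.comap (algebraMap E Q̄)

variable {A E} in
theorem mem_RE {x : E} : x ∈ RE A E ↔ (x : Q̄) ∈ A := Iff.rfl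

/-- The inclusion `R_E → A`. -/
def toA : ↥(RE A E) →+* ↥A :=
  ((algebraMap E Q̄).comp (RE A E).subtype).codRestrict A (fun x => x.2)

@[simp]
theorem coe_toA (x : RE A E) : ((toA A E x : A) : Q̄) = ((x : E) : Q̄) := rfl

theorem toA_injective : Function.Injective (toA A E) := by
  intro x y h
  have h' : ((x : E) : Q̄) = ((y : E) : Q̄) := congrArg (fun z : A => (z : Q̄)) h
  exact Subtype.ext (Subtype.ext h')

theorem subtype_comp_toA :
    (A.subtype : ↥A →+* Q̄).comp (toA A E) = (algebraMap E Q̄).comp (RE A E).subtype :=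
  RingHom.ext fun _ => rfl

instance isLocalHom_toA : IsLocalHom (toA A E) where
  map_nonunit := by
    intro a ha
    obtain ⟨b, hb⟩ := isUnit_iff_exists_inv.mp ha
    have hb' : ((a : E) : Q̄) * (b : Q̄) = 1 := congrArg (fun z : A => (z : Q̄)) hb
    have ha0 : (a : E) ≠ 0 := by
      rintro h0
      rw [h0] at hb'
      simp at hb'
    have hinv : ((a : E)⁻¹ : E) ∈ RE A E := by
      rw [mem_RE]
      have : (((a : E)⁻¹ : E) : Q̄) = (b : Q̄) := by
        have h1 : (((a : E)⁻¹ : E) : Q̄) = ((a : E) : Q̄)⁻¹ := by simp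
        rw [h1]
        exact inv_eq_of_mul_eq_one_right hb'
      rw [this]
      exact b.2
    exact isUnit_iff_exists_inv.mpr ⟨⟨(a : E)⁻¹, hinv⟩, Subtype.ext (mul_inv_cancel₀ ha0)⟩

/-- The map of residue fields `κ_E → k`. -/
def resMap : IsLocalRing.ResidueField (RE A E) →+* IsLocalRing.ResidueField A :=
  IsLocalRing.ResidueField.map (toA A E)

theorem resMap_injective : Function.Injective (resMap A E) := (resMap A E).injective

theorem resMap_comp_residue :
    (resMap A E).comp (IsLocalRing.residue (RE A E)) = (IsLocalRing.residue A).comp (toA A E) :=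
  IsLocalRing.ResidueField.map_comp_residue (toA A E)

theorem coeffMap_residue_toA (V : LaurentSeries (RE A E)) :
    coeffMap (IsLocalRing.residue A) (coeffMap (toA A E) V) =
      coeffMap (resMap A E) (coeffMap (IsLocalRing.residue (RE A E)) V) := by
  rw [coeffMap_coeffMap, coeffMap_coeffMap, resMap_comp_residue]

variable {A E}

/-- A series over `A` whose image in `Q̄((q))` is defined over `E` comes from a series over
`R_E = A ∩ E`. -/
theorem exists_series_descent {F₀ : IntermediateField ℚ (LaurentSeries ℚ)} (U : LaurentSeries A)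
    (h : DescendsTo F₀ E (coeffMap A.subtype U)) :
    ∃ V : LaurentSeries (RE A E),
      coeffMap (RE A E).subtype V ∈ laurentBaseChange E F₀ ∧ coeffMap (toA A E) V = U := by
  obtain ⟨y, hy, hyU⟩ := h
  have hc : ∀ n, y.coeff n ∈ Set.range (RE A E).subtype := by
    intro n
    have h1 : algebraMap E Q̄ (y.coeff n) = ((U.coeff n : A) : Q̄) := by
      have := congrArg (fun z => z.coeff n) hyU
      simpa using this
    refine ⟨⟨y.coeff n, ?_⟩, rfl⟩
    rw [mem_RE]
    change algebraMap E Q̄ (y.coeff n) ∈ A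
    rw [h1]
    exact (U.coeff n).2
  obtain ⟨V, hV⟩ := exists_coeffMap_eq (RE A E).subtype Subtype.val_injective y hc
  refine ⟨V, hV ▸ hy, ?_⟩
  apply coeffMap_injective A.subtype Subtype.val_injective
  rw [coeffMap_coeffMap, ← hyU, ← hV, coeffMap_coeffMap, subtype_comp_toA]

end RE

/-! ## 5. CORE over `A` from CORE over the rings `R_E` -/

section Core

variable (A : ValuationSubring Q̄) (E : IntermediateField ℚ Q̄) (N : ℕ)

/-- `IsIntAt A E N V`: the series `V ∈ R_E((q))` lies in `F_{N,E} = E(j(q^d) : d ∣ N)` and has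
nonzero reduction modulo the maximal ideal of `R_E`. -/
def IsIntAt (V : LaurentSeries (RE A E)) : Prop :=
  coeffMap (RE A E).subtype V ∈ laurentBaseChange E (modularFunctionFieldFull N) ∧
    coeffMap (IsLocalRing.residue (RE A E)) V ≠ 0

variable {A E N}

theorem IsIntAt.mem_bar {V : LaurentSeries (RE A E)} (h : IsIntAt A E N V) :
    coeffMap (algebraMap E Q̄) (coeffMap (RE A E).subtype V) ∈ modularFunctionFieldBar N :=
  coeffMap_mem_laurentBaseChange _ _ h.1

/-- The element of `F̄_N = Q̄(j(q^d) : d ∣ N)` defined by an integral series over `R_E`. -/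
def toFbar {V : LaurentSeries (RE A E)} (h : IsIntAt A E N V) : modularFunctionFieldBar N :=
  ⟨coeffMap (algebraMap E Q̄) (coeffMap (RE A E).subtype V), h.mem_bar⟩

theorem coe_toFbar {V : LaurentSeries (RE A E)} (h : IsIntAt A E N V) :
    (toFbar h : LaurentSeries Q̄) = coeffMap A.subtype (coeffMap (toA A E) V) := by
  rw [coeffMap_coeffMap, subtype_comp_toA, ← coeffMap_coeffMap]
  rfl

variable (A E N)

/-- CORE over the ring `R_E = A ∩ E` (a discrete valuation ring when `E/ℚ` is finite and `A`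
lies over a prime, see `isDiscreteValuationRing_RE`): two integral series over `R_E` with the
same (nonzero) reduction, whose quotient has divisor divisible by `m` on `F̄_N`, differ by a
constant times an `m`-th power in `F̄_N`. -/
def CoreAt (m : ℕ) : Prop :=
  ∀ (V₁ V₂ : LaurentSeries (RE A E)) (h₁ : IsIntAt A E N V₁) (h₂ : IsIntAt A E N V₂),
    coeffMap (IsLocalRing.residue (RE A E)) V₁ = coeffMap (IsLocalRing.residue (RE A E)) V₂ →
    (∀ v : Place Q̄ (modularFunctionFieldBar N),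
      (m : ℤ) ∣ v.ord (toFbar h₁) - v.ord (toFbar h₂)) →
    ∃ (c : Q̄) (y : modularFunctionFieldBar N), c ≠ 0 ∧ y ≠ 0 ∧
      toFbar h₁ = algebraMap Q̄ (modularFunctionFieldBar N) c * y ^ m * toFbar h₂

variable {A N}

/-- **Descent (piece d1).**  If CORE holds over `R_E = A ∩ E` for every finite extension `E/ℚ`
inside `Q̄` containing a fixed finite extension `E₀`, then CORE holds over `A`: this is
`Fermat.Agent.S18.CoreStatement N A m` of the row's `Spec.lean`, with `IsInt` and `toF` unfolded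
(the hypothesis that the reduction lies in `F_{N,k}` is not needed). -/
theorem core_of_coreAt (m : ℕ) (E₀ : IntermediateField ℚ Q̄) [FiniteDimensional ℚ E₀]
    (H : ∀ E : IntermediateField ℚ Q̄, FiniteDimensional ℚ E → E₀ ≤ E → CoreAt A E N m)
    (U₁ U₂ : LaurentSeries A)
    (h₁ : coeffMap A.subtype U₁ ∈ modularFunctionFieldBar N)
    (h₂ : coeffMap A.subtype U₂ ∈ modularFunctionFieldBar N)
    (hne : coeffMap (IsLocalRing.residue A) U₁ ≠ 0)
    (hred : coeffMap (IsLocalRing.residue A) U₁ = coeffMap (IsLocalRing.residue A) U₂)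
    (hdiv : ∀ v : Place Q̄ (modularFunctionFieldBar N),
      (m : ℤ) ∣ v.ord (⟨coeffMap A.subtype U₁, h₁⟩ : modularFunctionFieldBar N) -
        v.ord (⟨coeffMap A.subtype U₂, h₂⟩ : modularFunctionFieldBar N)) :
    ∃ (c : Q̄) (y : modularFunctionFieldBar N), c ≠ 0 ∧ y ≠ 0 ∧
      (⟨coeffMap A.subtype U₁, h₁⟩ : modularFunctionFieldBar N) =
        algebraMap Q̄ (modularFunctionFieldBar N) c * y ^ m *
          (⟨coeffMap A.subtype U₂, h₂⟩ : modularFunctionFieldBar N) := by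
  obtain ⟨E, hE, hE₀, d₁, d₂⟩ := exists_finite_descent₂ E₀ h₁ h₂
  obtain ⟨V₁, hV₁, rfl⟩ := exists_series_descent U₁ d₁
  obtain ⟨V₂, hV₂, rfl⟩ := exists_series_descent U₂ d₂
  have hinj := coeffMap_injective (resMap A E) (resMap_injective A E)
  rw [coeffMap_residue_toA] at hne
  rw [coeffMap_residue_toA, coeffMap_residue_toA] at hred
  have i₁ : IsIntAt A E N V₁ := ⟨hV₁, fun h0 => hne (by rw [h0, map_zero])⟩
  have i₂ : IsIntAt A E N V₂ := ⟨hV₂, fun h0 => hne (by rw [hred, h0, map_zero])⟩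
  have e₁ : toFbar i₁ = (⟨coeffMap A.subtype (coeffMap (toA A E) V₁), h₁⟩ :
      modularFunctionFieldBar N) := Subtype.ext (coe_toFbar i₁)
  have e₂ : toFbar i₂ = (⟨coeffMap A.subtype (coeffMap (toA A E) V₂), h₂⟩ :
      modularFunctionFieldBar N) := Subtype.ext (coe_toFbar i₂)
  obtain ⟨c, y, hc, hy, hcy⟩ := H E hE hE₀ V₁ V₂ i₁ i₂ (hinj hred) (by
    intro v
    rw [e₁, e₂]
    exact hdiv v)
  exact ⟨c, y, hc, hy, by rw [← e₁, ← e₂]; exact hcy⟩

end Core

end Fermat.Agent.S18.H602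

end
end
-- ===== PACK-END S18/H602/Descent.lean

-- ===== PACK-BEGIN S24/Deg/H648Conj.lean
section


/-!
# S24 / M6-AN (helper648): function-level conjugate product

For a holomorphic `Γ₀(N)`-invariant function `f` on `ℍ` whose `SL₂(ℤ)`-translates have at most
exponential growth at `i∞`, the polynomial `∏ₓ (Y - f ∘ gₓ⁻¹)` (product over
`x ∈ SL₂(ℤ)/Γ₀(N)`) has holomorphic, `SL₂(ℤ)`-invariant coefficients of exponential growth.
-/

set_option autoImplicit false

noncomputable section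

open UpperHalfPlane ModularGroup CongruenceSubgroup Polynomial
open scoped MatrixGroups Manifold Modular Real

namespace Fermat.Agent.S24.H648

/-- At most exponential growth at `i∞` (on `im τ ≥ 1`). -/
def ExpGrowth (f : ℍ → ℂ) : Prop :=
  ∃ (C : ℝ) (m : ℕ), ∀ τ : ℍ, 1 ≤ τ.im → ‖f τ‖ ≤ C * Real.exp (2 * π * m * τ.im)

lemma ExpGrowth.mono {f : ℍ → ℂ} {C : ℝ} {m : ℕ}
    (h : ∀ τ : ℍ, 1 ≤ τ.im → ‖f τ‖ ≤ C * Real.exp (2 * π * m * τ.im)) {C' : ℝ} {m' : ℕ}
    (hC : C ≤ C') (hC0 : 0 ≤ C') (hm : m ≤ m') (τ : ℍ) (hτ : 1 ≤ τ.im) :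
    ‖f τ‖ ≤ C' * Real.exp (2 * π * m' * τ.im) := by
  refine (h τ hτ).trans ?_
  have h1 : Real.exp (2 * π * m * τ.im) ≤ Real.exp (2 * π * m' * τ.im) := by
    apply Real.exp_le_exp.mpr
    have : (m : ℝ) ≤ m' := by exact_mod_cast hm
    have hpi := Real.pi_pos
    have := τ.im_pos
    gcongr
  calc C * Real.exp (2 * π * m * τ.im) ≤ C' * Real.exp (2 * π * m * τ.im) := by
        gcongr
    _ ≤ C' * Real.exp (2 * π * m' * τ.im) := by gcongr

lemma expGrowth_const (c : ℂ) : ExpGrowth (fun _ => c) := by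
  refine ⟨‖c‖, 0, fun τ _ => ?_⟩
  simp

lemma ExpGrowth.add {f g : ℍ → ℂ} (hf : ExpGrowth f) (hg : ExpGrowth g) :
    ExpGrowth (f + g) := by
  obtain ⟨C, m, h⟩ := hf
  obtain ⟨C', m', h'⟩ := hg
  refine ⟨|C| + |C'|, max m m', fun τ hτ => ?_⟩
  have h1 := ExpGrowth.mono h (C' := |C|) (m' := max m m') (le_abs_self C) (abs_nonneg C)
    (le_max_left _ _) τ hτ
  have h2 := ExpGrowth.mono h' (C' := |C'|) (m' := max m m') (le_abs_self C') (abs_nonneg C')
    (le_max_right _ _) τ hτ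
  calc ‖(f + g) τ‖ ≤ ‖f τ‖ + ‖g τ‖ := norm_add_le _ _
    _ ≤ _ := by rw [add_mul]; exact add_le_add h1 h2

lemma ExpGrowth.mul {f g : ℍ → ℂ} (hf : ExpGrowth f) (hg : ExpGrowth g) :
    ExpGrowth (f * g) := by
  obtain ⟨C, m, h⟩ := hf
  obtain ⟨C', m', h'⟩ := hg
  refine ⟨|C| * |C'|, m + m', fun τ hτ => ?_⟩
  have h1 := ExpGrowth.mono h (C' := |C|) (m' := m) (le_abs_self C) (abs_nonneg C) le_rfl τ hτ
  have h2 := ExpGrowth.mono h' (C' := |C'|) (m' := m') (le_abs_self C') (abs_nonneg C') le_rfl τ hτ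
  have : Real.exp (2 * π * (m + m' : ℕ) * τ.im)
      = Real.exp (2 * π * m * τ.im) * Real.exp (2 * π * m' * τ.im) := by
    rw [← Real.exp_add]; push_cast; ring_nf
  calc ‖(f * g) τ‖ = ‖f τ‖ * ‖g τ‖ := norm_mul _ _
    _ ≤ (|C| * Real.exp (2 * π * m * τ.im)) * (|C'| * Real.exp (2 * π * m' * τ.im)) :=
        mul_le_mul h1 h2 (norm_nonneg _) (by positivity)
    _ = _ := by rw [this]; ring

/-- Holomorphic functions on `ℍ` of at most exponential growth at `i∞`. -/
def niceRing : Subalgebra ℂ (ℍ → ℂ) where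
  carrier := {f | MDifferentiable 𝓘(ℂ) 𝓘(ℂ) f ∧ ExpGrowth f}
  mul_mem' := fun ⟨h1, h2⟩ ⟨h1', h2'⟩ => ⟨h1.mul h1', h2.mul h2'⟩
  add_mem' := fun ⟨h1, h2⟩ ⟨h1', h2'⟩ => ⟨h1.add h1', h2.add h2'⟩
  algebraMap_mem' := fun c => ⟨mdifferentiable_const, expGrowth_const c⟩


lemma mem_niceRing {f : ℍ → ℂ} :
    f ∈ niceRing ↔ MDifferentiable 𝓘(ℂ) 𝓘(ℂ) f ∧ ExpGrowth f := Iff.rfl

variable (N : ℕ)

/-- Holomorphic `Γ₀(N)`-invariant functions all of whose `SL₂(ℤ)`-translates have at most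
exponential growth at `i∞`. -/
def goodRing : Subalgebra ℂ (ℍ → ℂ) where
  carrier := {f | MDifferentiable 𝓘(ℂ) 𝓘(ℂ) f ∧ (∀ γ ∈ Gamma0 N, ∀ τ : ℍ, f (γ • τ) = f τ) ∧
      ∀ g : SL(2, ℤ), ExpGrowth (fun τ => f (g • τ))}
  mul_mem' := by
    rintro f g ⟨h1, h2, h3⟩ ⟨h1', h2', h3'⟩
    refine ⟨h1.mul h1', fun γ hγ τ => ?_, fun g => ?_⟩
    · show f (γ • τ) * g (γ • τ) = f τ * g τ
      rw [h2 γ hγ τ, h2' γ hγ τ]
    · exact (h3 g).mul (h3' g)
  add_mem' := by
    rintro f g ⟨h1, h2, h3⟩ ⟨h1', h2', h3'⟩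
    refine ⟨h1.add h1', fun γ hγ τ => ?_, fun g => ?_⟩
    · show f (γ • τ) + g (γ • τ) = f τ + g τ
      rw [h2 γ hγ τ, h2' γ hγ τ]
    · exact (h3 g).add (h3' g)
  algebraMap_mem' := fun c =>
    ⟨mdifferentiable_const, fun _ _ _ => rfl, fun _ => expGrowth_const c⟩

lemma mem_goodRing {f : ℍ → ℂ} :
    f ∈ goodRing N ↔ MDifferentiable 𝓘(ℂ) 𝓘(ℂ) f ∧ (∀ γ ∈ Gamma0 N, ∀ τ : ℍ, f (γ • τ) = f τ) ∧
      ∀ g : SL(2, ℤ), ExpGrowth (fun τ => f (g • τ)) := Iff.rfl

/-- The conjugate `f ∘ gₓ⁻¹` of `f` attached to the coset `x = gₓ Γ₀(N)`. -/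
def conj (f : ℍ → ℂ) (x : SL(2, ℤ) ⧸ Gamma0 N) : ℍ → ℂ :=
  fun τ => f ((Quotient.out x)⁻¹ • τ)

variable {N}

lemma conj_mk {f : ℍ → ℂ} (hf : ∀ γ ∈ Gamma0 N, ∀ τ : ℍ, f (γ • τ) = f τ) (g : SL(2, ℤ))
    (τ : ℍ) : conj N f (g : SL(2, ℤ) ⧸ Gamma0 N) τ = f (g⁻¹ • τ) := by
  obtain ⟨h, hh⟩ := QuotientGroup.mk_out_eq_mul (Gamma0 N) g
  unfold conj
  rw [hh, mul_inv_rev, mul_smul]
  exact hf _ (inv_mem h.2) _

lemma conj_smul {f : ℍ → ℂ} (hf : ∀ γ ∈ Gamma0 N, ∀ τ : ℍ, f (γ • τ) = f τ) (γ : SL(2, ℤ))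
    (x : SL(2, ℤ) ⧸ Gamma0 N) (τ : ℍ) : conj N f x (γ • τ) = conj N f (γ⁻¹ • x) τ := by
  induction x using QuotientGroup.induction_on with
  | H g =>
    rw [conj_mk hf, MulAction.Quotient.smul_mk, conj_mk hf, smul_eq_mul, mul_inv_rev, inv_inv,
      mul_smul]

lemma conj_one_coset {f : ℍ → ℂ} (hf : ∀ γ ∈ Gamma0 N, ∀ τ : ℍ, f (γ • τ) = f τ) (τ : ℍ) :
    conj N f ((1 : SL(2, ℤ)) : SL(2, ℤ) ⧸ Gamma0 N) τ = f τ := by
  rw [conj_mk hf]; simp

lemma mdifferentiable_comp_smul {f : ℍ → ℂ} (hf : MDifferentiable 𝓘(ℂ) 𝓘(ℂ) f)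
    (g : SL(2, ℤ)) : MDifferentiable 𝓘(ℂ) 𝓘(ℂ) (fun τ : ℍ => f (g • τ)) := by
  have h : MDifferentiable 𝓘(ℂ) 𝓘(ℂ) (fun τ : ℍ => (g : GL (Fin 2) ℝ) • τ) :=
    UpperHalfPlane.mdifferentiable_smul (by simp)
  exact hf.comp h

lemma conj_mem_niceRing {f : ℍ → ℂ} (hf : f ∈ goodRing N) (x : SL(2, ℤ) ⧸ Gamma0 N) :
    conj N f x ∈ niceRing :=
  ⟨mdifferentiable_comp_smul hf.1 _, hf.2.2 _⟩


/-- Coefficients of a finite product `∏ (Y - aₓ)` with `aₓ` in `niceRing` are in `niceRing`. -/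
lemma coeff_prod_mem_niceRing {ι : Type*} (a : ι → ℍ → ℂ) (ha : ∀ i, a i ∈ niceRing)
    (s : Finset ι) (k : ℕ) :
    (fun τ => (∏ i ∈ s, (X - C (a i τ))).coeff k) ∈ niceRing := by
  classical
  induction s using Finset.induction_on generalizing k with
  | empty =>
    have : (fun τ : ℍ => (∏ i ∈ (∅ : Finset ι), (X - C (a i τ))).coeff k)
        = algebraMap ℂ (ℍ → ℂ) (if k = 0 then 1 else 0) := by
      funext τ
      simp [Polynomial.coeff_one]
    rw [this]
    exact Subalgebra.algebraMap_mem _ _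
  | insert i s hi ih =>
    cases k with
    | zero =>
      have : (fun τ : ℍ => (∏ j ∈ insert i s, (X - C (a j τ))).coeff 0)
          = - (a i * fun τ => (∏ j ∈ s, (X - C (a j τ))).coeff 0) := by
        funext τ
        rw [Finset.prod_insert hi, sub_mul, Polynomial.coeff_sub, Polynomial.coeff_X_mul_zero,
          Polynomial.coeff_C_mul]
        simp
      rw [this]
      exact Subalgebra.neg_mem _ (Subalgebra.mul_mem _ (ha i) (ih 0))
    | succ k =>
      have : (fun τ : ℍ => (∏ j ∈ insert i s, (X - C (a j τ))).coeff (k + 1))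
          = (fun τ => (∏ j ∈ s, (X - C (a j τ))).coeff k)
            - (a i * fun τ => (∏ j ∈ s, (X - C (a j τ))).coeff (k + 1)) := by
        funext τ
        rw [Finset.prod_insert hi, sub_mul, Polynomial.coeff_sub, Polynomial.coeff_X_mul,
          Polynomial.coeff_C_mul]
        simp
      rw [this]
      exact Subalgebra.sub_mem _ (ih k) (Subalgebra.mul_mem _ (ha i) (ih (k + 1)))

variable (N) in
/-- The "characteristic polynomial" `∏ₓ (Y - f ∘ gₓ⁻¹)` evaluated at `τ`. -/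
def charPolyAt [Fintype (SL(2, ℤ) ⧸ Gamma0 N)] (f : ℍ → ℂ) (τ : ℍ) : ℂ[X] :=
  ∏ x : SL(2, ℤ) ⧸ Gamma0 N, (X - C (conj N f x τ))

section charPoly

variable [Fintype (SL(2, ℤ) ⧸ Gamma0 N)]

lemma charPolyAt_monic (f : ℍ → ℂ) (τ : ℍ) : (charPolyAt N f τ).Monic :=
  Polynomial.monic_prod_of_monic _ _ fun _ _ => Polynomial.monic_X_sub_C _

lemma charPolyAt_natDegree (f : ℍ → ℂ) (τ : ℍ) :
    (charPolyAt N f τ).natDegree = Fintype.card (SL(2, ℤ) ⧸ Gamma0 N) := by
  unfold charPolyAt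
  rw [Polynomial.natDegree_prod_of_monic _ _ fun _ _ => Polynomial.monic_X_sub_C _]
  simp

lemma charPolyAt_smul {f : ℍ → ℂ} (hf : ∀ γ ∈ Gamma0 N, ∀ τ : ℍ, f (γ • τ) = f τ)
    (γ : SL(2, ℤ)) (τ : ℍ) : charPolyAt N f (γ • τ) = charPolyAt N f τ := by
  unfold charPolyAt
  refine Fintype.prod_equiv (MulAction.toPerm γ⁻¹) _ _ fun x => ?_
  rw [conj_smul hf]
  rfl

lemma charPolyAt_eval_self {f : ℍ → ℂ} (hf : ∀ γ ∈ Gamma0 N, ∀ τ : ℍ, f (γ • τ) = f τ)
    (τ : ℍ) : (charPolyAt N f τ).eval (f τ) = 0 := by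
  unfold charPolyAt
  rw [Polynomial.eval_prod]
  refine Finset.prod_eq_zero (Finset.mem_univ ((1 : SL(2, ℤ)) : SL(2, ℤ) ⧸ Gamma0 N)) ?_
  rw [conj_one_coset hf]
  simp

lemma charPolyAt_eval_conj (f : ℍ → ℂ) (x : SL(2, ℤ) ⧸ Gamma0 N)
    (τ : ℍ) : (charPolyAt N f τ).eval (conj N f x τ) = 0 := by
  unfold charPolyAt
  rw [Polynomial.eval_prod]
  refine Finset.prod_eq_zero (Finset.mem_univ x) ?_
  simp

lemma coeff_charPolyAt_mem_niceRing {f : ℍ → ℂ} (hf : f ∈ goodRing N) (k : ℕ) :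
    (fun τ => (charPolyAt N f τ).coeff k) ∈ niceRing :=
  coeff_prod_mem_niceRing (conj N f) (conj_mem_niceRing hf) Finset.univ k

/-- **Main theorem (M6-AN).**  Given the polynomiality principle (D5) for `J`, the conjugate
product `∏ₓ (Y - f ∘ gₓ⁻¹)` of a good function `f` has coefficients in `ℂ[J]`. -/
theorem exists_charPoly (J : ℍ → ℂ)
    (hD5 : ∀ F : ℍ → ℂ, MDifferentiable 𝓘(ℂ) 𝓘(ℂ) F →
      (∀ (γ : SL(2, ℤ)) (τ : ℍ), F (γ • τ) = F τ) → ExpGrowth F →
      ∃ p : ℂ[X], ∀ τ, F τ = p.eval (J τ))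
    {f : ℍ → ℂ} (hf : f ∈ goodRing N) :
    ∃ P : (ℂ[X])[X], P.Monic ∧ P.natDegree = Fintype.card (SL(2, ℤ) ⧸ Gamma0 N) ∧
      ∀ τ : ℍ, P.map (Polynomial.evalRingHom (J τ)) = charPolyAt N f τ := by
  classical
  set n := Fintype.card (SL(2, ℤ) ⧸ Gamma0 N) with hn
  have key : ∀ k : ℕ, ∃ p : ℂ[X], ∀ τ, (charPolyAt N f τ).coeff k = p.eval (J τ) := by
    intro k
    have h := coeff_charPolyAt_mem_niceRing hf k
    exact hD5 _ h.1 (fun γ τ => by rw [charPolyAt_smul hf.2.1]) h.2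
  choose p hp using key
  set Q : (ℂ[X])[X] := ∑ i ∈ Finset.range n, C (p i) * X ^ i with hQ
  have hQdeg : Q.degree < n := by
    rw [Polynomial.degree_lt_iff_coeff_zero]
    intro m hm
    rw [hQ, Polynomial.finsetSum_coeff]
    refine Finset.sum_eq_zero fun i hi => ?_
    rw [Polynomial.coeff_C_mul_X_pow, if_neg]
    have := Finset.mem_range.mp hi
    omega
  refine ⟨X ^ n + Q, Polynomial.monic_X_pow_add hQdeg, ?_, fun τ => ?_⟩
  · rw [Polynomial.natDegree_add_eq_left_of_degree_lt (by rwa [Polynomial.degree_X_pow]),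
      Polynomial.natDegree_X_pow]
  · have h1 := (charPolyAt_monic (N := N) f τ).as_sum
    rw [charPolyAt_natDegree] at h1
    rw [h1, Polynomial.map_add, Polynomial.map_pow, Polynomial.map_X, hQ, Polynomial.map_sum]
    congr 1
    refine Finset.sum_congr rfl fun i _ => ?_
    rw [Polynomial.map_mul, Polynomial.map_pow, Polynomial.map_X, Polynomial.map_C,
      Polynomial.coe_evalRingHom, ← hp i τ]

/-- Corollary: function-level `HYP(n)`. -/
theorem exists_charPoly_eval_eq_zero (J : ℍ → ℂ)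
    (hD5 : ∀ F : ℍ → ℂ, MDifferentiable 𝓘(ℂ) 𝓘(ℂ) F →
      (∀ (γ : SL(2, ℤ)) (τ : ℍ), F (γ • τ) = F τ) → ExpGrowth F →
      ∃ p : ℂ[X], ∀ τ, F τ = p.eval (J τ))
    {f : ℍ → ℂ} (hf : f ∈ goodRing N) :
    ∃ P : (ℂ[X])[X], P.Monic ∧ P.natDegree = Fintype.card (SL(2, ℤ) ⧸ Gamma0 N) ∧
      ∀ τ : ℍ, (P.map (Polynomial.evalRingHom (J τ))).eval (f τ) = 0 := by
  obtain ⟨P, h1, h2, h3⟩ := exists_charPoly J hD5 hf
  exact ⟨P, h1, h2, fun τ => by rw [h3, charPolyAt_eval_self hf.2.1]⟩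

end charPoly

end Fermat.Agent.S24.H648

end
end
-- ===== PACK-END S24/Deg/H648Conj.lean

-- ===== PACK-BEGIN S24/JFun/Basic.lean
section



/-!
# The analytic `j`-function on the upper half plane (shared analytic core for S24 / S28)

`jFun τ = E₄ τ ^ 3 / Δ τ`.  Basic properties: holomorphy, `SL(2,ℤ)`-invariance, periodicity.
-/

set_option autoImplicit false

namespace Fermat.Agent.S24.JFun

open UpperHalfPlane ModularForm EisensteinSeries MatrixGroups Complex
open scoped Manifold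

/-- The analytic `j`-function `E₄³ / Δ` on the upper half plane. -/
noncomputable def jFun (τ : ℍ) : ℂ := E₄ τ ^ 3 / ModularForm.discriminant τ

theorem jFun_def (τ : ℍ) : jFun τ = E₄ τ ^ 3 / ModularForm.discriminant τ := rfl

theorem jFun_mul_discriminant (τ : ℍ) : jFun τ * ModularForm.discriminant τ = E₄ τ ^ 3 := by
  rw [jFun, div_mul_cancel₀ _ (discriminant_ne_zero τ)]

theorem E₄_smul (γ : SL(2, ℤ)) (τ : ℍ) : E₄ (γ • τ) = denom γ τ ^ (4 : ℤ) * E₄ τ := by
  have h := SlashInvariantForm.slash_action_eqn'' E₄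
    (show ((γ : SL(2, ℤ)) : GL (Fin 2) ℝ) ∈ 𝒮ℒ from ⟨γ, rfl⟩) τ
  simpa using h

theorem E₆_smul (γ : SL(2, ℤ)) (τ : ℍ) : E₆ (γ • τ) = denom γ τ ^ (6 : ℤ) * E₆ τ := by
  have h := SlashInvariantForm.slash_action_eqn'' E₆
    (show ((γ : SL(2, ℤ)) : GL (Fin 2) ℝ) ∈ 𝒮ℒ from ⟨γ, rfl⟩) τ
  simpa using h

theorem discriminant_smul (γ : SL(2, ℤ)) (τ : ℍ) :
    ModularForm.discriminant (γ • τ) = denom γ τ ^ (12 : ℤ) * ModularForm.discriminant τ := by
  have h := SlashInvariantForm.slash_action_eqn'' CuspForm.discriminant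
    (show ((γ : SL(2, ℤ)) : GL (Fin 2) ℝ) ∈ 𝒮ℒ from ⟨γ, rfl⟩) τ
  simpa using h

/-- `j` is invariant under `SL(2,ℤ)`. -/
theorem jFun_smul (γ : SL(2, ℤ)) (τ : ℍ) : jFun (γ • τ) = jFun τ := by
  have hd : denom γ τ ≠ 0 := denom_ne_zero _ _
  rw [jFun, jFun, E₄_smul, discriminant_smul, mul_pow, ← zpow_natCast, ← zpow_mul]
  have h12 : ((4 : ℤ) * ((3 : ℕ) : ℤ)) = 12 := by norm_num
  rw [h12, mul_div_mul_left _ _ (zpow_ne_zero _ hd)]

/-- `j` is holomorphic on the upper half plane. -/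
theorem jFun_mdifferentiable : MDiff jFun := by
  have h4 : MDiff (fun τ : ℍ => E₄ τ ^ 3) := by
    have := (E₄.holo'.pow 3)
    exact this
  exact h4.div CuspForm.discriminant.holo' discriminant_ne_zero

theorem jFun_eq_zero_iff (τ : ℍ) : jFun τ = 0 ↔ E₄ τ = 0 := by
  rw [jFun, div_eq_zero_iff]
  simp [discriminant_ne_zero τ]

theorem jFun_sub_1728 (τ : ℍ) :
    jFun τ - 1728 = E₆ τ ^ 2 / ModularForm.discriminant τ := by
  have hΔ := discriminant_ne_zero τ
  have h := discriminant_eq_E₄_cube_sub_E₆_sq τ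
  rw [jFun]
  field_simp
  rw [h]
  ring

theorem jFun_eq_1728_iff (τ : ℍ) : jFun τ = 1728 ↔ E₆ τ = 0 := by
  rw [← sub_eq_zero, jFun_sub_1728, div_eq_zero_iff]
  simp [discriminant_ne_zero τ]

end Fermat.Agent.S24.JFun

end
-- ===== PACK-END S24/JFun/Basic.lean

-- ===== PACK-BEGIN S24/FFBasic.lean
section



/-!
# S24 / FF layer: basic facts on `AlgebraicCurve.Place`

Embedding-free algebraic core (helper804).
-/

set_option autoImplicit false

namespace Fermat.Agent.S24.FF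

open AlgebraicCurve

variable {K F : Type*} [Field K] [Field F] [Algebra K F]

section Basic

variable (v : Place K F)

theorem exists_irreducible_coe :
    ∃ π : v.toValuationSubring, Irreducible π ∧ v.ord (π : F) = 1 := by
  obtain ⟨π, hπ⟩ := IsDiscreteValuationRing.exists_irreducible v.toValuationSubring
  exact ⟨π, hπ, v.ord_coe_irreducible hπ⟩

theorem mem_of_ord_nonneg {f : F} (h : 0 ≤ v.ord f) : f ∈ v.toValuationSubring := by
  rcases eq_or_ne f 0 with rfl | hf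
  · exact zero_mem _
  obtain ⟨π, hπ⟩ := IsDiscreteValuationRing.exists_irreducible v.toValuationSubring
  obtain ⟨u, hu⟩ := v.exists_unit_mul_zpow hf hπ
  rw [hu]
  refine mul_mem (u : v.toValuationSubring).2 ?_
  obtain ⟨n, hn⟩ := Int.eq_ofNat_of_zero_le h
  rw [hn, zpow_natCast]
  exact pow_mem π.2 n

theorem ord_nonneg_of_mem {f : F} (h : f ∈ v.toValuationSubring) : 0 ≤ v.ord f := by
  rcases eq_or_ne f 0 with rfl | hf
  · simp
  by_contra hneg
  rw [not_le] at hneg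
  obtain ⟨π, hπ⟩ := IsDiscreteValuationRing.exists_irreducible v.toValuationSubring
  obtain ⟨u, hu⟩ := v.exists_unit_mul_zpow hf hπ
  have hπF : (π : F) ≠ 0 := by
    simpa [ne_eq, ZeroMemClass.coe_eq_zero] using hπ.ne_zero
  -- `f * π ^ (-ord f) = u`
  obtain ⟨n, hn⟩ := Int.eq_ofNat_of_zero_le (show 0 ≤ -v.ord f - 1 by omega)
  have hord : v.ord f = -((n : ℤ) + 1) := by omega
  have key : f * (π : F) ^ (n + 1) = ((u : v.toValuationSubring) : F) := by
    conv_lhs => rw [hu, hord]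
    rw [zpow_neg, mul_assoc, ← zpow_natCast (π : F) (n + 1)]
    push_cast
    rw [inv_mul_cancel₀ (zpow_ne_zero _ hπF), mul_one]
  have hmem : (⟨f, h⟩ : v.toValuationSubring) * π ^ (n + 1) = (u : v.toValuationSubring) :=
    Subtype.ext (by simpa using key)
  have hunit : IsUnit ((⟨f, h⟩ : v.toValuationSubring) * π ^ (n + 1)) := hmem ▸ u.isUnit
  have := (IsUnit.mul_iff.mp hunit).2
  rw [pow_succ] at this
  exact hπ.not_isUnit (IsUnit.mul_iff.mp this).2

theorem mem_iff_ord_nonneg {f : F} : f ∈ v.toValuationSubring ↔ 0 ≤ v.ord f :=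
  ⟨ord_nonneg_of_mem v, mem_of_ord_nonneg v⟩

theorem ord_algebraMap (a : K) : v.ord (algebraMap K F a) = 0 := by
  rcases eq_or_ne a 0 with rfl | ha
  · simp
  have h1 := ord_nonneg_of_mem v (v.algebraMap_mem' a)
  have h2 := ord_nonneg_of_mem v (v.algebraMap_mem' a⁻¹)
  rw [map_inv₀, v.ord_inv] at h2
  omega

theorem ord_pos_iff_mem_nonunits {f : F} (hf : f ≠ 0) :
    0 < v.ord f ↔ f ∈ v.toValuationSubring.nonunits := by
  rw [ValuationSubring.mem_nonunits_iff_exists_mem_maximalIdeal]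
  constructor
  · intro h
    refine ⟨mem_of_ord_nonneg v h.le, ?_⟩
    rw [IsLocalRing.mem_maximalIdeal, mem_nonunits_iff]
    intro hu
    have := v.ord_coe_unit hu.unit
    simp only [IsUnit.unit_spec] at this
    omega
  · rintro ⟨hmem, hmax⟩
    have h0 := ord_nonneg_of_mem v hmem
    rcases h0.lt_or_eq with h | h
    · exact h
    exfalso
    have hinv : f⁻¹ ∈ v.toValuationSubring := mem_of_ord_nonneg v (by rw [v.ord_inv]; omega)
    rw [IsLocalRing.mem_maximalIdeal, mem_nonunits_iff] at hmax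
    apply hmax
    refine IsUnit.of_mul_eq_one (⟨f⁻¹, hinv⟩ : v.toValuationSubring) (Subtype.ext ?_)
    simp [hf]

theorem ord_add_ge {f g : F} (hfg : f + g ≠ 0) :
    min (v.ord f) (v.ord g) ≤ v.ord (f + g) := by
  rcases eq_or_ne f 0 with rfl | hf
  · simp
  rcases eq_or_ne g 0 with rfl | hg
  · simp
  obtain ⟨π, hπ⟩ := IsDiscreteValuationRing.exists_irreducible v.toValuationSubring
  have hπF : (π : F) ≠ 0 := by
    simpa [ne_eq, ZeroMemClass.coe_eq_zero] using hπ.ne_zero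
  set m := min (v.ord f) (v.ord g) with hm
  have hf' : (π : F) ^ (-m) * f ∈ v.toValuationSubring := by
    apply mem_of_ord_nonneg v
    rw [v.ord_mul (zpow_ne_zero _ hπF) hf, v.ord_zpow, v.ord_coe_irreducible hπ]
    have := min_le_left (v.ord f) (v.ord g)
    omega
  have hg' : (π : F) ^ (-m) * g ∈ v.toValuationSubring := by
    apply mem_of_ord_nonneg v
    rw [v.ord_mul (zpow_ne_zero _ hπF) hg, v.ord_zpow, v.ord_coe_irreducible hπ]
    have := min_le_right (v.ord f) (v.ord g)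
    omega
  have hsum := ord_nonneg_of_mem v (add_mem hf' hg')
  rw [← mul_add, v.ord_mul (zpow_ne_zero _ hπF) hfg, v.ord_zpow, v.ord_coe_irreducible hπ] at hsum
  omega

end Basic

end Fermat.Agent.S24.FF

end
-- ===== PACK-END S24/FFBasic.lean

-- ===== PACK-BEGIN S29/H332/WeightedEis.lean
section


/-!
# Weighted Eisenstein series

For a bounded weight function `c : (Fin 2 → ℤ) → ℂ` and `k ≥ 3` we study
`wEis c k z = ∑' v, c v * (v 0 * z + v 1) ^ (-k)`.
-/

open UpperHalfPlane EisensteinSeries ModularForm Filter Topology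
open scoped Matrix
open scoped MatrixGroups Manifold

noncomputable section

namespace Fermat.Agent.S29.H332

/-- The weighted Eisenstein series. -/
def wEis (c : (Fin 2 → ℤ) → ℂ) (k : ℤ) (z : ℍ) : ℂ :=
  ∑' v : Fin 2 → ℤ, c v * eisSummand k v z

theorem norm_wsummand_le {c : (Fin 2 → ℤ) → ℂ} (hc : ∀ v, ‖c v‖ ≤ 1) (k : ℤ) (v : Fin 2 → ℤ)
    (z : ℍ) : ‖c v * eisSummand k v z‖ ≤ ‖eisSummand k v z‖ := by
  rw [norm_mul]
  exact mul_le_of_le_one_left (norm_nonneg _) (hc v)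

theorem summable_norm_wEis {c : (Fin 2 → ℤ) → ℂ} (hc : ∀ v, ‖c v‖ ≤ 1) {k : ℤ} (hk : 3 ≤ k)
    (z : ℍ) : Summable fun v : Fin 2 → ℤ => ‖c v * eisSummand k v z‖ :=
  (summable_norm_eisSummand hk z).of_nonneg_of_le (fun _ => norm_nonneg _)
    (fun v => norm_wsummand_le hc k v z)

theorem summable_wEis {c : (Fin 2 → ℤ) → ℂ} (hc : ∀ v, ‖c v‖ ≤ 1) {k : ℤ} (hk : 3 ≤ k)
    (z : ℍ) : Summable fun v : Fin 2 → ℤ => c v * eisSummand k v z :=
  (summable_norm_wEis hc hk z).of_norm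

/-- right multiplication by `γ` as a permutation of `ℤ²`. -/
def vecMulEquiv (γ : SL(2, ℤ)) : (Fin 2 → ℤ) ≃ (Fin 2 → ℤ) where
  toFun v := v ᵥ* γ.1
  invFun v := v ᵥ* (γ⁻¹).1
  left_inv v := by
    simp only [Matrix.vecMul_vecMul]
    rw [← Matrix.SpecialLinearGroup.coe_mul, mul_inv_cancel, Matrix.SpecialLinearGroup.coe_one,
      Matrix.vecMul_one]
  right_inv v := by
    simp only [Matrix.vecMul_vecMul]
    rw [← Matrix.SpecialLinearGroup.coe_mul, inv_mul_cancel, Matrix.SpecialLinearGroup.coe_one,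
      Matrix.vecMul_one]

/-- Slashing a weighted Eisenstein series transforms the weight. -/
theorem wEis_slash (c : (Fin 2 → ℤ) → ℂ) (k : ℤ) (γ : SL(2, ℤ)) :
    wEis c k ∣[k] γ = wEis (fun v => c (v ᵥ* (γ⁻¹).1)) k := by
  ext1 z
  simp_rw [SL_slash_apply, _root_.zpow_neg,
    mul_inv_eq_iff_eq_mul₀ (zpow_ne_zero _ <| denom_ne_zero _ z), wEis]
  rw [← tsum_mul_right]
  conv_rhs => rw [← (vecMulEquiv γ).tsum_eq]
  congr 1
  funext v
  simp only [vecMulEquiv, Equiv.coe_fn_mk]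
  rw [Matrix.vecMul_vecMul, ← Matrix.SpecialLinearGroup.coe_mul, mul_inv_cancel,
    Matrix.SpecialLinearGroup.coe_one, Matrix.vecMul_one, eisSummand_SL2_apply]
  simp only [denom]
  ring_nf


theorem wEis_tendstoLocallyUniformly {c : (Fin 2 → ℤ) → ℂ} (hc : ∀ v, ‖c v‖ ≤ 1) {k : ℤ}
    (hk : 3 ≤ k) :
    TendstoLocallyUniformly (fun (s : Finset (Fin 2 → ℤ)) ↦ (∑ x ∈ s, c x * eisSummand k x ·))
      (wEis c k ·) Filter.atTop := by
  have hk' : (2 : ℝ) < k := by norm_cast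
  have p_sum : Summable fun x : Fin 2 → ℤ ↦ ‖x‖ ^ (-k) :=
    mod_cast (summable_one_div_norm_rpow hk')
  simp only [tendstoLocallyUniformly_iff_forall_isCompact, wEis]
  intro K hK
  obtain ⟨A, B, hB, HABK⟩ := subset_verticalStrip_of_isCompact hK
  refine (tendstoUniformlyOn_tsum (hu := p_sum.mul_left <| r ⟨⟨A, B⟩, hB⟩ ^ (-k : ℝ))
    (fun p z hz ↦ ?_)).mono HABK
  refine (norm_wsummand_le hc k p z).trans ?_
  simpa only [eisSummand, one_div, ← zpow_neg, norm_zpow, ← Real.rpow_intCast,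
    Int.cast_neg] using summand_bound_of_mem_verticalStrip (by positivity) p hB hz

theorem wEis_tendstoLocallyUniformlyOn {c : (Fin 2 → ℤ) → ℂ} (hc : ∀ v, ‖c v‖ ≤ 1) {k : ℤ}
    (hk : 3 ≤ k) :
    TendstoLocallyUniformlyOn (fun (s : Finset (Fin 2 → ℤ)) ↦
      ((fun (z : ℍ) ↦ ∑ x ∈ s, c x * eisSummand k x z) ∘ ofComplex)) ((wEis c k) ∘ ofComplex)
          Filter.atTop {z : ℂ | 0 < z.im} := by
  rw [← upperHalfPlaneSet, ← range_coe, ← Set.image_univ]
  apply TendstoLocallyUniformlyOn.comp (s := ⊤) _ _ _ (OpenPartialHomeomorph.continuousOn_symm _)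
  · simp only [Set.top_eq_univ, tendstoLocallyUniformlyOn_univ]
    apply wEis_tendstoLocallyUniformly hc hk
  · simp only [IsOpenEmbedding.toOpenPartialHomeomorph_target, Set.top_eq_univ,
      Set.mapsTo_range_iff, Set.mem_univ, forall_const]

theorem wsummand_extension_differentiableOn (c : (Fin 2 → ℤ) → ℂ) (k : ℤ) (a : Fin 2 → ℤ) :
    DifferentiableOn ℂ ((fun z : ℍ => c a * eisSummand k a z) ∘ ofComplex) {z : ℂ | 0 < z.im} := by
  have h := (eisSummand_extension_differentiableOn k a).const_smul (c a)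
  refine h.congr ?_
  intro z _
  simp [Function.comp, smul_eq_mul]

/-- Weighted Eisenstein series are holomorphic. -/
theorem wEis_mdifferentiable {c : (Fin 2 → ℤ) → ℂ} (hc : ∀ v, ‖c v‖ ≤ 1) {k : ℤ} (hk : 3 ≤ k) :
    MDiff (wEis c k) := by
  intro τ
  suffices DifferentiableAt ℂ ((wEis c k) ∘ ofComplex) τ.1 by
    convert!
      MDifferentiableAt.comp τ (DifferentiableAt.mdifferentiableAt this) τ.mdifferentiable_coe
    exact funext fun z ↦ (comp_ofComplex (wEis c k) z).symm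
  refine DifferentiableOn.differentiableAt ?_ (isOpen_upperHalfPlaneSet.mem_nhds τ.2)
  exact (wEis_tendstoLocallyUniformlyOn hc hk).differentiableOn
    (Eventually.of_forall fun s ↦ by
      have : ((fun (z : ℍ) ↦ ∑ x ∈ s, c x * eisSummand k x z) ∘ ofComplex)
          = fun w => ∑ x ∈ s, ((fun z : ℍ => c x * eisSummand k x z) ∘ ofComplex) w := by
        funext w
        simp [Function.comp]
      rw [this]
      exact DifferentiableOn.fun_sum fun _ _ ↦ wsummand_extension_differentiableOn _ _ _)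
    isOpen_upperHalfPlaneSet


/-! ### Behaviour at `i∞` -/

theorem denom_T_zpow (n : ℤ) (z : ℍ) : denom (ModularGroup.T ^ n : SL(2, ℤ)) z = 1 := by
  have h10 : ((ModularGroup.T ^ n : SL(2, ℤ)) : Matrix (Fin 2) (Fin 2) ℤ) 1 0 = 0 := by
    rw [ModularGroup.coe_T_zpow]; rfl
  have h11 : ((ModularGroup.T ^ n : SL(2, ℤ)) : Matrix (Fin 2) (Fin 2) ℤ) 1 1 = 1 := by
    rw [ModularGroup.coe_T_zpow]; rfl
  simp only [denom]
  simp [-map_zpow, h10, h11]

theorem vecMul_T_zpow_zero (n : ℤ) (v : Fin 2 → ℤ) :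
    (v ᵥ* (ModularGroup.T ^ n : SL(2, ℤ)).1) 0 = v 0 := by
  rw [ModularGroup.coe_T_zpow]
  simp [Matrix.vecMul, Matrix.vec2_dotProduct, Matrix.vecHead]

theorem norm_eisSummand_T_zpow (k : ℤ) (n : ℤ) (v : Fin 2 → ℤ) (z : ℍ) :
    ‖eisSummand k v ((ModularGroup.T ^ n : SL(2, ℤ)) • z)‖
      = ‖eisSummand k (v ᵥ* (ModularGroup.T ^ n : SL(2, ℤ)).1) z‖ := by
  rw [eisSummand_SL2_apply, denom_T_zpow, one_zpow, one_mul]

/-- The sum of the norms of all Eisenstein summands. -/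
def eisMajorant (k : ℤ) (z : ℍ) : ℝ := ∑' v : Fin 2 → ℤ, ‖eisSummand k v z‖

/-- The sum of the norms of the Eisenstein summands with `v 0 ≠ 0`. -/
def eisTail (k : ℤ) (z : ℍ) : ℝ :=
  ∑' v : Fin 2 → ℤ, if v 0 = 0 then 0 else ‖eisSummand k v z‖

theorem eisMajorant_T_zpow (k : ℤ) (n : ℤ) (z : ℍ) :
    eisMajorant k ((ModularGroup.T ^ n : SL(2, ℤ)) • z) = eisMajorant k z := by
  unfold eisMajorant
  conv_rhs => rw [← (vecMulEquiv (ModularGroup.T ^ n)).tsum_eq]
  congr 1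
  funext v
  rw [norm_eisSummand_T_zpow]
  rfl

theorem eisTail_T_zpow (k : ℤ) (n : ℤ) (z : ℍ) :
    eisTail k ((ModularGroup.T ^ n : SL(2, ℤ)) • z) = eisTail k z := by
  unfold eisTail
  conv_rhs => rw [← (vecMulEquiv (ModularGroup.T ^ n)).tsum_eq]
  congr 1
  funext v
  simp only [vecMulEquiv, Equiv.coe_fn_mk]
  rw [norm_eisSummand_T_zpow, vecMul_T_zpow_zero]

theorem norm_wEis_le_eisMajorant {c : (Fin 2 → ℤ) → ℂ} (hc : ∀ v, ‖c v‖ ≤ 1) {k : ℤ}
    (hk : 3 ≤ k) (z : ℍ) : ‖wEis c k z‖ ≤ eisMajorant k z := by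
  unfold wEis eisMajorant
  refine (norm_tsum_le_tsum_norm (summable_norm_wEis hc hk z)).trans ?_
  exact (summable_norm_wEis hc hk z).tsum_le_tsum (fun v => norm_wsummand_le hc k v z)
    (summable_norm_eisSummand hk z)

theorem eisMajorant_le_of_mem_verticalStrip {k : ℤ} (hk : 3 ≤ k) {z : ℍ}
    (hz : z ∈ verticalStrip 1 2) :
    eisMajorant k z ≤ ∑' (x : Fin 2 → ℤ), r ⟨⟨1, 2⟩, Nat.ofNat_pos⟩ ^ (-k) * ‖x‖ ^ (-k) := by
  have hk' : (2 : ℝ) < k := by norm_cast
  unfold eisMajorant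
  apply (summable_norm_eisSummand hk _).tsum_le_tsum _
  · exact_mod_cast (summable_one_div_norm_rpow hk').mul_left <| r ⟨⟨1, 2⟩, Nat.ofNat_pos⟩ ^ (-k)
  · intro x
    simp_rw [eisSummand, norm_zpow]
    exact_mod_cast
      summand_bound_of_mem_verticalStrip (lt_trans two_pos hk').le x two_pos hz

/-- Weighted Eisenstein series are bounded at `i∞`. -/
theorem wEis_isBoundedAtImInfty {c : (Fin 2 → ℤ) → ℂ} (hc : ∀ v, ‖c v‖ ≤ 1) {k : ℤ}
    (hk : 3 ≤ k) : IsBoundedAtImInfty (wEis c k) := by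
  rw [UpperHalfPlane.isBoundedAtImInfty_iff]
  refine ⟨∑' (x : Fin 2 → ℤ), r ⟨⟨1, 2⟩, Nat.ofNat_pos⟩ ^ (-k) * ‖x‖ ^ (-k), 2, ?_⟩
  intro z hz
  obtain ⟨n, hn⟩ := (ModularGroup_T_zpow_mem_verticalStrip z (N := 1) one_pos)
  refine (norm_wEis_le_eisMajorant hc hk z).trans ?_
  have hn' : (ModularGroup.T ^ n : SL(2, ℤ)) • z ∈ verticalStrip 1 2 := by
    have h1 : (ModularGroup.T ^ (((1 : ℕ) : ℤ) * n) : SL(2, ℤ)) = ModularGroup.T ^ n := by
      simp
    rw [h1] at hn
    have := verticalStrip_anti_right ((1 : ℕ) : ℝ) hz hn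
    simpa using this
  rw [← eisMajorant_T_zpow k n z]
  exact eisMajorant_le_of_mem_verticalStrip hk hn'

/-- All slashes of weighted Eisenstein series are bounded at `i∞`. -/
theorem wEis_slash_isBoundedAtImInfty {c : (Fin 2 → ℤ) → ℂ} (hc : ∀ v, ‖c v‖ ≤ 1) {k : ℤ}
    (hk : 3 ≤ k) (γ : SL(2, ℤ)) : IsBoundedAtImInfty (wEis c k ∣[k] γ) := by
  rw [wEis_slash]
  exact wEis_isBoundedAtImInfty (fun v => hc _) hk


/-! ### The limit at `i∞` -/

theorem summable_eisTail {k : ℤ} (hk : 3 ≤ k) (z : ℍ) :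
    Summable fun v : Fin 2 → ℤ => if v 0 = 0 then 0 else ‖eisSummand k v z‖ := by
  refine (summable_norm_eisSummand hk z).of_nonneg_of_le (fun v => ?_) (fun v => ?_)
  · split_ifs
    · exact le_rfl
    · exact norm_nonneg _
  · split_ifs
    · exact norm_nonneg _
    · exact le_rfl

/-- The constant in the tail bound. -/
def tailConst (k : ℤ) : ℝ :=
  ∑' x : Fin 2 → ℤ, r ⟨⟨1, 1⟩, one_pos⟩ ^ (-((k : ℝ) - 1 / 2)) * ‖x‖ ^ (-((k : ℝ) - 1 / 2))

theorem norm_linear_ge_im {v : Fin 2 → ℤ} (hv : v 0 ≠ 0) (z : ℍ) :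
    z.im ≤ ‖(v 0 : ℂ) * (z : ℂ) + v 1‖ := by
  have h1 : |((v 0 : ℂ) * (z : ℂ) + v 1).im| ≤ ‖(v 0 : ℂ) * (z : ℂ) + v 1‖ :=
    Complex.abs_im_le_norm _
  have h2 : ((v 0 : ℂ) * (z : ℂ) + v 1).im = (v 0 : ℝ) * z.im := by
    simp
  rw [h2, abs_mul, abs_of_pos z.im_pos] at h1
  have h3 : (1 : ℝ) ≤ |(v 0 : ℝ)| := by
    have : (1 : ℤ) ≤ |v 0| := Int.one_le_abs hv
    exact_mod_cast this
  calc z.im = 1 * z.im := (one_mul _).symm
    _ ≤ |(v 0 : ℝ)| * z.im := by gcongr
    _ ≤ _ := h1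

theorem eisTail_le_of_mem_verticalStrip {k : ℤ} (hk : 3 ≤ k) {z : ℍ}
    (hz : z ∈ verticalStrip 1 1) :
    eisTail k z ≤ tailConst k * z.im ^ (-(1 / 2 : ℝ)) := by
  have hk' : (2 : ℝ) < (k : ℝ) - 1 / 2 := by
    have : (3 : ℝ) ≤ k := by exact_mod_cast hk
    linarith
  have hsum : Summable fun x : Fin 2 → ℤ =>
      r ⟨⟨1, 1⟩, one_pos⟩ ^ (-((k : ℝ) - 1 / 2)) * ‖x‖ ^ (-((k : ℝ) - 1 / 2)) :=
    (summable_one_div_norm_rpow hk').mul_left _
  unfold eisTail tailConst
  rw [← tsum_mul_right]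
  refine (summable_eisTail hk z).tsum_le_tsum (fun v => ?_) (hsum.mul_right _)
  have hy : 0 < z.im := z.im_pos
  have hrn : ∀ x : Fin 2 → ℤ, 0 ≤ r ⟨⟨1, 1⟩, one_pos⟩ ^ (-((k : ℝ) - 1 / 2))
      * ‖x‖ ^ (-((k : ℝ) - 1 / 2)) := fun x =>
    mul_nonneg (Real.rpow_nonneg (r_pos _).le _) (Real.rpow_nonneg (norm_nonneg _) _)
  split_ifs with hv
  · exact mul_nonneg (hrn v) (Real.rpow_nonneg hy.le _)
  · have hpos : 0 < ‖(v 0 : ℂ) * (z : ℂ) + v 1‖ := lt_of_lt_of_le hy (norm_linear_ge_im hv z)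
    have e1 : ‖eisSummand k v z‖ = ‖(v 0 : ℂ) * (z : ℂ) + v 1‖ ^ (-((k : ℝ) - 1 / 2))
        * ‖(v 0 : ℂ) * (z : ℂ) + v 1‖ ^ (-(1 / 2 : ℝ)) := by
      rw [← Real.rpow_add hpos, eisSummand, norm_zpow]
      have : -((k : ℝ) - 1 / 2) + -(1 / 2) = ((-k : ℤ) : ℝ) := by push_cast; ring
      rw [this, Real.rpow_intCast]
    rw [e1]
    have b1 := summand_bound_of_mem_verticalStrip (k := (k : ℝ) - 1 / 2) (by linarith) v
      one_pos hz
    have b2 : ‖(v 0 : ℂ) * (z : ℂ) + v 1‖ ^ (-(1 / 2 : ℝ)) ≤ z.im ^ (-(1 / 2 : ℝ)) :=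
      Real.rpow_le_rpow_of_nonpos hy (norm_linear_ge_im hv z) (by norm_num)
    exact mul_le_mul b1 b2 (Real.rpow_nonneg (norm_nonneg _) _) (hrn v)

theorem eisTail_le {k : ℤ} (hk : 3 ≤ k) (z : ℍ) (hz : 1 ≤ z.im) :
    eisTail k z ≤ tailConst k * z.im ^ (-(1 / 2 : ℝ)) := by
  obtain ⟨n, hn⟩ := (ModularGroup_T_zpow_mem_verticalStrip z (N := 1) one_pos)
  have h1 : (ModularGroup.T ^ (((1 : ℕ) : ℤ) * n) : SL(2, ℤ)) = ModularGroup.T ^ n := by
    simp
  rw [h1] at hn
  have hn' : (ModularGroup.T ^ n : SL(2, ℤ)) • z ∈ verticalStrip 1 1 := by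
    have := verticalStrip_anti_right ((1 : ℕ) : ℝ) hz hn
    simpa using this
  have := eisTail_le_of_mem_verticalStrip hk hn'
  rwa [eisTail_T_zpow, ModularGroup.im_T_zpow_smul] at this

/-- The value at `i∞` of a weighted Eisenstein series. -/
def wEisLimit (c : (Fin 2 → ℤ) → ℂ) (k : ℤ) : ℂ :=
  ∑' v : Fin 2 → ℤ, if v 0 = 0 then c v * ((v 1 : ℂ)) ^ (-k) else 0

theorem eisSummand_of_zero {k : ℤ} {v : Fin 2 → ℤ} (hv : v 0 = 0) (z : ℍ) :
    eisSummand k v z = ((v 1 : ℂ)) ^ (-k) := by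
  simp [eisSummand, hv]

theorem norm_wEis_sub_limit_le {c : (Fin 2 → ℤ) → ℂ} (hc : ∀ v, ‖c v‖ ≤ 1) {k : ℤ}
    (hk : 3 ≤ k) (z : ℍ) : ‖wEis c k z - wEisLimit c k‖ ≤ eisTail k z := by
  have hL : Summable fun v : Fin 2 → ℤ => if v 0 = 0 then c v * ((v 1 : ℂ)) ^ (-k) else 0 := by
    refine Summable.of_norm ?_
    refine (summable_norm_wEis hc hk z).of_nonneg_of_le (fun _ => norm_nonneg _) (fun v => ?_)
    split_ifs with hv
    · rw [eisSummand_of_zero hv]
    · rw [norm_zero]; exact norm_nonneg _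
  unfold wEis wEisLimit
  rw [← (summable_wEis hc hk z).tsum_sub hL]
  have hterm : ∀ v : Fin 2 → ℤ,
      ‖c v * eisSummand k v z - (if v 0 = 0 then c v * ((v 1 : ℂ)) ^ (-k) else 0)‖
        ≤ if v 0 = 0 then 0 else ‖eisSummand k v z‖ := by
    intro v
    split_ifs with hv
    · rw [eisSummand_of_zero hv, sub_self, norm_zero]
    · rw [sub_zero]
      exact norm_wsummand_le hc k v z
  have hs : Summable fun v : Fin 2 → ℤ =>
      ‖c v * eisSummand k v z - (if v 0 = 0 then c v * ((v 1 : ℂ)) ^ (-k) else 0)‖ :=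
    (summable_eisTail hk z).of_nonneg_of_le (fun _ => norm_nonneg _) hterm
  refine (norm_tsum_le_tsum_norm hs).trans ?_
  exact hs.tsum_le_tsum hterm (summable_eisTail hk z)

/-- Weighted Eisenstein series tend to `wEisLimit` at `i∞`. -/
theorem tendsto_wEis_atImInfty {c : (Fin 2 → ℤ) → ℂ} (hc : ∀ v, ‖c v‖ ≤ 1) {k : ℤ}
    (hk : 3 ≤ k) : Tendsto (wEis c k) atImInfty (𝓝 (wEisLimit c k)) := by
  rw [Metric.tendsto_nhds]
  intro ε hε
  rw [Filter.Eventually, UpperHalfPlane.atImInfty_mem]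
  -- choose `A` with `tailConst k * A ^ (-1/2) < ε`
  have hC : 0 ≤ tailConst k := by
    unfold tailConst
    exact tsum_nonneg fun x =>
      mul_nonneg (Real.rpow_nonneg (r_pos _).le _) (Real.rpow_nonneg (norm_nonneg _) _)
  obtain ⟨A, hA1, hA⟩ : ∃ A : ℝ, 1 ≤ A ∧ tailConst k * A ^ (-(1 / 2 : ℝ)) < ε := by
    have hlim : Tendsto (fun A : ℝ => tailConst k * A ^ (-(1 / 2 : ℝ))) atTop (𝓝 0) := by
      have := (tendsto_rpow_neg_atTop (show (0 : ℝ) < 1 / 2 by norm_num)).const_mul (tailConst k)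
      simpa using this
    have hev := (hlim.eventually (gt_mem_nhds hε)).and (eventually_ge_atTop (1 : ℝ))
    obtain ⟨A, h1, h2⟩ := hev.exists
    exact ⟨A, h2, h1⟩
  refine ⟨A, fun z hz => ?_⟩
  simp only [Set.mem_ofPred_eq, dist_eq_norm]
  have hz1 : 1 ≤ z.im := hA1.trans hz
  calc ‖wEis c k z - wEisLimit c k‖ ≤ eisTail k z := norm_wEis_sub_limit_le hc hk z
    _ ≤ tailConst k * z.im ^ (-(1 / 2 : ℝ)) := eisTail_le hk z hz1
    _ ≤ tailConst k * A ^ (-(1 / 2 : ℝ)) :=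
        mul_le_mul_of_nonneg_left
          (Real.rpow_le_rpow_of_nonpos (by linarith) hz (by norm_num)) hC
    _ < ε := hA


/-! ### Weights supported on primitive vectors -/

theorem wEisLimit_eq {c : (Fin 2 → ℤ) → ℂ} {k : ℤ}
    (hsupp : ∀ v : Fin 2 → ℤ, v 0 = 0 → c v ≠ 0 → v 1 = 1 ∨ v 1 = -1) :
    wEisLimit c k = c ![0, 1] + (-1) ^ k * c ![0, -1] := by
  unfold wEisLimit
  have hne : (![0, 1] : Fin 2 → ℤ) ≠ ![0, -1] := by
    intro h
    have := congrFun h 1
    simp at this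
  rw [tsum_eq_sum (s := {![0, 1], ![0, -1]})]
  · rw [Finset.sum_pair hne]
    simp only [Matrix.cons_val_zero, Matrix.cons_val_one, if_true]
    have h1 : ((1 : ℤ) : ℂ) ^ (-k) = 1 := by simp
    have h2 : (((-1 : ℤ)) : ℂ) ^ (-k) = (-1) ^ k := by
      push_cast
      rw [zpow_neg, ← inv_zpow]
      norm_num
    rw [h1, h2, mul_one, mul_comm]
  · intro v hv
    simp only [Finset.mem_insert, Finset.mem_singleton, not_or] at hv
    split_ifs with h0
    · by_cases hcv : c v = 0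
      · rw [hcv, zero_mul]
      · exfalso
        rcases hsupp v h0 hcv with h1 | h1
        · apply hv.1
          ext i
          fin_cases i
          · simpa using h0
          · simpa using h1
        · apply hv.2
          ext i
          fin_cases i
          · simpa using h0
          · simpa using h1
    · rfl

/-! ### Twisted Eisenstein series -/

section Twisted

variable (Γ : Subgroup SL(2, ℤ)) (χ : Γ →* ℂˣ)

/-- The bottom row of a matrix in `SL(2, ℤ)`. -/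
def botRow (γ : SL(2, ℤ)) : Fin 2 → ℤ := γ.1 1

theorem botRow_mul (α β : SL(2, ℤ)) : botRow (α * β) = botRow α ᵥ* β.1 := by
  ext j
  simp [botRow, Matrix.mul_apply, Matrix.vecMul, dotProduct]

theorem botRow_one : botRow 1 = ![0, 1] := by
  ext j
  fin_cases j <;> simp [botRow]

/-- The weight function of the twisted Eisenstein series: `χ(γ)⁻¹` on the bottom row of
`γ ∈ Γ`, zero on vectors which are not bottom rows of elements of `Γ`. -/
def twistWeight (v : Fin 2 → ℤ) : ℂ :=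
  open Classical in
  if h : ∃ γ : Γ, botRow (γ : SL(2, ℤ)) = v then ((χ h.choose)⁻¹ : ℂˣ) else 0

variable {Γ χ}

/-- `χ` is trivial on the upper unipotent elements of `Γ`. -/
def TrivialOnUnipotent (χ : Γ →* ℂˣ) : Prop :=
  ∀ γ : Γ, botRow (γ : SL(2, ℤ)) = ![0, 1] → χ γ = 1

theorem twistWeight_botRow (hχ : TrivialOnUnipotent χ) (γ : Γ) :
    twistWeight Γ χ (botRow (γ : SL(2, ℤ))) = ((χ γ)⁻¹ : ℂˣ) := by
  classical
  have h : ∃ γ' : Γ, botRow (γ' : SL(2, ℤ)) = botRow (γ : SL(2, ℤ)) := ⟨γ, rfl⟩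
  unfold twistWeight
  rw [dif_pos h]
  have hrow := h.choose_spec
  have h1 : botRow ((h.choose * γ⁻¹ : Γ) : SL(2, ℤ)) = ![0, 1] := by
    rw [Subgroup.coe_mul, botRow_mul, hrow, ← botRow_mul, Subgroup.coe_inv, mul_inv_cancel,
      botRow_one]
  have h2 := hχ _ h1
  rw [map_mul, map_inv, mul_inv_eq_one] at h2
  rw [h2]

theorem twistWeight_of_not (v : Fin 2 → ℤ) (h : ¬ ∃ γ : Γ, botRow (γ : SL(2, ℤ)) = v) :
    twistWeight Γ χ v = 0 := by
  classical
  unfold twistWeight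
  rw [dif_neg h]

theorem twistWeight_vecMul_inv (hχ : TrivialOnUnipotent χ) (δ : Γ) (v : Fin 2 → ℤ) :
    twistWeight Γ χ (v ᵥ* ((δ : SL(2, ℤ))⁻¹).1) = (χ δ : ℂ) * twistWeight Γ χ v := by
  by_cases h : ∃ γ : Γ, botRow (γ : SL(2, ℤ)) = v
  · obtain ⟨γ, rfl⟩ := h
    have : botRow (γ : SL(2, ℤ)) ᵥ* ((δ : SL(2, ℤ))⁻¹).1 = botRow ((γ * δ⁻¹ : Γ) : SL(2, ℤ)) := by
      rw [Subgroup.coe_mul, botRow_mul, Subgroup.coe_inv]
    rw [this, twistWeight_botRow hχ, twistWeight_botRow hχ, map_mul, map_inv, mul_inv, inv_inv,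
      Units.val_mul, mul_comm]
  · have h' : ¬ ∃ γ : Γ, botRow (γ : SL(2, ℤ)) = v ᵥ* ((δ : SL(2, ℤ))⁻¹).1 := by
      rintro ⟨γ, hγ⟩
      apply h
      refine ⟨γ * δ, ?_⟩
      rw [Subgroup.coe_mul, botRow_mul, hγ, Matrix.vecMul_vecMul,
        ← Matrix.SpecialLinearGroup.coe_mul, inv_mul_cancel, Matrix.SpecialLinearGroup.coe_one,
        Matrix.vecMul_one]
    rw [twistWeight_of_not _ h, twistWeight_of_not _ h', mul_zero]

theorem norm_twistWeight_le (hχ : TrivialOnUnipotent χ) (hnorm : ∀ γ : Γ, ‖(χ γ : ℂ)‖ = 1)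
    (v : Fin 2 → ℤ) : ‖twistWeight Γ χ v‖ ≤ 1 := by
  by_cases h : ∃ γ : Γ, botRow (γ : SL(2, ℤ)) = v
  · obtain ⟨γ, rfl⟩ := h
    rw [twistWeight_botRow hχ, Units.val_inv_eq_inv_val, norm_inv, hnorm, inv_one]
  · rw [twistWeight_of_not _ h, norm_zero]
    exact zero_le_one

variable (Γ χ) in
/-- The twisted Eisenstein series `E_k^χ(z) = ∑_{v bottom row of γ ∈ Γ} χ(γ)⁻¹ (v₀ z + v₁)^{-k}`. -/
def twistedEis (k : ℤ) : ℍ → ℂ := wEis (twistWeight Γ χ) k

theorem twistedEis_slash (hχ : TrivialOnUnipotent χ) (k : ℤ) (δ : Γ) :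
    twistedEis Γ χ k ∣[k] (δ : SL(2, ℤ)) = (χ δ : ℂ) • twistedEis Γ χ k := by
  unfold twistedEis
  rw [wEis_slash]
  ext z
  simp only [wEis, Pi.smul_apply, smul_eq_mul]
  rw [← tsum_mul_left]
  congr 1
  funext v
  rw [twistWeight_vecMul_inv hχ, mul_assoc]

theorem twistedEis_mdifferentiable (hχ : TrivialOnUnipotent χ)
    (hnorm : ∀ γ : Γ, ‖(χ γ : ℂ)‖ = 1) {k : ℤ} (hk : 3 ≤ k) : MDiff (twistedEis Γ χ k) :=
  wEis_mdifferentiable (norm_twistWeight_le hχ hnorm) hk

theorem twistedEis_slash_isBoundedAtImInfty (hχ : TrivialOnUnipotent χ)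
    (hnorm : ∀ γ : Γ, ‖(χ γ : ℂ)‖ = 1) {k : ℤ} (hk : 3 ≤ k) (g : SL(2, ℤ)) :
    IsBoundedAtImInfty (twistedEis Γ χ k ∣[k] g) :=
  wEis_slash_isBoundedAtImInfty (norm_twistWeight_le hχ hnorm) hk g

theorem twistWeight_supp (v : Fin 2 → ℤ) (h0 : v 0 = 0) (hv : twistWeight Γ χ v ≠ 0) :
    v 1 = 1 ∨ v 1 = -1 := by
  by_cases h : ∃ γ : Γ, botRow (γ : SL(2, ℤ)) = v
  · obtain ⟨γ, rfl⟩ := h
    have hdet := (γ : SL(2, ℤ)).det_coe
    rw [Matrix.det_fin_two] at hdet
    have h10 : (γ : SL(2, ℤ)).1 1 0 = 0 := h0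
    rw [h10, mul_zero, sub_zero] at hdet
    exact Int.eq_one_or_neg_one_of_mul_eq_one' hdet |>.imp (fun h => h.2) (fun h => h.2)
  · exact absurd (twistWeight_of_not _ h) hv

/-- The limit of the twisted Eisenstein series at `i∞`. -/
theorem tendsto_twistedEis (hχ : TrivialOnUnipotent χ)
    (hnorm : ∀ γ : Γ, ‖(χ γ : ℂ)‖ = 1) {k : ℤ} (hk : 3 ≤ k) :
    Tendsto (twistedEis Γ χ k) atImInfty
      (𝓝 (1 + (-1) ^ k * twistWeight Γ χ ![0, -1])) := by
  have h := tendsto_wEis_atImInfty (norm_twistWeight_le hχ hnorm) hk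
  rw [wEisLimit_eq (fun v h0 hv => twistWeight_supp v h0 hv)] at h
  have h1 : twistWeight Γ χ ![0, 1] = 1 := by
    have := twistWeight_botRow hχ (1 : Γ)
    rw [Subgroup.coe_one, botRow_one, map_one, inv_one, Units.val_one] at this
    exact this
  rwa [h1] at h

/-- If `-1 ∈ Γ`, `χ(-1) = 1` and `k` is even, the twisted Eisenstein series tends to `2` at
`i∞`. -/
theorem tendsto_twistedEis_two (hχ : TrivialOnUnipotent χ)
    (hnorm : ∀ γ : Γ, ‖(χ γ : ℂ)‖ = 1) {k : ℤ} (hk : 3 ≤ k) (hk2 : Even k)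
    (hneg : (-1 : SL(2, ℤ)) ∈ Γ) (hχneg : χ ⟨-1, hneg⟩ = 1) :
    Tendsto (twistedEis Γ χ k) atImInfty (𝓝 2) := by
  have h := tendsto_twistedEis hχ hnorm hk
  have h1 : twistWeight Γ χ ![0, -1] = 1 := by
    have := twistWeight_botRow hχ (⟨-1, hneg⟩ : Γ)
    have hb : botRow ((⟨-1, hneg⟩ : Γ) : SL(2, ℤ)) = ![0, -1] := by
      ext j
      fin_cases j <;> simp [botRow]
    rw [hb, hχneg, inv_one, Units.val_one] at this
    exact this
  rw [h1, hk2.neg_one_zpow, mul_one] at h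
  norm_num at h
  exact h

end Twisted

end Fermat.Agent.S29.H332

end
end
-- ===== PACK-END S29/H332/WeightedEis.lean

-- ===== PACK-BEGIN S24/D5/H108Poly.lean
section


/-!
# D5: level-one modular functions are polynomials in `J = E₄³ / Δ`

Mathlib-only.  Main results (namespace `Fermat.Agent.S24.H108`):

* `modularForm_eq_discriminant_pow_mul_eval` : every `g : ModularForm 𝒮ℒ (12 * m)` is
  `Δ ^ m * P (E₄³ / Δ)` for a polynomial `P` of degree `≤ m`.
* `exists_polynomial_of_invariant` : an `SL(2,ℤ)`-invariant holomorphic `f : ℍ → ℂ` with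
  `f * Δ ^ m` bounded at `i∞` is `P (E₄³ / Δ)` for a polynomial `P` of degree `≤ m`.
-/

noncomputable section

open UpperHalfPlane ModularForm SlashInvariantForm SlashInvariantFormClass ModularFormClass
  CuspFormClass MatrixGroups OnePoint Filter EisensteinSeries Asymptotics

open scoped Topology Manifold

namespace Fermat.Agent.S24.H108

local notation "Δ" => ModularForm.discriminant

/-- The (un-normalised) `J`-function `E₄³ / Δ` on the upper half plane. -/
def jFun (τ : ℍ) : ℂ := E₄ τ ^ 3 / Δ τ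

lemma jFun_def (τ : ℍ) : jFun τ = E₄ τ ^ 3 / Δ τ := rfl

/-- `E₄ ^ (3 * m)` as a modular form of weight `12 * m`. -/
def e4Pow (m : ℕ) : ModularForm 𝒮ℒ (12 * (m : ℤ)) :=
  ModularForm.mcast (by push_cast; ring) (E₄.pow (3 * m))

lemma e4Pow_coe (m : ℕ) : (e4Pow m : ℍ → ℂ) = (E₄.pow (3 * m) : ℍ → ℂ) := by
  simp [e4Pow, coe_mcast]

lemma e4Pow_apply (m : ℕ) (τ : ℍ) : e4Pow m τ = E₄ τ ^ (3 * m) := by
  rw [e4Pow_coe, coe_pow, Pi.pow_apply]

lemma e4Pow_qExpansion_coeff_zero (m : ℕ) : (qExpansion 1 (e4Pow m)).coeff 0 = 1 := by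
  rw [e4Pow_coe, ModularForm.qExpansion_pow one_pos one_mem_strictPeriods_SL]
  have h1 : (qExpansion 1 E₄).coeff 0 = 1 := E_qExpansion_coeff_zero _ ⟨2, rfl⟩
  rw [PowerSeries.coeff_zero_eq_constantCoeff_apply] at h1 ⊢
  rw [map_pow, h1, one_pow]

/-- Core statement: every level one modular form of weight `12 * m` is `Δ ^ m` times a
polynomial of degree `≤ m` in `E₄³ / Δ`. -/
theorem modularForm_eq_discriminant_pow_mul_eval (m : ℕ) (g : ModularForm 𝒮ℒ (12 * (m : ℤ))) :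
    ∃ P : Polynomial ℂ, P.natDegree ≤ m ∧ ∀ τ : ℍ, g τ = Δ τ ^ m * P.eval (jFun τ) := by
  induction m with
  | zero =>
    obtain ⟨c, hc⟩ := ModularFormClass.levelOne_weight_zero_const
      (ModularForm.mcast (show (12 * ((0 : ℕ) : ℤ)) = 0 by simp) g)
    refine ⟨Polynomial.C c, by simp, fun τ => ?_⟩
    have := congrFun hc τ
    simpa [coe_mcast] using this
  | succ m ih =>
    set c : ℂ := (qExpansion 1 g).coeff 0 with hc
    -- h = g - c • E₄^(3(m+1)) has vanishing constant term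
    set h : ModularForm 𝒮ℒ (12 * ((m + 1 : ℕ) : ℤ)) := g - c • e4Pow (m + 1) with hh
    have hcoeff : (qExpansion 1 h).coeff 0 = 0 := by
      have : (h : ℍ → ℂ) = (g : ℍ → ℂ) - ((c • e4Pow (m + 1) : ModularForm 𝒮ℒ _) : ℍ → ℂ) := rfl
      rw [this, ModularForm.qExpansion_sub one_pos one_mem_strictPeriods_SL]
      have h2 : ((c • e4Pow (m + 1) : ModularForm 𝒮ℒ _) : ℍ → ℂ) = c • (e4Pow (m + 1) : ℍ → ℂ) :=
        rfl
      rw [h2, ModularForm.qExpansion_smul one_pos one_mem_strictPeriods_SL, map_sub,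
        PowerSeries.coeff_smul, e4Pow_qExpansion_coeff_zero, smul_eq_mul, mul_one, sub_self]
    -- divide by Δ
    set h' : ModularForm 𝒮ℒ (12 * ((m + 1 : ℕ) : ℤ) - 12) :=
      CuspForm.discriminantEquiv (toCuspForm h hcoeff) with hh'
    obtain ⟨P', hP'deg, hP'⟩ := ih (ModularForm.mcast (by push_cast; ring) h')
    refine ⟨Polynomial.C c * Polynomial.X ^ (m + 1) + P', ?_, fun τ => ?_⟩
    · refine (Polynomial.natDegree_add_le _ _).trans (max_le ?_ (hP'deg.trans (Nat.le_succ m)))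
      exact (Polynomial.natDegree_C_mul_le _ _).trans (Polynomial.natDegree_X_pow_le _)
    · have hΔ : Δ τ ≠ 0 := discriminant_ne_zero τ
      have e1 : Δ τ * h' τ = h τ :=
        discriminant_mul_discriminantEquiv_apply (toCuspForm h hcoeff) τ
      have e2 : h' τ = Δ τ ^ m * P'.eval (jFun τ) := by
        have := hP' τ
        simpa [coe_mcast] using this
      have e3 : h τ = g τ - c * E₄ τ ^ (3 * (m + 1)) := by
        rw [← e4Pow_apply]; rfl
      have hJ : Δ τ ^ (m + 1) * jFun τ ^ (m + 1) = E₄ τ ^ (3 * (m + 1)) := by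
        rw [← mul_pow, jFun_def, mul_div_cancel₀ _ hΔ, ← pow_mul]
      simp only [Polynomial.eval_add, Polynomial.eval_mul, Polynomial.eval_C, Polynomial.eval_pow,
        Polynomial.eval_X]
      rw [e2] at e1
      linear_combination -e3 - e1 - c * hJ

/-! ### From invariant functions to modular forms -/

/-- `Δ ^ m` as a modular form of weight `12 * m`. -/
def deltaPow (m : ℕ) : ModularForm 𝒮ℒ (12 * (m : ℤ)) :=
  ModularForm.mcast (by ring)
    ((ModularFormClass.modularForm CuspForm.discriminant).pow m)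

lemma deltaPow_coe (m : ℕ) : (deltaPow m : ℍ → ℂ) = fun τ => Δ τ ^ m := by
  ext τ
  simp [deltaPow, coe_mcast, coe_pow]

lemma deltaPow_apply (m : ℕ) (τ : ℍ) : deltaPow m τ = Δ τ ^ m := by
  rw [deltaPow_coe]

/-- A function invariant under `SL(2,ℤ)` is weight-0 slash invariant. -/
lemma slash_zero_eq_of_invariant {f : ℍ → ℂ}
    (hinv : ∀ (γ : SL(2, ℤ)) (τ : ℍ), f (γ • τ) = f τ) (γ : SL(2, ℤ)) :
    f ∣[(0 : ℤ)] γ = f := by
  ext τ
  rw [SL_slash_apply, hinv]
  simp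

lemma mul_deltaPow_slash {f : ℍ → ℂ}
    (hinv : ∀ (γ : SL(2, ℤ)) (τ : ℍ), f (γ • τ) = f τ) (m : ℕ) (γ : SL(2, ℤ)) :
    (fun τ => f τ * Δ τ ^ m) ∣[(12 * (m : ℤ))] γ = fun τ => f τ * Δ τ ^ m := by
  have h1 : (fun τ => f τ * Δ τ ^ m) = f * (deltaPow m : ℍ → ℂ) := by
    ext τ; simp [deltaPow_apply]
  have h2 := mul_slash_SL2 0 (12 * (m : ℤ)) γ f (deltaPow m)
  rw [zero_add] at h2
  have hγ : (γ : GL (Fin 2) ℝ) ∈ 𝒮ℒ := ⟨γ, rfl⟩
  have h3 : (deltaPow m : ℍ → ℂ) ∣[(12 * (m : ℤ))] γ = deltaPow m := by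
    rw [SL_slash]
    exact slash_action_eqn (deltaPow m) _ hγ
  rw [h1, h2, slash_zero_eq_of_invariant hinv, h3]

/-- An `SL(2,ℤ)`-invariant holomorphic function `f` with `f * Δ ^ m` bounded at `i∞`
gives the modular form `f * Δ ^ m` of weight `12 * m`. -/
def ofInvariant (f : ℍ → ℂ) (hf : MDiff f)
    (hinv : ∀ (γ : SL(2, ℤ)) (τ : ℍ), f (γ • τ) = f τ) (m : ℕ)
    (hbd : IsBoundedAtImInfty (fun τ => f τ * Δ τ ^ m)) : ModularForm 𝒮ℒ (12 * (m : ℤ)) where
  toFun τ := f τ * Δ τ ^ m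
  slash_action_eq' := fun _ ⟨γ, hγ⟩ => hγ ▸ mul_deltaPow_slash hinv m γ
  holo' := by
    have h1 : (fun τ => f τ * Δ τ ^ m) = f * (deltaPow m : ℍ → ℂ) := by
      ext τ; simp [deltaPow_apply]
    change MDiff (fun τ => f τ * Δ τ ^ m)
    rw [h1]
    exact hf.mul (ModularFormClass.holo (deltaPow m))
  bdd_at_cusps' {c} hc := by
    rw [Subgroup.IsArithmetic.isCusp_iff_isCusp_SL2Z] at hc
    rw [isBoundedAt_iff_forall_SL2Z hc]
    intro γ _
    rw [mul_deltaPow_slash hinv m γ]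
    exact hbd

lemma ofInvariant_apply (f : ℍ → ℂ) (hf : MDiff f)
    (hinv : ∀ (γ : SL(2, ℤ)) (τ : ℍ), f (γ • τ) = f τ) (m : ℕ)
    (hbd : IsBoundedAtImInfty (fun τ => f τ * Δ τ ^ m)) (τ : ℍ) :
    ofInvariant f hf hinv m hbd τ = f τ * Δ τ ^ m := rfl

/-- **D5a.** An `SL(2,ℤ)`-invariant holomorphic function `f : ℍ → ℂ` such that `f * Δ ^ m` is
bounded at `i∞` is a polynomial of degree `≤ m` in `J = E₄³ / Δ`. -/
theorem exists_polynomial_of_invariant (f : ℍ → ℂ) (hf : MDiff f)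
    (hinv : ∀ (γ : SL(2, ℤ)) (τ : ℍ), f (γ • τ) = f τ) (m : ℕ)
    (hbd : IsBoundedAtImInfty (fun τ => f τ * Δ τ ^ m)) :
    ∃ P : Polynomial ℂ, P.natDegree ≤ m ∧ ∀ τ : ℍ, f τ = P.eval (E₄ τ ^ 3 / Δ τ) := by
  obtain ⟨P, hdeg, hP⟩ :=
    modularForm_eq_discriminant_pow_mul_eval m (ofInvariant f hf hinv m hbd)
  refine ⟨P, hdeg, fun τ => ?_⟩
  have h := hP τ
  rw [ofInvariant_apply, mul_comm] at h
  exact mul_left_cancel₀ (pow_ne_zero m (discriminant_ne_zero τ)) h

end Fermat.Agent.S24.H108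

end
end
-- ===== PACK-END S24/D5/H108Poly.lean

-- ===== PACK-BEGIN S24/H864/FF3a.lean
section



/-!
# S24 / ALG / FF1+FF3 (part a): the Dedekind domain `B = integralClosure K[t] F`
-/

set_option autoImplicit false

noncomputable section

open AlgebraicCurve IntermediateField IsDedekindDomain

namespace Fermat.Agent.S24.H864

variable {K F : Type*} [Field K] [Field F] [Algebra K F]

section Setup

variable (K) (t : F)

/-- `K[t] ⊆ F`. -/
abbrev polyRing : Subalgebra K F := Algebra.adjoin K {t}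

/-- the element `t` of `K[t]` -/
def tR : polyRing K t := ⟨t, Algebra.self_mem_adjoin_singleton K t⟩

/-- `K[X] ≃ K[t]` for transcendental `t`. -/
def polyEquiv (ht : Transcendental K t) : Polynomial K ≃ₐ[K] polyRing K t :=
  (AlgEquiv.ofInjective (Polynomial.aeval t) (transcendental_iff_injective.mp ht)).trans
    (Subalgebra.equivOfEq _ _ (Algebra.adjoin_singleton_eq_range_aeval K t).symm)

theorem polyEquiv_apply_coe (ht : Transcendental K t) (P : Polynomial K) :
    ((polyEquiv K t ht P : polyRing K t) : F) = Polynomial.aeval t P := rfl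

theorem polyEquiv_X (ht : Transcendental K t) : polyEquiv K t ht Polynomial.X = tR K t := by
  apply Subtype.ext
  rw [polyEquiv_apply_coe, Polynomial.aeval_X]
  rfl

end Setup

end Fermat.Agent.S24.H864

end
end
-- ===== PACK-END S24/H864/FF3a.lean

-- ===== PACK-BEGIN S29/H152/DescEchelon.lean
section
/-
S29 / DESC (helper152) — part 2: the "echelon" lemma.

A nonzero `C`-subspace `W` of `C((q))` whose nonzero elements have bounded order, stable under a
set `H` of coefficientwise ring endomorphisms, contains a nonzero vector fixed by all of `H`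
(the vector of maximal order, normalised to leading coefficient `1`).
-/



set_option autoImplicit false

namespace Fermat.Agent.S29.H152

open ModularCurve

variable {C : Type*} [Field C]

theorem descEchelon_exists_fixed (W : Submodule C (LaurentSeries C))
    (hW : ∃ v ∈ W, v ≠ 0) (B : ℤ) (hB : ∀ v ∈ W, v ≠ 0 → v.order ≤ B)
    (H : Set (C →+* C)) (hH : ∀ σ ∈ H, ∀ v ∈ W, coeffMap σ v ∈ W) :
    ∃ v ∈ W, v ≠ 0 ∧ ∀ σ ∈ H, coeffMap σ v = v := by
  classical
  -- maximal order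
  obtain ⟨s, ⟨v₁, hv₁W, hv₁0, hv₁s⟩, hmax⟩ :=
    Int.exists_greatest_of_bdd (P := fun n : ℤ => ∃ v ∈ W, v ≠ 0 ∧ v.order = n)
      ⟨B, fun z ⟨v, hvW, hv0, hvz⟩ => hvz ▸ hB v hvW hv0⟩
      (by obtain ⟨v, hvW, hv0⟩ := hW; exact ⟨v.order, v, hvW, hv0, rfl⟩)
  have hc : v₁.coeff s ≠ 0 := by
    rw [← hv₁s]
    exact fun h => hv₁0 (HahnSeries.coeff_order_eq_zero.mp h)
  set v : LaurentSeries C := (v₁.coeff s)⁻¹ • v₁ with hv
  have hvW : v ∈ W := W.smul_mem _ hv₁W
  have hvs : v.coeff s = 1 := by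
    rw [hv, HahnSeries.coeff_smul, smul_eq_mul, inv_mul_cancel₀ hc]
  have hvlt : ∀ k < s, v.coeff k = 0 := by
    intro k hk
    have h0 : v₁.coeff k = 0 := HahnSeries.coeff_eq_zero_of_lt_order (by rw [hv₁s]; exact hk)
    rw [hv, HahnSeries.coeff_smul, h0, smul_zero]
  have hv0 : v ≠ 0 := by
    intro h
    rw [h] at hvs
    simp at hvs
  refine ⟨v, hvW, hv0, fun σ hσ => ?_⟩
  by_contra hne
  have hd0 : coeffMap σ v - v ≠ 0 := sub_ne_zero.mpr hne
  have hdW : coeffMap σ v - v ∈ W := W.sub_mem (hH σ hσ v hvW) hvW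
  have hle : (coeffMap σ v - v).order ≤ s := hmax _ ⟨_, hdW, hd0, rfl⟩
  have hcoeff : ∀ k ≤ s, (coeffMap σ v - v).coeff k = 0 := by
    intro k hk
    rw [HahnSeries.coeff_sub, coeffMap_coeff]
    rcases hk.lt_or_eq with h | h
    · rw [hvlt k h, map_zero, sub_zero]
    · rw [h, hvs, map_one, sub_self]
  exact hd0 (HahnSeries.coeff_order_eq_zero.mp (hcoeff _ hle))

end Fermat.Agent.S29.H152

end
-- ===== PACK-END S29/H152/DescEchelon.lean

-- ===== PACK-BEGIN S29/H152/DescLin.lean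
section
/-
S29 / DESC (helper152) — part 4: linear disjointness of `Ω` and `K((q))` over `K`.

* `descLin μ` : coefficientwise application of a `K`-linear functional `μ : Ω → K`,
  `descLin μ (ι z * y) = z * descLin μ y`.
* `descLin_mem_of_coeffMap_mem` : `x ∈ K((q))` with `ι x ∈ Ω·F₀` lies in `K·F₀`
  (`laurentBaseChange Ω F₀ ∩ K((q)) = laurentBaseChange K F₀`).
* `descLin_exists_preimage` : a series all of whose coefficients lie in `K` comes from `K((q))`.
-/



set_option autoImplicit false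

namespace Fermat.Agent.S29.H152

open ModularCurve

variable {K Ω : Type*} [Field K] [Field Ω] [Algebra K Ω]

/-- Coefficientwise application of a `K`-linear functional. -/
noncomputable def descLin (μ : Ω →ₗ[K] K) (y : LaurentSeries Ω) : LaurentSeries K :=
  y.map μ

@[simp]
theorem descLin_coeff (μ : Ω →ₗ[K] K) (y : LaurentSeries Ω) (k : ℤ) :
    (descLin μ y).coeff k = μ (y.coeff k) := rfl

theorem descLin_add (μ : Ω →ₗ[K] K) (y z : LaurentSeries Ω) :
    descLin μ (y + z) = descLin μ y + descLin μ z := by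
  ext k
  simp

theorem descLin_zero (μ : Ω →ₗ[K] K) : descLin μ (0 : LaurentSeries Ω) = 0 := by
  ext k
  simp

theorem descLin_support_subset (μ : Ω →ₗ[K] K) (y : LaurentSeries Ω) :
    (descLin μ y).support ⊆ y.support := by
  intro k hk
  rw [HahnSeries.mem_support] at hk ⊢
  intro h
  apply hk
  rw [descLin_coeff, h, map_zero]

theorem descLin_coeffMap_support_subset {R S : Type*} [CommRing R] [CommRing S] (φ : R →+* S)
    (z : LaurentSeries R) : (coeffMap φ z).support ⊆ z.support := by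
  intro k hk
  rw [HahnSeries.mem_support] at hk ⊢
  intro h
  apply hk
  rw [coeffMap_coeff, h, map_zero]

/-- `descLin μ` is `K((q))`-linear. -/
theorem descLin_coeffMap_mul (μ : Ω →ₗ[K] K) (z : LaurentSeries K) (y : LaurentSeries Ω) :
    descLin μ (coeffMap (algebraMap K Ω) z * y) = z * descLin μ y := by
  ext n
  rw [descLin_coeff,
    HahnSeries.coeff_mul_left' z.isPWO_support (descLin_coeffMap_support_subset _ z),
    HahnSeries.coeff_mul_right' y.isPWO_support (descLin_support_subset μ y), map_sum]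
  refine Finset.sum_congr rfl fun ij _ => ?_
  rw [coeffMap_coeff, descLin_coeff, ← Algebra.smul_def, map_smul, smul_eq_mul]

/-- Constants. -/
theorem descLin_algebraMap (μ : Ω →ₗ[K] K) (c : Ω) :
    descLin μ (algebraMap Ω (LaurentSeries Ω) c) = algebraMap K (LaurentSeries K) (μ c) := by
  rw [algebraMap_laurentSeries_eq_single, algebraMap_laurentSeries_eq_single]
  ext k
  rw [descLin_coeff]
  rcases eq_or_ne k 0 with rfl | hk
  · simp [HahnSeries.coeff_single_same]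
  · simp [HahnSeries.coeff_single_of_ne hk]

/-- A series whose coefficients all lie in `K` comes from `K((q))`. -/
theorem descLin_exists_preimage (v : LaurentSeries Ω)
    (hv : ∀ k, v.coeff k ∈ Set.range (algebraMap K Ω)) :
    ∃ v' : LaurentSeries K, coeffMap (algebraMap K Ω) v' = v := by
  obtain ⟨μ, hμ⟩ := LinearMap.exists_leftInverse_of_injective (Algebra.linearMap K Ω)
    (LinearMap.ker_eq_bot.mpr (algebraMap K Ω).injective)
  refine ⟨descLin μ v, ?_⟩
  ext k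
  rw [coeffMap_coeff, descLin_coeff]
  obtain ⟨c, hc⟩ := hv k
  rw [← hc]
  congr 1
  exact LinearMap.congr_fun hμ c

section LD

variable [Algebra ℚ K] [Algebra ℚ Ω]

theorem descLin_coeffEmb (y : LaurentSeries ℚ) :
    coeffMap (algebraMap K Ω) (coeffEmb K y) = coeffEmb Ω y := by
  rw [coeffEmb, coeffEmb, coeffMap_coeffMap]
  exact coeffMap_congr (RingHom.ext_rat _ _) y

variable (F₀ : IntermediateField ℚ (LaurentSeries ℚ))

/-- The image of `F₀` in `L((q))` as a submonoid. -/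
theorem descLin_closure_image (L : Type*) [Field L] [Algebra ℚ L] :
    (Submonoid.closure (⇑(coeffEmb L) '' (F₀ : Set (LaurentSeries ℚ))) : Set (LaurentSeries L))
      = ⇑(coeffEmb L) '' (F₀ : Set (LaurentSeries ℚ)) := by
  have : (⇑(coeffEmb L) '' (F₀ : Set (LaurentSeries ℚ)))
      = ((F₀.toSubfield.toSubring.toSubmonoid.map (coeffEmb L : _ →* _) :
          Submonoid (LaurentSeries L)) : Set (LaurentSeries L)) := rfl
  rw [this, Submonoid.closure_eq]

omit [Algebra ℚ K] [Algebra ℚ Ω] in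
/-- Multiplying by a constant inside a functional. -/
theorem descLin_algebraMap_mul (μ : Ω →ₗ[K] K) (c : Ω) (x : LaurentSeries Ω) :
    descLin μ (algebraMap Ω (LaurentSeries Ω) c * x)
      = descLin (μ.comp (LinearMap.mulLeft K c)) x := by
  ext k
  rw [descLin_coeff, descLin_coeff, algebraMap_laurentSeries_eq_single,
    HahnSeries.coeff_single_zero_mul]
  rfl

/-- Every functional maps `Ω[F₀]` into `K[F₀]`. -/
theorem descLin_mem_adjoin (μ : Ω →ₗ[K] K) {a : LaurentSeries Ω}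
    (ha : a ∈ Algebra.adjoin Ω (⇑(coeffEmb Ω) '' (F₀ : Set (LaurentSeries ℚ)))) :
    descLin μ a ∈ Algebra.adjoin K (⇑(coeffEmb K) '' (F₀ : Set (LaurentSeries ℚ))) := by
  have ha' : a ∈ Subalgebra.toSubmodule
      (Algebra.adjoin Ω (⇑(coeffEmb Ω) '' (F₀ : Set (LaurentSeries ℚ)))) := ha
  rw [Algebra.adjoin_eq_span, descLin_closure_image] at ha'
  clear ha
  revert μ
  induction ha' using Submodule.span_induction with
  | mem x hx =>
    intro μ
    obtain ⟨y, hy, rfl⟩ := hx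
    have h1 : coeffEmb Ω y = coeffMap (algebraMap K Ω) (coeffEmb K y) * algebraMap Ω _ 1 := by
      rw [map_one, mul_one, descLin_coeffEmb]
    rw [h1, descLin_coeffMap_mul, descLin_algebraMap]
    exact Subalgebra.mul_mem _ (Algebra.subset_adjoin ⟨y, hy, rfl⟩) (Subalgebra.algebraMap_mem _ _)
  | zero =>
    intro μ
    rw [descLin_zero]
    exact Subalgebra.zero_mem _
  | add x y _ _ hx hy =>
    intro μ
    rw [descLin_add]
    exact Subalgebra.add_mem _ (hx μ) (hy μ)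
  | smul c x _ hx =>
    intro μ
    rw [Algebra.smul_def, descLin_algebraMap_mul]
    exact hx _

/-- **Linear disjointness**: `Ω·F₀ ∩ K((q)) = K·F₀`. -/
theorem descLin_mem_of_coeffMap_mem (x : LaurentSeries K)
    (hx : coeffMap (algebraMap K Ω) x ∈ laurentBaseChange Ω F₀) :
    x ∈ laurentBaseChange K F₀ := by
  rw [laurentBaseChange, IntermediateField.mem_adjoin_iff_div] at hx
  obtain ⟨r, hr, s, hs, hrs⟩ := hx
  by_cases hs0 : s = 0
  · rw [hs0, div_zero] at hrs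
    have hx0 : x = 0 := by
      ext k
      have := congrArg (fun y => HahnSeries.coeff y k) hrs
      simp only [coeffMap_coeff, HahnSeries.coeff_zero] at this
      rw [HahnSeries.coeff_zero]
      exact (map_eq_zero (algebraMap K Ω)).mp this
    rw [hx0]
    exact zero_mem _
  · have hmul : coeffMap (algebraMap K Ω) x * s = r := by
      rw [hrs, div_mul_cancel₀ _ hs0]
    obtain ⟨n₀, hn₀⟩ : ∃ n₀, s.coeff n₀ ≠ 0 := by
      by_contra h
      push Not at h
      exact hs0 (HahnSeries.ext (funext h))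
    obtain ⟨μ, hμ⟩ : ∃ μ : Ω →ₗ[K] K, μ (s.coeff n₀) ≠ 0 := by
      by_contra h
      push Not at h
      exact hn₀ ((Module.forall_dual_apply_eq_zero_iff K (s.coeff n₀)).mp h)
    have hΛs : descLin μ s ≠ 0 := by
      intro h
      apply hμ
      have := congrArg (fun y => HahnSeries.coeff y n₀) h
      simpa using this
    have hrel : x * descLin μ s = descLin μ r := by
      rw [← descLin_coeffMap_mul, hmul]
    have hx' : x = descLin μ r / descLin μ s := by
      rw [← hrel, mul_div_cancel_right₀ _ hΛs]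
    rw [hx', laurentBaseChange]
    exact div_mem (IntermediateField.algebra_adjoin_le_adjoin K _ (descLin_mem_adjoin F₀ μ hr))
      (IntermediateField.algebra_adjoin_le_adjoin K _ (descLin_mem_adjoin F₀ μ hs))

end LD

end Fermat.Agent.S29.H152

end
-- ===== PACK-END S29/H152/DescLin.lean

-- ===== PACK-BEGIN S29/H152/DescStab.lean
section
/-
S29 / DESC (helper152) — part 5: the coefficientwise action of `Aut(Ω/K)` on `Ω((q))`, the
stabiliser of a Kummer class and its finite index.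
-/



set_option autoImplicit false

namespace Fermat.Agent.S29.H152

open ModularCurve

variable {K Ω : Type*} [Field K] [Field Ω] [Algebra K Ω]

/-- The coefficientwise action of `σ ∈ Aut(Ω/K)` on Laurent series. -/
noncomputable def descSig (σ : Ω ≃ₐ[K] Ω) : LaurentSeries Ω →+* LaurentSeries Ω :=
  coeffMap (σ : Ω →+* Ω)

theorem descSig_def (σ : Ω ≃ₐ[K] Ω) (x : LaurentSeries Ω) :
    descSig σ x = coeffMap (σ : Ω →+* Ω) x := rfl

@[simp]
theorem descSig_coeff (σ : Ω ≃ₐ[K] Ω) (x : LaurentSeries Ω) (k : ℤ) :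
    (descSig σ x).coeff k = σ (x.coeff k) := rfl

@[simp]
theorem descSig_one (x : LaurentSeries Ω) : descSig (1 : Ω ≃ₐ[K] Ω) x = x := by
  ext k
  simp

theorem descSig_mul (σ τ : Ω ≃ₐ[K] Ω) (x : LaurentSeries Ω) :
    descSig (σ * τ) x = descSig σ (descSig τ x) := by
  ext k
  simp

@[simp]
theorem descSig_inv_apply (σ : Ω ≃ₐ[K] Ω) (x : LaurentSeries Ω) :
    descSig σ⁻¹ (descSig σ x) = x := by
  rw [← descSig_mul, inv_mul_cancel, descSig_one]

@[simp]
theorem descSig_apply_inv (σ : Ω ≃ₐ[K] Ω) (x : LaurentSeries Ω) :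
    descSig σ (descSig σ⁻¹ x) = x := by
  rw [← descSig_mul, mul_inv_cancel, descSig_one]

theorem descSig_injective (σ : Ω ≃ₐ[K] Ω) : Function.Injective (descSig σ) :=
  Function.LeftInverse.injective (descSig_inv_apply σ)

theorem descSig_algebraMap (σ : Ω ≃ₐ[K] Ω) (c : Ω) :
    descSig σ (algebraMap Ω (LaurentSeries Ω) c) = algebraMap Ω (LaurentSeries Ω) (σ c) :=
  coeffMap_algebraMap _ c

theorem descSig_coeffMap (σ : Ω ≃ₐ[K] Ω) (x : LaurentSeries K) :
    descSig σ (coeffMap (algebraMap K Ω) x) = coeffMap (algebraMap K Ω) x := by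
  ext k
  simp

theorem descSig_coeffEmb [Algebra ℚ Ω] (σ : Ω ≃ₐ[K] Ω) (y : LaurentSeries ℚ) :
    descSig σ (coeffEmb Ω y) = coeffEmb Ω y := by
  rw [descSig, coeffEmb, coeffMap_coeffMap]
  exact coeffMap_congr (RingHom.ext_rat _ _) y

/-- The base-changed field is stable under the coefficientwise action. -/
theorem descSig_mem_laurentBaseChange [Algebra ℚ Ω] (F₀ : IntermediateField ℚ (LaurentSeries ℚ))
    (σ : Ω ≃ₐ[K] Ω) {x : LaurentSeries Ω} (hx : x ∈ laurentBaseChange Ω F₀) :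
    descSig σ x ∈ laurentBaseChange Ω F₀ := by
  rw [mem_laurentBaseChange_iff] at hx
  induction hx using Subfield.closure_induction with
  | mem y hy =>
      rcases hy with ⟨a, rfl⟩ | ⟨z, hz, rfl⟩
      · rw [descSig_algebraMap]
        exact (laurentBaseChange Ω F₀).algebraMap_mem _
      · rw [descSig_coeffEmb]
        exact coeffEmb_mem_laurentBaseChange Ω hz
  | one => simp
  | add x y _ _ hx hy => simpa using add_mem hx hy
  | neg x _ hx => simpa using neg_mem hx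
  | inv x _ hx => simpa using inv_mem hx
  | mul x y _ _ hx hy => simpa using mul_mem hx hy

/-! ### The stabiliser of a Kummer class -/

section Stab

variable (F : IntermediateField Ω (LaurentSeries Ω))
  (hF : ∀ (σ : Ω ≃ₐ[K] Ω) (x : LaurentSeries Ω), x ∈ F → descSig σ x ∈ F)
  (f : LaurentSeries Ω) (p : ℕ)

/-- The stabiliser of the class of `f` modulo `p`-th powers of `F`. -/
def descStab : Subgroup (Ω ≃ₐ[K] Ω) where
  carrier := {σ | ∃ u ∈ F, u ≠ 0 ∧ descSig σ f = f * u ^ p}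
  one_mem' := ⟨1, one_mem _, one_ne_zero, by simp⟩
  mul_mem' := by
    rintro σ τ ⟨u, hu, hu0, hσ⟩ ⟨w, hw, hw0, hτ⟩
    refine ⟨u * descSig σ w, mul_mem hu (hF σ w hw),
      mul_ne_zero hu0 ((map_ne_zero_iff _ (descSig_injective σ)).mpr hw0), ?_⟩
    rw [descSig_mul, hτ, map_mul, map_pow, hσ]
    ring
  inv_mem' := by
    rintro σ ⟨u, hu, hu0, hσ⟩
    have hu' : descSig σ⁻¹ u ≠ 0 := (map_ne_zero_iff _ (descSig_injective σ⁻¹)).mpr hu0
    refine ⟨(descSig σ⁻¹ u)⁻¹, inv_mem (hF σ⁻¹ u hu), inv_ne_zero hu', ?_⟩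
    have h1 : descSig σ⁻¹ (descSig σ f) = descSig σ⁻¹ f * descSig σ⁻¹ u ^ p := by
      rw [hσ, map_mul, map_pow]
    rw [descSig_inv_apply] at h1
    conv_rhs => rw [h1]
    rw [inv_pow, mul_assoc, mul_inv_cancel₀ (pow_ne_zero _ hu'), mul_one]

theorem mem_descStab {σ : Ω ≃ₐ[K] Ω} :
    σ ∈ descStab F hF f p ↔ ∃ u ∈ F, u ≠ 0 ∧ descSig σ f = f * u ^ p := Iff.rfl

/-- If the orbit of the class of `f` is contained in a finite set of classes, the stabiliser has
finite index. -/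
theorem descStab_index_ne_zero (T : Set (LaurentSeries Ω)) (hT : T.Finite)
    (horb : ∀ σ : Ω ≃ₐ[K] Ω, ∃ t ∈ T, ∃ u ∈ F, u ≠ 0 ∧ descSig σ f = t * u ^ p) :
    (descStab F hF f p).index ≠ 0 := by
  classical
  have hTfin : Finite T := hT
  choose t ht u hu hu0 hσ using horb
  have key : ∀ σ τ : Ω ≃ₐ[K] Ω, t σ = t τ → τ⁻¹ * σ ∈ descStab F hF f p := by
    intro σ τ hst
    have huτ : u τ ^ p ≠ 0 := pow_ne_zero _ (hu0 τ)
    -- `σ f = τ f * (u σ / u τ)^p`
    have h1 : descSig σ f = descSig τ f * (u σ / u τ) ^ p := by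
      rw [hσ σ, hσ τ, hst, div_pow]
      field_simp
    refine ⟨descSig τ⁻¹ (u σ / u τ), hF _ _ (div_mem (hu σ) (hu τ)),
      (map_ne_zero_iff _ (descSig_injective τ⁻¹)).mpr (div_ne_zero (hu0 σ) (hu0 τ)), ?_⟩
    rw [descSig_mul, h1, map_mul, map_pow, descSig_inv_apply]
  have hinj : Function.Injective
      (fun Q : (Ω ≃ₐ[K] Ω) ⧸ descStab F hF f p => (⟨t Q.out, ht Q.out⟩ : T)) := by
    intro Q Q' hQ
    have h1 : t Q.out = t Q'.out := congrArg Subtype.val hQ
    have h2 := key Q'.out Q.out h1.symm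
    have h3 : (Q.out : (Ω ≃ₐ[K] Ω) ⧸ descStab F hF f p) = Q'.out :=
      QuotientGroup.eq.mpr h2
    rwa [QuotientGroup.out_eq', QuotientGroup.out_eq'] at h3
  have hfin : Finite ((Ω ≃ₐ[K] Ω) ⧸ descStab F hF f p) := Finite.of_injective _ hinj
  exact (Subgroup.finiteIndex_of_finite_quotient (H := descStab F hF f p)).index_ne_zero

end Stab

end Fermat.Agent.S29.H152

end
-- ===== PACK-END S29/H152/DescStab.lean

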