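import Mathlib
import Fermat.Prelude.Def_GroupCohomology_ContinuousUnramified
import Mathlib.RingTheory.SimpleModule.Basic
import Mathlib.RepresentationTheory.AlgebraRepresentation.Basic
import Mathlib.LinearAlgebra.FiniteDimensional.Basic
import Mathlib.Algebra.Algebra.Subalgebra.Basic
import Fermat.Statements.S21
import Fermat.Prelude.Def_AlgebraicCurve_Correspondence
import Fermat.Statements.S24
import Mathlib.NumberTheory.ModularForms.LevelOne.GradedRing
import Mathlib.Analysis.Complex.LocallyUniformLimit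
import Mathlib.Analysis.Complex.TaylorSeries
import Mathlib.Analysis.Calculus.Deriv.Polynomial
import Mathlib.RingTheory.PowerSeries.PiTopology
import Fermat.Prelude.Def_ModularCurve_X0
import Mathlib.NumberTheory.ModularForms.Derivative
import Mathlib.NumberTheory.ModularForms.LevelOne.DimensionFormula
import Mathlib.Analysis.Complex.Liouville
import Fermat.Prelude.Def_ModularCurve_LaurentCoeff

-- ===== PACK-BEGIN S30/H990/Sat.lean
section
/-
S30 top glue (helper990): pure algebra, part 2: saturation of a submodule of a torsion-free module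
and the rank of the saturation of a free submodule.
-/


set_option autoImplicit false

namespace Fermat.Agent.S30.H990

open Module

section Sat

variable {R M : Type*} [CommRing R] [IsDomain R] [AddCommGroup M] [Module R M]

/-- The saturation of a submodule: all `m` some nonzero multiple of which lies in `N`. -/
def sat (N : Submodule R M) : Submodule R M where
  carrier := {m | ∃ r : R, r ≠ 0 ∧ r • m ∈ N}
  zero_mem' := ⟨1, one_ne_zero, by simp⟩
  add_mem' := by
    rintro x y ⟨r, hr, hx⟩ ⟨s, hs, hy⟩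
    refine ⟨r * s, mul_ne_zero hr hs, ?_⟩
    rw [smul_add]
    refine N.add_mem ?_ ?_
    · rw [mul_comm, mul_smul]; exact N.smul_mem s hx
    · rw [mul_smul]; exact N.smul_mem r hy
  smul_mem' := by
    rintro c x ⟨r, hr, hx⟩
    exact ⟨r, hr, by rw [smul_comm]; exact N.smul_mem c hx⟩

theorem mem_sat {N : Submodule R M} {m : M} : m ∈ sat N ↔ ∃ r : R, r ≠ 0 ∧ r • m ∈ N := Iff.rfl

theorem le_sat (N : Submodule R M) : N ≤ sat N := fun x hx => ⟨1, one_ne_zero, by simpa using hx⟩

/-- The saturation is saturated. -/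
theorem mem_sat_of_smul_mem {N : Submodule R M} {r : R} (hr : r ≠ 0) {m : M}
    (h : r • m ∈ sat N) : m ∈ sat N := by
  obtain ⟨s, hs, hm⟩ := h
  exact ⟨s * r, mul_ne_zero hs hr, by rwa [mul_smul]⟩

/-- A linear map sending `N` into `sat N` preserves `sat N`. -/
theorem map_mem_sat {N : Submodule R M} (f : M →ₗ[R] M) (hf : ∀ x ∈ N, f x ∈ sat N)
    {m : M} (hm : m ∈ sat N) : f m ∈ sat N := by
  obtain ⟨r, hr, hrm⟩ := hm
  have := hf _ hrm
  rw [map_smul] at this
  exact mem_sat_of_smul_mem hr this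

/-- To check that `f` maps `span s` into `sat (span s)` it suffices to check generators. -/
theorem map_span_le_sat {s : Set M} (f : M →ₗ[R] M) (hf : ∀ x ∈ s, f x ∈ sat (Submodule.span R s))
    {x : M} (hx : x ∈ Submodule.span R s) : f x ∈ sat (Submodule.span R s) := by
  induction hx using Submodule.span_induction with
  | mem x hx => exact hf x hx
  | zero => rw [map_zero]; exact Submodule.zero_mem _
  | add x y _ _ hx hy => rw [map_add]; exact Submodule.add_mem _ hx hy
  | smul a x _ hx => rw [map_smul]; exact Submodule.smul_mem _ a hx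

/-- A finitely generated submodule of `sat N` is carried into `N` by a single nonzero scalar. -/
theorem exists_smul_le_of_fg {N : Submodule R M} {P : Submodule R M} (hP : P.FG) (hle : P ≤ sat N) :
    ∃ r : R, r ≠ 0 ∧ ∀ x ∈ P, r • x ∈ N := by
  classical
  obtain ⟨S, rfl⟩ := hP
  induction S using Finset.induction_on with
  | empty =>
    refine ⟨1, one_ne_zero, fun x hx => ?_⟩
    simp only [Finset.coe_empty, Submodule.span_empty, Submodule.mem_bot] at hx
    rw [hx, smul_zero]; exact N.zero_mem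
  | insert a S _ ih =>
    have hS : Submodule.span R (S : Set M) ≤ sat N :=
      (Submodule.span_mono (by simp)).trans hle
    obtain ⟨r, hr, hrS⟩ := ih hS
    have ha : a ∈ sat N := hle (Submodule.subset_span (by simp))
    obtain ⟨s, hs, hsa⟩ := ha
    refine ⟨r * s, mul_ne_zero hr hs, fun x hx => ?_⟩
    rw [Finset.coe_insert, Submodule.mem_span_insert] at hx
    obtain ⟨c, y, hy, rfl⟩ := hx
    rw [smul_add]
    refine N.add_mem ?_ ?_
    · rw [smul_comm, mul_smul]
      exact N.smul_mem _ (N.smul_mem _ hsa)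
    · rw [mul_comm, mul_smul]
      exact N.smul_mem _ (hrS y hy)

end Sat

section Rank

variable {R M : Type*} [CommRing R] [IsDomain R] [IsPrincipalIdealRing R]
  [AddCommGroup M] [Module R M] [Module.Finite R M] [Module.Free R M]

/-- The saturation of the span of a linearly independent family of `n` vectors is free of
rank `n`. -/
theorem finrank_sat_span {n : ℕ} (v : Fin n → M) (hv : LinearIndependent R v) :
    Module.finrank R (sat (Submodule.span R (Set.range v))) = n := by
  set N := Submodule.span R (Set.range v) with hN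
  set Λ := sat N with hΛ
  have hvN : ∀ i, v i ∈ N := fun i => Submodule.subset_span (Set.mem_range_self i)
  apply le_antisymm
  · -- upper bound
    have hfg : Λ.FG := IsNoetherian.noetherian Λ
    obtain ⟨r, hr, hrΛ⟩ := exists_smul_le_of_fg hfg (le_refl Λ)
    let f : Λ →ₗ[R] N :=
      { toFun := fun x => ⟨r • (x : M), hrΛ x x.2⟩
        map_add' := fun x y => by ext; simp [smul_add]
        map_smul' := fun c x => by ext; simp [smul_comm r c] }
    have hf : Function.Injective f := by
      intro x y hxy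
      have : r • (x : M) = r • (y : M) := congrArg Subtype.val hxy
      exact Subtype.ext (smul_right_injective M hr this)
    have h1 := LinearMap.finrank_le_finrank_of_injective hf
    have h2 : Module.finrank R N = n := by
      rw [hN, finrank_span_eq_card hv, Fintype.card_fin]
    omega
  · -- lower bound
    let v' : Fin n → Λ := fun i => ⟨v i, le_sat N (hvN i)⟩
    have hv' : LinearIndependent R v' := by
      apply LinearIndependent.of_comp Λ.subtype
      exact hv
    have := hv'.fintype_card_le_finrank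
    simpa using this

end Rank

end Fermat.Agent.S30.H990

end
-- ===== PACK-END S30/H990/Sat.lean

-- ===== PACK-BEGIN S55/Bridge/Level.lean
section



/-!
# S55 bridge, part B2a: a representation as in S55 factors through a finite Galois level
unramified outside `S`.
-/

set_option autoImplicit false

namespace Fermat.Agent.S55.Bridge

open IntermediateField

/-- `ℚ̄/ℚ` is algebraic (for the `Algebra ℚ ℚ̄` instance found by instance search). -/
theorem isAlgebraic_Qbar : Algebra.IsAlgebraic ℚ (AlgebraicClosure ℚ) :=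
  AlgebraicClosure.isAlgebraic ℚ

/-- `ℚ̄/ℚ` is Galois (for the `Algebra ℚ ℚ̄` instance found by instance search). -/
theorem isGalois_Qbar : IsGalois ℚ (AlgebraicClosure ℚ) := by
  haveI : Algebra.IsAlgebraic ℚ (AlgebraicClosure ℚ) := isAlgebraic_Qbar
  haveI : IsAlgClosure ℚ (AlgebraicClosure ℚ) := ⟨inferInstance, inferInstance⟩
  haveI : Normal ℚ (AlgebraicClosure ℚ) := IsAlgClosure.normal ℚ (AlgebraicClosure ℚ)
  exact isGalois_iff.mpr ⟨inferInstance, inferInstance⟩

attribute [local instance] isAlgebraic_Qbar isGalois_Qbar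

/-- A subgroup of `G_ℚ` containing `G_F` for a finite `F/ℚ` and all inertia groups outside `S`
is `G_L` for a finite `L/ℚ` unramified outside `S`. -/
theorem exists_level_of_subgroup (S : Finset Nat.Primes)
    (N : Subgroup (AlgebraicClosure ℚ ≃ₐ[ℚ] AlgebraicClosure ℚ))
    (F : IntermediateField ℚ (AlgebraicClosure ℚ)) (hFfin : FiniteDimensional ℚ F)
    (hF : F.fixingSubgroup ≤ N)
    (hur : ∀ q : Nat.Primes, q ∉ S → ∀ A : ValuationSubring (AlgebraicClosure ℚ),
      A.LiesOverPrime (q : ℕ) → A.inertiaSubgroupIn ℚ ≤ N) :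
    ∃ L : IntermediateField ℚ (AlgebraicClosure ℚ),
      L.IsUnramifiedOutside S ∧ L.fixingSubgroup = N ∧ L ≤ F := by
  have hopenF : IsOpen (F.fixingSubgroup : Set (AlgebraicClosure ℚ ≃ₐ[ℚ] AlgebraicClosure ℚ)) :=
    IntermediateField.fixingSubgroup_isOpen F
  have hopen : IsOpen (N : Set (AlgebraicClosure ℚ ≃ₐ[ℚ] AlgebraicClosure ℚ)) :=
    Subgroup.isOpen_mono hF hopenF
  have hclosed : IsClosed (N : Set (AlgebraicClosure ℚ ≃ₐ[ℚ] AlgebraicClosure ℚ)) :=
    Subgroup.isClosed_of_isOpen N hopen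
  have hfix : (IntermediateField.fixedField N).fixingSubgroup = N :=
    InfiniteGalois.fixingSubgroup_fixedField ⟨N, hclosed⟩
  have hle : IntermediateField.fixedField N ≤ F := by
    rw [← InfiniteGalois.fixedField_fixingSubgroup F]
    exact IntermediateField.fixedField_antitone hF
  refine ⟨IntermediateField.fixedField N, ⟨?_, ?_⟩, hfix, hle⟩
  · exact FiniteDimensional.of_injective (IntermediateField.inclusion hle).toLinearMap
      (IntermediateField.inclusion_injective hle)
  · intro q hq A hA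
    rw [hfix]
    exact hur q hq A hA

/-- If moreover the subgroup is normal, the level is Galois over `ℚ`. -/
theorem exists_galois_level_of_subgroup (S : Finset Nat.Primes)
    (N : Subgroup (AlgebraicClosure ℚ ≃ₐ[ℚ] AlgebraicClosure ℚ)) [N.Normal]
    (F : IntermediateField ℚ (AlgebraicClosure ℚ)) (hFfin : FiniteDimensional ℚ F)
    (hF : F.fixingSubgroup ≤ N)
    (hur : ∀ q : Nat.Primes, q ∉ S → ∀ A : ValuationSubring (AlgebraicClosure ℚ),
      A.LiesOverPrime (q : ℕ) → A.inertiaSubgroupIn ℚ ≤ N) :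
    ∃ L : IntermediateField ℚ (AlgebraicClosure ℚ),
      L.IsUnramifiedOutside S ∧ IsGalois ℚ L ∧ L.fixingSubgroup = N ∧ L ≤ F := by
  obtain ⟨L, hL, hfix, hle⟩ := exists_level_of_subgroup S N F hFfin hF hur
  refine ⟨L, hL, ?_, hfix, hle⟩
  have h := (InfiniteGalois.normal_iff_isGalois L).1 (by rw [hfix]; infer_instance)
  convert h
  exact Subsingleton.elim _ _

section Rep

variable {k : Type} [Field k]
  (M : Rep k (AlgebraicClosure ℚ ≃ₐ[ℚ] AlgebraicClosure ℚ)) [FiniteDimensional k M]

/-- Pointwise smoothness plus finite-dimensionality gives a uniform finite level. -/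
theorem exists_finite_level_of_smooth
    (hsm : ∀ m : M, ∃ F : IntermediateField ℚ (AlgebraicClosure ℚ), FiniteDimensional ℚ F ∧
      ∀ s ∈ F.fixingSubgroup, M.ρ s m = m) :
    ∃ F : IntermediateField ℚ (AlgebraicClosure ℚ), FiniteDimensional ℚ F ∧
      ∀ s ∈ F.fixingSubgroup, M.ρ s = 1 := by
  classical
  choose F hFfin hFfix using hsm
  let b := Module.finBasis k M
  refine ⟨⨆ i, F (b i), ?_, ?_⟩
  · haveI : ∀ i, FiniteDimensional ℚ (F (b i)) := fun i => hFfin (b i)
    exact IntermediateField.finiteDimensional_iSup_of_finite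
  · intro s hs
    apply b.ext
    intro i
    have hle : F (b i) ≤ ⨆ i, F (b i) := le_iSup (fun i => F (b i)) i
    exact hFfix (b i) s (IntermediateField.fixingSubgroup_antitone hle hs)

/-- **B2a.** The representation `M` of S55 factors through `Gal(L/ℚ)` for a finite Galois
extension `L/ℚ` unramified outside `S`; in fact `G_L = ker ρ`. -/
theorem exists_galois_level_of_rep (S : Finset Nat.Primes)
    (hsm : ∀ m : M, ∃ F : IntermediateField ℚ (AlgebraicClosure ℚ), FiniteDimensional ℚ F ∧
      ∀ s ∈ F.fixingSubgroup, M.ρ s m = m)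
    (hMur : ∀ q : Nat.Primes, q ∉ S → ∀ A : ValuationSubring (AlgebraicClosure ℚ),
      A.LiesOverPrime (q : ℕ) → ∀ g ∈ A.inertiaSubgroupIn ℚ, M.ρ g = 1) :
    ∃ L : IntermediateField ℚ (AlgebraicClosure ℚ),
      L.IsUnramifiedOutside S ∧ IsGalois ℚ L ∧ ∀ s, s ∈ L.fixingSubgroup ↔ M.ρ s = 1 := by
  obtain ⟨F, hFfin, hF⟩ := exists_finite_level_of_smooth M hsm
  obtain ⟨L, hL, hgal, hfix, -⟩ := exists_galois_level_of_subgroup S (MonoidHom.ker M.ρ) F hFfin
    (fun s hs => MonoidHom.mem_ker.2 (hF s hs))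
    (fun q hq A hA g hg => MonoidHom.mem_ker.2 (hMur q hq A hA g hg))
  refine ⟨L, hL, hgal, fun s => ?_⟩
  rw [hfix, MonoidHom.mem_ker]

end Rep

end Fermat.Agent.S55.Bridge

end
-- ===== PACK-END S55/Bridge/Level.lean

-- ===== PACK-BEGIN S54/FrobLift.lean
section


set_option autoImplicit false
set_option linter.style.haveILetI false

open scoped Pointwise

namespace Fermat.Agent.S54

/-- The absolute Galois group acts continuously on the (discrete) ring of all algebraic
integers. -/
theorem continuousSMul_integralClosure :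
    letI : TopologicalSpace (integralClosure ℤ (AlgebraicClosure ℚ)) := ⊥
    ContinuousSMul (AlgebraicClosure ℚ ≃ₐ[ℚ] AlgebraicClosure ℚ)
      (integralClosure ℤ (AlgebraicClosure ℚ)) := by
  letI : TopologicalSpace (integralClosure ℤ (AlgebraicClosure ℚ)) := ⊥
  haveI : DiscreteTopology (integralClosure ℤ (AlgebraicClosure ℚ)) := ⟨rfl⟩
  haveI : Algebra.IsAlgebraic ℚ (AlgebraicClosure ℚ) := AlgebraicClosure.isAlgebraic ℚ
  refine ⟨?_⟩
  rw [continuous_prod_of_discrete_right]
  intro b
  rw [continuous_discrete_rng]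
  intro c
  rw [isOpen_iff_mem_nhds]
  intro g hg
  let E : IntermediateField ℚ (AlgebraicClosure ℚ) :=
    IntermediateField.adjoin ℚ {(b : AlgebraicClosure ℚ)}
  haveI : FiniteDimensional ℚ E :=
    IntermediateField.adjoin.finiteDimensional (Algebra.IsIntegral.isIntegral _)
  have hopen : IsOpen ((g • (E.fixingSubgroup : Set (AlgebraicClosure ℚ ≃ₐ[ℚ] AlgebraicClosure ℚ)))) :=
    (E.fixingSubgroup_isOpen).smul g
  refine Filter.mem_of_superset (hopen.mem_nhds ⟨1, one_mem _, by simp⟩) ?_
  rintro _ ⟨h, hh, rfl⟩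
  simp only [Set.mem_preimage, Set.mem_singleton_iff] at hg ⊢
  rw [← hg]
  apply Subtype.ext
  have hb : h (b : AlgebraicClosure ℚ) = b := by
    have := (IntermediateField.mem_fixingSubgroup_iff E h).mp hh b
      (IntermediateField.subset_adjoin ℚ _ (Set.mem_singleton _))
    exact this
  show (g * h) (b : AlgebraicClosure ℚ) = g (b : AlgebraicClosure ℚ)
  rw [AlgEquiv.mul_apply, hb]

/-- `ℚ̄/ℚ` is Galois. -/
theorem isGalois_algebraicClosure_rat : IsGalois ℚ (AlgebraicClosure ℚ) := by
  haveI : Algebra.IsAlgebraic ℚ (AlgebraicClosure ℚ) := AlgebraicClosure.isAlgebraic ℚ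
  haveI : IsAlgClosure ℚ (AlgebraicClosure ℚ) := ⟨inferInstance, inferInstance⟩
  haveI : Normal ℚ (AlgebraicClosure ℚ) := IsAlgClosure.normal ℚ (AlgebraicClosure ℚ)
  exact isGalois_iff.mpr ⟨inferInstance, inferInstance⟩

/-- The algebraic integers fixed by the whole absolute Galois group are the rational
integers. -/
theorem isInvariant_integralClosure :
    Algebra.IsInvariant ℤ (integralClosure ℤ (AlgebraicClosure ℚ))
      (AlgebraicClosure ℚ ≃ₐ[ℚ] AlgebraicClosure ℚ) := by
  haveI := isGalois_algebraicClosure_rat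
  refine ⟨fun b hb => ?_⟩
  have hfix : (b : AlgebraicClosure ℚ) ∈
      IntermediateField.fixedField (⊤ : Subgroup (AlgebraicClosure ℚ ≃ₐ[ℚ] AlgebraicClosure ℚ)) := by
    rintro ⟨g, -⟩
    exact congrArg Subtype.val (hb g)
  rw [InfiniteGalois.fixedField_bot, IntermediateField.mem_bot] at hfix
  obtain ⟨q, hq⟩ := hfix
  have hint : IsIntegral ℤ (b : AlgebraicClosure ℚ) := b.2
  rw [← hq, isIntegral_algebraMap_iff (FaithfulSMul.algebraMap_injective ℚ (AlgebraicClosure ℚ))]
    at hint
  obtain ⟨n, hn⟩ := IsIntegrallyClosed.algebraMap_eq_of_integral hint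
  refine ⟨n, Subtype.ext ?_⟩
  rw [← hq, ← hn]
  simp

/-- Existence of Frobenius lifts on the ring of all algebraic integers: for every prime ideal
`Q` of `ℤ̄` containing the prime number `ℓ` there is `σ ∈ Gal(ℚ̄/ℚ)` stabilising `Q` and
inducing `x ↦ x ^ ℓ` on `ℤ̄ / Q`. -/
theorem exists_frob_integralClosure (ℓ : ℕ) (hℓ : ℓ.Prime)
    (Q : Ideal (integralClosure ℤ (AlgebraicClosure ℚ))) [Q.IsPrime]
    (hQ : (ℓ : integralClosure ℤ (AlgebraicClosure ℚ)) ∈ Q) :
    ∃ σ : AlgebraicClosure ℚ ≃ₐ[ℚ] AlgebraicClosure ℚ,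
      σ • Q = Q ∧
      ∀ x : integralClosure ℤ (AlgebraicClosure ℚ), σ • x - x ^ ℓ ∈ Q := by
  haveI := isGalois_algebraicClosure_rat
  haveI : Algebra.IsAlgebraic ℚ (AlgebraicClosure ℚ) := AlgebraicClosure.isAlgebraic ℚ
  letI : TopologicalSpace (integralClosure ℤ (AlgebraicClosure ℚ)) := ⊥
  haveI : DiscreteTopology (integralClosure ℤ (AlgebraicClosure ℚ)) := ⟨rfl⟩
  haveI := continuousSMul_integralClosure
  haveI := isInvariant_integralClosure
  haveI hℓfact : Fact ℓ.Prime := ⟨hℓ⟩
  -- the prime `P = (ℓ)` of `ℤ`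
  let P : Ideal ℤ := Ideal.span {(ℓ : ℤ)}
  haveI hPmax : P.IsMaximal :=
    PrincipalIdealRing.isMaximal_of_irreducible
      (Nat.prime_iff_prime_int.mp hℓ).irreducible
  haveI hlies : Q.LiesOver P := by
    refine ⟨?_⟩
    have hle : P ≤ Q.under ℤ := by
      rw [Ideal.span_le, Set.singleton_subset_iff]
      show algebraMap ℤ (integralClosure ℤ (AlgebraicClosure ℚ)) (ℓ : ℤ) ∈ Q
      simpa using hQ
    have hne : Q.under ℤ ≠ ⊤ := (Ideal.IsPrime.under ℤ Q).ne_top
    exact (hPmax.eq_of_le hne hle)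
  -- characteristic of the quotient
  haveI : IsDomain (integralClosure ℤ (AlgebraicClosure ℚ) ⧸ Q) := Ideal.Quotient.isDomain Q
  have hzero : ((ℓ : ℕ) : integralClosure ℤ (AlgebraicClosure ℚ) ⧸ Q) = 0 := by
    have : (Ideal.Quotient.mk Q) (ℓ : integralClosure ℤ (AlgebraicClosure ℚ)) = 0 :=
      Ideal.Quotient.eq_zero_iff_mem.mpr hQ
    simpa using this
  haveI hchar : CharP (integralClosure ℤ (AlgebraicClosure ℚ) ⧸ Q) ℓ :=
    (CharP.charP_iff_prime_eq_zero hℓ).mpr hzero
  -- the Frobenius as an algebra automorphism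
  let f : (integralClosure ℤ (AlgebraicClosure ℚ) ⧸ Q) →ₐ[ℤ ⧸ P]
      (integralClosure ℤ (AlgebraicClosure ℚ) ⧸ Q) :=
    { toRingHom := frobenius (integralClosure ℤ (AlgebraicClosure ℚ) ⧸ Q) ℓ
      commutes' := by
        intro y
        obtain ⟨n, rfl⟩ := Ideal.Quotient.mk_surjective y
        show frobenius _ ℓ (algebraMap (ℤ ⧸ P) _ (Ideal.Quotient.mk P n)) =
          algebraMap (ℤ ⧸ P) _ (Ideal.Quotient.mk P n)
        have h1 : algebraMap (ℤ ⧸ P) (integralClosure ℤ (AlgebraicClosure ℚ) ⧸ Q)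
            (Ideal.Quotient.mk P n) = ((n : ℤ) : integralClosure ℤ (AlgebraicClosure ℚ) ⧸ Q) := by
          rw [← Ideal.Quotient.algebraMap_eq, ← IsScalarTower.algebraMap_apply]
          simp
        rw [h1, map_intCast] }
  have hinj : Function.Injective f := frobenius_inj _ ℓ
  have hsurj : Function.Surjective f := by
    intro y
    obtain ⟨b, rfl⟩ := Ideal.Quotient.mk_surjective y
    obtain ⟨c, hc⟩ := IsAlgClosed.exists_pow_nat_eq (b : AlgebraicClosure ℚ) hℓ.pos
    have hcint : IsIntegral ℤ c := by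
      have hb : IsIntegral ℤ (c ^ ℓ) := hc ▸ b.2
      exact IsIntegral.of_pow hℓ.pos hb
    refine ⟨Ideal.Quotient.mk Q ⟨c, hcint⟩, ?_⟩
    show frobenius _ ℓ (Ideal.Quotient.mk Q ⟨c, hcint⟩) = _
    rw [frobenius_def, ← map_pow]
    congr 1
    exact Subtype.ext hc
  let e : (integralClosure ℤ (AlgebraicClosure ℚ) ⧸ Q) ≃ₐ[ℤ ⧸ P]
      (integralClosure ℤ (AlgebraicClosure ℚ) ⧸ Q) :=
    AlgEquiv.ofBijective f ⟨hinj, hsurj⟩
  obtain ⟨σ, hσ⟩ := Ideal.Quotient.stabilizerHom_surjective_of_profinite
    (G := AlgebraicClosure ℚ ≃ₐ[ℚ] AlgebraicClosure ℚ) P Q e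
  refine ⟨σ.1, σ.2, fun x => ?_⟩
  have h2 := congrArg (fun t => t (Ideal.Quotient.mk Q x)) hσ
  simp only [Ideal.Quotient.stabilizerHom_apply] at h2
  have h3 : e (Ideal.Quotient.mk Q x) = Ideal.Quotient.mk Q (x ^ ℓ) := by
    show frobenius _ ℓ (Ideal.Quotient.mk Q x) = _
    rw [frobenius_def, map_pow]
  rw [h3] at h2
  rw [← Ideal.Quotient.eq]
  exact h2

end Fermat.Agent.S54

end
-- ===== PACK-END S54/FrobLift.lean

-- ===== PACK-BEGIN S30/H529/TateCore.lean
section


/-!
# S30 helper (helper529): abstract Tate modules, core algebra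

For a module `X` over a complete discrete valuation ring `O`, an element `ϖ ≠ 0` of the maximal
ideal, `O`-linear operators `t i` and scalars `a i`, the module `tateEigen ϖ t a` of compatible
sequences `v n ∈ X[ϖ ^ (n + 1)]`, `ϖ • v (n + 1) = v n`, `t i (v n) = a i • v n` is torsion free,
separated, and finitely generated (hence free) as soon as `X[ϖ]` is finitely generated.
-/

set_option autoImplicit false
set_option linter.unusedSectionVars false

namespace Fermat.Agent.S30.H529

open IsLocalRing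

noncomputable section

/-! ### Precompleteness of finite free modules -/

section Pi

variable {R : Type*} [CommRing R] (I : Ideal R) {r : ℕ}

theorem mem_smul_top_pi (x : Fin r → R) :
    x ∈ (I • ⊤ : Submodule R (Fin r → R)) ↔ ∀ i, x i ∈ I := by
  constructor
  · intro hx i
    refine Submodule.smul_induction_on hx ?_ ?_
    · intro a ha m _
      simp only [Pi.smul_apply, smul_eq_mul]
      exact Ideal.mul_mem_right _ _ ha
    · intro y z hy hz
      simp only [Pi.add_apply]
      exact I.add_mem hy hz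
  · intro hx
    have h1 : x = ∑ i, x i • (Pi.single i (1 : R) : Fin r → R) := by
      funext j
      simp [Finset.sum_apply, Pi.single_apply]
    rw [h1]
    exact Submodule.sum_mem _ fun i _ => Submodule.smul_mem_smul (hx i) Submodule.mem_top

theorem isPrecomplete_pi [IsPrecomplete I R] : IsPrecomplete I (Fin r → R) := by
  constructor
  intro f hf
  have hcomp : ∀ i : Fin r, ∃ L : R, ∀ n, f n i ≡ L [SMOD (I ^ n • ⊤ : Submodule R R)] := by
    intro i
    apply IsPrecomplete.prec' (fun n => f n i)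
    intro m n hmn
    have h1 := hf hmn
    rw [SModEq.sub_mem] at h1 ⊢
    rw [mem_smul_top_pi] at h1
    have h2 := h1 i
    simp only [smul_eq_mul, Ideal.mul_top]
    simpa using h2
  choose L hL using hcomp
  refine ⟨L, fun n => ?_⟩
  rw [SModEq.sub_mem, mem_smul_top_pi]
  intro i
  have h1 := hL i n
  rw [SModEq.sub_mem] at h1
  simpa using h1

/-- Topological Nakayama: a Hausdorff module over a precomplete ring is finitely generated
if its reduction is. -/
theorem finite_of_finite_quotient (M : Type*) [AddCommGroup M] [Module R M] [IsPrecomplete I R]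
    [IsHausdorff I M] (h : Module.Finite R (M ⧸ (I • ⊤ : Submodule R M))) :
    Module.Finite R M := by
  obtain ⟨r, g, hg⟩ := Module.Finite.exists_fin' R (M ⧸ (I • ⊤ : Submodule R M))
  have hlift : ∀ i : Fin r, ∃ m : M, (I • ⊤ : Submodule R M).mkQ m
      = g (Pi.single i (1 : R)) :=
    fun i => Submodule.mkQ_surjective _ _
  choose m hm using hlift
  let f : (Fin r → R) →ₗ[R] M := (Pi.basisFun R (Fin r)).constr R m
  have hfg : (I • ⊤ : Submodule R M).mkQ ∘ₗ f = g := by
    apply (Pi.basisFun R (Fin r)).ext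
    intro i
    have h1 : f ((Pi.basisFun R (Fin r)) i) = m i := Module.Basis.constr_basis _ _ _ _
    rw [LinearMap.comp_apply, h1, hm i, Pi.basisFun_apply]
  have := isPrecomplete_pi (r := r) I
  have hsurj : Function.Surjective f := by
    apply surjective_of_mkQ_comp_surjective (I := I)
    rw [hfg]
    exact hg
  exact Module.Finite.of_surjective f hsurj

end Pi

/-! ### Discrete valuation rings -/

section DVR

variable {O : Type*} [CommRing O] [IsDomain O] [IsDiscreteValuationRing O]

theorem exists_pow_maximalIdeal_le_span {x : O} (hx : x ≠ 0) :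
    ∃ N : ℕ, maximalIdeal O ^ N ≤ Ideal.span {x} := by
  obtain ⟨π, hπ⟩ := IsDiscreteValuationRing.exists_irreducible O
  obtain ⟨n, u, rfl⟩ := IsDiscreteValuationRing.eq_unit_mul_pow_irreducible hx hπ
  refine ⟨n, ?_⟩
  rw [hπ.maximalIdeal_eq, Ideal.span_singleton_pow, Ideal.span_singleton_le_span_singleton]
  exact ⟨(u⁻¹ : Oˣ), by rw [mul_comm, ← mul_assoc, Units.inv_mul, one_mul]⟩

theorem exists_dvd_pow_of_mem_maximalIdeal {ϖ : O} (hϖ : ϖ ∈ maximalIdeal O) {r : O}
    (hr : r ≠ 0) : ∃ k : ℕ, r ∣ ϖ ^ k := by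
  obtain ⟨π, hπ⟩ := IsDiscreteValuationRing.exists_irreducible O
  obtain ⟨n, u, rfl⟩ := IsDiscreteValuationRing.eq_unit_mul_pow_irreducible hr hπ
  rw [hπ.maximalIdeal_eq, Ideal.mem_span_singleton] at hϖ
  refine ⟨n, ?_⟩
  obtain ⟨c, hc⟩ := pow_dvd_pow_of_dvd hϖ n
  refine ⟨(u⁻¹ : Oˣ) * c, ?_⟩
  have h1 : (u : O) * π ^ n * (((u⁻¹ : Oˣ) : O) * c) = ((u : O) * ((u⁻¹ : Oˣ) : O)) * (π ^ n * c) := by
    ring
  rw [h1, Units.mul_inv, one_mul, hc]

end DVR

/-! ### The Tate module -/

section Tate

variable {O : Type*} [CommRing O]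
variable {X : Type*} [AddCommGroup X] [Module O X]
variable {ι : Type*}
variable (ϖ : O) (t : ι → X →ₗ[O] X) (a : ι → O)

/-- The eigen-part of the Tate module of `X` with respect to `ϖ`: compatible sequences
`v n ∈ X[ϖ ^ (n + 1)]` with `t i (v n) = a i • v n`. -/
def tateEigen : Submodule O (ℕ → X) where
  carrier := {v | ϖ • v 0 = 0 ∧ (∀ n, ϖ • v (n + 1) = v n) ∧ ∀ i n, t i (v n) = a i • v n}
  zero_mem' := by simp
  add_mem' := by
    rintro v w ⟨hv0, hv1, hv2⟩ ⟨hw0, hw1, hw2⟩
    refine ⟨?_, ?_, ?_⟩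
    · simp [smul_add, hv0, hw0]
    · intro n
      simp [smul_add, hv1 n, hw1 n]
    · intro i n
      simp [map_add, hv2 i n, hw2 i n, smul_add]
  smul_mem' := by
    rintro c v ⟨hv0, hv1, hv2⟩
    refine ⟨?_, ?_, ?_⟩
    · simp [smul_comm ϖ c, hv0]
    · intro n
      simp [smul_comm ϖ c, hv1 n]
    · intro i n
      simp [map_smul, hv2 i n, smul_comm (a i) c]

variable {ϖ t a}

theorem mem_tateEigen {v : ℕ → X} :
    v ∈ tateEigen ϖ t a ↔
      ϖ • v 0 = 0 ∧ (∀ n, ϖ • v (n + 1) = v n) ∧ ∀ i n, t i (v n) = a i • v n :=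
  Iff.rfl

theorem tate_pow_smul {v : ℕ → X} (hv : v ∈ tateEigen ϖ t a) (k n : ℕ) :
    ϖ ^ k • v (n + k) = v n := by
  induction k with
  | zero => simp
  | succ k ih =>
    rw [pow_succ, mul_smul, ← add_assoc, hv.2.1 (n + k), ih]

theorem tate_pow_succ_smul {v : ℕ → X} (hv : v ∈ tateEigen ϖ t a) (n : ℕ) :
    ϖ ^ (n + 1) • v n = 0 := by
  have h := tate_pow_smul hv n 0
  rw [zero_add] at h
  rw [pow_succ', mul_smul, h, hv.1]

theorem tate_pow_smul_eq_zero {v : ℕ → X} (hv : v ∈ tateEigen ϖ t a) {m n : ℕ} (hmn : m < n) :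
    ϖ ^ n • v m = 0 := by
  obtain ⟨k, rfl⟩ : ∃ k, n = k + (m + 1) := ⟨n - (m + 1), by omega⟩
  rw [pow_add, mul_smul, tate_pow_succ_smul hv, smul_zero]

/-- The shifted sequence. -/
theorem tate_shift_mem {v : ℕ → X} (hv : v ∈ tateEigen ϖ t a) (k : ℕ)
    (hk : ∀ m, m < k → v m = 0) : (fun n => v (n + k)) ∈ tateEigen ϖ t a := by
  refine ⟨?_, ?_, ?_⟩
  · rcases Nat.eq_zero_or_pos k with rfl | hk0
    · exact hv.1
    · obtain ⟨j, rfl⟩ : ∃ j, k = j + 1 := ⟨k - 1, by omega⟩
      show ϖ • v (0 + (j + 1)) = 0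
      rw [zero_add, hv.2.1 j]
      exact hk j (by omega)
  · intro n
    show ϖ • v (n + 1 + k) = v (n + k)
    rw [show n + 1 + k = (n + k) + 1 by omega]
    exact hv.2.1 (n + k)
  · intro i n
    exact hv.2.2 i (n + k)

theorem tate_eq_pow_smul_shift {v : ℕ → X} (hv : v ∈ tateEigen ϖ t a) (k : ℕ) :
    v = ϖ ^ k • (fun n => v (n + k)) := by
  funext n
  simp only [Pi.smul_apply]
  exact (tate_pow_smul hv k n).symm

/-- Elements vanishing in degrees `< k` are divisible by `ϖ ^ k`. -/
theorem tate_exists_eq_pow_smul {v : ℕ → X} (hv : v ∈ tateEigen ϖ t a) (k : ℕ)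
    (hk : ∀ m, m < k → v m = 0) : ∃ w ∈ tateEigen ϖ t a, v = ϖ ^ k • w :=
  ⟨_, tate_shift_mem hv k hk, tate_eq_pow_smul_shift hv k⟩

end Tate

/-! ### Structure of the Tate module over a complete discrete valuation ring -/

section Structure

variable {O : Type*} [CommRing O] [IsDomain O] [IsDiscreteValuationRing O]
variable {X : Type*} [AddCommGroup X] [Module O X]
variable {ι : Type*}
variable {ϖ : O} {t : ι → X →ₗ[O] X} {a : ι → O}

theorem tateEigen_isTorsionFree (hϖ : ϖ ∈ maximalIdeal O) :
    Module.IsTorsionFree O (tateEigen ϖ t a) := by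
  apply Module.IsTorsionFree.of_smul_eq_zero
  intro r v hrv
  by_cases hr : r = 0
  · exact Or.inl hr
  right
  obtain ⟨k, c, hc⟩ := exists_dvd_pow_of_mem_maximalIdeal hϖ hr
  have h1 : (ϖ ^ k) • (v : ℕ → X) = 0 := by
    have h2 : r • (v : ℕ → X) = 0 := by
      have := congrArg (Subtype.val) hrv
      simpa using this
    rw [hc, mul_comm, mul_smul, h2, smul_zero]
  apply Subtype.ext
  funext n
  have h3 := tate_pow_smul v.2 k n
  have h4 := congrFun h1 (n + k)
  simp only [Pi.smul_apply, Pi.zero_apply] at h4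
  rw [← h3, h4]
  rfl

/-- Evaluation at the `m`-th component. -/
def tateEval (ϖ : O) (t : ι → X →ₗ[O] X) (a : ι → O) (m : ℕ) : tateEigen ϖ t a →ₗ[O] X :=
  (LinearMap.proj m).comp (tateEigen ϖ t a).subtype

@[simp] theorem tateEval_apply (m : ℕ) (v : tateEigen ϖ t a) :
    tateEval ϖ t a m v = (v : ℕ → X) m := rfl

theorem tateEigen_isHausdorff (hϖ0 : ϖ ≠ 0) :
    IsHausdorff (maximalIdeal O) (tateEigen ϖ t a) := by
  constructor
  intro x hx
  apply Subtype.ext
  funext m
  obtain ⟨N, hN⟩ := exists_pow_maximalIdeal_le_span (pow_ne_zero (m + 1) hϖ0)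
  have h1 : (maximalIdeal O ^ N • ⊤ : Submodule O (tateEigen ϖ t a))
      ≤ LinearMap.ker (tateEval ϖ t a m) := by
    rw [Submodule.smul_le]
    intro c hc v _
    obtain ⟨b, rfl⟩ := Ideal.mem_span_singleton'.mp (hN hc)
    rw [LinearMap.mem_ker, map_smul, tateEval_apply, mul_smul, tate_pow_succ_smul v.2,
      smul_zero]
  have h2 := hx N
  rw [SModEq.zero] at h2
  exact LinearMap.mem_ker.mp (h1 h2)

theorem tateEval_zero_ker_le (hϖ : ϖ ∈ maximalIdeal O) :
    LinearMap.ker (tateEval ϖ t a 0)
      ≤ (maximalIdeal O • ⊤ : Submodule O (tateEigen ϖ t a)) := by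
  intro v hv
  rw [LinearMap.mem_ker, tateEval_apply] at hv
  obtain ⟨w, hw, hvw⟩ := tate_exists_eq_pow_smul v.2 1 (fun m hm => by
    obtain rfl : m = 0 := by omega
    exact hv)
  have h1 : v = ϖ • (⟨w, hw⟩ : tateEigen ϖ t a) := by
    apply Subtype.ext
    rw [hvw, pow_one]
    rfl
  rw [h1]
  exact Submodule.smul_mem_smul hϖ Submodule.mem_top

theorem tateEigen_finite [IsAdicComplete (maximalIdeal O) O] (hϖ : ϖ ∈ maximalIdeal O)
    (hϖ0 : ϖ ≠ 0) (hX : ∃ Y : Submodule O X, Y.FG ∧ ∀ x : X, ϖ • x = 0 → x ∈ Y) :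
    Module.Finite O (tateEigen ϖ t a) := by
  obtain ⟨Y, hY, hYX⟩ := hX
  have := tateEigen_isHausdorff (t := t) (a := a) hϖ0
  apply finite_of_finite_quotient (maximalIdeal O)
  -- the range of the evaluation at `0` is finitely generated
  have hrange : LinearMap.range (tateEval ϖ t a 0) ≤ Y := by
    rintro _ ⟨v, rfl⟩
    exact hYX _ v.2.1
  have hYn : IsNoetherian O Y := isNoetherian_of_fg_of_noetherian Y hY
  have hfg : (LinearMap.range (tateEval ϖ t a 0)).FG := by
    have h1 : (Submodule.comap Y.subtype (LinearMap.range (tateEval ϖ t a 0))).FG :=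
      IsNoetherian.noetherian _
    have h2 := h1.map Y.subtype
    rwa [Submodule.map_comap_subtype, inf_eq_right.mpr hrange] at h2
  have hfin1 : Module.Finite O (LinearMap.range (tateEval ϖ t a 0)) :=
    Module.Finite.of_fg hfg
  have hfin2 : Module.Finite O (tateEigen ϖ t a ⧸ LinearMap.ker (tateEval ϖ t a 0)) :=
    Module.Finite.equiv (LinearMap.quotKerEquivRange (tateEval ϖ t a 0)).symm
  exact Module.Finite.of_surjective
    (Submodule.factor (tateEval_zero_ker_le (t := t) (a := a) hϖ))
    (Submodule.factor_surjective _)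

theorem tateEigen_free [IsAdicComplete (maximalIdeal O) O] (hϖ : ϖ ∈ maximalIdeal O)
    (hϖ0 : ϖ ≠ 0) (hX : ∃ Y : Submodule O X, Y.FG ∧ ∀ x : X, ϖ • x = 0 → x ∈ Y) :
    Module.Free O (tateEigen ϖ t a) := by
  have := tateEigen_finite (t := t) (a := a) hϖ hϖ0 hX
  have := tateEigen_isTorsionFree (t := t) (a := a) hϖ
  exact Module.free_of_finite_type_torsion_free'

end Structure

/-! ### The induced action -/

section Action

variable {O : Type*} [CommRing O]
variable {X : Type*} [AddCommGroup X] [Module O X]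
variable {ι : Type*}
variable {ϖ : O} {t : ι → X →ₗ[O] X} {a : ι → O}

/-- The map induced on the Tate module by an endomorphism commuting with the operators. -/
def tateMap (g : X →ₗ[O] X) (hg : ∀ i x, g (t i x) = t i (g x)) :
    tateEigen ϖ t a →ₗ[O] tateEigen ϖ t a where
  toFun v := ⟨fun n => g ((v : ℕ → X) n), by
    refine ⟨?_, ?_, ?_⟩
    · rw [← map_smul, v.2.1, map_zero]
    · intro n
      rw [← map_smul, v.2.2.1 n]
    · intro i n
      rw [← hg, v.2.2.2 i n, map_smul]⟩
  map_add' v w := by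
    apply Subtype.ext
    funext n
    simp
  map_smul' c v := by
    apply Subtype.ext
    funext n
    simp

@[simp] theorem tateMap_apply_coe (g : X →ₗ[O] X) (hg : ∀ i x, g (t i x) = t i (g x))
    (v : tateEigen ϖ t a) (n : ℕ) :
    ((tateMap g hg v : tateEigen ϖ t a) : ℕ → X) n = g ((v : ℕ → X) n) := rfl

variable {G : Type*} [Monoid G] (ρ : G →* Module.End O X)
  (hρ : ∀ (γ : G) (i : ι) (x : X), ρ γ (t i x) = t i (ρ γ x))

/-- The representation on the Tate module. -/
def tateRep : G →* Module.End O (tateEigen ϖ t a) where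
  toFun γ := tateMap (ρ γ) (hρ γ)
  map_one' := by
    apply LinearMap.ext
    intro v
    apply Subtype.ext
    funext n
    simp
  map_mul' γ δ := by
    apply LinearMap.ext
    intro v
    apply Subtype.ext
    funext n
    simp

@[simp] theorem tateRep_apply_coe (γ : G) (v : tateEigen ϖ t a) (n : ℕ) :
    ((tateRep ρ hρ γ v : tateEigen ϖ t a) : ℕ → X) n = ρ γ ((v : ℕ → X) n) := rfl

theorem tateRep_eq_one (γ : G) (hγ : ∀ x : X, (∃ n : ℕ, ϖ ^ n • x = 0) → ρ γ x = x) :
    tateRep (ϖ := ϖ) (a := a) ρ hρ γ = 1 := by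
  apply LinearMap.ext
  intro v
  apply Subtype.ext
  funext n
  rw [tateRep_apply_coe]
  exact hγ _ ⟨n + 1, tate_pow_succ_smul v.2 n⟩

theorem tateRep_quadratic (γ : G) (i : ι) (c : O)
    (hγ : ∀ x : X, (∃ n : ℕ, ϖ ^ n • x = 0) → ρ γ (ρ γ x) - t i (ρ γ x) + c • x = 0) :
    tateRep (ϖ := ϖ) (a := a) ρ hρ γ * tateRep ρ hρ γ - a i • tateRep ρ hρ γ
      + c • (1 : Module.End O (tateEigen ϖ t a)) = 0 := by
  apply LinearMap.ext
  intro v
  apply Subtype.ext
  funext n
  have h1 := hγ ((v : ℕ → X) n) ⟨n + 1, tate_pow_succ_smul v.2 n⟩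
  have h2 : t i (ρ γ ((v : ℕ → X) n)) = a i • ρ γ ((v : ℕ → X) n) := by
    rw [← hρ, v.2.2.2 i n, map_smul]
  rw [h2] at h1
  simpa using h1

theorem tateRep_sub_mem [IsLocalRing O] (hϖ : ϖ ∈ maximalIdeal O) (n : ℕ) (γ : G)
    (hγ : ∀ x : X, ϖ ^ n • x = 0 → ρ γ x = x) (v : tateEigen ϖ t a) :
    tateRep ρ hρ γ v - v ∈ (maximalIdeal O ^ n • ⊤ : Submodule O (tateEigen ϖ t a)) := by
  set w : tateEigen ϖ t a := tateRep ρ hρ γ v - v with hw
  have hw0 : ∀ m, m < n → (w : ℕ → X) m = 0 := by
    intro m hm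
    have h1 : (w : ℕ → X) m = ρ γ ((v : ℕ → X) m) - (v : ℕ → X) m := rfl
    rw [h1, hγ _ (tate_pow_smul_eq_zero v.2 hm), sub_self]
  obtain ⟨w', hw', hww'⟩ := tate_exists_eq_pow_smul w.2 n hw0
  have h2 : w = ϖ ^ n • (⟨w', hw'⟩ : tateEigen ϖ t a) := by
    apply Subtype.ext
    rw [hww']
    rfl
  rw [h2]
  exact Submodule.smul_mem_smul (Ideal.pow_mem_pow hϖ n) Submodule.mem_top

end Action

end

end Fermat.Agent.S30.H529

end
-- ===== PACK-END S30/H529/TateCore.lean

-- ===== PACK-BEGIN S29/H872/Burnside.lean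
section





/-!
# Burnside's theorem (from Mathlib's Schur lemma + Jacobson density)

A subalgebra of `End_K(U)` (`K` algebraically closed, `U` finite dimensional, nonzero) without
nontrivial invariant subspaces is everything.
-/

set_option autoImplicit false

namespace Fermat.Agent.S29.H872

open Module

variable {K : Type*} [Field K] {U : Type*} [AddCommGroup U] [Module K U]

section Burnside

variable (A : Subalgebra K (Module.End K U))

theorem subalgebra_smul_def (a : A) (u : U) : a • u = (a : Module.End K U) u := rfl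

instance instIsScalarTowerSubalgebraEnd : IsScalarTower K A U :=
  ⟨fun c a u => by
    rw [subalgebra_smul_def, subalgebra_smul_def]
    simp⟩

theorem isSimpleModule_of_irr [Nontrivial U]
    (hirr : ∀ W : Submodule K U, (∀ a ∈ A, W ≤ W.comap a) → W = ⊥ ∨ W = ⊤) :
    IsSimpleModule A U := by
  rw [isSimpleModule_iff]
  have : Nontrivial (Submodule A U) := inferInstance
  refine ⟨fun W => ?_⟩
  have h := hirr (W.restrictScalars K) (fun a ha w hw => by
    change (a : Module.End K U) w ∈ W
    exact W.smul_mem (⟨a, ha⟩ : A) hw)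
  rcases h with h | h
  · left
    exact Submodule.restrictScalars_injective K A U (by rw [h]; rfl)
  · right
    exact Submodule.restrictScalars_injective K A U (by rw [h]; rfl)

variable [IsAlgClosed K] [FiniteDimensional K U]

/-- **Burnside's theorem.** -/
theorem burnside [Nontrivial U]
    (hirr : ∀ W : Submodule K U, (∀ a ∈ A, W ≤ W.comap a) → W = ⊥ ∨ W = ⊤) :
    A = ⊤ := by
  have : IsSimpleModule A U := isSimpleModule_of_irr A hirr
  have hschur : Function.Bijective (algebraMap K (Module.End A U)) :=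
    IsSimpleModule.algebraMap_end_bijective_of_isAlgClosed K
  have : Module.Finite (Module.End A U) U :=
    Module.Finite.of_restrictScalars_finite K (Module.End A U) U
  have hdens := Module.Finite.toModuleEnd_moduleEnd_surjective (R := A) (M := U)
  rw [eq_top_iff]
  intro f _
  -- `f` is linear over `End_A(U) = K`
  let f' : Module.End (Module.End A U) U :=
    { toFun := f
      map_add' := f.map_add
      map_smul' := fun e u => by
        obtain ⟨c, rfl⟩ := hschur.2 e
        simp }
  obtain ⟨a, ha⟩ := hdens f'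
  have : (a : Module.End K U) = f := by
    ext u
    have := congrArg (fun g : Module.End (Module.End A U) U => g u) ha
    have h2 : a • u = f u := by simpa [f'] using this
    exact h2
  rw [← this]
  exact a.2

end Burnside

end Fermat.Agent.S29.H872

end
-- ===== PACK-END S29/H872/Burnside.lean

-- ===== PACK-BEGIN S31/H262/Reduced.lean
section


/-!
# S31 / SS6 (helper262): `ℚ_[p] ⊗[ℤ] B` is reduced for a reduced ring `B`, finite over `ℤ`

Route: `ℚ ⊗[ℤ] B` is a localisation of `B`, hence reduced; it is a finite-dimensional reduced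
`ℚ`-algebra, hence a finite product of (separable) field extensions of `ℚ`, hence formally
unramified over `ℚ`; base change to `ℚ_[p]` stays formally unramified, hence reduced.
-/

set_option autoImplicit false
set_option linter.unusedSectionVars false
set_option linter.style.haveILetI false

noncomputable section

namespace Fermat.Agent.S31.H262

open scoped TensorProduct

section Reduced

variable (B : Type) [CommRing B] [Module.Finite ℤ B] [IsReduced B]

attribute [local instance] Algebra.TensorProduct.rightAlgebra in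
theorem isReduced_rat_tensor : IsReduced (ℚ ⊗[ℤ] B) := by
  haveI : IsLocalization (Algebra.algebraMapSubmonoid B (nonZeroDivisors ℤ)) (ℚ ⊗[ℤ] B) :=
    IsLocalization.tensorRight (R := ℤ) (S := B) ℚ (nonZeroDivisors ℤ)
  exact isReduced_localizationPreserves
    (Algebra.algebraMapSubmonoid B (nonZeroDivisors ℤ)) (ℚ ⊗[ℤ] B) inferInstance

theorem isArtinianRing_rat_tensor : IsArtinianRing (ℚ ⊗[ℤ] B) :=
  isArtinian_of_tower ℚ inferInstance

attribute [local instance] IsArtinianRing.fieldOfSubtypeIsMaximal in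
theorem formallyEtale_rat_tensor : Algebra.FormallyEtale ℚ (ℚ ⊗[ℤ] B) := by
  haveI := isReduced_rat_tensor B
  haveI := isArtinianRing_rat_tensor B
  rw [Algebra.FormallyEtale.iff_exists_algEquiv_prod]
  exact ⟨MaximalSpectrum (ℚ ⊗[ℤ] B), inferInstance, fun I => (ℚ ⊗[ℤ] B) ⧸ I.asIdeal,
    inferInstance, inferInstance, (IsArtinianRing.equivPi (ℚ ⊗[ℤ] B)).restrictScalars ℚ,
    fun I => inferInstance⟩

variable (K : Type) [Field K] [CharZero K]

/-- `K ⊗[ℤ] B` is reduced for every field `K` of characteristic zero. -/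
theorem isReduced_field_tensor : IsReduced (K ⊗[ℤ] B) := by
  letI : Algebra ℚ K := DivisionRing.toRatAlgebra
  haveI := formallyEtale_rat_tensor B
  haveI : Algebra.FormallyUnramified K (K ⊗[ℚ] (ℚ ⊗[ℤ] B)) := inferInstance
  haveI : IsReduced (K ⊗[ℚ] (ℚ ⊗[ℤ] B)) :=
    Algebra.FormallyUnramified.isReduced_of_field K (K ⊗[ℚ] (ℚ ⊗[ℤ] B))
  exact isReduced_of_injective
    (Algebra.TensorProduct.cancelBaseChange ℤ ℚ K K B).symm.toRingEquiv
    (Algebra.TensorProduct.cancelBaseChange ℤ ℚ K K B).symm.injective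

end Reduced

end Fermat.Agent.S31.H262

end
end
-- ===== PACK-END S31/H262/Reduced.lean

-- ===== PACK-BEGIN S21/Defs.lean
section


/-!
# S21 — common definitions for the Hodge (Dirichlet principle) part D'
-/

set_option autoImplicit false

open UpperHalfPlane
open scoped MatrixGroups

namespace Fermat.Agent.S21

/-- The upper half plane as an open subset of `ℂ`. -/
def Uhp : Set ℂ := {z : ℂ | 0 < z.im}

theorem mem_Uhp {z : ℂ} : z ∈ Uhp ↔ 0 < z.im := Iff.rfl

theorem isOpen_Uhp : IsOpen Uhp := isOpen_lt continuous_const Complex.continuous_im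

theorem coe_mem_Uhp (z : ℍ) : (z : ℂ) ∈ Uhp := z.im_pos

/-- `2 ∂/∂z = ∂_x - i ∂_y` of a real-valued function on `ℂ`. -/
noncomputable def dz (u : ℂ → ℝ) (z : ℂ) : ℂ :=
  ((fderiv ℝ u z 1 : ℝ) : ℂ) - Complex.I * ((fderiv ℝ u z Complex.I : ℝ) : ℂ)

/-- The Möbius action of `SL(2,ℤ)` written on `ℂ` (junk value off the upper half plane). -/
noncomputable def mob (g : SL(2, ℤ)) (z : ℂ) : ℂ := ((g • ofComplex z : ℍ) : ℂ)

/-- The automorphy factor `c z + d`. -/
def cd (g : SL(2, ℤ)) (z : ℂ) : ℂ := ((g 1 0 : ℤ) : ℂ) * z + ((g 1 1 : ℤ) : ℂ)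

/-- The compact cusp strip `{ |Re z| ≤ 1, 2 ≤ Im z ≤ Y }`. -/
def strip (Y : ℝ) : Set ℂ := {z : ℂ | |z.re| ≤ 1 ∧ 2 ≤ z.im ∧ z.im ≤ Y}

end Fermat.Agent.S21

end
-- ===== PACK-END S21/Defs.lean

-- ===== PACK-BEGIN S18/H845/EtaleVal.lean
section


/-!
# S18 / d1(c): constant-field extensions are unramified — the valuation-theoretic core

`R` a discrete valuation ring with uniformiser `π`, `L ⊇ R` a field, `B ⊆ L` a valuation subring
containing `R` in which `π` is not a unit.  Let `α ∈ L` be a root of a monic `p ∈ R[X]` whose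
reduction modulo `π` is separable.  Then the value group of `B` on `Frac(R)[α]` is generated by
the value of `π`: for every `g ∈ R[X]` with `g(α) ≠ 0`, `v (g α) = v π ^ j` for some `j : ℕ`.
-/

set_option autoImplicit false
set_option linter.unusedSectionVars false

namespace Fermat.Agent.S18.H845

open Polynomial IsLocalRing

section FL

variable {R L : Type*} [CommRing R] [IsDomain R] [IsDiscreteValuationRing R] [Field L]
  [Algebra R L]

/-- A polynomial over a DVR whose reduction vanishes is divisible by the uniformiser. -/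
lemma exists_C_mul_of_map_residue_eq_zero {π : R} (hπ : Irreducible π) {q : R[X]}
    (hq : q.map (residue R) = 0) : ∃ G : R[X], q = C π * G := by
  have h : C π ∣ q := by
    rw [Polynomial.C_dvd_iff_dvd_coeff]
    intro i
    have hi : residue R (q.coeff i) = 0 := by
      have := congrArg (fun f => f.coeff i) hq
      simpa using this
    rw [residue_eq_zero_iff, hπ.maximalIdeal_eq, Ideal.mem_span_singleton] at hi
    exact hi
  exact h

variable (B : ValuationSubring L)

omit [IsDomain R] [IsDiscreteValuationRing R] in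
/-- Evaluation at an element of `B` of a polynomial with coefficients in `R ⊆ B` lies in `B`. -/
lemma aeval_mem_of_mem (hRB : ∀ r : R, algebraMap R L r ∈ B) {f : L} (hf : f ∈ B) (q : R[X]) :
    aeval f q ∈ B := by
  induction q using Polynomial.induction_on' with
  | add p q hp hq => rw [map_add]; exact B.add_mem _ _ hp hq
  | monomial n a =>
    rw [aeval_monomial]
    exact B.mul_mem _ _ (hRB a) (pow_mem hf n)

omit [IsDomain R] [IsDiscreteValuationRing R] in
/-- A root of a monic polynomial over `R ⊆ B` lies in `B`. -/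
lemma mem_of_monic_root (hRB : ∀ r : R, algebraMap R L r ∈ B) {α : L} {p : R[X]}
    (hp : p.Monic) (hpα : aeval α p = 0) : α ∈ B := by
  let fRB : R →+* B := (algebraMap R L).codRestrict B hRB
  have hint : IsIntegral B α := by
    refine ⟨p.map fRB, hp.map _, ?_⟩
    rw [Polynomial.eval₂_map]
    have : (algebraMap B L).comp fRB = algebraMap R L := RingHom.ext fun _ => rfl
    rw [this]
    exact hpα
  obtain ⟨y, hy⟩ := (IsIntegrallyClosed.isIntegral_iff (R := B) (K := L)).mp hint
  rw [← hy]
  exact y.2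

variable (hRB : ∀ r : R, algebraMap R L r ∈ B)
  {π : R} (hπ : Irreducible π) (hπB : B.valuation (algebraMap R L π) < 1)
  {α : L} {p : R[X]} (hp : p.Monic) (hpα : aeval α p = 0)
  (hsep : (p.map (residue R)).Separable)

omit [IsDomain R] [IsDiscreteValuationRing R] in
include hRB in
lemma val_aeval_le_one {f : L} (hf : f ∈ B) (q : R[X]) : B.valuation (aeval f q) ≤ 1 :=
  (B.valuation_le_one_iff _).mpr (aeval_mem_of_mem B hRB hf q)

include hRB hπ hπB in
/-- `R → B` is a local homomorphism. -/
lemma isLocalHom_codRestrict : IsLocalHom ((algebraMap R L).codRestrict B hRB) := by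
  refine ⟨fun a ha => ?_⟩
  by_contra hna
  have hmem : a ∈ maximalIdeal R := (mem_maximalIdeal a).mpr hna
  rw [hπ.maximalIdeal_eq, Ideal.mem_span_singleton] at hmem
  obtain ⟨b, rfl⟩ := hmem
  have h1 : B.valuation (algebraMap R L (π * b)) = 1 := by
    have := (B.valuation_eq_one_iff ((algebraMap R L).codRestrict B hRB (π * b))).mp ha
    exact this
  rw [map_mul, map_mul] at h1
  have h2 : B.valuation (algebraMap R L b) ≤ 1 := (B.valuation_le_one_iff _).mpr (hRB b)
  have h3 : B.valuation (algebraMap R L π) * B.valuation (algebraMap R L b) < 1 :=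
    mul_lt_one_of_lt_of_le hπB h2
  exact absurd h1 h3.ne

include hRB hπ hπB hp hpα hsep in
/-- Key step: an element `g(α)` of positive valuation is `π` times another such element, up to
a unit of `B`. -/
lemma key_step (g : R[X]) (hg : B.valuation (aeval α g) < 1) :
    ∃ g₁ : R[X], B.valuation (aeval α g) =
      B.valuation (algebraMap R L π) * B.valuation (aeval α g₁) := by
  classical
  have hαB : α ∈ B := mem_of_monic_root B hRB hp hpα
  let fRB : R →+* B := (algebraMap R L).codRestrict B hRB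
  have : IsLocalHom fRB := isLocalHom_codRestrict B hRB hπ hπB
  let αB : B := ⟨α, hαB⟩
  let κ := ResidueField R
  let κB := ResidueField B
  let fκ : κ →+* κB := ResidueField.map fRB
  let ψ' : κ[X] →+* κB := Polynomial.eval₂RingHom fκ (residue B αB)
  -- compatibility
  have hcompat : ∀ q : R[X], ψ' (q.map (residue R)) =
      residue B ⟨aeval α q, aeval_mem_of_mem B hRB hαB q⟩ := by
    intro q
    have e1 : ψ' (q.map (residue R)) = Polynomial.eval₂ (fκ.comp (residue R)) (residue B αB) q := by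
      show Polynomial.eval₂ fκ (residue B αB) (q.map (residue R)) = _
      rw [Polynomial.eval₂_map]
    have e2 : fκ.comp (residue R) = (residue B).comp fRB := by
      ext r
      exact ResidueField.map_residue fRB r
    have e3 : Polynomial.eval₂ ((residue B).comp fRB) (residue B αB) q =
        residue B (Polynomial.eval₂ fRB αB q) := by
      rw [Polynomial.hom_eval₂]
    have e4 : Polynomial.eval₂ fRB αB q = ⟨aeval α q, aeval_mem_of_mem B hRB hαB q⟩ := by
      apply Subtype.ext
      have : (B.subtype : B →+* L) (Polynomial.eval₂ fRB αB q) =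
          Polynomial.eval₂ (B.subtype.comp fRB) (B.subtype αB) q := by
        rw [Polynomial.hom_eval₂]
      rw [show ((Polynomial.eval₂ fRB αB q : B) : L) = B.subtype (Polynomial.eval₂ fRB αB q)
        from rfl, this]
      rfl
    rw [e1, e2, e3, e4]
  -- vanishing
  have hres_zero : ∀ q : R[X], ψ' (q.map (residue R)) = 0 ↔ B.valuation (aeval α q) < 1 := by
    intro q
    rw [hcompat, residue_eq_zero_iff, B.valuation_lt_one_iff]
  set gb := g.map (residue R) with hgb
  set pb := p.map (residue R) with hpb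
  have hψg : ψ' gb = 0 := (hres_zero g).mpr hg
  have hψp : ψ' pb = 0 := (hres_zero p).mpr (by rw [hpα, map_zero]; exact zero_lt_one)
  -- gcd
  set d := EuclideanDomain.gcd gb pb with hd
  have hψd : ψ' d = 0 := by
    rw [hd, EuclideanDomain.gcd_eq_gcd_ab, map_add, map_mul, map_mul, hψg, hψp]
    simp
  obtain ⟨e, he⟩ : d ∣ pb := EuclideanDomain.gcd_dvd_right gb pb
  obtain ⟨h, hh⟩ : d ∣ gb := EuclideanDomain.gcd_dvd_left gb pb
  have hcop : IsCoprime d e := by
    have : (d * e).Separable := by rw [← he]; exact hsep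
    exact this.isCoprime
  have hψe : ψ' e ≠ 0 := by
    obtain ⟨a, b, hab⟩ := hcop
    intro h0
    have := congrArg ψ' hab
    rw [map_add, map_mul, map_mul, hψd, h0, map_one] at this
    simp at this
  -- lifts
  obtain ⟨D, hD⟩ := Polynomial.map_surjective (residue R) (residue_surjective) d
  obtain ⟨E, hE⟩ := Polynomial.map_surjective (residue R) (residue_surjective) e
  obtain ⟨H, hH⟩ := Polynomial.map_surjective (residue R) (residue_surjective) h
  obtain ⟨G, hG⟩ := exists_C_mul_of_map_residue_eq_zero hπ (q := g - D * H) (by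
    rw [Polynomial.map_sub, Polynomial.map_mul, hD, hH, ← hh, sub_self])
  obtain ⟨T, hT⟩ := exists_C_mul_of_map_residue_eq_zero hπ (q := D * E - p) (by
    rw [Polynomial.map_sub, Polynomial.map_mul, hD, hE, ← he, sub_self])
  refine ⟨H * T + G * E, ?_⟩
  have hpoly : g * E = H * p + C π * (H * T + G * E) := by
    have h1 : g = D * H + C π * G := by rw [← hG]; ring
    have h2 : D * E = p + C π * T := by rw [← hT]; ring
    calc g * E = (D * H + C π * G) * E := by rw [← h1]
      _ = H * (D * E) + C π * (G * E) := by ring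
      _ = H * (p + C π * T) + C π * (G * E) := by rw [h2]
      _ = H * p + C π * (H * T + G * E) := by ring
  have hev := congrArg (aeval α) hpoly
  rw [map_mul, map_add, map_mul, map_mul, hpα, mul_zero, zero_add, aeval_C] at hev
  have hEunit : B.valuation (aeval α E) = 1 := by
    have h1 : B.valuation (aeval α E) ≤ 1 := val_aeval_le_one B hRB hαB E
    have h2 : ¬ B.valuation (aeval α E) < 1 := by
      rw [← hres_zero, hE]
      exact hψe
    exact le_antisymm h1 (not_lt.mp h2)
  have := congrArg B.valuation hev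
  rw [map_mul, map_mul, hEunit, mul_one] at this
  exact this


include hRB in
/-- Units of `R` have valuation one. -/
lemma val_unit_eq_one (u : Rˣ) : B.valuation (algebraMap R L (u : R)) = 1 := by
  have h1 : B.valuation (algebraMap R L (u : R)) ≤ 1 := (B.valuation_le_one_iff _).mpr (hRB _)
  have h2 : B.valuation (algebraMap R L ((u⁻¹ : Rˣ) : R)) ≤ 1 :=
    (B.valuation_le_one_iff _).mpr (hRB _)
  have h3 : B.valuation (algebraMap R L (u : R)) * B.valuation (algebraMap R L ((u⁻¹ : Rˣ) : R))
      = 1 := by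
    rw [← map_mul, ← map_mul, Units.mul_inv, map_one, map_one]
  by_contra hne
  have hlt : B.valuation (algebraMap R L (u : R)) < 1 := lt_of_le_of_ne h1 hne
  have : B.valuation (algebraMap R L (u : R)) * B.valuation (algebraMap R L ((u⁻¹ : Rˣ) : R))
      < 1 := mul_lt_one_of_lt_of_le hlt h2
  exact absurd h3 this.ne

include hRB hπ in
/-- Nonzero elements of `R` have valuation a power of `v π`. -/
lemma val_algebraMap_eq_pow {c : R} (hc : c ≠ 0) :
    ∃ k : ℕ, B.valuation (algebraMap R L c) = B.valuation (algebraMap R L π) ^ k := by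
  obtain ⟨n, u, hu⟩ := IsDiscreteValuationRing.eq_unit_mul_pow_irreducible hc hπ
  refine ⟨n, ?_⟩
  rw [hu, map_mul, map_mul, val_unit_eq_one B hRB, one_mul, map_pow, map_pow]

include hRB hπ in
/-- Archimedean property: a nonzero element integral over `R` has valuation at least a power
of `v π`. -/
lemma exists_pow_le_val {f : L} (hf0 : f ≠ 0) (hfint : IsIntegral R f) :
    ∃ k : ℕ, B.valuation (algebraMap R L π) ^ k ≤ B.valuation f := by
  obtain ⟨a, ha, haf⟩ := hfint
  have haf' : aeval f a = 0 := haf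
  have hfB : f ∈ B := mem_of_monic_root B hRB ha haf'
  obtain ⟨a', ha', hnd⟩ :=
    Polynomial.exists_eq_pow_rootMultiplicity_mul_and_not_dvd a ha.ne_zero (0 : R)
  rw [map_zero, sub_zero] at ha' hnd
  have ha'f : aeval f a' = 0 := by
    have := haf'
    rw [ha', map_mul, map_pow, aeval_X] at this
    rcases mul_eq_zero.mp this with h | h
    · exact absurd (pow_eq_zero_iff'.mp h).1 hf0
    · exact h
  have hc0 : a'.coeff 0 ≠ 0 := fun h0 => hnd (Polynomial.X_dvd_iff.mpr h0)
  obtain ⟨k, hk⟩ := val_algebraMap_eq_pow B hRB hπ hc0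
  refine ⟨k, ?_⟩
  have hdec : a'.divX * X + C (a'.coeff 0) = a' := Polynomial.divX_mul_X_add a'
  have hev : aeval f a'.divX * f + algebraMap R L (a'.coeff 0) = 0 := by
    have := congrArg (aeval f) hdec
    rw [map_add, map_mul, aeval_X, aeval_C, ha'f] at this
    exact this
  have hc : algebraMap R L (a'.coeff 0) = -(aeval f a'.divX * f) := by
    rw [eq_neg_iff_add_eq_zero, add_comm]; exact hev
  rw [← hk, hc, Valuation.map_neg, map_mul]
  exact mul_le_of_le_one_left' (val_aeval_le_one B hRB hfB _)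

include hRB hp hpα in
lemma isIntegral_aeval (g : R[X]) : IsIntegral R (aeval α g) := by
  have hα : IsIntegral R α := ⟨p, hp, hpα⟩
  have h1 : aeval α g ∈ Algebra.adjoin R {α} := Polynomial.aeval_mem_adjoin_singleton R α
  have h2 : Algebra.adjoin R {α} ≤ integralClosure R L :=
    Algebra.adjoin_le (by rintro x ⟨rfl⟩; exact hα)
  exact h2 h1

include hRB hπ hπB hp hpα hsep in
lemma val_eq_pow_of_le (hinj : Function.Injective (algebraMap R L)) (k : ℕ) :
    ∀ g : R[X], aeval α g ≠ 0 →
      B.valuation (algebraMap R L π) ^ k ≤ B.valuation (aeval α g) →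
      ∃ j : ℕ, B.valuation (aeval α g) = B.valuation (algebraMap R L π) ^ j := by
  have hαB : α ∈ B := mem_of_monic_root B hRB hp hpα
  have hπ0 : B.valuation (algebraMap R L π) ≠ 0 := by
    rw [Valuation.ne_zero_iff]
    intro h
    exact hπ.ne_zero (hinj (by rw [h, map_zero]))
  induction k with
  | zero =>
    intro g _ hle
    refine ⟨0, ?_⟩
    rw [pow_zero] at hle ⊢
    exact le_antisymm (val_aeval_le_one B hRB hαB g) hle
  | succ k ih =>
    intro g hg0 hle
    by_cases h1 : B.valuation (aeval α g) < 1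
    · obtain ⟨g₁, hg₁⟩ := key_step B hRB hπ hπB hp hpα hsep g h1
      have hg₁0 : aeval α g₁ ≠ 0 := by
        intro h0
        rw [h0, map_zero, mul_zero] at hg₁
        exact hg0 ((Valuation.zero_iff _).mp hg₁)
      have hle' : B.valuation (algebraMap R L π) ^ k ≤ B.valuation (aeval α g₁) := by
        rw [hg₁, pow_succ'] at hle
        exact le_of_mul_le_mul_left hle (zero_lt_iff.mpr hπ0)
      obtain ⟨j, hj⟩ := ih g₁ hg₁0 hle'
      exact ⟨j + 1, by rw [hg₁, hj, pow_succ']⟩
    · refine ⟨0, ?_⟩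
      rw [pow_zero]
      exact le_antisymm (val_aeval_le_one B hRB hαB g) (not_lt.mp h1)

include hRB hπ hπB hp hpα hsep in
/-- **Unramifiedness, integral form.** -/
theorem val_aeval_eq_pow (hinj : Function.Injective (algebraMap R L)) (g : R[X])
    (hg : aeval α g ≠ 0) :
    ∃ j : ℕ, B.valuation (aeval α g) = B.valuation (algebraMap R L π) ^ j := by
  obtain ⟨k, hk⟩ := exists_pow_le_val B hRB hπ hg (isIntegral_aeval B hRB hp hpα g)
  exact val_eq_pow_of_le B hRB hπ hπB hp hpα hsep hinj k g hg hk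

end FL

end Fermat.Agent.S18.H845

end
-- ===== PACK-END S18/H845/EtaleVal.lean

-- ===== PACK-BEGIN S29/H455/KummerCorr.lean
section


/-!
# Kummer classes in `Pic⁰` and correspondences (Prelude language)

`IsKummerClass n f x` : the class `x ∈ Pic⁰(F)` is represented by a degree-zero divisor `D` with
`n • D = div f`.  Main results:

* `exists_isKummerClass_of_zsmul_eq_zero` : every `n`-torsion class is a Kummer class;
* `IsKummerClass.unique`, `.add`, `.neg`, `.mul_pow`, `.eq_zero_iff` ;
* `IsKummerClass.correspondence` : the correspondence `ψ_* φ^*` (Prelude `Pic0.correspondence`,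
  e.g. the Hecke operator `T_ℓ = α_* β^*`) sends the Kummer class of `f` to the Kummer class of
  `Norm_ψ (φ f)`;
* `IsKummerClass.smul` : semilinear automorphisms send the Kummer class of `f` to that of `g • f`.
-/

set_option autoImplicit false
set_option linter.style.haveILetI false
set_option linter.unusedSectionVars false

noncomputable section

namespace Fermat.Agent.S29.H455

open AlgebraicCurve

variable {K F F' : Type*} [Field K] [Field F] [Field F'] [Algebra K F] [Algebra K F']

/-- The norm along an algebra homomorphism `ψ : F → F'` (Prelude `algebraAlong`). -/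
def normAlong (ψ : F →ₐ[K] F') (y : F') : F :=
  letI := algebraAlong ψ
  Algebra.norm F y

theorem normAlong_ne_zero (ψ : F →ₐ[K] F') (hfin : FiniteAlong K ψ) {y : F'} (hy : y ≠ 0) :
    normAlong ψ y ≠ 0 := by
  letI := algebraAlong ψ
  haveI : Module.Finite F F' := hfin
  exact Algebra.norm_ne_zero_iff.mpr hy

theorem normAlong_mul (ψ : F →ₐ[K] F') (y z : F') :
    normAlong ψ (y * z) = normAlong ψ y * normAlong ψ z := by
  letI := algebraAlong ψ
  exact map_mul (Algebra.norm F) y z

theorem normAlong_pow (ψ : F →ₐ[K] F') (y : F') (n : ℕ) :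
    normAlong ψ (y ^ n) = normAlong ψ y ^ n := by
  letI := algebraAlong ψ
  exact map_pow (Algebra.norm F) y n

section Divisors

variable [HasPrincipalDivisors K F']
variable (φ ψ : F →ₐ[K] F') (hφ : φ.toRingHom.IsIntegral) (hψ : ψ.toRingHom.IsIntegral)

theorem pullbackAlong_apply_of_ord {f : F} {D : Divisor K F}
    (hD : ∀ v : Place K F, D v = v.ord f) (w : Place K F') :
    Divisor.pullbackAlong φ hφ D w = w.ord (φ f) := by
  letI := algebraAlong φ
  haveI := isScalarTower_along φ
  haveI := isIntegral_along φ hφ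
  exact Divisor.pullback_apply_eq_ord hD w

theorem pushforwardAlong_apply_of_ord (hfin : FiniteAlong K ψ) (hN : NormFormulaAlong K ψ hfin)
    {g : F'} (hg : g ≠ 0) {D : Divisor K F'} (hD : ∀ w : Place K F', D w = w.ord g)
    (v : Place K F) :
    Divisor.pushforwardAlong ψ hψ D v = v.ord (normAlong ψ g) := by
  letI := algebraAlong ψ
  haveI := isScalarTower_along ψ
  haveI := isIntegral_along ψ hψ
  haveI : Module.Finite F F' := hfin
  exact hN g hg D hD v

/-- The correspondence `ψ_* φ^*` sends `div f` to `div (Norm_ψ (φ f))`. -/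
theorem correspondence_apply_of_ord (hfin : FiniteAlong K ψ) (hN : NormFormulaAlong K ψ hfin)
    {f : F} (hf : f ≠ 0) {D : Divisor K F} (hD : ∀ v : Place K F, D v = v.ord f)
    (v : Place K F) :
    Divisor.correspondence φ ψ hφ hψ D v = v.ord (normAlong ψ (φ f)) := by
  rw [Divisor.correspondence_apply]
  refine pushforwardAlong_apply_of_ord ψ hψ hfin hN ?_ (fun w => ?_) v
  · exact (map_ne_zero φ).mpr hf
  · exact pullbackAlong_apply_of_ord φ hφ hD w

/-- If `n • D = div f` then `n • (ψ_* φ^* D) = div (Norm_ψ (φ f))`. -/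
theorem correspondence_kummer (hfin : FiniteAlong K ψ) (hN : NormFormulaAlong K ψ hfin)
    {n : ℤ} {f : F} (hf : f ≠ 0) {D : Divisor K F}
    (hD : ∀ v : Place K F, n * D v = v.ord f) (v : Place K F) :
    n * Divisor.correspondence φ ψ hφ hψ D v = v.ord (normAlong ψ (φ f)) := by
  have h := correspondence_apply_of_ord φ ψ hφ hψ hfin hN hf (D := n • D)
    (fun v => by rw [Finsupp.smul_apply, smul_eq_mul, hD]) v
  rw [map_zsmul, Finsupp.smul_apply, smul_eq_mul] at h
  exact h

end Divisors

/-! ### The Kummer relation -/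

/-- `x` is the `n`-Kummer class of `f`: `x = [D]` with `D` of degree zero and `n • D = div f`. -/
def IsKummerClass (n : ℤ) (f : F) (x : Pic0 K F) : Prop :=
  f ≠ 0 ∧ ∃ D : Divisor.degZero (K := K) (F := F),
    Pic0.mk D = x ∧ ∀ v : Place K F, n * (D : Divisor K F) v = v.ord f

namespace IsKummerClass

variable {n : ℤ} {f g : F} {x y : Pic0 K F}

theorem ne_zero (h : IsKummerClass n f x) : f ≠ 0 := h.1

/-- A Kummer class is `n`-torsion. -/
theorem zsmul_eq_zero (h : IsKummerClass n f x) : n • x = 0 := by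
  obtain ⟨hf, D, rfl, hD⟩ := h
  have h1 : n • Pic0.mk D = Pic0.mk (n • D) := rfl
  rw [h1]
  refine (QuotientAddGroup.eq_zero_iff _).mpr ?_
  rw [AddSubgroup.mem_addSubgroupOf]
  refine ⟨f, hf, fun v => ?_⟩
  rw [← hD v]
  simp

theorem add (hx : IsKummerClass n f x) (hy : IsKummerClass n g y) :
    IsKummerClass n (f * g) (x + y) := by
  obtain ⟨hf, D, rfl, hD⟩ := hx
  obtain ⟨hg, E, rfl, hE⟩ := hy
  refine ⟨mul_ne_zero hf hg, D + E, rfl, fun v => ?_⟩
  rw [Place.ord_mul v hf hg, ← hD v, ← hE v]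
  simp [mul_add]

theorem neg (hx : IsKummerClass n f x) : IsKummerClass n f⁻¹ (-x) := by
  obtain ⟨hf, D, rfl, hD⟩ := hx
  refine ⟨inv_ne_zero hf, -D, rfl, fun v => ?_⟩
  rw [Place.ord_inv, ← hD v]
  simp

theorem zero : IsKummerClass n (1 : F) (0 : Pic0 K F) :=
  ⟨one_ne_zero, 0, rfl, fun v => by simp⟩

/-- Changing `f` by an `n`-th power changes the divisor by a principal divisor. -/
theorem mul_zpow [HasPrincipalDivisors K F] (hx : IsKummerClass n f x) (hg : g ≠ 0) :
    IsKummerClass n (f * g ^ n) x := by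
  obtain ⟨hf, D, rfl, hD⟩ := hx
  obtain ⟨E, hE, hE0⟩ := HasPrincipalDivisors.exists_divisor (K := K) g hg
  refine ⟨mul_ne_zero hf (zpow_ne_zero n hg), D + ⟨E, hE0⟩, ?_, fun v => ?_⟩
  · rw [Pic0.mk_add]
    have : Pic0.mk (⟨E, hE0⟩ : Divisor.degZero (K := K) (F := F)) = 0 := by
      refine (QuotientAddGroup.eq_zero_iff _).mpr ?_
      rw [AddSubgroup.mem_addSubgroupOf]
      exact ⟨g, hg, hE⟩
    rw [this, add_zero]
  · rw [Place.ord_mul v hf (zpow_ne_zero n hg), Place.ord_zpow, ← hD v]
    simp [mul_add, hE v]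

/-- The Kummer class of `f` is unique (for `n ≠ 0`). -/
theorem unique (hn : n ≠ 0) (hx : IsKummerClass n f x) (hy : IsKummerClass n f y) : x = y := by
  obtain ⟨-, D, rfl, hD⟩ := hx
  obtain ⟨-, E, rfl, hE⟩ := hy
  congr 1
  apply Subtype.ext
  apply Finsupp.ext
  intro v
  have := (hD v).trans (hE v).symm
  exact mul_left_cancel₀ hn this

/-- The Kummer class of `f` vanishes iff `div f = n • div g` for some `g`. -/
theorem eq_zero_iff (hn : n ≠ 0) (hx : IsKummerClass n f x) :
    x = 0 ↔ ∃ g : F, g ≠ 0 ∧ ∀ v : Place K F, v.ord f = n * v.ord g := by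
  obtain ⟨hf, D, rfl, hD⟩ := hx
  constructor
  · intro h
    have h1 := (QuotientAddGroup.eq_zero_iff _).mp h
    rw [AddSubgroup.mem_addSubgroupOf] at h1
    obtain ⟨g, hg, hDg⟩ := h1
    exact ⟨g, hg, fun v => by rw [← hD v, hDg v]⟩
  · rintro ⟨g, hg, hfg⟩
    refine (QuotientAddGroup.eq_zero_iff _).mpr ?_
    rw [AddSubgroup.mem_addSubgroupOf]
    refine ⟨g, hg, fun v => ?_⟩
    have := (hD v).trans (hfg v)
    exact mul_left_cancel₀ hn this

/-- **Correspondences on Kummer classes**: `ψ_* φ^*` sends the Kummer class of `f` to the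
Kummer class of `Norm_ψ (φ f)`. -/
theorem correspondence [HasPrincipalDivisors K F'] (φ ψ : F →ₐ[K] F')
    (hφ : φ.toRingHom.IsIntegral) (hψ : ψ.toRingHom.IsIntegral)
    (hFI : FundamentalIdentityAlong K φ hφ) (hfin : FiniteAlong K ψ)
    (hN : NormFormulaAlong K ψ hfin) (hx : IsKummerClass n f x) :
    IsKummerClass n (normAlong ψ (φ f)) (Pic0.correspondence φ ψ hφ hψ hFI hfin hN x) := by
  obtain ⟨hf, D, rfl, hD⟩ := hx
  refine ⟨normAlong_ne_zero ψ hfin ((map_ne_zero φ).mpr hf),
    Pic0.degZeroCorrespondence φ ψ hφ hψ hFI D, (Pic0.correspondence_mk _ _ _ _ _ _ _ D).symm,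
    fun v => ?_⟩
  rw [Pic0.coe_degZeroCorrespondence]
  exact correspondence_kummer φ ψ hφ hψ hfin hN hf hD v

/-- **Semilinear automorphisms on Kummer classes**. -/
theorem smul (σ : SemilinearAut K F) (hx : IsKummerClass n f x) :
    IsKummerClass n (σ • f) (σ • x) := by
  obtain ⟨hf, D, rfl, hD⟩ := hx
  refine ⟨?_, SemilinearAut.degZeroSMulHom σ D, (SemilinearAut.pic0_smul_mk σ D).symm,
    fun v => ?_⟩
  · rw [SemilinearAut.smul_def]
    exact (map_ne_zero _).mpr hf
  · rw [SemilinearAut.coe_degZeroSMulHom, SemilinearAut.divisor_smul_apply, hD (σ⁻¹ • v)]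
    have h := SemilinearAut.ord_smul σ (σ⁻¹ • v) f
    rw [smul_inv_smul] at h
    exact h.symm

end IsKummerClass

/-- Every `n`-torsion class is a Kummer class. -/
theorem exists_isKummerClass_of_zsmul_eq_zero {n : ℤ} {x : Pic0 K F} (hx : n • x = 0) :
    ∃ f : F, IsKummerClass n f x := by
  obtain ⟨D, rfl⟩ := Pic0.mk_surjective x
  have h1 : n • Pic0.mk D = Pic0.mk (n • D) := rfl
  rw [h1] at hx
  have h2 := (QuotientAddGroup.eq_zero_iff _).mp hx
  rw [AddSubgroup.mem_addSubgroupOf] at h2
  obtain ⟨f, hf, hDf⟩ := h2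
  refine ⟨f, hf, D, rfl, fun v => ?_⟩
  rw [← hDf v]
  simp

end Fermat.Agent.S29.H455

end
end
-- ===== PACK-END S29/H455/KummerCorr.lean

-- ===== PACK-BEGIN S24/Defs.lean
section


/-!
# S24 — shared interface definitions

`LocalData` packages, for a local parameter `t` of the rational subfield `K(t) ⊆ F`,
a full set of `K(t)`-embeddings of `F` into a Laurent series field together with the
"monodromy" permutation.  See `Fermat/Agent/S24/Alg.lean` (algebraic side) and
`Fermat/Agent/S24/Mod.lean` (modular side).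
-/

set_option autoImplicit false

noncomputable section

open AlgebraicCurve ModularCurve
open scoped MatrixGroups

namespace Fermat.Agent.S24

/-- Number of orbits (cycles, fixed points included) of a permutation. -/
def numOrbits {X : Type*} (π : Equiv.Perm X) : ℕ :=
  Nat.card (MulAction.orbitRel.Quotient (Subgroup.zpowers π) X)

/-- Local uniformisation data of `F/K` at the zero of `t`: a family `σ x` (`x : X`) of pairwise
distinct field embeddings `F → C((z))`, all restricting to the same embedding of `K(t)`, with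
`ord_z (σ x t) = m > 0`, and a permutation `perm` of `X` realising `z ↦ ζ z`
(`ζ` a primitive `m`-th root of unity). -/
structure LocalData (K F : Type*) [Field K] [Field F] [Algebra K F] (C : Type*) [Field C]
    (X : Type*) (t : F) where
  m : ℕ
  m_pos : 0 < m
  ζ : C
  hζ : IsPrimitiveRoot ζ m
  ι : K →+* C
  perm : Equiv.Perm X
  σ : X → (F →+* LaurentSeries C)
  σ_inj : Function.Injective σ
  σ_const : ∀ (x : X) (c : K), σ x (algebraMap K F c) = HahnSeries.C (ι c)
  σ_t_eq : ∀ x y : X, σ x t = σ y t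
  σ_t_order : ∀ x : X, (σ x t).order = (m : ℤ)
  σ_perm_order : ∀ (x : X) (f : F), (σ (perm x) f).order = (σ x f).order
  σ_perm_leadingCoeff : ∀ (x : X) (f : F),
    (σ (perm x) f).leadingCoeff = ζ ^ (σ x f).order * (σ x f).leadingCoeff

section Modular

variable (N : ℕ) [NeZero N]

/-- The base field `ℚ̄`. -/
abbrev Kbar : Type := AlgebraicClosure ℚ

/-- The function field of `X₀(N)` over `ℚ̄` (as a type). -/
abbrev FF : Type := ↥(modularFunctionFieldBar N)

/-- The `j`-function as an element of the function field of `X₀(N)` over `ℚ̄`. -/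
def jF : FF N :=
  ⟨coeffEmb Kbar jq,
    coeffEmb_mem_laurentBaseChange Kbar (modularFunctionField_le_full N (jq_mem N))⟩

/-- The coset space `SL₂(ℤ) / Γ₀(N)`. -/
abbrev XX : Type := SL(2, ℤ) ⧸ CongruenceSubgroup.Gamma0 N

/-- The permutation of `SL₂(ℤ) / Γ₀(N)` induced by left multiplication by `g`. -/
def permOf (g : SL(2, ℤ)) : Equiv.Perm (XX N) := MulAction.toPerm g

end Modular

end Fermat.Agent.S24

end
end
-- ===== PACK-END S24/Defs.lean

-- ===== PACK-BEGIN S24/JFun/EtaProd.lean
section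







/-!
# Formal versus analytic Euler product

The Taylor coefficients at `0` of the analytic function `q ↦ ∏' n, (1 - q ^ (n + 1))` on the unit
disc are the coefficients of the formal product `ModularCurve.etaProd`.
-/

set_option autoImplicit false

namespace Fermat.Agent.S24.JFun

open Filter Topology Complex Metric
open scoped PowerSeries.WithPiTopology

/-- Iterated derivatives of a locally uniform limit of holomorphic functions. -/
theorem tendstoLocallyUniformlyOn_iteratedDeriv {ι : Type*} {φ : Filter ι} {F : ι → ℂ → ℂ}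
    {f : ℂ → ℂ} {U : Set ℂ} (hU : IsOpen U) (hf : TendstoLocallyUniformlyOn F f φ U)
    (hF : ∀ᶠ n in φ, DifferentiableOn ℂ (F n) U) (m : ℕ) :
    TendstoLocallyUniformlyOn (fun n => iteratedDeriv m (F n)) (iteratedDeriv m f) φ U ∧
      ∀ᶠ n in φ, DifferentiableOn ℂ (iteratedDeriv m (F n)) U := by
  induction m with
  | zero => simpa [iteratedDeriv_zero] using And.intro hf hF
  | succ m ih =>
    obtain ⟨h1, h2⟩ := ih
    refine ⟨?_, ?_⟩
    · have := h1.deriv h2 hU
      simpa [iteratedDeriv_succ, Function.comp_def] using this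
    · filter_upwards [h2] with n hn
      rw [iteratedDeriv_succ]
      exact hn.deriv hU

theorem iteratedDeriv_polynomial_eval (P : Polynomial ℂ) (m : ℕ) :
    iteratedDeriv m (fun x : ℂ => P.eval x) = fun x => (Polynomial.derivative^[m] P).eval x := by
  induction m generalizing P with
  | zero => simp [iteratedDeriv_zero]
  | succ m ih =>
    rw [iteratedDeriv_succ', Function.iterate_succ_apply]
    have : deriv (fun x : ℂ => P.eval x) = fun x => (Polynomial.derivative P).eval x := by
      funext x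
      exact Polynomial.deriv P
    rw [this, ih]

theorem iteratedDeriv_polynomial_eval_zero (P : Polynomial ℂ) (m : ℕ) :
    iteratedDeriv m (fun x : ℂ => P.eval x) 0 = (m.factorial : ℂ) * P.coeff m := by
  rw [iteratedDeriv_polynomial_eval]
  simp only
  rw [← Polynomial.coeff_zero_eq_eval_zero, Polynomial.coeff_iterate_derivative]
  simp [Nat.descFactorial_self, nsmul_eq_mul]

/-- The partial Euler products as integer polynomials. -/
noncomputable def eulerPartial (s : Finset ℕ) : Polynomial ℤ :=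
  ∏ n ∈ s, (1 - Polynomial.X ^ (n + 1))

theorem eval_map_eulerPartial (s : Finset ℕ) (q : ℂ) :
    ((eulerPartial s).map (Int.castRingHom ℂ)).eval q = ∏ n ∈ s, (1 - q ^ (n + 1)) := by
  simp [eulerPartial, Polynomial.map_prod, Polynomial.eval_prod]

theorem coe_eulerPartial (s : Finset ℕ) :
    ((eulerPartial s : Polynomial ℤ) : PowerSeries ℤ) = ∏ n ∈ s, (1 - PowerSeries.X ^ (n + 1)) := by
  have h := map_prod (Polynomial.coeToPowerSeries.ringHom (R := ℤ))
    (fun n : ℕ => (1 - Polynomial.X ^ (n + 1) : Polynomial ℤ)) s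
  rw [eulerPartial]
  refine h.trans (Finset.prod_congr rfl fun n _ => ?_)
  simp

theorem tendsto_coeff_eulerPartial (m : ℕ) :
    Tendsto (fun s : Finset ℕ => (((eulerPartial s).coeff m : ℤ) : ℂ)) atTop
      (𝓝 ((ModularCurve.etaProd.coeff m : ℤ) : ℂ)) := by
  have h1 : HasProd (fun n : ℕ => (1 - PowerSeries.X ^ (n + 1) : PowerSeries ℤ))
      ModularCurve.etaProd :=
    (PowerSeries.WithPiTopology.multipliable_one_sub_X_pow ℤ).hasProd
  have h2 : Tendsto (fun s : Finset ℕ => ∏ n ∈ s, (1 - PowerSeries.X ^ (n + 1) : PowerSeries ℤ))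
      atTop (𝓝 ModularCurve.etaProd) := h1
  have h3 := (PowerSeries.WithPiTopology.tendsto_iff_coeff_tendsto ℤ _ _ _).1 h2 m
  have h4 : Continuous (fun z : ℤ => (z : ℂ)) := continuous_of_discreteTopology
  have h5 := (h4.tendsto _).comp h3
  refine h5.congr (fun s => ?_)
  simp only [Function.comp_apply]
  rw [← coe_eulerPartial, Polynomial.coeff_coe]

/-- The Taylor coefficients at `0` of the analytic Euler product are the coefficients of the
formal Euler product `ModularCurve.etaProd`. -/
theorem iteratedDeriv_tprod_one_sub_pow (m : ℕ) :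
    iteratedDeriv m (fun q : ℂ => ∏' n : ℕ, (1 - q ^ (n + 1))) 0
      = (m.factorial : ℂ) * ((ModularCurve.etaProd.coeff m : ℤ) : ℂ) := by
  have hU : IsOpen (ball (0 : ℂ) 1) := isOpen_ball
  have h0 : (0 : ℂ) ∈ ball (0 : ℂ) 1 := mem_ball_self one_pos
  have hloc : TendstoLocallyUniformlyOn
      (fun (s : Finset ℕ) (q : ℂ) => ∏ n ∈ s, (1 - q ^ (n + 1)))
      (fun q : ℂ => ∏' n : ℕ, (1 - q ^ (n + 1))) atTop (ball (0 : ℂ) 1) := by
    have := ModularForm.multipliableLocallyUniformlyOn_one_sub_pow.hasProdLocallyUniformlyOn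
    exact this
  have hF : ∀ᶠ s : Finset ℕ in atTop,
      DifferentiableOn ℂ (fun q : ℂ => ∏ n ∈ s, (1 - q ^ (n + 1))) (ball (0 : ℂ) 1) :=
    Eventually.of_forall fun s => by fun_prop
  have key := (tendstoLocallyUniformlyOn_iteratedDeriv hU hloc hF m).1.tendsto_at h0
  have hval : ∀ s : Finset ℕ,
      iteratedDeriv m (fun q : ℂ => ∏ n ∈ s, (1 - q ^ (n + 1))) 0
        = (m.factorial : ℂ) * (((eulerPartial s).coeff m : ℤ) : ℂ) := by
    intro s
    have : (fun q : ℂ => ∏ n ∈ s, (1 - q ^ (n + 1)))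
        = fun q => ((eulerPartial s).map (Int.castRingHom ℂ)).eval q := by
      funext q
      rw [eval_map_eulerPartial]
    rw [this, iteratedDeriv_polynomial_eval_zero, Polynomial.coeff_map]
    simp
  have key2 : Tendsto (fun s : Finset ℕ =>
      (m.factorial : ℂ) * (((eulerPartial s).coeff m : ℤ) : ℂ)) atTop
      (𝓝 (iteratedDeriv m (fun q : ℂ => ∏' n : ℕ, (1 - q ^ (n + 1))) 0)) :=
    key.congr hval
  exact tendsto_nhds_unique key2 ((tendsto_coeff_eulerPartial m).const_mul _)

/-- The analytic Euler product is the sum of the formal Euler product on the open unit disc. -/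
theorem hasSum_etaProd {q : ℂ} (hq : ‖q‖ < 1) :
    HasSum (fun m : ℕ => ((ModularCurve.etaProd.coeff m : ℤ) : ℂ) * q ^ m)
      (∏' n : ℕ, (1 - q ^ (n + 1))) := by
  have h := Complex.hasSum_taylorSeries_on_ball
    (f := fun q : ℂ => ∏' n : ℕ, (1 - q ^ (n + 1))) (c := 0) (r := 1)
    ModularForm.differentiableOn_tprod_one_sub_pow (z := q) (by simpa using hq)
  have heq : (fun n : ℕ => ((n.factorial : ℂ))⁻¹ • (q - 0) ^ n •
      iteratedDeriv n (fun q : ℂ => ∏' n : ℕ, (1 - q ^ (n + 1))) 0)
      = fun m : ℕ => ((ModularCurve.etaProd.coeff m : ℤ) : ℂ) * q ^ m := by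
    funext m
    rw [iteratedDeriv_tprod_one_sub_pow]
    have hm : (m.factorial : ℂ) ≠ 0 := by exact_mod_cast Nat.factorial_ne_zero m
    simp only [sub_zero, smul_eq_mul]
    field_simp
  rw [heq] at h
  exact h

end Fermat.Agent.S24.JFun

end
-- ===== PACK-END S24/JFun/EtaProd.lean

-- ===== PACK-BEGIN S20/L1/Ramanujan.lean
section





/-!
# Level-one input for S20: Ramanujan identities and simple zeros

(helper140) Serre derivative of a level-one modular form is a level-one modular form;
Ramanujan identities for `E₄`, `E₆`, `Δ`; simple zeros.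
-/

set_option autoImplicit false

open UpperHalfPlane ModularForm EisensteinSeries Derivative Filter Topology
open scoped MatrixGroups Manifold

noncomputable section

namespace Fermat.Agent.S20.L1

/-- If `F` is holomorphic on `ℍ` and bounded at `i∞`, then its derivative tends to zero
at `i∞` (Cauchy estimate on discs of growing radius). -/
theorem isZeroAtImInfty_normalizedDeriv {F : ℍ → ℂ} (hF : MDiff F)
    (hb : IsBoundedAtImInfty F) : IsZeroAtImInfty (D F) := by
  rw [isBoundedAtImInfty_iff] at hb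
  obtain ⟨M, A, hMA⟩ := hb
  rw [isZeroAtImInfty_iff]
  intro ε hε
  -- we may assume `M ≥ 0` and `A ≥ 1`
  set M' : ℝ := max M 0 with hM'
  set A' : ℝ := max A 1 with hA'
  have hM'0 : 0 ≤ M' := le_max_right _ _
  set R : ℝ := M' / ε + 1 with hR
  have hRpos : 0 < R := by positivity
  refine ⟨A' + R, fun z hz ↦ ?_⟩
  have hdiff : DifferentiableOn ℂ (F ∘ ofComplex) upperHalfPlaneSet :=
    mdifferentiable_iff.mp hF
  have hsub : Metric.closedBall (z : ℂ) R ⊆ upperHalfPlaneSet := by
    intro w hw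
    have h1 : |w.im - (z : ℂ).im| ≤ R := by
      have := Complex.abs_im_le_norm (w - z)
      rw [Complex.sub_im] at this
      exact this.trans (by simpa [dist_eq_norm] using hw)
    have h2 : (z : ℂ).im = z.im := rfl
    have h3 : A' + R ≤ (z : ℂ).im := by simpa using hz
    have h4 : (1 : ℝ) ≤ A' := le_max_right _ _
    have h5 := abs_le.mp h1
    show 0 < w.im
    linarith [h5.1]
  have hd : DiffContOnCl ℂ (F ∘ ofComplex) (Metric.ball (z : ℂ) R) := by
    refine DifferentiableOn.diffContOnCl ?_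
    rw [closure_ball _ hRpos.ne']
    exact hdiff.mono hsub
  have hC : ∀ w ∈ Metric.sphere (z : ℂ) R, ‖(F ∘ ofComplex) w‖ ≤ M' := by
    intro w hw
    have hwU : w ∈ upperHalfPlaneSet := hsub (Metric.sphere_subset_closedBall hw)
    have h1 : |w.im - (z : ℂ).im| ≤ R := by
      have := Complex.abs_im_le_norm (w - z)
      rw [Complex.sub_im] at this
      exact this.trans (by simpa [dist_eq_norm] using (Metric.sphere_subset_closedBall hw))
    have h3 : A' + R ≤ (z : ℂ).im := by simpa using hz
    have h5 := abs_le.mp h1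
    have hA : A ≤ (ofComplex w).im := by
      rw [ofComplex_apply_of_im_pos hwU]
      show A ≤ w.im
      have : A ≤ A' := le_max_left _ _
      linarith [h5.1]
    exact (hMA _ hA).trans (le_max_left _ _)
  have key := Complex.norm_deriv_le_of_forall_mem_sphere_norm_le hRpos hd hC
  have h2pi : ‖(2 * (Real.pi : ℂ) * Complex.I)‖ = 2 * Real.pi := by
    simp [abs_of_pos Real.pi_pos]
  rw [normalizedDerivOfComplex, norm_mul, norm_inv, h2pi]
  have hpi : (1 : ℝ) ≤ 2 * Real.pi := by linarith [Real.two_le_pi]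
  have hMR : M' / R ≤ ε := by
    rw [div_le_iff₀ hRpos, hR]
    have : M' = ε * (M' / ε) := by field_simp
    nlinarith
  calc (2 * Real.pi)⁻¹ * ‖deriv (F ∘ ofComplex) ↑z‖
      ≤ 1 * ‖deriv (F ∘ ofComplex) ↑z‖ := by
        gcongr
        exact inv_le_one_of_one_le₀ hpi
    _ ≤ ε := by rw [one_mul]; exact key.trans hMR

/-- Build a level-one modular form from function-level data. -/
def mkLevelOne (k : ℤ) (F : ℍ → ℂ) (hol : MDiff F) (inv : ∀ γ : SL(2, ℤ), F ∣[k] γ = F)
    (bdd : IsBoundedAtImInfty F) : ModularForm 𝒮ℒ k where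
  toFun := F
  slash_action_eq' A hA := by
    obtain ⟨A, rfl⟩ := hA
    exact inv A
  holo' := hol
  bdd_at_cusps' hc := by
    rw [Subgroup.IsArithmetic.isCusp_iff_isCusp_SL2Z] at hc
    rw [OnePoint.isBoundedAt_iff_forall_SL2Z hc]
    intro γ _
    rw [inv γ]
    exact bdd

@[simp]
lemma coe_mkLevelOne (k : ℤ) (F : ℍ → ℂ) (hol : MDiff F) (inv : ∀ γ : SL(2, ℤ), F ∣[k] γ = F)
    (bdd : IsBoundedAtImInfty F) : ⇑(mkLevelOne k F hol inv bdd) = F := rfl

lemma levelOne_slash_eq {k : ℤ} (f : ModularForm 𝒮ℒ k) (γ : SL(2, ℤ)) :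
    (f : ℍ → ℂ) ∣[k] γ = f :=
  SlashInvariantFormClass.slash_action_eq f _ ⟨γ, rfl⟩

lemma levelOne_isBoundedAtImInfty {k : ℤ} (f : ModularForm 𝒮ℒ k) :
    IsBoundedAtImInfty (f : ℍ → ℂ) := by
  have := ModularFormClass.bdd_at_infty_slash f (1 : SL(2, ℤ))
  simpa using this

/-- The Serre derivative of a level-one modular form is bounded at `i∞`. -/
lemma isBoundedAtImInfty_serreDerivative {k : ℤ} (f : ModularForm 𝒮ℒ k) :
    IsBoundedAtImInfty (serreDerivative (k : ℂ) (f : ℍ → ℂ)) := by
  have h1 : IsBoundedAtImInfty (D (f : ℍ → ℂ)) :=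
    (isZeroAtImInfty_normalizedDeriv f.holo' (levelOne_isBoundedAtImInfty f)).isBoundedAtImInfty
  have h2 : IsBoundedAtImInfty (fun z ↦ (k : ℂ) * 12⁻¹ * E2 z * f z) := by
    have h3 : IsBoundedAtImInfty (fun z ↦ E2 z * f z) :=
      isBoundedAtImInfty_E2.mul (levelOne_isBoundedAtImInfty f)
    have h4 := h3.const_mul_left ((k : ℂ) * 12⁻¹)
    refine h4.congr_left ?_ |>.trans (Asymptotics.isBigO_refl _ _) 
    intro z
    simp [mul_assoc]
  rw [serreDerivative_eq]
  exact h1.sub h2

/-- The Serre derivative of a level-one modular form, as a modular form of weight `k + 2`. -/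
def serreDerivativeForm {k : ℤ} (f : ModularForm 𝒮ℒ k) : ModularForm 𝒮ℒ (k + 2) :=
  mkLevelOne (k + 2) (serreDerivative (k : ℂ) (f : ℍ → ℂ))
    (serreDerivative_mdifferentiable _ f.holo')
    (fun γ ↦ serreDerivative_slash_invariant f.holo' (levelOne_slash_eq f γ))
    (isBoundedAtImInfty_serreDerivative f)

@[simp]
lemma serreDerivativeForm_apply {k : ℤ} (f : ModularForm 𝒮ℒ k) (z : ℍ) :
    serreDerivativeForm f z = D (f : ℍ → ℂ) z - (k : ℂ) * 12⁻¹ * E2 z * f z := rfl

/-- A periodic holomorphic function bounded at `i∞` tends to the value of its cusp function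
at `0`. -/
lemma tendsto_atImInfty_cuspFunction {f : ℍ → ℂ} {h : ℝ} (hh : 0 < h)
    (hfper : Function.Periodic (f ∘ ofComplex) h) (hfhol : MDiff f)
    (hfbdd : IsBoundedAtImInfty f) :
    Tendsto f atImInfty (𝓝 (cuspFunction h f 0)) := by
  have han := analyticAt_cuspFunction_zero hh hfper hfhol hfbdd
  have : (cuspFunction h f ∘ fun τ : ℍ ↦ Function.Periodic.qParam h τ : ℍ → ℂ) = f := by
    funext τ
    simpa using eq_cuspFunction τ hh.ne' hfper
  simpa [this] using han.continuousAt.tendsto.comp (qParam_tendsto_atImInfty hh)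

/-- A level-one modular form tends to its zeroth `q`-expansion coefficient at `i∞`. -/
lemma levelOne_tendsto_atImInfty {k : ℤ} (f : ModularForm 𝒮ℒ k) :
    Tendsto (f : ℍ → ℂ) atImInfty (𝓝 ((qExpansion 1 f).coeff 0)) := by
  have hper := SlashInvariantFormClass.periodic_comp_ofComplex f one_mem_strictPeriods_SL
  have h1 := tendsto_atImInfty_cuspFunction one_pos hper f.holo' (levelOne_isBoundedAtImInfty f)
  have han := analyticAt_cuspFunction_zero one_pos hper f.holo' (levelOne_isBoundedAtImInfty f)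
  rwa [qExpansion_coeff_zero one_pos han hper, ← cuspFunction_apply_zero one_pos han hper]

lemma tendsto_E₄ : Tendsto (E₄ : ℍ → ℂ) atImInfty (𝓝 1) := by
  simpa [E_qExpansion_coeff_zero (by norm_num : 3 ≤ 4) ⟨2, rfl⟩] using levelOne_tendsto_atImInfty E₄

lemma tendsto_E₆ : Tendsto (E₆ : ℍ → ℂ) atImInfty (𝓝 1) := by
  simpa [E_qExpansion_coeff_zero (by norm_num : 3 ≤ 6) ⟨3, rfl⟩] using levelOne_tendsto_atImInfty E₆

lemma E2_periodic : Function.Periodic (E2 ∘ ofComplex) 1 := by
  intro w
  simp only [Function.comp_apply]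
  by_cases hw : 0 < w.im
  · have hw' : 0 < (w + 1).im := by simpa using hw
    rw [ofComplex_apply_of_im_pos hw, ofComplex_apply_of_im_pos hw']
    have h1 := (hasSum_qExpansion_E2 (z := ⟨w + 1, hw'⟩)).tsum_eq
    have h2 := (hasSum_qExpansion_E2 (z := ⟨w, hw⟩)).tsum_eq
    rw [← h1, ← h2]
    congr 1
    funext m
    congr 2
    rw [mul_add, Complex.exp_add]
    simp
  · have hw' : ¬ 0 < (w + 1).im := by simpa using hw
    rw [ofComplex_apply_of_im_nonpos (not_lt.mp hw), ofComplex_apply_of_im_nonpos (not_lt.mp hw')]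

lemma tendsto_E2 : Tendsto E2 atImInfty (𝓝 1) := by
  have h1 := tendsto_atImInfty_cuspFunction one_pos E2_periodic E2_mdifferentiable
    isBoundedAtImInfty_E2
  have han := analyticAt_cuspFunction_zero one_pos E2_periodic E2_mdifferentiable
    isBoundedAtImInfty_E2
  have hps := hasFPowerSeriesOnBall_cuspFunction (f := E2)
    (c := fun m : ℕ ↦ (if m = 0 then 1 else -24 * ArithmeticFunction.sigma 1 m : ℂ)) one_pos han
    (fun τ ↦ by
      simpa only [Function.Periodic.qParam, Complex.ofReal_one, div_one] using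
        hasSum_qExpansion_E2 (z := τ))
  have h0 := hps.coeff_zero 1
  simp [FormalMultilinearSeries.ofScalars] at h0
  rwa [← h0] at h1

lemma tendsto_serreDerivativeForm {k : ℤ} (f : ModularForm 𝒮ℒ k) {a : ℂ}
    (hf : Tendsto (f : ℍ → ℂ) atImInfty (𝓝 a)) :
    Tendsto (serreDerivativeForm f : ℍ → ℂ) atImInfty (𝓝 (-((k : ℂ) * 12⁻¹ * a))) := by
  have h1 : Tendsto (D (f : ℍ → ℂ)) atImInfty (𝓝 0) :=
    isZeroAtImInfty_normalizedDeriv f.holo' (levelOne_isBoundedAtImInfty f)
  have h2 : Tendsto (fun z ↦ (k : ℂ) * 12⁻¹ * E2 z * f z) atImInfty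
      (𝓝 ((k : ℂ) * 12⁻¹ * 1 * a)) :=
    (tendsto_E2.const_mul _).mul hf
  have h3 := h1.sub h2
  simp only [mul_one, zero_sub] at h3
  exact h3

/-- If two level-one forms of the same weight are proportional and we know their limits
at `i∞`, we can read off the constant. -/
lemma eq_smul_of_rank_one {k : ℤ} (hrank : Module.rank ℂ (ModularForm 𝒮ℒ k) = 1)
    (g f : ModularForm 𝒮ℒ k) {a b : ℂ} (hb : b ≠ 0)
    (hg : Tendsto (g : ℍ → ℂ) atImInfty (𝓝 a)) (hf : Tendsto (f : ℍ → ℂ) atImInfty (𝓝 b)) :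
    ∀ z, g z = a / b * f z := by
  have hf0 : f ≠ 0 := by
    rintro rfl
    have : Tendsto (fun _ : ℍ ↦ (0 : ℂ)) atImInfty (𝓝 b) := hf
    exact hb (tendsto_nhds_unique this tendsto_const_nhds)
  obtain ⟨c, hc⟩ := (finrank_eq_one_iff_of_nonzero' f hf0).mp
    (Module.rank_eq_one_iff_finrank_eq_one.mp hrank) g
  have hcz : ∀ z, g z = c * f z := fun z ↦ by rw [← hc]; rfl
  have hlim : Tendsto (g : ℍ → ℂ) atImInfty (𝓝 (c * b)) := by
    have := hf.const_mul c
    refine this.congr fun z ↦ (hcz z).symm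
  have hab : a = c * b := tendsto_nhds_unique hg hlim
  intro z
  rw [hcz z, hab]
  field_simp

lemma levelOne_weight_eight_rank_one : Module.rank ℂ (ModularForm 𝒮ℒ 8) = 1 := by
  have := dimension_level_one 8 ⟨4, rfl⟩
  simpa [Nat.ModEq] using this

/-- Ramanujan's identity for `E₄`: `D E₄ = (E₂ E₄ - E₆) / 3`. -/
theorem ramanujan_E₄ (z : ℍ) : D (E₄ : ℍ → ℂ) z = 3⁻¹ * (E2 z * E₄ z - E₆ z) := by
  have h := eq_smul_of_rank_one levelOne_weight_six_rank_one
    (mcast (by norm_num) (serreDerivativeForm E₄)) E₆ one_ne_zero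
    (by simpa using tendsto_serreDerivativeForm E₄ tendsto_E₄) tendsto_E₆ z
  simp only [coe_mcast, serreDerivativeForm_apply] at h
  push_cast at h
  linear_combination h

/-- Ramanujan's identity for `E₆`: `D E₆ = (E₂ E₆ - E₄²) / 2`. -/
theorem ramanujan_E₆ (z : ℍ) : D (E₆ : ℍ → ℂ) z = 2⁻¹ * (E2 z * E₆ z - E₄ z ^ 2) := by
  have hE4sq : Tendsto ((E₄.mul E₄ : ModularForm 𝒮ℒ (4 + 4)) : ℍ → ℂ) atImInfty (𝓝 (1 * 1)) :=
    tendsto_E₄.mul tendsto_E₄
  have h := eq_smul_of_rank_one levelOne_weight_eight_rank_one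
    (mcast (by norm_num) (serreDerivativeForm E₆)) (mcast (by norm_num) (E₄.mul E₄))
    (b := 1) one_ne_zero
    (by simpa using tendsto_serreDerivativeForm E₆ tendsto_E₆) (by simpa using hE4sq) z
  simp only [coe_mcast, serreDerivativeForm_apply, ModularForm.coe_mul, Pi.mul_apply] at h
  push_cast at h
  linear_combination h

/-- Ramanujan's identity for `Δ`: `D Δ = E₂ Δ`. -/
theorem ramanujan_discriminant (z : ℍ) :
    D ModularForm.discriminant z = E2 z * ModularForm.discriminant z := by
  have hη : DifferentiableAt ℂ ModularForm.eta (z : ℂ) :=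
    ModularForm.differentiableAt_eta_of_mem_upperHalfPlaneSet z.2
  have hη0 : ModularForm.eta (z : ℂ) ≠ 0 := by
    have := ModularForm.discriminant_ne_zero z
    intro h
    exact this (by simp [ModularForm.discriminant, h])
  have hlog := ModularForm.logDeriv_eta_eq_E2 z
  rw [logDeriv_apply, div_eq_iff hη0] at hlog
  have hev : (ModularForm.discriminant ∘ ofComplex) =ᶠ[𝓝 (z : ℂ)]
      fun w ↦ ModularForm.eta w ^ 24 := by
    filter_upwards [isOpen_upperHalfPlaneSet.mem_nhds z.im_pos] with w hw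
    simp [ModularForm.discriminant, ofComplex_apply_of_im_pos hw]
  have hd : HasDerivAt (fun w ↦ ModularForm.eta w ^ 24)
      (24 * ModularForm.eta (z : ℂ) ^ 23 * deriv ModularForm.eta (z : ℂ)) (z : ℂ) := by
    have := hη.hasDerivAt.fun_pow 24
    simpa using this
  have hderiv := (hd.congr_of_eventuallyEq hev).deriv
  simp only [normalizedDerivOfComplex, hderiv, hlog, ModularForm.discriminant]
  have hpi : (2 * (Real.pi : ℂ) * Complex.I) ≠ 0 := by
    simp [Real.pi_ne_zero]
  field_simp
  ring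

local notation "Δ" => ModularForm.discriminant

lemma mdiff_discriminant : MDiff (Δ : ℍ → ℂ) := CuspForm.discriminant.holo'

lemma mdiff_E₄ : MDiff (E₄ : ℍ → ℂ) := ModularFormClass.holo E₄

lemma mdiff_E₆ : MDiff (E₆ : ℍ → ℂ) := ModularFormClass.holo E₆

lemma E₄_cube_sub_E₆_sq (z : ℍ) : E₄ z ^ 3 - E₆ z ^ 2 = 1728 * Δ z := by
  rw [discriminant_eq_E₄_cube_sub_E₆_sq z]; ring

lemma E₆_ne_zero_of_E₄_eq_zero {z : ℍ} (h : E₄ z = 0) : E₆ z ≠ 0 := by
  intro h6
  have := E₄_cube_sub_E₆_sq z
  rw [h, h6] at this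
  have hΔ := discriminant_ne_zero z
  apply hΔ
  have : (1728 : ℂ) * Δ z = 0 := by rw [← this]; ring
  simpa using this

lemma E₄_ne_zero_of_E₆_eq_zero {z : ℍ} (h : E₆ z = 0) : E₄ z ≠ 0 := by
  intro h4
  exact E₆_ne_zero_of_E₄_eq_zero h4 h

/-- Zeros of `E₄` are simple. -/
theorem D_E₄_ne_zero {z : ℍ} (h : E₄ z = 0) : D (E₄ : ℍ → ℂ) z ≠ 0 := by
  rw [ramanujan_E₄, h]
  have := E₆_ne_zero_of_E₄_eq_zero h
  simpa using this

/-- Zeros of `E₆` are simple. -/
theorem D_E₆_ne_zero {z : ℍ} (h : E₆ z = 0) : D (E₆ : ℍ → ℂ) z ≠ 0 := by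
  rw [ramanujan_E₆, h]
  have := E₄_ne_zero_of_E₆_eq_zero h
  simpa using this

/-- The numerator `E₄(z)³ Δ(z₀) − E₄(z₀)³ Δ(z)` of `j(z) − j(z₀)`, a level one form of
weight 12 in `z`. -/
def jDiff (z₀ : ℍ) : ℍ → ℂ := fun z ↦ E₄ z ^ 3 * Δ z₀ - E₄ z₀ ^ 3 * Δ z

lemma jDiff_self (z₀ : ℍ) : jDiff z₀ z₀ = 0 := by simp [jDiff]

lemma jDiff_eq (z₀ : ℍ) :
    jDiff z₀ = (Δ z₀) • ((E₄ : ℍ → ℂ) ^ 3) - (E₄ z₀ ^ 3) • (Δ : ℍ → ℂ) := by
  funext z
  simp [jDiff, mul_comm]

lemma mdiff_jDiff (z₀ : ℍ) : MDiff (jDiff z₀) := by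
  rw [jDiff_eq]
  exact ((mdiff_E₄.pow 3).const_smul _).sub (mdiff_discriminant.const_smul _)

theorem D_jDiff (z₀ z : ℍ) :
    D (jDiff z₀) z = E2 z * jDiff z₀ z - E₄ z ^ 2 * E₆ z * Δ z₀ := by
  have h1 : MDiff ((E₄ : ℍ → ℂ) ^ 3) := mdiff_E₄.pow 3
  rw [jDiff_eq, normalizedDerivOfComplex_sub _ _ (h1.const_smul _)
    (mdiff_discriminant.const_smul _), normalizedDerivOfComplex_smul _ _ h1,
    normalizedDerivOfComplex_smul _ _ mdiff_discriminant,
    normalizedDerivOfComplex_pow _ _ mdiff_E₄]
  simp only [Pi.sub_apply, Pi.smul_apply, Pi.mul_apply, Pi.pow_apply, smul_eq_mul,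
    ramanujan_E₄, ramanujan_discriminant, Nat.cast_ofNat, Pi.ofNat_apply]
  ring

/-- Zeros of `jDiff z₀` at points where `E₄ E₆ ≠ 0` are simple. -/
theorem D_jDiff_ne_zero {z₀ z : ℍ} (h : jDiff z₀ z = 0) (h4 : E₄ z ≠ 0) (h6 : E₆ z ≠ 0) :
    D (jDiff z₀) z ≠ 0 := by
  rw [D_jDiff, h, mul_zero, zero_sub, neg_ne_zero]
  exact mul_ne_zero (mul_ne_zero (pow_ne_zero _ h4) h6) (discriminant_ne_zero z₀)

/-- The `j`-invariant `E₄³ / Δ` (normalised so that `j = 1/q + ...`). -/
def jFun (z : ℍ) : ℂ := E₄ z ^ 3 / Δ z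

lemma jFun_eq_iff (z z' : ℍ) : jFun z = jFun z' ↔ jDiff z' z = 0 := by
  rw [jFun, jFun, div_eq_div_iff (discriminant_ne_zero z) (discriminant_ne_zero z'), jDiff,
    sub_eq_zero]

lemma jFun_eq_zero_iff (z : ℍ) : jFun z = 0 ↔ E₄ z = 0 := by
  simp [jFun, discriminant_ne_zero z]

lemma jFun_eq_1728_iff (z : ℍ) : jFun z = 1728 ↔ E₆ z = 0 := by
  rw [jFun, div_eq_iff (discriminant_ne_zero z)]
  have := E₄_cube_sub_E₆_sq z
  constructor
  · intro h
    have : E₆ z ^ 2 = 0 := by linear_combination h - this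
    simpa using this
  · intro h
    rw [h] at this
    linear_combination this

lemma mdiff_jFun : MDiff jFun :=
  (mdiff_E₄.pow 3).div mdiff_discriminant discriminant_ne_zero

theorem D_jFun (z : ℍ) : D jFun z = - (E₄ z ^ 2 * E₆ z / Δ z) := by
  -- `jFun * Δ = E₄ ^ 3`
  have hmul : jFun * (Δ : ℍ → ℂ) = (E₄ : ℍ → ℂ) ^ 3 := by
    funext w
    simp [jFun, div_mul_cancel₀ _ (discriminant_ne_zero w)]
  have h := congrFun (congrArg D hmul) z
  rw [normalizedDerivOfComplex_mul _ _ mdiff_jFun mdiff_discriminant,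
    normalizedDerivOfComplex_pow _ _ mdiff_E₄] at h
  simp only [Pi.add_apply, Pi.mul_apply, Pi.pow_apply, ramanujan_E₄, ramanujan_discriminant,
    Nat.cast_ofNat, Pi.ofNat_apply] at h
  have hΔ := discriminant_ne_zero z
  have hj : jFun z = E₄ z ^ 3 / Δ z := rfl
  rw [hj] at h
  field_simp at h ⊢
  linear_combination h

theorem D_jFun_ne_zero {z : ℍ} (h4 : E₄ z ≠ 0) (h6 : E₆ z ≠ 0) : D jFun z ≠ 0 := by
  rw [D_jFun, neg_ne_zero]
  exact div_ne_zero (mul_ne_zero (pow_ne_zero _ h4) h6) (discriminant_ne_zero z)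

end Fermat.Agent.S20.L1

end
end
-- ===== PACK-END S20/L1/Ramanujan.lean

-- ===== PACK-BEGIN S24/Inf/Twist.lean
section



/-!
# S24 / MOD-INF — formal operations on Laurent series

* `infTwist u` : the ring endomorphism `∑ aₙ zⁿ ↦ ∑ aₙ uⁿ zⁿ` of `LaurentSeries R` (`u` a unit);
* order / leading coefficient of `infTwist u φ` and of `ModularCurve.qExpand R e φ`.
-/

set_option autoImplicit false

noncomputable section

open HahnSeries ModularCurve

namespace Fermat.Agent.S24

section General

variable {R : Type*} [CommRing R]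

/-- A Hahn series over `ℤ` whose coefficients below `n` vanish and whose `n`-th coefficient is
nonzero has order `n`. -/
theorem inf_order_eq_of_coeff {x : LaurentSeries R} {n : ℤ} (hn : x.coeff n ≠ 0)
    (hlt : ∀ m < n, x.coeff m = 0) : x.order = n := by
  apply le_antisymm (order_le_of_coeff_ne_zero hn)
  by_contra h
  rw [not_le] at h
  have hx : x ≠ 0 := ne_zero_of_coeff_ne_zero hn
  exact (coeff_order_eq_zero.not.mpr hx) (hlt _ h)

theorem inf_leadingCoeff_eq_of_coeff {x : LaurentSeries R} {n : ℤ} (hn : x.coeff n ≠ 0)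
    (hlt : ∀ m < n, x.coeff m = 0) : x.leadingCoeff = x.coeff n := by
  rw [leadingCoeff_eq, inf_order_eq_of_coeff hn hlt]

/-- The underlying function of the twist. -/
def infTwistFun (u : Rˣ) (x : LaurentSeries R) : LaurentSeries R where
  coeff n := x.coeff n * ((u ^ n : Rˣ) : R)
  isPWO_support' := x.isPWO_support.mono (fun n hn => by
    simp only [Function.mem_support, ne_eq] at hn
    rw [mem_support]
    intro h
    exact hn (by rw [h, zero_mul]))

@[simp]
theorem infTwistFun_coeff (u : Rˣ) (x : LaurentSeries R) (n : ℤ) :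
    (infTwistFun u x).coeff n = x.coeff n * ((u ^ n : Rˣ) : R) := rfl

theorem infTwistFun_support (u : Rˣ) (x : LaurentSeries R) :
    (infTwistFun u x).support = x.support := by
  ext n
  simp only [mem_support, infTwistFun_coeff, ne_eq]
  constructor
  · intro h h0
    exact h (by rw [h0, zero_mul])
  · intro h h0
    exact h ((Units.mul_left_eq_zero _).mp h0)

/-- The twist `∑ aₙ zⁿ ↦ ∑ aₙ uⁿ zⁿ` as a ring homomorphism. -/
def infTwist (u : Rˣ) : LaurentSeries R →+* LaurentSeries R where
  toFun := infTwistFun u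
  map_zero' := by
    ext n
    simp
  map_one' := by
    ext n
    simp only [infTwistFun_coeff, coeff_one]
    split_ifs with h
    · subst h
      simp
    · simp
  map_add' x y := by
    ext n
    simp [add_mul]
  map_mul' x y := by
    ext n
    simp only [infTwistFun_coeff, coeff_mul]
    rw [Finset.sum_mul]
    refine Finset.sum_congr ?_ ?_
    · ext ij
      simp only [Finset.mem_antidiagonal, infTwistFun_support]
    · intro ij hij
      have h : ij.1 + ij.2 = n := (Finset.mem_antidiagonal.mp hij).2.2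
      rw [← h, zpow_add, Units.val_mul]
      ring

@[simp]
theorem infTwist_coeff (u : Rˣ) (x : LaurentSeries R) (n : ℤ) :
    (infTwist u x).coeff n = x.coeff n * ((u ^ n : Rˣ) : R) := rfl

theorem infTwist_support (u : Rˣ) (x : LaurentSeries R) :
    (infTwist u x).support = x.support := infTwistFun_support u x

theorem infTwist_eq_zero_iff (u : Rˣ) (x : LaurentSeries R) : infTwist u x = 0 ↔ x = 0 := by
  rw [← support_eq_empty_iff, infTwist_support, support_eq_empty_iff]

theorem infTwist_injective (u : Rˣ) : Function.Injective (infTwist (R := R) u) :=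
  (injective_iff_map_eq_zero _).mpr fun x hx => (infTwist_eq_zero_iff u x).mp hx

@[simp]
theorem infTwist_one (x : LaurentSeries R) : infTwist (1 : Rˣ) x = x := by
  ext n
  simp

theorem infTwist_mul (u v : Rˣ) (x : LaurentSeries R) :
    infTwist (u * v) x = infTwist u (infTwist v x) := by
  ext n
  simp only [infTwist_coeff, mul_zpow, Units.val_mul]
  ring

@[simp]
theorem infTwist_single (u : Rˣ) (k : ℤ) (r : R) :
    infTwist u (single k r) = single k (r * ((u ^ k : Rˣ) : R)) := by
  ext n
  rcases eq_or_ne n k with rfl | hn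
  · simp
  · simp [coeff_single_of_ne hn]

@[simp]
theorem infTwist_C (u : Rˣ) (r : R) : infTwist u (HahnSeries.C r) = HahnSeries.C r := by
  rw [C_apply, infTwist_single]
  simp

theorem infTwist_order (u : Rˣ) (x : LaurentSeries R) : (infTwist u x).order = x.order := by
  rcases eq_or_ne x 0 with rfl | hx
  · simp
  · refine inf_order_eq_of_coeff ?_ ?_
    · rw [infTwist_coeff]
      intro h
      exact (coeff_order_eq_zero.not.mpr hx) ((Units.mul_left_eq_zero _).mp h)
    · intro m hm
      rw [infTwist_coeff, coeff_eq_zero_of_lt_order hm, zero_mul]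

theorem infTwist_leadingCoeff (u : Rˣ) (x : LaurentSeries R) :
    (infTwist u x).leadingCoeff = x.leadingCoeff * ((u ^ x.order : Rˣ) : R) := by
  rw [leadingCoeff_eq, leadingCoeff_eq, infTwist_order, infTwist_coeff]

end General

section QExpand

variable {R : Type*} [CommRing R] (e : ℕ) [NeZero e]

theorem inf_qExpand_eq_zero_iff (x : LaurentSeries R) : qExpand R e x = 0 ↔ x = 0 :=
  ⟨fun h => qExpand_injective e (by rw [h, map_zero]), fun h => by rw [h, map_zero]⟩

theorem inf_qExpand_order (x : LaurentSeries R) :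
    (qExpand R e x).order = (e : ℤ) * x.order := by
  rcases eq_or_ne x 0 with rfl | hx
  · simp
  · have he : (0 : ℤ) < e := by exact_mod_cast Nat.pos_of_ne_zero (NeZero.ne e)
    refine inf_order_eq_of_coeff ?_ ?_
    · rw [qExpand_coeff_mul]
      exact coeff_order_eq_zero.not.mpr hx
    · intro m hm
      by_cases hdvd : (e : ℤ) ∣ m
      · obtain ⟨k, rfl⟩ := hdvd
        rw [qExpand_coeff_mul]
        exact coeff_eq_zero_of_lt_order (lt_of_mul_lt_mul_left hm he.le)
      · exact qExpand_coeff_of_not_dvd e x hdvd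

theorem inf_qExpand_leadingCoeff (x : LaurentSeries R) :
    (qExpand R e x).leadingCoeff = x.leadingCoeff := by
  rw [leadingCoeff_eq, leadingCoeff_eq, inf_qExpand_order, qExpand_coeff_mul]

end QExpand

section CoeffMap

variable {R S : Type*} [CommRing R] [CommRing S]

theorem inf_coeffMap_injective {f : R →+* S} (hf : Function.Injective f) :
    Function.Injective (coeffMap f) := by
  intro x y h
  ext n
  apply hf
  have := congrArg (fun z => z.coeff n) h
  simpa using this

theorem inf_coeffMap_order {f : R →+* S} (hf : Function.Injective f) (x : LaurentSeries R) :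
    (coeffMap f x).order = x.order := by
  rcases eq_or_ne x 0 with rfl | hx
  · simp
  · refine inf_order_eq_of_coeff ?_ ?_
    · rw [coeffMap_coeff]
      intro h
      exact (coeff_order_eq_zero.not.mpr hx) (hf (by rw [h, map_zero]))
    · intro m hm
      rw [coeffMap_coeff, coeff_eq_zero_of_lt_order hm, map_zero]

theorem inf_coeffMap_leadingCoeff {f : R →+* S} (hf : Function.Injective f)
    (x : LaurentSeries R) : (coeffMap f x).leadingCoeff = f x.leadingCoeff := by
  rw [leadingCoeff_eq, leadingCoeff_eq, inf_coeffMap_order hf, coeffMap_coeff]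

end CoeffMap

end Fermat.Agent.S24

end
end
-- ===== PACK-END S24/Inf/Twist.lean

-- ===== PACK-BEGIN S29/H751/PthRootBall.lean
section


/-!
# Holomorphic `p`-th roots on a disc (helper751, S29 / P5 / KUM + E3)

* `exists_exp_eq_on_ball`: a nowhere vanishing holomorphic function on an open disc is `exp ∘ L`.
* `exists_pow_eq_on_ball_of_ne_zero`: hence it has a holomorphic `p`-th root.
* `exists_pow_eq_on_ball`: a holomorphic function on (a neighbourhood of) a closed disc, not
  locally zero, all of whose zeros have order divisible by `p`, has a holomorphic `p`-th root on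
  the open disc.
-/

set_option autoImplicit false

open Complex Set Metric Filter Topology

namespace Fermat.Agent.S29.H751

/-- A nowhere vanishing holomorphic function on an open disc has a holomorphic logarithm. -/
theorem exists_exp_eq_on_ball {g : ℂ → ℂ} {c : ℂ} {r : ℝ}
    (hg : DifferentiableOn ℂ g (ball c r)) (hne : ∀ z ∈ ball c r, g z ≠ 0) :
    ∃ L : ℂ → ℂ, DifferentiableOn ℂ L (ball c r) ∧ ∀ z ∈ ball c r, cexp (L z) = g z := by
  by_cases hr : 0 < r
  swap
  · refine ⟨fun _ => 0, differentiableOn_const _, fun z hz => ?_⟩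
    rw [ball_eq_empty.2 (not_lt.1 hr)] at hz
    exact absurd hz (notMem_empty z)
  have hopen : IsOpen (ball c r) := isOpen_ball
  have hc : c ∈ ball c r := mem_ball_self hr
  -- the logarithmic derivative
  have hdg : DifferentiableOn ℂ (deriv g) (ball c r) := hg.deriv hopen
  have hφ : DifferentiableOn ℂ (fun z => deriv g z / g z) (ball c r) :=
    hdg.div hg hne
  obtain ⟨L₀, hL₀⟩ := hφ.isExactOn_ball
  -- `g * exp (-L₀)` has zero derivative
  set F : ℂ → ℂ := fun z => g z * cexp (-L₀ z) with hF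
  have hFd : ∀ z ∈ ball c r, HasDerivAt F 0 z := by
    intro z hz
    have h1 : HasDerivAt g (deriv g z) z :=
      (hg.differentiableAt (hopen.mem_nhds hz)).hasDerivAt
    have h2 : HasDerivAt (fun z => cexp (-L₀ z)) (cexp (-L₀ z) * (-(deriv g z / g z))) z :=
      ((hL₀ z hz).neg).cexp
    have h3 := h1.mul h2
    have : deriv g z * cexp (-L₀ z) + g z * (cexp (-L₀ z) * -(deriv g z / g z)) = 0 := by
      field_simp [hne z hz]
      ring
    rw [this] at h3
    exact h3
  have hFdiff : DifferentiableOn ℂ F (ball c r) := fun z hz =>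
    (hFd z hz).differentiableAt.differentiableWithinAt
  have hconst : ∀ z ∈ ball c r, F z = F c := by
    intro z hz
    exact hopen.is_const_of_deriv_eq_zero isPreconnected_ball hFdiff
      (fun w hw => (hFd w hw).deriv) hz hc
  have hFc : F c ≠ 0 := mul_ne_zero (hne c hc) (exp_ne_zero _)
  refine ⟨fun z => L₀ z + Complex.log (F c), ?_, ?_⟩
  · have hL₀d : DifferentiableOn ℂ L₀ (ball c r) := fun z hz =>
      (hL₀ z hz).differentiableAt.differentiableWithinAt
    exact hL₀d.add_const _
  · intro z hz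
    have h := hconst z hz
    simp only [hF] at h
    rw [Complex.exp_add, Complex.exp_log hFc]
    simp only [hF]
    rw [← h, mul_comm, mul_assoc, ← Complex.exp_add]
    simp

/-- A nowhere vanishing holomorphic function on an open disc has a holomorphic `p`-th root. -/
theorem exists_pow_eq_on_ball_of_ne_zero {g : ℂ → ℂ} {c : ℂ} {r : ℝ} (p : ℕ) (hp : p ≠ 0)
    (hg : DifferentiableOn ℂ g (ball c r)) (hne : ∀ z ∈ ball c r, g z ≠ 0) :
    ∃ u : ℂ → ℂ, DifferentiableOn ℂ u (ball c r) ∧ ∀ z ∈ ball c r, u z ^ p = g z := by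
  obtain ⟨L, hL, hLg⟩ := exists_exp_eq_on_ball hg hne
  refine ⟨fun z => cexp (L z / p), ?_, fun z hz => ?_⟩
  · exact (hL.div_const _).cexp
  · rw [← Complex.exp_nat_mul, mul_div_cancel₀ _ (Nat.cast_ne_zero.2 hp), hLg z hz]

/-- Two functions which are continuous at `x` and agree on a punctured neighbourhood of `x`
agree at `x`. -/
theorem eq_of_eventuallyEq_nhdsNE {f g : ℂ → ℂ} {x : ℂ} (hf : ContinuousAt f x)
    (hg : ContinuousAt g x) (h : ∀ᶠ z in 𝓝[≠] x, f z = g z) : f x = g x := by
  have h1 : Tendsto f (𝓝[≠] x) (𝓝 (f x)) := hf.tendsto.mono_left nhdsWithin_le_nhds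
  have h2 : Tendsto g (𝓝[≠] x) (𝓝 (g x)) := hg.tendsto.mono_left nhdsWithin_le_nhds
  exact tendsto_nhds_unique h1 (h2.congr' (h.mono fun z hz => hz.symm))

/-- A holomorphic function near a closed disc, nowhere locally zero, all of whose zeros in the
closed disc have order divisible by `p`, has a holomorphic `p`-th root on the open disc. -/
theorem exists_pow_eq_on_ball {G : ℂ → ℂ} {c : ℂ} {r : ℝ} (p : ℕ) (hp : p ≠ 0)
    (hG : AnalyticOnNhd ℂ G (closedBall c r))
    (hord : ∀ z ∈ closedBall c r, ∃ m : ℕ, analyticOrderAt G z = ((p * m : ℕ) : ℕ∞)) :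
    ∃ u : ℂ → ℂ, DifferentiableOn ℂ u (ball c r) ∧ ∀ z ∈ ball c r, u z ^ p = G z := by
  classical
  set K := closedBall c r with hK
  have hmero : MeromorphicOn G K := hG.meromorphicOn
  have hfin : (MeromorphicOn.divisor G K).support.Finite :=
    (MeromorphicOn.divisor G K).finiteSupport (isCompact_closedBall c r)
  have hordK : ∀ z ∈ K, ∃ m : ℕ, meromorphicOrderAt G z = ((p * m : ℕ) : ℤ) := by
    intro z hz
    obtain ⟨m, hm⟩ := hord z hz
    refine ⟨m, ?_⟩
    rw [(hG z hz).meromorphicOrderAt_eq, hm]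
    rfl
  have hne' : ∀ u : K, meromorphicOrderAt G u ≠ ⊤ := by
    intro u
    obtain ⟨m, hm⟩ := hordK u u.2
    rw [hm]
    exact WithTop.coe_ne_top
  obtain ⟨g, hg, hgne, hEq⟩ := hmero.extract_zeros_poles hne' hfin
  set D := MeromorphicOn.divisor G K with hD
  have hDm : ∀ u, ∃ m : ℕ, D u = ((p * m : ℕ) : ℤ) := by
    intro u
    by_cases hu : u ∈ K
    · obtain ⟨m, hm⟩ := hordK u hu
      refine ⟨m, ?_⟩
      rw [hD, MeromorphicOn.divisor_apply hmero hu, hm]
      rfl
    · refine ⟨0, ?_⟩
      have : D u = 0 := Function.locallyFinsuppWithin.apply_eq_zero_of_notMem D hu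
      simp [this]
  choose E hE using hDm
  -- the polynomial part of the root
  set ψ : ℂ → ℂ := fun z => ∏ u ∈ hfin.toFinset, (z - u) ^ (E u) with hψ
  have hψd : Differentiable ℂ ψ := by
    have : ψ = ∏ u ∈ hfin.toFinset, (fun z : ℂ => (z - u) ^ (E u)) := by
      funext z
      rw [hψ, Finset.prod_apply]
    rw [this]
    apply Differentiable.finsetProd
    intro u _
    exact (differentiable_id.sub_const u).pow _
  -- the factorised rational function is `ψ ^ p`
  have hφ : ∀ z, (∏ᶠ u, (fun x : ℂ => x - u) ^ D u) z = ψ z ^ p := by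
    intro z
    rw [Function.FactorizedRational.finprod_eq_fun hfin]
    show (∏ᶠ u, (z - u) ^ D u) = ψ z ^ p
    rw [finprod_eq_prod_of_mulSupport_subset (s := hfin.toFinset)]
    · rw [hψ]
      simp only
      rw [← Finset.prod_pow]
      refine Finset.prod_congr rfl fun u _ => ?_
      rw [hE u, zpow_natCast, ← pow_mul, mul_comm]
    · intro u hu
      simp only [Function.mem_mulSupport, ne_eq] at hu
      simp only [Set.Finite.coe_toFinset, Function.mem_support, ne_eq]
      intro h0
      exact hu (by rw [h0]; simp)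
  -- root of the unit part
  have hgd : DifferentiableOn ℂ g (ball c r) :=
    (hg.mono ball_subset_closedBall).differentiableOn
  obtain ⟨w, hwd, hw⟩ := exists_pow_eq_on_ball_of_ne_zero p hp hgd
    (fun z hz => hgne ⟨z, ball_subset_closedBall hz⟩)
  refine ⟨fun z => ψ z * w z, hψd.differentiableOn.mul hwd, fun z hz => ?_⟩
  rw [mul_pow, hw z hz, ← hφ z]
  -- upgrade the codiscrete equality to an equality at `z`
  have hS := hEq
  rw [Filter.EventuallyEq, Filter.Eventually, mem_codiscreteWithin] at hS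
  have hzK : z ∈ K := ball_subset_closedBall hz
  have h1 := hS z hzK
  rw [Filter.disjoint_principal_right] at h1
  have h2 : ∀ᶠ y in 𝓝[≠] z, y ∈ K := by
    have : ball c r ∈ 𝓝 z := isOpen_ball.mem_nhds hz
    exact mem_nhdsWithin_of_mem_nhds (Filter.mem_of_superset this ball_subset_closedBall)
  have h3 : ∀ᶠ y in 𝓝[≠] z, G y = ((∏ᶠ u, (fun x : ℂ => x - u) ^ D u) • g) y := by
    filter_upwards [h1, h2] with y hy1 hy2
    by_contra hcon
    exact hy1 ⟨hy2, hcon⟩
  have hcG : ContinuousAt G z := (hG z hzK).continuousAt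
  have hcR : ContinuousAt (fun y => ((∏ᶠ u, (fun x : ℂ => x - u) ^ D u) • g) y) z := by
    have : (fun y => ((∏ᶠ u, (fun x : ℂ => x - u) ^ D u) • g) y) = fun y => ψ y ^ p * g y := by
      funext y
      simp only [Pi.smul_apply', smul_eq_mul, hφ y]
    rw [this]
    exact ((hψd.continuous.continuousAt).pow p).mul (hg z hzK).continuousAt
  have := eq_of_eventuallyEq_nhdsNE hcG hcR h3
  rw [this]
  simp [Pi.smul_apply', smul_eq_mul]


end Fermat.Agent.S29.H751

end
-- ===== PACK-END S29/H751/PthRootBall.lean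

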