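import Fermat.Prelude.Def_EllipticCurve_FrobeniusTrace
import Mathlib
import Fermat.Prelude.Def_ModularCurve_X0
import Fermat.Prelude.Def_ModularCurve_LaurentCoeff
import Fermat.Prelude.Def_ModularCurve_JqCoeff
import Mathlib.NumberTheory.ModularForms.LevelOne.DimensionFormula
import Mathlib.NumberTheory.ModularForms.LevelOne.GradedRing
import Mathlib.NumberTheory.ModularForms.EisensteinSeries.QExpansion
import Mathlib.Analysis.Complex.LocallyUniformLimit
import Mathlib.Data.ZMod.QuotientGroup
import Mathlib.GroupTheory.GroupAction.FixedPoints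
import Mathlib.GroupTheory.GroupAction.Quotient
import Mathlib.Dynamics.PeriodicPts.Defs
import Mathlib.SetTheory.Cardinal.Finite
import Mathlib.Tactic.Ring
import Mathlib.Data.Nat.Prime.Basic
import Fermat.Agent.Pack.S3234.G0E0L1
import Fermat.Agent.Pack.S3234.G0E0L3
import Fermat.Agent.Pack.S3234.G0E0L0

-- ===== PACK-BEGIN S30/H990/Extract.lean
section
/-
S30 top glue (helper990): pure algebra, part 3.
From a Galois module on which every element satisfies a quadratic relation `g² - a g + d(g) = 0`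
(`d` a character, `d c = -1` for an involution `c`) we extract a stable saturated lattice of rank
`1` or `2`.
-/



set_option autoImplicit false

namespace Fermat.Agent.S30.H990

open Module

section Rel

variable {𝒪 M G : Type*} [CommRing 𝒪] [AddCommGroup M] [Module 𝒪 M] [Group G]

/-- The quadratic relation `ρ(g)² - a ρ(g) + d(g) = 0`. -/
def Rel (ρ : G →* Module.End 𝒪 M) (d : G →* 𝒪ˣ) (g : G) (a : 𝒪) : Prop :=
  ρ g * ρ g - a • ρ g + ((d g : 𝒪ˣ) : 𝒪) • (1 : Module.End 𝒪 M) = 0

variable (ρ : G →* Module.End 𝒪 M) (d : G →* 𝒪ˣ)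

theorem rel_apply {g : G} {a : 𝒪} (h : Rel ρ d g a) (x : M) :
    ρ g (ρ g x) - a • ρ g x + ((d g : 𝒪ˣ) : 𝒪) • x = 0 := by
  have := congrArg (fun f : Module.End 𝒪 M => f x) h
  simpa [Rel] using this

/-- Key identity on eigenvectors of the involution `c`. -/
theorem eigen_key (a : G → 𝒪) (ha : ∀ g, Rel ρ d g (a g)) (c : G) (hc : c * c = 1)
    (hdc : d c = -1) (ε : 𝒪) (u : M) (hu : ρ c u = ε • u) (g : G) :
    ρ c (ρ g u) + ε • ρ g u = (a (g * c) + ε * a g) • u := by
  have hy : ρ c * ρ c = 1 := by rw [← map_mul, hc, map_one]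
  have hxy : (ρ g * ρ c) * (ρ g * ρ c) - a (g * c) • (ρ g * ρ c)
      + (-((d g : 𝒪ˣ) : 𝒪)) • (1 : Module.End 𝒪 M) = 0 := by
    have := ha (g * c)
    unfold Rel at this
    rw [map_mul ρ, map_mul d, hdc] at this
    simpa using this
  have key := anticomm_of_rel (ρ g) (ρ c) (a g) (a (g * c)) (d g) hy (ha g) hxy
  have := congrArg (fun f : Module.End 𝒪 M => f u) key
  simp only [LinearMap.add_apply, Module.End.mul_apply, LinearMap.smul_apply,
    Module.End.one_apply, hu, map_smul] at this
  rw [add_smul, mul_comm ε (a g), mul_smul, ← this]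
  abel

end Rel

section Stable

variable {𝒪 M G : Type*} [CommRing 𝒪] [IsDomain 𝒪] [AddCommGroup M] [Module 𝒪 M]
  [Module.IsTorsionFree 𝒪 M] [Nontrivial M] [Group G]

variable (ρ : G →* Module.End 𝒪 M) (d : G →* 𝒪ˣ)

/-- Existence of an eigenvector of the involution. -/
theorem exists_eigen (h2 : (2 : 𝒪) ≠ 0) (c : G) (hc : c * c = 1) :
    ∃ (ε : 𝒪) (u : M), ε * ε = 1 ∧ u ≠ 0 ∧ ρ c u = ε • u := by
  have hy : ∀ x, ρ c (ρ c x) = x := fun x => by
    have : ρ c * ρ c = 1 := by rw [← map_mul, hc, map_one]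
    exact congrArg (fun f : Module.End 𝒪 M => f x) this
  obtain ⟨m, hm⟩ := exists_ne (0 : M)
  by_cases h : ρ c m + m = 0
  · refine ⟨-1, m, by ring, hm, ?_⟩
    rw [neg_one_smul]; exact eq_neg_of_add_eq_zero_left h
  · refine ⟨1, ρ c m + m, by ring, h, ?_⟩
    rw [map_add, hy, one_smul, add_comm]

theorem exists_stable (h2 : (2 : 𝒪) ≠ 0) (hrel : ∀ g, ∃ a, Rel ρ d g a) (c : G) (hc : c * c = 1)
    (hdc : d c = -1) :
    (∃ v : M, v ≠ 0 ∧ ∀ g, ∃ r : 𝒪, r ≠ 0 ∧ r • ρ g v ∈ Submodule.span 𝒪 {v}) ∨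
    (∃ (u w : M) (ε : 𝒪), ε * ε = 1 ∧ u ≠ 0 ∧ w ≠ 0 ∧ ρ c u = ε • u ∧ ρ c w = -ε • w ∧
      (∀ g, ∃ r : 𝒪, r ≠ 0 ∧ r • ρ g u ∈ Submodule.span 𝒪 {u, w}) ∧
      (∀ g, ∃ r : 𝒪, r ≠ 0 ∧ r • ρ g w ∈ Submodule.span 𝒪 {u, w})) := by
  classical
  choose a ha using hrel
  have hy : ∀ x, ρ c (ρ c x) = x := fun x => by
    have : ρ c * ρ c = 1 := by rw [← map_mul, hc, map_one]
    exact congrArg (fun f : Module.End 𝒪 M => f x) this
  obtain ⟨ε, u, hε, hu0, hu⟩ := exists_eigen ρ h2 c hc
  have hε0 : ε ≠ 0 := by rintro rfl; simp at hε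
  have h2ε : (2 : 𝒪) * ε ≠ 0 := mul_ne_zero h2 hε0
  -- `P x = c x + ε x`, `Q x = c x - ε x`
  have hP : ∀ g, ρ c (ρ g u) + ε • ρ g u = (a (g * c) + ε * a g) • u :=
    fun g => eigen_key ρ d a ha c hc hdc ε u hu g
  have hsplit : ∀ x : M, (2 * ε) • x = (ρ c x + ε • x) - (ρ c x - ε • x) := by
    intro x; rw [mul_smul, two_smul]; abel
  by_cases h1 : ∀ g, ρ c (ρ g u) - ε • ρ g u = 0
  · -- rank one, generated by `u`
    left
    refine ⟨u, hu0, fun g => ⟨2 * ε, h2ε, ?_⟩⟩
    rw [hsplit, h1 g, sub_zero, hP g]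
    exact Submodule.smul_mem _ _ (Submodule.mem_span_singleton_self u)
  obtain ⟨g₀, hw0⟩ := not_forall.mp h1
  set w : M := ρ c (ρ g₀ u) - ε • ρ g₀ u with hw
  have hcw : ρ c w = -ε • w := by
    rw [hw, map_sub, hy, map_smul, smul_sub, smul_smul, neg_mul, hε]
    simp only [neg_smul, one_smul]
    abel
  -- the key identity for `w` (eigenvalue `-ε`)
  have hQw : ∀ g, ρ c (ρ g w) - ε • ρ g w = (a (g * c) + -ε * a g) • w := by
    intro g
    have := eigen_key ρ d a ha c hc hdc (-ε) w hcw g
    rw [← this, neg_smul, sub_eq_add_neg]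
  have hwexp : ∀ g, ρ g w = ρ (g * c * g₀) u - ε • ρ (g * g₀) u := by
    intro g
    rw [hw, map_sub, map_smul, map_mul, map_mul, Module.End.mul_apply, Module.End.mul_apply,
      map_mul, Module.End.mul_apply]
  have hPw : ∀ g, ρ c (ρ g w) + ε • ρ g w
      = ((a (g * c * g₀ * c) + ε * a (g * c * g₀)) - ε * (a (g * g₀ * c) + ε * a (g * g₀))) • u := by
    intro g
    rw [hwexp g, map_sub, map_smul, smul_sub, sub_smul, mul_smul, ← hP (g * c * g₀),
      ← hP (g * g₀), smul_add, smul_smul]
    abel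
  by_cases h2' : ∀ g, ρ c (ρ g w) + ε • ρ g w = 0
  · -- rank one, generated by `w`
    left
    refine ⟨w, hw0, fun g => ⟨2 * ε, h2ε, ?_⟩⟩
    rw [hsplit, h2' g, zero_sub, hQw g, ← neg_smul]
    exact Submodule.smul_mem _ _ (Submodule.mem_span_singleton_self w)
  obtain ⟨g₁, hy0⟩ := not_forall.mp h2'
  right
  set t : 𝒪 := (a (g₁ * c * g₀ * c) + ε * a (g₁ * c * g₀))
      - ε * (a (g₁ * g₀ * c) + ε * a (g₁ * g₀)) with ht
  have hyt : ρ c (ρ g₁ w) + ε • ρ g₁ w = t • u := hPw g₁
  have ht0 : t ≠ 0 := by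
    rintro h0
    rw [h0, zero_smul] at hyt
    exact hy0 hyt
  have huS : u ∈ Submodule.span 𝒪 ({u, w} : Set M) := Submodule.subset_span (by simp)
  have hwS : w ∈ Submodule.span 𝒪 ({u, w} : Set M) := Submodule.subset_span (by simp)
  refine ⟨u, w, ε, hε, hu0, hw0, hu, hcw, ?_, ?_⟩
  · intro g
    -- `t • Q (g u) = Q (g (t u)) = Q (g y)`, `y = c g₁ w + ε g₁ w`
    have hQy : t • (ρ c (ρ g u) - ε • ρ g u)
        = ((a (g * c * g₁ * c) + -ε * a (g * c * g₁))
            + ε * (a (g * g₁ * c) + -ε * a (g * g₁))) • w := by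
      have e1 : t • (ρ c (ρ g u) - ε • ρ g u) = ρ c (ρ g (t • u)) - ε • ρ g (t • u) := by
        simp only [map_smul, smul_sub, smul_comm t ε]
      have e2 : ρ g (t • u) = ρ (g * c * g₁) w + ε • ρ (g * g₁) w := by
        rw [← hyt, map_add, map_smul, map_mul, map_mul, Module.End.mul_apply,
          Module.End.mul_apply, map_mul, Module.End.mul_apply]
      rw [e1, e2, map_add, map_smul, smul_add, add_smul, mul_smul, ← hQw (g * c * g₁),
        ← hQw (g * g₁), smul_sub, smul_smul]
      abel
    refine ⟨2 * ε * t, mul_ne_zero h2ε ht0, ?_⟩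
    have : (2 * ε * t) • ρ g u
        = t • (a (g * c) + ε * a g) • u - (t • (ρ c (ρ g u) - ε • ρ g u)) := by
      rw [mul_comm (2 * ε) t, mul_smul, hsplit, hP g, smul_sub]
    rw [this, hQy]
    exact Submodule.sub_mem _ (Submodule.smul_mem _ _ (Submodule.smul_mem _ _ huS))
      (Submodule.smul_mem _ _ hwS)
  · intro g
    refine ⟨2 * ε, h2ε, ?_⟩
    rw [hsplit, hPw g, hQw g]
    exact Submodule.sub_mem _ (Submodule.smul_mem _ _ huS) (Submodule.smul_mem _ _ hwS)

end Stable

end Fermat.Agent.S30.H990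

end
-- ===== PACK-END S30/H990/Extract.lean

-- ===== PACK-BEGIN S54/FrobExists.lean
section




set_option autoImplicit false

namespace Fermat.Agent.S54

open scoped Pointwise

/-- The prime of the ring of algebraic integers below a valuation subring. -/
def primeBelow (A : ValuationSubring (AlgebraicClosure ℚ)) :
    Ideal (integralClosure ℤ (AlgebraicClosure ℚ)) where
  carrier := {b | (b : AlgebraicClosure ℚ) ∈ A.nonunits}
  add_mem' := fun {a b} ha hb => A.nonunits.add_mem ha hb
  zero_mem' := A.nonunits.zero_mem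
  smul_mem' := fun c b hb => by
    obtain ⟨hb1, hb2⟩ := ValuationSubring.mem_nonunits_iff_exists_mem_maximalIdeal.mp hb
    have hc : (c : AlgebraicClosure ℚ) ∈ A := isIntegral_mem_valuationSubring A c.2
    have := Ideal.mul_mem_left _ (⟨c, hc⟩ : A) hb2
    exact ValuationSubring.mem_nonunits_iff_exists_mem_maximalIdeal.mpr ⟨_, this⟩

theorem mem_primeBelow (A : ValuationSubring (AlgebraicClosure ℚ))
    (b : integralClosure ℤ (AlgebraicClosure ℚ)) :
    b ∈ primeBelow A ↔ (b : AlgebraicClosure ℚ) ∈ A.nonunits := Iff.rfl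

theorem primeBelow_isPrime (A : ValuationSubring (AlgebraicClosure ℚ)) :
    (primeBelow A).IsPrime := by
  constructor
  · intro h
    have : (1 : integralClosure ℤ (AlgebraicClosure ℚ)) ∈ primeBelow A := by
      rw [h]; trivial
    rw [mem_primeBelow, ValuationSubring.mem_nonunits_iff] at this
    simp at this
  · intro a b hab
    rw [mem_primeBelow, ValuationSubring.mem_nonunits_iff] at hab ⊢
    rw [mem_primeBelow, ValuationSubring.mem_nonunits_iff]
    have ha : A.valuation (a : AlgebraicClosure ℚ) ≤ 1 :=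
      (A.valuation_le_one_iff _).mpr (isIntegral_mem_valuationSubring A a.2)
    have hb : A.valuation (b : AlgebraicClosure ℚ) ≤ 1 :=
      (A.valuation_le_one_iff _).mpr (isIntegral_mem_valuationSubring A b.2)
    by_contra hcon
    rw [not_or, not_lt, not_lt] at hcon
    have ha1 : A.valuation (a : AlgebraicClosure ℚ) = 1 := le_antisymm ha hcon.1
    have hb1 : A.valuation (b : AlgebraicClosure ℚ) = 1 := le_antisymm hb hcon.2
    have : A.valuation ((a * b : integralClosure ℤ (AlgebraicClosure ℚ)) : AlgebraicClosure ℚ)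
        = 1 := by
      push_cast
      rw [map_mul, ha1, hb1, mul_one]
    exact absurd hab (by rw [this]; exact lt_irrefl _)

/-- There is a valuation subring of `ℚ̄` over every prime number. -/
theorem exists_valuationSubring_liesOver (ℓ : ℕ) (hℓ : ℓ.Prime) :
    ∃ A : ValuationSubring (AlgebraicClosure ℚ), A.LiesOverPrime ℓ := by
  let A₀ : Subring (AlgebraicClosure ℚ) := (algebraMap ℤ (AlgebraicClosure ℚ)).range
  let l₀ : A₀ := ⟨(ℓ : AlgebraicClosure ℚ), ⟨(ℓ : ℤ), by simp⟩⟩
  have hI : Ideal.span {l₀} ≠ ⊤ := by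
    intro h
    rw [Ideal.span_singleton_eq_top] at h
    obtain ⟨⟨m, n, rfl⟩, hm⟩ := h.exists_right_inv
    have h1 : ((ℓ : ℤ) : AlgebraicClosure ℚ) * ((n : ℤ) : AlgebraicClosure ℚ) = 1 := by
      have := congrArg Subtype.val hm
      simpa [l₀] using this
    have h2 : (ℓ : ℤ) * n = 1 := by exact_mod_cast h1
    have h3 : (ℓ : ℤ) ∣ 1 := ⟨n, h2.symm⟩
    have h4 : ℓ ∣ 1 := by exact_mod_cast h3
    exact hℓ.one_lt.ne' (Nat.dvd_one.mp h4)
  obtain ⟨A, -, hA⟩ := Ideal.image_subset_nonunits_valuationSubring _ hI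
  refine ⟨A, ?_⟩
  apply hA
  exact ⟨l₀, Ideal.subset_span rfl, rfl⟩

/-- Existence of Frobenius elements in the absolute Galois group of `ℚ`: for every prime
number `ℓ` there are a valuation subring `A` of `ℚ̄` over `ℓ` and `σ ∈ Gal(ℚ̄/ℚ)` which is a
Frobenius element at `A`. -/
theorem exists_frobenius (ℓ : ℕ) (hℓ : ℓ.Prime) :
    ∃ (A : ValuationSubring (AlgebraicClosure ℚ))
      (σ : AlgebraicClosure ℚ ≃ₐ[ℚ] AlgebraicClosure ℚ),
      A.LiesOverPrime ℓ ∧ A.IsFrobeniusAt σ ℓ := by
  have : Algebra.IsAlgebraic ℚ (AlgebraicClosure ℚ) := AlgebraicClosure.isAlgebraic ℚ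
  obtain ⟨A, hA⟩ := exists_valuationSubring_liesOver ℓ hℓ
  have := primeBelow_isPrime A
  have hℓQ : (ℓ : integralClosure ℤ (AlgebraicClosure ℚ)) ∈ primeBelow A := by
    rw [mem_primeBelow]
    exact hA
  obtain ⟨σ, hσQ', hσF⟩ := exists_frob_integralClosure ℓ hℓ (primeBelow A) hℓQ
  have hσQ : ∀ x, σ • x ∈ primeBelow A ↔ x ∈ primeBelow A := by
    intro x
    conv_lhs => rw [← hσQ']
    exact Ideal.smul_mem_pointwise_smul_iff
  have key : ∀ τ : AlgebraicClosure ℚ ≃ₐ[ℚ] AlgebraicClosure ℚ,
      (∀ x, τ • x ∈ primeBelow A ↔ x ∈ primeBelow A) → ∀ x ∈ A, τ x ∈ A := by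
    intro τ hτ x hx
    obtain ⟨b, s, hb, hs, hsA, hxs⟩ := (mem_valuationSubring_iff A ℓ hℓ hA x).mp hx
    refine (mem_valuationSubring_iff A ℓ hℓ hA (τ x)).mpr
      ⟨τ b, τ s, hb.map τ, hs.map τ, ?_, ?_⟩
    · exact (hτ ⟨s, hs⟩).not.mpr hsA
    · rw [← map_mul, hxs]
  have hσA : σ ∈ A.decompositionSubgroup ℚ := by
    rw [MulAction.mem_stabilizer_iff]
    ext x
    rw [ValuationSubring.mem_smul_pointwise_iff_exists]
    constructor
    · rintro ⟨s, hs, rfl⟩
      exact key σ hσQ s hs
    · intro hx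
      refine ⟨σ⁻¹ • x, key σ⁻¹ ?_ x hx, by simp⟩
      intro y
      rw [← hσQ (σ⁻¹ • y)]
      simp
  refine ⟨A, σ, hA, hσA, ?_⟩
  intro x
  obtain ⟨a, rfl⟩ := IsLocalRing.residue_surjective x
  obtain ⟨b, s, hb, hs, hsA, hxs⟩ := (mem_valuationSubring_iff A ℓ hℓ hA a).mp a.2
  have hbA : b ∈ A := isIntegral_mem_valuationSubring A hb
  have hsA' : s ∈ A := isIntegral_mem_valuationSubring A hs
  have hint : ∀ (y : AlgebraicClosure ℚ) (hy : IsIntegral ℤ y),
      (⟨σ, hσA⟩ : A.decompositionSubgroup ℚ) •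
        IsLocalRing.residue A ⟨y, isIntegral_mem_valuationSubring A hy⟩ =
      (IsLocalRing.residue A ⟨y, isIntegral_mem_valuationSubring A hy⟩) ^ ℓ := by
    intro y hy
    rw [← IsLocalRing.ResidueField.residue_smul, ← map_pow, ← sub_eq_zero, ← map_sub,
      IsLocalRing.residue_eq_zero_iff, ← ValuationSubring.coe_mem_nonunits_iff]
    exact hσF ⟨y, hy⟩
  have h1 : IsLocalRing.residue A a * IsLocalRing.residue A ⟨s, hsA'⟩ =
      IsLocalRing.residue A ⟨b, hbA⟩ := by
    rw [← map_mul]
    congr 1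
    exact Subtype.ext hxs
  have h2 : IsLocalRing.residue A ⟨s, hsA'⟩ ≠ 0 := by
    rw [Ne, IsLocalRing.residue_eq_zero_iff, ← ValuationSubring.coe_mem_nonunits_iff]
    exact hsA
  have h3 := congrArg (fun z => (⟨σ, hσA⟩ : A.decompositionSubgroup ℚ) • z) h1
  simp only [smul_mul'] at h3
  rw [hint s hs, hint b hb, ← h1, mul_pow] at h3
  exact mul_right_cancel₀ (pow_ne_zero _ h2) h3

end Fermat.Agent.S54

end
-- ===== PACK-END S54/FrobExists.lean

-- ===== PACK-BEGIN S37/H400/KronSection.lean
section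
/-
S37 / helper400 — piece KRON, part (K1): `p`-sections of Laurent series and the section matrix.

For `f ∈ R((T))` the *section matrix* `secMat p f ∈ Mat_p(R((q)))` is the matrix of multiplication
by `f` on `R((T))`, seen as a free module over `V_p (R((q)))` (`V_p = qExpand R p : q ↦ T ^ p`) with
basis `1, T, …, T^{p-1}`.  We prove that `secMat p` is multiplicative, sends `V_p a` to the scalar
matrix `a`, and satisfies Cayley–Hamilton in the form `(charpoly.map V_p).eval f = 0`.

(The section matrix idea is due to helper807, `S28/H807/Section.lean`; this file is an independent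
self-contained development with the multiplicative structure needed for the Kronecker congruence.)
-/




set_option autoImplicit false

noncomputable section

open ModularCurve HahnSeries Polynomial Matrix

namespace Fermat.Agent.S37.H400

variable {R : Type*} [CommRing R]

/-- The `r`-th `p`-section `∑ₘ f_{pm+r} qᵐ` of a Laurent series `f`. -/
def secL (p : ℕ) [NeZero p] (r : ℤ) (f : LaurentSeries R) : LaurentSeries R :=
  HahnSeries.ofSuppBddBelow (fun m : ℤ => f.coeff ((p : ℤ) * m + r))
    ⟨(f.order - r) / (p : ℤ), by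
      intro m hm
      by_contra hlt
      apply hm
      apply HahnSeries.coeff_eq_zero_of_lt_order
      have hp : (0 : ℤ) < (p : ℤ) := by exact_mod_cast Nat.pos_of_ne_zero (NeZero.ne p)
      have h1 : m + 1 ≤ (f.order - r) / (p : ℤ) := not_le.mp hlt
      have h2 : (m + 1) * (p : ℤ) ≤ f.order - r := (Int.le_ediv_iff_mul_le hp).mp h1
      nlinarith⟩

@[simp]
theorem secL_coeff (p : ℕ) [NeZero p] (r : ℤ) (f : LaurentSeries R) (m : ℤ) :
    (secL p r f).coeff m = f.coeff ((p : ℤ) * m + r) := rfl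

theorem secL_coeffMap {S : Type*} [CommRing S] (φ : R →+* S) (p : ℕ) [NeZero p] (r : ℤ)
    (f : LaurentSeries R) : secL p r (coeffMap φ f) = coeffMap φ (secL p r f) := by
  ext m
  simp

theorem secL_add (p : ℕ) [NeZero p] (r : ℤ) (f g : LaurentSeries R) :
    secL p r (f + g) = secL p r f + secL p r g := by
  ext m
  simp

theorem secL_zero (p : ℕ) [NeZero p] (r : ℤ) : secL p r (0 : LaurentSeries R) = 0 := by
  ext m
  simp

theorem secL_sum (p : ℕ) [NeZero p] (r : ℤ) {ι : Type*} (s : Finset ι)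
    (F : ι → LaurentSeries R) : secL p r (∑ i ∈ s, F i) = ∑ i ∈ s, secL p r (F i) := by
  classical
  induction s using Finset.induction_on with
  | empty => simp [secL_zero]
  | insert a s ha ih => rw [Finset.sum_insert ha, Finset.sum_insert ha, secL_add, ih]

/-- Shifting by `T ^ k` shifts the section index. -/
theorem secL_mul_single (p : ℕ) [NeZero p] (r k : ℤ) (f : LaurentSeries R) :
    secL p r (f * HahnSeries.single k (1 : R)) = secL p (r - k) f := by
  ext m
  rw [secL_coeff, secL_coeff]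
  have : (p : ℤ) * m + r = ((p : ℤ) * m + (r - k)) + k := by ring
  rw [this, HahnSeries.coeff_mul_single_add, mul_one]

/-- The recombination `∑ᵢ V_p(aᵢ) Tⁱ` of a family of sections. -/
def recomb (p : ℕ) [NeZero p] (a : Fin p → LaurentSeries R) : LaurentSeries R :=
  ∑ i : Fin p, qExpand R p (a i) * HahnSeries.single ((i : ℕ) : ℤ) (1 : R)

theorem coeff_qExpand_mul_single (p : ℕ) [NeZero p] (a : LaurentSeries R) (i : Fin p)
    (m : ℤ) (j : Fin p) :
    (qExpand R p a * HahnSeries.single ((i : ℕ) : ℤ) (1 : R)).coeff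
        ((p : ℤ) * m + ((j : ℕ) : ℤ)) = if j = i then a.coeff m else 0 := by
  have hi : ((i : ℕ) : ℤ) < p := by exact_mod_cast i.2
  have hj : ((j : ℕ) : ℤ) < p := by exact_mod_cast j.2
  have hi0 : (0 : ℤ) ≤ ((i : ℕ) : ℤ) := by positivity
  have hj0 : (0 : ℤ) ≤ ((j : ℕ) : ℤ) := by positivity
  have h : (p : ℤ) * m + ((j : ℕ) : ℤ) =
      ((p : ℤ) * m + ((j : ℕ) : ℤ) - ((i : ℕ) : ℤ)) + ((i : ℕ) : ℤ) := by ring
  rw [h, HahnSeries.coeff_mul_single_add, mul_one]
  split_ifs with hji
  · subst hji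
    rw [add_sub_cancel_right, qExpand_coeff_mul]
  · apply qExpand_coeff_of_not_dvd
    intro hd
    apply hji
    apply Fin.ext
    have h2 : (p : ℤ) ∣ ((j : ℕ) : ℤ) - ((i : ℕ) : ℤ) := by
      have : (p : ℤ) * m + ((j : ℕ) : ℤ) - ((i : ℕ) : ℤ)
          = (p : ℤ) * m + (((j : ℕ) : ℤ) - ((i : ℕ) : ℤ)) := by ring
      rw [this] at hd
      exact (Int.dvd_add_right (dvd_mul_right _ _)).mp hd
    obtain ⟨c, hc⟩ := h2
    have hc0 : c = 0 := by
      by_contra hne
      rcases lt_or_gt_of_ne hne with hlt | hgt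
      · have : (p : ℤ) * c ≤ (p : ℤ) * (-1) := by
          apply mul_le_mul_of_nonneg_left _ (by positivity)
          omega
        omega
      · have : (p : ℤ) * 1 ≤ (p : ℤ) * c := by
          apply mul_le_mul_of_nonneg_left _ (by positivity)
          omega
        omega
    rw [hc0, mul_zero] at hc
    have : ((j : ℕ) : ℤ) = ((i : ℕ) : ℤ) := by omega
    exact_mod_cast this

/-- Sections of a recombination. -/
theorem secL_recomb (p : ℕ) [NeZero p] (a : Fin p → LaurentSeries R) (j : Fin p) :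
    secL p ((j : ℕ) : ℤ) (recomb p a) = a j := by
  ext m
  rw [secL_coeff, recomb, HahnSeries.coeff_sum]
  simp_rw [coeff_qExpand_mul_single]
  simp

/-- Every Laurent series is the recombination of its sections. -/
theorem recomb_secL (p : ℕ) [NeZero p] (f : LaurentSeries R) :
    recomb p (fun i : Fin p => secL p ((i : ℕ) : ℤ) f) = f := by
  have hp : (0 : ℤ) < (p : ℤ) := by exact_mod_cast Nat.pos_of_ne_zero (NeZero.ne p)
  ext n
  have hlt : (n % (p : ℤ)).toNat < p := by
    have h1 : n % (p : ℤ) < p := Int.emod_lt_of_pos n hp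
    have h0 : 0 ≤ n % (p : ℤ) := Int.emod_nonneg n hp.ne'
    omega
  set j : Fin p := ⟨(n % (p : ℤ)).toNat, hlt⟩ with hj
  have hjv : ((j : ℕ) : ℤ) = n % (p : ℤ) := by
    simp only [hj]
    exact Int.toNat_of_nonneg (Int.emod_nonneg n hp.ne')
  have hn : n = (p : ℤ) * (n / (p : ℤ)) + ((j : ℕ) : ℤ) := by
    rw [hjv]; have := Int.emod_add_mul_ediv n (p : ℤ); linarith
  rw [recomb, HahnSeries.coeff_sum]
  conv_lhs =>
    enter [2, i]
    rw [hn, coeff_qExpand_mul_single]
  simp only [Finset.sum_ite_eq, Finset.mem_univ, if_true, secL_coeff]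
  rw [← hn]

/-- `V_p`-semilinearity of the sections. -/
theorem secL_qExpand_mul (p : ℕ) [NeZero p] (a h : LaurentSeries R) (j : Fin p) :
    secL p ((j : ℕ) : ℤ) (qExpand R p a * h) = a * secL p ((j : ℕ) : ℤ) h := by
  conv_lhs => rw [← recomb_secL p h]
  have : qExpand R p a * recomb p (fun i : Fin p => secL p ((i : ℕ) : ℤ) h)
      = recomb p (fun i : Fin p => a * secL p ((i : ℕ) : ℤ) h) := by
    simp only [recomb, Finset.mul_sum, map_mul, mul_assoc]
  rw [this, secL_recomb]

/-- The section matrix of `f`: entry `(i', i)` is the `i'`-th section of `f · Tⁱ`,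
i.e. the `(i' - i)`-th section of `f`. -/
def secMat (p : ℕ) [NeZero p] (f : LaurentSeries R) :
    Matrix (Fin p) (Fin p) (LaurentSeries R) :=
  fun i' i => secL p ((i' : ℕ) : ℤ) (f * HahnSeries.single ((i : ℕ) : ℤ) (1 : R))

theorem secMat_apply (p : ℕ) [NeZero p] (f : LaurentSeries R) (i' i : Fin p) :
    secMat p f i' i = secL p ((i' : ℕ) : ℤ) (f * HahnSeries.single ((i : ℕ) : ℤ) (1 : R)) :=
  rfl

theorem secMat_apply' (p : ℕ) [NeZero p] (f : LaurentSeries R) (i' i : Fin p) :
    secMat p f i' i = secL p (((i' : ℕ) : ℤ) - ((i : ℕ) : ℤ)) f := by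
  rw [secMat_apply, secL_mul_single]

theorem secMat_coeffMap {S : Type*} [CommRing S] (φ : R →+* S) (p : ℕ) [NeZero p]
    (f : LaurentSeries R) :
    secMat p (coeffMap φ f) = (secMat p f).map (coeffMap φ) := by
  ext i' i : 1
  simp only [secMat_apply', Matrix.map_apply, secL_coeffMap]

/-- Key identity: `f · Tⁱ = ∑_{i'} V_p(M_{i',i}) · T^{i'}`. -/
theorem mul_single_eq_recomb (p : ℕ) [NeZero p] (f : LaurentSeries R) (i : Fin p) :
    f * HahnSeries.single ((i : ℕ) : ℤ) (1 : R) = recomb p (fun i' => secMat p f i' i) :=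
  (recomb_secL p _).symm

/-- The section matrix is multiplicative. -/
theorem secMat_mul (p : ℕ) [NeZero p] (f g : LaurentSeries R) :
    secMat p (f * g) = secMat p f * secMat p g := by
  ext i' i : 1
  have hmul : (secMat p f * secMat p g) i' i = ∑ j, secMat p f i' j * secMat p g j i :=
    Matrix.mul_apply
  rw [hmul, secMat_apply, mul_assoc, mul_single_eq_recomb p g i, recomb,
    Finset.mul_sum, secL_sum p _ Finset.univ]
  apply Finset.sum_congr rfl
  intro j _
  rw [← mul_assoc, mul_comm f, mul_assoc, secL_qExpand_mul, mul_comm]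
  rfl

theorem secL_single_one (p : ℕ) [NeZero p] (i' i : Fin p) :
    secL p ((i' : ℕ) : ℤ) (HahnSeries.single ((i : ℕ) : ℤ) (1 : R)) =
      if i' = i then 1 else 0 := by
  have h := secL_recomb p (fun j : Fin p => if j = i then (1 : LaurentSeries R) else 0) i'
  have h2 : recomb p (fun j : Fin p => if j = i then (1 : LaurentSeries R) else 0)
      = HahnSeries.single ((i : ℕ) : ℤ) (1 : R) := by
    rw [recomb, Finset.sum_eq_single i]
    · simp
    · intro b _ hb; simp [hb]
    · intro h; exact absurd (Finset.mem_univ _) h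
  rw [h2] at h
  exact h

/-- The section matrix of `V_p a` is the scalar matrix `a`. -/
theorem secMat_qExpand (p : ℕ) [NeZero p] (a : LaurentSeries R) :
    secMat p (qExpand R p a) = Matrix.scalar (Fin p) a := by
  ext i' i : 1
  rw [secMat_apply, secL_qExpand_mul, secL_single_one, Matrix.scalar_apply,
    Matrix.diagonal_apply]
  split_ifs <;> simp

theorem secMat_one (p : ℕ) [NeZero p] : secMat p (1 : LaurentSeries R) = 1 := by
  have := secMat_qExpand p (1 : LaurentSeries R)
  rwa [map_one, map_one] at this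

theorem secMat_pow (p : ℕ) [NeZero p] (f : LaurentSeries R) (n : ℕ) :
    secMat p (f ^ n) = secMat p f ^ n := by
  induction n with
  | zero => rw [pow_zero, pow_zero, secMat_one]
  | succ n ih => rw [pow_succ, pow_succ, secMat_mul, ih]

/-- **Cayley–Hamilton for the section matrix**: the characteristic polynomial of `secMat p f`,
with coefficients pushed along `V_p`, kills `f`. -/
theorem secMat_charpoly_eval (p : ℕ) [NeZero p] (f : LaurentSeries R) :
    (((secMat p f).charpoly).map (qExpand R p)).eval f = 0 := by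
  set A : Matrix (Fin p) (Fin p) (LaurentSeries R) := (secMat p f).map (qExpand R p) with hA
  set v : Fin p → LaurentSeries R := fun i => HahnSeries.single ((i : ℕ) : ℤ) (1 : R) with hv
  set B : Matrix (Fin p) (Fin p) (LaurentSeries R) := Matrix.scalar (Fin p) f - Aᵀ with hB
  have hBv : B *ᵥ v = 0 := by
    funext i
    simp only [hB, Matrix.sub_mulVec, Pi.sub_apply, Pi.zero_apply]
    rw [sub_eq_zero]
    have h1 : (Matrix.scalar (Fin p) f *ᵥ v) i = f * v i := by
      simp [Matrix.scalar_apply, Matrix.mulVec, dotProduct, Matrix.diagonal_apply]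
    rw [h1]
    simp only [Matrix.mulVec, dotProduct, Matrix.transpose_apply, hA, Matrix.map_apply, hv]
    exact mul_single_eq_recomb p f i
  have hdet : B.det • v = 0 := by
    have h : (Matrix.adjugate B * B) *ᵥ v = (B.det • (1 : Matrix (Fin p) (Fin p) _)) *ᵥ v := by
      rw [Matrix.adjugate_mul]
    rw [← Matrix.mulVec_mulVec, hBv, Matrix.mulVec_zero] at h
    rw [Matrix.smul_mulVec, Matrix.one_mulVec] at h
    exact h.symm
  have h0 : B.det * v ⟨0, Nat.pos_of_ne_zero (NeZero.ne p)⟩ = 0 := by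
    have := congrFun hdet ⟨0, Nat.pos_of_ne_zero (NeZero.ne p)⟩
    simpa using this
  have hv0 : v ⟨0, Nat.pos_of_ne_zero (NeZero.ne p)⟩ = 1 := by
    simp only [hv]
    rfl
  rw [hv0, mul_one] at h0
  rw [← Matrix.charpoly_map, ← hA, ← Matrix.charpoly_transpose, Matrix.eval_charpoly]
  exact h0

end Fermat.Agent.S37.H400

end

end
-- ===== PACK-END S37/H400/KronSection.lean

-- ===== PACK-BEGIN S37/H340/KronBasic.lean
section




/-!
# S37 / R3-K : the formal Kronecker polynomial (helper340)

For a commutative ring `R`, `ℓ ≥ 1` and a Laurent series `f = ∑ aₙ qⁿ`, the ring `R((q))` is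
free of rank `ℓ` over its subring `V (R((q))) = R((q^ℓ))` (`V = qExpand R ℓ`), with basis
`1, q, …, q^(ℓ-1)`.  `kronMat ℓ f` is the matrix of multiplication by `f` in this basis and
`kron ℓ f` its characteristic polynomial ("`∏_b (Y - f(ζ^b q^{1/ℓ}))`").

Main statements of this file
* `decomp` : `g = ∑ i, q^i * V (sect ℓ i g)`;
* `single_mul_eq_sum` : `q^j * f = ∑ i, q^i * V (kronMat ℓ f i j)`;
* `kron_monic`, `kron_natDegree`;
* `kron_map` : compatibility with `coeffMap`;
* `kron_eval₂_self` : `(kron ℓ f).eval₂ V f = 0` (Cayley–Hamilton form).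
-/

set_option autoImplicit false

noncomputable section

namespace Fermat.Agent.S37.H340

open ModularCurve HahnSeries Polynomial Matrix

variable {R : Type*} [CommRing R] (ℓ : ℕ) [NeZero ℓ]

omit [NeZero ℓ] in
lemma exists_coeff_eq_zero_of_lt (f : LaurentSeries R) : ∃ b : ℤ, ∀ m < b, f.coeff m = 0 := by
  by_cases hf : f = 0
  · exact ⟨0, fun m _ => by simp [hf]⟩
  · exact ⟨f.order, fun m hm => HahnSeries.coeff_eq_zero_of_lt_order hm⟩

lemma sect_bdd (i : ℤ) (f : LaurentSeries R) :
    BddBelow (Function.support fun n : ℤ => f.coeff ((ℓ : ℤ) * n + i)) := by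
  have hℓ : (1 : ℤ) ≤ ℓ := by exact_mod_cast Nat.pos_of_ne_zero (NeZero.ne ℓ)
  obtain ⟨b, hb⟩ := exists_coeff_eq_zero_of_lt f
  refine ⟨min 0 (b - i), fun m hm => ?_⟩
  by_contra hlt
  rw [not_le] at hlt
  refine hm (hb _ ?_)
  have h0 : m < 0 := lt_of_lt_of_le hlt (min_le_left _ _)
  have h1 : m < b - i := lt_of_lt_of_le hlt (min_le_right _ _)
  nlinarith

/-- The `i`-th section: `sect ℓ i f = ∑ₙ f.coeff (ℓ n + i) qⁿ`. -/
def sect (i : ℤ) (f : LaurentSeries R) : LaurentSeries R :=
  HahnSeries.ofSuppBddBelow (fun n : ℤ => f.coeff ((ℓ : ℤ) * n + i)) (sect_bdd ℓ i f)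

@[simp]
lemma sect_coeff (i : ℤ) (f : LaurentSeries R) (n : ℤ) :
    (sect ℓ i f).coeff n = f.coeff ((ℓ : ℤ) * n + i) := by
  simp [sect]

/-- the variable `q` -/
def qq : LaurentSeries R := HahnSeries.single (1 : ℤ) (1 : R)

omit [NeZero ℓ] in
lemma qq_pow (n : ℕ) : (qq : LaurentSeries R) ^ n = HahnSeries.single (n : ℤ) (1 : R) := by
  rw [qq, HahnSeries.single_pow, one_pow]
  simp

omit [NeZero ℓ] in
lemma coeff_qq_pow_mul (n : ℕ) (g : LaurentSeries R) (k : ℤ) :
    ((qq : LaurentSeries R) ^ n * g).coeff k = g.coeff (k - n) := by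
  rw [qq_pow, HahnSeries.coeff_single_mul, one_mul]

lemma qExpand_coeff (g : LaurentSeries R) (k : ℤ) :
    (qExpand R ℓ g).coeff k = if (ℓ : ℤ) ∣ k then g.coeff (k / ℓ) else 0 := by
  have hℓ : (ℓ : ℤ) ≠ 0 := by exact_mod_cast NeZero.ne ℓ
  split_ifs with h
  · obtain ⟨m, rfl⟩ := h
    rw [qExpand_coeff_mul, Int.mul_ediv_cancel_left _ hℓ]
  · exact qExpand_coeff_of_not_dvd ℓ g h

/-- **Decomposition** of a Laurent series along the basis `1, q, …, q^(ℓ-1)` of `R((q))` over
`R((q^ℓ))`. -/
theorem decomp (g : LaurentSeries R) :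
    g = ∑ i : Fin ℓ, (qq : LaurentSeries R) ^ (i : ℕ) * qExpand R ℓ (sect ℓ (i : ℕ) g) := by
  have hℓ : (0 : ℤ) < ℓ := by exact_mod_cast Nat.pos_of_ne_zero (NeZero.ne ℓ)
  ext k
  rw [HahnSeries.coeff_sum]
  simp only [coeff_qq_pow_mul, qExpand_coeff, sect_coeff]
  -- the unique index `i ≡ k mod ℓ`
  have hr0 : 0 ≤ k % (ℓ : ℤ) := Int.emod_nonneg _ hℓ.ne'
  have hr1 : k % (ℓ : ℤ) < ℓ := Int.emod_lt_of_pos _ hℓ
  set r : ℕ := (k % (ℓ : ℤ)).toNat with hr
  have hrk : (r : ℤ) = k % (ℓ : ℤ) := Int.toNat_of_nonneg hr0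
  have hrlt : r < ℓ := by
    have : (r : ℤ) < ℓ := hrk ▸ hr1
    exact_mod_cast this
  rw [Finset.sum_eq_single (⟨r, hrlt⟩ : Fin ℓ)]
  · have hdvd : (ℓ : ℤ) ∣ k - (r : ℤ) := by
      rw [hrk]; exact Int.dvd_self_sub_emod
    simp only [hdvd, if_true]
    congr 1
    rw [Int.mul_ediv_cancel' hdvd]; ring
  · intro i _ hi
    rw [if_neg]
    intro hdvd
    apply hi
    ext
    simp only
    have h1 : (ℓ : ℤ) ∣ (i : ℕ) - (r : ℤ) := by
      have h2 : (ℓ : ℤ) ∣ k - (r : ℤ) := by rw [hrk]; exact Int.dvd_self_sub_emod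
      have := dvd_sub h2 hdvd
      simpa using this
    have hi1 : ((i : ℕ) : ℤ) < ℓ := by exact_mod_cast i.2
    have hi0 : (0 : ℤ) ≤ ((i : ℕ) : ℤ) := Int.natCast_nonneg _
    have hr0' : (0 : ℤ) ≤ (r : ℤ) := Int.natCast_nonneg _
    have hr1' : (r : ℤ) < ℓ := by exact_mod_cast hrlt
    obtain ⟨c, hc⟩ := h1
    have hc0 : c = 0 := by
      by_contra hne
      rcases lt_or_gt_of_ne hne with h | h
      · have : (ℓ : ℤ) * c ≤ -ℓ := by nlinarith
        omega
      · have : (ℓ : ℤ) ≤ (ℓ : ℤ) * c := by nlinarith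
        omega
    rw [hc0, mul_zero] at hc
    omega
  · intro h; exact absurd (Finset.mem_univ _) h

/-- The matrix of multiplication by `f` in the basis `1, q, …, q^(ℓ-1)`. -/
def kronMat (f : LaurentSeries R) : Matrix (Fin ℓ) (Fin ℓ) (LaurentSeries R) :=
  Matrix.of fun i j => sect ℓ ((i : ℕ) - (j : ℕ) : ℤ) f

@[simp]
lemma kronMat_apply (f : LaurentSeries R) (i j : Fin ℓ) :
    kronMat ℓ f i j = sect ℓ ((i : ℕ) - (j : ℕ) : ℤ) f := rfl

/-- `q^j * f = ∑ i, q^i * V (M i j)`. -/
theorem qq_pow_mul_eq_sum (f : LaurentSeries R) (j : Fin ℓ) :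
    (qq : LaurentSeries R) ^ (j : ℕ) * f =
      ∑ i : Fin ℓ, (qq : LaurentSeries R) ^ (i : ℕ) * qExpand R ℓ (kronMat ℓ f i j) := by
  conv_lhs => rw [decomp ℓ ((qq : LaurentSeries R) ^ (j : ℕ) * f)]
  refine Finset.sum_congr rfl fun i _ => ?_
  congr 2
  ext n
  simp only [sect_coeff, coeff_qq_pow_mul, kronMat_apply]
  congr 1
  ring

/-- The **Kronecker polynomial** of `f`: the characteristic polynomial of multiplication by
`f(q)` on `R((q))` over `R((q^ℓ))`, with coefficients transported to `R((q))`. -/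
def kron (f : LaurentSeries R) : (LaurentSeries R)[X] := (kronMat ℓ f).charpoly

theorem kron_monic (f : LaurentSeries R) : (kron ℓ f).Monic := Matrix.charpoly_monic _

theorem kron_natDegree [Nontrivial R] (f : LaurentSeries R) : (kron ℓ f).natDegree = ℓ := by
  rw [kron, Matrix.charpoly_natDegree_eq_dim, Fintype.card_fin]

/-- Compatibility with change of coefficients. -/
theorem kronMat_map {S : Type*} [CommRing S] (g : R →+* S) (f : LaurentSeries R) :
    kronMat ℓ (coeffMap g f) = (kronMat ℓ f).map (coeffMap g) := by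
  ext i j n
  simp

theorem kron_map {S : Type*} [CommRing S] (g : R →+* S) (f : LaurentSeries R) :
    kron ℓ (coeffMap g f) = (kron ℓ f).map (coeffMap g) := by
  rw [kron, kron, kronMat_map, Matrix.charpoly_map]

/-- **Cayley–Hamilton form**: `f` is a root of its Kronecker polynomial (coefficients pushed
to `R((q^ℓ))` by `V = qExpand R ℓ`). -/
theorem kron_eval₂_self (f : LaurentSeries R) :
    (kron ℓ f).eval₂ (qExpand R ℓ) f = 0 := by
  classical
  set M' : Matrix (Fin ℓ) (Fin ℓ) (LaurentSeries R) := (kronMat ℓ f).map (qExpand R ℓ) with hM'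
  set v : Fin ℓ → LaurentSeries R := fun i => (qq : LaurentSeries R) ^ (i : ℕ) with hv
  have hvM : Matrix.vecMul v M' = f • v := by
    funext j
    simp only [Matrix.vecMul, dotProduct, hM', Matrix.map_apply, hv, Pi.smul_apply, smul_eq_mul]
    rw [mul_comm f, qq_pow_mul_eq_sum ℓ f j]
  have h1 : Matrix.vecMul v (Matrix.scalar (Fin ℓ) f - M') = 0 := by
    rw [Matrix.vecMul_sub, hvM]
    funext j
    simp [Matrix.scalar_apply]
  have h2 : (Matrix.scalar (Fin ℓ) f - M').det • v = 0 := by
    have := congrArg (fun w => Matrix.vecMul w (Matrix.adjugate (Matrix.scalar (Fin ℓ) f - M'))) h1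
    simp only [Matrix.vecMul_vecMul, Matrix.mul_adjugate, Matrix.zero_vecMul] at this
    rw [Matrix.vecMul_smul, Matrix.vecMul_one] at this
    exact this
  have h3 : (Matrix.scalar (Fin ℓ) f - M').det = 0 := by
    have h0 : (0 : ℕ) < ℓ := Nat.pos_of_ne_zero (NeZero.ne ℓ)
    have := congrFun h2 ⟨0, h0⟩
    simpa [hv] using this
  rw [kron, Polynomial.eval₂_eq_eval_map, ← Matrix.charpoly_map, ← hM', Matrix.eval_charpoly]
  exact h3

end Fermat.Agent.S37.H340

end
end
-- ===== PACK-END S37/H340/KronBasic.lean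

-- ===== PACK-BEGIN S28/H807/IntLemma.lean
section
/-
S28 / helper807 — formal integrality: a complex polynomial in `j` whose `q`-expansion has
integer coefficients is an integer polynomial in `j`.
-/




set_option autoImplicit false
set_option maxHeartbeats 400000

noncomputable section

open ModularCurve

namespace Fermat.Agent.S28.H807

variable (A : Type*) [CommRing A]

theorem jqModC_pow_eq (k : ℕ) :
    jqModC A ^ k = HahnSeries.single (-(k : ℤ)) (1 : A) *
      HahnSeries.ofPowerSeries ℤ A ((jNum.map (Int.castRingHom A)) ^ k) := by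
  have h : k • (-1 : ℤ) = -(k : ℤ) := by simp
  rw [jqModC, mul_pow, HahnSeries.single_pow, one_pow, h, ← map_pow]

theorem jqModC_pow_coeff_of_lt (k : ℕ) {m : ℤ} (h : m < -(k : ℤ)) :
    (jqModC A ^ k).coeff m = 0 := by
  rw [jqModC_pow_eq, HahnSeries.coeff_single_mul, one_mul]
  exact ofPowerSeries_coeff_of_neg _ (by linarith)

theorem jqModC_pow_coeff_self (k : ℕ) : (jqModC A ^ k).coeff (-(k : ℤ)) = 1 := by
  rw [jqModC_pow_eq, HahnSeries.coeff_single_mul, one_mul, sub_self]
  have h0 : ((0 : ℕ) : ℤ) = 0 := rfl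
  rw [← h0, HahnSeries.ofPowerSeries_apply_coeff, PowerSeries.coeff_zero_eq_constantCoeff,
    map_pow]
  have : PowerSeries.constantCoeff (jNum.map (Int.castRingHom A)) = 1 := by
    rw [← PowerSeries.coeff_zero_eq_constantCoeff, PowerSeries.coeff_map,
      PowerSeries.coeff_zero_eq_constantCoeff, constantCoeff_jNum]
    simp
  rw [this, one_pow]

/-- Evaluation of a polynomial at `j`, as `eval₂` along the constant embedding. -/
def evalJ (P : Polynomial A) : LaurentSeries A := P.eval₂ HahnSeries.C (jqModC A)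

theorem evalJ_coeff_neg_natDegree (P : Polynomial A) (n : ℕ) (hn : P.natDegree ≤ n) :
    (evalJ A P).coeff (-(n : ℤ)) = P.coeff n := by
  unfold evalJ
  rw [Polynomial.eval₂_eq_sum_range' (HahnSeries.C : A →+* LaurentSeries A)
    (Nat.lt_succ_of_le hn) (jqModC A), HahnSeries.coeff_sum]
  rw [Finset.sum_eq_single n]
  · rw [show (HahnSeries.C : A →+* LaurentSeries A) (P.coeff n)
        = HahnSeries.single (0 : ℤ) (P.coeff n) from rfl,
      HahnSeries.coeff_single_mul, sub_zero, jqModC_pow_coeff_self, mul_one]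
  · intro i hi hne
    have hi' : i < n := by
      have := Finset.mem_range.mp hi
      omega
    have h0 : (jqModC A ^ i).coeff (-(n : ℤ)) = 0 :=
      jqModC_pow_coeff_of_lt A i (by omega)
    rw [show (HahnSeries.C : A →+* LaurentSeries A) (P.coeff i)
        = HahnSeries.single (0 : ℤ) (P.coeff i) from rfl,
      HahnSeries.coeff_single_mul, sub_zero, h0, mul_zero]
  · intro h
    exact absurd (Finset.mem_range.mpr (Nat.lt_succ_self n)) h

theorem coeffMap_jqModC_int : coeffMap (Int.castRingHom A) (jqModC ℤ) = jqModC A :=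
  (jqModC_eq_map_intCast A).symm

theorem coeffMap_intCast_injective [CharZero A] :
    Function.Injective (coeffMap (Int.castRingHom A)) := by
  intro x y h
  ext n
  have := congrArg (fun z => z.coeff n) h
  simp only [coeffMap_coeff, eq_intCast] at this
  exact Int.cast_injective this

/-- Integer-polynomial evaluation at `j ∈ ℤ((q))`. -/
def evalJZ (Q : Polynomial ℤ) : LaurentSeries ℤ := Q.eval₂ (Int.castRingHom _) (jqModC ℤ)

/-- **Integrality lemma.** -/
theorem exists_int_poly_of_evalJ_eq :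
    ∀ (P : Polynomial ℂ) (c : LaurentSeries ℤ),
      evalJ ℂ P = coeffMap (Int.castRingHom ℂ) c → ∃ Q : Polynomial ℤ, evalJZ Q = c := by
  intro P
  induction' hcard : P.support.card using Nat.strong_induction_on with d ih generalizing P
  intro c h
  by_cases hP : P = 0
  · subst hP
    refine ⟨0, ?_⟩
    have h0 : coeffMap (Int.castRingHom ℂ) c = 0 := by
      rw [← h]; simp [evalJ]
    have : c = 0 := coeffMap_intCast_injective ℂ (by rw [h0, map_zero])
    rw [this]; simp [evalJZ]
  · set n := P.natDegree with hn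
    have hlead : (c.coeff (-(n : ℤ)) : ℂ) = P.coeff n := by
      have := evalJ_coeff_neg_natDegree ℂ P n le_rfl
      rw [h, coeffMap_coeff] at this
      simpa using this
    set z : ℤ := c.coeff (-(n : ℤ)) with hz
    set c' : LaurentSeries ℤ := c - (z : LaurentSeries ℤ) * jqModC ℤ ^ n with hc'
    have hP' : evalJ ℂ P.eraseLead = coeffMap (Int.castRingHom ℂ) c' := by
      have h1 : P = P.eraseLead + Polynomial.monomial n (P.coeff n) := by
        rw [hn]
        exact (Polynomial.eraseLead_add_monomial_natDegree_leadingCoeff P).symm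
      have h2 : evalJ ℂ P = evalJ ℂ P.eraseLead + HahnSeries.C (P.coeff n) * jqModC ℂ ^ n := by
        conv_lhs => rw [h1]
        simp [evalJ, Polynomial.eval₂_add, Polynomial.eval₂_monomial]
      rw [hc', map_sub, map_mul, map_pow, coeffMap_jqModC_int, ← h, h2, map_intCast]
      have h3 : HahnSeries.C (P.coeff n) = ((z : ℤ) : LaurentSeries ℂ) := by
        rw [← hlead]
        simp
      rw [h3]; ring
    have hlt : P.eraseLead.support.card < d := by
      rw [← hcard]
      exact Polynomial.eraseLead_support_card_lt hP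
    obtain ⟨Q', hQ'⟩ := ih _ hlt P.eraseLead rfl c' hP'
    refine ⟨Q' + Polynomial.C z * Polynomial.X ^ n, ?_⟩
    unfold evalJZ at *
    rw [Polynomial.eval₂_add, Polynomial.eval₂_mul, Polynomial.eval₂_C, Polynomial.eval₂_pow,
      Polynomial.eval₂_X, hQ', hc']
    simp

end Fermat.Agent.S28.H807

end

end
-- ===== PACK-END S28/H807/IntLemma.lean

-- ===== PACK-BEGIN S28/H505/Bridge.lean
section






open UpperHalfPlane ModularForm EisensteinSeries Filter Topology
open scoped PowerSeries.WithPiTopology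

namespace Fermat.Agent.S28.H505

theorem bernoulli_four_eq : bernoulli 4 = -1 / 30 := by
  rw [bernoulli_eq_bernoulli'_of_ne_one (by norm_num)]
  simp [bernoulli'_four]

/-- (B1) The Mathlib `q`-expansion of `E₄` is the Prelude's formal series `eisenstein4`. -/
theorem qExpansion_E₄_eq :
    qExpansion 1 E₄ = ModularCurve.eisenstein4.map (Int.castRingHom ℂ) := by
  ext m
  rw [E_qExpansion_coeff (by norm_num) (by decide) m, PowerSeries.coeff_map,
    ModularCurve.eisenstein4, PowerSeries.coeff_mk]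
  split_ifs with h
  · simp
  · rw [bernoulli_four_eq, ArithmeticFunction.sigma_apply]
    simp only [eq_intCast]
    push_cast
    ring

/-- Taylor power series at `0` of a function `ℂ → ℂ`. -/
noncomputable def taylorPS (g : ℂ → ℂ) : PowerSeries ℂ :=
  .mk fun m => (m.factorial : ℂ)⁻¹ * iteratedDeriv m g 0

theorem coeff_taylorPS (g : ℂ → ℂ) (m : ℕ) :
    (taylorPS g).coeff m = (m.factorial : ℂ)⁻¹ * iteratedDeriv m g 0 := by
  simp [taylorPS]

theorem qExpansion_eq_taylorPS (h : ℝ) (f : ℍ → ℂ) :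
    qExpansion h f = taylorPS (cuspFunction h f) := rfl

theorem taylorPS_congr {g h : ℂ → ℂ} (hgh : g =ᶠ[𝓝 0] h) : taylorPS g = taylorPS h := by
  ext m
  simp [coeff_taylorPS, hgh.iteratedDeriv_eq m]

theorem taylorPS_mul {g h : ℂ → ℂ} (hg : AnalyticAt ℂ g 0) (hh : AnalyticAt ℂ h 0) :
    taylorPS (g * h) = taylorPS g * taylorPS h := by
  ext
  simp only [coeff_taylorPS,
    iteratedDeriv_mul hg.contDiffAt hh.contDiffAt, Finset.mul_sum, PowerSeries.coeff_mul,
    Finset.Nat.sum_antidiagonal_eq_sum_range_succ_mk, Nat.succ_eq_add_one]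
  refine Finset.sum_congr rfl fun i hi ↦ ?_
  rw [Nat.cast_choose _ (by grind)]
  field_simp [Nat.factorial_ne_zero]

theorem iteratedDeriv_polynomial_eval (p : Polynomial ℂ) (m : ℕ) :
    iteratedDeriv m (fun x => p.eval x) = fun x => ((⇑Polynomial.derivative)^[m] p).eval x := by
  induction m generalizing p with
  | zero => simp
  | succ m ih =>
    rw [iteratedDeriv_succ']
    have : deriv (fun x => p.eval x) = fun x => (Polynomial.derivative p).eval x :=
      funext fun x => Polynomial.deriv p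
    rw [this, ih, Function.iterate_succ_apply]

theorem taylorPS_polynomial (p : Polynomial ℂ) :
    taylorPS (fun x => p.eval x) = (p : PowerSeries ℂ) := by
  ext m
  rw [coeff_taylorPS, iteratedDeriv_polynomial_eval, Polynomial.coeff_coe]
  beta_reduce
  rw [← Polynomial.coeff_zero_eq_eval_zero, Polynomial.coeff_iterate_derivative, zero_add,
    Nat.descFactorial_self, nsmul_eq_mul, ← mul_assoc,
    inv_mul_cancel₀ (by exact_mod_cast Nat.factorial_ne_zero m), one_mul]

theorem differentiableOn_iteratedDeriv {g : ℂ → ℂ} {U : Set ℂ} (hU : IsOpen U)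
    (hg : DifferentiableOn ℂ g U) (k : ℕ) : DifferentiableOn ℂ (iteratedDeriv k g) U := by
  induction k with
  | zero => simpa using hg
  | succ k ih => rw [iteratedDeriv_succ]; exact ih.deriv hU

theorem tendstoLocallyUniformlyOn_iteratedDeriv {ι : Type*} {φ : Filter ι} {F : ι → ℂ → ℂ}
    {f : ℂ → ℂ} {U : Set ℂ} (hU : IsOpen U) (hf : TendstoLocallyUniformlyOn F f φ U)
    (hF : ∀ᶠ n in φ, DifferentiableOn ℂ (F n) U) (k : ℕ) :
    TendstoLocallyUniformlyOn (fun n => iteratedDeriv k (F n)) (iteratedDeriv k f) φ U := by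
  induction k with
  | zero => simpa using hf
  | succ k ih =>
    have h1 : ∀ᶠ n in φ, DifferentiableOn ℂ (iteratedDeriv k (F n)) U := by
      filter_upwards [hF] with n hn using differentiableOn_iteratedDeriv hU hn k
    have := ih.deriv h1 hU
    simpa only [iteratedDeriv_succ, Function.comp_def] using this

/-- the analytic Euler product on the unit disc -/
noncomputable def eulerFun (q : ℂ) : ℂ := ∏' n : ℕ, (1 - q ^ (n + 1))

theorem eulerFun_differentiableOn : DifferentiableOn ℂ eulerFun (Metric.ball 0 1) :=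
  differentiableOn_tprod_one_sub_pow

theorem eulerFun_analyticAt : AnalyticAt ℂ eulerFun 0 :=
  eulerFun_differentiableOn.analyticAt (Metric.ball_mem_nhds 0 one_pos)

/-- partial Euler products as polynomials over `ℤ` -/
noncomputable def eulerPoly (t : Finset ℕ) : Polynomial ℤ :=
  ∏ i ∈ t, (1 - Polynomial.X ^ (i + 1))

theorem eulerPoly_eval (t : Finset ℕ) (q : ℂ) :
    ((eulerPoly t).map (Int.castRingHom ℂ)).eval q = ∏ i ∈ t, (1 - q ^ (i + 1)) := by
  simp [eulerPoly, Polynomial.map_prod, Polynomial.eval_prod]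

theorem eulerPoly_coe (t : Finset ℕ) :
    ((eulerPoly t : Polynomial ℤ) : PowerSeries ℤ) = ∏ i ∈ t, (1 - PowerSeries.X ^ (i + 1)) := by
  rw [eulerPoly, ← Polynomial.coeToPowerSeries.ringHom_apply, map_prod]
  simp [Polynomial.coeToPowerSeries.ringHom_apply]

theorem tendsto_coeff_eulerPoly (k : ℕ) :
    Tendsto (fun t : Finset ℕ => (((eulerPoly t).coeff k : ℤ) : ℂ)) atTop
      (𝓝 ((ModularCurve.etaProd.coeff k : ℤ) : ℂ)) := by
  have h1 : Tendsto (fun t : Finset ℕ => ∏ i ∈ t, ((1 : PowerSeries ℤ) - PowerSeries.X ^ (i + 1)))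
      atTop (𝓝 ModularCurve.etaProd) :=
    (PowerSeries.WithPiTopology.multipliable_one_sub_X_pow ℤ).hasProd
  have h2 := ((PowerSeries.WithPiTopology.continuous_coeff ℤ k).tendsto _).comp h1
  have h3 : Continuous (fun n : ℤ => (n : ℂ)) := continuous_of_discreteTopology
  have h4 := (h3.tendsto _).comp h2
  refine h4.congr fun t => ?_
  simp only [Function.comp_apply, ← eulerPoly_coe, Polynomial.coeff_coe]

theorem taylorPS_eulerFun :
    taylorPS eulerFun = ModularCurve.etaProd.map (Int.castRingHom ℂ) := by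
  ext k
  rw [coeff_taylorPS, PowerSeries.coeff_map]
  have hU : IsOpen (Metric.ball (0 : ℂ) 1) := Metric.isOpen_ball
  have h0 : (0 : ℂ) ∈ Metric.ball (0 : ℂ) 1 := Metric.mem_ball_self one_pos
  have hloc : TendstoLocallyUniformlyOn
      (fun (t : Finset ℕ) (q : ℂ) => ∏ i ∈ t, (1 - q ^ (i + 1))) eulerFun atTop
      (Metric.ball 0 1) :=
    hasProdLocallyUniformlyOn_iff_tendstoLocallyUniformlyOn.mp
      multipliableLocallyUniformlyOn_one_sub_pow.hasProdLocallyUniformlyOn
  have hdiff : ∀ᶠ t : Finset ℕ in atTop,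
      DifferentiableOn ℂ (fun q : ℂ => ∏ i ∈ t, (1 - q ^ (i + 1))) (Metric.ball 0 1) :=
    .of_forall fun t => by
      simpa [Finset.prod_fn] using
        DifferentiableOn.finsetProd (u := t) (f := fun i (q : ℂ) => 1 - q ^ (i + 1))
          (fun _ _ ↦ by fun_prop)
  have h1 := (tendstoLocallyUniformlyOn_iteratedDeriv hU hloc hdiff k).tendsto_at h0
  have h2 : ∀ t : Finset ℕ, iteratedDeriv k (fun q : ℂ => ∏ i ∈ t, (1 - q ^ (i + 1))) 0
      = (k.factorial : ℂ) * (((eulerPoly t).coeff k : ℤ) : ℂ) := by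
    intro t
    have := congrArg (PowerSeries.coeff k)
      (taylorPS_polynomial ((eulerPoly t).map (Int.castRingHom ℂ)))
    rw [coeff_taylorPS, Polynomial.coeff_coe, Polynomial.coeff_map] at this
    simp only [eulerPoly_eval, eq_intCast] at this
    rw [← this, ← mul_assoc, mul_inv_cancel₀ (by exact_mod_cast Nat.factorial_ne_zero k), one_mul]
  simp only [h2] at h1
  have h3 := (tendsto_coeff_eulerPoly k).const_mul (k.factorial : ℂ)
  have h4 := tendsto_nhds_unique h1 h3
  rw [h4, ← mul_assoc, inv_mul_cancel₀ (by exact_mod_cast Nat.factorial_ne_zero k), one_mul]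
  simp

theorem taylorPS_id : taylorPS (fun q : ℂ => q) = PowerSeries.X := by
  have := taylorPS_polynomial Polynomial.X
  simpa using this

theorem taylorPS_pow {g : ℂ → ℂ} (hg : AnalyticAt ℂ g 0) (n : ℕ) :
    taylorPS (g ^ n) = taylorPS g ^ n := by
  induction n with
  | zero =>
    have := taylorPS_polynomial 1
    simpa [Pi.one_def] using this
  | succ n ih => rw [pow_succ, pow_succ, taylorPS_mul (hg.pow n) hg, ih]

/-- (B2) The Mathlib `q`-expansion of `Δ` is `X * etaProd ^ 24`. -/
theorem qExpansion_discriminant_eq :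
    qExpansion 1 ModularForm.discriminant =
      PowerSeries.X * (ModularCurve.etaProd.map (Int.castRingHom ℂ)) ^ 24 := by
  rw [qExpansion_eq_taylorPS]
  have h1 : cuspFunction 1 ModularForm.discriminant =ᶠ[𝓝 0]
      ((fun q : ℂ => q) * eulerFun ^ 24) := by
    filter_upwards [Metric.ball_mem_nhds (0 : ℂ) one_pos] with q hq
    rw [discriminant_cuspFunction_eqOn hq]
    simp only [Pi.mul_apply, Pi.pow_apply, eulerFun]
    rw [(multipliable_one_sub_pow (by simpa using hq)).tprod_pow 24]
  rw [taylorPS_congr h1, taylorPS_mul (by fun_prop) (eulerFun_analyticAt.pow 24), taylorPS_id,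
    taylorPS_pow eulerFun_analyticAt, taylorPS_eulerFun]

end Fermat.Agent.S28.H505

end
-- ===== PACK-END S28/H505/Bridge.lean

-- ===== PACK-BEGIN S18/Alg/Spec.lean
section


/-!
# S18 / ALG — frozen abstract interface (row-lead helper18), Mathlib-only

v2 (18:10Z): fields `gauss` and `separable` repaired (`0⁻¹ = 0` bugs found by helper887).
v3 (18:25Z): `GoodModel` UNCHANGED; NEW `GoodFamily` (directed family of good models); `AlgMainStatement`
now takes a `GoodFamily`, so that ALG may enlarge the constant field `Ec` (needed by endgame K').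
v4 = FINAL (landed on main, never to change again): (a) new field `x_mem_V : x ∈ V` (trivial for
MOD; asked for by helper467/24/187); (b) `AlgMainStatement` only for PRIME `m` (helper425/694: the
frozen S18 for all `m` follows from prime `m`, `S18/H694/PrimeRed.lean`).

Everything is a sub-object of ONE field `Ω` (in the application `Ω = F_M = Q̄(j_d : d ∣ M)`):

* `Lc`  : the algebraically closed constant field (`Q̄`),
* `Ec ≤ Lc`, `R ⊆ Ec` : a subfield with a discrete valuation ring `R`, uniformiser `w`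
  (`Ec` a number field, `R = A ∩ Ec`),
* `Fc`  : the function field over `Ec` (`Ec(j_d : d ∣ M)`), `Ω = Fc · Lc`,
* `x ∈ Fc` : the coordinate (`j`, `t₂` or `t₃`),
* `V ⊆ Fc` : the Gauss valuation ring (residue field = function field of the special fibre),
* `S ⊆ R` : the finite branch values of `Ω / Lc(x)`.

`GoodModel`/`GoodFamily` = what MOD(M) + d1 must supply.  `AlgMainStatement` = what ALG (b1–b5, or
the polar endgame) must prove.  Together they give `CoreStatement M A m`.
-/

set_option autoImplicit false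

namespace Fermat.Agent.S18.Alg

variable {Ω : Type*} [Field Ω]

/-- `R[x]` as a subring of `Ω`. -/
def polyRing (R : Subring Ω) (x : Ω) : Subring Ω := Subring.closure ((R : Set Ω) ∪ {x})

/-- `E(x)` as a subfield of `Ω`. -/
def ratField (Ec : Subfield Ω) (x : Ω) : Subfield Ω := Subfield.closure ((Ec : Set Ω) ∪ {x})

/-- The chart: elements of `Fc` integral over `R[x]`. -/
def chart (Fc : Subfield Ω) (R : Subring Ω) (x : Ω) : Set Ω :=
  {b | b ∈ Fc ∧ IsIntegral (polyRing R x) b}

/-- The data supplied by the modular side (see the module docstring). -/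
structure GoodModel (Lc Ec Fc : Subfield Ω) (R V : Subring Ω) (w x : Ω) (S : Finset Ω) : Prop where
  charZero : CharZero Ω
  -- `R` is a discrete valuation ring of `Ec` with uniformiser `w`, perfect residue field
  R_le : (R : Set Ω) ⊆ Ec
  R_total : ∀ e ∈ Ec, e ∈ R ∨ e⁻¹ ∈ R
  w_mem : w ∈ R
  w_ne_zero : w ≠ 0
  w_inv_not_mem : w⁻¹ ∉ R
  w_gen : ∀ r ∈ R, r⁻¹ ∉ R → r * w⁻¹ ∈ R
  w_discrete : ∀ r ∈ R, r ≠ 0 → ∃ n : ℕ, r * (w⁻¹) ^ n ∈ R ∧ (r * (w⁻¹) ^ n)⁻¹ ∈ R
  residue_perfect : ∃ p : ℕ, p.Prime ∧ (p : Ω) * w⁻¹ ∈ R ∧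
    ∀ r ∈ R, ∃ s ∈ R, (r - s ^ p) * w⁻¹ ∈ R
  -- the fields
  E_le_L : Ec ≤ Lc
  E_le_F : Ec ≤ Fc
  L_algebraic : ∀ a ∈ Lc, IsAlgebraic Ec a
  L_algClosed : IsAlgClosed Lc
  E_closed_in_F : ∀ f ∈ Fc, IsAlgebraic Ec f → f ∈ Ec
  compositum : Subfield.closure ((Fc : Set Ω) ∪ Lc) = ⊤
  -- the coordinate
  x_mem : x ∈ Fc
  x_transcendental : Transcendental Lc x
  finite : ∃ s : Finset Ω, (s : Set Ω) ⊆ Fc ∧
    ∀ f ∈ Fc, f ∈ Submodule.span (ratField Ec x) (s : Set Ω)
  -- the Gauss valuation ring `V` of `Fc`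
  V_le : (V : Set Ω) ⊆ Fc
  V_total : ∀ f ∈ Fc, f ∈ V ∨ f⁻¹ ∈ V
  R_le_V : R ≤ V
  w_inv_not_mem_V : w⁻¹ ∉ V
  V_gen : ∀ f ∈ V, f⁻¹ ∉ V → f * w⁻¹ ∈ V
  x_mem_V : x ∈ V
  /-- `V` restricted to `E(x)` is the Gauss valuation: a polynomial in `x` over `R` with a unit
  coefficient is a unit of `V` (in particular `x` and `x⁻¹` lie in `V`). -/
  gauss : ∀ P : Polynomial Ω, (∀ i, P.coeff i ∈ R) → (∃ i, P.coeff i ≠ 0 ∧ (P.coeff i)⁻¹ ∈ R) →
    (P.eval x)⁻¹ ∈ V
  /-- `q`-expansion principle on both charts: `b` integral over `R[x^{±1}]`, `b/w ∈ V`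
  ⟹ `b/w` integral over `R[x^{±1}]`. -/
  qep_fin : ∀ b ∈ chart Fc R x, b * w⁻¹ ∈ V → b * w⁻¹ ∈ chart Fc R x
  qep_inf : ∀ b ∈ chart Fc R x⁻¹, b * w⁻¹ ∈ V → b * w⁻¹ ∈ chart Fc R x⁻¹
  /-- the residue field of `V` is separable over `κ(x̄)` (elementwise form) -/
  separable : ∀ f ∈ V, ∃ P : Polynomial Ω, (∀ i, P.coeff i ∈ polyRing R x) ∧
    P.eval f * w⁻¹ ∈ V ∧ (Polynomial.derivative P).eval f ≠ 0 ∧
    ((Polynomial.derivative P).eval f)⁻¹ ∈ V
  -- branch values: in `R`, pairwise distinct mod `w`, the nonzero ones are units of `R`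
  S_mem : ∀ s ∈ S, s ∈ R
  S_distinct : ∀ s ∈ S, ∀ t ∈ S, s ≠ t → (s - t)⁻¹ ∈ R
  S_unit : ∀ s ∈ S, s ≠ 0 → s⁻¹ ∈ R
  /-- over `Lc`: at a place where `x` takes a value `c ∉ S`, `x - c` is a uniformiser -/
  unramified : ∀ O : ValuationSubring Ω, (∀ a ∈ Lc, a ∈ O) → ∀ c ∈ Lc, c ∉ S →
    x - c ∈ O → (x - c)⁻¹ ∉ O → ∀ t ∈ O, t⁻¹ ∉ O → t * (x - c)⁻¹ ∈ O

/-- A model, as a tuple `(Ec, Fc, R, V, w)`. -/
abbrev Model (Ω : Type*) [Field Ω] : Type _ :=
  Subfield Ω × Subfield Ω × Subring Ω × Subring Ω × Ω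

/-- `p ≤ p'` for models: all four sub-objects grow (the uniformiser may change). -/
def Model.le (p p' : Model Ω) : Prop :=
  p.1 ≤ p'.1 ∧ p.2.1 ≤ p'.2.1 ∧ p.2.2.1 ≤ p'.2.2.1 ∧ p.2.2.2.1 ≤ p'.2.2.2.1

/-- A **directed family of good models** (v3): every member is a `GoodModel`, and every member can
be enlarged inside the family so that its constant field `Ec` contains any given finite set of
elements of `Lc`.  (In the application: all number fields `E ⊆ Q̄`.)  ALG may therefore assume
that `Ec` contains `ζ_m`, the `x`-coordinates of the zeros and poles of `u`, the constants of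
`Fc(u^{1/m})`, … by passing to a larger member. -/
structure GoodFamily (Lc : Subfield Ω) (x : Ω) (S : Finset Ω) (𝓕 : Set (Model Ω)) : Prop where
  good : ∀ p ∈ 𝓕, GoodModel Lc p.1 p.2.1 p.2.2.1 p.2.2.2.1 p.2.2.2.2 x S
  enlarge : ∀ p ∈ 𝓕, ∀ T : Finset Ω, (∀ a ∈ T, a ∈ Lc) →
    ∃ p' ∈ 𝓕, Model.le p p' ∧ ∀ a ∈ T, a ∈ p'.1

/-- **ALG main statement** (v4): for a directed family of good models, a member `p = (Ec,Fc,R,V,w)`
and a function `u ∈ Fc` with `u ≡ 1 mod w` whose divisor (over `Lc`) is divisible by `m`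
(`m` a PRIME number which is a unit of `R`): `u` is a constant times an `m`-th power in
`Ω = Fc·Lc`. -/
def AlgMainStatement (Lc : Subfield Ω) (x : Ω) (S : Finset Ω) (𝓕 : Set (Model Ω)) : Prop :=
  GoodFamily Lc x S 𝓕 →
    ∀ p ∈ 𝓕, ∀ m : ℕ, m.Prime → ((m : Ω))⁻¹ ∈ p.2.2.1 →
    ∀ u ∈ p.2.1, u ≠ 0 → (u - 1) * (p.2.2.2.2)⁻¹ ∈ p.2.2.2.1 →
      (∀ O : ValuationSubring Ω, (∀ a ∈ Lc, a ∈ O) →
        ∃ t : Ω, t ≠ 0 ∧ u * t ^ m ∈ O ∧ (u * t ^ m)⁻¹ ∈ O) →
      ∃ y : Ω, ∃ c ∈ Lc, c ≠ 0 ∧ u = c * y ^ m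

end Fermat.Agent.S18.Alg

end
-- ===== PACK-END S18/Alg/Spec.lean

-- ===== PACK-BEGIN S20/Comb694/Orbits.lean
section








/-!
# Counting orbits of a cyclic group whose generator has prime order on a finite set

If `g ^ n` acts trivially on the finite set `X` and `n` is prime then
`n * #(X / ⟨g⟩) = #X + (n - 1) * #Fix(g)`.
-/

set_option autoImplicit false

namespace Fermat.Agent.S20.Comb694

open MulAction Subgroup Function

variable {G X : Type*} [Group G] [MulAction G X]

lemma card_eq_sum_minimalPeriod [Fintype X] (g : G)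
    [Fintype (orbitRel.Quotient (zpowers g) X)] :
    Fintype.card X
      = ∑ q : orbitRel.Quotient (zpowers g) X, minimalPeriod (g • ·) q.out := by
  have (q : orbitRel.Quotient (zpowers g) X) :
      Fintype (MulAction.orbit (zpowers g) q.out) := Fintype.ofFinite _
  simp only [MulAction.minimalPeriod_eq_card]
  rw [← Fintype.card_sigma]
  exact Fintype.card_congr (MulAction.selfEquivSigmaOrbits (zpowers g) X)

lemma minimalPeriod_eq_of_prime (g : G) (n : ℕ) (hn : n.Prime) (hg : ∀ x : X, g ^ n • x = x)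
    (x : X) [Decidable (g • x = x)] :
    minimalPeriod (g • ·) x = if g • x = x then 1 else n := by
  have hper : IsPeriodicPt (g • ·) n x := by
    rw [IsPeriodicPt, IsFixedPt, smul_iterate]
    exact hg x
  have hdvd := hper.minimalPeriod_dvd
  rcases (Nat.dvd_prime hn).mp hdvd with h1 | h2
  · have hfix : g • x = x := minimalPeriod_eq_one_iff_isFixedPt.mp h1
    rw [h1, if_pos hfix]
  · have hfix : ¬ g • x = x := fun h => by
      have h1 : minimalPeriod (g • ·) x = 1 := minimalPeriod_eq_one_iff_isFixedPt.mpr h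
      rw [h2] at h1
      exact hn.one_lt.ne' h1
    rw [h2, if_neg hfix]

lemma smul_eq_of_mem_orbit_zpowers_of_fixed (g : G) (x y : X) (hx : g • x = x)
    (hy : y ∈ MulAction.orbit (zpowers g) x) : y = x := by
  obtain ⟨⟨h, hh⟩, rfl⟩ := hy
  obtain ⟨k, rfl⟩ := Subgroup.mem_zpowers_iff.mp hh
  exact fixedBy_subset_fixedBy_zpow X g k hx

/-- If `g ^ n` acts trivially on the finite set `X` (`n` prime), then
`n * #orbits = #X + (n - 1) * #Fix(g)`. -/
theorem prime_mul_card_orbits [Finite X] (g : G) (n : ℕ) (hn : n.Prime)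
    (hg : ∀ x : X, g ^ n • x = x) :
    n * Nat.card (orbitRel.Quotient (zpowers g) X)
      = Nat.card X + (n - 1) * Nat.card (fixedBy X g) := by
  classical
  haveI := Fintype.ofFinite X
  haveI : Fintype (orbitRel.Quotient (zpowers g) X) := Fintype.ofFinite _
  have h1 := card_eq_sum_minimalPeriod (X := X) g
  simp only [minimalPeriod_eq_of_prime g n hn hg] at h1
  rw [Finset.sum_ite, Finset.sum_const, Finset.sum_const, smul_eq_mul, mul_one,
    smul_eq_mul] at h1
  have h2 : (Finset.univ.filter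
      (fun q : orbitRel.Quotient (zpowers g) X => g • q.out = q.out)).card
        = Nat.card (fixedBy X g) := by
    rw [← Fintype.card_subtype, ← Nat.card_eq_fintype_card]
    refine Nat.card_eq_of_bijective
      (fun q : {q : orbitRel.Quotient (zpowers g) X // g • q.out = q.out} =>
        (⟨q.1.out, q.2⟩ : fixedBy X g)) ⟨?_, ?_⟩
    · intro q q' h
      have h' : q.1.out = q'.1.out := congrArg Subtype.val h
      exact Subtype.ext (Quotient.out_injective h')
    · rintro ⟨x, hx⟩
      have hx' : g • x = x := hx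
      have hout : (Quotient.mk'' x : orbitRel.Quotient (zpowers g) X).out = x := by
        apply smul_eq_of_mem_orbit_zpowers_of_fixed g x _ hx'
        have := Quotient.exact (Quotient.out_eq (Quotient.mk'' x : orbitRel.Quotient (zpowers g) X))
        exact (MulAction.orbitRel_apply).mp this
      refine ⟨⟨Quotient.mk'' x, ?_⟩, ?_⟩
      · rw [hout]; exact hx'
      · exact Subtype.ext hout
  have h3 := Finset.card_filter_add_card_filter_not (s := (Finset.univ :
      Finset (orbitRel.Quotient (zpowers g) X)))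
      (fun q : orbitRel.Quotient (zpowers g) X => g • q.out = q.out)
  rw [Finset.card_univ] at h3
  rw [Nat.card_eq_fintype_card, Nat.card_eq_fintype_card, ← h3, h1, ← h2]
  obtain ⟨m, rfl⟩ : ∃ m, n = m + 1 := ⟨n - 1, (Nat.succ_pred_eq_of_pos hn.pos).symm⟩
  simp only [Nat.add_sub_cancel]
  ring

end Fermat.Agent.S20.Comb694

end
-- ===== PACK-END S20/Comb694/Orbits.lean

-- ===== PACK-BEGIN S20/Comb/Orbits.lean
section








/-!
# Counting orbits of a cyclic group whose generator has prime order on a finite set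

If `g ^ n` acts trivially on the finite set `X` and `n` is prime then
`n * #(X / ⟨g⟩) = #X + (n - 1) * #Fix(g)`.
-/

set_option autoImplicit false

namespace Fermat.Agent.S20.Comb

open MulAction Subgroup Function

variable {G X : Type*} [Group G] [MulAction G X]

lemma card_eq_sum_minimalPeriod [Fintype X] (g : G)
    [Fintype (orbitRel.Quotient (zpowers g) X)] :
    Fintype.card X
      = ∑ q : orbitRel.Quotient (zpowers g) X, minimalPeriod (g • ·) q.out := by
  have (q : orbitRel.Quotient (zpowers g) X) :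
      Fintype (MulAction.orbit (zpowers g) q.out) := Fintype.ofFinite _
  simp only [MulAction.minimalPeriod_eq_card]
  rw [← Fintype.card_sigma]
  exact Fintype.card_congr (MulAction.selfEquivSigmaOrbits (zpowers g) X)

lemma minimalPeriod_eq_of_prime (g : G) (n : ℕ) (hn : n.Prime) (hg : ∀ x : X, g ^ n • x = x)
    (x : X) [Decidable (g • x = x)] :
    minimalPeriod (g • ·) x = if g • x = x then 1 else n := by
  have hper : IsPeriodicPt (g • ·) n x := by
    rw [IsPeriodicPt, IsFixedPt, smul_iterate]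
    exact hg x
  have hdvd := hper.minimalPeriod_dvd
  rcases (Nat.dvd_prime hn).mp hdvd with h1 | h2
  · have hfix : g • x = x := minimalPeriod_eq_one_iff_isFixedPt.mp h1
    rw [h1, if_pos hfix]
  · have hfix : ¬ g • x = x := fun h => by
      have h1 : minimalPeriod (g • ·) x = 1 := minimalPeriod_eq_one_iff_isFixedPt.mpr h
      rw [h2] at h1
      exact hn.one_lt.ne' h1
    rw [h2, if_neg hfix]

lemma smul_eq_of_mem_orbit_zpowers_of_fixed (g : G) (x y : X) (hx : g • x = x)
    (hy : y ∈ MulAction.orbit (zpowers g) x) : y = x := by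
  obtain ⟨⟨h, hh⟩, rfl⟩ := hy
  obtain ⟨k, rfl⟩ := Subgroup.mem_zpowers_iff.mp hh
  exact fixedBy_subset_fixedBy_zpow X g k hx

/-- If `g ^ n` acts trivially on the finite set `X` (`n` prime), then
`n * #orbits = #X + (n - 1) * #Fix(g)`. -/
theorem prime_mul_card_orbits [Finite X] (g : G) (n : ℕ) (hn : n.Prime)
    (hg : ∀ x : X, g ^ n • x = x) :
    n * Nat.card (orbitRel.Quotient (zpowers g) X)
      = Nat.card X + (n - 1) * Nat.card (fixedBy X g) := by
  classical
  haveI := Fintype.ofFinite X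
  haveI : Fintype (orbitRel.Quotient (zpowers g) X) := Fintype.ofFinite _
  have h1 := card_eq_sum_minimalPeriod (X := X) g
  simp only [minimalPeriod_eq_of_prime g n hn hg] at h1
  rw [Finset.sum_ite, Finset.sum_const, Finset.sum_const, smul_eq_mul, mul_one,
    smul_eq_mul] at h1
  have h2 : (Finset.univ.filter
      (fun q : orbitRel.Quotient (zpowers g) X => g • q.out = q.out)).card
        = Nat.card (fixedBy X g) := by
    rw [← Fintype.card_subtype, ← Nat.card_eq_fintype_card]
    refine Nat.card_eq_of_bijective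
      (fun q : {q : orbitRel.Quotient (zpowers g) X // g • q.out = q.out} =>
        (⟨q.1.out, q.2⟩ : fixedBy X g)) ⟨?_, ?_⟩
    · intro q q' h
      have h' : q.1.out = q'.1.out := congrArg Subtype.val h
      exact Subtype.ext (Quotient.out_injective h')
    · rintro ⟨x, hx⟩
      have hx' : g • x = x := hx
      have hout : (Quotient.mk'' x : orbitRel.Quotient (zpowers g) X).out = x := by
        apply smul_eq_of_mem_orbit_zpowers_of_fixed g x _ hx'
        have := Quotient.exact (Quotient.out_eq (Quotient.mk'' x : orbitRel.Quotient (zpowers g) X))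
        exact (MulAction.orbitRel_apply).mp this
      refine ⟨⟨Quotient.mk'' x, ?_⟩, ?_⟩
      · rw [hout]; exact hx'
      · exact Subtype.ext hout
  have h3 := Finset.card_filter_add_card_filter_not (s := (Finset.univ :
      Finset (orbitRel.Quotient (zpowers g) X)))
      (fun q : orbitRel.Quotient (zpowers g) X => g • q.out = q.out)
  rw [Finset.card_univ] at h3
  rw [Nat.card_eq_fintype_card, Nat.card_eq_fintype_card, ← h3, h1, ← h2]
  obtain ⟨m, rfl⟩ : ∃ m, n = m + 1 := ⟨n - 1, (Nat.succ_pred_eq_of_pos hn.pos).symm⟩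
  simp only [Nat.add_sub_cancel]
  ring

end Fermat.Agent.S20.Comb

end
-- ===== PACK-END S20/Comb/Orbits.lean

-- ===== PACK-BEGIN S18/H438/Front/Chart.lean
section


/-!
# S18 / ALG-FRONT (helper438), part 1: the chart algebra `B = integral closure of R[z] in F`

Setting: `F` a field of characteristic `0`, `R : Subring F` a discrete valuation ring,
`z : F` transcendental over `R`, `F` finite over `Frac (R[z])`.

* `baseRing R z   := Algebra.adjoin R {z}`           (`R[z] ⊆ F`, isomorphic to `R[X]`)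
* `chartRing R z  := integralClosure (R[z]) F`      (the chart `B`)

All instances needed by the Kummer pieces (`H754/KummerSpec.lean`) are provided:
`IsNoetherianRing B`, `IsIntegrallyClosed B`, `IsFractionRing B F`, `Module.Finite R[z] B`.
-/

set_option autoImplicit false
set_option linter.style.haveILetI false
set_option linter.unusedSectionVars false

noncomputable section

namespace Fermat.Agent.S18.H438

open Polynomial

variable {F : Type*} [Field F]

/-- The base ring `R[z] ⊆ F`. -/
abbrev baseRing (R : Subring F) (z : F) : Subalgebra R F := Algebra.adjoin R {z}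

/-- The chart: the integral closure of `R[z]` in `F`. -/
abbrev chartRing (R : Subring F) (z : F) : Subalgebra (baseRing R z) F :=
  integralClosure (baseRing R z) F

variable (R : Subring F) (z : F)

theorem self_mem_baseRing : z ∈ baseRing R z := Algebra.self_mem_adjoin_singleton R z

theorem coe_mem_baseRing (r : R) : (r : F) ∈ baseRing R z := (baseRing R z).algebraMap_mem r

/-- `R[X] ≃ R[z]` for transcendental `z`. -/
def baseEquiv (hz : Transcendental R z) : Polynomial R ≃ₐ[R] baseRing R z :=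
  Polynomial.algEquivOfTranscendental R z hz

theorem baseEquiv_apply_coe (hz : Transcendental R z) (f : Polynomial R) :
    ((baseEquiv R z hz f : baseRing R z) : F) = Polynomial.aeval z f := by
  unfold baseEquiv
  rw [Polynomial.algEquivOfTranscendental_apply]
  have : (Polynomial.aeval (⟨z, Algebra.self_mem_adjoin_singleton R z⟩ : baseRing R z) f : F) =
      (baseRing R z).val (Polynomial.aeval (⟨z, Algebra.self_mem_adjoin_singleton R z⟩ :
        baseRing R z) f) := rfl
  rw [this, ← Polynomial.aeval_algHom_apply]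
  rfl

theorem baseRing_isNoetherianRing (hz : Transcendental R z) [IsNoetherianRing R] :
    IsNoetherianRing (baseRing R z) :=
  isNoetherianRing_of_ringEquiv (Polynomial R) (baseEquiv R z hz).toRingEquiv

theorem baseRing_isIntegrallyClosed (hz : Transcendental R z) [IsIntegrallyClosed (Polynomial R)] :
    IsIntegrallyClosed (baseRing R z) :=
  IsIntegrallyClosed.of_equiv (baseEquiv R z hz).toRingEquiv

/-- Every element of `R[z]` is a polynomial in `z`. -/
theorem exists_aeval_eq_of_mem_baseRing {f : F} (hf : f ∈ baseRing R z) :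
    ∃ P : Polynomial R, Polynomial.aeval z P = f :=
  (Algebra.adjoin_mem_exists_aeval R z hf)

section Instances

attribute [local instance] FractionRing.liftAlgebra

variable [CharZero F]

/-- The fraction field of `R[z]` is of characteristic zero. -/
theorem charZero_fractionRing_baseRing : CharZero (FractionRing (baseRing R z)) := by
  have : CharZero (baseRing R z) := RingHom.charZero (algebraMap (baseRing R z) F)
  exact charZero_of_injective_algebraMap
    (IsFractionRing.injective (baseRing R z) (FractionRing (baseRing R z)))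

variable [hfin : FiniteDimensional (FractionRing (baseRing R z)) F]

theorem chartRing_isFractionRing : IsFractionRing (chartRing R z) F :=
  integralClosure.isFractionRing_of_finite_extension (FractionRing (baseRing R z)) F

theorem chartRing_isIntegrallyClosed : IsIntegrallyClosed (chartRing R z) :=
  integralClosure.isIntegrallyClosedOfFiniteExtension (FractionRing (baseRing R z))

theorem isSeparable_fractionRing_baseRing :
    Algebra.IsSeparable (FractionRing (baseRing R z)) F := by
  haveI := charZero_fractionRing_baseRing R z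
  exact Algebra.IsAlgebraic.isSeparable_of_perfectField

variable [IsDiscreteValuationRing R]

theorem chartRing_isNoetherianRing (hz : Transcendental R z) :
    IsNoetherianRing (chartRing R z) := by
  haveI := baseRing_isNoetherianRing R z hz
  haveI := baseRing_isIntegrallyClosed R z hz
  haveI := isSeparable_fractionRing_baseRing R z
  exact integralClosure.isNoetherianRing (K := FractionRing (baseRing R z)) F

theorem chartRing_finite (hz : Transcendental R z) :
    Module.Finite (baseRing R z) (chartRing R z) := by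
  haveI := baseRing_isNoetherianRing R z hz
  haveI := baseRing_isIntegrallyClosed R z hz
  haveI := isSeparable_fractionRing_baseRing R z
  exact IsIntegralClosure.finite (baseRing R z) (FractionRing (baseRing R z)) F (chartRing R z)

end Instances

end Fermat.Agent.S18.H438

end
end
-- ===== PACK-END S18/H438/Front/Chart.lean

-- ===== PACK-BEGIN S18/H393/LocalFree.lean
section


/-!
# S18 / Route K / piece b1 (helper393): local freeness of the normal model

Mathlib-only commutative algebra.

Setting: `Λ` an integrally closed domain with fraction field `K` (application: `Λ = R[x]`,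
`R` a DVR with uniformiser `w`), `w ∈ Λ` a prime element, `F / K` a finite separable field
extension, `B` = the integral closure of `Λ` in `F` (elements of `F` integral over `Λ`).

* `isIntegral_of_isIntegral_mul'` : (b1.a, the "regular sequence" lemma)
  if `w` is prime, `¬ w ∣ t`, and both `w * f` and `t * f` are integral over `Λ`, then so is `f`.
* `mem_smul_top_of_smul_mem` : the same inside `B`: `t • β ∈ w B`, `¬ w ∣ t` imply `β ∈ w B`
  (`B / w B` is torsion-free over `Λ / w`; `(w, t)` is a regular sequence on `B`).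
* `exists_basis_mod` : (b1 / b2.1, local freeness) if moreover `Λ` is noetherian and `Λ / w` is a
  PID, there is `b : Fin [F : K] → F`, integral, `K`-linearly independent, with
  `ρ B ⊆ ∑ Λ bᵢ` for some `ρ ≡ 1 mod w`, and `∑ cᵢ bᵢ ∈ w B → w ∣ cᵢ`.
  So `B` is free with basis `b` over the localisation of `Λ` at `1 + wΛ`, `B / w B` is free over
  `Λ / w` with basis `b mod w`, and `B ⊗ Λ_𝔭` is free with basis `b` for every prime `𝔭`
  of `Λ` with `ρ ∉ 𝔭` (e.g. `𝔭 = (x - c)`, `c` integral, in the application).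
-/

set_option autoImplicit false

namespace Fermat.Agent.S18.H393

open Polynomial

section RegularSequence

variable {Λ : Type*} (K : Type*) {F : Type*} [CommRing Λ] [IsDomain Λ]
  [Field K] [Algebra Λ K] [IsFractionRing Λ K]
  [Field F] [Algebra K F] [Algebra Λ F] [IsScalarTower Λ K F]

/-- If `c • f` is integral over the integrally closed domain `Λ` (`c ≠ 0`), the minimal
polynomial of `f` over `K`, with roots scaled by `c`, has coefficients in `Λ`. -/
theorem coeff_minpoly_mul_pow_mem [IsIntegrallyClosed Λ] {c : Λ} (hc : c ≠ 0) {f : F}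
    (hcf : IsIntegral Λ (algebraMap Λ F c * f)) (i : ℕ) :
    ∃ a : Λ, algebraMap Λ K a =
      (minpoly K f).coeff i * algebraMap Λ K c ^ ((minpoly K f).natDegree - i) := by
  have hcK : algebraMap Λ K c ≠ 0 := by
    simpa using (IsFractionRing.injective Λ K).ne hc
  have hcfK : IsIntegral K (algebraMap Λ F c * f) := hcf.tower_top
  have hmul : algebraMap Λ F c * f = algebraMap K F (algebraMap Λ K c) * f := by
    rw [← IsScalarTower.algebraMap_apply]
  have hfK : IsIntegral K f := by
    have h1 : IsIntegral K (algebraMap K F (algebraMap Λ K c)⁻¹ * (algebraMap Λ F c * f)) :=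
      (isIntegral_algebraMap).mul hcfK
    have h2 : algebraMap K F (algebraMap Λ K c)⁻¹ * (algebraMap Λ F c * f) = f := by
      rw [hmul, ← mul_assoc, ← map_mul, inv_mul_cancel₀ hcK, map_one, one_mul]
    rwa [h2] at h1
  set π := minpoly K f with hπ
  set σ := scaleRoots π (algebraMap Λ K c) with hσ
  have hπm : π.Monic := minpoly.monic hfK
  have hσm : σ.Monic := (monic_scaleRoots_iff _).mpr hπm
  have hσroot : aeval (algebraMap Λ F c * f) σ = 0 := by
    rw [hmul]
    exact scaleRoots_aeval_eq_zero (minpoly.aeval K f)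
  -- the minimal polynomial of `c f` divides `σ`
  have hdvd : minpoly K (algebraMap Λ F c * f) ∣ σ := minpoly.dvd K _ hσroot
  -- degree comparison
  set μ := minpoly K (algebraMap Λ F c * f) with hμ
  have hμm : μ.Monic := minpoly.monic hcfK
  have hroot2 : aeval f (scaleRoots μ (algebraMap Λ K c)⁻¹) = 0 := by
    have h2 : algebraMap K F (algebraMap Λ K c)⁻¹ * (algebraMap Λ F c * f) = f := by
      rw [hmul, ← mul_assoc, ← map_mul, inv_mul_cancel₀ hcK, map_one, one_mul]
    have := scaleRoots_aeval_eq_zero (p := μ) (r := (algebraMap Λ K c)⁻¹)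
      (a := algebraMap Λ F c * f) (minpoly.aeval K _)
    rwa [h2] at this
  have hdvd2 : π ∣ scaleRoots μ (algebraMap Λ K c)⁻¹ := minpoly.dvd K _ hroot2
  have hdeg1 : μ.natDegree ≤ σ.natDegree :=
    natDegree_le_of_dvd hdvd hσm.ne_zero
  have hdeg2 : π.natDegree ≤ μ.natDegree := by
    have := natDegree_le_of_dvd hdvd2 ((monic_scaleRoots_iff _).mpr hμm).ne_zero
    rwa [natDegree_scaleRoots] at this
  have hdegσ : σ.natDegree = π.natDegree := natDegree_scaleRoots _ _
  have hμσ : σ = μ := by
    refine eq_of_monic_of_dvd_of_natDegree_le hμm hσm hdvd ?_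
    rw [hdegσ]; exact hdeg2
  have hlift : μ = (minpoly Λ (algebraMap Λ F c * f)).map (algebraMap Λ K) :=
    minpoly.isIntegrallyClosed_eq_field_fractions' K hcf
  refine ⟨(minpoly Λ (algebraMap Λ F c * f)).coeff i, ?_⟩
  rw [← coeff_map, ← hlift, ← hμσ, hσ, coeff_scaleRoots]

/-- **b1.a (regular sequence lemma).** `Λ` integrally closed domain, `w` prime, `¬ w ∣ t`.
If `w f` and `t f` are integral over `Λ`, then `f` is integral over `Λ`. -/
theorem isIntegral_of_isIntegral_mul' {Λ : Type*} (K : Type*) {F : Type*} [CommRing Λ]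
    [IsDomain Λ] [IsIntegrallyClosed Λ] [Field K] [Algebra Λ K] [IsFractionRing Λ K]
    [Field F] [Algebra K F] [Algebra Λ F] [IsScalarTower Λ K F] {w t : Λ} (hw : Prime w)
    (ht : ¬ w ∣ t) {f : F}
    (hwf : IsIntegral Λ (algebraMap Λ F w * f)) (htf : IsIntegral Λ (algebraMap Λ F t * f)) :
    IsIntegral Λ f := by
  have hw0 : w ≠ 0 := hw.ne_zero
  have ht0 : t ≠ 0 := fun h => ht (h ▸ dvd_zero w)
  have hinj := IsFractionRing.injective Λ K
  have hwK : algebraMap Λ K w ≠ 0 := by simpa using hinj.ne hw0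
  have hfK : IsIntegral K f := by
    have hcfK : IsIntegral K (algebraMap Λ F w * f) := hwf.tower_top
    have hmul : algebraMap Λ F w * f = algebraMap K F (algebraMap Λ K w) * f := by
      rw [← IsScalarTower.algebraMap_apply]
    have h1 : IsIntegral K (algebraMap K F (algebraMap Λ K w)⁻¹ * (algebraMap Λ F w * f)) :=
      (isIntegral_algebraMap).mul hcfK
    have h2 : algebraMap K F (algebraMap Λ K w)⁻¹ * (algebraMap Λ F w * f) = f := by
      rw [hmul, ← mul_assoc, ← map_mul, inv_mul_cancel₀ hwK, map_one, one_mul]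
    rwa [h2] at h1
  set π := minpoly K f with hπ
  have hπm : π.Monic := minpoly.monic hfK
  -- every coefficient of `π` lies in `Λ`
  have hcoeff : ∀ i, ∃ a : Λ, algebraMap Λ K a = π.coeff i := by
    intro i
    obtain ⟨a, ha⟩ := coeff_minpoly_mul_pow_mem K hw0 hwf i
    obtain ⟨b, hb⟩ := coeff_minpoly_mul_pow_mem K ht0 htf i
    set e := π.natDegree - i with he
    have hab : a * t ^ e = b * w ^ e := by
      apply hinj
      rw [map_mul, map_mul, map_pow, map_pow, ha, hb]
      ring
    have hdvd : w ^ e ∣ a := by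
      refine hw.pow_dvd_of_dvd_mul_right e ?_ ⟨b, by rw [hab]; ring⟩
      exact fun h => ht (hw.dvd_of_dvd_pow h)
    obtain ⟨ν, hν⟩ := hdvd
    refine ⟨ν, ?_⟩
    have hwe : algebraMap Λ K w ^ e ≠ 0 := pow_ne_zero _ hwK
    apply mul_right_cancel₀ hwe
    rw [← ha, hν, map_mul, map_pow]; ring
  have hlifts : π ∈ lifts (algebraMap Λ K) := by
    rw [lifts_iff_coeff_lifts]
    intro i
    obtain ⟨a, ha⟩ := hcoeff i
    exact ⟨a, ha⟩
  obtain ⟨q, hq, -, hqm⟩ := lifts_and_degree_eq_and_monic hlifts hπm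
  refine ⟨q, hqm, ?_⟩
  have : aeval f (q.map (algebraMap Λ K)) = 0 := by rw [hq]; exact minpoly.aeval K f
  rwa [aeval_map_algebraMap] at this

end RegularSequence

section Basis

open Pointwise

/-- `B / w B` is torsion-free over `Λ / w`, elementwise form inside `B`:
if `t • β ∈ w B` and `¬ w ∣ t` then `β ∈ w B`. -/
theorem mem_smul_top_of_smul_mem {Λ : Type*} (K : Type*) {F : Type*} [CommRing Λ] [IsDomain Λ]
    [IsIntegrallyClosed Λ] [Field K] [Algebra Λ K] [IsFractionRing Λ K]
    [Field F] [Algebra K F] [Algebra Λ F] [IsScalarTower Λ K F]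
    {w t : Λ} (hw : Prime w) (ht : ¬ w ∣ t)
    {β : integralClosure Λ F}
    (h : t • β ∈ w • (⊤ : Submodule Λ (integralClosure Λ F))) :
    β ∈ w • (⊤ : Submodule Λ (integralClosure Λ F)) := by
  rw [Submodule.mem_smul_pointwise_iff_exists] at h ⊢
  obtain ⟨β', -, hβ'⟩ := h
  have hw0 : w ≠ 0 := hw.ne_zero
  have hwF : algebraMap Λ F w ≠ 0 := by
    have hinj : Function.Injective (algebraMap Λ F) := by
      rw [IsScalarTower.algebraMap_eq Λ K F]
      exact (algebraMap K F).injective.comp (IsFractionRing.injective Λ K)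
    simpa using hinj.ne hw0
  set f : F := (β : F) / algebraMap Λ F w with hf
  have h1 : algebraMap Λ F w * f = (β : F) := by
    rw [hf]; field_simp
  have h2 : algebraMap Λ F t * f = (β' : F) := by
    have h3 : algebraMap Λ F w * (β' : F) = algebraMap Λ F t * (β : F) := by
      have := congrArg (fun x : integralClosure Λ F => (x : F)) hβ'
      simpa [Algebra.smul_def] using this
    rw [hf]; field_simp; rw [← h3]
  have hfint : IsIntegral Λ f :=
    isIntegral_of_isIntegral_mul' K hw ht (h1 ▸ β.2) (h2 ▸ β'.2)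
  refine ⟨⟨f, hfint⟩, Submodule.mem_top, ?_⟩
  apply Subtype.ext
  simpa [Algebra.smul_def] using h1

/-- **b1 (local freeness, elementwise form).**
`Λ` noetherian integrally closed domain, `K = Frac Λ`, `F / K` finite separable,
`w ∈ Λ` prime with `Λ / w` a PID (application: `Λ = R[x]`, `R` a DVR with uniformiser `w`).
Then there is a family `b : Fin [F : K] → F` of integral elements such that
* `b` is `K`-linearly independent (hence a `K`-basis of `F`);
* (Nakayama) there is `ρ ≡ 1 mod w` with `ρ β ∈ ∑ Λ bᵢ` for every integral `β`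
  (so the integral closure `B` is free with basis `b` after inverting `1 + wΛ`);
* (basis mod `w`) if `∑ cᵢ bᵢ ∈ w B` then `w ∣ cᵢ` for all `i`. -/
theorem exists_basis_mod {Λ : Type*} (K : Type*) {F : Type*} [CommRing Λ] [IsDomain Λ]
    [IsIntegrallyClosed Λ] [IsNoetherianRing Λ] [Field K] [Algebra Λ K] [IsFractionRing Λ K]
    [Field F] [Algebra K F] [Algebra Λ F] [IsScalarTower Λ K F]
    [FiniteDimensional K F] [Algebra.IsSeparable K F]
    {w : Λ} (hw : Prime w) [IsPrincipalIdealRing (Λ ⧸ Ideal.span {w})] :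
    ∃ b : Fin (Module.finrank K F) → F,
      (∀ i, IsIntegral Λ (b i)) ∧ LinearIndependent K b ∧
      (∃ ρ : Λ, w ∣ ρ - 1 ∧ ∀ β : F, IsIntegral Λ β →
        ∃ c : Fin (Module.finrank K F) → Λ,
          algebraMap Λ F ρ * β = ∑ i, algebraMap Λ F (c i) * b i) ∧
      (∀ (c : Fin (Module.finrank K F) → Λ) (β : F), IsIntegral Λ β →
        ∑ i, algebraMap Λ F (c i) * b i = algebraMap Λ F w * β → ∀ i, w ∣ c i) := by
  classical
  have hinjF : Function.Injective (algebraMap Λ F) := by
    rw [IsScalarTower.algebraMap_eq Λ K F]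
    exact (algebraMap K F).injective.comp (IsFractionRing.injective Λ K)
  have hfin : Module.Finite Λ (integralClosure Λ F) :=
    IsIntegralClosure.finite Λ K F (integralClosure Λ F)
  set I : Ideal Λ := Ideal.span {w} with hI
  have hIp : I.IsPrime := (Ideal.span_singleton_prime hw.ne_zero).mpr hw
  have hIne : I ≠ ⊤ := hIp.ne_top
  set W : Submodule Λ (integralClosure Λ F) := w • (⊤ : Submodule Λ (integralClosure Λ F))
    with hW
  have : Module.Finite (Λ ⧸ I) (integralClosure Λ F ⧸ W) :=
    Module.Finite.of_restrictScalars_finite Λ _ _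
  have : Module.IsTorsionFree (Λ ⧸ I) (integralClosure Λ F ⧸ W) := by
    refine ⟨fun r hr => ?_⟩
    rw [isSMulRegular_iff_right_eq_zero_of_smul]
    intro q hq
    obtain ⟨t, rfl⟩ := Ideal.Quotient.mk_surjective r
    obtain ⟨β, rfl⟩ := Submodule.Quotient.mk_surjective W q
    have ht : ¬ w ∣ t := by
      intro hdvd
      have : Ideal.Quotient.mk I t = 0 :=
        Ideal.Quotient.eq_zero_iff_mem.mpr (Ideal.mem_span_singleton.mpr hdvd)
      exact hr.ne_zero this
    have hmem : t • β ∈ W := by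
      rw [← Submodule.Quotient.mk_eq_zero W]
      exact hq
    exact (Submodule.Quotient.mk_eq_zero W).mpr (mem_smul_top_of_smul_mem K hw ht hmem)
  have : Module.Free (Λ ⧸ I) (integralClosure Λ F ⧸ W) :=
    Module.free_of_finite_type_torsion_free'
  let e := Module.Free.chooseBasis (Λ ⧸ I) (integralClosure Λ F ⧸ W)
  set ι := Module.Free.ChooseBasisIndex (Λ ⧸ I) (integralClosure Λ F ⧸ W) with hι
  let _ : Fintype ι := Module.Free.ChooseBasisIndex.fintype _ _
  choose b' hb' using fun i => Submodule.Quotient.mk_surjective W (e i)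
  have hmk : ∀ c : ι → Λ, Submodule.Quotient.mk (p := W) (∑ i, c i • b' i) =
      ∑ i, Ideal.Quotient.mk I (c i) • e i := by
    intro c
    change W.mkQ (∑ i, c i • b' i) = _
    rw [map_sum]
    refine Finset.sum_congr rfl fun i _ => ?_
    rw [← hb' i]
    rfl
  -- (4') basis mod w
  have key4 : ∀ c : ι → Λ, (∑ i, c i • b' i) ∈ W → ∀ i, w ∣ c i := by
    intro c hc i
    have h0 : ∑ i, Ideal.Quotient.mk I (c i) • e i = 0 := by
      rw [← hmk, Submodule.Quotient.mk_eq_zero]; exact hc
    have := (Fintype.linearIndependent_iff.mp e.linearIndependent) _ h0 i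
    exact Ideal.mem_span_singleton.mp (Ideal.Quotient.eq_zero_iff_mem.mp this)
  -- spanning mod w
  have span_mod : ∀ β : integralClosure Λ F, ∃ c : ι → Λ, β - ∑ i, c i • b' i ∈ W := by
    intro β
    choose c hc using fun i =>
      Ideal.Quotient.mk_surjective (e.equivFun (Submodule.Quotient.mk (p := W) β) i)
    refine ⟨c, ?_⟩
    rw [← Submodule.Quotient.mk_eq_zero W, Submodule.Quotient.mk_sub, hmk, sub_eq_zero]
    conv_lhs => rw [← e.sum_equivFun (Submodule.Quotient.mk (p := W) β)]
    refine Finset.sum_congr rfl fun i _ => ?_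
    rw [hc i]
  -- Nakayama
  set M : Submodule Λ (integralClosure Λ F) := Submodule.span Λ (Set.range b') with hM
  obtain ⟨ρ, hρ1, hρ⟩ : ∃ ρ : Λ, ρ - 1 ∈ I ∧ ∀ β : integralClosure Λ F, ρ • β ∈ M := by
    have hle : (⊤ : Submodule Λ (integralClosure Λ F ⧸ M)) ≤
        I • (⊤ : Submodule Λ (integralClosure Λ F ⧸ M)) := by
      rintro q -
      obtain ⟨β, rfl⟩ := Submodule.Quotient.mk_surjective M q
      obtain ⟨c, hc⟩ := span_mod β
      rw [hW, Submodule.mem_smul_pointwise_iff_exists] at hc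
      obtain ⟨β', -, hβ'⟩ := hc
      have hsum : (∑ i, c i • b' i) ∈ M :=
        Submodule.sum_mem _ fun i _ =>
          Submodule.smul_mem _ _ (Submodule.subset_span ⟨i, rfl⟩)
      have hβ : β = w • β' + ∑ i, c i • b' i := by rw [hβ']; abel
      have : Submodule.Quotient.mk (p := M) β = w • Submodule.Quotient.mk (p := M) β' := by
        rw [hβ, Submodule.Quotient.mk_add, (Submodule.Quotient.mk_eq_zero M).mpr hsum,
          add_zero, Submodule.Quotient.mk_smul]
      rw [this]
      exact Submodule.smul_mem_smul (Ideal.mem_span_singleton_self w) Submodule.mem_top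
    obtain ⟨ρ, hρ1, hρ⟩ := Submodule.exists_sub_one_mem_and_smul_eq_zero_of_fg_of_le_smul I
      (⊤ : Submodule Λ (integralClosure Λ F ⧸ M)) Module.Finite.fg_top hle
    refine ⟨ρ, hρ1, fun β => ?_⟩
    have := hρ (Submodule.Quotient.mk β) Submodule.mem_top
    rwa [← Submodule.Quotient.mk_smul, Submodule.Quotient.mk_eq_zero] at this
  -- linear independence over Λ inside B
  have hpow : ∀ (k : ℕ) (c : ι → Λ), ∑ i, c i • b' i = 0 → ∀ i, w ^ k ∣ c i := by
    intro k
    induction k with
    | zero => intro c _ i; simp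
    | succ k ih =>
      intro c hc i
      have hdiv := key4 c (hc ▸ W.zero_mem)
      choose d hd using hdiv
      have hd0 : ∑ i, d i • b' i = 0 := by
        have h1 : w • ∑ i, d i • b' i = 0 := by
          rw [Finset.smul_sum, ← hc]
          refine Finset.sum_congr rfl fun i _ => ?_
          rw [hd i, mul_smul]
        have hw0 : w ≠ 0 := hw.ne_zero
        have hwB : algebraMap Λ (integralClosure Λ F) w ≠ 0 := by
          intro h
          apply hw0
          apply hinjF
          have := congrArg (algebraMap (integralClosure Λ F) F) h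
          rw [← IsScalarTower.algebraMap_apply] at this
          simpa using this
        rw [Algebra.smul_def] at h1
        exact (mul_eq_zero.mp h1).resolve_left hwB
      obtain ⟨x, hx⟩ := ih d hd0 i
      exact ⟨x, by rw [hd i, hx, pow_succ]; ring⟩
  have hliB : ∀ c : ι → Λ, ∑ i, c i • b' i = 0 → ∀ i, c i = 0 := by
    intro c hc i
    have hmem : c i ∈ ⨅ k : ℕ, I ^ k := by
      rw [Ideal.mem_iInf]
      intro k
      rw [hI, Ideal.span_singleton_pow, Ideal.mem_span_singleton]
      exact hpow k c hc i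
    rw [Ideal.iInf_pow_eq_bot_of_isDomain I hIne] at hmem
    simpa using hmem
  have hliΛ : LinearIndependent Λ (fun i => ((b' i : integralClosure Λ F) : F)) := by
    rw [Fintype.linearIndependent_iff]
    intro c hc i
    refine hliB c ?_ i
    apply Subtype.ext
    have : ((∑ i, c i • b' i : integralClosure Λ F) : F) = ∑ i, c i • ((b' i : integralClosure Λ F) : F) := by
      simp
    rw [this, hc]; rfl
  have hliK : LinearIndependent K (fun i => ((b' i : integralClosure Λ F) : F)) :=
    (LinearIndependent.iff_fractionRing Λ K).mp hliΛ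
  -- spanning over K
  have hρ0 : ρ ≠ 0 := by
    rintro rfl
    rw [zero_sub, Ideal.neg_mem_iff] at hρ1
    exact hIne ((Ideal.eq_top_iff_one I).mpr hρ1)
  have hspanΛ : ∀ β : integralClosure Λ F, ∃ c : ι → Λ,
      algebraMap Λ F ρ * (β : F) = ∑ i, algebraMap Λ F (c i) * ((b' i : integralClosure Λ F) : F) := by
    intro β
    have h := hρ β
    rw [hM, Submodule.mem_span_range_iff_exists_fun] at h
    obtain ⟨c, hc⟩ := h
    refine ⟨c, ?_⟩
    have := congrArg (fun x : integralClosure Λ F => (x : F)) hc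
    simp only [Algebra.smul_def] at this
    simpa using this.symm
  have hspanK : (⊤ : Submodule K F) ≤ Submodule.span K (Set.range fun i => ((b' i : integralClosure Λ F) : F)) := by
    rintro x -
    obtain ⟨y, hy0, hy⟩ := exists_integral_multiples Λ K ({x} : Finset F)
    have hyx : IsIntegral Λ (y • x) := hy x (Finset.mem_singleton_self x)
    obtain ⟨c, hc⟩ := hspanΛ ⟨y • x, hyx⟩
    have hyρ : algebraMap Λ K (ρ * y) ≠ 0 := by
      simpa using (IsFractionRing.injective Λ K).ne (mul_ne_zero hρ0 hy0)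
    have hx : x = (algebraMap Λ K (ρ * y))⁻¹ • ∑ i, algebraMap Λ K (c i) • ((b' i : integralClosure Λ F) : F) := by
      rw [eq_inv_smul_iff₀ hyρ]
      have : ∑ i, algebraMap Λ K (c i) • ((b' i : integralClosure Λ F) : F) =
          ∑ i, algebraMap Λ F (c i) * ((b' i : integralClosure Λ F) : F) := by
        refine Finset.sum_congr rfl fun i _ => ?_
        rw [Algebra.smul_def, ← IsScalarTower.algebraMap_apply]
      rw [this, ← hc, Algebra.smul_def, ← IsScalarTower.algebraMap_apply, map_mul]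
      simp only [Algebra.smul_def, mul_assoc]
    rw [hx]
    refine Submodule.smul_mem _ _ (Submodule.sum_mem _ fun i _ => Submodule.smul_mem _ _ ?_)
    exact Submodule.subset_span ⟨i, rfl⟩
  let bK : Module.Basis ι K F := Module.Basis.mk hliK hspanK
  have hcard : Fintype.card ι = Module.finrank K F :=
    (Module.finrank_eq_card_basis bK).symm
  let σ : Fin (Module.finrank K F) ≃ ι := (Fintype.equivFinOfCardEq hcard).symm
  refine ⟨fun j => ((b' (σ j) : integralClosure Λ F) : F), fun j => (b' (σ j)).2,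
    hliK.comp σ σ.injective, ⟨ρ, Ideal.mem_span_singleton.mp hρ1, fun β hβ => ?_⟩,
    fun c β hβ hc j => ?_⟩
  · obtain ⟨c, hc⟩ := hspanΛ ⟨β, hβ⟩
    refine ⟨fun j => c (σ j), ?_⟩
    rw [hc]
    exact (Equiv.sum_comp σ fun i => algebraMap Λ F (c i) * ((b' i : integralClosure Λ F) : F)).symm
  · have h1 := key4 (fun i => c (σ.symm i)) ?_ (σ j)
    · simpa using h1
    · rw [hW, Submodule.mem_smul_pointwise_iff_exists]
      refine ⟨⟨β, hβ⟩, Submodule.mem_top, ?_⟩
      apply Subtype.ext
      have e1 : ((w • (⟨β, hβ⟩ : integralClosure Λ F) : integralClosure Λ F) : F) =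
          algebraMap Λ F w * β := by
        simp [Algebra.smul_def]
      have e2 : ((∑ i, c (σ.symm i) • b' i : integralClosure Λ F) : F) =
          ∑ j, algebraMap Λ F (c j) * ((b' (σ j) : integralClosure Λ F) : F) := by
        rw [← Equiv.sum_comp σ]
        simp [Algebra.smul_def]
      rw [e1, e2, hc]

end Basis

end Fermat.Agent.S18.H393

end
-- ===== PACK-END S18/H393/LocalFree.lean

-- ===== PACK-BEGIN S18/H203/IntegralDiv.lean
section


/-!
# S18 / b1 (helper203): divisibility by a prime element in an integral closure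

`S` an integrally closed domain with fraction field `K`, `w ∈ S` a prime element, `t ∈ S` with
`w ∤ t`, `F / K` a field extension.  If `w z` and `t z` are integral over `S` for some `z ∈ F`,
then `z` is integral over `S`.

Consequence (`dvd_of_dvd_smul`): in the integral closure `B` of `S` in `F`,
`w ∣ t • b → w ∣ b`; i.e. `B / w B` is a torsion-free `S / w S`-module
(`(w, t)` is a regular sequence on `B`).
-/

set_option autoImplicit false

namespace Fermat.Agent.S18.H203

open Polynomial

section Prime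

variable {S : Type*} [CommRing S] [IsDomain S]

/-- If `w` is prime, `w ∤ t` and `w ^ i ∣ t ^ i * a`, then `w ^ i ∣ a`. -/
theorem pow_dvd_of_pow_dvd_pow_mul {w t : S} (hw : Prime w) (ht : ¬ w ∣ t) (i j : ℕ) {a : S}
    (h : w ^ i ∣ t ^ j * a) : w ^ i ∣ a :=
  hw.pow_dvd_of_dvd_mul_left i (fun h' => ht (hw.dvd_of_dvd_pow h')) h

end Prime

section Field

variable {S K : Type*} [CommRing S] [IsDomain S] [Field K] [Algebra S K] [IsFractionRing S K]

/-- An element `c` of the fraction field with `w ^ i * c ∈ S` and `t ^ i * c ∈ S`, where `w` is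
prime and `w ∤ t`, lies in `S`. -/
theorem mem_range_of_pow_mul_mem {w t : S} (hw : Prime w) (ht : ¬ w ∣ t) (i : ℕ) (c : K)
    (h1 : algebraMap S K w ^ i * c ∈ (algebraMap S K).range)
    (h2 : algebraMap S K t ^ i * c ∈ (algebraMap S K).range) :
    c ∈ (algebraMap S K).range := by
  obtain ⟨a, ha⟩ := h1
  obtain ⟨a', ha'⟩ := h2
  have hinj : Function.Injective (algebraMap S K) := IsFractionRing.injective S K
  have hw0 : algebraMap S K w ≠ 0 := by
    simpa using (map_ne_zero_iff _ hinj).mpr hw.ne_zero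
  -- `t ^ i * a = w ^ i * a'`
  have hrel : t ^ i * a = w ^ i * a' := by
    apply hinj
    simp only [map_mul, map_pow, ha, ha']
    ring
  have hdvd : w ^ i ∣ a := pow_dvd_of_pow_dvd_pow_mul hw ht i i ⟨a', hrel⟩
  obtain ⟨s, rfl⟩ := hdvd
  refine ⟨s, ?_⟩
  have h3 : algebraMap S K w ^ i * algebraMap S K s = algebraMap S K w ^ i * c := by
    rw [← ha, map_mul, map_pow]
  exact mul_left_cancel₀ (pow_ne_zero i hw0) h3

end Field

section Integral

variable {S K F : Type*} [CommRing S] [IsDomain S] [IsIntegrallyClosed S]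
  [Field K] [Algebra S K] [IsFractionRing S K]
  [Field F] [Algebra K F] [Algebra S F] [IsScalarTower S K F]

omit [IsIntegrallyClosed S] [IsDomain S] [IsFractionRing S K] in
/-- A monic polynomial over `K` all of whose coefficients lie in `S` is the image of a monic
polynomial over `S`. -/
theorem exists_monic_map_eq {P : K[X]} (hP : P.Monic)
    (hc : ∀ n, P.coeff n ∈ (algebraMap S K).range) :
    ∃ Q : S[X], Q.Monic ∧ Q.map (algebraMap S K) = P := by
  have hl : P ∈ Polynomial.lifts (algebraMap S K) := by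
    rw [Polynomial.lifts_iff_coeff_lifts]
    intro n
    obtain ⟨a, ha⟩ := hc n
    exact ⟨a, ha⟩
  obtain ⟨Q, hQ, -, hQm⟩ := Polynomial.lifts_and_degree_eq_and_monic hl hP
  exact ⟨Q, hQm, hQ⟩

/-- The coefficients of the minimal polynomial over `K` of `a • z` (`a ∈ S` nonzero, `a • z`
integral over `S`) : `coeff i * a ^ (d - i) ∈ S`. -/
theorem coeff_minpoly_mul_pow_mem {a : S} (ha : a ≠ 0) {z : F} (hz : IsIntegral K z)
    (haz : IsIntegral S (algebraMap S F a * z)) (i : ℕ) :
    (minpoly K z).coeff i * algebraMap S K a ^ ((minpoly K z).natDegree - i) ∈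
      (algebraMap S K).range := by
  have hinj : Function.Injective (algebraMap S K) := IsFractionRing.injective S K
  have ha0 : algebraMap S K a ≠ 0 := by
    simpa using (map_ne_zero_iff _ hinj).mpr ha
  -- minimal polynomial of `a • z` over `K`
  have h1 : minpoly K (algebraMap S K a • z) = (minpoly K z).scaleRoots (algebraMap S K a) :=
    IsIntegrallyClosed.minpoly_smul ha0 hz
  have h2 : algebraMap S K a • z = algebraMap S F a * z := by
    rw [Algebra.smul_def, ← IsScalarTower.algebraMap_apply]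
  rw [h2] at h1
  have h3 : minpoly K (algebraMap S F a * z) =
      (minpoly S (algebraMap S F a * z)).map (algebraMap S K) :=
    minpoly.isIntegrallyClosed_eq_field_fractions' K haz
  have h4 : ((minpoly K z).scaleRoots (algebraMap S K a)).coeff i =
      (minpoly K z).coeff i * algebraMap S K a ^ ((minpoly K z).natDegree - i) :=
    Polynomial.coeff_scaleRoots _ _ _
  rw [← h4, ← h1, h3, Polynomial.coeff_map]
  exact ⟨_, rfl⟩

/-- **Key lemma.**  If `w z` and `t z` are integral over the integrally closed domain `S`, where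
`w` is a prime element and `w ∤ t`, then `z` is integral over `S`. -/
theorem isIntegral_of_isIntegral_mul (K : Type*) [Field K] [Algebra S K] [IsFractionRing S K]
    [Algebra K F] [IsScalarTower S K F] {w t : S} (hw : Prime w) (ht : ¬ w ∣ t) {z : F}
    (h1 : IsIntegral S (algebraMap S F w * z)) (h2 : IsIntegral S (algebraMap S F t * z)) :
    IsIntegral S z := by
  have hinjK : Function.Injective (algebraMap S K) := IsFractionRing.injective S K
  have hw0 : algebraMap S K w ≠ 0 := by
    simpa using (map_ne_zero_iff _ hinjK).mpr hw.ne_zero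
  have hwF : algebraMap S F w ≠ 0 := by
    rw [IsScalarTower.algebraMap_apply S K F]
    simpa using (map_ne_zero_iff _ (algebraMap K F).injective).mpr hw0
  have ht0 : t ≠ 0 := fun h => ht (h ▸ dvd_zero w)
  -- `z` is integral (algebraic) over `K`
  have hzK : IsIntegral K z := by
    have h3 : IsIntegral K (algebraMap S F w * z) := h1.tower_top
    have h4 : IsIntegral K (algebraMap K F (algebraMap S K w)⁻¹) := isIntegral_algebraMap
    have h5 := h4.mul h3
    rw [map_inv₀, ← IsScalarTower.algebraMap_apply S K F, inv_mul_cancel_left₀ hwF] at h5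
    exact h5
  -- all coefficients of the minimal polynomial lie in `S`
  have hcoeff : ∀ n, (minpoly K z).coeff n ∈ (algebraMap S K).range := by
    intro n
    have e1 := coeff_minpoly_mul_pow_mem (K := K) hw.ne_zero hzK h1 n
    have e2 := coeff_minpoly_mul_pow_mem (K := K) ht0 hzK h2 n
    rw [mul_comm] at e1 e2
    exact mem_range_of_pow_mul_mem hw ht _ _ e1 e2
  obtain ⟨Q, hQm, hQ⟩ := exists_monic_map_eq (minpoly.monic hzK) hcoeff
  refine ⟨Q, hQm, ?_⟩
  have h6 : Polynomial.aeval z (Q.map (algebraMap S K)) = 0 := by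
    rw [hQ]; exact minpoly.aeval K z
  rwa [Polynomial.aeval_map_algebraMap] at h6

end Integral

end Fermat.Agent.S18.H203

end
-- ===== PACK-END S18/H203/IntegralDiv.lean

-- ===== PACK-BEGIN S18/B12/H84/RegularAlong.lean
section


/-!
# S18 / b2.5 / A9 (helper84): regularity along a Dedekind special fibre

`regularAlongOfDedekind` = `RegularAlongOfDedekindStatement` of `origin/helper33`
`Fermat/Agent/S18/B12/Spec3.lean`, unfolded (Mathlib-only; the `Spec3`-typed wrapper is
`Fermat/Agent/S18/B12/H84/Stmt.lean`):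

if `B/ϖB` is a Dedekind domain, then every maximal ideal `𝔪 ∋ ϖ` of `B` is locally generated by
`ϖ` and one more element `t`: for every `a ∈ 𝔪` there is `s ∉ 𝔪` with `s * a ∈ (ϖ, t)`.

Generic core: `exists_local_generator` (a maximal ideal of a Dedekind domain is locally
principal, elementwise form).
-/

set_option autoImplicit false

namespace Fermat.Agent.S18.B12.H84

universe u

/-- A maximal ideal `M` of a Dedekind domain is locally principal: there is `t ∈ M` and for
every `a ∈ M` an `s ∉ M` with `s * a ∈ (t)`.  (Elementwise form; `s` may even be chosen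
independently of `a`.) -/
theorem exists_local_generator {D : Type u} [CommRing D] [IsDedekindDomain D]
    (M : Ideal D) (hM : M.IsMaximal) :
    ∃ t ∈ M, ∃ s : D, s ∉ M ∧ ∀ a ∈ M, s * a ∈ Ideal.span {t} := by
  by_cases h0 : M = ⊥
  · refine ⟨0, M.zero_mem, 1, ?_, ?_⟩
    · exact (Ideal.ne_top_iff_one M).mp hM.ne_top
    · intro a ha
      rw [h0, Ideal.mem_bot] at ha
      rw [ha, mul_zero]
      exact Ideal.zero_mem _
  · obtain ⟨t, ht1, ht2⟩ := Ideal.exists_mem_pow_notMem_pow_succ M h0 hM.ne_top 1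
    rw [pow_one] at ht1
    have hle : Ideal.span {t} ≤ M := (Ideal.span_singleton_le_iff_mem M).mpr ht1
    obtain ⟨J, hJ⟩ := Ideal.dvd_iff_le.mpr hle
    have hJM : ¬ J ≤ M := by
      intro hJM
      apply ht2
      have h1 : Ideal.span {t} ≤ M * M := by
        rw [hJ]
        exact Ideal.mul_mono_right hJM
      have h2 : t ∈ M * M := h1 (Ideal.mem_span_singleton_self t)
      simpa [pow_succ] using h2
    obtain ⟨s, hsJ, hsM⟩ := SetLike.not_le_iff_exists.mp hJM
    refine ⟨t, ht1, s, hsM, fun a ha => ?_⟩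
    rw [hJ, mul_comm s a]
    exact Ideal.mul_mem_mul ha hsJ

/-- **A9** (`RegularAlongOfDedekindStatement`, unfolded). -/
theorem regularAlongOfDedekind (B : Type u) [CommRing B] (ϖ : B)
    (hD : IsDedekindDomain (B ⧸ Ideal.span {ϖ})) (𝔪 : Ideal B) (h𝔪 : 𝔪.IsMaximal)
    (hϖ : ϖ ∈ 𝔪) :
    ∃ t ∈ 𝔪, ∀ a ∈ 𝔪, ∃ s : B, s ∉ 𝔪 ∧ s * a ∈ Ideal.span {ϖ, t} := by
  let q : B →+* B ⧸ Ideal.span {ϖ} := Ideal.Quotient.mk (Ideal.span {ϖ})
  have hq : Function.Surjective q := Ideal.Quotient.mk_surjective
  have hker : RingHom.ker q = Ideal.span {ϖ} := Ideal.mk_ker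
  have hkerle : RingHom.ker q ≤ 𝔪 := by
    rw [hker]
    exact (Ideal.span_singleton_le_iff_mem 𝔪).mpr hϖ
  have hcomap : (𝔪.map q).comap q = 𝔪 := by
    rw [Ideal.comap_map_of_surjective q hq]
    refine le_antisymm (sup_le le_rfl ?_) le_sup_left
    rw [← RingHom.ker_eq_comap_bot]
    exact hkerle
  have hmax : (𝔪.map q).IsMaximal := by
    rcases Ideal.map_eq_top_or_isMaximal_of_surjective q hq h𝔪 with h | h
    · exfalso
      apply h𝔪.ne_top
      rw [← hcomap, h, Ideal.comap_top]
    · exact h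
  obtain ⟨tbar, htbar, sbar, hsbar, hall⟩ := exists_local_generator (𝔪.map q) hmax
  obtain ⟨t, rfl⟩ := hq tbar
  obtain ⟨s, rfl⟩ := hq sbar
  have ht : t ∈ 𝔪 := by
    rw [← hcomap]
    exact Ideal.mem_comap.mpr htbar
  have hs : s ∉ 𝔪 := fun h => hsbar (Ideal.mem_map_of_mem q h)
  refine ⟨t, ht, fun a ha => ⟨s, hs, ?_⟩⟩
  have h1 : q s * q a ∈ Ideal.span {q t} := hall (q a) (Ideal.mem_map_of_mem q ha)
  obtain ⟨cbar, hc⟩ := Ideal.mem_span_singleton'.mp h1
  obtain ⟨c, rfl⟩ := hq cbar
  have h2 : s * a - c * t ∈ Ideal.span {ϖ} := by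
    rw [← hker, RingHom.mem_ker, map_sub, map_mul, map_mul, hc, sub_self]
  have h3 : s * a = (s * a - c * t) + c * t := by ring
  rw [h3]
  refine Ideal.add_mem _ ?_ ?_
  · exact Ideal.span_mono (by simp) h2
  · exact Ideal.mul_mem_left _ c (Ideal.subset_span (by simp))

end Fermat.Agent.S18.B12.H84

end
-- ===== PACK-END S18/B12/H84/RegularAlong.lean

-- ===== PACK-BEGIN S37/H278/DetDvd.lean
section


/-!
# S37 / S18, piece b2-core (helper278): determinant divisibility

A matrix whose rows indexed by `Z` are divisible by `t`, whose column `i₀` is divisible by `t`, and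
whose entries `(i, i₀)` with `i ∈ Z` are divisible by `t ^ 2`, has determinant divisible by
`t ^ (#Z + 1)`.
-/

set_option autoImplicit false

namespace Fermat.Agent.S37.H278

open Matrix

theorem pow_card_dvd_det {R : Type*} [CommRing R] {ι : Type*} [Fintype ι] [DecidableEq ι]
    (t : R) (T : Matrix ι ι R) (Z : Finset ι)
    (h1 : ∀ i ∈ Z, ∀ j, t ∣ T i j) :
    t ^ Z.card ∣ T.det := by
  classical
  choose! r hr using h1
  let T' : Matrix ι ι R := Matrix.of fun i j => if i ∈ Z then r i j else T i j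
  have hT : T = Matrix.of fun i j => (if i ∈ Z then t else 1) * T' i j := by
    ext i j
    by_cases hi : i ∈ Z
    · simp [T', hi, hr i hi j]
    · simp [T', hi]
  rw [hT, Matrix.det_mul_column]
  have : (∏ i : ι, if i ∈ Z then t else 1) = t ^ Z.card := by
    rw [Finset.prod_ite_mem, Finset.univ_inter, Finset.prod_const]
  rw [this]
  exact Dvd.intro _ rfl

theorem pow_card_succ_dvd_det {R : Type*} [CommRing R] {ι : Type*} [Fintype ι] [DecidableEq ι]
    (t : R) (T : Matrix ι ι R) (Z : Finset ι) (i₀ : ι)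
    (h1 : ∀ i ∈ Z, ∀ j, t ∣ T i j)
    (h2 : ∀ i ∈ Z, t ^ 2 ∣ T i i₀)
    (h3 : ∀ j, t ∣ T j i₀) :
    t ^ (Z.card + 1) ∣ T.det := by
  classical
  choose! r hr using h1
  choose! q hq using h2
  choose p hp using h3
  let T' : Matrix ι ι R := Matrix.of fun i j =>
    if j = i₀ then (if i ∈ Z then q i else p i) else (if i ∈ Z then r i j else T i j)
  have hT : T = Matrix.of fun i j =>
      (if i ∈ Z then t else 1) * ((Matrix.of fun i j => (if j = i₀ then t else 1) * T' i j) i j) := by
    ext i j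
    by_cases hi : i ∈ Z <;> by_cases hj : j = i₀
    · subst hj; simp [T', hi, hq i hi]; ring
    · simp [T', hi, hj, hr i hi j]
    · subst hj; simp [T', hi, hp i]
    · simp [T', hi, hj]
  rw [hT, Matrix.det_mul_column, Matrix.det_mul_row]
  have e1 : (∏ i : ι, if i ∈ Z then t else 1) = t ^ Z.card := by
    rw [Finset.prod_ite_mem, Finset.univ_inter, Finset.prod_const]
  have e2 : (∏ j : ι, if j = i₀ then t else 1) = t := by
    rw [Finset.prod_ite_eq' Finset.univ i₀ (fun _ => t)]
    simp
  rw [e1, e2, pow_succ]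
  exact Dvd.intro (T'.det) (by ring)

end Fermat.Agent.S37.H278

end
-- ===== PACK-END S37/H278/DetDvd.lean

-- ===== PACK-BEGIN S18/H425/HsepLocal.lean
section


/-!
# S18 / b2.5 HSEP (helper425): local lemmas

* `isSeparable_of_aeval_derivative_ne_zero` : over a field, a root `y` of `P` with `P'(y) ≠ 0`
  is separable.
* `isUnit_discr_of_isSeparable_quotient` : `R` local, `S` finite free over `R`, `𝔪 S` maximal and
  `S/𝔪S` separable over `R/𝔪` (elementwise) ⟹ the discriminant of any basis is a unit.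

Mathlib-only.
-/

set_option autoImplicit false

namespace Fermat.Agent.S18.H425

open Polynomial

/-- A root `y` of `P` with `P'(y) ≠ 0` is separable over the base field. -/
theorem isSeparable_of_aeval_derivative_ne_zero {K F : Type*} [Field K] [Field F] [Algebra K F]
    (y : F) (P : K[X]) (h0 : aeval y P = 0) (h1 : aeval y (derivative P) ≠ 0) :
    IsSeparable K y := by
  have hP0 : P ≠ 0 := by
    rintro rfl
    simp at h1
  have hint : IsIntegral K y := (isAlgebraic_iff_isIntegral).mp ⟨P, hP0, h0⟩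
  obtain ⟨Q, hQ⟩ := minpoly.dvd K y h0
  have hirr : Irreducible (minpoly K y) := minpoly.irreducible hint
  rw [IsSeparable, separable_iff_derivative_ne_zero hirr]
  intro hd
  apply h1
  rw [hQ, derivative_mul, hd, zero_mul, zero_add, map_mul, minpoly.aeval, zero_mul]

open IsLocalRing in
/-- `R` local, `S` finite free over `R` with basis `b`.  If `𝔪 S` is a maximal ideal of `S` and
every element of `S / 𝔪 S` is separable over `R / 𝔪`, then `discr R b` is a unit. -/
theorem isUnit_discr_of_isSeparable_quotient {R S : Type*} [CommRing R] [CommRing S]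
    [Algebra R S] [IsLocalRing R] [Module.Free R S] [Module.Finite R S]
    {ι : Type*} [Fintype ι] [DecidableEq ι] (b : Module.Basis ι R S)
    (hmax : (Ideal.map (algebraMap R S) (maximalIdeal R)).IsMaximal)
    (hsep : ∀ y : S ⧸ Ideal.map (algebraMap R S) (maximalIdeal R),
      IsSeparable (R ⧸ maximalIdeal R) y) :
    IsUnit (Algebra.discr R b) := by
  let : Field (R ⧸ maximalIdeal R) := Ideal.Quotient.field _
  let : Field (S ⧸ Ideal.map (algebraMap R S) (maximalIdeal R)) := Ideal.Quotient.field _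
  have : Algebra.IsSeparable (R ⧸ maximalIdeal R)
      (S ⧸ Ideal.map (algebraMap R S) (maximalIdeal R)) := ⟨hsep⟩
  have : Module.Finite (R ⧸ maximalIdeal R)
      (S ⧸ Ideal.map (algebraMap R S) (maximalIdeal R)) :=
    Module.Finite.of_restrictScalars_finite R _ _
  have hne := Algebra.discr_not_zero_of_basis (R ⧸ maximalIdeal R) (basisQuotient b)
  have hmk : Algebra.discr (R ⧸ maximalIdeal R) (basisQuotient b) =
      Ideal.Quotient.mk (maximalIdeal R) (Algebra.discr R b) := by
    rw [Algebra.discr_def, Algebra.discr_def, RingHom.map_det]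
    congr 1
    ext i j
    simp only [Algebra.traceMatrix_apply, Algebra.traceForm_apply, basisQuotient_apply,
      RingHom.mapMatrix_apply, Matrix.map_apply, ← map_mul]
    exact Algebra.trace_quotient_mk (b i * b j)
  rw [hmk] at hne
  by_contra hu
  apply hne
  rw [Ideal.Quotient.eq_zero_iff_mem]
  exact (IsLocalRing.mem_maximalIdeal _).mpr hu

end Fermat.Agent.S18.H425

end
-- ===== PACK-END S18/H425/HsepLocal.lean

-- ===== PACK-BEGIN S18/H214/LocalUFD.lean
section


/-!
# S18, route K, pieces b3/b4 — local structure at a closed point of the special fibre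

Mathlib-only.  `A` is a noetherian local domain, `w ∈ A` a non-unit such that `A ⧸ (w)` is a
principal ideal domain (in the application: `A = B_𝔓`, `𝔓 ∋ w` a maximal ideal of the chart `B`,
and `A ⧸ (w)` is the local ring of the *normal* special fibre, piece b2).

* `isPrincipal_of_notMem_of_map_isPrincipal` : a prime `𝔮 ∌ w` whose image in `A ⧸ (w)` is principal
  is principal (Nakayama).
* `ufd_of_quotient_isPrincipalIdealRing` : `A` is a UFD (Kaplansky's criterion).
* `exists_unit_mul_pow_of_dvd_count` : in a UFD, an element all of whose prime multiplicities are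
  divisible by `p` is a unit times a `p`-th power.
* `local_kummer_structure` : (LS) if `u = a / s` with `a ≡ s ≢ 0 mod w` and `u ∈ (A_(π))ˣ · (Fˣ)^p`
  for every prime element `π` of `A` not associated to `w`, then `u = c · (t₁ / t₂)^p` with
  `c ∈ Aˣ`, `c ≡ 1`, `t₁ ≡ t₂ ≢ 0 mod w`.
-/

set_option autoImplicit false

namespace Fermat.Agent.S18.H214

section Principal

variable {A : Type*} [CommRing A]

/-- Nakayama: if `w` lies in the Jacobson radical, `𝔮` is a finitely generated prime ideal not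
containing `w`, and the image of `𝔮` in `A ⧸ (w)` is principal, then `𝔮` is principal. -/
theorem isPrincipal_of_notMem_of_map_isPrincipal (w : A) (hw : w ∈ (⊥ : Ideal A).jacobson)
    (𝔮 : Ideal A) [h𝔮 : 𝔮.IsPrime] (hfg : 𝔮.FG) (hq : w ∉ 𝔮)
    (hprin : (𝔮.map (Ideal.Quotient.mk (Ideal.span {w}))).IsPrincipal) :
    ∃ f : A, 𝔮 = Ideal.span {f} := by
  obtain ⟨fbar, hfbar⟩ := hprin
  have hfmem : fbar ∈ 𝔮.map (Ideal.Quotient.mk (Ideal.span {w})) := by
    rw [hfbar]; exact Submodule.mem_span_singleton_self _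
  obtain ⟨f, hf, rfl⟩ :=
    (Ideal.mem_map_iff_of_surjective _ Ideal.Quotient.mk_surjective).1 hfmem
  refine ⟨f, le_antisymm ?_ ((Ideal.span_singleton_le_iff_mem _).2 hf)⟩
  have key : 𝔮 ≤ Ideal.span {f} ⊔ (Ideal.span {w}) • 𝔮 := by
    intro g hg
    have hgm : Ideal.Quotient.mk (Ideal.span {w}) g ∈
        𝔮.map (Ideal.Quotient.mk (Ideal.span {w})) := Ideal.mem_map_of_mem _ hg
    rw [hfbar] at hgm
    obtain ⟨cbar, hc⟩ := Submodule.mem_span_singleton.1 hgm
    obtain ⟨c, rfl⟩ := Ideal.Quotient.mk_surjective cbar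
    have h1 : g - c * f ∈ Ideal.span {w} := by
      rw [← Ideal.Quotient.eq, ← hc]; simp [smul_eq_mul]
    obtain ⟨h, hh⟩ := Ideal.mem_span_singleton'.1 h1
    have h2 : h * w ∈ 𝔮 := by
      rw [hh]; exact 𝔮.sub_mem hg (𝔮.mul_mem_left _ hf)
    have h3 : h ∈ 𝔮 := (h𝔮.mem_or_mem h2).resolve_right hq
    have h4 : g = c * f + w * h := by linear_combination hh.symm
    rw [h4]
    refine Submodule.add_mem_sup (Ideal.mul_mem_left _ _ (Ideal.mem_span_singleton_self f)) ?_
    exact Submodule.smul_mem_smul (Ideal.mem_span_singleton_self w) h3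
  exact Submodule.le_of_le_smul_of_le_jacobson_bot hfg
    ((Ideal.span_singleton_le_iff_mem _).2 hw) key

/-- A noetherian local domain `A` with a nonzero non-unit `w` such that `(w)` is prime and
`A ⧸ (w)` is a principal ideal ring is a UFD. -/
theorem ufd_of_quotient_isPrincipalIdealRing [IsDomain A] [IsNoetherianRing A] [IsLocalRing A]
    (w : A) (hw0 : w ≠ 0) (hw : ¬ IsUnit w) (hwp : (Ideal.span {w}).IsPrime)
    [IsPrincipalIdealRing (A ⧸ Ideal.span {w})] : UniqueFactorizationMonoid A := by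
  refine UniqueFactorizationMonoid.iff_exists_prime_mem_of_isPrime.2 fun I hI hIp => ?_
  by_cases hwI : w ∈ I
  · exact ⟨w, hwI, (Ideal.span_singleton_prime hw0).1 hwp⟩
  · have hjac : w ∈ (⊥ : Ideal A).jacobson := by
      rw [IsLocalRing.jacobson_eq_maximalIdeal ⊥ bot_ne_top]
      exact (IsLocalRing.mem_maximalIdeal w).2 hw
    obtain ⟨f, hf⟩ := isPrincipal_of_notMem_of_map_isPrincipal w hjac I
      (IsNoetherian.noetherian I) hwI (IsPrincipalIdealRing.principal _)
    have hf0 : f ≠ 0 := by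
      rintro rfl
      apply hI
      rw [hf]; simp
    refine ⟨f, hf ▸ Ideal.mem_span_singleton_self f, (Ideal.span_singleton_prime hf0).1 ?_⟩
    rw [← hf]; exact hIp

end Principal

section UFD

variable {A : Type*} [CommRing A] [IsDomain A] [UniqueFactorizationMonoid A]

/-- In a UFD, a nonzero element `n` which at every prime `π` dividing it is a `π`-adic unit times a
`p`-th power (written without denominators: `n * s' * z₂ ^ p = a' * z₁ ^ p` with `π ∤ a' s'`) is a
unit times a `p`-th power. -/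
theorem exists_unit_mul_pow_of_forall_prime (p : ℕ) (n : A) (hn : n ≠ 0)
    (h : ∀ π : A, Prime π → π ∣ n → ∃ a' s' z₁ z₂ : A, ¬ π ∣ a' ∧ ¬ π ∣ s' ∧ z₁ ≠ 0 ∧ z₂ ≠ 0 ∧
      n * s' * z₂ ^ p = a' * z₁ ^ p) :
    ∃ (c : Aˣ) (z : A), n = c * z ^ p := by
  classical
  have hn' : Associates.mk n ≠ 0 := Associates.mk_ne_zero.2 hn
  have hcount : ∀ q : Associates A, Irreducible q →
      p ∣ Associates.count q (Associates.mk n).factors := by
    intro q hq
    obtain ⟨π, rfl⟩ := Associates.mk_surjective q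
    have hπirr : Irreducible π := Associates.irreducible_mk.1 hq
    have hπ : Prime π := UniqueFactorizationMonoid.irreducible_iff_prime.1 hπirr
    by_cases hdvd : π ∣ n
    · obtain ⟨a', s', z₁, z₂, ha', hs', hz₁, hz₂, heq⟩ := h π hπ hdvd
      have ha'0 : a' ≠ 0 := fun h0 => ha' (h0 ▸ dvd_zero π)
      have hs'0 : s' ≠ 0 := fun h0 => hs' (h0 ▸ dvd_zero π)
      have hca : Associates.count (Associates.mk π) (Associates.mk a').factors = 0 := by
        by_contra hne
        exact ha' ((Associates.count_ne_zero_iff_dvd ha'0 hπirr).1 hne)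
      have hcs : Associates.count (Associates.mk π) (Associates.mk s').factors = 0 := by
        by_contra hne
        exact hs' ((Associates.count_ne_zero_iff_dvd hs'0 hπirr).1 hne)
      have e1 : Associates.mk (n * s' * z₂ ^ p) = Associates.mk (a' * z₁ ^ p) := by rw [heq]
      have e2 := congrArg (fun x => Associates.count (Associates.mk π) x.factors) e1
      simp only [Associates.mk_mul_mk.symm, Associates.mk_pow] at e2
      rw [Associates.count_mul (mul_ne_zero hn' (Associates.mk_ne_zero.2 hs'0))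
          (pow_ne_zero _ (Associates.mk_ne_zero.2 hz₂)) hq,
        Associates.count_mul hn' (Associates.mk_ne_zero.2 hs'0) hq,
        Associates.count_mul (Associates.mk_ne_zero.2 ha'0)
          (pow_ne_zero _ (Associates.mk_ne_zero.2 hz₁)) hq,
        Associates.count_pow (Associates.mk_ne_zero.2 hz₂) hq,
        Associates.count_pow (Associates.mk_ne_zero.2 hz₁) hq, hca, hcs] at e2
      rw [add_zero, zero_add] at e2
      have e3 : Associates.count (Associates.mk π) (Associates.mk n).factors =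
          p * Associates.count (Associates.mk π) (Associates.mk z₁).factors -
            p * Associates.count (Associates.mk π) (Associates.mk z₂).factors := by
        omega
      rw [e3, ← Nat.mul_sub]
      exact dvd_mul_right _ _
    · have : Associates.count (Associates.mk π) (Associates.mk n).factors = 0 := by
        by_contra hne
        exact hdvd ((Associates.count_ne_zero_iff_dvd hn hπirr).1 hne)
      rw [this]; exact dvd_zero p
  obtain ⟨b, hb⟩ := Associates.is_pow_of_dvd_count hn' hcount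
  obtain ⟨z, rfl⟩ := Associates.mk_surjective b
  rw [← Associates.mk_pow, Associates.mk_eq_mk_iff_associated] at hb
  obtain ⟨c, hc⟩ := hb.symm
  exact ⟨c, z, by rw [← hc, mul_comm]⟩

/-- (LS) **Local structure of a Kummer datum.**  `A` a local UFD, `w` a prime element with
`A ⧸ (w)` integrally closed.  Let `u = a / s` with `a ≡ s ≢ 0 mod w`, and suppose that at every
prime element `π` not associated to `w` the element `u` is a `π`-adic unit times a `p`-th power.
Then `u = c · (t₁ / t₂) ^ p` with `c ∈ Aˣ`, `c ≡ 1 mod w` and `t₁ ≡ t₂ ≢ 0 mod w`. -/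
theorem local_kummer_structure [IsLocalRing A] (w : A) (hw : Prime w)
    [IsDomain (A ⧸ Ideal.span {w})] [IsIntegrallyClosed (A ⧸ Ideal.span {w})]
    (p : ℕ) (hp : p ≠ 0) (a s : A) (ha : ¬ w ∣ a) (hs : ¬ w ∣ s) (has : w ∣ a - s)
    (h : ∀ π : A, Prime π → ¬ Associated π w → ∃ a' s' z₁ z₂ : A, ¬ π ∣ a' ∧ ¬ π ∣ s' ∧
      z₁ ≠ 0 ∧ z₂ ≠ 0 ∧ a * s' * z₂ ^ p = a' * s * z₁ ^ p) :
    ∃ (c : Aˣ) (t₁ t₂ : A), ¬ w ∣ t₁ ∧ ¬ w ∣ t₂ ∧ w ∣ t₁ - t₂ ∧ w ∣ (c : A) - 1 ∧
      a * t₂ ^ p = c * s * t₁ ^ p := by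
  have ha0 : a ≠ 0 := fun h0 => ha (h0 ▸ dvd_zero w)
  have hs0 : s ≠ 0 := fun h0 => hs (h0 ▸ dvd_zero w)
  obtain ⟨k, rfl⟩ : ∃ k, p = k + 1 := ⟨p - 1, by omega⟩
  -- step 1: `a * s ^ k` is a unit times a `p`-th power
  have hn0 : a * s ^ k ≠ 0 := mul_ne_zero ha0 (pow_ne_zero _ hs0)
  have hwn : ¬ w ∣ a * s ^ k := by
    intro hd
    rcases hw.dvd_or_dvd hd with h1 | h1
    · exact ha h1
    · exact hs (hw.dvd_of_dvd_pow h1)
  obtain ⟨c₀, z, hz⟩ := exists_unit_mul_pow_of_forall_prime (k + 1) (a * s ^ k) hn0 (by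
    intro π hπ hπn
    have hπw : ¬ Associated π w := fun hass => hwn (hass.symm.dvd.trans hπn)
    obtain ⟨a', s', z₁, z₂, ha', hs', hz₁, hz₂, heq⟩ := h π hπ hπw
    refine ⟨a', s', s * z₁, z₂, ha', hs', mul_ne_zero hs0 hz₁, hz₂, ?_⟩
    linear_combination s ^ k * heq)
  have hwz : ¬ w ∣ z := fun hd =>
    hwn (hz ▸ Dvd.dvd.mul_left (dvd_pow hd (Nat.succ_ne_zero k)) _)
  have hz0 : z ≠ 0 := fun h0 => hwz (h0 ▸ dvd_zero w)
  -- step 2: work in the quotient
  set q := Ideal.Quotient.mk (Ideal.span {w}) with hq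
  have hqz : ∀ x : A, q x = 0 ↔ w ∣ x := fun x => by
    rw [hq, Ideal.Quotient.eq_zero_iff_mem, Ideal.mem_span_singleton]
  have hqa : q a = q s := by
    rw [← sub_eq_zero, ← map_sub, hqz]; exact has
  have hqs0 : q s ≠ 0 := fun h0 => hs ((hqz s).1 h0)
  have hqz0 : q z ≠ 0 := fun h0 => hwz ((hqz z).1 h0)
  have e1 : q s ^ (k + 1) = q c₀ * q z ^ (k + 1) := by
    have := congrArg q hz
    simp only [map_mul, map_pow] at this
    rw [hqa] at this
    rw [pow_succ, mul_comm, this]
  have hdvd : q z ∣ q s := by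
    rw [← IsIntegrallyClosed.pow_dvd_pow_iff (Nat.succ_ne_zero k), e1]
    exact dvd_mul_left _ _
  obtain ⟨dbar, hdbar⟩ := hdvd
  have e2 : dbar ^ (k + 1) = q c₀ := by
    have : q z ^ (k + 1) * dbar ^ (k + 1) = q z ^ (k + 1) * q c₀ := by
      rw [← mul_pow, ← hdbar, e1, mul_comm]
    exact mul_left_cancel₀ (pow_ne_zero _ hqz0) this
  obtain ⟨d, rfl⟩ := Ideal.Quotient.mk_surjective dbar
  -- `d` is a unit of `A`
  have hwnu : ¬ IsUnit w := hw.not_isUnit
  have hdu : IsUnit d := by
    by_contra hnd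
    have hdm : d ∈ IsLocalRing.maximalIdeal A := (IsLocalRing.mem_maximalIdeal d).2 hnd
    have hc0 : IsUnit (q (c₀ : A)) := (c₀.isUnit).map q
    rw [← e2, ← map_pow] at hc0
    obtain ⟨e, he⟩ := hc0.exists_right_inv
    obtain ⟨e', rfl⟩ := Ideal.Quotient.mk_surjective e
    rw [← map_mul, ← sub_eq_zero, ← map_one q, ← map_sub, hqz] at he
    obtain ⟨r, hr⟩ := he
    have h1 : (1 : A) = d ^ (k + 1) * e' - w * r := by linear_combination -hr
    have h2 : (1 : A) ∈ IsLocalRing.maximalIdeal A := by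
      rw [h1]
      refine Ideal.sub_mem _ (Ideal.mul_mem_right _ _ (Ideal.pow_mem_of_mem _ hdm _
        (Nat.succ_pos k))) (Ideal.mul_mem_right _ _ ((IsLocalRing.mem_maximalIdeal w).2 hwnu))
    exact (Ideal.ne_top_iff_one _).1 (IsLocalRing.maximalIdeal.isMaximal A).ne_top h2
  obtain ⟨du, rfl⟩ := hdu
  refine ⟨c₀ * du⁻¹ ^ (k + 1), du * z, s, ?_, hs, ?_, ?_, ?_⟩
  · intro hd
    exact hwz ((hw.dvd_or_dvd hd).resolve_left
      (fun h1 => hwnu (isUnit_of_dvd_unit h1 du.isUnit)))
  · rw [← hqz, map_sub, map_mul, sub_eq_zero, mul_comm]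
    exact hdbar.symm
  · rw [← hqz, map_sub, sub_eq_zero, map_one]
    have h3 : q ((c₀ * du⁻¹ ^ (k + 1) : Aˣ) : A) * q ((du : A)) ^ (k + 1) = q c₀ := by
      rw [← map_pow, ← map_mul]
      congr 1
      rw [Units.val_mul, Units.val_pow_eq_pow_val, mul_assoc, ← mul_pow, Units.inv_mul, one_pow,
        mul_one]
    rw [e2] at h3
    have hc0ne : q (c₀ : A) ≠ 0 := ((c₀.isUnit).map q).ne_zero
    exact mul_right_cancel₀ hc0ne (by rw [h3, one_mul])
  · have h4 : ((c₀ * du⁻¹ ^ (k + 1) : Aˣ) : A) * (du : A) ^ (k + 1) = c₀ := by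
      rw [Units.val_mul, Units.val_pow_eq_pow_val, mul_assoc, ← mul_pow, Units.inv_mul, one_pow,
        mul_one]
    calc a * s ^ (k + 1) = s * (a * s ^ k) := by ring
      _ = s * (c₀ * z ^ (k + 1)) := by rw [hz]
      _ = s * ((((c₀ * du⁻¹ ^ (k + 1) : Aˣ) : A) * (du : A) ^ (k + 1)) * z ^ (k + 1)) := by
          rw [h4]
      _ = ((c₀ * du⁻¹ ^ (k + 1) : Aˣ) : A) * s * ((du : A) * z) ^ (k + 1) := by ring

end UFD

end Fermat.Agent.S18.H214

end
-- ===== PACK-END S18/H214/LocalUFD.lean

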