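import Mathlib
import Fermat.Prelude.Def_ModularCurve_LaurentCoeff
import Mathlib.Analysis.Complex.BranchLogRoot
import Mathlib.Analysis.Meromorphic.FactorizedRational
import Mathlib.Analysis.SpecialFunctions.Complex.Analytic
import Mathlib.Analysis.Convex.Contractible
import Mathlib.RingTheory.Polynomial.Cyclotomic.Roots
import Fermat.Prelude.Def_ModularCurve_X0
import Fermat.Prelude.Def_ModularCurve_X0ModL
import Fermat.Prelude.Def_ModularCurve_GenusNumerics
import Fermat.Prelude.Def_AlgebraicCurve_DivisorClassGroup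
import Fermat.Agent.Pack.S3234.G0E0L0
import Fermat.Agent.Pack.S3234.G0E0L2

-- ===== PACK-BEGIN S30/H990/Cheb.lean
section
/-
S30 top glue (helper990): the Chebotarev hypothesis used by the glue follows from the frozen
Tier 1 statement of the shared CHEB library.
-/



set_option autoImplicit false

namespace Fermat.Agent.S30.H990

/-- Tier 1 of the shared CHEB library implies the weak form consumed by the S30 glue. -/
theorem chebWeak_of_frobeniusDivision
    (h : Fermat.Agent.Lib.Cheb.Spec.FrobeniusDivisionStatement) : ChebWeak := by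
  intro L hL σ T
  obtain ⟨ℓ, A, τ, _k, j, hℓ, hℓT, hA, hτ, _, _, hj⟩ := h L hL σ T
  exact ⟨ℓ, hℓ, hℓT, A, hA, τ, hτ, j, fun x hx => (hj x hx).symm⟩

end Fermat.Agent.S30.H990

end
-- ===== PACK-END S30/H990/Cheb.lean

-- ===== PACK-BEGIN S29/H812/Tower.lean
section


/-!
# S29 / H812 — degree of `F'` over `K(x)` for `x ∈ F ⊆ F'`
-/

set_option autoImplicit false

noncomputable section

open IntermediateField

namespace Fermat.Agent.S29.H812

variable {K F F' : Type*} [Field K] [Field F] [Field F']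
  [Algebra K F] [Algebra K F'] [Algebra F F'] [IsScalarTower K F F']

/-- `[F' : K(x')] = [F : K(x)] · [F' : F]` for `x' = algebraMap F F' x`. -/
theorem finrank_adjoin_algebraMap (x : F) :
    Module.finrank K⟮algebraMap F F' x⟯ F' = Module.finrank K⟮x⟯ F * Module.finrank F F' := by
  haveI : IsScalarTower K⟮x⟯ F F' := inferInstance
  rw [Module.finrank_mul_finrank K⟮x⟯ F F']
  set f : F →ₐ[K] F' := IsScalarTower.toAlgHom K F F' with hf
  have hmap : (K⟮x⟯).map f = K⟮algebraMap F F' x⟯ := by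
    rw [IntermediateField.adjoin_map, Set.image_singleton]
    rfl
  have h1 : Module.finrank K⟮algebraMap F F' x⟯ F' = Module.finrank ((K⟮x⟯).map f) F' :=
    congrArg (fun E : IntermediateField K F' => Module.finrank E F') hmap.symm
  rw [h1]
  symm
  refine Algebra.finrank_eq_of_equiv_equiv
    ((IntermediateField.equivMap K⟮x⟯ f).toRingEquiv) (RingEquiv.refl F') ?_
  ext c
  rfl

theorem finiteDimensional_adjoin_algebraMap (x : F) [FiniteDimensional K⟮x⟯ F]
    [FiniteDimensional F F'] : FiniteDimensional K⟮algebraMap F F' x⟯ F' := by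
  apply Module.finite_of_finrank_pos
  rw [finrank_adjoin_algebraMap]
  exact Nat.mul_pos Module.finrank_pos Module.finrank_pos

theorem transcendental_algebraMap_of {x : F} (hx : Transcendental K x) :
    Transcendental K (algebraMap F F' x) :=
  (transcendental_algebraMap_iff (algebraMap F F').injective).mpr hx

/-- If `F'` is finite over `K(φ x)` with `φ x` in the image of `F`, then `F'` is finite over `F`. -/
theorem finite_of_finite_adjoin_algebraMap (x : F)
    [h : FiniteDimensional K⟮algebraMap F F' x⟯ F'] : Module.Finite F F' := by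
  obtain ⟨s, hs⟩ := (Module.finite_def.mp h)
  refine Module.finite_def.mpr ⟨s, ?_⟩
  rw [eq_top_iff]
  rintro y -
  have hy : y ∈ Submodule.span K⟮algebraMap F F' x⟯ (s : Set F') := by rw [hs]; trivial
  have hle : K⟮algebraMap F F' x⟯ ≤ (IsScalarTower.toAlgHom K F F').fieldRange := by
    rw [IntermediateField.adjoin_le_iff]
    rintro _ rfl
    exact ⟨x, rfl⟩
  induction hy using Submodule.span_induction with
  | mem z hz => exact Submodule.subset_span hz
  | zero => exact zero_mem _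
  | add a b _ _ ha hb => exact add_mem ha hb
  | smul c z _ hz =>
    obtain ⟨c₀, hc₀⟩ := hle c.2
    have : c • z = c₀ • z := by
      rw [Algebra.smul_def, Algebra.smul_def]
      congr 1
      exact hc₀.symm
    rw [this]
    exact Submodule.smul_mem _ _ hz

end Fermat.Agent.S29.H812

end
end
-- ===== PACK-END S29/H812/Tower.lean

-- ===== PACK-BEGIN S29/H102/RootDesc.lean
section
/-
S29 / M4b / K4 (helper102) — ROOT DESCENT for Laurent series.

If `K` is an algebraically closed field, `ι : K →+* L` a ring hom into a field of characteristic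
zero and `s ∈ L((q))` satisfies `s ^ p = coeffMap ι w` for some `w ∈ K((q))`, `p ≠ 0`, then all
coefficients of `s` lie in the image of `ι`, i.e. `s = coeffMap ι v` for some `v ∈ K((q))`.

Proof: the power series part `P` of `s` satisfies the linear differential equation
`G' * P = p • (G * P')` with `G = P ^ p` (coefficients in `ι K`), which determines the coefficients
of `P` recursively from the constant one; the constant coefficient is a root of `X ^ p - ι c`.

Mathlib + Prelude `coeffMap` only.  Namespace `Fermat.Agent.S29.H102`.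
-/



set_option autoImplicit false

noncomputable section

namespace Fermat.Agent.S29.H102

open ModularCurve PowerSeries

variable {K L : Type*} [Field K] [Field L]

/-- An element of `L` which is a root of `X ^ p - ι c` lies in the image of the algebraically
closed field `K`. -/
theorem RootDesc_const [IsAlgClosed K] (ι : K →+* L) {p : ℕ} (hp : p ≠ 0) {a : L} {c : K}
    (h : a ^ p = ι c) : a ∈ ι.fieldRange := by
  classical
  let _ : Algebra K L := ι.toAlgebra
  have halg : IsAlgebraic K a := by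
    refine ⟨Polynomial.X ^ p - Polynomial.C c, ?_, ?_⟩
    · exact Polynomial.X_pow_sub_C_ne_zero (Nat.pos_of_ne_zero hp) c
    · simp only [map_sub, map_pow, Polynomial.aeval_X, Polynomial.aeval_C]
      rw [h]
      exact sub_self _
  have hint : IsIntegral K a := halg.isIntegral
  have hq : (minpoly K a).leadingCoeff = 1 := minpoly.monic hint
  have hdeg : (minpoly K a).degree = 1 :=
    IsAlgClosed.degree_eq_one_of_irreducible K (minpoly.irreducible hint)
  have h0 : Polynomial.aeval a (minpoly K a) = 0 := minpoly.aeval K a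
  rw [Polynomial.eq_X_add_C_of_degree_eq_one hdeg, hq, Polynomial.C_1, one_mul,
    Polynomial.aeval_add, Polynomial.aeval_X, Polynomial.aeval_C,
    add_eq_zero_iff_eq_neg] at h0
  rw [RingHom.mem_fieldRange]
  refine ⟨-(minpoly K a).coeff 0, ?_⟩
  have h1 : ι (-(minpoly K a).coeff 0) = -(algebraMap K L) ((minpoly K a).coeff 0) :=
    map_neg ι _
  rw [h1]
  exact h0.symm

/-- The differential equation satisfied by a `p`-th root. -/
theorem RootDesc_ode (P : PowerSeries L) (p : ℕ) (hp : p ≠ 0) :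
    (d⁄dX L) (P ^ p) * P = (p : PowerSeries L) * (P ^ p * (d⁄dX L) P) := by
  rw [Derivation.leibniz_pow, nsmul_eq_mul, smul_eq_mul]
  have h1 : P ^ p = P ^ (p - 1) * P := by
    rw [← pow_succ, Nat.sub_add_cancel (Nat.one_le_iff_ne_zero.mpr hp)]
  rw [h1]
  ring

/-- Power series version of root descent. -/
theorem RootDesc_powerSeries [IsAlgClosed K] [CharZero L] (ι : K →+* L) {p : ℕ} (hp : p ≠ 0)
    (P : PowerSeries L) (Q : PowerSeries K) (hP0 : constantCoeff P ≠ 0)
    (h : P ^ p = Q.map ι) : ∀ k, coeff k P ∈ ι.fieldRange := by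
  classical
  have hG : ∀ i, coeff i (P ^ p) ∈ ι.fieldRange := by
    intro i
    rw [h, coeff_map]
    exact RingHom.mem_fieldRange.mpr ⟨_, rfl⟩
  have hG0 : coeff 0 (P ^ p) ≠ 0 := by
    rw [coeff_zero_eq_constantCoeff, map_pow]
    exact pow_ne_zero p hP0
  have hnat : ∀ n : ℕ, (n : L) ∈ ι.fieldRange := fun n => natCast_mem _ n
  intro k
  induction k using Nat.strong_induction_on with
  | _ k ih =>
    rcases Nat.eq_zero_or_pos k with rfl | hk
    · have h0 : (coeff 0 P) ^ p = ι (coeff 0 Q) := by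
        have := congrArg (coeff 0) h
        rw [coeff_map] at this
        rw [← this, coeff_zero_eq_constantCoeff, map_pow]
      exact RootDesc_const ι hp h0
    · obtain ⟨m, rfl⟩ : ∃ m, k = m + 1 := ⟨k - 1, (Nat.sub_add_cancel hk).symm⟩
      have hode := congrArg (coeff m) (RootDesc_ode P p hp)
      have hcast : (p : PowerSeries L) = C (p : L) := by simp
      rw [hcast, coeff_C_mul] at hode
      have hmem : ((0, m) : ℕ × ℕ) ∈ Finset.HasAntidiagonal.antidiagonal m := by
        simp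
      set A := ∑ x ∈ Finset.HasAntidiagonal.antidiagonal m,
        coeff (x.1 + 1) (P ^ p) * ((x.1 : L) + 1) * coeff x.2 P with hA
      set B := ∑ x ∈ (Finset.HasAntidiagonal.antidiagonal m).erase (0, m),
          coeff x.1 (P ^ p) * (coeff (x.2 + 1) P * ((x.2 : L) + 1)) with hB
      have hLHS : coeff m ((d⁄dX L) (P ^ p) * P) = A := by
        rw [coeff_mul]
        simp only [coeff_derivative, hA]
      have hRHS : coeff m (P ^ p * (d⁄dX L) P)
          = coeff 0 (P ^ p) * (coeff (m + 1) P * ((m : L) + 1)) + B := by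
        rw [coeff_mul, ← Finset.add_sum_erase _ _ hmem]
        simp only [coeff_derivative, hB]
      rw [hLHS, hRHS] at hode
      -- left side is in the subfield
      have hL : A ∈ ι.fieldRange := by
        refine Subfield.sum_mem _ fun x hx => ?_
        have h2 := Finset.HasAntidiagonal.mem_antidiagonal.mp hx
        have hx2 : x.2 < m + 1 := by omega
        exact mul_mem (mul_mem (hG _) (add_mem (hnat _) (one_mem _))) (ih _ hx2)
      -- the remaining sum on the right is in the subfield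
      have hR : B ∈ ι.fieldRange := by
        refine Subfield.sum_mem _ fun x hx => ?_
        have hx' := Finset.mem_erase.mp hx
        have h2 := Finset.HasAntidiagonal.mem_antidiagonal.mp hx'.2
        have hx1 : x.1 ≠ 0 := by
          intro h0
          apply hx'.1
          ext
          · exact h0
          · simp only
            omega
        have hx2 : x.2 + 1 < m + 1 := by omega
        exact mul_mem (hG _) (mul_mem (ih _ hx2) (add_mem (hnat _) (one_mem _)))
      -- solve for the coefficient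
      have hp0 : (p : L) ≠ 0 := Nat.cast_ne_zero.mpr hp
      have hm0 : ((m : L) + 1) ≠ 0 := by
        have : ((m + 1 : ℕ) : L) ≠ 0 := Nat.cast_ne_zero.mpr (Nat.succ_ne_zero m)
        simpa using this
      have hsolve : coeff (m + 1) P
          = (A - (p : L) * B) / ((p : L) * coeff 0 (P ^ p) * ((m : L) + 1)) := by
        rw [eq_div_iff (mul_ne_zero (mul_ne_zero hp0 hG0) hm0), hode]
        ring
      rw [hsolve]
      exact div_mem (sub_mem hL (mul_mem (hnat p) hR))
        (mul_mem (mul_mem (hnat p) (hG 0)) (add_mem (hnat m) (one_mem _)))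

/-- A Laurent series all of whose coefficients lie in the image of `ι` is a base change. -/
theorem RootDesc_exists_of_coeff_mem (ι : K →+* L) (s : LaurentSeries L)
    (h : ∀ n, s.coeff n ∈ ι.fieldRange) : ∃ v : LaurentSeries K, coeffMap ι v = s := by
  classical
  have hinv : Function.invFun ι 0 = 0 := by
    have := Function.leftInverse_invFun ι.injective (0 : K)
    rwa [map_zero] at this
  refine ⟨s.map (⟨Function.invFun ι, hinv⟩ : ZeroHom L K), ?_⟩
  ext n
  obtain ⟨c, hc⟩ := RingHom.mem_fieldRange.mp (h n)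
  simp only [coeffMap_coeff, HahnSeries.map_coeff, ZeroHom.coe_mk]
  rw [← hc, Function.leftInverse_invFun ι.injective c]

/-- **Root descent.**  A `p`-th root in `L((q))` of a Laurent series with coefficients in the
algebraically closed field `K` has coefficients in `K`. -/
theorem RootDesc_laurent [IsAlgClosed K] [CharZero L] (ι : K →+* L) {p : ℕ} (hp : p ≠ 0)
    (s : LaurentSeries L) (w : LaurentSeries K) (h : s ^ p = coeffMap ι w) :
    ∃ v : LaurentSeries K, coeffMap ι v = s := by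
  classical
  apply RootDesc_exists_of_coeff_mem
  by_cases hs : s = 0
  · intro n
    rw [hs]
    exact zero_mem _
  set n₀ := s.order with hn₀
  set P := s.powerSeriesPart with hP
  -- the shifted series
  set w' : LaurentSeries K := HahnSeries.single (-((p : ℤ) * n₀)) (1 : K) * w with hw'
  set Q : PowerSeries K := PowerSeries.mk fun k => w'.coeff k with hQ
  have hPs : HahnSeries.ofPowerSeries ℤ L P = HahnSeries.single (-n₀) (1 : L) * s :=
    LaurentSeries.ofPowerSeries_powerSeriesPart s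
  have hpow : HahnSeries.ofPowerSeries ℤ L (P ^ p) = coeffMap ι w' := by
    rw [map_pow, hPs, mul_pow, h, hw', map_mul, coeffMap_single, HahnSeries.single_pow,
      one_pow, ι.map_one]
    congr 2
    simp
  have hPQ : P ^ p = Q.map ι := by
    ext k
    rw [coeff_map, hQ, coeff_mk, ← HahnSeries.ofPowerSeries_apply_coeff (Γ := ℤ), hpow,
      coeffMap_coeff]
  have hP0 : constantCoeff P ≠ 0 := by
    rw [← coeff_zero_eq_constantCoeff_apply, hP, LaurentSeries.powerSeriesPart_coeff]
    simpa using HahnSeries.coeff_order_eq_zero.not.mpr hs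
  have hcoeff := RootDesc_powerSeries ι hp P Q hP0 hPQ
  intro n
  by_cases hn : n < n₀
  · rw [HahnSeries.coeff_eq_zero_of_lt_order hn]
    exact zero_mem _
  · obtain ⟨k, hk⟩ : ∃ k : ℕ, n = n₀ + k := by
      refine ⟨(n - n₀).toNat, ?_⟩
      have : 0 ≤ n - n₀ := by omega
      rw [Int.toNat_of_nonneg this]
      ring
    rw [hk, ← LaurentSeries.powerSeriesPart_coeff]
    exact hcoeff k

end Fermat.Agent.S29.H102

end
end
-- ===== PACK-END S29/H102/RootDesc.lean

-- ===== PACK-BEGIN S29/H942/MeroRootLocal.lean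
section






/-!
# Roots of analytic functions: a continuous `p`-th root of a non-vanishing analytic function is
analytic
-/

set_option autoImplicit false

noncomputable section

open Filter Topology Set Complex

namespace Fermat.Agent.S29.H942

/-- `1` is an isolated `p`-th root of unity. -/
lemma eventually_pow_eq_one_imp {p : ℕ} (hp : p ≠ 0) :
    ∀ᶠ t : ℂ in 𝓝 1, t ^ p = 1 → t = 1 := by
  have hfin : ({t : ℂ | t ^ p = 1} \ {1}).Finite := by
    refine Set.Finite.subset (Polynomial.nthRootsFinset p (1 : ℂ)).finite_toSet ?_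
    intro t ht
    simp only [Finset.mem_coe]
    exact (Polynomial.mem_nthRootsFinset (Nat.pos_of_ne_zero hp) _).2 ht.1
  have hopen : IsOpen (({t : ℂ | t ^ p = 1} \ {1})ᶜ) := hfin.isClosed.isOpen_compl
  have hmem : (1 : ℂ) ∈ ({t : ℂ | t ^ p = 1} \ {1})ᶜ := by simp
  filter_upwards [hopen.mem_nhds hmem] with t ht h1
  by_contra hne
  exact ht ⟨h1, hne⟩

/-- A function which is continuous at `z₀` and whose `p`-th power is analytic and non-zero at `z₀`
is analytic at `z₀`. -/
theorem analyticAt_of_continuousAt_of_pow {r g : ℂ → ℂ} {z₀ : ℂ} {p : ℕ} (hp : p ≠ 0)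
    (hr : ContinuousAt r z₀) (hg : AnalyticAt ℂ g z₀) (hpow : ∀ᶠ z in 𝓝 z₀, r z ^ p = g z)
    (hne : g z₀ ≠ 0) : AnalyticAt ℂ r z₀ := by
  have hpz : r z₀ ^ p = g z₀ := hpow.self_of_nhds
  have hc : r z₀ ≠ 0 := by
    intro h
    rw [h, zero_pow hp] at hpz
    exact hne hpz.symm
  have hpC : (p : ℂ) ≠ 0 := by exact_mod_cast hp
  -- the analytic candidate
  set s : ℂ → ℂ := fun z => r z₀ * exp (log (g z / g z₀) / p) with hs
  have hq : AnalyticAt ℂ (fun z => g z / g z₀) z₀ := hg.div analyticAt_const hne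
  have hq1 : (fun z => g z / g z₀) z₀ ∈ slitPlane := by
    simp only [div_self hne]
    exact one_mem_slitPlane
  have hlog : AnalyticAt ℂ (fun z => log (g z / g z₀)) z₀ := hq.clog hq1
  have hsA : AnalyticAt ℂ s z₀ :=
    analyticAt_const.mul ((hlog.div analyticAt_const hpC).cexp)
  have hs0 : s z₀ = r z₀ := by
    simp [hs, div_self hne]
  have hgne : ∀ᶠ z in 𝓝 z₀, g z ≠ 0 := hg.continuousAt.eventually_ne hne
  have hspow : ∀ᶠ z in 𝓝 z₀, s z ^ p = g z := by
    filter_upwards [hgne] with z hz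
    have h1 : g z / g z₀ ≠ 0 := div_ne_zero hz hne
    simp only [hs, mul_pow]
    rw [← exp_nat_mul, mul_div_cancel₀ _ hpC, exp_log h1, hpz]
    field_simp
  have hsne : ∀ᶠ z in 𝓝 z₀, s z ≠ 0 := hsA.continuousAt.eventually_ne (by rw [hs0]; exact hc)
  -- the quotient is continuous with value `1` at `z₀`, and a root of unity
  have hquot : ContinuousAt (fun z => r z / s z) z₀ :=
    hr.div hsA.continuousAt (by rw [hs0]; exact hc)
  have hquot1 : (fun z => r z / s z) z₀ = 1 := by
    simp only [hs0, div_self hc]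
  have hev : ∀ᶠ z in 𝓝 z₀, (r z / s z) ^ p = 1 → r z / s z = 1 := by
    have h1 : Tendsto (fun z => r z / s z) (𝓝 z₀) (𝓝 1) := by
      have := hquot.tendsto
      have h2 : r z₀ / s z₀ = 1 := hquot1
      rwa [h2] at this
    exact h1.eventually (eventually_pow_eq_one_imp hp)
  have heq : r =ᶠ[𝓝 z₀] s := by
    filter_upwards [hev, hpow, hspow, hsne] with z h1 h2 h3 h4
    have : (r z / s z) ^ p = 1 := by
      rw [div_pow, h2, h3, div_self]
      rw [← h3]
      exact pow_ne_zero p h4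
    have h5 := h1 this
    rwa [div_eq_one_iff_eq h4] at h5
  exact hsA.congr heq.symm

/-- A continuous `p`-th root of a non-vanishing analytic function on an open set is analytic. -/
theorem analyticOnNhd_of_continuousOn_of_pow {r g : ℂ → ℂ} {U : Set ℂ} (hU : IsOpen U) {p : ℕ}
    (hp : p ≠ 0) (hr : ContinuousOn r U) (hg : AnalyticOnNhd ℂ g U)
    (hpow : ∀ z ∈ U, r z ^ p = g z) (hne : ∀ z ∈ U, g z ≠ 0) : AnalyticOnNhd ℂ r U := by
  intro z hz
  refine analyticAt_of_continuousAt_of_pow hp (hr.continuousAt (hU.mem_nhds hz)) (hg z hz) ?_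
    (hne z hz)
  filter_upwards [hU.mem_nhds hz] with w hw using hpow w hw

/-- Existence of analytic `p`-th roots of non-vanishing analytic functions on simply connected
open sets. -/
theorem exists_analyticOnNhd_pow_eq {g : ℂ → ℂ} {U : Set ℂ} (hUc : IsSimplyConnected U)
    (hU : IsOpen U) {p : ℕ} (hp : p ≠ 0) (hg : AnalyticOnNhd ℂ g U) (hne : ∀ z ∈ U, g z ≠ 0) :
    ∃ r : ℂ → ℂ, AnalyticOnNhd ℂ r U ∧ ∀ z, r z ^ p = g z := by
  have h0 : (0 : ℂ) ∉ g '' U := by
    rintro ⟨z, hz, h⟩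
    exact hne z hz h
  obtain ⟨r, hrc, hr⟩ := exists_continuousOn_pow_eq hUc hU hg.continuousOn h0 hp
  exact ⟨r, analyticOnNhd_of_continuousOn_of_pow hU hp hrc hg (fun z _ => hr z) hne, hr⟩

/-- Open convex nonempty sets are simply connected. -/
lemma isSimplyConnected_of_convex {U : Set ℂ} (hU : Convex ℝ U) (hne : U.Nonempty) :
    IsSimplyConnected U := by
  have := hU.contractibleSpace hne
  show SimplyConnectedSpace U
  infer_instance

end Fermat.Agent.S29.H942

end
end
-- ===== PACK-END S29/H942/MeroRootLocal.lean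

-- ===== PACK-BEGIN S28/H807/Section.lean
section
/-
S28 / helper807 — formal `p`-sections of Laurent series and the section matrix.

For `f ∈ R((T))` and `p ≥ 1`, the *section matrix* `secMat p f ∈ Mat_p(R((q)))` is the matrix of
multiplication by `f` on `R((T))`, seen as a free module over `R((T^p)) = V_p(R((q)))` with
basis `1, T, …, T^{p-1}`.  Main result (`secMat_charpoly_eval`): the characteristic polynomial
of `secMat p f`, with coefficients pushed along `V_p = qExpand p`, kills `f`.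
-/




set_option autoImplicit false

noncomputable section

open ModularCurve HahnSeries Polynomial Matrix

namespace Fermat.Agent.S28.H807

variable {R : Type*} [CommRing R]

/-- The `r`-th `p`-section `∑ₘ f_{pm+r} qᵐ` of a Laurent series `f`. -/
def secL (p : ℕ) [NeZero p] (r : ℤ) (f : LaurentSeries R) : LaurentSeries R :=
  HahnSeries.ofSuppBddBelow (fun m : ℤ => f.coeff ((p : ℤ) * m + r))
    (HahnSeries.forallLTEqZero_supp_BddBelow _ ((f.order - r) / (p : ℤ)) (by
      intro m hm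
      apply HahnSeries.coeff_eq_zero_of_lt_order
      have hp : (0 : ℤ) < (p : ℤ) := by exact_mod_cast Nat.pos_of_ne_zero (NeZero.ne p)
      have h1 : m + 1 ≤ (f.order - r) / (p : ℤ) := hm
      have h2 : (m + 1) * (p : ℤ) ≤ f.order - r := (Int.le_ediv_iff_mul_le hp).mp h1
      nlinarith))

@[simp]
theorem secL_coeff (p : ℕ) [NeZero p] (r : ℤ) (f : LaurentSeries R) (m : ℤ) :
    (secL p r f).coeff m = f.coeff ((p : ℤ) * m + r) := by
  simp [secL]

theorem secL_coeffMap {S : Type*} [CommRing S] (φ : R →+* S) (p : ℕ) [NeZero p] (r : ℤ)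
    (f : LaurentSeries R) : secL p r (coeffMap φ f) = coeffMap φ (secL p r f) := by
  ext m
  simp

/-- The section matrix of `f`: entry `(i', i)` is the `(i' - i)`-th section. -/
def secMat (p : ℕ) [NeZero p] (f : LaurentSeries R) :
    Matrix (Fin p) (Fin p) (LaurentSeries R) :=
  fun i' i => secL p ((i' : ℤ) - (i : ℤ)) f

theorem secMat_apply (p : ℕ) [NeZero p] (f : LaurentSeries R) (i' i : Fin p) :
    secMat p f i' i = secL p ((i' : ℤ) - (i : ℤ)) f := rfl

theorem secMat_coeffMap {S : Type*} [CommRing S] (φ : R →+* S) (p : ℕ) [NeZero p]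
    (f : LaurentSeries R) :
    secMat p (coeffMap φ f) = (secMat p f).map (coeffMap φ) := by
  ext i' i : 2
  simp [secMat_apply, Matrix.map_apply, secL_coeffMap]

/-- Key identity: `f · Tⁱ = ∑_{i'} V_p(M_{i',i}) · T^{i'}`. -/
theorem mul_single_eq_sum_secMat (p : ℕ) [NeZero p] (f : LaurentSeries R) (i : Fin p) :
    f * HahnSeries.single ((i : ℕ) : ℤ) (1 : R) =
      ∑ i' : Fin p, qExpand R p (secMat p f i' i) * HahnSeries.single ((i' : ℕ) : ℤ) (1 : R) := by
  have hp : (0 : ℤ) < (p : ℤ) := by exact_mod_cast Nat.pos_of_ne_zero (NeZero.ne p)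
  ext n
  rw [HahnSeries.coeff_mul_single, mul_one, HahnSeries.coeff_sum]
  -- the unique index i' with p ∣ n - i'
  have hlt : (n % (p : ℤ)).toNat < p := by
    have h1 : n % (p : ℤ) < p := Int.emod_lt_of_pos n hp
    have h0 : 0 ≤ n % (p : ℤ) := Int.emod_nonneg n hp.ne'
    omega
  set i0 : Fin p := ⟨(n % (p : ℤ)).toNat, hlt⟩ with hi0
  have hi0v : ((i0 : ℕ) : ℤ) = n % (p : ℤ) := by
    simp only [hi0]
    exact Int.toNat_of_nonneg (Int.emod_nonneg n hp.ne')
  rw [Finset.sum_eq_single i0]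
  · rw [HahnSeries.coeff_mul_single, mul_one]
    have hdvd : n - ((i0 : ℕ) : ℤ) = (p : ℤ) * (n / (p : ℤ)) := by
      rw [hi0v]; have := Int.emod_add_mul_ediv n (p : ℤ); linarith
    rw [hdvd, qExpand_coeff_mul, secMat_apply, secL_coeff]
    congr 1
    rw [← hdvd]; ring
  · intro i' _ hne
    rw [HahnSeries.coeff_mul_single, mul_one]
    apply qExpand_coeff_of_not_dvd
    intro hdvd
    apply hne
    apply Fin.ext
    have h1 : n % (p : ℤ) = ((i' : ℕ) : ℤ) % (p : ℤ) := by
      have := (Int.emod_emod_of_dvd n (dvd_refl (p : ℤ)))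
      exact (Int.emod_eq_emod_iff_emod_sub_eq_zero).mpr (Int.emod_eq_zero_of_dvd hdvd)
    have h2 : ((i' : ℕ) : ℤ) % (p : ℤ) = ((i' : ℕ) : ℤ) :=
      Int.emod_eq_of_lt (by positivity) (by exact_mod_cast i'.2)
    have h3 : ((i0 : ℕ) : ℤ) = ((i' : ℕ) : ℤ) := by rw [hi0v, h1, h2]
    exact_mod_cast h3.symm
  · intro h; exact absurd (Finset.mem_univ _) h

/-- **Lemma F1** (Cayley–Hamilton for the section matrix): the characteristic polynomial of
`secMat p f`, with coefficients pushed along `V_p`, kills `f`. -/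
theorem secMat_charpoly_eval (p : ℕ) [NeZero p] (f : LaurentSeries R) :
    (((secMat p f).charpoly).map (qExpand R p)).eval f = 0 := by
  set A : Matrix (Fin p) (Fin p) (LaurentSeries R) := (secMat p f).map (qExpand R p) with hA
  set v : Fin p → LaurentSeries R := fun i => HahnSeries.single ((i : ℕ) : ℤ) (1 : R) with hv
  set B : Matrix (Fin p) (Fin p) (LaurentSeries R) := Matrix.scalar (Fin p) f - Aᵀ with hB
  have hBv : B *ᵥ v = 0 := by
    funext i
    simp only [hB, Matrix.sub_mulVec, Pi.sub_apply, Pi.zero_apply]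
    rw [sub_eq_zero]
    have h1 : (Matrix.scalar (Fin p) f *ᵥ v) i = f * v i := by
      simp [Matrix.scalar_apply, Matrix.mulVec, dotProduct, Matrix.diagonal_apply]
    rw [h1]
    simp only [Matrix.mulVec, dotProduct, Matrix.transpose_apply, hA, Matrix.map_apply, hv]
    exact mul_single_eq_sum_secMat p f i
  have hdet : B.det • v = 0 := by
    have h : (Matrix.adjugate B * B) *ᵥ v = (B.det • (1 : Matrix (Fin p) (Fin p) _)) *ᵥ v := by
      rw [Matrix.adjugate_mul]
    rw [← Matrix.mulVec_mulVec, hBv, Matrix.mulVec_zero] at h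
    rw [Matrix.smul_mulVec, Matrix.one_mulVec] at h
    exact h.symm
  have h0 : B.det * v ⟨0, Nat.pos_of_ne_zero (NeZero.ne p)⟩ = 0 := by
    have := congrFun hdet ⟨0, Nat.pos_of_ne_zero (NeZero.ne p)⟩
    simpa using this
  have hv0 : v ⟨0, Nat.pos_of_ne_zero (NeZero.ne p)⟩ = 1 := by
    simp only [hv]
    rfl
  rw [hv0, mul_one] at h0
  rw [← Matrix.charpoly_map, ← hA, ← Matrix.charpoly_transpose, Matrix.eval_charpoly]
  exact h0

end Fermat.Agent.S28.H807

end

end
-- ===== PACK-END S28/H807/Section.lean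

-- ===== PACK-BEGIN S28/H25/DerivQExp.lean
section


/-!
# `q`-expansion of the normalised derivative `D = (2πi)⁻¹ d/dτ`

(helper25, S28 piece [A-θ], route independent.)
If `F : ℍ → ℂ` is holomorphic, `h`-periodic and bounded at `i∞` with `q`-expansion `∑ aₙ qₕⁿ`,
then `D F` is given by the convergent series `h⁻¹ ∑ n aₙ qₕⁿ`; in particular (for `h = 1`)
`qExpansion 1 (D F) = θ (qExpansion 1 F)` with `θ = q d/dq`.
-/

set_option autoImplicit false

open UpperHalfPlane hiding I
open Function Derivative Complex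
open scoped Manifold

noncomputable section

namespace Fermat.Agent.S28.H25

local notation "𝕢" => Function.Periodic.qParam

theorem hasDerivAt_qParam (h : ℝ) (z : ℂ) :
    HasDerivAt (𝕢 h) (𝕢 h z * (2 * Real.pi * I / h)) z := by
  unfold Function.Periodic.qParam
  have h1 : HasDerivAt (fun z : ℂ => 2 * Real.pi * I * z / h) (2 * Real.pi * I / h) z := by
    have := ((hasDerivAt_id z).const_mul (2 * Real.pi * I)).div_const (h : ℂ)
    simpa using this
  exact h1.cexp

/-- `D F = h⁻¹ · q · g'(q)` with `g` the cusp function of `F`. -/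
theorem D_eq_qParam_mul_deriv_cuspFunction {F : ℍ → ℂ} {h : ℝ} (hh : 0 < h)
    (hper : Periodic (F ∘ ofComplex) h) (hhol : MDiff F) (hbdd : IsBoundedAtImInfty F) (τ : ℍ) :
    D F τ = (h : ℂ)⁻¹ * (𝕢 h τ * deriv (cuspFunction h F) (𝕢 h τ)) := by
  have hq : ‖𝕢 h τ‖ < 1 := Periodic.norm_qParam_lt_one hh τ.im_pos
  have hg : DifferentiableAt ℂ (cuspFunction h F) (𝕢 h τ) :=
    differentiableAt_cuspFunction hh hper hhol hbdd hq
  have heq : (F ∘ ofComplex) =ᶠ[nhds (τ : ℂ)] (cuspFunction h F) ∘ (𝕢 h) := by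
    filter_upwards [isOpen_upperHalfPlaneSet.mem_nhds τ.im_pos] with z hz
    have := eq_cuspFunction (f := F) ⟨z, hz⟩ hh.ne' hper
    simp only [comp_apply, ofComplex_apply_of_im_pos hz]
    exact this.symm
  have hcomp := (hg.hasDerivAt.comp (τ : ℂ) (hasDerivAt_qParam h τ)).deriv
  rw [normalizedDerivOfComplex, heq.deriv_eq, hcomp]
  have hpi : (2 * (Real.pi : ℂ) * I) ≠ 0 := by
    simp [Real.pi_ne_zero]
  have hh' : (h : ℂ) ≠ 0 := by exact_mod_cast hh.ne'
  field_simp

/-- Termwise differentiation of the `q`-expansion. -/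
theorem hasSum_D_of_bounded {F : ℍ → ℂ} {h : ℝ} (hh : 0 < h)
    (hper : Periodic (F ∘ ofComplex) h) (hhol : MDiff F) (hbdd : IsBoundedAtImInfty F) (τ : ℍ) :
    HasSum (fun n : ℕ => ((h : ℂ)⁻¹ * ((n : ℂ) * (qExpansion h F).coeff n)) • 𝕢 h τ ^ n)
      (D F τ) := by
  set g := cuspFunction h F with hgdef
  have hgdiff : DifferentiableOn ℂ g (Metric.ball 0 1) :=
    differentiableOn_cuspFunction_ball hh hper hhol hbdd
  have hg'diff : DifferentiableOn ℂ (deriv g) (Metric.ball 0 1) :=
    hgdiff.deriv Metric.isOpen_ball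
  have hq : 𝕢 h τ ∈ Metric.ball (0 : ℂ) 1 := by
    simpa using Periodic.norm_qParam_lt_one hh τ.im_pos
  have hT := hasSum_taylorSeries_on_ball hg'diff hq
  rw [D_eq_qParam_mul_deriv_cuspFunction hh hper hhol hbdd τ]
  have hT2 := (hT.mul_left (𝕢 h τ)).mul_left ((h : ℂ)⁻¹)
  have hfun : (fun n : ℕ => ((h : ℂ)⁻¹ * (((n + 1 : ℕ) : ℂ) *
      (qExpansion h F).coeff (n + 1))) • 𝕢 h τ ^ (n + 1)) =
      (fun i : ℕ => (h : ℂ)⁻¹ * (𝕢 h τ * (((i.factorial : ℕ) : ℂ))⁻¹ • (𝕢 h τ - 0) ^ i •
        iteratedDeriv i (deriv g) 0)) := by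
    funext n
    rw [qExpansion_coeff, ← iteratedDeriv_succ', sub_zero]
    have hn : ((n.factorial : ℕ) : ℂ) ≠ 0 := by exact_mod_cast n.factorial_ne_zero
    have hn1 : ((n : ℂ) + 1) ≠ 0 := by exact_mod_cast n.succ_ne_zero
    simp only [smul_eq_mul]
    rw [Nat.factorial_succ]
    push_cast
    field_simp
    rw [hgdef]
    ring
  have hshift : HasSum (fun n : ℕ => ((h : ℂ)⁻¹ * (((n + 1 : ℕ) : ℂ) *
      (qExpansion h F).coeff (n + 1))) • 𝕢 h τ ^ (n + 1))
      ((h : ℂ)⁻¹ * (𝕢 h τ * deriv g (𝕢 h τ))) := by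
    rw [hfun]
    exact hT2
  have := (hasSum_nat_add_iff' (f := fun n : ℕ => ((h : ℂ)⁻¹ * ((n : ℂ) *
      (qExpansion h F).coeff n)) • 𝕢 h τ ^ n) 1).mp (by simpa using hshift)
  simpa using this

/-- `D F` is periodic if `F` is. -/
theorem periodic_D {F : ℍ → ℂ} {h : ℝ} (hh : 0 < h)
    (hper : Periodic (F ∘ ofComplex) h) (hhol : MDiff F) (hbdd : IsBoundedAtImInfty F) :
    Periodic (D F ∘ ofComplex) h := by
  intro w
  by_cases! hw : 0 < Complex.im w
  · have hw' : 0 < Complex.im (w + h) := by simp [hw]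
    simp only [comp_apply, ofComplex_apply_of_im_pos hw', ofComplex_apply_of_im_pos hw]
    rw [D_eq_qParam_mul_deriv_cuspFunction hh hper hhol hbdd,
      D_eq_qParam_mul_deriv_cuspFunction hh hper hhol hbdd]
    have hq : 𝕢 h ((⟨w + h, hw'⟩ : ℍ) : ℂ) = 𝕢 h ((⟨w, hw⟩ : ℍ) : ℂ) := by
      show 𝕢 h (w + h) = 𝕢 h w
      have hh' : (h : ℂ) ≠ 0 := by exact_mod_cast hh.ne'
      simp only [Function.Periodic.qParam]
      rw [show 2 * (Real.pi : ℂ) * Complex.I * (w + h) / h
          = 2 * Real.pi * Complex.I * w / h + 2 * Real.pi * Complex.I by field_simp]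
      rw [Complex.exp_add, Complex.exp_two_pi_mul_I, mul_one]
    rw [hq]
  · have : Complex.im (w + h) ≤ 0 := by simpa using hw
    simp [ofComplex_apply_of_im_nonpos this, ofComplex_apply_of_im_nonpos hw]

theorem isBoundedAtImInfty_D {F : ℍ → ℂ} {h : ℝ} (hh : 0 < h)
    (hper : Periodic (F ∘ ofComplex) h) (hhol : MDiff F) (hbdd : IsBoundedAtImInfty F) :
    IsBoundedAtImInfty (D F) :=
  isBoundedAtImInfty_of_hasSum_qExpansion hh (hasSum_D_of_bounded hh hper hhol hbdd)

theorem analyticAt_cuspFunction_D {F : ℍ → ℂ} {h : ℝ} (hh : 0 < h)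
    (hper : Periodic (F ∘ ofComplex) h) (hhol : MDiff F) (hbdd : IsBoundedAtImInfty F) :
    AnalyticAt ℂ (cuspFunction h (D F)) 0 :=
  analyticAt_cuspFunction_zero hh (periodic_D hh hper hhol hbdd)
    (normalizedDerivOfComplex_mdifferentiable hhol) (isBoundedAtImInfty_D hh hper hhol hbdd)

/-- The `q`-expansion of `D F` is `h⁻¹ θ` of the `q`-expansion of `F`. -/
theorem qExpansion_D_coeff {F : ℍ → ℂ} {h : ℝ} (hh : 0 < h)
    (hper : Periodic (F ∘ ofComplex) h) (hhol : MDiff F) (hbdd : IsBoundedAtImInfty F) (n : ℕ) :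
    (qExpansion h (D F)).coeff n = (h : ℂ)⁻¹ * ((n : ℂ) * (qExpansion h F).coeff n) := by
  have hfanalytic := analyticAt_cuspFunction_D hh hper hhol hbdd
  have h1 := (hasFPowerSeriesOnBall_cuspFunction hh hfanalytic
    (hasSum_D_of_bounded hh hper hhol hbdd)).hasFPowerSeriesAt
  have h2 : HasFPowerSeriesAt (cuspFunction h (D F))
      (FormalMultilinearSeries.ofScalars ℂ fun m ↦ (qExpansion h (D F)).coeff m) 0 := by
    simpa [qExpansion_coeff, div_eq_mul_inv, mul_comm]
      using hfanalytic.hasFPowerSeriesAt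
  have := congr_arg (FormalMultilinearSeries.coeff · n) (h1.eq_formalMultilinearSeries h2)
  simpa [FormalMultilinearSeries.coeff_ofScalars] using this.symm

/-- `θ = X d/dX` on power series. -/
def thetaP {R : Type*} [CommRing R] (f : PowerSeries R) : PowerSeries R :=
  PowerSeries.X * PowerSeries.derivative R f

theorem coeff_thetaP {R : Type*} [CommRing R] (f : PowerSeries R) (n : ℕ) :
    (thetaP f).coeff n = (n : R) * f.coeff n := by
  rcases n with _ | n
  · simp [thetaP]
  · rw [thetaP, PowerSeries.coeff_succ_X_mul, PowerSeries.coeff_derivative]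
    push_cast
    ring

theorem qExpansion_D {F : ℍ → ℂ}
    (hper : Periodic (F ∘ ofComplex) 1) (hhol : MDiff F) (hbdd : IsBoundedAtImInfty F) :
    qExpansion 1 (D F) = thetaP (qExpansion 1 F) := by
  ext n
  rw [qExpansion_D_coeff one_pos hper hhol hbdd, coeff_thetaP]
  simp

end Fermat.Agent.S28.H25

end
end
-- ===== PACK-END S28/H25/DerivQExp.lean

-- ===== PACK-BEGIN S28/H806/Transcend.lean
section



set_option autoImplicit false
set_option linter.unusedSectionVars false
set_option linter.style.haveILetI false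

noncomputable section

namespace Fermat.Agent.S28.H806

open Polynomial ModularCurve

section LemmaT

variable {D : Type*} [CommRing D] [IsDomain D]

theorem order_C_mul_pow (t : HahnSeries ℤ D) (ht : t ≠ 0) {c : D} (hc : c ≠ 0) (i : ℕ) :
    (HahnSeries.C c * t ^ i).order = (i : ℤ) * t.order := by
  have hC : (HahnSeries.C c : HahnSeries ℤ D) ≠ 0 := by
    intro h
    exact hc (HahnSeries.C_injective (by rw [h, map_zero]))
  rw [HahnSeries.order_mul hC (pow_ne_zero _ ht), HahnSeries.order_pow, HahnSeries.order_C,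
    zero_add, nsmul_eq_mul]

/-- **Lemma T.** A Laurent series of nonzero order is transcendental over the coefficients:
`∑ cᵢ tⁱ = 0` forces all `cᵢ = 0`. -/
theorem eq_zero_of_eval₂_C_eq_zero (t : HahnSeries ℤ D) (ht : t.order ≠ 0) (p : D[X])
    (hp : p.eval₂ (HahnSeries.C (Γ := ℤ) (R := D)) t = 0) : p = 0 := by
  classical
  by_contra hp0
  have ht0 : t ≠ 0 := by
    rintro rfl
    exact ht HahnSeries.order_zero
  have hne : p.support.Nonempty := by
    rw [Finset.nonempty_iff_ne_empty, Ne, Polynomial.support_eq_empty]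
    exact hp0
  obtain ⟨i0, hi0, hmin⟩ := Finset.exists_min_image p.support (fun i : ℕ => (i : ℤ) * t.order) hne
  have hci0 : p.coeff i0 ≠ 0 := Polynomial.mem_support_iff.mp hi0
  rw [Polynomial.eval₂_eq_sum, Polynomial.sum_def] at hp
  have hcoef := congrArg (fun x : HahnSeries ℤ D => x.coeff ((i0 : ℤ) * t.order)) hp
  simp only [HahnSeries.coeff_zero] at hcoef
  have hsum : (∑ i ∈ p.support, HahnSeries.C (p.coeff i) * t ^ i).coeff ((i0 : ℤ) * t.order) =
      ∑ i ∈ p.support, (HahnSeries.C (p.coeff i) * t ^ i).coeff ((i0 : ℤ) * t.order) :=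
    map_sum (HahnSeries.coeff.addMonoidHom ((i0 : ℤ) * t.order)) _ p.support
  rw [hsum, Finset.sum_eq_single i0] at hcoef
  · have h1 : (HahnSeries.C (p.coeff i0) * t ^ i0) ≠ 0 := by
      apply mul_ne_zero
      · intro h
        exact hci0 (HahnSeries.C_injective (by rw [h, map_zero]))
      · exact pow_ne_zero _ ht0
    rw [← order_C_mul_pow t ht0 hci0 i0] at hcoef
    exact h1 (HahnSeries.coeff_order_eq_zero.mp hcoef)
  · intro i hi hii0
    have hci : p.coeff i ≠ 0 := Polynomial.mem_support_iff.mp hi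
    apply HahnSeries.coeff_eq_zero_of_lt_order
    rw [order_C_mul_pow t ht0 hci i]
    have hle := hmin i hi
    rcases lt_or_eq_of_le hle with h | h
    · exact h
    · exfalso
      apply hii0
      have := mul_right_cancel₀ ht h
      exact_mod_cast this.symm
  · intro h
    exact absurd hi0 h

end LemmaT

section JOrder

variable (D : Type*) [CommRing D] [IsDomain D]

theorem jqModC_order_neg : (jqModC D).order < 0 := by
  have h1 : (jqModC D).coeff (-1) ≠ 0 := by
    rw [coeff_jqModC_neg_one]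
    exact one_ne_zero
  exact lt_of_le_of_lt (HahnSeries.order_le_of_coeff_ne_zero h1) (by norm_num)

theorem jqModC_order_ne_zero : (jqModC D).order ≠ 0 := (jqModC_order_neg D).ne

theorem jqModC_ne_zero' : jqModC D ≠ 0 := jqModC_ne_zero_of_nontrivial D

variable (k : Type*) [Field k]

theorem jqModC_inv_order_ne_zero : ((jqModC k)⁻¹).order ≠ 0 := by
  have h0 := jqModC_ne_zero' k
  have h1 : (jqModC k)⁻¹ ≠ 0 := inv_ne_zero h0
  have h2 := HahnSeries.order_mul h0 h1
  rw [mul_inv_cancel₀ h0, HahnSeries.order_one] at h2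
  have h3 := jqModC_order_neg k
  omega

end JOrder

end Fermat.Agent.S28.H806

end
end
-- ===== PACK-END S28/H806/Transcend.lean

-- ===== PACK-BEGIN S28/H326/Basic.lean
section
/-
S28 / helper326: formal conjugation operators on power series over `ℂ`
(`q ↦ ζ^b t` and `q ↦ t^(p²)`, base embedding `q ↦ t^p`) and the Hecke power-sum identity.
-/




set_option autoImplicit false
set_option linter.unusedSectionVars false

noncomputable section

namespace Fermat.Agent.S28.H326

open ModularCurve HahnSeries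

/-- `ℂ⟦X⟧ → ℂ((t))`. -/
abbrev ofPS : PowerSeries ℂ →+* LaurentSeries ℂ := HahnSeries.ofPowerSeries ℤ ℂ

theorem ofPS_coeff_nat (g : PowerSeries ℂ) (n : ℕ) : (ofPS g).coeff (n : ℤ) = g.coeff n :=
  HahnSeries.ofPowerSeries_apply_coeff g n

theorem ofPS_coeff_neg (g : PowerSeries ℂ) {n : ℤ} (hn : n < 0) : (ofPS g).coeff n = 0 :=
  ofPowerSeries_coeff_of_neg g hn

/-- The primitive `p`-th root of unity `exp(2πi/p)`. -/
def zeta (p : ℕ) : ℂ := Complex.exp (2 * Real.pi * Complex.I / p)

theorem zeta_isPrimitiveRoot (p : ℕ) [NeZero p] : IsPrimitiveRoot (zeta p) p :=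
  Complex.isPrimitiveRoot_exp p (NeZero.ne p)

theorem zeta_pow_self (p : ℕ) [NeZero p] : zeta p ^ p = 1 := (zeta_isPrimitiveRoot p).pow_eq_one

theorem zeta_ne_zero (p : ℕ) : zeta p ≠ 0 := Complex.exp_ne_zero _

/-- root-of-unity orthogonality -/
theorem sum_zeta_pow (p : ℕ) [NeZero p] (k : ℕ) :
    ∑ b ∈ Finset.range p, (zeta p ^ b) ^ k = if p ∣ k then (p : ℂ) else 0 := by
  have hz := zeta_isPrimitiveRoot p
  split_ifs with h
  · have : ∀ b ∈ Finset.range p, (zeta p ^ b) ^ k = 1 := by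
      intro b _
      rw [← pow_mul, mul_comm, pow_mul, (hz.pow_eq_one_iff_dvd k).mpr h, one_pow]
    rw [Finset.sum_congr rfl this]
    simp
  · have h1 : zeta p ^ k ≠ 1 := fun hh => h ((hz.pow_eq_one_iff_dvd k).mp hh)
    have h2 : ∑ b ∈ Finset.range p, (zeta p ^ b) ^ k = ∑ b ∈ Finset.range p, (zeta p ^ k) ^ b := by
      refine Finset.sum_congr rfl fun b _ => ?_
      rw [← pow_mul, ← pow_mul, mul_comm]
    rw [h2]
    have h3 := mul_neg_geom_sum (zeta p ^ k) p
    have h4 : (zeta p ^ k) ^ p = 1 := by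
      rw [← pow_mul, mul_comm, pow_mul, zeta_pow_self, one_pow]
    rw [h4, sub_self] at h3
    rcases mul_eq_zero.mp h3 with h5 | h5
    · exact absurd (sub_eq_zero.mp h5).symm h1
    · exact h5

variable (p : ℕ) [NeZero p]

/-- conjugate `g(q) ↦ g(ζ^b t)` -/
def cB (b : ℕ) : PowerSeries ℂ →+* LaurentSeries ℂ :=
  ofPS.comp (PowerSeries.rescale (zeta p ^ b))

/-- base embedding `g(q) ↦ g(t^p)` -/
def cBase : PowerSeries ℂ →+* LaurentSeries ℂ :=
  (qExpand ℂ p).comp ofPS

/-- conjugate `g(q) ↦ g(t^(p²))` -/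
def cInf : PowerSeries ℂ →+* LaurentSeries ℂ :=
  (qExpand ℂ p).comp (cBase p)

/-- `U_p` on power series. -/
def Up (g : PowerSeries ℂ) : PowerSeries ℂ := PowerSeries.mk fun n => g.coeff (n * p)

@[simp] theorem coeff_Up (g : PowerSeries ℂ) (n : ℕ) : (Up p g).coeff n = g.coeff (n * p) := by
  simp [Up]

theorem cB_coeff_nat (b : ℕ) (g : PowerSeries ℂ) (n : ℕ) :
    (cB p b g).coeff (n : ℤ) = (zeta p ^ b) ^ n * g.coeff n := by
  simp [cB, ofPS_coeff_nat, PowerSeries.coeff_rescale]

theorem cB_coeff_neg (b : ℕ) (g : PowerSeries ℂ) {n : ℤ} (hn : n < 0) :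
    (cB p b g).coeff n = 0 := by
  simp [cB, ofPS_coeff_neg _ hn]

theorem cB_zero (g : PowerSeries ℂ) : cB p 0 g = ofPS g := by
  simp [cB]

theorem cBase_coeff_mul (g : PowerSeries ℂ) (n : ℕ) :
    (cBase p g).coeff ((p : ℤ) * n) = g.coeff n := by
  rw [cBase, RingHom.comp_apply, qExpand_coeff_mul, ofPS_coeff_nat]

theorem cBase_coeff_of_not_dvd (g : PowerSeries ℂ) {n : ℤ} (hn : ¬ (p : ℤ) ∣ n) :
    (cBase p g).coeff n = 0 := by
  rw [cBase, RingHom.comp_apply, qExpand_coeff_of_not_dvd p _ hn]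

theorem cBase_coeff_neg (g : PowerSeries ℂ) {n : ℤ} (hn : n < 0) :
    (cBase p g).coeff n = 0 := by
  by_cases h : (p : ℤ) ∣ n
  · obtain ⟨m, rfl⟩ := h
    rw [cBase, RingHom.comp_apply, qExpand_coeff_mul]
    refine ofPS_coeff_neg _ ?_
    have hp : (0 : ℤ) < p := by exact_mod_cast Nat.pos_of_ne_zero (NeZero.ne p)
    by_contra hm
    rw [not_lt] at hm
    have := mul_nonneg hp.le hm
    omega
  · exact cBase_coeff_of_not_dvd p g h

theorem natCast_mul_coeff (c : ℕ) (x : LaurentSeries ℂ) (n : ℤ) :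
    ((c : LaurentSeries ℂ) * x).coeff n = (c : ℂ) * x.coeff n := by
  have : (c : LaurentSeries ℂ) = HahnSeries.C (c : ℂ) := by simp
  rw [this, HahnSeries.C_mul_eq_smul, HahnSeries.coeff_smul, smul_eq_mul]

/-- **Hecke power-sum identity**: `∑_b g(ζ^b t) = p · (U_p g)(t^p)`. -/
theorem sum_cB (g : PowerSeries ℂ) :
    ∑ b ∈ Finset.range p, cB p b g = (p : LaurentSeries ℂ) * cBase p (Up p g) := by
  ext n
  rw [HahnSeries.coeff_sum, natCast_mul_coeff]
  rcases lt_or_ge n 0 with hn | hn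
  · rw [cBase_coeff_neg p _ hn, mul_zero]
    exact Finset.sum_eq_zero fun b _ => cB_coeff_neg p b g hn
  · lift n to ℕ using hn
    simp only [cB_coeff_nat]
    rw [← Finset.sum_mul, sum_zeta_pow]
    split_ifs with h
    · obtain ⟨m, rfl⟩ := h
      have : ((p * m : ℕ) : ℤ) = (p : ℤ) * m := by push_cast; ring
      rw [this, cBase_coeff_mul, coeff_Up, mul_comm m p]
    · have : ¬ (p : ℤ) ∣ (n : ℤ) := by exact_mod_cast h
      rw [cBase_coeff_of_not_dvd p _ this, zero_mul, mul_zero]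

end Fermat.Agent.S28.H326

end
end
-- ===== PACK-END S28/H326/Basic.lean

-- ===== PACK-BEGIN S18/H333/Trunc.lean
section


/-!
# S18 / c3 (helper333): kernel-computable truncated power-series arithmetic over `ℤ`

`tl n f` is the list of the first `n` coefficients of `f : ℤ⟦X⟧`.  The operations
`tmul`, `tadd`, `tsub`, `tsmul`, `tpow`, `tV` on lists compute `tl n` of products, sums, … and
are evaluated by `decide +kernel`.
-/

set_option autoImplicit false

namespace Fermat.Agent.S18.H333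

open PowerSeries

/-- computable truncated multiplication of coefficient lists (mod `X^n`). -/
def tmul (n : ℕ) (a b : List ℤ) : List ℤ :=
  (List.range n).map fun k =>
    ((List.range (k + 1)).map fun i => a.getD i 0 * b.getD (k - i) 0).sum

def tadd (n : ℕ) (a b : List ℤ) : List ℤ :=
  (List.range n).map fun k => a.getD k 0 + b.getD k 0

def tsub (n : ℕ) (a b : List ℤ) : List ℤ :=
  (List.range n).map fun k => a.getD k 0 - b.getD k 0

def tsmul (n : ℕ) (c : ℤ) (a : List ℤ) : List ℤ :=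
  (List.range n).map fun k => c * a.getD k 0

def tone (n : ℕ) : List ℤ :=
  (List.range n).map fun k => if k = 0 then 1 else 0

def tzero (n : ℕ) : List ℤ :=
  (List.range n).map fun _ => 0

def tX (n : ℕ) : List ℤ :=
  (List.range n).map fun k => if k = 1 then 1 else 0

def tpow (n : ℕ) (a : List ℤ) : ℕ → List ℤ
  | 0 => tone n
  | m + 1 => tmul n (tpow n a m) a

/-- `X ↦ X^p` on truncated lists -/
def tV (n p : ℕ) (a : List ℤ) : List ℤ :=
  (List.range n).map fun k => if p ∣ k then a.getD (k / p) 0 else 0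

def oneSubXpow (n j : ℕ) : List ℤ :=
  (List.range n).map fun k => (if k = 0 then 1 else 0) - (if k = j then 1 else 0)

/-- truncation of `∏_{i<m} (1 - X^(i+1))` -/
def etaLrec (n : ℕ) : ℕ → List ℤ
  | 0 => tone n
  | m + 1 => tmul n (etaLrec n m) (oneSubXpow n (m + 1))

/-- `X ↦ X ^ p` on power series, defined coefficientwise. -/
noncomputable def Vser {R : Type*} [Semiring R] (p : ℕ) (f : PowerSeries R) : PowerSeries R :=
  PowerSeries.mk fun n => if p ∣ n then PowerSeries.coeff (n / p) f else 0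

@[simp]
theorem coeff_Vser {R : Type*} [Semiring R] (p : ℕ) (f : PowerSeries R) (n : ℕ) :
    PowerSeries.coeff n (Vser p f) = if p ∣ n then PowerSeries.coeff (n / p) f else 0 := by
  rw [Vser, PowerSeries.coeff_mk]

theorem Vser_map {R S : Type*} [Semiring R] [Semiring S] (φ : R →+* S) (p : ℕ)
    (f : PowerSeries R) : (Vser p f).map φ = Vser p (f.map φ) := by
  ext n
  simp only [PowerSeries.coeff_map, coeff_Vser]
  split_ifs <;> simp

/-- the list of the first `n` coefficients -/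
noncomputable def tl (n : ℕ) (f : PowerSeries ℤ) : List ℤ :=
  (List.range n).map fun k => coeff k f

@[simp] theorem length_tl (n : ℕ) (f : PowerSeries ℤ) : (tl n f).length = n := by
  simp [tl]

theorem tl_getD (n : ℕ) (f : PowerSeries ℤ) {i : ℕ} (hi : i < n) :
    (tl n f).getD i 0 = coeff i f := by
  simp [tl, List.getD, hi]

theorem tl_ext_iff (n : ℕ) (f g : PowerSeries ℤ) :
    tl n f = tl n g ↔ ∀ k < n, coeff k f = coeff k g := by
  constructor
  · intro h k hk
    rw [← tl_getD n f hk, ← tl_getD n g hk, h]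
  · intro h
    refine List.map_congr_left fun k hk => h k (List.mem_range.mp hk)

theorem tl_eq_of_coeff (n : ℕ) (f : PowerSeries ℤ) (c : ℕ → ℤ) (h : ∀ k < n, coeff k f = c k) :
    tl n f = (List.range n).map c :=
  List.map_congr_left fun k hk => h k (List.mem_range.mp hk)

theorem tl_mul (n : ℕ) (f g : PowerSeries ℤ) : tl n (f * g) = tmul n (tl n f) (tl n g) := by
  refine List.map_congr_left fun k hk => ?_
  have hk' : k < n := List.mem_range.mp hk
  rw [coeff_mul, Finset.Nat.sum_antidiagonal_eq_sum_range_succ_mk, ← List.sum_toFinset _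
    (List.nodup_range), List.toFinset_range]
  refine Finset.sum_congr rfl fun i hi => ?_
  have hi' : i < k + 1 := Finset.mem_range.mp hi
  rw [tl_getD n f (by omega), tl_getD n g (by omega)]

theorem tl_add (n : ℕ) (f g : PowerSeries ℤ) : tl n (f + g) = tadd n (tl n f) (tl n g) := by
  refine List.map_congr_left fun k hk => ?_
  have hk' : k < n := List.mem_range.mp hk
  rw [tl_getD n f hk', tl_getD n g hk', map_add]

theorem tl_sub (n : ℕ) (f g : PowerSeries ℤ) : tl n (f - g) = tsub n (tl n f) (tl n g) := by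
  refine List.map_congr_left fun k hk => ?_
  have hk' : k < n := List.mem_range.mp hk
  rw [tl_getD n f hk', tl_getD n g hk', map_sub]

theorem tl_smul (n : ℕ) (c : ℤ) (f : PowerSeries ℤ) : tl n (c • f) = tsmul n c (tl n f) := by
  refine List.map_congr_left fun k hk => ?_
  have hk' : k < n := List.mem_range.mp hk
  rw [tl_getD n f hk', map_zsmul, smul_eq_mul]

theorem tl_one (n : ℕ) : tl n 1 = tone n := by
  refine List.map_congr_left fun k _ => ?_
  rw [coeff_one]

theorem tl_zero (n : ℕ) : tl n 0 = tzero n := by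
  refine List.map_congr_left fun k _ => ?_
  simp

theorem tl_X (n : ℕ) : tl n X = tX n := by
  refine List.map_congr_left fun k _ => ?_
  rw [coeff_X]

theorem tl_pow (n : ℕ) (f : PowerSeries ℤ) (m : ℕ) : tl n (f ^ m) = tpow n (tl n f) m := by
  induction m with
  | zero => rw [pow_zero, tl_one]; rfl
  | succ m ih => rw [pow_succ, tl_mul, ih]; rfl

theorem tl_oneSubXpow (n j : ℕ) : tl n (1 - X ^ j) = oneSubXpow n j := by
  refine List.map_congr_left fun k _ => ?_
  rw [map_sub, coeff_one, coeff_X_pow]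

theorem tl_Vser (n p : ℕ) (hp : 0 < p) (f : PowerSeries ℤ) :
    tl n (Vser p f) = tV n p (tl n f) := by
  refine List.map_congr_left fun k hk => ?_
  have hk' : k < n := List.mem_range.mp hk
  have : k / p < n := lt_of_le_of_lt (Nat.div_le_self k p) hk'
  rw [coeff_Vser, tl_getD n f this]

theorem tl_eq_tzero_iff (n : ℕ) (f : PowerSeries ℤ) :
    tl n f = tzero n ↔ ∀ k < n, coeff k f = 0 := by
  rw [← tl_zero, tl_ext_iff]
  simp

/-- truncation of a finite product `∏_{i<m} (1 - X^(i+1))` -/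
theorem tl_prod_range (n m : ℕ) :
    tl n (∏ i ∈ Finset.range m, ((1 : PowerSeries ℤ) - X ^ (i + 1))) = etaLrec n m := by
  induction m with
  | zero => rw [Finset.prod_range_zero, tl_one]; rfl
  | succ m ih => rw [Finset.prod_range_succ, tl_mul, ih, tl_oneSubXpow]; rfl

theorem tl_mul_congr (n : ℕ) {f f' g g' : PowerSeries ℤ} (hf : tl n f = tl n f')
    (hg : tl n g = tl n g') : tl n (f * g) = tl n (f' * g') := by
  rw [tl_mul, tl_mul, hf, hg]

/-- factors `1 - X^(i+1)` with `n ≤ i + 1` do not change the first `n` coefficients -/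
theorem tl_prod_of_le (n : ℕ) (s : Finset ℕ) (hs : ∀ i ∈ s, n ≤ i + 1) :
    tl n (∏ i ∈ s, ((1 : PowerSeries ℤ) - X ^ (i + 1))) = tl n 1 := by
  induction s using Finset.induction_on with
  | empty => rw [Finset.prod_empty]
  | insert a s ha ih =>
    rw [Finset.prod_insert ha]
    have h1 : tl n ((1 : PowerSeries ℤ) - X ^ (a + 1)) = tl n 1 := by
      rw [tl_ext_iff]
      intro k hk
      have hka : k ≠ a + 1 := by
        have := hs a (Finset.mem_insert_self a s)
        omega
      rw [map_sub, coeff_X_pow, if_neg hka, sub_zero]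
    have h2 := tl_mul_congr n h1 (ih fun i hi => hs i (Finset.mem_insert_of_mem hi))
    rw [h2, one_mul]

end Fermat.Agent.S18.H333

end
-- ===== PACK-END S18/H333/Trunc.lean

-- ===== PACK-BEGIN S18/H568/NormDescent.lean
section


/-!
# S18 / node D2 — abstract Kummer descent by the norm trick (helper568)

`F'/F` finite of degree `d`, `gcd(d, m) = 1`, `u ∈ F` with `u = c · y ^ m` in `F'` (`c` a constant
of the base field `K`, `y ∈ F'`).  Then `u = c' · y' ^ m` with `c' ∈ K`, `y' ∈ F`.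

Proof: `u ^ d = Nm(u) = c ^ d · Nm(y) ^ m`; with `a d + b m = 1`,
`u = (u ^ d) ^ a · (u ^ b) ^ m = c ^ (d a) · (Nm(y) ^ a · u ^ b) ^ m`.

Mathlib-only.
-/

set_option autoImplicit false

noncomputable section

namespace Fermat.Agent.S18.H568

open Module

/-- Norm trick (Kummer descent along an extension of degree prime to `m`). -/
theorem exists_pow_of_norm_coprime {K F F' : Type*} [Field K] [Field F] [Field F']
    [Algebra K F] [Algebra K F'] [Algebra F F'] [IsScalarTower K F F']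
    [FiniteDimensional F F'] (m : ℕ) (hcop : Nat.Coprime (finrank F F') m)
    (u : F) (hu : u ≠ 0) (c : K) (hc : c ≠ 0) (y : F') (hy : y ≠ 0)
    (h : algebraMap F F' u = algebraMap K F' c * y ^ m) :
    ∃ (c' : K) (y' : F), c' ≠ 0 ∧ y' ≠ 0 ∧ u = algebraMap K F c' * y' ^ m := by
  set d : ℕ := finrank F F' with hd
  -- norms
  have hN : u ^ d = (algebraMap K F c) ^ d * (Algebra.norm F y) ^ m := by
    have h1 : Algebra.norm F (algebraMap F F' u) = u ^ d := Algebra.norm_algebraMap u
    have h2 : Algebra.norm F (algebraMap K F' c) = (algebraMap K F c) ^ d := by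
      rw [IsScalarTower.algebraMap_apply K F F']
      exact Algebra.norm_algebraMap _
    rw [← h1, h, map_mul, map_pow, h2]
  have hNy : Algebra.norm F y ≠ 0 := by
    rw [Ne, Algebra.norm_eq_zero_iff]
    exact hy
  have hcF : algebraMap K F c ≠ 0 := by
    rw [Ne, map_eq_zero_iff _ (algebraMap K F).injective]
    exact hc
  -- Bezout
  have hbez : (1 : ℤ) = (d : ℤ) * Int.gcdA d m + (m : ℤ) * Int.gcdB d m := by
    have := Int.gcd_eq_gcd_ab (d : ℤ) (m : ℤ)
    rw [Int.gcd_natCast_natCast, hcop.gcd_eq_one] at this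
    exact_mod_cast this
  set a : ℤ := Int.gcdA d m
  set b : ℤ := Int.gcdB d m
  refine ⟨c ^ ((d : ℤ) * a), (Algebra.norm F y) ^ a * u ^ b, zpow_ne_zero _ hc,
    mul_ne_zero (zpow_ne_zero _ hNy) (zpow_ne_zero _ hu), ?_⟩
  have hu1 : u = u ^ ((d : ℤ) * a + (m : ℤ) * b) := by rw [← hbez, zpow_one]
  rw [map_zpow₀]
  calc u = u ^ ((d : ℤ) * a + (m : ℤ) * b) := hu1
    _ = (u ^ d) ^ a * (u ^ b) ^ m := by
        rw [zpow_add₀ hu, zpow_mul, zpow_natCast, mul_comm (m : ℤ) b, zpow_mul, zpow_natCast]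
    _ = ((algebraMap K F c) ^ d * (Algebra.norm F y) ^ m) ^ a * (u ^ b) ^ m := by rw [hN]
    _ = (algebraMap K F c) ^ ((d : ℤ) * a) * ((Algebra.norm F y) ^ a * u ^ b) ^ m := by
        rw [mul_zpow, mul_pow, zpow_mul, zpow_natCast, ← zpow_natCast ((Algebra.norm F) y) m,
          ← zpow_mul, ← zpow_natCast (((Algebra.norm F) y) ^ a) m, ← zpow_mul,
          mul_comm (m : ℤ) a, mul_assoc]

end Fermat.Agent.S18.H568

end

end
-- ===== PACK-END S18/H568/NormDescent.lean

-- ===== PACK-BEGIN S24/Mod/H368Lift.lean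
section


/-!
# S24 / MOD glue (helper368): lifting a ring hom from polynomial generators to a generated field

`exists_lift`: if `F' = K(s i : i ∈ ι) ⊆ E` and `Φ : MvPolynomial ι K →+* L` has the same kernel as
evaluation at the generators `s`, then `Φ` induces a ring hom `σ : F' →+* L`.
-/

set_option autoImplicit false

noncomputable section

open MvPolynomial

namespace Fermat.Agent.S24.H368

variable {K E L ι : Type*} [Field K] [Field E] [Algebra K E] [Field L]

/-- The ring hom `Algebra.adjoin K (range s) →+* L` induced by `Φ`, when `ker (aeval s) ≤ ker Φ`. -/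
theorem exists_ringHom_adjoin (s : ι → E) (Φ : MvPolynomial ι K →+* L)
    (h : ∀ p, aeval s p = 0 → Φ p = 0) :
    ∃ g : Algebra.adjoin K (Set.range s) →+* L,
      ∀ (p : MvPolynomial ι K) (x : Algebra.adjoin K (Set.range s)),
        (x : E) = aeval s p → g x = Φ p := by
  classical
  have hrange : Algebra.adjoin K (Set.range s) = (aeval s : MvPolynomial ι K →ₐ[K] E).range :=
    Algebra.adjoin_range_eq_range_aeval K s
  -- a section of `aeval s` on the adjoin
  have hsec : ∀ x : Algebra.adjoin K (Set.range s), ∃ p : MvPolynomial ι K, aeval s p = (x : E) := by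
    intro x
    have hx : (x : E) ∈ (aeval s : MvPolynomial ι K →ₐ[K] E).range := hrange ▸ x.2
    exact hx
  choose sec hsec' using hsec
  have key : ∀ (p : MvPolynomial ι K) (x : Algebra.adjoin K (Set.range s)),
      (x : E) = aeval s p → Φ (sec x) = Φ p := by
    intro p x hx
    have : aeval s (sec x - p) = 0 := by rw [map_sub, hsec', hx, sub_self]
    have := h _ this
    rwa [map_sub, sub_eq_zero] at this
  refine ⟨{ toFun := fun x => Φ (sec x), map_one' := ?_, map_mul' := ?_, map_zero' := ?_,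
            map_add' := ?_ }, fun p x hx => key p x hx⟩
  · rw [key 1 1 (by simp), map_one]
  · intro x y
    rw [key (sec x * sec y) (x * y) (by simp [hsec']), map_mul]
  · rw [key 0 0 (by simp), map_zero]
  · intro x y
    rw [key (sec x + sec y) (x + y) (by simp [hsec']), map_add]

open scoped IntermediateField.algebraAdjoinAdjoin in
/-- **Lift.** If `Φ : MvPolynomial ι K →+* L` has the same kernel as evaluation at `s : ι → E`,
it induces a ring hom from the field `K(s)` to `L`. -/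
theorem exists_lift (s : ι → E) (F' : IntermediateField K E)
    (hF : F' = IntermediateField.adjoin K (Set.range s))
    (Φ : MvPolynomial ι K →+* L) (h : ∀ p, Φ p = 0 ↔ aeval s p = 0) :
    ∃ σ : F' →+* L, ∀ (p : MvPolynomial ι K) (x : F'), (x : E) = aeval s p → σ x = Φ p := by
  subst hF
  obtain ⟨g, hg⟩ := exists_ringHom_adjoin s Φ (fun p hp => (h p).2 hp)
  have hginj : Function.Injective g := by
    rw [injective_iff_map_eq_zero]
    intro x hx
    obtain ⟨p, hp⟩ : ∃ p : MvPolynomial ι K, aeval s p = (x : E) := by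
      have hx' : (x : E) ∈ (aeval s : MvPolynomial ι K →ₐ[K] E).range :=
        (Algebra.adjoin_range_eq_range_aeval K s) ▸ x.2
      exact hx'
    have h1 : Φ p = 0 := by rw [← hg p x hp.symm, hx]
    have h2 := (h p).1 h1
    exact Subtype.ext (by rw [← hp, h2]; rfl)
  refine ⟨IsFractionRing.lift (A := Algebra.adjoin K (Set.range s)) hginj, fun p x hx => ?_⟩
  have hxmem : (x : E) ∈ Algebra.adjoin K (Set.range s) := by
    rw [hx, Algebra.adjoin_range_eq_range_aeval]
    exact ⟨p, rfl⟩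
  have hx' : x = algebraMap (Algebra.adjoin K (Set.range s))
      (IntermediateField.adjoin K (Set.range s)) ⟨(x : E), hxmem⟩ := Subtype.ext rfl
  rw [hx', IsFractionRing.lift_algebraMap]
  exact hg p _ hx

end Fermat.Agent.S24.H368

end
end
-- ===== PACK-END S24/Mod/H368Lift.lean

-- ===== PACK-BEGIN S20/CuspCount360.lean
section



/-!
# Number of `T`-orbits on `SL(2,ℤ) ⧸ Γ₀(N)` equals `cuspCount N`

Pure group theory / elementary number theory (no analysis).
Main result: `Fermat.Agent.S20.CuspCount360.card_orbits_T`.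
-/

set_option autoImplicit false

open scoped MatrixGroups
open CongruenceSubgroup Matrix

namespace Fermat.Agent.S20.CuspCount360

/-! ## Arithmetic core -/

section Arith

/-- `→` part 1: the gcd of the lower-left entry with `N` is an invariant. -/
theorem gcd_eq_of_dvd {N : ℕ} {a c a' c' : ℤ} (hac : IsCoprime a c) (hac' : IsCoprime a' c')
    (h : (N : ℤ) ∣ a * c' - c * a') : Int.gcd c N = Int.gcd c' N := by
  apply Nat.dvd_antisymm
  · -- d ∣ c'
    apply Int.dvd_gcd _ (Int.gcd_dvd_right c N)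
    have hd1 : ((Int.gcd c N : ℕ) : ℤ) ∣ c := Int.gcd_dvd_left c N
    have hd2 : ((Int.gcd c N : ℕ) : ℤ) ∣ a * c' - c * a' := (Int.gcd_dvd_right c N).trans h
    have hd3 : ((Int.gcd c N : ℕ) : ℤ) ∣ a * c' := by
      have := dvd_add hd2 (hd1.mul_right a')
      simpa using this
    have hcop : IsCoprime ((Int.gcd c N : ℕ) : ℤ) a :=
      (IsCoprime.of_isCoprime_of_dvd_right hac hd1).symm
    exact hcop.dvd_of_dvd_mul_left hd3
  · apply Int.dvd_gcd _ (Int.gcd_dvd_right c' N)
    have hd1 : ((Int.gcd c' N : ℕ) : ℤ) ∣ c' := Int.gcd_dvd_left c' N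
    have hd2 : ((Int.gcd c' N : ℕ) : ℤ) ∣ a * c' - c * a' := (Int.gcd_dvd_right c' N).trans h
    have hd3 : ((Int.gcd c' N : ℕ) : ℤ) ∣ a' * c := by
      have := dvd_sub (hd1.mul_left a) hd2
      have e : a * c' - (a * c' - c * a') = a' * c := by ring
      rwa [e] at this
    have hcop : IsCoprime ((Int.gcd c' N : ℕ) : ℤ) a' :=
      (IsCoprime.of_isCoprime_of_dvd_right hac' hd1).symm
    exact hcop.dvd_of_dvd_mul_left hd3

/-- `→` part 2. Here `c = d * c₁`, `c' = d * c₁'`, `N = d * M`, and `e ∣ d`, `e ∣ M`. -/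
theorem dvd_of_dvd {d M e a a' c₁ c₁' k : ℤ} (hd : d ≠ 0) (hed : e ∣ d) (heM : e ∣ M)
    (h : d * M ∣ (a + k * (d * c₁)) * (d * c₁') - (d * c₁) * a') :
    e ∣ a * c₁' - a' * c₁ := by
  have h1 : d * M ∣ d * ((a + k * (d * c₁)) * c₁' - c₁ * a') := by
    have e1 : (a + k * (d * c₁)) * (d * c₁') - (d * c₁) * a'
        = d * ((a + k * (d * c₁)) * c₁' - c₁ * a') := by ring
    rwa [e1] at h
  have h2 : M ∣ (a + k * (d * c₁)) * c₁' - c₁ * a' := (mul_dvd_mul_iff_left hd).mp h1
  have h3 : e ∣ (a + k * (d * c₁)) * c₁' - c₁ * a' := heM.trans h2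
  have h4 : e ∣ d * (k * c₁ * c₁') := hed.mul_right _
  have := dvd_sub h3 h4
  have e2 : (a + k * (d * c₁)) * c₁' - c₁ * a' - d * (k * c₁ * c₁') = a * c₁' - a' * c₁ := by ring
  rwa [e2] at this

/-- `←`: solving the linear congruence. -/
theorem exists_k {d M a a' c₁ c₁' : ℤ} (h1 : IsCoprime c₁ M) (h1' : IsCoprime c₁' M)
    (h : ((Int.gcd d M : ℕ) : ℤ) ∣ a * c₁' - a' * c₁) :
    ∃ k : ℤ, d * M ∣ (a + k * (d * c₁)) * (d * c₁') - (d * c₁) * a' := by
  obtain ⟨t, ht⟩ := h
  obtain ⟨u, v, huv⟩ := h1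
  obtain ⟨u', v', huv'⟩ := h1'
  have hb := Int.gcd_eq_gcd_ab d M
  set x := Int.gcdA d M
  set y := Int.gcdB d M
  -- z := u * u' is an inverse of c₁ c₁' mod M
  refine ⟨-t * x * (u * u'), ?_⟩
  have e1 : (a + (-t * x * (u * u')) * (d * c₁)) * (d * c₁') - (d * c₁) * a'
      = d * ((a * c₁' - a' * c₁) - t * x * d * ((u * c₁) * (u' * c₁'))) := by ring
  rw [e1]
  apply mul_dvd_mul_left
  have e2 : u * c₁ = 1 - v * M := by linear_combination huv
  have e3 : u' * c₁' = 1 - v' * M := by linear_combination huv'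
  rw [e2, e3, ht]
  refine ⟨t * y + t * x * d * (v + v' - v * v' * M), ?_⟩
  linear_combination (t) * hb

/-- Comparison of the `r`-invariants inside a fixed `ZMod e`. -/
theorem val_mul_inv_eq_iff {e : ℕ} [NeZero e] {a a' c₁ c₁' : ℤ}
    (h1 : IsCoprime c₁ (e : ℤ)) (h1' : IsCoprime c₁' (e : ℤ)) :
    ((a : ZMod e) * (c₁ : ZMod e)⁻¹).val = ((a' : ZMod e) * (c₁' : ZMod e)⁻¹).val ↔
      (e : ℤ) ∣ a * c₁' - a' * c₁ := by
  have hu : IsUnit ((c₁ : ℤ) : ZMod e) := (ZMod.coe_int_isUnit_iff_isCoprime c₁ e).2 h1.symm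
  have hu' : IsUnit ((c₁' : ℤ) : ZMod e) := (ZMod.coe_int_isUnit_iff_isCoprime c₁' e).2 h1'.symm
  have hi : ((c₁ : ℤ) : ZMod e) * ((c₁ : ℤ) : ZMod e)⁻¹ = 1 := ZMod.mul_inv_of_unit _ hu
  have hi' : ((c₁' : ℤ) : ZMod e) * ((c₁' : ℤ) : ZMod e)⁻¹ = 1 := ZMod.mul_inv_of_unit _ hu'
  rw [(ZMod.val_injective e).eq_iff, ← ZMod.intCast_zmod_eq_zero_iff_dvd]
  push_cast
  constructor
  · intro h
    have : (a : ZMod e) * c₁' - a' * c₁
        = ((a : ZMod e) * (c₁ : ZMod e)⁻¹ - (a' : ZMod e) * (c₁' : ZMod e)⁻¹) * (c₁ * c₁')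
          + (a : ZMod e) * c₁' * (1 - c₁ * (c₁ : ZMod e)⁻¹)
          - (a' : ZMod e) * c₁ * (1 - c₁' * (c₁' : ZMod e)⁻¹) := by ring
    rw [this, h, hi, hi']; ring
  · intro h
    have : (a : ZMod e) * (c₁ : ZMod e)⁻¹ - (a' : ZMod e) * (c₁' : ZMod e)⁻¹
        = ((a : ZMod e) * c₁' - a' * c₁) * ((c₁ : ZMod e)⁻¹ * (c₁' : ZMod e)⁻¹)
          + (a : ZMod e) * (c₁ : ZMod e)⁻¹ * (1 - c₁' * (c₁' : ZMod e)⁻¹)
          - (a' : ZMod e) * (c₁' : ZMod e)⁻¹ * (1 - c₁ * (c₁ : ZMod e)⁻¹) := by ring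
    have h0 := sub_eq_zero.mp (by rw [this, h, hi, hi']; ring :
      (a : ZMod e) * (c₁ : ZMod e)⁻¹ - (a' : ZMod e) * (c₁' : ZMod e)⁻¹ = 0)
    exact h0

end Arith

/-! ## The invariant -/

section Invariant

variable (N : ℕ)

/-- `e(d) = gcd (d, N / d)`. -/
def eOf (d : ℕ) : ℕ := Nat.gcd d (N / d)

/-- The `r`-invariant computed with an explicit `d`. -/
noncomputable def rAux (d : ℕ) (a c : ℤ) : ℕ :=
  (((a : ℤ) : ZMod (eOf N d)) * (((c / (d : ℤ) : ℤ)) : ZMod (eOf N d))⁻¹).val

/-- The `d`-invariant `gcd (c, N)` of `g = [a b; c d]`. -/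
def dInv (g : SL(2, ℤ)) : ℕ := Int.gcd ((g : Matrix (Fin 2) (Fin 2) ℤ) 1 0) N

/-- The full invariant `(d, r)`. -/
noncomputable def cuspInv (g : SL(2, ℤ)) : (_ : ℕ) × ℕ :=
  ⟨dInv N g, rAux N (dInv N g) ((g : Matrix (Fin 2) (Fin 2) ℤ) 0 0)
    ((g : Matrix (Fin 2) (Fin 2) ℤ) 1 0)⟩

theorem isCoprime_col (g : SL(2, ℤ)) :
    IsCoprime ((g : Matrix (Fin 2) (Fin 2) ℤ) 0 0) ((g : Matrix (Fin 2) (Fin 2) ℤ) 1 0) := by
  have h := g.det_coe
  rw [Matrix.det_fin_two] at h
  exact ⟨(g : Matrix (Fin 2) (Fin 2) ℤ) 1 1, -(g : Matrix (Fin 2) (Fin 2) ℤ) 0 1, by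
    linear_combination h⟩

theorem mk_eq_mk_iff (g g' : SL(2, ℤ)) :
    ((g : SL(2, ℤ) ⧸ Gamma0 N) = (g' : SL(2, ℤ) ⧸ Gamma0 N)) ↔
      (N : ℤ) ∣ (g : Matrix (Fin 2) (Fin 2) ℤ) 0 0 * (g' : Matrix (Fin 2) (Fin 2) ℤ) 1 0
        - (g : Matrix (Fin 2) (Fin 2) ℤ) 1 0 * (g' : Matrix (Fin 2) (Fin 2) ℤ) 0 0 := by
  rw [QuotientGroup.eq, Gamma0_mem, ZMod.intCast_zmod_eq_zero_iff_dvd]
  have : ((g⁻¹ * g' : SL(2, ℤ)) : Matrix (Fin 2) (Fin 2) ℤ) 1 0
      = (g : Matrix (Fin 2) (Fin 2) ℤ) 0 0 * (g' : Matrix (Fin 2) (Fin 2) ℤ) 1 0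
        - (g : Matrix (Fin 2) (Fin 2) ℤ) 1 0 * (g' : Matrix (Fin 2) (Fin 2) ℤ) 0 0 := by
    rw [Matrix.SpecialLinearGroup.coe_mul, Matrix.SpecialLinearGroup.SL2_inv_expl]
    rw [Matrix.mul_apply, Fin.sum_univ_two]
    simp
    ring
  rw [this]

theorem T_zpow_mul_col (k : ℤ) (g : SL(2, ℤ)) :
    ((ModularGroup.T ^ k * g : SL(2, ℤ)) : Matrix (Fin 2) (Fin 2) ℤ) 0 0
        = (g : Matrix (Fin 2) (Fin 2) ℤ) 0 0 + k * (g : Matrix (Fin 2) (Fin 2) ℤ) 1 0 ∧
    ((ModularGroup.T ^ k * g : SL(2, ℤ)) : Matrix (Fin 2) (Fin 2) ℤ) 1 0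
        = (g : Matrix (Fin 2) (Fin 2) ℤ) 1 0 := by
  rw [Matrix.SpecialLinearGroup.coe_mul, ModularGroup.coe_T_zpow]
  constructor <;> rw [Matrix.mul_apply, Fin.sum_univ_two] <;> simp

/-- Data attached to `c` and `N ≠ 0`: `d = gcd (c, N)`, `c = d * c₁`, `N = d * M`,
`e = gcd (d, M)`, and `c₁` is coprime to `M` and to `e`. -/
theorem gcd_data {N : ℕ} (hN : N ≠ 0) (c : ℤ) :
    Int.gcd c N ≠ 0 ∧ Int.gcd c N ∣ N ∧
    ((Int.gcd c N : ℕ) : ℤ) * (c / ((Int.gcd c N : ℕ) : ℤ)) = c ∧
    ((Int.gcd c N : ℕ) : ℤ) * ((N / Int.gcd c N : ℕ) : ℤ) = (N : ℤ) ∧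
    IsCoprime (c / ((Int.gcd c N : ℕ) : ℤ)) ((N / Int.gcd c N : ℕ) : ℤ) ∧
    IsCoprime (c / ((Int.gcd c N : ℕ) : ℤ)) ((eOf N (Int.gcd c N) : ℕ) : ℤ) ∧
    eOf N (Int.gcd c N) ≠ 0 := by
  have hd0 : Int.gcd c N ≠ 0 := by
    intro h
    rw [Int.gcd_eq_zero_iff] at h
    exact hN (by exact_mod_cast h.2)
  have hdN : Int.gcd c N ∣ N := Int.natCast_dvd_natCast.mp (Int.gcd_dvd_right c N)
  have hc : ((Int.gcd c N : ℕ) : ℤ) * (c / ((Int.gcd c N : ℕ) : ℤ)) = c :=
    Int.mul_ediv_cancel' (Int.gcd_dvd_left c N)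
  have hNM : ((Int.gcd c N : ℕ) : ℤ) * ((N / Int.gcd c N : ℕ) : ℤ) = (N : ℤ) := by
    exact_mod_cast Nat.mul_div_cancel' hdN
  have hcop : IsCoprime (c / ((Int.gcd c N : ℕ) : ℤ)) ((N / Int.gcd c N : ℕ) : ℤ) := by
    rw [Int.isCoprime_iff_gcd_eq_one]
    have := Int.gcd_div_gcd_div_gcd (i := c) (j := (N : ℤ)) (Nat.pos_of_ne_zero hd0)
    rwa [← Int.natCast_div] at this
  have heM : ((eOf N (Int.gcd c N) : ℕ) : ℤ) ∣ ((N / Int.gcd c N : ℕ) : ℤ) :=
    Int.natCast_dvd_natCast.mpr (Nat.gcd_dvd_right _ _)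
  refine ⟨hd0, hdN, hc, hNM, hcop, IsCoprime.of_isCoprime_of_dvd_right hcop heM, ?_⟩
  exact Nat.gcd_ne_zero_left hd0

theorem arith_iff {N : ℕ} (hN : N ≠ 0) {a c a' c' : ℤ} (hac : IsCoprime a c)
    (hac' : IsCoprime a' c') :
    (∃ k : ℤ, (N : ℤ) ∣ (a + k * c) * c' - c * a') ↔
      (Int.gcd c N = Int.gcd c' N ∧ rAux N (Int.gcd c N) a c = rAux N (Int.gcd c N) a' c') := by
  obtain ⟨hd0, hdN, hc, hNM, hcop, hcope, he0⟩ := gcd_data hN c
  obtain ⟨hd0', hdN', hc', hNM', hcop', hcope', he0'⟩ := gcd_data hN c'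
  have : NeZero (eOf N (Int.gcd c N)) := ⟨he0⟩
  have hed : ((eOf N (Int.gcd c N) : ℕ) : ℤ) ∣ ((Int.gcd c N : ℕ) : ℤ) :=
    Int.natCast_dvd_natCast.mpr (Nat.gcd_dvd_left _ _)
  have heM : ((eOf N (Int.gcd c N) : ℕ) : ℤ) ∣ ((N / Int.gcd c N : ℕ) : ℤ) :=
    Int.natCast_dvd_natCast.mpr (Nat.gcd_dvd_right _ _)
  constructor
  · rintro ⟨k, hk⟩
    have hcopk : IsCoprime (a + k * c) c := hac.add_mul_right_left k
    have hdd : Int.gcd c N = Int.gcd c' N := gcd_eq_of_dvd hcopk hac' hk
    refine ⟨hdd, ?_⟩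
    rw [← hdd] at hc' hcope'
    unfold rAux
    rw [val_mul_inv_eq_iff hcope hcope']
    refine dvd_of_dvd (k := k) (by exact_mod_cast hd0) hed heM ?_
    rw [hNM, hc, hc']
    exact hk
  · rintro ⟨hdd, hr⟩
    rw [← hdd] at hc' hcope' hcop'
    unfold rAux at hr
    rw [val_mul_inv_eq_iff hcope hcope'] at hr
    have hr' : ((Int.gcd ((Int.gcd c N : ℕ) : ℤ) ((N / Int.gcd c N : ℕ) : ℤ) : ℕ) : ℤ) ∣
        a * (c' / ((Int.gcd c N : ℕ) : ℤ)) - a' * (c / ((Int.gcd c N : ℕ) : ℤ)) := by
      rw [Int.gcd_natCast_natCast]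
      exact hr
    obtain ⟨k, hk⟩ := exists_k (a := a) (a' := a') hcop hcop' hr'
    refine ⟨k, ?_⟩
    rw [hNM, hc, hc'] at hk
    exact hk

variable [NeZero N]

/-- Two cosets `gΓ₀(N)`, `g'Γ₀(N)` lie in the same `⟨T⟩`-orbit iff they have the same
invariant. -/
theorem orbit_iff (g g' : SL(2, ℤ)) :
    (∃ k : ℤ, ((ModularGroup.T ^ k * g : SL(2, ℤ)) : SL(2, ℤ) ⧸ Gamma0 N)
        = (g' : SL(2, ℤ) ⧸ Gamma0 N)) ↔ cuspInv N g = cuspInv N g' := by
  have key := arith_iff (NeZero.ne N) (isCoprime_col g) (isCoprime_col g')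
  constructor
  · rintro ⟨k, hk⟩
    rw [mk_eq_mk_iff, (T_zpow_mul_col k g).1, (T_zpow_mul_col k g).2] at hk
    obtain ⟨h1, h2⟩ := key.1 ⟨k, hk⟩
    unfold cuspInv dInv
    rw [← h1, h2]
  · intro h
    unfold cuspInv dInv at h
    rw [Sigma.mk.injEq] at h
    obtain ⟨h1, h2⟩ := h
    have h2' := eq_of_heq h2
    rw [← h1] at h2'
    obtain ⟨k, hk⟩ := key.2 ⟨h1, h2'⟩
    refine ⟨k, ?_⟩
    rw [mk_eq_mk_iff, (T_zpow_mul_col k g).1, (T_zpow_mul_col k g).2]
    exact hk

/-- The finite set of possible invariants. -/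
def cuspSet : Finset ((_ : ℕ) × ℕ) :=
  N.divisors.sigma fun d => (Finset.range (eOf N d)).filter fun r => (eOf N d).Coprime r

omit [NeZero N] in
theorem card_cuspSet : (cuspSet N).card = ModularCurve.cuspCount N := by
  unfold cuspSet ModularCurve.cuspCount
  rw [Finset.card_sigma]
  refine Finset.sum_congr rfl fun d _ => ?_
  rw [Nat.totient_eq_card_coprime]
  rfl

theorem cuspInv_mem (g : SL(2, ℤ)) : cuspInv N g ∈ cuspSet N := by
  obtain ⟨hd0, hdN, hc, hNM, hcop, hcope, he0⟩ :=
    gcd_data (NeZero.ne N) ((g : Matrix (Fin 2) (Fin 2) ℤ) 1 0)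
  have : NeZero (eOf N (Int.gcd ((g : Matrix (Fin 2) (Fin 2) ℤ) 1 0) N)) := ⟨he0⟩
  unfold cuspSet cuspInv dInv
  rw [Finset.mem_sigma, Nat.mem_divisors, Finset.mem_filter, Finset.mem_range]
  refine ⟨⟨hdN, NeZero.ne N⟩, ZMod.val_lt _, ?_⟩
  -- the value is a unit
  have hed : ((eOf N (Int.gcd ((g : Matrix (Fin 2) (Fin 2) ℤ) 1 0) N) : ℕ) : ℤ) ∣
      (g : Matrix (Fin 2) (Fin 2) ℤ) 1 0 :=
    (Int.natCast_dvd_natCast.mpr (Nat.gcd_dvd_left _ _)).trans (Int.gcd_dvd_left _ _)
  have hae : IsCoprime ((g : Matrix (Fin 2) (Fin 2) ℤ) 0 0)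
      ((eOf N (Int.gcd ((g : Matrix (Fin 2) (Fin 2) ℤ) 1 0) N) : ℕ) : ℤ) :=
    IsCoprime.of_isCoprime_of_dvd_right (isCoprime_col g) hed
  have hua := (ZMod.coe_int_isUnit_iff_isCoprime _ _).2 hae.symm
  have huc := (ZMod.coe_int_isUnit_iff_isCoprime _ _).2 hcope.symm
  have hinv : IsUnit ((((g : Matrix (Fin 2) (Fin 2) ℤ) 1 0 /
      ((Int.gcd ((g : Matrix (Fin 2) (Fin 2) ℤ) 1 0) N : ℕ) : ℤ) : ℤ) :
        ZMod (eOf N (Int.gcd ((g : Matrix (Fin 2) (Fin 2) ℤ) 1 0) N)))⁻¹) :=
    IsUnit.of_mul_eq_one _ (by rw [mul_comm]; exact ZMod.mul_inv_of_unit _ huc)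
  have hu := hua.mul hinv
  have := ZMod.val_coe_unit_coprime hu.unit
  rw [IsUnit.unit_spec] at this
  exact this.symm

omit [NeZero N] in
/-- Every element of `cuspSet N` is the invariant of some `g`. -/
theorem exists_cuspInv_eq (p : (_ : ℕ) × ℕ) (hp : p ∈ cuspSet N) :
    ∃ g : SL(2, ℤ), cuspInv N g = p := by
  obtain ⟨d, r⟩ := p
  unfold cuspSet at hp
  rw [Finset.mem_sigma, Nat.mem_divisors, Finset.mem_filter, Finset.mem_range] at hp
  obtain ⟨⟨hdN, hN⟩, hr, hcop⟩ := hp
  dsimp only at hdN hr hcop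
  have hd0 : d ≠ 0 := fun h => hN (by rw [h] at hdN; exact Nat.eq_zero_of_zero_dvd hdN)
  have : NeZero d := ⟨hd0⟩
  have hed : eOf N d ∣ d := Nat.gcd_dvd_left _ _
  have he0 : eOf N d ≠ 0 := Nat.gcd_ne_zero_left hd0
  have : NeZero (eOf N d) := ⟨he0⟩
  -- lift the unit `r` mod `e` to a unit `v` mod `d`
  obtain ⟨v, hv⟩ := ZMod.unitsMap_surjective hed (ZMod.unitOfCoprime r hcop.symm)
  have hvcop : ((v : ZMod d).val).Coprime d := ZMod.val_coe_unit_coprime v
  have hcast : (((v : ZMod d).val : ℕ) : ZMod (eOf N d)) = (r : ZMod (eOf N d)) := by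
    have h1 := congrArg (fun u : (ZMod (eOf N d))ˣ => (u : ZMod (eOf N d))) hv
    simp only [ZMod.unitsMap_def, Units.coe_map, MonoidHom.coe_coe, ZMod.castHom_apply,
      ZMod.coe_unitOfCoprime] at h1
    rw [ZMod.natCast_val]
    exact h1
  -- Bézout
  have hco : IsCoprime (((v : ZMod d).val : ℕ) : ℤ) ((d : ℕ) : ℤ) :=
    Nat.isCoprime_iff_coprime.mpr hvcop
  obtain ⟨x, y, hxy⟩ := hco
  let g : SL(2, ℤ) := ⟨!![(((v : ZMod d).val : ℕ) : ℤ), -y; (d : ℤ), x], by
    rw [Matrix.det_fin_two_of]; linear_combination hxy⟩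
  have hg00 : (g : Matrix (Fin 2) (Fin 2) ℤ) 0 0 = (((v : ZMod d).val : ℕ) : ℤ) := rfl
  have hg10 : (g : Matrix (Fin 2) (Fin 2) ℤ) 1 0 = (d : ℤ) := rfl
  refine ⟨g, ?_⟩
  have hgcd : Int.gcd ((d : ℕ) : ℤ) (N : ℤ) = d := by
    rw [Int.gcd_natCast_natCast]; exact Nat.gcd_eq_left hdN
  unfold cuspInv dInv
  rw [hg00, hg10, hgcd]
  congr 1
  unfold rAux
  rw [Int.ediv_self (by exact_mod_cast hd0)]
  simp only [Int.cast_one, ZMod.inv_one, mul_one, Int.cast_natCast]
  rw [hcast, ZMod.val_natCast]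
  exact Nat.mod_eq_of_lt hr

/-- **Main theorem**: the number of orbits of `⟨T⟩` acting by left multiplication on
`SL(2,ℤ) ⧸ Γ₀(N)` is `cuspCount N = ∑_{d ∣ N} φ(gcd(d, N/d))`. -/
theorem card_orbits_T :
    Nat.card (MulAction.orbitRel.Quotient (Subgroup.zpowers ModularGroup.T)
      (SL(2, ℤ) ⧸ Gamma0 N)) = ModularCurve.cuspCount N := by
  rw [← card_cuspSet, ← Nat.card_eq_finsetCard]
  -- representative of an orbit
  let rep : MulAction.orbitRel.Quotient (Subgroup.zpowers ModularGroup.T)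
      (SL(2, ℤ) ⧸ Gamma0 N) → SL(2, ℤ) := fun x => Quotient.out (Quotient.out x)
  have hrep : ∀ x, (Quotient.mk'' ((rep x : SL(2, ℤ)) : SL(2, ℤ) ⧸ Gamma0 N) :
      MulAction.orbitRel.Quotient (Subgroup.zpowers ModularGroup.T)
      (SL(2, ℤ) ⧸ Gamma0 N)) = x := by
    intro x
    show Quotient.mk'' ((Quotient.out (Quotient.out x) : SL(2, ℤ)) : SL(2, ℤ) ⧸ Gamma0 N) = x
    rw [QuotientGroup.out_eq']
    exact Quotient.out_eq x
  -- orbit equivalence in terms of `T ^ k`
  have horb : ∀ g g' : SL(2, ℤ),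
      (Quotient.mk'' (g : SL(2, ℤ) ⧸ Gamma0 N) :
        MulAction.orbitRel.Quotient (Subgroup.zpowers ModularGroup.T) (SL(2, ℤ) ⧸ Gamma0 N))
        = Quotient.mk'' (g' : SL(2, ℤ) ⧸ Gamma0 N) ↔ cuspInv N g' = cuspInv N g := by
    intro g g'
    rw [Quotient.eq'', MulAction.orbitRel_apply, MulAction.mem_orbit_iff, ← orbit_iff]
    constructor
    · rintro ⟨⟨t, ht⟩, h⟩
      obtain ⟨k, rfl⟩ := Subgroup.mem_zpowers_iff.mp ht
      exact ⟨k, h⟩
    · rintro ⟨k, h⟩
      exact ⟨⟨ModularGroup.T ^ k, Subgroup.mem_zpowers_iff.mpr ⟨k, rfl⟩⟩, h⟩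
  refine Nat.card_congr (Equiv.ofBijective
    (fun x => (⟨cuspInv N (rep x), cuspInv_mem N (rep x)⟩ : cuspSet N)) ⟨?_, ?_⟩)
  · intro x y hxy
    have h := congrArg Subtype.val hxy
    dsimp only at h
    rw [← hrep x, ← hrep y]
    exact (horb _ _).2 h.symm
  · rintro ⟨p, hp⟩
    obtain ⟨g, hg⟩ := exists_cuspInv_eq N p hp
    refine ⟨Quotient.mk'' (g : SL(2, ℤ) ⧸ Gamma0 N), ?_⟩
    apply Subtype.ext
    dsimp only
    rw [← hg]
    exact (horb _ _).1 (hrep (Quotient.mk'' (g : SL(2, ℤ) ⧸ Gamma0 N))).symm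

end Invariant

end Fermat.Agent.S20.CuspCount360

end
-- ===== PACK-END S20/CuspCount360.lean

-- ===== PACK-BEGIN S18/H504/ValDvr.lean
section



/-!
# S18 — every nontrivial valuation ring of a function field is discrete (char-free)

`F/K` a field extension, `O` a valuation subring of `F` containing `K`, `u ∈ O` a non-unit,
`u ≠ 0`, with `F` finite over `K(u)`.  Then `O` is a principal ideal ring, hence a `Place K F`.
No hypothesis on the characteristic, no separability, `K` arbitrary.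

Main results:
* `isPrincipalIdealRing_of_finite` : `IsPrincipalIdealRing O`;
* `placeOfValuationSubring` : the `Place K F` with valuation ring `O`.
-/

set_option autoImplicit false

namespace Fermat.Agent.S18.H504

open AlgebraicCurve IntermediateField Polynomial

variable {K F : Type*} [Field K] [Field F] [Algebra K F]

/-- If a finite sum vanishes and some term is nonzero, the maximal valuation is attained by two
distinct (nonzero) terms. -/
theorem exists_ne_valuation_eq {Γ₀ : Type*} [LinearOrderedCommGroupWithZero Γ₀]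
    (v : Valuation F Γ₀) {ι : Type*} [DecidableEq ι] (s : Finset ι) (a : ι → F)
    (hsum : ∑ i ∈ s, a i = 0) (hne : ∃ i ∈ s, a i ≠ 0) :
    ∃ i ∈ s, ∃ j ∈ s, i ≠ j ∧ a i ≠ 0 ∧ a j ≠ 0 ∧ v (a i) = v (a j) := by
  obtain ⟨i₁, hi₁, hai₁⟩ := hne
  obtain ⟨i₀, hi₀, hmax⟩ := Finset.exists_max_image s (fun i => v (a i)) ⟨i₁, hi₁⟩
  have hv0 : v (a i₀) ≠ 0 := by
    intro h0
    have := hmax i₁ hi₁
    rw [h0] at this
    exact hai₁ ((v.zero_iff).mp (le_antisymm this zero_le))
  have hai₀ : a i₀ ≠ 0 := fun h => hv0 (by rw [h, map_zero])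
  by_contra hcon
  push Not at hcon
  have hlt : ∀ i ∈ s \ {i₀}, v (a i) < v (a i₀) := by
    intro i hi
    rw [Finset.mem_sdiff, Finset.mem_singleton] at hi
    refine lt_of_le_of_ne (hmax i hi.1) ?_
    intro heq
    have hai : a i ≠ 0 := fun h => hv0 (by rw [← heq, h, map_zero])
    exact hcon i₀ hi₀ i hi.1 (Ne.symm hi.2) hai₀ hai heq.symm
  have := v.map_sum_eq_of_lt hi₀ hlt
  rw [hsum, map_zero] at this
  exact hv0 this.symm

section

variable (O : ValuationSubring F) (hK : ∀ a : K, algebraMap K F a ∈ O)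

include hK in
theorem valuation_algebraMap {c : K} (hc : c ≠ 0) : O.valuation (algebraMap K F c) = 1 := by
  have h1 : O.valuation (algebraMap K F c) ≤ 1 := (O.valuation_le_one_iff _).mpr (hK c)
  have h2 : O.valuation (algebraMap K F c⁻¹) ≤ 1 := (O.valuation_le_one_iff _).mpr (hK c⁻¹)
  rw [map_inv₀, map_inv₀] at h2
  have hne : O.valuation (algebraMap K F c) ≠ 0 :=
    (Valuation.ne_zero_iff _).mpr (by simpa using hc)
  exact le_antisymm h1 ((inv_le_one₀ (zero_lt_iff.mpr hne)).mp h2)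

include hK in
theorem aeval_mem {u : F} (hu : u ∈ O) (p : K[X]) : aeval u p ∈ O := by
  rw [aeval_eq_sum_range]
  refine Subring.sum_mem O.toSubring fun i _ => ?_
  rw [Algebra.smul_def]
  exact O.mul_mem _ _ (hK _) (pow_mem hu i)

include hK in
theorem valuation_aeval_of_coeff_zero_ne {u : F} (hu : u ∈ O) (hu' : u⁻¹ ∉ O) (q : K[X])
    (hq : q.coeff 0 ≠ 0) : O.valuation (aeval u q) = 1 := by
  have hdecomp : aeval u q = aeval u q.divX * u + algebraMap K F (q.coeff 0) := by
    conv_lhs => rw [← divX_mul_X_add q]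
    simp only [map_add, map_mul, aeval_X, aeval_C]
  have hu1 : O.valuation u < 1 := by
    have h1 : O.valuation u ≤ 1 := (O.valuation_le_one_iff _).mpr hu
    refine lt_of_le_of_ne h1 fun h => hu' ?_
    rw [← O.valuation_le_one_iff, map_inv₀, h, inv_one]
  have h2 : O.valuation (aeval u q.divX * u) < 1 := by
    rw [map_mul]
    have h3 : O.valuation (aeval u q.divX) ≤ 1 := (O.valuation_le_one_iff _).mpr (aeval_mem O hK hu _)
    calc O.valuation (aeval u q.divX) * O.valuation u ≤ 1 * O.valuation u :=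
          mul_le_mul_left (α := O.ValueGroup) h3 _
      _ < 1 := by rwa [one_mul]
  rw [hdecomp, Valuation.map_add_eq_of_lt_right _ (by rwa [valuation_algebraMap O hK hq]),
    valuation_algebraMap O hK hq]

include hK in
theorem valuation_aeval {u : F} (hu : u ∈ O) (hu' : u⁻¹ ∉ O) (p : K[X]) (hp : p ≠ 0) :
    O.valuation (aeval u p) = O.valuation u ^ p.rootMultiplicity 0 := by
  obtain ⟨q, hpq, hq⟩ := exists_eq_pow_rootMultiplicity_mul_and_not_dvd p hp 0
  have hq0 : q.coeff 0 ≠ 0 := by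
    intro h
    apply hq
    rw [C_0, sub_zero]
    exact X_dvd_iff.mpr h
  conv_lhs => rw [hpq]
  rw [map_mul, map_pow, C_0, sub_zero, aeval_X, map_mul, map_pow,
    valuation_aeval_of_coeff_zero_ne O hK hu hu' q hq0, mul_one]

include hK in
/-- On `K(u)` the valuation is a power of the valuation of `u`. -/
theorem exists_zpow_of_mem_adjoin {u : F} (hu : u ∈ O) (hu' : u⁻¹ ∉ O) {g : F}
    (hg : g ∈ K⟮u⟯) (hg0 : g ≠ 0) : ∃ a : ℤ, O.valuation g = O.valuation u ^ a := by
  obtain ⟨r, s, rfl⟩ := (mem_adjoin_simple_iff K g).mp hg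
  have hr : r ≠ 0 := by
    rintro rfl
    simp at hg0
  have hs : s ≠ 0 := by
    rintro rfl
    simp at hg0
  refine ⟨(r.rootMultiplicity 0 : ℤ) - s.rootMultiplicity 0, ?_⟩
  have hu0 : O.valuation u ≠ 0 := by
    rw [Valuation.ne_zero_iff]
    rintro rfl
    exact hu' (by simp)
  rw [map_div₀, valuation_aeval O hK hu hu' r hr, valuation_aeval O hK hu hu' s hs,
    zpow_sub₀ hu0, zpow_natCast, zpow_natCast]

include hK in
/-- Some positive power `≤ [F : K(u)]` of the valuation of any `f ≠ 0` is a power of the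
valuation of `u`. -/
theorem exists_pow_eq_zpow {u : F} (hu : u ∈ O) (hu' : u⁻¹ ∉ O) [FiniteDimensional K⟮u⟯ F]
    {f : F} (hf : f ≠ 0) :
    ∃ d : ℕ, 0 < d ∧ d ≤ Module.finrank K⟮u⟯ F ∧
      ∃ a : ℤ, O.valuation f ^ d = O.valuation u ^ a := by
  classical
  set n := Module.finrank K⟮u⟯ F with hn
  have hdep : ¬ LinearIndependent K⟮u⟯ (fun i : Fin (n + 1) => f ^ (i : ℕ)) := by
    intro hli
    have := hli.fintype_card_le_finrank
    rw [Fintype.card_fin] at this
    omega
  obtain ⟨c, hsum, i₁, hi₁⟩ := Fintype.not_linearIndependent_iff.mp hdep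
  have hne : ∃ i ∈ (Finset.univ : Finset (Fin (n + 1))), c i • f ^ (i : ℕ) ≠ 0 := by
    refine ⟨i₁, Finset.mem_univ _, ?_⟩
    rw [Algebra.smul_def]
    exact mul_ne_zero (by simpa using hi₁) (pow_ne_zero _ hf)
  obtain ⟨i, -, j, -, hij, hai, haj, hval⟩ :=
    exists_ne_valuation_eq O.valuation Finset.univ (fun i => c i • f ^ (i : ℕ)) hsum hne
  have hci : c i ≠ 0 := fun h => hai (by simp [h])
  have hcj : c j ≠ 0 := fun h => haj (by simp [h])
  obtain ⟨ai, hvi⟩ := exists_zpow_of_mem_adjoin O hK hu hu' (c i).2 (by simpa using hci)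
  obtain ⟨aj, hvj⟩ := exists_zpow_of_mem_adjoin O hK hu hu' (c j).2 (by simpa using hcj)
  have hu0 : O.valuation u ≠ 0 := by
    rw [Valuation.ne_zero_iff]
    rintro rfl
    exact hu' (by simp)
  have hf0 : O.valuation f ≠ 0 := (Valuation.ne_zero_iff _).mpr hf
  simp only [Algebra.smul_def, map_mul, map_pow] at hval
  have hvi' : O.valuation (algebraMap K⟮u⟯ F (c i)) = O.valuation u ^ ai := hvi
  have hvj' : O.valuation (algebraMap K⟮u⟯ F (c j)) = O.valuation u ^ aj := hvj
  rw [hvi', hvj'] at hval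
  -- wlog i < j
  have key : ∀ (i j : ℕ) (ai aj : ℤ), i < j → j ≤ n →
      O.valuation u ^ ai * O.valuation f ^ i = O.valuation u ^ aj * O.valuation f ^ j →
      ∃ d : ℕ, 0 < d ∧ d ≤ n ∧ ∃ a : ℤ, O.valuation f ^ d = O.valuation u ^ a := by
    intro i j ai aj hlt hjn h
    refine ⟨j - i, by omega, by omega, ai - aj, ?_⟩
    have hj : j = (j - i) + i := by omega
    rw [hj, pow_add] at h
    have hfi : O.valuation f ^ i ≠ 0 := pow_ne_zero _ hf0
    have h2 : O.valuation u ^ ai = O.valuation u ^ aj * O.valuation f ^ (j - i) :=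
      mul_right_cancel₀ hfi (h.trans (mul_assoc _ _ _).symm)
    have huaj : O.valuation u ^ aj ≠ 0 := zpow_ne_zero _ hu0
    rw [zpow_sub₀ hu0, h2, mul_comm (O.valuation u ^ aj), mul_div_assoc, div_self huaj, mul_one]
  have hi_le : (i : ℕ) ≤ n := Nat.lt_succ_iff.mp i.2
  have hj_le : (j : ℕ) ≤ n := Nat.lt_succ_iff.mp j.2
  rcases lt_or_gt_of_ne (fun h => hij (Fin.ext h) : (i : ℕ) ≠ j) with h | h
  · exact key i j ai aj h hj_le hval
  · exact key j i aj ai h hi_le hval.symm

include hK in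
theorem exists_factorial_pow_eq_zpow {u : F} (hu : u ∈ O) (hu' : u⁻¹ ∉ O)
    [FiniteDimensional K⟮u⟯ F] {f : F} (hf : f ≠ 0) :
    ∃ a : ℤ, O.valuation f ^ (Module.finrank K⟮u⟯ F).factorial = O.valuation u ^ a := by
  obtain ⟨d, hd0, hdn, a, h⟩ := exists_pow_eq_zpow O hK hu hu' hf
  obtain ⟨k, hk⟩ := Nat.dvd_factorial hd0 hdn
  refine ⟨a * k, ?_⟩
  rw [hk, pow_mul, h, zpow_mul, zpow_natCast]

include hK in
/-- **Discreteness.** A valuation ring of `F` containing `K`, with a nonzero non-unit `u` such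
that `F` is finite over `K(u)`, is a principal ideal ring. -/
theorem isPrincipalIdealRing_of_finite {u : F} (hu : u ∈ O) (hu' : u⁻¹ ∉ O)
    [FiniteDimensional K⟮u⟯ F] : IsPrincipalIdealRing O := by
  classical
  set M := (Module.finrank K⟮u⟯ F).factorial with hM
  have hM0 : M ≠ 0 := Nat.factorial_ne_zero _
  have hu0 : u ≠ 0 := by
    rintro rfl
    exact hu' (by simp)
  have hγ0 : O.valuation u ≠ 0 := (Valuation.ne_zero_iff _).mpr hu0
  have hγ1 : O.valuation u < 1 := by
    have h1 : O.valuation u ≤ 1 := (O.valuation_le_one_iff _).mpr hu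
    refine lt_of_le_of_ne h1 fun h => hu' ?_
    rw [← O.valuation_le_one_iff, map_inv₀, h, inv_one]
  -- integral elements have natural exponents
  have hnat : ∀ b : F, b ∈ O → b ≠ 0 → ∃ k : ℕ, O.valuation b ^ M = O.valuation u ^ k := by
    intro b hb hb0
    obtain ⟨a, ha⟩ := exists_factorial_pow_eq_zpow O hK hu hu' hb0
    rw [← hM] at ha
    have hle : O.valuation b ^ M ≤ 1 := pow_le_one₀ zero_le ((O.valuation_le_one_iff _).mpr hb)
    rcases le_or_gt 0 a with h0 | h0
    · refine ⟨a.toNat, ?_⟩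
      rw [ha, ← zpow_natCast, Int.toNat_of_nonneg h0]
    · exfalso
      rw [ha] at hle
      have h1 : O.valuation u ^ a = (O.valuation u ^ (-a).toNat)⁻¹ := by
        rw [← zpow_natCast, Int.toNat_of_nonneg (by omega), zpow_neg, inv_inv]
      have h2 : O.valuation u ^ (-a).toNat < 1 :=
        pow_lt_one₀ zero_le hγ1 (by omega)
      have h3 : 1 < (O.valuation u ^ (-a).toNat)⁻¹ :=
        (one_lt_inv₀ (zero_lt_iff.mpr (pow_ne_zero _ hγ0))).mpr h2
      rw [h1] at hle
      exact absurd hle (not_le.mpr h3)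
  refine ⟨fun I => ?_⟩
  by_cases hI : I = ⊥
  · rw [hI]; exact bot_isPrincipal
  have hex : ∃ k : ℕ, ∃ a ∈ I, a ≠ 0 ∧ O.valuation (a : F) ^ M = O.valuation u ^ k := by
    obtain ⟨a, haI, ha0⟩ := Submodule.exists_mem_ne_zero_of_ne_bot hI
    obtain ⟨k, hk⟩ := hnat a a.2 (by simpa using ha0)
    exact ⟨k, a, haI, ha0, hk⟩
  obtain ⟨a, haI, ha0, hak⟩ := Nat.find_spec hex
  refine ⟨⟨a, ?_⟩⟩
  apply le_antisymm
  · intro b hb
    rw [Submodule.mem_span_singleton]
    rcases eq_or_ne b 0 with rfl | hb0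
    · exact ⟨0, by simp⟩
    have haF : (a : F) ≠ 0 := by simpa using ha0
    have hbF : (b : F) ≠ 0 := by simpa using hb0
    obtain ⟨kb, hkb⟩ := hnat b b.2 hbF
    have hmin : Nat.find hex ≤ kb := Nat.find_min' hex ⟨b, hb, hb0, hkb⟩
    have hle : O.valuation (b : F) ^ M ≤ O.valuation (a : F) ^ M := by
      rw [hkb, hak]
      exact pow_le_pow_of_le_one zero_le hγ1.le hmin
    have hle' : O.valuation (b : F) ≤ O.valuation (a : F) :=
      (pow_le_pow_iff_left₀ zero_le zero_le hM0).mp hle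
    have hq : (b : F) / (a : F) ∈ O := by
      rw [← O.valuation_le_one_iff, map_div₀]
      exact (div_le_one₀ (zero_lt_iff.mpr ((Valuation.ne_zero_iff _).mpr haF))).mpr hle'
    refine ⟨⟨_, hq⟩, ?_⟩
    ext
    simp only [smul_eq_mul, MulMemClass.coe_mul]
    field_simp
  · rw [Submodule.span_le]
    simpa using haI

theorem ne_top_of_not_mem {u : F} (hu' : u⁻¹ ∉ O) : O ≠ ⊤ :=
  fun h => hu' (h ▸ ValuationSubring.mem_top _)

/-- The place of `F/K` defined by a valuation ring with a non-unit `u`, `[F : K(u)] < ∞`. -/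
noncomputable def placeOfValuationSubring {u : F} (hu : u ∈ O) (hu' : u⁻¹ ∉ O)
    [FiniteDimensional K⟮u⟯ F] : Place K F where
  toValuationSubring := O
  algebraMap_mem' := hK
  ne_top' := fun h => hu' (h ▸ ValuationSubring.mem_top _)
  isPrincipalIdealRing' := isPrincipalIdealRing_of_finite O hK hu hu'

@[simp]
theorem placeOfValuationSubring_toValuationSubring {u : F} (hu : u ∈ O) (hu' : u⁻¹ ∉ O)
    [FiniteDimensional K⟮u⟯ F] :
    (placeOfValuationSubring O hK hu hu').toValuationSubring = O := rfl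

end

end Fermat.Agent.S18.H504

end
-- ===== PACK-END S18/H504/ValDvr.lean

-- ===== PACK-BEGIN S18/H754/KummerSpec.lean
section


/-!
# S18, Route K, pieces b3 + b4 merged: the ETALE KUMMER COVER (helper754, squad S18/S34)

Mathlib-only.  Setting (one chart):

* `B` : Noetherian integrally closed domain (chart algebra of the model, over a DVR `A'`),
  `F = Frac B`, `ϖ ∈ B` a prime element (uniformiser of `A'`), and the special fibre `B/ϖ` is
  regular: every maximal ideal `𝔪 ∋ ϖ` is locally generated by `ϖ` and one more element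
  (this is the OUTPUT of b2: `B/ϖ` Dedekind).
* `u ∈ F`, `z ^ p = u` in an extension field `F'`, `p` prime and invertible in `B`,
  `u` is a unit at `ϖ` with `u ≡ 1 mod ϖ`, and at every height-one prime of `B` the element `u`
  is a unit times a `p`-th power (`p ∣ ord_v(u)` for all places).

Conclusions (no discriminant counting for the cover is needed: the cover is étale over the
regular chart because regular local rings of this shape are UFDs):

* `KummerLift`  : every Kummer idempotent `e_η = p⁻¹ ∑_{a<p} η^a z^a` (`η^p = 1`) is congruent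
  modulo `ϖ O'` to an element integral over `B` (`O'` = integral closure of `B_(ϖ)`).
* `KummerUnmixed` : if `c ∈ F(z)` is integral over `B` and `c ∈ ϖ O'` then `c/ϖ` is integral over `B`.
* `kummerIdem_*` : idempotency / orthogonality / nontriviality of the `e_η` modulo `ϖ O'`.
-/

set_option autoImplicit false

noncomputable section

namespace Fermat.Agent.S18.H754

open Polynomial

variable {B : Type*} [CommRing B] [IsDomain B]
  {F : Type*} [Field F] [Algebra B F] [IsFractionRing B F]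
  {F' : Type*} [Field F'] [Algebra F F'] [Algebra B F'] [IsScalarTower B F F']

/-- The Kummer idempotent candidate attached to `η` (a `p`-th root of unity in `B`). -/
def kummerIdem (p : ℕ) (η : B) (z : F') : F' :=
  (p : F')⁻¹ * ∑ a ∈ Finset.range p, algebraMap B F' (η ^ a) * z ^ a

/-- `y ∈ ϖ O'`, where `O'` is the integral closure of `B_(ϖ)` in `F'`, elementwise:
`s y = ϖ c` with `s ∈ B ∖ ϖB` and `c` integral over `B`. -/
def InPiO (ϖ : B) (y : F') : Prop :=
  ∃ s : B, s ∉ Ideal.span {ϖ} ∧ ∃ c : F', IsIntegral B c ∧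
    algebraMap B F' s * y = algebraMap B F' ϖ * c

/-- The special fibre is regular at every closed point: `𝔪 B_𝔪 = (ϖ, t)`. -/
def RegularAlong (ϖ : B) : Prop :=
  ∀ 𝔪 : Ideal B, 𝔪.IsMaximal → ϖ ∈ 𝔪 →
    ∃ t ∈ 𝔪, ∀ a ∈ 𝔪, ∃ s : B, s ∉ 𝔪 ∧ s * a ∈ Ideal.span {ϖ, t}

/-- `u` is a unit at `ϖ` and `u ≡ 1 mod ϖ`. -/
def OneModPi (ϖ : B) (u : F) : Prop :=
  ∃ a s : B, s ∉ Ideal.span {ϖ} ∧ a - s ∈ Ideal.span {ϖ} ∧
    u * algebraMap B F s = algebraMap B F a

/-- `p ∣ ord_𝔭 (u)` at every height-one prime `𝔭` of `B`, elementwise. -/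
def DivisibleDivisor (B : Type*) [CommRing B] {F : Type*} [Field F] [Algebra B F]
    (p : ℕ) (u : F) : Prop :=
  ∀ 𝔭 : Ideal B, 𝔭.IsPrime → 𝔭.height = 1 →
    ∃ t : F, ∃ a s : B, a ∉ 𝔭 ∧ s ∉ 𝔭 ∧ u * t ^ p * algebraMap B F s = algebraMap B F a

/-- STATEMENT of the lifting theorem. -/
def KummerLiftStatement : Prop :=
  ∀ (B : Type) [CommRing B] [IsDomain B] [IsNoetherianRing B] [IsIntegrallyClosed B]
    (F : Type) [Field F] [Algebra B F] [IsFractionRing B F]
    (F' : Type) [Field F'] [Algebra F F'] [Algebra B F'] [IsScalarTower B F F']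
    (ϖ : B) (_ : Prime ϖ) (_ : RegularAlong ϖ)
    (p : ℕ) (_ : p.Prime) (_ : IsUnit (p : B))
    (u : F) (z : F') (_ : z ^ p = algebraMap F F' u) (_ : ∀ y : F, y ^ p ≠ u)
    (_ : OneModPi ϖ u) (_ : DivisibleDivisor B p u)
    (η : B) (_ : η ^ p = 1),
    ∃ b : F', IsIntegral B b ∧ InPiO ϖ (b - kummerIdem p η z)

/-- STATEMENT of unmixedness of `ϖ` on the integral closure in `F(z)`. -/
def KummerUnmixedStatement : Prop :=
  ∀ (B : Type) [CommRing B] [IsDomain B] [IsNoetherianRing B] [IsIntegrallyClosed B]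
    (F : Type) [Field F] [Algebra B F] [IsFractionRing B F]
    (F' : Type) [Field F'] [Algebra F F'] [Algebra B F'] [IsScalarTower B F F']
    (ϖ : B) (_ : Prime ϖ) (_ : RegularAlong ϖ)
    (p : ℕ) (_ : p.Prime) (_ : IsUnit (p : B))
    (u : F) (z : F') (_ : z ^ p = algebraMap F F' u) (_ : ∀ y : F, y ^ p ≠ u)
    (_ : OneModPi ϖ u) (_ : DivisibleDivisor B p u)
    (c : F') (_ : c ∈ IntermediateField.adjoin F {z}) (_ : IsIntegral B c) (_ : InPiO ϖ c),
    ∃ c' : F', IsIntegral B c' ∧ c = algebraMap B F' ϖ * c'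

/-- STATEMENT: the Kummer idempotents are idempotent and orthogonal modulo `ϖ O'`, sum to one,
and none of them vanishes modulo `ϖ O'`. -/
def KummerIdemStatement : Prop :=
  ∀ (B : Type) [CommRing B] [IsDomain B] [IsIntegrallyClosed B]
    (F : Type) [Field F] [Algebra B F] [IsFractionRing B F]
    (F' : Type) [Field F'] [Algebra F F'] [Algebra B F'] [IsScalarTower B F F']
    (ϖ : B) (_ : Prime ϖ)
    (p : ℕ) (_ : p.Prime) (_ : IsUnit (p : B))
    (u : F) (z : F') (_ : z ^ p = algebraMap F F' u) (_ : ∀ y : F, y ^ p ≠ u)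
    (_ : OneModPi ϖ u),
    (∀ η : B, η ^ p = 1 → InPiO ϖ (kummerIdem p η z * kummerIdem p η z - kummerIdem p η z)) ∧
    (∀ η η' : B, η ^ p = 1 → η' ^ p = 1 → η ≠ η' →
      InPiO ϖ (kummerIdem p η z * kummerIdem p η' z)) ∧
    (∀ ζ : B, IsPrimitiveRoot ζ p →
      ∑ i ∈ Finset.range p, kummerIdem p (ζ ^ i) z = 1) ∧
    (∀ η : B, η ^ p = 1 → ¬ InPiO ϖ (kummerIdem p η z))

end Fermat.Agent.S18.H754

end

end
-- ===== PACK-END S18/H754/KummerSpec.lean

-- ===== PACK-BEGIN S18/H138/Charts.lean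
section


/-!
# S18, Route K, ASM (helper138): the three charts of the `x`-line model inside a field

`R` a commutative ring, `F` a field which is an `R`-algebra, `x : F`.  The *charts* are

* `chart R {x}`        : elements of `F` integral over `R[x]`        (`B_fin`),
* `chart R {x⁻¹}`      : elements of `F` integral over `R[x⁻¹]`      (`B_inf`),
* `chart R {x, x⁻¹}`   : elements of `F` integral over `R[x, x⁻¹]`   (`B_mid`).

This file proves the formal properties of the charts needed by the two-chart connectedness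
lemma (`H558.cech_connected`):

* `exists_pow_mul_mem_chart`   : `B_mid = B_fin[1/x]`,
* `exists_inv_pow_mul_mem_chart` : every element of `B_fin` lies in `x ^ D • B_inf`,
* `chart_inter_eq` (in `ChartsConst.lean`) : `B_fin ∩ B_inf = R`.
-/

set_option autoImplicit false
set_option linter.style.haveILetI false

namespace Fermat.Agent.S18.H138

open Polynomial

section Basic

variable (R : Type*) [CommRing R] {F : Type*} [Field F] [Algebra R F]

/-- The chart attached to `S ⊆ F`: the elements of `F` integral over `R[S]`. -/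
def chart (S : Set F) : Subalgebra R F :=
  (integralClosure (Algebra.adjoin R S) F).restrictScalars R

variable {R}

theorem mem_chart {S : Set F} {y : F} :
    y ∈ chart R S ↔ IsIntegral (Algebra.adjoin R S) y := Iff.rfl

theorem adjoin_le_chart (S : Set F) : Algebra.adjoin R S ≤ chart R S := by
  intro y hy
  rw [mem_chart]
  exact isIntegral_algebraMap (R := Algebra.adjoin R S) (x := ⟨y, hy⟩)

theorem mem_chart_of_mem {S : Set F} {y : F} (hy : y ∈ S) : y ∈ chart R S :=
  adjoin_le_chart S (Algebra.subset_adjoin hy)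

/-- Integrality over a smaller subalgebra implies integrality over a bigger one. -/
theorem isIntegral_of_le {A₁ A₂ : Subalgebra R F} (h : A₁ ≤ A₂) {y : F}
    (hy : IsIntegral A₁ y) : IsIntegral A₂ y := by
  have := IsIntegral.map_of_comp_eq (R := A₁) (S := F) (T := A₂) (U := F)
    (Subalgebra.inclusion h).toRingHom (RingHom.id F) (by ext; rfl) hy
  simpa using this

theorem chart_mono {S T : Set F} (h : S ⊆ T) : chart R S ≤ chart R T := fun _ hy =>
  isIntegral_of_le (Algebra.adjoin_mono h) hy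

end Basic

section Denominators

variable {R : Type*} [CommRing R] {F : Type*} [Field F] [Algebra R F]

/-- Clearing denominators in `R[x, x⁻¹]`. -/
theorem exists_pow_mul_mem_adjoin {x : F} (hx : x ≠ 0) {a : F}
    (ha : a ∈ Algebra.adjoin R ({x, x⁻¹} : Set F)) :
    ∃ K : ℕ, ∀ k : ℕ, K ≤ k → x ^ k * a ∈ Algebra.adjoin R ({x} : Set F) := by
  have hxA : x ∈ Algebra.adjoin R ({x} : Set F) := Algebra.subset_adjoin rfl
  induction ha using Algebra.adjoin_induction with
  | mem y hy =>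
    rcases hy with rfl | rfl
    · exact ⟨0, fun k _ => Subalgebra.mul_mem _ (Subalgebra.pow_mem _ hxA k) hxA⟩
    · refine ⟨1, fun k hk => ?_⟩
      obtain ⟨k, rfl⟩ : ∃ j, k = j + 1 := ⟨k - 1, by omega⟩
      rw [pow_succ, mul_assoc, mul_inv_cancel₀ hx, mul_one]
      exact Subalgebra.pow_mem _ hxA k
  | algebraMap r =>
    exact ⟨0, fun k _ => Subalgebra.mul_mem _ (Subalgebra.pow_mem _ hxA k)
      (Subalgebra.algebraMap_mem _ r)⟩
  | add y z _ _ hy hz =>
    obtain ⟨K₁, h₁⟩ := hy
    obtain ⟨K₂, h₂⟩ := hz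
    refine ⟨max K₁ K₂, fun k hk => ?_⟩
    rw [mul_add]
    exact Subalgebra.add_mem _ (h₁ k (le_trans (le_max_left _ _) hk))
      (h₂ k (le_trans (le_max_right _ _) hk))
  | mul y z _ _ hy hz =>
    obtain ⟨K₁, h₁⟩ := hy
    obtain ⟨K₂, h₂⟩ := hz
    refine ⟨K₁ + K₂, fun k hk => ?_⟩
    obtain ⟨j, rfl⟩ : ∃ j, k = K₁ + j := ⟨k - K₁, by omega⟩
    have : x ^ (K₁ + j) * (y * z) = (x ^ K₁ * y) * (x ^ j * z) := by ring
    rw [this]
    exact Subalgebra.mul_mem _ (h₁ K₁ le_rfl) (h₂ j (by omega))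

/-- `B_mid = B_fin[1/x]`: an element integral over `R[x, x⁻¹]` becomes integral over `R[x]`
after multiplication by a power of `x`. -/
theorem exists_pow_mul_mem_chart {x : F} (hx : x ≠ 0) {y : F}
    (hy : y ∈ chart R ({x, x⁻¹} : Set F)) :
    ∃ K : ℕ, x ^ K * y ∈ chart R ({x} : Set F) := by
  classical
  set Af : Subalgebra R F := Algebra.adjoin R ({x} : Set F) with hAf
  set Am : Subalgebra R F := Algebra.adjoin R ({x, x⁻¹} : Set F) with hAm
  have hle : Af ≤ Am := Algebra.adjoin_mono (by simp)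
  have hxA : x ∈ Af := Algebra.subset_adjoin rfl
  letI : Algebra Af Am := (Subalgebra.inclusion hle).toRingHom.toAlgebra
  haveI : IsScalarTower Af Am F := IsScalarTower.of_algebraMap_eq (fun _ => rfl)
  let xf : Af := ⟨x, hxA⟩
  haveI : IsLocalization (Submonoid.powers xf) Am := by
    rw [isLocalization_iff]
    refine ⟨?_, ?_, ?_⟩
    · rintro ⟨_, n, rfl⟩
      have hxinv : x⁻¹ ∈ Am := Algebra.subset_adjoin (by simp)
      refine IsUnit.of_mul_eq_one (⟨x⁻¹, hxinv⟩ ^ n) ?_
      apply Subtype.ext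
      change x ^ n * (x⁻¹) ^ n = 1
      rw [← mul_pow, mul_inv_cancel₀ hx, one_pow]
    · intro z
      obtain ⟨K, hK⟩ := exists_pow_mul_mem_adjoin (R := R) hx z.2
      refine ⟨⟨⟨x ^ K * z, hK K le_rfl⟩, ⟨xf ^ K, K, rfl⟩⟩, ?_⟩
      apply Subtype.ext
      change (z : F) * x ^ K = x ^ K * z
      ring
    · intro a b hab
      refine ⟨1, ?_⟩
      have : (a : F) = b := congrArg (fun t : Am => (t : F)) hab
      rw [Subtype.ext this]
  obtain ⟨⟨_, n, rfl⟩, hm⟩ :=
    IsIntegral.exists_multiple_integral_of_isLocalization (Submonoid.powers xf) (Rₘ := Am)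
      (S := F) y hy
  refine ⟨n, ?_⟩
  rw [mem_chart]
  have : (⟨xf ^ n, n, rfl⟩ : Submonoid.powers xf) • y = x ^ n * y := rfl
  rwa [this] at hm

/-- Every element of `B_fin` lies in `x ^ D • B_inf`. -/
theorem exists_inv_pow_mul_mem_chart {x : F} (hx : x ≠ 0) {y : F}
    (hy : y ∈ chart R ({x} : Set F)) :
    ∃ D : ℕ, x⁻¹ ^ D * y ∈ chart R ({x⁻¹} : Set F) := by
  have h1 : y ∈ chart R ({x⁻¹, x⁻¹⁻¹} : Set F) := by
    refine chart_mono ?_ hy
    rw [inv_inv]
    simp
  exact exists_pow_mul_mem_chart (inv_ne_zero hx) h1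

end Denominators

end Fermat.Agent.S18.H138

end
-- ===== PACK-END S18/H138/Charts.lean

-- ===== PACK-BEGIN S18/B12/Spec.lean
section


/-!
# S18, Route K, pieces b1 + b2 (squad S18/S33, squad-lead helper33) — FROZEN statements

Everything here is Mathlib-only commutative algebra.  Each `def … : Prop` below is a statement to be
proved as `theorem <name> : <Statement>` in `Fermat/Agent/S18/B12/<Owner>/…`.
See `coord/S18-b1b2.md` (branch `helper33`) for the mathematics and the proof of each piece.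

Notation: `R` = DVR `A'` with uniformiser `w`, fraction field `E` (char 0), residue field `k'`;
`B` = normal model, a finite `R[X]`-algebra (chart `B_fin`; the chart `B_inf` is the same thing with
`X = 1/x`).  `(Λ, t)` = a PID with a prime element (`(k'[X], x - c̄)` or `(E[X], x - c)`).
-/

set_option autoImplicit false

noncomputable section

namespace Fermat.Agent.S18.B12

open Polynomial

universe u v

/-- **b1 (regular sequence).**  `B` integrally closed domain, integral over `R[X]` (`R` integrally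
closed domain with `R[X]` integrally closed, e.g. a DVR), `w ≠ 0` a constant, `p` monic.
If `w * b = p * b'` in `B` then `b = p * b''` and `b' = w * b''`.
(So `p` is a non-zero-divisor on `B/wB` and `w` is a non-zero-divisor on `B/pB`.) -/
def RegSeqStatement : Prop :=
  ∀ (R : Type u) [CommRing R] [IsDomain R] [IsIntegrallyClosed R] [IsIntegrallyClosed R[X]]
    (B : Type v) [CommRing B] [IsDomain B] [IsIntegrallyClosed B] [Algebra R[X] B]
    [Algebra.IsIntegral R[X] B] [Module.IsTorsionFree R[X] B]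
    (w : R) (_ : w ≠ 0) (p : R[X]) (_ : p.Monic) (b b' : B),
    algebraMap R[X] B (C w) * b = algebraMap R[X] B p * b' →
    ∃ b'' : B, b = algebraMap R[X] B p * b'' ∧ b' = algebraMap R[X] B (C w) * b''

/-- **b1' (regular sequence, primitive version).**  Same with `p` primitive instead of monic
(`R` a DVR); needed for the primes `π` of `R[X]` in the branch-locus hypothesis. -/
def RegSeqPrimStatement : Prop :=
  ∀ (R : Type u) [CommRing R] [IsDomain R] [IsDiscreteValuationRing R]
    (B : Type v) [CommRing B] [IsDomain B] [IsIntegrallyClosed B] [Algebra R[X] B]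
    [Algebra.IsIntegral R[X] B] [Module.IsTorsionFree R[X] B]
    (w : R) (_ : w ≠ 0) (p : R[X]) (_ : p.IsPrimitive) (b b' : B),
    algebraMap R[X] B (C w) * b = algebraMap R[X] B p * b' →
    ∃ b'' : B, b = algebraMap R[X] B p * b'' ∧ b' = algebraMap R[X] B (C w) * b''

/-- **b2-ζ (reduced basis).**  A finite torsion-free algebra `R₁` over a DVR `R` has a family `y`
which is `R`-linearly independent modulo nilpotents and spans `R₁` modulo nilpotents
(`R₁ / nilradical` is finite free). -/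
def RedBasisStatement : Prop :=
  ∀ (R : Type u) [CommRing R] [IsDomain R] [IsPrincipalIdealRing R]
    (R₁ : Type v) [CommRing R₁] [Algebra R R₁] [Module.Finite R R₁] [Module.IsTorsionFree R R₁],
    ∃ (r : ℕ) (y : Fin r → R₁),
      (∀ a : Fin r → R, IsNilpotent (∑ i, a i • y i) → a = 0) ∧
      (∀ x : R₁, ∃ a : Fin r → R, IsNilpotent (x - ∑ i, a i • y i))

/-- **b2-SF (special fibre, two lattices).**  `Λ` a PID, `t` prime.  `C ≤ Ct` two `Λ`-subalgebras of
a commutative `Λ`-algebra `L`, both free of rank `n`.  If `(C/tC)_red` is spanned by `s` elements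
over `Λ/t` and `t ^ (n - s + 1)` does not divide `disc(C/Λ) ≠ 0`, then `C = Ct` locally at `t`. -/
def SFLatticeStatement : Prop :=
  ∀ (Λ : Type u) [CommRing Λ] [IsDomain Λ] [IsPrincipalIdealRing Λ] (t : Λ) (_ : Prime t)
    (L : Type v) [CommRing L] [Algebra Λ L] (C Ct : Subalgebra Λ L) (_ : C ≤ Ct)
    (n : ℕ) (b : Module.Basis (Fin n) Λ C) (_ : Module.Basis (Fin n) Λ Ct)
    (s : ℕ) (y : Fin s → C)
    (_ : ∀ x : C, ∃ a : Fin s → Λ,
        x - ∑ i, a i • y i ∈ (Ideal.span {algebraMap Λ C t}).radical),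
    Algebra.discr Λ b ≠ 0 → ¬ t ^ (n - s + 1) ∣ Algebra.discr Λ b →
    ∀ x ∈ Ct, ∃ g : Λ, ¬ t ∣ g ∧ g • x ∈ C

/-- **b2-SF' (special fibre, idempotent form).**  Same hypotheses on `C`; `ε ∈ L` idempotent with
`g₀ • ε ∈ C` for some `g₀ ≠ 0`, `L` torsion-free over `Λ`.  Then `g • ε ∈ C` for some `g ∉ (t)`. -/
def SFIdemStatement : Prop :=
  ∀ (Λ : Type u) [CommRing Λ] [IsDomain Λ] [IsPrincipalIdealRing Λ] (t : Λ) (_ : Prime t)
    (L : Type v) [CommRing L] [Algebra Λ L] [Module.IsTorsionFree Λ L] (C : Subalgebra Λ L)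
    (n : ℕ) (b : Module.Basis (Fin n) Λ C)
    (s : ℕ) (y : Fin s → C)
    (_ : ∀ x : C, ∃ a : Fin s → Λ,
        x - ∑ i, a i • y i ∈ (Ideal.span {algebraMap Λ C t}).radical),
    Algebra.discr Λ b ≠ 0 → ¬ t ^ (n - s + 1) ∣ Algebra.discr Λ b →
    ∀ ε : L, ε * ε = ε → (∃ g₀ : Λ, g₀ ≠ 0 ∧ g₀ • ε ∈ C) → ∃ g : Λ, ¬ t ∣ g ∧ g • ε ∈ C

/-- **b2-α (tame discriminant).**  `Λ` a PID, `t` prime with residue field of characteristic `0`
(`ℚ ⊆ Λ`).  `C₀` a Dedekind domain, finite free over `Λ` of rank `n` with basis `β`.  If `y` is a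
family of `r` elements of `C₀` that is `Λ/t`-linearly independent modulo `rad(t C₀)`, then
`t ^ (n - r + 1)` does not divide `disc(β)`.
(Char 0 ⇒ tame: the exponent of `t` in the discriminant is exactly `n - dim (C₀/t)_red`.) -/
def TameDiscrStatement : Prop :=
  ∀ (Λ : Type u) [CommRing Λ] [IsDomain Λ] [IsPrincipalIdealRing Λ] [Algebra ℚ Λ]
    (t : Λ) (_ : Prime t)
    (C₀ : Type v) [CommRing C₀] [IsDomain C₀] [IsDedekindDomain C₀] [Algebra Λ C₀]
    [Module.IsTorsionFree Λ C₀]
    (n : ℕ) (β : Module.Basis (Fin n) Λ C₀) (r : ℕ) (y : Fin r → C₀)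
    (_ : ∀ a : Fin r → Λ,
        (∑ i, a i • y i) ∈ (Ideal.span {algebraMap Λ C₀ t}).radical → ∀ i, t ∣ a i),
    ¬ t ^ (n - r + 1) ∣ Algebra.discr Λ β

/-- **b2 (normality of the special fibre; TOP LEVEL of this squad).**
`R` DVR of characteristic 0, uniformiser `w`; `B` an integrally closed domain, finite over `R[X]`.
* `hsep`: some `n`-tuple of `B` (`n` = generic degree) has discriminant `≢ 0 mod w`
  (the special fibre is generically étale over `k'[x]`);
* `S`: the finite branch values, pairwise distinct mod `w`;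
* `hNC`: for every prime `π` of `R[X]` other than `w` and the `X - c`, `c ∈ S`, the fibre `B/πB`
  is reduced (`F/E(x)` is unramified outside `S ∪ {∞}`).
Conclusion: every idempotent `b/g` of the total fraction ring of `B/wB` lies in `B/wB`. -/
def B2Statement : Prop :=
  ∀ (R : Type u) [CommRing R] [IsDomain R] [IsDiscreteValuationRing R] [CharZero R]
    (w : R) (_ : Irreducible w)
    (B : Type v) [CommRing B] [IsDomain B] [IsIntegrallyClosed B] [Algebra R[X] B]
    [Module.Finite R[X] B] [Module.IsTorsionFree R[X] B]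
    (_ : ∃ x : Fin (Module.finrank R[X] B) → B,
        ¬ C w ∣ (Matrix.of fun i j => Algebra.intTrace R[X] B (x i * x j)).det)
    (S : Finset R) (_ : ∀ c ∈ S, ∀ c' ∈ S, c ≠ c' → IsUnit (c - c'))
    (_ : ∀ π : R[X], Prime π → ¬ Associated π (C w) → (∀ c ∈ S, ¬ Associated π (X - C c)) →
        (Ideal.span {algebraMap R[X] B π}).IsRadical)
    (b : B) (g : R[X]), ¬ C w ∣ g →
      b ^ 2 - algebraMap R[X] B g * b ∈ Ideal.span {algebraMap R[X] B (C w)} →
      ∃ b₀ : B, b - algebraMap R[X] B g * b₀ ∈ Ideal.span {algebraMap R[X] B (C w)}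

end Fermat.Agent.S18.B12

end
end
-- ===== PACK-END S18/B12/Spec.lean

-- ===== PACK-BEGIN S18/H394/Graded.lean
section


/-!
# S18, Route K, pieces b3+b4 (helper394): the graded Kummer algebra

`C` is a commutative `F`-algebra with a power basis `1, T, …, T^(m-1)` and `T ^ m = u`
(think `C = F[T]/(T^m - u)`).  For a subalgebra `B ⊆ F` which is `m`-root closed
(`f ^ m ∈ B → f ∈ B`) we define

  `kummerSub B = { ∑ fᵢ Tⁱ | fᵢ ^ m * u ^ i ∈ B }`

and show that it is a subalgebra of `C` (it is the integral closure of `B` in `C` when `B` is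
normal, but we never need that).
-/

set_option autoImplicit false

namespace Fermat.Agent.S18.H394

open Polynomial

section RootSets

variable {R F : Type*} [CommRing R] [Field F] [Algebra R F]

/-- `B` is closed under `m`-th roots taken in `F`. -/
def RootClosed (m : ℕ) (B : Subalgebra R F) : Prop := ∀ f : F, f ^ m ∈ B → f ∈ B

/-- `degSet B m u n = {f | f ^ m * u ^ n ∈ B}`: the coefficients allowed in degree `n`. -/
def degSet (B : Subalgebra R F) (m : ℕ) (u : F) (n : ℕ) : Set F := {f | f ^ m * u ^ n ∈ B}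

variable {B : Subalgebra R F} {m : ℕ} {u : F}

theorem mem_degSet {n : ℕ} {f : F} : f ∈ degSet B m u n ↔ f ^ m * u ^ n ∈ B := Iff.rfl

theorem zero_mem_degSet (hm : 0 < m) (n : ℕ) : (0 : F) ∈ degSet B m u n := by
  rw [mem_degSet, zero_pow hm.ne', zero_mul]
  exact B.zero_mem

theorem neg_mem_degSet {n : ℕ} {f : F} (hf : f ∈ degSet B m u n) : -f ∈ degSet B m u n := by
  rw [mem_degSet] at hf ⊢
  rcases Nat.even_or_odd m with h | h
  · rwa [h.neg_pow]
  · rw [h.neg_pow, neg_mul]
    exact B.neg_mem hf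

theorem mul_mem_degSet {i j : ℕ} {f g : F} (hf : f ∈ degSet B m u i) (hg : g ∈ degSet B m u j) :
    f * g ∈ degSet B m u (i + j) := by
  rw [mem_degSet] at hf hg ⊢
  have : (f * g) ^ m * u ^ (i + j) = (f ^ m * u ^ i) * (g ^ m * u ^ j) := by ring
  rw [this]
  exact B.mul_mem hf hg

theorem smul_mem_degSet {n : ℕ} {b f : F} (hb : b ∈ B) (hf : f ∈ degSet B m u n) :
    b * f ∈ degSet B m u n := by
  rw [mem_degSet] at hf ⊢
  have : (b * f) ^ m * u ^ n = b ^ m * (f ^ m * u ^ n) := by ring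
  rw [this]
  exact B.mul_mem (B.pow_mem hb m) hf

theorem mem_degSet_zero_of_mem {b : F} (hb : b ∈ B) : b ∈ degSet B m u 0 := by
  rw [mem_degSet, pow_zero, mul_one]
  exact B.pow_mem hb m

theorem mem_of_mem_degSet_zero (hB : RootClosed m B) {b : F} (hb : b ∈ degSet B m u 0) :
    b ∈ B := by
  rw [mem_degSet, pow_zero, mul_one] at hb
  exact hB b hb

theorem mul_pow_mem_degSet {q r : ℕ} {f : F} (hf : f ∈ degSet B m u (q * m + r)) :
    f * u ^ q ∈ degSet B m u r := by
  rw [mem_degSet] at hf ⊢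
  have : (f * u ^ q) ^ m * u ^ r = f ^ m * u ^ (q * m + r) := by ring
  rwa [this]

theorem degSet_mono {B B' : Subalgebra R F} (h : B ≤ B') (n : ℕ) :
    degSet B m u n ⊆ degSet B' m u n := fun _ hf => h hf

/-- The key point: `degSet` is closed under addition when `B` is `m`-root closed. -/
theorem add_mem_degSet (hB : RootClosed m B) {n : ℕ} {f g : F}
    (hf : f ∈ degSet B m u n) (hg : g ∈ degSet B m u n) : f + g ∈ degSet B m u n := by
  rw [mem_degSet] at hf hg ⊢
  rw [add_pow, Finset.sum_mul]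
  refine B.sum_mem fun a ha => ?_
  have ham : a ≤ m := Nat.lt_succ_iff.mp (Finset.mem_range.mp ha)
  have hroot : f ^ a * g ^ (m - a) * u ^ n ∈ B := by
    apply hB
    have : (f ^ a * g ^ (m - a) * u ^ n) ^ m
        = (f ^ m * u ^ n) ^ a * (g ^ m * u ^ n) ^ (m - a) := by
      have h1 : (u ^ n) ^ m = (u ^ n) ^ a * (u ^ n) ^ (m - a) := by
        rw [← pow_add, Nat.add_sub_cancel' ham]
      calc (f ^ a * g ^ (m - a) * u ^ n) ^ m
          = (f ^ m) ^ a * (g ^ m) ^ (m - a) * (u ^ n) ^ m := by ring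
        _ = (f ^ m) ^ a * (g ^ m) ^ (m - a) * ((u ^ n) ^ a * (u ^ n) ^ (m - a)) := by rw [h1]
        _ = (f ^ m * u ^ n) ^ a * (g ^ m * u ^ n) ^ (m - a) := by ring
    rw [this]
    exact B.mul_mem (B.pow_mem hf _) (B.pow_mem hg _)
  have : f ^ a * g ^ (m - a) * (m.choose a : F) * u ^ n
      = (m.choose a : F) * (f ^ a * g ^ (m - a) * u ^ n) := by ring
  rw [this]
  exact B.mul_mem (natCast_mem B _) hroot

theorem sum_mem_degSet (hB : RootClosed m B) (hm : 0 < m) {n : ℕ} {ι : Type*} (s : Finset ι)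
    (f : ι → F) (hf : ∀ i ∈ s, f i ∈ degSet B m u n) : ∑ i ∈ s, f i ∈ degSet B m u n := by
  classical
  induction s using Finset.induction_on with
  | empty => simpa using zero_mem_degSet (B := B) (u := u) hm n
  | insert a s ha ih =>
    rw [Finset.sum_insert ha]
    exact add_mem_degSet hB (hf a (Finset.mem_insert_self a s))
      (ih fun i hi => hf i (Finset.mem_insert_of_mem hi))

end RootSets

section Coeff

variable {F C : Type*} [Field F] [CommRing C] [Algebra F C]
variable (pb : PowerBasis F C) {u : F}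

/-- The `k`-th coefficient of `c` in the power basis. -/
noncomputable def co (k : Fin pb.dim) : C →ₗ[F] F :=
  (Finsupp.lapply k).comp pb.basis.repr.toLinearMap

theorem co_apply (k : Fin pb.dim) (c : C) : co pb k c = pb.basis.repr c k := rfl

theorem sum_co (c : C) : ∑ k : Fin pb.dim, algebraMap F C (co pb k c) * pb.gen ^ (k : ℕ) = c := by
  conv_rhs => rw [← pb.basis.sum_repr c]
  refine Finset.sum_congr rfl fun k _ => ?_
  rw [co_apply, pb.basis_eq_pow, Algebra.smul_def]

theorem gen_pow_eq (hT : pb.gen ^ pb.dim = algebraMap F C u) (q r : ℕ) :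
    pb.gen ^ (q * pb.dim + r) = algebraMap F C (u ^ q) * pb.gen ^ r := by
  rw [pow_add, mul_comm q, pow_mul, hT, map_pow]

theorem co_monomial (hT : pb.gen ^ pb.dim = algebraMap F C u) (f : F) (q : ℕ)
    (r k : Fin pb.dim) :
    co pb k (algebraMap F C f * pb.gen ^ (q * pb.dim + (r : ℕ))) = if r = k then f * u ^ q else 0 := by
  classical
  rw [gen_pow_eq pb hT, ← mul_assoc, ← map_mul, ← Algebra.smul_def, ← pb.basis_eq_pow, co_apply,
    map_smul, pb.basis.repr_self, Finsupp.smul_apply, Finsupp.single_apply, smul_eq_mul]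
  split_ifs <;> simp

theorem co_algebraMap_mul (f : F) (c : C) (k : Fin pb.dim) :
    co pb k (algebraMap F C f * c) = f * co pb k c := by
  rw [← Algebra.smul_def, map_smul, smul_eq_mul]

end Coeff

section KummerSub

variable {R F C : Type*} [CommRing R] [Field F] [Algebra R F] [CommRing C] [Algebra F C]
  [Algebra R C] [IsScalarTower R F C]
variable (pb : PowerBasis F C) {u : F}

/-- Coefficients of a monomial `f * T ^ n` (any `n`) with `f` allowed in degree `n` are allowed. -/
theorem co_monomial_mem (hT : pb.gen ^ pb.dim = algebraMap F C u) (hm : 0 < pb.dim)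
    {B : Subalgebra R F} {n : ℕ} {f : F}
    (hf : f ∈ degSet B pb.dim u n) (k : Fin pb.dim) :
    co pb k (algebraMap F C f * pb.gen ^ n) ∈ degSet B pb.dim u k := by
  have hn : n = n / pb.dim * pb.dim + ((⟨n % pb.dim, Nat.mod_lt _ hm⟩ : Fin pb.dim) : ℕ) := by
    simp only
    rw [mul_comm]
    exact (Nat.div_add_mod n pb.dim).symm
  have hco := co_monomial pb hT f (n / pb.dim) ⟨n % pb.dim, Nat.mod_lt _ hm⟩ k
  rw [← hn] at hco
  rw [hco]
  split_ifs with h
  · subst h
    apply mul_pow_mem_degSet (q := n / pb.dim)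
    simp only
    rw [mul_comm, Nat.div_add_mod]
    exact hf
  · exact zero_mem_degSet hm _

variable (u) in
/-- The graded Kummer subalgebra attached to a root-closed subalgebra `B ⊆ F`. -/
noncomputable def kummerSub (hT : pb.gen ^ pb.dim = algebraMap F C u) (hm : 0 < pb.dim)
    (B : Subalgebra R F) (hB : RootClosed pb.dim B) : Subalgebra R C where
  carrier := {c | ∀ k : Fin pb.dim, co pb k c ∈ degSet B pb.dim u k}
  zero_mem' := fun k => by
    rw [map_zero]
    exact zero_mem_degSet hm _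
  add_mem' := fun {a b} ha hb k => by
    rw [map_add]
    exact add_mem_degSet hB (ha k) (hb k)
  one_mem' := fun k => by
    have h1 : (1 : C) = algebraMap F C 1 * pb.gen ^ 0 := by simp
    rw [h1]
    exact co_monomial_mem pb hT hm (mem_degSet_zero_of_mem B.one_mem) k
  mul_mem' := fun {a b} ha hb k => by
    have hab : a * b = ∑ i : Fin pb.dim, ∑ j : Fin pb.dim,
        algebraMap F C (co pb i a * co pb j b) * pb.gen ^ ((i : ℕ) + (j : ℕ)) := by
      conv_lhs => rw [← sum_co pb a, ← sum_co pb b, Finset.sum_mul_sum]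
      refine Finset.sum_congr rfl fun i _ => Finset.sum_congr rfl fun j _ => ?_
      rw [map_mul, pow_add]
      ring
    rw [hab, map_sum]
    refine sum_mem_degSet hB hm _ _ fun i _ => ?_
    rw [map_sum]
    refine sum_mem_degSet hB hm _ _ fun j _ => ?_
    exact co_monomial_mem pb hT hm (mul_mem_degSet (ha i) (hb j)) k
  algebraMap_mem' := fun r k => by
    have h1 : algebraMap R C r = algebraMap F C (algebraMap R F r) * pb.gen ^ 0 := by
      rw [pow_zero, mul_one, ← IsScalarTower.algebraMap_apply]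
    rw [h1]
    exact co_monomial_mem pb hT hm (mem_degSet_zero_of_mem (B.algebraMap_mem r)) k

variable {pb}

theorem mem_kummerSub {hT : pb.gen ^ pb.dim = algebraMap F C u} {hm : 0 < pb.dim}
    {B : Subalgebra R F} {hB : RootClosed pb.dim B} {c : C} :
    c ∈ kummerSub pb u hT hm B hB ↔ ∀ k : Fin pb.dim, co pb k c ∈ degSet B pb.dim u k :=
  Iff.rfl

theorem monomial_mem_kummerSub (hT : pb.gen ^ pb.dim = algebraMap F C u) (hm : 0 < pb.dim)
    {B : Subalgebra R F} (hB : RootClosed pb.dim B) {n : ℕ} {f : F}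
    (hf : f ∈ degSet B pb.dim u n) :
    algebraMap F C f * pb.gen ^ n ∈ kummerSub pb u hT hm B hB :=
  fun k => co_monomial_mem pb hT hm hf k

theorem algebraMap_mem_kummerSub (hT : pb.gen ^ pb.dim = algebraMap F C u) (hm : 0 < pb.dim)
    {B : Subalgebra R F} (hB : RootClosed pb.dim B) {b : F} (hb : b ∈ B) :
    algebraMap F C b ∈ kummerSub pb u hT hm B hB := by
  have := monomial_mem_kummerSub hT hm hB (n := 0) (mem_degSet_zero_of_mem (m := pb.dim) (u := u) hb)
  simpa using this

theorem kummerSub_mono (hT : pb.gen ^ pb.dim = algebraMap F C u) (hm : 0 < pb.dim)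
    {B B' : Subalgebra R F} (hB : RootClosed pb.dim B) (hB' : RootClosed pb.dim B')
    (h : B ≤ B') : kummerSub pb u hT hm B hB ≤ kummerSub pb u hT hm B' hB' :=
  fun _ hc k => degSet_mono h _ (hc k)

end KummerSub

end Fermat.Agent.S18.H394

end
-- ===== PACK-END S18/H394/Graded.lean

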