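import Mathlib
import Fermat.Prelude.Def_ModularCurve_LaurentCoeff
import Fermat.Prelude.Def_ModularCurve_ReductionModL
import Mathlib.NumberTheory.ModularForms.CongruenceSubgroups
import Mathlib.LinearAlgebra.Matrix.SpecialLinearGroup
import Mathlib.GroupTheory.GroupAction.Quotient
import Mathlib.Data.ZMod.Basic
import Fermat.Prelude.Def_ModularCurve_GenusNumerics
import Mathlib.Tactic.Ring
import Mathlib.Tactic.LinearCombination
import Mathlib.Algebra.Ring.Hom.Defs
import Mathlib.Algebra.Algebra.Defs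
import Mathlib.Data.Nat.Cast.Basic
import Mathlib.Algebra.Order.Ring.Nat
import Mathlib.Data.Int.Cast.Lemmas
import Mathlib.RingTheory.Idempotents
import Mathlib.RingTheory.Ideal.Quotient.Operations
import Mathlib.RingTheory.Ideal.Span
import Mathlib.RingTheory.Noetherian.Basic
import Mathlib.Algebra.Algebra.Subalgebra.Basic
import Fermat.Agent.Pack.S3234.G0E0L0

-- ===== PACK-BEGIN Lib/Cheb/H764/Count.lean
section



/-!
# CHEB / piece A: `Spec.CountStatement`

For a Galois number field `L/ℚ`, a subgroup `H ≤ Gal(L/ℚ)`, `F = L^H` and a prime `p` not dividing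
the discriminant of `L`:
`#{primes of 𝓞 F of norm p} * |H| = ∑_{P ∣ p, D_P ≤ H} |D_P|`.
-/

set_option autoImplicit false
set_option linter.unusedSectionVars false
set_option linter.unusedVariables false
set_option linter.style.haveILetI false

open NumberField Ideal MulAction
open scoped Pointwise

namespace Fermat.Agent.Lib.Cheb.H764

open Fermat.Agent.Lib.Cheb.Spec

section

variable (L : Type) [Field L] [NumberField L] [IsGalois ℚ L]

/-- the bad set: primes dividing the discriminant -/
noncomputable def badPrimes : Finset ℕ := (NumberField.discr L).natAbs.primeFactors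

lemma not_dvd_discr_of_not_mem_badPrimes {p : ℕ} (hp : p.Prime) (hpB : p ∉ badPrimes L) :
    ¬ (p : ℤ) ∣ NumberField.discr L := by
  intro h
  apply hpB
  rw [badPrimes, Nat.mem_primeFactors]
  refine ⟨hp, ?_, ?_⟩
  · exact Int.natCast_dvd.mp h
  · exact Int.natAbs_ne_zero.mpr (NumberField.discr_ne_zero L)

lemma liesOver_of_mem {F : Type} [Field F] [NumberField F] {p : ℕ} (hp : p.Prime)
    (P : Ideal (𝓞 F)) [P.IsPrime] (hP : (p : 𝓞 F) ∈ P) :
    P.LiesOver (Ideal.span {(p : ℤ)}) := by
  have hp' : Prime (p : ℤ) := Nat.prime_iff_prime_int.mp hp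
  rw [Ideal.liesOver_span_iff (IsPrime.ne_top inferInstance) hp']
  simpa using hP

lemma mem_of_liesOver {F : Type} [Field F] [NumberField F] {p : ℕ} (hp : p.Prime)
    (P : Ideal (𝓞 F)) [P.IsPrime] [hP : P.LiesOver (Ideal.span {(p : ℤ)})] :
    (p : 𝓞 F) ∈ P := by
  have hp' : Prime (p : ℤ) := Nat.prime_iff_prime_int.mp hp
  have := (Ideal.liesOver_span_iff (IsPrime.ne_top inferInstance) hp').mp hP
  simpa using this

lemma ramificationIdx_eq_one_of_not_mem_badPrimes {p : ℕ} (hp : p.Prime) (hpB : p ∉ badPrimes L)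
    (P : Ideal (𝓞 L)) [P.IsPrime] (hP : (p : 𝓞 L) ∈ P) : P.ramificationIdx ℤ = 1 := by
  have hp' : Prime (p : ℤ) := Nat.prime_iff_prime_int.mp hp
  have h := (NumberField.not_dvd_discr_iff_forall_mem L (𝓞 L) hp').mp
    (not_dvd_discr_of_not_mem_badPrimes L hp hpB) P inferInstance (by simpa using hP)
  exact Ideal.ramificationIdx_eq_one_of_isUnramifiedAt

end

section main

variable (L : Type) [Field L] [NumberField L] [IsGalois ℚ L] (H : Subgroup (L ≃ₐ[ℚ] L))

lemma isGaloisGroup_fixedField :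
    IsGaloisGroup H (IntermediateField.fixedField H) L :=
  IsGaloisGroup.subgroup (L ≃ₐ[ℚ] L) ℚ L H

lemma isGaloisGroup_ringOfIntegers :
    IsGaloisGroup H (𝓞 (IntermediateField.fixedField H)) (𝓞 L) := by
  haveI := isGaloisGroup_fixedField L H
  exact IsGaloisGroup.of_isFractionRing H (𝓞 (IntermediateField.fixedField H)) (𝓞 L)
    (IntermediateField.fixedField H) L

lemma span_isPrime {p : ℕ} (hp : p.Prime) : (Ideal.span {(p : ℤ)}).IsPrime :=
  (Ideal.span_singleton_prime (by exact_mod_cast hp.ne_zero)).mpr (Nat.prime_iff_prime_int.mp hp)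

/-- data attached to a prime `𝔮` of `𝓞 F` of norm `p` -/
lemma ef_eq_one_of_absNorm_eq {p : ℕ} (hp : p.Prime) (hpB : p ∉ badPrimes L)
    (q : Ideal (𝓞 (IntermediateField.fixedField H))) [q.IsPrime] (hq : absNorm q = p) :
    q.LiesOver (Ideal.span {(p : ℤ)}) ∧ q.ramificationIdx ℤ * q.inertiaDeg ℤ = 1 := by
  have hmem : (p : 𝓞 (IntermediateField.fixedField H)) ∈ q := by
    have := Ideal.absNorm_mem q
    rwa [hq] at this
  haveI hlo : q.LiesOver (Ideal.span {(p : ℤ)}) := liesOver_of_mem hp q hmem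
  refine ⟨hlo, ?_⟩
  have hf : q.inertiaDeg ℤ = 1 := by
    have h1 := Ideal.pow_inertiaDeg p q
    rw [hq] at h1
    exact Nat.pow_right_injective hp.two_le (by simpa using h1)
  obtain ⟨⟨P, hP1, hP2⟩⟩ := (inferInstance : Nonempty (q.primesOver (𝓞 L)))
  haveI := hP1
  haveI := hP2
  have hPmem : (p : 𝓞 L) ∈ P := by
    have h2 : algebraMap (𝓞 (IntermediateField.fixedField H)) (𝓞 L)
        (p : 𝓞 (IntermediateField.fixedField H)) ∈ P := by
      rw [← Ideal.mem_comap, ← Ideal.under_def, ← Ideal.over_def P q]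
      exact hmem
    simpa using h2
  have he := ramificationIdx_eq_one_of_not_mem_badPrimes L hp hpB P hPmem
  rw [Ideal.ramificationIdx_tower (R := ℤ) q P] at he
  rw [hf, mul_one]
  exact Nat.eq_one_of_mul_eq_one_right he

/-- a prime `P` of `𝓞 L` over `p` with `D_P ≤ H` restricts to a prime of `𝓞 F` of norm `p` -/
lemma absNorm_under_eq {p : ℕ} (hp : p.Prime)
    (P : Ideal (𝓞 L)) [P.IsPrime] (hP : (p : 𝓞 L) ∈ P)
    (hle : stabilizer (L ≃ₐ[ℚ] L) P ≤ H) :
    (P.under (𝓞 (IntermediateField.fixedField H))).IsPrime ∧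
      absNorm (P.under (𝓞 (IntermediateField.fixedField H))) = p := by
  haveI := isGaloisGroup_ringOfIntegers L H
  haveI := span_isPrime hp
  haveI : P.LiesOver (Ideal.span {(p : ℤ)}) := liesOver_of_mem hp P hP
  haveI hqp : (P.under (𝓞 (IntermediateField.fixedField H))).IsPrime := inferInstance
  haveI : (P.under (𝓞 (IntermediateField.fixedField H))).LiesOver (Ideal.span {(p : ℤ)}) :=
    LiesOver.tower_bot P _ _
  refine ⟨hqp, ?_⟩
  have h1 := (ramificationIdx_mul_inertiaDeg_eq_one_iff (G := L ≃ₐ[ℚ] L) H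
    (Ideal.span {(p : ℤ)}) (P.under (𝓞 (IntermediateField.fixedField H))) P).mpr hle
  have hf : (P.under (𝓞 (IntermediateField.fixedField H))).inertiaDeg ℤ = 1 :=
    Nat.eq_one_of_mul_eq_one_left h1
  have h2 := Ideal.pow_inertiaDeg p (P.under (𝓞 (IntermediateField.fixedField H)))
  rw [hf, pow_one] at h2
  exact h2.symm

/-- **Piece A**, for primes not dividing the discriminant. -/
theorem count_of_not_mem_badPrimes {p : ℕ} (hp : p.Prime) (hpB : p ∉ badPrimes L) :
    primeCount (IntermediateField.fixedField H) p * Nat.card H = decompWeight L H p := by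
  classical
  haveI := isGaloisGroup_ringOfIntegers L H
  haveI := span_isPrime hp
  have hfinT : {q : Ideal (𝓞 (IntermediateField.fixedField H)) |
      q.IsPrime ∧ absNorm q = p}.Finite :=
    (Ideal.finite_setOf_absNorm_eq p).subset (fun q h => h.2)
  have hfinS : (primesLe L H p).Finite := by
    refine Set.Finite.subset
      (Algebra.QuasiFinite.finite_primesOver (S := 𝓞 L) (Ideal.span {(p : ℤ)})) ?_
    rintro P ⟨hP1, hP2, -⟩
    haveI := hP1
    exact ⟨hP1, liesOver_of_mem hp P hP2⟩
  -- the left-hand side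
  have hL : primeCount (IntermediateField.fixedField H) p = hfinT.toFinset.card := by
    rw [← Set.ncard_eq_toFinset_card _ hfinT, ← Nat.card_coe_set_eq]
    rfl
  -- the right-hand side
  have hR : decompWeight L H p = ∑ P ∈ hfinS.toFinset, Nat.card (decomp L P) := by
    rw [decompWeight, finsum_set_coe_eq_finsum_mem (f := fun P => Nat.card (decomp L P)),
      finsum_mem_eq_finite_toFinset_sum _ hfinS]
  rw [hL, hR]
  have hmaps : ∀ P ∈ hfinS.toFinset,
      P.under (𝓞 (IntermediateField.fixedField H)) ∈ hfinT.toFinset := by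
    intro P hP
    rw [Set.Finite.mem_toFinset] at hP ⊢
    obtain ⟨hP1, hP2, hP3⟩ := hP
    haveI := hP1
    exact absNorm_under_eq L H hp P hP2 hP3
  rw [← Finset.sum_fiberwise_of_maps_to hmaps, Finset.card_eq_sum_ones, Finset.sum_mul]
  refine Finset.sum_congr rfl fun q hq => ?_
  rw [Set.Finite.mem_toFinset] at hq
  obtain ⟨hq1, hq2⟩ := hq
  haveI := hq1
  obtain ⟨hlo, hef⟩ := ef_eq_one_of_absNorm_eq L H hp hpB q hq2
  haveI := hlo
  rw [one_mul, ← finsum_card_stabilizer_primesOver (G := L ≃ₐ[ℚ] L) H (Ideal.span {(p : ℤ)}) q hef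
    (Algebra.QuasiFinite.finite_primesOver (S := 𝓞 L) q) Set.Nonempty.of_subtype,
    ← finsum_mem_coe_finset]
  refine finsum_mem_congr ?_ (fun _ _ => rfl)
  ext P
  rw [Finset.coe_filter, Set.mem_setOf_eq, Set.Finite.mem_toFinset]
  constructor
  · intro hP
    have hP1 : P.IsPrime := hP.1
    have hP2 : P.LiesOver q := hP.2
    haveI := hP1
    haveI := hP2
    haveI : P.LiesOver (Ideal.span {(p : ℤ)}) := LiesOver.trans P q _
    refine ⟨⟨hP1, mem_of_liesOver hp P, ?_⟩, (Ideal.over_def P q).symm⟩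
    exact (ramificationIdx_mul_inertiaDeg_eq_one_iff (G := L ≃ₐ[ℚ] L) H
      (Ideal.span {(p : ℤ)}) q P).mp hef
  · rintro ⟨hP, hP4⟩
    exact ⟨hP.1, ⟨hP4.symm⟩⟩

/-- **Piece A** of the CHEB library: `Spec.CountStatement`. -/
theorem count : Spec.CountStatement := by
  intro L _ _ _ H
  exact ⟨badPrimes L, fun p hp hpB => count_of_not_mem_badPrimes L H hp hpB⟩

end main

end Fermat.Agent.Lib.Cheb.H764

end
-- ===== PACK-END Lib/Cheb/H764/Count.lean

-- ===== PACK-BEGIN S29/H32/AutOrbit.lean
section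
/-
S29 row, helper32: automorphisms of an algebraically closed field over an algebraically closed
subfield.  Mathlib-only.

Main results (namespace `Fermat.Agent.S29.H32`):
* `exists_algEquiv_apply_eq_add` : a transcendental element `z` of an algebraically closed field
  `Ω` over a field `k` can be moved to `z + c` (`c ∈ k`) by a `k`-automorphism of `Ω`.
* `mem_range_of_finite_orbit` : if `k` is algebraically closed and `z : Ω` has only finitely many
  conjugates under `Ω ≃ₐ[k] Ω`, then `z ∈ k`.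
* `mem_range_of_fixed_of_finiteIndex` : the fixed field of a finite-index subgroup of
  `Ω ≃ₐ[k] Ω` is `k`.
-/


set_option autoImplicit false

namespace Fermat.Agent.S29.H32

open MvPolynomial

section Shift

variable {k : Type*} [CommRing k] {ι : Type*} [DecidableEq ι]

/-- The `k`-algebra endomorphism of `k[X_i]` sending `X_{i₀} ↦ X_{i₀} + c` and fixing the other
variables. -/
noncomputable def shiftHom (i₀ : ι) (c : k) : MvPolynomial ι k →ₐ[k] MvPolynomial ι k :=
  aeval fun i => if i = i₀ then X i + C c else X i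

theorem shiftHom_X (i₀ : ι) (c : k) (i : ι) :
    shiftHom i₀ c (X i) = if i = i₀ then X i + C c else X i := by
  simp [shiftHom]

theorem shiftHom_comp (i₀ : ι) (c d : k) :
    (shiftHom i₀ c).comp (shiftHom i₀ d) = shiftHom i₀ (c + d) := by
  apply MvPolynomial.algHom_ext
  intro i
  by_cases h : i = i₀
  · subst h
    simp only [shiftHom, AlgHom.comp_apply, aeval_X, if_true, map_add, algHom_C,
      algebraMap_eq, map_add, add_assoc]
  · simp [shiftHom, h]

theorem shiftHom_zero (i₀ : ι) : shiftHom i₀ (0 : k) = AlgHom.id k (MvPolynomial ι k) := by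
  apply MvPolynomial.algHom_ext
  intro i
  by_cases h : i = i₀ <;> simp [shiftHom, h]

/-- The shift as an algebra automorphism. -/
noncomputable def shiftEquiv (i₀ : ι) (c : k) : MvPolynomial ι k ≃ₐ[k] MvPolynomial ι k :=
  AlgEquiv.ofAlgHom (shiftHom i₀ c) (shiftHom i₀ (-c))
    (by rw [shiftHom_comp, add_neg_cancel, shiftHom_zero])
    (by rw [shiftHom_comp, neg_add_cancel, shiftHom_zero])

theorem shiftEquiv_X_self (i₀ : ι) (c : k) : shiftEquiv i₀ c (X i₀) = X i₀ + C c := by
  simp [shiftEquiv, shiftHom_X]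

end Shift

section Move

variable {k Ω : Type*} [Field k] [Field Ω] [Algebra k Ω] [IsAlgClosed Ω]

/-- A transcendental element of an algebraically closed field can be translated by any
constant by an automorphism. -/
theorem exists_algEquiv_apply_eq_add (z : Ω) (hz : Transcendental k z) (c : k) :
    ∃ σ : Ω ≃ₐ[k] Ω, σ z = z + algebraMap k Ω c := by
  classical
  have hs : AlgebraicIndepOn k id ({z} : Set Ω) := by
    have : AlgebraicIndependent k (fun x : ({z} : Set Ω) => (x : Ω)) := by
      rw [algebraicIndependent_singleton_iff (⟨z, rfl⟩ : ({z} : Set Ω))]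
      exact hz
    exact this
  obtain ⟨t, hzt, ht⟩ := exists_isTranscendenceBasis_superset hs
  set B : t → Ω := fun x => (x : Ω) with hB
  have hzmem : z ∈ t := hzt rfl
  let i₀ : t := ⟨z, hzmem⟩
  have hcl := IsAlgClosed.isAlgClosure_of_transcendence_basis B ht
  -- the automorphism of the polynomial subalgebra
  let e₀ : Algebra.adjoin k (Set.range B) ≃ₐ[k] Algebra.adjoin k (Set.range B) :=
    (ht.1.aevalEquiv.symm.trans (shiftEquiv i₀ c)).trans ht.1.aevalEquiv
  have he₀ : ∀ x, (e₀ x : Ω) = aeval B (shiftEquiv i₀ c (ht.1.aevalEquiv.symm x)) := by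
    intro x
    simp only [e₀, AlgEquiv.trans_apply]
    exact AlgebraicIndependent.algebraMap_aevalEquiv ht.1 _
  let σ₀ : Ω ≃+* Ω := IsAlgClosure.equivOfEquiv Ω Ω e₀.toRingEquiv
  have hσ₀ : ∀ r : Algebra.adjoin k (Set.range B),
      σ₀ (algebraMap _ Ω r) = algebraMap _ Ω (e₀ r) := fun r =>
    IsAlgClosure.equivOfEquiv_algebraMap Ω Ω e₀.toRingEquiv r
  have hcomm : ∀ a : k, σ₀ (algebraMap k Ω a) = algebraMap k Ω a := by
    intro a
    have h1 : algebraMap k Ω a
        = algebraMap (Algebra.adjoin k (Set.range B)) Ω (algebraMap k _ a) := rfl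
    rw [h1, hσ₀, e₀.commutes]
  refine ⟨AlgEquiv.ofRingEquiv (f := σ₀) hcomm, ?_⟩
  have hzB : z = algebraMap (Algebra.adjoin k (Set.range B)) Ω
      ⟨z, Algebra.subset_adjoin ⟨i₀, rfl⟩⟩ := rfl
  show σ₀ z = _
  conv_lhs => rw [hzB]
  rw [hσ₀]
  show (e₀ _ : Ω) = _
  rw [he₀]
  have hsymm : ht.1.aevalEquiv.symm ⟨z, Algebra.subset_adjoin ⟨i₀, rfl⟩⟩ = X i₀ := by
    rw [AlgEquiv.symm_apply_eq]
    apply Subtype.ext
    show z = algebraMap (Algebra.adjoin k (Set.range B)) Ω (ht.1.aevalEquiv (X i₀))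
    rw [AlgebraicIndependent.algebraMap_aevalEquiv, aeval_X]
  rw [hsymm, shiftEquiv_X_self]
  simp [B, i₀]

end Move

section Orbit

variable {k Ω : Type*} [Field k] [Field Ω] [Algebra k Ω] [IsAlgClosed k] [IsAlgClosed Ω]

omit [IsAlgClosed Ω] in
/-- Over an algebraically closed field, an element which is not a constant is transcendental. -/
theorem transcendental_of_not_mem_range {z : Ω} (hz : z ∉ Set.range (algebraMap k Ω)) :
    Transcendental k z := by
  intro halg
  apply hz
  have hint : IsIntegral k z := halg.isIntegral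
  have hdeg : (minpoly k z).degree = 1 :=
    IsAlgClosed.degree_eq_one_of_irreducible k (minpoly.irreducible hint)
  exact minpoly.mem_range_of_degree_eq_one k z hdeg

/-- An element with finitely many conjugates under `Aut(Ω/k)` lies in `k`
(`k`, `Ω` algebraically closed). -/
theorem mem_range_of_finite_orbit (z : Ω)
    (h : (Set.range fun σ : Ω ≃ₐ[k] Ω => σ z).Finite) : z ∈ Set.range (algebraMap k Ω) := by
  by_contra hz
  have htr := transcendental_of_not_mem_range hz
  have hinj : Function.Injective fun c : k => z + algebraMap k Ω c := by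
    intro c d hcd
    exact (algebraMap k Ω).injective (add_left_cancel hcd)
  have hsub : (Set.range fun c : k => z + algebraMap k Ω c)
      ⊆ Set.range fun σ : Ω ≃ₐ[k] Ω => σ z := by
    rintro _ ⟨c, rfl⟩
    obtain ⟨σ, hσ⟩ := exists_algEquiv_apply_eq_add z htr c
    exact ⟨σ, hσ⟩
  have : Infinite k := IsAlgClosed.instInfinite
  exact Set.infinite_range_of_injective hinj (h.subset hsub)

/-- The fixed field of a finite-index subgroup of `Aut(Ω/k)` is `k`. -/
theorem mem_range_of_fixed_of_finiteIndex (H : Subgroup (Ω ≃ₐ[k] Ω)) [H.FiniteIndex] (z : Ω)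
    (hfix : ∀ σ ∈ H, σ z = z) : z ∈ Set.range (algebraMap k Ω) := by
  apply mem_range_of_finite_orbit
  -- the orbit map factors through the finite quotient `G ⧸ H`
  let f : (Ω ≃ₐ[k] Ω) ⧸ H → Ω := Quotient.lift (fun σ : Ω ≃ₐ[k] Ω => σ z) (by
    intro a b hab
    have hab' : a⁻¹ * b ∈ H := QuotientGroup.leftRel_apply.mp hab
    have := hfix _ hab'
    show a z = b z
    have h2 : b z = a ((a⁻¹ * b) z) := by
      simp [AlgEquiv.mul_apply, AlgEquiv.aut_inv]
    rw [h2, this])
  have : Finite ((Ω ≃ₐ[k] Ω) ⧸ H) := Subgroup.finite_quotient_of_finiteIndex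
  have : (Set.range fun σ : Ω ≃ₐ[k] Ω => σ z) ⊆ Set.range f := by
    rintro _ ⟨σ, rfl⟩
    exact ⟨QuotientGroup.mk σ, rfl⟩
  exact (Set.finite_range f).subset this

end Orbit

end Fermat.Agent.S29.H32

end
-- ===== PACK-END S29/H32/AutOrbit.lean

-- ===== PACK-BEGIN S29/H32/CoeffDescent.lean
section
/-
S29 row, helper32: descent of the field of constants for subfields of Laurent series.

Setting: `k ⊆ Ω` fields, `F₀ ⊆ ℚ((q))` an intermediate field.  The Prelude field
`laurentBaseChange Ω F₀ ⊆ Ω((q))` is generated by `Ω` and `F₀`.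

Main results (namespace `Fermat.Agent.S29.H32`):
* `exists_of_coeff_mem_range` : an element of `laurentBaseChange Ω F₀` all of whose coefficients
  lie in `k` is the image of an element of `laurentBaseChange k F₀`.
* `coeffMap_mem_laurentBaseChange_of_mem` : `laurentBaseChange k F₀` maps into
  `laurentBaseChange Ω F₀`.
-/



set_option autoImplicit false

namespace Fermat.Agent.S29.H32

open ModularCurve HahnSeries

section General

variable {k Ω : Type*} [Field k] [Field Ω] [Algebra k Ω]

theorem coeffMap_algebraMap_injective :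
    Function.Injective (coeffMap (algebraMap k Ω)) := by
  intro x y h
  ext n
  have := congrArg (fun z => z.coeff n) h
  simp only [coeffMap_coeff] at this
  exact (algebraMap k Ω).injective this

theorem coeff_algebraMap_mul (c : Ω) (z : LaurentSeries Ω) (n : ℤ) :
    (algebraMap Ω (LaurentSeries Ω) c * z).coeff n = c * z.coeff n := by
  rw [algebraMap_laurentSeries_eq_single]
  simp

/-- The `Ω`-linear combination `∑ βᵢ * ι(gᵢ)` attached to a finitely supported family of Laurent
series over `k`. -/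
noncomputable def comb {I : Type*} (β : I → Ω) (g : I →₀ LaurentSeries k) : LaurentSeries Ω :=
  g.sum fun i y => algebraMap Ω (LaurentSeries Ω) (β i) * coeffMap (algebraMap k Ω) y

theorem comb_zero {I : Type*} (β : I → Ω) : comb β (0 : I →₀ LaurentSeries k) = 0 := by
  simp [comb]

theorem comb_add {I : Type*} (β : I → Ω) (g h : I →₀ LaurentSeries k) :
    comb β (g + h) = comb β g + comb β h := by
  classical
  unfold comb
  apply Finsupp.sum_add_index'
  · intro i; simp
  · intro i y z; simp [mul_add]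

theorem comb_single {I : Type*} (β : I → Ω) (i : I) (y : LaurentSeries k) :
    comb β (Finsupp.single i y)
      = algebraMap Ω (LaurentSeries Ω) (β i) * coeffMap (algebraMap k Ω) y := by
  unfold comb
  rw [Finsupp.sum_single_index]
  simp

theorem comb_coeff {I : Type*} (β : I → Ω) (g : I →₀ LaurentSeries k) (n : ℤ) :
    (comb β g).coeff n = g.sum fun i y => algebraMap k Ω (y.coeff n) * β i := by
  classical
  induction g using Finsupp.induction with
  | zero => simp [comb]
  | single_add i y g hi hy ih =>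
    rw [comb_add, HahnSeries.coeff_add, ih, comb_single,
      Finsupp.sum_add_index' (by intro i; simp) (by intro i y z; simp [add_mul]),
      Finsupp.sum_single_index (by simp), coeff_algebraMap_mul, coeffMap_coeff, mul_comm]

/-- Left multiplication by a Laurent series over `k`, coordinatewise. -/
noncomputable def mulLeft {I : Type*} (x : LaurentSeries k) (g : I →₀ LaurentSeries k) :
    I →₀ LaurentSeries k :=
  g.mapRange (fun y => x * y) (mul_zero x)

theorem comb_mulLeft {I : Type*} (β : I → Ω) (x : LaurentSeries k) (g : I →₀ LaurentSeries k) :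
    comb β (mulLeft x g) = coeffMap (algebraMap k Ω) x * comb β g := by
  classical
  induction g using Finsupp.induction with
  | zero => simp [comb, mulLeft]
  | single_add i y g hi hy ih =>
    have h1 : mulLeft x (Finsupp.single i y + g) = Finsupp.single i (x * y) + mulLeft x g := by
      unfold mulLeft
      rw [Finsupp.mapRange_add (by intro a b; exact mul_add x a b), Finsupp.mapRange_single]
    rw [h1, comb_add, comb_add, ih, comb_single, comb_single, map_mul, mul_add]
    congr 1
    ring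

/-- Linear independence: if the `βᵢ` are `k`-linearly independent then `comb β` is injective. -/
theorem eq_zero_of_comb_eq_zero {I : Type*} {β : I → Ω} (hβ : LinearIndependent k β)
    (g : I →₀ LaurentSeries k) (h : comb β g = 0) : g = 0 := by
  classical
  ext i n
  have hn : (comb β g).coeff n = 0 := by rw [h]; rfl
  rw [comb_coeff] at hn
  let c : I →₀ k := g.mapRange (fun y => y.coeff n) rfl
  have hc : Finsupp.linearCombination k β c = 0 := by
    rw [Finsupp.linearCombination_apply]
    rw [Finsupp.sum_mapRange_index (by intro i; simp)]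
    rw [← hn]
    apply Finsupp.sum_congr
    intro j _
    rw [Algebra.smul_def]
  have := (linearIndependent_iff.mp hβ) c hc
  have hci : c i = 0 := by rw [this]; rfl
  simpa [c] using hci

end General

section BaseChange

variable {k Ω : Type*} [Field k] [Field Ω] [Algebra k Ω]

theorem coeffMap_algebraMap_up (c : k) :
    coeffMap (algebraMap k Ω) (algebraMap k (LaurentSeries k) c)
      = algebraMap Ω (LaurentSeries Ω) (algebraMap k Ω c) := by
  rw [algebraMap_laurentSeries_eq_single, algebraMap_laurentSeries_eq_single, coeffMap_single]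

variable [Algebra ℚ k] [Algebra ℚ Ω] [IsScalarTower ℚ k Ω]
variable (F₀ : IntermediateField ℚ (LaurentSeries ℚ))

theorem coeffMap_coeffEmb_up (x : LaurentSeries ℚ) :
    coeffMap (algebraMap k Ω) (coeffEmb k x) = coeffEmb Ω x := by
  rw [coeffEmb, coeffEmb, coeffMap_coeffMap]
  exact coeffMap_congr (IsScalarTower.algebraMap_eq ℚ k Ω).symm x

/-- `laurentBaseChange k F₀` maps into `laurentBaseChange Ω F₀`. -/
theorem coeffMap_mem_laurentBaseChange_of_mem {x : LaurentSeries k}
    (hx : x ∈ laurentBaseChange k F₀) :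
    coeffMap (algebraMap k Ω) x ∈ laurentBaseChange Ω F₀ := by
  rw [mem_laurentBaseChange_iff] at hx
  induction hx using Subfield.closure_induction with
  | mem y hy =>
      rcases hy with ⟨a, rfl⟩ | ⟨z, hz, rfl⟩
      · rw [coeffMap_algebraMap_up]
        exact (laurentBaseChange Ω F₀).algebraMap_mem _
      · rw [coeffMap_coeffEmb_up]
        exact coeffEmb_mem_laurentBaseChange Ω hz
  | one => simp
  | add x y _ _ hx hy => simpa using add_mem hx hy
  | neg x _ hx => simpa using neg_mem hx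
  | inv x _ hx => simpa using inv_mem hx
  | mul x y _ _ hx hy => simpa using mul_mem hx hy

/-- The generating set of `laurentBaseChange Ω F₀` is multiplicatively closed, so the generated
subalgebra is just the `Ω`-span. -/
theorem adjoin_le_span :
    (Algebra.adjoin Ω (⇑(coeffEmb Ω) '' (F₀ : Set (LaurentSeries ℚ)))).toSubmodule
      ≤ @Submodule.span Ω (LaurentSeries Ω) _ _ Algebra.toModule
          (⇑(coeffEmb Ω) '' (F₀ : Set (LaurentSeries ℚ))) := by
  rw [Algebra.adjoin_eq_span]
  have h : ((Submonoid.closure (⇑(coeffEmb Ω) '' (F₀ : Set (LaurentSeries ℚ))) :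
      Submonoid (LaurentSeries Ω)) : Set (LaurentSeries Ω))
      ⊆ (⇑(coeffEmb Ω) '' (F₀ : Set (LaurentSeries ℚ))) := by
    have : (⇑(coeffEmb Ω) '' (F₀ : Set (LaurentSeries ℚ)))
        = ((F₀.toSubfield.toSubring.toSubmonoid.map (coeffEmb Ω : LaurentSeries ℚ →* _) :
            Submonoid (LaurentSeries Ω)) : Set (LaurentSeries Ω)) := by
      ext z
      simp
    rw [this, Submonoid.closure_eq]
  exact @Submodule.span_mono Ω (LaurentSeries Ω) _ _ Algebra.toModule _ _ h

/-- Every element of the `Ω`-span of `F₀` is a combination `∑ βᵢ * ι(gᵢ)` with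
`gᵢ ∈ laurentBaseChange k F₀`, for any `k`-basis `β` of `Ω`. -/
theorem exists_comb_of_mem_span {I : Type*} (β : Module.Basis I k Ω) {a : LaurentSeries Ω}
    (ha : a ∈ Algebra.adjoin Ω (⇑(coeffEmb Ω) '' (F₀ : Set (LaurentSeries ℚ)))) :
    ∃ g : I →₀ LaurentSeries k, (∀ i, g i ∈ laurentBaseChange k F₀) ∧ a = comb (⇑β) g := by
  classical
  -- auxiliary: `ω * ι(y)` for `y ∈ laurentBaseChange k F₀`
  have key : ∀ (ω : Ω) (y : LaurentSeries k), y ∈ laurentBaseChange k F₀ →
      ∃ g : I →₀ LaurentSeries k, (∀ i, g i ∈ laurentBaseChange k F₀) ∧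
        algebraMap Ω (LaurentSeries Ω) ω * coeffMap (algebraMap k Ω) y = comb (⇑β) g := by
    intro ω y hy
    refine ⟨(β.repr ω).mapRange (fun c => algebraMap k (LaurentSeries k) c * y) (by simp),
      fun i => ?_, ?_⟩
    · rw [Finsupp.mapRange_apply]
      exact mul_mem ((laurentBaseChange k F₀).algebraMap_mem _) hy
    · unfold comb
      rw [Finsupp.sum_mapRange_index (by intro i; simp)]
      conv_lhs => rw [← β.linearCombination_repr ω, Finsupp.linearCombination_apply]
      rw [Finsupp.sum, map_sum, Finset.sum_mul, Finsupp.sum]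
      apply Finset.sum_congr rfl
      intro i _
      rw [map_mul, coeffMap_algebraMap_up, Algebra.smul_def (β.repr ω i) (β i), map_mul]
      ring
  have ha' := adjoin_le_span (Ω := Ω) F₀ ha
  clear ha
  induction ha' using Submodule.span_induction with
  | mem x hx =>
      obtain ⟨f, hf, rfl⟩ := hx
      obtain ⟨g, hg, hge⟩ := key 1 (coeffEmb k f) (coeffEmb_mem_laurentBaseChange k hf)
      refine ⟨g, hg, ?_⟩
      rw [← hge, map_one, one_mul, coeffMap_coeffEmb_up]
  | zero => exact ⟨0, fun i => by simp, (comb_zero _).symm⟩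
  | add x y _ _ hx hy =>
      obtain ⟨g, hg, rfl⟩ := hx
      obtain ⟨h, hh, rfl⟩ := hy
      exact ⟨g + h, fun i => by rw [Finsupp.add_apply]; exact add_mem (hg i) (hh i),
        (comb_add _ g h).symm⟩
  | smul ω x _ hx =>
      obtain ⟨g, hg, rfl⟩ := hx
      rw [Algebra.smul_def]
      -- induct on `g`
      clear ‹_›
      induction g using Finsupp.induction with
      | zero => exact ⟨0, fun i => by simp, by rw [comb_zero, mul_zero]⟩
      | single_add i y g hi hy ih =>
          have hyi : y ∈ laurentBaseChange k F₀ := by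
            have := hg i
            rwa [Finsupp.add_apply, Finsupp.single_eq_same,
              Finsupp.notMem_support_iff.mp hi, add_zero] at this
          have hg' : ∀ j, g j ∈ laurentBaseChange k F₀ := by
            intro j
            by_cases hj : j = i
            · subst hj
              rw [Finsupp.notMem_support_iff.mp hi]
              exact zero_mem _
            · have := hg j
              rwa [Finsupp.add_apply, Finsupp.single_eq_of_ne hj, zero_add] at this
          obtain ⟨g₁, hg₁, e₁⟩ := key (ω * β i) y hyi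
          obtain ⟨g₂, hg₂, e₂⟩ := ih hg'
          refine ⟨g₁ + g₂, fun j => by rw [Finsupp.add_apply]; exact add_mem (hg₁ j) (hg₂ j), ?_⟩
          rw [comb_add, comb_add, mul_add, ← e₁, ← e₂, comb_single, map_mul, mul_assoc]

omit [Algebra ℚ k] [Algebra ℚ Ω] [IsScalarTower ℚ k Ω] in
/-- Lift of a Laurent series over `Ω` with coefficients in `k` to a Laurent series over `k`. -/
noncomputable def coeffDown (x : LaurentSeries Ω) : LaurentSeries k :=
  x.map (⟨Function.invFun (algebraMap k Ω), by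
    have h := Function.leftInverse_invFun (algebraMap k Ω).injective (0 : k)
    rwa [map_zero] at h⟩ : ZeroHom Ω k)

omit [Algebra ℚ k] [Algebra ℚ Ω] [IsScalarTower ℚ k Ω] in
theorem coeffMap_coeffDown {x : LaurentSeries Ω}
    (hx : ∀ n, x.coeff n ∈ Set.range (algebraMap k Ω)) :
    coeffMap (algebraMap k Ω) (coeffDown (k := k) x) = x := by
  ext n
  obtain ⟨c, hc⟩ := hx n
  simp only [coeffMap_coeff, coeffDown, HahnSeries.map_coeff, ZeroHom.coe_mk]
  rw [← hc, Function.leftInverse_invFun (algebraMap k Ω).injective c]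

/-- **Descent of constants.**  An element of `laurentBaseChange Ω F₀` whose coefficients all lie
in `k` comes from `laurentBaseChange k F₀`. -/
theorem exists_of_coeff_mem_range {x : LaurentSeries Ω} (hx : x ∈ laurentBaseChange Ω F₀)
    (hcoeff : ∀ n, x.coeff n ∈ Set.range (algebraMap k Ω)) :
    ∃ y ∈ laurentBaseChange k F₀, coeffMap (algebraMap k Ω) y = x := by
  classical
  let β := Module.Basis.ofVectorSpace k Ω
  refine ⟨coeffDown x, ?_, coeffMap_coeffDown hcoeff⟩
  set x₀ : LaurentSeries k := coeffDown x with hx₀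
  have hx₀x : coeffMap (algebraMap k Ω) x₀ = x := coeffMap_coeffDown hcoeff
  obtain ⟨r, hr, s, hs, hxrs⟩ := IntermediateField.mem_adjoin_iff_div.mp hx
  obtain ⟨gr, hgr, rfl⟩ := exists_comb_of_mem_span F₀ β hr
  obtain ⟨gs, hgs, rfl⟩ := exists_comb_of_mem_span F₀ β hs
  by_cases hs0 : comb (⇑β) gs = 0
  · -- then `x = 0`
    have hx0 : x = 0 := by rw [hxrs, hs0, div_zero]
    have : x₀ = 0 := by
      apply coeffMap_algebraMap_injective (Ω := Ω)
      rw [hx₀x, hx0, map_zero]
    rw [this]
    exact zero_mem _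
  · have hmul : coeffMap (algebraMap k Ω) x₀ * comb (⇑β) gs = comb (⇑β) gr := by
      rw [hx₀x, hxrs, div_mul_cancel₀ _ hs0]
    rw [← comb_mulLeft] at hmul
    have hgs0 : gs ≠ 0 := by
      rintro rfl
      exact hs0 (comb_zero _)
    obtain ⟨i, hi⟩ := Finsupp.ne_iff.mp hgs0
    have hsub : comb (⇑β) (mulLeft x₀ gs - gr) = 0 := by
      have := comb_add (⇑β) (mulLeft x₀ gs - gr) gr
      rw [sub_add_cancel, hmul] at this
      exact (add_eq_right.mp this.symm)
    have hz := eq_zero_of_comb_eq_zero β.linearIndependent _ hsub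
    have hi' : x₀ * gs i = gr i := by
      have := congrArg (fun g => g i) hz
      simp only [Finsupp.sub_apply, Finsupp.zero_apply, mulLeft, Finsupp.mapRange_apply] at this
      exact sub_eq_zero.mp this
    have hgsi : gs i ≠ 0 := by simpa using hi
    have : x₀ = gr i / gs i := by
      rw [eq_div_iff hgsi, hi']
    rw [this]
    exact div_mem (hgr i) (hgs i)

end BaseChange

end Fermat.Agent.S29.H32

end
-- ===== PACK-END S29/H32/CoeffDescent.lean

-- ===== PACK-BEGIN S18/Spec.lean
section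



/-!
# S18 — frozen interfaces of the row (row-lead helper18)

`F  := modularFunctionFieldBar N ⊆ Q̄((q))`, `F_k := modularFunctionFieldFullC k N ⊆ k((q))`,
`A ⊆ Q̄` a valuation subring over `ℓ`, `k := A/𝔪`.

* `CoreStatement N A m` : the Kummer-type core (no places of `F_k`, no reduction map `r`).
* `StepAStatement`     : S18 for `(N, A, m)` follows from `CoreStatement N A m` (Prelude unfolding).
-/

set_option autoImplicit false

noncomputable section

namespace Fermat.Agent.S18

open ModularCurve AlgebraicCurve HahnSeries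

/-- The field `Q̄`. -/
abbrev Qb : Type := AlgebraicClosure ℚ

/-- `IsInt A N U`: the series `U ∈ A((q))` lies in `F_N` (after `A ⊆ Q̄`) and its coefficientwise
reduction lies in `F_{N,k}` and is nonzero.  (`O_int ∖ 𝔪` of the plan.) -/
def IsInt (A : ValuationSubring Qb) (N : ℕ) (U : LaurentSeries A) : Prop :=
  coeffMap A.subtype U ∈ modularFunctionFieldBar N ∧
    coeffMap (IsLocalRing.residue A) U ∈
      modularFunctionFieldFullC (IsLocalRing.ResidueField A) N ∧
    coeffMap (IsLocalRing.residue A) U ≠ 0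

/-- The element of `F_N` given by an integral series. -/
def toF {A : ValuationSubring Qb} {N : ℕ} {U : LaurentSeries A} (hU : IsInt A N U) :
    modularFunctionFieldBar N :=
  ⟨coeffMap A.subtype U, hU.1⟩

/-- CORE(N, A, m): two integral series with the same nonzero reduction whose quotient has a
divisor divisible by `m` differ by a constant times an `m`-th power in `F_N`. -/
def CoreStatement (N : ℕ) (A : ValuationSubring Qb) (m : ℕ) : Prop :=
  ∀ (U₁ U₂ : LaurentSeries A) (h₁ : IsInt A N U₁) (h₂ : IsInt A N U₂),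
    coeffMap (IsLocalRing.residue A) U₁ = coeffMap (IsLocalRing.residue A) U₂ →
    (∀ v : Place Qb (modularFunctionFieldBar N),
      (m : ℤ) ∣ v.ord (toF h₁) - v.ord (toF h₂)) →
    ∃ (c : Qb) (y : modularFunctionFieldBar N), c ≠ 0 ∧ y ≠ 0 ∧
      toF h₁ = algebraMap Qb (modularFunctionFieldBar N) c * y ^ m * toF h₂

/-- Step A (Prelude unfolding): S18 at `(N, A, m)` from CORE at `(N, A, m)`.
Uses the hypothesis `h` (place reduction `r` with (i),(ii) and PGI (iii)). -/
def StepAStatement (N : ℕ) [NeZero N] (A : ValuationSubring Qb) (m : ℕ) : Prop :=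
  CoreStatement N A m →
    ∀ (_h : ModularCurve.ReductionInputsModL A N) (z : ModularCurve.JZero N),
      m • z = 0 → ModularCurve.reductionModL A N z = 0 → z = 0

end Fermat.Agent.S18

end
end
-- ===== PACK-END S18/Spec.lean

-- ===== PACK-BEGIN S29/H282/Special.lean
section


/-!
# S29 / M4b-K2 (helper282) — special elements of `SL₂(ℤ)`

`IsSpecialElt γ`: `γ` has finite order or trace `2`.  All conjugates of powers of `1`, `S`, `S * T`
and `T` are special.  (These are the stabilisers of the points of `ℍ ∪ ℙ¹(ℚ)`; a character of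
`Γ₀(N)` which is trivial on the special elements of `Γ₀(N)` is "unramified everywhere".)
-/

set_option autoImplicit false

open scoped MatrixGroups
open Matrix

namespace Fermat.Agent.S29.H282

/-- `γ` has finite order or trace `2`. -/
def IsSpecialElt (γ : SL(2, ℤ)) : Prop :=
  (∃ n : ℕ, 0 < n ∧ γ ^ n = 1) ∨ (γ : Matrix (Fin 2) (Fin 2) ℤ).trace = 2

theorem modS_pow_four : (ModularGroup.S : SL(2, ℤ)) ^ 4 = 1 := by
  apply Subtype.ext
  rw [Matrix.SpecialLinearGroup.coe_pow, ModularGroup.coe_S]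
  have h2 : (!![0, -1; 1, 0] : Matrix (Fin 2) (Fin 2) ℤ) ^ 2 = -1 := by
    rw [pow_two, Matrix.mul_fin_two]
    ext i j
    fin_cases i <;> fin_cases j <;> simp
  rw [show (4 : ℕ) = 2 * 2 from rfl, pow_mul, h2]
  simp

theorem modST_pow_six : (ModularGroup.S * ModularGroup.T : SL(2, ℤ)) ^ 6 = 1 := by
  apply Subtype.ext
  rw [Matrix.SpecialLinearGroup.coe_pow, Matrix.SpecialLinearGroup.coe_mul, ModularGroup.coe_S,
    ModularGroup.coe_T]
  have h0 : (!![0, -1; 1, 0] * !![1, 1; 0, 1] : Matrix (Fin 2) (Fin 2) ℤ) = !![0, -1; 1, 1] := by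
    rw [Matrix.mul_fin_two]
    ext i j
    fin_cases i <;> fin_cases j <;> simp
  have h2 : (!![0, -1; 1, 1] : Matrix (Fin 2) (Fin 2) ℤ) ^ 2 = !![-1, -1; 1, 0] := by
    rw [pow_two, Matrix.mul_fin_two]
    ext i j
    fin_cases i <;> fin_cases j <;> simp
  have h3 : (!![0, -1; 1, 1] : Matrix (Fin 2) (Fin 2) ℤ) ^ 3 = -1 := by
    rw [pow_succ, h2, Matrix.mul_fin_two]
    ext i j
    fin_cases i <;> fin_cases j <;> simp
  rw [h0, show (6 : ℕ) = 3 * 2 from rfl, pow_mul, h3]
  simp

theorem trace_modT_pow (e : ℕ) :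
    ((ModularGroup.T ^ e : SL(2, ℤ)) : Matrix (Fin 2) (Fin 2) ℤ).trace = 2 := by
  have h := ModularGroup.coe_T_zpow (e : ℤ)
  rw [zpow_natCast] at h
  rw [h, Matrix.trace_fin_two]
  simp

theorem trace_conj_SL (g γ : SL(2, ℤ)) :
    ((g⁻¹ * γ * g : SL(2, ℤ)) : Matrix (Fin 2) (Fin 2) ℤ).trace
      = (γ : Matrix (Fin 2) (Fin 2) ℤ).trace := by
  rw [Matrix.SpecialLinearGroup.coe_mul, Matrix.trace_mul_comm,
    ← Matrix.SpecialLinearGroup.coe_mul, mul_inv_cancel_left]

theorem conj_pow_SL (g γ : SL(2, ℤ)) (n : ℕ) : (g⁻¹ * γ * g) ^ n = g⁻¹ * γ ^ n * g := by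
  induction n with
  | zero => simp
  | succ n ih => rw [pow_succ, ih, pow_succ]; group

theorem IsSpecialElt.conj {γ : SL(2, ℤ)} (h : IsSpecialElt γ) (g : SL(2, ℤ)) :
    IsSpecialElt (g⁻¹ * γ * g) := by
  rcases h with ⟨n, hn, h⟩ | h
  · exact Or.inl ⟨n, hn, by rw [conj_pow_SL, h]; group⟩
  · exact Or.inr (by rw [trace_conj_SL, h])

theorem isSpecialElt_of_pow_eq_one {γ : SL(2, ℤ)} {n : ℕ} (hn : 0 < n) (h : γ ^ n = 1) :
    IsSpecialElt γ := Or.inl ⟨n, hn, h⟩

theorem isSpecialElt_one_pow (e : ℕ) : IsSpecialElt ((1 : SL(2, ℤ)) ^ e) :=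
  isSpecialElt_of_pow_eq_one one_pos (by simp)

theorem isSpecialElt_S_pow (e : ℕ) : IsSpecialElt ((ModularGroup.S : SL(2, ℤ)) ^ e) :=
  isSpecialElt_of_pow_eq_one (n := 4) (by norm_num)
    (by rw [← pow_mul, mul_comm, pow_mul, modS_pow_four, one_pow])

theorem isSpecialElt_ST_pow (e : ℕ) :
    IsSpecialElt ((ModularGroup.S * ModularGroup.T : SL(2, ℤ)) ^ e) :=
  isSpecialElt_of_pow_eq_one (n := 6) (by norm_num)
    (by rw [← pow_mul, mul_comm, pow_mul, modST_pow_six, one_pow])

theorem isSpecialElt_T_pow (e : ℕ) : IsSpecialElt ((ModularGroup.T : SL(2, ℤ)) ^ e) :=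
  Or.inr (trace_modT_pow e)

end Fermat.Agent.S29.H282

end
-- ===== PACK-END S29/H282/Special.lean

-- ===== PACK-BEGIN S28/H326/Newton.lean
section
/-
S28 / helper326: Newton's identities, membership form.

If all power sums of a finite family `z` in a commutative `ℚ`-algebra lie in a `ℚ`-subalgebra `B`,
then so do all elementary symmetric functions; hence `∏ (X - z i)` has coefficients in `B`.
-/


set_option autoImplicit false

namespace Fermat.Agent.S28.H326

open Finset

/-- **Newton**: power sums in `B` ⟹ elementary symmetric functions in `B`. -/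
theorem esymm_mem_of_psum_mem {Ω : Type*} [CommRing Ω] [Algebra ℚ Ω] (B : Subalgebra ℚ Ω)
    {σ : Type*} [Fintype σ] (z : σ → Ω) (h : ∀ m : ℕ, 0 < m → ∑ i, z i ^ m ∈ B) (k : ℕ) :
    (Finset.univ.val.map z).esymm k ∈ B := by
  induction k using Nat.strong_induction_on with
  | _ k ih =>
    rcases Nat.eq_zero_or_pos k with rfl | hk
    · have : (Finset.univ.val.map z).esymm 0 = 1 := by simp [Multiset.esymm]
      rw [this]; exact one_mem B
    · have key := congrArg (MvPolynomial.aeval (R := ℚ) z) (MvPolynomial.mul_esymm_eq_sum σ ℚ k)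
      simp only [map_mul, map_natCast, map_pow, map_neg, map_one, map_sum,
        MvPolynomial.aeval_esymm_eq_multiset_esymm] at key
      have hps : ∀ m : ℕ, MvPolynomial.aeval (R := ℚ) z (MvPolynomial.psum σ ℚ m) = ∑ i, z i ^ m := by
        intro m
        simp [MvPolynomial.psum]
      simp only [hps] at key
      have hR : (-1 : Ω) ^ (k + 1) * ∑ a ∈ antidiagonal k with a.1 < k,
          (-1 : Ω) ^ a.1 * (Finset.univ.val.map z).esymm a.1 * ∑ i, z i ^ a.2 ∈ B := by
        refine mul_mem (pow_mem (neg_mem (one_mem B)) _) (sum_mem fun a ha => ?_)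
        rw [mem_filter, HasAntidiagonal.mem_antidiagonal] at ha
        refine mul_mem (mul_mem (pow_mem (neg_mem (one_mem B)) _) (ih a.1 ha.2)) (h a.2 (by omega))
      rw [← key] at hR
      have hk0 : (k : ℚ) ≠ 0 := by exact_mod_cast hk.ne'
      have : (Finset.univ.val.map z).esymm k =
          (k : ℚ)⁻¹ • ((k : Ω) * (Finset.univ.val.map z).esymm k) := by
        rw [← nsmul_eq_mul, ← Nat.cast_smul_eq_nsmul ℚ k, smul_smul,
          inv_mul_cancel₀ hk0, one_smul]
      rw [this]
      exact B.smul_mem hR _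

/-- Vieta + Newton: the monic polynomial with roots `z i` has coefficients in `B`. -/
theorem prod_X_sub_C_mem_of_psum_mem {Ω : Type*} [CommRing Ω] [Algebra ℚ Ω] (B : Subalgebra ℚ Ω)
    {σ : Type*} [Fintype σ] (z : σ → Ω) (h : ∀ m : ℕ, 0 < m → ∑ i, z i ^ m ∈ B) (n : ℕ) :
    (∏ i, (Polynomial.X - Polynomial.C (z i))).coeff n ∈ B := by
  have hV := Multiset.prod_X_sub_X_eq_sum_esymm (Finset.univ.val.map z)
  rw [Multiset.map_map] at hV
  have hprod : (∏ i, (Polynomial.X - Polynomial.C (z i))) =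
      (Multiset.map ((fun t => Polynomial.X - Polynomial.C t) ∘ z) Finset.univ.val).prod := by
    rfl
  rw [hprod, hV, Polynomial.finsetSum_coeff]
  refine sum_mem fun j _ => ?_
  have : ((-1 : Polynomial Ω) ^ j * (Polynomial.C ((Finset.univ.val.map z).esymm j) *
      Polynomial.X ^ (Multiset.card (Finset.univ.val.map z) - j))) =
      Polynomial.C ((-1) ^ j * (Finset.univ.val.map z).esymm j) *
        Polynomial.X ^ (Multiset.card (Finset.univ.val.map z) - j) := by
    simp [mul_assoc]
  rw [this, Polynomial.coeff_C_mul_X_pow]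
  split_ifs
  · exact mul_mem (pow_mem (neg_mem (one_mem B)) _) (esymm_mem_of_psum_mem B z h j)
  · exact zero_mem B

end Fermat.Agent.S28.H326

end
-- ===== PACK-END S28/H326/Newton.lean

-- ===== PACK-BEGIN S20/Comb/Basic.lean
section






/-!
# Combinatorics on `SL(2,ℤ) ⧸ Gamma0 N` : basic coset criterion, fixed points of `S` and `S * T`.

Left cosets, Mathlib's left-multiplication action (`MulAction.quotient`).
-/

set_option autoImplicit false

namespace Fermat.Agent.S20.Comb

open Matrix MatrixGroups CongruenceSubgroup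

/-- The `(1,0)` entry of `g⁻¹ * g'`. -/
lemma inv_mul_apply_one_zero (g g' : SL(2, ℤ)) :
    (g⁻¹ * g') 1 0 = g 0 0 * g' 1 0 - g 1 0 * g' 0 0 := by
  rw [Matrix.SpecialLinearGroup.coe_mul, Matrix.SpecialLinearGroup.coe_inv,
    Matrix.adjugate_fin_two, Matrix.mul_apply, Fin.sum_univ_two]
  simp
  ring

/-- Coset criterion: `g Γ₀(N) = g' Γ₀(N)` iff `a c' - c a' ≡ 0 mod N`, where `(a, c)`, `(a', c')`
are the first columns of `g`, `g'`. -/
lemma mk_eq_mk_iff (N : ℕ) (g g' : SL(2, ℤ)) :
    (QuotientGroup.mk g : SL(2, ℤ) ⧸ Gamma0 N) = QuotientGroup.mk g' ↔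
      ((g 0 0 : ℤ) : ZMod N) * ((g' 1 0 : ℤ) : ZMod N)
        - ((g 1 0 : ℤ) : ZMod N) * ((g' 0 0 : ℤ) : ZMod N) = 0 := by
  rw [QuotientGroup.eq, Gamma0_mem, inv_mul_apply_one_zero]
  push_cast
  rfl

/-- Determinant relation in `ZMod N`. -/
lemma det_cast (N : ℕ) (g : SL(2, ℤ)) :
    ((g 0 0 : ℤ) : ZMod N) * ((g 1 1 : ℤ) : ZMod N)
      - ((g 0 1 : ℤ) : ZMod N) * ((g 1 0 : ℤ) : ZMod N) = 1 := by
  have h := g.det_coe
  rw [Matrix.det_fin_two] at h
  have := congrArg (fun z : ℤ => (z : ZMod N)) h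
  simpa using this

/-- Fixed-point criterion for a general element `γ`. -/
lemma smul_mk_eq_mk_iff (N : ℕ) (γ g : SL(2, ℤ)) :
    γ • (QuotientGroup.mk g : SL(2, ℤ) ⧸ Gamma0 N) = QuotientGroup.mk g ↔
      ((g 0 0 : ℤ) : ZMod N) * (((γ * g) 1 0 : ℤ) : ZMod N)
        - ((g 1 0 : ℤ) : ZMod N) * (((γ * g) 0 0 : ℤ) : ZMod N) = 0 := by
  rw [MulAction.Quotient.smul_mk, smul_eq_mul, eq_comm, mk_eq_mk_iff]

lemma S_mul_apply_zero_zero (g : SL(2, ℤ)) : (ModularGroup.S * g) 0 0 = - g 1 0 := by
  rw [Matrix.SpecialLinearGroup.coe_mul, ModularGroup.coe_S, Matrix.mul_apply, Fin.sum_univ_two]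
  simp

lemma S_mul_apply_one_zero (g : SL(2, ℤ)) : (ModularGroup.S * g) 1 0 = g 0 0 := by
  rw [Matrix.SpecialLinearGroup.coe_mul, ModularGroup.coe_S, Matrix.mul_apply, Fin.sum_univ_two]
  simp

lemma coe_S_mul_T : ((ModularGroup.S * ModularGroup.T : SL(2, ℤ)) : Matrix (Fin 2) (Fin 2) ℤ)
    = !![0, -1; 1, 1] := by
  rw [Matrix.SpecialLinearGroup.coe_mul, ModularGroup.coe_S, ModularGroup.coe_T]
  ext i j
  fin_cases i <;> fin_cases j <;> simp [Matrix.mul_apply, Fin.sum_univ_two]

lemma ST_mul_apply_zero_zero (g : SL(2, ℤ)) :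
    (ModularGroup.S * ModularGroup.T * g) 0 0 = - g 1 0 := by
  rw [Matrix.SpecialLinearGroup.coe_mul, coe_S_mul_T, Matrix.mul_apply, Fin.sum_univ_two]
  simp

lemma ST_mul_apply_one_zero (g : SL(2, ℤ)) :
    (ModularGroup.S * ModularGroup.T * g) 1 0 = g 0 0 + g 1 0 := by
  rw [Matrix.SpecialLinearGroup.coe_mul, coe_S_mul_T, Matrix.mul_apply, Fin.sum_univ_two]
  simp

/-- `g Γ₀(N)` is fixed by `S` iff `a² + c² ≡ 0 mod N`. -/
lemma S_smul_mk_eq_mk_iff (N : ℕ) (g : SL(2, ℤ)) :
    ModularGroup.S • (QuotientGroup.mk g : SL(2, ℤ) ⧸ Gamma0 N) = QuotientGroup.mk g ↔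
      ((g 0 0 : ℤ) : ZMod N) ^ 2 + ((g 1 0 : ℤ) : ZMod N) ^ 2 = 0 := by
  rw [smul_mk_eq_mk_iff, S_mul_apply_zero_zero, S_mul_apply_one_zero]
  push_cast
  constructor <;> intro h <;> linear_combination h

/-- `g Γ₀(N)` is fixed by `S * T` iff `a² + a c + c² ≡ 0 mod N`. -/
lemma ST_smul_mk_eq_mk_iff (N : ℕ) (g : SL(2, ℤ)) :
    (ModularGroup.S * ModularGroup.T) • (QuotientGroup.mk g : SL(2, ℤ) ⧸ Gamma0 N)
        = QuotientGroup.mk g ↔
      ((g 0 0 : ℤ) : ZMod N) ^ 2 + ((g 0 0 : ℤ) : ZMod N) * ((g 1 0 : ℤ) : ZMod N)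
        + ((g 1 0 : ℤ) : ZMod N) ^ 2 = 0 := by
  rw [smul_mk_eq_mk_iff, ST_mul_apply_zero_zero, ST_mul_apply_one_zero]
  push_cast
  constructor <;> intro h <;> linear_combination h

/-- The matrix `[[x, -1], [1, 0]]` in `SL(2,ℤ)`. -/
def colRep (x : ℤ) : SL(2, ℤ) := ⟨!![x, -1; 1, 0], by simp [Matrix.det_fin_two]⟩

@[simp] lemma colRep_apply_zero_zero (x : ℤ) : colRep x 0 0 = x := rfl
@[simp] lemma colRep_apply_one_zero (x : ℤ) : colRep x 1 0 = 1 := rfl

/-- If `a² = c * r` in `ZMod N` for the first column `(a, c)` of `g ∈ SL(2,ℤ)`, then `c` has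
an explicit inverse. -/
lemma c_mul_inv_eq_one (N : ℕ) (g : SL(2, ℤ)) (r : ZMod N)
    (h : ((g 0 0 : ℤ) : ZMod N) ^ 2 = ((g 1 0 : ℤ) : ZMod N) * r) :
    ((g 1 0 : ℤ) : ZMod N) *
      (r * ((g 1 1 : ℤ) : ZMod N) ^ 2
        - 2 * ((g 0 0 : ℤ) : ZMod N) * ((g 0 1 : ℤ) : ZMod N) * ((g 1 1 : ℤ) : ZMod N)
        + ((g 0 1 : ℤ) : ZMod N) ^ 2 * ((g 1 0 : ℤ) : ZMod N)) = 1 := by
  have hdet := det_cast N g
  linear_combination (-(((g 1 1 : ℤ) : ZMod N)) ^ 2) * h
    + (((g 0 0 : ℤ) : ZMod N) * ((g 1 1 : ℤ) : ZMod N)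
        - ((g 0 1 : ℤ) : ZMod N) * ((g 1 0 : ℤ) : ZMod N) + 1) * hdet

end Fermat.Agent.S20.Comb

end
-- ===== PACK-END S20/Comb/Basic.lean

-- ===== PACK-BEGIN S18/H333/HauptElim.lean
section








/-!
# S18 / c3 (helper333): elimination of `t` between the two Hauptmodul relations

For `p = 2` :  `j t² = (t+256)³`,  `J t = (t+16)³`            (`J = j(q²)`)
for `p = 3` :  `j t³ = (t+27)(t+243)³`,  `J t = (t+27)(t+3)³`  (`J = j(q³)`)
we give explicit `D, N ∈ ℤ[j, J]` with `D t + N = 0`  (subresultant of degree 1), hence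
`t = -N / D ∈ K(j, J)` as soon as `D ≠ 0`.   Pure commutative algebra (generated by
`coord/S18-c3-elim-helper333.py.txt`).
-/

set_option autoImplicit false
set_option linter.unusedSimpArgs false

namespace Fermat.Agent.S18.H333

section Elim

variable {A : Type*} [CommRing A]

/-- the coefficient `D` of `t` (level 2) -/
def elimD2 (j J : A) : A :=
    -j ^ 2 * J + 768 * j ^ 2 + 1488 * j * J + 25067520 * j + J ^ 2 - 161280 * J + 19906560000

/-- the constant term `N` (level 2) -/
def elimN2 (j J : A) : A :=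
    4096 * j ^ 2 + 799211520 * j + 16773120 * J + 2707292160000

/-- cofactor of the first relation (level 2) -/
def elimU2 (t j J : A) : A :=
    t * j - 720 * t + 48 * j + J + 161280

/-- cofactor of the second relation (level 2) -/
def elimV2 (t j J : A) : A :=
    -t * j + 720 * t + j ^ 2 - 1488 * j - J + 357120

/-- `D` homogenised: `elimD2 (e/d) (e'/d') * d^2 * d'^2` -/
def elimDh2 (e d e' d' : A) : A :=
    -e ^ 2 * e' * d' + 768 * e ^ 2 * d' ^ 2 + 1488 * e * d * e' * d'
      + 25067520 * e * d * d' ^ 2 + d ^ 2 * e' ^ 2 - 161280 * d ^ 2 * e' * d'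
      + 19906560000 * d ^ 2 * d' ^ 2

theorem elim2_identity (t j J : A) :
    elimU2 t j J * ((t + 256) ^ 3 - j * t ^ 2) + elimV2 t j J * ((t + 16) ^ 3 - J * t)
      = elimD2 j J * t + elimN2 j J := by
  simp only [elimU2, elimV2, elimD2, elimN2]
  ring

theorem elim2 (t j J : A) (ha : j * t ^ 2 = (t + 256) ^ 3) (hb : J * t = (t + 16) ^ 3) :
    elimD2 j J * t + elimN2 j J = 0 := by
  rw [← elim2_identity, ha, hb]
  ring

theorem elimD2_hom (j J d d' : A) :
    elimD2 j J * d ^ 2 * d' ^ 2 = elimDh2 (j * d) d (J * d') d' := by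
  simp only [elimD2, elimDh2]
  ring

theorem map_elimD2 {B : Type*} [CommRing B] (φ : A →+* B) (j J : A) :
    φ (elimD2 j J) = elimD2 (φ j) (φ J) := by
  simp only [elimD2, map_add, map_sub, map_mul, map_pow, map_neg, map_ofNat]

theorem map_elimN2 {B : Type*} [CommRing B] (φ : A →+* B) (j J : A) :
    φ (elimN2 j J) = elimN2 (φ j) (φ J) := by
  simp only [elimN2, map_add, map_sub, map_mul, map_pow, map_neg, map_ofNat]

theorem map_elimDh2 {B : Type*} [CommRing B] (φ : A →+* B) (e d e' d' : A) :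
    φ (elimDh2 e d e' d') = elimDh2 (φ e) (φ d) (φ e') (φ d') := by
  simp only [elimDh2, map_add, map_sub, map_mul, map_pow, map_neg, map_ofNat]

/-- the coefficient `D` of `t` (level 3) -/
def elimD3 (j J : A) : A :=
    -j ^ 5 * J ^ 2 + 1512 * j ^ 5 * J - 374706 * j ^ 5 + 3672 * j ^ 4 * J ^ 2
      + 2199927357 * j ^ 4 * J + 3513587135760 * j ^ 4 - 4802436 * j ^ 3 * J ^ 2
      + 6287091255360 * j ^ 3 * J - 578039691371443200 * j ^ 3 + j ^ 2 * J ^ 3
      + 2734670160 * j ^ 2 * J ^ 2 - 12148776475948800 * j ^ 2 * J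
      + 3468720924518404608000 * j ^ 2 - 1440 * j * J ^ 3 - 607750387200 * j * J ^ 2
      + 4430048196934656000 * j * J - 4101236057280872448000000 * j + 518400 * J ^ 3
      + 19110670848000 * J ^ 2 + 170148916887552000000 * J + 1369513028852121600000000000

/-- the constant term `N` (level 3) -/
def elimN3 (j J : A) : A :=
    729 * j ^ 5 * J - 551124 * j ^ 5 + 13944460716 * j ^ 4 * J + 16877673339120 * j ^ 4
      + 35694226104480 * j ^ 3 * J - 10379169493558848000 * j ^ 3 + 387419760 * j ^ 2 * J ^ 2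
      - 108392996345702400 * j ^ 2 * J + 86248560322019464704000 * j ^ 2
      - 557884454400 * j * J ^ 2 + 79754306454770688000 * j * J
      - 108081439958057877504000000 * j + 200838403584000 * J ^ 2 - 18302525195157504000000 * J
      + 36976851779007283200000000000

/-- cofactor of the first relation (level 3) -/
def elimU3 (t j J : A) : A :=
    270 * t ^ 2 * j ^ 4 + t ^ 2 * j ^ 3 * J + 25429680 * t ^ 2 * j ^ 3
      - 2160 * t ^ 2 * j ^ 2 * J - 17132083200 * t ^ 2 * j ^ 2 + 1555200 * t ^ 2 * j * J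
      - 15281146368000 * t ^ 2 * j - 373248000 * t ^ 2 * J + 10319560704000000 * t ^ 2
      + t * j ^ 4 * J + 8964 * t * j ^ 4 - 2880 * t * j ^ 3 * J - 158494320 * t * j ^ 3
      + 2913840 * t * j ^ 2 * J - 2055056832000 * t * j ^ 2 - 1209945600 * t * j * J
      + 3192389024256000 * t * j + 166841856000 * t * J - 1176429920256000000 * t
      + 36 * j ^ 4 * J + 45684 * j ^ 4 + 92124 * j ^ 3 * J - 26779844160 * j ^ 3
      + j ^ 2 * J ^ 2 - 279776160 * j ^ 2 * J + 222607701273600 * j ^ 2 - 1440 * j * J ^ 2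
      + 205858713600 * j * J - 278975282042880000 * j + 518400 * J ^ 2 - 47241999360000 * J
      + 95445616951296000000

/-- cofactor of the second relation (level 3) -/
def elimV3 (t j J : A) : A :=
    -270 * t ^ 2 * j ^ 4 - t ^ 2 * j ^ 3 * J - 25429680 * t ^ 2 * j ^ 3
      + 2160 * t ^ 2 * j ^ 2 * J + 17132083200 * t ^ 2 * j ^ 2 - 1555200 * t ^ 2 * j * J
      + 15281146368000 * t ^ 2 * j + 373248000 * t ^ 2 * J - 10319560704000000 * t ^ 2
      + 270 * t * j ^ 5 + 25226316 * t * j ^ 4 - 35282958480 * t * j ^ 3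
      + 196560 * t * j ^ 2 * J - 890989632000 * t * j ^ 2 - 283046400 * t * j * J
      + 18129597064704000 * t * j + 101896704000 * t * J - 6253653786624000000 * t + j ^ 5 * J
      - 756 * j ^ 5 - 3672 * j ^ 4 * J - 1126535364 * j ^ 4 + 4802436 * j ^ 3 * J
      - 5636726677440 * j ^ 3 - j ^ 2 * J ^ 2 - 2715539040 * j ^ 2 * J
      + 7922962188518400 * j ^ 2 + 1440 * j * J ^ 2 + 580201574400 * j * J
      - 959904104785920000 * j - 518400 * J ^ 2 - 9193098240000 * J - 1009345912897536000000

/-- `D` homogenised: `elimD3 (e/d) (e'/d') * d^5 * d'^3` -/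
def elimDh3 (e d e' d' : A) : A :=
    -e ^ 5 * e' ^ 2 * d' + 1512 * e ^ 5 * e' * d' ^ 2 - 374706 * e ^ 5 * d' ^ 3
      + 3672 * e ^ 4 * d * e' ^ 2 * d' + 2199927357 * e ^ 4 * d * e' * d' ^ 2
      + 3513587135760 * e ^ 4 * d * d' ^ 3 - 4802436 * e ^ 3 * d ^ 2 * e' ^ 2 * d'
      + 6287091255360 * e ^ 3 * d ^ 2 * e' * d' ^ 2
      - 578039691371443200 * e ^ 3 * d ^ 2 * d' ^ 3 + e ^ 2 * d ^ 3 * e' ^ 3
      + 2734670160 * e ^ 2 * d ^ 3 * e' ^ 2 * d'
      - 12148776475948800 * e ^ 2 * d ^ 3 * e' * d' ^ 2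
      + 3468720924518404608000 * e ^ 2 * d ^ 3 * d' ^ 3 - 1440 * e * d ^ 4 * e' ^ 3
      - 607750387200 * e * d ^ 4 * e' ^ 2 * d' + 4430048196934656000 * e * d ^ 4 * e' * d' ^ 2
      - 4101236057280872448000000 * e * d ^ 4 * d' ^ 3 + 518400 * d ^ 5 * e' ^ 3
      + 19110670848000 * d ^ 5 * e' ^ 2 * d' + 170148916887552000000 * d ^ 5 * e' * d' ^ 2
      + 1369513028852121600000000000 * d ^ 5 * d' ^ 3

theorem elim3_identity (t j J : A) :
    elimU3 t j J * ((t + 27) * (t + 243) ^ 3 - j * t ^ 3) + elimV3 t j J * ((t + 27) * (t + 3) ^ 3 - J * t)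
      = elimD3 j J * t + elimN3 j J := by
  simp only [elimU3, elimV3, elimD3, elimN3]
  ring

theorem elim3 (t j J : A) (ha : j * t ^ 3 = (t + 27) * (t + 243) ^ 3) (hb : J * t = (t + 27) * (t + 3) ^ 3) :
    elimD3 j J * t + elimN3 j J = 0 := by
  rw [← elim3_identity, ha, hb]
  ring

theorem elimD3_hom (j J d d' : A) :
    elimD3 j J * d ^ 5 * d' ^ 3 = elimDh3 (j * d) d (J * d') d' := by
  simp only [elimD3, elimDh3]
  ring

theorem map_elimD3 {B : Type*} [CommRing B] (φ : A →+* B) (j J : A) :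
    φ (elimD3 j J) = elimD3 (φ j) (φ J) := by
  simp only [elimD3, map_add, map_sub, map_mul, map_pow, map_neg, map_ofNat]

theorem map_elimN3 {B : Type*} [CommRing B] (φ : A →+* B) (j J : A) :
    φ (elimN3 j J) = elimN3 (φ j) (φ J) := by
  simp only [elimN3, map_add, map_sub, map_mul, map_pow, map_neg, map_ofNat]

theorem map_elimDh3 {B : Type*} [CommRing B] (φ : A →+* B) (e d e' d' : A) :
    φ (elimDh3 e d e' d') = elimDh3 (φ e) (φ d) (φ e') (φ d') := by
  simp only [elimDh3, map_add, map_sub, map_mul, map_pow, map_neg, map_ofNat]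

end Elim

end Fermat.Agent.S18.H333

end
-- ===== PACK-END S18/H333/HauptElim.lean

-- ===== PACK-BEGIN S28/H806/LemmaM.lean
section


set_option autoImplicit false
set_option linter.unusedSectionVars false
set_option linter.style.haveILetI false

noncomputable section

namespace Fermat.Agent.S28.H806

open Polynomial

section PrimePower

variable {P D : Type*} [CommRing P] [IsDomain P] [CommRing D] [IsDomain D]

/-- If `ell` generates the kernel of `red` and `red c ≠ 0`, then `u * c = v * ell ^ m`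
forces `ell ^ m ∣ u`. -/
theorem pow_dvd_of_mul_eq_mul_pow (red : P →+* D) (ell : P) (hell0 : ell ≠ 0)
    (hell : red ell = 0) (hker : ∀ u : P, red u = 0 → ell ∣ u) :
    ∀ (m : ℕ) (c : P), red c ≠ 0 → ∀ u v : P, u * c = v * ell ^ m → ell ^ m ∣ u := by
  intro m
  induction m with
  | zero => intro c _ u v _; simp
  | succ m ih =>
    intro c hc u v h
    have hu : red u = 0 := by
      have h1 := congrArg red h
      rw [map_mul, map_mul, map_pow, hell, pow_succ, mul_zero, mul_zero] at h1
      rcases mul_eq_zero.mp h1 with h2 | h2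
      · exact h2
      · exact absurd h2 hc
    obtain ⟨u', rfl⟩ := hker u hu
    have h' : u' * c = v * ell ^ m := by
      apply mul_left_cancel₀ hell0
      rw [← mul_assoc, h, pow_succ]; ring
    obtain ⟨w, hw⟩ := ih c hc u' v h'
    exact ⟨w, by rw [hw, pow_succ]; ring⟩

end PrimePower

section LemmaM

variable {P F D : Type*} [CommRing P] [IsDomain P] [IsIntegrallyClosed P]
  [Field F] [Algebra P F] [Module.IsTorsionFree P F] [CommRing D] [IsDomain D]

/-- **Lemma M.**  Let `P` be an integrally closed domain, `ell ∈ P` a generator of the kernel of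
`red : P → D`, and `s ∈ P` with `red s ≠ 0`.  If `ell • y` and `s • y` are integral over `P`, then
so is `y`. -/
theorem isIntegral_of_isIntegral_smul_of_isIntegral_smul (red : P →+* D) (ell s : P)
    (hell0 : ell ≠ 0) (hell : red ell = 0) (hker : ∀ u : P, red u = 0 → ell ∣ u)
    (hs : red s ≠ 0) (y : F) (h1 : IsIntegral P (ell • y)) (h2 : IsIntegral P (s • y)) :
    IsIntegral P y := by
  classical
  have hs0 : s ≠ 0 := fun h => hs (by rw [h, map_zero])
  have e1 := IsIntegrallyClosed.minpoly_smul hs0 h1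
  have e2 := IsIntegrallyClosed.minpoly_smul hell0 h2
  rw [smul_comm] at e1
  rw [e1] at e2
  set g := minpoly P (ell • y) with hg
  set h := minpoly P (s • y) with hh
  have hdeg : g.natDegree = h.natDegree := by
    have := congrArg Polynomial.natDegree e2
    rwa [natDegree_scaleRoots, natDegree_scaleRoots] at this
  set n := g.natDegree with hn
  have hdiv : ∀ i, ell ^ (n - i) ∣ g.coeff i := by
    intro i
    have hc := congrArg (fun p => p.coeff i) e2
    simp only [coeff_scaleRoots] at hc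
    rw [← hdeg] at hc
    exact pow_dvd_of_mul_eq_mul_pow red ell hell0 hell hker (n - i) (s ^ (n - i))
      (by rw [map_pow]; exact pow_ne_zero _ hs) (g.coeff i) (h.coeff i) hc
  choose a ha using hdiv
  have hgm : g.Monic := minpoly.monic h1
  have han : a n = 1 := by
    have := ha n
    rw [Nat.sub_self, pow_zero, one_mul] at this
    rw [← this]
    exact hgm.coeff_natDegree
  let f : P[X] := X ^ n + ∑ i ∈ Finset.range n, C (a i) * X ^ i
  have hfm : f.Monic := by
    apply monic_X_pow_add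
    rw [degree_lt_iff_coeff_zero]
    intro m hm
    rw [finsetSum_coeff]
    refine Finset.sum_eq_zero fun i hi => ?_
    rw [coeff_C_mul_X_pow, if_neg]
    have := Finset.mem_range.mp hi
    omega
  refine ⟨f, hfm, ?_⟩
  have hroot : aeval (ell • y) g = 0 := minpoly.aeval P (ell • y)
  rw [hgm.as_sum] at hroot
  have hell' : algebraMap P F ell ≠ 0 := by
    intro h0
    exact hell0 ((FaithfulSMul.algebraMap_injective P F) (by rw [h0, map_zero]))
  have key : (algebraMap P F ell) ^ n * eval₂ (algebraMap P F) y f = 0 := by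
    rw [← hroot]
    simp only [f, eval₂_add, eval₂_pow, eval₂_X, eval₂_finsetSum, eval₂_mul, eval₂_C,
      map_add, map_pow, aeval_X, map_sum, map_mul, aeval_C, Algebra.smul_def]
    rw [mul_add, Finset.mul_sum, mul_pow]
    congr 1
    refine Finset.sum_congr rfl fun i hi => ?_
    have hi' : i ≤ n := (Finset.mem_range.mp hi).le
    rw [ha i, map_mul, map_pow, mul_pow]
    have : (algebraMap P F ell) ^ n = (algebraMap P F ell) ^ (n - i) * (algebraMap P F ell) ^ i := by
      rw [← pow_add, Nat.sub_add_cancel hi']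
    rw [this]; ring
  rcases mul_eq_zero.mp key with h0 | h0
  · exact absurd h0 (pow_ne_zero _ hell')
  · exact h0

end LemmaM

end Fermat.Agent.S28.H806

end
end
-- ===== PACK-END S28/H806/LemmaM.lean

-- ===== PACK-BEGIN S18/H264/SepLaurent.lean
section


/-!
# S18 / G-SEP core (helper264): subfields of `κ((q))` are separable over `κ(x)`

Mathlib-only.  Let `κ` be a perfect field of characteristic `p`, and `x ∈ κ((q))` a Laurent
series whose `q`-order is prime to `p` (e.g. `x = j̄, t̄₂, t̄₃`, of order `-1`).  Then every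
`y ∈ κ((q))` that is algebraic over `κ(x)` is separable over `κ(x)`.

Main statements (namespace `Fermat.Agent.S18.H264`):

* `isSeparable_of_isAlgebraic_of_addVal` : abstract form, for a field `L ⊇ κ` with an additive
  valuation `v : AddValuation L (WithTop ℤ)` and `p ∤ v x`.
* `isSeparable_laurent` : the Laurent series form, hypothesis `¬ (p : ℤ) ∣ x.order`.
* `isSeparable_laurent_of_order_eq_neg_one` : the same for `x.order = -1`.
* `exists_poly_simple_root_laurent` : liftable polynomial form, `∃ P ∈ κ[X][Y]` with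
  `P(x, y) = 0` and `(∂P/∂Y)(x, y) ≠ 0`.

Proof: `1, x, …, x^(p-1)` is a `p`-basis: every element of `κ(x)` is `∑_{r<p} x^r b_r^p`
(`κ` perfect), and `∑_{r<p} x^r z_r^p = 0` in `L` forces all `z_r = 0` (the valuations of the
nonzero terms are pairwise distinct mod `p`).  If the minimal polynomial `g` of `y` were
inseparable, `g = h(Y^p)`, `h = ∑_r x^r h_r^{(p)}`, so `0 = h(y^p) = ∑_r x^r (h_r(y))^p`, whence
`h_r(y) = 0` with `deg h_r < deg g`, so `h_r = 0`, `h = 0`: contradiction.
-/

set_option autoImplicit false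

namespace Fermat.Agent.S18.H264

open Polynomial

section Valuation

variable {L : Type*} [Field L] (v : AddValuation L (WithTop ℤ))

/-- Finitely many nonzero terms with pairwise distinct valuations cannot sum to zero. -/
theorem sum_ne_zero_of_val_injOn {ι : Type*} (s : Finset ι) (f : ι → L) (hs : s.Nonempty)
    (hne : ∀ i ∈ s, f i ≠ 0) (hinj : ∀ i ∈ s, ∀ j ∈ s, v (f i) = v (f j) → i = j) :
    ∑ i ∈ s, f i ≠ 0 := by
  classical
  obtain ⟨i₀, hi₀, hmin⟩ := Finset.exists_min_image s (fun i => v (f i)) hs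
  have hlt : ∀ i ∈ s.erase i₀, v (f i₀) < v (f i) := by
    intro i hi
    rw [Finset.mem_erase] at hi
    exact lt_of_le_of_ne (hmin i hi.2) (fun h => hi.1 (hinj _ hi₀ _ hi.2 h).symm)
  have htop : v (f i₀) ≠ ⊤ := by
    rw [Ne, AddValuation.top_iff]
    exact hne i₀ hi₀
  have hrest : v (f i₀) < v (∑ i ∈ s.erase i₀, f i) := AddValuation.map_lt_sum v htop hlt
  rw [← Finset.add_sum_erase s f hi₀]
  intro h0
  have h1 := AddValuation.map_add_eq_of_lt_left v hrest
  rw [h0, AddValuation.map_zero] at h1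
  exact htop h1.symm

/-- `1, x, …, x^(p-1)` are linearly independent over `L^p` when `p ∤ v x`. -/
theorem eq_zero_of_sum_pow_mul_pow_eq_zero (p : ℕ) (hp : p.Prime) (x : L) (n : ℤ)
    (hx : v x = (n : WithTop ℤ)) (hn : ¬ (p : ℤ) ∣ n) (z : ℕ → L)
    (h : ∑ r ∈ Finset.range p, x ^ r * z r ^ p = 0) : ∀ r < p, z r = 0 := by
  classical
  by_contra hcon
  push Not at hcon
  obtain ⟨r₁, hr₁, hz₁⟩ := hcon
  have hx0 : x ≠ 0 := by
    intro h0
    rw [h0, AddValuation.map_zero] at hx
    exact WithTop.top_ne_coe hx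
  set s := (Finset.range p).filter (fun r => z r ≠ 0) with hs
  have hsum : ∑ r ∈ s, x ^ r * z r ^ p = 0 := by
    have h1 : ∑ r ∈ s, x ^ r * z r ^ p = ∑ r ∈ Finset.range p, x ^ r * z r ^ p := by
      rw [hs, Finset.sum_filter]
      refine Finset.sum_congr rfl fun r _ => ?_
      by_cases hz : z r = 0
      · simp [hz, hp.ne_zero]
      · simp [hz]
    rw [h1, h]
  have hval : ∀ r ∈ s, ∃ a : ℤ, v (x ^ r * z r ^ p) = ((r * n + p * a : ℤ) : WithTop ℤ) := by
    intro r hr
    have hz : z r ≠ 0 := (Finset.mem_filter.mp hr).2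
    have hzt : v (z r) ≠ ⊤ := by rw [Ne, AddValuation.top_iff]; exact hz
    obtain ⟨a, ha⟩ := WithTop.ne_top_iff_exists.mp hzt
    refine ⟨a, ?_⟩
    rw [AddValuation.map_mul, AddValuation.map_pow, AddValuation.map_pow, hx, ← ha]
    rw [← WithTop.coe_nsmul, ← WithTop.coe_nsmul, ← WithTop.coe_add, nsmul_eq_mul, nsmul_eq_mul]
  refine sum_ne_zero_of_val_injOn v s _ ⟨r₁, Finset.mem_filter.mpr ⟨Finset.mem_range.mpr hr₁, hz₁⟩⟩
    ?_ ?_ hsum
  · intro r hr
    have hz : z r ≠ 0 := (Finset.mem_filter.mp hr).2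
    exact mul_ne_zero (pow_ne_zero _ hx0) (pow_ne_zero _ hz)
  · intro r hr r' hr' hrr'
    obtain ⟨a, ha⟩ := hval r hr
    obtain ⟨a', ha'⟩ := hval r' hr'
    rw [ha, ha', WithTop.coe_eq_coe] at hrr'
    have hrp : r < p := Finset.mem_range.mp (Finset.mem_filter.mp hr).1
    have hrp' : r' < p := Finset.mem_range.mp (Finset.mem_filter.mp hr').1
    have hdvd : (p : ℤ) ∣ ((r : ℤ) - r') * n := ⟨a' - a, by linarith⟩
    have hdvd' : (p : ℤ) ∣ (r : ℤ) - r' :=
      ((Nat.prime_iff_prime_int.mp hp).dvd_or_dvd hdvd).resolve_right hn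
    have h0 : (r : ℤ) - r' = 0 := by
      apply Int.eq_zero_of_abs_lt_dvd hdvd'
      rw [abs_lt]
      constructor <;> omega
    omega

end Valuation

section Decomp

variable {κ : Type*} [Field κ] [PerfectField κ] (p : ℕ) [hp : Fact p.Prime] [CharP κ p]

/-- Every polynomial over a perfect field of characteristic `p` is `∑_{r<p} X^r c_r^p`. -/
theorem exists_pBasis_decomp_poly (w : κ[X]) :
    ∃ c : ℕ → κ[X], w = ∑ r ∈ Finset.range p, X ^ r * c r ^ p := by
  induction w using Polynomial.induction_on' with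
  | add w₁ w₂ h₁ h₂ =>
    obtain ⟨c₁, hc₁⟩ := h₁
    obtain ⟨c₂, hc₂⟩ := h₂
    refine ⟨fun r => c₁ r + c₂ r, ?_⟩
    have h : ∀ r, X ^ r * (c₁ r + c₂ r) ^ p = X ^ r * c₁ r ^ p + X ^ r * c₂ r ^ p := by
      intro r
      rw [add_pow_char, mul_add]
    simp only [h, Finset.sum_add_distrib]
    rw [← hc₁, ← hc₂]
  | monomial n a =>
    refine ⟨fun r => if r = n % p then monomial (n / p) ((frobeniusEquiv κ p).symm a) else 0, ?_⟩
    rw [Finset.sum_eq_single (n % p)]
    · simp only [if_true]
      rw [monomial_pow, X_pow_mul_monomial, frobeniusEquiv_symm_pow_p, Nat.div_add_mod' n p]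
    · intro r _ hr
      simp only [if_neg hr]
      rw [zero_pow hp.out.ne_zero, mul_zero]
    · intro h
      exact absurd (Finset.mem_range.mpr (Nat.mod_lt _ hp.out.pos)) h

/-- Every element of `κ(x)` is `∑_{r<p} x^r b_r^p` with `b_r ∈ κ(x)` (`κ` perfect). -/
theorem exists_pBasis_decomp {L : Type*} [Field L] [Algebra κ L] (x : L) (a : L)
    (ha : a ∈ IntermediateField.adjoin κ {x}) :
    ∃ b : ℕ → L, (∀ r, b r ∈ IntermediateField.adjoin κ {x}) ∧
      a = ∑ r ∈ Finset.range p, x ^ r * b r ^ p := by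
  obtain ⟨u, w, rfl⟩ := (IntermediateField.mem_adjoin_simple_iff κ a).mp ha
  by_cases hw : aeval x w = 0
  · refine ⟨fun _ => 0, fun _ => zero_mem _, ?_⟩
    simp [hw, hp.out.ne_zero]
  · obtain ⟨c, hc⟩ := exists_pBasis_decomp_poly p (u * w ^ (p - 1))
    refine ⟨fun r => aeval x (c r) / aeval x w, fun r => ?_, ?_⟩
    · exact (IntermediateField.mem_adjoin_simple_iff κ _).mpr ⟨c r, w, rfl⟩
    · have hpp : p - 1 + 1 = p := Nat.sub_add_cancel hp.out.one_le
      have h1 : aeval x u / aeval x w = aeval x (u * w ^ (p - 1)) / (aeval x w) ^ p := by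
        rw [map_mul, map_pow, eq_div_iff (pow_ne_zero _ hw), div_mul_eq_mul_div,
          div_eq_iff hw, mul_assoc, ← pow_succ, hpp]
      rw [h1, hc, map_sum, Finset.sum_div]
      refine Finset.sum_congr rfl fun r _ => ?_
      rw [map_mul, map_pow, map_pow, aeval_X, div_pow, mul_div_assoc]

end Decomp

section Main

variable {κ L : Type*} [Field κ] [PerfectField κ] [Field L] [Algebra κ L]
  (p : ℕ) [hp : Fact p.Prime] [CharP κ p]

/-- **Separability from a valuation** (abstract form).  `κ` perfect of characteristic `p`,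
`L ⊇ κ` a field with a `ℤ`-valued additive valuation `v`, `x ∈ L` with `p ∤ v x`.  Then every
`y ∈ L` algebraic over `κ(x)` is separable over `κ(x)`. -/
theorem isSeparable_of_isAlgebraic_of_addVal (v : AddValuation L (WithTop ℤ)) (x : L) (n : ℤ)
    (hx : v x = (n : WithTop ℤ)) (hn : ¬ (p : ℤ) ∣ n) (y : L)
    (hy : IsAlgebraic (IntermediateField.adjoin κ {x}) y) :
    IsSeparable (IntermediateField.adjoin κ {x}) y := by
  classical
  have : CharP (IntermediateField.adjoin κ {x}) p :=
    charP_of_injective_algebraMap (algebraMap κ (IntermediateField.adjoin κ {x})).injective p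
  have : CharP L p := charP_of_injective_algebraMap (algebraMap κ L).injective p
  have hint : IsIntegral (IntermediateField.adjoin κ {x}) y := hy.isIntegral
  have hirr := minpoly.irreducible hint
  rcases Polynomial.separable_or p hirr with hsep | ⟨_, h, hh, hexp⟩
  · exact hsep
  exfalso
  have h0 : aeval (y ^ p) h = 0 := by
    rw [← expand_aeval, hexp, minpoly.aeval]
  have hdec : ∀ i : ℕ, ∃ b : ℕ → L, (∀ r, b r ∈ IntermediateField.adjoin κ {x}) ∧
      ((h.coeff i : IntermediateField.adjoin κ {x}) : L) =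
        ∑ r ∈ Finset.range p, x ^ r * b r ^ p :=
    fun i => exists_pBasis_decomp p x _ (h.coeff i).2
  choose b hbE hb using hdec
  set H : ℕ → (IntermediateField.adjoin κ {x})[X] := fun r =>
    ∑ i ∈ Finset.range (h.natDegree + 1),
      monomial i (⟨b i r, hbE i r⟩ : IntermediateField.adjoin κ {x}) with hH
  have haev : ∀ r, aeval y (H r) = ∑ i ∈ Finset.range (h.natDegree + 1), b i r * y ^ i := by
    intro r
    rw [hH]
    simp only [map_sum, aeval_monomial]
    rfl
  have hsum : ∑ r ∈ Finset.range p, x ^ r * (aeval y (H r)) ^ p = 0 := by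
    calc ∑ r ∈ Finset.range p, x ^ r * (aeval y (H r)) ^ p
        = ∑ r ∈ Finset.range p, ∑ i ∈ Finset.range (h.natDegree + 1),
            x ^ r * b i r ^ p * (y ^ p) ^ i := by
          refine Finset.sum_congr rfl fun r _ => ?_
          rw [haev, sum_pow_char, Finset.mul_sum]
          refine Finset.sum_congr rfl fun i _ => ?_
          rw [mul_pow, ← pow_mul, ← pow_mul, mul_comm i p, mul_assoc]
      _ = ∑ i ∈ Finset.range (h.natDegree + 1),
            (∑ r ∈ Finset.range p, x ^ r * b i r ^ p) * (y ^ p) ^ i := by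
          rw [Finset.sum_comm]
          refine Finset.sum_congr rfl fun i _ => ?_
          rw [Finset.sum_mul]
      _ = aeval (y ^ p) h := by
          rw [aeval_eq_sum_range]
          refine Finset.sum_congr rfl fun i _ => ?_
          rw [← hb i, Algebra.smul_def]
          rfl
      _ = 0 := h0
  have hz := eq_zero_of_sum_pow_mul_pow_eq_zero v p hp.out x n hx hn
    (fun r => aeval y (H r)) hsum
  have hdegH : ∀ r, (H r).natDegree ≤ h.natDegree := by
    intro r
    rw [hH]
    refine natDegree_sum_le_of_forall_le _ _ fun i hi => ?_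
    exact (natDegree_monomial_le _).trans (Nat.lt_succ_iff.mp (Finset.mem_range.mp hi))
  have hdegh : 0 < h.natDegree := hh.natDegree_pos
  have hdegm : (minpoly (IntermediateField.adjoin κ {x}) y).natDegree = h.natDegree * p := by
    rw [← hexp, natDegree_expand]
  have hzero : ∀ r < p, H r = 0 := by
    intro r hrp
    by_contra hne
    have h1 := natDegree_le_natDegree
      (minpoly.degree_le_of_ne_zero (IntermediateField.adjoin κ {x}) y hne (hz r hrp))
    have h2 := hdegH r
    have h3 : h.natDegree * 2 ≤ h.natDegree * p := Nat.mul_le_mul_left _ hp.out.two_le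
    omega
  have hbzero : ∀ i ≤ h.natDegree, ∀ r < p, b i r = 0 := by
    intro i hi r hrp
    have h1 : (H r).coeff i = 0 := by rw [hzero r hrp, coeff_zero]
    rw [hH] at h1
    simp only [finsetSum_coeff, coeff_monomial] at h1
    rw [Finset.sum_eq_single i] at h1
    · rw [if_pos rfl] at h1
      exact congrArg Subtype.val h1
    · intro j _ hj
      rw [if_neg hj]
    · intro hi'
      exact absurd (Finset.mem_range.mpr (Nat.lt_succ_iff.mpr hi)) hi'
  apply hh.ne_zero
  refine Polynomial.ext fun i => ?_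
  rw [coeff_zero]
  by_cases hi : i ≤ h.natDegree
  · apply Subtype.ext
    rw [hb i, ZeroMemClass.coe_zero]
    refine Finset.sum_eq_zero fun r hr => ?_
    rw [hbzero i hi r (Finset.mem_range.mp hr), zero_pow hp.out.ne_zero, mul_zero]
  · exact coeff_eq_zero_of_natDegree_lt (not_le.mp hi)

end Main

section Laurent

variable {κ : Type*} [Field κ] [PerfectField κ] (p : ℕ) [hp : Fact p.Prime] [CharP κ p]

/-- **G-SEP core.**  `κ` perfect of characteristic `p`, `x ∈ κ((q))` of `q`-order prime to `p`.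
Every `y ∈ κ((q))` algebraic over `κ(x)` is separable over `κ(x)`. -/
theorem isSeparable_laurent (x y : LaurentSeries κ) (hx : ¬ (p : ℤ) ∣ x.order)
    (hy : IsAlgebraic (IntermediateField.adjoin κ {x}) y) :
    IsSeparable (IntermediateField.adjoin κ {x}) y := by
  have hx0 : x ≠ 0 := by
    rintro rfl
    exact hx (by rw [HahnSeries.order_zero]; exact dvd_zero _)
  exact isSeparable_of_isAlgebraic_of_addVal p (HahnSeries.addVal ℤ κ) x x.order
    (HahnSeries.addVal_apply_of_ne hx0) hx y hy

theorem not_prime_dvd_neg_one (q : ℕ) (hq : q.Prime) : ¬ (q : ℤ) ∣ -1 := by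
  rw [dvd_neg]
  intro h
  have h1 : (q : ℤ) ≤ 1 := Int.le_of_dvd one_pos h
  have h2 := hq.two_le
  omega

include hp in
/-- The case `ord_q x = -1` (`x = j̄, t̄₂, t̄₃`). -/
theorem isSeparable_laurent_of_order_eq_neg_one (x y : LaurentSeries κ) (hx : x.order = -1)
    (hy : IsAlgebraic (IntermediateField.adjoin κ {x}) y) :
    IsSeparable (IntermediateField.adjoin κ {x}) y :=
  isSeparable_laurent p x y (by rw [hx]; exact not_prime_dvd_neg_one p hp.out) hy

/-- Every intermediate field of `κ((q)) / κ(x)` that is algebraic over `κ(x)` is separable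
over `κ(x)`. -/
theorem isSeparable_intermediateField_laurent (x : LaurentSeries κ) (hx : ¬ (p : ℤ) ∣ x.order)
    (F : IntermediateField (IntermediateField.adjoin κ {x}) (LaurentSeries κ))
    [Algebra.IsAlgebraic (IntermediateField.adjoin κ {x}) F] :
    Algebra.IsSeparable (IntermediateField.adjoin κ {x}) F := by
  refine ⟨fun z => ?_⟩
  have hz : IsAlgebraic (IntermediateField.adjoin κ {x}) (z : LaurentSeries κ) :=
    (Algebra.IsAlgebraic.isAlgebraic z).algebraMap
  have h := isSeparable_laurent p x (z : LaurentSeries κ) hx hz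
  rwa [IsSeparable, ← IntermediateField.minpoly_eq] at h

end Laurent

section PolyForm

variable {κ L : Type*} [Field κ] [Field L] [Algebra κ L]

/-- Clearing denominators: a polynomial over `κ(x)` is, up to a nonzero factor `V(x)`, the image
of a polynomial in `κ[X][Y]`. -/
theorem exists_clear_denominators (x : L) (g : (IntermediateField.adjoin κ {x})[X]) :
    ∃ (P : Polynomial (Polynomial κ)) (V : Polynomial κ), aeval x V ≠ 0 ∧
      P.map (aeval x : Polynomial κ →ₐ[κ] L).toRingHom =
        C (aeval x V) * g.map (algebraMap (IntermediateField.adjoin κ {x}) L) := by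
  induction g using Polynomial.induction_on' with
  | add g₁ g₂ h₁ h₂ =>
    obtain ⟨P₁, V₁, hV₁, hP₁⟩ := h₁
    obtain ⟨P₂, V₂, hV₂, hP₂⟩ := h₂
    refine ⟨C V₂ * P₁ + C V₁ * P₂, V₁ * V₂, ?_, ?_⟩
    · rw [map_mul]
      exact mul_ne_zero hV₁ hV₂
    · rw [Polynomial.map_add, Polynomial.map_mul, Polynomial.map_mul, hP₁, hP₂, Polynomial.map_C,
        Polynomial.map_C, Polynomial.map_add, map_mul, C_mul]
      simp only [AlgHom.toRingHom_eq_coe, RingHom.coe_coe]
      ring
  | monomial i a =>
    obtain ⟨u, w, hu⟩ := (IntermediateField.mem_adjoin_simple_iff κ (a : L)).mp a.2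
    by_cases hw : aeval x w = 0
    · refine ⟨0, 1, ?_, ?_⟩
      · rw [map_one]
        exact one_ne_zero
      · have ha : a = 0 := by
          apply Subtype.ext
          rw [hu, hw, div_zero]
          rfl
        rw [ha]
        simp
    · refine ⟨monomial i u, w, hw, ?_⟩
      rw [Polynomial.map_monomial, Polynomial.map_monomial, C_mul_monomial]
      congr 1
      show aeval x u = aeval x w * (a : L)
      rw [hu, mul_div_cancel₀ _ hw]

/-- **Liftable polynomial form of separability.**  If `y` is integral and separable over `κ(x)`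
then there is `P ∈ κ[X][Y]` with `P(x, y) = 0` and `(∂P/∂Y)(x, y) ≠ 0`. -/
theorem exists_bivariate_simple_root (x y : L)
    (hsep : IsSeparable (IntermediateField.adjoin κ {x}) y) :
    ∃ P : Polynomial (Polynomial κ),
      P.eval₂ (aeval x : Polynomial κ →ₐ[κ] L).toRingHom y = 0 ∧
      (derivative P).eval₂ (aeval x : Polynomial κ →ₐ[κ] L).toRingHom y ≠ 0 := by
  obtain ⟨P, V, hV, hP⟩ := exists_clear_denominators x (minpoly (IntermediateField.adjoin κ {x}) y)
  refine ⟨P, ?_, ?_⟩
  · rw [eval₂_eq_eval_map, hP, eval_mul, eval_C, eval_map_algebraMap, minpoly.aeval, mul_zero]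
  · rw [eval₂_eq_eval_map, ← derivative_map, hP, derivative_C_mul, eval_mul, eval_C, derivative_map,
      eval_map_algebraMap]
    exact mul_ne_zero hV (hsep.aeval_derivative_ne_zero (minpoly.aeval _ _))

end PolyForm

section LaurentPolyForm

variable {κ : Type*} [Field κ] [PerfectField κ] (p : ℕ) [hp : Fact p.Prime] [CharP κ p]

/-- **G-SEP, liftable form.**  `κ` perfect of characteristic `p`, `x ∈ κ((q))` of order prime to
`p`, `y ∈ κ((q))` algebraic over `κ(x)`: there is `P ∈ κ[X][Y]` with `P(x, y) = 0` and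
`(∂P/∂Y)(x, y) ≠ 0`. -/
theorem exists_bivariate_simple_root_laurent (x y : LaurentSeries κ) (hx : ¬ (p : ℤ) ∣ x.order)
    (hy : IsAlgebraic (IntermediateField.adjoin κ {x}) y) :
    ∃ P : Polynomial (Polynomial κ),
      P.eval₂ (aeval x : Polynomial κ →ₐ[κ] LaurentSeries κ).toRingHom y = 0 ∧
      (derivative P).eval₂ (aeval x : Polynomial κ →ₐ[κ] LaurentSeries κ).toRingHom y ≠ 0 :=
  exists_bivariate_simple_root x y (isSeparable_laurent p x y hx hy)

end LaurentPolyForm

end Fermat.Agent.S18.H264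

end
-- ===== PACK-END S18/H264/SepLaurent.lean

-- ===== PACK-BEGIN S18/H438/Front/Dvr.lean
section


/-!
# S18 / ALG-FRONT (helper438), part 0: a subring with a uniformiser is a DVR

`A : Subring K` (`K` a field), `w ∈ A`, `w ≠ 0`, `w⁻¹ ∉ A`, every nonzero element of `A` is
`w ^ n * unit`.  Then `A` is a discrete valuation ring with uniformiser `w`.
-/

set_option autoImplicit false
set_option linter.unusedSectionVars false

noncomputable section

namespace Fermat.Agent.S18.H438

variable {K : Type*} [Field K] (A : Subring K) {w : K}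

/-- units of a subring of a field, elementwise -/
theorem isUnit_subring_iff {a : A} : IsUnit a ↔ (a : K) ≠ 0 ∧ (a : K)⁻¹ ∈ A := by
  constructor
  · rintro ⟨⟨u, v, huv, hvu⟩, rfl⟩
    have h1 : (u : K) * (v : K) = 1 := congrArg Subtype.val huv
    have hu0 : (u : K) ≠ 0 := left_ne_zero_of_mul_eq_one h1
    refine ⟨hu0, ?_⟩
    have : (u : K)⁻¹ = (v : K) := (eq_inv_of_mul_eq_one_right h1).symm
    rw [show ((⟨u, v, huv, hvu⟩ : Aˣ) : A) = u from rfl, this]
    exact v.2
  · rintro ⟨h0, hinv⟩
    refine ⟨⟨a, ⟨(a : K)⁻¹, hinv⟩, Subtype.ext ?_, Subtype.ext ?_⟩, rfl⟩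
    · show (a : K) * (a : K)⁻¹ = 1
      exact mul_inv_cancel₀ h0
    · show (a : K)⁻¹ * (a : K) = 1
      exact inv_mul_cancel₀ h0

variable (hwA : w ∈ A) (hw0 : w ≠ 0) (hwinv : w⁻¹ ∉ A)
  (hdisc : ∀ r ∈ A, r ≠ 0 → ∃ n : ℕ, r * (w⁻¹) ^ n ∈ A ∧ (r * (w⁻¹) ^ n)⁻¹ ∈ A)

include hwA hw0 hwinv hdisc

/-- `w` is irreducible in `A`. -/
theorem irreducible_unif_of_disc : Irreducible (⟨w, hwA⟩ : A) := by
  have hnu : ¬ IsUnit (⟨w, hwA⟩ : A) := fun h => hwinv ((isUnit_subring_iff A).1 h).2
  refine ⟨hnu, ?_⟩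
  intro a b hab
  have habK : w = (a : K) * (b : K) := congrArg Subtype.val hab
  have ha0 : (a : K) ≠ 0 := fun h => hw0 (by rw [habK, h, zero_mul])
  have hb0 : (b : K) ≠ 0 := fun h => hw0 (by rw [habK, h, mul_zero])
  obtain ⟨n, hn1, hn2⟩ := hdisc a a.2 ha0
  obtain ⟨m, hm1, hm2⟩ := hdisc b b.2 hb0
  -- `w = w^(n+m) * unit`
  have hprod : ((a : K) * (w⁻¹) ^ n) * ((b : K) * (w⁻¹) ^ m) = w * (w⁻¹) ^ (n + m) := by
    rw [habK, pow_add]; ring
  have hunit : w * (w⁻¹) ^ (n + m) ∈ A ∧ (w * (w⁻¹) ^ (n + m))⁻¹ ∈ A := by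
    rw [← hprod]
    refine ⟨A.mul_mem hn1 hm1, ?_⟩
    rw [mul_inv]
    exact A.mul_mem hn2 hm2
  -- so `n + m = 1`
  have hnm : n + m = 1 := by
    rcases Nat.lt_or_ge (n + m) 1 with h | h
    · -- `n + m = 0`: `w` would be a unit
      have h0 : n + m = 0 := by omega
      rw [h0, pow_zero, mul_one] at hunit
      exact absurd hunit.2 hwinv
    · rcases Nat.eq_or_lt_of_le h with h1 | h1
      · exact h1.symm
      · -- `n + m ≥ 2`: `w⁻¹ = (w * w^-(n+m)) * w^(n+m-2) ∈ A`
        exfalso
        obtain ⟨k, hk⟩ : ∃ k, n + m = k + 2 := ⟨n + m - 2, by omega⟩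
        have : w⁻¹ = (w * (w⁻¹) ^ (n + m)) * w ^ k := by
          rw [hk, pow_add, inv_pow, inv_pow]
          field_simp
        apply hwinv
        rw [this]
        exact A.mul_mem hunit.1 (A.pow_mem hwA k)
  rcases Nat.eq_zero_or_pos n with hn | hn
  · left
    rw [isUnit_subring_iff]
    refine ⟨ha0, ?_⟩
    rw [hn, pow_zero, mul_one] at hn2
    exact hn2
  · right
    have hm : m = 0 := by omega
    rw [isUnit_subring_iff]
    refine ⟨hb0, ?_⟩
    rw [hm, pow_zero, mul_one] at hm2
    exact hm2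

/-- **`A` is a discrete valuation ring.** -/
theorem isDiscreteValuationRing_of_disc : IsDiscreteValuationRing A := by
  refine IsDiscreteValuationRing.ofHasUnitMulPowIrreducibleFactorization
    ⟨⟨w, hwA⟩, irreducible_unif_of_disc A hwA hw0 hwinv hdisc, ?_⟩
  intro r hr
  have hr0 : (r : K) ≠ 0 := fun h => hr (Subtype.ext h)
  obtain ⟨n, hn1, hn2⟩ := hdisc r r.2 hr0
  refine ⟨n, ?_⟩
  have hu : IsUnit (⟨(r : K) * (w⁻¹) ^ n, hn1⟩ : A) := by
    rw [isUnit_subring_iff]
    refine ⟨mul_ne_zero hr0 (pow_ne_zero n (inv_ne_zero hw0)), hn2⟩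
  obtain ⟨u, hu'⟩ := hu
  refine ⟨u, Subtype.ext ?_⟩
  rw [hu']
  show w ^ n * ((r : K) * (w⁻¹) ^ n) = r
  rw [inv_pow]
  field_simp

end Fermat.Agent.S18.H438

end
end
-- ===== PACK-END S18/H438/Front/Dvr.lean

-- ===== PACK-BEGIN S18/H438/Front/HeightOne.lean
section


/-!
# S18 / ALG-FRONT (helper438), part 3a: localisation at a height-one prime is a DVR

`B` a Noetherian integrally closed domain with fraction field `F`, `𝔭` a prime of height one.
Then `B_𝔭 ⊆ F` is a discrete valuation ring, realised as a `ValuationSubring F`: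

    exists_dvr_of_height_one :
      ∃ W : ValuationSubring F, IsDiscreteValuationRing W ∧
        ∀ f : F, f ∈ W ↔ ∃ a s : B, s ∉ 𝔭 ∧ f * algebraMap B F s = algebraMap B F a
-/

set_option autoImplicit false
set_option linter.style.haveILetI false
set_option linter.unusedSectionVars false

noncomputable section

namespace Fermat.Agent.S18.H438

open IsLocalRing

variable {B F : Type*} [CommRing B] [IsDomain B] [Field F] [Algebra B F] [IsFractionRing B F]

/-- Membership in the localisation `B_𝔭 ⊆ F`. -/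
theorem mem_ofField_primeCompl_iff (𝔭 : Ideal B) [𝔭.IsPrime] (f : F) :
    f ∈ Localization.subalgebra.ofField F 𝔭.primeCompl 𝔭.primeCompl_le_nonZeroDivisors ↔
      ∃ a s : B, s ∉ 𝔭 ∧ f * algebraMap B F s = algebraMap B F a := by
  constructor
  · rintro ⟨a, s, hs, rfl⟩
    refine ⟨a, s, hs, ?_⟩
    have hs0 : algebraMap B F s ≠ 0 := by
      intro h
      have : s = 0 := (FaithfulSMul.algebraMap_injective B F) (by rw [h, map_zero])
      exact hs (this ▸ 𝔭.zero_mem)
    field_simp
  · rintro ⟨a, s, hs, h⟩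
    refine ⟨a, s, hs, ?_⟩
    have hs0 : algebraMap B F s ≠ 0 := by
      intro h
      have : s = 0 := (FaithfulSMul.algebraMap_injective B F) (by rw [h, map_zero])
      exact hs (this ▸ 𝔭.zero_mem)
    rw [← h]
    field_simp

variable [IsNoetherianRing B] [IsIntegrallyClosed B]

/-- **Localisation at a height-one prime of a Noetherian normal domain is a DVR.** -/
theorem isDiscreteValuationRing_ofField_of_height_one (𝔭 : Ideal B) [h𝔭 : 𝔭.IsPrime]
    (h : 𝔭.height = 1) :
    IsDiscreteValuationRing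
      (Localization.subalgebra.ofField F 𝔭.primeCompl 𝔭.primeCompl_le_nonZeroDivisors) := by
  set A := Localization.subalgebra.ofField F 𝔭.primeCompl 𝔭.primeCompl_le_nonZeroDivisors with hA
  haveI hloc : IsLocalization.AtPrime A 𝔭 :=
    Localization.subalgebra.isLocalization_ofField F 𝔭.primeCompl 𝔭.primeCompl_le_nonZeroDivisors
  haveI : IsLocalRing A := IsLocalization.AtPrime.isLocalRing A 𝔭
  haveI : IsNoetherianRing A := IsLocalization.isNoetherianRing 𝔭.primeCompl A inferInstance
  haveI : IsIntegrallyClosed A :=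
    isIntegrallyClosed_of_isLocalization A 𝔭.primeCompl 𝔭.primeCompl_le_nonZeroDivisors
  have h𝔭bot : 𝔭 ≠ ⊥ := Ideal.ne_bot_of_height_eq_one h
  have hfin : 𝔭.FiniteHeight := by simp [𝔭.finiteHeight_iff, h]
  -- the maximal ideal is the extension of `𝔭`
  have hmax : maximalIdeal A = 𝔭.map (algebraMap B A) :=
    (IsLocalization.AtPrime.map_eq_maximalIdeal 𝔭 A).symm
  -- `A` is not a field
  have hnf : ¬ IsField A := by
    rw [isField_iff_maximalIdeal_eq]
    intro hbot
    obtain ⟨x, hx, hx0⟩ := Submodule.exists_mem_ne_zero_of_ne_bot h𝔭bot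
    have hxmem : algebraMap B A x ∈ maximalIdeal A := by
      rw [hmax]; exact Ideal.mem_map_of_mem _ hx
    rw [hbot, Ideal.mem_bot] at hxmem
    have hinj : Function.Injective (algebraMap B A) :=
      IsLocalization.injective A 𝔭.primeCompl_le_nonZeroDivisors
    exact hx0 (hinj (by rw [hxmem, map_zero]))
  -- every nonzero prime is the maximal ideal
  have huniq : ∀ P : Ideal A, P ≠ ⊥ → P.IsPrime → P = maximalIdeal A := by
    intro P hP hPprime
    have hP' : (P.comap (algebraMap B A)).IsPrime := Ideal.comap_isPrime _ _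
    have hmapcomap : (P.comap (algebraMap B A)).map (algebraMap B A) = P :=
      IsLocalization.map_under 𝔭.primeCompl A P
    have hle : P.comap (algebraMap B A) ≤ 𝔭 := by
      have hdisj : Disjoint (𝔭.primeCompl : Set B) (P.comap (algebraMap B A) : Set B) :=
        ((IsLocalization.isPrime_iff_isPrime_disjoint 𝔭.primeCompl A P).1 hPprime).2
      intro x hx
      by_contra hx𝔭
      exact Set.disjoint_left.1 hdisj hx𝔭 hx
    have hne : P.comap (algebraMap B A) ≠ ⊥ := by
      intro h0
      apply hP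
      rw [← hmapcomap, h0, Ideal.map_bot]
    have hfin' : (P.comap (algebraMap B A)).FiniteHeight :=
      Ideal.finiteHeight_of_le hle h𝔭.ne_top
    have h1 : 𝔭.height ≤ (P.comap (algebraMap B A)).height := by
      rw [h]
      rw [Order.one_le_iff_pos, pos_iff_ne_zero, Ne, Ideal.height_eq_zero_iff_eq_bot]
      exact hne
    have heq : P.comap (algebraMap B A) = 𝔭 := Ideal.eq_of_le_of_height_le (h := hle) (h_height := h1)
    rw [hmax, ← heq, hmapcomap]
  have htfae := (IsDiscreteValuationRing.TFAE A hnf).out 0 3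
  rw [htfae]
  refine ⟨inferInstance, maximalIdeal A, ⟨?_, inferInstance⟩, ?_⟩
  · exact isField_iff_maximalIdeal_eq.not.1 hnf
  · rintro P ⟨hP, hPprime⟩
    exact huniq P hP hPprime

/-- **`B_𝔭` as a discrete valuation subring of `F`.** -/
theorem exists_dvr_of_height_one (𝔭 : Ideal B) [h𝔭 : 𝔭.IsPrime] (h : 𝔭.height = 1) :
    ∃ W : ValuationSubring F, IsDiscreteValuationRing W ∧
      ∀ f : F, f ∈ W ↔ ∃ a s : B, s ∉ 𝔭 ∧ f * algebraMap B F s = algebraMap B F a := by
  set A := Localization.subalgebra.ofField F 𝔭.primeCompl 𝔭.primeCompl_le_nonZeroDivisors with hA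
  haveI hdvr : IsDiscreteValuationRing A := isDiscreteValuationRing_ofField_of_height_one 𝔭 h
  have hval : ∀ f : F, f ∈ A ∨ f⁻¹ ∈ A := by
    intro f
    rcases ValuationRing.isInteger_or_isInteger A f with ⟨a, ha⟩ | ⟨a, ha⟩
    · left; rw [← ha]; exact a.2
    · right; rw [← ha]; exact a.2
  let W : ValuationSubring F := { A.toSubring with mem_or_inv_mem' := hval }
  have hWA : ∀ f : F, f ∈ W ↔ f ∈ A := fun f => Iff.rfl
  refine ⟨W, ?_, fun f => ?_⟩
  · -- transfer along the identity
    let e : A ≃+* W :=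
      { toFun := fun a => ⟨a.1, (hWA _).2 a.2⟩
        invFun := fun b => ⟨b.1, (hWA _).1 b.2⟩
        left_inv := fun _ => rfl
        right_inv := fun _ => rfl
        map_mul' := fun _ _ => rfl
        map_add' := fun _ _ => rfl }
    exact IsDiscreteValuationRing.RingEquivClass.isDiscreteValuationRing e
  · rw [hWA]
    exact mem_ofField_primeCompl_iff 𝔭 f

end Fermat.Agent.S18.H438

end
end
-- ===== PACK-END S18/H438/Front/HeightOne.lean

-- ===== PACK-BEGIN S18/H558/Cech.lean
section






/-!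
# S18 / piece b5: connectedness via a two-chart Cech argument (pure algebra, Mathlib only)

Setting: `A` a commutative ring, `w : A`, `B` a commutative `A`-algebra ("`B_mid`"),
`Bfin Binf : Subalgebra A B` the two charts.

* `lift_idem_mod_pow` : an idempotent modulo `w` lifts to an idempotent modulo `w ^ n`.
* `idem_congr_mod_pow` : two idempotents modulo `w ^ n` that agree modulo `w` agree modulo `w ^ n`.
* `cech_idempotent_trivial` : if the `w`-power torsion of `B / (Bfin + Binf)` is killed by `w ^ c`,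
  `Bfin ∩ Binf = A`, `A / w → Bfin / w` is injective and `(w)` is prime in `A`, then every
  compatible pair of idempotents of `Bfin / w`, `Binf / w` is `(0,0)` or `(1,1)`.
* `exists_torsion_bound` : over a noetherian ring, a f.g. module has bounded `w`-power torsion.
-/

namespace Fermat.Agent.S18.H558

section Idem

variable {R : Type*} [CommRing R]

/-- An idempotent modulo `w` lifts to an idempotent modulo `w ^ n`. -/
theorem lift_idem_mod_pow (w e : R) (he : e ^ 2 - e ∈ Ideal.span {w}) (n : ℕ) :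
    ∃ f : R, f - e ∈ Ideal.span {w} ∧ f ^ 2 - f ∈ Ideal.span {w ^ n} := by
  rcases Nat.eq_zero_or_pos n with rfl | hn
  · exact ⟨e, by simp, by simp⟩
  have hle : Ideal.span {w ^ n} ≤ Ideal.span {w} := by
    rw [Ideal.span_singleton_le_span_singleton]
    exact dvd_pow_self w hn.ne'
  let φ : R ⧸ Ideal.span {w ^ n} →+* R ⧸ Ideal.span {w} := Ideal.Quotient.factor hle
  have hφ : ∀ x : R, φ (Ideal.Quotient.mk _ x) = Ideal.Quotient.mk _ x := fun x => rfl
  have hker : ∀ x ∈ RingHom.ker φ, IsNilpotent x := by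
    intro x hx
    obtain ⟨r, rfl⟩ := Ideal.Quotient.mk_surjective x
    rw [RingHom.mem_ker, hφ, Ideal.Quotient.eq_zero_iff_mem, Ideal.mem_span_singleton] at hx
    obtain ⟨s, rfl⟩ := hx
    refine ⟨n, ?_⟩
    rw [← map_pow, Ideal.Quotient.eq_zero_iff_mem, Ideal.mem_span_singleton, mul_pow]
    exact Dvd.intro _ rfl
  have hid : IsIdempotentElem (Ideal.Quotient.mk (Ideal.span {w}) e) := by
    have : Ideal.Quotient.mk (Ideal.span {w}) (e ^ 2 - e) = 0 :=
      Ideal.Quotient.eq_zero_iff_mem.2 he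
    rw [map_sub, sub_eq_zero, map_pow, pow_two] at this
    exact this
  obtain ⟨e', he', hφe'⟩ := exists_isIdempotentElem_eq_of_ker_isNilpotent φ hker
    (Ideal.Quotient.mk _ e) ⟨Ideal.Quotient.mk _ e, hφ e⟩ hid
  obtain ⟨f, rfl⟩ := Ideal.Quotient.mk_surjective e'
  refine ⟨f, ?_, ?_⟩
  · rw [hφ] at hφe'
    rw [← Ideal.Quotient.eq_zero_iff_mem, map_sub, hφe', sub_self]
  · rw [← Ideal.Quotient.eq_zero_iff_mem, map_sub, map_pow, pow_two, he'.eq, sub_self]

/-- Two idempotents modulo `w ^ n` which agree modulo `w` agree modulo `w ^ n`. -/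
theorem idem_congr_mod_pow (w f g : R) (n : ℕ)
    (hf : f ^ 2 - f ∈ Ideal.span {w ^ n}) (hg : g ^ 2 - g ∈ Ideal.span {w ^ n})
    (hfg : f - g ∈ Ideal.span {w}) : f - g ∈ Ideal.span {w ^ n} := by
  have hf' : IsIdempotentElem (Ideal.Quotient.mk (Ideal.span {w ^ n}) f) := by
    have := Ideal.Quotient.eq_zero_iff_mem.2 hf
    rw [map_sub, sub_eq_zero, map_pow, pow_two] at this
    exact this
  have hg' : IsIdempotentElem (Ideal.Quotient.mk (Ideal.span {w ^ n}) g) := by
    have := Ideal.Quotient.eq_zero_iff_mem.2 hg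
    rw [map_sub, sub_eq_zero, map_pow, pow_two] at this
    exact this
  have hnil : IsNilpotent (Ideal.Quotient.mk (Ideal.span {w ^ n}) f -
      Ideal.Quotient.mk (Ideal.span {w ^ n}) g) := by
    rw [Ideal.mem_span_singleton] at hfg
    obtain ⟨s, hs⟩ := hfg
    refine ⟨n, ?_⟩
    rw [← map_sub, ← map_pow, Ideal.Quotient.eq_zero_iff_mem, Ideal.mem_span_singleton, hs, mul_pow]
    exact Dvd.intro _ rfl
  have := eq_of_isNilpotent_sub_of_isIdempotentElem hf' hg' hnil
  rw [← Ideal.Quotient.eq_zero_iff_mem, map_sub, this, sub_self]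

end Idem

section Cech

variable {A B : Type*} [CommRing A] [CommRing B] [Algebra A B]

/-- **Two-chart Cech connectedness lemma.**
`B` plays the role of `B_mid`, `Bfin`, `Binf` are the two charts.  If the `w`-power torsion of
`B / (Bfin + Binf)` is killed by `w ^ c`, `Bfin ∩ Binf` is (the image of) `A`,
`A / w → Bfin / w` is injective and `(w)` is a prime ideal of `A`, then a pair of elements
`e₁ ∈ Bfin`, `e₂ ∈ Binf`, idempotent modulo `w` in their charts and congruent modulo `w` in `B`,
is congruent to `(0, 0)` or to `(1, 1)` modulo `w`. -/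
theorem cech_idempotent_trivial (w : A) (Bfin Binf : Subalgebra A B) (c : ℕ)
    (hH1 : ∀ h : B, algebraMap A B w ^ (c + 1) * h ∈ Bfin.toSubmodule ⊔ Binf.toSubmodule →
      algebraMap A B w ^ c * h ∈ Bfin.toSubmodule ⊔ Binf.toSubmodule)
    (hH0 : ∀ b : B, b ∈ Bfin → b ∈ Binf → ∃ a : A, algebraMap A B a = b)
    (hinj : ∀ a : A, (∃ t ∈ Bfin, algebraMap A B a = algebraMap A B w * t) → w ∣ a)
    (hprime : ∀ a b : A, w ∣ a * b → w ∣ a ∨ w ∣ b)
    (e₁ e₂ : B) (he₁ : e₁ ∈ Bfin) (he₂ : e₂ ∈ Binf)
    (hi₁ : ∃ t ∈ Bfin, e₁ ^ 2 - e₁ = algebraMap A B w * t)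
    (hi₂ : ∃ t ∈ Binf, e₂ ^ 2 - e₂ = algebraMap A B w * t)
    (h₁₂ : ∃ t : B, e₁ - e₂ = algebraMap A B w * t) :
    ((∃ t ∈ Bfin, e₁ = algebraMap A B w * t) ∧ (∃ t ∈ Binf, e₂ = algebraMap A B w * t)) ∨
    ((∃ t ∈ Bfin, 1 - e₁ = algebraMap A B w * t) ∧ (∃ t ∈ Binf, 1 - e₂ = algebraMap A B w * t)) := by
  set W : B := algebraMap A B w with hW
  -- Step 1: lift in the two charts.
  have key : ∀ (C : Subalgebra A B) (e : B) (he : e ∈ C)
      (hi : ∃ t ∈ C, e ^ 2 - e = W * t),
      ∃ f ∈ C, (∃ t ∈ C, f - e = W * t) ∧ ∃ t ∈ C, f ^ 2 - f = W ^ (c + 1) * t := by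
    intro C e he hi
    obtain ⟨t, ht, hte⟩ := hi
    have hw' : (⟨e, he⟩ : C) ^ 2 - ⟨e, he⟩ ∈ Ideal.span {algebraMap A C w} := by
      rw [Ideal.mem_span_singleton]
      refine ⟨⟨t, ht⟩, Subtype.ext ?_⟩
      simpa using hte
    obtain ⟨f, hf1, hf2⟩ := lift_idem_mod_pow (algebraMap A C w) ⟨e, he⟩ hw' (c + 1)
    rw [Ideal.mem_span_singleton] at hf1 hf2
    obtain ⟨s1, hs1⟩ := hf1
    obtain ⟨s2, hs2⟩ := hf2
    refine ⟨f, f.2, ⟨s1, s1.2, ?_⟩, ⟨s2, s2.2, ?_⟩⟩
    · simpa using congrArg Subtype.val hs1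
    · simpa using congrArg Subtype.val hs2
  obtain ⟨f, hfC, ⟨s₁, hs₁C, hs₁⟩, ⟨u₁, hu₁C, hu₁⟩⟩ := key Bfin e₁ he₁ hi₁
  obtain ⟨g, hgC, ⟨s₂, hs₂C, hs₂⟩, ⟨u₂, hu₂C, hu₂⟩⟩ := key Binf e₂ he₂ hi₂
  -- Step 2: compare in `B`.
  obtain ⟨t₁₂, ht₁₂⟩ := h₁₂
  have hfg : f - g ∈ Ideal.span {W ^ (c + 1)} := by
    refine idem_congr_mod_pow W f g (c + 1) ?_ ?_ ?_
    · rw [Ideal.mem_span_singleton]; exact ⟨u₁, hu₁⟩
    · rw [Ideal.mem_span_singleton]; exact ⟨u₂, hu₂⟩
    · rw [Ideal.mem_span_singleton]
      refine ⟨s₁ + t₁₂ - s₂, ?_⟩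
      have : f - g = (f - e₁) + (e₁ - e₂) - (g - e₂) := by ring
      rw [this, hs₁, ht₁₂, hs₂]; ring
  rw [Ideal.mem_span_singleton] at hfg
  obtain ⟨h, hh⟩ := hfg
  -- Step 3: kill the obstruction.
  have hmem : W ^ (c + 1) * h ∈ Bfin.toSubmodule ⊔ Binf.toSubmodule := by
    rw [← hh]
    exact Submodule.sub_mem _ (Submodule.mem_sup_left hfC) (Submodule.mem_sup_right hgC)
  obtain ⟨f', hf'C, g', hg'C, hfg'⟩ := Submodule.mem_sup.1 (hH1 h hmem)
  have hf'C' : f' ∈ Bfin := hf'C
  have hg'C' : g' ∈ Binf := hg'C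
  have hWfin : W ∈ Bfin := Bfin.algebraMap_mem w
  have hWinf : W ∈ Binf := Binf.algebraMap_mem w
  have haeq : f - W * f' = g + W * g' := by
    have h1 : f - g = W * (f' + g') := by
      rw [hh, hfg', pow_succ]; ring
    have : f - W * f' - (g + W * g') = (f - g) - W * (f' + g') := by ring
    rw [← sub_eq_zero, this, h1, sub_self]
  obtain ⟨a, ha⟩ := hH0 (f - W * f') (Bfin.sub_mem hfC (Bfin.mul_mem hWfin hf'C'))
    (by rw [haeq]; exact Binf.add_mem hgC (Binf.mul_mem hWinf hg'C'))
  -- Step 4: `a` is idempotent modulo `w` in `A`.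
  have ha1 : ∃ t ∈ Bfin, algebraMap A B a - e₁ = W * t :=
    ⟨s₁ - f', Bfin.sub_mem hs₁C hf'C', by
      rw [ha]
      have : f - W * f' - e₁ = (f - e₁) - W * f' := by ring
      rw [this, hs₁]; ring⟩
  have ha2 : ∃ t ∈ Binf, algebraMap A B a - e₂ = W * t :=
    ⟨s₂ + g', Binf.add_mem hs₂C hg'C', by
      rw [ha, haeq]
      have : g + W * g' - e₂ = (g - e₂) + W * g' := by ring
      rw [this, hs₂]; ring⟩
  obtain ⟨t₁, ht₁C, ht₁⟩ := ha1
  obtain ⟨t₂, ht₂C, ht₂⟩ := ha2
  obtain ⟨v₁, hv₁C, hv₁⟩ := hi₁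
  have hdvd : w ∣ a * (a - 1) := by
    apply hinj
    refine ⟨v₁ + t₁ * (algebraMap A B a + e₁ - 1), ?_, ?_⟩
    · exact Bfin.add_mem hv₁C (Bfin.mul_mem ht₁C
        (Bfin.sub_mem (Bfin.add_mem (Bfin.algebraMap_mem a) he₁) Bfin.one_mem))
    · have : algebraMap A B (a * (a - 1)) =
          (e₁ ^ 2 - e₁) + (algebraMap A B a - e₁) * (algebraMap A B a + e₁ - 1) := by
        rw [map_mul, map_sub, map_one]; ring
      rw [this, hv₁, ht₁]; ring
  rcases hprime _ _ hdvd with h0 | h1
  · left
    obtain ⟨b, rfl⟩ := h0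
    refine ⟨⟨algebraMap A B b - t₁, Bfin.sub_mem (Bfin.algebraMap_mem b) ht₁C, ?_⟩,
      ⟨algebraMap A B b - t₂, Binf.sub_mem (Binf.algebraMap_mem b) ht₂C, ?_⟩⟩
    · have : e₁ = algebraMap A B (w * b) - (algebraMap A B (w * b) - e₁) := by ring
      rw [this, ht₁, map_mul]; ring
    · have : e₂ = algebraMap A B (w * b) - (algebraMap A B (w * b) - e₂) := by ring
      rw [this, ht₂, map_mul]; ring
  · right
    obtain ⟨b, hb⟩ := h1
    have hab : algebraMap A B a = 1 + W * algebraMap A B b := by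
      have : a = 1 + w * b := by rw [← hb]; ring
      rw [this, map_add, map_one, map_mul]
    refine ⟨⟨t₁ - algebraMap A B b, Bfin.sub_mem ht₁C (Bfin.algebraMap_mem b), ?_⟩,
      ⟨t₂ - algebraMap A B b, Binf.sub_mem ht₂C (Binf.algebraMap_mem b), ?_⟩⟩
    · have : 1 - e₁ = (algebraMap A B a - e₁) - (algebraMap A B a - 1) := by ring
      rw [this, ht₁, hab]; ring
    · have : 1 - e₂ = (algebraMap A B a - e₂) - (algebraMap A B a - 1) := by ring
      rw [this, ht₂, hab]; ring

end Cech

section Torsion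

variable {A M : Type*} [CommRing A] [AddCommGroup M] [Module A M]

/-- Over a noetherian ring, the `w`-power torsion of a finitely generated module is killed by a
single power `w ^ c`. -/
theorem exists_torsion_bound [IsNoetherianRing A] [Module.Finite A M] (w : A) :
    ∃ c : ℕ, ∀ (n : ℕ) (x : M), w ^ n • x = 0 → w ^ c • x = 0 := by
  have hN : IsNoetherian A M := isNoetherian_of_isNoetherianRing_of_finite A M
  let K : ℕ →o Submodule A M :=
    ⟨fun n => LinearMap.ker (LinearMap.lsmul A M (w ^ n)), by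
      intro a b hab x hx
      simp only [LinearMap.mem_ker, LinearMap.lsmul_apply] at hx ⊢
      obtain ⟨d, rfl⟩ := Nat.exists_eq_add_of_le hab
      rw [pow_add, mul_comm, mul_smul, hx, smul_zero]⟩
  have hK : ∀ (n : ℕ) (x : M), x ∈ K n ↔ w ^ n • x = 0 := fun n x => by
    change x ∈ LinearMap.ker (LinearMap.lsmul A M (w ^ n)) ↔ _
    rw [LinearMap.mem_ker, LinearMap.lsmul_apply]
  obtain ⟨c, hc⟩ := monotone_stabilizes_iff_noetherian.2 hN K
  refine ⟨c, fun n x hx => ?_⟩
  rcases le_total n c with hnc | hcn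
  · obtain ⟨d, rfl⟩ := Nat.exists_eq_add_of_le hnc
    rw [pow_add, mul_comm, mul_smul, hx, smul_zero]
  · have h1 : x ∈ K n := (hK n x).2 hx
    have h2 : x ∈ K c := by rw [hc n hcn]; exact h1
    exact (hK c x).1 h2

end Torsion

end Fermat.Agent.S18.H558

end
-- ===== PACK-END S18/H558/Cech.lean

-- ===== PACK-BEGIN S37/H278/AdaptedBasis.lean
section


/-!
# S37 / S18, piece b2-core (helper278): adapted bases over a local ring

`M` finite free over a local ring `o`, `I ≤ M` a submodule with `I + span(u_1..u_s) = M`,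
`z ∈ I` with `z ∉ 𝔪 M`.  Then `M` has a basis containing `z`, all of whose members except at most
`s` lie in `I`.
-/

set_option autoImplicit false
set_option linter.style.haveILetI false
set_option linter.unusedSectionVars false

namespace Fermat.Agent.S37.H278

open Module TensorProduct

universe u v

theorem exists_adapted_basis {o : Type u} {M : Type v} [CommRing o] [IsLocalRing o]
    [AddCommGroup M] [Module o M] [Module.Free o M] [Module.Finite o M]
    (I : Submodule o M) (z : M) (hzI : z ∈ I)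
    (hz : z ∉ (IsLocalRing.maximalIdeal o • ⊤ : Submodule o M))
    (s : ℕ) (u : Fin s → M) (hu : I ⊔ Submodule.span o (Set.range u) = ⊤) :
    ∃ (ι : Type (max u v)) (_ : Fintype ι) (_ : DecidableEq ι) (b : Basis ι o M)
      (Z : Finset ι) (i₀ : ι),
      i₀ ∈ Z ∧ b i₀ = z ∧ (∀ i ∈ Z, b i ∈ I) ∧ Fintype.card ι ≤ Z.card + s := by
  classical
  let κ := IsLocalRing.ResidueField o
  let V := κ ⊗[o] M
  let π : M →ₗ[o] V := TensorProduct.mk o κ M 1
  have hπsurj : Function.Surjective π :=
    TensorProduct.mk_surjective o M κ Ideal.Quotient.mk_surjective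
  have hπz : π z ≠ 0 := by
    intro h0
    apply hz
    rw [← LinearMap.ker_tensorProductMk]
    exact h0
  -- step 1 : maximal independent subset of π '' I containing π z
  have hs0 : LinearIndepOn κ id ({π z} : Set V) := by
    rw [linearIndepOn_singleton_iff]
    exact hπz
  have hsub0 : ({π z} : Set V) ⊆ π '' (I : Set M) :=
    Set.singleton_subset_iff.mpr ⟨z, hzI, rfl⟩
  obtain ⟨B₁, hB₁sub, hzB₁, hspanB₁, hB₁li⟩ := exists_linearIndepOn_id_extension hs0 hsub0
  -- step 2 : extend by images of the u's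
  set t' : Set V := B₁ ∪ π '' (Set.range u) with ht'def
  have hst : B₁ ⊆ t' := Set.subset_union_left
  have ht' : ⊤ ≤ Submodule.span κ t' := by
    intro x _
    obtain ⟨m, rfl⟩ := hπsurj x
    have hm : m ∈ I ⊔ Submodule.span o (Set.range u) := by rw [hu]; trivial
    obtain ⟨a, ha, c, hc, rfl⟩ := Submodule.mem_sup.mp hm
    rw [map_add]
    refine Submodule.add_mem _ ?_ ?_
    · have : π a ∈ Submodule.span κ B₁ := hspanB₁ ⟨a, ha, rfl⟩
      exact Submodule.span_mono hst this
    · -- c in span of u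
      have hle : Submodule.span o (Set.range u) ≤
          ((Submodule.span κ t').restrictScalars o).comap π := by
        rw [Submodule.span_le]
        rintro _ ⟨j, rfl⟩
        show π (u j) ∈ Submodule.span κ t'
        exact Submodule.subset_span (Or.inr ⟨u j, ⟨j, rfl⟩, rfl⟩)
      exact hle hc
  let bV : Basis (hB₁li.extend hst) κ V := Basis.extendLe hB₁li hst ht'
  have hbV : ∀ i : hB₁li.extend hst, bV i = (i : V) := fun i => by
    simp [bV, Basis.coe_extendLe]
  have hBsub : hB₁li.extend hst ⊆ t' := hB₁li.extend_subset hst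
  have hB₁B : B₁ ⊆ hB₁li.extend hst := hB₁li.subset_extend hst
  haveI : Finite (hB₁li.extend hst) := Module.Finite.finite_basis bV
  letI : Fintype (hB₁li.extend hst) := Fintype.ofFinite _
  -- lifts
  have hlift : ∀ i : hB₁li.extend hst, ∃ m : M, π m = (i : V) ∧
      ((i : V) ∈ B₁ → m ∈ I) ∧ ((i : V) = π z → m = z) := by
    intro i
    by_cases h1 : (i : V) = π z
    · exact ⟨z, h1.symm, fun _ => hzI, fun _ => rfl⟩
    · by_cases h2 : (i : V) ∈ B₁
      · obtain ⟨m, hm, hmi⟩ := hB₁sub h2
        exact ⟨m, hmi, fun _ => hm, fun h => absurd h h1⟩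
      · obtain ⟨m, hm⟩ := hπsurj (i : V)
        exact ⟨m, hm, fun h => absurd h h2, fun h => absurd h h1⟩
  choose w hw1 hw2 hw3 using hlift
  have hli : LinearIndependent κ (π ∘ w) := by
    have : (π ∘ w) = bV := by
      funext i
      simp [hw1 i, hbV i]
    rw [this]
    exact bV.linearIndependent
  have hliM : LinearIndependent o w := IsLocalRing.linearIndependent_of_flat w hli
  have hspM : Submodule.span o (Set.range w) = ⊤ :=
    IsLocalRing.span_eq_top_of_tmul_eq_basis w bV (fun i => by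
      rw [hbV i]; exact hw1 i)
  let b : Basis (hB₁li.extend hst) o M := Basis.mk hliM hspM.ge
  have hb : ∀ i, b i = w i := fun i => by simp [b]
  let i₀ : hB₁li.extend hst := ⟨π z, hB₁B (hzB₁ rfl)⟩
  let Z : Finset (hB₁li.extend hst) := Finset.univ.filter fun i => (i : V) ∈ B₁
  refine ⟨hB₁li.extend hst, inferInstance, inferInstance, b, Z, i₀, ?_, ?_, ?_, ?_⟩
  · simp only [Z, Finset.mem_filter, Finset.mem_univ, true_and]
    exact hzB₁ rfl
  · rw [hb]; exact hw3 i₀ rfl
  · intro i hi
    simp only [Z, Finset.mem_filter, Finset.mem_univ, true_and] at hi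
    rw [hb]; exact hw2 i hi
  · -- counting
    have hcompl : ∀ i : hB₁li.extend hst, i ∉ Z → ∃ j : Fin s, π (u j) = (i : V) := by
      intro i hi
      simp only [Z, Finset.mem_filter, Finset.mem_univ, true_and] at hi
      rcases hBsub i.2 with h | h
      · exact absurd h hi
      · obtain ⟨_, ⟨j, rfl⟩, hj⟩ := h
        exact ⟨j, hj⟩
    have hcard : (Finset.univ.filter fun i : hB₁li.extend hst => i ∉ Z).card ≤ s := by
      rw [← Fintype.card_subtype]
      choose g hg using fun (i : {i : hB₁li.extend hst // i ∉ Z}) => hcompl i.1 i.2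
      have hinj : Function.Injective g := by
        intro i j hij
        apply Subtype.ext
        apply Subtype.ext
        rw [← hg i, ← hg j, hij]
      simpa using Fintype.card_le_of_injective g hinj
    have hsplit := Finset.card_filter_add_card_filter_not
      (s := (Finset.univ : Finset (hB₁li.extend hst))) (fun i => i ∈ Z)
    have hZ : (Finset.univ.filter fun i : hB₁li.extend hst => i ∈ Z) = Z := by
      ext i; simp
    rw [hZ] at hsplit
    rw [← Finset.card_univ, ← hsplit]
    omega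

end Fermat.Agent.S37.H278

end
-- ===== PACK-END S37/H278/AdaptedBasis.lean

-- ===== PACK-BEGIN S18/H425/HsepDvd.lean
section


/-!
# S18 / b2.5 HSEP (helper425): divisibility descends along an integral extension of an
integrally closed domain

`dvd_of_algebraMap_dvd`: `Λ` integrally closed domain, `B` a domain, integral and torsion-free
over `Λ`.  If `algebraMap w ∣ algebraMap s` in `B` (`w ≠ 0`) then `w ∣ s` in `Λ`.
Mathlib-only.
-/

set_option autoImplicit false

namespace Fermat.Agent.S18.H425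

theorem dvd_of_algebraMap_dvd {Λ B : Type*} [CommRing Λ] [IsDomain Λ] [IsIntegrallyClosed Λ]
    [CommRing B] [IsDomain B] [Algebra Λ B] [Algebra.IsIntegral Λ B] [Module.IsTorsionFree Λ B]
    {w s : Λ} (hw : w ≠ 0) (h : algebraMap Λ B w ∣ algebraMap Λ B s) : w ∣ s := by
  obtain ⟨b, hb⟩ := h
  have hinj : Function.Injective (algebraMap Λ B) := FaithfulSMul.algebraMap_injective Λ B
  let K := FractionRing Λ
  let L := FractionRing B
  let _ : Algebra K L := FractionRing.liftAlgebra Λ L
  have hwK : algebraMap Λ K w ≠ 0 := by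
    simpa using (IsFractionRing.injective Λ K).ne hw
  -- the element `s / w` of `K` maps to `b` in `L`
  have hb' : algebraMap K L (algebraMap Λ K s / algebraMap Λ K w) = algebraMap B L b := by
    rw [map_div₀, ← IsScalarTower.algebraMap_apply, ← IsScalarTower.algebraMap_apply,
      IsScalarTower.algebraMap_apply Λ B L s, IsScalarTower.algebraMap_apply Λ B L w, hb, map_mul]
    rw [mul_div_assoc, mul_comm, div_mul_cancel₀]
    · rw [← IsScalarTower.algebraMap_apply, IsScalarTower.algebraMap_apply Λ K L]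
      exact (map_ne_zero_iff _ (algebraMap K L).injective).mpr hwK
  have hbint : IsIntegral Λ (algebraMap B L b) := (Algebra.IsIntegral.isIntegral b).algebraMap
  rw [← hb'] at hbint
  have hint : IsIntegral Λ (algebraMap Λ K s / algebraMap Λ K w) :=
    (isIntegral_algebraMap_iff (algebraMap K L).injective).mp hbint
  obtain ⟨c, hc⟩ := IsIntegrallyClosed.algebraMap_eq_of_integral hint
  refine ⟨c, ?_⟩
  apply IsFractionRing.injective Λ K
  rw [map_mul, hc, mul_div_cancel₀ _ hwK]

end Fermat.Agent.S18.H425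

end
-- ===== PACK-END S18/H425/HsepDvd.lean

-- ===== PACK-BEGIN S18/H754/HncRadical.lean
section


/-!
# S18 / ALG-FRONT / hNC adapter, part N1: a radical criterion for principal ideals

`B` a Noetherian integrally closed domain, `π ≠ 0`.  If `π` generates `𝔓 B_𝔓` for every height-one
prime `𝔓 ∋ π` (elementwise: `∀ b ∈ 𝔓, ∃ s ∉ 𝔓, π ∣ s * b`), then `(π)` is a radical ideal.

Proof: an associated prime `P = (π : c)` of `B/π` is of height one (`y = c/π` satisfies
`y P ⊆ B`, `y P ⊄ P` by integral closedness, so `P` is locally principal; Krull).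
-/

set_option autoImplicit false

noncomputable section

namespace Fermat.Agent.S18.H754

section Radical

variable {B : Type*} [CommRing B] [IsDomain B] [IsNoetherianRing B] [IsIntegrallyClosed B]

/-- An associated prime of `B/π` (`B` Noetherian normal domain, `π ≠ 0`) has height one. -/
theorem height_eq_one_of_eq_colon (π c : B) (hπ : π ≠ 0) (hc : ¬ π ∣ c)
    (P : Ideal B) (hP : P.IsPrime) (hPc : ∀ s : B, s ∈ P ↔ π ∣ s * c) : P.height = 1 := by
  classical
  have hπP : π ∈ P := (hPc π).2 (Dvd.intro _ rfl)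
  -- the map `φ : P → B`, `t ↦ t c / π`
  have hφ : ∀ t ∈ P, ∃ d : B, t * c = π * d := fun t ht => (hPc t).1 ht
  -- there is `a ∈ P` with `a c / π ∉ P`
  have hex : ∃ a ∈ P, ∃ s : B, s ∉ P ∧ a * c = π * s := by
    by_contra hcon
    -- then `y = c / π` stabilises `P`, hence is integral, hence lies in `B`
    let F := FractionRing B
    have hinj : Function.Injective (algebraMap B F) := IsFractionRing.injective B F
    have hπF : algebraMap B F π ≠ 0 := fun h => hπ (hinj (by rw [h, map_zero]))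
    set y : F := algebraMap B F c / algebraMap B F π with hy
    let N : Submodule B F := Submodule.map (Algebra.linearMap B F) P
    have hN0 : N ≠ ⊥ := by
      intro h
      have : algebraMap B F π ∈ N := ⟨π, hπP, rfl⟩
      rw [h, Submodule.mem_bot] at this
      exact hπF this
    have hNfg : N.FG := Submodule.FG.map _ (IsNoetherian.noetherian P)
    have hstab : ∀ n ∈ N, y • n ∈ N := by
      rintro n ⟨t, ht, rfl⟩
      obtain ⟨d, hd⟩ := hφ t ht
      have hdP : d ∈ P := by
        by_contra hdP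
        exact hcon ⟨t, ht, d, hdP, hd⟩
      refine ⟨d, hdP, ?_⟩
      simp only [Algebra.linearMap_apply, smul_eq_mul, hy]
      have := congrArg (algebraMap B F) hd
      simp only [map_mul] at this
      rw [div_mul_eq_mul_div, eq_div_iff hπF, mul_comm (algebraMap B F d), ← this]
      ring
    have hint : IsIntegral B y := isIntegral_of_smul_mem_submodule N hN0 hNfg y hstab
    obtain ⟨y', hy'⟩ := IsIntegrallyClosed.isIntegral_iff.1 hint
    apply hc
    refine ⟨y', ?_⟩
    apply hinj
    rw [map_mul, hy', hy, mul_div_assoc', mul_div_cancel_left₀ _ hπF]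
  obtain ⟨a, haP, s, hsP, has⟩ := hex
  -- `s P ⊆ a B`
  have hsP' : ∀ t ∈ P, a ∣ s * t := by
    intro t ht
    obtain ⟨d, hd⟩ := hφ t ht
    refine ⟨d, ?_⟩
    have h1 : π * (s * t) = π * (a * d) := by
      calc π * (s * t) = (π * s) * t := by ring
        _ = (a * c) * t := by rw [has]
        _ = a * (t * c) := by ring
        _ = a * (π * d) := by rw [hd]
        _ = π * (a * d) := by ring
    exact mul_left_cancel₀ hπ h1
  -- `P` is minimal over `(a)`
  have hmin : P ∈ (Ideal.span {a}).minimalPrimes := by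
    refine ⟨⟨hP, (Ideal.span_singleton_le_iff_mem _).2 haP⟩, ?_⟩
    rintro Q ⟨hQ, haQ⟩ hQP t ht
    have h1 : s * t ∈ Q := by
      obtain ⟨d, hd⟩ := hsP' t ht
      rw [hd]
      exact Ideal.mul_mem_right _ _ ((Ideal.span_singleton_le_iff_mem _).1 haQ)
    rcases hQ.mem_or_mem h1 with h2 | h2
    · exact absurd (hQP h2) hsP
    · exact h2
  apply le_antisymm
  · exact Ideal.height_le_one_of_isPrincipal_of_mem_minimalPrimes (Ideal.span {a}) P hmin
  · rw [Order.one_le_iff_pos, pos_iff_ne_zero]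
    intro h0
    haveI := hP
    rw [Ideal.height_eq_zero_iff, IsDomain.minimalPrimes_eq_singleton_bot] at h0
    rw [Set.mem_singleton_iff] at h0
    rw [h0, Ideal.mem_bot] at hπP
    exact hπ hπP

/-- **Radical criterion.**  If `π` generates `𝔓 B_𝔓` at every height-one prime `𝔓 ∋ π`, then
`(π)` is radical. -/
theorem isRadical_span_singleton_of_local_gen (π : B) (hπ : π ≠ 0)
    (h : ∀ 𝔓 : Ideal B, 𝔓.IsPrime → 𝔓.height = 1 → π ∈ 𝔓 →
      ∀ b ∈ 𝔓, ∃ s : B, s ∉ 𝔓 ∧ π ∣ s * b) :
    (Ideal.span {π}).IsRadical := by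
  classical
  intro b hb
  obtain ⟨n, hn⟩ := hb
  by_contra hbπ
  have hx : (Ideal.Quotient.mk (Ideal.span {π}) b) ≠ 0 := by
    rwa [Ne, Ideal.Quotient.eq_zero_iff_mem]
  obtain ⟨P, hPass, hle⟩ :=
    exists_le_isAssociatedPrime_of_isNoetherianRing B (M := B ⧸ Ideal.span {π}) _ hx
  rw [isAssociatedPrime_iff] at hPass
  obtain ⟨hP, x, hPx⟩ := hPass
  obtain ⟨c, rfl⟩ := Ideal.Quotient.mk_surjective x
  have hPc : ∀ s : B, s ∈ P ↔ π ∣ s * c := by
    intro s
    rw [hPx, Submodule.mem_colon_singleton, Submodule.mem_bot]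
    rw [← Ideal.mem_span_singleton, ← Ideal.Quotient.eq_zero_iff_mem, map_mul]
    rfl
  have hc : ¬ π ∣ c := by
    intro hd
    apply hP.ne_top
    rw [Ideal.eq_top_iff_one, hPc, one_mul]
    exact hd
  have hht : P.height = 1 := height_eq_one_of_eq_colon π c hπ hc P hP hPc
  have hπP : π ∈ P := (hPc π).2 (Dvd.intro _ rfl)
  have hbP : b ∈ P := by
    have h1 : b ^ n ∈ P := by
      rw [Ideal.mem_span_singleton] at hn
      obtain ⟨d, hd⟩ := hn
      rw [hd]
      exact Ideal.mul_mem_right _ _ hπP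
    exact hP.mem_of_pow_mem n h1
  obtain ⟨s, hsP, hs⟩ := h P hP hht hπP b hbP
  apply hsP
  apply hle
  rw [Submodule.mem_colon_singleton, Submodule.mem_bot]
  change Ideal.Quotient.mk (Ideal.span {π}) (s * b) = 0
  rw [Ideal.Quotient.eq_zero_iff_mem, Ideal.mem_span_singleton]
  exact hs

end Radical

end Fermat.Agent.S18.H754

end

end
-- ===== PACK-END S18/H754/HncRadical.lean

-- ===== PACK-BEGIN S55/Bridge/H594/Profinite.lean
section


/-!
# S55 bridge (helper594): relative transitivity and residue surjectivity for a closed subgroup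

Let a profinite group `G` act continuously on a (discrete) commutative ring `B`, and let `H ≤ G`
be a closed subgroup.  Applying Mathlib's profinite invariant theory to `H` acting on `B` with
base ring the fixed subring `B^H`, we get:

* `exists_smul_eq_of_forall_fixed_mem_iff`: two primes of `B` with the same intersection with
  `B^H` are conjugate under `H`;
* `exists_stabilizer_congr_of_forall_fixed`: if `σ ∈ G` stabilises the prime `P` and acts
  trivially on `B^H` modulo `P`, then some `h ∈ H` stabilising `P` acts as `σ` on `B ⧸ P`.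
-/

set_option autoImplicit false
set_option linter.unusedSectionVars false
set_option linter.style.haveILetI false

namespace Fermat.Agent.S55.Bridge.H594

open scoped Pointwise

section abstract

variable {B : Type*} [CommRing B]
variable {G : Type*} [Group G] [MulSemiringAction G B]
variable [TopologicalSpace G] [CompactSpace G] [TotallyDisconnectedSpace G]
variable [IsTopologicalGroup G] [TopologicalSpace B] [DiscreteTopology B] [ContinuousSMul G B]

/-- `B` is invariant over its fixed subalgebra. -/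
theorem isInvariant_fixedPoints (H : Subgroup G) :
    Algebra.IsInvariant (FixedPoints.subalgebra ℤ B H) B H :=
  ⟨fun b hb => ⟨⟨b, hb⟩, rfl⟩⟩

theorem continuousSMul_subgroup (H : Subgroup G) : ContinuousSMul H B := by
  refine ⟨?_⟩
  have h1 : Continuous fun p : H × B => ((p.1 : G), p.2) :=
    (continuous_subtype_val.comp continuous_fst).prodMk continuous_snd
  exact (continuous_smul (M := G) (X := B)).comp h1

/-- Two primes of `B` with the same `H`-fixed elements are `H`-conjugate (`H` closed). -/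
theorem exists_smul_eq_of_forall_fixed_mem_iff (H : Subgroup G) (hH : IsClosed (H : Set G))
    (P Q : Ideal B) [P.IsPrime] [Q.IsPrime]
    (hPQ : ∀ b : B, (∀ h : H, h • b = b) → (b ∈ P ↔ b ∈ Q)) :
    ∃ h : H, Q = (h : G) • P := by
  haveI : CompactSpace H := isCompact_iff_compactSpace.mp hH.isCompact
  haveI := continuousSMul_subgroup (B := B) H
  haveI := isInvariant_fixedPoints (B := B) H
  have hunder : P.under (FixedPoints.subalgebra ℤ B H) = Q.under (FixedPoints.subalgebra ℤ B H) := by
    ext ⟨b, hb⟩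
    simp only [Ideal.under, Ideal.mem_comap]
    exact hPQ b hb
  obtain ⟨h, hh⟩ := Algebra.IsInvariant.exists_smul_of_under_eq_of_profinite
    (A := FixedPoints.subalgebra ℤ B H) (B := B) (G := H) P Q hunder
  exact ⟨h, hh⟩

/-- If `σ ∈ G` stabilises the prime `P` and acts trivially modulo `P` on the `H`-fixed elements,
then there is `h ∈ H` stabilising `P` and acting as `σ` on `B ⧸ P` (`H` closed). -/
theorem exists_stabilizer_congr_of_forall_fixed (H : Subgroup G) (hH : IsClosed (H : Set G))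
    (P : Ideal B) [P.IsPrime] (σ : G) (hσP : σ • P = P)
    (hσ : ∀ b : B, (∀ h : H, h • b = b) → σ • b - b ∈ P) :
    ∃ h : H, (h : G) • P = P ∧ ∀ b : B, (h : G) • b - σ • b ∈ P := by
  haveI : CompactSpace H := isCompact_iff_compactSpace.mp hH.isCompact
  haveI := continuousSMul_subgroup (B := B) H
  haveI := isInvariant_fixedPoints (B := B) H
  let A' := FixedPoints.subalgebra ℤ B H
  let p : Ideal A' := P.under A'
  haveI : P.LiesOver p := ⟨rfl⟩
  have hmap : P = P.map (MulSemiringAction.toRingEquiv G B σ) := by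
    conv_lhs => rw [← hσP]
    rfl
  let φ₀ : (B ⧸ P) ≃+* (B ⧸ P) :=
    Ideal.quotientEquiv P P (MulSemiringAction.toRingEquiv G B σ) hmap
  have hφ₀ : ∀ b : B, φ₀ (Ideal.Quotient.mk P b) = Ideal.Quotient.mk P (σ • b) := fun b => rfl
  let φ : (B ⧸ P) ≃ₐ[A' ⧸ p] (B ⧸ P) :=
    { φ₀ with
      commutes' := by
        rintro ⟨a⟩
        show φ₀ (Ideal.Quotient.mk P (a : B)) = Ideal.Quotient.mk P (a : B)
        rw [hφ₀, Ideal.Quotient.eq]
        exact hσ a a.2 }
  obtain ⟨h, hh⟩ := Ideal.Quotient.stabilizerHom_surjective_of_profinite (G := H) p P φ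
  refine ⟨h.1, ?_, fun b => ?_⟩
  · exact h.2
  · have h1 : (Ideal.Quotient.stabilizerHom P p H h) (Ideal.Quotient.mk P b) =
        φ (Ideal.Quotient.mk P b) := by rw [hh]
    rw [Ideal.Quotient.stabilizerHom_apply] at h1
    have h2 : φ (Ideal.Quotient.mk P b) = Ideal.Quotient.mk P (σ • b) := hφ₀ b
    rw [h2, Ideal.Quotient.eq] at h1
    exact h1

end abstract

end Fermat.Agent.S55.Bridge.H594

end
-- ===== PACK-END S55/Bridge/H594/Profinite.lean

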