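import Mathlib
import Fermat.Prelude.Def_ModularCurve_X0
import Fermat.Prelude.Def_ModularCurve_LaurentCoeff
import Fermat.Prelude.Def_AlgebraicCurve_DivisorClassGroup
import Fermat.Prelude.Def_ModularCurve_IgusaScheme
import Fermat.Prelude.Def_ModularCurve_X0ModL
import Mathlib.NumberTheory.ModularForms.CongruenceSubgroups
import Mathlib.LinearAlgebra.Matrix.SpecialLinearGroup
import Mathlib.GroupTheory.GroupAction.Quotient
import Mathlib.Data.ZMod.Basic
import Fermat.Prelude.Def_ModularCurve_GenusNumerics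
import Fermat.Agent.Pack.S3234.G0E0L3
import Fermat.Agent.Pack.S3234.G0E0L2

-- ===== PACK-BEGIN S55/Bridge/Cyclo.lean
section


/-!
# S55 bridge, part B2b: the mod `p` cyclotomic character is unramified outside `p`,
and `M.dualTwist (cycloChar p)` inherits smoothness and unramifiedness from `M`.
-/

set_option autoImplicit false

namespace Fermat.Agent.S55.Bridge

open ExtCitation

section inertia

variable (A : ValuationSubring (AlgebraicClosure ℚ))

/-- Elements of the inertia group act trivially on the residue field. -/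
theorem inertia_val_sub_lt_one {σ : AlgebraicClosure ℚ ≃ₐ[ℚ] AlgebraicClosure ℚ}
    (hσ : σ ∈ A.inertiaSubgroupIn ℚ) (z : AlgebraicClosure ℚ)
    (hz : A.valuation z ≤ 1) : A.valuation (σ z - z) < 1 := by
  obtain ⟨g, hg, rfl⟩ := hσ
  have hzA : z ∈ A := (A.valuation_le_one_iff z).mp hz
  have h1 : MulSemiringAction.toRingAut (A.decompositionSubgroup ℚ)
      (IsLocalRing.ResidueField A) g = 1 := hg
  have h2 : g • (IsLocalRing.residue A ⟨z, hzA⟩) = IsLocalRing.residue A ⟨z, hzA⟩ := by
    have := congrArg (fun f => f (IsLocalRing.residue A ⟨z, hzA⟩)) h1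
    simpa using this
  rw [← IsLocalRing.ResidueField.residue_smul] at h2
  have h3 : (g • (⟨z, hzA⟩ : A)) - ⟨z, hzA⟩ ∈ IsLocalRing.maximalIdeal A := by
    rw [← Ideal.Quotient.eq]
    exact h2
  rw [ValuationSubring.valuation_lt_one_iff] at h3
  exact h3

variable {A}

theorem val_intCast_le_one (n : ℤ) : A.valuation (n : AlgebraicClosure ℚ) ≤ 1 :=
  (A.valuation_le_one_iff _).mpr (intCast_mem A n)

/-- A prime `p ≠ q` is a unit at a place over `q`. -/
theorem val_prime_eq_one {q p : ℕ} (hq : A.LiesOverPrime q) (hqp : q.Prime) (hp : p.Prime)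
    (hne : q ≠ p) : A.valuation (p : AlgebraicClosure ℚ) = 1 := by
  have hq' : A.valuation (q : AlgebraicClosure ℚ) < 1 := (A.mem_nonunits_iff).mp hq
  have hcop : IsCoprime (q : ℤ) (p : ℤ) := by
    rw [Int.isCoprime_iff_gcd_eq_one, Int.gcd_natCast_natCast]
    exact (Nat.coprime_primes hqp hp).2 hne
  obtain ⟨u, w, huw⟩ := hcop
  have h1 : (u : AlgebraicClosure ℚ) * (q : AlgebraicClosure ℚ)
      + (w : AlgebraicClosure ℚ) * (p : AlgebraicClosure ℚ) = 1 := by
    exact_mod_cast congrArg (Int.cast : ℤ → AlgebraicClosure ℚ) huw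
  have hsmall : A.valuation ((u : AlgebraicClosure ℚ) * (q : AlgebraicClosure ℚ)) < 1 := by
    rw [map_mul]
    exact (mul_le_of_le_one_left' (val_intCast_le_one u)).trans_lt hq'
  have hwn : A.valuation ((w : AlgebraicClosure ℚ) * (p : AlgebraicClosure ℚ)) = 1 := by
    have : (w : AlgebraicClosure ℚ) * (p : AlgebraicClosure ℚ)
        = 1 + -((u : AlgebraicClosure ℚ) * (q : AlgebraicClosure ℚ)) := by linear_combination h1
    rw [this, (A.valuation).map_add_eq_of_lt_left
      (by rw [Valuation.map_neg, map_one]; exact hsmall), map_one]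
  rw [map_mul] at hwn
  have hp1 : A.valuation (p : AlgebraicClosure ℚ) ≤ 1 := by
    have := val_intCast_le_one (A := A) (p : ℤ)
    simpa using this
  refine le_antisymm hp1 ?_
  calc (1 : A.ValueGroup)
      = A.valuation (w : AlgebraicClosure ℚ) * A.valuation (p : AlgebraicClosure ℚ) := hwn.symm
    _ ≤ 1 * A.valuation (p : AlgebraicClosure ℚ) := mul_le_mul_left (val_intCast_le_one w) _
    _ = A.valuation (p : AlgebraicClosure ℚ) := one_mul _

/-- A nontrivial `p`-th root of unity `η` has `v (1 - η) = 1` at places where `p` is a unit. -/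
theorem val_one_sub_root_eq_one {p : ℕ} (hpv : A.valuation (p : AlgebraicClosure ℚ) = 1)
    {η : AlgebraicClosure ℚ} (hη : η ^ p = 1) (hη1 : η ≠ 1) (hηA : η ∈ A) :
    A.valuation (1 - η) = 1 := by
  -- work in the ring `A`
  let e : A := ⟨η, hηA⟩
  have hdvd : (1 : A) - e ∣ ((∑ i ∈ Finset.range p, (Polynomial.X : Polynomial A) ^ i).eval 1
      - (∑ i ∈ Finset.range p, (Polynomial.X : Polynomial A) ^ i).eval e) :=
    Polynomial.sub_dvd_eval_sub 1 e _
  have hsum : ∑ i ∈ Finset.range p, η ^ i = 0 := by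
    have h := geom_sum_mul η p
    rw [hη, sub_self] at h
    rcases mul_eq_zero.1 h with h | h
    · exact h
    · exact absurd (sub_eq_zero.1 h) hη1
  have hsumA : ∑ i ∈ Finset.range p, e ^ i = 0 := by
    apply Subtype.ext
    simpa [e] using hsum
  have heval1 : (∑ i ∈ Finset.range p, (Polynomial.X : Polynomial A) ^ i).eval 1 = (p : A) := by
    simp [Polynomial.eval_finsetSum]
  have hevale : (∑ i ∈ Finset.range p, (Polynomial.X : Polynomial A) ^ i).eval e = 0 := by
    simpa [Polynomial.eval_finsetSum] using hsumA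
  rw [heval1, hevale, sub_zero] at hdvd
  obtain ⟨y, hy⟩ := hdvd
  have hy' : (p : AlgebraicClosure ℚ) = (1 - η) * (y : AlgebraicClosure ℚ) := by
    have := congrArg (fun a : A => (a : AlgebraicClosure ℚ)) hy
    simpa [e] using this
  have hle : A.valuation (1 - η) ≤ 1 :=
    (A.valuation_le_one_iff _).mpr (A.sub_mem A.one_mem hηA)
  refine le_antisymm hle ?_
  have hyv : A.valuation (y : AlgebraicClosure ℚ) ≤ 1 := A.valuation_le_one y
  calc (1 : A.ValueGroup) = A.valuation (p : AlgebraicClosure ℚ) := hpv.symm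
    _ = A.valuation (1 - η) * A.valuation (y : AlgebraicClosure ℚ) := by rw [hy', map_mul]
    _ ≤ A.valuation (1 - η) * 1 := mul_le_mul_right hyv _
    _ = A.valuation (1 - η) := mul_one _

/-- Two distinct `p`-th roots of unity stay distinct in the residue field at places where `p`
is a unit. -/
theorem val_sub_roots_eq_one {p : ℕ} (hp0 : p ≠ 0)
    (hpv : A.valuation (p : AlgebraicClosure ℚ) = 1)
    {a b : AlgebraicClosure ℚ} (ha : a ^ p = 1) (hb : b ^ p = 1) (hab : a ≠ b) :
    A.valuation (a - b) = 1 := by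
  have hb0 : b ≠ 0 := by
    rintro rfl
    rw [zero_pow hp0] at hb
    exact zero_ne_one hb
  have hvb : A.valuation b = 1 := by
    have h : (A.valuation b) ^ p = 1 := by rw [← map_pow, hb, map_one]
    exact (pow_eq_one_iff.1 h).resolve_right hp0
  have hva : A.valuation a = 1 := by
    have h : (A.valuation a) ^ p = 1 := by rw [← map_pow, ha, map_one]
    exact (pow_eq_one_iff.1 h).resolve_right hp0
  have hη : (a / b) ^ p = 1 := by rw [div_pow, ha, hb, div_one]
  have hη1 : a / b ≠ 1 := by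
    intro h
    exact hab ((div_eq_one_iff_eq hb0).1 h)
  have hηA : a / b ∈ A := by
    rw [← A.valuation_le_one_iff, map_div₀, hva, hvb, div_one]
  have h1 := val_one_sub_root_eq_one hpv hη hη1 hηA
  have : a - b = -(b * (1 - a / b)) := by
    field_simp
    ring
  rw [this, Valuation.map_neg, map_mul, hvb, h1, one_mul]

end inertia

section cyclo

variable (p : ℕ) [Fact p.Prime]

/-- Defining property of `cycloChar`. -/
theorem cycloChar_spec (σ : AlgebraicClosure ℚ ≃ₐ[ℚ] AlgebraicClosure ℚ)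
    {t : (AlgebraicClosure ℚ)ˣ} (ht : t ∈ rootsOfUnity p (AlgebraicClosure ℚ)) :
    σ (t : AlgebraicClosure ℚ)
      = (t : AlgebraicClosure ℚ) ^ ((cycloChar p σ : (ZMod p)ˣ) : ZMod p).val := by
  haveI : NeZero p := ⟨(Fact.out : p.Prime).ne_zero⟩
  have h := modularCyclotomicCharacter.spec (AlgebraicClosure ℚ) (card_rootsOfUnity_eq_self p)
    (σ : AlgebraicClosure ℚ ≃+* AlgebraicClosure ℚ) ht
  exact h

/-- If `σ` fixes all `p`-th roots of unity then `cycloChar p σ = 1`. -/
theorem cycloChar_eq_one_of_fixes (σ : AlgebraicClosure ℚ ≃ₐ[ℚ] AlgebraicClosure ℚ)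
    (hσ : ∀ t : (AlgebraicClosure ℚ)ˣ, t ∈ rootsOfUnity p (AlgebraicClosure ℚ) →
      σ (t : AlgebraicClosure ℚ) = t) : cycloChar p σ = 1 := by
  haveI : NeZero p := ⟨(Fact.out : p.Prime).ne_zero⟩
  haveI : Fact (1 < p) := ⟨(Fact.out : p.Prime).one_lt⟩
  have h := modularCyclotomicCharacter.unique (AlgebraicClosure ℚ) (card_rootsOfUnity_eq_self p)
    (σ : AlgebraicClosure ℚ ≃+* AlgebraicClosure ℚ) (c := 1)
    (fun t ht => by rw [ZMod.val_one, pow_one]; exact hσ t ht)
  apply Units.ext
  exact h.symm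

/-- `cycloChar p σ = 1` iff `σ` fixes all `p`-th roots of unity. -/
theorem cycloChar_eq_one_iff (σ : AlgebraicClosure ℚ ≃ₐ[ℚ] AlgebraicClosure ℚ) :
    cycloChar p σ = 1 ↔ ∀ t : (AlgebraicClosure ℚ)ˣ, t ∈ rootsOfUnity p (AlgebraicClosure ℚ) →
      σ (t : AlgebraicClosure ℚ) = t := by
  haveI : Fact (1 < p) := ⟨(Fact.out : p.Prime).one_lt⟩
  refine ⟨fun h t ht => ?_, cycloChar_eq_one_of_fixes p σ⟩
  rw [cycloChar_spec p σ ht, h, Units.val_one, ZMod.val_one, pow_one]

/-- **B2b.** The mod `p` cyclotomic character is unramified at every prime `q ≠ p`. -/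
theorem cycloChar_eq_one_of_mem_inertia {q : ℕ} (hq : q.Prime) (hqp : q ≠ p)
    (A : ValuationSubring (AlgebraicClosure ℚ)) (hA : A.LiesOverPrime q)
    (σ : AlgebraicClosure ℚ ≃ₐ[ℚ] AlgebraicClosure ℚ) (hσ : σ ∈ A.inertiaSubgroupIn ℚ) :
    cycloChar p σ = 1 := by
  have hp : p.Prime := Fact.out
  apply cycloChar_eq_one_of_fixes
  intro t ht
  have htp : (t : AlgebraicClosure ℚ) ^ p = 1 := by
    have := (mem_rootsOfUnity p t).1 ht
    rw [← Units.val_pow_eq_pow_val, this, Units.val_one]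
  by_contra hne
  have hpv := val_prime_eq_one (A := A) hA hq hp hqp
  have hσt : (σ (t : AlgebraicClosure ℚ)) ^ p = 1 := by rw [← map_pow, htp, map_one]
  have h1 := val_sub_roots_eq_one (A := A) hp.ne_zero hpv hσt htp hne
  have hvt : A.valuation (t : AlgebraicClosure ℚ) ≤ 1 := by
    have h : (A.valuation (t : AlgebraicClosure ℚ)) ^ p = 1 := by rw [← map_pow, htp, map_one]
    exact ((pow_eq_one_iff.1 h).resolve_right hp.ne_zero).le
  have h2 := inertia_val_sub_lt_one A hσ t hvt
  rw [h1] at h2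
  exact lt_irrefl _ h2

end cyclo

end Fermat.Agent.S55.Bridge

end
-- ===== PACK-END S55/Bridge/Cyclo.lean

-- ===== PACK-BEGIN Lib/Cheb/H761/ZetaEuler.lean
section


/-!
# Euler product and prime-ideal sum for the Dedekind zeta function

For a number field `K` and real `s > 1`:
* `zetaI K s = ∑_I N(I)^(-s)` (sum over all ideals; the zero ideal contributes `0`), equal to
  Mathlib's `dedekindZeta K s`;
* `tendsto_prod_zetaI` : `∏_{𝔭 ∈ T} (1 - N𝔭^(-s)) → (zetaI K s)⁻¹`;
* `primeSum K s = ∑_𝔭 N𝔭^(-s)` and `primeSum K s ≤ log (zetaI K s) ≤ primeSum K s + 2 primeSum K (2 s)`;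
* `exists_primeSum_bound` : `|primeSum K s - log (1 / (s - 1))| ≤ C` for `1 < s ≤ 2`.
-/

set_option autoImplicit false

namespace Fermat.Agent.Lib.Cheb.H761

open IsDedekindDomain Filter Topology NumberField Ideal Asymptotics

set_option linter.unusedSectionVars false
set_option linter.unusedVariables false

noncomputable section

variable (K : Type*) [Field K] [NumberField K]

/-- `N(I)^(-s)` -/
def normPow (s : ℝ) (I : Ideal (𝓞 K)) : ℝ := (absNorm I : ℝ) ^ (-s)

lemma normPow_nonneg (s : ℝ) (I : Ideal (𝓞 K)) : 0 ≤ normPow K s I :=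
  Real.rpow_nonneg (Nat.cast_nonneg _) _

lemma normPow_mul (s : ℝ) (I J : Ideal (𝓞 K)) :
    normPow K s (I * J) = normPow K s I * normPow K s J := by
  simp only [normPow, map_mul, Nat.cast_mul]
  exact Real.mul_rpow (Nat.cast_nonneg _) (Nat.cast_nonneg _)

lemma normPow_top (s : ℝ) : normPow K s ⊤ = 1 := by
  simp [normPow]

lemma normPow_bot {s : ℝ} (hs : s ≠ 0) : normPow K s ⊥ = 0 := by
  simp [normPow, Real.zero_rpow (neg_ne_zero.mpr hs)]

/-- number of ideals of norm `n` -/
def idealCount (n : ℕ) : ℕ := Nat.card {I : Ideal (𝓞 K) // absNorm I = n}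

/-- The sum of `N(I)^(-s)` over all ideals of norm `n`. -/
lemma tsum_fiber (s : ℝ) (n : ℕ) :
    ∑' I : {I : Ideal (𝓞 K) // absNorm I = n}, normPow K s I.1 =
      (idealCount K n : ℝ) * (n : ℝ) ^ (-s) := by
  have hfin : Finite {I : Ideal (𝓞 K) // absNorm I = n} :=
    (Ideal.finite_setOfPred_absNorm_eq n).to_subtype
  have : Fintype {I : Ideal (𝓞 K) // absNorm I = n} := Fintype.ofFinite _
  rw [tsum_fintype]
  have : ∀ I : {I : Ideal (𝓞 K) // absNorm I = n}, normPow K s I.1 = (n : ℝ) ^ (-s) := by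
    intro I
    simp only [normPow, I.2]
  simp only [this, Finset.sum_const, Finset.card_univ, nsmul_eq_mul, idealCount,
    Nat.card_eq_fintype_card]

lemma tendsto_sum_idealCount_div :
    Tendsto (fun n : ℕ ↦ (∑ k ∈ Finset.Icc 1 n, (idealCount K k : ℝ)) / (n : ℝ)) atTop
      (𝓝 (dedekindZeta_residue K)) := by
  refine ((Ideal.tendsto_norm_le_div_atTop₀ K).comp tendsto_natCast_atTop_atTop).congr fun n ↦ ?_
  simp only [Function.comp_apply, Nat.cast_le, idealCount, ← Nat.cast_sum]
  congr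
  rw [← add_left_inj 1, ← card_norm_le_eq_card_norm_le_add_one,
    show Finset.Icc 1 n = Finset.Ioc 0 n from Finset.Icc_succ_left_eq_Ioc _ _,
    show 1 = Nat.card {I : Ideal (𝓞 K) // absNorm I = 0} by simp [Ideal.absNorm_eq_zero_iff],
    Finset.sum_Ioc_add_eq_sum_Icc (n.zero_le),
    ← Finset.card_preimage_eq_sum_card_image_eq (fun k _ ↦ finite_setOfPred_absNorm_eq k)]
  simp [Set.coe_eq_subtype]

lemma lseriesSummable_idealCount {s : ℝ} (hs : 1 < s) :
    LSeriesSummable (fun n ↦ ((idealCount K n : ℝ) : ℂ)) (s : ℂ) := by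
  refine LSeriesSummable_of_sum_norm_bigO_and_nonneg ?_ (fun n => Nat.cast_nonneg _) zero_le_one
    (by simpa using hs)
  exact isBigO_atTop_natCast_rpow_of_tendsto_div_rpow
    (by simpa using tendsto_sum_idealCount_div K)

lemma term_eq {s : ℝ} (hs : 1 < s) (n : ℕ) :
    LSeries.term (fun n ↦ ((idealCount K n : ℝ) : ℂ)) (s : ℂ) n =
      (((idealCount K n : ℝ) * (n : ℝ) ^ (-s) : ℝ) : ℂ) := by
  rcases eq_or_ne n 0 with rfl | hn
  · have : (0 : ℝ) ^ (-s) = 0 := Real.zero_rpow (by linarith)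
    simp [this]
  · rw [LSeries.term_of_ne_zero hn, Complex.ofReal_mul,
      Complex.ofReal_cpow (Nat.cast_nonneg n), Complex.ofReal_neg, Complex.cpow_neg]
    simp [div_eq_mul_inv]

/-- the `ℕ`-indexed real series is summable for `s > 1` -/
lemma summable_idealCount {s : ℝ} (hs : 1 < s) :
    Summable (fun n : ℕ ↦ (idealCount K n : ℝ) * (n : ℝ) ^ (-s)) := by
  have h := lseriesSummable_idealCount K hs
  have h2 : Summable (fun n : ℕ ↦ (((idealCount K n : ℝ) * (n : ℝ) ^ (-s) : ℝ) : ℂ)) :=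
    h.congr fun n ↦ term_eq K hs n
  exact Complex.summable_ofReal.mp h2

/-- `N(I)^(-s)` is summable over all ideals, `s > 1`. -/
theorem summable_normPow {s : ℝ} (hs : 1 < s) : Summable (normPow K s) := by
  have key : Summable (fun x : Σ n : ℕ, {I : Ideal (𝓞 K) // absNorm I = n} =>
      normPow K s x.2.1) := by
    rw [summable_sigma_of_nonneg (fun x => normPow_nonneg K s _)]
    refine ⟨fun n => ?_, ?_⟩
    · have hfin : Finite {I : Ideal (𝓞 K) // absNorm I = n} :=
        (Ideal.finite_setOfPred_absNorm_eq n).to_subtype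
      exact Summable.of_finite
    · refine (summable_idealCount K hs).congr fun n => ?_
      exact (tsum_fiber K s n).symm
  exact ((Equiv.sigmaFiberEquiv (fun I : Ideal (𝓞 K) => absNorm I)).summable_iff
    (f := normPow K s)).mp key

/-- the Dedekind zeta function as a sum over ideals -/
def zetaI (s : ℝ) : ℝ := ∑' I : Ideal (𝓞 K), normPow K s I

lemma zetaI_eq_tsum_nat {s : ℝ} (hs : 1 < s) :
    zetaI K s = ∑' n : ℕ, (idealCount K n : ℝ) * (n : ℝ) ^ (-s) := by
  have hsum := summable_normPow K hs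
  have hsum' : Summable (fun x : Σ n : ℕ, {I : Ideal (𝓞 K) // absNorm I = n} =>
      normPow K s x.2.1) :=
    ((Equiv.sigmaFiberEquiv (fun I : Ideal (𝓞 K) => absNorm I)).summable_iff
      (f := normPow K s)).mpr hsum
  calc zetaI K s
      = ∑' x : Σ n : ℕ, {I : Ideal (𝓞 K) // absNorm I = n}, normPow K s x.2.1 :=
        ((Equiv.sigmaFiberEquiv (fun I : Ideal (𝓞 K) => absNorm I)).tsum_eq (normPow K s)).symm
    _ = ∑' n : ℕ, ∑' I : {I : Ideal (𝓞 K) // absNorm I = n}, normPow K s I.1 :=
        hsum'.tsum_sigma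
    _ = _ := tsum_congr fun n => tsum_fiber K s n

theorem dedekindZeta_eq_zetaI {s : ℝ} (hs : 1 < s) :
    dedekindZeta K (s : ℂ) = ((zetaI K s : ℝ) : ℂ) := by
  rw [zetaI_eq_tsum_nat K hs, dedekindZeta, LSeries, Complex.ofReal_tsum]
  refine tsum_congr fun n ↦ ?_
  rw [← term_eq K hs n]
  rcases eq_or_ne n 0 with rfl | hn
  · simp
  · rw [LSeries.term_of_ne_zero hn, LSeries.term_of_ne_zero hn]
    simp [idealCount]

theorem tendsto_sub_one_mul_zetaI :
    Tendsto (fun s : ℝ ↦ (s - 1) * zetaI K s) (𝓝[>] 1) (𝓝 (dedekindZeta_residue K)) := by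
  have h := tendsto_sub_one_mul_dedekindZeta_nhdsGT K
  have h2 : Tendsto (fun s : ℝ ↦ (((s - 1) * zetaI K s : ℝ) : ℂ)) (𝓝[>] 1)
      (𝓝 (dedekindZeta_residue K : ℂ)) := by
    refine h.congr' ?_
    filter_upwards [self_mem_nhdsWithin] with s hs
    rw [dedekindZeta_eq_zetaI K hs]
    push_cast
    ring
  have h3 := (Complex.continuous_re.tendsto _).comp h2
  simpa [Function.comp_def] using h3

/-- the sum over nonzero ideals is `zetaI` -/
lemma tsum_sieveSet_empty {s : ℝ} (hs : 1 < s) :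
    ∑' I : sieveSet (∅ : Set (HeightOneSpectrum (𝓞 K))), normPow K s I = zetaI K s := by
  have hsum := summable_normPow K hs
  have h : sieveSet (∅ : Set (HeightOneSpectrum (𝓞 K))) = ({⊥} : Set (Ideal (𝓞 K)))ᶜ := by
    ext I
    simp [mem_sieveSet_empty]
  rw [tsum_congr_set_coe _ h, zetaI,
    ← (hsum.subtype _).tsum_add_tsum_compl (s := ({⊥} : Set (Ideal (𝓞 K)))) (hsum.subtype _),
    tsum_singleton (⊥ : Ideal (𝓞 K)) (normPow K s), normPow_bot K (by linarith), zero_add]

theorem one_le_zetaI {s : ℝ} (hs : 1 < s) : 1 ≤ zetaI K s := by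
  have hsum := summable_normPow K hs
  have := hsum.sum_le_tsum {⊤} (fun I _ => normPow_nonneg K s I)
  simpa [normPow_top, zetaI] using this

theorem zetaI_pos {s : ℝ} (hs : 1 < s) : 0 < zetaI K s :=
  lt_of_lt_of_le one_pos (one_le_zetaI K hs)

/-- **Euler product** for the Dedekind zeta function. -/
theorem tendsto_prod_zetaI {s : ℝ} (hs : 1 < s) :
    Tendsto (fun T : Finset (HeightOneSpectrum (𝓞 K)) =>
      ∏ 𝔭 ∈ T, (1 - normPow K s 𝔭.asIdeal)) atTop (𝓝 (zetaI K s)⁻¹) := by
  have h := tendsto_prod_one_sub (summable_normPow K hs) (normPow_mul K s) (normPow_top K s)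
  rwa [tsum_sieveSet_empty K hs] at h

/-- the prime ideal sum `∑_𝔭 N𝔭^(-s)` -/
def primeSum (s : ℝ) : ℝ := ∑' 𝔭 : HeightOneSpectrum (𝓞 K), normPow K s 𝔭.asIdeal

lemma asIdeal_injective :
    Function.Injective (fun 𝔭 : HeightOneSpectrum (𝓞 K) => 𝔭.asIdeal) :=
  fun _ _ h => HeightOneSpectrum.ext h

theorem summable_primeSum {s : ℝ} (hs : 1 < s) :
    Summable (fun 𝔭 : HeightOneSpectrum (𝓞 K) => normPow K s 𝔭.asIdeal) :=
  (summable_normPow K hs).comp_injective (asIdeal_injective K)

lemma two_le_absNorm (𝔭 : HeightOneSpectrum (𝓞 K)) : 2 ≤ absNorm 𝔭.asIdeal := by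
  have h0 : absNorm 𝔭.asIdeal ≠ 0 := by
    rw [Ne, Ideal.absNorm_eq_zero_iff]; exact 𝔭.ne_bot
  have h1 : absNorm 𝔭.asIdeal ≠ 1 := by
    rw [Ne, Ideal.absNorm_eq_one_iff]; exact 𝔭.isPrime.ne_top
  omega

lemma normPow_le_half {s : ℝ} (hs : 1 ≤ s) (𝔭 : HeightOneSpectrum (𝓞 K)) :
    normPow K s 𝔭.asIdeal ≤ 1 / 2 := by
  have h2 : (2 : ℝ) ≤ absNorm 𝔭.asIdeal := by exact_mod_cast two_le_absNorm K 𝔭
  have h0 : (0 : ℝ) < absNorm 𝔭.asIdeal := by linarith
  rw [normPow, Real.rpow_neg h0.le, one_div]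
  apply inv_anti₀ (by norm_num)
  calc (2 : ℝ) ≤ absNorm 𝔭.asIdeal := h2
    _ = (absNorm 𝔭.asIdeal : ℝ) ^ (1 : ℝ) := (Real.rpow_one _).symm
    _ ≤ (absNorm 𝔭.asIdeal : ℝ) ^ s := Real.rpow_le_rpow_of_exponent_le (by linarith) hs

lemma normPow_sq (s : ℝ) (I : Ideal (𝓞 K)) : normPow K s I ^ 2 = normPow K (2 * s) I := by
  rw [normPow, normPow, ← Real.rpow_natCast, ← Real.rpow_mul (Nat.cast_nonneg _)]
  congr 1
  push_cast
  ring

/-- `-log (1 - x) ≥ x` and `≤ x + 2 x²` for `0 ≤ x ≤ 1/2`. -/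
lemma neg_log_one_sub_bounds {x : ℝ} (h0 : 0 ≤ x) (h1 : x ≤ 1 / 2) :
    x ≤ -Real.log (1 - x) ∧ -Real.log (1 - x) ≤ x + 2 * x ^ 2 := by
  have hpos : 0 < 1 - x := by linarith
  constructor
  · have := Real.log_le_sub_one_of_pos hpos
    linarith
  · have h := Real.log_le_sub_one_of_pos (inv_pos.mpr hpos)
    rw [Real.log_inv] at h
    have h2 : (1 - x)⁻¹ - 1 ≤ x + 2 * x ^ 2 := by
      rw [sub_le_iff_le_add, inv_le_iff_one_le_mul₀ hpos]
      nlinarith [mul_nonneg h0 h0, mul_nonneg (mul_nonneg h0 h0) h0]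
    linarith

/-- The sum of `log (1 - N𝔭^(-s))` over the primes is `-log ζ_K(s)`. -/
theorem hasSum_log_one_sub {s : ℝ} (hs : 1 < s) :
    HasSum (fun 𝔭 : HeightOneSpectrum (𝓞 K) => Real.log (1 - normPow K s 𝔭.asIdeal))
      (-Real.log (zetaI K s)) := by
  have h := tendsto_prod_zetaI K hs
  have hZ : (zetaI K s)⁻¹ ≠ 0 := inv_ne_zero (zetaI_pos K hs).ne'
  have h2 := (Real.continuousAt_log hZ).tendsto.comp h
  rw [Real.log_inv] at h2
  rw [HasSum]
  refine h2.congr fun T => ?_
  simp only [Function.comp_apply]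
  rw [Real.log_prod]
  intro 𝔭 _
  have := normPow_le_half K hs.le 𝔭
  linarith

/-- `∑_𝔭 N𝔭^(-s) ≤ log ζ_K(s) ≤ ∑_𝔭 N𝔭^(-s) + 2 ∑_𝔭 N𝔭^(-2s)`. -/
theorem primeSum_le_log_zetaI {s : ℝ} (hs : 1 < s) :
    primeSum K s ≤ Real.log (zetaI K s) ∧
      Real.log (zetaI K s) ≤ primeSum K s + 2 * primeSum K (2 * s) := by
  have hlog := (hasSum_log_one_sub K hs).neg
  rw [neg_neg] at hlog
  have hP := (summable_primeSum K hs).hasSum
  have hP2 := (summable_primeSum K (show 1 < 2 * s by linarith)).hasSum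
  constructor
  · refine hasSum_le (fun 𝔭 => ?_) hP hlog
    exact (neg_log_one_sub_bounds (normPow_nonneg K s _) (normPow_le_half K hs.le 𝔭)).1
  · refine hasSum_le (fun 𝔭 => ?_) hlog (hP.add (hP2.mul_left 2))
    have := (neg_log_one_sub_bounds (normPow_nonneg K s _) (normPow_le_half K hs.le 𝔭)).2
    rw [normPow_sq] at this
    exact this

lemma normPow_anti {s t : ℝ} (hst : s ≤ t) (I : Ideal (𝓞 K)) (h0 : 0 < s) :
    normPow K t I ≤ normPow K s I := by
  rcases eq_or_ne I ⊥ with rfl | hI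
  · rw [normPow_bot K h0.ne', normPow_bot K (h0.trans_le hst).ne']
  · have h1 : (1 : ℝ) ≤ absNorm I := by
      have : absNorm I ≠ 0 := by rwa [Ne, Ideal.absNorm_eq_zero_iff]
      exact_mod_cast Nat.one_le_iff_ne_zero.mpr this
    exact Real.rpow_le_rpow_of_exponent_le h1 (by linarith)

theorem zetaI_anti {s t : ℝ} (hs : 1 < s) (hst : s ≤ t) : zetaI K t ≤ zetaI K s :=
  (summable_normPow K (hs.trans_le hst)).tsum_le_tsum
    (fun I => normPow_anti K hst I (by linarith)) (summable_normPow K hs)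

theorem primeSum_nonneg (s : ℝ) : 0 ≤ primeSum K s :=
  tsum_nonneg fun _ => normPow_nonneg K s _

theorem primeSum_anti {s t : ℝ} (hs : 1 < s) (hst : s ≤ t) : primeSum K t ≤ primeSum K s :=
  (summable_primeSum K (hs.trans_le hst)).tsum_le_tsum
    (fun 𝔭 => normPow_anti K hst 𝔭.asIdeal (by linarith)) (summable_primeSum K hs)

/-- `(s - 1) ζ_K(s)` is bounded above and below by positive constants on `(1, 2]`. -/
theorem exists_bounds_sub_one_mul_zetaI :
    ∃ c₁ c₂ : ℝ, 0 < c₁ ∧ c₁ ≤ c₂ ∧ ∀ s : ℝ, 1 < s → s ≤ 2 →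
      c₁ ≤ (s - 1) * zetaI K s ∧ (s - 1) * zetaI K s ≤ c₂ := by
  have hρ := dedekindZeta_residue_pos K
  set ρ := dedekindZeta_residue K with hρdef
  have h := tendsto_sub_one_mul_zetaI K
  have hev : ∀ᶠ s : ℝ in 𝓝[>] 1, ρ / 2 < (s - 1) * zetaI K s ∧ (s - 1) * zetaI K s < 2 * ρ :=
    (h.eventually (lt_mem_nhds (show ρ / 2 < ρ by linarith))).and
      (h.eventually (gt_mem_nhds (show ρ < 2 * ρ by linarith)))
  rw [eventually_nhdsWithin_iff, Metric.eventually_nhds_iff] at hev
  obtain ⟨δ, hδ, hδ2⟩ := hev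
  set δ' := min δ 1 with hδ'
  have hδ'pos : 0 < δ' := lt_min hδ one_pos
  have hδ'le : δ' ≤ δ := min_le_left _ _
  set s₀ : ℝ := 1 + δ' / 2 with hs₀
  have hs₀1 : 1 < s₀ := by rw [hs₀]; linarith
  have hZ₀ := one_le_zetaI K hs₀1
  refine ⟨min (ρ / 2) (δ' / 2), max (2 * ρ) (zetaI K s₀), lt_min (by linarith) (by linarith),
    (min_le_left _ _).trans ((by linarith : ρ / 2 ≤ 2 * ρ).trans (le_max_left _ _)),
    fun s hs1 hs2 => ?_⟩
  rcases lt_or_ge s s₀ with hlt | hge
  · have hd : dist s 1 < δ := by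
      rw [Real.dist_eq, abs_of_pos (by linarith)]
      rw [hs₀] at hlt
      linarith
    have := hδ2 hd hs1
    exact ⟨(min_le_left _ _).trans this.1.le, this.2.le.trans (le_max_left _ _)⟩
  · have h1 := one_le_zetaI K hs1
    have h2 := zetaI_anti K hs₀1 hge
    have hs0 : 0 < s - 1 := by linarith
    constructor
    · calc min (ρ / 2) (δ' / 2) ≤ δ' / 2 := min_le_right _ _
        _ ≤ (s - 1) * 1 := by rw [hs₀] at hge; linarith
        _ ≤ (s - 1) * zetaI K s := by gcongr
    · calc (s - 1) * zetaI K s ≤ 1 * zetaI K s₀ := by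
            apply mul_le_mul (by linarith) h2 (by linarith) (by norm_num)
        _ ≤ max (2 * ρ) (zetaI K s₀) := by rw [one_mul]; exact le_max_right _ _

/-- **The prime ideal sum** `∑_𝔭 N𝔭^(-s)` is `log (1 / (s - 1)) + O(1)` on `(1, 2]`. -/
theorem exists_primeSum_bound :
    ∃ C : ℝ, ∀ s : ℝ, 1 < s → s ≤ 2 → |primeSum K s + Real.log (s - 1)| ≤ C := by
  obtain ⟨c₁, c₂, hc₁, hc₁₂, hb⟩ := exists_bounds_sub_one_mul_zetaI K
  have hc₂ : 0 < c₂ := hc₁.trans_le hc₁₂
  refine ⟨max |Real.log c₁| |Real.log c₂| + 2 * primeSum K 2, fun s hs1 hs2 => ?_⟩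
  obtain ⟨hlo, hhi⟩ := hb s hs1 hs2
  obtain ⟨hP1, hP2⟩ := primeSum_le_log_zetaI K hs1
  have hs0 : 0 < s - 1 := by linarith
  have hZ := zetaI_pos K hs1
  have hlog : Real.log ((s - 1) * zetaI K s) = Real.log (s - 1) + Real.log (zetaI K s) :=
    Real.log_mul hs0.ne' hZ.ne'
  have hl1 : Real.log c₁ ≤ Real.log ((s - 1) * zetaI K s) := Real.log_le_log hc₁ hlo
  have hl2 : Real.log ((s - 1) * zetaI K s) ≤ Real.log c₂ :=
    Real.log_le_log (hc₁.trans_le hlo) hhi
  have hB : primeSum K (2 * s) ≤ primeSum K 2 :=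
    primeSum_anti K (by norm_num) (by linarith)
  have hB0 := primeSum_nonneg K 2
  have hm1 : -max |Real.log c₁| |Real.log c₂| ≤ Real.log c₁ :=
    (neg_le_neg (le_max_left _ _)).trans (neg_abs_le _)
  have hm2 : Real.log c₂ ≤ max |Real.log c₁| |Real.log c₂| :=
    (le_abs_self _).trans (le_max_right _ _)
  rw [abs_le]
  constructor <;> linarith

end

end Fermat.Agent.Lib.Cheb.H761

end
-- ===== PACK-END Lib/Cheb/H761/ZetaEuler.lean

-- ===== PACK-BEGIN S37/H400/KronFrob.lean
section
/-
S37 / helper400 — piece KRON, part (K0): Frobenius on Laurent series in characteristic `p`.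

`f ^ p = V_p (frob f)`, where `V_p = qExpand R p` is `q ↦ q ^ p` and `frob` raises every
coefficient to the `p`-th power.
-/




set_option autoImplicit false
set_option linter.style.haveILetI false

noncomputable section

open ModularCurve HahnSeries

namespace Fermat.Agent.S37.H400

variable {R : Type*} [CommRing R]

/-- Coefficients of the `p`-th power of a power series in characteristic `p`. -/
theorem powerSeries_coeff_pow_char (p : ℕ) [Fact p.Prime] [CharP R p] (g : PowerSeries R)
    (n : ℕ) :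
    PowerSeries.coeff n (g ^ p) = if p ∣ n then (PowerSeries.coeff (n / p) g) ^ p else 0 := by
  have hp : 0 < p := (Fact.out : p.Prime).pos
  have h1 : PowerSeries.coeff n (g ^ p) =
      PowerSeries.coeff n ((PowerSeries.trunc (n + 1) g : PowerSeries R) ^ p) := by
    rw [← PowerSeries.coeff_coe_trunc_of_lt (Nat.lt_succ_self n) (f := g ^ p),
      ← PowerSeries.trunc_trunc_pow,
      PowerSeries.coeff_coe_trunc_of_lt (Nat.lt_succ_self n)]
  rw [h1, ← Polynomial.coe_pow, Polynomial.coeff_coe, ← Polynomial.map_frobenius_expand,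
    Polynomial.coeff_map, Polynomial.coeff_expand hp]
  split_ifs with h
  · rw [PowerSeries.coeff_trunc, if_pos, frobenius_def]
    exact lt_of_le_of_lt (Nat.div_le_self n p) (Nat.lt_succ_self n)
  · simp

/-- The power-series case of `laurent_pow_char`. -/
theorem ofPowerSeries_pow_char (p : ℕ) [Fact p.Prime] [CharP R p] (g : PowerSeries R) :
    (HahnSeries.ofPowerSeries ℤ R g) ^ p =
      qExpand R p (coeffMap (frobenius R p) (HahnSeries.ofPowerSeries ℤ R g)) := by
  haveI : NeZero p := ⟨(Fact.out : p.Prime).ne_zero⟩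
  have hp : 0 < p := (Fact.out : p.Prime).pos
  have hpz : (0 : ℤ) < (p : ℤ) := by exact_mod_cast hp
  rw [← map_pow]
  ext k
  by_cases hk : (p : ℤ) ∣ k
  · obtain ⟨m, rfl⟩ := hk
    rw [qExpand_coeff_mul, coeffMap_coeff, PowerSeries.coeff_coe, PowerSeries.coeff_coe]
    by_cases hm : m < 0
    · have : (p : ℤ) * m < 0 := by nlinarith
      rw [if_pos this, if_pos hm, map_zero]
    · have hm' : 0 ≤ m := not_lt.mp hm
      have : ¬ (p : ℤ) * m < 0 := by
        have := mul_nonneg hpz.le hm'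
        omega
      rw [if_neg this, if_neg hm, powerSeries_coeff_pow_char, frobenius_def]
      have h1 : ((p : ℤ) * m).natAbs = p * m.natAbs := by
        rw [Int.natAbs_mul, Int.natAbs_natCast]
      rw [h1, if_pos (dvd_mul_right p _), Nat.mul_div_cancel_left _ hp]
  · rw [qExpand_coeff_of_not_dvd p _ hk, PowerSeries.coeff_coe]
    split_ifs with h
    · rfl
    · rw [powerSeries_coeff_pow_char, if_neg]
      intro hd
      apply hk
      have h0 : 0 ≤ k := not_lt.mp h
      have : (k.natAbs : ℤ) = k := Int.natAbs_of_nonneg h0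
      rw [← this]
      exact_mod_cast hd

/-- **(K0)** In characteristic `p`, the `p`-th power of a Laurent series is obtained by
raising the coefficients to the `p`-th power and substituting `q ↦ q ^ p`. -/
theorem laurent_pow_char (p : ℕ) [Fact p.Prime] [CharP R p] (f : LaurentSeries R) :
    haveI : NeZero p := ⟨(Fact.out : p.Prime).ne_zero⟩
    f ^ p = qExpand R p (coeffMap (frobenius R p) f) := by
  haveI : NeZero p := ⟨(Fact.out : p.Prime).ne_zero⟩
  show f ^ p = qExpand R p (coeffMap (frobenius R p) f)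
  conv_lhs => rw [← LaurentSeries.single_order_mul_powerSeriesPart f]
  conv_rhs => rw [← LaurentSeries.single_order_mul_powerSeriesPart f]
  rw [mul_pow, map_mul, map_mul, ofPowerSeries_pow_char, coeffMap_single, qExpand_single,
    HahnSeries.single_pow, map_one, one_pow, nsmul_eq_mul]

end Fermat.Agent.S37.H400

end
end
-- ===== PACK-END S37/H400/KronFrob.lean

-- ===== PACK-BEGIN S24/H504/PlaceOrd.lean
section



/-!
# Extra API for `AlgebraicCurve.Place.ord`
-/

set_option autoImplicit false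

open IsDedekindDomain WithZero

namespace Fermat.Agent.S24.H504

open AlgebraicCurve

variable {K F : Type*} [Field K] [Field F] [Algebra K F] (v : Place K F)

theorem adicValuation_eq_exp_neg_ord {f : F} (hf : f ≠ 0) :
    v.adicValuation f = exp (-(v.ord f)) := by
  have h := v.adicValuation_ne_zero hf
  rw [Place.ord, neg_neg, WithZero.exp_log h]

theorem ord_le_ord_iff {f g : F} (hf : f ≠ 0) (hg : g ≠ 0) :
    v.ord f ≤ v.ord g ↔ v.adicValuation g ≤ v.adicValuation f := by
  rw [adicValuation_eq_exp_neg_ord v hf, adicValuation_eq_exp_neg_ord v hg, WithZero.exp_le_exp]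
  omega

theorem ord_add_ge {f g : F} (hf : f ≠ 0) (hg : g ≠ 0) (hfg : f + g ≠ 0) :
    min (v.ord f) (v.ord g) ≤ v.ord (f + g) := by
  have h := v.adicValuation.map_add f g
  rcases le_max_iff.mp h with h1 | h1
  · exact (min_le_left _ _).trans ((ord_le_ord_iff v hf hfg).mpr h1)
  · exact (min_le_right _ _).trans ((ord_le_ord_iff v hg hfg).mpr h1)

theorem mem_iff_adicValuation_le_one (f : F) :
    f ∈ v.toValuationSubring ↔ v.adicValuation f ≤ 1 := by
  constructor
  · intro hf
    have := v.heightOneSpectrum.valuation_le_one (K := F) (⟨f, hf⟩ : v.toValuationSubring)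
    simpa [Place.adicValuation] using this
  · intro hf
    obtain ⟨a, ha⟩ := IsDiscreteValuationRing.exists_lift_of_le_one (A := v.toValuationSubring)
      (K := F) (x := f) hf
    rw [← ha]
    exact a.2

theorem mem_iff_ord_nonneg {f : F} (hf : f ≠ 0) :
    f ∈ v.toValuationSubring ↔ 0 ≤ v.ord f := by
  rw [mem_iff_adicValuation_le_one, adicValuation_eq_exp_neg_ord v hf,
    ← WithZero.exp_zero, WithZero.exp_le_exp]
  omega

/-- Membership in the valuation ring, with no side condition (`ord 0 = 0`). -/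
theorem mem_iff_ord_nonneg' (f : F) :
    f ∈ v.toValuationSubring ↔ 0 ≤ v.ord f := by
  rcases eq_or_ne f 0 with rfl | hf
  · simp [v.toValuationSubring.zero_mem]
  · exact mem_iff_ord_nonneg v hf

theorem ord_neg (f : F) : v.ord (-f) = v.ord f := by
  simp [Place.ord, Valuation.map_neg]

theorem ord_algebraMap (c : K) : v.ord (algebraMap K F c) = 0 := by
  rcases eq_or_ne c 0 with rfl | hc
  · simp
  have h1 : (0 : ℤ) ≤ v.ord (algebraMap K F c) :=
    (mem_iff_ord_nonneg' v _).mp (v.algebraMap_mem' c)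
  have h2 : (0 : ℤ) ≤ v.ord (algebraMap K F c⁻¹) :=
    (mem_iff_ord_nonneg' v _).mp (v.algebraMap_mem' c⁻¹)
  rw [map_inv₀, Place.ord_inv] at h2
  omega

theorem ord_pow (f : F) (n : ℕ) : v.ord (f ^ n) = n * v.ord f := by
  have := v.ord_zpow f n
  simpa using this

theorem ord_div {f g : F} (hf : f ≠ 0) (hg : g ≠ 0) : v.ord (f / g) = v.ord f - v.ord g := by
  rw [div_eq_mul_inv, v.ord_mul hf (inv_ne_zero hg), Place.ord_inv]
  ring

theorem ord_sub_ge {f g : F} (hf : f ≠ 0) (hg : g ≠ 0) (hfg : f - g ≠ 0) :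
    min (v.ord f) (v.ord g) ≤ v.ord (f - g) := by
  have := ord_add_ge v hf (neg_ne_zero.mpr hg) (by rwa [← sub_eq_add_neg])
  rwa [_root_.Fermat.Agent.S24.H504.ord_neg, ← sub_eq_add_neg] at this

theorem ord_add_eq_of_lt {f g : F} (hf : f ≠ 0) (hg : g ≠ 0) (h : v.ord f < v.ord g) :
    v.ord (f + g) = v.ord f := by
  have hfg : f + g ≠ 0 := by
    intro h0
    have : g = -f := by linear_combination h0
    rw [this, _root_.Fermat.Agent.S24.H504.ord_neg] at h
    exact lt_irrefl _ h
  have h1 := ord_add_ge v hf hg hfg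
  rw [min_eq_left h.le] at h1
  by_contra hne
  have h2 : v.ord f < v.ord (f + g) := lt_of_le_of_ne h1 (Ne.symm hne)
  have h3 := ord_sub_ge v hfg hg (by simpa using hf)
  rw [add_sub_cancel_right] at h3
  have := lt_min h2 h
  omega

theorem exists_ord_eq_one : ∃ ϖ : F, v.ord ϖ = 1 := by
  obtain ⟨π, hπ⟩ := IsDiscreteValuationRing.exists_irreducible v.toValuationSubring
  exact ⟨π, v.ord_coe_irreducible hπ⟩

theorem ne_zero_of_ord_ne_zero {f : F} (h : v.ord f ≠ 0) : f ≠ 0 := by
  rintro rfl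
  simp at h

/-- The sum of two elements of positive order has positive order or is zero. -/
theorem ord_add_pos {f g : F} (hf : f = 0 ∨ 0 < v.ord f) (hg : g = 0 ∨ 0 < v.ord g) :
    f + g = 0 ∨ 0 < v.ord (f + g) := by
  rcases hf with rfl | hf
  · simpa using hg
  rcases hg with rfl | hg
  · right; simpa using hf
  by_cases h0 : f + g = 0
  · exact Or.inl h0
  right
  have := ord_add_ge v (ne_zero_of_ord_ne_zero v hf.ne') (ne_zero_of_ord_ne_zero v hg.ne') h0
  exact lt_of_lt_of_le (lt_min hf hg) this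

/-- A finite sum of elements of nonnegative order has nonnegative order. -/
theorem ord_add_nonneg {f g : F} (hf : 0 ≤ v.ord f) (hg : 0 ≤ v.ord g) :
    0 ≤ v.ord (f + g) := by
  rw [← mem_iff_ord_nonneg'] at *
  exact v.toValuationSubring.add_mem _ _ hf hg

theorem ord_mul_nonneg {f g : F} (hf : 0 ≤ v.ord f) (hg : 0 ≤ v.ord g) :
    0 ≤ v.ord (f * g) := by
  rw [← mem_iff_ord_nonneg'] at *
  exact v.toValuationSubring.mul_mem _ _ hf hg

theorem ord_sum_nonneg {ι : Type*} (s : Finset ι) (f : ι → F) (h : ∀ i ∈ s, 0 ≤ v.ord (f i)) :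
    0 ≤ v.ord (∑ i ∈ s, f i) := by
  rw [← mem_iff_ord_nonneg']
  exact Subring.sum_mem v.toValuationSubring.toSubring
    fun i hi => (mem_iff_ord_nonneg' v _).mpr (h i hi)

end Fermat.Agent.S24.H504

end
-- ===== PACK-END S24/H504/PlaceOrd.lean

-- ===== PACK-BEGIN S28/Defs.lean
section
/-
S28 (Igusa) long-shot -- shared definitions and the interface structure `CoreData`.
All S28 declarations live in namespace `Fermat.Agent.S28`.
-/




set_option autoImplicit false

noncomputable section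

open ModularCurve HahnSeries

namespace Fermat.Agent.S28

/-! ### Formal q-series over an arbitrary commutative ring -/

section Formal

variable (R : Type*) [CommRing R]

/-- Formal discriminant `Δ = q ∏ (1 - qⁿ)²⁴` as a Laurent series over `R`. -/
def deltaL : LaurentSeries R :=
  HahnSeries.single (1 : ℤ) 1 *
    HahnSeries.ofPowerSeries ℤ R (dedekindEtaUnit.map (Int.castRingHom R))

/-- Formal inverse of `Δ`: `q⁻¹ ∏ (1 - qⁿ)⁻²⁴`. -/
def deltaInvL : LaurentSeries R :=
  HahnSeries.single (-1 : ℤ) 1 *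
    HahnSeries.ofPowerSeries ℤ R (dedekindEtaUnitInv.map (Int.castRingHom R))

/-- `θ = q d/dq` on Laurent series: multiplies the coefficient of `qⁿ` by `n`. -/
def thetaL (f : LaurentSeries R) : LaurentSeries R where
  coeff n := (n : R) * f.coeff n
  isPWO_support' := f.isPWO_support.mono fun n hn => by
    simp only [Function.mem_support, ne_eq] at hn ⊢
    intro h
    exact hn (by rw [h, mul_zero])

@[simp] theorem thetaL_coeff (f : LaurentSeries R) (n : ℤ) :
    (thetaL R f).coeff n = (n : R) * f.coeff n := rfl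

/-- The modular unit `u_p = Δ(q^p)/Δ(q)` as a formal Laurent series. -/
def unitL (p : ℕ) [NeZero p] : LaurentSeries R :=
  qExpand R p (deltaL R) * deltaInvL R

end Formal

/-! ### Fields -/

/-- `k(j) ⊂ k((q))`. -/
def jField (k : Type*) [Field k] : IntermediateField k (LaurentSeries k) :=
  IntermediateField.adjoin k {jqModC k}

/-- The integral generators `j(q^d)`, `d ∣ N`, in `ℤ((q))`. -/
def intDivisorExpansions (N : ℕ) : Set (LaurentSeries ℤ) :=
  {x | ∃ (d : ℕ) (_ : NeZero d), d ∣ N ∧ x = qExpand ℤ d (jqModC ℤ)}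

/-- Evaluation `ℤ[Y] → A((q))`, `Y ↦ y`. -/
abbrev evalAt {A : Type*} [CommRing A] (y : LaurentSeries A) : Polynomial ℤ →+* LaurentSeries A :=
  (Polynomial.aeval (R := ℤ) y).toRingHom

/-- Prime-level input from the analytic team: the modular polynomial `Φ_p ∈ ℤ[Y][X]`
(monic of degree `p+1` in `X`) with the two vanishing properties
`Φ_p(j(q^p), j(q)) = 0` and `Φ_p(j(q), j(q^p)) = 0`. -/
structure ModPolyData (p : ℕ) [NeZero p] : Type where
  Φ : Polynomial (Polynomial ℤ)
  monic : Φ.Monic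
  natDegree_eq : Φ.natDegree = p + 1
  eval_jp : Φ.eval₂ (evalAt (jqModC ℤ)) (qExpand ℤ p (jqModC ℤ)) = 0
  eval_j : Φ.eval₂ (evalAt (qExpand ℤ p (jqModC ℤ))) (jqModC ℤ) = 0

/-- Prime-level input from the analytic team: `p¹² Δ(q^p)/Δ(q)` is integral over `ℤ[j]`. -/
structure UnitPolyData (p : ℕ) [NeZero p] : Type where
  W : Polynomial (Polynomial ℤ)
  monic : W.Monic
  eval_unit : W.eval₂ (evalAt (jqModC ℤ)) ((p : LaurentSeries ℤ) ^ 12 * unitL ℤ p) = 0

/-- The interface between the field-theory part [L] and the valuation part [V]: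
`n` integral "monomials" spanning `F` over `ℚ(j)` whose reductions to `K((q))`
are linearly independent over `K(j)`; plus integrality of the generators. -/
structure CoreData (N : ℕ) [NeZero N] (K : Type) [Field K] : Prop where
  exists_basis : ∃ (n : ℕ) (y : Fin n → LaurentSeries ℤ),
    (∀ i, y i ∈ Subring.closure (intDivisorExpansions N)) ∧
    (∀ x ∈ modularFunctionFieldFull N,
      x ∈ Submodule.span (jField ℚ)
        (Set.range fun i => coeffMap (Int.castRingHom ℚ) (y i))) ∧
    LinearIndependent (jField K) (fun i => coeffMap (Int.castRingHom K) (y i))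
  integral : ∀ (d : ℕ) [NeZero d], d ∣ N →
    ∃ P : Polynomial (Polynomial ℤ), P.Monic ∧
      P.eval₂ (evalAt (jqModC ℤ)) (qExpand ℤ d (jqModC ℤ)) = 0

end Fermat.Agent.S28

end

end
-- ===== PACK-END S28/Defs.lean

-- ===== PACK-BEGIN S28/H145/PowIndep.lean
section



/-!
# Leaf [L.I] of the S28 plan

If `x` is a Laurent series whose order is prime to `p`, then `1, x, …, x^(p-1)` are linearly
independent over (any subring of) the range of `V_p = qExpand k p`.
-/

set_option autoImplicit false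

noncomputable section

open ModularCurve HahnSeries

namespace Fermat.Agent.S28.H145

variable {k : Type*} [Field k]

/-- A finite sum of nonzero Laurent series with pairwise distinct orders is nonzero. -/
theorem sum_ne_zero_of_injOn_order {ι : Type*} (s : Finset ι) (t : ι → LaurentSeries k)
    (hs : s.Nonempty) (h0 : ∀ i ∈ s, t i ≠ 0)
    (hinj : Set.InjOn (fun i => (t i).order) (s : Set ι)) : ∑ i ∈ s, t i ≠ 0 := by
  classical
  obtain ⟨i₀, hi₀, hmin⟩ := Finset.exists_min_image s (fun i => (t i).order) hs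
  intro hsum
  have hc : (∑ i ∈ s, t i).coeff (t i₀).order = (t i₀).coeff (t i₀).order := by
    rw [HahnSeries.coeff_sum]
    refine Finset.sum_eq_single_of_mem i₀ hi₀ ?_
    intro i hi hne
    refine HahnSeries.coeff_eq_zero_of_lt_order ?_
    refine lt_of_le_of_ne (hmin i hi) ?_
    intro h
    exact hne (hinj hi hi₀ h.symm)
  rw [hsum] at hc
  exact h0 i₀ hi₀ (HahnSeries.coeff_order_eq_zero.mp hc.symm)

/-- The order of a nonzero element of the range of `qExpand k p` is divisible by `p`. -/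
theorem dvd_order_qExpand (p : ℕ) [NeZero p] (z : LaurentSeries k) :
    (p : ℤ) ∣ (qExpand k p z).order := by
  by_cases hz : qExpand k p z = 0
  · rw [hz, HahnSeries.order_zero]; exact dvd_zero _
  · by_contra h
    exact hz (HahnSeries.coeff_order_eq_zero.mp (qExpand_coeff_of_not_dvd p z h))

/-- **[L.I], core form.** If `p ∤ ord x`... more precisely if `ord x` is prime to `p`, a relation
`∑_{i<p} V_p(c i) * x^i = 0` forces all `c i = 0`. -/
theorem eq_zero_of_sum_qExpand_mul_pow_eq_zero (p : ℕ) [NeZero p] (x : LaurentSeries k)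
    (hx : x ≠ 0) (hord : IsCoprime x.order (p : ℤ)) (c : Fin p → LaurentSeries k)
    (h : ∑ i : Fin p, qExpand k p (c i) * x ^ (i : ℕ) = 0) : ∀ i, c i = 0 := by
  classical
  by_contra hne
  push Not at hne
  set s : Finset (Fin p) := Finset.univ.filter (fun i => c i ≠ 0) with hs
  have hsne : s.Nonempty := by
    obtain ⟨i, hi⟩ := hne
    exact ⟨i, by simp [hs, hi]⟩
  have hterm : ∀ i ∈ s, qExpand k p (c i) * x ^ (i : ℕ) ≠ 0 := by
    intro i hi
    have hci : c i ≠ 0 := by simpa [hs] using hi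
    exact mul_ne_zero (fun h0 => hci (qExpand_injective p (by rw [h0, map_zero])))
      (pow_ne_zero _ hx)
  have hordterm : ∀ i ∈ s, (qExpand k p (c i) * x ^ (i : ℕ)).order =
      (qExpand k p (c i)).order + (i : ℕ) * x.order := by
    intro i hi
    have hci : c i ≠ 0 := by simpa [hs] using hi
    have h1 : qExpand k p (c i) ≠ 0 := fun h0 => hci (qExpand_injective p (by rw [h0, map_zero]))
    rw [HahnSeries.order_mul h1 (pow_ne_zero _ hx), HahnSeries.order_pow, nsmul_eq_mul]
  have hsum : ∑ i ∈ s, qExpand k p (c i) * x ^ (i : ℕ) = 0 := by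
    rw [← h]
    refine Finset.sum_subset (Finset.subset_univ _) ?_
    intro i _ hi
    have hci : c i = 0 := by simpa [hs] using hi
    rw [hci, map_zero, zero_mul]
  refine sum_ne_zero_of_injOn_order s _ hsne hterm ?_ hsum
  intro i hi j hj hij
  simp only at hij
  rw [hordterm i hi, hordterm j hj] at hij
  -- reduce modulo `p`
  obtain ⟨a, ha⟩ := dvd_order_qExpand p (c i)
  obtain ⟨b, hb⟩ := dvd_order_qExpand p (c j)
  rw [ha, hb] at hij
  have hdvd : (p : ℤ) ∣ ((i : ℕ) - (j : ℕ) : ℤ) * x.order := ⟨b - a, by linear_combination hij⟩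
  have hdvd' : (p : ℤ) ∣ ((i : ℕ) : ℤ) - (j : ℕ) := hord.symm.dvd_of_dvd_mul_right hdvd
  have hi' : ((i : ℕ) : ℤ) < p := by exact_mod_cast i.2
  have hj' : ((j : ℕ) : ℤ) < p := by exact_mod_cast j.2
  have hi0 : (0 : ℤ) ≤ ((i : ℕ) : ℤ) := Int.natCast_nonneg _
  have hj0 : (0 : ℤ) ≤ ((j : ℕ) : ℤ) := Int.natCast_nonneg _
  have : ((i : ℕ) : ℤ) - (j : ℕ) = 0 := by
    apply Int.eq_zero_of_abs_lt_dvd hdvd'
    rw [abs_lt]
    constructor <;> linarith
  exact Fin.ext (by exact_mod_cast sub_eq_zero.mp this)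

/-- **[L.I].** If `B` is a subfield of `k((q))` contained in the range of `V_p` and `ord x` is
prime to `p`, then `1, x, …, x^(p-1)` are linearly independent over `B`. -/
theorem linearIndependent_pow_of_le_range (p : ℕ) [NeZero p] (B : Subfield (LaurentSeries k))
    (hB : ∀ b ∈ B, b ∈ (qExpand k p).range) (x : LaurentSeries k)
    (hx : x ≠ 0) (hord : IsCoprime x.order (p : ℤ)) :
    LinearIndependent B (fun i : Fin p => x ^ (i : ℕ)) := by
  rw [Fintype.linearIndependent_iff]
  intro g hg i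
  choose c hc using fun i => hB (g i) (g i).2
  have h : ∑ i : Fin p, qExpand k p (c i) * x ^ (i : ℕ) = 0 := by
    rw [← hg]
    refine Finset.sum_congr rfl fun i _ => ?_
    rw [hc i]
    rfl
  have := eq_zero_of_sum_qExpand_mul_pow_eq_zero p x hx hord c h i
  apply Subtype.ext
  rw [← hc i, this, map_zero]
  rfl

/-- Polynomial form of [L.I]: a polynomial of degree `< p` with coefficients in the range of
`V_p` that kills `x` (with `ord x` prime to `p`) is zero. -/
theorem eq_zero_of_eval_eq_zero_of_natDegree_lt (p : ℕ) [NeZero p] (x : LaurentSeries k)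
    (hx : x ≠ 0) (hord : IsCoprime x.order (p : ℤ)) (f : Polynomial (LaurentSeries k))
    (hf : ∀ n, f.coeff n ∈ (qExpand k p).range) (hdeg : f.natDegree < p)
    (h : f.eval x = 0) : f = 0 := by
  choose c hc using hf
  have hsum : ∑ i : Fin p, qExpand k p (c i) * x ^ (i : ℕ) = 0 := by
    rw [← h, Polynomial.eval_eq_sum_range' hdeg, ← Fin.sum_univ_eq_sum_range
      (fun i => f.coeff i * x ^ i) p]
    refine Finset.sum_congr rfl fun i _ => ?_
    rw [hc]
  have hall := eq_zero_of_sum_qExpand_mul_pow_eq_zero p x hx hord (fun i => c i) hsum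
  ext n
  by_cases hn : n < p
  · have := hall ⟨n, hn⟩
    simp only at this
    rw [← hc n, this, map_zero, Polynomial.coeff_zero]
  · rw [Polynomial.coeff_eq_zero_of_natDegree_lt (lt_of_lt_of_le hdeg (not_lt.mp hn)),
      Polynomial.coeff_zero]

end Fermat.Agent.S28.H145

end

end
-- ===== PACK-END S28/H145/PowIndep.lean

-- ===== PACK-BEGIN S28/H626/Twist.lean
section
/-
S28 helper (helper626): twists `t ↦ c t` of Laurent series, the family `j(ξ tⁿ)`,
and transport of two-variable integral polynomial relations along ring homomorphisms.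
Mathlib + Prelude only.
-/



set_option autoImplicit false

noncomputable section

open ModularCurve HahnSeries Polynomial

namespace Fermat.Agent.S28.H626

/-! ### Twist `t ↦ c t` -/

section Twist

variable {R : Type*} [CommRing R]

theorem coeff_mul_of_support_subset {x y : LaurentSeries R} {a : ℤ} {s t : Set ℤ}
    (hs : s.IsPWO) (ht : t.IsPWO) (hxs : x.support ⊆ s) (hyt : y.support ⊆ t) :
    (x * y).coeff a =
      ∑ ij ∈ Finset.antidiagonal hs ht a, x.coeff ij.fst * y.coeff ij.snd := by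
  rw [HahnSeries.coeff_mul_left' hs hxs]
  refine Finset.sum_subset (Finset.antidiagonal_mono_right hyt) ?_
  intro ij hij hnot
  have hj : ij.2 ∉ y.support := by
    intro hj
    apply hnot
    rw [Finset.mem_antidiagonal] at hij ⊢
    exact ⟨hij.1, hj, hij.2.2⟩
  simp only [HahnSeries.mem_support, not_not] at hj
  rw [hj, mul_zero]

/-- underlying function of `twist` -/
def twistFun (c : Rˣ) (φ : LaurentSeries R) : LaurentSeries R where
  coeff n := ((c ^ n : Rˣ) : R) * φ.coeff n
  isPWO_support' := φ.isPWO_support.mono fun n hn => by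
    simp only [Function.mem_support, ne_eq] at hn
    simp only [HahnSeries.mem_support, ne_eq]
    intro h
    exact hn (by rw [h, mul_zero])

@[simp] theorem twistFun_coeff (c : Rˣ) (φ : LaurentSeries R) (n : ℤ) :
    (twistFun c φ).coeff n = ((c ^ n : Rˣ) : R) * φ.coeff n := rfl

theorem twistFun_support (c : Rˣ) (φ : LaurentSeries R) :
    (twistFun c φ).support ⊆ φ.support := by
  intro m hm
  simp only [HahnSeries.mem_support, twistFun_coeff] at hm ⊢
  intro h0
  exact hm (by rw [h0, mul_zero])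

/-- The substitution `t ↦ c t` on Laurent series, for a unit `c`:
`(twist c φ).coeff n = c ^ n * φ.coeff n`. -/
def twist (c : Rˣ) : LaurentSeries R →+* LaurentSeries R where
  toFun := twistFun c
  map_zero' := by ext n; simp
  map_one' := by
    ext n
    by_cases h : n = 0
    · subst h; simp
    · simp [HahnSeries.coeff_one, h]
  map_add' φ ψ := by ext n; simp [mul_add]
  map_mul' φ ψ := by
    ext n
    rw [coeff_mul_of_support_subset φ.isPWO_support ψ.isPWO_support (twistFun_support c φ)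
      (twistFun_support c ψ)]
    simp only [twistFun_coeff, HahnSeries.coeff_mul, Finset.mul_sum]
    refine Finset.sum_congr rfl ?_
    intro ij hij
    rw [Finset.mem_antidiagonal] at hij
    rw [← hij.2.2, zpow_add, Units.val_mul]
    ring

@[simp] theorem twist_coeff (c : Rˣ) (φ : LaurentSeries R) (n : ℤ) :
    (twist c φ).coeff n = ((c ^ n : Rˣ) : R) * φ.coeff n := rfl

theorem twist_one_apply (φ : LaurentSeries R) : twist (1 : Rˣ) φ = φ := by
  ext n; simp

theorem twist_twist (c d : Rˣ) (φ : LaurentSeries R) :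
    twist c (twist d φ) = twist (c * d) φ := by
  ext n
  simp only [twist_coeff, mul_zpow, Units.val_mul]
  ring

/-- `f((c t)^m) = f(c^m t^m)`. -/
theorem twist_qExpand (c : Rˣ) (m : ℕ) [NeZero m] (φ : LaurentSeries R) :
    twist c (qExpand R m φ) = qExpand R m (twist (c ^ m) φ) := by
  ext n
  by_cases hn : (m : ℤ) ∣ n
  · obtain ⟨k, rfl⟩ := hn
    rw [twist_coeff, qExpand_coeff_mul, qExpand_coeff_mul, twist_coeff]
    congr 2
    rw [← zpow_natCast, ← zpow_mul]
  · rw [twist_coeff, qExpand_coeff_of_not_dvd _ _ hn, qExpand_coeff_of_not_dvd _ _ hn, mul_zero]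

end Twist

end Fermat.Agent.S28.H626

end

end
-- ===== PACK-END S28/H626/Twist.lean

-- ===== PACK-BEGIN S28/H685/QDict.lean
section


/-!
# S28 helper (helper685): dictionary between convergent `q`-series and functions on `ℍ`

`HasQExp h f A` : the function `f : ℍ → ℂ` is, at every point `τ`, the sum of the power
series `A` evaluated at `q = exp (2 π i τ / h)`.

Closure under ring operations, uniqueness of the coefficients, holomorphy, boundedness at `i∞`,
and closure under inverses.
-/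

set_option autoImplicit false

namespace Fermat.Agent.S28.H685

open UpperHalfPlane Function Complex Filter
open scoped Topology Manifold

noncomputable section

local notation "𝕢" => Periodic.qParam

/-- `f` is the sum of the power series `A` in the parameter `q = exp (2 π i τ / h)`. -/
def HasQExp (h : ℝ) (f : ℍ → ℂ) (A : PowerSeries ℂ) : Prop :=
  ∀ τ : ℍ, HasSum (fun n : ℕ => PowerSeries.coeff n A * 𝕢 h τ ^ n) (f τ)

namespace HasQExp

variable {h : ℝ} {f g : ℍ → ℂ} {A B : PowerSeries ℂ}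

theorem congr_fun (hf : HasQExp h f A) (hfg : ∀ τ, f τ = g τ) : HasQExp h g A :=
  fun τ => hfg τ ▸ hf τ

theorem zero : HasQExp h (fun _ => 0) 0 := fun τ => by
  simp [hasSum_zero]

theorem add (hf : HasQExp h f A) (hg : HasQExp h g B) :
    HasQExp h (fun τ => f τ + g τ) (A + B) := fun τ => by
  simpa [add_mul] using (hf τ).add (hg τ)

theorem neg (hf : HasQExp h f A) : HasQExp h (fun τ => -f τ) (-A) := fun τ => by
  simpa using (hf τ).neg

theorem sub (hf : HasQExp h f A) (hg : HasQExp h g B) :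
    HasQExp h (fun τ => f τ - g τ) (A - B) := fun τ => by
  simpa [sub_mul] using (hf τ).sub (hg τ)

theorem const_mul (c : ℂ) (hf : HasQExp h f A) :
    HasQExp h (fun τ => c * f τ) (PowerSeries.C c * A) := fun τ => by
  simpa [mul_assoc] using (hf τ).mul_left c

theorem const (c : ℂ) : HasQExp h (fun _ => c) (PowerSeries.C c) := fun τ => by
  have h0 : ∀ n : ℕ, n ≠ 0 → PowerSeries.coeff n (PowerSeries.C c) * 𝕢 h τ ^ n = 0 := by
    intro n hn
    simp [PowerSeries.coeff_C, hn]
  have := hasSum_single (f := fun n : ℕ => PowerSeries.coeff n (PowerSeries.C c) * 𝕢 h τ ^ n) 0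
    (fun n hn => h0 n hn)
  simpa using this

theorem one : HasQExp h (fun _ => 1) 1 := by
  simpa using const (h := h) 1

theorem X : HasQExp h (fun τ => 𝕢 h τ) PowerSeries.X := fun τ => by
  have h0 : ∀ n : ℕ, n ≠ 1 → PowerSeries.coeff n (PowerSeries.X : PowerSeries ℂ) * 𝕢 h τ ^ n = 0 := by
    intro n hn
    simp [PowerSeries.coeff_X, hn]
  have := hasSum_single (f := fun n : ℕ => PowerSeries.coeff n (PowerSeries.X : PowerSeries ℂ)
    * 𝕢 h τ ^ n) 1 (fun n hn => h0 n hn)
  simpa using this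

theorem summable_norm (hf : HasQExp h f A) (τ : ℍ) :
    Summable (fun n : ℕ => ‖PowerSeries.coeff n A * 𝕢 h τ ^ n‖) :=
  (hf τ).summable.norm

theorem mul (hf : HasQExp h f A) (hg : HasQExp h g B) :
    HasQExp h (fun τ => f τ * g τ) (A * B) := fun τ => by
  have h1 := hf.summable_norm τ
  have h2 := hg.summable_norm τ
  have hs := summable_norm_sum_mul_antidiagonal_of_summable_norm h1 h2
  have ht := tsum_mul_tsum_eq_tsum_sum_antidiagonal_of_summable_norm h1 h2
  rw [(hf τ).tsum_eq, (hg τ).tsum_eq] at ht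
  have hterm : ∀ n : ℕ, PowerSeries.coeff n (A * B) * 𝕢 h τ ^ n =
      ∑ kl ∈ Finset.HasAntidiagonal.antidiagonal n, (PowerSeries.coeff kl.1 A * 𝕢 h τ ^ kl.1) *
        (PowerSeries.coeff kl.2 B * 𝕢 h τ ^ kl.2) := by
    intro n
    rw [PowerSeries.coeff_mul, Finset.sum_mul]
    refine Finset.sum_congr rfl fun kl hkl => ?_
    have : kl.1 + kl.2 = n := Finset.HasAntidiagonal.mem_antidiagonal.mp hkl
    rw [← this, pow_add]
    ring
  simp_rw [hterm]
  rw [ht]
  exact hs.of_norm.hasSum

theorem pow (hf : HasQExp h f A) (n : ℕ) : HasQExp h (fun τ => f τ ^ n) (A ^ n) := by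
  induction n with
  | zero => simpa using one (h := h)
  | succ n ih => simpa [pow_succ] using ih.mul hf

theorem finset_sum {ι : Type*} (s : Finset ι) (F : ι → ℍ → ℂ) (P : ι → PowerSeries ℂ)
    (hF : ∀ i ∈ s, HasQExp h (F i) (P i)) :
    HasQExp h (fun τ => ∑ i ∈ s, F i τ) (∑ i ∈ s, P i) := by
  classical
  induction s using Finset.induction_on with
  | empty => simpa using zero (h := h)
  | insert a s ha ih =>
    simp only [Finset.sum_insert ha]
    exact (hF a (Finset.mem_insert_self a s)).add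
      (ih fun i hi => hF i (Finset.mem_insert_of_mem hi))

theorem finset_prod {ι : Type*} (s : Finset ι) (F : ι → ℍ → ℂ) (P : ι → PowerSeries ℂ)
    (hF : ∀ i ∈ s, HasQExp h (F i) (P i)) :
    HasQExp h (fun τ => ∏ i ∈ s, F i τ) (∏ i ∈ s, P i) := by
  classical
  induction s using Finset.induction_on with
  | empty => simpa using one (h := h)
  | insert a s ha ih =>
    simp only [Finset.prod_insert ha]
    exact (hF a (Finset.mem_insert_self a s)).mul
      (ih fun i hi => hF i (Finset.mem_insert_of_mem hi))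

end HasQExp

/-! ### Analytic consequences -/

/-- The formal multilinear series attached to a power series. -/
def pser (A : PowerSeries ℂ) : FormalMultilinearSeries ℂ ℂ ℂ :=
  .ofScalars ℂ fun n => PowerSeries.coeff n A

/-- The sum of the power series `A`, as a function on `ℂ`. -/
def psum (A : PowerSeries ℂ) : ℂ → ℂ := (pser A).sum

theorem pser_apply (A : PowerSeries ℂ) (n : ℕ) (q : ℂ) :
    (pser A n fun _ => q) = PowerSeries.coeff n A * q ^ n := by
  simp [pser, mul_comm]

theorem pser_norm (A : PowerSeries ℂ) (n : ℕ) : ‖pser A n‖ = ‖PowerSeries.coeff n A‖ := by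
  simp [pser]

theorem pser_coeff (A : PowerSeries ℂ) (n : ℕ) : (pser A).coeff n = PowerSeries.coeff n A := by
  simp [pser, FormalMultilinearSeries.coeff_ofScalars]

theorem pser_injective : Function.Injective pser := by
  intro A B hAB
  ext n
  rw [← pser_coeff A, ← pser_coeff B, hAB]

/-- Every point of the punctured unit disc is `𝕢 h τ` for some `τ`. -/
theorem exists_qParam_eq {h : ℝ} (hh : 0 < h) {q : ℂ} (hq : ‖q‖ < 1) (hq0 : q ≠ 0) :
    ∃ τ : ℍ, 𝕢 h τ = q :=
  ⟨⟨Periodic.invQParam h q, Periodic.im_invQParam_pos_of_norm_lt_one hh hq hq0⟩,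
    Periodic.qParam_right_inv hh.ne' hq0⟩

/-- Summability of `A` at every point of the open unit disc implies radius at least one. -/
theorem one_le_radius_of_summable (A : PowerSeries ℂ)
    (hA : ∀ q : ℂ, ‖q‖ < 1 → Summable fun n : ℕ => PowerSeries.coeff n A * q ^ n) :
    1 ≤ (pser A).radius := by
  refine le_of_forall_lt_imp_le_of_dense fun r hr => ?_
  lift r to NNReal using hr.ne_top
  apply FormalMultilinearSeries.le_radius_of_summable
  have h1 : ‖((r : ℝ) : ℂ)‖ < 1 := by
    simpa using hr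
  have h2 := (hA (r : ℝ) h1).norm
  refine h2.congr fun n => ?_
  rw [pser_norm, norm_mul, norm_pow, Complex.norm_real, Real.norm_of_nonneg r.coe_nonneg]

theorem eball_zero_one : Metric.eball (0 : ℂ) 1 = Metric.ball 0 1 := by
  rw [← ENNReal.coe_one, Metric.eball_coe, NNReal.coe_one]

theorem hasFPowerSeriesOnBall_psum (A : PowerSeries ℂ) (hA : 1 ≤ (pser A).radius) :
    HasFPowerSeriesOnBall (psum A) (pser A) 0 1 :=
  ((pser A).hasFPowerSeriesOnBall (lt_of_lt_of_le one_pos hA)).mono one_pos hA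

theorem hasSum_psum (A : PowerSeries ℂ) (hA : 1 ≤ (pser A).radius) {q : ℂ} (hq : ‖q‖ < 1) :
    HasSum (fun n : ℕ => PowerSeries.coeff n A * q ^ n) (psum A q) := by
  have := (hasFPowerSeriesOnBall_psum A hA).hasSum (y := q)
    (by rw [eball_zero_one]; simpa using hq)
  simpa only [pser_apply, zero_add] using this

theorem psum_zero_eq (A : PowerSeries ℂ) (hA : 1 ≤ (pser A).radius) :
    psum A 0 = PowerSeries.coeff 0 A := by
  have h1 := hasSum_psum A hA (q := 0) (by simp)
  have h2 : HasSum (fun n : ℕ => PowerSeries.coeff n A * (0 : ℂ) ^ n) (PowerSeries.coeff 0 A) := by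
    have := hasSum_single (f := fun n : ℕ => PowerSeries.coeff n A * (0 : ℂ) ^ n) 0
      (fun n hn => by simp [hn])
    simpa using this
  exact h1.unique h2

theorem differentiableOn_psum (A : PowerSeries ℂ) (hA : 1 ≤ (pser A).radius) :
    DifferentiableOn ℂ (psum A) (Metric.ball 0 1) := by
  have := (hasFPowerSeriesOnBall_psum A hA).differentiableOn
  rwa [eball_zero_one] at this

/-- If two power series of radius at least one have sums that agree on the punctured disc,
they are equal. -/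
theorem eq_of_psum_eq (A B : PowerSeries ℂ) (hA : 1 ≤ (pser A).radius)
    (hB : 1 ≤ (pser B).radius)
    (hAB : ∀ q : ℂ, ‖q‖ < 1 → q ≠ 0 → psum A q = psum B q) : A = B := by
  have hAa := (hasFPowerSeriesOnBall_psum A hA).hasFPowerSeriesAt
  have hBa := (hasFPowerSeriesOnBall_psum B hB).hasFPowerSeriesAt
  have hne : psum A =ᶠ[𝓝[≠] (0 : ℂ)] psum B := by
    have hball : Metric.ball (0 : ℂ) 1 ∈ 𝓝[≠] (0 : ℂ) :=
      mem_nhdsWithin_of_mem_nhds (Metric.ball_mem_nhds 0 one_pos)
    filter_upwards [hball, self_mem_nhdsWithin] with q hq hq0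
    exact hAB q (by simpa using hq) hq0
  have hnhds : psum A =ᶠ[𝓝 (0 : ℂ)] psum B :=
    (hAa.continuousAt.eventuallyEq_nhds_iff_eventuallyEq_nhdsNE hBa.continuousAt).mp hne
  have hBa' : HasFPowerSeriesAt (psum A) (pser B) 0 := hBa.congr hnhds.symm
  exact pser_injective (hAa.eq_formalMultilinearSeries hBa')

namespace HasQExp

variable {h : ℝ} {f g : ℍ → ℂ} {A B : PowerSeries ℂ}

theorem summable_of_norm_lt (hh : 0 < h) (hf : HasQExp h f A) {q : ℂ} (hq : ‖q‖ < 1) :
    Summable fun n : ℕ => PowerSeries.coeff n A * q ^ n := by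
  rcases eq_or_ne q 0 with rfl | hq0
  · exact (hasSum_single (f := fun n : ℕ => PowerSeries.coeff n A * (0 : ℂ) ^ n) 0
      (fun n hn => by simp [hn])).summable
  · obtain ⟨τ, rfl⟩ := exists_qParam_eq hh hq hq0
    exact (hf τ).summable

theorem one_le_radius (hh : 0 < h) (hf : HasQExp h f A) : 1 ≤ (pser A).radius :=
  one_le_radius_of_summable A fun _ hq => hf.summable_of_norm_lt hh hq

theorem psum_qParam (hh : 0 < h) (hf : HasQExp h f A) (τ : ℍ) : psum A (𝕢 h τ) = f τ :=
  (hasSum_psum A (hf.one_le_radius hh) (Periodic.norm_qParam_lt_one hh τ.im_pos)).unique (hf τ)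

/-- Uniqueness of the coefficients. -/
theorem unique (hh : 0 < h) (hf : HasQExp h f A) (hg : HasQExp h f B) : A = B := by
  refine eq_of_psum_eq A B (hf.one_le_radius hh) (hg.one_le_radius hh) fun q hq hq0 => ?_
  obtain ⟨τ, rfl⟩ := exists_qParam_eq hh hq hq0
  rw [hf.psum_qParam hh, hg.psum_qParam hh]

theorem eq_zero (hh : 0 < h) (hf : HasQExp h (fun _ => 0) A) : A = 0 :=
  hf.unique hh zero

/-- A function given by a convergent `q`-series is holomorphic. -/
theorem mdifferentiable (hh : 0 < h) (hf : HasQExp h f A) : MDiff f := by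
  rw [UpperHalfPlane.mdifferentiable_iff]
  have hd : DifferentiableOn ℂ (fun z : ℂ => psum A (𝕢 h z)) {z | 0 < z.im} := by
    intro z hz
    have h1 : DifferentiableAt ℂ (psum A) (𝕢 h z) :=
      (differentiableOn_psum A (hf.one_le_radius hh)).differentiableAt
        (Metric.isOpen_ball.mem_nhds (by simpa using Periodic.norm_qParam_lt_one hh hz))
    have h2 : DifferentiableAt ℂ (𝕢 h) z := (Periodic.differentiable_qParam).differentiableAt
    exact (h1.comp z h2).differentiableWithinAt
  refine hd.congr fun z hz => ?_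
  simp only [Function.comp_apply]
  rw [ofComplex_apply_of_im_pos hz, ← hf.psum_qParam hh]

/-- A function given by a convergent `q`-series is bounded at `i∞`. -/
theorem isBoundedAtImInfty (hh : 0 < h) (hf : HasQExp h f A) : IsBoundedAtImInfty f :=
  isBoundedAtImInfty_of_hasSum_qExpansion (c := fun n => PowerSeries.coeff n A) hh
    (fun τ => by simpa [smul_eq_mul] using hf τ)

/-- The value at a translate by the period. -/
theorem vadd_period (hh : 0 < h) (hf : HasQExp h f A) (τ : ℍ) (τ' : ℍ) (hτ : (τ' : ℂ) = τ + h) :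
    f τ' = f τ := by
  have hq : 𝕢 h τ' = 𝕢 h τ := by
    rw [hτ]
    simp only [Periodic.qParam]
    rw [show 2 * (Real.pi : ℂ) * Complex.I * ((τ : ℂ) + h) / h =
      2 * Real.pi * Complex.I * τ / h + 2 * Real.pi * Complex.I by
        have : (h : ℂ) ≠ 0 := by exact_mod_cast hh.ne'
        field_simp]
    exact Complex.exp_periodic _
  have := hf τ'
  rw [hq] at this
  exact this.unique (hf τ)

/-- Closure under inverses. -/
theorem inv (hh : 0 < h) (hf : HasQExp h f A) (hf0 : ∀ τ, f τ ≠ 0)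
    (hA0 : PowerSeries.coeff 0 A ≠ 0) : HasQExp h (fun τ => (f τ)⁻¹) A⁻¹ := by
  have hA := hf.one_le_radius hh
  have hne : ∀ q ∈ Metric.ball (0 : ℂ) 1, psum A q ≠ 0 := by
    intro q hq
    have hq' : ‖q‖ < 1 := by simpa using hq
    rcases eq_or_ne q 0 with rfl | hq0
    · rwa [psum_zero_eq A hA]
    · obtain ⟨τ, rfl⟩ := exists_qParam_eq hh hq' hq0
      rw [hf.psum_qParam hh]
      exact hf0 τ
  have hdiff : DifferentiableOn ℂ (fun q => (psum A q)⁻¹) (Metric.ball 0 1) :=
    (differentiableOn_psum A hA).inv hne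
  -- Taylor series of the inverse
  let B : PowerSeries ℂ := PowerSeries.mk fun n =>
    (n.factorial : ℂ)⁻¹ * iteratedDeriv n (fun q => (psum A q)⁻¹) 0
  have hB : HasQExp h (fun τ => (f τ)⁻¹) B := by
    intro τ
    have hq : 𝕢 h τ ∈ Metric.ball (0 : ℂ) 1 := by
      simpa using Periodic.norm_qParam_lt_one hh τ.im_pos
    have := Complex.hasSum_taylorSeries_on_ball hdiff hq
    simp only [sub_zero, smul_eq_mul] at this
    rw [hf.psum_qParam hh] at this
    have hfun : (fun n : ℕ => PowerSeries.coeff n B * 𝕢 h τ ^ n) =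
        fun n : ℕ => ((n.factorial : ℂ))⁻¹ *
          (𝕢 h τ ^ n * iteratedDeriv n (fun q => (psum A q)⁻¹) 0) := by
      funext n
      simp only [B, PowerSeries.coeff_mk]
      ring
    rw [hfun]
    exact this
  have h1 : HasQExp h (fun _ => 1) (A * B) :=
    (hf.mul hB).congr_fun fun τ => mul_inv_cancel₀ (hf0 τ)
  have h2 : A * B = 1 := h1.unique hh one
  have hA0' : PowerSeries.constantCoeff A ≠ 0 := by
    rwa [← PowerSeries.coeff_zero_eq_constantCoeff]
  have h3 : B = A⁻¹ := by
    rw [PowerSeries.eq_inv_iff_mul_eq_one hA0', mul_comm]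
    exact h2
  rw [← h3]
  exact hB

end HasQExp

end

end Fermat.Agent.S28.H685

end
-- ===== PACK-END S28/H685/QDict.lean

-- ===== PACK-BEGIN S20/Comb694/Basic.lean
section






/-!
# Combinatorics on `SL(2,ℤ) ⧸ Gamma0 N` : basic coset criterion, fixed points of `S` and `S * T`.

Left cosets, Mathlib's left-multiplication action (`MulAction.quotient`).
-/

set_option autoImplicit false

namespace Fermat.Agent.S20.Comb694

open Matrix MatrixGroups CongruenceSubgroup

/-- The `(1,0)` entry of `g⁻¹ * g'`. -/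
lemma inv_mul_apply_one_zero (g g' : SL(2, ℤ)) :
    (g⁻¹ * g') 1 0 = g 0 0 * g' 1 0 - g 1 0 * g' 0 0 := by
  rw [Matrix.SpecialLinearGroup.coe_mul, Matrix.SpecialLinearGroup.coe_inv,
    Matrix.adjugate_fin_two, Matrix.mul_apply, Fin.sum_univ_two]
  simp
  ring

/-- Coset criterion: `g Γ₀(N) = g' Γ₀(N)` iff `a c' - c a' ≡ 0 mod N`, where `(a, c)`, `(a', c')`
are the first columns of `g`, `g'`. -/
lemma mk_eq_mk_iff (N : ℕ) (g g' : SL(2, ℤ)) :
    (QuotientGroup.mk g : SL(2, ℤ) ⧸ Gamma0 N) = QuotientGroup.mk g' ↔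
      ((g 0 0 : ℤ) : ZMod N) * ((g' 1 0 : ℤ) : ZMod N)
        - ((g 1 0 : ℤ) : ZMod N) * ((g' 0 0 : ℤ) : ZMod N) = 0 := by
  rw [QuotientGroup.eq, Gamma0_mem, inv_mul_apply_one_zero]
  push_cast
  rfl

/-- Determinant relation in `ZMod N`. -/
lemma det_cast (N : ℕ) (g : SL(2, ℤ)) :
    ((g 0 0 : ℤ) : ZMod N) * ((g 1 1 : ℤ) : ZMod N)
      - ((g 0 1 : ℤ) : ZMod N) * ((g 1 0 : ℤ) : ZMod N) = 1 := by
  have h := g.det_coe
  rw [Matrix.det_fin_two] at h
  have := congrArg (fun z : ℤ => (z : ZMod N)) h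
  simpa using this

/-- Fixed-point criterion for a general element `γ`. -/
lemma smul_mk_eq_mk_iff (N : ℕ) (γ g : SL(2, ℤ)) :
    γ • (QuotientGroup.mk g : SL(2, ℤ) ⧸ Gamma0 N) = QuotientGroup.mk g ↔
      ((g 0 0 : ℤ) : ZMod N) * (((γ * g) 1 0 : ℤ) : ZMod N)
        - ((g 1 0 : ℤ) : ZMod N) * (((γ * g) 0 0 : ℤ) : ZMod N) = 0 := by
  rw [MulAction.Quotient.smul_mk, smul_eq_mul, eq_comm, mk_eq_mk_iff]

lemma S_mul_apply_zero_zero (g : SL(2, ℤ)) : (ModularGroup.S * g) 0 0 = - g 1 0 := by
  rw [Matrix.SpecialLinearGroup.coe_mul, ModularGroup.coe_S, Matrix.mul_apply, Fin.sum_univ_two]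
  simp

lemma S_mul_apply_one_zero (g : SL(2, ℤ)) : (ModularGroup.S * g) 1 0 = g 0 0 := by
  rw [Matrix.SpecialLinearGroup.coe_mul, ModularGroup.coe_S, Matrix.mul_apply, Fin.sum_univ_two]
  simp

lemma coe_S_mul_T : ((ModularGroup.S * ModularGroup.T : SL(2, ℤ)) : Matrix (Fin 2) (Fin 2) ℤ)
    = !![0, -1; 1, 1] := by
  rw [Matrix.SpecialLinearGroup.coe_mul, ModularGroup.coe_S, ModularGroup.coe_T]
  ext i j
  fin_cases i <;> fin_cases j <;> simp [Matrix.mul_apply, Fin.sum_univ_two]

lemma ST_mul_apply_zero_zero (g : SL(2, ℤ)) :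
    (ModularGroup.S * ModularGroup.T * g) 0 0 = - g 1 0 := by
  rw [Matrix.SpecialLinearGroup.coe_mul, coe_S_mul_T, Matrix.mul_apply, Fin.sum_univ_two]
  simp

lemma ST_mul_apply_one_zero (g : SL(2, ℤ)) :
    (ModularGroup.S * ModularGroup.T * g) 1 0 = g 0 0 + g 1 0 := by
  rw [Matrix.SpecialLinearGroup.coe_mul, coe_S_mul_T, Matrix.mul_apply, Fin.sum_univ_two]
  simp

/-- `g Γ₀(N)` is fixed by `S` iff `a² + c² ≡ 0 mod N`. -/
lemma S_smul_mk_eq_mk_iff (N : ℕ) (g : SL(2, ℤ)) :
    ModularGroup.S • (QuotientGroup.mk g : SL(2, ℤ) ⧸ Gamma0 N) = QuotientGroup.mk g ↔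
      ((g 0 0 : ℤ) : ZMod N) ^ 2 + ((g 1 0 : ℤ) : ZMod N) ^ 2 = 0 := by
  rw [smul_mk_eq_mk_iff, S_mul_apply_zero_zero, S_mul_apply_one_zero]
  push_cast
  constructor <;> intro h <;> linear_combination h

/-- `g Γ₀(N)` is fixed by `S * T` iff `a² + a c + c² ≡ 0 mod N`. -/
lemma ST_smul_mk_eq_mk_iff (N : ℕ) (g : SL(2, ℤ)) :
    (ModularGroup.S * ModularGroup.T) • (QuotientGroup.mk g : SL(2, ℤ) ⧸ Gamma0 N)
        = QuotientGroup.mk g ↔
      ((g 0 0 : ℤ) : ZMod N) ^ 2 + ((g 0 0 : ℤ) : ZMod N) * ((g 1 0 : ℤ) : ZMod N)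
        + ((g 1 0 : ℤ) : ZMod N) ^ 2 = 0 := by
  rw [smul_mk_eq_mk_iff, ST_mul_apply_zero_zero, ST_mul_apply_one_zero]
  push_cast
  constructor <;> intro h <;> linear_combination h

/-- The matrix `[[x, -1], [1, 0]]` in `SL(2,ℤ)`. -/
def colRep (x : ℤ) : SL(2, ℤ) := ⟨!![x, -1; 1, 0], by simp [Matrix.det_fin_two]⟩

@[simp] lemma colRep_apply_zero_zero (x : ℤ) : colRep x 0 0 = x := rfl
@[simp] lemma colRep_apply_one_zero (x : ℤ) : colRep x 1 0 = 1 := rfl

/-- If `a² = c * r` in `ZMod N` for the first column `(a, c)` of `g ∈ SL(2,ℤ)`, then `c` has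
an explicit inverse. -/
lemma c_mul_inv_eq_one (N : ℕ) (g : SL(2, ℤ)) (r : ZMod N)
    (h : ((g 0 0 : ℤ) : ZMod N) ^ 2 = ((g 1 0 : ℤ) : ZMod N) * r) :
    ((g 1 0 : ℤ) : ZMod N) *
      (r * ((g 1 1 : ℤ) : ZMod N) ^ 2
        - 2 * ((g 0 0 : ℤ) : ZMod N) * ((g 0 1 : ℤ) : ZMod N) * ((g 1 1 : ℤ) : ZMod N)
        + ((g 0 1 : ℤ) : ZMod N) ^ 2 * ((g 1 0 : ℤ) : ZMod N)) = 1 := by
  have hdet := det_cast N g
  linear_combination (-(((g 1 1 : ℤ) : ZMod N)) ^ 2) * h
    + (((g 0 0 : ℤ) : ZMod N) * ((g 1 1 : ℤ) : ZMod N)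
        - ((g 0 1 : ℤ) : ZMod N) * ((g 1 0 : ℤ) : ZMod N) + 1) * hdet

end Fermat.Agent.S20.Comb694

end
-- ===== PACK-END S20/Comb694/Basic.lean

-- ===== PACK-BEGIN S18/B12/H693/RedBasis.lean
section
/-
S18 / Route K / b2, leaf P4 = `RedBasisStatement` (helper693).  Mathlib-only.

A finite torsion-free algebra `R₁` over a PID `R` has a family which is `R`-linearly independent
modulo nilpotents and spans `R₁` modulo nilpotents (`R₁ / nilradical` is finite free).
-/


set_option autoImplicit false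

namespace Fermat.Agent.S18.B12.H693

open Module

/-- `R₁ / nilradical` is torsion-free over `R` if `R₁` is. -/
theorem isTorsionFree_quotient_nilradical (R : Type*) [CommRing R] [IsDomain R]
    (R₁ : Type*) [CommRing R₁] [Algebra R R₁] [Module.IsTorsionFree R R₁] :
    Module.IsTorsionFree R (R₁ ⧸ nilradical R₁) := by
  rw [Module.isTorsionFree_iff_smul_eq_zero]
  intro r m hrm
  by_cases hr : r = 0
  · exact Or.inl hr
  right
  obtain ⟨x, rfl⟩ := Ideal.Quotient.mk_surjective m
  have h1 : Ideal.Quotient.mk (nilradical R₁) (r • x) = 0 := by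
    rw [← hrm]; rfl
  rw [Ideal.Quotient.eq_zero_iff_mem, mem_nilradical] at h1 ⊢
  obtain ⟨k, hk⟩ := h1
  refine ⟨k, ?_⟩
  rw [smul_pow] at hk
  exact (smul_eq_zero.mp hk).resolve_left (pow_ne_zero k hr)

/-- **P4 (reduced basis)**, explicit form of `Fermat.Agent.S18.B12.RedBasisStatement`. -/
theorem exists_redBasis (R : Type*) [CommRing R] [IsDomain R] [IsPrincipalIdealRing R]
    (R₁ : Type*) [CommRing R₁] [Algebra R R₁] [Module.Finite R R₁] [Module.IsTorsionFree R R₁] :
    ∃ (r : ℕ) (y : Fin r → R₁),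
      (∀ a : Fin r → R, IsNilpotent (∑ i, a i • y i) → a = 0) ∧
      (∀ x : R₁, ∃ a : Fin r → R, IsNilpotent (x - ∑ i, a i • y i)) := by
  classical
  have htf : Module.IsTorsionFree R (R₁ ⧸ nilradical R₁) :=
    isTorsionFree_quotient_nilradical R R₁
  have hfin : Module.Finite R (R₁ ⧸ nilradical R₁) :=
    Module.Finite.of_surjective (Ideal.Quotient.mkₐ R (nilradical R₁)).toLinearMap
      (Ideal.Quotient.mkₐ_surjective R (nilradical R₁))
  have hfree : Module.Free R (R₁ ⧸ nilradical R₁) := Module.free_of_finite_type_torsion_free'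
  let bQ : Basis (Fin (finrank R (R₁ ⧸ nilradical R₁))) R (R₁ ⧸ nilradical R₁) :=
    Module.finBasis R _
  choose y hy using fun i => Ideal.Quotient.mk_surjective (bQ i)
  have hsum : ∀ a : Fin (finrank R (R₁ ⧸ nilradical R₁)) → R,
      Ideal.Quotient.mk (nilradical R₁) (∑ i, a i • y i) = ∑ i, a i • bQ i := by
    intro a
    rw [map_sum]
    refine Finset.sum_congr rfl fun i _ => ?_
    rw [← hy i]
    rfl
  refine ⟨_, y, ?_, ?_⟩
  · intro a ha
    have h0 : ∑ i, a i • bQ i = 0 := by
      rw [← hsum, Ideal.Quotient.eq_zero_iff_mem, mem_nilradical]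
      exact ha
    have := (Fintype.linearIndependent_iff.mp bQ.linearIndependent) a h0
    exact funext this
  · intro x
    refine ⟨fun i => bQ.repr (Ideal.Quotient.mk (nilradical R₁) x) i, ?_⟩
    rw [← mem_nilradical, ← Ideal.Quotient.eq_zero_iff_mem, map_sub, hsum, bQ.sum_repr, sub_self]

end Fermat.Agent.S18.B12.H693

end
-- ===== PACK-END S18/B12/H693/RedBasis.lean

-- ===== PACK-BEGIN S18/H274/DetRank.lean
section


/-!
# S18 / b2 (helper274) — DET-RANK

Mathlib-only linear algebra.  `R` a commutative ring, `π : R →+* K` a surjection onto a field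
whose kernel is contained in `(t)`.  If the reduction `M.map π` of a square matrix `M` kills `s`
linearly independent vectors, then `t ^ s ∣ det M`.

Main statements (all sorry-free):

* `pow_card_dvd_det_of_col_dvd` : columns in a finset `S` divisible by `t`  ⇒ `t ^ #S ∣ det`.
* `pow_dvd_det_of_linearIndependent_ker` : the elementwise kernel form.
* `pow_sub_rank_dvd_det` : `t ^ (card n - rank (M.map π)) ∣ det M`.
-/

namespace Fermat.Agent.S18.H274

open Matrix Module

variable {R : Type*} [CommRing R]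

/-- If all columns with index in `S` of a square matrix are divisible by `t`, then
`t ^ #S` divides the determinant. -/
theorem pow_card_dvd_det_of_col_dvd {n : Type*} [Fintype n] [DecidableEq n]
    (t : R) (N : Matrix n n R) (S : Finset n) (h : ∀ j ∈ S, ∀ i, t ∣ N i j) :
    t ^ S.card ∣ N.det := by
  classical
  choose! Q hQ using h
  let Q' : Matrix n n R := fun i j => if j ∈ S then Q j i else N i j
  let d : n → R := fun j => if j ∈ S then t else 1
  have hN : N = Q' * Matrix.diagonal d := by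
    ext i j
    rw [Matrix.mul_diagonal]
    by_cases hj : j ∈ S
    · simp only [Q', d, hj, if_true]
      rw [hQ j hj i, mul_comm]
    · simp [Q', d, hj]
  have hd : ∏ j, d j = t ^ S.card := by
    simp only [d]
    rw [Finset.prod_ite_mem, Finset.univ_inter, Finset.prod_const]
  rw [hN, Matrix.det_mul, Matrix.det_diagonal, hd]
  exact Dvd.intro_left _ rfl

/-- **DET-RANK, kernel form.**  `π : R →+* K` a surjection onto a field with `ker π ⊆ (t)`.
If the reduced matrix `M.map π` kills `s` linearly independent vectors then `t ^ s ∣ det M`. -/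
theorem pow_dvd_det_of_linearIndependent_ker {K : Type*} [Field K] (π : R →+* K)
    (hπ : Function.Surjective π) (t : R) (hker : ∀ x, π x = 0 → t ∣ x)
    {n : Type*} [Fintype n] [DecidableEq n] (M : Matrix n n R) {s : ℕ}
    (v : Fin s → n → K) (hv : LinearIndependent K v)
    (hMv : ∀ a, (M.map π).mulVec (v a) = 0) :
    t ^ s ∣ M.det := by
  classical
  -- extend `v` to a basis of `n → K`
  have hs := hv.linearIndepOn_id
  let B := Basis.extend hs
  have hB : ∀ x, B x = (x : n → K) := fun x => by rw [Basis.coe_extend]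
  have hsub : Set.range v ⊆ hs.extend (Set.subset_univ _) := hs.subset_extend _
  let _ : Fintype (hs.extend (Set.subset_univ (Set.range v))) :=
    FiniteDimensional.fintypeBasisIndex B
  let e : n ≃ (hs.extend (Set.subset_univ (Set.range v))) := (Pi.basisFun K n).indexEquiv B
  -- the matrix of the new basis and a lift
  let Pbar : Matrix n n K := fun i j => (e j : n → K) i
  have hPbar_unit : IsUnit Pbar.det := by
    rw [← Matrix.isUnit_iff_isUnit_det, ← Matrix.linearIndependent_cols_iff_isUnit]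
    have h1 : LinearIndependent K (fun j => B (e j)) :=
      B.linearIndependent.comp e e.injective
    have h2 : Pbar.col = fun j => B (e j) := by
      funext j
      rw [hB]
      rfl
    rw [h2]
    exact h1
  let P : Matrix n n R := fun i j => Classical.choose (hπ (Pbar i j))
  have hP : P.map π = Pbar := by
    ext i j
    exact Classical.choose_spec (hπ (Pbar i j))
  -- the set of columns coming from `v`
  let S : Finset n := Finset.univ.image (fun a : Fin s => e.symm ⟨v a, hsub ⟨a, rfl⟩⟩)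
  have hScard : S.card = s := by
    rw [Finset.card_image_of_injective]
    · simp
    · intro a a' h
      have := e.symm.injective h
      exact hv.injective (Subtype.mk.inj this)
  have hcol : ∀ j ∈ S, ∀ i, t ∣ (M * P) i j := by
    intro j hj i
    obtain ⟨a, -, rfl⟩ := Finset.mem_image.mp hj
    apply hker
    rw [RingHom.map_matrix_mul, hP]
    have h3 := congrFun (hMv a) i
    simp only [Matrix.mulVec, dotProduct, Pi.zero_apply] at h3
    rw [Matrix.mul_apply]
    simp only [Pbar, Equiv.apply_symm_apply]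
    exact h3
  have h4 := pow_card_dvd_det_of_col_dvd t (M * P) S hcol
  rw [hScard, Matrix.det_mul] at h4
  -- `det P` is coprime to `t`
  have hdetP : π P.det = Pbar.det := by
    rw [RingHom.map_det, RingHom.mapMatrix_apply, hP]
  obtain ⟨y, hy⟩ := hπ (↑hPbar_unit.unit⁻¹ : K)
  have h5 : π (y * P.det - 1) = 0 := by
    rw [map_sub, map_mul, hy, hdetP, map_one, sub_eq_zero]
    exact hPbar_unit.val_inv_mul
  obtain ⟨z, hz⟩ := hker _ h5
  have hcop : IsCoprime t P.det := ⟨-z, y, by linear_combination hz⟩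
  exact (hcop.pow_left).dvd_of_dvd_mul_right h4

/-- **DET-RANK, rank form.**  `t ^ (card n - rank (M mod t)) ∣ det M`. -/
theorem pow_sub_rank_dvd_det {K : Type*} [Field K] (π : R →+* K)
    (hπ : Function.Surjective π) (t : R) (hker : ∀ x, π x = 0 → t ∣ x)
    {n : Type*} [Fintype n] [DecidableEq n] (M : Matrix n n R) :
    t ^ (Fintype.card n - (M.map π).rank) ∣ M.det := by
  classical
  let f := (M.map π).mulVecLin
  have hrn := LinearMap.finrank_range_add_finrank_ker f
  have hrank : (M.map π).rank = finrank K (LinearMap.range f) := rfl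
  have hcard : finrank K (n → K) = Fintype.card n := Module.finrank_fintype_fun_eq_card K
  have hk : finrank K (LinearMap.ker f) = Fintype.card n - (M.map π).rank := by
    rw [hrank]; omega
  let b := Module.finBasis K (LinearMap.ker f)
  rw [← hk]
  refine pow_dvd_det_of_linearIndependent_ker π hπ t hker M
    (fun a => ((b a : LinearMap.ker f) : n → K)) ?_ ?_
  · have := b.linearIndependent
    exact this.map' (LinearMap.ker f).subtype (Submodule.ker_subtype _)
  · intro a
    have := (b a).2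
    rw [LinearMap.mem_ker] at this
    exact this

end Fermat.Agent.S18.H274

end
-- ===== PACK-END S18/H274/DetRank.lean

-- ===== PACK-BEGIN S18/H274/Newton.lean
section


/-!
# S18 / b2 (helper274) — traces of powers and nilpotency in characteristic zero

Mathlib-only.  Over a field of characteristic zero, an endomorphism `f` of a finite dimensional
vector space all of whose positive powers have trace zero is nilpotent
(`isNilpotent_of_trace_pow_eq_zero`), and the matrix version
(`matrix_isNilpotent_of_trace_pow_eq_zero`).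

Proof: induction on the dimension.  By Cayley–Hamilton `χ(f) = 0`; taking traces gives
`χ(0) · dim V = 0`, so `det f = 0` and `range f` is a proper invariant subspace.  The traces of
the powers of `f` restricted to `range f` are those of `f`.
-/

namespace Fermat.Agent.S18.H274

open Module Polynomial

universe u

theorem isNilpotent_of_trace_pow_eq_zero_aux (K : Type*) [Field K] [CharZero K] :
    ∀ (n : ℕ) (V : Type u) [AddCommGroup V] [Module K V] [FiniteDimensional K V],
      finrank K V = n → ∀ f : V →ₗ[K] V,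
        (∀ k, 1 ≤ k → LinearMap.trace K V (f ^ k) = 0) → IsNilpotent f := by
  intro n
  induction n using Nat.strong_induction_on with
  | _ n ih =>
    intro V _ _ _ hn f hf
    rcases Nat.eq_zero_or_pos n with h0 | hpos
    · -- trivial space
      subst h0
      have : Subsingleton V := Module.finrank_zero_iff.mp hn
      have hf0 : f = 0 := Subsingleton.elim _ _
      rw [hf0]
      exact IsNilpotent.zero
    · -- `det f = 0`
      have hCH := LinearMap.aeval_self_charpoly f
      have htr : LinearMap.trace K V (aeval f f.charpoly) = f.charpoly.coeff 0 * (n : K) := by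
        rw [aeval_eq_sum_range, map_sum]
        rw [Finset.sum_eq_single 0]
        · simp [hn, Module.End.one_eq_id]
        · intro i _ hi
          rw [map_smul, hf i (Nat.one_le_iff_ne_zero.mpr hi), smul_zero]
        · intro h
          exact absurd (Finset.mem_range.mpr (Nat.succ_pos _)) h
      rw [hCH, map_zero] at htr
      have hn0 : (n : K) ≠ 0 := Nat.cast_ne_zero.mpr hpos.ne'
      have hc0 : f.charpoly.coeff 0 = 0 := by
        rcases mul_eq_zero.mp htr.symm with h | h
        · exact h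
        · exact absurd h hn0
      have hdet : LinearMap.det f = 0 := by
        rw [LinearMap.det_eq_sign_charpoly_coeff, hc0, mul_zero]
      have hker : ⊥ < LinearMap.ker f := LinearMap.bot_lt_ker_of_det_eq_zero hdet
      have hkerpos : 0 < finrank K (LinearMap.ker f) := by
        rw [Module.finrank_pos_iff_exists_ne_zero]
        obtain ⟨x, hx, hx'⟩ := Submodule.exists_mem_ne_zero_of_ne_bot hker.ne'
        exact ⟨⟨x, hx⟩, fun h => hx' (congrArg Subtype.val h)⟩
      have hrn := LinearMap.finrank_range_add_finrank_ker f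
      have hlt : finrank K (LinearMap.range f) < n := by omega
      -- restriction to the range
      let U := LinearMap.range f
      let f' : V →ₗ[K] U := f.rangeRestrict
      let ι : U →ₗ[K] V := U.subtype
      let g : U →ₗ[K] U := f' ∘ₗ ι
      have hfι : ι ∘ₗ f' = f := LinearMap.subtype_comp_codRestrict _ _ _
      have hgx : ∀ x : U, ((g x : U) : V) = f (x : V) := fun x => rfl
      have hιg' : ∀ (k : ℕ) (x : U), (((g ^ k) x : U) : V) = (f ^ k) (x : V) := by
        intro k
        induction k with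
        | zero => intro x; simp
        | succ k ihk =>
          intro x
          rw [pow_succ', Module.End.mul_apply, hgx, ihk, pow_succ', Module.End.mul_apply]
      have hιg : ∀ k : ℕ, ι ∘ₗ (g ^ k) = (f ^ k) ∘ₗ ι := by
        intro k
        ext x
        exact hιg' k x
      have hg : ∀ k, 1 ≤ k → LinearMap.trace K U (g ^ k) = 0 := by
        intro k hk
        obtain ⟨k, rfl⟩ : ∃ j, k = j + 1 := ⟨k - 1, by omega⟩
        have h1 : g ^ (k + 1) = ((g ^ k) ∘ₗ f') ∘ₗ ι := by
          rw [pow_succ, Module.End.mul_eq_comp, LinearMap.comp_assoc]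
        rw [h1, LinearMap.trace_comp_comm', ← LinearMap.comp_assoc, hιg, LinearMap.comp_assoc,
          hfι, ← Module.End.mul_eq_comp, ← pow_succ]
        exact hf (k + 1) (Nat.succ_pos _)
      obtain ⟨m, hm⟩ := ih _ hlt U rfl g hg
      refine ⟨m + 1, ?_⟩
      ext x
      rw [pow_succ, Module.End.mul_apply]
      have h2 : f x = ((f' x : U) : V) := rfl
      rw [h2, ← hιg', hm]
      simp

/-- Over a field of characteristic zero, an endomorphism of a finite dimensional vector space
all of whose positive powers have trace zero is nilpotent. -/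
theorem isNilpotent_of_trace_pow_eq_zero {K : Type*} [Field K] [CharZero K]
    {V : Type*} [AddCommGroup V] [Module K V] [FiniteDimensional K V] (f : V →ₗ[K] V)
    (hf : ∀ k, 1 ≤ k → LinearMap.trace K V (f ^ k) = 0) : IsNilpotent f :=
  isNilpotent_of_trace_pow_eq_zero_aux K _ V rfl f hf

/-- Matrix version of `isNilpotent_of_trace_pow_eq_zero`. -/
theorem matrix_isNilpotent_of_trace_pow_eq_zero {K : Type*} [Field K] [CharZero K]
    {n : Type*} [Fintype n] [DecidableEq n] (A : Matrix n n K)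
    (hA : ∀ k, 1 ≤ k → (A ^ k).trace = 0) : IsNilpotent A := by
  have h := isNilpotent_of_trace_pow_eq_zero (Matrix.toLin' A) (fun k hk => by
    rw [← Matrix.toLin'_pow, LinearMap.trace_eq_matrix_trace K (Pi.basisFun K n),
      LinearMap.toMatrix_eq_toMatrix', LinearMap.toMatrix'_toLin']
    exact hA k hk)
  obtain ⟨m, hm⟩ := h
  refine ⟨m, ?_⟩
  rw [← Matrix.toLin'_pow] at hm
  exact Matrix.toLin'.injective (by rw [hm, map_zero])

end Fermat.Agent.S18.H274

end
-- ===== PACK-END S18/H274/Newton.lean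

-- ===== PACK-BEGIN S18/H274/Dedekind.lean
section


/-!
# S18 / b2 (helper274) — a Bezout-type splitting in Dedekind domains

Mathlib-only.  For `p q : C` in a Dedekind domain with `q ≠ 0` (think of the fraction `u = p/q`),
the fractional ideal `C + C u` is invertible; unwinding `1 ∈ (C + C u) (C + C u)⁻¹` gives
elements `β₀ β₀' z z₁ : C` with

  `β₀ + z = 1`,  `z * q = β₀' * p`  (`z = β₀' u`),  `z₁ * q = β₀ * p`  (`z₁ = β₀ u`).

This is the only place where the TAME discriminant bound uses that `C` is integrally closed.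
-/

namespace Fermat.Agent.S18.H274

open scoped nonZeroDivisors

theorem exists_split_of_isDedekindDomain {C : Type*} [CommRing C] [IsDedekindDomain C]
    (p q : C) (hq : q ≠ 0) :
    ∃ β₀ β₀' z z₁ : C, β₀ + z = 1 ∧ z * q = β₀' * p ∧ z₁ * q = β₀ * p := by
  classical
  let K := FractionRing C
  have hinj : Function.Injective (algebraMap C K) := IsFractionRing.injective C K
  have hqK : algebraMap C K q ≠ 0 := fun h => hq (hinj (by rw [h, map_zero]))
  let u : K := algebraMap C K p / algebraMap C K q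
  let 𝔟 : FractionalIdeal C⁰ K := 1 + FractionalIdeal.spanSingleton C⁰ u
  have h1𝔟 : (1 : K) ∈ 𝔟 := by
    rw [FractionalIdeal.mem_add]
    exact ⟨1, FractionalIdeal.one_mem_one _, 0, Submodule.zero_mem _, add_zero 1⟩
  have hu𝔟 : u ∈ 𝔟 := by
    rw [FractionalIdeal.mem_add]
    exact ⟨0, Submodule.zero_mem _, u, FractionalIdeal.mem_spanSingleton_self _ u, zero_add u⟩
  have h𝔟 : 𝔟 ≠ 0 := by
    intro h
    rw [h] at h1𝔟
    exact one_ne_zero ((FractionalIdeal.mem_zero_iff _).mp h1𝔟)
  have hinv : 𝔟 * 𝔟⁻¹ = 1 := mul_inv_cancel₀ h𝔟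
  have h1 : (1 : K) ∈ 𝔟 * 𝔟⁻¹ := by
    rw [hinv]
    exact FractionalIdeal.one_mem_one _
  have hsplit : 𝔟 * 𝔟⁻¹ = 𝔟⁻¹ + FractionalIdeal.spanSingleton C⁰ u * 𝔟⁻¹ := by
    simp only [𝔟, add_mul, one_mul]
  rw [hsplit, FractionalIdeal.mem_add] at h1
  obtain ⟨p₁, hp₁, q₁, hq₁, hsum⟩ := h1
  rw [FractionalIdeal.mem_singleton_mul] at hq₁
  obtain ⟨β', hβ', rfl⟩ := hq₁
  rw [FractionalIdeal.mem_inv_iff h𝔟] at hp₁ hβ'
  obtain ⟨β₀, hβ₀⟩ := (FractionalIdeal.mem_one_iff _).mp (hp₁ 1 h1𝔟)
  obtain ⟨z₁, hz₁⟩ := (FractionalIdeal.mem_one_iff _).mp (hp₁ u hu𝔟)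
  obtain ⟨β₀', hβ₀'⟩ := (FractionalIdeal.mem_one_iff _).mp (hβ' 1 h1𝔟)
  obtain ⟨z, hz⟩ := (FractionalIdeal.mem_one_iff _).mp (hβ' u hu𝔟)
  rw [mul_one] at hβ₀ hβ₀'
  refine ⟨β₀, β₀', z, z₁, ?_, ?_, ?_⟩
  · apply hinj
    rw [map_add, map_one, hβ₀, hz, ← hsum, mul_comm]
  · apply hinj
    rw [map_mul, map_mul, hz, hβ₀']
    simp only [u]
    rw [mul_assoc, div_mul_cancel₀ _ hqK]
  · apply hinj
    rw [map_mul, map_mul, hz₁, hβ₀]
    simp only [u]
    rw [mul_assoc, div_mul_cancel₀ _ hqK]

end Fermat.Agent.S18.H274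

end
-- ===== PACK-END S18/H274/Dedekind.lean

-- ===== PACK-BEGIN S18/B12/H84/IntClosed.lean
section


/-!
# S18 / b2.5 / A8 (helper84): normality from the discriminant bounds

`intClosedOfDiscr_of_sfLattice : SFLatticeHyp → (IntClosedOfDiscrStatement, unfolded)`,
Mathlib-only; `SFLatticeHyp` is a verbatim copy of `SFLatticeStatement` of `origin/helper33`
`Fermat/Agent/S18/B12/Spec.lean`.  The `Spec`-typed wrapper
`SFLatticeStatement → IntClosedOfDiscrStatement` is `Fermat/Agent/S18/B12/H84/Stmt.lean`.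

`Λ` a PID, `C` a domain, free of rank `n` over `Λ` with `disc ≠ 0`, such that at every prime `t`
of `Λ` the reduced fibre `(C/tC)_red` is spanned by `s` elements and `t ^ (n - s + 1) ∤ disc`.
Then `C` is integrally closed.

Proof: for `f ∈ Frac C` integral over `C`, the ring `C[f]` is a free `Λ`-module of rank `n`
containing `C`; Theorem L (`SFLatticeStatement`) gives for every prime `t` a denominator
`g ∉ (t)` with `g f ∈ C`; the ideal of denominators of `f` contains a nonzero element and lies in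
no maximal ideal of the PID `Λ`, so it is the unit ideal.
-/

set_option autoImplicit false

namespace Fermat.Agent.S18.B12.H84

universe u v

/-- In a PID, an ideal containing a nonzero element and, for every prime `t`, an element not
divisible by `t`, is the unit ideal. -/
theorem ideal_eq_top_of_forall_prime {Λ : Type u} [CommRing Λ] [IsDomain Λ]
    [IsPrincipalIdealRing Λ] (I : Ideal Λ) (h0 : ∃ d ∈ I, d ≠ 0)
    (h : ∀ t : Λ, Prime t → ∃ g ∈ I, ¬ t ∣ g) : I = ⊤ := by
  by_contra hI
  obtain ⟨𝔭, h𝔭, hle⟩ := Ideal.exists_le_maximal I hI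
  have hgen : Ideal.span {Submodule.IsPrincipal.generator 𝔭} = 𝔭 :=
    Ideal.span_singleton_generator 𝔭
  set t := Submodule.IsPrincipal.generator 𝔭 with ht_def
  by_cases ht : t = 0
  · obtain ⟨d, hd, hd0⟩ := h0
    have h1 : d ∈ 𝔭 := hle hd
    rw [← hgen, ht, Ideal.mem_span_singleton, zero_dvd_iff] at h1
    exact hd0 h1
  · have hp : Prime t := by
      rw [← Ideal.span_singleton_prime ht, hgen]
      exact h𝔭.isPrime
    obtain ⟨g, hg, hgt⟩ := h t hp
    have h1 : g ∈ 𝔭 := hle hg
    rw [← hgen, Ideal.mem_span_singleton] at h1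
    exact hgt h1

/-- Every element of the fraction field of a domain `C` algebraic over `Λ` has a nonzero
denominator in `Λ`. -/
theorem exists_smul_mem_range {Λ : Type u} [CommRing Λ] [IsDomain Λ] {C : Type v} [CommRing C]
    [IsDomain C] [Algebra Λ C] [Algebra.IsAlgebraic Λ C] (x : FractionRing C) :
    ∃ d : Λ, d ≠ 0 ∧ ∃ c : C, d • x = algebraMap C (FractionRing C) c := by
  obtain ⟨a, b, hb, rfl⟩ := IsFractionRing.div_surjective C x
  have hb0 : b ≠ 0 := nonZeroDivisors.ne_zero hb
  obtain ⟨r, hr, c, hc⟩ := (Algebra.IsAlgebraic.isAlgebraic (R := Λ) b).exists_nonzero_dvd hb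
  refine ⟨r, hr, c * a, ?_⟩
  have hbK : algebraMap C (FractionRing C) b ≠ 0 := by
    intro h
    exact hb0 ((IsFractionRing.injective C (FractionRing C)) (h.trans (map_zero _).symm))
  rw [Algebra.smul_def, IsScalarTower.algebraMap_apply Λ C (FractionRing C), hc, map_mul, map_mul]
  field_simp

/-- Verbatim copy of `B12.SFLatticeStatement` (Theorem L, two-lattice form). -/
def SFLatticeHyp : Prop :=
  ∀ (Λ : Type u) [CommRing Λ] [IsDomain Λ] [IsPrincipalIdealRing Λ] (t : Λ) (_ : Prime t)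
    (L : Type v) [CommRing L] [Algebra Λ L] (C Ct : Subalgebra Λ L) (_ : C ≤ Ct)
    (n : ℕ) (b : Module.Basis (Fin n) Λ C) (_ : Module.Basis (Fin n) Λ Ct)
    (s : ℕ) (y : Fin s → C)
    (_ : ∀ x : C, ∃ a : Fin s → Λ,
        x - ∑ i, a i • y i ∈ (Ideal.span {algebraMap Λ C t}).radical),
    Algebra.discr Λ b ≠ 0 → ¬ t ^ (n - s + 1) ∣ Algebra.discr Λ b →
    ∀ x ∈ Ct, ∃ g : Λ, ¬ t ∣ g ∧ g • x ∈ C

/-- **A8** from Theorem L: `SFLatticeStatement → IntClosedOfDiscrStatement` (unfolded). -/
theorem intClosedOfDiscr_of_sfLattice (hSF : SFLatticeHyp.{u, v})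
    (Λ : Type u) [CommRing Λ] [IsDomain Λ] [IsPrincipalIdealRing Λ]
    (C : Type v) [CommRing C] [IsDomain C] [Algebra Λ C] (n : ℕ) (b : Module.Basis (Fin n) Λ C)
    (hdisc : Algebra.discr Λ b ≠ 0)
    (hbound : ∀ t : Λ, Prime t → ∃ (s : ℕ) (y : Fin s → C),
      (∀ c : C, ∃ a : Fin s → Λ,
        c - ∑ i, a i • y i ∈ (Ideal.span {algebraMap Λ C t}).radical) ∧
      ¬ t ^ (n - s + 1) ∣ Algebra.discr Λ b) :
    IsIntegrallyClosed C := by
  classical
  have : Module.Free Λ C := Module.Free.of_basis b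
  have : Module.Finite Λ C := Module.Finite.of_basis b
  have hinj : Function.Injective (algebraMap Λ C) := FaithfulSMul.algebraMap_injective Λ C
  have : Algebra.IsIntegral Λ C := Algebra.IsIntegral.of_finite Λ C
  have : Algebra.IsAlgebraic Λ C := Algebra.IsIntegral.isAlgebraic
  have hinjK : Function.Injective (algebraMap Λ (FractionRing C)) := by
    rw [IsScalarTower.algebraMap_eq Λ C (FractionRing C)]
    exact (IsFractionRing.injective C (FractionRing C)).comp hinj
  have htfK : Module.IsTorsionFree Λ (FractionRing C) := by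
    refine Module.IsTorsionFree.of_smul_eq_zero fun r m hrm => ?_
    rw [Algebra.smul_def, mul_eq_zero] at hrm
    rcases hrm with h | h
    · exact Or.inl (hinjK (h.trans (map_zero _).symm))
    · exact Or.inr h
  refine (isIntegrallyClosed_iff (FractionRing C)).mpr fun {f} hf => ?_
  have hfΛ : IsIntegral Λ f := isIntegral_trans f hf
  -- the two lattices
  let φ : C →ₐ[Λ] FractionRing C := IsScalarTower.toAlgHom Λ C (FractionRing C)
  have hφ : Function.Injective φ := IsFractionRing.injective C (FractionRing C)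
  let e : C ≃ₐ[Λ] φ.range := AlgEquiv.ofInjective φ hφ
  have hle : φ.range ≤ φ.range ⊔ Algebra.adjoin Λ {f} := le_sup_left
  have hfCt : f ∈ φ.range ⊔ Algebra.adjoin Λ {f} :=
    (le_sup_right : Algebra.adjoin Λ {f} ≤ φ.range ⊔ Algebra.adjoin Λ {f})
      (Algebra.self_mem_adjoin_singleton Λ f)
  have : Module.Finite Λ φ.range := Module.Finite.equiv e.toLinearEquiv
  have : Module.Finite Λ (Algebra.adjoin Λ {f}) :=
    Module.Finite.iff_fg.mpr hfΛ.fg_adjoin_singleton
  have hfinCt : Module.Finite Λ ↥(φ.range ⊔ Algebra.adjoin Λ {f}) := Subalgebra.finite_sup _ _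
  have : Module.IsTorsionFree Λ ↥(φ.range ⊔ Algebra.adjoin Λ {f}) :=
    Function.Injective.moduleIsTorsionFree
      (fun z : ↥(φ.range ⊔ Algebra.adjoin Λ {f}) => (z : FractionRing C))
      Subtype.val_injective (fun _ _ => rfl)
  have : Module.Free Λ ↥(φ.range ⊔ Algebra.adjoin Λ {f}) :=
    Module.free_of_finite_type_torsion_free'
  have hrank0 : Module.finrank Λ φ.range = n := by
    rw [← e.toLinearEquiv.finrank_eq, Module.finrank_eq_card_basis b, Fintype.card_fin]
  -- a common denominator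
  have hd : ∃ d : Λ, d ≠ 0 ∧ ∀ x ∈ φ.range ⊔ Algebra.adjoin Λ {f}, d • x ∈ φ.range := by
    have hfg : (Subalgebra.toSubmodule (φ.range ⊔ Algebra.adjoin Λ {f})).FG :=
      Module.Finite.iff_fg.mp hfinCt
    obtain ⟨S, hS⟩ := hfg
    choose dx hdx0 cx hcx using fun x : FractionRing C => exists_smul_mem_range (Λ := Λ) x
    refine ⟨∏ x ∈ S, dx x, Finset.prod_ne_zero_iff.mpr fun x _ => hdx0 x, fun x hx => ?_⟩
    have hx' : x ∈ Submodule.span Λ (S : Set (FractionRing C)) := by
      rw [hS]; exact hx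
    refine Submodule.span_induction (p := fun z _ => (∏ x ∈ S, dx x) • z ∈ φ.range)
      ?_ ?_ ?_ ?_ hx'
    · intro z hz
      have hzS : z ∈ S := hz
      rw [← Finset.mul_prod_erase S dx hzS, mul_comm, mul_smul, hcx z]
      have hmem : algebraMap C (FractionRing C) (cx z) ∈ φ.range := ⟨cx z, rfl⟩
      exact Subalgebra.smul_mem _ hmem _
    · rw [smul_zero]; exact Subalgebra.zero_mem _
    · intro y z _ _ hy hz
      rw [smul_add]; exact Subalgebra.add_mem _ hy hz
    · intro a y _ hy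
      rw [smul_comm]; exact Subalgebra.smul_mem _ hy _
  obtain ⟨d, hd0, hd⟩ := hd
  have hrank : Module.finrank Λ ↥(φ.range ⊔ Algebra.adjoin Λ {f}) = n := by
    apply le_antisymm
    · rw [← hrank0]
      let μ : ↥(φ.range ⊔ Algebra.adjoin Λ {f}) →ₗ[Λ] φ.range :=
        { toFun := fun z => ⟨d • (z : FractionRing C), hd z z.2⟩
          map_add' := fun y z => Subtype.ext (smul_add d (y : FractionRing C) z)
          map_smul' := fun a z => Subtype.ext (smul_comm d a (z : FractionRing C)) }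
      have hμ : Function.Injective μ := by
        intro y z hyz
        have h1 : d • (y : FractionRing C) = d • (z : FractionRing C) :=
          congrArg Subtype.val hyz
        exact Subtype.ext (smul_right_injective (FractionRing C) hd0 h1)
      exact LinearMap.finrank_le_finrank_of_injective hμ
    · rw [← hrank0]
      exact LinearMap.finrank_le_finrank_of_injective
        (f := (Subalgebra.inclusion hle).toLinearMap) (Subalgebra.inclusion_injective hle)
  let bt : Module.Basis (Fin n) Λ ↥(φ.range ⊔ Algebra.adjoin Λ {f}) :=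
    Module.finBasisOfFinrankEq Λ _ hrank
  let b₀ : Module.Basis (Fin n) Λ φ.range := b.map e.toLinearEquiv
  have hdisc₀ : Algebra.discr Λ b₀ = Algebra.discr Λ b := by
    rw [Algebra.discr_eq_discr_of_algEquiv b e]
    congr 1
  -- the ideal of denominators
  let I : Ideal Λ :=
    { carrier := {g | g • f ∈ φ.range}
      add_mem' := fun {g h} hg hh => by
        change (g + h) • f ∈ φ.range
        rw [add_smul]; exact Subalgebra.add_mem _ hg hh
      zero_mem' := by
        change (0 : Λ) • f ∈ φ.range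
        rw [zero_smul]; exact Subalgebra.zero_mem _
      smul_mem' := fun a g hg => by
        change (a • g) • f ∈ φ.range
        rw [smul_assoc]; exact Subalgebra.smul_mem _ hg _ }
  have hI : I = ⊤ := by
    refine ideal_eq_top_of_forall_prime I ⟨d, hd f hfCt, hd0⟩ fun t ht => ?_
    obtain ⟨s, y, hy, hnd⟩ := hbound t ht
    have hy₀ : ∀ x : φ.range, ∃ a : Fin s → Λ,
        x - ∑ i, a i • e (y i) ∈ (Ideal.span {algebraMap Λ φ.range t}).radical := by
      intro x
      obtain ⟨a, ha⟩ := hy (e.symm x)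
      refine ⟨a, ?_⟩
      obtain ⟨k, hk⟩ := ha
      obtain ⟨z, hz⟩ := Ideal.mem_span_singleton'.mp hk
      refine ⟨k, Ideal.mem_span_singleton'.mpr ⟨e z, ?_⟩⟩
      have h1 := congrArg e hz
      rw [map_mul, map_pow, map_sub, map_sum, AlgEquiv.apply_symm_apply, AlgEquiv.commutes] at h1
      rw [h1]
      congr 2
      exact Finset.sum_congr rfl fun i _ => map_smul e (a i) (y i)
    obtain ⟨g, hgt, hg⟩ := hSF Λ t ht (FractionRing C) φ.range (φ.range ⊔ Algebra.adjoin Λ {f})
      hle n b₀ bt s (fun i => e (y i)) hy₀ (hdisc₀ ▸ hdisc) (hdisc₀ ▸ hnd) f hfCt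
    exact ⟨g, hg, hgt⟩
  have h1 : (1 : Λ) ∈ I := by rw [hI]; exact Submodule.mem_top
  have h2 : (1 : Λ) • f ∈ φ.range := h1
  rw [one_smul] at h2
  obtain ⟨c, hc⟩ := h2
  exact ⟨c, hc⟩

end Fermat.Agent.S18.B12.H84

end
-- ===== PACK-END S18/B12/H84/IntClosed.lean

-- ===== PACK-BEGIN S37/H278/Lattice.lean
section


/-!
# S37 / S18, piece b2-core (helper278): lattices in a finite algebra and their traces

`o` a PID with fraction field `K`, `L` a commutative `K`-algebra.  A subalgebra `R ⊆ L` which is a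
finitely generated `o`-module spanning `L` is finite free over `o`, `L` is its localization, and the
trace of `L / K` restricted to `R` is the trace of `R / o`.
-/

set_option autoImplicit false

namespace Fermat.Agent.S37.H278

open Module

section Lattice

variable {o K L : Type*} [CommRing o] [IsDomain o]
  [Field K] [Algebra o K] [IsFractionRing o K]
  [CommRing L] [Algebra K L] [Algebra o L] [IsScalarTower o K L]

omit [IsDomain o] in
theorem smul_eq_zero_of_fractionRing (K : Type*) [Field K] [Algebra o K] [IsFractionRing o K]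
    [Algebra K L] [IsScalarTower o K L] {r : o} (hr : r ≠ 0) {x : L}
    (h : r • x = 0) : x = 0 := by
  have h' : (algebraMap o K r) • x = 0 := by rwa [algebraMap_smul]
  have hne : algebraMap o K r ≠ 0 := by
    intro h0
    exact hr ((IsFractionRing.injective o K) (by rw [h0, map_zero]))
  rcases smul_eq_zero.mp h' with h1 | h1
  · exact absurd h1 hne
  · exact h1

/-- A lattice: a subalgebra of `L`, finitely generated as `o`-module, spanning `L`. -/
structure IsLattice (R : Subalgebra o L) : Prop where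
  fg : (Subalgebra.toSubmodule R).FG
  span : ∀ l : L, ∃ σ : o, σ ≠ 0 ∧ σ • l ∈ R

variable {R : Subalgebra o L}

theorem IsLattice.finite (h : IsLattice R) : Module.Finite o R :=
  Module.Finite.iff_fg.mpr h.fg

include K in
theorem isTorsionFree_subalgebra (R : Subalgebra o L) : Module.IsTorsionFree o R := by
  refine ⟨fun r hr x y hxy => ?_⟩
  have hr0 : r ≠ 0 := by
    rintro rfl
    have := hr.left
    exact one_ne_zero (this (by simp : (0 : o) * 1 = 0 * 0))
  have hxy' : r • ((x : L) - (y : L)) = 0 := by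
    have := congrArg (Subtype.val) hxy
    simp only [Subalgebra.coe_smul] at this
    rw [smul_sub, this, sub_self]
  have := smul_eq_zero_of_fractionRing K hr0 hxy'
  exact Subtype.ext (sub_eq_zero.mp this)

include K in
theorem IsLattice.free [IsPrincipalIdealRing o] (h : IsLattice R) : Module.Free o R := by
  haveI := h.finite
  haveI := isTorsionFree_subalgebra (K := K) R
  exact Module.free_of_finite_type_torsion_free'

include K in
theorem IsLattice.isLocalization (h : IsLattice R) :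
    IsLocalization (Algebra.algebraMapSubmonoid R (nonZeroDivisors o)) L where
  map_units := by
    rintro ⟨y, σ, hσ, rfl⟩
    have hσ0 : σ ≠ 0 := nonZeroDivisors.ne_zero hσ
    have hne : algebraMap o K σ ≠ 0 := by
      intro h0
      exact hσ0 ((IsFractionRing.injective o K) (by rw [h0, map_zero]))
    have : algebraMap R L (algebraMap o R σ) = algebraMap K L (algebraMap o K σ) := by
      rw [← IsScalarTower.algebraMap_apply, ← IsScalarTower.algebraMap_apply]
    rw [this]
    exact (IsUnit.mk0 _ hne).map (algebraMap K L)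
  surj := by
    intro l
    obtain ⟨σ, hσ, hl⟩ := h.span l
    refine ⟨(⟨σ • l, hl⟩, ⟨algebraMap o R σ, σ, mem_nonZeroDivisors_of_ne_zero hσ, rfl⟩), ?_⟩
    show l * algebraMap R L (algebraMap o R σ) = σ • l
    rw [← IsScalarTower.algebraMap_apply, Algebra.smul_def, mul_comm]
  exists_of_eq := by
    intro x y hxy
    refine ⟨1, ?_⟩
    have : x = y := Subtype.ext hxy
    rw [this]

include K in
theorem IsLattice.trace_eq [IsPrincipalIdealRing o] (h : IsLattice R) (a : R) :
    Algebra.trace K L (a : L) = algebraMap o K (Algebra.trace o R a) := by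
  haveI := h.finite
  haveI := h.free (K := K)
  haveI := h.isLocalization (K := K)
  exact Algebra.trace_localization o (nonZeroDivisors o) (Rₘ := K) (Sₘ := L) a

theorem isLattice_adjoin {G : Set L} (hG : G.Finite) (hint : ∀ g ∈ G, IsIntegral o g)
    (hspan : ∀ l : L, ∃ σ : o, σ ≠ 0 ∧ σ • l ∈ Algebra.adjoin o G) :
    IsLattice (Algebra.adjoin o G) :=
  ⟨fg_adjoin_of_finite hG hint, hspan⟩

end Lattice

section DVR

variable {o K L : Type*} [CommRing o] [IsDomain o] [IsDiscreteValuationRing o]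
  [Field K] [Algebra o K] [IsFractionRing o K]
  [CommRing L] [Algebra K L] [Algebra o L] [IsScalarTower o K L]

/-- In a finite free algebra over a local ring, the trace of an element which is nilpotent
modulo the maximal ideal lies in the maximal ideal. -/
theorem trace_mem_maximalIdeal_of_pow_mem {o S : Type*} [CommRing o] [IsLocalRing o]
    [CommRing S] [Algebra o S] [Module.Free o S] [Module.Finite o S] (a : S) (k : ℕ)
    (hk : a ^ k ∈ Ideal.map (algebraMap o S) (IsLocalRing.maximalIdeal o)) :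
    Algebra.trace o S a ∈ IsLocalRing.maximalIdeal o := by
  have h1 := Algebra.trace_quotient_mk (R := o) (S := S) a
  have hnil : IsNilpotent
      (Ideal.Quotient.mk (Ideal.map (algebraMap o S) (IsLocalRing.maximalIdeal o)) a) := by
    refine ⟨k, ?_⟩
    rw [← map_pow]
    exact Ideal.Quotient.eq_zero_iff_mem.mpr hk
  have h2 := Algebra.isNilpotent_trace_of_isNilpotent
    (R := o ⧸ IsLocalRing.maximalIdeal o) hnil
  rw [h1] at h2
  have h3 : (Ideal.Quotient.mk (IsLocalRing.maximalIdeal o)) (Algebra.trace o S a) = 0 := by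
    haveI : IsReduced (o ⧸ IsLocalRing.maximalIdeal o) := by
      haveI : (IsLocalRing.maximalIdeal o).IsPrime := inferInstance
      infer_instance
    exact h2.eq_zero
  exact Ideal.Quotient.eq_zero_iff_mem.mp h3

theorem dvd_trace_of_pow_mem {S : Type*} [CommRing S] [Algebra o S] [Module.Free o S]
    [Module.Finite o S] {t : o} (ht : Irreducible t) (a : S) (k : ℕ)
    (hk : ∃ a' : S, a ^ k = t • a') : t ∣ Algebra.trace o S a := by
  have hmax : IsLocalRing.maximalIdeal o = Ideal.span {t} := ht.maximalIdeal_eq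
  obtain ⟨a', ha'⟩ := hk
  have hmem : a ^ k ∈ Ideal.map (algebraMap o S) (IsLocalRing.maximalIdeal o) := by
    rw [ha', Algebra.smul_def]
    apply Ideal.mul_mem_right
    apply Ideal.mem_map_of_mem
    rw [hmax]
    exact Ideal.mem_span_singleton_self t
  have := trace_mem_maximalIdeal_of_pow_mem a k hmem
  rw [hmax] at this
  exact Ideal.mem_span_singleton.mp this

include K in
/-- trace of an element of a lattice, nilpotent modulo `t`, is divisible by `t` -/
theorem IsLattice.dvd_trace {R : Subalgebra o L} (h : IsLattice R) {t : o} (ht : Irreducible t)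
    (a : R) (k : ℕ) (hk : ∃ a' : R, a ^ k = t • a') : t ∣ Algebra.trace o R a := by
  haveI := h.finite
  haveI := h.free (K := K)
  exact dvd_trace_of_pow_mem ht a k hk

end DVR

end Fermat.Agent.S37.H278

end
-- ===== PACK-END S37/H278/Lattice.lean

-- ===== PACK-BEGIN S18/H498/Connected.lean
section


/-!
# S18, piece b5 (abstract connectedness / "formal functions by hand")

Pure commutative algebra, Mathlib only.

Setting: `R` a local ring, `ϖ : R`, `C` a commutative `R`-algebra on which `ϖ` is a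
non-zero-divisor, `B₁ B₂ : Subalgebra R C` (the two chart algebras inside the overlap
algebra `C`), `B₁ ⊓ B₂ = R`, and the `ϖ`-power torsion of `C / (B₁ + B₂)` is killed by `ϖ ^ c`.
Then every idempotent of `B₁ / ϖ` which agrees in `C / ϖ` with an idempotent of `B₂ / ϖ`
is trivial (`0` or `1`).
-/

set_option autoImplicit false

namespace Fermat.Agent.S18.H498

section Idem

variable {S : Type*} [CommRing S]

/-- Newton step for idempotents: `b ↦ 3 b² - 2 b³`. -/
theorem newton_idem_sub (b : S) : (3 * b ^ 2 - 2 * b ^ 3) - b = (b ^ 2 - b) * (1 - 2 * b) := by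
  ring

theorem newton_idem_sq (b : S) :
    (3 * b ^ 2 - 2 * b ^ 3) ^ 2 - (3 * b ^ 2 - 2 * b ^ 3) =
      (b ^ 2 - b) ^ 2 * (4 * b ^ 2 - 4 * b - 3) := by
  ring

/-- Lifting of idempotents modulo `p` to idempotents modulo `p ^ (n + 1)`. -/
theorem exists_idem_lift (p e : S) (h : p ∣ e ^ 2 - e) (n : ℕ) :
    ∃ b : S, p ∣ b - e ∧ p ^ (n + 1) ∣ b ^ 2 - b := by
  induction n with
  | zero => exact ⟨e, by simp, by simpa using h⟩
  | succ n ih =>
    obtain ⟨b, hb1, hb2⟩ := ih
    refine ⟨3 * b ^ 2 - 2 * b ^ 3, ?_, ?_⟩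
    · have h1 : p ∣ (3 * b ^ 2 - 2 * b ^ 3) - b := by
        rw [newton_idem_sub]
        exact Dvd.dvd.mul_right ((dvd_pow_self p (Nat.succ_ne_zero n)).trans hb2) _
      have : (3 * b ^ 2 - 2 * b ^ 3) - e = ((3 * b ^ 2 - 2 * b ^ 3) - b) + (b - e) := by ring
      rw [this]
      exact dvd_add h1 hb1
    · rw [newton_idem_sq]
      refine Dvd.dvd.mul_right ?_ _
      have h2 : (p ^ (n + 1)) ^ 2 ∣ (b ^ 2 - b) ^ 2 := pow_dvd_pow_of_dvd hb2 2
      rw [← pow_mul] at h2
      exact (pow_dvd_pow p (by omega)).trans h2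

theorem idem_diff_cube (b₁ b₂ : S) :
    (b₁ - b₂) ^ 3 - (b₁ - b₂) =
      (b₁ + 1 - 3 * b₂) * (b₁ ^ 2 - b₁) - (b₂ + 1 - 3 * b₁) * (b₂ ^ 2 - b₂) := by
  ring

/-- Uniqueness of idempotent lifts: two idempotents modulo `p ^ n` which are congruent
modulo `p` are congruent modulo `p ^ n`. -/
theorem idem_lift_unique (p : S) (n : ℕ) (b₁ b₂ : S)
    (h₁ : p ^ n ∣ b₁ ^ 2 - b₁) (h₂ : p ^ n ∣ b₂ ^ 2 - b₂) (h : p ∣ b₁ - b₂) :
    p ^ n ∣ b₁ - b₂ := by
  have hcube : p ^ n ∣ (b₁ - b₂) ^ 3 - (b₁ - b₂) := by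
    rw [idem_diff_cube]
    exact dvd_sub (Dvd.dvd.mul_left h₁ _) (Dvd.dvd.mul_left h₂ _)
  have key : ∀ k : ℕ, k + 1 ≤ n → p ^ (k + 1) ∣ b₁ - b₂ := by
    intro k
    induction k with
    | zero => intro _; simpa using h
    | succ k ih =>
      intro hk
      have ih' := ih (by omega)
      have h3 : p ^ (k + 2) ∣ (b₁ - b₂) ^ 3 := by
        have h3' : (p ^ (k + 1)) ^ 3 ∣ (b₁ - b₂) ^ 3 := pow_dvd_pow_of_dvd ih' 3
        rw [← pow_mul] at h3'
        exact (pow_dvd_pow p (by omega)).trans h3'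
      have hc : p ^ (k + 2) ∣ (b₁ - b₂) ^ 3 - (b₁ - b₂) := (pow_dvd_pow p hk).trans hcube
      have : b₁ - b₂ = (b₁ - b₂) ^ 3 - ((b₁ - b₂) ^ 3 - (b₁ - b₂)) := by ring
      rw [this]
      exact dvd_sub h3 hc
  rcases Nat.eq_zero_or_pos n with hn | hn
  · subst hn; simp
  · have := key (n - 1) (by omega)
    rwa [Nat.sub_add_cancel hn] at this

end Idem

section Cech

variable {R C : Type*} [CommRing R] [IsLocalRing R] [CommRing C] [Algebra R C]

/-- **Abstract connectedness (b5).**  `B₁ ∩ B₂ = R`, `ϖ`-power torsion of `C / (B₁ + B₂)` killed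
by `ϖ ^ c`: an idempotent `e₁` of `B₁ / ϖ` agreeing in `C / ϖ` with an idempotent `e₂` of
`B₂ / ϖ` is `0` or `1` in `B₁ / ϖ`. -/
theorem idem_trivial_of_cech (ϖ : R) (B₁ B₂ : Subalgebra R C)
    (hint : ∀ y : C, y ∈ B₁ → y ∈ B₂ → ∃ r : R, algebraMap R C r = y)
    (c : ℕ)
    (hH1 : ∀ (n : ℕ) (y : C),
      (∃ b₁ ∈ B₁, ∃ b₂ ∈ B₂, algebraMap R C ϖ ^ n * y = b₁ + b₂) →
        ∃ b₁ ∈ B₁, ∃ b₂ ∈ B₂, algebraMap R C ϖ ^ c * y = b₁ + b₂)
    (e₁ e₂ : C) (he₁ : e₁ ∈ B₁) (he₂ : e₂ ∈ B₂)
    (h₁ : ∃ a ∈ B₁, e₁ ^ 2 - e₁ = algebraMap R C ϖ * a)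
    (h₂ : ∃ a ∈ B₂, e₂ ^ 2 - e₂ = algebraMap R C ϖ * a)
    (h₁₂ : ∃ y : C, e₁ - e₂ = algebraMap R C ϖ * y) :
    (∃ a ∈ B₁, e₁ = algebraMap R C ϖ * a) ∨ (∃ a ∈ B₁, 1 - e₁ = algebraMap R C ϖ * a) := by
  set p : C := algebraMap R C ϖ with hp
  -- lift inside `B₁`
  obtain ⟨a₁, ha₁, hea₁⟩ := h₁
  obtain ⟨a₂, ha₂, hea₂⟩ := h₂
  have hd₁ : (algebraMap R B₁ ϖ) ∣ (⟨e₁, he₁⟩ : B₁) ^ 2 - ⟨e₁, he₁⟩ :=
    ⟨⟨a₁, ha₁⟩, Subtype.ext (by simpa using hea₁)⟩
  have hd₂ : (algebraMap R B₂ ϖ) ∣ (⟨e₂, he₂⟩ : B₂) ^ 2 - ⟨e₂, he₂⟩ :=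
    ⟨⟨a₂, ha₂⟩, Subtype.ext (by simpa using hea₂)⟩
  obtain ⟨b₁, ⟨u₁, hu₁⟩, ⟨v₁, hv₁⟩⟩ := exists_idem_lift _ _ hd₁ c
  obtain ⟨b₂, ⟨u₂, hu₂⟩, ⟨v₂, hv₂⟩⟩ := exists_idem_lift _ _ hd₂ c
  have hu₁' : (b₁ : C) - e₁ = p * u₁ := by
    have := congrArg (Subtype.val) hu₁
    simpa using this
  have hu₂' : (b₂ : C) - e₂ = p * u₂ := by
    have := congrArg (Subtype.val) hu₂
    simpa using this
  have hv₁' : (b₁ : C) ^ 2 - b₁ = p ^ (c + 1) * v₁ := by
    have := congrArg (Subtype.val) hv₁
    simpa using this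
  have hv₂' : (b₂ : C) ^ 2 - b₂ = p ^ (c + 1) * v₂ := by
    have := congrArg (Subtype.val) hv₂
    simpa using this
  obtain ⟨y₀, hy₀⟩ := h₁₂
  have hdiff : p ∣ (b₁ : C) - b₂ := by
    refine ⟨u₁ + y₀ - u₂, ?_⟩
    have : (b₁ : C) - b₂ = ((b₁ : C) - e₁) + (e₁ - e₂) - ((b₂ : C) - e₂) := by ring
    rw [this, hu₁', hy₀, hu₂']; ring
  obtain ⟨y, hy⟩ := idem_lift_unique p (c + 1) (b₁ : C) (b₂ : C) ⟨_, hv₁'⟩ ⟨_, hv₂'⟩ hdiff
  obtain ⟨β₁, hβ₁, β₂, hβ₂, hβ⟩ := hH1 (c + 1) y
    ⟨b₁, b₁.2, -b₂, B₂.neg_mem b₂.2, by rw [← hy]; ring⟩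
  have hpB₁ : p ∈ B₁ := B₁.algebraMap_mem ϖ
  have hpB₂ : p ∈ B₂ := B₂.algebraMap_mem ϖ
  -- the glued element
  have hz : (b₁ : C) - p * β₁ = b₂ + p * β₂ := by
    have h1 : (b₁ : C) - b₂ = p * (β₁ + β₂) := by
      rw [hy, pow_succ, ← hβ]; ring
    linear_combination h1
  have hz₁ : (b₁ : C) - p * β₁ ∈ B₁ := B₁.sub_mem b₁.2 (B₁.mul_mem hpB₁ hβ₁)
  have hz₂ : (b₁ : C) - p * β₁ ∈ B₂ := by
    rw [hz]; exact B₂.add_mem b₂.2 (B₂.mul_mem hpB₂ hβ₂)
  obtain ⟨r, hr⟩ := hint _ hz₁ hz₂
  set z : C := (b₁ : C) - p * β₁ with hzdef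
  -- `z² - z = p * w`, `w ∈ B₁`
  set w : C := p ^ c * v₁ - 2 * β₁ * b₁ + p * β₁ ^ 2 + β₁ with hw
  have hwB : w ∈ B₁ := by
    refine B₁.add_mem (B₁.add_mem (B₁.sub_mem (B₁.mul_mem (B₁.pow_mem hpB₁ c) v₁.2) ?_) ?_) hβ₁
    · exact B₁.mul_mem (B₁.mul_mem (by
        have : (2 : C) = algebraMap R C 2 := (map_ofNat (algebraMap R C) 2).symm
        rw [this]; exact B₁.algebraMap_mem 2) hβ₁) b₁.2
    · exact B₁.mul_mem hpB₁ (B₁.pow_mem hβ₁ 2)
  have hzw : z ^ 2 - z = p * w := by
    have : z ^ 2 - z = ((b₁ : C) ^ 2 - b₁) + p * (-2 * β₁ * b₁ + p * β₁ ^ 2 + β₁) := by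
      rw [hzdef]; ring
    rw [this, hv₁', hw, pow_succ]; ring
  rcases IsLocalRing.isUnit_or_isUnit_one_sub_self r with hunit | hunit
  · right
    obtain ⟨s, hs⟩ := hunit.exists_right_inv
    have hs' : z * algebraMap R C s = 1 := by
      rw [← hr, ← map_mul, hs, map_one]
    refine ⟨-(algebraMap R C s * w) - β₁ + u₁, ?_, ?_⟩
    · exact B₁.add_mem (B₁.sub_mem (B₁.neg_mem (B₁.mul_mem (B₁.algebraMap_mem s) hwB)) hβ₁) u₁.2
    · have h1 : 1 - z = p * (-(algebraMap R C s * w)) := by
        have : 1 - z = -(algebraMap R C s) * (z ^ 2 - z) + (1 - z) * (1 - z * algebraMap R C s) +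
            z * (1 - z * algebraMap R C s) * 0 := by ring
        rw [this, hs', hzw]; ring
      have : 1 - e₁ = (1 - z) - p * β₁ + ((b₁ : C) - e₁) := by rw [hzdef]; ring
      rw [this, h1, hu₁']; ring
  · left
    obtain ⟨s, hs⟩ := hunit.exists_right_inv
    have hs' : (1 - z) * algebraMap R C s = 1 := by
      rw [← hr, ← map_one (algebraMap R C), ← map_sub, ← map_mul, hs, map_one]
    refine ⟨-(algebraMap R C s * w) + β₁ - u₁, ?_, ?_⟩
    · exact B₁.sub_mem (B₁.add_mem (B₁.neg_mem (B₁.mul_mem (B₁.algebraMap_mem s) hwB)) hβ₁) u₁.2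
    · have h1 : z = p * (-(algebraMap R C s * w)) := by
        have : z = -(algebraMap R C s) * (z ^ 2 - z) + z * (1 - (1 - z) * algebraMap R C s) := by
          ring
        rw [this, hs', hzw]; ring
      have : e₁ = z + p * β₁ - ((b₁ : C) - e₁) := by rw [hzdef]; ring
      rw [this, h1, hu₁']; ring

end Cech

end Fermat.Agent.S18.H498

end
-- ===== PACK-END S18/H498/Connected.lean

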