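import Mathlib
import Fermat.Prelude.Def_AlgebraicCurve_Repartitions
import Fermat.Prelude.Def_AlgebraicCurve_CanonicalDivisor
import Fermat.Prelude.Def_ModularCurve_PeriodHomPair
import Fermat.Prelude.Thm_Subgroup_IsArithmetic_exists_nat_mem_strictPeriods_conj
import Fermat.Prelude.Def_ModularCurve_X0ModL
import Fermat.Prelude.Def_ModularForm_HeckeOperator
import Fermat.Agent.Pack.S3234.G0E0L1
import Fermat.Agent.Pack.S3234.G0E0L3
import Fermat.Agent.Pack.S3234.G0E0L0
import Fermat.Agent.Pack.S3234.G0E1L1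
import Fermat.Agent.Pack.S3234.G0E1L3
import Fermat.Agent.Pack.S3234.G0E1L0
import Fermat.Agent.Pack.S3234.G0E1L2

-- ===== PACK-BEGIN Lib/Cheb/H993/Induction.lean
section


/-!
# The subgroup induction (abstract core of piece `M`)

`v X p ≥ 0` bounded weights indexed by subgroups `X` of a finite group `G` and numbers `p`.
If for every subgroup `H` the prime sum of `∑_{X ≤ H} v X` is `|H| · log (1/(s-1)) + O(1)`, then
for every subgroup `X` the prime sum of `v X` is `ψ(X) · log (1/(s-1)) + O(1)`, where `ψ(X)` is the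
number of generators of `X`.  Hence if `X` is cyclic, `v X p > 0` for primes outside any finite set.
-/

set_option autoImplicit false

namespace Fermat.Agent.Lib.Cheb.H993

open scoped Classical

noncomputable section

variable {G : Type*} [Group G] [Finite G]

/-- Number of generators of the subgroup `X`. -/
def gens (X : Subgroup G) : ℕ := Nat.card {x : G // Subgroup.zpowers x = X}

/-- The subgroups contained in `H`, as a finset. -/
def below (H : Subgroup G) : Finset (Subgroup G) :=
  haveI : Fintype (Subgroup G) := Fintype.ofFinite _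
  Finset.univ.filter (· ≤ H)

theorem mem_below {H X : Subgroup G} : X ∈ below H ↔ X ≤ H := by
  unfold below
  simp

theorem card_eq_sum_gens (H : Subgroup G) : Nat.card H = ∑ X ∈ below H, gens X := by
  have : Fintype G := Fintype.ofFinite _
  have h1 : Nat.card H = (Finset.univ.filter (fun x : G => x ∈ H)).card := by
    rw [Nat.card_eq_fintype_card, Fintype.card_subtype]
  have h2 : ∀ X : Subgroup G, gens X
      = ((Finset.univ.filter (fun x : G => x ∈ H)).filter
          (fun x => Subgroup.zpowers x = X)).card ∨ ¬ X ≤ H := by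
    intro X
    by_cases hX : X ≤ H
    · left
      unfold gens
      rw [Nat.card_eq_fintype_card, Fintype.card_subtype]
      congr 1
      ext x
      simp only [Finset.mem_filter, Finset.mem_univ, true_and, iff_and_self]
      intro hx
      exact hX (hx ▸ Subgroup.mem_zpowers x)
    · right; exact hX
  rw [h1, Finset.card_eq_sum_card_fiberwise (f := fun x : G => Subgroup.zpowers x)
    (t := below H)]
  · refine Finset.sum_congr rfl fun X hX => ?_
    rcases h2 X with h | h
    · exact h.symm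
    · exact absurd (mem_below.mp hX) h
  · intro x hx
    simp only [Finset.coe_filter, Finset.mem_univ, true_and, Set.mem_ofPred_eq] at hx
    simp only [Finset.mem_coe]
    exact mem_below.mpr ((Subgroup.zpowers_le).mpr hx)

theorem self_mem_below (X : Subgroup G) : X ∈ below X := mem_below.mpr le_rfl

theorem card_lt_of_mem_erase {X Y : Subgroup G} (hY : Y ∈ (below X).erase X) :
    Nat.card Y < Nat.card X := by
  rw [Finset.mem_erase, mem_below] at hY
  have hlt : Y < X := lt_of_le_of_ne hY.2 hY.1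
  have hss : (Y : Set G) ⊂ (X : Set G) := by
    exact_mod_cast hlt
  have h := Set.ncard_lt_ncard hss (Set.toFinite _)
  rw [← Nat.card_coe_set_eq, ← Nat.card_coe_set_eq] at h
  exact h

/-- The induction: prime sums of `v X` are `gens X · log (1/(s-1)) + O(1)`. -/
theorem logAsymp_pSum (v : Subgroup G → ℕ → ℝ) (K : ℝ) (h0 : ∀ X p, 0 ≤ v X p)
    (hK : ∀ X p, v X p ≤ K)
    (hW : ∀ H : Subgroup G,
      LogAsymp (pSum (fun p => ∑ X ∈ below H, v X p)) (Nat.card H)) :
    ∀ X : Subgroup G, LogAsymp (pSum (v X)) (gens X) := by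
  suffices h : ∀ n : ℕ, ∀ X : Subgroup G, Nat.card X = n → LogAsymp (pSum (v X)) (gens X) from
    fun X => h _ X rfl
  intro n
  induction n using Nat.strong_induction_on with
  | _ n ih =>
    intro X hX
    have hsmall : ∀ Y ∈ (below X).erase X, LogAsymp (pSum (v Y)) (gens Y) := by
      intro Y hY
      exact ih (Nat.card Y) (hX ▸ card_lt_of_mem_erase hY) Y rfl
    have hsum := LogAsymp.sum ((below X).erase X) hsmall
    have hdiff := (hW X).sub hsum
    have hcoef : ((Nat.card X : ℕ) : ℝ) - ∑ Y ∈ (below X).erase X, ((gens Y : ℕ) : ℝ)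
        = (gens X : ℝ) := by
      have h1 := card_eq_sum_gens X
      rw [← Finset.add_sum_erase (below X) _ (self_mem_below X)] at h1
      rw [h1]
      push_cast
      ring
    rw [hcoef] at hdiff
    refine hdiff.congr fun s h1 _ => ?_
    have hsplit : pSum (fun p => ∑ Y ∈ below X, v Y p) s = ∑ Y ∈ below X, pSum (v Y) s :=
      pSum_finset_sum (below X) h0 hK h1
    rw [hsplit, ← Finset.add_sum_erase (below X) _ (self_mem_below X)]
    ring

/-- Consequence: if `X` has a generator, `v X p > 0` for some `p` outside any finite set. -/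
theorem exists_pos_of_gens_pos (v : Subgroup G → ℕ → ℝ) (K : ℝ) (h0 : ∀ X p, 0 ≤ v X p)
    (hK : ∀ X p, v X p ≤ K)
    (hW : ∀ H : Subgroup G,
      LogAsymp (pSum (fun p => ∑ X ∈ below H, v X p)) (Nat.card H))
    (X : Subgroup G) (hX : 0 < gens X) (S : Finset ℕ) :
    ∃ p : ℕ, p.Prime ∧ p ∉ S ∧ 0 < v X p := by
  by_contra hcon
  have hcon : ∀ p : ℕ, p.Prime → p ∉ S → v X p ≤ 0 := by
    intro p hp hpS
    by_contra h
    exact hcon ⟨p, hp, hpS, not_le.mp h⟩
  have hsupp : ∀ p : Nat.Primes, (p : ℕ) ∉ S → v X p = 0 := fun p hp =>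
    le_antisymm (hcon p p.2 hp) (h0 X p)
  have hasym := logAsymp_pSum v K h0 hK hW X
  have hK0 : 0 ≤ K := (h0 X 0).trans (hK X 0)
  obtain ⟨s, h1, -, hs⟩ := hasym.exists_gt (by exact_mod_cast hX) (K * S.card)
  -- but the prime sum is supported on `S`
  let w : ℕ → ℝ := fun p => if p ∈ S then v X p else 0
  have hw : pSum (v X) s = pSum w s := by
    unfold pSum
    congr 1
    funext p
    by_cases hp : (p : ℕ) ∈ S
    · simp [w, hp]
    · simp [w, hp, hsupp p hp]
  have hle : |pSum w s| ≤ K * S.card := by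
    apply abs_pSum_le_of_support S
    · intro p; by_cases hp : p ∈ S <;> simp [w, hp, h0 X p]
    · intro p; by_cases hp : p ∈ S <;> simp [w, hp, hK X p, hK0]
    · intro p hp; simp [w, hp]
    · exact h1
  rw [hw] at hs
  exact absurd (le_abs_self _ |>.trans hle) (not_le.mpr hs)

end

end Fermat.Agent.Lib.Cheb.H993

end
-- ===== PACK-END Lib/Cheb/H993/Induction.lean

-- ===== PACK-BEGIN S30/H529/TateTensor.lean
section



/-!
# S30 helper (helper529): the Tate module of `O ⊗ J`

`J` is an abelian group with an action of a group `G` and commuting endomorphisms `T i`.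
We transfer torsion statements from `J` to `O ⊗[ℤ] J` (flatness of `O` over `ℤ`) and apply
the core results of `TateCore`.
-/

set_option autoImplicit false
set_option linter.unusedSectionVars false

namespace Fermat.Agent.S30.H529

open IsLocalRing TensorProduct

noncomputable section

section Transfer

variable (O : Type*) [CommRing O] [Module.Flat ℤ O]
variable {J : Type*} [AddCommGroup J]

/-- Elements of `O ⊗ J` killed by `m` come from `O ⊗ J[m]`. -/
theorem exists_lTensor_eq_of_smul_eq_zero (m : ℤ) (x : O ⊗[ℤ] J) (hx : m • x = 0) :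
    ∃ z : O ⊗[ℤ] LinearMap.ker (m • (LinearMap.id : J →ₗ[ℤ] J)),
      (LinearMap.ker (m • (LinearMap.id : J →ₗ[ℤ] J))).subtype.lTensor O z = x := by
  have hex := LinearMap.exact_subtype_ker_map (m • (LinearMap.id : J →ₗ[ℤ] J))
  have hex2 := Module.Flat.lTensor_exact O hex
  have h1 : (m • (LinearMap.id : J →ₗ[ℤ] J)).lTensor O x = 0 := by
    rw [LinearMap.lTensor_smul, LinearMap.lTensor_id, LinearMap.smul_apply, LinearMap.id_apply,
      hx]
  obtain ⟨z, hz⟩ := (hex2 x).mp h1
  exact ⟨z, hz⟩

/-- An endomorphism of `J` killing the `m`-torsion of `J` has a base change killing the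
`m`-torsion of `O ⊗ J`. -/
theorem baseChange_eq_zero_of_torsion (m : ℤ) (A : J →ₗ[ℤ] J)
    (hA : ∀ y : J, m • y = 0 → A y = 0) (x : O ⊗[ℤ] J) (hx : m • x = 0) :
    A.baseChange O x = 0 := by
  obtain ⟨z, rfl⟩ := exists_lTensor_eq_of_smul_eq_zero O m x hx
  have h1 : A ∘ₗ (LinearMap.ker (m • (LinearMap.id : J →ₗ[ℤ] J))).subtype = 0 := by
    apply LinearMap.ext
    intro y
    have hy := y.2
    rw [LinearMap.mem_ker, LinearMap.smul_apply, LinearMap.id_apply] at hy
    simpa using hA y hy
  have h2 : A.baseChange O ((LinearMap.ker (m • (LinearMap.id : J →ₗ[ℤ] J))).subtype.lTensor O z)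
      = (A ∘ₗ (LinearMap.ker (m • (LinearMap.id : J →ₗ[ℤ] J))).subtype).lTensor O z := by
    rw [LinearMap.lTensor_comp]
    rfl
  rw [h2, h1, LinearMap.lTensor_zero, LinearMap.zero_apply]

/-- The `m`-torsion of `O ⊗ J` lies in a finitely generated submodule if `J[m]` is finite. -/
theorem exists_fg_of_finite_torsion (m : ℤ) (hfin : {y : J | m • y = 0}.Finite) :
    ∃ Y : Submodule O (O ⊗[ℤ] J), Y.FG ∧ ∀ x : O ⊗[ℤ] J, m • x = 0 → x ∈ Y := by
  set K := LinearMap.ker (m • (LinearMap.id : J →ₗ[ℤ] J)) with hK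
  have hKfin : Finite K := by
    have : (K : Set J) = {y : J | m • y = 0} := by
      ext y
      simp [hK]
    exact Set.finite_coe_iff.mpr (this ▸ hfin)
  have hmod : Module.Finite ℤ K := Module.Finite.of_finite
  refine ⟨LinearMap.range (K.subtype.baseChange O), ?_, ?_⟩
  · rw [LinearMap.range_eq_map]
    exact Submodule.FG.map _ (Module.Finite.fg_top)
  · intro x hx
    obtain ⟨z, hz⟩ := exists_lTensor_eq_of_smul_eq_zero O m x hx
    exact ⟨z, hz⟩

end Transfer

/-! ### The action on `O ⊗ J` -/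

section TensorAction

variable (O : Type*) [CommRing O]
variable {G : Type*} [Group G]
variable (J : Type*) [AddCommGroup J] [DistribMulAction G J]
variable {ι : Type*} (T : ι → J →+ J)

/-- The action of `γ` as a `ℤ`-linear map. -/
def actLin (γ : G) : J →ₗ[ℤ] J := (DistribSMul.toAddMonoidHom J γ).toIntLinearMap

@[simp] theorem actLin_apply (γ : G) (x : J) : actLin J γ x = γ • x := rfl

/-- The action of `G` on `O ⊗ J`. -/
def tensorRep : G →* Module.End O (O ⊗[ℤ] J) where
  toFun γ := (actLin J γ).baseChange O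
  map_one' := by
    have h : actLin J (1 : G) = LinearMap.id := by
      ext x
      simp
    rw [h, LinearMap.baseChange_id]
    rfl
  map_mul' γ δ := by
    have h : actLin J (γ * δ) = actLin J γ ∘ₗ actLin J δ := by
      ext x
      simp [mul_smul]
    rw [h, LinearMap.baseChange_comp]
    rfl

theorem tensorRep_apply (γ : G) (x : O ⊗[ℤ] J) :
    tensorRep O J γ x = (actLin J γ).baseChange O x := rfl

variable {J}

/-- The operators on `O ⊗ J`. -/
def tensorOp (i : ι) : O ⊗[ℤ] J →ₗ[O] O ⊗[ℤ] J := (T i).toIntLinearMap.baseChange O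

theorem tensorOp_apply (i : ι) (x : O ⊗[ℤ] J) :
    tensorOp O T i x = (T i).toIntLinearMap.baseChange O x := rfl

theorem tensorRep_tensorOp (hT : ∀ (i : ι) (γ : G) (x : J), T i (γ • x) = γ • T i x)
    (γ : G) (i : ι) (x : O ⊗[ℤ] J) :
    tensorRep O J γ (tensorOp O T i x) = tensorOp O T i (tensorRep O J γ x) := by
  have h : actLin J γ ∘ₗ (T i).toIntLinearMap = (T i).toIntLinearMap ∘ₗ actLin J γ := by
    ext y
    simp [hT]
  have h2 := congrArg (fun f : J →ₗ[ℤ] J => f.baseChange O x) h
  simp only [LinearMap.baseChange_comp, LinearMap.comp_apply] at h2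
  exact h2

end TensorAction

/-! ### Main theorem -/

section Main

variable (p : ℕ)
variable (O : Type) [CommRing O] [IsDomain O] [IsDiscreteValuationRing O]
  [IsAdicComplete (maximalIdeal O) O] [CharZero O]
variable {G : Type*} [Group G]
variable (J : Type) [AddCommGroup J] [DistribMulAction G J]
variable {ι : Type*} (T : ι → J →+ J) (a : ι → O)

theorem natCast_pow_smul (n : ℕ) (x : O ⊗[ℤ] J) :
    ((p : O)) ^ n • x = ((p ^ n : ℕ) : ℤ) • x := by
  rw [← Int.cast_smul_eq_zsmul O]
  push_cast
  rfl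

/-- **Abstract Tate module.**  Let `J` be an abelian group with an action of `G` and commuting
endomorphisms `T i`, with finite `p`-torsion, and let `v` be a nonzero compatible sequence of
eigenvectors in `(O ⊗ J)[p ^ (n + 1)]`.  Then there is a nonzero finite free `O`-module `M`
with an action `ρ` of `G` such that: elements of `G` fixing `J[p ^ n]` act trivially on
`M / 𝔪 ^ n M`; elements fixing `J[p ^ ∞]` act trivially; quadratic relations
`γ² - T i γ + c = 0` on `J[p ^ ∞]` give `ρ γ² - a i ρ γ + c = 0`. -/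
theorem exists_adic_eigenmodule (hpO : (p : O) ∈ maximalIdeal O) (hp0 : p ≠ 0)
    (hT : ∀ (i : ι) (γ : G) (x : J), T i (γ • x) = γ • T i x)
    (hfin : {x : J | p • x = 0}.Finite)
    (v : ℕ → O ⊗[ℤ] J) (hv0 : (p : O) • v 0 = 0) (hv : ∀ n, (p : O) • v (n + 1) = v n)
    (hne : v ≠ 0) (heig : ∀ i n, tensorOp O T i (v n) = a i • v n) :
    ∃ (M : Type) (_ : AddCommGroup M) (_ : Module O M) (_ : Module.Free O M)
      (_ : Module.Finite O M) (ρ : G →* Module.End O M),
      Nontrivial M ∧
      (∀ (n : ℕ) (γ : G), (∀ x : J, p ^ n • x = 0 → γ • x = x) →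
        ∀ m : M, ρ γ m - m ∈ (maximalIdeal O ^ n • ⊤ : Submodule O M)) ∧
      (∀ γ : G, (∀ x : J, (∃ n : ℕ, p ^ n • x = 0) → γ • x = x) → ρ γ = 1) ∧
      (∀ (γ : G) (i : ι) (c : ℤ),
        (∀ x : J, (∃ n : ℕ, p ^ n • x = 0) → γ • γ • x - T i (γ • x) + c • x = 0) →
        ρ γ * ρ γ - a i • ρ γ + (c : O) • (1 : Module.End O M) = 0) := by
  have hϖ0 : (p : O) ≠ 0 := by exact_mod_cast hp0
  have hX : ∃ Y : Submodule O (O ⊗[ℤ] J), Y.FG ∧ ∀ x : O ⊗[ℤ] J, (p : O) • x = 0 → x ∈ Y := by
    obtain ⟨Y, hY, hYX⟩ := exists_fg_of_finite_torsion O (J := J) (p : ℤ) (by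
      have : {y : J | (p : ℤ) • y = 0} = {x : J | p • x = 0} := by
        ext y
        simp
      rw [this]
      exact hfin)
    refine ⟨Y, hY, fun x hx => hYX x ?_⟩
    have := natCast_pow_smul p O J 1 x
    simp only [pow_one] at this
    rw [← this]
    exact hx
  have hρ := tensorRep_tensorOp O T hT
  have hfree := tateEigen_free (t := tensorOp O T) (a := a) hpO hϖ0 hX
  have hfinite := tateEigen_finite (t := tensorOp O T) (a := a) hpO hϖ0 hX
  -- transfer of relations
  have htrans : ∀ (A : J →ₗ[ℤ] J) (n : ℕ), (∀ y : J, p ^ n • y = 0 → A y = 0) →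
      ∀ x : O ⊗[ℤ] J, (p : O) ^ n • x = 0 → A.baseChange O x = 0 := by
    intro A n hA x hx
    apply baseChange_eq_zero_of_torsion O ((p ^ n : ℕ) : ℤ) A
    · intro y hy
      apply hA
      rwa [natCast_zsmul] at hy
    · rw [← natCast_pow_smul]
      exact hx
  refine ⟨tateEigen (p : O) (tensorOp O T) a, inferInstance, inferInstance, hfree, hfinite,
    tateRep (tensorRep O J) hρ, ?_, ?_, ?_, ?_⟩
  · refine ⟨⟨⟨v, hv0, hv, heig⟩, 0, ?_⟩⟩
    intro h
    exact hne (congrArg Subtype.val h)
  · intro n γ hγ m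
    apply tateRep_sub_mem (tensorRep O J) hρ hpO n γ
    intro x hx
    have h1 := htrans (actLin J γ - LinearMap.id) n (fun y hy => by
      simp [hγ y hy]) x hx
    rw [LinearMap.baseChange_sub, LinearMap.baseChange_id, LinearMap.sub_apply,
      LinearMap.id_apply, sub_eq_zero] at h1
    exact h1
  · intro γ hγ
    apply tateRep_eq_one
    rintro x ⟨n, hx⟩
    have h1 := htrans (actLin J γ - LinearMap.id) n (fun y hy => by
      simp [hγ y ⟨n, hy⟩]) x hx
    rw [LinearMap.baseChange_sub, LinearMap.baseChange_id, LinearMap.sub_apply,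
      LinearMap.id_apply, sub_eq_zero] at h1
    exact h1
  · intro γ i c hγ
    apply tateRep_quadratic
    rintro x ⟨n, hx⟩
    have h1 := htrans (actLin J γ ∘ₗ actLin J γ - (T i).toIntLinearMap ∘ₗ actLin J γ
      + c • LinearMap.id) n (fun y hy => by
        have := hγ y ⟨n, hy⟩
        simpa using this) x hx
    rw [LinearMap.baseChange_add, LinearMap.baseChange_sub, LinearMap.baseChange_comp,
      LinearMap.baseChange_comp, LinearMap.baseChange_smul, LinearMap.baseChange_id] at h1
    simp only [LinearMap.add_apply, LinearMap.sub_apply, LinearMap.comp_apply,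
      LinearMap.smul_apply, LinearMap.id_apply] at h1
    rw [Int.cast_smul_eq_zsmul]
    exact h1

end Main

end

end Fermat.Agent.S30.H529

end
-- ===== PACK-END S30/H529/TateTensor.lean

-- ===== PACK-BEGIN S22/H262/Cocycle.lean
section


set_option autoImplicit false

/-!
# The Eichler cocycle via primitive towers
-/

open Complex Filter Function Metric Set
open UpperHalfPlane hiding I
open scoped Real Topology Manifold ModularForm MatrixGroups

namespace Fermat.Agent.S22.H262

/-- The action of `GL₂(ℝ)` on `ℂ²` (column vectors). -/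
def actV (A : GL (Fin 2) ℝ) (v : ℂ × ℂ) : ℂ × ℂ :=
  ((A 0 0 : ℝ) * v.1 + (A 0 1 : ℝ) * v.2, (A 1 0 : ℝ) * v.1 + (A 1 1 : ℝ) * v.2)

theorem actV_mul (A B : GL (Fin 2) ℝ) (v : ℂ × ℂ) : actV (A * B) v = actV A (actV B v) := by
  simp only [actV, Matrix.GeneralLinearGroup.coe_mul, Matrix.mul_apply, Fin.sum_univ_two]
  ext <;> push_cast <;> ring

@[simp] theorem actV_one (v : ℂ × ℂ) : actV 1 v = v := by
  simp [actV]

/-- The polynomial-valued Eichler integral attached to a tower, evaluated at a vector `v`. -/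
noncomputable def bigG (n : ℕ) (E : ℕ → ℍ → ℂ) (z : ℍ) (v : ℂ × ℂ) : ℂ :=
  ∑ j ∈ Finset.range (n + 1),
    (n.descFactorial j : ℂ) * E (j + 1) z * (v.1 - z * v.2) ^ (n - j) * v.2 ^ j

theorem hasDerivAt_bigG (n : ℕ) {h : ℍ → ℂ} {E : ℕ → ℍ → ℂ} (hE : IsTower h E) (v : ℂ × ℂ)
    (z : ℍ) :
    HasDerivAt (fun w : ℂ => bigG n E (ofComplex w) v) (h z * (v.1 - z * v.2) ^ n) (z : ℂ) := by
  -- first the derivative of the version with `w` in place of `↑(ofComplex w)`
  have key : HasDerivAt (fun w : ℂ => ∑ j ∈ Finset.range (n + 1),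
      (n.descFactorial j : ℂ) * (E (j + 1) ∘ ofComplex) w * (v.1 - w * v.2) ^ (n - j) * v.2 ^ j)
      (∑ j ∈ Finset.range (n + 1),
        ((n.descFactorial j : ℂ) * E j z * (v.1 - z * v.2) ^ (n - j) * v.2 ^ j -
         (n.descFactorial (j + 1) : ℂ) * E (j + 1) z * (v.1 - z * v.2) ^ (n - (j + 1)) *
            v.2 ^ (j + 1))) (z : ℂ) := by
    apply HasDerivAt.fun_sum
    intro j _
    have h1 : HasDerivAt (E (j + 1) ∘ ofComplex) (E j z) (z : ℂ) := hE.hasDeriv j z
    have h2 : HasDerivAt (fun w : ℂ => (v.1 - w * v.2) ^ (n - j))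
        (((n - j : ℕ) : ℂ) * (v.1 - z * v.2) ^ (n - j - 1) * (-v.2)) (z : ℂ) := by
      have h3 : HasDerivAt (fun w : ℂ => v.1 - w * v.2) (-v.2) (z : ℂ) := by
        simpa using ((hasDerivAt_id (z : ℂ)).mul_const v.2).const_sub v.1
      exact h3.pow (n - j)
    have h4 := ((h1.const_mul (n.descFactorial j : ℂ)).mul h2).mul_const (v.2 ^ j)
    refine h4.congr_deriv ?_
    have hofz : (E (j + 1) ∘ ofComplex) (z : ℂ) = E (j + 1) z := by simp
    rw [hofz, Nat.descFactorial_succ]
    have : n - (j + 1) = n - j - 1 := by omega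
    rw [this]
    push_cast
    ring
  have hsum : (∑ j ∈ Finset.range (n + 1),
        ((n.descFactorial j : ℂ) * E j z * (v.1 - z * v.2) ^ (n - j) * v.2 ^ j -
         (n.descFactorial (j + 1) : ℂ) * E (j + 1) z * (v.1 - z * v.2) ^ (n - (j + 1)) *
            v.2 ^ (j + 1))) = h z * (v.1 - z * v.2) ^ n := by
    rw [Finset.sum_range_sub' (fun j => (n.descFactorial j : ℂ) * E j z *
      (v.1 - z * v.2) ^ (n - j) * v.2 ^ j)]
    have hlt : n.descFactorial (n + 1) = 0 := Nat.descFactorial_of_lt (Nat.lt_succ_self n)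
    rw [hlt]
    simp [hE.zero]
  rw [hsum] at key
  refine key.congr_of_eventuallyEq ?_
  have hopen : {z : ℂ | 0 < z.im} ∈ 𝓝 (z : ℂ) :=
    (isOpen_lt continuous_const Complex.continuous_im).mem_nhds z.im_pos
  filter_upwards [hopen] with w hw
  simp [bigG, ofComplex_apply_of_im_pos hw]

/-- The key identity `x' - (Az) y' = det A (x - z y) / (cz + d)` where `(x', y') = A v`. -/
theorem actV_sub (A : GL (Fin 2) ℝ) (hA : 0 < A.det.val) (z : ℍ) (v : ℂ × ℂ) :
    (actV A v).1 - ((A • z : ℍ) : ℂ) * (actV A v).2 =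
      (A.det.val : ℂ) * (v.1 - z * v.2) / denom A z := by
  have hd : denom A z ≠ 0 := denom_ne_zero A z
  rw [coe_smul_of_det_pos hA]
  have hdet : (A.det.val : ℂ) = (A 0 0 : ℝ) * (A 1 1 : ℝ) - (A 0 1 : ℝ) * (A 1 0 : ℝ) := by
    rw [Matrix.GeneralLinearGroup.val_det_apply, Matrix.det_fin_two]
    push_cast
    ring
  have key : ((actV A v).1 * denom A z - num A z * (actV A v).2) =
      (A.det.val : ℂ) * (v.1 - z * v.2) := by
    simp only [actV, num, denom, hdet]
    ring
  rw [eq_div_iff hd, sub_mul, ← key]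
  congr 1
  field_simp

theorem hasDerivAt_bigG_smul (n : ℕ) {h : ℍ → ℂ} {E : ℕ → ℍ → ℂ} (hE : IsTower h E)
    (A : GL (Fin 2) ℝ) (hA : 0 < A.det.val) (v : ℂ × ℂ) (z : ℍ) :
    HasDerivAt (fun w : ℂ => bigG n E (A • ofComplex w) (actV A v))
      ((h ∣[(n : ℤ) + 2] A) z * (v.1 - z * v.2) ^ n) (z : ℂ) := by
  have h1 := hasDerivAt_bigG n hE (actV A v) (A • z)
  have h2 : HasDerivAt (fun w : ℂ => ((A • ofComplex w : ℍ) : ℂ))
      (A.det.val / denom A z ^ 2) (z : ℂ) := (hasStrictDerivAt_smul hA z).hasDerivAt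
  have h3 := h1.comp_of_eq (x := (z : ℂ)) h2 (by simp)
  have hd : denom A z ≠ 0 := denom_ne_zero A z
  have hval : h (A • z) * ((actV A v).1 - ((A • z : ℍ) : ℂ) * (actV A v).2) ^ n *
      ((A.det.val : ℂ) / denom A z ^ 2) = (h ∣[(n : ℤ) + 2] A) z * (v.1 - z * v.2) ^ n := by
    rw [actV_sub A hA z v, ModularForm.slash_apply, UpperHalfPlane.σ, if_pos hA]
    simp only [ContinuousAlgEquiv.refl_apply, abs_of_pos hA]
    have e1 : ((n : ℤ) + 2 - 1) = ((n + 1 : ℕ) : ℤ) := by push_cast; ring
    have e2 : -((n : ℤ) + 2) = -((n + 2 : ℕ) : ℤ) := by push_cast; ring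
    rw [e1, e2, zpow_natCast, zpow_neg, zpow_natCast, div_pow, mul_pow]
    field_simp
    ring
  rw [hval] at h3
  refine h3.congr_of_eventuallyEq ?_
  filter_upwards with w
  simp

/-- The difference `G_h(Az, Av) - G_{h|A}(z, v)` does not depend on `z`. -/
theorem bigG_sub_const (n : ℕ) {h : ℍ → ℂ} (A : GL (Fin 2) ℝ) (hA : 0 < A.det.val)
    (hh : HasTower h) (hhA : HasTower (h ∣[(n : ℤ) + 2] A)) (v : ℂ × ℂ) (z w : ℍ) :
    bigG n (tower h) (A • z) (actV A v) - bigG n (tower (h ∣[(n : ℤ) + 2] A)) z v =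
      bigG n (tower h) (A • w) (actV A v) - bigG n (tower (h ∣[(n : ℤ) + 2] A)) w v := by
  let D : ℍ → ℂ := fun z =>
    bigG n (tower h) (A • z) (actV A v) - bigG n (tower (h ∣[(n : ℤ) + 2] A)) z v
  have hD : ∀ z : ℍ, HasDerivAt (D ∘ ofComplex) 0 (z : ℂ) := by
    intro z
    have := (hasDerivAt_bigG_smul n hh.isTower A hA v z).sub
      (hasDerivAt_bigG n hhA.isTower v z)
    rw [sub_self] at this
    exact this
  exact const_of_hasDerivAt_zero hD z w

/-- The Eichler cocycle of `h` at the matrix `A`, evaluated at the vector `v`. -/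
noncomputable def cocyc (n : ℕ) (h : ℍ → ℂ) (A : GL (Fin 2) ℝ) (v : ℂ × ℂ) : ℂ :=
  bigG n (tower h) (A • UpperHalfPlane.I) (actV A v) -
    bigG n (tower (h ∣[(n : ℤ) + 2] A)) UpperHalfPlane.I v

theorem cocyc_eq (n : ℕ) {h : ℍ → ℂ} (A : GL (Fin 2) ℝ) (hA : 0 < A.det.val)
    (hh : HasTower h) (hhA : HasTower (h ∣[(n : ℤ) + 2] A)) (v : ℂ × ℂ) (z : ℍ) :
    cocyc n h A v =
      bigG n (tower h) (A • z) (actV A v) - bigG n (tower (h ∣[(n : ℤ) + 2] A)) z v :=
  bigG_sub_const n A hA hh hhA v _ _

/-- The cocycle relation. -/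
theorem cocyc_mul (n : ℕ) {h : ℍ → ℂ} (A B : GL (Fin 2) ℝ) (hA : 0 < A.det.val)
    (hB : 0 < B.det.val) (hh : HasTower h) (hhA : HasTower (h ∣[(n : ℤ) + 2] A))
    (hhAB : HasTower (h ∣[(n : ℤ) + 2] (A * B))) (v : ℂ × ℂ) :
    cocyc n h (A * B) v = cocyc n h A (actV B v) + cocyc n (h ∣[(n : ℤ) + 2] A) B v := by
  have hAB : 0 < (A * B).det.val := by
    rw [map_mul, Units.val_mul]
    exact mul_pos hA hB
  have hslash : h ∣[(n : ℤ) + 2] (A * B) = (h ∣[(n : ℤ) + 2] A) ∣[(n : ℤ) + 2] B :=
    SlashAction.slash_mul _ _ _ _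
  have hhAB' : HasTower ((h ∣[(n : ℤ) + 2] A) ∣[(n : ℤ) + 2] B) := hslash ▸ hhAB
  rw [cocyc_eq n (A * B) hAB hh hhAB v UpperHalfPlane.I,
    cocyc_eq n A hA hh hhA (actV B v) (B • UpperHalfPlane.I),
    cocyc_eq n B hB hhA hhAB' v UpperHalfPlane.I, actV_mul, mul_smul, hslash]
  ring

end Fermat.Agent.S22.H262

end
-- ===== PACK-END S22/H262/Cocycle.lean

-- ===== PACK-BEGIN S24/Deg/H457_Descent.lean
section


/-!
# S24 / DEG-ALG (helper457), part 1: descent of algebraic relations along a coefficient embedding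

`K →+* L` a field embedding, `coeffMap ι : K((q)) → L((q))`.
* `linearIndependent_coeffMap`: `coeffMap ι` maps `K`-linearly independent families to
  `L`-linearly independent families.
* `exists_relation_of_coeffMap_monic`: if `coeffMap ι a` is a root of a monic polynomial of
  degree `n` over `L[coeffMap ι J]`, then `a` is a root of a nonzero polynomial of degree `≤ n`
  over `K[J]`.
-/

set_option autoImplicit false

noncomputable section

open Polynomial ModularCurve

namespace Fermat.Agent.S24.Deg457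

variable {K L : Type*} [Field K] [Field L]

/-- `coeffMap ι` preserves linear independence (over the respective coefficient fields). -/
theorem linearIndependent_coeffMap (ι : K →+* L) {I : Type*} (v : I → LaurentSeries K)
    (hv : LinearIndependent K v) :
    LinearIndependent L (fun i => coeffMap ι (v i)) := by
  classical
  let _ : Algebra K L := ι.toAlgebra
  rw [linearIndependent_iff'] at hv ⊢
  intro s g hg i hi
  -- it suffices to show that every `K`-linear functional kills `g i`
  rw [← Module.forall_dual_apply_eq_zero_iff K]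
  intro φ
  refine hv s (fun i => φ (g i)) ?_ i hi
  ext k
  have hk := congrArg (fun x : LaurentSeries L => x.coeff k) hg
  simp only [HahnSeries.coeff_sum, HahnSeries.coeff_smul, coeffMap_coeff, smul_eq_mul,
    HahnSeries.coeff_zero] at hk ⊢
  have h2 := congrArg φ hk
  rw [map_zero, map_sum] at h2
  rw [← h2]
  refine Finset.sum_congr rfl fun x _ => ?_
  have : g x * ι ((v x).coeff k) = ((v x).coeff k) • g x := by
    rw [Algebra.smul_def, mul_comm]; rfl
  rw [this, map_smul, smul_eq_mul, mul_comm]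

/-- evaluation of polynomials at `J`, as a ring hom -/
abbrev evJ (J : LaurentSeries K) : K[X] →+* LaurentSeries K :=
  (aeval J : K[X] →ₐ[K] LaurentSeries K).toRingHom

theorem evJ_apply (J : LaurentSeries K) (p : K[X]) : evJ J p = aeval J p := rfl

theorem coeffMap_algebraMap' (ι : K →+* L) (c : K) :
    coeffMap ι (algebraMap K (LaurentSeries K) c) = algebraMap L (LaurentSeries L) (ι c) := by
  rw [algebraMap_laurentSeries_eq_single, algebraMap_laurentSeries_eq_single, coeffMap_single]

theorem coeffMap_smul' (ι : K →+* L) (c : K) (x : LaurentSeries K) :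
    coeffMap ι (c • x) = ι c • coeffMap ι x := by
  ext k; simp

/-- the `HahnSeries` scalar action agrees with multiplication by `algebraMap` (for the
power-series algebra structure on Laurent series). -/
theorem hsmul_eq_algebraMap_mul (c : K) (x : LaurentSeries K) :
    c • x = algebraMap K (LaurentSeries K) c * x := by
  rw [algebraMap_laurentSeries_eq_single, HahnSeries.single_zero_mul_eq_smul]

/-- bivariate polynomial attached to a finite coefficient table -/
def tablePoly {D n : ℕ} (g : Fin (D + 1) × Fin (n + 1) → K) : K[X][X] :=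
  ∑ k : Fin (n + 1), monomial (k : ℕ) (∑ i : Fin (D + 1), monomial (i : ℕ) (g (i, k)))

theorem tablePoly_coeff_coeff {D n : ℕ} (g : Fin (D + 1) × Fin (n + 1) → K)
    (i : Fin (D + 1)) (k : Fin (n + 1)) :
    ((tablePoly g).coeff k).coeff i = g (i, k) := by
  classical
  simp only [tablePoly, finsetSum_coeff, coeff_monomial]
  rw [Finset.sum_eq_single k]
  · simp only [if_true, finsetSum_coeff, coeff_monomial]
    rw [Finset.sum_eq_single i]
    · simp
    · intro b _ hb
      rw [if_neg]
      exact fun h => hb (Fin.ext h)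
    · simp
  · intro b _ hb
    rw [if_neg]
    · simp
    · exact fun h => hb (Fin.ext h)
  · simp

theorem tablePoly_natDegree_le {D n : ℕ} (g : Fin (D + 1) × Fin (n + 1) → K) :
    (tablePoly g).natDegree ≤ n := by
  refine natDegree_sum_le_of_forall_le _ _ fun k _ => ?_
  exact (natDegree_monomial_le _).trans (Nat.lt_succ_iff.mp k.2)

theorem tablePoly_eval₂ {D n : ℕ} (g : Fin (D + 1) × Fin (n + 1) → K)
    (J a : LaurentSeries K) :
    (tablePoly g).eval₂ (evJ J) a = ∑ p : Fin (D + 1) × Fin (n + 1), g p • (J ^ (p.1 : ℕ) * a ^ (p.2 : ℕ)) := by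
  rw [tablePoly, eval₂_finsetSum, Fintype.sum_prod_type_right]
  refine Finset.sum_congr rfl fun k _ => ?_
  rw [eval₂_monomial, evJ_apply, map_sum, Finset.sum_mul]
  refine Finset.sum_congr rfl fun i _ => ?_
  rw [aeval_monomial, hsmul_eq_algebraMap_mul, mul_assoc]

/-- **Descent**: a monic relation of degree `n` over `L[ι J]` for `ι a` gives a nonzero relation
of degree `≤ n` over `K[J]` for `a`. -/
theorem exists_relation_of_coeffMap_monic (ι : K →+* L) (J a : LaurentSeries K) (n : ℕ)
    (P : L[X][X]) (hP : P.Monic) (hn : P.natDegree = n)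
    (h0 : P.eval₂ (evJ (coeffMap ι J)) (coeffMap ι a) = 0) :
    ∃ Q : K[X][X], Q ≠ 0 ∧ Q.natDegree ≤ n ∧ Q.eval₂ (evJ J) a = 0 := by
  classical
  set D : ℕ := P.support.sup fun k => (P.coeff k).natDegree with hD
  have hDle : ∀ k, (P.coeff k).natDegree ≤ D := by
    intro k
    by_cases hk : k ∈ P.support
    · exact Finset.le_sup (f := fun k => (P.coeff k).natDegree) hk
    · rw [notMem_support_iff.mp hk]; simp
  let v : Fin (D + 1) × Fin (n + 1) → LaurentSeries K := fun p => J ^ (p.1 : ℕ) * a ^ (p.2 : ℕ)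
  have hnot : ¬ LinearIndependent K v := by
    intro hv
    have hw := linearIndependent_coeffMap ι v hv
    rw [Fintype.linearIndependent_iff] at hw
    have key := hw (fun p => (P.coeff p.2).coeff p.1) ?_ (0, Fin.last n)
    · simp only [Fin.val_last] at key
      rw [← hn, hP.coeff_natDegree] at key
      simp at key
    · rw [Fintype.sum_prod_type_right]
      rw [eval₂_eq_sum_range' _ (n := n + 1) (by omega)] at h0
      rw [← h0, Finset.sum_range]
      refine Finset.sum_congr rfl fun k _ => ?_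
      rw [evJ_apply, aeval_eq_sum_range' (n := D + 1) (Nat.lt_succ_of_le (hDle _)),
        Finset.sum_range, Finset.sum_mul]
      refine Finset.sum_congr rfl fun i _ => ?_
      simp only [v, map_mul, map_pow]
      rw [hsmul_eq_algebraMap_mul, Algebra.smul_def, mul_assoc]
  rw [Fintype.not_linearIndependent_iff] at hnot
  obtain ⟨g, hg, p, hp⟩ := hnot
  refine ⟨tablePoly g, ?_, tablePoly_natDegree_le g, ?_⟩
  · intro h
    apply hp
    rw [← tablePoly_coeff_coeff g p.1 p.2, h]
    simp
  · rw [tablePoly_eval₂]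
    exact hg

end Fermat.Agent.S24.Deg457

end
end
-- ===== PACK-END S24/Deg/H457_Descent.lean

-- ===== PACK-BEGIN S24/Alg/Basic.lean
section



/-!
# S24 / ALG — small lemmas on `Place.ord` used by the global assembly (helper984)
-/

set_option autoImplicit false

noncomputable section

open AlgebraicCurve KaehlerDifferential

namespace Fermat.Agent.S24

variable {K F : Type*} [Field K] [Field F] [Algebra K F]

theorem ord_algebraMap (v : Place K F) (c : K) : v.ord (algebraMap K F c) = 0 := by
  rcases eq_or_ne c 0 with rfl | hc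
  · simp
  · have h1 : algebraMap K F c ∈ v.toValuationSubring := v.algebraMap_mem' c
    have h2 : algebraMap K F c⁻¹ ∈ v.toValuationSubring := v.algebraMap_mem' c⁻¹
    have hu : IsUnit (⟨algebraMap K F c, h1⟩ : v.toValuationSubring) := by
      refine IsUnit.of_mul_eq_one (⟨algebraMap K F c⁻¹, h2⟩ : v.toValuationSubring) ?_
      apply Subtype.ext
      show algebraMap K F c * algebraMap K F c⁻¹ = 1
      rw [← map_mul, mul_inv_cancel₀ hc, map_one]
    have := v.ord_coe_unit hu.unit
    simpa using this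

theorem ord_neg (v : Place K F) (x : F) : v.ord (-x) = v.ord x := by
  simp [Place.ord]

theorem le_ord_add (v : Place K F) {x y : F} {k : ℤ} (hx : x = 0 ∨ k ≤ v.ord x)
    (hy : y = 0 ∨ k ≤ v.ord y) : x + y = 0 ∨ k ≤ v.ord (x + y) := by
  have hx' : v.adicValuation x ≤ WithZero.exp (-k) :=
    v.adicValuation_le_exp_iff.mpr (by simpa using hx)
  have hy' : v.adicValuation y ≤ WithZero.exp (-k) :=
    v.adicValuation_le_exp_iff.mpr (by simpa using hy)
  have := (Valuation.map_add v.adicValuation x y).trans (max_le hx' hy')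
  simpa using v.adicValuation_le_exp_iff.mp this

theorem point_unique (v : Place K F) (j : F) {a b : K}
    (ha : 0 < v.ord (j - algebraMap K F a)) (hb : 0 < v.ord (j - algebraMap K F b)) :
    a = b := by
  by_contra hab
  have hsub : (j - algebraMap K F a) + -(j - algebraMap K F b) = algebraMap K F (b - a) := by
    rw [map_sub]; ring
  have h := le_ord_add v (k := 1) (x := j - algebraMap K F a) (y := -(j - algebraMap K F b))
    (Or.inr ha) (Or.inr (by rw [ord_neg]; exact hb))
  rw [hsub, ord_algebraMap] at h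
  rcases h with h | h
  · have : b - a = 0 := by
      have hinj := (algebraMap K F).injective
      exact hinj (by rw [h, map_zero])
    exact hab (sub_eq_zero.mp this).symm
  · omega

theorem not_pos_ord_sub_of_pos_ord_inv (v : Place K F) (j : F) (a : K)
    (hinf : 0 < v.ord j⁻¹) : ¬ 0 < v.ord (j - algebraMap K F a) := by
  intro ha
  have hj : v.ord j < 0 := by
    have := v.ord_inv j
    omega
  have h := le_ord_add v (k := 0) (x := j - algebraMap K F a) (y := algebraMap K F a)
    (Or.inr ha.le) (Or.inr (by rw [ord_algebraMap]))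
  rw [sub_add_cancel] at h
  rcases h with h | h
  · rw [h] at hj; simp at hj
  · omega

section Adjoin

variable (K) in
theorem adjoin_sub_algebraMap (j : F) (a : K) :
    IntermediateField.adjoin K {j - algebraMap K F a} = IntermediateField.adjoin K {j} := by
  apply le_antisymm
  · rw [IntermediateField.adjoin_le_iff, Set.singleton_subset_iff]
    exact sub_mem (IntermediateField.mem_adjoin_simple_self K j)
      (IntermediateField.algebraMap_mem _ a)
  · rw [IntermediateField.adjoin_le_iff, Set.singleton_subset_iff]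
    have h : (j - algebraMap K F a) + algebraMap K F a
        ∈ IntermediateField.adjoin K {j - algebraMap K F a} :=
      add_mem (IntermediateField.mem_adjoin_simple_self K _)
        (IntermediateField.algebraMap_mem _ a)
    simpa using h

variable (K) in
theorem adjoin_inv (j : F) :
    IntermediateField.adjoin K {j⁻¹} = IntermediateField.adjoin K {j} := by
  apply le_antisymm
  · rw [IntermediateField.adjoin_le_iff, Set.singleton_subset_iff]
    exact inv_mem (IntermediateField.mem_adjoin_simple_self K j)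
  · rw [IntermediateField.adjoin_le_iff, Set.singleton_subset_iff]
    have h : (j⁻¹)⁻¹ ∈ IntermediateField.adjoin K {j⁻¹} :=
      inv_mem (IntermediateField.mem_adjoin_simple_self K _)
    simpa using h

theorem finiteDimensional_and_finrank_of_eq {E₁ E₂ : IntermediateField K F} (h : E₁ = E₂)
    [FiniteDimensional ↥E₂ F] :
    FiniteDimensional ↥E₁ F ∧ Module.finrank ↥E₁ F = Module.finrank ↥E₂ F := by
  subst h
  exact ⟨inferInstance, rfl⟩

end Adjoin

end Fermat.Agent.S24

end
end
-- ===== PACK-END S24/Alg/Basic.lean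

-- ===== PACK-BEGIN S24/Alg/H240Diff.lean
section


/-!
# S24 / ALG — the formal derivative on Laurent series is a derivation, and
`Ω[F⁄K] ≠ 0` from one local embedding

* `lsD` : the derivative `d/dz` on `LaurentSeries C`, with the Leibniz rule `lsD_mul`;
* `lsD_ne_zero_of_order_ne_zero` : in characteristic zero, `d/dz f ≠ 0` if `ord f ≠ 0`;
* `embDerivation` : for a ring hom `σ : F →+* LaurentSeries C` sending `K` to constants,
  `f ↦ d/dz (σ f)` as a `K`-derivation of `F`;
* `exists_differential_ne_zero_of_nonempty` : the interface statement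
  `exists_differential_ne_zero` of `Alg.lean`, with the (necessary) extra hypothesis
  `[Nonempty X]`.
-/

set_option autoImplicit false

noncomputable section

open HahnSeries KaehlerDifferential

namespace Fermat.Agent.S24.H240

section Laurent

variable {C : Type*} [CommRing C]

/-- The formal derivative `d/dz` on Laurent series. -/
def lsD (f : LaurentSeries C) : LaurentSeries C := LaurentSeries.derivative C f

theorem lsD_coeff (f : LaurentSeries C) (n : ℤ) :
    (lsD f).coeff n = (n + 1) • f.coeff (n + 1) := by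
  simp [lsD, LaurentSeries.hasseDeriv_coeff]

theorem lsD_add (f g : LaurentSeries C) : lsD (f + g) = lsD f + lsD g :=
  map_add (LaurentSeries.derivative C) f g

theorem lsD_zero : lsD (0 : LaurentSeries C) = 0 :=
  map_zero (LaurentSeries.derivative C)

theorem lsD_C (c : C) : lsD (HahnSeries.C c : LaurentSeries C) = 0 := by
  ext n
  rw [lsD_coeff, HahnSeries.coeff_zero]
  by_cases h : n + 1 = 0
  · rw [h, zero_smul]
  · rw [HahnSeries.C_apply, HahnSeries.coeff_single_of_ne h, smul_zero]

/-- Derivative of `z^a * f`. -/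
theorem lsD_single_mul (a : ℤ) (f : LaurentSeries C) :
    lsD ((single a (1 : C)) * f) =
      a • ((single (a - 1) (1 : C)) * f) + (single a (1 : C)) * lsD f := by
  ext n
  rw [lsD_coeff, HahnSeries.coeff_add, HahnSeries.coeff_smul, HahnSeries.coeff_single_mul,
    HahnSeries.coeff_single_mul, HahnSeries.coeff_single_mul, lsD_coeff, one_mul, one_mul,
    one_mul]
  have h1 : n + 1 - a = n - (a - 1) := by ring
  have h2 : n - a + 1 = n - (a - 1) := by ring
  rw [h1, h2, ← add_smul]
  congr 1
  ring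

/-- The derivative of (the image of) a power series is (the image of) its derivative. -/
theorem lsD_ofPowerSeries (p : PowerSeries C) :
    lsD (HahnSeries.ofPowerSeries ℤ C p) =
      HahnSeries.ofPowerSeries ℤ C (PowerSeries.derivative C p) := by
  ext n
  rw [lsD_coeff]
  change _ • ((p : PowerSeries C) : LaurentSeries C).coeff (n + 1) =
    ((PowerSeries.derivative C p : PowerSeries C) : LaurentSeries C).coeff n
  rw [PowerSeries.coeff_coe, PowerSeries.coeff_coe]
  by_cases hn : n < 0
  · rw [if_pos hn]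
    by_cases hn1 : n + 1 < 0
    · rw [if_pos hn1, smul_zero]
    · have : n + 1 = 0 := by omega
      rw [this, zero_smul]
  · rw [if_neg hn, if_neg (by omega)]
    obtain ⟨k, rfl⟩ := Int.eq_ofNat_of_zero_le (not_lt.mp hn)
    have hk : ((k : ℤ) + 1).natAbs = k + 1 := by omega
    rw [hk, Int.natAbs_natCast]
    change _ = PowerSeries.coeff k (PowerSeries.derivative C p)
    rw [PowerSeries.coeff_derivative, zsmul_eq_mul, mul_comm]
    push_cast
    ring

theorem lsD_ofPowerSeries_mul (p q : PowerSeries C) :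
    lsD (HahnSeries.ofPowerSeries ℤ C p * HahnSeries.ofPowerSeries ℤ C q) =
      HahnSeries.ofPowerSeries ℤ C p * lsD (HahnSeries.ofPowerSeries ℤ C q) +
        HahnSeries.ofPowerSeries ℤ C q * lsD (HahnSeries.ofPowerSeries ℤ C p) := by
  rw [← map_mul, lsD_ofPowerSeries, lsD_ofPowerSeries, lsD_ofPowerSeries,
    Derivation.leibniz, map_add, smul_eq_mul, smul_eq_mul, map_mul, map_mul]

/-- **Leibniz rule** for the formal derivative of Laurent series. -/
theorem lsD_mul (f g : LaurentSeries C) : lsD (f * g) = f * lsD g + g * lsD f := by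
  have hf := LaurentSeries.single_order_mul_powerSeriesPart f
  have hg := LaurentSeries.single_order_mul_powerSeriesPart g
  set p := HahnSeries.ofPowerSeries ℤ C f.powerSeriesPart with hp
  set q := HahnSeries.ofPowerSeries ℤ C g.powerSeriesPart with hq
  set a := f.order with ha
  set b := g.order with hb
  have hfg : f * g = single (a + b) (1 : C) * (p * q) := by
    rw [← hf, ← hg]
    have : (single (a + b) (1 : C) : LaurentSeries C) = single a 1 * single b 1 := by
      rw [HahnSeries.single_mul_single, one_mul]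
    rw [this]
    ring
  have hsa : (single a (1 : C) : LaurentSeries C) = single (a - 1) 1 * single 1 1 := by
    rw [HahnSeries.single_mul_single, one_mul, sub_add_cancel]
  have hsb : (single b (1 : C) : LaurentSeries C) = single (b - 1) 1 * single 1 1 := by
    rw [HahnSeries.single_mul_single, one_mul, sub_add_cancel]
  have hsab : (single (a + b) (1 : C) : LaurentSeries C) =
      single (a - 1) 1 * single (b - 1) 1 * (single 1 1 * single 1 1) := by
    simp only [HahnSeries.single_mul_single, one_mul]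
    have : a + b = a - 1 + (b - 1) + (1 + 1) := by ring
    rw [← this]
  have hsab1 : (single (a + b - 1) (1 : C) : LaurentSeries C) =
      single (a - 1) 1 * single (b - 1) 1 * single 1 1 := by
    simp only [HahnSeries.single_mul_single, one_mul]
    have : a + b - 1 = a - 1 + (b - 1) + 1 := by ring
    rw [← this]
  have e1 : lsD f = a • (single (a - 1) (1 : C) * p) + single a (1 : C) * lsD p := by
    conv_lhs => rw [← hf]
    exact lsD_single_mul a p
  have e2 : lsD g = b • (single (b - 1) (1 : C) * q) + single b (1 : C) * lsD q := by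
    conv_lhs => rw [← hg]
    exact lsD_single_mul b q
  rw [hfg, lsD_single_mul, lsD_ofPowerSeries_mul, e1, e2]
  conv_rhs => rw [← hf, ← hg]
  rw [hsab, hsab1, hsa, hsb]
  simp only [zsmul_eq_mul]
  push_cast
  ring

theorem lsD_one : lsD (1 : LaurentSeries C) = 0 := by
  have := lsD_C (1 : C)
  rwa [map_one] at this

end Laurent

section CharZero

variable {C : Type*} [Field C] [CharZero C]

/-- In characteristic zero, a Laurent series of nonzero order has nonzero derivative. -/
theorem lsD_ne_zero_of_order_ne_zero (f : LaurentSeries C) (hf : f.order ≠ 0) : lsD f ≠ 0 := by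
  have hf0 : f ≠ 0 := by
    rintro rfl
    exact hf HahnSeries.order_zero
  intro h
  have hc := congrArg (fun g : LaurentSeries C => g.coeff (f.order - 1)) h
  simp only [lsD_coeff, sub_add_cancel, HahnSeries.coeff_zero] at hc
  rw [zsmul_eq_mul, mul_eq_zero] at hc
  rcases hc with hc | hc
  · exact hf (by exact_mod_cast hc)
  · exact hf0 (HahnSeries.coeff_order_eq_zero.mp hc)

end CharZero

section Derivation

variable {K F : Type*} [Field K] [Field F] [Algebra K F]
variable {C : Type*} [Field C]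

/-- For a ring hom `σ : F →+* LaurentSeries C` mapping `K` to constants, the map
`f ↦ d/dz (σ f)` is a `K`-derivation of `F` into `LaurentSeries C` (an `F`-module via `σ`). -/
theorem exists_embDerivation (σ : F →+* LaurentSeries C) (ι : K →+* C)
    (hσ : ∀ c : K, σ (algebraMap K F c) = HahnSeries.C (ι c)) (y : F)
    (hy : lsD (σ y) ≠ 0) : KaehlerDifferential.D K F y ≠ 0 := by
  let modF : Module F (LaurentSeries C) := Module.compHom (LaurentSeries C) σ
  let modK : Module K (LaurentSeries C) :=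
    Module.compHom (LaurentSeries C) (σ.comp (algebraMap K F))
  have : IsScalarTower K F (LaurentSeries C) :=
    ⟨fun c f g => by
      change σ (c • f) * g = σ (algebraMap K F c) * (σ f * g)
      rw [Algebra.smul_def, map_mul, mul_assoc]⟩
  have hsmulF : ∀ (f : F) (g : LaurentSeries C), f • g = σ f * g := fun _ _ => rfl
  have hsmulK : ∀ (c : K) (g : LaurentSeries C), c • g = σ (algebraMap K F c) * g :=
    fun _ _ => rfl
  let δ : Derivation K F (LaurentSeries C) :=
    { toFun := fun f => lsD (σ f)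
      map_add' := fun f g => by simp only [map_add, lsD_add]
      map_smul' := fun c f => by
        simp only [RingHom.id_apply]
        rw [hsmulK, Algebra.smul_def, map_mul, lsD_mul, hσ, lsD_C, mul_zero, add_zero]
      map_one_eq_zero' := by
        change lsD (σ 1) = 0
        rw [map_one, lsD_one]
      leibniz' := fun f g => by
        change lsD (σ (f * g)) = f • lsD (σ g) + g • lsD (σ f)
        rw [map_mul, lsD_mul, hsmulF, hsmulF] }
  intro h0
  apply hy
  have : δ.liftKaehlerDifferential (KaehlerDifferential.D K F y) = δ y :=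
    Derivation.liftKaehlerDifferential_comp_D δ y
  rw [h0, map_zero] at this
  exact this.symm

end Derivation

section Interface

variable {K F : Type*} [Field K] [Field F] [Algebra K F]
variable {C : Type*} [Field C] [CharZero C] {X : Type*}

/-- Interface theorem `exists_differential_ne_zero` of `Alg.lean`, with the necessary
hypothesis `[Nonempty X]` (it is false for empty `X`). -/
theorem exists_differential_ne_zero_of_nonempty [Nonempty X] (j : F)
    (dataInf : LocalData K F C X j⁻¹) :
    ∃ ω : Ω[F⁄K], ω ≠ 0 := by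
  obtain ⟨x⟩ := ‹Nonempty X›
  refine ⟨KaehlerDifferential.D K F j⁻¹, ?_⟩
  apply exists_embDerivation (dataInf.σ x) dataInf.ι (dataInf.σ_const x)
  apply lsD_ne_zero_of_order_ne_zero
  rw [dataInf.σ_t_order x]
  exact_mod_cast dataInf.m_pos.ne'

end Interface

end Fermat.Agent.S24.H240

end
end
-- ===== PACK-END S24/Alg/H240Diff.lean

-- ===== PACK-BEGIN S24/H84/OrdDiff.lean
section




/-!
# Order of `dy` at a place via a Laurent-series embedding (helper84, S24 pieces KD2 + KD4)
-/

set_option autoImplicit false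

noncomputable section

open KaehlerDifferential IntermediateField AlgebraicCurve
open scoped IntermediateField.algebraAdjoinAdjoin

namespace Fermat.Agent.S24.H84

variable {K F : Type*} [Field K] [Field F] [Algebra K F]

/-- Constants have order zero at every place. -/
theorem place_ord_algebraMap (v : Place K F) (c : K) : v.ord (algebraMap K F c) = 0 := by
  rcases eq_or_ne c 0 with rfl | hc
  · simp
  · have hu : IsUnit (algebraMap K v.toValuationSubring c) := (IsUnit.mk0 c hc).map _
    have := v.ord_coe_unit hu.unit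
    simpa using this

/-- The (private) uniformizer of the Prelude, exposed. -/
theorem place_exists_uniformizer (v : Place K F) :
    ∃ π : F, v.ord π = 1 ∧ v.dCoord = D K F π :=
  ⟨_, v.ord_coe_irreducible
    (IsDiscreteValuationRing.exists_irreducible v.toValuationSubring).choose_spec, rfl⟩

/-- Over an algebraically closed field, an algebraic element is a constant. -/
theorem mem_range_algebraMap_of_isAlgebraic [IsAlgClosed K] {f : F} (halg : IsAlgebraic K f) :
    ∃ c : K, algebraMap K F c = f := by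
  have hint : IsIntegral K f := halg.isIntegral
  have hq : (minpoly K f).leadingCoeff = 1 := minpoly.monic hint
  have h : (minpoly K f).degree = 1 :=
    IsAlgClosed.degree_eq_one_of_irreducible K (minpoly.irreducible hint)
  have : Polynomial.aeval f (minpoly K f) = 0 := minpoly.aeval K f
  rw [Polynomial.eq_X_add_C_of_degree_eq_one h, hq, Polynomial.C_1, one_mul,
    Polynomial.aeval_add, Polynomial.aeval_X, Polynomial.aeval_C, add_eq_zero_iff_eq_neg] at this
  exact ⟨-(minpoly K f).coeff 0, by rw [map_neg]; exact this.symm⟩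

/-- Over an algebraically closed constant field, a function with nonzero order at some place is
transcendental. -/
theorem place_transcendental_of_ord_ne_zero [IsAlgClosed K] (v : Place K F) {f : F}
    (h : v.ord f ≠ 0) : Transcendental K f := by
  intro halg
  obtain ⟨c, rfl⟩ := mem_range_algebraMap_of_isAlgebraic halg
  exact h (place_ord_algebraMap v c)

/-- If `F` is finite over `K(j)` then `F` is algebraic over `K(π)` for every transcendental
`π`. -/
theorem isAlgebraic_adjoin_simple_of_transcendental (j : F) [FiniteDimensional K⟮j⟯ F]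
    {π : F} (hπ : Transcendental K π) : Algebra.IsAlgebraic K⟮π⟯ F := by
  have hA : Algebra.IsAlgebraic K⟮j⟯ F := Algebra.IsAlgebraic.of_finite _ _
  have hA' : Algebra.IsAlgebraic (Algebra.adjoin K {j}) F :=
    (IsFractionRing.comap_isAlgebraic_iff (A := Algebra.adjoin K {j}) (K := K⟮j⟯)).2 hA
  have h1 : Algebra.trdeg K F ≤ 1 := by
    simpa using Algebra.IsAlgebraic.trdeg_le_cardinalMk K ({j} : Set F)
  have hind : AlgebraicIndependent K (fun _ : PUnit => π) :=
    algebraicIndependent_unique_type_iff.2 hπ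
  have hb : IsTranscendenceBasis K (fun _ : PUnit => π) :=
    hind.isTranscendenceBasis_of_trdeg_le_of_finite (by simpa using h1)
  have := hb.isAlgebraic_field
  have hr : (Set.range fun _ : PUnit => π) = {π} := Set.range_const
  rwa [hr] at this

/-- `DCoordGenerates` for every place of a function field in one variable over an algebraically
closed field of characteristic zero. -/
theorem place_dCoordGenerates [IsAlgClosed K] [CharZero K] (j : F) [FiniteDimensional K⟮j⟯ F]
    (v : Place K F) : v.DCoordGenerates := by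
  obtain ⟨π, hπ, hd⟩ := place_exists_uniformizer v
  have htr : Transcendental K π :=
    place_transcendental_of_ord_ne_zero v (by rw [hπ]; exact one_ne_zero)
  have := isAlgebraic_adjoin_simple_of_transcendental j htr
  exact ⟨by rw [hd]; exact span_D_eq_top π⟩

section Embedding

variable {C : Type*} [Field C]

/-- Pull-back of `d/dz` along a field embedding `σ : F → C((z))` which is constant on `K`:
there is an additive map `L : Ω[F⁄K] → C((z))`, `σ`-semilinear, with `L (D y) = d(σ y)/dz`. -/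
theorem exists_kaehler_to_laurent (σ : F →+* LaurentSeries C) (ι : K →+* C)
    (hσ : ∀ c : K, σ (algebraMap K F c) = HahnSeries.C (ι c)) :
    ∃ L : Ω[F⁄K] →+ LaurentSeries C,
      (∀ (f : F) (ω : Ω[F⁄K]), L (f • ω) = σ f * L ω) ∧
      ∀ y : F, L (D K F y) = laurentD C (σ y) := by
  let : Module F (LaurentSeries C) := Module.compHom _ σ
  let : Module K (LaurentSeries C) := Module.compHom _ (σ.comp (algebraMap K F))
  have hF : ∀ (f : F) (m : LaurentSeries C), f • m = σ f * m := fun _ _ => rfl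
  have hK : ∀ (k : K) (m : LaurentSeries C), k • m = σ (algebraMap K F k) * m := fun _ _ => rfl
  have : IsScalarTower K F (LaurentSeries C) := ⟨fun k f m => by
    rw [hF, hK, hF, Algebra.smul_def, map_mul, mul_assoc]⟩
  let δ : Derivation K F (LaurentSeries C) :=
    { toFun := fun f => laurentD C (σ f)
      map_add' := fun f g => by rw [map_add, map_add]
      map_smul' := fun k f => by
        rw [RingHom.id_apply, hK, Algebra.smul_def, map_mul, Derivation.leibniz, hσ, laurentD_C,
          smul_zero, add_zero, smul_eq_mul]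
      map_one_eq_zero' := by
        show laurentD C (σ 1) = 0
        rw [map_one, Derivation.map_one_eq_zero]
      leibniz' := fun f g => by
        show laurentD C (σ (f * g)) = f • laurentD C (σ g) + g • laurentD C (σ f)
        rw [map_mul, Derivation.leibniz, hF, hF, smul_eq_mul, smul_eq_mul] }
  refine ⟨δ.liftKaehlerDifferential.toAddMonoidHom, fun f ω => ?_, fun y => ?_⟩
  · show δ.liftKaehlerDifferential (f • ω) = _
    rw [map_smul, hF]
    rfl
  · exact δ.liftKaehlerDifferential_comp_D y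

/-- If `σ y` has nonzero order then `dy ≠ 0` in `Ω[F⁄K]` (characteristic zero). -/
theorem D_ne_zero_of_embedding [CharZero C] (σ : F →+* LaurentSeries C) (ι : K →+* C)
    (hσ : ∀ c : K, σ (algebraMap K F c) = HahnSeries.C (ι c))
    {y : F} (hy : (σ y).order ≠ 0) : D K F y ≠ 0 := by
  obtain ⟨L, -, hL2⟩ := exists_kaehler_to_laurent σ ι hσ
  intro h
  have := hL2 y
  rw [h, map_zero] at this
  exact laurentD_ne_zero hy this.symm

/-- `Ω[F⁄K]` is nontrivial as soon as some `σ y` has nonzero order. -/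
theorem nontrivial_kaehler_of_embedding [CharZero C] (σ : F →+* LaurentSeries C) (ι : K →+* C)
    (hσ : ∀ c : K, σ (algebraMap K F c) = HahnSeries.C (ι c))
    {y : F} (hy : (σ y).order ≠ 0) : Nontrivial Ω[F⁄K] :=
  ⟨⟨_, _, D_ne_zero_of_embedding σ ι hσ hy⟩⟩

variable [CharZero C]

/-- **Local formula for the order of a differential.**  If the place `v` is induced by the
embedding `σ : F → C((z))` with multiplicity `g` (`ord_z ∘ σ = g · ord_v`), then
`g · ord_v(dy) = ord_z (d(σ y)/dz) - (g - 1)`. -/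
theorem place_ordDifferential_mul (v : Place K F) [v.DCoordGenerates]
    (σ : F →+* LaurentSeries C) (ι : K →+* C)
    (hσ : ∀ c : K, σ (algebraMap K F c) = HahnSeries.C (ι c))
    (g : ℕ) (hg : 0 < g) (hord : ∀ f : F, f ≠ 0 → (σ f).order = g * v.ord f)
    (y : F) (hy : laurentD C (σ y) ≠ 0) :
    (g : ℤ) * v.ordDifferential (D K F y) = (laurentD C (σ y)).order - (g - 1) := by
  obtain ⟨π, hπ1, hd⟩ := place_exists_uniformizer v
  obtain ⟨L, hL1, hL2⟩ := exists_kaehler_to_laurent σ ι hσ
  have hc : v.differentialCoeff (D K F y) • v.dCoord = D K F y :=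
    v.differentialCoeff_smul_dCoord _
  have h1 : laurentD C (σ y) = σ (v.differentialCoeff (D K F y)) * laurentD C (σ π) := by
    have h := congrArg L hc
    rw [hL1, hd, hL2, hL2] at h
    exact h.symm
  have hπ0 : π ≠ 0 := by rintro rfl; simp at hπ1
  have hπord : (σ π).order = g := by rw [hord π hπ0, hπ1, mul_one]
  have hgne : (σ π).order ≠ 0 := by rw [hπord]; exact_mod_cast hg.ne'
  have hdπ : (laurentD C (σ π)).order = g - 1 := by rw [laurentD_order hgne, hπord]
  have hc0 : v.differentialCoeff (D K F y) ≠ 0 := by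
    intro h; rw [h, map_zero, zero_mul] at h1; exact hy h1
  have hσc : σ (v.differentialCoeff (D K F y)) ≠ 0 := (map_ne_zero σ).2 hc0
  have hdπ0 : laurentD C (σ π) ≠ 0 := laurentD_ne_zero hgne
  rw [Place.ordDifferential, h1, HahnSeries.order_mul hσc hdπ0, hord _ hc0, hdπ]
  ring

/-- If `ord_v y ≠ 0` then `ord_v (dy) = ord_v y - 1`. -/
theorem place_ordDifferential_D_of_ord_ne_zero (v : Place K F) [v.DCoordGenerates]
    (σ : F →+* LaurentSeries C) (ι : K →+* C)
    (hσ : ∀ c : K, σ (algebraMap K F c) = HahnSeries.C (ι c))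
    (g : ℕ) (hg : 0 < g) (hord : ∀ f : F, f ≠ 0 → (σ f).order = g * v.ord f)
    (y : F) (hy : v.ord y ≠ 0) :
    v.ordDifferential (D K F y) = v.ord y - 1 := by
  have hy0 : y ≠ 0 := by rintro rfl; simp at hy
  have hgz : (g : ℤ) ≠ 0 := by exact_mod_cast hg.ne'
  have ho : (σ y).order ≠ 0 := by
    rw [hord y hy0]; exact mul_ne_zero hgz hy
  have := place_ordDifferential_mul v σ ι hσ g hg hord y (laurentD_ne_zero ho)
  rw [laurentD_order ho, hord y hy0] at this
  have h2 : (g : ℤ) * v.ordDifferential (D K F y) = g * (v.ord y - 1) := by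
    rw [this]; ring
  exact mul_left_cancel₀ hgz h2

/-- If `ord_v (y - a) ≠ 0` for a constant `a` then `ord_v (dy) = ord_v (y - a) - 1`. -/
theorem place_ordDifferential_D_of_ord_sub_ne_zero (v : Place K F) [v.DCoordGenerates]
    (σ : F →+* LaurentSeries C) (ι : K →+* C)
    (hσ : ∀ c : K, σ (algebraMap K F c) = HahnSeries.C (ι c))
    (g : ℕ) (hg : 0 < g) (hord : ∀ f : F, f ≠ 0 → (σ f).order = g * v.ord f)
    (y : F) (a : K) (hy : v.ord (y - algebraMap K F a) ≠ 0) :
    v.ordDifferential (D K F y) = v.ord (y - algebraMap K F a) - 1 := by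
  have := place_ordDifferential_D_of_ord_ne_zero v σ ι hσ g hg hord _ hy
  rwa [map_sub, Derivation.map_algebraMap, sub_zero] at this

/-- If `ord_v y⁻¹ ≠ 0` then `ord_v (dy) = - ord_v y⁻¹ - 1`. -/
theorem place_ordDifferential_D_of_ord_inv_ne_zero (v : Place K F) [v.DCoordGenerates]
    (σ : F →+* LaurentSeries C) (ι : K →+* C)
    (hσ : ∀ c : K, σ (algebraMap K F c) = HahnSeries.C (ι c))
    (g : ℕ) (hg : 0 < g) (hord : ∀ f : F, f ≠ 0 → (σ f).order = g * v.ord f)
    (y : F) (hy : v.ord y⁻¹ ≠ 0) :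
    v.ordDifferential (D K F y) = - v.ord y⁻¹ - 1 := by
  have h1 : v.ord y ≠ 0 := by
    rw [v.ord_inv] at hy; exact fun h => hy (by rw [h, neg_zero])
  rw [place_ordDifferential_D_of_ord_ne_zero v σ ι hσ g hg hord y h1, v.ord_inv, neg_neg]

end Embedding

end Fermat.Agent.S24.H84

end
end
-- ===== PACK-END S24/H84/OrdDiff.lean

-- ===== PACK-BEGIN S21/H381/PeriodMap.lean
section





/-!
# S21, piece A: existence of the equivariant primitive, linearity of the period map
-/

set_option autoImplicit false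

namespace Fermat.Agent.S21.H381

open CongruenceSubgroup ModularCurve ModularCurve.Period Filter Topology Function Complex
open UpperHalfPlane hiding I
open scoped Manifold MatrixGroups ModularForm

/-- determinant of the image of `γ : SL(2, ℤ)` in `GL (Fin 2) ℝ` is `1`. -/
theorem det_coe_SL (γ : SL(2, ℤ)) : ((γ : GL (Fin 2) ℝ) : Matrix (Fin 2) (Fin 2) ℝ).det = 1 := by
  rw [← Matrix.GeneralLinearGroup.val_det_apply]; simp

/-- **Chain rule for the Möbius action**: if `F` is a primitive of `f` on `ℍ`, then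
`F ∘ γ` is a primitive of `f ∣[2] γ`. -/
theorem hasDerivAt_comp_smul {F f : ℍ → ℂ}
    (hF : ∀ τ : ℍ, HasDerivAt (F ∘ ofComplex) (f τ) ↑τ) (γ : SL(2, ℤ)) (τ : ℍ) :
    HasDerivAt ((fun w : ℍ => F (γ • w)) ∘ ofComplex) ((f ∣[(2 : ℤ)] γ) τ) ↑τ := by
  have hdet := det_coe_SL γ
  have hpos : 0 < ((γ : GL (Fin 2) ℝ) : Matrix (Fin 2) (Fin 2) ℝ).det := by
    rw [hdet]; exact one_pos
  have h_smul : HasDerivAt (fun w ↦ ↑((γ : GL (Fin 2) ℝ) • ofComplex w) : ℂ → ℂ)
      ((((γ : GL (Fin 2) ℝ) : Matrix (Fin 2) (Fin 2) ℝ).det : ℂ)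
        / denom (γ : GL (Fin 2) ℝ) τ ^ 2) ↑τ :=
    (hasStrictDerivAt_smul hpos τ).hasDerivAt
  have h_F : HasDerivAt (F ∘ ofComplex) (f (γ • τ))
      ↑((γ : GL (Fin 2) ℝ) • ofComplex (τ : ℂ)) := by
    rw [ofComplex_apply]
    exact hF (γ • τ)
  have hcomp := h_F.comp (τ : ℂ) h_smul
  have heq : ((fun w : ℍ => F (γ • w)) ∘ ofComplex)
      = (F ∘ ofComplex) ∘ (fun w ↦ ↑((γ : GL (Fin 2) ℝ) • ofComplex w) : ℂ → ℂ) := by
    funext z
    simp only [Function.comp_apply, ofComplex_apply]
    rfl
  rw [heq]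
  refine hcomp.congr_deriv ?_
  rw [ModularForm.SL_slash_apply, hdet]
  have hz := denom_ne_zero (γ : GL (Fin 2) ℝ) τ
  simp only [Complex.ofReal_one]
  rw [zpow_neg, div_eq_mul_inv, one_mul]
  norm_cast

/-- Two primitives (on `ℍ`) of the same function differ by a constant. -/
theorem sub_const_of_hasDerivAt {A B g : ℍ → ℂ}
    (hA : ∀ τ : ℍ, HasDerivAt (A ∘ ofComplex) (g τ) ↑τ)
    (hB : ∀ τ : ℍ, HasDerivAt (B ∘ ofComplex) (g τ) ↑τ) (z w : ℍ) :
    A z - B z = A w - B w := by
  set D : ℂ → ℂ := fun x => (A ∘ ofComplex) x - (B ∘ ofComplex) x with hD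
  have hopen : IsOpen {x : ℂ | 0 < x.im} := isOpen_lt continuous_const Complex.continuous_im
  have hconn : IsPreconnected {x : ℂ | 0 < x.im} := (convex_halfSpace_im_gt 0).isPreconnected
  have hder : ∀ x ∈ {x : ℂ | 0 < x.im}, HasDerivAt D 0 x := by
    intro x hx
    have h1 := (hA ⟨x, hx⟩).sub (hB ⟨x, hx⟩)
    rw [sub_self] at h1
    exact h1
  have hdiff : DifferentiableOn ℂ D {x : ℂ | 0 < x.im} := fun x hx =>
    (hder x hx).differentiableAt.differentiableWithinAt
  have hderiv : Set.EqOn (deriv D) 0 {x : ℂ | 0 < x.im} := fun x hx => (hder x hx).deriv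
  have := hopen.is_const_of_deriv_eq_zero hconn hdiff hderiv (x := (z : ℂ)) (y := (w : ℂ)) z.2 w.2
  simpa [hD, ofComplex_apply] using this

section CuspFormFacts

variable {N : ℕ} [NeZero N] (f : CuspForm (Gamma0 N) 2) (δ : SL(2, ℤ))

omit [NeZero N] in
/-- `f ∣[2] δ` is holomorphic. -/
theorem mdiff_slash : MDiff ((f : ℍ → ℂ) ∣[(2 : ℤ)] δ) := by
  rw [← CuspForm.coe_translate f δ]
  exact CuspFormClass.holo _

/-- `f ∣[2] δ` vanishes at `i∞`. -/
theorem isZeroAtImInfty_slash : IsZeroAtImInfty ((f : ℍ → ℂ) ∣[(2 : ℤ)] δ) :=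
  CuspFormClass.zero_at_infty_slash f δ

/-- There is a common positive integer period for all `f ∣[2] δ`. -/
theorem exists_period_slash :
    ∃ M : ℕ, 0 < M ∧ ∀ δ : SL(2, ℤ), Periodic (((f : ℍ → ℂ) ∣[(2 : ℤ)] δ) ∘ ofComplex) (M : ℝ) := by
  obtain ⟨M, hM, hper⟩ := Subgroup.IsArithmetic.exists_nat_mem_strictPeriods_conj
    ((Gamma0 N : Subgroup SL(2, ℤ)) : Subgroup (GL (Fin 2) ℝ))
  refine ⟨M, hM, fun δ => ?_⟩
  have h1 := hper δ⁻¹
  rw [map_inv] at h1
  have h2 := SlashInvariantFormClass.periodic_comp_ofComplex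
    (CuspForm.translate f (δ : GL (Fin 2) ℝ)) h1
  rw [CuspForm.coe_translate f δ] at h2
  exact_mod_cast h2

end CuspFormFacts

/-- Packaged one-step primitive on `ℍ`: derivative `g`, limit `0` at `i∞`. -/
theorem exists_primitive_tendsto_zero {g : ℍ → ℂ} {h : ℝ} (hh : 0 < h)
    (hper : Periodic (g ∘ ofComplex) h) (hhol : MDiff g) (hzero : IsZeroAtImInfty g) :
    ∃ G : ℍ → ℂ, (∀ τ : ℍ, HasDerivAt (G ∘ ofComplex) (g τ) ↑τ) ∧
      Tendsto G atImInfty (𝓝 0) := by
  obtain ⟨Ψ, hΨd, hΨ0, hΨ⟩ := exists_disc_primitive hh hper hhol hzero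
  refine ⟨fun τ => (h / (2 * Real.pi * I)) * Ψ (Periodic.qParam h ↑τ), fun τ => ?_, ?_⟩
  · exact (hΨ τ).congr_of_eventuallyEq
      (comp_ofComplex_eventuallyEq (P := fun z : ℂ => (h / (2 * Real.pi * I)) *
        Ψ (Periodic.qParam h z)) (fun _ => rfl) τ)
  · have hcont : ContinuousAt Ψ 0 :=
      (hΨd.differentiableAt (Metric.ball_mem_nhds 0 one_pos)).continuousAt
    have h1 : Tendsto (fun τ : ℍ => Ψ (Periodic.qParam h ↑τ)) atImInfty (𝓝 (Ψ 0)) :=
      hcont.tendsto.comp (qParam_tendsto_atImInfty hh)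
    rw [hΨ0] at h1
    simpa using h1.const_mul (h / (2 * Real.pi * I) : ℂ)

section Main

variable {N : ℕ} [NeZero N] (f : CuspForm (Gamma0 N) 2)

omit [NeZero N] in
theorem slash_eq_self_of_mem (γ : Gamma0 N) :
    ((f : ℍ → ℂ) ∣[(2 : ℤ)] (γ : SL(2, ℤ))) = f := by
  have hmem : ((γ : SL(2, ℤ)) : GL (Fin 2) ℝ) ∈
      ((Gamma0 N : Subgroup SL(2, ℤ)) : Subgroup (GL (Fin 2) ℝ)) :=
    Subgroup.mem_map_of_mem _ γ.2
  exact SlashInvariantForm.slash_action_eqn f _ hmem

/-- **Piece A1**: every weight-2 cusp form on `Γ₀(N)` has an equivariant primitive. -/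
theorem exists_hasEquivariantPrimitive : ∃ F : ℍ → ℂ, HasEquivariantPrimitive N f F := by
  obtain ⟨M, hM, hper⟩ := exists_period_slash f
  have hMpos : (0 : ℝ) < (M : ℝ) := by exact_mod_cast hM
  -- primitive of `f = f ∣[2] 1`
  have hone : ((f : ℍ → ℂ) ∣[(2 : ℤ)] (1 : SL(2, ℤ))) = f := by
    rw [SlashAction.slash_one]
  obtain ⟨F, hFd, hF0⟩ := exists_primitive_tendsto_zero hMpos (hper 1)
    (mdiff_slash f 1) (isZeroAtImInfty_slash f 1)
  have hFd' : ∀ τ : ℍ, HasDerivAt (F ∘ ofComplex) (f τ) ↑τ := by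
    intro τ; have := hFd τ; rwa [hone] at this
  refine ⟨F, hFd', hF0, ?_, ?_⟩
  · intro γ
    refine ⟨F ((γ : SL(2, ℤ)) • UpperHalfPlane.I) - F UpperHalfPlane.I, fun z => ?_⟩
    have hγ : ∀ τ : ℍ, HasDerivAt ((fun w : ℍ => F ((γ : SL(2, ℤ)) • w)) ∘ ofComplex) (f τ) ↑τ := by
      intro τ
      have := hasDerivAt_comp_smul hFd' (γ : SL(2, ℤ)) τ
      rwa [slash_eq_self_of_mem f γ] at this
    exact sub_const_of_hasDerivAt hγ hFd' z UpperHalfPlane.I
  · intro δ
    obtain ⟨G, hGd, hG0⟩ := exists_primitive_tendsto_zero hMpos (hper δ)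
      (mdiff_slash f δ) (isZeroAtImInfty_slash f δ)
    have hδ : ∀ τ : ℍ, HasDerivAt ((fun w : ℍ => F (δ • w)) ∘ ofComplex)
        (((f : ℍ → ℂ) ∣[(2 : ℤ)] δ) τ) ↑τ := fun τ => hasDerivAt_comp_smul hFd' δ τ
    set c : ℂ := F (δ • UpperHalfPlane.I) - G UpperHalfPlane.I with hc
    refine ⟨c, ?_⟩
    have hEq : (fun w : ℍ => F (δ • w)) = fun w => G w + c := by
      funext w
      have := sub_const_of_hasDerivAt hδ hGd w UpperHalfPlane.I
      rw [hc, ← this]; ring
    rw [hEq]
    simpa using hG0.add_const c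

variable {f}

omit [NeZero N] in
/-- **Piece A2 (uniqueness)**. -/
theorem hasEquivariantPrimitive_unique {F G : ℍ → ℂ} (hF : HasEquivariantPrimitive N f F)
    (hG : HasEquivariantPrimitive N f G) : F = G := by
  funext z
  have hconst : ∀ w : ℍ, F w - G w = F z - G z := fun w =>
    sub_const_of_hasDerivAt hF.1 hG.1 w z
  have h1 : Tendsto (fun w : ℍ => F w - G w) atImInfty (𝓝 (0 - 0)) := hF.2.1.sub hG.2.1
  have h2 : Tendsto (fun w : ℍ => F w - G w) atImInfty (𝓝 (F z - G z)) := by
    have : (fun w : ℍ => F w - G w) = fun _ => F z - G z := funext hconst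
    rw [this]; exact tendsto_const_nhds
  have := tendsto_nhds_unique h1 h2
  rw [sub_zero] at this
  exact sub_eq_zero.mp this.symm

omit [NeZero N] in
/-- **Piece A2 (formula)**: the period map is computed by any equivariant primitive. -/
theorem periodMap_apply {F : ℍ → ℂ} (hF : HasEquivariantPrimitive N f F) (γ : Gamma0 N)
    (z : ℍ) : periodMap N f (Additive.ofMul γ) = F ((γ : SL(2, ℤ)) • z) - F z := by
  obtain ⟨F₀, h₀, hP⟩ := periodMap_def N f hF
  have hFF : F₀ = F := hasEquivariantPrimitive_unique h₀ hF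
  subst hFF
  rw [hP, IsEquivariantPrimitive.periodHom_apply, ← h₀.2.2.1.sub_eq_period γ z]

omit [NeZero N] in
theorem hasEquivariantPrimitive_add {f g : CuspForm (Gamma0 N) 2} {F G : ℍ → ℂ}
    (hF : HasEquivariantPrimitive N f F) (hG : HasEquivariantPrimitive N g G) :
    HasEquivariantPrimitive N (f + g) (F + G) := by
  refine ⟨fun τ => ?_, ?_, fun γ => ?_, fun δ => ?_⟩
  · have := (hF.1 τ).add (hG.1 τ)
    exact this
  · have h := hF.2.1.add hG.2.1
    rw [add_zero] at h
    exact h
  · obtain ⟨c, hc⟩ := hF.2.2.1 γ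
    obtain ⟨d, hd⟩ := hG.2.2.1 γ
    refine ⟨c + d, fun z => ?_⟩
    simp only [Pi.add_apply]
    rw [← hc z, ← hd z]; ring
  · obtain ⟨L, hL⟩ := hF.2.2.2 δ
    obtain ⟨L', hL'⟩ := hG.2.2.2 δ
    exact ⟨L + L', hL.add hL'⟩

omit [NeZero N] in
theorem hasEquivariantPrimitive_smul {f : CuspForm (Gamma0 N) 2} {F : ℍ → ℂ} (a : ℂ)
    (hF : HasEquivariantPrimitive N f F) :
    HasEquivariantPrimitive N (a • f) (a • F) := by
  refine ⟨fun τ => ?_, ?_, fun γ => ?_, fun δ => ?_⟩
  · have := (hF.1 τ).const_smul a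
    exact this
  · have h := hF.2.1.const_smul a
    rw [smul_zero] at h
    exact h
  · obtain ⟨c, hc⟩ := hF.2.2.1 γ
    refine ⟨a * c, fun z => ?_⟩
    simp only [Pi.smul_apply, smul_eq_mul]
    rw [← hc z]; ring
  · obtain ⟨L, hL⟩ := hF.2.2.2 δ
    exact ⟨a • L, hL.const_smul a⟩

theorem periodMap_add (f g : CuspForm (Gamma0 N) 2) :
    periodMap N (f + g) = periodMap N f + periodMap N g := by
  obtain ⟨F, hF⟩ := exists_hasEquivariantPrimitive f
  obtain ⟨G, hG⟩ := exists_hasEquivariantPrimitive g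
  refine AddMonoidHom.ext fun γ => ?_
  obtain ⟨γ, rfl⟩ : ∃ γ' : Gamma0 N, Additive.ofMul γ' = γ := ⟨Additive.toMul γ, rfl⟩
  rw [AddMonoidHom.add_apply, periodMap_apply (hasEquivariantPrimitive_add hF hG) γ UpperHalfPlane.I,
    periodMap_apply hF γ UpperHalfPlane.I, periodMap_apply hG γ UpperHalfPlane.I]
  simp only [Pi.add_apply]; ring

theorem periodMap_smul (a : ℂ) (f : CuspForm (Gamma0 N) 2) :
    periodMap N (a • f) = a • periodMap N f := by
  obtain ⟨F, hF⟩ := exists_hasEquivariantPrimitive f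
  refine AddMonoidHom.ext fun γ => ?_
  obtain ⟨γ, rfl⟩ : ∃ γ' : Gamma0 N, Additive.ofMul γ' = γ := ⟨Additive.toMul γ, rfl⟩
  rw [AddMonoidHom.smul_apply, periodMap_apply (hasEquivariantPrimitive_smul a hF) γ UpperHalfPlane.I,
    periodMap_apply hF γ UpperHalfPlane.I]
  simp only [Pi.smul_apply, smul_eq_mul]; ring

variable (N) in
/-- The period map as a `ℂ`-linear map. -/
noncomputable def periodMapLin : CuspForm (Gamma0 N) 2 →ₗ[ℂ] (Additive (Gamma0 N) →+ ℂ) where
  toFun := periodMap N
  map_add' := periodMap_add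
  map_smul' := periodMap_smul

@[simp] theorem periodMapLin_apply (f : CuspForm (Gamma0 N) 2) :
    periodMapLin N f = periodMap N f := rfl

variable (N) in
/-- **Piece A3**: the period map is linear. -/
theorem existsPeriodMapLinear : ExistsPeriodMapLinear N :=
  ⟨periodMapLin N, fun _ => rfl⟩

variable (N) in
/-- Unfolding of `periodHomPair`. -/
theorem periodHomPair_eq :
    periodHomPair N = LinearMap.coprod
      ((LinearMap.id + charInvolution N ℂ ℂ) ∘ₗ periodMapLin N)
      ((LinearMap.id - charInvolution N ℂ ℂ) ∘ₗ periodMapLin N) := by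
  obtain ⟨pml, hpml, h⟩ := periodHomPair_def N (existsPeriodMapLinear N)
  have : pml = periodMapLin N := LinearMap.ext fun f => by rw [hpml, periodMapLin_apply]
  rw [h, this]

theorem periodHomPair_apply (f g : CuspForm (Gamma0 N) 2) :
    periodHomPair N (f, g) = (periodMap N f + charInvolution N ℂ ℂ (periodMap N f))
      + (periodMap N g - charInvolution N ℂ ℂ (periodMap N g)) := by
  rw [periodHomPair_eq]
  simp [LinearMap.coprod_apply]

end Main

end Fermat.Agent.S21.H381

end
-- ===== PACK-END S21/H381/PeriodMap.lean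

-- ===== PACK-BEGIN Lib/RR/Ord.lean
section


/-!
# RR library: elementary calculus of `Place.ord`
-/

set_option autoImplicit false

noncomputable section

open AlgebraicCurve

namespace Fermat.Agent.Lib.RR

variable {K F : Type*} [Field K] [Field F] [Algebra K F]

theorem ord_nonneg_of_mem (v : Place K F) {f : F} (hf : f ∈ v.toValuationSubring) :
    0 ≤ v.ord f := by
  rcases eq_or_ne f 0 with rfl | hf0
  · simp
  obtain ⟨π, hπ⟩ := IsDiscreteValuationRing.exists_irreducible v.toValuationSubring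
  obtain ⟨n, u, hu⟩ :=
    IsDiscreteValuationRing.eq_unit_mul_pow_irreducible
      (x := (⟨f, hf⟩ : v.toValuationSubring)) (by simpa [Subtype.ext_iff] using hf0) hπ
  have hcoe : f = ((u : v.toValuationSubring) : F) * ((π : F) ^ (n : ℤ)) := by
    have h := congrArg (Subtype.val) hu
    push_cast at h
    rw [zpow_natCast]
    exact h
  rw [hcoe, v.ord_unit_smul_zpow u hπ (n : ℤ)]
  exact Int.natCast_nonneg n

theorem mem_of_ord_nonneg (v : Place K F) {f : F} (h : 0 ≤ v.ord f) :
    f ∈ v.toValuationSubring := by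
  rcases eq_or_ne f 0 with rfl | hf
  · exact zero_mem _
  obtain ⟨π, hπ⟩ := IsDiscreteValuationRing.exists_irreducible v.toValuationSubring
  obtain ⟨u, hu⟩ := v.exists_unit_mul_zpow hf hπ
  rw [hu, show v.ord f = (((v.ord f).toNat : ℕ) : ℤ) from (Int.toNat_of_nonneg h).symm,
    zpow_natCast]
  exact mul_mem (u : v.toValuationSubring).2 (pow_mem (π : v.toValuationSubring).2 _)

/-- `f ∈ O_v ↔ 0 ≤ ord_v f` (valid also for `f = 0` because `ord_v 0 = 0`). -/
theorem mem_iff_ord_nonneg (v : Place K F) (f : F) :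
    f ∈ v.toValuationSubring ↔ 0 ≤ v.ord f :=
  ⟨ord_nonneg_of_mem v, mem_of_ord_nonneg v⟩

theorem ord_algebraMap (v : Place K F) (c : K) : v.ord (algebraMap K F c) = 0 := by
  rcases eq_or_ne c 0 with rfl | hc
  · simp
  have h1 : 0 ≤ v.ord (algebraMap K F c) := ord_nonneg_of_mem v (v.algebraMap_mem' c)
  have h2 : 0 ≤ v.ord (algebraMap K F c⁻¹) := ord_nonneg_of_mem v (v.algebraMap_mem' c⁻¹)
  rw [map_inv₀, v.ord_inv] at h2
  omega

theorem ord_pow (v : Place K F) (f : F) (n : ℕ) : v.ord (f ^ n) = n * v.ord f := by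
  have := v.ord_zpow f (n : ℤ)
  rwa [zpow_natCast] at this

theorem ord_neg (v : Place K F) (f : F) : v.ord (-f) = v.ord f := by
  rcases eq_or_ne f 0 with rfl | hf
  · simp
  have h : (-1 : F) ≠ 0 := by simp
  have h1 : v.ord (-1 : F) = 0 := by
    have h2 := v.ord_mul h h
    rw [neg_one_mul, neg_neg, v.ord_one] at h2
    omega
  rw [← neg_one_mul, v.ord_mul h hf, h1, zero_add]

theorem ne_zero_of_ord_ne_zero (v : Place K F) {f : F} (h : v.ord f ≠ 0) : f ≠ 0 := by
  rintro rfl; exact h v.ord_zero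

/-- Ultrametric inequality. -/
theorem ord_add (v : Place K F) {f g : F} (hf : f ≠ 0) (hg : g ≠ 0) (hfg : f + g ≠ 0) :
    min (v.ord f) (v.ord g) ≤ v.ord (f + g) := by
  wlog h : v.ord f ≤ v.ord g generalizing f g
  · have := this hg hf (by rwa [add_comm]) (by omega)
    rwa [min_comm, add_comm g f] at this
  rw [min_eq_left h]
  have hq : g * f⁻¹ ∈ v.toValuationSubring := by
    apply mem_of_ord_nonneg
    rw [v.ord_mul hg (inv_ne_zero hf), v.ord_inv]; omega
  have h1 : 1 + g * f⁻¹ ∈ v.toValuationSubring := add_mem (one_mem _) hq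
  have h2 : f + g = f * (1 + g * f⁻¹) := by field_simp
  have h3 : (1 + g * f⁻¹) ≠ 0 := by
    intro h0; rw [h0, mul_zero] at h2; exact hfg h2
  rw [h2, v.ord_mul hf h3]
  have := ord_nonneg_of_mem v h1
  omega

/-- Ultrametric inequality in the "zero or bounded below" form used for `L(D)`. -/
theorem ord_add_of_le (v : Place K F) {f g : F} {n : ℤ}
    (hf : f = 0 ∨ n ≤ v.ord f) (hg : g = 0 ∨ n ≤ v.ord g) :
    f + g = 0 ∨ n ≤ v.ord (f + g) := by
  rcases eq_or_ne (f + g) 0 with h0 | h0
  · exact Or.inl h0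
  right
  rcases eq_or_ne f 0 with rfl | hf0
  · rw [zero_add] at h0 ⊢
    exact hg.resolve_left h0
  rcases eq_or_ne g 0 with rfl | hg0
  · rw [add_zero]
    exact hf.resolve_left hf0
  exact le_trans (le_min (hf.resolve_left hf0) (hg.resolve_left hg0)) (ord_add v hf0 hg0 h0)

/-- Strict case of the ultrametric inequality. -/
theorem ord_add_eq_of_lt (v : Place K F) {f g : F} (hf : f ≠ 0) (hg : g ≠ 0)
    (h : v.ord f < v.ord g) : v.ord (f + g) = v.ord f := by
  have hfg : f + g ≠ 0 := by
    intro h0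
    have : g = -f := by rw [← sub_eq_zero]; rw [sub_neg_eq_add, add_comm]; exact h0
    rw [this, ord_neg] at h
    exact lt_irrefl _ h
  have h1 := ord_add v hf hg hfg
  rw [min_eq_left h.le] at h1
  have hng : -g ≠ 0 := neg_ne_zero.mpr hg
  have h2 := ord_add v hfg hng (by simpa using hf)
  rw [add_neg_cancel_right, ord_neg] at h2
  rcases le_total (v.ord (f + g)) (v.ord g) with h3 | h3
  · rw [min_eq_left h3] at h2; omega
  · rw [min_eq_right h3] at h2; omega

/-- Every place has a uniformizer. -/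
theorem exists_ord_eq_one (v : Place K F) : ∃ t : F, v.ord t = 1 := by
  obtain ⟨π, hπ⟩ := IsDiscreteValuationRing.exists_irreducible v.toValuationSubring
  exact ⟨π, v.ord_coe_irreducible hπ⟩

/-- An element of the valuation ring lies in the maximal ideal iff it is `0` or has positive
order. -/
theorem mem_maximalIdeal_iff (v : Place K F) (a : v.toValuationSubring) :
    a ∈ IsLocalRing.maximalIdeal v.toValuationSubring ↔ (a : F) = 0 ∨ 0 < v.ord (a : F) := by
  rw [IsLocalRing.mem_maximalIdeal, mem_nonunits_iff]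
  constructor
  · intro h
    by_contra hcon
    simp only [not_or, not_lt] at hcon
    obtain ⟨h0, h1⟩ := hcon
    apply h
    have h2 : v.ord (a : F) = 0 := le_antisymm h1 (ord_nonneg_of_mem v a.2)
    have hinv : (a : F)⁻¹ ∈ v.toValuationSubring := by
      apply mem_of_ord_nonneg
      rw [v.ord_inv, h2]; simp
    refine IsUnit.of_mul_eq_one (⟨(a : F)⁻¹, hinv⟩ : v.toValuationSubring) ?_
    ext
    simp [h0]
  · rintro (h | h) hu
    · have : a = 0 := by ext; simpa using h
      rw [this] at hu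
      exact not_isUnit_zero hu
    · have := v.ord_coe_unit hu.unit
      rw [IsUnit.unit_spec] at this
      omega

/-- At a place of degree one every element of the valuation ring is congruent to a constant. -/
theorem exists_const_sub (v : Place K F) (hv : v.deg = 1) {f : F} (hf : 0 ≤ v.ord f) :
    ∃ c : K, f - algebraMap K F c = 0 ∨ 0 < v.ord (f - algebraMap K F c) := by
  have hmem : f ∈ v.toValuationSubring := mem_of_ord_nonneg v hf
  have h1 : (1 : v.ResidueField) ≠ 0 := one_ne_zero
  have hspan := (finrank_eq_one_iff_of_nonzero' (1 : v.ResidueField) h1).mp hv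
  obtain ⟨c, hc⟩ := hspan (IsLocalRing.residue v.toValuationSubring ⟨f, hmem⟩)
  refine ⟨c, ?_⟩
  have hc' : IsLocalRing.residue v.toValuationSubring
      (⟨f, hmem⟩ - algebraMap K v.toValuationSubring c) = 0 := by
    rw [map_sub, ← hc, Algebra.smul_def, mul_one]
    rw [IsScalarTower.algebraMap_apply K v.toValuationSubring v.ResidueField]
    simp
  rw [IsLocalRing.residue_eq_zero_iff] at hc'
  have := (mem_maximalIdeal_iff v _).mp hc'
  simpa using this

end Fermat.Agent.Lib.RR

end
end
-- ===== PACK-END Lib/RR/Ord.lean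

-- ===== PACK-BEGIN S29/H395/ProdChar.lean
section
/-
S29 / layer M / bridge BR, piece NORM (analytic half, character computation) — helper395.

For a function `h : ℍ → ℂ` which is `c`-automorphic for `Γ₀(N)` (`h (γ τ) = c γ * h τ`), the product
of its translates by the Prelude Hecke representatives,

  `heckeProd p h τ = ∏ x : ℙ¹(𝔽_p), h (heckeRep p x • τ)`
                 `= h (p τ) * ∏_{j < p} h ((τ + j) / p)`,

is automorphic with multiplier `γ ↦ ∏ x, c (trf γ x)` (helper201's transfer elements).  In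
particular for `c γ = ζ ^ χ γ` the multiplier is `ζ ^ (heckeHom χ) γ`: the Hecke operator on
`Hom(Γ₀(N), ℤ/m)` corresponds to `h ↦ heckeProd p h` on `m`-th roots of modular functions.
-/


set_option autoImplicit false

noncomputable section

open CongruenceSubgroup Matrix.SpecialLinearGroup UpperHalfPlane
open scoped MatrixGroups
open P2MW.S_ModularForm_heckeT_slash_eq_self_of_mem_Gamma0.ModularForm.HeckeSlashInvariance

namespace Fermat.Agent.S29.H395

open Fermat.Agent.S29.H201

variable {N : ℕ} {p : ℕ} [Fact p.Prime]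

/-- The product of the translates of `h` by the Hecke representatives
`(p 0; 0 1)`, `(1 j; 0 p)` (`j : ZMod p`). -/
def heckeProd (p : ℕ) [Fact p.Prime] (h : ℍ → ℂ) : ℍ → ℂ :=
  fun τ => ∏ x : OnePoint (ZMod p), h (_root_.P2MW.S_ModularForm_heckeT_slash_eq_self_of_mem_Gamma0.ModularForm.HeckeSlashInvariance.heckeRep p x • τ)

theorem heckeProd_apply (h : ℍ → ℂ) (τ : ℍ) :
    heckeProd p h τ = ∏ x : OnePoint (ZMod p), h (_root_.P2MW.S_ModularForm_heckeT_slash_eq_self_of_mem_Gamma0.ModularForm.HeckeSlashInvariance.heckeRep p x • τ) := rfl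

theorem heckeProd_mul (h h' : ℍ → ℂ) : heckeProd p (h * h') = heckeProd p h * heckeProd p h' := by
  funext τ
  simp only [heckeProd, Pi.mul_apply, Finset.prod_mul_distrib]

theorem heckeProd_one : heckeProd p (1 : ℍ → ℂ) = 1 := by
  funext τ
  simp [heckeProd]

theorem heckeProd_pow (h : ℍ → ℂ) (n : ℕ) : heckeProd p (h ^ n) = heckeProd p h ^ n := by
  funext τ
  simp only [heckeProd, Pi.pow_apply, Finset.prod_pow]

theorem heckeProd_inv (h : ℍ → ℂ) : heckeProd p (h⁻¹) = (heckeProd p h)⁻¹ := by
  funext τ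
  simp only [heckeProd, Pi.inv_apply, Finset.prod_inv_distrib]

theorem heckeProd_div (h h' : ℍ → ℂ) : heckeProd p (h / h') = heckeProd p h / heckeProd p h' := by
  funext τ
  simp only [heckeProd, Pi.div_apply, Finset.prod_div_distrib]

theorem heckeProd_const (a : ℂ) :
    heckeProd p (fun _ => a) = fun _ => a ^ (p + 1) := by
  funext τ
  simp only [heckeProd, Finset.prod_const, Finset.card_univ]
  congr 1
  rw [show Fintype.card (OnePoint (ZMod p)) = Fintype.card (Option (ZMod p)) from rfl,
    Fintype.card_option, ZMod.card]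

/-- the basic translation identity: `heckeRep x • γ • τ = trf γ x • heckeRep (x · γ) • τ`. -/
theorem heckeRep_smul_smul (hpN : ¬ p ∣ N) (γ : Gamma0 N) (x : OnePoint (ZMod p)) (τ : ℍ) :
    _root_.P2MW.S_ModularForm_heckeT_slash_eq_self_of_mem_Gamma0.ModularForm.HeckeSlashInvariance.heckeRep p x • ((γ : SL(2, ℤ)) • τ)
      = ((trf hpN γ x : Gamma0 N) : SL(2, ℤ)) • (_root_.P2MW.S_ModularForm_heckeT_slash_eq_self_of_mem_Gamma0.ModularForm.HeckeSlashInvariance.heckeRep p (redMatrix p (γ : SL(2, ℤ)) • x) • τ) := by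
  show _root_.P2MW.S_ModularForm_heckeT_slash_eq_self_of_mem_Gamma0.ModularForm.HeckeSlashInvariance.heckeRep p x • (mapGL ℝ (γ : SL(2, ℤ)) • τ)
      = mapGL ℝ ((trf hpN γ x : Gamma0 N) : SL(2, ℤ)) •
          (_root_.P2MW.S_ModularForm_heckeT_slash_eq_self_of_mem_Gamma0.ModularForm.HeckeSlashInvariance.heckeRep p (redMatrix p (γ : SL(2, ℤ)) • x) • τ)
  rw [← mul_smul, ← mul_smul, trf_spec hpN γ x]

/-- **Transfer formula for products.**  If `h (γ τ) = c γ * h τ` for all `γ ∈ Γ₀(N)`, then
`heckeProd p h (γ τ) = (∏ x, c (trf γ x)) * heckeProd p h τ`. -/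
theorem heckeProd_smul (hpN : ¬ p ∣ N) {h : ℍ → ℂ} {c : Gamma0 N → ℂ}
    (hc : ∀ (γ : Gamma0 N) (τ : ℍ), h ((γ : SL(2, ℤ)) • τ) = c γ * h τ)
    (γ : Gamma0 N) (τ : ℍ) :
    heckeProd p h ((γ : SL(2, ℤ)) • τ)
      = (∏ x : OnePoint (ZMod p), c (trf hpN γ x)) * heckeProd p h τ := by
  simp only [heckeProd]
  calc ∏ x : OnePoint (ZMod p), h (_root_.P2MW.S_ModularForm_heckeT_slash_eq_self_of_mem_Gamma0.ModularForm.HeckeSlashInvariance.heckeRep p x • ((γ : SL(2, ℤ)) • τ))
      = ∏ x : OnePoint (ZMod p),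
          c (trf hpN γ x) * h (_root_.P2MW.S_ModularForm_heckeT_slash_eq_self_of_mem_Gamma0.ModularForm.HeckeSlashInvariance.heckeRep p (redMatrix p (γ : SL(2, ℤ)) • x) • τ) := by
        refine Finset.prod_congr rfl fun x _ => ?_
        rw [heckeRep_smul_smul hpN γ x τ, hc]
    _ = (∏ x : OnePoint (ZMod p), c (trf hpN γ x)) *
          ∏ x : OnePoint (ZMod p), h (_root_.P2MW.S_ModularForm_heckeT_slash_eq_self_of_mem_Gamma0.ModularForm.HeckeSlashInvariance.heckeRep p (redMatrix p (γ : SL(2, ℤ)) • x) • τ) :=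
        Finset.prod_mul_distrib
    _ = _ := by
        congr 1
        exact Equiv.prod_comp (permOf γ) (fun y => h (_root_.P2MW.S_ModularForm_heckeT_slash_eq_self_of_mem_Gamma0.ModularForm.HeckeSlashInvariance.heckeRep p y • τ))

/-- The same with multiplier `c γ = ζ ^ χ γ` for an additive character `χ : Γ₀(N) → ZMod m` and an
`m`-th root of unity `ζ`: the multiplier of `heckeProd p h` is `ζ ^ (T_p χ) γ`. -/
theorem heckeProd_smul_of_char (hpN : ¬ p ∣ N) {m : ℕ} [NeZero m] {ζ : ℂ} (hζ : ζ ^ m = 1)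
    {h : ℍ → ℂ} (χ : Additive (Gamma0 N) →+ ZMod m)
    (hc : ∀ (γ : Gamma0 N) (τ : ℍ),
      h ((γ : SL(2, ℤ)) • τ) = ζ ^ (χ (Additive.ofMul γ)).val * h τ)
    (γ : Gamma0 N) (τ : ℍ) :
    heckeProd p h ((γ : SL(2, ℤ)) • τ)
      = ζ ^ (heckeHom p hpN (ZMod m) χ (Additive.ofMul γ)).val * heckeProd p h τ := by
  rw [heckeProd_smul hpN (c := fun γ => ζ ^ (χ (Additive.ofMul γ)).val) hc γ τ]
  congr 1
  rw [Finset.prod_pow_eq_pow_sum, heckeHom_apply]
  -- `ζ ^ a = ζ ^ b` when `a ≡ b mod m`
  have key : ∀ a b : ℕ, (a : ZMod m) = (b : ZMod m) → ζ ^ a = ζ ^ b := by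
    intro a b hab
    have hab' : a ≡ b [MOD m] := (ZMod.natCast_eq_natCast_iff a b m).mp hab
    rw [← Nat.div_add_mod a m, ← Nat.div_add_mod b m, pow_add, pow_add, pow_mul, pow_mul, hζ,
      one_pow, one_pow, one_mul, one_mul, hab']
  apply key
  rw [Nat.cast_sum, ZMod.natCast_zmod_val]
  simp only [ZMod.natCast_zmod_val]

end Fermat.Agent.S29.H395

end

end
-- ===== PACK-END S29/H395/ProdChar.lean

-- ===== PACK-BEGIN S29/H942/MeroRootFinite.lean
section


/-!
# `p`-th roots of meromorphic functions with finitely many zeros and poles on simply connected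
open sets
-/

set_option autoImplicit false

noncomputable section

open Filter Topology Set Complex MeromorphicOn Function

namespace Fermat.Agent.S29.H942

/-- The `p`-th power of the factorized rational function with exponents `e` is the factorized
rational function with exponents `p * e`. -/
lemma factorizedRational_pow {e : ℂ → ℤ} (he : e.HasFiniteSupport) (p : ℕ) :
    (∏ᶠ u, ((· - u) : ℂ → ℂ) ^ e u) ^ p = ∏ᶠ u, ((· - u) : ℂ → ℂ) ^ ((p : ℤ) * e u) := by
  have h1 : (fun u => ((· - u) : ℂ → ℂ) ^ e u).HasFiniteMulSupport := by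
    have := FactorizedRational.mulSupport e
    unfold Function.HasFiniteMulSupport
    rw [this]
    exact he
  rw [finprod_pow h1]
  refine finprod_congr fun u => ?_
  rw [← zpow_natCast, ← zpow_mul, mul_comm]

/-- **Finite case.** A meromorphic function on a simply connected open set with finitely many
zeros and poles, all of order divisible by `p`, has a meromorphic `p`-th root. -/
theorem exists_meromorphicOn_pow_eq_of_finite {f : ℂ → ℂ} {U : Set ℂ}
    (hUc : IsSimplyConnected U) (hU : IsOpen U) (hf : MeromorphicOn f U)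
    (h₂f : ∀ u : U, meromorphicOrderAt f u ≠ ⊤) (h₃f : (divisor f U).support.Finite)
    {p : ℕ} (hp : p ≠ 0) (hdiv : ∀ z, (p : ℤ) ∣ divisor f U z) :
    ∃ h : ℂ → ℂ, MeromorphicOn h U ∧ (h ^ p) =ᶠ[codiscreteWithin U] f := by
  obtain ⟨g, hg, hgne, hfg⟩ := hf.extract_zeros_poles h₂f h₃f
  obtain ⟨r, hr, hrp⟩ := exists_analyticOnNhd_pow_eq hUc hU hp hg (fun z hz => hgne ⟨z, hz⟩)
  set e : ℂ → ℤ := fun u => divisor f U u / (p : ℤ) with he
  have hpe : ∀ u, (p : ℤ) * e u = divisor f U u := fun u => Int.mul_ediv_cancel' (hdiv u)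
  have hesupp : e.HasFiniteSupport := by
    refine Set.Finite.subset h₃f ?_
    intro u hu
    simp only [Function.mem_support, ne_eq] at hu ⊢
    intro h0
    apply hu
    simp [he, h0]
  refine ⟨(∏ᶠ u, ((· - u) : ℂ → ℂ) ^ e u) * r, ?_, ?_⟩
  · exact ((FactorizedRational.meromorphicNFOn e U).meromorphicOn).mul hr.meromorphicOn
  · have h1 : ((∏ᶠ u, ((· - u) : ℂ → ℂ) ^ e u) * r) ^ p =
        (∏ᶠ u, ((· - u) : ℂ → ℂ) ^ divisor f U u) • g := by
      rw [mul_pow, factorizedRational_pow hesupp]
      simp_rw [hpe]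
      ext z
      simp [hrp z]
    rw [h1]
    exact hfg.symm

end Fermat.Agent.S29.H942

end
end
-- ===== PACK-END S29/H942/MeroRootFinite.lean

-- ===== PACK-BEGIN S28/H867/Leaves.lean
section
/-
S28 [L] (helper867): leaf interface for the degree bookkeeping behind `coreData`.
Only definitions and `Prop`-valued leaf statements live here (no proofs needed).
-/



set_option autoImplicit false

noncomputable section

open ModularCurve HahnSeries IntermediateField

namespace Fermat.Agent.S28.H867

variable (k : Type*) [Field k]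

/-- `j(q^p)` as a Laurent series over `k`. -/
abbrev jp (p : ℕ) [NeZero p] : LaurentSeries k := qExpand k p (jqModC k)

/-- `k(j(q^p)) ⊂ k((q))`. -/
def jpField (p : ℕ) [NeZero p] : IntermediateField k (LaurentSeries k) :=
  IntermediateField.adjoin k {jp k p}

/-- `E_M = k(j(q^d) : d ∣ M)`. -/
abbrev EF (M : ℕ) : IntermediateField k (LaurentSeries k) := modularFunctionFieldFullC k M

/-- `[E_M : k(j)]` (zero if infinite). -/
def degE (M : ℕ) : ℕ := (jField k).relfinrank (EF k M)

/-- The expected degree `ψ(N) = ∏_{p ∣ N} (p + 1) p^{v_p(N) - 1}`. -/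
def gFun (N : ℕ) : ℕ := ∏ p ∈ N.primeFactors, (p + 1) * p ^ (N.factorization p - 1)

/-- Leaf [L.I]: `1, j, …, j^{p-1}` are linearly independent over every subfield of
`k((q^p)) = range V_p`. True for every field `k` and every `p ≥ 1`. -/
def LeafI (p : ℕ) [NeZero p] : Prop :=
  ∀ B : IntermediateField k (LaurentSeries k),
    B ≤ (qExpandAlgHomC k p).fieldRange →
    LinearIndependent B (fun i : Fin p => (jqModC k) ^ (i : ℕ))

/-- Leaf [L.B1]: `j(q^p) ∉ k(j)`. True when `p` is prime and `(p : k) ≠ 0`. -/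
def LeafB1 (p : ℕ) [NeZero p] : Prop := jp k p ∉ jField k

/-- Leaf [L.UP]: upper bound in characteristic zero. -/
def LeafUP (N : ℕ) : Prop := ∀ M : ℕ, M ∣ N → degE ℚ M ≤ gFun M

/-- Prime-level degrees: `[k(j, j_p) : k(j)] = p + 1 = [k(j, j_p) : k(j_p)]`. -/
structure PrimeLevel (p : ℕ) [NeZero p] : Prop where
  deg_j : (jField k).relfinrank (jField k ⊔ jpField k p) = p + 1
  deg_jp : (jpField k p).relfinrank (jField k ⊔ jpField k p) = p + 1

end Fermat.Agent.S28.H867

end

end
-- ===== PACK-END S28/H867/Leaves.lean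

-- ===== PACK-BEGIN S28/H145/PrimeDegree.lean
section





/-!
# Leaf [L.B2] of the S28 plan: the prime-level degrees are `p + 1`

From the modular polynomial `Φ_p` (`ModPolyData p`) and `j(q^p) ∉ k(j)` we deduce that
`j(q^p)` has degree exactly `p + 1` over `k(j)` and `j` has degree exactly `p + 1` over
`k(j(q^p))`.
-/

set_option autoImplicit false

noncomputable section

open ModularCurve HahnSeries Polynomial

namespace Fermat.Agent.S28.H145

variable (k : Type*) [Field k]

/-! ### Basic facts on `j` -/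

theorem jqModC_ne_zero' : jqModC k ≠ 0 := jqModC_ne_zero_of_nontrivial k

theorem order_jqModC : (jqModC k).order = -1 := by
  have h1 : (jqModC k).coeff (-1) ≠ 0 := by
    rw [coeff_jqModC_neg_one]; exact one_ne_zero
  refine le_antisymm (HahnSeries.order_le_of_coeff_ne_zero h1) ?_
  by_contra hlt
  rw [not_le] at hlt
  exact (HahnSeries.coeff_order_eq_zero.not.mpr (jqModC_ne_zero' k)) (coeff_jqModC_of_lt k hlt)

theorem isCoprime_order_jqModC (p : ℕ) : IsCoprime (jqModC k).order (p : ℤ) := by
  rw [order_jqModC]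
  exact (isCoprime_one_left).neg_left

/-- `j ∉ range V_p` for `p ≥ 2`. -/
theorem jqModC_notMem_range (p : ℕ) [NeZero p] (hp : 2 ≤ p) :
    jqModC k ∉ (qExpand k p).range := by
  rintro ⟨z, hz⟩
  have h := dvd_order_qExpand (k := k) p z
  rw [hz, order_jqModC] at h
  have h1 : (p : ℤ) ∣ 1 := (dvd_neg.mp h)
  have h2 : (p : ℤ) ≤ 1 := Int.le_of_dvd one_pos h1
  have : (2 : ℤ) ≤ p := by exact_mod_cast hp
  omega

/-! ### Transfer of the modular equation to `k` -/

theorem coeffMap_comp_evalAt {A B : Type*} [CommRing A] [CommRing B] (f : A →+* B)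
    (y : LaurentSeries A) :
    (coeffMap f).comp (evalAt y) = evalAt (coeffMap f y) := by
  refine Polynomial.ringHom_ext' (Subsingleton.elim _ _) ?_
  simp [evalAt]

theorem qExpand_comp_evalAt {A : Type*} [CommRing A] (p : ℕ) [NeZero p] (y : LaurentSeries A) :
    (qExpand A p).comp (evalAt y) = evalAt (qExpand A p y) := by
  refine Polynomial.ringHom_ext' (Subsingleton.elim _ _) ?_
  simp [evalAt]

variable {k} in
theorem modPoly_eval_jp_field {p : ℕ} [NeZero p] (Φ : ModPolyData p) :
    Φ.Φ.eval₂ (evalAt (jqModC k)) (qExpand k p (jqModC k)) = 0 := by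
  have h := congrArg (coeffMap (Int.castRingHom k)) Φ.eval_jp
  rwa [Polynomial.hom_eval₂, coeffMap_comp_evalAt, coeffMap_qExpand, coeffMap_jqModC, map_zero]
    at h

variable {k} in
theorem modPoly_eval_j_field {p : ℕ} [NeZero p] (Φ : ModPolyData p) :
    Φ.Φ.eval₂ (evalAt (qExpand k p (jqModC k))) (jqModC k) = 0 := by
  have h := congrArg (coeffMap (Int.castRingHom k)) Φ.eval_j
  rwa [Polynomial.hom_eval₂, coeffMap_comp_evalAt, coeffMap_qExpand, coeffMap_jqModC, map_zero]
    at h

variable {k} in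
/-- `Φ_p(j(q^{p²}), j(q^p)) = 0`. -/
theorem modPoly_eval_jpp_field {p : ℕ} [NeZero p] (Φ : ModPolyData p) :
    Φ.Φ.eval₂ (evalAt (qExpand k p (jqModC k))) (qExpand k p (qExpand k p (jqModC k))) = 0 := by
  have h := congrArg (qExpand k p) (modPoly_eval_jp_field (k := k) Φ)
  rwa [Polynomial.hom_eval₂, qExpand_comp_evalAt, map_zero] at h

/-! ### Polynomials over intermediate fields -/

section Sub

variable {k}
variable (K : IntermediateField k (LaurentSeries k))

/-- The ring hom `ℤ[Y] → K`, `Y ↦ y`, for `y ∈ K`. -/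
def evalAtSub (y : LaurentSeries k) (hy : y ∈ K) : Polynomial ℤ →+* K :=
  Polynomial.eval₂RingHom (Int.castRingHom K) ⟨y, hy⟩

theorem algebraMap_comp_evalAtSub (y : LaurentSeries k) (hy : y ∈ K) :
    (algebraMap K (LaurentSeries k)).comp (evalAtSub K y hy) = evalAt y := by
  refine Polynomial.ringHom_ext' (Subsingleton.elim _ _) ?_
  simp [evalAtSub, evalAt]

theorem aeval_map_evalAtSub (y : LaurentSeries k) (hy : y ∈ K) (P : Polynomial (Polynomial ℤ))
    (x : LaurentSeries k) :
    Polynomial.aeval x (P.map (evalAtSub K y hy)) = P.eval₂ (evalAt y) x := by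
  rw [Polynomial.aeval_def, Polynomial.eval₂_map, algebraMap_comp_evalAtSub]

end Sub

/-! ### The fields `k(j)` and `k(j(q^p))` -/

section Fields

variable (p : ℕ) [NeZero p]

/-- `k(j(q^p)) = V_p(k(j))`. -/
def jpField : IntermediateField k (LaurentSeries k) :=
  (jField k).map (qExpandAlgHomC k p)

variable {k p}

theorem jqModC_mem_jField : jqModC k ∈ jField k :=
  IntermediateField.mem_adjoin_simple_self k _

theorem jp_mem_jpField : qExpand k p (jqModC k) ∈ jpField k p :=
  (IntermediateField.mem_map _).mpr ⟨jqModC k, jqModC_mem_jField, rfl⟩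

theorem jpField_eq_adjoin :
    jpField k p = IntermediateField.adjoin k {qExpand k p (jqModC k)} := by
  rw [jpField, jField, IntermediateField.adjoin_map]
  simp

theorem mem_range_of_mem_jpField {y : LaurentSeries k} (hy : y ∈ jpField k p) :
    y ∈ (qExpand k p).range := by
  obtain ⟨x, -, rfl⟩ := (IntermediateField.mem_map _).mp hy
  exact ⟨x, rfl⟩

theorem jp_mem_jField_of_jpp_mem
    (h : qExpand k p (qExpand k p (jqModC k)) ∈ jpField k p) :
    qExpand k p (jqModC k) ∈ jField k := by
  obtain ⟨x, hx, hxe⟩ := (IntermediateField.mem_map _).mp h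
  have : x = qExpand k p (jqModC k) := qExpand_injective p hxe
  rwa [← this]

end Fields

/-! ### The degree of `j` over `k(j(q^p))` -/

section Main

variable {k} {p : ℕ} [NeZero p]

/-- A monic polynomial of degree `p` with coefficients in the range of `V_p` cannot kill both
`j` and an element of the range of `V_p`. -/
theorem false_of_monic_natDegree_eq_of_roots (hp : 2 ≤ p) (f : Polynomial (LaurentSeries k))
    (hf : f.Monic) (hdeg : f.natDegree = p) (hcoef : ∀ n, f.coeff n ∈ (qExpand k p).range)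
    (hj : f.eval (jqModC k) = 0) (z : LaurentSeries k) (hz : f.eval (qExpand k p z) = 0) :
    False := by
  have hlift : f ∈ Polynomial.lifts (qExpand k p) :=
    (Polynomial.lifts_iff_coeff_lifts f).mpr fun n => by
      obtain ⟨c, hc⟩ := hcoef n
      exact ⟨c, hc⟩
  obtain ⟨m', hm'map, hm'deg, hm'monic⟩ := Polynomial.lifts_and_natDegree_eq_and_monic hlift hf
  have hroot : m'.IsRoot z := by
    have h1 : (qExpand k p) (m'.eval z) = 0 := by
      rw [← Polynomial.eval₂_hom, ← Polynomial.eval_map, hm'map]; exact hz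
    exact qExpand_injective p (by rw [h1, map_zero])
  have hfac : (X - Polynomial.C z) * (m' /ₘ (X - Polynomial.C z)) = m' := Polynomial.mul_divByMonic_eq_iff_isRoot.mpr hroot
  set m₂ := m' /ₘ (X - Polynomial.C z) with hm₂
  have hm₂deg : m₂.natDegree = p - 1 := by
    rw [hm₂, Polynomial.natDegree_divByMonic _ (Polynomial.monic_X_sub_C z), hm'deg, hdeg,
      Polynomial.natDegree_X_sub_C]
  have hfmap : f = (X - Polynomial.C (qExpand k p z)) * m₂.map (qExpand k p) := by
    rw [← hm'map, ← hfac, Polynomial.map_mul, Polynomial.map_sub, Polynomial.map_X,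
      Polynomial.map_C]
  have hne : jqModC k - qExpand k p z ≠ 0 := by
    intro h
    exact jqModC_notMem_range k p hp ⟨z, (sub_eq_zero.mp h).symm⟩
  have hj2 : (m₂.map (qExpand k p)).eval (jqModC k) = 0 := by
    have := hj
    rw [hfmap, Polynomial.eval_mul, Polynomial.eval_sub, Polynomial.eval_X, Polynomial.eval_C]
      at this
    exact (mul_eq_zero.mp this).resolve_left hne
  have hzero : m₂.map (qExpand k p) = 0 := by
    refine eq_zero_of_eval_eq_zero_of_natDegree_lt p (jqModC k) (jqModC_ne_zero' k)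
      (isCoprime_order_jqModC k p) _ (fun n => ?_) ?_ hj2
    · rw [Polynomial.coeff_map]; exact ⟨_, rfl⟩
    · calc (m₂.map (qExpand k p)).natDegree ≤ m₂.natDegree := Polynomial.natDegree_map_le
        _ = p - 1 := hm₂deg
        _ < p := by omega
  rw [hzero, mul_zero] at hfmap
  exact hf.ne_zero hfmap

/-- **[L.B2], first half.** The minimal polynomial of `j` over `k(j(q^p))` is `Φ_p(X, j(q^p))`,
of degree `p + 1`. -/
theorem minpoly_j_over_jpField (Φ : ModPolyData p) (hp : 2 ≤ p)
    (hB1 : qExpand k p (jqModC k) ∉ jField k) :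
    minpoly (jpField k p) (jqModC k) =
      Φ.Φ.map (evalAtSub (jpField k p) _ jp_mem_jpField) := by
  set K₁ := jpField k p with hK₁
  set P₁ : Polynomial K₁ := Φ.Φ.map (evalAtSub K₁ _ jp_mem_jpField) with hP₁
  have hP₁monic : P₁.Monic := Φ.monic.map _
  have hP₁deg : P₁.natDegree = p + 1 := by
    rw [hP₁, Φ.monic.natDegree_map, Φ.natDegree_eq]
  have hroot_j : Polynomial.aeval (jqModC k) P₁ = 0 := by
    rw [hP₁, aeval_map_evalAtSub]; exact modPoly_eval_j_field Φ
  have hroot_jpp : Polynomial.aeval (qExpand k p (qExpand k p (jqModC k))) P₁ = 0 := by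
    rw [hP₁, aeval_map_evalAtSub]; exact modPoly_eval_jpp_field Φ
  have hint : IsIntegral K₁ (jqModC k) := ⟨P₁, hP₁monic, by rwa [← Polynomial.aeval_def]⟩
  set m := minpoly K₁ (jqModC k) with hm
  have hm_dvd : m ∣ P₁ := minpoly.dvd K₁ _ hroot_j
  have hm_monic : m.Monic := minpoly.monic hint
  have hm_le : m.natDegree ≤ p + 1 :=
    hP₁deg ▸ Polynomial.natDegree_le_of_dvd hm_dvd hP₁monic.ne_zero
  have hcoef : ∀ n, (m.map (algebraMap K₁ (LaurentSeries k))).coeff n ∈ (qExpand k p).range := by
    intro n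
    rw [Polynomial.coeff_map]
    exact mem_range_of_mem_jpField (m.coeff n).2
  have hmj : (m.map (algebraMap K₁ (LaurentSeries k))).eval (jqModC k) = 0 := by
    rw [Polynomial.eval_map, ← Polynomial.aeval_def]; exact minpoly.aeval K₁ _
  -- Claim A
  have hA : p ≤ m.natDegree := by
    by_contra hlt
    rw [not_le] at hlt
    have := eq_zero_of_eval_eq_zero_of_natDegree_lt p (jqModC k) (jqModC_ne_zero' k)
      (isCoprime_order_jqModC k p) (m.map (algebraMap K₁ (LaurentSeries k))) hcoef
      (by rwa [hm_monic.natDegree_map]) hmj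
    exact (hm_monic.map _).ne_zero this
  -- Claim B
  have hB : m.natDegree ≠ p := by
    intro hdeg
    obtain ⟨r, hr⟩ := hm_dvd
    have hr_monic : r.Monic := hm_monic.of_mul_monic_left (hr ▸ hP₁monic)
    have hr_deg : r.natDegree = 1 := by
      have := congrArg Polynomial.natDegree hr
      rw [hm_monic.natDegree_mul hr_monic, hP₁deg, hdeg] at this
      omega
    have hr_eq : r = X + Polynomial.C (r.coeff 0) := hr_monic.eq_X_add_C hr_deg
    have h0 : Polynomial.aeval (qExpand k p (qExpand k p (jqModC k))) m *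
        Polynomial.aeval (qExpand k p (qExpand k p (jqModC k))) r = 0 := by
      rw [← map_mul, ← hr]; exact hroot_jpp
    rcases mul_eq_zero.mp h0 with h1 | h1
    · refine false_of_monic_natDegree_eq_of_roots hp (m.map (algebraMap K₁ (LaurentSeries k)))
        (hm_monic.map _) (by rw [hm_monic.natDegree_map, hdeg]) hcoef hmj
        (qExpand k p (jqModC k)) ?_
      rw [Polynomial.eval_map, ← Polynomial.aeval_def]; exact h1
    · rw [hr_eq] at h1
      simp only [map_add, Polynomial.aeval_X, Polynomial.aeval_C] at h1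
      have hmem : qExpand k p (qExpand k p (jqModC k)) ∈ K₁ := by
        have : qExpand k p (qExpand k p (jqModC k)) =
            -(algebraMap K₁ (LaurentSeries k) (r.coeff 0)) := eq_neg_of_add_eq_zero_left h1
        rw [this]
        exact neg_mem (r.coeff 0).2
      exact hB1 (jp_mem_jField_of_jpp_mem hmem)
  have hdeg : m.natDegree = p + 1 := by omega
  exact (Polynomial.eq_of_monic_of_dvd_of_natDegree_le hm_monic hP₁monic hm_dvd
    (by rw [hP₁deg, hdeg])).symm

theorem natDegree_minpoly_j_over_jpField (Φ : ModPolyData p) (hp : 2 ≤ p)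
    (hB1 : qExpand k p (jqModC k) ∉ jField k) :
    (minpoly (jpField k p) (jqModC k)).natDegree = p + 1 := by
  rw [minpoly_j_over_jpField Φ hp hB1, Φ.monic.natDegree_map, Φ.natDegree_eq]

/-- The minimal polynomial of `j(q^{p²})` over `k(j(q^p))` is also `Φ_p(X, j(q^p))`. -/
theorem minpoly_jpp_over_jpField (Φ : ModPolyData p) (hp : 2 ≤ p)
    (hB1 : qExpand k p (jqModC k) ∉ jField k) :
    minpoly (jpField k p) (qExpand k p (qExpand k p (jqModC k))) =
      Φ.Φ.map (evalAtSub (jpField k p) _ jp_mem_jpField) := by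
  have hP₁monic : (Φ.Φ.map (evalAtSub (jpField k p) _ jp_mem_jpField)).Monic := Φ.monic.map _
  have hroot_j : Polynomial.aeval (jqModC k)
      (Φ.Φ.map (evalAtSub (jpField k p) _ jp_mem_jpField)) = 0 := by
    rw [aeval_map_evalAtSub]; exact modPoly_eval_j_field Φ
  have hint : IsIntegral (jpField k p) (jqModC k) :=
    ⟨_, hP₁monic, by rwa [← Polynomial.aeval_def]⟩
  have hirr : Irreducible (Φ.Φ.map (evalAtSub (jpField k p) _ jp_mem_jpField)) := by
    rw [← minpoly_j_over_jpField Φ hp hB1]
    exact minpoly.irreducible hint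
  refine (minpoly.eq_of_irreducible_of_monic hirr ?_ hP₁monic).symm
  rw [aeval_map_evalAtSub]
  exact modPoly_eval_jpp_field Φ

/-- The ring isomorphism `k(j) ≃ k(j(q^p))` induced by `V_p`. -/
def jFieldEquiv (k : Type*) [Field k] (p : ℕ) [NeZero p] : jField k ≃ₐ[k] jpField k p :=
  IntermediateField.equivMap (jField k) (qExpandAlgHomC k p)

theorem algebraMap_comp_jFieldEquiv :
    (algebraMap (jpField k p) (LaurentSeries k)).comp (jFieldEquiv k p : jField k →+* jpField k p)
      = (qExpand k p).comp (algebraMap (jField k) (LaurentSeries k)) := by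
  ext x
  rfl

/-- **[L.B2], second half.** The minimal polynomial of `j(q^p)` over `k(j)` is `Φ_p(X, j)`. -/
theorem minpoly_jp_over_jField (Φ : ModPolyData p) (hp : 2 ≤ p)
    (hB1 : qExpand k p (jqModC k) ∉ jField k) :
    minpoly (jField k) (qExpand k p (jqModC k)) =
      Φ.Φ.map (evalAtSub (jField k) _ jqModC_mem_jField) := by
  set K₀ := jField k with hK₀
  set P₀ : Polynomial K₀ := Φ.Φ.map (evalAtSub K₀ _ jqModC_mem_jField) with hP₀
  have hP₀monic : P₀.Monic := Φ.monic.map _
  have hP₀deg : P₀.natDegree = p + 1 := by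
    rw [hP₀, Φ.monic.natDegree_map, Φ.natDegree_eq]
  have hroot : Polynomial.aeval (qExpand k p (jqModC k)) P₀ = 0 := by
    rw [hP₀, aeval_map_evalAtSub]; exact modPoly_eval_jp_field Φ
  have hint : IsIntegral K₀ (qExpand k p (jqModC k)) :=
    ⟨P₀, hP₀monic, by rwa [← Polynomial.aeval_def]⟩
  set m₀ := minpoly K₀ (qExpand k p (jqModC k)) with hm₀
  have hm₀_dvd : m₀ ∣ P₀ := minpoly.dvd K₀ _ hroot
  have hm₀_monic : m₀.Monic := minpoly.monic hint
  -- transport to `k(j(q^p))`
  set g : Polynomial (jpField k p) := m₀.map (jFieldEquiv k p : jField k →+* jpField k p) with hg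
  have hg_monic : g.Monic := hm₀_monic.map _
  have hg_deg : g.natDegree = m₀.natDegree := hm₀_monic.natDegree_map _
  have hg_root : Polynomial.aeval (qExpand k p (qExpand k p (jqModC k))) g = 0 := by
    rw [hg, Polynomial.aeval_def, Polynomial.eval₂_map, algebraMap_comp_jFieldEquiv,
      ← Polynomial.hom_eval₂, ← Polynomial.aeval_def, minpoly.aeval, map_zero]
  have hdvd : minpoly (jpField k p) (qExpand k p (qExpand k p (jqModC k))) ∣ g :=
    minpoly.dvd _ _ hg_root
  rw [minpoly_jpp_over_jpField Φ hp hB1] at hdvd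
  have hle : p + 1 ≤ m₀.natDegree := by
    have := Polynomial.natDegree_le_of_dvd hdvd hg_monic.ne_zero
    rwa [Φ.monic.natDegree_map, Φ.natDegree_eq, hg_deg] at this
  exact (Polynomial.eq_of_monic_of_dvd_of_natDegree_le hm₀_monic hP₀monic hm₀_dvd
    (by rw [hP₀deg]; exact hle)).symm

theorem natDegree_minpoly_jp_over_jField (Φ : ModPolyData p) (hp : 2 ≤ p)
    (hB1 : qExpand k p (jqModC k) ∉ jField k) :
    (minpoly (jField k) (qExpand k p (jqModC k))).natDegree = p + 1 := by
  rw [minpoly_jp_over_jField Φ hp hB1, Φ.monic.natDegree_map, Φ.natDegree_eq]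

theorem isIntegral_jp_over_jField (Φ : ModPolyData p) :
    IsIntegral (jField k) (qExpand k p (jqModC k)) := by
  refine ⟨Φ.Φ.map (evalAtSub (jField k) _ jqModC_mem_jField), Φ.monic.map _, ?_⟩
  rw [← Polynomial.aeval_def, aeval_map_evalAtSub]
  exact modPoly_eval_jp_field Φ

theorem isIntegral_j_over_jpField (Φ : ModPolyData p) :
    IsIntegral (jpField k p) (jqModC k) := by
  refine ⟨Φ.Φ.map (evalAtSub (jpField k p) _ jp_mem_jpField), Φ.monic.map _, ?_⟩
  rw [← Polynomial.aeval_def, aeval_map_evalAtSub]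
  exact modPoly_eval_j_field Φ

/-- `[k(j, j(q^p)) : k(j)] = p + 1`. -/
theorem finrank_adjoin_jp_over_jField (Φ : ModPolyData p) (hp : 2 ≤ p)
    (hB1 : qExpand k p (jqModC k) ∉ jField k) :
    Module.finrank (jField k)
      (IntermediateField.adjoin (jField k) {qExpand k p (jqModC k)}) = p + 1 := by
  have h := IntermediateField.adjoin.finrank (isIntegral_jp_over_jField (k := k) Φ)
  rw [h, natDegree_minpoly_jp_over_jField Φ hp hB1]

/-- `[k(j(q^p), j) : k(j(q^p))] = p + 1`. -/
theorem finrank_adjoin_j_over_jpField (Φ : ModPolyData p) (hp : 2 ≤ p)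
    (hB1 : qExpand k p (jqModC k) ∉ jField k) :
    Module.finrank (jpField k p)
      (IntermediateField.adjoin (jpField k p) {jqModC k}) = p + 1 := by
  have h := IntermediateField.adjoin.finrank (isIntegral_j_over_jpField (k := k) Φ)
  rw [h, natDegree_minpoly_j_over_jpField Φ hp hB1]

end Main

end Fermat.Agent.S28.H145

end

end
-- ===== PACK-END S28/H145/PrimeDegree.lean

-- ===== PACK-BEGIN S18/H333/Forms.lean
section




/-!
# S18 / c3 (helper333): level-one forms on `Γ₀(p)` — restriction and `V_p`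

* `restr p H` : a level-one modular form `H` viewed on `Γ₀(p)`;
* `raise p H` : `τ ↦ H (p τ)` as a modular form on `Γ₀(p)`;
* `qExpansion_raise` : the `q`-expansion of `raise p H` is `Vser p (qExpansion H)`.
-/

set_option autoImplicit false
set_option linter.unusedSectionVars false

noncomputable section

namespace Fermat.Agent.S18.H333

open UpperHalfPlane ModularForm CongruenceSubgroup MatrixGroups Matrix.SpecialLinearGroup

variable (p : ℕ) [NeZero p]

theorem det_eq_one' (g : SL(2, ℤ)) : g 0 0 * g 1 1 - g 0 1 * g 1 0 = 1 := by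
  have h := g.det_coe
  rwa [Matrix.det_fin_two] at h

theorem diag_mul_mapGL (g : SL(2, ℤ)) (e : ℤ) (he : g 1 0 = p * e) :
    ∃ g' : SL(2, ℤ), heckeDiagMatrix p * mapGL ℝ g = mapGL ℝ g' * heckeDiagMatrix p := by
  have hp := NeZero.ne p
  have hdet := det_eq_one' g
  obtain ⟨g', hg'⟩ : ∃ g' : SL(2, ℤ),
      (g' : Matrix (Fin 2) (Fin 2) ℤ) = !![g 0 0, p * g 0 1; e, g 1 1] := by
    refine ⟨⟨!![g 0 0, p * g 0 1; e, g 1 1], ?_⟩, rfl⟩
    rw [Matrix.det_fin_two_of]
    linear_combination hdet + (g 0 1) * he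
  refine ⟨g', ?_⟩
  apply Units.ext
  rw [Units.val_mul, Units.val_mul, val_heckeDiagMatrix hp, mapGL_coe_matrix, mapGL_coe_matrix]
  have he' : ((g 1 0 : ℤ) : ℝ) = p * e := by exact_mod_cast he
  ext i j
  fin_cases i <;> fin_cases j <;>
    simp [Matrix.mul_apply, Fin.sum_univ_two, he', hg'] <;> ring

open ConjAct Pointwise in
theorem Gamma0_le_conj_diag :
    (Gamma0 p : Subgroup (GL (Fin 2) ℝ)) ≤
      toConjAct (heckeDiagMatrix p)⁻¹ • (𝒮ℒ : Subgroup (GL (Fin 2) ℝ)) := by
  rintro _ ⟨g, hg, rfl⟩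
  obtain ⟨e, he⟩ : (p : ℤ) ∣ g 1 0 := by
    have hg' : g ∈ Gamma0 p := hg
    rwa [CongruenceSubgroup.Gamma0_mem, ZMod.intCast_zmod_eq_zero_iff_dvd] at hg'
  obtain ⟨g', hg'⟩ := diag_mul_mapGL p g e he
  rw [Subgroup.mem_pointwise_smul_iff_inv_smul_mem, ← toConjAct_inv, inv_inv, toConjAct_smul, hg',
    mul_inv_cancel_right]
  exact ⟨g', rfl⟩

omit [NeZero p] in
theorem Gamma0_le_top : (Gamma0 p : Subgroup (GL (Fin 2) ℝ)) ≤ (𝒮ℒ : Subgroup (GL (Fin 2) ℝ)) := by
  rintro _ ⟨g, -, rfl⟩
  exact ⟨g, rfl⟩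

/-- `H ∣[k] diag(p,1)`, i.e. `τ ↦ p^(k-1) H(p τ)`, as a modular form on `Γ₀(p)`. -/
def raise0 {k : ℤ} (H : ModularForm 𝒮ℒ k) : ModularForm (Gamma0 p) k where
  toFun := (⇑H : ℍ → ℂ) ∣[k] heckeDiagMatrix p
  slash_action_eq' γ hγ :=
    (ModularForm.translate H (heckeDiagMatrix p)).slash_action_eq' γ
      (Gamma0_le_conj_diag p hγ)
  holo' := (ModularForm.translate H (heckeDiagMatrix p)).holo'
  bdd_at_cusps' hc :=
    (ModularForm.translate H (heckeDiagMatrix p)).bdd_at_cusps'
      (hc.mono (Gamma0_le_conj_diag p))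

/-- a level-one form viewed on `Γ₀(p)` -/
def restr {k : ℤ} (H : ModularForm 𝒮ℒ k) : ModularForm (Gamma0 p) k where
  toFun := (⇑H : ℍ → ℂ)
  slash_action_eq' γ hγ := H.slash_action_eq' γ (Gamma0_le_top p hγ)
  holo' := H.holo'
  bdd_at_cusps' hc := H.bdd_at_cusps' (hc.mono (Gamma0_le_top p))

@[simp] theorem coe_restr {k : ℤ} (H : ModularForm 𝒮ℒ k) : (⇑(restr p H) : ℍ → ℂ) = ⇑H := rfl

/-- `τ ↦ H(p τ)` as a modular form on `Γ₀(p)`. -/
def raise {k : ℤ} (H : ModularForm 𝒮ℒ k) : ModularForm (Gamma0 p) k :=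
  ((p : ℂ) ^ (1 - k)) • raise0 p H

theorem raise_apply {k : ℤ} (H : ModularForm 𝒮ℒ k) (τ : ℍ) :
    raise p H τ = H (heckeDiagMatrix p • τ) := by
  have hp' : (p : ℂ) ≠ 0 := by exact_mod_cast NeZero.ne p
  show ((p : ℂ) ^ (1 - k)) • ((⇑H : ℍ → ℂ) ∣[k] heckeDiagMatrix p) τ = _
  rw [slash_heckeDiagMatrix_apply k (NeZero.ne p), smul_eq_mul, ← mul_assoc, ← zpow_add₀ hp']
  simp

theorem one_mem_strictPeriods_Gamma0 :
    (1 : ℝ) ∈ (Gamma0 p : Subgroup (GL (Fin 2) ℝ)).strictPeriods := by
  simp [CongruenceSubgroup.strictPeriods_Gamma0]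

theorem one_mem_strictPeriods_top :
    (1 : ℝ) ∈ (𝒮ℒ : Subgroup (GL (Fin 2) ℝ)).strictPeriods := by
  simp

theorem qParam_diag (τ : ℍ) :
    Function.Periodic.qParam 1 ((heckeDiagMatrix p • τ : ℍ) : ℂ) =
      Function.Periodic.qParam 1 (τ : ℂ) ^ p := by
  rw [coe_heckeDiagMatrix_smul (NeZero.ne p), Function.Periodic.qParam,
    Function.Periodic.qParam, ← Complex.exp_nat_mul]
  congr 1
  push_cast
  ring

theorem qExpansion_raise {k : ℤ} (H : ModularForm 𝒮ℒ k) :
    qExpansion 1 (raise p H) = Vser p (qExpansion 1 H) := by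
  ext n
  symm
  refine ModularFormClass.qExpansion_coeff_unique (h := 1)
    (c := fun n => PowerSeries.coeff n (Vser p (qExpansion 1 H))) one_pos
    (_root_.Fermat.Agent.S18.H333.one_mem_strictPeriods_Gamma0 p) (f := raise p H) (fun τ => ?_) n
  rw [raise_apply]
  have h1 := ModularForm.hasSum_qExpansion (f := H) one_pos one_mem_strictPeriods_top
    (heckeDiagMatrix p • τ)
  rw [qParam_diag] at h1
  have hinj : Function.Injective (fun m : ℕ => p * m) :=
    fun a b hab => Nat.eq_of_mul_eq_mul_left (Nat.pos_of_ne_zero (NeZero.ne p)) hab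
  refine (hinj.hasSum_iff ?_).mp ?_
  · intro n hn
    have : ¬ p ∣ n := fun ⟨m, hm⟩ => hn ⟨m, hm.symm⟩
    simp [this]
  · convert h1 using 2 with m
    simp only [Function.comp_apply, coeff_Vser, dvd_mul_right, if_true,
      Nat.mul_div_cancel_left m (Nat.pos_of_ne_zero (NeZero.ne p)), smul_eq_mul, pow_mul]

end Fermat.Agent.S18.H333

end
end
-- ===== PACK-END S18/H333/Forms.lean

-- ===== PACK-BEGIN S18/Mod/Defs.lean
section



/-!
# S18 / MOD — frozen CONCRETE objects at level `M` (row-lead helper18)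

For a valuation subring `A` of `Q̄` and an intermediate field `E` of `Q̄/ℚ` (a number field in the
application) we define the sub-objects of `Ω := F_M = modularFunctionFieldBar M` that instantiate
`Alg.GoodModel`:

* `Lc M`       constants `Q̄`
* `Ec M E`     constants in `E`
* `Rc M A E`   constants in `A ∩ E`
* `Fc M E`     `E(j_d : d ∣ M)`
* `Vc M A E`   Gauss valuation ring: quotients `U₁/U₂` of series `U_i ∈ (A ∩ E)((q))` lying in `Fc`,
               with `U₂ ≢ 0` mod the maximal ideal of `A`.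

MOD deliverable: `GoodModelStatement` below.  GLUE deliverable: `GlueStatement` below (needed for
PRIME `m` only, see `Integ/Skeleton.lean`).

v4 = FINAL (landed on main): unchanged from v3 except that `Alg.GoodModel` has the new field
`x_mem_V` and `Alg.AlgMainStatement` is for prime `m`.
-/

set_option autoImplicit false

noncomputable section

namespace Fermat.Agent.S18.Mod

open ModularCurve AlgebraicCurve HahnSeries

/-- `Ω = F_M`, the function field of `X₀(M)` over `Q̄`, as a type. -/
abbrev Om (M : ℕ) : Type := ↥(modularFunctionFieldBar M)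

/-- The constants `Q̄ ⊆ Ω`. -/
def Lc (M : ℕ) : Subfield (Om M) := (algebraMap Qb (Om M)).fieldRange

/-- The constants from `E`. -/
def Ec (M : ℕ) (E : IntermediateField ℚ Qb) : Subfield (Om M) :=
  E.toSubfield.map (algebraMap Qb (Om M))

/-- The constants from `A ∩ E`. -/
def Rc (M : ℕ) (A : ValuationSubring Qb) (E : IntermediateField ℚ Qb) : Subring (Om M) :=
  (A.toSubring ⊓ E.toSubfield.toSubring).map (algebraMap Qb (Om M))

/-- The generator `j(q^d)` of `Ω`. -/
def jd (M : ℕ) (d : ℕ) [NeZero d] (hd : d ∣ M) : Om M :=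
  ⟨coeffEmb Qb (qExpand ℚ d jq), coeffEmb_mem_laurentBaseChange Qb (jqd_mem_full M hd)⟩

/-- `j ∈ Ω`. -/
def jOm (M : ℕ) : Om M := jd M 1 (one_dvd M)

/-- The set of generators `j(q^d)`, `d ∣ M`. -/
def gens (M : ℕ) : Set (Om M) := {y | ∃ (d : ℕ) (_ : NeZero d) (hd : d ∣ M), y = jd M d hd}

/-- `Fc = E(j_d : d ∣ M)`. -/
def Fc (M : ℕ) (E : IntermediateField ℚ Qb) : Subfield (Om M) :=
  Subfield.closure ((Ec M E : Set (Om M)) ∪ gens M)

/-- A series over `A` is `E`-rational, lies in `Fc`, (and is automatically `A`-integral). -/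
def IsIntE (M : ℕ) (A : ValuationSubring Qb) (E : IntermediateField ℚ Qb)
    (U : LaurentSeries A) : Prop :=
  (∀ n : ℤ, ((U.coeff n : A) : Qb) ∈ E) ∧
    ∃ f ∈ Fc M E, (f : LaurentSeries Qb) = coeffMap A.subtype U

/-- The Gauss valuation ring of `Fc`, as a set; it is a subring (part of the MOD deliverable). -/
def VcSet (M : ℕ) (A : ValuationSubring Qb) (E : IntermediateField ℚ Qb) : Set (Om M) :=
  {f | f ∈ Fc M E ∧ ∃ U₁ U₂ : LaurentSeries A, IsIntE M A E U₁ ∧ IsIntE M A E U₂ ∧
    coeffMap (IsLocalRing.residue A) U₂ ≠ 0 ∧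
    (f : LaurentSeries Qb) * coeffMap A.subtype U₂ = coeffMap A.subtype U₁}

/-- `x` is an admissible coordinate with finite branch set `S` for the residue characteristic `ℓ`:
`ℓ ≥ 5`: `x = j`, `S = {0, 1728}`;
`ℓ = 3`: `2 ∣ M`, `j x² = (x+256)³`, `S = {0, -64}`;
`ℓ = 2`: `3 ∣ M`, `j x³ = (x+27)(x+243)³`, `S = {0, -27}`;
in the last two cases `x` is the image of an integral series `q⁻¹ + …` lying in `ℚ(j_d : d ∣ M)`. -/
def IsCoordinate (M ℓ : ℕ) (x : Om M) (S : Finset (Om M)) : Prop :=
  (5 ≤ ℓ ∧ x = jOm M ∧ ∀ s, s ∈ S ↔ s = 0 ∨ s = 1728) ∨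
  ((ℓ = 3 ∧ jOm M * x ^ 2 = (x + 256) ^ 3 ∧ ∀ s, s ∈ S ↔ s = 0 ∨ s = -64) ∨
    (ℓ = 2 ∧ jOm M * x ^ 3 = (x + 27) * (x + 243) ^ 3 ∧ ∀ s, s ∈ S ↔ s = 0 ∨ s = -27)) ∧
   ∃ X : LaurentSeries ℤ, X.coeff (-1) = 1 ∧ (∀ k : ℤ, k < -1 → X.coeff k = 0) ∧
     (x : LaurentSeries Qb) = coeffMap (Int.castRingHom Qb) X ∧
     coeffMap (Int.castRingHom ℚ) X ∈ modularFunctionFieldFull M

/-- The family of all concrete models: one for each intermediate field `E` of `Q̄/ℚ` that is
finite over `ℚ`, with `V` the subring with underlying set `VcSet M A E` and `w` any element. -/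
def family (M : ℕ) (A : ValuationSubring Qb) : Set (Alg.Model (Om M)) :=
  {p | ∃ E : IntermediateField ℚ Qb, FiniteDimensional ℚ E ∧ p.1 = Ec M E ∧ p.2.1 = Fc M E ∧
    p.2.2.1 = Rc M A E ∧ (p.2.2.2.1 : Set (Om M)) = VcSet M A E}

/-- **MOD deliverable** (v3).  For every admissible coordinate `x` there is a directed family `𝓕`
of good models, consisting of concrete models, and containing a model over a number field
`E ∋ T` for every finite set `T` of elements of `Q̄`. -/
def GoodModelStatement (M ℓ : ℕ) (A : ValuationSubring Qb) : Prop :=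
  ∀ (x : Om M) (S : Finset (Om M)), IsCoordinate M ℓ x S →
    ∃ 𝓕 : Set (Alg.Model (Om M)), 𝓕 ⊆ family M A ∧ Alg.GoodFamily (Lc M) x S 𝓕 ∧
      ∀ T : Finset Qb, ∃ (E : IntermediateField ℚ Qb) (V : Subring (Om M)) (w : Om M),
        FiniteDimensional ℚ E ∧ (∀ a ∈ T, a ∈ E) ∧ (V : Set (Om M)) = VcSet M A E ∧
        ((Ec M E, Fc M E, Rc M A E, V, w) : Alg.Model (Om M)) ∈ 𝓕

/-- **Existence of coordinates** (c3): for `ℓ ∤ M`, with `2 ∣ M` if `ℓ = 3` and `3 ∣ M` if `ℓ = 2`. -/
def CoordinateStatement (M ℓ : ℕ) : Prop :=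
  ∃ (x : Om M) (S : Finset (Om M)), IsCoordinate M ℓ x S

/-- **ALG deliverable**, instantiated: `Alg.AlgMainStatement` for all arguments over `Ω = Om M`. -/
def AlgStatement (M : ℕ) : Prop :=
  ∀ (Lc : Subfield (Om M)) (x : Om M) (S : Finset (Om M)) (𝓕 : Set (Alg.Model (Om M))),
    Alg.AlgMainStatement Lc x S 𝓕

/-- **GLUE deliverable** (d1): the hub statement at level `M` from MOD and ALG. -/
def GlueStatement (M ℓ : ℕ) (A : ValuationSubring Qb) (m : ℕ) : Prop :=
  CoordinateStatement M ℓ → GoodModelStatement M ℓ A → AlgStatement M → CoreStatement M A m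

end Fermat.Agent.S18.Mod

end
end
-- ===== PACK-END S18/Mod/Defs.lean

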