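import Fermat.Prelude.Def_ModularCurve_HeckeModule
import Mathlib.NumberTheory.ModularForms.EisensteinSeries.QExpansion
import Mathlib.NumberTheory.ModularForms.LevelOne.DimensionFormula
import Mathlib
import Fermat.Prelude.Def_ModularCurve_X0ModL
import Fermat.Prelude.Def_ModularCurve_JqCoeff
import Fermat.Prelude.Def_ModularCurve_X0
import Mathlib.GroupTheory.Index
import Mathlib.SetTheory.Cardinal.NatCard
import Mathlib.SetTheory.Cardinal.Finite
import Fermat.Agent.Pack.S3234.G0E0L3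
import Fermat.Agent.Pack.S3234.G0E0L1
import Fermat.Agent.Pack.S3234.G0E0L2
import Fermat.Agent.Pack.S3234.G0E0L0
import Fermat.Agent.Pack.S3234.G0E1L3
import Fermat.Agent.Pack.S3234.G0E1L1
import Fermat.Agent.Pack.S3234.G0E1L0
import Fermat.Agent.Pack.S3234.G0E1L2

-- ===== PACK-BEGIN S21/DefsMS.lean
section


/-!
# S21 — definitions for the minimizing-sequence part (MS)
-/

set_option autoImplicit false

open UpperHalfPlane CongruenceSubgroup
open scoped MatrixGroups ContDiff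

namespace Fermat.Agent.S21

/-- Test functions: smooth, compactly supported in the upper half plane. -/
def IsTest (η : ℂ → ℝ) : Prop :=
  ContDiff ℝ ∞ η ∧ HasCompactSupport η ∧ tsupport η ⊆ Uhp

/-- The properties of a smooth `SL(2,ℤ)`-partition of unity (output of MS-A). -/
structure IsSL2ZPartition (χ₁ : ℂ → ℝ) : Prop where
  smooth : ContDiffOn ℝ ∞ χ₁ Uhp
  nonneg : ∀ z, 0 ≤ χ₁ z
  supp : ∀ z, χ₁ z ≠ 0 → |z.re| ≤ 1 ∧ 1 / 2 < z.im
  locfin : ∀ K : Set ℂ, IsCompact K → K ⊆ Uhp →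
    {g : SL(2, ℤ) | ∃ z ∈ K, χ₁ (mob g z) ≠ 0}.Finite
  sum_eq_one : ∀ z ∈ Uhp, ∑ᶠ g : SL(2, ℤ), χ₁ (mob g z) = 1

/-- The `Γ₀(N)`-partition of unity built from an `SL(2,ℤ)`-partition `χ₁`
(sum over representatives of the left cosets `g Γ₀(N)`), extended by `0` off the upper half
plane. -/
noncomputable def chi (N : ℕ) (χ₁ : ℂ → ℝ) : ℂ → ℝ :=
  Set.indicator Uhp fun z => ∑ᶠ q : SL(2, ℤ) ⧸ Gamma0 N, χ₁ (mob (Quotient.out q) z)

/-- `Γ₀(N)`-symmetrization of a test function. -/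
noncomputable def sym (N : ℕ) (η : ℂ → ℝ) : ℂ → ℝ :=
  fun z => ∑ᶠ γ : Gamma0 N, η (mob (γ : SL(2, ℤ)) z)

end Fermat.Agent.S21

end
-- ===== PACK-END S21/DefsMS.lean

-- ===== PACK-BEGIN S21/Partition.lean
section


/-!
# S21 / MS-A — a smooth `SL(2,ℤ)`-partition of unity on the upper half plane

Main results:
* `Fermat.Agent.S21.finite_mob_inter` (G1): proper discontinuity in terms of `mob`.
* `Fermat.Agent.S21.c_eq_zero_of_two_le_im` (G2).
* `Fermat.Agent.S21.exists_partition_SL2Z`.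

All auxiliary lemmas live in the namespace `Fermat.Agent.S21.PartitionAux`
(`mob_mob`, `mob_im`, `mob_eq_div`, `mob_contDiffAt`, `mob_im_le_max`, `psiFn`, `PsiSum`,
`chiOne` and its properties).
-/

set_option autoImplicit false

open UpperHalfPlane Matrix
open scoped MatrixGroups ContDiff

namespace Fermat.Agent.S21.PartitionAux

/-! ### Basic facts about `mob` -/

theorem mob_coe (g : SL(2, ℤ)) (w : ℍ) : mob g (w : ℂ) = ((g • w : ℍ) : ℂ) := by
  simp [mob]

theorem mob_of_mem {z : ℂ} (hz : z ∈ Uhp) (g : SL(2, ℤ)) :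
    mob g z = ((g • (⟨z, hz⟩ : ℍ) : ℍ) : ℂ) := by
  simp [mob, ofComplex_apply_of_im_pos hz]

theorem mob_mem_Uhp (g : SL(2, ℤ)) (z : ℂ) : mob g z ∈ Uhp := coe_mem_Uhp _

theorem mob_mob (g h : SL(2, ℤ)) (z : ℂ) : mob g (mob h z) = mob (g * h) z := by
  simp [mob, mul_smul]

theorem mob_one {z : ℂ} (hz : z ∈ Uhp) : mob 1 z = z := by
  simp [mob_of_mem hz]

theorem mob_im (g : SL(2, ℤ)) {z : ℂ} (hz : z ∈ Uhp) :
    (mob g z).im = z.im / Complex.normSq (cd g z) := by
  rw [mob_of_mem hz]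
  have h := ModularGroup.im_smul_eq_div_normSq g (⟨z, hz⟩ : ℍ)
  rw [ModularGroup.denom_apply] at h
  exact h

theorem mob_eq_div (g : SL(2, ℤ)) {z : ℂ} (hz : z ∈ Uhp) :
    mob g z = (((g 0 0 : ℤ) : ℂ) * z + ((g 0 1 : ℤ) : ℂ)) / cd g z := by
  rw [mob_of_mem hz, coe_specialLinearGroup_apply]
  simp [cd]

theorem cd_ne_zero (g : SL(2, ℤ)) {z : ℂ} (hz : z ∈ Uhp) : cd g z ≠ 0 := by
  have h := UpperHalfPlane.denom_ne_zero g (⟨z, hz⟩ : ℍ)
  rw [ModularGroup.denom_apply] at h
  exact h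

/-! ### Bounds on the imaginary part -/

theorem normSq_cd (g : SL(2, ℤ)) (z : ℂ) :
    Complex.normSq (cd g z) =
      ((g 1 0 : ℤ) * z.re + (g 1 1 : ℤ)) ^ 2 + ((g 1 0 : ℤ) * z.im) ^ 2 := by
  simp [cd, Complex.normSq_apply]
  ring

theorem sq_im_le_normSq_cd (g : SL(2, ℤ)) (z : ℂ) (hc : g 1 0 ≠ 0) :
    z.im ^ 2 ≤ Complex.normSq (cd g z) := by
  rw [normSq_cd]
  have h1 : (1 : ℝ) ≤ ((g 1 0 : ℤ) : ℝ) ^ 2 := by
    have : (1 : ℤ) ≤ (g 1 0) ^ 2 := by
      have := sq_pos_of_ne_zero hc  -- 0 < c^2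
      omega
    exact_mod_cast this
  have h2 : 0 ≤ (((g 1 0 : ℤ) : ℝ) * z.re + ((g 1 1 : ℤ) : ℝ)) ^ 2 := sq_nonneg _
  have h3 : 0 ≤ z.im ^ 2 := sq_nonneg _
  nlinarith

theorem one_le_normSq_cd (g : SL(2, ℤ)) (z : ℂ) (hc : g 1 0 = 0) :
    1 ≤ Complex.normSq (cd g z) := by
  rw [normSq_cd, hc]
  have hd : g 1 1 ≠ 0 := by
    intro hd
    have hdet := g.det_coe
    rw [Matrix.det_fin_two, hc, hd] at hdet
    simp at hdet
  have h1 : (1 : ℝ) ≤ ((g 1 1 : ℤ) : ℝ) ^ 2 := by
    have : (1 : ℤ) ≤ (g 1 1) ^ 2 := by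
      have := sq_pos_of_ne_zero hd
      omega
    exact_mod_cast this
  simpa using h1

theorem mob_im_le_inv (g : SL(2, ℤ)) {z : ℂ} (hz : z ∈ Uhp) (hc : g 1 0 ≠ 0) :
    (mob g z).im ≤ 1 / z.im := by
  have hz' : 0 < z.im := hz
  rw [mob_im g hz]
  have h := sq_im_le_normSq_cd g z hc
  have hpos : 0 < Complex.normSq (cd g z) := lt_of_lt_of_le (by positivity) h
  rw [div_le_div_iff₀ hpos hz']
  nlinarith

theorem mob_im_le_self (g : SL(2, ℤ)) {z : ℂ} (hz : z ∈ Uhp) (hc : g 1 0 = 0) :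
    (mob g z).im ≤ z.im := by
  have hz' : 0 < z.im := hz
  rw [mob_im g hz]
  have h := one_le_normSq_cd g z hc
  exact div_le_self hz'.le h

theorem mob_im_le_max (g : SL(2, ℤ)) {z : ℂ} (hz : z ∈ Uhp) :
    (mob g z).im ≤ max z.im (1 / z.im) := by
  by_cases hc : g 1 0 = 0
  · exact (mob_im_le_self g hz hc).trans (le_max_left _ _)
  · exact (mob_im_le_inv g hz hc).trans (le_max_right _ _)

end Fermat.Agent.S21.PartitionAux

namespace Fermat.Agent.S21

open PartitionAux

/-- (G2) If `Im z ≥ 2` and `Im (g z) > 1/2` then the lower-left entry of `g` vanishes. -/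
theorem c_eq_zero_of_two_le_im (g : SL(2, ℤ)) (z : ℂ) (hz : 2 ≤ z.im)
    (hg : 1 / 2 < (mob g z).im) : g 1 0 = 0 := by
  by_contra hc
  have hzU : z ∈ Uhp := lt_of_lt_of_le (by norm_num) hz
  have h1 := mob_im_le_inv g hzU hc
  have h2 : 1 / z.im ≤ 1 / 2 := by
    apply one_div_le_one_div_of_le (by norm_num) hz
  linarith

/-! ### Proper discontinuity -/

/-- (G1) Proper discontinuity of the action of `SL(2,ℤ)` in terms of `mob`. -/
theorem finite_mob_inter (K : Set ℂ) (hK : IsCompact K) (hKU : K ⊆ Uhp) :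
    {g : SL(2, ℤ) | ∃ z ∈ K, mob g z ∈ K}.Finite := by
  set K' : Set ℍ := (fun w : ℍ => (w : ℂ)) ⁻¹' K with hK'
  have hK'c : IsCompact K' :=
    UpperHalfPlane.isEmbedding_coe.isInducing.isCompact_preimage' hK
      (fun z hz => ⟨⟨z, hKU hz⟩, rfl⟩)
  have hpd := (Subgroup.properlyDiscontinuousSMul_iff (α := ℍ) 𝒮ℒ).mp inferInstance hK'c hK'c
  refine (hpd.preimage (f := SpecialLinearGroup.mapGL ℝ)
    (SpecialLinearGroup.mapGL_injective.injOn)).subset ?_
  rintro g ⟨z, hz, hgz⟩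
  refine ⟨⟨g, rfl⟩, ?_⟩
  refine ⟨g • (⟨z, hKU hz⟩ : ℍ), ⟨⟨z, hKU hz⟩, hz, rfl⟩, ?_⟩
  show ((g • (⟨z, hKU hz⟩ : ℍ) : ℍ) : ℂ) ∈ K
  rw [← mob_of_mem (hKU hz)]
  exact hgz

end Fermat.Agent.S21

namespace Fermat.Agent.S21.PartitionAux

/-! ### The bump function `ψ` -/

/-- A smooth bump in the real direction: `= 1` on `[-1/2, 1/2]`, support in `(-1, 1)`. -/
noncomputable def betaFn (x : ℝ) : ℝ :=
  Real.smoothTransition (2 * (1 - x)) * Real.smoothTransition (2 * (1 + x))

/-- The bump `ψ(z) = β(Re z) θ(Im z)` with `θ(y) = smoothTransition (y - 1/2)`. -/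
noncomputable def psiFn (z : ℂ) : ℝ :=
  betaFn z.re * Real.smoothTransition (z.im - 1 / 2)

theorem betaFn_nonneg (x : ℝ) : 0 ≤ betaFn x :=
  mul_nonneg (Real.smoothTransition.nonneg _) (Real.smoothTransition.nonneg _)

theorem psiFn_nonneg (z : ℂ) : 0 ≤ psiFn z :=
  mul_nonneg (betaFn_nonneg _) (Real.smoothTransition.nonneg _)

theorem betaFn_contDiff : ContDiff ℝ ∞ betaFn := by
  unfold betaFn
  exact (Real.smoothTransition.contDiff.comp (contDiff_const.mul (contDiff_const.sub contDiff_id))).mul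
    (Real.smoothTransition.contDiff.comp (contDiff_const.mul (contDiff_const.add contDiff_id)))

theorem psiFn_contDiff : ContDiff ℝ ∞ psiFn := by
  unfold psiFn
  exact (betaFn_contDiff.comp Complex.reCLM.contDiff).mul
    (Real.smoothTransition.contDiff.comp (Complex.imCLM.contDiff.sub contDiff_const))

theorem psiFn_ne_zero {z : ℂ} (h : psiFn z ≠ 0) : |z.re| < 1 ∧ 1 / 2 < z.im := by
  unfold psiFn betaFn at h
  have h1 : Real.smoothTransition (2 * (1 - z.re)) ≠ 0 := fun h0 => h (by rw [h0]; ring)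
  have h2 : Real.smoothTransition (2 * (1 + z.re)) ≠ 0 := fun h0 => h (by rw [h0]; ring)
  have h3 : Real.smoothTransition (z.im - 1 / 2) ≠ 0 := fun h0 => h (by rw [h0]; ring)
  rw [Ne, Real.smoothTransition.zero_iff_nonpos, not_le] at h1 h2 h3
  refine ⟨abs_lt.mpr ⟨by linarith, by linarith⟩, by linarith⟩

theorem psiFn_pos {z : ℂ} (h1 : |z.re| ≤ 1 / 2) (h2 : 1 / 2 < z.im) : 0 < psiFn z := by
  unfold psiFn betaFn
  have := abs_le.mp h1
  refine mul_pos (mul_pos ?_ ?_) ?_
  · exact Real.smoothTransition.pos_of_pos (by linarith)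
  · exact Real.smoothTransition.pos_of_pos (by linarith)
  · exact Real.smoothTransition.pos_of_pos (by linarith)

/-! ### Local finiteness -/

theorem finite_psi_support (K : Set ℂ) (hK : IsCompact K) (hKU : K ⊆ Uhp) :
    {g : SL(2, ℤ) | ∃ z ∈ K, psiFn (mob g z) ≠ 0}.Finite := by
  rcases K.eq_empty_or_nonempty with rfl | hne
  · simp
  -- bounds for the imaginary part on `K`
  obtain ⟨z₁, hz₁K, hz₁⟩ := hK.exists_isMinOn hne Complex.continuous_im.continuousOn
  obtain ⟨z₂, hz₂K, hz₂⟩ := hK.exists_isMaxOn hne Complex.continuous_im.continuousOn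
  have hm : 0 < z₁.im := hKU hz₁K
  set M : ℝ := max z₂.im (1 / z₁.im) with hM
  set L : Set ℂ := Set.Icc (-1 : ℝ) 1 ×ℂ Set.Icc (1 / 2 : ℝ) M with hL
  have hLc : IsCompact L := isCompact_Icc.reProdIm isCompact_Icc
  have hLU : L ⊆ Uhp := by
    intro w hw
    have : (1 / 2 : ℝ) ≤ w.im := hw.2.1
    exact lt_of_lt_of_le (by norm_num) this
  refine (finite_mob_inter (K ∪ L) (hK.union hLc) (Set.union_subset hKU hLU)).subset ?_
  rintro g ⟨z, hzK, hgz⟩
  refine ⟨z, Or.inl hzK, Or.inr ?_⟩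
  obtain ⟨hre, him⟩ := psiFn_ne_zero hgz
  have hzU : z ∈ Uhp := hKU hzK
  have hzpos : 0 < z.im := hzU
  have hb := mob_im_le_max g hzU
  have h1 : z.im ≤ z₂.im := hz₂ hzK
  have h2 : z₁.im ≤ z.im := hz₁ hzK
  have h3 : 1 / z.im ≤ 1 / z₁.im := one_div_le_one_div_of_le hm h2
  have h4 : (mob g z).im ≤ M := hb.trans (max_le_max h1 h3)
  have := abs_lt.mp hre
  exact ⟨⟨by linarith, by linarith⟩, ⟨him.le, h4⟩⟩

/-! ### The invariant sum `Ψ` -/

/-- `Ψ(z) = ∑_g ψ(g z)`. -/
noncomputable def PsiSum (z : ℂ) : ℝ := ∑ᶠ g : SL(2, ℤ), psiFn (mob g z)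

theorem PsiSum_nonneg (z : ℂ) : 0 ≤ PsiSum z := finsum_nonneg fun _ => psiFn_nonneg _

theorem PsiSum_mob (h : SL(2, ℤ)) (z : ℂ) : PsiSum (mob h z) = PsiSum z := by
  unfold PsiSum
  simp only [mob_mob]
  exact finsum_comp_equiv (Equiv.mulRight h) (f := fun g => psiFn (mob g z))

theorem finite_support_psi {z : ℂ} (hz : z ∈ Uhp) :
    (Function.support fun g : SL(2, ℤ) => psiFn (mob g z)).Finite := by
  refine (finite_psi_support {z} isCompact_singleton (by simpa using hz)).subset ?_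
  intro g hg
  exact ⟨z, rfl, hg⟩

theorem PsiSum_pos {z : ℂ} (hz : z ∈ Uhp) : 0 < PsiSum z := by
  obtain ⟨g, hg⟩ := ModularGroup.exists_smul_mem_fd (⟨z, hz⟩ : ℍ)
  refine finsum_pos (fun _ => psiFn_nonneg _) ⟨g, ?_⟩ (finite_support_psi hz)
  have h3 := ModularGroup.three_le_four_mul_im_sq_of_mem_fd hg
  have hre : |(g • (⟨z, hz⟩ : ℍ)).re| ≤ 1 / 2 := hg.2
  have him : 0 < (g • (⟨z, hz⟩ : ℍ)).im := (g • (⟨z, hz⟩ : ℍ)).im_pos
  rw [mob_of_mem hz]
  refine psiFn_pos hre ?_
  show 1 / 2 < (g • (⟨z, hz⟩ : ℍ)).im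
  nlinarith

/-! ### Smoothness -/

theorem mob_contDiffAt (g : SL(2, ℤ)) {z : ℂ} (hz : z ∈ Uhp) : ContDiffAt ℝ ∞ (mob g) z := by
  have h1 : ContDiffAt ℝ ∞
      (fun w : ℂ => (((g 0 0 : ℤ) : ℂ) * w + ((g 0 1 : ℤ) : ℂ)) / cd g w) z := by
    have hnum : ContDiffAt ℝ ∞ (fun w : ℂ => ((g 0 0 : ℤ) : ℂ) * w + ((g 0 1 : ℤ) : ℂ)) z :=
      (contDiffAt_const.mul contDiffAt_id).add contDiffAt_const
    have hden : ContDiffAt ℝ ∞ (fun w : ℂ => cd g w) z := by
      show ContDiffAt ℝ ∞ (fun w : ℂ => ((g 1 0 : ℤ) : ℂ) * w + ((g 1 1 : ℤ) : ℂ)) z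
      exact (contDiffAt_const.mul contDiffAt_id).add contDiffAt_const
    have hinv : ContDiffAt ℝ ∞ (fun w : ℂ => (cd g w)⁻¹) z := hden.inv (cd_ne_zero g hz)
    simpa only [div_eq_mul_inv] using hnum.mul hinv
  refine h1.congr_of_eventuallyEq ?_
  filter_upwards [isOpen_Uhp.mem_nhds hz] with w hw
  exact mob_eq_div g hw

theorem mob_contDiffOn (g : SL(2, ℤ)) : ContDiffOn ℝ ∞ (mob g) Uhp :=
  fun _ hz => (mob_contDiffAt g hz).contDiffWithinAt

theorem PsiSum_contDiffOn : ContDiffOn ℝ ∞ PsiSum Uhp := by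
  intro z₀ hz₀
  apply ContDiffAt.contDiffWithinAt
  obtain ⟨K, hKc, hzK, hKU⟩ := exists_compact_subset isOpen_Uhp hz₀
  have hfin := finite_psi_support K hKc hKU
  have h1 : ContDiffAt ℝ ∞ (fun z => ∑ g ∈ hfin.toFinset, psiFn (mob g z)) z₀ := by
    apply ContDiffAt.sum
    intro g _
    exact psiFn_contDiff.contDiffAt.comp z₀ (mob_contDiffAt g hz₀)
  refine h1.congr_of_eventuallyEq ?_
  filter_upwards [mem_interior_iff_mem_nhds.mp hzK] with z hz
  unfold PsiSum
  apply finsum_eq_sum_of_support_subset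
  intro g hg
  rw [Set.Finite.coe_toFinset]
  exact ⟨z, hz, hg⟩

/-! ### The partition of unity -/

/-- The partition function `χ₁ = ψ / Ψ`. -/
noncomputable def chiOne (z : ℂ) : ℝ := psiFn z / PsiSum z

theorem chiOne_contDiffOn : ContDiffOn ℝ ∞ chiOne Uhp :=
  psiFn_contDiff.contDiffOn.div PsiSum_contDiffOn (fun _ hz => (PsiSum_pos hz).ne')

theorem chiOne_nonneg (z : ℂ) : 0 ≤ chiOne z := div_nonneg (psiFn_nonneg z) (PsiSum_nonneg z)

theorem psiFn_ne_zero_of_chiOne {z : ℂ} (h : chiOne z ≠ 0) : psiFn z ≠ 0 := by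
  intro h0
  exact h (by unfold chiOne; rw [h0, zero_div])

theorem chiOne_support {z : ℂ} (h : chiOne z ≠ 0) : |z.re| < 1 ∧ 1 / 2 < z.im :=
  psiFn_ne_zero (psiFn_ne_zero_of_chiOne h)

theorem finite_chiOne_support (K : Set ℂ) (hK : IsCompact K) (hKU : K ⊆ Uhp) :
    {g : SL(2, ℤ) | ∃ z ∈ K, chiOne (mob g z) ≠ 0}.Finite := by
  refine (finite_psi_support K hK hKU).subset ?_
  rintro g ⟨z, hz, h⟩
  exact ⟨z, hz, psiFn_ne_zero_of_chiOne h⟩

theorem finsum_chiOne {z : ℂ} (hz : z ∈ Uhp) : ∑ᶠ g : SL(2, ℤ), chiOne (mob g z) = 1 := by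
  unfold chiOne
  simp only [PsiSum_mob, div_eq_mul_inv]
  rw [← finsum_mul]
  exact mul_inv_cancel₀ (PsiSum_pos hz).ne'

end Fermat.Agent.S21.PartitionAux

namespace Fermat.Agent.S21

open PartitionAux

/-- **MS-A**: a smooth `SL(2,ℤ)`-partition of unity on the upper half plane. -/
theorem exists_partition_SL2Z : ∃ χ₁ : ℂ → ℝ, ContDiffOn ℝ ∞ χ₁ Uhp ∧ (∀ z, 0 ≤ χ₁ z) ∧
    (∀ z, χ₁ z ≠ 0 → |z.re| ≤ 1 ∧ 1 / 2 < z.im) ∧
    (∀ K : Set ℂ, IsCompact K → K ⊆ Uhp →
      {g : SL(2, ℤ) | ∃ z ∈ K, χ₁ (mob g z) ≠ 0}.Finite) ∧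
    (∀ z ∈ Uhp, ∑ᶠ g : SL(2, ℤ), χ₁ (mob g z) = 1) :=
  ⟨chiOne, chiOne_contDiffOn, chiOne_nonneg,
    fun _ h => ⟨(chiOne_support h).1.le, (chiOne_support h).2⟩,
    finite_chiOne_support, fun _ hz => finsum_chiOne hz⟩

end Fermat.Agent.S21

end
-- ===== PACK-END S21/Partition.lean

-- ===== PACK-BEGIN S29/DefsM.lean
section
/-
S29 row — FROZEN interface definitions for layer M (the torsion module).  Row-lead helper269.
Namespace `Fermat.Agent.S29`.  Do not edit; propose changes via a note kind='question' stmt='S29'.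
-/



set_option autoImplicit false

noncomputable section

namespace Fermat.Agent.S29

open ModularCurve AlgebraicCurve
open scoped TensorProduct MatrixGroups

/-! ### The `p`-torsion of `J₀(N)(ℚ̄)` (Prelude `JZero N`) with Hecke and Galois operators -/

section Jp

variable (N : ℕ) [NeZero N] (p : ℕ)

/-- `J₀(N)(ℚ̄)[p]` as a `ℤ`-submodule of the Prelude's `JZero N`. -/
abbrev Jp : Submodule ℤ (JZero N) := Submodule.torsionBy ℤ (JZero N) (p : ℤ)

/-- The Prelude Hecke operator `T_ℓ` restricted to `J₀(N)[p]`. -/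
def heckeJp (ℓ : Nat.Primes) : Jp N p →ₗ[ℤ] Jp N p :=
  (heckeOperatorBar N ℓ).restrict (p := Jp N p) (q := Jp N p) (fun x hx => by
    rw [Submodule.mem_torsionBy_iff] at hx ⊢
    rw [← map_smul, hx, map_zero])

@[simp] theorem coe_heckeJp (ℓ : Nat.Primes) (x : Jp N p) :
    ((heckeJp N p ℓ x : Jp N p) : JZero N) = heckeOperatorBar N ℓ (x : JZero N) := rfl

/-- The Galois action on `J₀(N)[p]`. -/
def galJp (σ : GQ) : Jp N p →ₗ[ℤ] Jp N p :=
  ((DistribSMul.toAddMonoidHom (JZero N) σ).toIntLinearMap).restrict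
    (p := Jp N p) (q := Jp N p) (fun x hx => by
    rw [Submodule.mem_torsionBy_iff] at hx ⊢
    rw [← map_smul, hx, map_zero])

omit [NeZero N] in
@[simp] theorem coe_galJp (σ : GQ) (x : Jp N p) :
    ((galJp N p σ x : Jp N p) : JZero N) = σ • (x : JZero N) := rfl

end Jp

/-! ### Parabolic additive characters of `Γ₀(N)` and the cohomological Hecke operator -/

section ParHom

variable (N : ℕ)

/-- The group `Γ₀(N)` as a type. -/
abbrev G0 : Type := ↥(CongruenceSubgroup.Gamma0 N)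

/-- Integer matrix of an element of `Γ₀(N)`. -/
def G0.mat {N : ℕ} (γ : G0 N) : Matrix (Fin 2) (Fin 2) ℤ := ((γ : SL(2, ℤ)) : Matrix (Fin 2) (Fin 2) ℤ)

/-- `c : Γ₀(N) → A` is an additive character vanishing on all elements of trace `±2`
(cusp stabilisers, `-1`) and on all torsion (elliptic) elements. -/
structure IsParHom {N : ℕ} {A : Type*} [AddCommGroup A] (c : G0 N → A) : Prop where
  map_mul : ∀ γ γ' : G0 N, c (γ * γ') = c γ + c γ'
  parabolic : ∀ γ : G0 N, (γ.mat.trace = 2 ∨ γ.mat.trace = -2) → c γ = 0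
  elliptic : ∀ (γ : G0 N) (n : ℕ), 0 < n → γ ^ n = 1 → c γ = 0

/-- Coset representatives of `Γ₀(N) \ Γ₀(N) diag(1,ℓ) Γ₀(N)` (`ℓ ∤ N` prime):
`none ↦ [[ℓ,0],[0,1]]`, `some b ↦ [[1,b],[0,ℓ]]`. -/
def heckeRep (ℓ : ℕ) : Option (Fin ℓ) → Matrix (Fin 2) (Fin 2) ℤ
  | none => !![(ℓ : ℤ), 0; 0, 1]
  | some b => !![1, ((b : ℕ) : ℤ); 0, (ℓ : ℤ)]

/-- `heckeRep i * γ = γ' * heckeRep j`. -/
def IsHeckeFactor {N : ℕ} (ℓ : ℕ) (γ : G0 N) (i : Option (Fin ℓ)) (q : Option (Fin ℓ) × G0 N) :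
    Prop :=
  heckeRep ℓ i * γ.mat = q.2.mat * heckeRep ℓ q.1

open Classical in
/-- The (unique, for `ℓ ∤ N` prime) pair `(j, γ')` with `heckeRep i * γ = γ' * heckeRep j`. -/
def heckeFac (ℓ : ℕ) (γ : G0 N) (i : Option (Fin ℓ)) : Option (Fin ℓ) × G0 N :=
  if h : ∃ q : Option (Fin ℓ) × G0 N, IsHeckeFactor ℓ γ i q then Classical.choose h else (i, 1)

/-- The cohomological Hecke operator on functions `Γ₀(N) → A`:
`(T_ℓ c)(γ) = ∑ᵢ c(γ'ᵢ)` where `αᵢ γ = γ'ᵢ α_{π(i)}`. -/
def heckeCoh {A : Type*} [AddCommMonoid A] (ℓ : ℕ) (c : G0 N → A) : G0 N → A :=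
  fun γ => ∑ i : Option (Fin ℓ), c (heckeFac N ℓ γ i).2

end ParHom

/-! ### External input: the frozen statement S37 -/

/-- The frozen statement S37 as a `Prop` (row S37 proves it as `Fermat.Agent.S37.result`). -/
def S37Statement : Prop :=
  ∀ (N p : ℕ) [NeZero N] (_ : ModularCurve.HeckeOperatorsCommuteBar N),
    letI := ModularCurve.heckeModuleBar N
    ∀ (_ : SMulCommClass GQ ModularCurve.HeckeAlg (ModularCurve.JZero N)),
      ModularCurve.SpecializationExists (K := ℚ) (L := AlgebraicClosure ℚ) N p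
        (ModularCurve.JZero N)

end Fermat.Agent.S29

end
end
-- ===== PACK-END S29/DefsM.lean

-- ===== PACK-BEGIN S24/JFun/QExp.lean
section






/-!
# The `q`-expansion of the analytic `j`-function is the formal `j` of the Prelude

Main results:
* `qExpansion_E₄` : `qExpansion 1 E₄ = ModularCurve.eisenstein4.map (Int.castRingHom ℂ)`;
* `qExpansion_qj` : `qExpansion 1 (τ ↦ q(τ) * j(τ)) = ModularCurve.jNum.map (Int.castRingHom ℂ)`;
* `hasSum_qj` : `q * j(τ) = ∑ jNum_n q ^ n` for every `τ : ℍ`.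
-/

set_option autoImplicit false

namespace Fermat.Agent.S24.JFun

open Filter Topology Complex Metric Function
open UpperHalfPlane hiding I
open ModularForm EisensteinSeries MatrixGroups
open scoped Manifold

local notation "𝕢" => Function.Periodic.qParam

/-- The analytic Euler product `∏ (1 - q ^ (n+1))` as a function of `τ`. -/
noncomputable def eulerFun : ℍ → ℂ := ofQ (fun q : ℂ => ∏' n : ℕ, (1 - q ^ (n + 1)))

theorem eulerFun_apply (τ : ℍ) :
    eulerFun τ = ∏' n : ℕ, (1 - 𝕢 1 (τ : ℂ) ^ (n + 1)) := rfl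

theorem eulerFun_pow_eq_ofQ (k : ℕ) :
    (fun τ => eulerFun τ ^ k) = ofQ (fun q : ℂ => (∏' n : ℕ, (1 - q ^ (n + 1))) ^ k) := rfl

theorem differentiableOn_euler_pow (k : ℕ) :
    DifferentiableOn ℂ (fun q : ℂ => (∏' n : ℕ, (1 - q ^ (n + 1))) ^ k) (ball 0 1) :=
  ModularForm.differentiableOn_tprod_one_sub_pow.fun_pow k

theorem analyticAt_eulerFun_pow (k : ℕ) :
    AnalyticAt ℂ (cuspFunction 1 (fun τ => eulerFun τ ^ k)) 0 := by
  rw [eulerFun_pow_eq_ofQ]
  exact ofQ_analyticAt (differentiableOn_euler_pow k)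

theorem analyticAt_eulerFun : AnalyticAt ℂ (cuspFunction 1 eulerFun) 0 :=
  ofQ_analyticAt ModularForm.differentiableOn_tprod_one_sub_pow

/-- The `q`-expansion of the analytic Euler product is the formal Euler product. -/
theorem qExpansion_eulerFun :
    qExpansion 1 eulerFun = ModularCurve.etaProd.map (Int.castRingHom ℂ) := by
  ext m
  rw [eulerFun, qExpansion_ofQ_coeff ModularForm.differentiableOn_tprod_one_sub_pow,
    iteratedDeriv_tprod_one_sub_pow, PowerSeries.coeff_map]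
  have hm : (m.factorial : ℂ) ≠ 0 := by exact_mod_cast Nat.factorial_ne_zero m
  simp only [eq_intCast]
  field_simp

theorem qExpansion_eulerFun_pow (k : ℕ) :
    qExpansion 1 (fun τ => eulerFun τ ^ k)
      = (ModularCurve.etaProd.map (Int.castRingHom ℂ)) ^ k := by
  induction k with
  | zero =>
    have h : (fun τ : ℍ => eulerFun τ ^ 0) = (1 : ℍ → ℂ) := by
      funext τ
      simp
    rw [h, qExpansion_one, pow_zero]
  | succ k ih =>
    have h : (fun τ : ℍ => eulerFun τ ^ (k + 1)) = (fun τ => eulerFun τ ^ k) * eulerFun := by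
      funext τ
      simp [pow_succ]
    rw [h, qExpansion_mul (analyticAt_eulerFun_pow k) analyticAt_eulerFun, ih,
      qExpansion_eulerFun, pow_succ]

/-- The discriminant as `q` times the 24-th power of the Euler product. -/
theorem discriminant_eq_q_mul_eulerFun (τ : ℍ) :
    ModularForm.discriminant τ = 𝕢 1 (τ : ℂ) * eulerFun τ ^ 24 := by
  rw [discriminant_eq_q_prod, eulerFun_apply]
  congr 1
  have hm : Multipliable (fun n : ℕ => (1 - 𝕢 1 (τ : ℂ) ^ (n + 1))) :=
    (ModularForm.multipliableLocallyUniformlyOn_one_sub_pow.multipliable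
      (qParam_one_mem_ball τ))
  exact hm.tprod_pow 24

/-- The `q`-expansion of `E₄` is the formal Eisenstein series of the Prelude. -/
theorem qExpansion_E₄ :
    qExpansion 1 E₄ = ModularCurve.eisenstein4.map (Int.castRingHom ℂ) := by
  ext m
  rw [PowerSeries.coeff_map, ModularCurve.eisenstein4, PowerSeries.coeff_mk]
  have h := E_qExpansion_coeff (k := 4) (by norm_num) ⟨2, rfl⟩ m
  have hE : (qExpansion 1 E₄).coeff m = (qExpansion 1 (E (k := 4) (by norm_num))).coeff m := rfl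
  rw [hE, h]
  by_cases hm : m = 0
  · simp [hm]
  · simp only [hm, if_false]
    rw [show bernoulli 4 = -1 / 30 by decide +kernel, ArithmeticFunction.sigma_apply]
    push_cast
    norm_num

theorem analyticAt_E₄ : AnalyticAt ℂ (cuspFunction 1 (E₄ : ℍ → ℂ)) 0 :=
  ModularFormClass.analyticAt_cuspFunction_zero E₄ one_pos one_mem_strictPeriods_SL

theorem qExpansion_E₄_cube :
    qExpansion 1 (fun τ => E₄ τ ^ 3)
      = (ModularCurve.eisenstein4.map (Int.castRingHom ℂ)) ^ 3 := by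
  have h2 : (fun τ : ℍ => E₄ τ ^ 2) = (E₄ : ℍ → ℂ) * (E₄ : ℍ → ℂ) := by
    funext τ
    simp [pow_two]
  have h3 : (fun τ : ℍ => E₄ τ ^ 3) = (fun τ : ℍ => E₄ τ ^ 2) * (E₄ : ℍ → ℂ) := by
    funext τ
    simp [pow_succ]
  have ha2 : AnalyticAt ℂ (cuspFunction 1 (fun τ : ℍ => E₄ τ ^ 2)) 0 := by
    rw [h2, cuspFunction_mul analyticAt_E₄.continuousAt analyticAt_E₄.continuousAt]
    exact analyticAt_E₄.mul analyticAt_E₄
  rw [h3, qExpansion_mul ha2 analyticAt_E₄, h2, qExpansion_mul analyticAt_E₄ analyticAt_E₄,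
    qExpansion_E₄]
  ring

/-- The function `τ ↦ q(τ) * j(τ)`, holomorphic at the cusp. -/
noncomputable def qjFun (τ : ℍ) : ℂ := 𝕢 1 (τ : ℂ) * jFun τ

theorem qjFun_apply (τ : ℍ) : qjFun τ = 𝕢 1 (τ : ℂ) * jFun τ := rfl

theorem qParam_one_ne_zero (z : ℂ) : 𝕢 1 z ≠ 0 := by
  unfold Function.Periodic.qParam
  exact Complex.exp_ne_zero _

theorem eulerFun_ne_zero (τ : ℍ) : eulerFun τ ≠ 0 := by
  intro h
  have := discriminant_ne_zero τ
  rw [discriminant_eq_q_mul_eulerFun, h] at this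
  simp at this

theorem qjFun_mul_eulerFun (τ : ℍ) : qjFun τ * eulerFun τ ^ 24 = E₄ τ ^ 3 := by
  rw [qjFun_apply, ← jFun_mul_discriminant, discriminant_eq_q_mul_eulerFun]
  ring

theorem qjFun_eq (τ : ℍ) : qjFun τ = E₄ τ ^ 3 / eulerFun τ ^ 24 := by
  rw [← qjFun_mul_eulerFun, mul_div_cancel_right₀ _ (pow_ne_zero _ (eulerFun_ne_zero τ))]

theorem jFun_vadd (τ : ℍ) : jFun ((1 : ℝ) +ᵥ τ) = jFun τ := by
  rw [← UpperHalfPlane.modular_T_smul, jFun_smul]

theorem qjFun_vadd (τ : ℍ) : qjFun ((1 : ℝ) +ᵥ τ) = qjFun τ := by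
  rw [qjFun_apply, qjFun_apply, qParam_one_vadd, jFun_vadd]

theorem qjFun_periodic : Periodic (qjFun ∘ ofComplex) ((1 : ℝ) : ℂ) :=
  periodic_comp_ofComplex_of_vadd qjFun_vadd

theorem mdiff_qParam : MDiff (fun τ : ℍ => 𝕢 1 (τ : ℂ)) :=
  ofQ_mdiff (g := fun q => q) differentiableOn_id

theorem qjFun_mdiff : MDiff qjFun :=
  mdiff_qParam.mul jFun_mdifferentiable

theorem tendsto_eulerFun : Tendsto eulerFun atImInfty (𝓝 1) := by
  have h := ofQ_tendsto ModularForm.differentiableOn_tprod_one_sub_pow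
  simpa [eulerFun] using h

theorem E₄_bdd : IsBoundedAtImInfty (fun τ : ℍ => E₄ τ) :=
  ModularFormClass.bdd_at_infty E₄

theorem qjFun_bdd : IsBoundedAtImInfty qjFun := by
  have h1 : IsBoundedAtImInfty (fun τ : ℍ => E₄ τ ^ 3) := by
    have := (E₄_bdd.mul E₄_bdd).mul E₄_bdd
    refine this.congr' ?_ (EventuallyEq.refl _ _)
    exact Eventually.of_forall fun τ => by simp [pow_succ]
  have h2 : Tendsto (fun τ : ℍ => (eulerFun τ ^ 24)⁻¹) atImInfty (𝓝 1) := by
    have := (tendsto_eulerFun.pow 24).inv₀ (by simp)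
    simpa using this
  have h3 : IsBoundedAtImInfty (fun τ : ℍ => (eulerFun τ ^ 24)⁻¹) := h2.isBigO_one ℝ
  have h4 := h1.mul h3
  refine h4.congr' ?_ (EventuallyEq.refl _ _)
  exact Eventually.of_forall fun τ => by
    simp only [Pi.mul_apply]
    rw [qjFun_eq, div_eq_mul_inv]

theorem analyticAt_qjFun : AnalyticAt ℂ (cuspFunction 1 qjFun) 0 :=
  analyticAt_cuspFunction_zero one_pos qjFun_periodic qjFun_mdiff qjFun_bdd

/-- **Bridge**: the `q`-expansion of `q · j` is the Prelude's formal power series `jNum`. -/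
theorem qExpansion_qjFun :
    qExpansion 1 qjFun = ModularCurve.jNum.map (Int.castRingHom ℂ) := by
  have hfun : qjFun * (fun τ => eulerFun τ ^ 24) = fun τ => E₄ τ ^ 3 := by
    funext τ
    exact qjFun_mul_eulerFun τ
  have h1 : qExpansion 1 qjFun * (ModularCurve.etaProd.map (Int.castRingHom ℂ)) ^ 24
      = (ModularCurve.eisenstein4.map (Int.castRingHom ℂ)) ^ 3 := by
    rw [← qExpansion_eulerFun_pow, ← qExpansion_mul analyticAt_qjFun (analyticAt_eulerFun_pow 24),
      hfun, qExpansion_E₄_cube]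
  have h2 : ModularCurve.jNum * ModularCurve.etaProd ^ 24 = ModularCurve.eisenstein4 ^ 3 := by
    have h := ModularCurve.dedekindEtaUnit_mul_inv
    rw [ModularCurve.dedekindEtaUnit] at h
    rw [ModularCurve.jNum, mul_assoc, mul_comm ModularCurve.dedekindEtaUnitInv, h, mul_one]
  have h3 : (ModularCurve.jNum.map (Int.castRingHom ℂ))
      * (ModularCurve.etaProd.map (Int.castRingHom ℂ)) ^ 24
      = (ModularCurve.eisenstein4.map (Int.castRingHom ℂ)) ^ 3 := by
    rw [← map_pow, ← map_pow, ← map_mul, h2]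
  have hne : (ModularCurve.etaProd.map (Int.castRingHom ℂ)) ^ 24 ≠ 0 := by
    apply pow_ne_zero
    intro h0
    have hc := congrArg (PowerSeries.coeff 0) h0
    rw [PowerSeries.coeff_map, PowerSeries.coeff_zero_eq_constantCoeff,
      ModularCurve.constantCoeff_etaProd] at hc
    simp at hc
  exact mul_right_cancel₀ hne (h1.trans h3.symm)

/-- **Bridge, summation form**: `q · j(τ) = ∑ₙ jNumₙ qⁿ` for every `τ` in the upper half plane. -/
theorem hasSum_qjFun (τ : ℍ) :
    HasSum (fun n : ℕ => ((ModularCurve.jNum.coeff n : ℤ) : ℂ) * 𝕢 1 (τ : ℂ) ^ n)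
      (𝕢 1 (τ : ℂ) * jFun τ) := by
  have h := hasSum_qExpansion one_pos qjFun_periodic qjFun_mdiff qjFun_bdd τ
  rw [qExpansion_qjFun, qjFun_apply] at h
  simpa [PowerSeries.coeff_map, smul_eq_mul] using h

end Fermat.Agent.S24.JFun

end
-- ===== PACK-END S24/JFun/QExp.lean

-- ===== PACK-BEGIN S28/H565/EulerProd.lean
section




/-!
# S28 analytic bridge, part 2: the Euler product (helper565)

We show that the formal power series `ModularCurve.etaProd = ∏ (1 - X^(n+1))` of the Prelude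
(defined as a `tprod` in the Pi-topology on `ℤ⟦X⟧`) is the Taylor expansion of the analytic
function `q ↦ ∏' (1 - q^(n+1))` on the unit disc.
-/

set_option autoImplicit false

noncomputable section

open Complex Function Filter Topology
open scoped Real PowerSeries.WithPiTopology

namespace Fermat.Agent.S28.H565

/-- Taylor coefficients at a point are continuous for locally uniform convergence of
holomorphic functions. -/
theorem tendsto_iteratedDeriv_of_tendstoLocallyUniformlyOn {U : Set ℂ} (hU : IsOpen U)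
    (k : ℕ) : ∀ {F : ℕ → ℂ → ℂ} {G : ℂ → ℂ}, (∀ n, DifferentiableOn ℂ (F n) U) →
    TendstoLocallyUniformlyOn F G atTop U → ∀ {z : ℂ}, z ∈ U →
    Tendsto (fun n => iteratedDeriv k (F n) z) atTop (𝓝 (iteratedDeriv k G z)) := by
  induction k with
  | zero =>
    intro F G _ hFG z hz
    simpa [iteratedDeriv_zero] using hFG.tendsto_at hz
  | succ k ih =>
    intro F G hF hFG z hz
    simp only [iteratedDeriv_succ']
    exact ih (F := fun n => deriv (F n)) (G := deriv G) (fun n => (hF n).deriv hU)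
      (hFG.deriv (.of_forall hF) hU) hz

/-- Taylor coefficients of a polynomial function. -/
theorem iteratedDeriv_polynomial_eval_zero (P : Polynomial ℂ) (k : ℕ) :
    iteratedDeriv k (fun q => P.eval q) 0 = (k.factorial : ℂ) * P.coeff k := by
  have h1 : ∀ (k : ℕ) (P : Polynomial ℂ), deriv^[k] (fun q => P.eval q) =
      fun q => ((⇑Polynomial.derivative)^[k] P).eval q := by
    intro k
    induction k with
    | zero => intro P; rfl
    | succ k ih =>
      intro P
      rw [Function.iterate_succ_apply', ih, Function.iterate_succ_apply']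
      funext x
      exact Polynomial.deriv _
  rw [iteratedDeriv_eq_iterate, h1]
  simp only
  rw [← Polynomial.coeff_zero_eq_eval_zero, Polynomial.coeff_iterate_derivative, zero_add,
    Nat.descFactorial_self, nsmul_eq_mul]

/-- The partial Euler products as complex polynomials. -/
def eulerPoly (M : ℕ) : Polynomial ℂ := ∏ n ∈ Finset.range M, (1 - Polynomial.X ^ (n + 1))

theorem eulerPoly_eval (M : ℕ) (q : ℂ) :
    (eulerPoly M).eval q = ∏ n ∈ Finset.range M, (1 - q ^ (n + 1)) := by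
  simp [eulerPoly, Polynomial.eval_prod]

theorem eulerPoly_coeff (M k : ℕ) :
    (eulerPoly M).coeff k =
      ((PowerSeries.coeff k (∏ n ∈ Finset.range M, (1 - PowerSeries.X ^ (n + 1)) :
        PowerSeries ℤ) : ℤ) : ℂ) := by
  have h1 : ((eulerPoly M : Polynomial ℂ) : PowerSeries ℂ) =
      PowerSeries.map (Int.castRingHom ℂ)
        (∏ n ∈ Finset.range M, (1 - PowerSeries.X ^ (n + 1)) : PowerSeries ℤ) := by
    rw [eulerPoly, ← Polynomial.coeToPowerSeries.ringHom_apply, map_prod, map_prod]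
    refine Finset.prod_congr rfl fun n _ => ?_
    simp
  rw [← Polynomial.coeff_coe, h1, PowerSeries.coeff_map]
  rfl

/-- Coefficientwise convergence of the formal partial products to `etaProd`. -/
theorem tendsto_coeff_partial_etaProd (k : ℕ) :
    Tendsto (fun M => ((PowerSeries.coeff k (∏ n ∈ Finset.range M,
      (1 - PowerSeries.X ^ (n + 1)) : PowerSeries ℤ) : ℤ) : ℂ)) atTop
      (𝓝 ((PowerSeries.coeff k ModularCurve.etaProd : ℤ) : ℂ)) := by
  have h1 : HasProd (fun n : ℕ => (1 - PowerSeries.X ^ (n + 1) : PowerSeries ℤ))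
      ModularCurve.etaProd :=
    (PowerSeries.WithPiTopology.multipliable_one_sub_X_pow ℤ).hasProd
  have h2 := h1.tendsto_prod_nat
  have h3 := ((PowerSeries.WithPiTopology.continuous_coeff ℤ k).tendsto _).comp h2
  have h4 : Continuous (fun n : ℤ => (n : ℂ)) := continuous_of_discreteTopology
  exact (h4.tendsto _).comp h3

/-- The Euler function on the unit disc. -/
def eulerFun (q : ℂ) : ℂ := ∏' n : ℕ, (1 - q ^ (n + 1))

theorem differentiableOn_eulerFun : DifferentiableOn ℂ eulerFun (Metric.ball 0 1) :=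
  ModularForm.differentiableOn_tprod_one_sub_pow

theorem tendstoLocallyUniformlyOn_eulerPoly :
    TendstoLocallyUniformlyOn (fun M q => (eulerPoly M).eval q) eulerFun atTop
      (Metric.ball 0 1) := by
  have h := ModularForm.multipliableLocallyUniformlyOn_one_sub_pow.hasProdLocallyUniformlyOn
  have h2 := h.tendstoLocallyUniformlyOn_finsetRange
  refine h2.congr ?_ |>.congr_right ?_
  · intro M q _
    simp [eulerPoly_eval]
  · intro q _
    rfl

/-- The complex version of the formal Euler product. -/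
def etaProdC : PowerSeries ℂ := PowerSeries.map (Int.castRingHom ℂ) ModularCurve.etaProd

theorem taylor_eulerFun (k : ℕ) :
    (k.factorial : ℂ)⁻¹ * iteratedDeriv k eulerFun 0 = PowerSeries.coeff k etaProdC := by
  have h0 : (0 : ℂ) ∈ Metric.ball (0 : ℂ) 1 := Metric.mem_ball_self one_pos
  have h1 := tendsto_iteratedDeriv_of_tendstoLocallyUniformlyOn Metric.isOpen_ball k
    (F := fun M q => (eulerPoly M).eval q) (G := eulerFun)
    (fun M => (Polynomial.differentiable _).differentiableOn)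
    tendstoLocallyUniformlyOn_eulerPoly h0
  have h2 : Tendsto (fun M => (k.factorial : ℂ)⁻¹ * iteratedDeriv k
      (fun q => (eulerPoly M).eval q) 0) atTop
      (𝓝 ((k.factorial : ℂ)⁻¹ * iteratedDeriv k eulerFun 0)) := h1.const_mul _
  have h3 : (fun M => (k.factorial : ℂ)⁻¹ * iteratedDeriv k
      (fun q => (eulerPoly M).eval q) 0) = fun M =>
      ((PowerSeries.coeff k (∏ n ∈ Finset.range M,
      (1 - PowerSeries.X ^ (n + 1)) : PowerSeries ℤ) : ℤ) : ℂ) := by
    funext M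
    rw [iteratedDeriv_polynomial_eval_zero, eulerPoly_coeff, ← mul_assoc,
      inv_mul_cancel₀ (by exact_mod_cast Nat.factorial_ne_zero k), one_mul]
  rw [h3] at h2
  have h4 := tendsto_nhds_unique h2 (tendsto_coeff_partial_etaProd k)
  rw [h4, etaProdC, PowerSeries.coeff_map]
  rfl

/-- **Euler product bridge**: the formal Euler product is the Taylor series of the analytic
Euler product on the unit disc. -/
theorem hasSum_etaProdC {q : ℂ} (hq : ‖q‖ < 1) :
    HasSum (fun k : ℕ => PowerSeries.coeff k etaProdC * q ^ k) (eulerFun q) := by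
  have hq' : q ∈ Metric.ball (0 : ℂ) 1 := by simpa using hq
  have := hasSum_taylorSeries_on_ball differentiableOn_eulerFun hq'
  refine this.congr_fun ?_ |>.mono_left le_rfl
  intro k
  rw [← taylor_eulerFun]
  simp only [sub_zero, smul_eq_mul]
  ring

end Fermat.Agent.S28.H565

end
end
-- ===== PACK-END S28/H565/EulerProd.lean

-- ===== PACK-BEGIN S29/H152/DescInt.lean
section
/-
S29 / DESC (helper152) — part 6: integrality lemmas.  Mathlib-only.
-/



set_option autoImplicit false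

namespace Fermat.Agent.S29.H152

open Polynomial

variable {C : Type*} [Field C]

/-- A root of a monic polynomial with coefficients in a subalgebra is integral over it. -/
theorem descInt_isIntegral_of_poly {A : Type*} [CommRing A] [Algebra C A] (S : Subalgebra C A)
    (Q : A[X]) (hQ : Q.Monic) (hc : ∀ i, Q.coeff i ∈ S) {x : A} (hx : Q.eval x = 0) :
    IsIntegral S x := by
  have hl : Q ∈ Polynomial.lifts (algebraMap S A) := by
    rw [Polynomial.lifts_iff_coeff_lifts]
    intro n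
    exact ⟨⟨Q.coeff n, hc n⟩, rfl⟩
  obtain ⟨q, hq, -, hqm⟩ := Polynomial.lifts_and_natDegree_eq_and_monic hl hQ
  refine ⟨q, hqm, ?_⟩
  rw [← Polynomial.eval_map, hq]
  exact hx

/-- Converse: an integral element is a root of a monic polynomial with coefficients in `S`. -/
theorem descInt_exists_poly {A : Type*} [CommRing A] [Algebra C A] (S : Subalgebra C A)
    {x : A} (hx : IsIntegral S x) :
    ∃ Q : A[X], Q.Monic ∧ (∀ i, Q.coeff i ∈ S) ∧ Q.eval x = 0 := by
  obtain ⟨P, hP, hPx⟩ := hx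
  refine ⟨P.map (algebraMap S A), hP.map _, fun i => ?_, ?_⟩
  · rw [Polynomial.coeff_map]
    exact (P.coeff i).2
  · rw [Polynomial.eval_map]
    exact hPx

/-- Ring endomorphisms preserving a subalgebra (as a set) preserve integrality over it. -/
theorem descInt_isIntegral_map {A : Type*} [CommRing A] [Algebra C A] (S : Subalgebra C A)
    (Φ : A →+* A) (hS : ∀ x ∈ S, Φ x ∈ S) {x : A} (hx : IsIntegral S x) :
    IsIntegral S (Φ x) := by
  obtain ⟨Q, hQ, hc, hQx⟩ := descInt_exists_poly S hx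
  refine descInt_isIntegral_of_poly S (Q.map Φ) (hQ.map _) (fun i => ?_) ?_
  · rw [Polynomial.coeff_map]
    exact hS _ (hc i)
  · rw [Polynomial.eval_map, Polynomial.eval₂_hom, hQx, map_zero]

/-- A ring endomorphism fixing `s` and mapping constants to constants preserves `C[s]`. -/
theorem descInt_map_mem_adjoin {A : Type*} [CommRing A] [Algebra C A] (Φ : A →+* A) (s : A)
    (hs : Φ s = s) (hconst : ∀ c : C, ∃ c' : C, Φ (algebraMap C A c) = algebraMap C A c')
    {x : A} (hx : x ∈ Algebra.adjoin C {s}) : Φ x ∈ Algebra.adjoin C {s} := by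
  induction hx using Algebra.adjoin_induction with
  | mem y hy =>
    rw [Set.mem_singleton_iff] at hy
    rw [hy, hs]
    exact Algebra.self_mem_adjoin_singleton C s
  | algebraMap c =>
    obtain ⟨c', hc'⟩ := hconst c
    rw [hc']
    exact Subalgebra.algebraMap_mem _ _
  | add x y _ _ hx hy =>
    rw [map_add]
    exact Subalgebra.add_mem _ hx hy
  | mul x y _ _ hx hy =>
    rw [map_mul]
    exact Subalgebra.mul_mem _ hx hy

/-- An element integral over `C[j]` becomes integral over `C[j⁻¹]` after multiplication by a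
power of `j⁻¹`. -/
theorem descInt_exists_pow {j : LaurentSeries C} (hj : j.order = -1) {y : LaurentSeries C}
    (hy : IsIntegral (Algebra.adjoin C {j}) y) :
    ∃ M : ℕ, IsIntegral (Algebra.adjoin C {j⁻¹}) (y * j⁻¹ ^ M) := by
  classical
  obtain ⟨P, hP, hc, hPy⟩ := descInt_exists_poly _ hy
  choose D hD using fun i => descBound_mul_inv_pow_mem hj (hc i)
  set d := P.natDegree with hd
  set M := (Finset.range (d + 1)).sup D with hM
  have hDM : ∀ i, i ≤ d → D i ≤ M := fun i hi =>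
    Finset.le_sup (f := D) (Finset.mem_range.mpr (Nat.lt_succ_of_le hi))
  refine ⟨M, descInt_isIntegral_of_poly _ (P.scaleRoots (j⁻¹ ^ M))
    ((monic_scaleRoots_iff _).mpr hP) (fun i => ?_) ?_⟩
  · rw [coeff_scaleRoots, ← hd]
    rcases lt_trichotomy i d with hi | hi | hi
    · rw [← pow_mul]
      refine hD i _ ((hDM i hi.le).trans ?_)
      exact Nat.le_mul_of_pos_right M (Nat.sub_pos_of_lt hi)
    · rw [hi, Nat.sub_self, pow_zero, mul_one, hd, hP.coeff_natDegree]
      exact Subalgebra.one_mem _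
    · rw [Polynomial.coeff_eq_zero_of_natDegree_lt (hd ▸ hi), zero_mul]
      exact Subalgebra.zero_mem _
  · rw [mul_comm, scaleRoots_eval_mul, hPy, mul_zero]

/-- In a field extension of an algebraically closed field, algebraic elements are constants. -/
theorem descInt_mem_range_of_isIntegral {Ω A : Type*} [Field Ω] [IsAlgClosed Ω] [Field A]
    [Algebra Ω A] {x : A} (hx : IsIntegral Ω x) : x ∈ Set.range (algebraMap Ω A) := by
  have hdeg : (minpoly Ω x).degree = 1 :=
    IsAlgClosed.degree_eq_one_of_irreducible Ω (minpoly.irreducible hx)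
  exact minpoly.mem_range_of_degree_eq_one Ω x hdeg

/-- Roots of unity in a field extension of an algebraically closed field are constants. -/
theorem descInt_mem_range_of_pow_eq_one {Ω A : Type*} [Field Ω] [IsAlgClosed Ω] [Field A]
    [Algebra Ω A] {x : A} {p : ℕ} (hp : 0 < p) (hx : x ^ p = 1) :
    x ∈ Set.range (algebraMap Ω A) := by
  apply descInt_mem_range_of_isIntegral
  refine IsIntegral.of_pow hp ?_
  rw [hx]
  exact isIntegral_one

end Fermat.Agent.S29.H152

end
-- ===== PACK-END S29/H152/DescInt.lean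

-- ===== PACK-BEGIN S29/H751/PthRoot.lean
section


set_option autoImplicit false

open Complex Set Metric Filter Topology

namespace Fermat.Agent.S29.H751

/-- Uniqueness of normalised `p`-th roots on a preconnected open set. -/
theorem eqOn_of_pow_eq_of_eq {U : Set ℂ} (hU : IsOpen U) (hUc : IsPreconnected U)
    {u v : ℂ → ℂ} (hu : DifferentiableOn ℂ u U) (hv : DifferentiableOn ℂ v U) {p : ℕ}
    (hp : p ≠ 0) (huv : ∀ z ∈ U, u z ^ p = v z ^ p) {z₀ : ℂ} (hz₀ : z₀ ∈ U)
    (h0 : u z₀ = v z₀) (hne : u z₀ ≠ 0) : EqOn u v U := by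
  have hua := hu.analyticOnNhd hU
  have hva := hv.analyticOnNhd hU
  refine hua.eqOn_of_preconnected_of_eventuallyEq hva hUc hz₀ ?_
  -- the cofactor `∑ u^i v^(p-1-i)` is nonzero near `z₀`
  set S : ℂ → ℂ := fun z => ∑ i ∈ Finset.range p, u z ^ i * v z ^ (p - 1 - i) with hS
  have hScont : ContinuousAt S z₀ := by
    have hcu : ContinuousAt u z₀ := (hua z₀ hz₀).continuousAt
    have hcv : ContinuousAt v z₀ := (hva z₀ hz₀).continuousAt
    rw [hS]
    exact tendsto_finsetSum _ fun i _ => (hcu.pow i).mul (hcv.pow _)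
  have hS0 : S z₀ ≠ 0 := by
    have : S z₀ = p * u z₀ ^ (p - 1) := by
      simp only [hS, ← h0]
      rw [Finset.sum_congr rfl (fun i hi => by
        rw [← pow_add, Nat.add_sub_of_le (Nat.le_sub_one_of_lt (Finset.mem_range.1 hi))]),
        Finset.sum_const, Finset.card_range, nsmul_eq_mul]
    rw [this]
    exact mul_ne_zero (Nat.cast_ne_zero.2 hp) (pow_ne_zero _ hne)
  have h1 : ∀ᶠ z in 𝓝 z₀, S z ≠ 0 := hScont.eventually_ne hS0
  have h2 : ∀ᶠ z in 𝓝 z₀, z ∈ U := hU.mem_nhds hz₀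
  filter_upwards [h1, h2] with z hz1 hz2
  have h3 : S z * (u z - v z) = u z ^ p - v z ^ p := by
    simp only [hS]
    exact (Commute.all (u z) (v z)).geom_sum₂_mul p
  rw [huv z hz2, sub_self] at h3
  rcases mul_eq_zero.1 h3 with h | h
  · exact absurd h hz1
  · exact sub_eq_zero.1 h

/-- For two points of the upper half plane there is a disc containing both whose closure
is contained in the upper half plane. -/
theorem exists_ball_upperHalfPlane {z₀ z : ℂ} (hz₀ : 0 < z₀.im) (hz : 0 < z.im) :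
    ∃ (c : ℂ) (r : ℝ), z₀ ∈ ball c r ∧ z ∈ ball c r ∧ closedBall c r ⊆ {w : ℂ | 0 < w.im} := by
  set δ : ℝ := min z.im z₀.im / 2 with hδ
  have hδ0 : 0 < δ := by rw [hδ]; have := lt_min hz hz₀; linarith
  have hδz : δ < z.im := by
    rw [hδ]; have := min_le_left z.im z₀.im; linarith
  have hδz₀ : δ < z₀.im := by
    rw [hδ]; have := min_le_right z.im z₀.im; linarith
  set d : ℝ := (z.re - z₀.re) ^ 2 with hd
  have hd0 : 0 ≤ d := sq_nonneg _
  set R : ℝ := z.im + z₀.im + d / δ with hR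
  have hdδ : 0 ≤ d / δ := div_nonneg hd0 hδ0.le
  have hRδ : 0 < R - δ := by rw [hR]; linarith
  refine ⟨⟨z₀.re, R⟩, R - δ, ?_, ?_, ?_⟩
  · rw [mem_ball, dist_eq_norm]
    have : z₀ - (⟨z₀.re, R⟩ : ℂ) = ⟨0, z₀.im - R⟩ := by
      apply Complex.ext <;> simp
    rw [this]
    have h2 : ‖(⟨0, z₀.im - R⟩ : ℂ)‖ = |z₀.im - R| := by
      rw [Complex.norm_def, Complex.normSq_mk]
      simp [← sq, Real.sqrt_sq_eq_abs]
    rw [h2, abs_lt]
    constructor <;> rw [hR] <;> linarith
  · rw [mem_ball, dist_eq_norm]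
    have : z - (⟨z₀.re, R⟩ : ℂ) = ⟨z.re - z₀.re, z.im - R⟩ := by
      apply Complex.ext <;> simp
    rw [this]
    apply lt_of_pow_lt_pow_left₀ 2 hRδ.le
    rw [Complex.sq_norm, Complex.normSq_mk]
    have key : d < (z.im - δ) * (2 * R - δ - z.im) := by
      have h1 : δ * (2 * (d / δ)) = 2 * d := by field_simp
      have h2 : 0 < z.im - δ := by linarith
      have h3 : 2 * (d / δ) < 2 * R - δ - z.im := by rw [hR]; linarith
      have h4 : δ ≤ z.im - δ := by
        rw [hδ]; have := min_le_left z.im z₀.im; linarith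
      calc d ≤ 2 * d := by linarith
        _ = δ * (2 * (d / δ)) := h1.symm
        _ ≤ (z.im - δ) * (2 * (d / δ)) := by
            apply mul_le_mul_of_nonneg_right h4; linarith
        _ < (z.im - δ) * (2 * R - δ - z.im) := by
            apply mul_lt_mul_of_pos_left h3 h2
    nlinarith [key]
  · intro w hw
    rw [mem_closedBall, dist_eq_norm] at hw
    have h1 : |(w - (⟨z₀.re, R⟩ : ℂ)).im| ≤ ‖w - (⟨z₀.re, R⟩ : ℂ)‖ := Complex.abs_im_le_norm _
    have h2 : (w - (⟨z₀.re, R⟩ : ℂ)).im = w.im - R := by simp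
    rw [h2] at h1
    have h3 := (abs_le.1 (h1.trans hw)).1
    show 0 < w.im
    linarith


/-- **Holomorphic `p`-th roots on the upper half plane.**  A holomorphic function on the upper
half plane all of whose orders of vanishing are finite and divisible by `p` is the `p`-th power
of a holomorphic function. -/
theorem exists_pow_eq_on_upperHalfPlane {G : ℂ → ℂ} (p : ℕ) (hp : p ≠ 0)
    (hG : DifferentiableOn ℂ G {z : ℂ | 0 < z.im})
    (hord : ∀ z : ℂ, 0 < z.im → ∃ m : ℕ, analyticOrderAt G z = ((p * m : ℕ) : ℕ∞)) :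
    ∃ u : ℂ → ℂ, DifferentiableOn ℂ u {z : ℂ | 0 < z.im} ∧
      ∀ z : ℂ, 0 < z.im → u z ^ p = G z := by
  classical
  set H : Set ℂ := {z : ℂ | 0 < z.im} with hH
  have hHo : IsOpen H := isOpen_lt continuous_const Complex.continuous_im
  have hGa : AnalyticOnNhd ℂ G H := hG.analyticOnNhd hHo
  -- a base point where `G` does not vanish
  obtain ⟨z₀, hz₀, hGz₀⟩ : ∃ z₀ ∈ H, G z₀ ≠ 0 := by
    have hI : (0 : ℝ) < Complex.I.im := by simp
    obtain ⟨m, hm⟩ := hord Complex.I hI
    have hnt : analyticOrderAt G Complex.I ≠ ⊤ := by rw [hm]; exact ENat.natCast_ne_top _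
    rw [Ne, analyticOrderAt_eq_top] at hnt
    have h1 : ∃ᶠ z in 𝓝 Complex.I, G z ≠ 0 := by
      rw [Filter.Frequently]
      intro h
      apply hnt
      filter_upwards [h] with z hz
      exact not_not.1 hz
    have h2 : ∀ᶠ z in 𝓝 Complex.I, z ∈ H := hHo.mem_nhds hI
    obtain ⟨z, hz1, hz2⟩ := (h1.and_eventually h2).exists
    exact ⟨z, hz2, hz1⟩
  obtain ⟨w₀, hw₀⟩ := IsAlgClosed.exists_pow_nat_eq (G z₀) (Nat.pos_of_ne_zero hp)
  have hw₀ne : w₀ ≠ 0 := by
    intro h
    rw [h, zero_pow hp] at hw₀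
    exact hGz₀ hw₀.symm
  -- local normalised roots
  have key : ∀ z : ℂ, 0 < z.im → ∃ (c : ℂ) (r : ℝ) (v : ℂ → ℂ), z₀ ∈ ball c r ∧ z ∈ ball c r ∧
      closedBall c r ⊆ H ∧ DifferentiableOn ℂ v (ball c r) ∧ (∀ y ∈ ball c r, v y ^ p = G y) ∧
      v z₀ = w₀ := by
    intro z hz
    obtain ⟨c, r, h1, h2, h3⟩ := exists_ball_upperHalfPlane hz₀ hz
    obtain ⟨v, hv, hvp⟩ := exists_pow_eq_on_ball (G := G) (c := c) (r := r) p hp (hGa.mono h3)
      (fun y hy => hord y (h3 hy))
    have hvz₀ : v z₀ ≠ 0 := by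
      intro h
      have := hvp z₀ h1
      rw [h, zero_pow hp] at this
      exact hGz₀ this.symm
    refine ⟨c, r, fun y => (w₀ / v z₀) * v y, h1, h2, h3, ?_, ?_, ?_⟩
    · exact hv.const_mul _
    · intro y hy
      rw [mul_pow, div_pow, hw₀, hvp z₀ h1, hvp y hy, div_self hGz₀, one_mul]
    · field_simp
  choose! c r v hv1 hv2 hv3 hv4 hv5 hv6 using key
  -- compatibility
  have compat : ∀ z z' : ℂ, 0 < z.im → 0 < z'.im →
      EqOn (v z) (v z') (ball (c z) (r z) ∩ ball (c z') (r z')) := by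
    intro z z' hz hz'
    refine eqOn_of_pow_eq_of_eq (isOpen_ball.inter isOpen_ball)
      ((convex_ball _ _).inter (convex_ball _ _)).isPreconnected
      ((hv4 z hz).mono inter_subset_left) ((hv4 z' hz').mono inter_subset_right) hp ?_
      ⟨hv1 z hz, hv1 z' hz'⟩ ?_ ?_
    · intro y hy
      rw [hv5 z hz y hy.1, hv5 z' hz' y hy.2]
    · rw [hv6 z hz, hv6 z' hz']
    · rw [hv6 z hz]; exact hw₀ne
  refine ⟨fun y => v y y, ?_, ?_⟩
  · intro z hz
    have hz' : 0 < z.im := hz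
    have hev : (fun y => v y y) =ᶠ[𝓝 z] v z := by
      have hB : ball (c z) (r z) ∈ 𝓝 z := isOpen_ball.mem_nhds (hv2 z hz')
      filter_upwards [hB] with y hy
      have hy' : 0 < y.im := hv3 z hz' (ball_subset_closedBall hy)
      exact compat y z hy' hz' ⟨hv2 y hy', hy⟩
    have hd : DifferentiableAt ℂ (v z) z :=
      (hv4 z hz').differentiableAt (isOpen_ball.mem_nhds (hv2 z hz'))
    exact (hev.differentiableAt_iff.2 hd).differentiableWithinAt
  · intro z hz
    exact hv5 z hz z (hv2 z hz)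

end Fermat.Agent.S29.H751

end
-- ===== PACK-END S29/H751/PthRoot.lean

-- ===== PACK-BEGIN S24/H504/EmbPlace.lean
section



/-!
# The place of `F/K` attached to an embedding `F → C((z))`
-/

set_option autoImplicit false

namespace Fermat.Agent.S24.H504

open AlgebraicCurve

variable {K F : Type*} [Field K] [Field F] [Algebra K F]
variable {C : Type*} [Field C]

/-! ### Order calculus in `C((z))` -/

theorem ls_orderTop_eq_order {A : LaurentSeries C} (hA : A ≠ 0) :
    A.orderTop = (A.order : WithTop ℤ) :=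
  (HahnSeries.order_eq_orderTop_of_ne_zero hA).symm

theorem ls_orderTop_nonneg_iff (A : LaurentSeries C) : 0 ≤ A.orderTop ↔ 0 ≤ A.order := by
  rcases eq_or_ne A 0 with rfl | hA
  · simp
  · rw [ls_orderTop_eq_order hA]
    exact_mod_cast Iff.rfl

theorem ls_orderTop_pos_iff (A : LaurentSeries C) : 0 < A.orderTop ↔ A = 0 ∨ 0 < A.order := by
  rcases eq_or_ne A 0 with rfl | hA
  · simp
  · rw [ls_orderTop_eq_order hA]
    simp only [hA, false_or]
    exact_mod_cast Iff.rfl

theorem ls_orderTop_inv {A : LaurentSeries C} (hA : A ≠ 0) :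
    A⁻¹.orderTop = ((-A.order : ℤ) : WithTop ℤ) := by
  have h1 : A * A⁻¹ = 1 := mul_inv_cancel₀ hA
  have h2 := HahnSeries.order_mul hA (inv_ne_zero hA)
  rw [h1, HahnSeries.order_one] at h2
  rw [ls_orderTop_eq_order (inv_ne_zero hA)]
  congr 1
  omega

theorem ls_order_inv (A : LaurentSeries C) : A⁻¹.order = -A.order := by
  rcases eq_or_ne A 0 with rfl | hA
  · simp
  have h1 : A * A⁻¹ = 1 := mul_inv_cancel₀ hA
  have h2 := HahnSeries.order_mul hA (inv_ne_zero hA)
  rw [h1, HahnSeries.order_one] at h2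
  omega

theorem ls_order_zpow (A : LaurentSeries C) (n : ℤ) : (A ^ n).order = n * A.order := by
  rcases n with n | n
  · simp [HahnSeries.order_pow]
  · rw [zpow_negSucc, ls_order_inv, HahnSeries.order_pow]
    simp only [nsmul_eq_mul, Int.negSucc_eq]
    push_cast
    ring

/-! ### The valuation subring attached to an embedding -/

/-- The valuation subring `{f | 0 ≤ ord_z (σ f)}` of `F`. -/
def embSubring (σ : F →+* LaurentSeries C) : ValuationSubring F where
  carrier := {f | 0 ≤ (σ f).orderTop}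
  mul_mem' := by
    intro a b ha hb
    simp only [Set.mem_ofPred_eq, map_mul, HahnSeries.orderTop_mul] at *
    exact add_nonneg ha hb
  one_mem' := by simp
  add_mem' := by
    intro a b ha hb
    simp only [Set.mem_ofPred_eq, map_add] at *
    exact le_trans (le_min ha hb) HahnSeries.min_orderTop_le_orderTop_add
  zero_mem' := by simp
  neg_mem' := by
    intro a ha
    simpa [HahnSeries.orderTop_neg] using ha
  mem_or_inv_mem' := by
    intro a
    rcases eq_or_ne a 0 with rfl | ha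
    · left; simp
    have hσa : σ a ≠ 0 := (map_ne_zero σ).mpr ha
    simp only [Set.mem_ofPred_eq, map_inv₀]
    rw [ls_orderTop_inv hσa, ls_orderTop_eq_order hσa]
    rcases le_total 0 (σ a).order with h | h
    · left; exact_mod_cast h
    · right
      have : (0 : ℤ) ≤ -(σ a).order := by omega
      exact_mod_cast this

theorem mem_embSubring (σ : F →+* LaurentSeries C) (f : F) :
    f ∈ embSubring σ ↔ 0 ≤ (σ f).orderTop := Iff.rfl

theorem mem_embSubring' (σ : F →+* LaurentSeries C) (f : F) :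
    f ∈ embSubring σ ↔ 0 ≤ (σ f).order := by
  rw [mem_embSubring, ls_orderTop_nonneg_iff]

theorem isPrincipalIdealRing_embSubring (σ : F →+* LaurentSeries C) :
    IsPrincipalIdealRing (embSubring σ) := by
  classical
  refine ⟨fun I => ?_⟩
  by_cases hI : I = ⊥
  · rw [hI]; exact bot_isPrincipal
  -- pick a nonzero element of minimal order
  have hex : ∃ n : ℕ, ∃ a ∈ I, a ≠ 0 ∧ (σ (a : F)).order = n := by
    obtain ⟨a, haI, ha0⟩ := Submodule.exists_mem_ne_zero_of_ne_bot hI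
    have hnn : 0 ≤ (σ (a : F)).order := (mem_embSubring' σ _).mp a.2
    exact ⟨(σ (a : F)).order.toNat, a, haI, ha0, (Int.toNat_of_nonneg hnn).symm⟩
  obtain ⟨a, haI, ha0, han⟩ := Nat.find_spec hex
  refine ⟨⟨a, ?_⟩⟩
  apply le_antisymm
  · intro b hb
    rw [Submodule.mem_span_singleton]
    rcases eq_or_ne b 0 with rfl | hb0
    · exact ⟨0, by simp⟩
    have haF : (a : F) ≠ 0 := by simpa using ha0
    have hbF : (b : F) ≠ 0 := by simpa using hb0
    have hbnn : 0 ≤ (σ (b : F)).order := (mem_embSubring' σ _).mp b.2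
    have hmin : Nat.find hex ≤ (σ (b : F)).order.toNat :=
      Nat.find_min' hex ⟨b, hb, hb0, (Int.toNat_of_nonneg hbnn).symm⟩
    have hle : (σ (a : F)).order ≤ (σ (b : F)).order := by
      rw [han]
      have : ((Nat.find hex : ℕ) : ℤ) ≤ ((σ (b : F)).order.toNat : ℤ) := by exact_mod_cast hmin
      rwa [Int.toNat_of_nonneg hbnn] at this
    have hq : (b : F) / (a : F) ∈ embSubring σ := by
      rw [mem_embSubring', map_div₀, div_eq_mul_inv,
        HahnSeries.order_mul ((map_ne_zero σ).mpr hbF) (inv_ne_zero ((map_ne_zero σ).mpr haF)),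
        ls_order_inv]
      omega
    refine ⟨⟨_, hq⟩, ?_⟩
    ext
    simp only [smul_eq_mul, MulMemClass.coe_mul]
    field_simp
  · rw [Submodule.span_le]
    simpa using haI

/-- The place of `F/K` attached to an embedding `σ : F → C((z))` which is integral on `K` and
has some element of nonzero order. -/
def placeOfEmb (σ : F →+* LaurentSeries C)
    (hK : ∀ c : K, 0 ≤ (σ (algebraMap K F c)).order)
    (ht : ∃ t : F, (σ t).order ≠ 0) : Place K F where
  toValuationSubring := embSubring σ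
  algebraMap_mem' := fun c => (mem_embSubring' σ _).mpr (hK c)
  ne_top' := by
    obtain ⟨t, ht⟩ := ht
    intro htop
    have h1 : t ∈ embSubring σ := htop ▸ ValuationSubring.mem_top t
    have h2 : t⁻¹ ∈ embSubring σ := htop ▸ ValuationSubring.mem_top t⁻¹
    rw [mem_embSubring'] at h1 h2
    rw [map_inv₀, ls_order_inv] at h2
    omega
  isPrincipalIdealRing' := isPrincipalIdealRing_embSubring σ

@[simp]
theorem placeOfEmb_toValuationSubring (σ : F →+* LaurentSeries C)
    (hK : ∀ c : K, 0 ≤ (σ (algebraMap K F c)).order)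
    (ht : ∃ t : F, (σ t).order ≠ 0) :
    (placeOfEmb σ hK ht).toValuationSubring = embSubring σ := rfl

/-! ### Proportionality of orders -/

/-- `σ` induces the place `v`: the valuation ring of `v` is the pullback of `C[[z]]`. -/
def Induces (σ : F →+* LaurentSeries C) (v : Place K F) : Prop :=
  ∀ f : F, f ∈ v.toValuationSubring ↔ 0 ≤ (σ f).order

theorem induces_placeOfEmb (σ : F →+* LaurentSeries C)
    (hK : ∀ c : K, 0 ≤ (σ (algebraMap K F c)).order)
    (ht : ∃ t : F, (σ t).order ≠ 0) : Induces σ (placeOfEmb σ hK ht) :=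
  fun f => mem_embSubring' σ f

theorem Induces.eq_placeOfEmb {σ : F →+* LaurentSeries C} {v : Place K F} (h : Induces σ v)
    (hK : ∀ c : K, 0 ≤ (σ (algebraMap K F c)).order)
    (ht : ∃ t : F, (σ t).order ≠ 0) : v = placeOfEmb σ hK ht := by
  apply Place.ext
  ext f
  rw [placeOfEmb_toValuationSubring, mem_embSubring', h f]

theorem Induces.unique {σ : F →+* LaurentSeries C} {v w : Place K F} (h : Induces σ v)
    (h' : Induces σ w) : v = w := by
  apply Place.ext
  ext f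
  rw [h f, h' f]

theorem Induces.order_nonneg_iff {σ : F →+* LaurentSeries C} {v : Place K F} (h : Induces σ v)
    (f : F) : 0 ≤ (σ f).order ↔ 0 ≤ v.ord f := by
  rw [← h f, mem_iff_ord_nonneg']

theorem Induces.order_eq_zero_iff {σ : F →+* LaurentSeries C} {v : Place K F} (h : Induces σ v)
    (f : F) : (σ f).order = 0 ↔ v.ord f = 0 := by
  have h1 := h.order_nonneg_iff f
  have h2 := h.order_nonneg_iff f⁻¹
  rw [map_inv₀, ls_order_inv, Place.ord_inv] at h2
  constructor <;> intro h0 <;> omega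

/-- The multiplicity of an embedding inducing `v`: the `z`-order of a uniformizer. -/
theorem Induces.exists_mult {σ : F →+* LaurentSeries C} {v : Place K F} (h : Induces σ v) :
    ∃ μ : ℕ, 0 < μ ∧ ∀ f : F, (σ f).order = μ * v.ord f := by
  obtain ⟨π, hπ⟩ := IsDiscreteValuationRing.exists_irreducible v.toValuationSubring
  have hπ1 : v.ord (π : F) = 1 := v.ord_coe_irreducible hπ
  have hpos : 0 < (σ (π : F)).order := by
    have h1 := (h.order_nonneg_iff (π : F)).mpr (by omega)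
    have h2 := (h.order_eq_zero_iff (π : F)).not.mpr (by omega)
    omega
  refine ⟨(σ (π : F)).order.toNat, by omega, fun f => ?_⟩
  rcases eq_or_ne f 0 with rfl | hf
  · simp
  obtain ⟨u, hu⟩ := v.exists_unit_mul_zpow hf hπ
  have hu0 : ((u : v.toValuationSubring) : F) ≠ 0 := by simp
  have hπ0 : (π : F) ≠ 0 := by
    intro h0; rw [h0] at hπ1; simp at hπ1
  have huo : (σ ((u : v.toValuationSubring) : F)).order = 0 :=
    (h.order_eq_zero_iff _).mpr (v.ord_coe_unit u)
  conv_lhs => rw [hu]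
  rw [map_mul, map_zpow₀,
    HahnSeries.order_mul ((map_ne_zero σ).mpr hu0) (zpow_ne_zero _ ((map_ne_zero σ).mpr hπ0)),
    huo, ls_order_zpow, Int.toNat_of_nonneg hpos.le]
  ring

end Fermat.Agent.S24.H504

end
-- ===== PACK-END S24/H504/EmbPlace.lean

-- ===== PACK-BEGIN S28/H867/IntZ.lean
section



set_option autoImplicit false
noncomputable section
open ModularCurve HahnSeries Polynomial

namespace Fermat.Agent.S28.H867

section IntZ

variable {A : Type*} [CommRing A]

theorem ringHom_comp_evalAt {B : Type*} [CommRing B] (ψ : LaurentSeries A →+* LaurentSeries B)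
    (y : LaurentSeries A) : ψ.comp (evalAt y) = evalAt (ψ y) := by
  apply Polynomial.ringHom_ext
  · intro a; simp [evalAt]
  · simp [evalAt]

/-- Integrality is transported by ring homomorphisms. -/
theorem isIntegralElem_map {B : Type*} [CommRing B] (ψ : LaurentSeries A →+* LaurentSeries B)
    {y x : LaurentSeries A} (h : (evalAt y).IsIntegralElem x) :
    (evalAt (ψ y)).IsIntegralElem (ψ x) := by
  obtain ⟨P, hP, hPx⟩ := h
  refine ⟨P, hP, ?_⟩
  rw [← ringHom_comp_evalAt, ← Polynomial.hom_eval₂, hPx, map_zero]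

/-- Transitivity: `y` integral over `ℤ[j]` and `x` integral over `ℤ[y]` imply `x` integral
over `ℤ[j]`. -/
theorem isIntegralElem_trans {j y x : LaurentSeries A} (hy : (evalAt j).IsIntegralElem y)
    (hx : (evalAt y).IsIntegralElem x) : (evalAt j).IsIntegralElem x := by
  let _ : Algebra (Polynomial ℤ) (LaurentSeries A) := (evalAt j).toAlgebra
  have hy' : IsIntegral (Polynomial ℤ) y := hy
  set C := integralClosure (Polynomial ℤ) (LaurentSeries A) with hC
  have hyC : y ∈ C := hy'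
  obtain ⟨P, hP, hPx⟩ := hx
  let φ : Polynomial ℤ →+* C := (Polynomial.aeval (R := ℤ) (⟨y, hyC⟩ : C)).toRingHom
  have hφ : (algebraMap C (LaurentSeries A)).comp φ = evalAt y := by
    apply Polynomial.ringHom_ext
    · intro a; simp [φ, evalAt]
    · simp [φ, evalAt]
  have hxC : IsIntegral C x := by
    refine ⟨P.map φ, hP.map _, ?_⟩
    rw [Polynomial.eval₂_map, hφ]
    exact hPx
  exact isIntegral_trans (R := Polynomial ℤ) (A := C) x hxC

end IntZ

section Jd

/-- `j(q^d)` is integral over `ℤ[j]`, given modular polynomials at all primes dividing `d`. -/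
theorem isIntegralElem_jd (d : ℕ) (hd : d ≠ 0)
    (hΦ : ∀ p : ℕ, p.Prime → p ∣ d → ∀ [NeZero p], Nonempty (ModPolyData p)) :
    (evalAt (jqModC ℤ)).IsIntegralElem (@qExpand ℤ _ d ⟨hd⟩ (jqModC ℤ)) := by
  induction d using Nat.recOnMul with
  | zero => exact absurd rfl hd
  | one =>
    rw [qExpand_one_apply]
    refine ⟨Polynomial.X - Polynomial.C Polynomial.X, Polynomial.monic_X_sub_C _, ?_⟩
    simp [evalAt]
  | prime p hp =>
    have : NeZero p := ⟨hp.ne_zero⟩
    obtain ⟨D⟩ := hΦ p hp dvd_rfl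
    exact ⟨D.Φ, D.monic, D.eval_jp⟩
  | mul a b iha ihb =>
    have ha0 : a ≠ 0 := fun h => hd (by rw [h, zero_mul])
    have hb0 : b ≠ 0 := fun h => hd (by rw [h, mul_zero])
    have : NeZero a := ⟨ha0⟩
    have : NeZero b := ⟨hb0⟩
    have h1 := iha ha0 fun p hp hpa => hΦ p hp (hpa.mul_right b)
    have h2 := ihb hb0 fun p hp hpb => hΦ p hp (hpb.mul_left a)
    have h3 := isIntegralElem_map (qExpand ℤ a) h2
    rw [qExpand_qExpand] at h3
    exact isIntegralElem_trans h1 h3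

/-- The `integral` field of `CoreData`. -/
theorem coreData_integral (N : ℕ) [NeZero N]
    (hΦ : ∀ p : ℕ, p.Prime → p ∣ N → ∀ [NeZero p], Nonempty (ModPolyData p)) :
    ∀ (d : ℕ) [NeZero d], d ∣ N →
      ∃ P : Polynomial (Polynomial ℤ), P.Monic ∧
        P.eval₂ (evalAt (jqModC ℤ)) (qExpand ℤ d (jqModC ℤ)) = 0 := by
  intro d hd hdN
  exact isIntegralElem_jd d hd.out fun p hp hpd => hΦ p hp (hpd.trans hdN)

end Jd

end Fermat.Agent.S28.H867

end
end
-- ===== PACK-END S28/H867/IntZ.lean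

-- ===== PACK-BEGIN S28/H88/Theta.lean
section
/-
S28 (Igusa) -- helper88: the derivation `θ = q d/dq` on formal Laurent series
(toolkit for the prime-level step [L2]: `j(q^p) ∉ k(j)`).
-/


set_option autoImplicit false

noncomputable section

open ModularCurve HahnSeries

namespace Fermat.Agent.S28

section ThetaBasic

variable {R : Type*} [CommRing R]

theorem h88_thetaL_add (f g : LaurentSeries R) :
    thetaL R (f + g) = thetaL R f + thetaL R g := by
  ext n; simp [mul_add]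

theorem h88_thetaL_zero : thetaL R (0 : LaurentSeries R) = 0 := by
  ext n; simp

theorem h88_thetaL_neg (f : LaurentSeries R) : thetaL R (-f) = - thetaL R f := by
  ext n; simp

theorem h88_thetaL_sub (f g : LaurentSeries R) :
    thetaL R (f - g) = thetaL R f - thetaL R g := by
  ext n; simp [mul_sub]

theorem h88_thetaL_support_subset (f : LaurentSeries R) :
    (thetaL R f).support ⊆ f.support := by
  intro n hn
  simp only [HahnSeries.mem_support, thetaL_coeff, ne_eq] at hn ⊢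
  intro h; exact hn (by rw [h, mul_zero])

/-- Leibniz rule. -/
theorem h88_thetaL_mul (f g : LaurentSeries R) :
    thetaL R (f * g) = thetaL R f * g + f * thetaL R g := by
  ext n
  rw [HahnSeries.coeff_add, thetaL_coeff, HahnSeries.coeff_mul,
    HahnSeries.coeff_mul_left' f.isPWO_support (h88_thetaL_support_subset f),
    HahnSeries.coeff_mul_right' g.isPWO_support (h88_thetaL_support_subset g),
    Finset.mul_sum, ← Finset.sum_add_distrib]
  refine Finset.sum_congr rfl fun ij hij => ?_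
  rw [Finset.mem_antidiagonal] at hij
  obtain ⟨-, -, h⟩ := hij
  simp only [thetaL_coeff]
  rw [← h]; push_cast; ring

theorem h88_thetaL_single_zero (c : R) : thetaL R (HahnSeries.single (0 : ℤ) c) = 0 := by
  ext n
  rw [thetaL_coeff, HahnSeries.coeff_zero]
  rcases eq_or_ne n 0 with rfl | hn
  · simp
  · rw [HahnSeries.coeff_single_of_ne hn, mul_zero]

theorem h88_thetaL_C (c : R) : thetaL R (HahnSeries.C c : LaurentSeries R) = 0 :=
  h88_thetaL_single_zero c

theorem h88_thetaL_one : thetaL R (1 : LaurentSeries R) = 0 :=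
  h88_thetaL_single_zero 1

theorem h88_thetaL_pow (f : LaurentSeries R) (n : ℕ) :
    thetaL R (f ^ (n + 1)) = ((n + 1 : ℕ) : LaurentSeries R) * f ^ n * thetaL R f := by
  induction n with
  | zero => simp
  | succ n ih =>
    rw [pow_succ, h88_thetaL_mul, ih]
    push_cast
    ring

/-- `θ` commutes with `q ↦ q^p` up to the factor `p`. -/
theorem h88_thetaL_qExpand (p : ℕ) [NeZero p] (f : LaurentSeries R) :
    thetaL R (qExpand R p f) = (p : LaurentSeries R) * qExpand R p (thetaL R f) := by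
  rw [← nsmul_eq_mul]
  ext n
  rw [thetaL_coeff, HahnSeries.coeff_smul]
  by_cases hn : (p : ℤ) ∣ n
  · obtain ⟨m, rfl⟩ := hn
    rw [qExpand_coeff_mul, qExpand_coeff_mul, thetaL_coeff, nsmul_eq_mul]
    push_cast; ring
  · rw [qExpand_coeff_of_not_dvd p _ hn, qExpand_coeff_of_not_dvd p _ hn, mul_zero, smul_zero]

end ThetaBasic

section CoeffMapCompat

variable {R S : Type*} [CommRing R] [CommRing S]

theorem h88_coeffMap_thetaL (f : R →+* S) (x : LaurentSeries R) :
    coeffMap f (thetaL R x) = thetaL S (coeffMap f x) := by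
  ext n
  simp [coeffMap_coeff]

theorem h88_map_map_intCast (f : R →+* S) (P : PowerSeries ℤ) :
    (P.map (Int.castRingHom R)).map f = P.map (Int.castRingHom S) := by
  rw [← RingHom.comp_apply (PowerSeries.map f) (PowerSeries.map (Int.castRingHom R)),
    ← PowerSeries.map_comp, RingHom.ext_int (f.comp (Int.castRingHom R)) (Int.castRingHom S)]

theorem h88_coeffMap_deltaL (f : R →+* S) : coeffMap f (deltaL R) = deltaL S := by
  rw [deltaL, map_mul, coeffMap_single, map_one, coeffMap_ofPowerSeries, h88_map_map_intCast]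
  rfl

theorem h88_coeffMap_deltaInvL (f : R →+* S) : coeffMap f (deltaInvL R) = deltaInvL S := by
  rw [deltaInvL, map_mul, coeffMap_single, map_one, coeffMap_ofPowerSeries, h88_map_map_intCast]
  rfl

theorem h88_coeffMap_unitL (f : R →+* S) (p : ℕ) [NeZero p] :
    coeffMap f (unitL R p) = unitL S p := by
  rw [unitL, map_mul, coeffMap_qExpand, h88_coeffMap_deltaL, h88_coeffMap_deltaInvL]
  rfl

variable (R) in
theorem h88_deltaL_mul_deltaInvL : deltaL R * deltaInvL R = 1 := by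
  rw [deltaL, deltaInvL, mul_mul_mul_comm, HahnSeries.single_mul_single, ← map_mul,
    ← map_mul, dedekindEtaUnit_mul_inv]
  simp

end CoeffMapCompat

end Fermat.Agent.S28

end

end
-- ===== PACK-END S28/H88/Theta.lean

-- ===== PACK-BEGIN S28/H626/RootList.lean
section
/-
S28 helper (helper626): the family `j(ξ tⁿ)` and the root list of the modular polynomial
`Φ_p(j(η t^{np}), X)`.
-/




set_option autoImplicit false

noncomputable section

open ModularCurve HahnSeries Polynomial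

namespace Fermat.Agent.S28.H626

/-! ### Two-variable evaluation -/

section Ev2

variable {A B : Type*} [CommRing A] [CommRing B]

/-- Evaluation of `Φ ∈ ℤ[Y][X]` at `Y = y`, `X = x`. -/
def ev2 (Φ : Polynomial (Polynomial ℤ)) (y x : A) : A :=
  Φ.eval₂ (Polynomial.aeval (R := ℤ) y).toRingHom x

/-- The one-variable polynomial `Φ(y, X)`. -/
def spec (Φ : Polynomial (Polynomial ℤ)) (y : A) : Polynomial A :=
  Φ.map (Polynomial.aeval (R := ℤ) y).toRingHom

theorem eval_spec (Φ : Polynomial (Polynomial ℤ)) (y x : A) :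
    (spec Φ y).eval x = ev2 Φ y x := by
  rw [spec, ev2, Polynomial.eval_map]

theorem comp_aeval_toRingHom (φ : A →+* B) (y : A) :
    φ.comp (Polynomial.aeval (R := ℤ) y).toRingHom =
      (Polynomial.aeval (R := ℤ) (φ y)).toRingHom := by
  apply Polynomial.ringHom_ext
  · intro a
    simp
  · simp

theorem map_ev2 (φ : A →+* B) (Φ : Polynomial (Polynomial ℤ)) (y x : A) :
    φ (ev2 Φ y x) = ev2 Φ (φ y) (φ x) := by
  rw [ev2, ev2, Polynomial.hom_eval₂, comp_aeval_toRingHom]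

theorem map_spec (φ : A →+* B) (Φ : Polynomial (Polynomial ℤ)) (y : A) :
    (spec Φ y).map φ = spec Φ (φ y) := by
  rw [spec, spec, Polynomial.map_map, comp_aeval_toRingHom]

theorem spec_monic {Φ : Polynomial (Polynomial ℤ)} (h : Φ.Monic) (y : A) : (spec Φ y).Monic :=
  h.map _

theorem spec_natDegree [Nontrivial A] {Φ : Polynomial (Polynomial ℤ)} (h : Φ.Monic) (y : A) :
    (spec Φ y).natDegree = Φ.natDegree :=
  h.natDegree_map _

end Ev2

/-- The (explicit-hypothesis form of the) prime-level analytic input: `Φ ∈ ℤ[Y][X]` is monic of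
degree `p + 1` in `X` and `Φ(j, j_p) = 0`, `Φ(j_p, j) = 0` in `ℤ((q))`. -/
structure IsModPoly (p : ℕ) [NeZero p] (Φ : Polynomial (Polynomial ℤ)) : Prop where
  monic : Φ.Monic
  natDegree_eq : Φ.natDegree = p + 1
  eval_jp : ev2 Φ (jqModC ℤ) (qExpand ℤ p (jqModC ℤ)) = 0
  eval_j : ev2 Φ (qExpand ℤ p (jqModC ℤ)) (jqModC ℤ) = 0

/-! ### The family `j(ξ tⁿ)` -/

section JTw

variable (Ω : Type*) [CommRing Ω]

/-- `j(ξ tⁿ)` as a Laurent series in `t`. -/
def jTw (ξ : Ωˣ) (n : ℕ) [NeZero n] : LaurentSeries Ω :=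
  qExpand Ω n (twist ξ (jqModC Ω))

theorem jTw_one (n : ℕ) [NeZero n] : jTw Ω 1 n = qExpand Ω n (jqModC Ω) := by
  rw [jTw, twist_one_apply]

theorem jTw_coeff_neg (ξ : Ωˣ) (n : ℕ) [NeZero n] :
    (jTw Ω ξ n).coeff (-(n : ℤ)) = ((ξ⁻¹ : Ωˣ) : Ω) := by
  have h : (-(n : ℤ)) = (n : ℤ) * (-1) := by ring
  rw [jTw, h, qExpand_coeff_mul, twist_coeff, coeff_jqModC_neg_one, mul_one, zpow_neg_one]

theorem jTw_coeff_of_lt (ξ : Ωˣ) (n : ℕ) [NeZero n] {k : ℤ} (hk : k < -(n : ℤ)) :
    (jTw Ω ξ n).coeff k = 0 := by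
  by_cases hn : (n : ℤ) ∣ k
  · obtain ⟨m, rfl⟩ := hn
    have hn0 : (0 : ℤ) < n := by exact_mod_cast Nat.pos_of_ne_zero (NeZero.ne n)
    have hm : m < -1 := by
      by_contra hm
      have hm' := not_lt.mp hm
      nlinarith
    rw [jTw, qExpand_coeff_mul, twist_coeff, coeff_jqModC_of_lt Ω hm, mul_zero]
  · rw [jTw, qExpand_coeff_of_not_dvd _ _ hn]

variable {Ω}

theorem jTw_inj [Nontrivial Ω] {ξ ξ' : Ωˣ} {n n' : ℕ} [NeZero n] [NeZero n']
    (h : jTw Ω ξ n = jTw Ω ξ' n') : n = n' ∧ ξ = ξ' := by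
  have key : ∀ (ξ ξ' : Ωˣ) (n n' : ℕ) [NeZero n] [NeZero n'],
      jTw Ω ξ n = jTw Ω ξ' n' → ¬ n < n' := by
    intro ξ ξ' n n' _ _ h hlt
    have h1 := jTw_coeff_neg Ω ξ' n'
    rw [← h, jTw_coeff_of_lt Ω ξ n (by exact_mod_cast (neg_lt_neg (Nat.cast_lt.mpr hlt) :
      (-(n' : ℤ)) < -(n : ℤ)))] at h1
    exact (Units.ne_zero _) h1.symm
  have hn : n = n' := le_antisymm (not_lt.mp (key ξ' ξ n' n h.symm)) (not_lt.mp (key ξ ξ' n n' h))
  subst hn
  refine ⟨rfl, ?_⟩
  have h1 := jTw_coeff_neg Ω ξ n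
  rw [h, jTw_coeff_neg] at h1
  exact inv_injective (Units.ext h1).symm

theorem jTw_ne_of_ne [Nontrivial Ω] {ξ ξ' : Ωˣ} {n n' : ℕ} [NeZero n] [NeZero n']
    (h : n ≠ n') : jTw Ω ξ n ≠ jTw Ω ξ' n' := fun he => h (jTw_inj he).1

end JTw

/-! ### Root relations -/

section Roots

variable (Ω : Type*) [CommRing Ω]

/-- the ring hom `ℤ((q)) → Ω((t))`, `q ↦ ξ tⁿ`. -/
def substHom (ξ : Ωˣ) (n : ℕ) [NeZero n] : LaurentSeries ℤ →+* LaurentSeries Ω :=
  (qExpand Ω n).comp ((twist ξ).comp (coeffMap (Int.castRingHom Ω)))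

theorem substHom_j (ξ : Ωˣ) (n : ℕ) [NeZero n] :
    substHom Ω ξ n (jqModC ℤ) = jTw Ω ξ n := by
  simp only [substHom, RingHom.comp_apply, coeffMap_jqModC, jTw]

theorem substHom_jp (ξ : Ωˣ) (n : ℕ) [NeZero n] (p : ℕ) [NeZero p] :
    substHom Ω ξ n (qExpand ℤ p (jqModC ℤ)) = jTw Ω (ξ ^ p) (n * p) := by
  simp only [substHom, RingHom.comp_apply, coeffMap_qExpand, coeffMap_jqModC, jTw,
    twist_qExpand, qExpand_qExpand]

variable {Ω}

theorem ev2_jTw_root {p : ℕ} [NeZero p] {Φ : Polynomial (Polynomial ℤ)} (hΦ : IsModPoly p Φ)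
    (ξ : Ωˣ) (n : ℕ) [NeZero n] :
    ev2 Φ (jTw Ω (ξ ^ p) (n * p)) (jTw Ω ξ n) = 0 := by
  have h := congrArg (substHom Ω ξ n) hΦ.eval_j
  rwa [map_ev2, substHom_j, substHom_jp, map_zero] at h

theorem ev2_jTw_root' {p : ℕ} [NeZero p] {Φ : Polynomial (Polynomial ℤ)} (hΦ : IsModPoly p Φ)
    (ξ : Ωˣ) (n : ℕ) [NeZero n] :
    ev2 Φ (jTw Ω ξ n) (jTw Ω (ξ ^ p) (n * p)) = 0 := by
  have h := congrArg (substHom Ω ξ n) hΦ.eval_jp
  rwa [map_ev2, substHom_j, substHom_jp, map_zero] at h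

theorem jTw_congr (ξ : Ωˣ) {n n' : ℕ} [NeZero n] [NeZero n'] (h : n = n') :
    jTw Ω ξ n = jTw Ω ξ n' := by
  subst h; rfl

end Roots

/-! ### The root list -/

section RootList

variable {Ω : Type*} [Field Ω]

/-- The multiset of roots of `Φ_p(j(t^{np}), X)`. -/
def rootMultiset (p : ℕ) (ζ : Ωˣ) (n : ℕ) [NeZero n] [NeZero p] : Multiset (LaurentSeries Ω) :=
  jTw Ω 1 (n * p * p) ::ₘ (Multiset.range p).map (fun b => jTw Ω (ζ ^ b) n)

theorem rootMultiset_nodup {p : ℕ} [NeZero p] (hp : 1 < p) {ζ : Ωˣ} (hζ : IsPrimitiveRoot ζ p)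
    (n : ℕ) [NeZero n] : (rootMultiset p ζ n).Nodup := by
  rw [rootMultiset, Multiset.nodup_cons]
  constructor
  · intro h
    rw [Multiset.mem_map] at h
    obtain ⟨b, -, hb⟩ := h
    have h1 : n = n * p * p := (jTw_inj hb).1
    have hn : 0 < n := Nat.pos_of_ne_zero (NeZero.ne n)
    have : n * 1 < n * (p * p) := by
      apply Nat.mul_lt_mul_of_pos_left _ hn
      nlinarith
    rw [mul_one, ← mul_assoc] at this
    omega
  · refine Multiset.Nodup.map_on ?_ (Multiset.nodup_range p)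
    intro a ha b hb hab
    rw [Multiset.mem_range] at ha hb
    exact hζ.pow_inj ha hb (jTw_inj hab).2

theorem rootMultiset_card (p : ℕ) [NeZero p] (ζ : Ωˣ) (n : ℕ) [NeZero n] :
    Multiset.card (rootMultiset p ζ n) = p + 1 := by
  simp [rootMultiset]

theorem mem_rootMultiset {p : ℕ} [NeZero p] {ζ : Ωˣ} {n : ℕ} [NeZero n] {β : LaurentSeries Ω} :
    β ∈ rootMultiset p ζ n ↔ β = jTw Ω 1 (n * p * p) ∨ ∃ b < p, β = jTw Ω (ζ ^ b) n := by
  rw [rootMultiset, Multiset.mem_cons, Multiset.mem_map]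
  refine or_congr Iff.rfl ⟨?_, ?_⟩
  · rintro ⟨b, hb, rfl⟩
    exact ⟨b, Multiset.mem_range.mp hb, rfl⟩
  · rintro ⟨b, hb, rfl⟩
    exact ⟨b, Multiset.mem_range.mpr hb, rfl⟩

/-- **Root list.** `Φ_p(j(t^{np}), X) = (X - j(t^{np²})) ∏_{b<p} (X - j(ζ^b tⁿ))`. -/
theorem roots_spec {p : ℕ} [NeZero p] (hp : 1 < p) {Φ : Polynomial (Polynomial ℤ)}
    (hΦ : IsModPoly p Φ) {ζ : Ωˣ} (hζ : IsPrimitiveRoot ζ p) (n : ℕ) [NeZero n] :
    (spec Φ (jTw Ω 1 (n * p))).roots = rootMultiset p ζ n := by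
  have hmonic : (spec Φ (jTw Ω 1 (n * p))).Monic := spec_monic hΦ.monic _
  have hdeg : (spec Φ (jTw Ω 1 (n * p))).natDegree = p + 1 := by
    rw [spec_natDegree hΦ.monic, hΦ.natDegree_eq]
  have hle : rootMultiset p ζ n ≤ (spec Φ (jTw Ω 1 (n * p))).roots := by
    rw [Multiset.le_iff_subset (rootMultiset_nodup hp hζ n)]
    intro β hβ
    rw [Polynomial.mem_roots hmonic.ne_zero, Polynomial.IsRoot, eval_spec]
    rcases mem_rootMultiset.mp hβ with rfl | ⟨b, -, rfl⟩
    · have := ev2_jTw_root' hΦ (1 : Ωˣ) (n * p)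
      rwa [one_pow] at this
    · have := ev2_jTw_root hΦ (ζ ^ b) n
      rwa [← pow_mul, mul_comm b p, pow_mul, hζ.pow_eq_one, one_pow] at this
  refine (Multiset.eq_of_le_of_card_le hle ?_).symm
  rw [rootMultiset_card, ← hdeg]
  exact Polynomial.card_roots' _

theorem splits_spec {p : ℕ} [NeZero p] (hp : 1 < p) {Φ : Polynomial (Polynomial ℤ)}
    (hΦ : IsModPoly p Φ) {ζ : Ωˣ} (hζ : IsPrimitiveRoot ζ p) (n : ℕ) [NeZero n] :
    (spec Φ (jTw Ω 1 (n * p))).Splits := by
  rw [Polynomial.splits_iff_card_roots, roots_spec hp hΦ hζ, rootMultiset_card,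
    spec_natDegree hΦ.monic, hΦ.natDegree_eq]

end RootList

/-! ### The abstract gcd lemma -/

section AbstractGcd

/-- If `x` is a common root of `P, Q ∈ E[X]`, and over some extension `P` splits with distinct
roots, among which only (the image of) `x` is a root of `Q`, then `x ∈ E`. -/
theorem mem_range_of_unique_common_root {E L Ω' : Type*} [Field E] [Field L] [Algebra E L]
    [Field Ω'] (ι : L →+* Ω') (x : L) (P Q : Polynomial E) (hP0 : P ≠ 0)
    (hPx : Polynomial.aeval x P = 0) (hQx : Polynomial.aeval x Q = 0)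
    (hsplit : (P.map (ι.comp (algebraMap E L))).Splits)
    (hnodup : (P.map (ι.comp (algebraMap E L))).roots.Nodup)
    (huniq : ∀ β ∈ (P.map (ι.comp (algebraMap E L))).roots,
      (Q.map (ι.comp (algebraMap E L))).eval β = 0 → β = ι x) :
    x ∈ (algebraMap E L).range := by
  classical
  set f : E →+* Ω' := ι.comp (algebraMap E L) with hf
  have hint : IsIntegral E x := IsAlgebraic.isIntegral ⟨P, hP0, hPx⟩
  have hμP : minpoly E x ∣ P := minpoly.dvd E x hPx
  have hμQ : minpoly E x ∣ Q := minpoly.dvd E x hQx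
  have hP'0 : P.map f ≠ 0 := (Polynomial.map_ne_zero_iff f.injective).mpr hP0
  have hμ'P : (minpoly E x).map f ∣ P.map f := Polynomial.map_dvd f hμP
  have hμ'Q : (minpoly E x).map f ∣ Q.map f := Polynomial.map_dvd f hμQ
  have hsplit' : ((minpoly E x).map f).Splits := hsplit.of_dvd hP'0 hμ'P
  have hroots_le : ((minpoly E x).map f).roots ≤ (P.map f).roots :=
    Polynomial.roots.le_of_dvd hP'0 hμ'P
  have hnodup' : ((minpoly E x).map f).roots.Nodup := Multiset.nodup_of_le hroots_le hnodup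
  have hμ'0 : (minpoly E x).map f ≠ 0 :=
    (Polynomial.map_ne_zero_iff f.injective).mpr (minpoly.ne_zero hint)
  have hall : ∀ β ∈ ((minpoly E x).map f).roots, β = ι x := by
    intro β hβ
    refine huniq β (Multiset.mem_of_le hroots_le hβ) ?_
    have hβ0 : ((minpoly E x).map f).eval β = 0 := (Polynomial.mem_roots hμ'0).mp hβ
    exact Polynomial.eval_eq_zero_of_dvd_of_eval_eq_zero hμ'Q hβ0
  have hcard : Multiset.card ((minpoly E x).map f).roots ≤ 1 := by
    have hsub : ((minpoly E x).map f).roots ≤ {ι x} := by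
      rw [Multiset.le_iff_subset hnodup']
      intro β hβ
      rw [Multiset.mem_singleton]
      exact hall β hβ
    simpa using Multiset.card_le_card hsub
  have hdeg : (minpoly E x).natDegree ≤ 1 := by
    rw [← Polynomial.natDegree_map f, hsplit'.natDegree_eq_card_roots]
    exact hcard
  have hpos := minpoly.natDegree_pos hint
  exact minpoly.natDegree_eq_one_iff.mp (le_antisymm hdeg hpos)

end AbstractGcd

end Fermat.Agent.S28.H626

end

end
-- ===== PACK-END S28/H626/RootList.lean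

-- ===== PACK-BEGIN S28/H807/Conv.lean
section
/-
S28 / helper807 — pointwise convergent Laurent series: ring laws, `V_p`, sections.
-/



set_option autoImplicit false
set_option maxHeartbeats 400000

noncomputable section

open ModularCurve HahnSeries

namespace Fermat.Agent.S28.H807

/-- The Laurent series `c` converges at the point `z` with sum `A`. -/
def HasLSum (c : LaurentSeries ℂ) (z A : ℂ) : Prop :=
  HasSum (fun n : ℤ => c.coeff n * z ^ n) A

theorem HasLSum.unique {c : LaurentSeries ℂ} {z A B : ℂ} (h1 : HasLSum c z A)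
    (h2 : HasLSum c z B) : A = B :=
  HasSum.unique h1 h2

theorem hasLSum_zero (z : ℂ) : HasLSum 0 z 0 := by
  unfold HasLSum
  simpa using (hasSum_zero : HasSum (fun _ : ℤ => (0 : ℂ)) 0)

theorem hasLSum_single (z : ℂ) (k : ℤ) (a : ℂ) :
    HasLSum (HahnSeries.single k a) z (a * z ^ k) := by
  unfold HasLSum
  have h := hasSum_sum_of_ne_finset_zero (f := fun n : ℤ => (HahnSeries.single k a).coeff n * z ^ n)
    (s := {k}) (L := SummationFilter.unconditional ℤ) (by
      intro b hb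
      have hb' : b ≠ k := by simpa using hb
      simp [HahnSeries.coeff_single_of_ne hb'])
  simpa using h

theorem hasLSum_one (z : ℂ) : HasLSum 1 z 1 := by
  have h := hasLSum_single z 0 1
  simpa using h

theorem hasLSum_C (z : ℂ) (a : ℂ) : HasLSum (HahnSeries.C a) z a := by
  have h := hasLSum_single z 0 a
  simpa using h

theorem HasLSum.add {c d : LaurentSeries ℂ} {z A B : ℂ} (h1 : HasLSum c z A)
    (h2 : HasLSum d z B) : HasLSum (c + d) z (A + B) := by
  unfold HasLSum at *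
  have := HasSum.add h1 h2
  simpa [add_mul] using this

theorem HasLSum.neg {c : LaurentSeries ℂ} {z A : ℂ} (h1 : HasLSum c z A) :
    HasLSum (-c) z (-A) := by
  unfold HasLSum at *
  have := HasSum.neg h1
  simpa using this

theorem HasLSum.sub {c d : LaurentSeries ℂ} {z A B : ℂ} (h1 : HasLSum c z A)
    (h2 : HasLSum d z B) : HasLSum (c - d) z (A - B) := by
  rw [sub_eq_add_neg, sub_eq_add_neg]
  exact h1.add h2.neg

/-- Cauchy product for pointwise convergent Laurent series. -/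
theorem HasLSum.mul {c d : LaurentSeries ℂ} {z A B : ℂ} (hz : z ≠ 0) (h1 : HasLSum c z A)
    (h2 : HasLSum d z B) : HasLSum (c * d) z (A * B) := by
  unfold HasLSum at *
  -- the double family is summable
  have hn1 : Summable (fun n : ℤ => ‖c.coeff n * z ^ n‖) := h1.summable.norm
  have hn2 : Summable (fun n : ℤ => ‖d.coeff n * z ^ n‖) := h2.summable.norm
  have hs : Summable (fun x : ℤ × ℤ => (c.coeff x.1 * z ^ x.1) * (d.coeff x.2 * z ^ x.2)) :=
    summable_mul_of_summable_norm (f := fun n : ℤ => c.coeff n * z ^ n)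
      (g := fun n : ℤ => d.coeff n * z ^ n) hn1 hn2
  have hprod : HasSum (fun x : ℤ × ℤ => (c.coeff x.1 * z ^ x.1) * (d.coeff x.2 * z ^ x.2))
      (A * B) := HasSum.mul (f := fun n : ℤ => c.coeff n * z ^ n)
      (g := fun n : ℤ => d.coeff n * z ^ n) h1 h2 hs
  -- reindex by (n, i) ↦ (i, n - i)
  let e : ℤ × ℤ ≃ ℤ × ℤ :=
    { toFun := fun x => (x.2, x.1 - x.2)
      invFun := fun x => (x.1 + x.2, x.1)
      left_inv := fun x => by simp
      right_inv := fun x => by simp }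
  have hprod' : HasSum (fun x : ℤ × ℤ =>
      (c.coeff x.2 * z ^ x.2) * (d.coeff (x.1 - x.2) * z ^ (x.1 - x.2))) (A * B) := by
    have := (e.hasSum_iff (f := fun x : ℤ × ℤ =>
      (c.coeff x.1 * z ^ x.1) * (d.coeff x.2 * z ^ x.2)) (a := A * B)).mpr hprod
    exact this
  refine HasSum.prod_fiberwise hprod' ?_
  intro n
  -- the fibre over `n` is a finite sum
  set s : Finset ℤ := (Finset.antidiagonal c.isPWO_support d.isPWO_support n).image Prod.fst
    with hs_def
  have hfib := hasSum_sum_of_ne_finset_zero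
    (f := fun i : ℤ => (c.coeff i * z ^ i) * (d.coeff (n - i) * z ^ (n - i)))
    (s := s) (L := SummationFilter.unconditional ℤ) (by
      intro i hi
      by_cases hci : c.coeff i = 0
      · simp [hci]
      by_cases hdi : d.coeff (n - i) = 0
      · simp [hdi]
      exfalso
      apply hi
      rw [hs_def, Finset.mem_image]
      refine ⟨(i, n - i), ?_, rfl⟩
      rw [Finset.mem_antidiagonal]
      exact ⟨hci, hdi, by ring⟩)
  convert hfib using 1
  rw [HahnSeries.coeff_mul, Finset.sum_mul, hs_def, Finset.sum_image]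
  · apply Finset.sum_congr rfl
    intro x hx
    rw [Finset.mem_antidiagonal] at hx
    obtain ⟨_, _, hx3⟩ := hx
    have hx2 : x.2 = n - x.1 := by linarith
    rw [← hx2]
    have hzn : z ^ n = z ^ x.1 * z ^ x.2 := by rw [← zpow_add₀ hz, hx3]
    rw [hzn]; ring
  · intro x hx y hy hxy
    rw [Finset.mem_coe, Finset.mem_antidiagonal] at hx hy
    apply Prod.ext hxy
    have h3 := hx.2.2
    have h4 := hy.2.2
    rw [hxy] at h3
    linarith

theorem HasLSum.pow {c : LaurentSeries ℂ} {z A : ℂ} (hz : z ≠ 0) (h1 : HasLSum c z A)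
    (k : ℕ) : HasLSum (c ^ k) z (A ^ k) := by
  induction k with
  | zero => simpa using hasLSum_one z
  | succ k ih => rw [pow_succ, pow_succ]; exact ih.mul hz h1

/-- Substitution `q ↦ q^p`. -/
theorem HasLSum.expand {c : LaurentSeries ℂ} {z A : ℂ} (p : ℕ) [NeZero p]
    (h : HasLSum c (z ^ p) A) : HasLSum (ModularCurve.qExpand ℂ p c) z A := by
  unfold HasLSum at *
  have hinj : Function.Injective (fun m : ℤ => (p : ℤ) * m) :=
    mul_right_injective₀ (by exact_mod_cast NeZero.ne p)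
  refine (hinj.hasSum_iff (f := fun n : ℤ => (ModularCurve.qExpand ℂ p c).coeff n * z ^ n) ?_).mp ?_
  · intro n hn
    have : ¬ (p : ℤ) ∣ n := by
      rintro ⟨m, rfl⟩
      exact hn ⟨m, rfl⟩
    simp [qExpand_coeff_of_not_dvd p c this]
  · convert h using 2 with m
    simp only [Function.comp_apply, qExpand_coeff_mul]
    congr 1
    rw [zpow_mul, zpow_natCast]

/-- Sections of a convergent series converge. -/
theorem HasLSum.summable_secL {c : LaurentSeries ℂ} {y A : ℂ} (p : ℕ) [NeZero p] (hy : y ≠ 0)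
    (h : HasLSum c y A) (r : ℤ) :
    Summable (fun m : ℤ => (secL p r c).coeff m * (y ^ p) ^ m) := by
  unfold HasLSum at h
  have hinj : Function.Injective (fun m : ℤ => (p : ℤ) * m + r) := by
    intro a b hab
    have : (p : ℤ) * a = (p : ℤ) * b := by simpa using hab
    exact mul_right_injective₀ (by exact_mod_cast NeZero.ne p) this
  have h1 : Summable ((fun n : ℤ => c.coeff n * y ^ n) ∘ fun m : ℤ => (p : ℤ) * m + r) :=
    h.summable.comp_injective hinj
  have h2 := h1.mul_left (y ^ (-r))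
  refine h2.congr ?_
  intro m
  simp only [Function.comp_apply, secL_coeff]
  have : y ^ ((p : ℤ) * m + r) = (y ^ p) ^ m * y ^ r := by
    rw [zpow_add₀ hy, zpow_mul, zpow_natCast]
  rw [this, zpow_neg]
  field_simp

/-- Value of the `r`-th section at `y^p`. -/
def secVal (p : ℕ) [NeZero p] (c : LaurentSeries ℂ) (y : ℂ) (r : ℤ) : ℂ :=
  ∑' m : ℤ, (secL p r c).coeff m * (y ^ p) ^ m

theorem HasLSum.hasLSum_secL {c : LaurentSeries ℂ} {y A : ℂ} (p : ℕ) [NeZero p] (hy : y ≠ 0)
    (h : HasLSum c y A) (r : ℤ) : HasLSum (secL p r c) (y ^ p) (secVal p c y r) :=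
  (h.summable_secL p hy r).hasSum

/-- The section values only depend on `y^p`. -/
theorem secVal_congr (p : ℕ) [NeZero p] (c : LaurentSeries ℂ) {y y' : ℂ} (h : y ^ p = y' ^ p)
    (r : ℤ) : secVal p c y r = secVal p c y' r := by
  unfold secVal
  rw [h]

/-- Regrouping by residues mod `p`: `A · yⁱ = ∑_{i'} y^{i'} · S_{i'-i}(y^p)`. -/
theorem HasLSum.regroup {c : LaurentSeries ℂ} {y A : ℂ} (p : ℕ) [NeZero p] (hy : y ≠ 0)
    (h : HasLSum c y A) (i : Fin p) :
    ∑ i' : Fin p, y ^ (i' : ℕ) * secVal p c y ((i' : ℤ) - (i : ℤ)) = A * y ^ (i : ℕ) := by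
  have hp0 : (p : ℤ) ≠ 0 := by exact_mod_cast NeZero.ne p
  -- the shifted family
  have h1 : HasSum (fun n : ℤ => c.coeff (n - i) * y ^ n) (A * y ^ (i : ℕ)) := by
    have h0 : HasSum (fun n : ℤ => c.coeff n * y ^ n * y ^ (i : ℕ)) (A * y ^ (i : ℕ)) :=
      HasSum.mul_right _ h
    have := ((Equiv.subRight ((i : ℕ) : ℤ)).hasSum_iff
      (f := fun n : ℤ => c.coeff n * y ^ n * y ^ (i : ℕ)) (a := A * y ^ (i : ℕ))).mpr h0
    refine this.congr_fun ?_
    intro n
    simp only [Function.comp_apply, Equiv.subRight_apply]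
    have : y ^ n = y ^ (n - (i : ℕ)) * y ^ (i : ℕ) := by
      rw [← zpow_natCast y (i : ℕ), ← zpow_add₀ hy]; congr 1; ring
    rw [this]; ring
  -- split `n = m * p + i'`
  have h2 : HasSum (fun x : ℤ × Fin p =>
      c.coeff (x.1 * (p : ℤ) + ((x.2 : ℕ) : ℤ) - (i : ℕ)) * y ^ (x.1 * (p : ℤ) + ((x.2 : ℕ) : ℤ)))
      (A * y ^ (i : ℕ)) := by
    have := ((Int.divModEquiv p).symm.hasSum_iff
      (f := fun n : ℤ => c.coeff (n - i) * y ^ n) (a := A * y ^ (i : ℕ))).mpr h1
    refine this.congr_fun ?_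
    intro x
    simp only [Function.comp_apply, Int.divModEquiv_symm_apply]
  have h3 : HasSum (fun m : ℤ => ∑ i' : Fin p,
      c.coeff (m * (p : ℤ) + ((i' : ℕ) : ℤ) - (i : ℕ)) * y ^ (m * (p : ℤ) + ((i' : ℕ) : ℤ)))
      (A * y ^ (i : ℕ)) := by
    refine HasSum.prod_fiberwise h2 ?_
    intro m
    exact hasSum_fintype _
  have h4 : ∀ i' : Fin p, HasSum (fun m : ℤ =>
      c.coeff (m * (p : ℤ) + ((i' : ℕ) : ℤ) - (i : ℕ)) * y ^ (m * (p : ℤ) + ((i' : ℕ) : ℤ)))
      (y ^ (i' : ℕ) * secVal p c y ((i' : ℤ) - (i : ℤ))) := by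
    intro i'
    have h5 := (h.hasLSum_secL p hy ((i' : ℤ) - (i : ℤ)))
    unfold HasLSum at h5
    have h6 := h5.mul_left (y ^ (i' : ℕ))
    refine h6.congr_fun ?_
    intro m
    simp only [secL_coeff]
    have e1 : m * (p : ℤ) + ((i' : ℕ) : ℤ) - ((i : ℕ) : ℤ)
        = (p : ℤ) * m + (((i' : ℕ) : ℤ) - ((i : ℕ) : ℤ)) := by ring
    have e2 : y ^ (m * (p : ℤ) + ((i' : ℕ) : ℤ)) = y ^ (i' : ℕ) * (y ^ p) ^ m := by
      rw [zpow_add₀ hy, zpow_natCast, mul_comm m, zpow_mul, zpow_natCast, mul_comm]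
    rw [e1, e2]; ring
  have h7 := hasSum_sum (s := Finset.univ) (fun i' _ => h4 i')
  exact (h7.unique h3)

end Fermat.Agent.S28.H807

end

end
-- ===== PACK-END S28/H807/Conv.lean

-- ===== PACK-BEGIN S28/H505/LevelOne.lean
section



open UpperHalfPlane ModularForm EisensteinSeries Filter Topology MatrixGroups
  SlashInvariantForm SlashInvariantFormClass ModularFormClass CuspFormClass
open scoped PowerSeries.WithPiTopology

namespace Fermat.Agent.S28.H505

/-- the modular `j`-function (normalised as `q⁻¹ + 744 + ⋯`) -/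
noncomputable def jFun (z : ℍ) : ℂ := E₄ z ^ 3 / ModularForm.discriminant z

/-- formal `E₄` over `ℂ` -/
noncomputable def e4C : PowerSeries ℂ := ModularCurve.eisenstein4.map (Int.castRingHom ℂ)

/-- formal `Δ` over `ℂ` -/
noncomputable def deltaC : PowerSeries ℂ :=
  PowerSeries.X * (ModularCurve.etaProd.map (Int.castRingHom ℂ)) ^ 24

theorem qExpansion_E₄_eq_e4C : qExpansion 1 E₄ = e4C := qExpansion_E₄_eq

theorem qExpansion_discriminant_eq_deltaC : qExpansion 1 ModularForm.discriminant = deltaC :=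
  qExpansion_discriminant_eq

theorem ofPowerSeries_e4C_pow_three :
    (HahnSeries.ofPowerSeries ℤ ℂ e4C) ^ 3 =
      ModularCurve.jqModC ℂ * HahnSeries.ofPowerSeries ℤ ℂ deltaC := by
  have h1 : ModularCurve.jNum * ModularCurve.etaProd ^ 24 = ModularCurve.eisenstein4 ^ 3 := by
    have := ModularCurve.dedekindEtaUnit_mul_inv
    rw [ModularCurve.dedekindEtaUnit] at this
    rw [ModularCurve.jNum, mul_assoc, mul_comm ModularCurve.dedekindEtaUnitInv, this, mul_one]
  have h2 := congrArg (PowerSeries.map (Int.castRingHom ℂ)) h1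
  rw [map_mul, map_pow, map_pow] at h2
  have h3 : HahnSeries.ofPowerSeries ℤ ℂ deltaC =
      HahnSeries.single (1 : ℤ) (1 : ℂ) *
        HahnSeries.ofPowerSeries ℤ ℂ ((ModularCurve.etaProd.map (Int.castRingHom ℂ)) ^ 24) := by
    rw [deltaC, map_mul, HahnSeries.ofPowerSeries_X]
  rw [h3, ModularCurve.jqModC, e4C, ← map_pow, ← h2, map_mul]
  have h4 : HahnSeries.single (-1 : ℤ) (1 : ℂ) * HahnSeries.single (1 : ℤ) (1 : ℂ) = 1 := by
    rw [HahnSeries.single_mul_single]; simp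
  calc _ = (HahnSeries.single (-1 : ℤ) (1 : ℂ) * HahnSeries.single (1 : ℤ) (1 : ℂ)) *
        (HahnSeries.ofPowerSeries ℤ ℂ (ModularCurve.jNum.map (Int.castRingHom ℂ)) *
        HahnSeries.ofPowerSeries ℤ ℂ ((ModularCurve.etaProd.map (Int.castRingHom ℂ)) ^ 24)) := by
          rw [h4, one_mul]
    _ = _ := by ring


theorem algebraMap_laurent_eq_C (c : ℂ) :
    algebraMap ℂ (LaurentSeries ℂ) c = HahnSeries.C c := by
  rw [HahnSeries.algebraMap_apply']
  simp

theorem aeval_laurent_eq_eval₂ (x : LaurentSeries ℂ) (P : Polynomial ℂ) :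
    Polynomial.aeval x P = Polynomial.eval₂ HahnSeries.C x P := by
  rw [Polynomial.aeval_def]
  congr 1
  ext c : 1
  exact algebraMap_laurent_eq_C c

theorem e4C_coeff_zero : e4C.coeff 0 = 1 := by
  rw [← qExpansion_E₄_eq_e4C]
  exact E_qExpansion_coeff_zero (by norm_num) (by decide)

/-- `E₄ ^ n` as a modular form of weight `k = 4 n`. -/
noncomputable def E4pow (n : ℕ) (k : ℤ) (hk : (n : ℤ) * 4 = k) : ModularForm 𝒮ℒ k :=
  ModularForm.mcast hk (E₄.pow n)

theorem E4pow_apply (n : ℕ) (k : ℤ) (hk : (n : ℤ) * 4 = k) (z : ℍ) :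
    E4pow n k hk z = E₄ z ^ n := by
  simp [E4pow]

theorem qExpansion_E4pow (n : ℕ) (k : ℤ) (hk : (n : ℤ) * 4 = k) :
    qExpansion 1 (E4pow n k hk) = e4C ^ n := by
  rw [E4pow, ModularForm.qExpansion_mcast,
    ModularForm.qExpansion_pow one_pos one_mem_strictPeriods_SL, qExpansion_E₄_eq_e4C]

theorem levelOne_structure (m : ℕ) : ∀ (k : ℤ) (_ : k = 12 * m) (F : ModularForm 𝒮ℒ k),
    ∃ P : Polynomial ℂ, P.natDegree ≤ m ∧
      (∀ z : ℍ, F z = ModularForm.discriminant z ^ m * P.eval (jFun z)) ∧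
      (HahnSeries.ofPowerSeries ℤ ℂ (qExpansion 1 F) =
        (HahnSeries.ofPowerSeries ℤ ℂ deltaC) ^ m *
          Polynomial.aeval (ModularCurve.jqModC ℂ) P) := by
  induction m with
  | zero =>
    intro k hk F
    simp only [Nat.cast_zero, mul_zero] at hk
    subst hk
    obtain ⟨c, hc⟩ := levelOne_weight_zero_const F
    refine ⟨Polynomial.C c, by simp, fun z => by simp [hc], ?_⟩
    have h1 : qExpansion 1 F = PowerSeries.C c := by
      have : (F : ℍ → ℂ) = c • ⇑(1 : ModularForm 𝒮ℒ 0) := by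
        rw [hc]; ext z; simp
      rw [this, ModularForm.qExpansion_smul one_pos one_mem_strictPeriods_SL,
        ModularForm.qExpansion_one, PowerSeries.smul_eq_C_mul, mul_one]
    rw [h1, HahnSeries.ofPowerSeries_C, pow_zero, one_mul, Polynomial.aeval_C,
      algebraMap_laurent_eq_C]
  | succ m ih =>
    intro k hk F
    set c₀ : ℂ := (qExpansion 1 F).coeff 0 with hc₀
    have hk4 : ((3 * (m + 1) : ℕ) : ℤ) * 4 = k := by rw [hk]; push_cast; ring
    set G : ModularForm 𝒮ℒ k := F - c₀ • E4pow (3 * (m + 1)) k hk4 with hG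
    have hGq : qExpansion 1 G = qExpansion 1 F - PowerSeries.C c₀ * e4C ^ (3 * (m + 1)) := by
      have h1 : (G : ℍ → ℂ) = ⇑F - ⇑(c₀ • E4pow (3 * (m + 1)) k hk4) := rfl
      rw [h1, ModularForm.qExpansion_sub one_pos one_mem_strictPeriods_SL]
      have h2 : (⇑(c₀ • E4pow (3 * (m + 1)) k hk4) : ℍ → ℂ) = c₀ • ⇑(E4pow (3 * (m + 1)) k hk4) :=
        rfl
      rw [h2, ModularForm.qExpansion_smul one_pos one_mem_strictPeriods_SL, qExpansion_E4pow,
        PowerSeries.smul_eq_C_mul]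
    have hG0 : (qExpansion 1 G).coeff 0 = 0 := by
      rw [hGq, map_sub, PowerSeries.coeff_zero_eq_constantCoeff, map_mul, map_pow]
      simp only [← PowerSeries.coeff_zero_eq_constantCoeff, e4C_coeff_zero]
      simp [hc₀]
    set H : ModularForm 𝒮ℒ (k - 12) := CuspForm.discriminantEquiv (G.toCuspForm hG0) with hH
    obtain ⟨P, hPdeg, hPval, hPq⟩ := ih (k - 12) (by rw [hk]; push_cast; ring) H
    have hGH : ∀ z, G z = ModularForm.discriminant z * H z := fun z => by
      rw [hH, discriminant_mul_discriminantEquiv_apply]; rfl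
    have hFG : ∀ z, F z = c₀ * E₄ z ^ (3 * (m + 1)) + G z := fun z => by
      have : G z = F z - c₀ * E4pow (3 * (m + 1)) k hk4 z := rfl
      rw [this, E4pow_apply]; ring
    refine ⟨Polynomial.C c₀ * Polynomial.X ^ (m + 1) + P, ?_, ?_, ?_⟩
    · refine (Polynomial.natDegree_add_le _ _).trans (max_le ?_ (hPdeg.trans (Nat.le_succ m)))
      exact Polynomial.natDegree_C_mul_X_pow_le _ _
    · intro z
      rw [hFG, hGH, hPval, Polynomial.eval_add, Polynomial.eval_mul, Polynomial.eval_C,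
        Polynomial.eval_pow, Polynomial.eval_X, jFun]
      have hΔ := discriminant_ne_zero z
      have hJ : ModularForm.discriminant z * (E₄ z ^ 3 / ModularForm.discriminant z) = E₄ z ^ 3 :=
        mul_div_cancel₀ _ hΔ
      have : ModularForm.discriminant z ^ (m + 1) *
          (c₀ * (E₄ z ^ 3 / ModularForm.discriminant z) ^ (m + 1) +
            Polynomial.eval (E₄ z ^ 3 / ModularForm.discriminant z) P) =
          c₀ * (ModularForm.discriminant z * (E₄ z ^ 3 / ModularForm.discriminant z)) ^ (m + 1) +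
          ModularForm.discriminant z * (ModularForm.discriminant z ^ m *
            Polynomial.eval (E₄ z ^ 3 / ModularForm.discriminant z) P) := by ring
      rw [this, hJ, pow_mul]
    · have h1 : qExpansion 1 F = PowerSeries.C c₀ * e4C ^ (3 * (m + 1)) +
          deltaC * qExpansion 1 H := by
        have := ModularForm.qExpansion_eq_qExpansion_discriminant_mul G hG0
        rw [qExpansion_discriminant_eq_deltaC, ← hH, hGq] at this
        rw [← this]; ring
      rw [h1, map_add, map_mul, map_mul, map_pow, hPq, pow_mul, ofPowerSeries_e4C_pow_three,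
        HahnSeries.ofPowerSeries_C, map_add, map_mul, Polynomial.aeval_C, map_pow,
        Polynomial.aeval_X, algebraMap_laurent_eq_C]
      ring

end Fermat.Agent.S28.H505

end
-- ===== PACK-END S28/H505/LevelOne.lean

-- ===== PACK-BEGIN S18/H333/Series.lean
section



/-!
# S18 / c3 (helper333): the formal series `E₄`, `Δ`, their `V_p`-images and truncations
-/

set_option autoImplicit false

namespace Fermat.Agent.S18.H333

open PowerSeries ModularCurve Filter Topology
open scoped PowerSeries.WithPiTopology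

/-- formal `E₄` -/
noncomputable def Ez : PowerSeries ℤ := eisenstein4

/-- formal `Δ = q ∏ (1 - q^n)^24` -/
noncomputable def Dz : PowerSeries ℤ := X * etaProd ^ 24

theorem tl_etaProd (n : ℕ) : tl n etaProd = etaLrec n n := by
  rw [← tl_prod_range, tl_ext_iff]
  intro k hk
  have h1 : Tendsto (fun t : Finset ℕ => ∏ i ∈ t, ((1 : PowerSeries ℤ) - X ^ (i + 1)))
      atTop (𝓝 etaProd) :=
    (PowerSeries.WithPiTopology.multipliable_one_sub_X_pow ℤ).hasProd
  have h2 := ((PowerSeries.WithPiTopology.continuous_coeff ℤ k).tendsto _).comp h1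
  rw [nhds_discrete, tendsto_pure] at h2
  obtain ⟨t, ht, htn⟩ := (h2.and (eventually_ge_atTop (Finset.range n))).exists
  simp only [Function.comp_apply] at ht
  rw [← ht]
  have hsplit : ∏ i ∈ t, ((1 : PowerSeries ℤ) - X ^ (i + 1)) =
      (∏ i ∈ t \ Finset.range n, ((1 : PowerSeries ℤ) - X ^ (i + 1))) *
        ∏ i ∈ Finset.range n, ((1 : PowerSeries ℤ) - X ^ (i + 1)) :=
    (Finset.prod_sdiff htn).symm
  have h3 : tl n (∏ i ∈ t \ Finset.range n, ((1 : PowerSeries ℤ) - X ^ (i + 1))) = tl n 1 := by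
    refine tl_prod_of_le n _ fun i hi => ?_
    have := (Finset.mem_sdiff.mp hi).2
    rw [Finset.mem_range] at this
    omega
  have h4 := tl_mul_congr n h3 (rfl : tl n (∏ i ∈ Finset.range n,
    ((1 : PowerSeries ℤ) - X ^ (i + 1))) = _)
  rw [one_mul, ← hsplit] at h4
  exact ((tl_ext_iff n _ _).mp h4 k hk)

theorem tl_Ez (n : ℕ) : tl n Ez =
    (List.range n).map fun k : ℕ => if k = 0 then (1 : ℤ) else 240 * ∑ d ∈ k.divisors, (d : ℤ) ^ 3 := by
  refine List.map_congr_left fun k _ => ?_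
  rw [Ez, eisenstein4, coeff_mk]

theorem tl_Dz (n : ℕ) : tl n Dz = tmul n (tX n) (tpow n (etaLrec n n) 24) := by
  rw [Dz, tl_mul, tl_X, tl_pow, tl_etaProd]

theorem tl_Ez_17 : tl 17 Ez = [1, 240, 2160, 6720, 17520, 30240, 60480, 82560, 140400, 181680,
    272160, 319680, 490560, 527520, 743040, 846720, 1123440] := by
  rw [tl_Ez]; decide +kernel

theorem tl_Dz_17 : tl 17 Dz = [0, 1, -24, 252, -1472, 4830, -6048, -16744, 84480, -113643,
    -115920, 534612, -370944, -577738, 401856, 1217160, 987136] := by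
  rw [tl_Dz]; decide +kernel

end Fermat.Agent.S18.H333

namespace Fermat.Agent.S18.H333

open PowerSeries ModularCurve

/-! ### level 2 -/

/-- `E₄³ Δ Δ₂ - (Δ + 256 Δ₂)³`, `Δ₂ = Δ(q²)` -/
noncomputable def Phi2a : PowerSeries ℤ :=
  Ez ^ 3 * Dz * Vser 2 Dz - (Dz + (256 : ℤ) • Vser 2 Dz) ^ 3

/-- `E₄(q²)³ Δ Δ₂ - (Δ + 16 Δ₂)³` -/
noncomputable def Phi2b : PowerSeries ℤ :=
  Vser 2 Ez ^ 3 * Dz * Vser 2 Dz - (Dz + (16 : ℤ) • Vser 2 Dz) ^ 3

theorem tl_Ez_10 : tl 10 Ez = [1, 240, 2160, 6720, 17520, 30240, 60480, 82560, 140400, 181680] := by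
  rw [tl_Ez]; decide +kernel

theorem tl_Dz_10 : tl 10 Dz = [0, 1, -24, 252, -1472, 4830, -6048, -16744, 84480, -113643] := by
  rw [tl_Dz]; decide +kernel

theorem tl_Phi2a : tl 10 Phi2a = tzero 10 := by
  rw [Phi2a, tl_sub, tl_mul, tl_mul, tl_pow, tl_pow, tl_add, tl_smul, tl_Vser _ _ (by norm_num),
    tl_Dz_10, tl_Ez_10]
  decide +kernel

theorem tl_Phi2b : tl 10 Phi2b = tzero 10 := by
  rw [Phi2b, tl_sub, tl_mul, tl_mul, tl_pow, tl_pow, tl_add, tl_smul, tl_Vser _ _ (by norm_num),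
    tl_Vser _ _ (by norm_num), tl_Dz_10, tl_Ez_10]
  decide +kernel

/-! ### level 3 -/

/-- `Δ² + 196830 Δ Δ₃ + 3^18 Δ₃²` -/
noncomputable def A3a : PowerSeries ℤ :=
  Dz * Dz + (196830 : ℤ) • (Dz * Vser 3 Dz) + (387420489 : ℤ) • (Vser 3 Dz * Vser 3 Dz)

/-- `756 Δ + 19131876 Δ₃` -/
noncomputable def B3a : PowerSeries ℤ := (756 : ℤ) • Dz + (19131876 : ℤ) • Vser 3 Dz

/-- squared form of `(t₃+27)(t₃+243)³ = j t₃³` -/
noncomputable def Phi3a : PowerSeries ℤ :=
  A3a * A3a - (Dz * Vser 3 Dz) * ((Ez ^ 3 - B3a) * (Ez ^ 3 - B3a))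

/-- `Δ² + 270 Δ Δ₃ + 729 Δ₃²` -/
noncomputable def A3b : PowerSeries ℤ :=
  Dz * Dz + (270 : ℤ) • (Dz * Vser 3 Dz) + (729 : ℤ) • (Vser 3 Dz * Vser 3 Dz)

/-- `36 Δ + 756 Δ₃` -/
noncomputable def B3b : PowerSeries ℤ := (36 : ℤ) • Dz + (756 : ℤ) • Vser 3 Dz

/-- squared form of `(t₃+27)(t₃+3)³ = j(q³) t₃` -/
noncomputable def Phi3b : PowerSeries ℤ :=
  A3b * A3b - (Dz * Vser 3 Dz) * ((Vser 3 Ez ^ 3 - B3b) * (Vser 3 Ez ^ 3 - B3b))

theorem tl_Phi3a : tl 17 Phi3a = tzero 17 := by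
  rw [Phi3a, A3a, B3a]
  simp only [tl_sub, tl_mul, tl_pow, tl_add, tl_smul, tl_Vser _ _ (show 0 < 3 by norm_num),
    tl_Dz_17, tl_Ez_17]
  decide +kernel

theorem tl_Phi3b : tl 17 Phi3b = tzero 17 := by
  rw [Phi3b, A3b, B3b]
  simp only [tl_sub, tl_mul, tl_pow, tl_add, tl_smul, tl_Vser _ _ (show 0 < 3 by norm_num),
    tl_Dz_17, tl_Ez_17]
  decide +kernel

end Fermat.Agent.S18.H333

end
-- ===== PACK-END S18/H333/Series.lean

-- ===== PACK-BEGIN S20/Comb/RelIndex.lean
section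





/-!
# Relative index of `Gamma0 (p * M)` in `Gamma0 M`

`(Gamma0 (p * M)).relIndex (Gamma0 M) = p` if `p ∣ M`, and `p + 1` otherwise (`p` prime, `M ≠ 0`).
-/

set_option autoImplicit false

namespace Fermat.Agent.S20.Comb

open Matrix MatrixGroups CongruenceSubgroup

lemma mem_Gamma0_iff_dvd (N : ℕ) (g : SL(2, ℤ)) : g ∈ Gamma0 N ↔ (N : ℤ) ∣ g 1 0 := by
  rw [Gamma0_mem]
  exact ZMod.intCast_zmod_eq_zero_iff_dvd _ _

lemma Gamma0_mul_le (p M : ℕ) : Gamma0 (p * M) ≤ Gamma0 M := by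
  intro g hg
  rw [mem_Gamma0_iff_dvd] at hg ⊢
  refine dvd_trans ?_ hg
  push_cast
  exact dvd_mul_left _ _

/-- The matrix `[[1, 0], [c, 1]]` in `SL(2,ℤ)`. -/
def lowRep (c : ℤ) : SL(2, ℤ) := ⟨!![1, 0; c, 1], by simp [Matrix.det_fin_two]⟩

@[simp] lemma lowRep_apply_zero_zero (c : ℤ) : lowRep c 0 0 = 1 := rfl
@[simp] lemma lowRep_apply_one_zero (c : ℤ) : lowRep c 1 0 = c := rfl

lemma lowRep_mem (M : ℕ) (t : ℤ) : lowRep ((M : ℤ) * t) ∈ Gamma0 M := by
  rw [mem_Gamma0_iff_dvd, lowRep_apply_one_zero]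
  exact dvd_mul_right _ _

/-- Coset criterion for `Gamma0 M ⧸ (Gamma0 (p * M)).subgroupOf (Gamma0 M)`. -/
lemma subMk_eq_iff (p M : ℕ) (hM : M ≠ 0) (g g' : Gamma0 M) (c₁ c₁' : ℤ)
    (hc : (g : SL(2, ℤ)) 1 0 = M * c₁) (hc' : (g' : SL(2, ℤ)) 1 0 = M * c₁') :
    (QuotientGroup.mk g : Gamma0 M ⧸ (Gamma0 (p * M)).subgroupOf (Gamma0 M))
        = QuotientGroup.mk g' ↔
      (p : ℤ) ∣ ((g : SL(2, ℤ)) 0 0 * c₁' - c₁ * (g' : SL(2, ℤ)) 0 0) := by
  rw [QuotientGroup.eq, Subgroup.mem_subgroupOf, mem_Gamma0_iff_dvd]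
  simp only [Subgroup.coe_mul, Subgroup.coe_inv, inv_mul_apply_one_zero, hc, hc']
  have h : (g : SL(2, ℤ)) 0 0 * ((M : ℤ) * c₁') - (M : ℤ) * c₁ * (g' : SL(2, ℤ)) 0 0
      = (M : ℤ) * ((g : SL(2, ℤ)) 0 0 * c₁' - c₁ * (g' : SL(2, ℤ)) 0 0) := by ring
  rw [h]
  push_cast
  rw [mul_comm (p : ℤ) (M : ℤ)]
  exact mul_dvd_mul_iff_left (by exact_mod_cast hM)

/-- For `g ∈ Gamma0 M` with `p ∣ M`, the entry `g 0 0` is nonzero mod `p`. -/
lemma a_ne_zero_of_dvd (p M : ℕ) (hp : p.Prime) (h : p ∣ M) (g : Gamma0 M) :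
    ¬ (p : ℤ) ∣ (g : SL(2, ℤ)) 0 0 := by
  intro ha
  have hg := (mem_Gamma0_iff_dvd M _).mp g.2
  have hpc : (p : ℤ) ∣ (g : SL(2, ℤ)) 1 0 := dvd_trans (by exact_mod_cast h) hg
  have hdet := (g : SL(2, ℤ)).det_coe
  rw [Matrix.det_fin_two] at hdet
  have h1 : (p : ℤ) ∣ 1 := by
    rw [← hdet]
    exact dvd_sub (dvd_mul_of_dvd_left ha _) (dvd_mul_of_dvd_right hpc _)
  have := Int.natCast_dvd_natCast.mp (by simpa using h1 : ((p : ℕ) : ℤ) ∣ ((1 : ℕ) : ℤ))
  exact hp.one_lt.ne' (Nat.dvd_one.mp this)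

/-- The coset representative attached to `t : ZMod p`. -/
noncomputable def relRep (p M : ℕ) (t : ZMod p) :
    Gamma0 M ⧸ (Gamma0 (p * M)).subgroupOf (Gamma0 M) :=
  QuotientGroup.mk ⟨lowRep ((M : ℤ) * (ZMod.cast t : ℤ)), lowRep_mem M _⟩

lemma relRep_injective (p M : ℕ) (hM : M ≠ 0) : Function.Injective (relRep p M) := by
  intro t t' h
  simp only [relRep] at h
  rw [subMk_eq_iff p M hM _ _ (ZMod.cast t : ℤ) (ZMod.cast t' : ℤ) rfl rfl] at h
  simp only [lowRep_apply_zero_zero, one_mul, mul_one] at h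
  have := (ZMod.intCast_zmod_eq_zero_iff_dvd _ p).mpr h
  push_cast at this
  exact (sub_eq_zero.mp this).symm

/-- Elements with `p ∤ a` are in the range of `relRep`. -/
lemma mem_range_relRep (p M : ℕ) (hM : M ≠ 0) (hp : p.Prime) (g : Gamma0 M)
    (ha : ¬ (p : ℤ) ∣ (g : SL(2, ℤ)) 0 0) :
    (QuotientGroup.mk g : Gamma0 M ⧸ (Gamma0 (p * M)).subgroupOf (Gamma0 M))
      ∈ Set.range (relRep p M) := by
  haveI : Fact p.Prime := ⟨hp⟩
  obtain ⟨c₁, hc₁⟩ := (mem_Gamma0_iff_dvd M _).mp g.2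
  have ha' : (((g : SL(2, ℤ)) 0 0 : ℤ) : ZMod p) ≠ 0 := by
    rwa [Ne, ZMod.intCast_zmod_eq_zero_iff_dvd]
  refine ⟨(c₁ : ZMod p) * (((g : SL(2, ℤ)) 0 0 : ℤ) : ZMod p)⁻¹, ?_⟩
  simp only [relRep]
  rw [subMk_eq_iff p M hM _ _ _ c₁ rfl hc₁]
  simp only [lowRep_apply_zero_zero, one_mul]
  rw [← ZMod.intCast_zmod_eq_zero_iff_dvd]
  push_cast
  rw [mul_assoc, inv_mul_cancel₀ ha', mul_one, sub_self]

/-- **Relative index, ramified case**: `[Γ₀(M) : Γ₀(pM)] = p` if `p ∣ M`. -/
theorem relIndex_Gamma0_of_dvd (p M : ℕ) (hM : M ≠ 0) (hp : p.Prime) (h : p ∣ M) :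
    (Gamma0 (p * M)).relIndex (Gamma0 M) = p := by
  have hbij : Function.Bijective (relRep p M) := by
    refine ⟨relRep_injective p M hM, ?_⟩
    intro q
    obtain ⟨g, rfl⟩ := QuotientGroup.mk_surjective q
    exact mem_range_relRep p M hM hp g (a_ne_zero_of_dvd p M hp h g)
  rw [Subgroup.relIndex, Subgroup.index, ← Nat.card_eq_of_bijective _ hbij, Nat.card_zmod]

/-- An element of `Gamma0 M` with first column `(p, M)`, for `p ∤ M`. -/
lemma exists_special (p M : ℕ) (hp : p.Prime) (h : ¬ p ∣ M) :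
    ∃ g : Gamma0 M, (g : SL(2, ℤ)) 0 0 = p ∧ (g : SL(2, ℤ)) 1 0 = M := by
  have hcop : IsCoprime (p : ℤ) (M : ℤ) := by
    rw [Int.isCoprime_iff_gcd_eq_one, Int.gcd_natCast_natCast]
    exact (Nat.Prime.coprime_iff_not_dvd hp).mpr h
  obtain ⟨g, hg0, hg1⟩ := IsCoprime.exists_SL2_col hcop 0
  refine ⟨⟨g, ?_⟩, hg0, hg1⟩
  rw [mem_Gamma0_iff_dvd, hg1]

/-- **Relative index, unramified case**: `[Γ₀(M) : Γ₀(pM)] = p + 1` if `p ∤ M`. -/
theorem relIndex_Gamma0_of_not_dvd (p M : ℕ) (hM : M ≠ 0) (hp : p.Prime) (h : ¬ p ∣ M) :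
    (Gamma0 (p * M)).relIndex (Gamma0 M) = p + 1 := by
  haveI : Fact p.Prime := ⟨hp⟩
  obtain ⟨g₀, hg₀0, hg₀1⟩ := exists_special p M hp h
  let f : Option (ZMod p) → Gamma0 M ⧸ (Gamma0 (p * M)).subgroupOf (Gamma0 M) :=
    fun o => o.elim (QuotientGroup.mk g₀) (relRep p M)
  have hne : ∀ t : ZMod p, relRep p M t ≠ QuotientGroup.mk g₀ := by
    intro t ht
    simp only [relRep] at ht
    rw [subMk_eq_iff p M hM _ _ (ZMod.cast t : ℤ) 1 rfl (by rw [hg₀1, mul_one])] at ht
    simp only [lowRep_apply_zero_zero, one_mul, hg₀0] at ht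
    have h1 : (p : ℤ) ∣ 1 := by
      have := dvd_add ht (dvd_mul_left (p : ℤ) (ZMod.cast t : ℤ))
      simpa using this
    have := Int.natCast_dvd_natCast.mp (by simpa using h1 : ((p : ℕ) : ℤ) ∣ ((1 : ℕ) : ℤ))
    exact hp.one_lt.ne' (Nat.dvd_one.mp this)
  have hbij : Function.Bijective f := by
    constructor
    · rintro (_ | t) (_ | t') hh
      · rfl
      · exact absurd hh.symm (hne t')
      · exact absurd hh (hne t)
      · exact congrArg some (relRep_injective p M hM hh)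
    · intro q
      obtain ⟨g, rfl⟩ := QuotientGroup.mk_surjective q
      by_cases ha : (p : ℤ) ∣ (g : SL(2, ℤ)) 0 0
      · refine ⟨none, ?_⟩
        obtain ⟨c₁, hc₁⟩ := (mem_Gamma0_iff_dvd M _).mp g.2
        show QuotientGroup.mk g₀ = _
        rw [subMk_eq_iff p M hM _ _ 1 c₁ (by rw [hg₀1, mul_one]) hc₁, hg₀0]
        exact dvd_sub (dvd_mul_right _ _) (by simpa using ha)
      · obtain ⟨t, ht⟩ := mem_range_relRep p M hM hp g ha
        exact ⟨some t, ht⟩
  rw [Subgroup.relIndex, Subgroup.index, ← Nat.card_eq_of_bijective _ hbij, Finite.card_option,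
    Nat.card_zmod]

end Fermat.Agent.S20.Comb

end
-- ===== PACK-END S20/Comb/RelIndex.lean

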