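import Mathlib
import Fermat.Prelude.Def_CuspForm_HeckeGaloisRepDatum
import Fermat.Prelude.Def_GaloisRep_Adic
import Mathlib.Analysis.Analytic.Order
import Mathlib.Analysis.Complex.Periodic
import Mathlib.Analysis.Complex.UpperHalfPlane.Basic
import Mathlib.Analysis.Normed.Ring.InfiniteSum
import Mathlib.Analysis.SpecificLimits.Normed
import Fermat.Prelude.Def_AlgebraicCurve_DivisorClassGroup
import Fermat.Prelude.Def_ModularCurve_HeckeModule
import Fermat.Prelude.Thm_ModularCurve_coeffMap_qExpand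
import Fermat.Prelude.Def_ModularCurve_ReductionModL
import Fermat.Prelude.Def_ModularCurve_X0ModL
import Fermat.Agent.Pack.S3234.G0E0L0
import Fermat.Agent.Pack.S3234.G0E0L3
import Fermat.Agent.Pack.S3234.G0E0L2
import Fermat.Agent.Pack.S3234.G0E0L1
import Fermat.Agent.Pack.S3234.G0E1L3
import Fermat.Agent.Pack.S3234.G0E1L0
import Fermat.Agent.Pack.S3234.G0E1L1

-- ===== PACK-BEGIN S31/Defs.lean
section




/-!
# Row S31 — frozen interface definitions (row-lead helper22)

S31: in a Hecke–Galois datum of level `N` away from `S`, the representation `H.ρ` is unramified at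
every prime `q ∉ S`.

Route (plan: `coord/S31.md` on `origin/helper22`):
`S31 ⇐ S30 + Lib/Cheb (FrobeniusDivisionStatement) + PTS (p-adic points of the Hecke algebra are
topologically separating; from S22 + SS) + ALG (trace criterion, trace of powers, continuity)`.

This file contains ONLY sorry-free definitions.  It is FROZEN once published.
-/

set_option autoImplicit false

open Polynomial

namespace Fermat.Agent.S31

/-- `ℚ̄`. -/
abbrev Qb : Type := AlgebraicClosure ℚ

/-- `Gal(ℚ̄/ℚ)`. -/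
abbrev GQ : Type := Qb ≃ₐ[ℚ] Qb

/-- The exact type of the frozen statement S30 (existence of the Galois representation attached
to a `p`-adic point of the Hecke algebra).  Input of the row, provided by the S30 row. -/
def S30Statement : Prop :=
  ∀ (p : ℕ) [Fact p.Prime] (N : ℕ) [NeZero N] (S : Finset ℕ)
    (_hpS : p ∈ S) (_hNS : ∀ q : ℕ, q.Prime → q ∣ N → q ∈ S)
    (𝒪' : Type) [CommRing 𝒪'] [IsDomain 𝒪'] [IsDiscreteValuationRing 𝒪']
    [IsAdicComplete (IsLocalRing.maximalIdeal 𝒪') 𝒪'] [Finite (IsLocalRing.ResidueField 𝒪')]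
    [CharZero 𝒪'] (_hp𝒪' : (p : 𝒪') ∈ IsLocalRing.maximalIdeal 𝒪')
    (χ : CuspForm.heckeAlgebra N 2 (↑S : Set ℕ) →+* 𝒪'),
    ∃ (𝒪'' : Type) (_ : CommRing 𝒪'') (_ : IsDomain 𝒪'') (_ : IsDiscreteValuationRing 𝒪'')
      (_ : IsAdicComplete (IsLocalRing.maximalIdeal 𝒪'') 𝒪'')
      (_ : Finite (IsLocalRing.ResidueField 𝒪'')) (_ : CharZero 𝒪'')
      (_ : Algebra 𝒪' 𝒪'') (_ : Module.Finite 𝒪' 𝒪'') (_ : IsLocalHom (algebraMap 𝒪' 𝒪'')),
    Function.Injective (algebraMap 𝒪' 𝒪'') ∧
    ∃ ρ : GaloisRepAdic 𝒪'',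
      (∀ (ℓ : ℕ) (hℓ : ℓ.Prime) (hℓN : ¬ ℓ ∣ N) (hℓS : ℓ ∉ (↑S : Set ℕ)),
        ∀ A : ValuationSubring (AlgebraicClosure ℚ), A.LiesOverPrime ℓ →
          ∀ σ : AlgebraicClosure ℚ ≃ₐ[ℚ] AlgebraicClosure ℚ, A.IsFrobeniusAt σ ℓ →
            LinearMap.charpoly (ρ.ρ σ) =
              X ^ 2 - C (algebraMap 𝒪' 𝒪'' (χ (CuspForm.heckeAlgebra.T hℓ hℓN hℓS))) * X
                + C ((ℓ : 𝒪''))) ∧
      (∀ q : ℕ, q.Prime → ¬ q ∣ N → q ≠ p → ρ.IsUnramifiedAt q)

/-- Frobenius density input (Tier 1 of the shared library CHEB, frozen on main). -/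
abbrev ChebStatement : Prop := Fermat.Agent.Lib.Cheb.Spec.FrobeniusDivisionStatement

/-- A `p`-adic point of a commutative ring `R`: a ring hom to a complete DVR of characteristic zero
with finite residue field and residue characteristic `p`. -/
structure PadicPoint (p : ℕ) (R : Type) [CommRing R] : Type 1 where
  /-- the coefficient ring -/
  O : Type
  [commRing : CommRing O]
  [isDomain : IsDomain O]
  [isDVR : IsDiscreteValuationRing O]
  [isComplete : IsAdicComplete (IsLocalRing.maximalIdeal O) O]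
  [finiteResidue : Finite (IsLocalRing.ResidueField O)]
  [charZero : CharZero O]
  hp : (p : O) ∈ IsLocalRing.maximalIdeal O
  /-- the point -/
  χ : R →+* O

attribute [instance] PadicPoint.commRing PadicPoint.isDomain PadicPoint.isDVR
  PadicPoint.isComplete PadicPoint.finiteResidue PadicPoint.charZero

/-- **PTS**: the `p`-adic points of `R` are topologically separating at every prime `m ∋ p`:
for every `n` there are finitely many `p`-adic points and `n'` such that an element of `R` lying in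
the `n'`-th power of the maximal ideal at each of these points lies in `m ^ n`. -/
def PTS (p : ℕ) (R : Type) [CommRing R] : Prop :=
  ∀ (m : Ideal R), m.IsPrime → (p : R) ∈ m → ∀ n : ℕ,
    ∃ (F : List (PadicPoint p R)) (n' : ℕ), ∀ t : R,
      (∀ P ∈ F, P.χ t ∈ IsLocalRing.maximalIdeal P.O ^ n') → t ∈ m ^ n

/-- The universal polynomial `tr (f ^ j)` in terms of `a = tr f`, `d = det f` for `2 × 2`
matrices: `P₀ = 2`, `P₁ = a`, `P_{j+2} = a P_{j+1} - d P_j`. -/
def powTr {R : Type*} [CommRing R] (a d : R) : ℕ → R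
  | 0 => 2
  | 1 => a
  | (j + 2) => a * powTr a d (j + 1) - d * powTr a d j

/-- The conclusion of S31 for a given datum, as a `Prop` (to shorten statements). -/
def UnramifiedOutside {T : Type} [CommRing T] [IsLocalRing T] (ρ : GaloisRepAdic T)
    (S : Finset ℕ) : Prop :=
  ∀ q : ℕ, q.Prime → q ∉ S → ρ.IsUnramifiedAt q

end Fermat.Agent.S31

end
-- ===== PACK-END S31/Defs.lean

-- ===== PACK-BEGIN S31/H202/TraceRigid.lean
section





/-!
# S31 / ALG-1: trace rigidity (helper202)

For `ρ : GaloisRepAdic A` (`A` any local ring) with absolutely irreducible residual representation: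

* `span_range_rho_eq_top` : the `A`-span of `ρ(G_ℚ)` is all of `End_A(V)`;
* `rho_eq_one_of_trace_invariant` : if `tr ρ(g τ) = tr ρ(g)` for all `g`, then `ρ(τ) = 1`;
* `rho_eq_of_trace_eq` : more generally `tr (ρ(g) X) = 0` for all `g` implies `X = 0`.
-/

set_option autoImplicit false

namespace Fermat.Agent.S31.H202

open scoped TensorProduct

/-- `Gal(ℚ̄/ℚ)` (local notation of this file). -/
local notation "GQ" => (AlgebraicClosure ℚ ≃ₐ[ℚ] AlgebraicClosure ℚ)

variable {A : Type} [CommRing A] [IsLocalRing A]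

/-- the chosen basis of the underlying module. -/
noncomputable def rhoBasis (ρ : GaloisRepAdic A) : Module.Basis (Fin 2) A ρ.V :=
  Module.finBasisOfFinrankEq A ρ.V ρ.finrank_eq

/-- the matrices of `ρ` in the chosen basis. -/
noncomputable def rhoMat (ρ : GaloisRepAdic A) (g : GQ) : Matrix (Fin 2) (Fin 2) A :=
  LinearMap.toMatrix (rhoBasis ρ) (rhoBasis ρ) (ρ.ρ g)

/-- reduction `A → k → k̄`. -/
noncomputable def redHom (A : Type) [CommRing A] [IsLocalRing A] :
    A →+* AlgebraicClosure (IsLocalRing.ResidueField A) :=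
  (algebraMap (IsLocalRing.ResidueField A) (AlgebraicClosure (IsLocalRing.ResidueField A))).comp
    (algebraMap A (IsLocalRing.ResidueField A))

theorem redHom_eq_zero (a : A) (ha : a ∈ IsLocalRing.maximalIdeal A) : redHom A a = 0 := by
  unfold redHom
  rw [RingHom.comp_apply, IsLocalRing.ResidueField.algebraMap_eq,
    (IsLocalRing.residue_eq_zero_iff a).mpr ha, map_zero]

theorem span_rhoMat_map (ρ : GaloisRepAdic A) (habs : ρ.residual.IsAbsolutelyIrreducible) :
    Submodule.span (AlgebraicClosure (IsLocalRing.ResidueField A))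
      (Set.range fun g => (rhoMat ρ g).map (redHom A)) = ⊤ := by
  classical
  set k := IsLocalRing.ResidueField A with hk
  set K := AlgebraicClosure k with hK
  set b := rhoBasis ρ with hb
  set bk : Module.Basis (Fin 2) k (k ⊗[A] ρ.V) := Algebra.TensorProduct.basis k b with hbk
  set bK : Module.Basis (Fin 2) K (K ⊗[k] (k ⊗[A] ρ.V)) := Algebra.TensorProduct.basis K bk
    with hbK
  set ρK : GQ →* Module.End K (K ⊗[k] (k ⊗[A] ρ.V)) := (ρ.residual.baseChange K).ρ with hρK
  have hF : ∀ g, (rhoMat ρ g).map (redHom A) = LinearMap.toMatrix bK bK (ρK g) := by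
    intro g
    have h1 : ρK g = ((ρ.ρ g).baseChange k).baseChange K := rfl
    rw [h1, LinearMap.toMatrix_baseChange, LinearMap.toMatrix_baseChange, Matrix.map_map]
    rfl
  have hnt : Nontrivial (K ⊗[k] (k ⊗[A] ρ.V)) := by
    apply Module.nontrivial_of_finrank_pos (R := K)
    have h2 : Module.finrank K (K ⊗[k] (k ⊗[A] ρ.V)) = 2 := (ρ.residual.baseChange K).finrank_eq
    rw [h2]
    norm_num
  have hB : Algebra.adjoin K (Set.range ρK) = ⊤ := by
    apply Fermat.Agent.S29.H872.burnside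
    intro W hW
    refine habs W (fun σ x hx => ?_)
    exact hW (ρK σ) (Algebra.subset_adjoin ⟨σ, rfl⟩) hx
  have hspanK : Submodule.span K (Set.range ρK) = ⊤ := by
    have h1 := Algebra.adjoin_eq_span K (Set.range ρK)
    have h2 : (Submonoid.closure (Set.range ρK) : Set (Module.End K (K ⊗[k] (k ⊗[A] ρ.V))))
        = Set.range ρK := by
      have : Submonoid.closure (Set.range ρK) = MonoidHom.mrange ρK := by
        rw [← MonoidHom.coe_mrange, Submonoid.closure_eq]
      rw [this, MonoidHom.coe_mrange]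
    rw [h2, hB] at h1
    rw [← h1]
    rfl
  -- transport along `toMatrix`
  have hrange : (Set.range fun g => (rhoMat ρ g).map (redHom A))
      = (LinearMap.toMatrix bK bK) '' (Set.range ρK) := by
    ext M
    constructor
    · rintro ⟨g, rfl⟩
      exact ⟨ρK g, ⟨g, rfl⟩, (hF g).symm⟩
    · rintro ⟨_, ⟨g, rfl⟩, rfl⟩
      exact ⟨g, hF g⟩
  have hmap : Submodule.map ((LinearMap.toMatrix bK bK).toLinearMap)
      (Submodule.span K (Set.range ρK))
      = Submodule.span K ((LinearMap.toMatrix bK bK) '' (Set.range ρK)) :=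
    Submodule.map_span _ _
  rw [hrange, ← hmap, hspanK, Submodule.map_top, LinearMap.range_eq_top]
  exact (LinearMap.toMatrix bK bK).surjective

/-- **Burnside + lifting**: the `A`-span of the image of a residually absolutely irreducible
representation is the full endomorphism ring. -/
theorem span_range_rho_eq_top (ρ : GaloisRepAdic A)
    (habs : ρ.residual.IsAbsolutelyIrreducible) :
    Submodule.span A (Set.range ρ.ρ) = ⊤ := by
  classical
  have h := span_eq_top_of_span_map_eq_top (redHom A) redHom_eq_zero (rhoMat ρ)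
    (span_rhoMat_map ρ habs)
  set b := rhoBasis ρ with hb
  have hrange : Set.range (rhoMat ρ) = (LinearMap.toMatrix b b) '' (Set.range ρ.ρ) := by
    ext M
    constructor
    · rintro ⟨g, rfl⟩
      exact ⟨ρ.ρ g, ⟨g, rfl⟩, rfl⟩
    · rintro ⟨_, ⟨g, rfl⟩, rfl⟩
      exact ⟨g, rfl⟩
  have hmap : Submodule.map ((LinearMap.toMatrix b b).toLinearMap)
      (Submodule.span A (Set.range ρ.ρ))
      = Submodule.span A ((LinearMap.toMatrix b b) '' (Set.range ρ.ρ)) :=
    Submodule.map_span _ _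
  rw [hrange, ← hmap] at h
  have hinj : Function.Injective (Submodule.map ((LinearMap.toMatrix b b).toLinearMap)) :=
    Submodule.map_injective_of_injective (LinearMap.toMatrix b b).injective
  apply hinj
  rw [h, Submodule.map_top]
  exact (LinearMap.range_eq_top.mpr (LinearMap.toMatrix b b).surjective).symm

/-- **Trace orthogonality**: an endomorphism orthogonal (for the trace form) to the image of a
residually absolutely irreducible representation is zero. -/
theorem eq_zero_of_trace_orth (ρ : GaloisRepAdic A)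
    (habs : ρ.residual.IsAbsolutelyIrreducible) (X : Module.End A ρ.V)
    (hX : ∀ g : GQ, LinearMap.trace A ρ.V (ρ.ρ g * X) = 0) : X = 0 := by
  classical
  set b := rhoBasis ρ with hb
  have h := mat_eq_zero_of_trace_orth (redHom A) redHom_eq_zero (rhoMat ρ)
    (span_rhoMat_map ρ habs) (LinearMap.toMatrix b b X) (fun g => by
      have := hX g
      rw [LinearMap.trace_eq_matrix_trace A b, LinearMap.toMatrix_mul] at this
      exact this)
  exact (LinearMap.toMatrix b b).injective (by rw [h, map_zero])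

/-- **Trace rigidity** (ALG-1): if `tr ρ(g τ) = tr ρ(g)` for all `g`, then `ρ(τ) = 1`. -/
theorem rho_eq_one_of_trace_invariant (ρ : GaloisRepAdic A)
    (habs : ρ.residual.IsAbsolutelyIrreducible) (τ : GQ)
    (h : ∀ g : GQ, LinearMap.trace A ρ.V (ρ.ρ (g * τ)) = LinearMap.trace A ρ.V (ρ.ρ g)) :
    ρ.ρ τ = 1 := by
  have h0 := eq_zero_of_trace_orth ρ habs (ρ.ρ τ - 1) (fun g => by
    rw [mul_sub, mul_one, map_sub, ← map_mul, h g, sub_self])
  exact sub_eq_zero.mp h0

/-- two elements with the same trace pairing against the image are equal. -/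
theorem rho_eq_of_trace_eq (ρ : GaloisRepAdic A)
    (habs : ρ.residual.IsAbsolutelyIrreducible) (σ τ : GQ)
    (h : ∀ g : GQ, LinearMap.trace A ρ.V (ρ.ρ (g * σ)) = LinearMap.trace A ρ.V (ρ.ρ (g * τ))) :
    ρ.ρ σ = ρ.ρ τ := by
  have h0 := eq_zero_of_trace_orth ρ habs (ρ.ρ σ - ρ.ρ τ) (fun g => by
    rw [mul_sub, map_sub, ← map_mul, ← map_mul, h g, sub_self])
  exact sub_eq_zero.mp h0

end Fermat.Agent.S31.H202

end
-- ===== PACK-END S31/H202/TraceRigid.lean

-- ===== PACK-BEGIN S24/Mod/H997Frac.lean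
section


/-!
# S24 / MOD — the polynomial ring `R_N = ℚ̄[j(q^d) : d ∣ N]` inside the function field `FF N`

* `RN N`   : the `ℚ̄`-subalgebra of `ℚ̄((q))` generated by the `j(q^d)`, `d ∣ N`;
* `inclRN` : the inclusion `RN N → FF N`;
* `liftF`  : every injective ring hom `RN N →+* L` into a field extends uniquely to `FF N →+* L`.
-/

set_option autoImplicit false

noncomputable section

open ModularCurve HahnSeries IntermediateField

namespace Fermat.Agent.S24.H997

variable (N : ℕ)

/-- The generators `j(q^d)`, `d ∣ N`, as Laurent series over `ℚ̄`. -/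
def gensBar : Set (LaurentSeries Kbar) := ⇑(coeffEmb Kbar) '' divisorExpansions N

/-- The function field of `X₀(N)` over `ℚ̄` is generated over `ℚ̄` by the `j(q^d)`, `d ∣ N`. -/
theorem modularFunctionFieldBar_eq_adjoin :
    modularFunctionFieldBar N = IntermediateField.adjoin Kbar (gensBar N) := by
  apply le_antisymm
  · show laurentBaseChange Kbar (modularFunctionFieldFull N) ≤ _
    rw [laurentBaseChange, IntermediateField.adjoin_le_iff]
    rintro _ ⟨x, hx, rfl⟩
    have hx' : x ∈ IntermediateField.adjoin ℚ (divisorExpansions N) := hx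
    induction hx' using IntermediateField.adjoin_induction with
    | mem y hy => exact IntermediateField.subset_adjoin Kbar _ ⟨y, hy, rfl⟩
    | algebraMap c =>
        have h : coeffEmb Kbar (algebraMap ℚ (LaurentSeries ℚ) c)
            = algebraMap Kbar (LaurentSeries Kbar) (algebraMap ℚ Kbar c) := by
          rw [algebraMap_apply_eq_single, algebraMap_laurentSeries_eq_single, coeffEmb,
            coeffMap_single]
        show coeffEmb Kbar (algebraMap ℚ (LaurentSeries ℚ) c) ∈ _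
        rw [h]
        exact IntermediateField.algebraMap_mem _ _
    | add y z _ _ hy hz =>
        show coeffEmb Kbar (y + z) ∈ _
        rw [map_add]
        exact add_mem (hy (by assumption)) (hz (by assumption))
    | inv y _ hy =>
        show coeffEmb Kbar (y⁻¹) ∈ _
        rw [map_inv₀]
        exact inv_mem (hy (by assumption))
    | mul y z _ _ hy hz =>
        show coeffEmb Kbar (y * z) ∈ _
        rw [map_mul]
        exact mul_mem (hy (by assumption)) (hz (by assumption))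
  · show _ ≤ laurentBaseChange Kbar (modularFunctionFieldFull N)
    rw [laurentBaseChange]
    exact IntermediateField.adjoin.mono _ _ _
      (Set.image_mono (IntermediateField.subset_adjoin ℚ _))

/-- The polynomial ring `ℚ̄[j(q^d) : d ∣ N] ⊆ ℚ̄((q))`. -/
def RN : Subalgebra Kbar (LaurentSeries Kbar) := Algebra.adjoin Kbar (gensBar N)

theorem RN_le : RN N ≤ (modularFunctionFieldBar N).toSubalgebra := by
  rw [modularFunctionFieldBar_eq_adjoin]
  exact IntermediateField.algebra_adjoin_le_adjoin Kbar (gensBar N)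

/-- The inclusion `R_N → FF N`. -/
def inclRN : RN N →ₐ[Kbar] FF N := Subalgebra.inclusion (RN_le N)

@[simp] theorem coe_inclRN (r : RN N) : ((inclRN N r : FF N) : LaurentSeries Kbar) = r := rfl

theorem inclRN_injective : Function.Injective (inclRN N) :=
  Subalgebra.inclusion_injective (RN_le N)

theorem exists_div_inclRN (f : FF N) :
    ∃ r t : RN N, t ≠ 0 ∧ f = inclRN N r / inclRN N t := by
  have hf : (f : LaurentSeries Kbar) ∈ IntermediateField.adjoin Kbar (gensBar N) := by
    rw [← modularFunctionFieldBar_eq_adjoin]; exact f.2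
  obtain ⟨r, hr, s, hs, h⟩ := IntermediateField.mem_adjoin_iff_div.mp hf
  by_cases hs0 : s = 0
  · refine ⟨0, 1, one_ne_zero, ?_⟩
    apply Subtype.ext
    rw [h, hs0, div_zero]
    simp
  · refine ⟨⟨r, hr⟩, ⟨s, hs⟩, fun h0 => hs0 (congrArg Subtype.val h0), ?_⟩
    apply Subtype.ext
    rw [h]
    simp

/-- The generator `j(q^d)` as an element of `R_N`. -/
def jR (d : ℕ) [NeZero d] (hd : d ∣ N) : RN N :=
  ⟨coeffEmb Kbar (qExpand ℚ d jq),
    Algebra.subset_adjoin ⟨_, mem_divisorExpansions N hd, rfl⟩⟩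

theorem inclRN_jR_one [NeZero N] : inclRN N (jR N 1 (one_dvd N)) = jF N := by
  apply Subtype.ext
  simp [jR, jF, qExpand_one_apply]

section Lift

variable {N}
variable {L : Type*} [Field L]

/-- Extension of an injective ring hom `R_N →+* L` to the fraction field `FF N`. -/
def liftF (s : RN N →+* L) (hs : Function.Injective s) : FF N →+* L :=
  letI : Algebra (RN N) (FF N) := (inclRN N).toRingHom.toAlgebra
  haveI : FaithfulSMul (RN N) (FF N) :=
    (faithfulSMul_iff_algebraMap_injective _ _).mpr (inclRN_injective N)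
  haveI : IsFractionRing (RN N) (FF N) :=
    IsFractionRing.of_field _ _ fun z => by
      obtain ⟨r, t, -, h⟩ := exists_div_inclRN N z
      exact ⟨r, t, h⟩
  IsFractionRing.lift hs

theorem liftF_inclRN (s : RN N →+* L) (hs : Function.Injective s) (r : RN N) :
    liftF s hs (inclRN N r) = s r := by
  let _ : Algebra (RN N) (FF N) := (inclRN N).toRingHom.toAlgebra
  have : FaithfulSMul (RN N) (FF N) :=
    (faithfulSMul_iff_algebraMap_injective _ _).mpr (inclRN_injective N)
  have : IsFractionRing (RN N) (FF N) :=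
    IsFractionRing.of_field _ _ fun z => by
      obtain ⟨r, t, -, h⟩ := exists_div_inclRN N z
      exact ⟨r, t, h⟩
  exact IsFractionRing.lift_algebraMap hs r

theorem liftF_div (s : RN N →+* L) (hs : Function.Injective s) (r t : RN N) :
    liftF s hs (inclRN N r / inclRN N t) = s r / s t := by
  rw [map_div₀, liftF_inclRN, liftF_inclRN]

theorem liftF_algebraMap (s : RN N →+* L) (hs : Function.Injective s) (c : Kbar) :
    liftF s hs (algebraMap Kbar (FF N) c) = s (algebraMap Kbar (RN N) c) := by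
  rw [← liftF_inclRN s hs]
  congr 1

end Lift

end Fermat.Agent.S24.H997

end
end
-- ===== PACK-END S24/Mod/H997Frac.lean

-- ===== PACK-BEGIN S24/H624/Taylor.lean
section


/-!
# Taylor expansion at a point of the upper half-plane as an injective algebra hom
-/

set_option autoImplicit false

namespace Fermat.Agent.S24.H624

open UpperHalfPlane Complex
open scoped Manifold Topology

/-- `n`-th Taylor coefficient at `τ` (in the coordinate `z - τ`). -/
noncomputable def taylorCoeff (τ : ℍ) (f : ℍ → ℂ) (n : ℕ) : ℂ :=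
  iteratedDeriv n (f ∘ ofComplex) (τ : ℂ) / (n.factorial : ℂ)

theorem contDiffAt_of_mdiff {f : ℍ → ℂ} (hf : MDiff f) (τ : ℍ) (n : ℕ∞) :
    ContDiffAt ℂ n (f ∘ ofComplex) (τ : ℂ) :=
  (analyticAt_of_mdiff hf τ).contDiffAt.of_le (by exact_mod_cast le_top)

theorem taylorCoeff_add {f g : ℍ → ℂ} (hf : MDiff f) (hg : MDiff g) (τ : ℍ) (n : ℕ) :
    taylorCoeff τ (f + g) n = taylorCoeff τ f n + taylorCoeff τ g n := by
  unfold taylorCoeff
  have : ((f + g) ∘ ofComplex) = (f ∘ ofComplex) + (g ∘ ofComplex) := rfl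
  rw [this, iteratedDeriv_add (contDiffAt_of_mdiff hf τ n) (contDiffAt_of_mdiff hg τ n), add_div]

theorem taylorCoeff_const (c : ℂ) (τ : ℍ) (n : ℕ) :
    taylorCoeff τ (fun _ => c) n = if n = 0 then c else 0 := by
  unfold taylorCoeff
  have : ((fun _ : ℍ => c) ∘ ofComplex) = fun _ : ℂ => c := rfl
  rw [this]
  rcases n with _ | n
  · simp
  · rw [iteratedDeriv_succ']
    simp

theorem taylorCoeff_mul {f g : ℍ → ℂ} (hf : MDiff f) (hg : MDiff g) (τ : ℍ) (n : ℕ) :
    taylorCoeff τ (f * g) n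
      = ∑ p ∈ Finset.HasAntidiagonal.antidiagonal n,
          taylorCoeff τ f p.1 * taylorCoeff τ g p.2 := by
  unfold taylorCoeff
  have : ((f * g) ∘ ofComplex) = (f ∘ ofComplex) * (g ∘ ofComplex) := rfl
  rw [this, iteratedDeriv_mul (contDiffAt_of_mdiff hf τ n) (contDiffAt_of_mdiff hg τ n),
    Finset.Nat.sum_antidiagonal_eq_sum_range_succ
      (fun i j => iteratedDeriv i (f ∘ ofComplex) (τ : ℂ) / (i.factorial : ℂ)
        * (iteratedDeriv j (g ∘ ofComplex) (τ : ℂ) / (j.factorial : ℂ))) n,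
    Finset.sum_div]
  refine Finset.sum_congr rfl fun i hi => ?_
  have hi' : i ≤ n := Nat.lt_succ_iff.mp (Finset.mem_range.mp hi)
  have h1 : (n.choose i : ℂ) = (n.factorial : ℂ) / ((i.factorial : ℂ) * ((n - i).factorial : ℂ)) := by
    rw [Nat.choose_eq_factorial_div_factorial hi']
    rw [Nat.cast_div (Nat.factorial_mul_factorial_dvd_factorial hi')
      (by exact_mod_cast (Nat.mul_pos (Nat.factorial_pos _) (Nat.factorial_pos _)).ne')]
    push_cast
    rfl
  rw [h1]
  have hn : (n.factorial : ℂ) ≠ 0 := by exact_mod_cast (Nat.factorial_pos n).ne'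
  have hi0 : (i.factorial : ℂ) ≠ 0 := by exact_mod_cast (Nat.factorial_pos i).ne'
  have hni : ((n - i).factorial : ℂ) ≠ 0 := by exact_mod_cast (Nat.factorial_pos (n - i)).ne'
  field_simp

/-- Taylor expansion at `τ` as a `ℂ`-algebra hom from holomorphic functions to power series. -/
noncomputable def taylorAt (τ : ℍ) : holoRing →ₐ[ℂ] PowerSeries ℂ where
  toFun f := PowerSeries.mk (taylorCoeff τ (f : ℍ → ℂ))
  map_one' := by
    ext n
    rw [PowerSeries.coeff_mk, PowerSeries.coeff_one]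
    exact taylorCoeff_const 1 τ n
  map_mul' f g := by
    ext n
    rw [PowerSeries.coeff_mk, PowerSeries.coeff_mul]
    simp only [PowerSeries.coeff_mk]
    exact taylorCoeff_mul f.2 g.2 τ n
  map_zero' := by
    ext n
    rw [PowerSeries.coeff_mk, map_zero]
    have := taylorCoeff_const 0 τ n
    rw [show (((0 : holoRing) : ℍ → ℂ)) = fun _ => (0 : ℂ) from rfl, this]
    simp
  map_add' f g := by
    ext n
    rw [PowerSeries.coeff_mk, map_add, PowerSeries.coeff_mk, PowerSeries.coeff_mk]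
    exact taylorCoeff_add f.2 g.2 τ n
  commutes' c := by
    ext n
    rw [PowerSeries.coeff_mk]
    have := taylorCoeff_const c τ n
    rw [show ((algebraMap ℂ holoRing c : holoRing) : ℍ → ℂ) = fun _ => c from rfl, this]
    rw [PowerSeries.algebraMap_apply, Algebra.algebraMap_self, RingHom.id_apply, PowerSeries.coeff_C]

@[simp]
theorem coeff_taylorAt (τ : ℍ) (f : holoRing) (n : ℕ) :
    PowerSeries.coeff n (taylorAt τ f) = taylorCoeff τ (f : ℍ → ℂ) n := by
  show PowerSeries.coeff n (PowerSeries.mk (taylorCoeff τ (f : ℍ → ℂ))) = _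
  rw [PowerSeries.coeff_mk]

theorem taylorCoeff_zero_idx (τ : ℍ) (f : ℍ → ℂ) : taylorCoeff τ f 0 = f τ := by
  simp [taylorCoeff, Function.comp_apply, ofComplex_apply]

theorem taylorCoeff_eq_zero_iff (τ : ℍ) (f : ℍ → ℂ) (n : ℕ) :
    taylorCoeff τ f n = 0 ↔ iteratedDeriv n (f ∘ ofComplex) (τ : ℂ) = 0 := by
  unfold taylorCoeff
  have hn : (n.factorial : ℂ) ≠ 0 := by exact_mod_cast (Nat.factorial_pos n).ne'
  rw [div_eq_zero_iff]
  simp [hn]

/-- The order of the Taylor series is the analytic order of vanishing. -/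
theorem order_taylorAt (τ : ℍ) (f : holoRing) :
    (taylorAt τ f).order = ordAt τ (f : ℍ → ℂ) := by
  have han := analyticAt_of_mdiff f.2 τ
  by_cases h0 : f = 0
  · subst h0
    rw [map_zero, PowerSeries.order_zero]
    exact (ordAt_zero τ).symm
  · have hne : ordAt τ (f : ℍ → ℂ) ≠ ⊤ :=
      ordAt_ne_top f.2 (fun h => h0 (Subtype.ext h)) τ
    obtain ⟨n, hn⟩ := ENat.ne_top_iff_exists.mp hne
    rw [← hn]
    have key := (analyticOrderAt_eq_nat_iff_iteratedDeriv_eq_zero han (n := n)).mp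
      (by rw [← ordAt_def]; exact hn.symm)
    rw [PowerSeries.order_eq_nat]
    refine ⟨?_, fun i hi => ?_⟩
    · rw [coeff_taylorAt, Ne, taylorCoeff_eq_zero_iff]
      exact key.2
    · rw [coeff_taylorAt, taylorCoeff_eq_zero_iff]
      exact key.1 i hi

theorem taylorAt_injective (τ : ℍ) : Function.Injective (taylorAt τ) := by
  rw [injective_iff_map_eq_zero]
  intro f hf
  by_contra h0
  have h1 := order_taylorAt τ f
  rw [hf, PowerSeries.order_zero] at h1
  exact ordAt_ne_top f.2 (fun h => h0 (Subtype.ext h)) τ h1.symm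

end Fermat.Agent.S24.H624

end
-- ===== PACK-END S24/H624/Taylor.lean

-- ===== PACK-BEGIN S24/M7/H47Level1.lean
section



/-!
# S24 / M1 items D3, D4 (helper47): level-one facts about `j = E₄³ / Δ`

* `exists_E₄_cube_eq_mul_discriminant`, `jFun_surjective` : `j : ℍ → ℂ` is surjective
  (if `E₄³ - c Δ` had no zero, its inverse would be a level-one form of weight `-12`).
* `jFun_smul` : `j` is `SL(2, ℤ)`-invariant.
* `E₆_I`, `E₄_rho` : `E₆(i) = 0`, `E₄(ρ) = 0`; `jFun_I`, `jFun_rho`; `S_smul_I`, `ST_smul_rho`.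
* `analyticOrderAt_jFun_sub_*` : the order of `j - j(z₀)` at `z₀` is `3`, `2`, `1` according to
  `E₄ z₀ = 0`, `E₆ z₀ = 0`, neither.

Built on helper140's `Fermat.Agent.S20.L1.Ramanujan` (Ramanujan identities, `jFun`, `D_jFun`).
-/

set_option autoImplicit false

open UpperHalfPlane ModularForm EisensteinSeries Derivative Filter Topology
open scoped MatrixGroups Manifold

noncomputable section

namespace Fermat.Agent.S24.M7.H47

open Fermat.Agent.S20.L1

local notation "Δ" => ModularForm.discriminant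


/-- Function-level transformation law from slash invariance. -/
lemma smul_eq_of_slash_eq {k : ℤ} {F : ℍ → ℂ} {γ : SL(2, ℤ)} (h : F ∣[k] γ = F) (z : ℍ) :
    F (γ • z) = denom γ z ^ k * F z := by
  have h1 := congrFun h z
  rw [SL_slash_apply] at h1
  have hd : denom γ z ≠ 0 := denom_ne_zero _ _
  rw [← h1, mul_comm, mul_assoc, ← zpow_add₀ hd]
  simp

lemma discriminant_smul_eq (γ : SL(2, ℤ)) (z : ℍ) :
    Δ (γ • z) = denom γ z ^ (12 : ℤ) * Δ z :=
  smul_eq_of_slash_eq
    (SlashInvariantFormClass.slash_action_eq CuspForm.discriminant _ ⟨γ, rfl⟩) z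

lemma E₄_smul_eq (γ : SL(2, ℤ)) (z : ℍ) :
    E₄ (γ • z) = denom γ z ^ (4 : ℤ) * E₄ z :=
  smul_eq_of_slash_eq (levelOne_slash_eq E₄ γ) z

lemma E₆_smul_eq (γ : SL(2, ℤ)) (z : ℍ) :
    E₆ (γ • z) = denom γ z ^ (6 : ℤ) * E₆ z :=
  smul_eq_of_slash_eq (levelOne_slash_eq E₆ γ) z

/-- The weight-12 numerator `E₄³ - c Δ` of `j - c`. -/
def jNum (c : ℂ) : ℍ → ℂ := fun z ↦ E₄ z ^ 3 - c * Δ z

lemma mdiff_jNum (c : ℂ) : MDiff (jNum c) := by
  have h : jNum c = (E₄ : ℍ → ℂ) ^ 3 - c • (Δ : ℍ → ℂ) := by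
    funext z; simp [jNum]
  rw [h]
  exact (mdiff_E₄.pow 3).sub (mdiff_discriminant.const_smul _)

lemma jNum_smul (c : ℂ) (γ : SL(2, ℤ)) (z : ℍ) :
    jNum c (γ • z) = denom γ z ^ (12 : ℤ) * jNum c z := by
  have hd : denom γ z ≠ 0 := denom_ne_zero _ _
  simp only [jNum, discriminant_smul_eq, E₄_smul_eq]
  rw [mul_pow, ← zpow_natCast (denom γ z ^ (4:ℤ)) 3, ← zpow_mul]
  norm_num
  ring

lemma tendsto_jNum (c : ℂ) : Tendsto (jNum c) atImInfty (𝓝 1) := by
  have h1 : Tendsto (fun z : ℍ ↦ E₄ z ^ 3) atImInfty (𝓝 (1 ^ 3)) := tendsto_E₄.pow 3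
  have h2 : Tendsto (fun z : ℍ ↦ c * Δ z) atImInfty (𝓝 (c * 0)) :=
    (discriminant_isZeroAtImInfty).const_mul c
  have h3 := h1.sub h2
  simp only [one_pow, mul_zero, sub_zero] at h3
  exact h3

/-- `E₄³ - c Δ` has a zero on `ℍ`, for every `c`. -/
theorem exists_jNum_eq_zero (c : ℂ) : ∃ z : ℍ, jNum c z = 0 := by
  by_contra hne
  replace hne : ∀ z : ℍ, jNum c z ≠ 0 := fun z hz ↦ hne ⟨z, hz⟩
  have hol : MDiff (fun z ↦ (1 : ℂ) / jNum c z) :=
    (mdifferentiable_const (c := (1:ℂ))).div (mdiff_jNum c) hne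
  have inv : ∀ γ : SL(2, ℤ), (fun z ↦ (1 : ℂ) / jNum c z) ∣[(-12 : ℤ)] γ
      = fun z ↦ (1 : ℂ) / jNum c z := by
    intro γ
    funext z
    have hd : denom γ z ≠ 0 := denom_ne_zero _ _
    rw [SL_slash_apply, jNum_smul]
    have := hne z
    simp only [neg_neg]
    field_simp
  have bdd : IsBoundedAtImInfty (fun z ↦ (1 : ℂ) / jNum c z) := by
    have h : Tendsto (fun z ↦ (1 : ℂ) / jNum c z) atImInfty (𝓝 (1 / 1)) :=
      (tendsto_const_nhds).div (tendsto_jNum c) one_ne_zero
    exact h.isBigO_one ℝ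
  have h0 := ModularFormClass.levelOne_neg_weight_eq_zero (by norm_num)
    (mkLevelOne (-12) _ hol inv bdd)
  have h1 := congrFun h0 UpperHalfPlane.I
  simp only [coe_mkLevelOne, Pi.zero_apply, one_div, inv_eq_zero] at h1
  exact hne _ h1

/-- For every `c : ℂ` there is `z ∈ ℍ` with `E₄(z)³ = c Δ(z)`. -/
theorem exists_E₄_cube_eq_mul_discriminant (c : ℂ) : ∃ z : ℍ, E₄ z ^ 3 = c * Δ z := by
  obtain ⟨z, hz⟩ := exists_jNum_eq_zero c
  exact ⟨z, sub_eq_zero.mp hz⟩

/-- **`j` is surjective.** -/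
theorem jFun_surjective : Function.Surjective jFun := by
  intro c
  obtain ⟨z, hz⟩ := exists_E₄_cube_eq_mul_discriminant c
  exact ⟨z, by rw [jFun, hz, mul_div_assoc, div_self (discriminant_ne_zero z), mul_one]⟩

/-- `j` is `SL(2, ℤ)`-invariant. -/
lemma jFun_smul (γ : SL(2, ℤ)) (z : ℍ) : jFun (γ • z) = jFun z := by
  have hd : denom γ z ≠ 0 := denom_ne_zero _ _
  have hΔ := discriminant_ne_zero z
  simp only [jFun, discriminant_smul_eq, E₄_smul_eq]
  rw [mul_pow, ← zpow_natCast (denom γ z ^ (4:ℤ)) 3, ← zpow_mul]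
  norm_num
  field_simp

/-! ### The elliptic points -/

lemma S_smul_I : ModularGroup.S • UpperHalfPlane.I = UpperHalfPlane.I := by
  rw [modular_S_smul]
  ext
  simp [Complex.inv_I]

/-- `E₆(i) = 0`. -/
theorem E₆_I : E₆ UpperHalfPlane.I = 0 := by
  have h := E₆_smul_eq ModularGroup.S UpperHalfPlane.I
  rw [S_smul_I, ModularGroup.denom_S] at h
  have h6 : ((UpperHalfPlane.I : ℍ) : ℂ) ^ (6 : ℤ) = -1 := by
    have : ((UpperHalfPlane.I : ℍ) : ℂ) = Complex.I := rfl
    rw [this]
    norm_cast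
    rw [show (6 : ℕ) = 2 * 3 by norm_num, pow_mul, Complex.I_sq]
    norm_num
  rw [h6] at h
  have : (2 : ℂ) * E₆ UpperHalfPlane.I = 0 := by linear_combination h
  simpa using this

/-- The elliptic point `ρ = e^{2πi/3} = -1/2 + (√3/2) i`. -/
def rho : ℍ := ⟨-1 / 2 + (Real.sqrt 3 / 2 : ℝ) * Complex.I, by simp⟩

lemma coe_rho : (rho : ℂ) = -1 / 2 + (Real.sqrt 3 / 2 : ℝ) * Complex.I := rfl

lemma rho_sq_add : (rho : ℂ) ^ 2 + (rho : ℂ) + 1 = 0 := by
  rw [coe_rho]
  have h3 : ((Real.sqrt 3 : ℝ) : ℂ) ^ 2 = 3 := by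
    norm_cast
    exact Real.sq_sqrt (by norm_num)
  push_cast
  linear_combination (Complex.I ^ 2 / 4) * h3 + (3 / 4 : ℂ) * Complex.I_sq

lemma ST_smul_rho : (ModularGroup.S * ModularGroup.T) • rho = rho := by
  ext
  rw [coe_specialLinearGroup_apply]
  have h := rho_sq_add
  have hne : (rho : ℂ) + 1 ≠ 0 := by
    intro h1
    have : (rho : ℂ) = -1 := by linear_combination h1
    rw [this] at h
    norm_num at h
  simp [ModularGroup.S, ModularGroup.T]
  field_simp
  linear_combination -h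

lemma denom_ST (z : ℍ) : denom (ModularGroup.S * ModularGroup.T : SL(2, ℤ)) z = (z : ℂ) + 1 := by
  rw [ModularGroup.denom_apply]
  simp [ModularGroup.S, ModularGroup.T, Matrix.mul_apply, Fin.sum_univ_two]

lemma denom_ST_rho : denom (ModularGroup.S * ModularGroup.T : SL(2, ℤ)) rho = (rho : ℂ) + 1 :=
  denom_ST rho

/-- `E₄(ρ) = 0`. -/
theorem E₄_rho : E₄ rho = 0 := by
  have h := E₄_smul_eq (ModularGroup.S * ModularGroup.T) rho
  rw [ST_smul_rho, denom_ST_rho] at h
  have hr := rho_sq_add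
  have h4 : ((rho : ℂ) + 1) ^ (4 : ℤ) = -(rho : ℂ) - 1 := by
    norm_cast
    have h2 : ((rho : ℂ) + 1) ^ 2 = (rho : ℂ) := by linear_combination hr
    rw [show (4 : ℕ) = 2 * 2 by norm_num, pow_mul, h2]
    linear_combination hr
  rw [h4] at h
  have hne : (rho : ℂ) + 2 ≠ 0 := by
    intro h1
    have : (rho : ℂ) = -2 := by linear_combination h1
    rw [this] at hr
    norm_num at hr
  have : ((rho : ℂ) + 2) * E₄ rho = 0 := by linear_combination h
  rcases mul_eq_zero.mp this with h' | h'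
  · exact absurd h' hne
  · exact h'

theorem jFun_I : jFun UpperHalfPlane.I = 1728 := (jFun_eq_1728_iff _).mpr E₆_I

theorem jFun_rho : jFun rho = 0 := (jFun_eq_zero_iff _).mpr E₄_rho



/-! ### Local orders of `j` -/

lemma analyticAt_comp_ofComplex {F : ℍ → ℂ} (hF : MDiff F) (z : ℍ) :
    AnalyticAt ℂ (F ∘ ofComplex) (z : ℂ) :=
  (UpperHalfPlane.mdifferentiable_iff.mp hF).analyticAt
    (isOpen_upperHalfPlaneSet.mem_nhds z.im_pos)

lemma deriv_comp_ofComplex_ne_zero {F : ℍ → ℂ} {z : ℍ} (h : D F z ≠ 0) :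
    deriv (F ∘ ofComplex) (z : ℂ) ≠ 0 := by
  intro h0
  apply h
  simp [normalizedDerivOfComplex, h0]

lemma mdiff_inv_discriminant : MDiff (fun z : ℍ ↦ (Δ z)⁻¹) := by
  have := (mdifferentiable_const (c := (1:ℂ))).div mdiff_discriminant discriminant_ne_zero
  have h : (fun z : ℍ ↦ (Δ z)⁻¹) = (fun _ ↦ (1 : ℂ)) / (Δ : ℍ → ℂ) := by
    funext z; simp
  rw [h]
  exact this

lemma analyticOrderAt_inv_discriminant (z : ℍ) :
    analyticOrderAt ((fun z : ℍ ↦ (Δ z)⁻¹) ∘ ofComplex) (z : ℂ) = 0 := by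
  rw [(analyticAt_comp_ofComplex mdiff_inv_discriminant z).analyticOrderAt_eq_zero]
  simp [discriminant_ne_zero]

/-- Zeros of `E₄` have order one. -/
theorem analyticOrderAt_E₄ {z : ℍ} (h : E₄ z = 0) :
    analyticOrderAt ((E₄ : ℍ → ℂ) ∘ ofComplex) (z : ℂ) = 1 :=
  (analyticAt_comp_ofComplex mdiff_E₄ z).analyticOrderAt_eq_one_of_zero_deriv_ne_zero
    (by simpa using h) (deriv_comp_ofComplex_ne_zero (D_E₄_ne_zero h))

/-- Zeros of `E₆` have order one. -/
theorem analyticOrderAt_E₆ {z : ℍ} (h : E₆ z = 0) :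
    analyticOrderAt ((E₆ : ℍ → ℂ) ∘ ofComplex) (z : ℂ) = 1 :=
  (analyticAt_comp_ofComplex mdiff_E₆ z).analyticOrderAt_eq_one_of_zero_deriv_ne_zero
    (by simpa using h) (deriv_comp_ofComplex_ne_zero (D_E₆_ne_zero h))

/-- At a point with `E₄ E₆ ≠ 0` (i.e. `j ≠ 0, 1728`), `j - j(z₀)` vanishes to order `1`. -/
theorem analyticOrderAt_jFun_sub_generic {z₀ : ℍ} (h4 : E₄ z₀ ≠ 0) (h6 : E₆ z₀ ≠ 0) :
    analyticOrderAt (fun w : ℂ ↦ jFun (ofComplex w) - jFun z₀) (z₀ : ℂ) = 1 := by
  have h := (analyticAt_comp_ofComplex mdiff_jFun z₀).analyticOrderAt_sub_eq_one_of_deriv_ne_zero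
    (deriv_comp_ofComplex_ne_zero (D_jFun_ne_zero h4 h6))
  simpa using h

/-- At a zero of `E₆` (i.e. `j = 1728`), `j - j(z₀)` vanishes to order `2`. -/
theorem analyticOrderAt_jFun_sub_of_E₆ {z₀ : ℍ} (h : E₆ z₀ = 0) :
    analyticOrderAt (fun w : ℂ ↦ jFun (ofComplex w) - jFun z₀) (z₀ : ℂ) = 2 := by
  have hfun : (fun w : ℂ ↦ jFun (ofComplex w) - jFun z₀)
      = ((E₆ : ℍ → ℂ) ∘ ofComplex) ^ 2 * ((fun z : ℍ ↦ (Δ z)⁻¹) ∘ ofComplex) := by
    funext w
    rw [(jFun_eq_1728_iff z₀).mpr h]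
    have hΔ := discriminant_ne_zero (ofComplex w)
    have := E₄_cube_sub_E₆_sq (ofComplex w)
    simp only [jFun, Pi.mul_apply, Pi.pow_apply, Function.comp_apply]
    field_simp
    linear_combination this
  rw [hfun, analyticOrderAt_mul ((analyticAt_comp_ofComplex mdiff_E₆ z₀).pow 2)
    (analyticAt_comp_ofComplex mdiff_inv_discriminant z₀),
    analyticOrderAt_pow (analyticAt_comp_ofComplex mdiff_E₆ z₀), analyticOrderAt_E₆ h,
    analyticOrderAt_inv_discriminant]
  rfl

/-- At a zero of `E₄` (i.e. `j = 0`), `j - j(z₀)` vanishes to order `3`. -/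
theorem analyticOrderAt_jFun_sub_of_E₄ {z₀ : ℍ} (h : E₄ z₀ = 0) :
    analyticOrderAt (fun w : ℂ ↦ jFun (ofComplex w) - jFun z₀) (z₀ : ℂ) = 3 := by
  have hfun : (fun w : ℂ ↦ jFun (ofComplex w) - jFun z₀)
      = ((E₄ : ℍ → ℂ) ∘ ofComplex) ^ 3 * ((fun z : ℍ ↦ (Δ z)⁻¹) ∘ ofComplex) := by
    funext w
    rw [(jFun_eq_zero_iff z₀).mpr h]
    simp only [jFun, Pi.mul_apply, Pi.pow_apply, Function.comp_apply, sub_zero, div_eq_mul_inv]
  rw [hfun, analyticOrderAt_mul ((analyticAt_comp_ofComplex mdiff_E₄ z₀).pow 3)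
    (analyticAt_comp_ofComplex mdiff_inv_discriminant z₀),
    analyticOrderAt_pow (analyticAt_comp_ofComplex mdiff_E₄ z₀), analyticOrderAt_E₄ h,
    analyticOrderAt_inv_discriminant]
  rfl

end Fermat.Agent.S24.M7.H47

end
end
-- ===== PACK-END S24/M7/H47Level1.lean

-- ===== PACK-BEGIN S24/Inf/Conv.lean
section






/-!
# S24 / MOD-INF — convergent Laurent expansions at `∞`

`InfExp N f φ` : the Laurent series `φ` converges to `f : ℍ → ℂ` on all of `ℍ` in the
variable `z = exp (2πiτ/N)`.  We prove closure under the ring operations and uniqueness.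
-/

set_option autoImplicit false

noncomputable section

open HahnSeries ModularCurve UpperHalfPlane Complex
open scoped Real

namespace Fermat.Agent.S24

/-- The local parameter `exp (2πiτ/N)` at `∞` (width `N`). -/
def infZ (N : ℕ) (τ : ℍ) : ℂ := Function.Periodic.qParam (N : ℝ) (τ : ℂ)

theorem infZ_def (N : ℕ) (τ : ℍ) : infZ N τ = Complex.exp (2 * π * Complex.I * τ / N) := by
  simp [infZ, Function.Periodic.qParam]

theorem infZ_ne_zero (N : ℕ) (τ : ℍ) : infZ N τ ≠ 0 :=
  Function.Periodic.qParam_ne_zero _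

theorem norm_infZ_lt_one (N : ℕ) [NeZero N] (τ : ℍ) : ‖infZ N τ‖ < 1 :=
  Function.Periodic.norm_qParam_lt_one
    (by exact_mod_cast Nat.pos_of_ne_zero (NeZero.ne N)) τ.im_pos

/-- Every point of the punctured unit disc is a value of `infZ N`. -/
theorem exists_infZ_eq (N : ℕ) [NeZero N] {z : ℂ} (hz : z ≠ 0) (hz1 : ‖z‖ < 1) :
    ∃ τ : ℍ, infZ N τ = z := by
  have hN : (0 : ℝ) < N := by exact_mod_cast Nat.pos_of_ne_zero (NeZero.ne N)
  have him : 0 < (Function.Periodic.invQParam (N : ℝ) z).im := by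
    rw [Function.Periodic.im_invQParam]
    have hlog : Real.log ‖z‖ < 0 := Real.log_neg (norm_pos_iff.mpr hz) hz1
    have : -(N : ℝ) / (2 * π) < 0 := by
      apply div_neg_of_neg_of_pos (by linarith) (by positivity)
    exact mul_pos_of_neg_of_neg this hlog
  exact ⟨⟨_, him⟩, Function.Periodic.qParam_right_inv hN.ne' hz⟩

/-- `φ` converges to `f` on `ℍ` in the variable `z = exp (2πiτ/N)`. -/
def InfExp (N : ℕ) (f : ℍ → ℂ) (φ : LaurentSeries ℂ) : Prop :=
  ∀ τ : ℍ, HasSum (fun n : ℤ => φ.coeff n * infZ N τ ^ n) (f τ)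

/-- Power series version. -/
def InfPExp (N : ℕ) (f : ℍ → ℂ) (ψ : PowerSeries ℂ) : Prop :=
  ∀ τ : ℍ, HasSum (fun n : ℕ => PowerSeries.coeff n ψ * infZ N τ ^ n) (f τ)

section Shift

theorem inf_coeff_single_mul_ofPowerSeries (k : ℤ) (ψ : PowerSeries ℂ) (n : ℕ) :
    (single k (1 : ℂ) * ofPowerSeries ℤ ℂ ψ).coeff ((n : ℤ) + k) = PowerSeries.coeff n ψ := by
  rw [coeff_single_mul, one_mul, add_sub_cancel_right, ofPowerSeries_apply_coeff]

theorem inf_coeff_single_mul_ofPowerSeries_of_lt (k : ℤ) (ψ : PowerSeries ℂ) {m : ℤ}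
    (hm : m < k) : (single k (1 : ℂ) * ofPowerSeries ℤ ℂ ψ).coeff m = 0 := by
  rw [coeff_single_mul, one_mul]
  exact ofPowerSeries_coeff_of_neg _ (by omega)

theorem inf_hasSum_shift_iff (k : ℤ) (ψ : PowerSeries ℂ) {z : ℂ} (hz : z ≠ 0) (s : ℂ) :
    HasSum (fun n : ℤ => (single k (1 : ℂ) * ofPowerSeries ℤ ℂ ψ).coeff n * z ^ n) s ↔
      HasSum (fun n : ℕ => PowerSeries.coeff n ψ * z ^ n) (z ^ (-k) * s) := by
  have hinj : Function.Injective (fun n : ℕ => (n : ℤ) + k) := fun a b h => by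
    simpa using h
  have hrange : ∀ m : ℤ, m ∉ Set.range (fun n : ℕ => (n : ℤ) + k) →
      (single k (1 : ℂ) * ofPowerSeries ℤ ℂ ψ).coeff m * z ^ m = 0 := by
    intro m hm
    have : m < k := by
      by_contra h
      rw [not_lt] at h
      exact hm ⟨(m - k).toNat, by simp [Int.toNat_of_nonneg (sub_nonneg.mpr h)]⟩
    rw [inf_coeff_single_mul_ofPowerSeries_of_lt k ψ this, zero_mul]
  rw [← hinj.hasSum_iff hrange]
  have hfun : ((fun n : ℤ => (single k (1 : ℂ) * ofPowerSeries ℤ ℂ ψ).coeff n * z ^ n) ∘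
      fun n : ℕ => (n : ℤ) + k) = fun n : ℕ => z ^ k * (PowerSeries.coeff n ψ * z ^ n) := by
    funext n
    simp only [Function.comp_apply, inf_coeff_single_mul_ofPowerSeries]
    rw [zpow_add₀ hz, zpow_natCast]
    ring
  rw [hfun]
  constructor
  · intro h
    have := h.mul_left (z ^ (-k))
    have e : (fun n : ℕ => z ^ (-k) * (z ^ k * (PowerSeries.coeff n ψ * z ^ n))) =
        fun n : ℕ => PowerSeries.coeff n ψ * z ^ n := by
      funext n
      rw [← mul_assoc, ← zpow_add₀ hz, neg_add_cancel, zpow_zero, one_mul]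
    rwa [e] at this
  · intro h
    have := h.mul_left (z ^ k)
    rwa [← mul_assoc, ← zpow_add₀ hz, add_neg_cancel, zpow_zero, one_mul] at this

end Shift

section Basic

variable {N : ℕ}

theorem InfExp.powerSeriesPart {f : ℍ → ℂ} {φ : LaurentSeries ℂ} (h : InfExp N f φ) :
    InfPExp N (fun τ => infZ N τ ^ (-φ.order) * f τ) φ.powerSeriesPart := by
  intro τ
  have := h τ
  have h2 : HasSum (fun n : ℤ =>
      (single φ.order (1 : ℂ) * ofPowerSeries ℤ ℂ φ.powerSeriesPart).coeff n * infZ N τ ^ n)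
      (f τ) := by
    rw [LaurentSeries.single_order_mul_powerSeriesPart φ]
    exact this
  exact (inf_hasSum_shift_iff _ _ (infZ_ne_zero N τ) _).mp h2

theorem InfPExp.infExp {g : ℍ → ℂ} {ψ : PowerSeries ℂ} (h : InfPExp N g ψ) (k : ℤ) :
    InfExp N (fun τ => infZ N τ ^ k * g τ) (single k (1 : ℂ) * ofPowerSeries ℤ ℂ ψ) := by
  intro τ
  rw [inf_hasSum_shift_iff _ _ (infZ_ne_zero N τ)]
  have hz := infZ_ne_zero N τ
  rw [← mul_assoc, ← zpow_add₀ hz, neg_add_cancel, zpow_zero, one_mul]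
  exact h τ

theorem InfPExp.mul {g₁ g₂ : ℍ → ℂ} {ψ₁ ψ₂ : PowerSeries ℂ} (h₁ : InfPExp N g₁ ψ₁)
    (h₂ : InfPExp N g₂ ψ₂) : InfPExp N (fun τ => g₁ τ * g₂ τ) (ψ₁ * ψ₂) := by
  intro τ
  have s₁ := (h₁ τ).summable.norm
  have s₂ := (h₂ τ).summable.norm
  have key := summable_norm_sum_mul_antidiagonal_of_summable_norm s₁ s₂
  have hsum := key.of_norm.hasSum
  rw [← tsum_mul_tsum_eq_tsum_sum_antidiagonal_of_summable_norm s₁ s₂, (h₁ τ).tsum_eq,
    (h₂ τ).tsum_eq] at hsum
  have e : (fun n : ℕ => PowerSeries.coeff n (ψ₁ * ψ₂) * infZ N τ ^ n) =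
      fun n => ∑ kl ∈ Finset.HasAntidiagonal.antidiagonal n,
        PowerSeries.coeff kl.1 ψ₁ * infZ N τ ^ kl.1 *
          (PowerSeries.coeff kl.2 ψ₂ * infZ N τ ^ kl.2) := by
    funext n
    rw [PowerSeries.coeff_mul, Finset.sum_mul]
    refine Finset.sum_congr rfl fun p hp => ?_
    have hp' : p.1 + p.2 = n := Finset.HasAntidiagonal.mem_antidiagonal.mp hp
    rw [← hp', _root_.pow_add]
    ring
  show HasSum (fun n : ℕ => PowerSeries.coeff n (ψ₁ * ψ₂) * infZ N τ ^ n) (g₁ τ * g₂ τ)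
  rw [e]
  exact hsum

theorem InfExp.zero : InfExp N (fun _ => 0) 0 := by
  intro τ
  simp [hasSum_zero]

theorem InfExp.const (c : ℂ) : InfExp N (fun _ => c) (HahnSeries.C c) := by
  intro τ
  have h := hasSum_single (f := fun n : ℤ => (HahnSeries.C c : LaurentSeries ℂ).coeff n *
    infZ N τ ^ n) (0 : ℤ) (fun n hn => by
      rw [C_apply, coeff_single_of_ne hn, zero_mul])
  simpa using h

theorem InfExp.one : InfExp N (fun _ => 1) 1 := by
  have := InfExp.const (N := N) 1
  rwa [map_one] at this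

theorem InfExp.add {f g : ℍ → ℂ} {φ ψ : LaurentSeries ℂ} (hf : InfExp N f φ)
    (hg : InfExp N g ψ) : InfExp N (fun τ => f τ + g τ) (φ + ψ) := by
  intro τ
  have := (hf τ).add (hg τ)
  simpa [add_mul] using this

theorem InfExp.neg {f : ℍ → ℂ} {φ : LaurentSeries ℂ} (hf : InfExp N f φ) :
    InfExp N (fun τ => -f τ) (-φ) := by
  intro τ
  have := (hf τ).neg
  simpa [neg_mul] using this

theorem InfExp.sub {f g : ℍ → ℂ} {φ ψ : LaurentSeries ℂ} (hf : InfExp N f φ)
    (hg : InfExp N g ψ) : InfExp N (fun τ => f τ - g τ) (φ - ψ) := by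
  have := hf.add hg.neg
  simpa [sub_eq_add_neg] using this

theorem InfExp.mul {f g : ℍ → ℂ} {φ ψ : LaurentSeries ℂ} (hf : InfExp N f φ)
    (hg : InfExp N g ψ) : InfExp N (fun τ => f τ * g τ) (φ * ψ) := by
  have h := (hf.powerSeriesPart.mul hg.powerSeriesPart).infExp (φ.order + ψ.order)
  have hφ : φ * ψ = single (φ.order + ψ.order) (1 : ℂ) *
      ofPowerSeries ℤ ℂ (φ.powerSeriesPart * ψ.powerSeriesPart) := by
    conv_lhs => rw [← LaurentSeries.single_order_mul_powerSeriesPart φ,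
      ← LaurentSeries.single_order_mul_powerSeriesPart ψ]
    rw [map_mul, mul_mul_mul_comm, single_mul_single, one_mul]
  rw [hφ]
  intro τ
  have hz := infZ_ne_zero N τ
  have this : infZ N τ ^ (φ.order + ψ.order) * (infZ N τ ^ (-φ.order) * f τ *
      (infZ N τ ^ (-ψ.order) * g τ)) = f τ * g τ := by
    have e : infZ N τ ^ (φ.order + ψ.order) * (infZ N τ ^ (-φ.order) * f τ *
      (infZ N τ ^ (-ψ.order) * g τ)) =
      (infZ N τ ^ (φ.order + ψ.order) * infZ N τ ^ (-φ.order) * infZ N τ ^ (-ψ.order)) *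
        (f τ * g τ) := by ring
    rw [e, ← zpow_add₀ hz, ← zpow_add₀ hz]
    simp
  have h' := h τ
  simp only [this] at h'
  exact h'

theorem InfExp.congr {f g : ℍ → ℂ} {φ : LaurentSeries ℂ} (hf : InfExp N f φ)
    (h : ∀ τ, f τ = g τ) : InfExp N g φ := by
  intro τ
  rw [← h τ]
  exact hf τ

/-- The function is determined by the expansion. -/
theorem InfExp.fun_unique {f g : ℍ → ℂ} {φ : LaurentSeries ℂ} (hf : InfExp N f φ)
    (hg : InfExp N g φ) : f = g :=
  funext fun τ => (hf τ).unique (hg τ)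

end Basic

end Fermat.Agent.S24

end
end
-- ===== PACK-END S24/Inf/Conv.lean

-- ===== PACK-BEGIN S24/FFOrdLike.lean
section




/-!
# S24 / FF layer: recognising `Place.ord` from any order-like function

If `N : F → ℤ` is additive on nonzero elements and `O_v = {N ≥ 0}` then `N = N(ϖ) · ord_v`.
(helper804)
-/

set_option autoImplicit false

namespace Fermat.Agent.S24.FF

open AlgebraicCurve

variable {K F : Type*} [Field K] [Field F] [Algebra K F]

section OrdLike

variable (N : F → ℤ) (hmul : ∀ f g : F, f ≠ 0 → g ≠ 0 → N (f * g) = N f + N g)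

include hmul

theorem ordLike_one : N 1 = 0 := by
  have := hmul 1 1 one_ne_zero one_ne_zero
  rw [mul_one] at this
  omega

theorem ordLike_inv {f : F} (hf : f ≠ 0) : N f⁻¹ = -N f := by
  have := hmul f f⁻¹ hf (inv_ne_zero hf)
  rw [mul_inv_cancel₀ hf, ordLike_one N hmul] at this
  omega

theorem ordLike_pow {f : F} (hf : f ≠ 0) (n : ℕ) : N (f ^ n) = n * N f := by
  induction n with
  | zero => simp [ordLike_one N hmul]
  | succ n ih =>
    rw [pow_succ, hmul _ _ (pow_ne_zero n hf) hf, ih]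
    push_cast
    ring

theorem ordLike_zpow {f : F} (hf : f ≠ 0) (n : ℤ) : N (f ^ n) = n * N f := by
  obtain ⟨m, rfl | rfl⟩ := n.eq_nat_or_neg
  · rw [zpow_natCast, ordLike_pow N hmul hf]
  · rw [zpow_neg, zpow_natCast, ordLike_inv N hmul (pow_ne_zero m hf), ordLike_pow N hmul hf]
    ring

/-- An order-like function with valuation ring `O_v` is a multiple of `ord_v`. -/
theorem ordLike_eq_ord_mul (v : Place K F)
    (hmem : ∀ f : F, f ≠ 0 → (f ∈ v.toValuationSubring ↔ 0 ≤ N f))
    {ϖ : v.toValuationSubring} (hϖ : Irreducible ϖ) {f : F} (hf : f ≠ 0) :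
    N f = v.ord f * N (ϖ : F) := by
  have hϖF : (ϖ : F) ≠ 0 := by
    simpa [ne_eq, ZeroMemClass.coe_eq_zero] using hϖ.ne_zero
  obtain ⟨u, hu⟩ := v.exists_unit_mul_zpow hf hϖ
  have hu0 : ((u : v.toValuationSubring) : F) ≠ 0 := by
    simp [ne_eq, ZeroMemClass.coe_eq_zero]
  have hNu : N ((u : v.toValuationSubring) : F) = 0 := by
    have h1 := (hmem _ hu0).mp (u : v.toValuationSubring).2
    have hinv : (((u⁻¹ : v.toValuationSubringˣ) : v.toValuationSubring) : F)
        = (((u : v.toValuationSubring) : F))⁻¹ := by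
      apply eq_inv_of_mul_eq_one_left
      have h := congrArg (fun a : v.toValuationSubring => (a : F)) (Units.inv_mul u)
      exact h
    have h2 := (hmem _ (inv_ne_zero hu0)).mp (by
      rw [← hinv]
      exact ((u⁻¹ : v.toValuationSubringˣ) : v.toValuationSubring).2)
    rw [ordLike_inv N hmul hu0] at h2
    omega
  conv_lhs => rw [hu]
  rw [hmul _ _ hu0 (zpow_ne_zero _ hϖF), hNu, zero_add, ordLike_zpow N hmul hϖF]

/-- Normalised version: if moreover some nonzero element has `N = 1`, then `N = ord_v`. -/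
theorem ordLike_eq_ord (v : Place K F)
    (hmem : ∀ f : F, f ≠ 0 → (f ∈ v.toValuationSubring ↔ 0 ≤ N f))
    {π : F} (hπ0 : π ≠ 0) (hπ : N π = 1) {f : F} (hf : f ≠ 0) :
    N f = v.ord f := by
  obtain ⟨ϖ, hϖ⟩ := IsDiscreteValuationRing.exists_irreducible v.toValuationSubring
  have hϖF : (ϖ : F) ≠ 0 := by
    simpa [ne_eq, ZeroMemClass.coe_eq_zero] using hϖ.ne_zero
  have key := ordLike_eq_ord_mul N hmul v hmem hϖ hπ0
  have hNϖ : 0 ≤ N (ϖ : F) := (hmem _ hϖF).mp ϖ.2
  rw [hπ] at key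
  have hone : N (ϖ : F) = 1 := by
    have h1 : v.ord π * N (ϖ : F) = 1 := key.symm
    rcases Int.eq_one_or_neg_one_of_mul_eq_one' h1 with ⟨_, h⟩ | ⟨_, h⟩
    · exact h
    · omega
  rw [ordLike_eq_ord_mul N hmul v hmem hϖ hf, hone, mul_one]

end OrdLike

end Fermat.Agent.S24.FF

end
-- ===== PACK-END S24/FFOrdLike.lean

-- ===== PACK-BEGIN S29/H571/HeckeGalois.lean
section




/-!
# Galois-equivariance of the Prelude Hecke operators on `JZero N`
(helper571, piece GEQ of the S29 route)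

* `heckeOperatorAlong_smul` : `T_ℓ (σ • x) = σ • T_ℓ x` on
  `Pic0 L (laurentBaseChange L (modularFunctionFieldFull N))`, for every field `L ⊇ ℚ`,
  UNCONDITIONALLY (if the Hecke inputs fail the operator is `0`).
* `heckeOperatorBar_smul` : the same for `heckeOperatorBar N ℓ` on `JZero N`.
* `smulCommClass_heckeModuleBar` :
  `letI := heckeModuleBar N; SMulCommClass Gal(ℚ̄/ℚ) HeckeAlg (JZero N)`,
  i.e. the second hypothesis of the frozen statement S37, unconditionally.
-/

set_option autoImplicit false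
set_option linter.style.haveILetI false

noncomputable section

namespace Fermat.Agent.S29.H571

open AlgebraicCurve ModularCurve

section General

variable {L : Type*} [Field L] [Algebra ℚ L]
variable (N ℓ : ℕ) [NeZero N] [NeZero ℓ]

theorem intertwines_heckeAlphaBar (σ : L ≃ₐ[ℚ] L) :
    SemilinearAut.IntertwinesAlong
      ((heckeAlphaBar L N ℓ : laurentBaseChange L (modularFunctionFieldFull N) →ₐ[L]
        laurentBaseChange L (modularFunctionFieldFull (N * ℓ))) : _ →+* _)
      (arithmeticGalois (modularFunctionFieldFull N) σ)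
      (arithmeticGalois (modularFunctionFieldFull (N * ℓ)) σ) := by
  intro x
  apply Subtype.ext
  rw [coe_arithmeticGalois_smul]
  show coeffMap (σ : L →+* L) ((heckeAlphaBar L N ℓ x : _) : LaurentSeries L) = _
  rw [coe_heckeAlphaBar]
  show _ = ((heckeAlphaBar L N ℓ (arithmeticGalois (modularFunctionFieldFull N) σ • x) : _) :
    LaurentSeries L)
  rw [coe_heckeAlphaBar, coe_arithmeticGalois_smul]

omit [NeZero N] in
theorem intertwines_heckeBetaBar (σ : L ≃ₐ[ℚ] L) :
    SemilinearAut.IntertwinesAlong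
      ((heckeBetaBar L N ℓ : laurentBaseChange L (modularFunctionFieldFull N) →ₐ[L]
        laurentBaseChange L (modularFunctionFieldFull (N * ℓ))) : _ →+* _)
      (arithmeticGalois (modularFunctionFieldFull N) σ)
      (arithmeticGalois (modularFunctionFieldFull (N * ℓ)) σ) := by
  intro x
  apply Subtype.ext
  rw [coe_arithmeticGalois_smul]
  show coeffMap (σ : L →+* L) ((heckeBetaBar L N ℓ x : _) : LaurentSeries L) = _
  rw [coe_heckeBetaBar]
  show _ = ((heckeBetaBar L N ℓ (arithmeticGalois (modularFunctionFieldFull N) σ • x) : _) :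
    LaurentSeries L)
  rw [coe_heckeBetaBar, coe_arithmeticGalois_smul, coeffMap_qExpand]

/-- Galois-equivariance of the Prelude Hecke operator `heckeOperatorAlong L N ℓ`. -/
theorem heckeOperatorAlong_smul (σ : L ≃ₐ[ℚ] L)
    (x : Pic0 L (laurentBaseChange L (modularFunctionFieldFull N))) :
    heckeOperatorAlong L N ℓ (σ • x) = σ • heckeOperatorAlong L N ℓ x := by
  by_cases h : HeckeInputsAlong L N ℓ
  · obtain ⟨hα, hβ, hP, hfin, hFI, hN⟩ := h
    rw [heckeOperatorAlong_eq hα hβ hFI hfin hN, galois_smul_pic0_def, galois_smul_pic0_def]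
    exact pic0_correspondence_smul (heckeBetaBar L N ℓ) (heckeAlphaBar L N ℓ) hβ hα hFI hfin hN
      (intertwines_heckeBetaBar N ℓ σ) (intertwines_heckeAlphaBar N ℓ σ) x
  · rw [heckeOperatorAlong_of_not h]
    simp

end General

section Bar

variable (N : ℕ) [NeZero N]

/-- Galois-equivariance of `heckeOperatorBar N ℓ` on `JZero N`. -/
theorem heckeOperatorBar_smul (ℓ : Nat.Primes)
    (σ : AlgebraicClosure ℚ ≃ₐ[ℚ] AlgebraicClosure ℚ) (x : JZero N) :
    heckeOperatorBar N ℓ (σ • x) = σ • heckeOperatorBar N ℓ x := by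
  haveI : NeZero (ℓ : ℕ) := ⟨ℓ.2.ne_zero⟩
  rw [heckeOperatorBar_apply, heckeOperatorBar_apply]
  exact heckeOperatorAlong_smul N (ℓ : ℕ) σ x

/-- Every element of the Hecke algebra acts Galois-equivariantly (commuting case). -/
theorem heckeEvalBar_smul (h : HeckeOperatorsCommuteBar N) (t : HeckeAlg)
    (σ : AlgebraicClosure ℚ ≃ₐ[ℚ] AlgebraicClosure ℚ) (x : JZero N) :
    heckeEvalBar h t (σ • x) = σ • heckeEvalBar h t x := by
  induction t using MvPolynomial.induction_on generalizing x with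
  | C a =>
    rw [heckeEvalBar_C, Module.End.intCast_apply, Module.End.intCast_apply, smul_comm]
  | add p q hp hq =>
    rw [map_add, LinearMap.add_apply, LinearMap.add_apply, hp, hq, smul_add]
  | mul_X p ℓ hp =>
    rw [map_mul, Module.End.mul_apply, Module.End.mul_apply,
      show (MvPolynomial.X ℓ : HeckeAlg) = heckeGen ℓ from rfl, heckeEvalBar_heckeGen,
      heckeOperatorBar_smul, hp]

/-- The Galois action on `JZero N` commutes with the `HeckeAlg`-module structure
`heckeModuleBar N`, unconditionally.  This is exactly the `SMulCommClass` hypothesis of the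
frozen statement S37. -/
theorem smulCommClass_heckeModuleBar :
    letI := heckeModuleBar N
    SMulCommClass (AlgebraicClosure ℚ ≃ₐ[ℚ] AlgebraicClosure ℚ) HeckeAlg (JZero N) := by
  letI := heckeModuleBar N
  refine ⟨fun σ t x => ?_⟩
  by_cases h : HeckeOperatorsCommuteBar N
  · rw [heckeModuleBar_smul_def h, heckeModuleBar_smul_def h, heckeEvalBar_smul]
  · rw [heckeModuleBar_smul_of_not h, heckeModuleBar_smul_of_not h]
    exact (smul_comm _ σ x).symm

end Bar

end Fermat.Agent.S29.H571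


end
end
-- ===== PACK-END S29/H571/HeckeGalois.lean

-- ===== PACK-BEGIN S21/H81/Inj.lean
section


/-!
# S21, piece C: injectivity of `periodHomPair`, assuming existence of equivariant primitives
and linearity of the period map.
-/

set_option autoImplicit false

open UpperHalfPlane CongruenceSubgroup Filter Topology Complex ModularCurve ModularCurve.Period
open scoped MatrixGroups Manifold ComplexConjugate

namespace Fermat.Agent.S21.H81

/-- The reflection `J` intertwines `g` and `jConjSL g`. -/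
theorem inj_J_smul_smul (g : SL(2, ℤ)) (z : ℍ) :
    J • (g • z) = jConjSL g • (J • z) := by
  ext
  rw [coe_J_smul, coe_specialLinearGroup_apply, coe_specialLinearGroup_apply, coe_J_smul]
  have h00 : (jConjSL g) 0 0 = g 0 0 := by
    show ((jConjSL g : SL(2, ℤ)) : Matrix (Fin 2) (Fin 2) ℤ) 0 0 = _
    rw [jConjSL_coe, jConjMat_apply_zero_zero]
  have h01 : (jConjSL g) 0 1 = -g 0 1 := by
    show ((jConjSL g : SL(2, ℤ)) : Matrix (Fin 2) (Fin 2) ℤ) 0 1 = _
    rw [jConjSL_coe, jConjMat_apply_zero_one]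
  have h10 : (jConjSL g) 1 0 = -g 1 0 := by
    show ((jConjSL g : SL(2, ℤ)) : Matrix (Fin 2) (Fin 2) ℤ) 1 0 = _
    rw [jConjSL_coe, jConjMat_apply_one_zero]
  have h11 : (jConjSL g) 1 1 = g 1 1 := by
    show ((jConjSL g : SL(2, ℤ)) : Matrix (Fin 2) (Fin 2) ℤ) 1 1 = _
    rw [jConjSL_coe, jConjMat_apply_one_one]
  rw [h00, h01, h10, h11]
  simp only [map_div₀, map_add, map_mul, algebraMap_int_eq, eq_intCast,
    Complex.ofReal_intCast, Complex.ofReal_neg, map_intCast, map_neg]
  rw [← neg_div]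
  congr 1 <;> ring


/-- The reflected function `z ↦ -conj (F (-conj z))`. -/
noncomputable def injRefl (F : ℍ → ℂ) : ℍ → ℂ := fun z => -conj (F (J • z))

theorem injRefl_differentiableAt {F : ℍ → ℂ}
    (hol : ∀ τ : ℍ, DifferentiableAt ℂ (F ∘ ofComplex) (τ : ℂ)) (τ : ℍ) :
    DifferentiableAt ℂ (injRefl F ∘ ofComplex) (τ : ℂ) := by
  -- near `τ`, `injRefl F ∘ ofComplex` equals `z ↦ -(conj ∘ (F ∘ ofComplex) ∘ conj) (-z)`
  have h0 : DifferentiableAt ℂ (F ∘ ofComplex) (conj (-(τ : ℂ))) := by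
    have := hol (J • τ)
    rwa [coe_J_smul, ← map_neg] at this
  have h1 : DifferentiableAt ℂ (conj ∘ (F ∘ ofComplex) ∘ conj) (-(τ : ℂ)) := by
    have := h0.hasDerivAt.conj_conj
    rw [Complex.conj_conj] at this
    exact this.differentiableAt
  have h2 : DifferentiableAt ℂ (fun z : ℂ => -(conj ∘ (F ∘ ofComplex) ∘ conj) (-z)) (τ : ℂ) := by
    have h3 : DifferentiableAt ℂ (fun z : ℂ => -z) (τ : ℂ) := differentiableAt_id.neg
    exact (DifferentiableAt.comp (τ : ℂ) h1 h3).neg
  refine h2.congr_of_eventuallyEq ?_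
  have hopen : {z : ℂ | 0 < z.im} ∈ 𝓝 (τ : ℂ) :=
    isOpen_upperHalfPlaneSet.mem_nhds τ.im_pos
  filter_upwards [hopen] with z hz
  simp only [Function.comp_apply, injRefl]
  congr 3
  rw [ofComplex_apply_of_im_pos hz]
  have : (J • (⟨z, hz⟩ : ℍ) : ℍ) = ofComplex (conj (-z)) := by
    have h4 : 0 < (conj (-z)).im := by simpa using hz
    rw [ofComplex_apply_of_im_pos h4]
    ext
    rw [coe_J_smul]
    simp
  exact this

theorem injRefl_tendsto {F : ℍ → ℂ}
    (hcusp : ∀ δ : SL(2, ℤ), ∃ L : ℂ, Tendsto (fun w : ℍ => F (δ • w)) atImInfty (𝓝 L))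
    (δ : SL(2, ℤ)) : ∃ L : ℂ, Tendsto (fun w : ℍ => injRefl F (δ • w)) atImInfty (𝓝 L) := by
  obtain ⟨L, hL⟩ := hcusp (jConjSL δ)
  refine ⟨-conj L, ?_⟩
  have hJ : Tendsto (fun w : ℍ => J • w) atImInfty atImInfty :=
    tendsto_smul_atImInfty (by simp [J])
  have h1 : Tendsto (fun w : ℍ => F (jConjSL δ • (J • w))) atImInfty (𝓝 L) := hL.comp hJ
  have h2 : Tendsto (fun w : ℍ => -conj (F (jConjSL δ • (J • w)))) atImInfty (𝓝 (-conj L)) :=
    ((Complex.continuous_conj.tendsto L).comp h1).neg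
  refine h2.congr ?_
  intro w
  simp only [injRefl, inj_J_smul_smul]

section half

variable {N : ℕ} [NeZero N] {f : CuspForm (Gamma0 N) 2} {F : ℍ → ℂ}

/-- If the periods of `f` satisfy `p (jγj) = s * p γ` with `s = ±1` then `f = 0`. -/
theorem inj_half (hF : HasEquivariantPrimitive N f F) (s : ℝ) (hs : s * s = 1)
    (hsym : ∀ γ : Gamma0 N, hF.2.2.1.period (jConjGamma0 N γ) = s * hF.2.2.1.period γ) :
    f = 0 := by
  have hFd := hF.1
  have hFeq := hF.2.2.1
  have hFcusp := hF.2.2.2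
  have hFhol : ∀ τ : ℍ, DifferentiableAt ℂ (F ∘ ofComplex) (τ : ℂ) :=
    fun τ => (hFd τ).differentiableAt
  have hHhol := injRefl_differentiableAt hFhol
  have hHcusp := injRefl_tendsto hFcusp
  -- increments of the reflected function
  have hHinc : ∀ (γ : Gamma0 N) (z : ℍ),
      injRefl F ((γ : SL(2, ℤ)) • z) - injRefl F z = -(s * conj (hFeq.period γ)) := by
    intro γ z
    have h1 := hFeq.sub_eq_period (jConjGamma0 N γ) (J • z)
    rw [hsym γ, jConjGamma0_coe, ← inj_J_smul_smul] at h1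
    simp only [injRefl]
    have h2 : conj (F (J • ((γ : SL(2, ℤ)) • z))) - conj (F (J • z))
        = conj ((s : ℂ) * hFeq.period γ) := by
      rw [← h1, map_sub]
    rw [map_mul, Complex.conj_ofReal] at h2
    linear_combination -h2
  -- the two auxiliary functions
  let A₁ : ℍ → ℂ := fun z => F z + (s : ℂ) * injRefl F z
  let A₂ : ℍ → ℂ := fun z => Complex.I * (F z - (s : ℂ) * injRefl F z)
  have hs' : (s : ℂ) * (s : ℂ) = 1 := by exact_mod_cast hs
  have hA₁ : ∀ τ : ℍ, deriv (A₁ ∘ ofComplex) (τ : ℂ) = 0 := by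
    refine injCore_deriv_eq_zero (N := N) ?_ ?_ ?_
    · intro τ
      exact (hFhol τ).add ((hHhol τ).const_mul (s : ℂ))
    · intro γ hγ
      refine ⟨hFeq.period ⟨γ, hγ⟩ - conj (hFeq.period ⟨γ, hγ⟩), ?_, ?_⟩
      · simp
      · intro z
        have h1 := hFeq.sub_eq_period ⟨γ, hγ⟩ z
        have h2 := hHinc ⟨γ, hγ⟩ z
        simp only [A₁]
        simp only at h1 h2
        linear_combination h1 + (s : ℂ) * h2 - conj (hFeq.period ⟨γ, hγ⟩) * hs'
    · intro δ
      obtain ⟨L₁, hL₁⟩ := hFcusp δ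
      obtain ⟨L₂, hL₂⟩ := hHcusp δ
      exact ⟨L₁ + (s : ℂ) * L₂, hL₁.add (hL₂.const_mul (s : ℂ))⟩
  have hA₂ : ∀ τ : ℍ, deriv (A₂ ∘ ofComplex) (τ : ℂ) = 0 := by
    refine injCore_deriv_eq_zero (N := N) ?_ ?_ ?_
    · intro τ
      exact ((hFhol τ).sub ((hHhol τ).const_mul (s : ℂ))).const_mul Complex.I
    · intro γ hγ
      refine ⟨Complex.I * (hFeq.period ⟨γ, hγ⟩ + conj (hFeq.period ⟨γ, hγ⟩)), ?_, ?_⟩
      · simp [Complex.add_conj]
      · intro z
        have h1 := hFeq.sub_eq_period ⟨γ, hγ⟩ z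
        have h2 := hHinc ⟨γ, hγ⟩ z
        simp only [A₂]
        simp only at h1 h2
        linear_combination Complex.I * h1 - Complex.I * (s : ℂ) * h2
          + Complex.I * conj (hFeq.period ⟨γ, hγ⟩) * hs'
    · intro δ
      obtain ⟨L₁, hL₁⟩ := hFcusp δ
      obtain ⟨L₂, hL₂⟩ := hHcusp δ
      exact ⟨Complex.I * (L₁ - (s : ℂ) * L₂), (hL₁.sub (hL₂.const_mul (s : ℂ))).const_mul _⟩
  -- conclude
  ext τ
  have hH' := (hHhol τ).hasDerivAt
  set h := deriv (injRefl F ∘ ofComplex) (τ : ℂ) with hh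
  have e₁ : HasDerivAt (A₁ ∘ ofComplex) (f τ + (s : ℂ) * h) (τ : ℂ) :=
    (hFd τ).add (hH'.const_mul (s : ℂ))
  have e₂ : HasDerivAt (A₂ ∘ ofComplex) (Complex.I * (f τ - (s : ℂ) * h)) (τ : ℂ) :=
    ((hFd τ).sub (hH'.const_mul (s : ℂ))).const_mul Complex.I
  have z₁ : f τ + (s : ℂ) * h = 0 := by rw [← e₁.deriv]; exact hA₁ τ
  have z₂ : Complex.I * (f τ - (s : ℂ) * h) = 0 := by rw [← e₂.deriv]; exact hA₂ τ
  have z₃ : f τ - (s : ℂ) * h = 0 := (mul_eq_zero.mp z₂).resolve_left Complex.I_ne_zero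
  have : f τ = 0 := by linear_combination (1 / 2 : ℂ) * z₁ + (1 / 2 : ℂ) * z₃
  simpa using this

end half

section final

variable (N : ℕ) [NeZero N]

omit [NeZero N] in
/-- Unfolding of `periodHomPair` at a pair, evaluated at `γ`. -/
theorem inj_periodHomPair_apply (hlin : ExistsPeriodMapLinear N)
    (f g : CuspForm (Gamma0 N) 2) (γ : Gamma0 N) :
    periodHomPair N (f, g) (Additive.ofMul γ)
      = (periodMap N f (Additive.ofMul γ)
          + periodMap N f (Additive.ofMul (jConjGamma0 N γ)))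
        + (periodMap N g (Additive.ofMul γ)
          - periodMap N g (Additive.ofMul (jConjGamma0 N γ))) := by
  obtain ⟨pml, hpml, hdef⟩ := periodHomPair_def N hlin
  rw [hdef]
  simp only [LinearMap.coprod_apply, LinearMap.coe_comp, Function.comp_apply,
    LinearMap.add_apply, LinearMap.sub_apply, LinearMap.id_coe, id_eq, hpml,
    AddMonoidHom.add_apply, AddMonoidHom.sub_apply, charInvolution_apply, toMul_ofMul]

/-- **Injectivity of `periodHomPair`**, assuming that every cusp form has an equivariant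
primitive and that the period map is linear. -/
theorem injective_periodHomPair_of (hlin : ExistsPeriodMapLinear N)
    (hA : ∀ f : CuspForm (Gamma0 N) 2, ∃ F : ℍ → ℂ, HasEquivariantPrimitive N f F) :
    Function.Injective (periodHomPair N) := by
  rw [injective_iff_map_eq_zero]
  rintro ⟨f, g⟩ hfg
  have key : ∀ γ : Gamma0 N,
      (periodMap N f (Additive.ofMul γ)
          + periodMap N f (Additive.ofMul (jConjGamma0 N γ)))
        + (periodMap N g (Additive.ofMul γ)
          - periodMap N g (Additive.ofMul (jConjGamma0 N γ))) = 0 := by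
    intro γ
    rw [← inj_periodHomPair_apply N hlin f g γ, hfg]
    rfl
  have keyf : ∀ γ : Gamma0 N, periodMap N f (Additive.ofMul (jConjGamma0 N γ))
      = ((-1 : ℝ) : ℂ) * periodMap N f (Additive.ofMul γ) := by
    intro γ
    have h1 := key γ
    have h2 := key (jConjGamma0 N γ)
    rw [jConjGamma0_jConjGamma0] at h2
    push_cast
    linear_combination (1 / 2 : ℂ) * h1 + (1 / 2 : ℂ) * h2
  have keyg : ∀ γ : Gamma0 N, periodMap N g (Additive.ofMul (jConjGamma0 N γ))
      = ((1 : ℝ) : ℂ) * periodMap N g (Additive.ofMul γ) := by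
    intro γ
    have h1 := key γ
    have h2 := key (jConjGamma0 N γ)
    rw [jConjGamma0_jConjGamma0] at h2
    push_cast
    linear_combination (-1 / 2 : ℂ) * h1 + (1 / 2 : ℂ) * h2
  have hf0 : f = 0 := by
    obtain ⟨F, hF⟩ := hA f
    obtain ⟨F₀, h₀, hP⟩ := periodMap_def N f hF
    refine inj_half h₀ (-1) (by norm_num) ?_
    intro γ
    have := keyf γ
    rw [hP] at this
    exact this
  have hg0 : g = 0 := by
    obtain ⟨G, hG⟩ := hA g
    obtain ⟨G₀, h₀, hP⟩ := periodMap_def N g hG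
    refine inj_half h₀ 1 (by norm_num) ?_
    intro γ
    have := keyg γ
    rw [hP] at this
    exact this
  rw [hf0, hg0]
  rfl

end final

end Fermat.Agent.S21.H81

end
-- ===== PACK-END S21/H81/Inj.lean

-- ===== PACK-BEGIN S37/H400/KronChar.lean
section
/-
S37 / helper400 — piece KRON, part (K2)–(K5): the Kronecker congruence, formal version.

Notation: `V_p = qExpand R p` (`q ↦ q ^ p`), `secMat p f` the section matrix of `f` (matrix of
multiplication by `f(T)` on `R((T))` over `R((T^p))`), `G_f := (secMat p f).charpoly`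
(`= ∏_b (Y - f(ζ^b q^{1/p}))` classically) and `Ψ_f := (Y - V_p f) · G_f`
(`= ∏ over the p+1 conjugates`).

* `charpoly_secMat_char` : over a domain of characteristic `p`,  `G_f = Y ^ p - frob f`.
* `kronPoly_map_zmod` : for `f ∈ ℤ((q))` (or any `S → ZMod p`),
    `Ψ_f ≡ (Y - f ^ p) (Y ^ p - f)  mod p`.
* `kronPoly_eval_qExpand`, `kronPoly_map_eval` : `Ψ_f (V_p f) = 0` and `(V_p Ψ_f)(f) = 0`.
-/



set_option autoImplicit false

noncomputable section

set_option linter.style.haveILetI false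

open ModularCurve Polynomial Matrix

namespace Fermat.Agent.S37.H400

variable {R : Type*} [CommRing R]

theorem charP_laurentSeries (p : ℕ) [CharP R p] : CharP (LaurentSeries R) p :=
  charP_of_injective_ringHom (f := (HahnSeries.C : R →+* LaurentSeries R))
    HahnSeries.C_injective p

/-- In characteristic `p`, the `p`-th power of the section matrix is scalar. -/
theorem secMat_pow_char (p : ℕ) [Fact p.Prime] [CharP R p] (f : LaurentSeries R) :
    haveI : NeZero p := ⟨(Fact.out : p.Prime).ne_zero⟩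
    secMat p f ^ p = Matrix.scalar (Fin p) (coeffMap (frobenius R p) f) := by
  haveI : NeZero p := ⟨(Fact.out : p.Prime).ne_zero⟩
  show secMat p f ^ p = Matrix.scalar (Fin p) (coeffMap (frobenius R p) f)
  rw [← secMat_pow, laurent_pow_char, secMat_qExpand]

/-- A `p × p` matrix over a domain of characteristic `p` whose `p`-th power is the scalar
`c` has characteristic polynomial `Y ^ p - c`. -/
theorem charpoly_of_pow_eq_scalar {A : Type*} [CommRing A] [IsDomain A] (p : ℕ) [Fact p.Prime]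
    [CharP A p] (M : Matrix (Fin p) (Fin p) A) (c : A)
    (hM : M ^ p = Matrix.scalar (Fin p) c) :
    M.charpoly = X ^ p - C c := by
  haveI : NeZero p := ⟨(Fact.out : p.Prime).ne_zero⟩
  have hcomm : Commute (Matrix.scalar (Fin p) (X : A[X])) (C.mapMatrix M) :=
    Matrix.scalar_commute _ (fun r => Commute.all _ r) _
  have h1 : M.charmatrix = Matrix.scalar (Fin p) (X : A[X]) - C.mapMatrix M := rfl
  have h2 : M.charmatrix ^ p = Matrix.scalar (Fin p) ((X : A[X]) ^ p - C c) := by
    rw [h1, sub_pow_char_of_commute p hcomm, ← map_pow, ← map_pow, hM, map_sub]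
    congr 1
    ext i j
    simp [Matrix.scalar_apply, Matrix.diagonal_apply, apply_ite]
  have h3 : M.charpoly ^ p = ((X : A[X]) ^ p - C c) ^ p := by
    rw [Matrix.charpoly, ← Matrix.det_pow, h2, Matrix.scalar_apply, Matrix.det_diagonal,
      Finset.prod_const, Finset.card_univ, Fintype.card_fin]
  exact frobenius_inj A[X] p h3

/-- **(K2) Kronecker, characteristic `p`.**  Over a domain of characteristic `p`, the
characteristic polynomial of the section matrix of `f` is `Y ^ p - frob f`. -/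
theorem charpoly_secMat_char [IsDomain R] (p : ℕ) [Fact p.Prime] [CharP R p]
    (f : LaurentSeries R) :
    haveI : NeZero p := ⟨(Fact.out : p.Prime).ne_zero⟩
    (secMat p f).charpoly = X ^ p - C (coeffMap (frobenius R p) f) := by
  haveI : NeZero p := ⟨(Fact.out : p.Prime).ne_zero⟩
  haveI := charP_laurentSeries (R := R) p
  exact charpoly_of_pow_eq_scalar p _ _ (secMat_pow_char p f)

theorem coeffMap_frobenius_zmod (p : ℕ) [Fact p.Prime] (f : LaurentSeries (ZMod p)) :
    coeffMap (frobenius (ZMod p) p) f = f := by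
  ext k
  simp

/-- Kronecker over `𝔽_p`: `G_f = Y ^ p - f`. -/
theorem charpoly_secMat_zmod (p : ℕ) [Fact p.Prime] (f : LaurentSeries (ZMod p)) :
    haveI : NeZero p := ⟨(Fact.out : p.Prime).ne_zero⟩
    (secMat p f).charpoly = X ^ p - C f := by
  haveI : NeZero p := ⟨(Fact.out : p.Prime).ne_zero⟩
  have h := charpoly_secMat_char p f
  rwa [coeffMap_frobenius_zmod] at h

/-- The polynomial `Ψ_f(Y) = (Y - f(q^p)) · ∏_b (Y - f(ζ^b q^{1/p}))`, defined without roots of
unity as `(Y - V_p f) · charpoly (secMat p f)`. -/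
def kronPoly (p : ℕ) [NeZero p] (f : LaurentSeries R) : (LaurentSeries R)[X] :=
  (X - C (qExpand R p f)) * (secMat p f).charpoly

theorem kronPoly_monic (p : ℕ) [NeZero p] [Nontrivial R] (f : LaurentSeries R) :
    (kronPoly p f).Monic :=
  (monic_X_sub_C _).mul (Matrix.charpoly_monic _)

theorem kronPoly_natDegree (p : ℕ) [NeZero p] [Nontrivial R] (f : LaurentSeries R) :
    (kronPoly p f).natDegree = p + 1 := by
  rw [kronPoly, Polynomial.Monic.natDegree_mul (monic_X_sub_C _) (Matrix.charpoly_monic _),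
    natDegree_X_sub_C, Matrix.charpoly_natDegree_eq_dim, Fintype.card_fin, add_comm]

private theorem coeffMap_qExpand'' {S : Type*} [CommRing S] (φ : R →+* S) (n : ℕ)
    [NeZero n] (x : LaurentSeries R) : coeffMap φ (qExpand R n x) = qExpand S n (coeffMap φ x) := by
  ext k
  by_cases hk : (n : ℤ) ∣ k
  · obtain ⟨m, rfl⟩ := hk
    rw [coeffMap_coeff, qExpand_coeff_mul, qExpand_coeff_mul, coeffMap_coeff]
  · rw [coeffMap_coeff, qExpand_coeff_of_not_dvd n _ hk, qExpand_coeff_of_not_dvd n _ hk,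
      map_zero]

/-- Base change of `Ψ_f` along a coefficient homomorphism. -/
theorem kronPoly_map {S : Type*} [CommRing S] (φ : R →+* S) (p : ℕ) [NeZero p]
    (f : LaurentSeries R) :
    (kronPoly p f).map (coeffMap φ) = kronPoly p (coeffMap φ f) := by
  rw [kronPoly, kronPoly, Polynomial.map_mul, Polynomial.map_sub, Polynomial.map_X,
    Polynomial.map_C, coeffMap_qExpand'', secMat_coeffMap, Matrix.charpoly_map]

/-- **(K3) Kronecker congruence.**  Over a domain of characteristic `p`,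
`Ψ_f = (Y - V_p f) (Y ^ p - frob f)`. -/
theorem kronPoly_char [IsDomain R] (p : ℕ) [Fact p.Prime] [CharP R p] (f : LaurentSeries R) :
    haveI : NeZero p := ⟨(Fact.out : p.Prime).ne_zero⟩
    kronPoly p f = (X - C (qExpand R p f)) * (X ^ p - C (coeffMap (frobenius R p) f)) := by
  haveI : NeZero p := ⟨(Fact.out : p.Prime).ne_zero⟩
  show kronPoly p f = _
  rw [kronPoly, charpoly_secMat_char]

/-- **(K3') Kronecker congruence over `𝔽_p`**: `Ψ_f = (Y - f ^ p) (Y ^ p - f)`. -/
theorem kronPoly_zmod (p : ℕ) [Fact p.Prime] (f : LaurentSeries (ZMod p)) :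
    haveI : NeZero p := ⟨(Fact.out : p.Prime).ne_zero⟩
    kronPoly p f = (X - C (f ^ p)) * (X ^ p - C f) := by
  haveI : NeZero p := ⟨(Fact.out : p.Prime).ne_zero⟩
  show kronPoly p f = _
  rw [kronPoly_char, laurent_pow_char, coeffMap_frobenius_zmod]

/-- **(K3'') Kronecker congruence, integral form**: for `f` with coefficients in any ring `S`
mapping to `𝔽_p` (e.g. `ℤ`, `ℤ_(p)`), `Ψ_f ≡ (Y - f̄ ^ p)(Y ^ p - f̄)` after reduction. -/
theorem kronPoly_map_zmod {S : Type*} [CommRing S] (p : ℕ) [Fact p.Prime] (φ : S →+* ZMod p)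
    (f : LaurentSeries S) :
    haveI : NeZero p := ⟨(Fact.out : p.Prime).ne_zero⟩
    (kronPoly p f).map (coeffMap φ) =
      (X - C ((coeffMap φ f) ^ p)) * (X ^ p - C (coeffMap φ f)) := by
  haveI : NeZero p := ⟨(Fact.out : p.Prime).ne_zero⟩
  show (kronPoly p f).map (coeffMap φ) = _
  rw [kronPoly_map, kronPoly_zmod]

/-- **(K4a)** `V_p f = f(q^p)` is a root of `Ψ_f`. -/
theorem kronPoly_eval_qExpand (p : ℕ) [NeZero p] (f : LaurentSeries R) :
    (kronPoly p f).eval (qExpand R p f) = 0 := by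
  rw [kronPoly, eval_mul, eval_sub, eval_X, eval_C, sub_self, zero_mul]

/-- **(K4b)** `f` is a root of `V_p Ψ_f` (coefficients pushed along `q ↦ q ^ p`). -/
theorem kronPoly_map_eval (p : ℕ) [NeZero p] (f : LaurentSeries R) :
    ((kronPoly p f).map (qExpand R p)).eval f = 0 := by
  rw [kronPoly, Polynomial.map_mul, eval_mul, secMat_charpoly_eval, mul_zero]

end Fermat.Agent.S37.H400

end

end
-- ===== PACK-END S37/H400/KronChar.lean

-- ===== PACK-BEGIN S37/H340/KronTwist.lean
section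


/-!
# S37 / R3-K : twists `q ↦ ζ q` and the product formula (helper340)

* `twHom ℓ ζ hζ : R((q)) →+* R((q))`, `f(q) ↦ f(ζ q)` for `ζ ^ ℓ = 1`
  (coefficientwise `aₙ ↦ ζ ^ (n mod ℓ) aₙ`);
* `twHom_qExpand` : it fixes `R((q^ℓ))`;
* `kron_map_qExpand_eq_prod` : over a domain with a primitive `ℓ`-th root of unity `ζ`,
  `(kron ℓ f).map V = ∏_{b < ℓ} (Y - f(ζ^b q))`.
-/

set_option autoImplicit false

noncomputable section

namespace Fermat.Agent.S37.H340

open ModularCurve Polynomial Matrix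

variable {R : Type*} [CommRing R] (ℓ : ℕ) [NeZero ℓ]

/-- `ζ ^ (k mod ℓ)` for an integer exponent `k`. -/
def zpw (ζ : R) (k : ℤ) : R := ζ ^ (k % (ℓ : ℤ)).toNat

variable {ℓ}

lemma zpw_natCast {ζ : R} (hζ : ζ ^ ℓ = 1) (n : ℕ) : zpw ℓ ζ (n : ℤ) = ζ ^ n := by
  have hℓ : (ℓ : ℤ) ≠ 0 := by exact_mod_cast NeZero.ne ℓ
  unfold zpw
  have h1 : ((n : ℤ) % (ℓ : ℤ)).toNat = n % ℓ := by
    have : ((n : ℤ) % (ℓ : ℤ)) = ((n % ℓ : ℕ) : ℤ) := by push_cast; rfl
    rw [this, Int.toNat_natCast]
  rw [h1]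
  conv_rhs => rw [← Nat.div_add_mod n ℓ, _root_.pow_add, pow_mul, hζ, one_pow, one_mul]

lemma zpw_add {ζ : R} (hζ : ζ ^ ℓ = 1) (i j : ℤ) :
    zpw ℓ ζ (i + j) = zpw ℓ ζ i * zpw ℓ ζ j := by
  have hℓ : (0 : ℤ) < ℓ := by exact_mod_cast Nat.pos_of_ne_zero (NeZero.ne ℓ)
  unfold zpw
  rw [← _root_.pow_add]
  have hi0 := Int.emod_nonneg i hℓ.ne'
  have hj0 := Int.emod_nonneg j hℓ.ne'
  have hij0 := Int.emod_nonneg (i + j) hℓ.ne'
  -- (i % ℓ + j % ℓ) and (i+j) % ℓ differ by 0 or ℓ
  have key : ((i % ℓ).toNat + (j % ℓ).toNat) % ℓ = ((i + j) % (ℓ : ℤ)).toNat := by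
    have : (((i % ℓ).toNat + (j % ℓ).toNat : ℕ) : ℤ) % ℓ = (i + j) % ℓ := by
      push_cast
      rw [Int.toNat_of_nonneg hi0, Int.toNat_of_nonneg hj0, ← Int.add_emod]
    have h2 : ((((i % ℓ).toNat + (j % ℓ).toNat) % ℓ : ℕ) : ℤ) = (i + j) % ℓ := by
      rw [← this]; push_cast; rfl
    have := congrArg Int.toNat h2
    rwa [Int.toNat_natCast] at this
  rw [← key]
  conv_rhs => rw [← Nat.div_add_mod ((i % ℓ).toNat + (j % ℓ).toNat) ℓ, _root_.pow_add, pow_mul,
    hζ, one_pow, one_mul]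

omit [NeZero ℓ] in
lemma zpw_mul_left {ζ : R} (n : ℤ) : zpw ℓ ζ ((ℓ : ℤ) * n) = 1 := by
  unfold zpw
  simp

omit [NeZero ℓ] in
lemma zpw_zero {ζ : R} : zpw ℓ ζ 0 = 1 := by
  unfold zpw
  simp

variable (ℓ)

/-- The twist `f(q) ↦ f(ζ q)` as a function (needs `ζ ^ ℓ = 1` only for good properties). -/
def tw (ζ : R) (f : LaurentSeries R) : LaurentSeries R :=
  HahnSeries.ofSuppBddBelow (fun n : ℤ => zpw ℓ ζ n * f.coeff n) <| by
    obtain ⟨b, hb⟩ := exists_coeff_eq_zero_of_lt f
    refine ⟨b, fun m hm => ?_⟩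
    by_contra hlt
    rw [not_le] at hlt
    exact hm (by simp [hb m hlt])

omit [NeZero ℓ] in
@[simp]
lemma tw_coeff (ζ : R) (f : LaurentSeries R) (n : ℤ) :
    (tw ℓ ζ f).coeff n = zpw ℓ ζ n * f.coeff n := by
  simp [tw]

omit [NeZero ℓ] in
lemma tw_support_subset (ζ : R) (f : LaurentSeries R) : (tw ℓ ζ f).support ⊆ f.support := by
  intro n hn
  rw [HahnSeries.mem_support] at hn ⊢
  intro h
  exact hn (by simp [h])

variable {ℓ}

omit [NeZero ℓ] in
lemma coeff_mul_of_subsets {x y : LaurentSeries R} {s t : Set ℤ} (hs : s.IsPWO) (ht : t.IsPWO)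
    (hxs : x.support ⊆ s) (hyt : y.support ⊆ t) (a : ℤ) :
    (x * y).coeff a = ∑ ij ∈ Finset.antidiagonal hs ht a, x.coeff ij.1 * y.coeff ij.2 := by
  rw [HahnSeries.coeff_mul_left' hs hxs]
  refine Finset.sum_subset (Finset.antidiagonal_mono_right hyt) fun ij hij hnot => ?_
  have h1 := Finset.mem_antidiagonal.mp hij
  have h2 : ij.2 ∉ y.support := fun h => hnot (Finset.mem_antidiagonal.mpr ⟨h1.1, h, h1.2.2⟩)
  rw [HahnSeries.mem_support, not_not] at h2
  rw [h2, mul_zero]

lemma tw_mul {ζ : R} (hζ : ζ ^ ℓ = 1) (f g : LaurentSeries R) :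
    tw ℓ ζ (f * g) = tw ℓ ζ f * tw ℓ ζ g := by
  ext a
  rw [tw_coeff, HahnSeries.coeff_mul,
    coeff_mul_of_subsets f.isPWO_support g.isPWO_support (tw_support_subset ℓ ζ f)
      (tw_support_subset ℓ ζ g), Finset.mul_sum]
  refine Finset.sum_congr rfl fun ij hij => ?_
  have hsum : ij.1 + ij.2 = a := (Finset.mem_antidiagonal.mp hij).2.2
  rw [tw_coeff, tw_coeff, ← hsum, zpw_add hζ]
  ring

variable (ℓ) in
/-- The twist `f(q) ↦ f(ζ q)` as a ring homomorphism. -/
def twHom (ζ : R) (hζ : ζ ^ ℓ = 1) : LaurentSeries R →+* LaurentSeries R where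
  toFun := tw ℓ ζ
  map_one' := by
    ext n
    rw [tw_coeff, HahnSeries.coeff_one]
    split_ifs with h
    · subst h; simp [zpw_zero]
    · simp
  map_mul' := tw_mul hζ
  map_zero' := by ext n; simp
  map_add' f g := by ext n; simp [mul_add]

@[simp]
lemma twHom_apply {ζ : R} (hζ : ζ ^ ℓ = 1) (f : LaurentSeries R) :
    twHom ℓ ζ hζ f = tw ℓ ζ f := rfl

lemma twHom_coeff {ζ : R} (hζ : ζ ^ ℓ = 1) (f : LaurentSeries R) (n : ℤ) :
    (twHom ℓ ζ hζ f).coeff n = zpw ℓ ζ n * f.coeff n := tw_coeff ℓ ζ f n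

/-- The twist fixes `R((q^ℓ))`. -/
lemma tw_qExpand (ζ : R) (g : LaurentSeries R) :
    tw ℓ ζ (qExpand R ℓ g) = qExpand R ℓ g := by
  ext n
  rw [tw_coeff]
  by_cases h : (ℓ : ℤ) ∣ n
  · obtain ⟨m, rfl⟩ := h
    rw [zpw_mul_left, one_mul]
  · rw [qExpand_coeff_of_not_dvd ℓ g h, mul_zero]

lemma tw_qq_pow {ζ : R} (hζ : ζ ^ ℓ = 1) (n : ℕ) :
    tw ℓ ζ ((qq : LaurentSeries R) ^ n) = HahnSeries.C (ζ ^ n) * (qq : LaurentSeries R) ^ n := by
  ext k
  rw [tw_coeff, qq_pow, HahnSeries.C_mul_eq_smul, HahnSeries.coeff_smul, HahnSeries.coeff_single]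
  split_ifs with h
  · subst h; rw [zpw_natCast hζ]; simp
  · simp

omit [NeZero ℓ] in
/-- `tw` by a power of `ζ`. -/
lemma pow_pow_eq_one {ζ : R} (hζ : ζ ^ ℓ = 1) (b : ℕ) : (ζ ^ b) ^ ℓ = 1 := by
  rw [← pow_mul, mul_comm, pow_mul, hζ, one_pow]

/-- If `P * M = D * P` with `det P ≠ 0` over a domain, then `M` and `D` have the same
characteristic polynomial. -/
lemma charpoly_eq_of_intertwine {S : Type*} [CommRing S] [IsDomain S] {n : Type*} [Fintype n]
    [DecidableEq n] (P M D : Matrix n n S) (hPM : P * M = D * P) (hdet : P.det ≠ 0) :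
    M.charpoly = D.charpoly := by
  have hscal : (P.map C) * Matrix.scalar n (X : S[X]) = Matrix.scalar n (X : S[X]) * (P.map C) :=
    ((Matrix.scalar_commute (X : S[X]) (fun r' => Commute.all _ _)) (P.map C)).eq.symm
  have hmap : (P.map C) * (M.map C) = (D.map C) * (P.map (C : S →+* S[X])) := by
    rw [← Matrix.map_mul, ← Matrix.map_mul, hPM]
  have hchar : (P.map C) * charmatrix M = charmatrix D * (P.map C) := by
    rw [charmatrix, charmatrix, Matrix.mul_sub, Matrix.sub_mul, hscal]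
    congr 1
  have hdets := congrArg Matrix.det hchar
  rw [Matrix.det_mul, Matrix.det_mul] at hdets
  have hPC : (P.map (C : S →+* S[X])).det ≠ 0 := by
    have : (P.map (C : S →+* S[X])).det = C P.det := by
      rw [← RingHom.mapMatrix_apply, ← RingHom.map_det]
    rw [this]
    exact (map_ne_zero_iff _ C_injective).mpr hdet
  rw [mul_comm (charmatrix D).det] at hdets
  exact mul_left_cancel₀ hPC hdets

/-- the nodes `ζ^b q` -/
def node (ζ : R) (b : Fin ℓ) : LaurentSeries R :=
  HahnSeries.C (ζ ^ (b : ℕ)) * (qq : LaurentSeries R)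

lemma vandermonde_mul_kronMat {ζ : R} (hζ : ζ ^ ℓ = 1) (f : LaurentSeries R) :
    Matrix.vandermonde (node (ℓ := ℓ) ζ) * (kronMat ℓ f).map (qExpand R ℓ) =
      Matrix.diagonal (fun b : Fin ℓ => tw ℓ (ζ ^ (b : ℕ)) f) * Matrix.vandermonde (node ζ) := by
  ext b j
  rw [Matrix.mul_apply, Matrix.diagonal_mul]
  simp only [Matrix.vandermonde_apply, Matrix.map_apply, node]
  have hb : (ζ ^ (b : ℕ)) ^ ℓ = 1 := pow_pow_eq_one hζ b
  have h1 := congrArg (tw ℓ (ζ ^ (b : ℕ))) (qq_pow_mul_eq_sum ℓ f j)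
  rw [tw_mul hb, tw_qq_pow hb] at h1
  have h2 : tw ℓ (ζ ^ (b : ℕ))
      (∑ i : Fin ℓ, (qq : LaurentSeries R) ^ (i : ℕ) * qExpand R ℓ (kronMat ℓ f i j)) =
      ∑ i : Fin ℓ, (HahnSeries.C ((ζ ^ (b : ℕ)) ^ (i : ℕ)) * (qq : LaurentSeries R) ^ (i : ℕ))
        * qExpand R ℓ (kronMat ℓ f i j) := by
    rw [← twHom_apply hb, map_sum]
    refine Finset.sum_congr rfl fun i _ => ?_
    rw [map_mul, twHom_apply, twHom_apply, tw_qq_pow hb, tw_qExpand]
  rw [h2] at h1
  simp only [mul_pow, ← map_pow]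
  rw [← h1]
  ring_nf

omit [NeZero ℓ] in
lemma node_injective [IsDomain R] {ζ : R} (hζ : IsPrimitiveRoot ζ ℓ) :
    Function.Injective (node (ℓ := ℓ) ζ) := by
  intro b b' hbb'
  have hq : (qq : LaurentSeries R) ≠ 0 := by
    rw [qq]; exact HahnSeries.single_ne_zero one_ne_zero
  have h1 : HahnSeries.C (ζ ^ (b : ℕ)) = (HahnSeries.C (ζ ^ (b' : ℕ)) : LaurentSeries R) :=
    mul_right_cancel₀ hq hbb'
  have h2 : ζ ^ (b : ℕ) = ζ ^ (b' : ℕ) := HahnSeries.C_injective h1
  exact Fin.ext (hζ.pow_inj b.2 b'.2 h2)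

/-- **Product formula**: over a domain containing a primitive `ℓ`-th root of unity `ζ`, the
Kronecker polynomial (with coefficients pushed to `R((q^ℓ))`) is `∏_b (Y - f(ζ^b q))`. -/
theorem kron_map_qExpand_eq_prod [IsDomain R] {ζ : R} (hζ : IsPrimitiveRoot ζ ℓ)
    (f : LaurentSeries R) :
    (kron ℓ f).map (qExpand R ℓ) =
      ∏ b : Fin ℓ, (X - Polynomial.C (tw ℓ (ζ ^ (b : ℕ)) f)) := by
  classical
  rw [kron, ← Matrix.charpoly_map,
    charpoly_eq_of_intertwine _ _ _ (vandermonde_mul_kronMat hζ.pow_eq_one f)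
      (Matrix.det_vandermonde_ne_zero_iff.mpr (node_injective hζ)),
    Matrix.charpoly_diagonal]

end Fermat.Agent.S37.H340

end
end
-- ===== PACK-END S37/H340/KronTwist.lean

-- ===== PACK-BEGIN S37/H700/GaussBasic.lean
section




/-!
# S37 / piece GAUSS (helper700): basic lemmas

Elementary facts about `coeffMap`, polynomials in `j` and normalisation of finitely many
elements of the fraction field of a valuation ring.
-/

set_option autoImplicit false

noncomputable section

namespace Fermat.Agent.S37.H700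

open ModularCurve HahnSeries Polynomial

section CoeffMap

variable {R S : Type*} [CommRing R] [CommRing S]

theorem coeffMap_injective {f : R →+* S} (hf : Function.Injective f) :
    Function.Injective (coeffMap f) := by
  intro x y h
  ext n
  apply hf
  have := congrArg (fun z => HahnSeries.coeff z n) h
  simpa using this

theorem coeffMap_C (f : R →+* S) (r : R) :
    coeffMap f (HahnSeries.C r : LaurentSeries R) = HahnSeries.C (f r) := by
  show coeffMap f (HahnSeries.single 0 r) = HahnSeries.single 0 (f r)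
  exact coeffMap_single f 0 r

/-- Evaluation of a polynomial at the `q`-expansion of `j`, with explicit constant map. -/
def evalJ (R : Type*) [CommRing R] (P : R[X]) : LaurentSeries R :=
  P.eval₂ (HahnSeries.C : R →+* LaurentSeries R) (jqModC R)

theorem coeffMap_evalJ (f : R →+* S) (P : R[X]) :
    coeffMap f (evalJ R P) = evalJ S (P.map f) := by
  unfold evalJ
  rw [Polynomial.hom_eval₂, Polynomial.eval₂_map, coeffMap_jqModC]
  congr 1
  ext r : 1
  exact coeffMap_C f r

theorem evalJ_add (P Q : R[X]) : evalJ R (P + Q) = evalJ R P + evalJ R Q :=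
  Polynomial.eval₂_add _ _

theorem evalJ_mul (P Q : R[X]) : evalJ R (P * Q) = evalJ R P * evalJ R Q :=
  Polynomial.eval₂_mul _ _

theorem evalJ_zero : evalJ R (0 : R[X]) = 0 := Polynomial.eval₂_zero _ _

theorem evalJ_one : evalJ R (1 : R[X]) = 1 := Polynomial.eval₂_one _ _

end CoeffMap

section Field

variable (K : Type*) [Field K]

theorem evalJ_eq_aeval (P : K[X]) : evalJ K P = Polynomial.aeval (jqModC K) P := by
  unfold evalJ
  rw [Polynomial.aeval_def]
  congr 1
  ext c : 1
  rw [algebraMap_laurentSeries_eq_single]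
  rfl

/-- The coefficient of `q^{-deg P}` in `P(j)` is the leading coefficient of `P`. -/
theorem coeff_evalJ_natDegree (P : K[X]) :
    (evalJ K P).coeff (-(P.natDegree : ℤ)) = P.leadingCoeff := by
  unfold evalJ
  rw [Polynomial.eval₂_eq_sum_range, HahnSeries.coeff_sum,
    Finset.sum_eq_single_of_mem P.natDegree (Finset.self_mem_range_succ _)]
  · show (HahnSeries.single 0 (P.coeff P.natDegree) * jqModC K ^ P.natDegree).coeff _ = _
    rw [HahnSeries.coeff_single_zero_mul, coeff_jqModC_pow_self, mul_one]; rfl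
  · intro i hi hne
    have hlt : i < P.natDegree :=
      lt_of_le_of_ne (Nat.lt_succ_iff.mp (Finset.mem_range.mp hi)) hne
    show (HahnSeries.single 0 (P.coeff i) * jqModC K ^ i).coeff _ = _
    rw [HahnSeries.coeff_single_zero_mul, coeff_jqModC_pow_of_lt K (by omega), mul_zero]

theorem evalJ_eq_zero_iff {P : K[X]} : evalJ K P = 0 ↔ P = 0 := by
  constructor
  · intro hP
    have h := coeff_evalJ_natDegree K P
    rw [hP, HahnSeries.coeff_zero] at h
    exact Polynomial.leadingCoeff_eq_zero.mp h.symm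
  · rintro rfl
    exact evalJ_zero

theorem jqModC_mem_jField : jqModC K ∈ Fermat.Agent.S28.jField K :=
  IntermediateField.subset_adjoin K _ (Set.mem_singleton _)

theorem evalJ_mem_jField (P : K[X]) : evalJ K P ∈ Fermat.Agent.S28.jField K := by
  rw [evalJ_eq_aeval]
  exact Polynomial.aeval_mem_adjoin_singleton K (jqModC K) |> fun h =>
    (IntermediateField.algebra_adjoin_le_adjoin K _) h

/-- Every element of `K(j)` is a quotient of polynomials in `j` with nonzero denominator. -/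
theorem exists_evalJ_of_mem_jField {c : LaurentSeries K} (hc : c ∈ Fermat.Agent.S28.jField K) :
    ∃ r s : K[X], s ≠ 0 ∧ c * evalJ K s = evalJ K r := by
  obtain ⟨r, s, hrs⟩ := (IntermediateField.mem_adjoin_simple_iff K c).mp hc
  by_cases hs : s = 0
  · refine ⟨0, 1, one_ne_zero, ?_⟩
    rw [hrs, hs, map_zero, div_zero, zero_mul, evalJ_zero]
  · refine ⟨r, s, hs, ?_⟩
    have hs' : Polynomial.aeval (jqModC K) s ≠ 0 := by
      rw [← evalJ_eq_aeval]
      exact fun h => hs ((evalJ_eq_zero_iff K).mp h)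
    rw [hrs, evalJ_eq_aeval, evalJ_eq_aeval, div_mul_cancel₀ _ hs']

end Field

end Fermat.Agent.S37.H700

end
end
-- ===== PACK-END S37/H700/GaussBasic.lean

-- ===== PACK-BEGIN S28/H685/QLaurent.lean
section



/-!
# S28 helper (helper685): convergent Laurent `q`-series

`HasQLaurent h f φ` : the function `f : ℍ → ℂ` is, at every point `τ`, the sum of the Laurent
series `φ` evaluated at `q = exp (2 π i τ / h)`.
-/

set_option autoImplicit false

namespace Fermat.Agent.S28.H685

open UpperHalfPlane Function Complex Filter HahnSeries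
open scoped Topology Manifold

noncomputable section

local notation "𝕢" => Periodic.qParam

/-- `f` is the sum of the Laurent series `φ` in the parameter `q = exp (2 π i τ / h)`. -/
def HasQLaurent (h : ℝ) (f : ℍ → ℂ) (φ : LaurentSeries ℂ) : Prop :=
  ∀ τ : ℍ, HasSum (fun n : ℤ => φ.coeff n * 𝕢 h τ ^ n) (f τ)

theorem ofPS_coeff_of_neg (A : PowerSeries ℂ) {k : ℤ} (hk : k < 0) :
    (HahnSeries.ofPowerSeries ℤ ℂ A).coeff k = 0 := by
  rw [HahnSeries.ofPowerSeries_apply]
  refine HahnSeries.embDomain_of_notMem_range ?_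
  rintro ⟨m, rfl⟩
  exact absurd hk (not_lt.mpr (Int.natCast_nonneg m))

theorem coeff_single_mul_ofPS (k : ℤ) (A : PowerSeries ℂ) (m : ℕ) :
    (HahnSeries.single k (1 : ℂ) * HahnSeries.ofPowerSeries ℤ ℂ A).coeff (m + k) =
      PowerSeries.coeff m A := by
  rw [HahnSeries.coeff_single_mul, one_mul, add_sub_cancel_right,
    HahnSeries.ofPowerSeries_apply_coeff]

theorem coeff_single_mul_ofPS_of_lt (k : ℤ) (A : PowerSeries ℂ) {n : ℤ} (hn : n < k) :
    (HahnSeries.single k (1 : ℂ) * HahnSeries.ofPowerSeries ℤ ℂ A).coeff n = 0 := by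
  rw [HahnSeries.coeff_single_mul, one_mul]
  exact ofPS_coeff_of_neg A (by omega)

/-- The basic shift lemma relating Laurent expansions and power series expansions. -/
theorem hasQLaurent_single_mul_iff (h : ℝ) (f : ℍ → ℂ) (k : ℤ) (A : PowerSeries ℂ) :
    HasQLaurent h f (HahnSeries.single k (1 : ℂ) * HahnSeries.ofPowerSeries ℤ ℂ A) ↔
      HasQExp h (fun τ => f τ * 𝕢 h τ ^ (-k)) A := by
  have hg : Function.Injective (fun m : ℕ => (m : ℤ) + k) := by
    intro a b hab
    simpa using hab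
  refine forall_congr' fun τ => ?_
  have hq : 𝕢 h τ ≠ 0 := Periodic.qParam_ne_zero _
  set φ := HahnSeries.single k (1 : ℂ) * HahnSeries.ofPowerSeries ℤ ℂ A with hφ
  have h0 : ∀ n ∉ Set.range (fun m : ℕ => (m : ℤ) + k), φ.coeff n * 𝕢 h τ ^ n = 0 := by
    intro n hn
    have hlt : n < k := by
      by_contra hge
      rw [not_lt] at hge
      exact hn ⟨(n - k).toNat, by simp; omega⟩
    rw [hφ, coeff_single_mul_ofPS_of_lt k A hlt, zero_mul]
  rw [← hg.hasSum_iff h0]
  have hfun : ((fun n : ℤ => φ.coeff n * 𝕢 h τ ^ n) ∘ fun m : ℕ => (m : ℤ) + k) =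
      fun m : ℕ => (PowerSeries.coeff m A * 𝕢 h τ ^ m) * 𝕢 h τ ^ k := by
    funext m
    simp only [Function.comp_apply, hφ, coeff_single_mul_ofPS]
    rw [zpow_add₀ hq, zpow_natCast]
    ring
  rw [hfun]
  have hk : 𝕢 h τ ^ k ≠ 0 := zpow_ne_zero _ hq
  have hval : f τ = (f τ * 𝕢 h τ ^ (-k)) * 𝕢 h τ ^ k := by
    rw [mul_assoc, ← zpow_add₀ hq]
    simp
  conv_lhs => rw [hval]
  exact hasSum_mul_right_iff hk

theorem algebraMap_eq_C (c : ℂ) :
    algebraMap ℂ (LaurentSeries ℂ) c = HahnSeries.C c := by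
  have h1 : algebraMap ℂ (PowerSeries ℂ) c = PowerSeries.C c := by
    simp
  rw [HahnSeries.algebraMap_apply', h1, HahnSeries.ofPowerSeries_C]

/-- Every Laurent series is a monomial times a power series. -/
theorem laurent_decomp (φ : LaurentSeries ℂ) :
    φ = HahnSeries.single φ.order (1 : ℂ) * HahnSeries.ofPowerSeries ℤ ℂ φ.powerSeriesPart :=
  (LaurentSeries.single_order_mul_powerSeriesPart φ).symm

namespace HasQLaurent

variable {h : ℝ} {f g : ℍ → ℂ} {φ ψ : LaurentSeries ℂ}

theorem congr_fun (hf : HasQLaurent h f φ) (hfg : ∀ τ, f τ = g τ) : HasQLaurent h g φ :=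
  fun τ => hfg τ ▸ hf τ

theorem congr_series (hf : HasQLaurent h f φ) (hφ : φ = ψ) : HasQLaurent h f ψ := hφ ▸ hf

theorem zero : HasQLaurent h (fun _ => 0) 0 := fun τ => by
  simp [hasSum_zero]

theorem add (hf : HasQLaurent h f φ) (hg : HasQLaurent h g ψ) :
    HasQLaurent h (fun τ => f τ + g τ) (φ + ψ) := fun τ => by
  simpa [add_mul] using (hf τ).add (hg τ)

theorem neg (hf : HasQLaurent h f φ) : HasQLaurent h (fun τ => -f τ) (-φ) := fun τ => by
  simpa using (hf τ).neg

theorem sub (hf : HasQLaurent h f φ) (hg : HasQLaurent h g ψ) :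
    HasQLaurent h (fun τ => f τ - g τ) (φ - ψ) := fun τ => by
  simpa [sub_mul] using (hf τ).sub (hg τ)

theorem const_mul (c : ℂ) (hf : HasQLaurent h f φ) :
    HasQLaurent h (fun τ => c * f τ) (HahnSeries.C c * φ) := fun τ => by
  simpa [mul_assoc] using (hf τ).mul_left c

/-- Power series expansions are Laurent expansions. -/
theorem of_hasQExp {A : PowerSeries ℂ} (hf : HasQExp h f A) :
    HasQLaurent h f (HahnSeries.ofPowerSeries ℤ ℂ A) := by
  have := (hasQLaurent_single_mul_iff h f 0 A).mpr (by simpa using hf)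
  simpa using this

theorem hasQExp_of_ofPowerSeries {A : PowerSeries ℂ}
    (hf : HasQLaurent h f (HahnSeries.ofPowerSeries ℤ ℂ A)) : HasQExp h f A := by
  have h1 : HasQLaurent h f (HahnSeries.single 0 (1 : ℂ) * HahnSeries.ofPowerSeries ℤ ℂ A) := by
    simpa using hf
  simpa using (hasQLaurent_single_mul_iff h f 0 A).mp h1

theorem const (c : ℂ) : HasQLaurent h (fun _ => c) (HahnSeries.C c) := by
  have := of_hasQExp (HasQExp.const (h := h) c)
  simpa using this

theorem one : HasQLaurent h (fun _ => 1) 1 := by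
  have := of_hasQExp (HasQExp.one (h := h))
  simpa using this

/-- The monomial `q ^ k`. -/
theorem single (k : ℤ) : HasQLaurent h (fun τ => 𝕢 h τ ^ k) (HahnSeries.single k (1 : ℂ)) := by
  have h1 : HasQExp h (fun τ => 𝕢 h τ ^ k * 𝕢 h τ ^ (-k)) 1 := by
    refine HasQExp.one.congr_fun fun τ => ?_
    rw [← zpow_add₀ (Periodic.qParam_ne_zero _)]
    simp
  have := (hasQLaurent_single_mul_iff h _ k 1).mpr h1
  simpa using this

/-- The power series part of a Laurent expansion. -/
theorem hasQExp_powerSeriesPart (hf : HasQLaurent h f φ) :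
    HasQExp h (fun τ => f τ * 𝕢 h τ ^ (-φ.order)) φ.powerSeriesPart :=
  (hasQLaurent_single_mul_iff h f φ.order φ.powerSeriesPart).mp
    (hf.congr_series (laurent_decomp φ))

theorem mul (hf : HasQLaurent h f φ) (hg : HasQLaurent h g ψ) :
    HasQLaurent h (fun τ => f τ * g τ) (φ * ψ) := by
  have h1 := hf.hasQExp_powerSeriesPart
  have h2 := hg.hasQExp_powerSeriesPart
  have h3 := h1.mul h2
  have h4 : HasQExp h (fun τ => (f τ * g τ) * 𝕢 h τ ^ (-(φ.order + ψ.order)))
      (φ.powerSeriesPart * ψ.powerSeriesPart) := by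
    refine h3.congr_fun fun τ => ?_
    rw [neg_add, zpow_add₀ (Periodic.qParam_ne_zero _)]
    ring
  have h5 := (hasQLaurent_single_mul_iff h _ (φ.order + ψ.order) _).mpr h4
  refine h5.congr_series ?_
  conv_rhs => rw [laurent_decomp φ, laurent_decomp ψ]
  have hs : HahnSeries.single (φ.order + ψ.order) (1 : ℂ) =
      HahnSeries.single φ.order (1 : ℂ) * HahnSeries.single ψ.order (1 : ℂ) := by
    rw [HahnSeries.single_mul_single, one_mul]
  rw [map_mul, hs]
  exact mul_mul_mul_comm _ _ _ _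

theorem pow (hf : HasQLaurent h f φ) (n : ℕ) : HasQLaurent h (fun τ => f τ ^ n) (φ ^ n) := by
  induction n with
  | zero => simpa using one (h := h)
  | succ n ih => simpa [pow_succ] using ih.mul hf

theorem finset_sum {ι : Type*} (s : Finset ι) (F : ι → ℍ → ℂ) (P : ι → LaurentSeries ℂ)
    (hF : ∀ i ∈ s, HasQLaurent h (F i) (P i)) :
    HasQLaurent h (fun τ => ∑ i ∈ s, F i τ) (∑ i ∈ s, P i) := by
  classical
  induction s using Finset.induction_on with
  | empty => simpa using zero (h := h)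
  | insert a s ha ih =>
    simp only [Finset.sum_insert ha]
    exact (hF a (Finset.mem_insert_self a s)).add
      (ih fun i hi => hF i (Finset.mem_insert_of_mem hi))

theorem finset_prod {ι : Type*} (s : Finset ι) (F : ι → ℍ → ℂ) (P : ι → LaurentSeries ℂ)
    (hF : ∀ i ∈ s, HasQLaurent h (F i) (P i)) :
    HasQLaurent h (fun τ => ∏ i ∈ s, F i τ) (∏ i ∈ s, P i) := by
  classical
  induction s using Finset.induction_on with
  | empty => simpa using one (h := h)
  | insert a s ha ih =>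
    simp only [Finset.prod_insert ha]
    exact (hF a (Finset.mem_insert_self a s)).mul
      (ih fun i hi => hF i (Finset.mem_insert_of_mem hi))

/-- Uniqueness of the Laurent coefficients. -/
theorem eq_zero (hh : 0 < h) (hf : HasQLaurent h (fun _ => 0) φ) : φ = 0 := by
  have h1 := hf.hasQExp_powerSeriesPart
  have h2 : φ.powerSeriesPart = 0 := by
    refine HasQExp.eq_zero hh (h1.congr_fun fun τ => ?_)
    simp
  exact (LaurentSeries.powerSeriesPart_eq_zero φ).mp h2

theorem unique (hh : 0 < h) (hf : HasQLaurent h f φ) (hg : HasQLaurent h f ψ) : φ = ψ := by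
  have h1 : HasQLaurent h (fun _ => 0) (φ - ψ) :=
    (hf.sub hg).congr_fun fun τ => sub_self _
  exact sub_eq_zero.mp (h1.eq_zero hh)

/-- If the function vanishes identically then so does the series; pointwise version. -/
theorem eq_of_forall_eq (hh : 0 < h) (hf : HasQLaurent h f φ) (hg : HasQLaurent h g ψ)
    (hfg : ∀ τ, f τ = g τ) : φ = ψ :=
  (hf.congr_fun hfg).unique hh hg

theorem mdifferentiable (hh : 0 < h) (hf : HasQLaurent h f φ) : MDiff f := by
  have h1 := (hf.hasQExp_powerSeriesPart).mdifferentiable hh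
  have h2 : MDiff (fun τ : ℍ => 𝕢 h τ ^ φ.order) := by
    rw [UpperHalfPlane.mdifferentiable_iff]
    have hd : DifferentiableOn ℂ (fun z : ℂ => 𝕢 h z ^ φ.order) {z | 0 < z.im} := by
      intro z _
      exact ((Periodic.differentiable_qParam (h := h)).differentiableAt.zpow
        (Or.inl (Periodic.qParam_ne_zero _))).differentiableWithinAt
    refine hd.congr fun z hz => ?_
    simp only [Function.comp_apply]
    rw [ofComplex_apply_of_im_pos hz]
  have h3 : f = fun τ => (f τ * 𝕢 h τ ^ (-φ.order)) * 𝕢 h τ ^ φ.order := by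
    funext τ
    rw [mul_assoc, ← zpow_add₀ (Periodic.qParam_ne_zero _)]
    simp
  rw [h3]
  exact h1.mul h2

theorem vadd_period (hh : 0 < h) (hf : HasQLaurent h f φ) (τ : ℍ) (τ' : ℍ)
    (hτ : (τ' : ℂ) = τ + h) : f τ' = f τ := by
  have h1 := (hf.hasQExp_powerSeriesPart).vadd_period hh τ τ' hτ
  have h2 := (HasQExp.X (h := h)).vadd_period hh τ τ' hτ
  beta_reduce at h1 h2
  rw [h2] at h1
  exact mul_right_cancel₀ (zpow_ne_zero _ (Periodic.qParam_ne_zero _)) h1

/-- Closure under inverses. -/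
theorem inv (hh : 0 < h) (hf : HasQLaurent h f φ) (hf0 : ∀ τ, f τ ≠ 0) (hφ : φ ≠ 0) :
    HasQLaurent h (fun τ => (f τ)⁻¹) φ⁻¹ := by
  have h1 := hf.hasQExp_powerSeriesPart
  have hA0 : PowerSeries.coeff 0 φ.powerSeriesPart ≠ 0 := by
    rw [LaurentSeries.powerSeriesPart_coeff]
    simpa using (HahnSeries.coeff_order_eq_zero (x := φ)).not.mpr hφ
  have h2 := h1.inv hh (fun τ => mul_ne_zero (hf0 τ)
    (zpow_ne_zero _ (Periodic.qParam_ne_zero _))) hA0
  have h3 : HasQExp h (fun τ => (f τ)⁻¹ * 𝕢 h τ ^ (-(-φ.order))) (φ.powerSeriesPart)⁻¹ := by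
    refine h2.congr_fun fun τ => ?_
    rw [mul_inv, ← zpow_neg]
  have h4 := (hasQLaurent_single_mul_iff h _ (-φ.order) _).mpr h3
  refine h4.congr_series ?_
  have hA0' : PowerSeries.constantCoeff φ.powerSeriesPart ≠ 0 := by
    rwa [← PowerSeries.coeff_zero_eq_constantCoeff]
  symm
  apply inv_eq_of_mul_eq_one_left
  have hs : HahnSeries.single (-φ.order) (1 : ℂ) * HahnSeries.single φ.order (1 : ℂ) = 1 := by
    rw [HahnSeries.single_mul_single, one_mul, neg_add_cancel]
    rfl
  calc HahnSeries.single (-φ.order) (1 : ℂ) * HahnSeries.ofPowerSeries ℤ ℂ (φ.powerSeriesPart)⁻¹ * φ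
      = HahnSeries.single (-φ.order) (1 : ℂ) * HahnSeries.ofPowerSeries ℤ ℂ (φ.powerSeriesPart)⁻¹ *
        (HahnSeries.single φ.order (1 : ℂ) * HahnSeries.ofPowerSeries ℤ ℂ φ.powerSeriesPart) := by
        rw [← laurent_decomp φ]
    _ = (HahnSeries.single (-φ.order) (1 : ℂ) * HahnSeries.single φ.order (1 : ℂ)) *
        HahnSeries.ofPowerSeries ℤ ℂ ((φ.powerSeriesPart)⁻¹ * φ.powerSeriesPart) := by
        rw [map_mul]
        exact mul_mul_mul_comm _ _ _ _
    _ = 1 := by
        rw [hs, PowerSeries.inv_mul_cancel _ hA0', map_one, one_mul]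

theorem div (hh : 0 < h) (hf : HasQLaurent h f φ) (hg : HasQLaurent h g ψ)
    (hg0 : ∀ τ, g τ ≠ 0) (hψ : ψ ≠ 0) :
    HasQLaurent h (fun τ => f τ / g τ) (φ / ψ) := by
  simpa [div_eq_mul_inv] using hf.mul (hg.inv hh hg0 hψ)

/-- Evaluation of polynomials. -/
theorem aeval (hf : HasQLaurent h f φ) (P : Polynomial ℂ) :
    HasQLaurent h (fun τ => P.eval (f τ)) (Polynomial.aeval φ P) := by
  induction P using Polynomial.induction_on' with
  | add p q hp hq =>
    simpa using hp.add hq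
  | monomial n a =>
    have := (hf.pow n).const_mul a
    refine (this.congr_fun fun τ => ?_).congr_series ?_
    · simp
    · rw [Polynomial.aeval_monomial, algebraMap_eq_C]

/-- Evaluation of multivariate polynomials. -/
theorem mvAeval {σ : Type*} (F : σ → ℍ → ℂ) (Φ : σ → LaurentSeries ℂ)
    (hF : ∀ i, HasQLaurent h (F i) (Φ i)) (P : MvPolynomial σ ℂ) :
    HasQLaurent h (fun τ => MvPolynomial.eval (fun i => F i τ) P) (MvPolynomial.aeval Φ P) := by
  induction P using MvPolynomial.induction_on with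
  | C a =>
    have := (one (h := h)).const_mul a
    refine (this.congr_fun fun τ => ?_).congr_series ?_
    · simp
    · rw [MvPolynomial.aeval_C, algebraMap_eq_C, mul_one]
  | add p q hp hq =>
    simpa using hp.add hq
  | mul_X p i hp =>
    simpa using hp.mul (hF i)

end HasQLaurent

end

end Fermat.Agent.S28.H685

end
-- ===== PACK-END S28/H685/QLaurent.lean

-- ===== PACK-BEGIN S28/H326/Integral.lean
section
/-
S28 / helper326: integrality bookkeeping for Laurent series over `ℂ`: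
* `IntCoeff` : the subring of series all of whose coefficients are algebraic integers;
* `jP p = j(t^p)` and the leading-coefficient lemma for `Q(j(t^p))`;
* `exists_int_poly_of_integral` : `Q ∈ ℚ[X]` with `Q(j(t^p))` having algebraic-integer
  coefficients has integer coefficients.
-/




set_option autoImplicit false
set_option linter.unusedSectionVars false

noncomputable section

namespace Fermat.Agent.S28.H326

open ModularCurve HahnSeries

/-- Laurent series over `ℂ` whose coefficients are all algebraic integers. -/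
def IntCoeff : Subring (LaurentSeries ℂ) where
  carrier := {x | ∀ n, IsIntegral ℤ (x.coeff n)}
  mul_mem' {x y} hx hy n := by
    rw [HahnSeries.coeff_mul]
    exact IsIntegral.sum _ fun ij _ => (hx _).mul (hy _)
  one_mem' n := by
    rw [HahnSeries.coeff_one]
    split_ifs
    · exact isIntegral_one
    · exact isIntegral_zero
  add_mem' {x y} hx hy n := by
    rw [HahnSeries.coeff_add]
    exact (hx n).add (hy n)
  zero_mem' n := by
    rw [HahnSeries.coeff_zero]
    exact isIntegral_zero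
  neg_mem' {x} hx n := by
    rw [HahnSeries.coeff_neg]
    exact (hx n).neg

theorem mem_IntCoeff {x : LaurentSeries ℂ} : x ∈ IntCoeff ↔ ∀ n, IsIntegral ℤ (x.coeff n) :=
  Iff.rfl

/-- coefficient cast `ℤ((q)) → ℂ((q))` -/
abbrev kap : LaurentSeries ℤ →+* LaurentSeries ℂ := coeffMap (Int.castRingHom ℂ)

theorem kap_injective : Function.Injective kap := by
  intro x y h
  ext n
  have := congrArg (fun z => z.coeff n) h
  simpa using this

theorem kap_mem_IntCoeff (x : LaurentSeries ℤ) : kap x ∈ IntCoeff := fun n => by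
  rw [coeffMap_coeff]
  exact isIntegral_algebraMap (R := ℤ) (A := ℂ) (x := x.coeff n)

variable (p : ℕ) [NeZero p]

theorem qExpand_mem_IntCoeff {x : LaurentSeries ℂ} (hx : x ∈ IntCoeff) :
    qExpand ℂ p x ∈ IntCoeff := fun n => by
  by_cases h : (p : ℤ) ∣ n
  · obtain ⟨m, rfl⟩ := h
    rw [qExpand_coeff_mul]
    exact hx m
  · rw [qExpand_coeff_of_not_dvd p _ h]
    exact isIntegral_zero

theorem zeta_isIntegral : IsIntegral ℤ (zeta p) :=
  (zeta_isPrimitiveRoot p).isIntegral (Nat.pos_of_ne_zero (NeZero.ne p))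

theorem cB_mem_IntCoeff (b : ℕ) (g : PowerSeries ℤ) :
    cB p b (g.map (Int.castRingHom ℂ)) ∈ IntCoeff := fun n => by
  rcases lt_or_ge n 0 with hn | hn
  · rw [cB_coeff_neg p b _ hn]
    exact isIntegral_zero
  · lift n to ℕ using hn
    rw [cB_coeff_nat, PowerSeries.coeff_map]
    exact (((zeta_isIntegral p).pow b).pow n).mul
      (isIntegral_algebraMap (R := ℤ) (A := ℂ) (x := g.coeff n))

/-- `j(t^p)` over `ℂ`. -/
def jP : LaurentSeries ℂ := qExpand ℂ p (jqModC ℂ)

theorem jP_pow_coeff_self (n : ℕ) : (jP p ^ n).coeff (-((p : ℤ) * n)) = 1 := by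
  rw [jP, ← map_pow, show -((p : ℤ) * n) = (p : ℤ) * (-(n : ℤ)) by ring, qExpand_coeff_mul,
    coeff_jqModC_pow_self]

theorem jP_pow_coeff_of_lt {i n : ℕ} (h : i < n) : (jP p ^ i).coeff (-((p : ℤ) * n)) = 0 := by
  rw [jP, ← map_pow, show -((p : ℤ) * n) = (p : ℤ) * (-(n : ℤ)) by ring, qExpand_coeff_mul]
  exact coeff_jqModC_pow_of_lt ℂ (by omega)

theorem jP_pow_mem_IntCoeff (n : ℕ) : jP p ^ n ∈ IntCoeff := by
  refine Subring.pow_mem _ ?_ n
  rw [jP, ← coeffMap_jqModC (Int.castRingHom ℂ)]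
  exact qExpand_mem_IntCoeff p (kap_mem_IntCoeff _)

theorem ratCast_mul_coeff (c : ℚ) (x : LaurentSeries ℂ) (n : ℤ) :
    ((c : LaurentSeries ℂ) * x).coeff n = (c : ℂ) * x.coeff n := by
  have : (c : LaurentSeries ℂ) = HahnSeries.C (c : ℂ) := (map_ratCast HahnSeries.C c).symm
  rw [this, HahnSeries.C_mul_eq_smul, HahnSeries.coeff_smul, smul_eq_mul]

theorem rat_algebraMap_mul_coeff (c : ℚ) (x : LaurentSeries ℂ) (n : ℤ) :
    (algebraMap ℚ (LaurentSeries ℂ) c * x).coeff n = (c : ℂ) * x.coeff n := by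
  rw [eq_ratCast, ratCast_mul_coeff]

/-- leading coefficient of `Q(j(t^p))` -/
theorem aeval_jP_coeff (Q : Polynomial ℚ) {n : ℕ} (hn : Q.natDegree ≤ n) :
    (Polynomial.aeval (jP p) Q).coeff (-((p : ℤ) * n)) = (Q.coeff n : ℂ) := by
  rw [Polynomial.aeval_eq_sum_range' (Nat.lt_succ_of_le hn), HahnSeries.coeff_sum,
    Finset.sum_range_succ]
  rw [Finset.sum_eq_zero, zero_add, Algebra.smul_def, rat_algebraMap_mul_coeff,
    jP_pow_coeff_self, mul_one]
  · intro i hi
    rw [Algebra.smul_def, rat_algebraMap_mul_coeff, jP_pow_coeff_of_lt p (Finset.mem_range.mp hi),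
      mul_zero]

theorem rat_of_isIntegral {a : ℚ} (h : IsIntegral ℤ (a : ℂ)) : ∃ m : ℤ, (m : ℚ) = a := by
  have h1 : IsIntegral ℤ a := by
    have := (isIntegral_algebraMap_iff (R := ℤ) (A := ℚ) (B := ℂ)
      (algebraMap ℚ ℂ).injective (x := a)).mp (by simpa using h)
    exact this
  obtain ⟨m, hm⟩ := IsIntegrallyClosed.isIntegral_iff.mp h1
  exact ⟨m, by simpa using hm⟩

/-- **Integrality by leading terms**: if `Q(j(t^p))` has algebraic-integer coefficients,
then `Q` has integer coefficients. -/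
theorem exists_int_poly_of_integral (Q : Polynomial ℚ)
    (h : Polynomial.aeval (jP p) Q ∈ IntCoeff) :
    ∃ Q' : Polynomial ℤ, Q'.map (Int.castRingHom ℚ) = Q := by
  suffices H : ∀ d : ℕ, ∀ Q : Polynomial ℚ, Q.natDegree < d →
      Polynomial.aeval (jP p) Q ∈ IntCoeff → ∃ Q' : Polynomial ℤ,
        Q'.map (Int.castRingHom ℚ) = Q from H (Q.natDegree + 1) Q (Nat.lt_succ_self _) h
  intro d
  induction d with
  | zero => intro Q hQ; omega
  | succ d ih =>
    intro Q hQ hint
    have hle : Q.natDegree ≤ d := Nat.lt_succ_iff.mp hQ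
    have hlead := aeval_jP_coeff p Q hle
    obtain ⟨m, hm⟩ := rat_of_isIntegral (hlead ▸ hint _)
    set Q1 : Polynomial ℚ := Q - Polynomial.C (Q.coeff d) * Polynomial.X ^ d with hQ1
    have hdeg : Q1.natDegree < d ∨ Q1 = 0 := by
      by_cases h0 : Q1 = 0
      · exact Or.inr h0
      left
      have h1 : Q1.natDegree ≤ d := by
        refine (Polynomial.natDegree_sub_le _ _).trans (max_le hle ?_)
        exact Polynomial.natDegree_C_mul_X_pow_le _ _
      rcases Nat.lt_or_ge Q1.natDegree d with h2 | h2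
      · exact h2
      · have h3 : Q1.natDegree = d := le_antisymm h1 h2
        have h4 : Q1.coeff d = 0 := by
          simp [hQ1]
        have h5 : Q1.leadingCoeff = 0 := by
          rw [Polynomial.leadingCoeff, h3, h4]
        exact absurd (Polynomial.leadingCoeff_eq_zero.mp h5) h0
    have hint1 : Polynomial.aeval (jP p) Q1 ∈ IntCoeff := by
      rw [hQ1, map_sub, map_mul, Polynomial.aeval_C, map_pow, Polynomial.aeval_X]
      refine Subring.sub_mem _ hint ?_
      rw [← hm]
      have : algebraMap ℚ (LaurentSeries ℂ) (m : ℚ) = ((m : ℤ) : LaurentSeries ℂ) := by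
        simp
      rw [this]
      exact Subring.mul_mem _ (intCast_mem _ m) (jP_pow_mem_IntCoeff p d)
    have hQ1' : ∃ Q' : Polynomial ℤ, Q'.map (Int.castRingHom ℚ) = Q1 := by
      rcases hdeg with h1 | h1
      · rcases Nat.eq_zero_or_pos d with hd | hd
        · omega
        · exact ih Q1 (by omega) hint1 |>.elim (fun Q' h' => ⟨Q', h'⟩) |> fun x => x
      · exact ⟨0, by simp [h1]⟩
    obtain ⟨Q', hQ'⟩ := hQ1'
    refine ⟨Q' + Polynomial.C m * Polynomial.X ^ d, ?_⟩
    rw [Polynomial.map_add, hQ', Polynomial.map_mul, Polynomial.map_pow, Polynomial.map_X,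
      Polynomial.map_C, hQ1]
    simp [hm]

end Fermat.Agent.S28.H326

end
end
-- ===== PACK-END S28/H326/Integral.lean

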