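import Mathlib
import Fermat.Prelude.Def_AlgebraicCurve_DivisorClassGroup
import Fermat.Prelude.Def_ModularCurve_HeckeModule
import Fermat.Prelude.Def_ModularCurve_ReductionModL
import Fermat.Prelude.Def_ModularCurve_ArithmeticGalois
import Fermat.Agent.Pack.S3234.G0E0L0
import Fermat.Agent.Pack.S3234.G0E0L3
import Fermat.Agent.Pack.S3234.G0E0L2
import Fermat.Agent.Pack.S3234.G0E1L3
import Fermat.Agent.Pack.S3234.G0E0L1
import Fermat.Agent.Pack.S3234.G0E1L1
import Fermat.Agent.Pack.S3234.G0E1L0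

-- ===== PACK-BEGIN Lib/Cheb/H943/Frob.lean
section


/-!
# CHEB piece D: `Spec.FrobStatement` (helper943)

Outside the finite set of prime divisors of the absolute norm of the different ideal of a Galois
number field `L/ℚ`, every prime `P` of `𝓞 L` has trivial inertia group, an arithmetic Frobenius
`τ`, and decomposition group `zpowers τ`.

Ingredients (all Mathlib): `not_dvd_differentIdeal_iff` (unramified ⇔ not dividing the
different), `AlgHom.IsArithFrobAt.eq_of_isUnramifiedAt` (uniqueness of Frobenius),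
`IsArithFrobAt.exists_of_isInvariant` (existence), `Ideal.Quotient.stabilizerHom` and
`FiniteField.bijective_frobeniusAlgEquivOfAlgebraic_pow` (Galois groups of finite fields are
generated by Frobenius).
-/

set_option autoImplicit false
set_option linter.unusedSectionVars false
set_option linter.style.haveILetI false

open NumberField
open scoped Pointwise

namespace Fermat.Agent.Lib.Cheb.H943

section Bad

attribute [local instance] FractionRing.liftAlgebra

variable (L : Type) [Field L] [NumberField L]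

/-- The bad number: the absolute norm of the different ideal (`= |discr L|`). -/
noncomputable def badNat : ℕ := Ideal.absNorm (differentIdeal ℤ (𝓞 L))

lemma badNat_ne_zero : badNat L ≠ 0 := by
  unfold badNat
  rw [Ne, Ideal.absNorm_eq_zero_iff]
  exact differentIdeal_ne_bot

variable {L}

/-- A rational prime contained in a prime ideal divides its absolute norm. -/
lemma prime_dvd_absNorm {p : ℕ} (hp : p.Prime) {P : Ideal (𝓞 L)} (hP : P.IsPrime)
    (hpP : (p : 𝓞 L) ∈ P) : p ∣ Ideal.absNorm P := by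
  by_contra h
  have hcop : Nat.Coprime p (Ideal.absNorm P) := (Nat.Prime.coprime_iff_not_dvd hp).mpr h
  have h1 : ((Nat.gcd p (Ideal.absNorm P) : ℤ) : 𝓞 L) ∈ P := by
    rw [Nat.gcd_eq_gcd_ab]
    push_cast
    exact P.add_mem (P.mul_mem_right _ hpP) (P.mul_mem_right _ (Ideal.absNorm_mem P))
  rw [hcop] at h1
  simp only [Nat.cast_one, Int.cast_one] at h1
  exact hP.ne_top ((Ideal.eq_top_iff_one P).mpr h1)

/-- Primes not dividing `badNat L` are unramified in `L`. -/
lemma isUnramifiedAt_of_not_dvd_badNat {p : ℕ} (hp : p.Prime) (hpB : ¬ p ∣ badNat L)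
    {P : Ideal (𝓞 L)} [hP : P.IsPrime] (hpP : (p : 𝓞 L) ∈ P) :
    Algebra.IsUnramifiedAt ℤ P := by
  rw [← not_dvd_differentIdeal_iff]
  intro hdvd
  apply hpB
  exact (prime_dvd_absNorm hp hP hpP).trans
    (Ideal.absNorm_dvd_absNorm_of_le (Ideal.le_of_dvd hdvd))

end Bad

variable {L : Type} [Field L] [NumberField L] [IsGalois ℚ L]

lemma faithful_gal : FaithfulSMul (L ≃ₐ[ℚ] L) (𝓞 L) :=
  IsGaloisGroup.faithful ℤ

lemma prime_ne_bot {p : ℕ} (hp : p.Prime) {P : Ideal (𝓞 L)} (hpP : (p : 𝓞 L) ∈ P) : P ≠ ⊥ := by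
  rintro rfl
  rw [Ideal.mem_bot] at hpP
  exact hp.ne_zero (by exact_mod_cast hpP)

lemma finite_quot {p : ℕ} (hp : p.Prime) {P : Ideal (𝓞 L)} (hpP : (p : 𝓞 L) ∈ P) :
    Finite (𝓞 L ⧸ P) :=
  Ideal.finiteQuotientOfFreeOfNeBot P (prime_ne_bot hp hpP)

/-- Existence of an arithmetic Frobenius at every prime above `p`. -/
lemma exists_isArithFrobAt {p : ℕ} (hp : p.Prime) {P : Ideal (𝓞 L)} [hP : P.IsPrime]
    (hpP : (p : 𝓞 L) ∈ P) : ∃ τ : L ≃ₐ[ℚ] L, IsArithFrobAt ℤ τ P := by
  haveI := finite_quot hp hpP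
  exact IsArithFrobAt.exists_of_isInvariant ℤ (L ≃ₐ[ℚ] L) P

/-- Inertia is trivial at an unramified prime. -/
lemma inertiaTrivial_of_isUnramifiedAt {p : ℕ} (hp : p.Prime) {P : Ideal (𝓞 L)} [hP : P.IsPrime]
    (hpP : (p : 𝓞 L) ∈ P) [Algebra.IsUnramifiedAt ℤ P] : Spec.InertiaTrivial L P := by
  intro ι hι
  obtain ⟨τ, hτ⟩ := exists_isArithFrobAt hp hpP
  have hιτ : IsArithFrobAt ℤ (ι * τ) P := by
    intro x
    have h1 := hι (τ • x)
    have h2 := hτ x
    have : (MulSemiringAction.toAlgHom ℤ (𝓞 L) (ι * τ)) x - x ^ Nat.card (ℤ ⧸ P.under ℤ)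
        = (ι • (τ • x) - τ • x) + ((MulSemiringAction.toAlgHom ℤ (𝓞 L) τ) x
            - x ^ Nat.card (ℤ ⧸ P.under ℤ)) := by
      simp [mul_smul]
    rw [this]
    exact P.add_mem h1 h2
  have heq := AlgHom.IsArithFrobAt.eq_of_isUnramifiedAt hιτ hτ
    (by intro x hx; exact mem_nonZeroDivisors_of_ne_zero (by rintro rfl; exact hx P.zero_mem))
  haveI := faithful_gal (L := L)
  have h3 : ι * τ = τ := by
    apply FaithfulSMul.eq_of_smul_eq_smul (α := 𝓞 L)
    intro x
    exact DFunLike.congr_fun heq x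
  simpa using h3

attribute [local instance] Ideal.Quotient.field in
/-- If the inertia group is trivial, the decomposition group is generated by any Frobenius. -/
lemma decomp_eq_zpowers {p : ℕ} (hp : p.Prime) {P : Ideal (𝓞 L)} [hP : P.IsPrime]
    (hpP : (p : 𝓞 L) ∈ P) (hI : Spec.InertiaTrivial L P) {τ : L ≃ₐ[ℚ] L}
    (hτ : IsArithFrobAt ℤ τ P) : Spec.decomp L P = Subgroup.zpowers τ := by
  have hne : P ≠ ⊥ := prime_ne_bot hp hpP
  haveI hmax : P.IsMaximal := Ideal.IsPrime.isMaximal hP hne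
  haveI : Finite (𝓞 L ⧸ P) := Ideal.finiteQuotientOfFreeOfNeBot P hne
  haveI hmax' : (P.under ℤ).IsMaximal := Ideal.IsMaximal.under ℤ P
  haveI : Finite (ℤ ⧸ P.under ℤ) := hτ.finite_quotient
  letI : Fintype (ℤ ⧸ P.under ℤ) := Fintype.ofFinite _
  have hτmem : τ ∈ MulAction.stabilizer (L ≃ₐ[ℚ] L) P := hτ.mem_stabilizer
  apply le_antisymm
  · intro σ hσ
    obtain ⟨n, hn⟩ := (FiniteField.bijective_frobeniusAlgEquivOfAlgebraic_pow
      (ℤ ⧸ P.under ℤ) (𝓞 L ⧸ P)).2
      (Ideal.Quotient.stabilizerHom P (P.under ℤ) (L ≃ₐ[ℚ] L) ⟨σ, hσ⟩)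
    have hfrob : Ideal.Quotient.stabilizerHom P (P.under ℤ) (L ≃ₐ[ℚ] L) ⟨τ, hτmem⟩
        = FiniteField.frobeniusAlgEquivOfAlgebraic (ℤ ⧸ P.under ℤ) (𝓞 L ⧸ P) := by
      ext x
      obtain ⟨y, rfl⟩ := Ideal.Quotient.mk_surjective x
      rw [FiniteField.coe_frobeniusAlgEquivOfAlgebraic]
      simp only [Ideal.Quotient.stabilizerHom_apply]
      rw [← Nat.card_eq_fintype_card]
      exact hτ.mk_apply y
    have hker : Ideal.Quotient.stabilizerHom P (P.under ℤ) (L ≃ₐ[ℚ] L)
        (⟨σ, hσ⟩ * (⟨τ, hτmem⟩ ^ n.1)⁻¹) = 1 := by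
      rw [map_mul, map_inv, map_pow, hfrob]
      simp only at hn
      rw [hn, mul_inv_cancel]
    have h1 : σ * (τ ^ n.1)⁻¹ = 1 := by
      apply hI
      intro x
      have := DFunLike.congr_fun hker (Ideal.Quotient.mk P x)
      simp only [Ideal.Quotient.stabilizerHom_apply, AlgEquiv.one_apply] at this
      rw [Ideal.Quotient.eq] at this
      exact this
    rw [mul_inv_eq_one] at h1
    rw [h1]
    exact Subgroup.pow_mem _ (Subgroup.mem_zpowers τ) _
  · rw [Subgroup.zpowers_le]
    exact hτmem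

/-- Piece D with an explicit bad set: all conclusions at every prime not dividing `badNat L`. -/
theorem frob_of_not_dvd_badNat {p : ℕ} (hp : p.Prime) (hpB : ¬ p ∣ badNat L)
    (P : Ideal (𝓞 L)) (hP : P.IsPrime) (hpP : (p : 𝓞 L) ∈ P) :
    Algebra.IsUnramifiedAt ℤ P ∧ Spec.InertiaTrivial L P ∧
      ∃ τ : L ≃ₐ[ℚ] L, IsArithFrobAt ℤ τ P ∧ Spec.decomp L P = Subgroup.zpowers τ := by
  haveI := hP
  haveI hU : Algebra.IsUnramifiedAt ℤ P := isUnramifiedAt_of_not_dvd_badNat hp hpB hpP
  have hI := inertiaTrivial_of_isUnramifiedAt hp hpP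
  obtain ⟨τ, hτ⟩ := exists_isArithFrobAt hp hpP
  exact ⟨hU, hI, τ, hτ, decomp_eq_zpowers hp hpP hI hτ⟩

/-- **Piece D** of row CHEB: `Spec.FrobStatement`. -/
theorem frobStatement : Spec.FrobStatement := by
  intro L _ _ _
  refine ⟨(badNat L).primeFactors, fun p hp hpB P hP hpP => ?_⟩
  have hpB' : ¬ p ∣ badNat L := fun h =>
    hpB (Nat.mem_primeFactors.mpr ⟨hp, h, badNat_ne_zero L⟩)
  obtain ⟨-, hI, hτ⟩ := frob_of_not_dvd_badNat hp hpB' P hP hpP
  exact ⟨hI, hτ⟩

end Fermat.Agent.Lib.Cheb.H943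

end
-- ===== PACK-END Lib/Cheb/H943/Frob.lean

-- ===== PACK-BEGIN S18/H845/ConstExt.lean
section



/-!
# S18 / d1(c): extending a discrete valuation ring along a constant-field extension

`E ⊆ K ⊆ L` fields, `E` perfect, `V ⊆ K` a discrete valuation subring containing `E`, and
`L = K[algebraic constants]` (every element of `L` lies in `K[α]` for some `α` algebraic over
`E`).  Then there is a valuation subring `B` of `L` with `B ∩ K = V` which is again a discrete
valuation ring, and a uniformiser of `V` is a uniformiser of `B` (`e = 1`).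
-/

set_option autoImplicit false
set_option linter.unusedSectionVars false

namespace Fermat.Agent.S18.H845

open Polynomial IsLocalRing

section DVR

variable {L : Type*} [Field L] (B : ValuationSubring L) {ϖ : L} (hϖ0 : ϖ ≠ 0)
  (hϖ : B.valuation ϖ < 1)
  (hval : ∀ f : L, f ≠ 0 → ∃ k : ℤ, B.valuation f = B.valuation ϖ ^ k)

include hϖ in
lemma unif_mem : ϖ ∈ B := (B.valuation_le_one_iff _).mp hϖ.le

include hϖ0 in
lemma val_unif_pos : 0 < B.valuation ϖ := zero_lt_iff.mpr ((Valuation.ne_zero_iff _).mpr hϖ0)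

include hϖ0 hϖ hval in
/-- Every nonzero element of `B` is associated to a power of `ϖ`. -/
lemma associated_pow (x : B) (hx : x ≠ 0) :
    ∃ n : ℕ, Associated ((⟨ϖ, unif_mem B hϖ⟩ : B) ^ n) x := by
  have hxL : (x : L) ≠ 0 := fun h => hx (Subtype.ext h)
  obtain ⟨k, hk⟩ := hval x hxL
  have hpos := val_unif_pos B hϖ0
  have hk0 : 0 ≤ k := by
    have h1 : B.valuation (x : L) ≤ 1 := B.valuation_le_one x
    rw [hk] at h1
    exact (zpow_le_one_iff_right_of_lt_one₀ hpos hϖ).mp h1
  obtain ⟨n, rfl⟩ : ∃ n : ℕ, k = n := ⟨k.toNat, by omega⟩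
  refine ⟨n, ?_⟩
  rw [zpow_natCast] at hk
  -- the unit
  have hu : B.valuation ((x : L) / ϖ ^ n) = 1 := by
    rw [map_div₀, map_pow, hk]
    exact div_self (pow_ne_zero n hpos.ne')
  have huB : (x : L) / ϖ ^ n ∈ B := (B.valuation_le_one_iff _).mp hu.le
  have hunit : IsUnit (⟨(x : L) / ϖ ^ n, huB⟩ : B) := (B.valuation_eq_one_iff _).mpr hu
  obtain ⟨u, hu'⟩ := hunit
  refine ⟨u, ?_⟩
  apply Subtype.ext
  rw [hu']
  show ϖ ^ n * ((x : L) / ϖ ^ n) = x
  field_simp

include hϖ0 hϖ hval in
/-- `ϖ` is irreducible in `B`. -/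
lemma irreducible_unif : Irreducible (⟨ϖ, unif_mem B hϖ⟩ : B) := by
  have hpos := val_unif_pos B hϖ0
  refine ⟨?_, ?_⟩
  · intro hu
    have := (B.valuation_eq_one_iff _).mp hu
    exact absurd this hϖ.ne
  · intro a b hab
    have habL : ϖ = (a : L) * (b : L) := congrArg Subtype.val hab
    have ha0 : (a : L) ≠ 0 := fun h => hϖ0 (by rw [habL, h, zero_mul])
    have hb0 : (b : L) ≠ 0 := fun h => hϖ0 (by rw [habL, h, mul_zero])
    obtain ⟨i, hi⟩ := hval a ha0
    obtain ⟨j, hj⟩ := hval b hb0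
    have hi0 : 0 ≤ i := by
      have h1 : B.valuation (a : L) ≤ 1 := B.valuation_le_one a
      rw [hi] at h1
      exact (zpow_le_one_iff_right_of_lt_one₀ hpos hϖ).mp h1
    have hj0 : 0 ≤ j := by
      have h1 : B.valuation (b : L) ≤ 1 := B.valuation_le_one b
      rw [hj] at h1
      exact (zpow_le_one_iff_right_of_lt_one₀ hpos hϖ).mp h1
    have hsum : i + j = 1 := by
      have h1 : B.valuation ϖ ^ (1 : ℤ) = B.valuation ϖ ^ (i + j) := by
        rw [zpow_add₀ hpos.ne', ← hi, ← hj, ← map_mul, ← habL, zpow_one]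
      exact (zpow_right_injective₀ hpos hϖ.ne h1).symm
    rcases (show i = 0 ∨ j = 0 by omega) with h | h
    · left
      rw [B.valuation_eq_one_iff, hi, h, zpow_zero]
    · right
      rw [B.valuation_eq_one_iff, hj, h, zpow_zero]

include hϖ0 hϖ hval in
/-- `B` is a discrete valuation ring. -/
theorem isDiscreteValuationRing_of_val : IsDiscreteValuationRing B :=
  IsDiscreteValuationRing.ofHasUnitMulPowIrreducibleFactorization
    ⟨⟨ϖ, unif_mem B hϖ⟩, irreducible_unif B hϖ0 hϖ hval,
      fun {x} hx => associated_pow B hϖ0 hϖ hval x hx⟩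

end DVR

section Generic

variable {E K L : Type*} [Field E] [Field K] [Field L] [Algebra E K] [Algebra K L] [Algebra E L]
  [IsScalarTower E K L] [PerfectField E]

/-- Value-group statement for one valuation subring `B` of `L` dominating `V`. -/
theorem val_eq_zpow_of_dominates (V : ValuationSubring K) [IsDiscreteValuationRing V]
    (hEV : ∀ c : E, algebraMap E K c ∈ V)
    (B : ValuationSubring L) (hVB : ∀ x : K, x ∈ V → algebraMap K L x ∈ B)
    {π : V} (hπ : Irreducible π) (hπB : B.valuation (algebraMap K L (π : K)) < 1)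
    {α : L} (hα : IsAlgebraic E α) (q : K[X]) (hq : aeval α q ≠ 0) :
    ∃ k : ℤ, B.valuation (aeval α q) = B.valuation (algebraMap K L (π : K)) ^ k := by
  let _ : Algebra V L := ((algebraMap K L).comp (algebraMap V K)).toAlgebra
  have : IsScalarTower V K L := IsScalarTower.of_algebraMap_eq (fun _ => rfl)
  have hinj : Function.Injective (algebraMap V L) := by
    intro a b hab
    have h1 : algebraMap K L (a : K) = algebraMap K L (b : K) := hab
    exact Subtype.ext ((algebraMap K L).injective h1)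
  have hRB : ∀ r : V, algebraMap V L r ∈ B := fun r => hVB r r.2
  -- the polynomial
  let fEV : E →+* V := (algebraMap E K).codRestrict V hEV
  let p₀ := minpoly E α
  let p : V[X] := p₀.map fEV
  have hp : p.Monic := (minpoly.monic hα.isIntegral).map _
  have hpα : aeval α p = 0 := by
    show Polynomial.eval₂ (algebraMap V L) α (p₀.map fEV) = 0
    rw [Polynomial.eval₂_map]
    have : (algebraMap V L).comp fEV = algebraMap E L := by
      ext c
      show algebraMap K L (algebraMap E K c) = algebraMap E L c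
      rw [← IsScalarTower.algebraMap_apply]
    rw [this]
    exact minpoly.aeval E α
  have hsep : (p.map (residue V)).Separable := by
    rw [Polynomial.map_map]
    exact (PerfectField.separable_of_irreducible (minpoly.irreducible hα.isIntegral)).map
  -- clear denominators
  obtain ⟨b, hbM, hb⟩ := IsLocalization.integerNormalization_spec (nonZeroDivisors V) q
  set g := IsLocalization.integerNormalization (nonZeroDivisors V) q with hg
  have hb0 : (b : V) ≠ 0 := nonZeroDivisors.ne_zero hbM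
  have hsm : b • q = C ((b : V) : K) * q := by
    rw [← Polynomial.smul_eq_C_mul]
    rfl
  have hev : aeval α g = algebraMap K L ((b : V) : K) * aeval α q := by
    have h1 : aeval α (g.map (algebraMap V K)) = aeval α g := Polynomial.aeval_map_algebraMap K α g
    rw [← h1, hb, hsm, map_mul, aeval_C]
  have hbL : algebraMap K L ((b : V) : K) ≠ 0 := by
    intro h
    apply hb0
    have h' : ((b : V) : K) = 0 := (algebraMap K L).injective (by rw [h, map_zero])
    exact Subtype.ext h'
  have hg0 : aeval α g ≠ 0 := by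
    rw [hev]
    exact mul_ne_zero hbL hq
  obtain ⟨j, hj⟩ := val_aeval_eq_pow B hRB hπ hπB hp hpα hsep hinj g hg0
  obtain ⟨k, hk⟩ := val_algebraMap_eq_pow B hRB hπ hb0
  have hπ0 : B.valuation (algebraMap K L (π : K)) ≠ 0 := by
    rw [Valuation.ne_zero_iff]
    intro h
    have h' : (π : K) = 0 := (algebraMap K L).injective (by rw [h, map_zero])
    exact hπ.ne_zero (Subtype.ext h')
  refine ⟨(j : ℤ) - k, ?_⟩
  have e1 : B.valuation (algebraMap K L ((b : V) : K)) * B.valuation (aeval α q) =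
      B.valuation (algebraMap K L (π : K)) ^ j := by
    rw [← map_mul, ← hev]
    exact hj
  have e2 : B.valuation (algebraMap K L ((b : V) : K)) =
      B.valuation (algebraMap K L (π : K)) ^ k := hk
  rw [e2] at e1
  rw [zpow_sub₀ hπ0, zpow_natCast, zpow_natCast, ← e1]
  field_simp


omit [PerfectField E] [Algebra E K] [Algebra E L] [IsScalarTower E K L] in
/-- A valuation subring of `L` dominating the valuation subring `V` of `K`. -/
theorem exists_dominating (V : ValuationSubring K) :
    ∃ B : ValuationSubring L, B.comap (algebraMap K L) = V ∧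
      ∀ x : V, ¬ IsUnit x → B.valuation (algebraMap K L (x : K)) < 1 := by
  let f : V →+* L := (algebraMap K L).comp V.subtype
  obtain ⟨B, hB, hloc⟩ := IsLocalRing.exists_factor_valuationRing f
  have hnon : ∀ x : V, ¬ IsUnit x → B.valuation (algebraMap K L (x : K)) < 1 := by
    intro x hx
    have hx' : ¬ IsUnit (⟨f x, hB x⟩ : B) := fun h => hx (hloc.map_nonunit x h)
    have hmem : (⟨f x, hB x⟩ : B) ∈ maximalIdeal B :=
      (mem_maximalIdeal _).mpr hx'
    exact (B.valuation_lt_one_iff _).mp hmem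
  refine ⟨B, ?_, hnon⟩
  ext x
  rw [ValuationSubring.mem_comap]
  constructor
  · intro hxB
    by_contra hxV
    have hx0 : x ≠ 0 := fun h => hxV (h ▸ V.zero_mem)
    have hinv : x⁻¹ ∈ V := (V.mem_or_inv_mem x).resolve_left hxV
    have hnu : ¬ IsUnit (⟨x⁻¹, hinv⟩ : V) := by
      intro hu
      obtain ⟨u, hu⟩ := hu
      apply hxV
      have : x = ((u⁻¹ : Vˣ) : V) := by
        have h1 : ((u : V) : K) = x⁻¹ := congrArg Subtype.val hu
        have h2 : ((u : V) : K) * ((u⁻¹ : Vˣ) : V) = 1 := by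
          exact congrArg Subtype.val (Units.mul_inv u)
        rw [h1] at h2
        field_simp at h2
        exact h2.symm
      rw [this]
      exact Subtype.mem _
    have hlt := hnon ⟨x⁻¹, hinv⟩ hnu
    have hle : B.valuation (algebraMap K L x) ≤ 1 := (B.valuation_le_one_iff _).mpr hxB
    have hmul : B.valuation (algebraMap K L x⁻¹) * B.valuation (algebraMap K L x) = 1 := by
      rw [← map_mul, ← map_mul, inv_mul_cancel₀ hx0, map_one, map_one]
    have : B.valuation (algebraMap K L x⁻¹) * B.valuation (algebraMap K L x) < 1 :=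
      mul_lt_one_of_lt_of_le hlt hle
    exact absurd hmul this.ne
  · intro hxV
    exact hB ⟨x, hxV⟩

/-- If `B` dominates `V` and `L = K[algebraic constants]`, every nonzero element of `L` has
valuation an integral power of the valuation of a uniformiser of `V`. -/
theorem val_eq_zpow (V : ValuationSubring K) [IsDiscreteValuationRing V]
    (hEV : ∀ c : E, algebraMap E K c ∈ V)
    (hL : ∀ f : L, ∃ α : L, IsAlgebraic E α ∧ f ∈ Algebra.adjoin K {α})
    (B : ValuationSubring L) (hcomap : B.comap (algebraMap K L) = V)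
    (hdom : ∀ x : V, ¬ IsUnit x → B.valuation (algebraMap K L (x : K)) < 1)
    {π : V} (hπ : Irreducible π) {f : L} (hf : f ≠ 0) :
    ∃ k : ℤ, B.valuation f = B.valuation (algebraMap K L (π : K)) ^ k := by
  obtain ⟨α, hα, hfα⟩ := hL f
  rw [Algebra.adjoin_singleton_eq_range_aeval] at hfα
  obtain ⟨q, rfl⟩ := hfα
  have hVB : ∀ x : K, x ∈ V → algebraMap K L x ∈ B := fun x hx => by
    rw [← hcomap] at hx
    exact hx
  exact val_eq_zpow_of_dominates V hEV B hVB hπ (hdom π hπ.not_isUnit) hα q hf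

/-- **d1(c), generic form.**  A discrete valuation ring `V` of `K` containing the perfect field
`E` extends to a discrete valuation ring `B` of `L = K(algebraic constants)` with `B ∩ K = V`,
containing all algebraic constants, in which every uniformiser of `V` stays a uniformiser. -/
theorem exists_dvr_extension (V : ValuationSubring K) [IsDiscreteValuationRing V]
    (hEV : ∀ c : E, algebraMap E K c ∈ V)
    (hgen : IntermediateField.adjoin K {α : L | IsAlgebraic E α} = ⊤) :
    ∃ B : ValuationSubring L, B.comap (algebraMap K L) = V ∧ IsDiscreteValuationRing B ∧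
      (∀ α : L, IsAlgebraic E α → α ∈ B) ∧
      (∀ π : V, Irreducible π →
        ∃ h : algebraMap K L (π : K) ∈ B, Irreducible (⟨algebraMap K L (π : K), h⟩ : B)) ∧
      (∀ π : V, Irreducible π → ∀ f : L, f ≠ 0 →
        ∃ k : ℤ, B.valuation f = B.valuation (algebraMap K L (π : K)) ^ k) := by
  obtain ⟨B, hcomap, hdom⟩ := exists_dominating (L := L) V
  have hL := exists_mem_adjoin_singleton (E := E) (K := K) (L := L) hgen
  have hval : ∀ π : V, Irreducible π → ∀ f : L, f ≠ 0 →
      ∃ k : ℤ, B.valuation f = B.valuation (algebraMap K L (π : K)) ^ k :=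
    fun π hπ f hf => val_eq_zpow V hEV hL B hcomap hdom hπ hf
  have hπ0 : ∀ π : V, Irreducible π → algebraMap K L (π : K) ≠ 0 := by
    intro π hπ h
    have h' : (π : K) = 0 := (algebraMap K L).injective (by rw [h, map_zero])
    exact hπ.ne_zero (Subtype.ext h')
  obtain ⟨π, hπ⟩ := IsDiscreteValuationRing.exists_irreducible V
  refine ⟨B, hcomap,
    isDiscreteValuationRing_of_val B (hπ0 π hπ) (hdom π hπ.not_isUnit) (hval π hπ), ?_, ?_, hval⟩
  · intro α hα
    have hEB : ∀ c : E, algebraMap E L c ∈ B := by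
      intro c
      rw [IsScalarTower.algebraMap_apply E K L]
      have : algebraMap E K c ∈ B.comap (algebraMap K L) := by rw [hcomap]; exact hEV c
      exact this
    exact mem_of_monic_root B hEB (minpoly.monic hα.isIntegral) (minpoly.aeval E α)
  · intro π' hπ'
    exact ⟨unif_mem B (hdom π' hπ'.not_isUnit),
      irreducible_unif B (hπ0 π' hπ') (hdom π' hπ'.not_isUnit) (hval π' hπ')⟩

end Generic


end Fermat.Agent.S18.H845

end
-- ===== PACK-END S18/H845/ConstExt.lean

-- ===== PACK-BEGIN S24/Deg/H648Height.lean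
section


/-!
# S24 / M6-AN (helper648): the height lemma and `τ ↦ J (d τ) ∈ goodRing N`

No Hermite normal form is needed: an integer matrix of determinant `d` maps `{im τ ≥ 1}` into
`{im ≤ d · im τ}`.
-/

set_option autoImplicit false

noncomputable section

open UpperHalfPlane ModularGroup CongruenceSubgroup Polynomial
open scoped MatrixGroups Manifold Modular Real

namespace Fermat.Agent.S24.H648

/-- A nonzero integral linear form in `τ` with `im τ ≥ 1` has absolute value at least `1`. -/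
lemma one_le_normSq_int_linear (c e : ℤ) (τ : ℍ) (hτ : 1 ≤ τ.im)
    (h : (c : ℂ) * τ + e ≠ 0) : 1 ≤ Complex.normSq ((c : ℂ) * τ + e) := by
  have hval : Complex.normSq ((c : ℂ) * τ + e) = (c * τ.re + e) ^ 2 + (c * τ.im) ^ 2 := by
    rw [Complex.normSq_apply]
    simp [pow_two]
  rw [hval]
  by_cases hc : c = 0
  · subst hc
    have he : e ≠ 0 := by
      rintro rfl
      simp at h
    have he1 : (1 : ℝ) ≤ (e : ℝ) ^ 2 := by
      have : (1 : ℤ) ≤ e ^ 2 := by
        have := Int.one_le_abs he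
        nlinarith [abs_nonneg e, sq_abs e]
      exact_mod_cast this
    simpa using he1
  · have hc1 : (1 : ℝ) ≤ (c : ℝ) ^ 2 := by
      have : (1 : ℤ) ≤ c ^ 2 := by
        have := Int.one_le_abs hc
        nlinarith [abs_nonneg c, sq_abs c]
      exact_mod_cast this
    have h1 : (1 : ℝ) ≤ (c * τ.im) ^ 2 := by
      rw [mul_pow]
      have : (1 : ℝ) ≤ τ.im ^ 2 := by nlinarith
      nlinarith
    nlinarith [sq_nonneg ((c : ℝ) * τ.re + e)]

/-- **Height lemma.** -/
lemma im_smul_scale_le (γ g : SL(2, ℤ)) (d : ℕ) (τ w : ℍ)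
    (hw : (w : ℂ) = d * ((g • τ : ℍ) : ℂ)) (hτ : 1 ≤ τ.im) :
    (γ • w).im ≤ d * τ.im := by
  have hwim : w.im = d * (g • τ).im := by
    have := congrArg Complex.im hw
    simpa using this
  have hgτ : ((g • τ : ℍ) : ℂ) * denom g τ = num g τ := by
    have h1 : ((g • τ : ℍ) : ℂ) = num g τ / denom g τ := by
      rw [sl_moeb, coe_smul_of_det_pos (by simp)]
    rw [h1, div_mul_cancel₀ _ (denom_ne_zero _ τ)]
  have hprod : denom γ w * denom g τ
      = ((γ 1 0 * d * g 0 0 + γ 1 1 * g 1 0 : ℤ) : ℂ) * τ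
        + ((γ 1 0 * d * g 0 1 + γ 1 1 * g 1 1 : ℤ) : ℂ) := by
    have e1 : denom γ w = (γ 1 0 : ℂ) * w + γ 1 1 := by
      simp [denom]
    have e2 : denom g τ = (g 1 0 : ℂ) * τ + g 1 1 := by
      simp [denom]
    have e3 : num g τ = (g 0 0 : ℂ) * τ + g 0 1 := by
      simp [num]
    rw [e1, hw, add_mul]
    have : (γ 1 0 : ℂ) * (d * ((g • τ : ℍ) : ℂ)) * denom g τ
        = (γ 1 0 : ℂ) * d * (((g • τ : ℍ) : ℂ) * denom g τ) := by ring
    rw [this, hgτ, e3, e2]
    push_cast
    ring
  have hne : denom γ w * denom g τ ≠ 0 :=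
    mul_ne_zero (denom_ne_zero _ w) (denom_ne_zero _ τ)
  have hge : 1 ≤ Complex.normSq (denom γ w * denom g τ) := by
    rw [hprod] at hne ⊢
    exact one_le_normSq_int_linear _ _ τ hτ hne
  rw [ModularGroup.im_smul_eq_div_normSq, hwim, ModularGroup.im_smul_eq_div_normSq]
  rw [Complex.normSq_mul] at hge
  have h1 : 0 < Complex.normSq (denom g τ) := Complex.normSq_pos.mpr (denom_ne_zero _ τ)
  have h2 : 0 < Complex.normSq (denom γ w) := Complex.normSq_pos.mpr (denom_ne_zero _ w)
  have hd : (0 : ℝ) ≤ d * τ.im := by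
    have := τ.im_pos
    positivity
  have hAB : 1 ≤ Complex.normSq (denom g τ) * Complex.normSq (denom γ w) := by
    rw [mul_comm]; exact hge
  calc (d : ℝ) * (τ.im / Complex.normSq (denom g τ)) / Complex.normSq (denom γ w)
      = (d * τ.im) / (Complex.normSq (denom g τ) * Complex.normSq (denom γ w)) := by
        field_simp
    _ ≤ d * τ.im := div_le_self hd hAB


/-- Points of the fundamental domain have imaginary part `≥ 1/2`. -/
lemma half_le_im_of_mem_fd {τ : ℍ} (h : τ ∈ 𝒟) : 1 / 2 ≤ τ.im := by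
  have h1 := ModularGroup.three_le_four_mul_im_sq_of_mem_fd h
  have h2 := τ.im_pos
  nlinarith

section JScale

variable {J : ℍ → ℂ}

/-- Growth of all `SL₂(ℤ)`-translates of `τ ↦ J (d τ)`, from a bound for `J` on the fundamental
domain. -/
lemma expGrowth_J_scale (hJinv : ∀ (γ : SL(2, ℤ)) (τ : ℍ), J (γ • τ) = J τ)
    (hJfd : ∃ C : ℝ, ∀ τ : ℍ, τ ∈ 𝒟 → ‖J τ‖ ≤ C * Real.exp (2 * π * τ.im))
    (d : ℕ) (s : ℍ → ℍ) (hs : ∀ τ : ℍ, (s τ : ℂ) = d * τ) (g : SL(2, ℤ)) :
    ExpGrowth (fun τ => J (s (g • τ))) := by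
  obtain ⟨C, hC⟩ := hJfd
  refine ⟨|C|, d, fun τ hτ => ?_⟩
  obtain ⟨γ, hγ⟩ := ModularGroup.exists_smul_mem_fd (s (g • τ))
  have h1 : J (s (g • τ)) = J (γ • s (g • τ)) := (hJinv γ _).symm
  have h2 := hC _ hγ
  have h3 : (γ • s (g • τ)).im ≤ d * τ.im := im_smul_scale_le γ g d τ _ (hs _) hτ
  show ‖J (s (g • τ))‖ ≤ _
  rw [h1]
  refine h2.trans ?_
  have h4 : Real.exp (2 * π * (γ • s (g • τ)).im) ≤ Real.exp (2 * π * d * τ.im) := by
    apply Real.exp_le_exp.mpr
    have := Real.pi_pos
    nlinarith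
  calc C * Real.exp (2 * π * (γ • s (g • τ)).im)
      ≤ |C| * Real.exp (2 * π * (γ • s (g • τ)).im) := by
        gcongr
        exact le_abs_self C
    _ ≤ |C| * Real.exp (2 * π * d * τ.im) := by gcongr

/-- `τ ↦ J (d τ)` is holomorphic. -/
lemma mdifferentiable_J_scale (hJ : MDifferentiable 𝓘(ℂ) 𝓘(ℂ) J)
    (d : ℕ) (hd : 0 < d) (s : ℍ → ℍ) (hs : ∀ τ : ℍ, (s τ : ℂ) = d * τ) :
    MDifferentiable 𝓘(ℂ) 𝓘(ℂ) (fun τ => J (s τ)) := by
  rw [UpperHalfPlane.mdifferentiable_iff] at hJ ⊢
  have hmaps : Set.MapsTo (fun z : ℂ => (d : ℂ) * z) {z | 0 < z.im} {z | 0 < z.im} := by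
    intro z hz
    simp only [Set.mem_ofPred_eq] at hz ⊢
    have : ((d : ℂ) * z).im = d * z.im := by simp
    rw [this]
    positivity
  have hcomp : DifferentiableOn ℂ ((J ∘ ofComplex) ∘ fun z : ℂ => (d : ℂ) * z) {z | 0 < z.im} :=
    hJ.comp (by fun_prop) hmaps
  refine hcomp.congr fun z hz => ?_
  simp only [Set.mem_ofPred_eq] at hz
  have hz' : 0 < ((d : ℂ) * z).im := hmaps hz
  simp only [Function.comp_apply]
  congr 1
  apply UpperHalfPlane.ext
  rw [hs, ofComplex_apply_of_im_pos hz, ofComplex_apply_of_im_pos hz']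

/-- For `d ∣ N` and `γ ∈ Γ₀(N)` there is `γ' ∈ SL₂(ℤ)` with `d (γ τ) = γ' (d τ)`. -/
lemma exists_smul_scale_eq {N : ℕ} (d : ℕ) (hd : 0 < d) (hdN : d ∣ N) (γ : SL(2, ℤ))
    (hγ : γ ∈ Gamma0 N) :
    ∃ γ' : SL(2, ℤ), ∀ τ w w' : ℍ, (w : ℂ) = d * τ → (w' : ℂ) = d * ((γ • τ : ℍ) : ℂ) →
      γ' • w = w' := by
  have hN : (N : ℤ) ∣ γ 1 0 := by
    rw [Gamma0_mem] at hγ
    exact (ZMod.intCast_zmod_eq_zero_iff_dvd _ _).mp hγ
  have hdc : (d : ℤ) ∣ γ 1 0 := (Int.natCast_dvd_natCast.mpr hdN).trans hN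
  obtain ⟨k, hk⟩ := hdc
  have hdet : γ 0 0 * γ 1 1 - γ 0 1 * γ 1 0 = 1 := by
    have := γ.det_coe
    rw [Matrix.det_fin_two] at this
    exact this
  have hdet' : (!![γ 0 0, γ 0 1 * d; k, γ 1 1] : Matrix (Fin 2) (Fin 2) ℤ).det = 1 := by
    rw [Matrix.det_fin_two_of]
    rw [hk] at hdet
    linear_combination hdet
  set γ' : SL(2, ℤ) := ⟨!![γ 0 0, γ 0 1 * d; k, γ 1 1], hdet'⟩ with hγ'def
  have e00 : γ' 0 0 = γ 0 0 := rfl
  have e01 : γ' 0 1 = γ 0 1 * d := rfl
  have e10 : γ' 1 0 = k := rfl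
  have e11 : γ' 1 1 = γ 1 1 := rfl
  refine ⟨γ', fun τ w w' hw hw' => ?_⟩
  apply UpperHalfPlane.ext
  rw [hw', coe_specialLinearGroup_apply γ τ, coe_specialLinearGroup_apply γ' w, hw, e00, e01,
    e10, e11]
  simp only [algebraMap_int_eq, Int.coe_castRingHom, Complex.ofReal_intCast]
  have hden : ((γ 1 0 : ℤ) : ℂ) * τ + ((γ 1 1 : ℤ) : ℂ) ≠ 0 := by
    have := denom_ne_zero (γ : GL (Fin 2) ℝ) τ
    simpa [denom] using this
  have hd0 : (d : ℂ) ≠ 0 := by exact_mod_cast hd.ne'
  have hk' : ((γ 1 0 : ℤ) : ℂ) = d * k := by rw [hk]; push_cast; ring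
  have hden' : (k : ℂ) * (d * τ) + ((γ 1 1 : ℤ) : ℂ) ≠ 0 := by
    have : (k : ℂ) * (d * τ) + ((γ 1 1 : ℤ) : ℂ) = ((γ 1 0 : ℤ) : ℂ) * τ + ((γ 1 1 : ℤ) : ℂ) := by
      rw [hk']; ring
    rw [this]; exact hden
  rw [div_eq_iff hden', mul_div_assoc', div_mul_eq_mul_div, eq_div_iff hden, hk']
  push_cast
  ring

variable (N : ℕ)

/-- **`τ ↦ J (d τ)` is a good function of level `N` for `d ∣ N`.** -/
theorem J_scale_mem_goodRing (hJ : MDifferentiable 𝓘(ℂ) 𝓘(ℂ) J)
    (hJinv : ∀ (γ : SL(2, ℤ)) (τ : ℍ), J (γ • τ) = J τ)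
    (hJfd : ∃ C : ℝ, ∀ τ : ℍ, τ ∈ 𝒟 → ‖J τ‖ ≤ C * Real.exp (2 * π * τ.im))
    (d : ℕ) (hd : 0 < d) (hdN : d ∣ N) (s : ℍ → ℍ) (hs : ∀ τ : ℍ, (s τ : ℂ) = d * τ) :
    (fun τ => J (s τ)) ∈ goodRing N := by
  refine ⟨mdifferentiable_J_scale hJ d hd s hs, fun γ hγ τ => ?_,
    fun g => expGrowth_J_scale hJinv hJfd d s hs g⟩
  obtain ⟨γ', hγ'⟩ := exists_smul_scale_eq d hd hdN γ hγ
  show J (s (γ • τ)) = J (s τ)
  rw [← hγ' τ (s τ) (s (γ • τ)) (hs τ) (hs _), hJinv]

end JScale

end Fermat.Agent.S24.H648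

end
end
-- ===== PACK-END S24/Deg/H648Height.lean

-- ===== PACK-BEGIN S24/FFPoint.lean
section




/-!
# S24 / FF layer: the point of `P^1` below a place, residue degree one

Embedding-free algebraic core (helper804).
-/

set_option autoImplicit false

namespace Fermat.Agent.S24.FF

open AlgebraicCurve Polynomial IntermediateField

variable {K F : Type*} [Field K] [Field F] [Algebra K F]

/-- `ord` of a product of a multiset of nonzero elements with `ord = 0` is `0`. -/
theorem ord_multiset_prod_eq_zero (v : Place K F) (s : Multiset F)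
    (h : ∀ y ∈ s, y ≠ 0 ∧ v.ord y = 0) : s.prod ≠ 0 ∧ v.ord s.prod = 0 := by
  induction s using Multiset.induction_on with
  | empty => simp
  | cons a s ih =>
    have ha := h a (Multiset.mem_cons_self a s)
    have hs := ih (fun y hy => h y (Multiset.mem_cons_of_mem hy))
    rw [Multiset.prod_cons]
    refine ⟨mul_ne_zero ha.1 hs.1, ?_⟩
    rw [v.ord_mul ha.1 hs.1, ha.2, hs.2, add_zero]

/-- If `x` is integral at `v` and no `x - a` vanishes at `v`, every nonzero polynomial
expression in `x` is a unit at `v`. -/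
theorem ord_aeval_eq_zero [IsAlgClosed K] (v : Place K F) (x : F) (hx : 0 ≤ v.ord x)
    (hno : ∀ a : K, ¬ 0 < v.ord (x - algebraMap K F a)) (p : K[X]) (hp : aeval x p ≠ 0) :
    v.ord (aeval x p) = 0 := by
  have hsplit := IsAlgClosed.splits p
  have hp0 : p ≠ 0 := by
    rintro rfl
    simp at hp
  have hprod := hsplit.eq_prod_roots
  have hval : aeval x p = algebraMap K F p.leadingCoeff *
      ((p.roots.map fun a => x - algebraMap K F a)).prod := by
    conv_lhs => rw [hprod]
    simp [aeval_def, eval₂_mul, Polynomial.eval₂_multiset_prod, Multiset.map_map, Function.comp_def]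
  rw [hval] at hp ⊢
  have hc : algebraMap K F p.leadingCoeff ≠ 0 := left_ne_zero_of_mul hp
  have hr : ((p.roots.map fun a => x - algebraMap K F a)).prod ≠ 0 := right_ne_zero_of_mul hp
  have key := ord_multiset_prod_eq_zero v (p.roots.map fun a => x - algebraMap K F a) (by
    intro y hy
    obtain ⟨a, -, rfl⟩ := Multiset.mem_map.mp hy
    have hne : x - algebraMap K F a ≠ 0 := by
      intro h0
      apply hr
      rw [Multiset.prod_eq_zero_iff]
      exact h0 ▸ hy
    refine ⟨hne, ?_⟩
    have h1 : 0 ≤ v.ord (x - algebraMap K F a) :=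
      ord_nonneg_of_mem v (sub_mem (mem_of_ord_nonneg v hx) (v.algebraMap_mem' a))
    have h2 := hno a
    omega)
  rw [v.ord_mul hc hr, _root_.Fermat.Agent.S24.FF.ord_algebraMap, key.2, add_zero]

/-- **FF4, existence.** If `F` is algebraic over `K(x)` and `x` is integral at the place `v`,
then `v` lies over a finite point `a` of the `x`-line. -/
theorem exists_ord_sub_pos [IsAlgClosed K] (v : Place K F) (x : F)
    [halg : Algebra.IsAlgebraic K⟮x⟯ F] (hx : 0 ≤ v.ord x) :
    ∃ a : K, 0 < v.ord (x - algebraMap K F a) := by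
  by_contra hno
  rw [not_exists] at hno
  apply v.ne_top'
  -- `K(x) ⊆ O_v`
  have hsub : ∀ y ∈ K⟮x⟯, y ∈ v.toValuationSubring := by
    intro y hy
    obtain ⟨r, s, rfl⟩ := (mem_adjoin_simple_iff K y).mp hy
    rcases eq_or_ne (aeval x s) 0 with hs | hs
    · rw [hs, div_zero]; exact zero_mem _
    rcases eq_or_ne (aeval x r) 0 with hr | hr
    · rw [hr, zero_div]; exact zero_mem _
    apply mem_of_ord_nonneg v
    rw [div_eq_mul_inv, v.ord_mul hr (inv_ne_zero hs), v.ord_inv,
      ord_aeval_eq_zero v x hx hno r hr, ord_aeval_eq_zero v x hx hno s hs]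
    simp
  -- hence every element of `F` is integral over `O_v`
  let φ : K⟮x⟯ →+* v.toValuationSubring :=
    { toFun := fun y => ⟨y, hsub y y.2⟩
      map_one' := rfl
      map_mul' := fun _ _ => rfl
      map_zero' := rfl
      map_add' := fun _ _ => rfl }
  refine SetLike.ext fun f => ⟨fun _ => ValuationSubring.mem_top f, fun _ => ?_⟩
  have hint : IsIntegral K⟮x⟯ f := (halg.isAlgebraic f).isIntegral
  have hint' : IsIntegral v.toValuationSubring f := by
    obtain ⟨p, hpm, hp⟩ := hint
    refine ⟨p.map φ, hpm.map φ, ?_⟩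
    rw [← hp, Polynomial.eval₂_map]
    rfl
  obtain ⟨y, hy⟩ := IsIntegrallyClosed.isIntegral_iff.mp hint'
  rw [← hy]
  exact y.2

/-- **FF4, uniqueness.** -/
theorem ord_sub_pos_unique (v : Place K F) (x : F) {a b : K}
    (ha : 0 < v.ord (x - algebraMap K F a)) (hb : 0 < v.ord (x - algebraMap K F b)) : a = b := by
  by_contra hab
  have hne : algebraMap K F (b - a) ≠ 0 := by
    rw [Ne, map_eq_zero_iff _ (algebraMap K F).injective, sub_eq_zero]
    exact fun h => hab h.symm
  have h0 := _root_.Fermat.Agent.S24.FF.ord_algebraMap v (b - a)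
  have hsum : (x - algebraMap K F a) + (-(x - algebraMap K F b)) = algebraMap K F (b - a) := by
    rw [map_sub]; ring
  have hxa : x - algebraMap K F a ≠ 0 := by
    intro h; rw [h, v.ord_zero] at ha; exact lt_irrefl _ ha
  have hxb : x - algebraMap K F b ≠ 0 := by
    intro h; rw [h, v.ord_zero] at hb; exact lt_irrefl _ hb
  have hneg : v.ord (-(x - algebraMap K F b)) = v.ord (x - algebraMap K F b) := by
    rw [neg_eq_neg_one_mul, v.ord_mul (neg_ne_zero.mpr one_ne_zero) hxb]
    have : v.ord (-1 : F) = 0 := by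
      have := _root_.Fermat.Agent.S24.FF.ord_algebraMap v (-1 : K)
      simpa using this
    rw [this, zero_add]
  have := ord_add_ge v (f := x - algebraMap K F a) (g := -(x - algebraMap K F b))
    (by rw [hsum]; exact hne)
  rw [hsum, h0, hneg] at this
  have := min_le_iff.mp this
  omega

end Fermat.Agent.S24.FF

end
-- ===== PACK-END S24/FFPoint.lean

-- ===== PACK-BEGIN S24/H117/PlaceBasic.lean
section


/-!
# S24 / H117 — basic API for `AlgebraicCurve.Place.ord`

Elementary facts about the order function of a place (membership, ultrametric inequality,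
constants), re-proved here because the Prelude versions are private.
-/

set_option autoImplicit false

noncomputable section

open AlgebraicCurve

namespace Fermat.Agent.S24.H117

variable {K F : Type*} [Field K] [Field F] [Algebra K F] (v : Place K F)

theorem ord_nonneg_of_mem {f : F} (hf : f ∈ v.toValuationSubring) : 0 ≤ v.ord f := by
  rcases eq_or_ne f 0 with rfl | hf0
  · simp
  obtain ⟨π, hπ⟩ := IsDiscreteValuationRing.exists_irreducible v.toValuationSubring
  obtain ⟨n, u, hu⟩ :=
    IsDiscreteValuationRing.eq_unit_mul_pow_irreducible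
      (x := (⟨f, hf⟩ : v.toValuationSubring)) (by simpa [Subtype.ext_iff] using hf0) hπ
  have hcoe : f = ((u : v.toValuationSubring) : F) * ((π : F) ^ (n : ℤ)) := by
    have h := congrArg (Subtype.val) hu
    push_cast at h
    rw [zpow_natCast]
    exact h
  rw [hcoe, v.ord_unit_smul_zpow u hπ (n : ℤ)]
  exact Int.natCast_nonneg n

theorem mem_of_ord_nonneg {f : F} (h : 0 ≤ v.ord f) : f ∈ v.toValuationSubring := by
  rcases eq_or_ne f 0 with rfl | hf
  · exact zero_mem _
  obtain ⟨π, hπ⟩ := IsDiscreteValuationRing.exists_irreducible v.toValuationSubring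
  obtain ⟨u, hu⟩ := v.exists_unit_mul_zpow hf hπ
  rw [hu, show v.ord f = (((v.ord f).toNat : ℕ) : ℤ) from (Int.toNat_of_nonneg h).symm,
    zpow_natCast]
  exact mul_mem (u : v.toValuationSubring).2 (pow_mem (π : v.toValuationSubring).2 _)

theorem mem_iff_ord_nonneg {f : F} : f ∈ v.toValuationSubring ↔ 0 ≤ v.ord f :=
  ⟨ord_nonneg_of_mem v, mem_of_ord_nonneg v⟩

theorem exists_ord_eq_one : ∃ π : F, π ≠ 0 ∧ v.ord π = 1 := by
  obtain ⟨π, hπ⟩ := IsDiscreteValuationRing.exists_irreducible v.toValuationSubring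
  refine ⟨(π : F), ?_, v.ord_coe_irreducible hπ⟩
  simpa [ne_eq, ZeroMemClass.coe_eq_zero] using hπ.ne_zero

theorem ord_algebraMap (c : K) : v.ord (algebraMap K F c) = 0 := by
  rcases eq_or_ne c 0 with rfl | hc
  · simp
  have h1 : 0 ≤ v.ord (algebraMap K F c) := ord_nonneg_of_mem v (v.algebraMap_mem' c)
  have h2 : 0 ≤ v.ord (algebraMap K F c⁻¹) := ord_nonneg_of_mem v (v.algebraMap_mem' c⁻¹)
  rw [map_inv₀, v.ord_inv] at h2
  omega

theorem ord_neg (f : F) : v.ord (-f) = v.ord f := by
  simp [Place.ord, Valuation.map_neg]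

theorem ord_add_ge {f g : F} (hfg : f + g ≠ 0) : min (v.ord f) (v.ord g) ≤ v.ord (f + g) := by
  rcases eq_or_ne f 0 with rfl | hf
  · simp
  rcases eq_or_ne g 0 with rfl | hg
  · simp
  -- wlog ord f ≤ ord g
  wlog hle : v.ord f ≤ v.ord g generalizing f g
  · have := this (f := g) (g := f) (by rwa [add_comm]) hg hf (le_of_not_ge hle)
    rwa [min_comm, add_comm]
  rw [min_eq_left hle]
  have hq : g / f ∈ v.toValuationSubring := by
    apply mem_of_ord_nonneg
    rw [div_eq_mul_inv, v.ord_mul hg (inv_ne_zero hf), v.ord_inv]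
    omega
  have h1 : (1 + g / f) ∈ v.toValuationSubring := add_mem (one_mem _) hq
  have h1ne : (1 + g / f) ≠ 0 := by
    intro h0
    apply hfg
    have : f * (1 + g / f) = f + g := by field_simp
    rw [← this, h0, mul_zero]
  have : f + g = f * (1 + g / f) := by field_simp
  rw [this, v.ord_mul hf h1ne]
  have := ord_nonneg_of_mem v h1
  omega

theorem ord_add_eq_of_lt {f g : F} (h : v.ord f < v.ord g) (hf : f ≠ 0) :
    v.ord (f + g) = v.ord f := by
  rcases eq_or_ne g 0 with rfl | hg
  · simp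
  have hfg : f + g ≠ 0 := by
    intro h0
    have : g = -f := eq_neg_of_add_eq_zero_right h0
    rw [this, _root_.Fermat.Agent.S24.H117.ord_neg] at h
    exact lt_irrefl _ h
  apply le_antisymm
  · by_contra hlt
    push Not at hlt
    have h2 : min (v.ord (f + g)) (v.ord (-g)) ≤ v.ord ((f + g) + -g) :=
      ord_add_ge v (by simpa using hf)
    rw [add_neg_cancel_right, _root_.Fermat.Agent.S24.H117.ord_neg] at h2
    have : v.ord f < min (v.ord (f + g)) (v.ord g) := lt_min hlt h
    omega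
  · have := ord_add_ge v hfg
    rwa [min_eq_left h.le] at this

theorem ord_pow (f : F) (n : ℕ) : v.ord (f ^ n) = n * v.ord f := by
  have := v.ord_zpow f (n : ℤ)
  rwa [zpow_natCast] at this

theorem ord_div {f g : F} (hf : f ≠ 0) (hg : g ≠ 0) : v.ord (f / g) = v.ord f - v.ord g := by
  rw [div_eq_mul_inv, v.ord_mul hf (inv_ne_zero hg), v.ord_inv]; ring

theorem ne_zero_of_ord_ne_zero {f : F} (h : v.ord f ≠ 0) : f ≠ 0 := by
  rintro rfl
  exact h v.ord_zero

/-- Two places with the same non-negative-order elements are equal. -/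
theorem place_ext_of_le {v w : Place K F}
    (h : ∀ f : F, 0 ≤ v.ord f → 0 ≤ w.ord f) : v = w := by
  apply Place.ext
  have hle : v.toValuationSubring ≤ w.toValuationSubring := fun f hf =>
    mem_of_ord_nonneg w (h f (ord_nonneg_of_mem v hf))
  refine le_antisymm hle ?_
  intro f hf
  by_contra hfv
  have hf0 : f ≠ 0 := fun h0 => hfv (h0 ▸ zero_mem _)
  have hvf : v.ord f < 0 := by
    by_contra hge
    exact hfv (mem_of_ord_nonneg v (not_lt.mp hge))
  -- then `f⁻¹` has positive order at `v`, and every element is `u * (f⁻¹)^n`-bounded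
  obtain ⟨g, hg0, hg⟩ : ∃ g : F, g ≠ 0 ∧ w.ord g < 0 := by
    by_contra hcon
    push Not at hcon
    apply w.ne_top'
    refine SetLike.ext fun x => ⟨fun _ => ValuationSubring.mem_top x, fun _ => ?_⟩
    rcases eq_or_ne x 0 with rfl | hx
    · exact zero_mem _
    · exact mem_of_ord_nonneg w (hcon x hx)
  -- choose n with ord_v (g * f⁻¹ ^ n) ≥ 0
  have hfinv : 0 < v.ord f⁻¹ := by rw [v.ord_inv]; omega
  obtain ⟨n, hn⟩ : ∃ n : ℕ, 0 ≤ v.ord (g * f⁻¹ ^ n) := by
    refine ⟨(-v.ord g).toNat, ?_⟩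
    rw [v.ord_mul hg0 (pow_ne_zero _ (inv_ne_zero hf0)), ord_pow]
    have : (0:ℤ) ≤ ((-v.ord g).toNat : ℤ) := Int.natCast_nonneg _
    have h2 : -v.ord g ≤ ((-v.ord g).toNat : ℤ) := Int.self_le_toNat _
    nlinarith
  have hw := h _ hn
  rw [w.ord_mul hg0 (pow_ne_zero _ (inv_ne_zero hf0)), ord_pow, w.ord_inv] at hw
  have hwf : 0 ≤ w.ord f := ord_nonneg_of_mem w hf
  have : (n : ℤ) * -w.ord f ≤ 0 := by
    have : (0:ℤ) ≤ n := Int.natCast_nonneg _
    nlinarith
  omega

end Fermat.Agent.S24.H117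

end
end
-- ===== PACK-END S24/H117/PlaceBasic.lean

-- ===== PACK-BEGIN S24/D5/H108Growth.lean
section


/-!
# D5: growth adapters and uniqueness for the polynomial principle

Mathlib-only (plus `H108Poly`).  Namespace `Fermat.Agent.S24.H108`.
-/

noncomputable section

open UpperHalfPlane ModularForm SlashInvariantForm SlashInvariantFormClass ModularFormClass
  CuspFormClass MatrixGroups OnePoint Filter EisensteinSeries Asymptotics

open scoped Topology Manifold Real

namespace Fermat.Agent.S24.H108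

local notation "Δ" => ModularForm.discriminant

/-! ### Growth of `Δ` at `i∞` -/

lemma discriminant_isBigO_exp :
    (Δ : ℍ → ℂ) =O[atImInfty] fun τ : ℍ => Real.exp (-(2 * π * τ.im)) := by
  have h := CuspFormClass.exp_decay_atImInfty (h := 1) CuspForm.discriminant one_pos
    one_mem_strictPeriods_SL
  refine h.congr_right fun τ => ?_
  congr 1
  ring

lemma discriminant_pow_isBigO_exp (m : ℕ) :
    (fun τ : ℍ => Δ τ ^ m) =O[atImInfty] fun τ : ℍ => Real.exp (-(2 * π * m * τ.im)) := by
  have h := discriminant_isBigO_exp.pow m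
  refine h.congr_right fun τ => ?_
  rw [← Real.exp_nat_mul]
  congr 1
  ring

lemma norm_qParam_one (τ : ℍ) :
    ‖Complex.exp (2 * π * Complex.I * τ)‖ = Real.exp (-(2 * π * τ.im)) := by
  rw [Complex.norm_exp]
  congr 1
  simp [Complex.mul_re, Complex.mul_im]

lemma discriminant_isBigO_qParam :
    (Δ : ℍ → ℂ) =O[atImInfty] fun τ : ℍ => Complex.exp (2 * π * Complex.I * τ) := by
  refine discriminant_isBigO_exp.trans (IsBigO.of_bound 1 (Eventually.of_forall fun τ => ?_))
  rw [norm_qParam_one, Real.norm_eq_abs, abs_of_pos (Real.exp_pos _), one_mul]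

/-! ### Adapters -/

/-- Exponential growth of order `m` implies `f * Δ ^ m` bounded at `i∞`. -/
lemma isBoundedAtImInfty_mul_discriminant_pow_of_exp_growth {f : ℍ → ℂ} {m : ℕ}
    (hgr : ∃ C A : ℝ, ∀ τ : ℍ, A ≤ τ.im → ‖f τ‖ ≤ C * Real.exp (2 * π * m * τ.im)) :
    IsBoundedAtImInfty (fun τ => f τ * Δ τ ^ m) := by
  obtain ⟨C, A, h⟩ := hgr
  have hf : f =O[atImInfty] fun τ : ℍ => Real.exp (2 * π * m * τ.im) := by
    refine IsBigO.of_bound C ?_
    have hA : ∀ᶠ τ : ℍ in atImInfty, A ≤ τ.im :=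
      (Filter.eventually_ge_atTop A).comap UpperHalfPlane.im
    filter_upwards [hA] with τ hτ
    rw [Real.norm_eq_abs, abs_of_pos (Real.exp_pos _)]
    exact h τ hτ
  have hprod := hf.mul (discriminant_pow_isBigO_exp m)
  rw [IsBoundedAtImInfty, BoundedAtFilter]
  refine hprod.congr_right fun τ => ?_
  rw [← Real.exp_add]
  simp

/-- `f * q ^ m` bounded at `i∞` implies `f * Δ ^ m` bounded at `i∞`. -/
lemma isBoundedAtImInfty_mul_discriminant_pow_of_qParam {f : ℍ → ℂ} {m : ℕ}
    (hbd : IsBoundedAtImInfty (fun τ : ℍ => f τ * Complex.exp (2 * π * Complex.I * τ) ^ m)) :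
    IsBoundedAtImInfty (fun τ => f τ * Δ τ ^ m) := by
  rw [IsBoundedAtImInfty, BoundedAtFilter] at hbd ⊢
  exact ((isBigO_refl f atImInfty).mul (discriminant_isBigO_qParam.pow m)).trans hbd

/-- **D5b.** An `SL(2,ℤ)`-invariant holomorphic function `f : ℍ → ℂ` with
`‖f τ‖ ≤ C * exp (2π m Im τ)` for `Im τ ≥ A` is a polynomial of degree `≤ m` in
`J = E₄³ / Δ`. -/
theorem exists_polynomial_of_invariant_of_exp_growth (f : ℍ → ℂ) (hf : MDiff f)
    (hinv : ∀ (γ : SL(2, ℤ)) (τ : ℍ), f (γ • τ) = f τ) (m : ℕ)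
    (hgr : ∃ C A : ℝ, ∀ τ : ℍ, A ≤ τ.im → ‖f τ‖ ≤ C * Real.exp (2 * π * m * τ.im)) :
    ∃ P : Polynomial ℂ, P.natDegree ≤ m ∧ ∀ τ : ℍ, f τ = P.eval (E₄ τ ^ 3 / Δ τ) :=
  exists_polynomial_of_invariant f hf hinv m
    (isBoundedAtImInfty_mul_discriminant_pow_of_exp_growth hgr)

/-- **D5b'.** Same with the hypothesis `f * q ^ m` bounded at `i∞`, `q = exp (2πiτ)`. -/
theorem exists_polynomial_of_invariant_of_qParam (f : ℍ → ℂ) (hf : MDiff f)
    (hinv : ∀ (γ : SL(2, ℤ)) (τ : ℍ), f (γ • τ) = f τ) (m : ℕ)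
    (hbd : IsBoundedAtImInfty (fun τ : ℍ => f τ * Complex.exp (2 * π * Complex.I * τ) ^ m)) :
    ∃ P : Polynomial ℂ, P.natDegree ≤ m ∧ ∀ τ : ℍ, f τ = P.eval (E₄ τ ^ 3 / Δ τ) :=
  exists_polynomial_of_invariant f hf hinv m
    (isBoundedAtImInfty_mul_discriminant_pow_of_qParam hbd)

end Fermat.Agent.S24.H108

end
end
-- ===== PACK-END S24/D5/H108Growth.lean

-- ===== PACK-BEGIN S24/H504/Residue.lean
section



/-!
# The residue field of a place over `t = 0` is the (algebraically closed) constant field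
-/

set_option autoImplicit false

namespace Fermat.Agent.S24.H504

open AlgebraicCurve Polynomial

variable {K F : Type*} [Field K] [Field F] [Algebra K F] (v : Place K F)

/-- Membership in the maximal ideal of the valuation ring of `v`. -/
def InMax (f : F) : Prop := f = 0 ∨ 0 < v.ord f

variable {v}

theorem InMax.ord_nonneg {f : F} (h : InMax v f) : 0 ≤ v.ord f := by
  rcases h with rfl | h
  · simp
  · exact h.le

theorem inMax_zero : InMax v (0 : F) := Or.inl rfl

theorem InMax.add {f g : F} (hf : InMax v f) (hg : InMax v g) : InMax v (f + g) :=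
  ord_add_pos v hf hg

theorem InMax.neg {f : F} (hf : InMax v f) : InMax v (-f) := by
  rcases hf with rfl | hf
  · simpa using inMax_zero
  · right; rwa [_root_.Fermat.Agent.S24.H504.ord_neg]

theorem InMax.sub {f g : F} (hf : InMax v f) (hg : InMax v g) : InMax v (f - g) := by
  rw [sub_eq_add_neg]; exact hf.add hg.neg

theorem InMax.mul_right {f g : F} (hf : InMax v f) (hg : 0 ≤ v.ord g) : InMax v (f * g) := by
  rcases hf with rfl | hf
  · left; simp
  rcases eq_or_ne g 0 with rfl | hg0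
  · left; simp
  right
  rw [v.ord_mul (ne_zero_of_ord_ne_zero v hf.ne') hg0]
  omega

theorem InMax.mul_left {f g : F} (hf : InMax v f) (hg : 0 ≤ v.ord g) : InMax v (g * f) := by
  rw [mul_comm]; exact hf.mul_right hg

theorem inMax_sum {ι : Type*} (s : Finset ι) (f : ι → F) (h : ∀ i ∈ s, InMax v (f i)) :
    InMax v (∑ i ∈ s, f i) := by
  classical
  induction s using Finset.induction_on with
  | empty => simpa using inMax_zero
  | insert a s ha ih =>
    rw [Finset.sum_insert ha]
    exact (h a (Finset.mem_insert_self a s)).add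
      (ih fun i hi => h i (Finset.mem_insert_of_mem hi))

theorem inMax_or_of_mul {f g : F} (hf : 0 ≤ v.ord f) (hg : 0 ≤ v.ord g) (h : InMax v (f * g)) :
    InMax v f ∨ InMax v g := by
  rcases eq_or_ne f 0 with rfl | hf0
  · exact Or.inl inMax_zero
  rcases eq_or_ne g 0 with rfl | hg0
  · exact Or.inr inMax_zero
  rcases h with h | h
  · exact absurd h (mul_ne_zero hf0 hg0)
  rw [v.ord_mul hf0 hg0] at h
  by_cases h1 : 0 < v.ord f
  · exact Or.inl (Or.inr h1)
  · exact Or.inr (Or.inr (by omega))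

theorem not_inMax_algebraMap {c : K} (hc : c ≠ 0) : ¬ InMax v (algebraMap K F c) := by
  rintro (h | h)
  · exact hc ((map_eq_zero (algebraMap K F)).mp h)
  · rw [_root_.Fermat.Agent.S24.H504.ord_algebraMap] at h
    exact lt_irrefl _ h

theorem ord_aeval_nonneg {f : F} (hf : 0 ≤ v.ord f) (Q : K[X]) : 0 ≤ v.ord (aeval f Q) := by
  rw [← mem_iff_ord_nonneg'] at *
  rw [aeval_def, eval₂_eq_sum_range]
  refine Subring.sum_mem v.toValuationSubring.toSubring fun i _ => ?_
  exact v.toValuationSubring.mul_mem _ _ (v.algebraMap_mem' _) (pow_mem hf i)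

/-- If a nonzero polynomial over `K` takes a value in the maximal ideal at an integral `f`,
then `f` is congruent to a constant. -/
theorem exists_sub_inMax_of_aeval [IsAlgClosed K] {f : F} (hf : 0 ≤ v.ord f) :
    ∀ (n : ℕ) (Q : K[X]), Q.natDegree = n → Q ≠ 0 → InMax v (aeval f Q) →
      ∃ c : K, InMax v (f - algebraMap K F c) := by
  intro n
  induction n with
  | zero =>
    intro Q hdeg hQ h
    exfalso
    rw [natDegree_eq_zero] at hdeg
    obtain ⟨c, rfl⟩ := hdeg
    rw [aeval_C] at h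
    exact not_inMax_algebraMap (by simpa using hQ) h
  | succ n ih =>
    intro Q hdeg hQ h
    have hdeg' : Q.degree ≠ 0 :=
      (natDegree_pos_iff_degree_pos.mp (by omega)).ne'
    obtain ⟨c, hc⟩ := IsAlgClosed.exists_root Q hdeg'
    obtain ⟨Q₁, hQ₁⟩ := dvd_iff_isRoot.mpr hc
    have hQ₁0 : Q₁ ≠ 0 := by
      rintro rfl
      simp at hQ₁
      exact hQ hQ₁
    have hdeg₁ : Q₁.natDegree = n := by
      have := congrArg natDegree hQ₁
      rw [natDegree_mul (X_sub_C_ne_zero c) hQ₁0, natDegree_X_sub_C, hdeg] at this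
      omega
    have hval : aeval f Q = (f - algebraMap K F c) * aeval f Q₁ := by
      rw [hQ₁, map_mul]
      simp
    rw [hval] at h
    have hfc : 0 ≤ v.ord (f - algebraMap K F c) := by
      rw [← mem_iff_ord_nonneg'] at *
      exact sub_mem hf (v.algebraMap_mem' c)
    rcases inMax_or_of_mul hfc (ord_aeval_nonneg hf Q₁) h with h1 | h1
    · exact ⟨c, h1⟩
    · exact ih Q₁ hdeg₁ hQ₁0 h1

theorem inMax_aeval_sub_coeff_zero {t : F} (ht : 0 < v.ord t) (q : K[X]) :
    InMax v (aeval t q - algebraMap K F (q.coeff 0)) := by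
  have h : q = divX q * X + C (q.coeff 0) := (divX_mul_X_add q).symm
  have h2 : aeval t q - algebraMap K F (q.coeff 0) = t * aeval t (divX q) := by
    conv_lhs => rw [h]
    simp only [map_add, map_mul, aeval_X, aeval_C]
    simp only [coeff_add, coeff_C_zero, mul_coeff_zero, coeff_X_zero, mul_zero, zero_add]
    ring
  rw [h2]
  exact InMax.mul_right (Or.inr ht) (ord_aeval_nonneg ht.le _)

/-- Two-variable relation: a nonzero `P ∈ K[T][Y]` with `P(t, f) = 0` can be normalised so
that `P(0, Y) ≠ 0`. -/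
theorem exists_normalised_relation {t : F} (ht : t ≠ 0) (f : F) (P : K[X][X]) (hP : P ≠ 0)
    (hPf : P.eval₂ (aeval t : K[X] →ₐ[K] F).toRingHom f = 0) :
    ∃ Q : K[X][X], Q.map (constantCoeff : K[X] →+* K) ≠ 0 ∧
      Q.eval₂ (aeval t : K[X] →ₐ[K] F).toRingHom f = 0 := by
  have hX : ¬ IsUnit (C (X : K[X]) : K[X][X]) := by
    rw [isUnit_C]
    exact not_isUnit_X
  obtain ⟨n, Q, hndvd, rfl⟩ := WfDvdMonoid.max_power_factor' hP hX
  refine ⟨Q, ?_, ?_⟩
  · intro h0
    apply hndvd
    rw [C_dvd_iff_dvd_coeff]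
    intro i
    rw [X_dvd_iff]
    have := congrArg (fun p => p.coeff i) h0
    simpa [coeff_map] using this
  · rw [eval₂_mul, eval₂_pow, eval₂_C] at hPf
    simp only [AlgHom.toRingHom_eq_coe, RingHom.coe_coe, aeval_X] at hPf
    rcases mul_eq_zero.mp hPf with h | h
    · exact absurd h (pow_ne_zero n ht)
    · simpa using h

/-- Reduction of a two-variable relation modulo the maximal ideal. -/
theorem inMax_aeval_map_constantCoeff {t f : F} (ht : 0 < v.ord t) (hf : 0 ≤ v.ord f)
    (Q : K[X][X]) (hQf : Q.eval₂ (aeval t : K[X] →ₐ[K] F).toRingHom f = 0) :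
    InMax v (aeval f (Q.map (constantCoeff : K[X] →+* K))) := by
  have h1 : aeval f (Q.map (constantCoeff : K[X] →+* K))
      = Q.eval₂ ((algebraMap K F).comp (constantCoeff : K[X] →+* K)) f := by
    rw [aeval_def, eval₂_map]
  have h2 : aeval f (Q.map (constantCoeff : K[X] →+* K))
      = -(Q.eval₂ (aeval t : K[X] →ₐ[K] F).toRingHom f
          - Q.eval₂ ((algebraMap K F).comp (constantCoeff : K[X] →+* K)) f) := by
    rw [hQf, h1]; ring
  rw [h2]
  apply InMax.neg
  rw [eval₂_eq_sum_range, eval₂_eq_sum_range, ← Finset.sum_sub_distrib]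
  apply inMax_sum
  intro i _
  rw [← sub_mul]
  refine InMax.mul_right ?_ ?_
  · simpa using inMax_aeval_sub_coeff_zero ht (Q.coeff i)
  · rw [ord_pow]
    positivity

open scoped IntermediateField.algebraAdjoinAdjoin in
/-- **Residue field is `K`.**  If `K` is algebraically closed, `F` is algebraic over `K(t)` and
`v` is a place with `v(t) > 0`, every `v`-integral element is congruent to a constant. -/
theorem exists_sub_inMax [IsAlgClosed K] {t : F} (ht : 0 < v.ord t)
    [Algebra.IsAlgebraic (IntermediateField.adjoin K {t}) F] {f : F} (hf : 0 ≤ v.ord f) :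
    ∃ c : K, InMax v (f - algebraMap K F c) := by
  have halg : IsAlgebraic (IntermediateField.adjoin K {t}) f :=
    Algebra.IsAlgebraic.isAlgebraic f
  have halg' : IsAlgebraic (Algebra.adjoin K {t}) f :=
    (IsFractionRing.isAlgebraic_iff (Algebra.adjoin K {t}) (IntermediateField.adjoin K {t})
      F).mpr halg
  obtain ⟨p, hp0, hpf⟩ := halg'
  let φ : K[X] →+* Algebra.adjoin K {t} :=
    ((aeval t : K[X] →ₐ[K] F).codRestrict (Algebra.adjoin K {t})
      (fun q => aeval_mem_adjoin_singleton K t)).toRingHom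
  have hφ : Function.Surjective φ := by
    rintro ⟨a, ha⟩
    have ha' := ha
    rw [Algebra.adjoin_singleton_eq_range_aeval] at ha'
    obtain ⟨q, hq⟩ := ha'
    exact ⟨q, Subtype.ext hq⟩
  obtain ⟨P, hP⟩ := Polynomial.map_surjective φ hφ p
  have hP0 : P ≠ 0 := by
    rintro rfl
    rw [Polynomial.map_zero] at hP
    exact hp0 hP.symm
  have hcomp : (algebraMap (Algebra.adjoin K {t}) F).comp φ
      = (aeval t : K[X] →ₐ[K] F).toRingHom := by
    ext <;> rfl
  have hPf : P.eval₂ (aeval t : K[X] →ₐ[K] F).toRingHom f = 0 := by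
    rw [← hcomp, ← eval₂_map, hP]
    exact hpf
  have ht0 : t ≠ 0 := ne_zero_of_ord_ne_zero v ht.ne'
  obtain ⟨Q, hQ0, hQf⟩ := exists_normalised_relation ht0 f P hP0 hPf
  exact exists_sub_inMax_of_aeval hf _ _ rfl hQ0 (inMax_aeval_map_constantCoeff ht hf Q hQf)

/-- Decomposition `f = c + g` with `c` constant and `g` in the maximal ideal. -/
theorem exists_eq_const_add [IsAlgClosed K] {t : F} (ht : 0 < v.ord t)
    [Algebra.IsAlgebraic (IntermediateField.adjoin K {t}) F] {f : F} (hf : 0 ≤ v.ord f) :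
    ∃ (c : K) (g : F), InMax v g ∧ f = algebraMap K F c + g := by
  obtain ⟨c, hc⟩ := exists_sub_inMax ht hf
  exact ⟨c, f - algebraMap K F c, hc, by ring⟩

/-- Decomposition `f = c + ϖ f₁` for a uniformizer `ϖ`. -/
theorem exists_eq_const_add_mul [IsAlgClosed K] {t : F} (ht : 0 < v.ord t)
    [Algebra.IsAlgebraic (IntermediateField.adjoin K {t}) F] {ϖ : F} (hϖ : v.ord ϖ = 1)
    {f : F} (hf : 0 ≤ v.ord f) :
    ∃ (c : K) (f₁ : F), 0 ≤ v.ord f₁ ∧ f = algebraMap K F c + ϖ * f₁ := by
  obtain ⟨c, g, hg, rfl⟩ := exists_eq_const_add ht hf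
  have hϖ0 : ϖ ≠ 0 := ne_zero_of_ord_ne_zero v (by omega)
  refine ⟨c, g / ϖ, ?_, by field_simp⟩
  rcases hg with rfl | hg
  · simp
  · rw [ord_div v (ne_zero_of_ord_ne_zero v hg.ne') hϖ0]
    omega

theorem inMax_iff_mem_maximalIdeal (f : v.toValuationSubring) :
    InMax v (f : F) ↔ f ∈ IsLocalRing.maximalIdeal v.toValuationSubring := by
  rw [IsLocalRing.mem_maximalIdeal, mem_nonunits_iff]
  constructor
  · rintro (h | h) hu
    · have : f = 0 := Subtype.ext h
      rw [this] at hu
      exact not_isUnit_zero hu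
    · have := v.ord_coe_unit hu.unit
      rw [IsUnit.unit_spec] at this
      omega
  · intro hu
    by_cases h0 : (f : F) = 0
    · exact Or.inl h0
    right
    have h1 : 0 ≤ v.ord (f : F) := (mem_iff_ord_nonneg' v _).mp f.2
    rcases h1.lt_or_eq with h | h
    · exact h
    exfalso
    apply hu
    have hinv : (f : F)⁻¹ ∈ v.toValuationSubring := by
      rw [mem_iff_ord_nonneg', Place.ord_inv]
      omega
    refine IsUnit.of_mul_eq_one (⟨(f : F)⁻¹, hinv⟩ : v.toValuationSubring) ?_
    ext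
    simp [h0]

/-- **Places over `t = 0` have degree one.** -/
theorem deg_eq_one [IsAlgClosed K] {t : F} (ht : 0 < v.ord t)
    [Algebra.IsAlgebraic (IntermediateField.adjoin K {t}) F] : v.deg = 1 := by
  rw [Place.deg, finrank_eq_one_iff']
  refine ⟨1, one_ne_zero, fun w => ?_⟩
  obtain ⟨f, rfl⟩ := IsLocalRing.residue_surjective w
  obtain ⟨c, hc⟩ := exists_sub_inMax ht ((mem_iff_ord_nonneg' v _).mp f.2)
  refine ⟨c, ?_⟩
  rw [Algebra.smul_def, mul_one]
  have hmem : f - algebraMap K v.toValuationSubring c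
      ∈ IsLocalRing.maximalIdeal v.toValuationSubring := by
    rw [← inMax_iff_mem_maximalIdeal]
    simpa using hc
  have := (IsLocalRing.residue_eq_zero_iff _).mpr hmem
  rw [map_sub, sub_eq_zero] at this
  rw [this]
  rfl

end Fermat.Agent.S24.H504

end
-- ===== PACK-END S24/H504/Residue.lean

-- ===== PACK-BEGIN S29/M/Defs.lean
section
/-
S29 row, LAYER M (the torsion module) -- interface definitions (deputy helper30).
Namespace `Fermat.Agent.S29.M`.  Frozen once adopted by the row-lead (helper269).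
-/




set_option autoImplicit false

noncomputable section

namespace Fermat.Agent.S29.M

open ModularCurve AlgebraicCurve CongruenceSubgroup
open scoped TensorProduct MatrixGroups

/-! ## External input: the Eichler-Shimura relation on `JZero N` (rows S37 / S18) -/

/-- What layer M consumes from rows S37/S18: for every prime `ℓ ∤ N p` and every place `A` over `ℓ`,
inertia at `A` acts trivially on the `p`-power torsion of `JZero N`, and every Frobenius element at
`A` satisfies `σ² - T_ℓ σ + ℓ = 0` there, `T_ℓ` the Prelude operator `heckeOperatorBar N ℓ`.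
(No commutativity of the Hecke operators and no `HeckeAlg`-module structure is involved.) -/
def ESStatement : Prop :=
  ∀ (N p : ℕ) [NeZero N] (ℓ : ℕ) (hℓ : ℓ.Prime), ¬ ℓ ∣ N * p →
    ∀ A : VQ, A.LiesOverPrime ℓ →
      (∀ τ ∈ A.inertiaSubgroupIn ℚ, ∀ x : JZero N, (∃ n : ℕ, p ^ n • x = 0) → τ • x = x) ∧
      (∀ σ : GQ, A.IsFrobeniusAt σ ℓ → ∀ x : JZero N, (∃ n : ℕ, p ^ n • x = 0) →
        σ • σ • x - heckeOperatorBar N ⟨ℓ, hℓ⟩ (σ • x) + ℓ • x = 0)

/-- The "reduction map" form in which row S37 proves its statement (route R1 of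
`origin/helper37:coord/S37-route.md`); it implies `ESStatement` formally (`esStatement_of_red`). -/
def RedStatement : Prop :=
  ∀ (N p : ℕ) [NeZero N] (ℓ : ℕ) (hℓ : ℓ.Prime), ¬ ℓ ∣ N * p →
    ∀ A : VQ, A.LiesOverPrime ℓ →
      ∃ (Y : Type) (_ : AddCommGroup Y) (red : JZero N →+ Y),
        (∀ τ ∈ A.inertiaSubgroupIn ℚ, ∀ x : JZero N, red (τ • x) = red x) ∧
        (∀ x : JZero N, (∃ n : ℕ, p ^ n • x = 0) → red x = 0 → x = 0) ∧
        (∀ σ : GQ, A.IsFrobeniusAt σ ℓ → ∀ x : JZero N,
          red (σ • σ • x - heckeOperatorBar N ⟨ℓ, hℓ⟩ (σ • x) + ℓ • x) = 0)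

/-! ## The `p`-torsion of `JZero N` as a `ZMod p`-module with Hecke and Galois operators -/

/-- `J₀(N)[p]`, the `p`-torsion subgroup of the Prelude `JZero N`. -/
abbrev Vp (N p : ℕ) : Type :=
  ↥(Pic0.torsion (AlgebraicClosure ℚ) (modularFunctionFieldBar N) p)

/-- The Prelude Hecke operator `T_ℓ` preserves `p`-torsion. -/
theorem heckeOperatorBar_mem_torsion (N p : ℕ) [NeZero N] (ℓ : Nat.Primes) {x : JZero N}
    (hx : x ∈ Pic0.torsion (AlgebraicClosure ℚ) (modularFunctionFieldBar N) p) :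
    heckeOperatorBar N ℓ x ∈ Pic0.torsion (AlgebraicClosure ℚ) (modularFunctionFieldBar N) p := by
  rw [Pic0.mem_torsion] at hx ⊢
  rw [← map_zsmul, hx, map_zero]

/-- `T_ℓ` on `J₀(N)[p]`, as an additive map. -/
def heckeTorsAdd (N p : ℕ) [NeZero N] (ℓ : Nat.Primes) : Vp N p →+ Vp N p where
  toFun x := ⟨heckeOperatorBar N ℓ (x : JZero N), heckeOperatorBar_mem_torsion N p ℓ x.2⟩
  map_zero' := Subtype.ext (map_zero (heckeOperatorBar N ℓ))
  map_add' x y := Subtype.ext (map_add (heckeOperatorBar N ℓ) (x : JZero N) (y : JZero N))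

/-- `T_ℓ` on `J₀(N)[p]`, as a `ZMod p`-linear map. -/
def heckeTors (N p : ℕ) [NeZero N] (ℓ : Nat.Primes) : Vp N p →ₗ[ZMod p] Vp N p :=
  (heckeTorsAdd N p ℓ).toZModLinearMap p

@[simp] theorem coe_heckeTors_apply (N p : ℕ) [NeZero N] (ℓ : Nat.Primes) (x : Vp N p) :
    ((heckeTors N p ℓ x : Vp N p) : JZero N) = heckeOperatorBar N ℓ (x : JZero N) := rfl

/-- The Galois action on `J₀(N)[p]` (Prelude `JZero.torsionGaloisRep`). -/
abbrev galTors (N p : ℕ) : GQ →* Module.End (ZMod p) (Vp N p) :=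
  JZero.torsionGaloisRep N p

/-! ## The topological side: homomorphisms `Γ₀(N) → ℤ/p` and their Hecke operators -/

/-- Homomorphisms `Γ₀(N) → ℤ/p` vanishing on parabolic elements (`tr² = 4`, this includes `-1`)
and on elements of finite order. -/
def peHoms (N p : ℕ) : Submodule (ZMod p) (Additive (Gamma0 N) →+ ZMod p) where
  carrier := {χ | (∀ γ : Gamma0 N,
      ((γ : SL(2, ℤ)) : Matrix (Fin 2) (Fin 2) ℤ).trace ^ 2 = 4 → χ (Additive.ofMul γ) = 0) ∧
    (∀ γ : Gamma0 N, IsOfFinOrder γ → χ (Additive.ofMul γ) = 0)}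
  zero_mem' := ⟨fun _ _ => rfl, fun _ _ => rfl⟩
  add_mem' := by
    rintro χ χ' ⟨h1, h2⟩ ⟨h1', h2'⟩
    refine ⟨fun γ hγ => ?_, fun γ hγ => ?_⟩
    · show χ (Additive.ofMul γ) + χ' (Additive.ofMul γ) = 0
      rw [h1 γ hγ, h1' γ hγ, add_zero]
    · show χ (Additive.ofMul γ) + χ' (Additive.ofMul γ) = 0
      rw [h2 γ hγ, h2' γ hγ, add_zero]
  smul_mem' := by
    rintro c χ ⟨h1, h2⟩
    refine ⟨fun γ hγ => ?_, fun γ hγ => ?_⟩
    · show c • χ (Additive.ofMul γ) = 0
      rw [h1 γ hγ, smul_zero]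
    · show c • χ (Additive.ofMul γ) = 0
      rw [h2 γ hγ, smul_zero]

/-- The standard representatives of `Γ₀(N) \ Γ₀(N) diag(1,ℓ) Γ₀(N)` (`ℓ ∤ N`):
`(1 b; 0 ℓ)` for `b < ℓ` and `(ℓ 0; 0 1)` for the last index. -/
def heckeRep (ℓ : ℕ) (i : Fin (ℓ + 1)) : Matrix (Fin 2) (Fin 2) ℤ :=
  if (i : ℕ) < ℓ then !![1, (i : ℕ); 0, ℓ] else !![ℓ, 0; 0, 1]

/-- `χ' = T_ℓ χ` on `Hom(Γ₀(N), A)`: the transfer formula `χ'(γ) = ∑ᵢ χ(δᵢ)` whenever
`αᵢ γ = δᵢ α_{π i}` for the standard representatives `αᵢ = heckeRep ℓ i`. -/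
def IsHeckeImage (N ℓ : ℕ) {A : Type*} [AddCommGroup A] (χ χ' : Additive (Gamma0 N) →+ A) : Prop :=
  ∀ (γ : Gamma0 N) (π : Fin (ℓ + 1) → Fin (ℓ + 1)) (δ : Fin (ℓ + 1) → Gamma0 N),
    (∀ i, _root_.Fermat.Agent.S29.M.heckeRep ℓ i * ((γ : SL(2, ℤ)) : Matrix (Fin 2) (Fin 2) ℤ)
        = ((δ i : SL(2, ℤ)) : Matrix (Fin 2) (Fin 2) ℤ) * _root_.Fermat.Agent.S29.M.heckeRep ℓ (π i)) →
      χ' (Additive.ofMul γ) = ∑ i, χ (Additive.ofMul (δ i))

end Fermat.Agent.S29.M

end

end
-- ===== PACK-END S29/M/Defs.lean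

-- ===== PACK-BEGIN S28/H325/PolyIndep.lean
section



/-!
# S28, piece [L-glue], part 1: polynomial independence and change of coefficients

`PolyIndep J v` says that the family `v` admits no nontrivial linear relation with coefficients
polynomials in `J`.  For a field `k` and transcendental `J` this is linear independence over
`k(J)`.  We transfer it along `ℤ → k` (content descent) and `ℤ → ℚ` (clearing denominators).
-/

set_option autoImplicit false

noncomputable section

open ModularCurve HahnSeries Polynomial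

namespace Fermat.Agent.S28.H325

/-- No nontrivial relation `∑ Pᵢ(J) vᵢ = 0` with polynomial coefficients. -/
def PolyIndep {A : Type*} [CommRing A] {n : ℕ} (J : LaurentSeries A)
    (v : Fin n → LaurentSeries A) : Prop :=
  ∀ P : Fin n → A[X], ∑ i, aeval J (P i) * v i = 0 → ∀ i, P i = 0

section Transport

variable {A B : Type*} [CommRing A] [CommRing B]

theorem coeffMap_aeval (f : A →+* B) (J : LaurentSeries A) (P : A[X]) :
    coeffMap f (aeval J P) = aeval (coeffMap f J) (P.map f) := by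
  induction P using Polynomial.induction_on' with
  | add p q hp hq => simp only [map_add, Polynomial.map_add, hp, hq]
  | monomial m a =>
    rw [Polynomial.map_monomial, Polynomial.aeval_monomial, Polynomial.aeval_monomial, map_mul,
      map_pow]
    congr 1
    rw [HahnSeries.algebraMap_apply', HahnSeries.algebraMap_apply', coeffMap_ofPowerSeries]
    congr 1
    ext k
    simp

theorem coeffMap_injective_of_injective (f : A →+* B) (hf : Function.Injective f) :
    Function.Injective (coeffMap f) := by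
  intro x y h
  ext m
  apply hf
  have := congrArg (fun z => z.coeff m) h
  simpa using this

/-- Polynomial independence descends along an injective coefficient map. -/
theorem PolyIndep.of_injective {n : ℕ} (f : A →+* B) (hf : Function.Injective f)
    {J : LaurentSeries A} {v : Fin n → LaurentSeries A}
    (h : PolyIndep (coeffMap f J) (fun i => coeffMap f (v i))) : PolyIndep J v := by
  intro P hP i
  have h1 : ∑ i, aeval (coeffMap f J) ((P i).map f) * coeffMap f (v i) = 0 := by
    have := congrArg (coeffMap f) hP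
    rw [map_sum, map_zero] at this
    rw [← this]
    refine Finset.sum_congr rfl fun i _ => ?_
    rw [map_mul, coeffMap_aeval]
  have h2 := h (fun i => (P i).map f) h1 i
  exact (Polynomial.map_eq_zero_iff hf).mp h2

end Transport

section Transcendence

variable (A : Type*) [CommRing A]

theorem algebraMap_laurent_eq_C (a : A) :
    algebraMap A (LaurentSeries A) a = HahnSeries.C a := by
  rw [HahnSeries.algebraMap_apply']
  have h1 : algebraMap A (PowerSeries A) a = PowerSeries.C a := by simp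
  rw [h1, HahnSeries.ofPowerSeries_C]

theorem laurent_coeff_smul (a : A) (x : LaurentSeries A) (m : ℤ) :
    (@HSMul.hSMul A (LaurentSeries A) (LaurentSeries A)
      (@instHSMul A (LaurentSeries A) (powerSeriesAlgebra ℤ A).toSMul) a x).coeff m
      = a * x.coeff m := by
  rw [Algebra.smul_def, algebraMap_laurent_eq_C, HahnSeries.C_mul_eq_smul]
  exact @HahnSeries.coeff_smul ℤ A _ A _ _ a x m

/-- The coefficient of `q^{-deg P}` in `P(j)` is the leading coefficient of `P`. -/
theorem coeff_aeval_jqModC (P : A[X]) :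
    (aeval (jqModC A) P).coeff (-(P.natDegree : ℤ)) = P.leadingCoeff := by
  rw [Polynomial.aeval_eq_sum_range, HahnSeries.coeff_sum, Finset.sum_range_succ]
  rw [Finset.sum_eq_zero, zero_add]
  · refine (laurent_coeff_smul A _ _ _).trans ?_
    rw [coeff_jqModC_pow_self, mul_one]
    rfl
  · intro m hm
    refine (laurent_coeff_smul A _ _ _).trans ?_
    rw [coeff_jqModC_pow_of_lt, mul_zero]
    have := Finset.mem_range.mp hm
    omega

theorem aeval_jqModC_eq_zero_iff (P : A[X]) : aeval (jqModC A) P = 0 ↔ P = 0 := by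
  refine ⟨fun h => ?_, fun h => by rw [h, map_zero]⟩
  have := coeff_aeval_jqModC A P
  rw [h, HahnSeries.coeff_zero] at this
  exact Polynomial.leadingCoeff_eq_zero.mp this.symm

end Transcendence

section Field

variable {k : Type*} [Field k] {n : ℕ}

/-- Linear independence over `k(J)` implies polynomial independence, for transcendental `J`. -/
theorem polyIndep_of_linearIndependent {J : LaurentSeries k}
    (hJ : ∀ P : k[X], aeval J P = 0 → P = 0) {v : Fin n → LaurentSeries k}
    (h : LinearIndependent (IntermediateField.adjoin k {J}) v) : PolyIndep J v := by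
  intro P hP i
  rw [Fintype.linearIndependent_iff] at h
  have hmem : ∀ i, aeval J (P i) ∈ IntermediateField.adjoin k {J} := fun i =>
    (IntermediateField.mem_adjoin_simple_iff k _).mpr ⟨P i, 1, by simp⟩
  have h1 := h (fun i => ⟨aeval J (P i), hmem i⟩) (by
    rw [← hP]
    exact Finset.sum_congr rfl fun i _ => rfl) i
  exact hJ _ (congrArg Subtype.val h1)

/-- Polynomial independence implies linear independence over `k(J)`. -/
theorem linearIndependent_of_polyIndep {J : LaurentSeries k} {v : Fin n → LaurentSeries k}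
    (h : PolyIndep J v) : LinearIndependent (IntermediateField.adjoin k {J}) v := by
  classical
  rw [Fintype.linearIndependent_iff]
  intro g hg
  have hrs : ∀ i, ∃ r s : k[X], aeval J s ≠ 0 ∧ (g i : LaurentSeries k) * aeval J s = aeval J r := by
    intro i
    obtain ⟨r, s, hrs⟩ := (IntermediateField.mem_adjoin_simple_iff k _).mp (g i).2
    by_cases hs : aeval J s = 0
    · refine ⟨0, 1, by simp, ?_⟩
      rw [hs, div_zero] at hrs
      simp [hrs]
    · exact ⟨r, s, hs, by rw [hrs, div_mul_cancel₀ _ hs]⟩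
  choose r s hs hrs using hrs
  set t : Fin n → k[X] := fun i => r i * ∏ l ∈ Finset.univ.erase i, s l with ht
  have hS : ∀ i, aeval J (t i) = (g i : LaurentSeries k) * aeval J (∏ l, s l) := by
    intro i
    rw [ht]
    simp only [map_mul]
    rw [← hrs i, ← Finset.mul_prod_erase Finset.univ s (Finset.mem_univ i)]
    simp only [map_mul]
    ring
  have hrel : ∑ i, aeval J (t i) * v i = 0 := by
    have : ∑ i, aeval J (t i) * v i = aeval J (∏ l, s l) * ∑ i, (g i) • v i := by
      rw [Finset.mul_sum]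
      refine Finset.sum_congr rfl fun i _ => ?_
      rw [hS i, IntermediateField.smul_def, smul_eq_mul]
      ring
    rw [this, hg, mul_zero]
  have ht0 := h t hrel
  intro i
  have h1 : (g i : LaurentSeries k) * aeval J (∏ l, s l) = 0 := by
    rw [← hS i, ht0 i, map_zero]
  have h2 : aeval J (∏ l, s l) ≠ 0 := by
    rw [map_prod]
    exact Finset.prod_ne_zero_iff.mpr fun l _ => hs l
  have h3 : (g i : LaurentSeries k) = 0 := (mul_eq_zero.mp h1).resolve_right h2
  exact Subtype.ext h3

end Field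

section Integers

variable {n : ℕ}

/-- Clearing denominators: polynomial independence over `ℤ` gives it over `ℚ`. -/
theorem PolyIndep.rat_of_int {J : LaurentSeries ℤ} {Y : Fin n → LaurentSeries ℤ}
    (h : PolyIndep J Y) :
    PolyIndep (coeffMap (Int.castRingHom ℚ) J) (fun i => coeffMap (Int.castRingHom ℚ) (Y i)) := by
  classical
  intro P hP
  have hnorm : ∀ i, ∃ (b : ℤ) (Q : ℤ[X]), b ≠ 0 ∧
      Q.map (Int.castRingHom ℚ) = Polynomial.C (b : ℚ) * P i := by
    intro i
    obtain ⟨b, hbM, hb⟩ := IsLocalization.integerNormalization_spec (nonZeroDivisors ℤ) (P i)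
    refine ⟨b, IsLocalization.integerNormalization (nonZeroDivisors ℤ) (P i),
      nonZeroDivisors.ne_zero hbM, ?_⟩
    rw [algebraMap_int_eq] at hb
    rw [hb, Polynomial.C_mul', Int.cast_smul_eq_zsmul ℚ b (P i)]
  choose b Q hb hQ using hnorm
  set c : Fin n → ℤ := fun i => ∏ l ∈ Finset.univ.erase i, b l with hc
  set m : ℤ := ∏ l, b l with hm
  have hm0 : (m : ℚ) ≠ 0 := by
    rw [hm]; exact_mod_cast Finset.prod_ne_zero_iff.mpr fun l _ => hb l
  have hcm : ∀ i, c i * b i = m := fun i => by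
    rw [hc, hm, mul_comm]
    exact Finset.mul_prod_erase Finset.univ b (Finset.mem_univ i)
  have hQ' : ∀ i, (Polynomial.C (c i) * Q i).map (Int.castRingHom ℚ)
      = Polynomial.C (m : ℚ) * P i := by
    intro i
    rw [Polynomial.map_mul, Polynomial.map_C, hQ i, ← mul_assoc, ← Polynomial.C_mul]
    congr 2
    rw [eq_intCast, ← hcm i]
    push_cast
    ring
  have hrel : ∑ i, aeval J (Polynomial.C (c i) * Q i) * Y i = 0 := by
    apply coeffMap_injective_of_injective (Int.castRingHom ℚ) Int.cast_injective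
    rw [map_sum, map_zero]
    have : ∑ i, coeffMap (Int.castRingHom ℚ) (aeval J (Polynomial.C (c i) * Q i) * Y i)
        = aeval (coeffMap (Int.castRingHom ℚ) J) (Polynomial.C (m : ℚ)) *
          ∑ i, aeval (coeffMap (Int.castRingHom ℚ) J) (P i) *
            coeffMap (Int.castRingHom ℚ) (Y i) := by
      rw [Finset.mul_sum]
      refine Finset.sum_congr rfl fun i _ => ?_
      rw [map_mul, coeffMap_aeval, hQ' i, map_mul]
      ring
    rw [this, hP, mul_zero]
  have h0 := h _ hrel
  intro i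
  have h1 : Polynomial.C (m : ℚ) * P i = 0 := by rw [← hQ' i, h0 i, Polynomial.map_zero]
  exact (mul_eq_zero.mp h1).resolve_left (by simpa using hm0)

/-- Content descent: polynomial independence over a field `k` (after reducing coefficients along
`ℤ → k`) gives polynomial independence over `ℤ`. -/
theorem PolyIndep.int_of_field {k : Type*} [Field k] {J : LaurentSeries ℤ}
    {Y : Fin n → LaurentSeries ℤ}
    (h : PolyIndep (coeffMap (Int.castRingHom k) J)
      (fun i => coeffMap (Int.castRingHom k) (Y i))) : PolyIndep J Y := by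
  classical
  obtain ⟨p, hp⟩ := CharP.exists k
  -- every relation has all coefficients divisible by `p`
  have hdvd : ∀ P : Fin n → ℤ[X], ∑ i, aeval J (P i) * Y i = 0 →
      ∀ i, Polynomial.C (p : ℤ) ∣ P i := by
    intro P hP i
    have h1 : ∑ i, aeval (coeffMap (Int.castRingHom k) J) ((P i).map (Int.castRingHom k)) *
        coeffMap (Int.castRingHom k) (Y i) = 0 := by
      have := congrArg (coeffMap (Int.castRingHom k)) hP
      rw [map_sum, map_zero] at this
      rw [← this]
      refine Finset.sum_congr rfl fun i _ => ?_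
      rw [map_mul, coeffMap_aeval]
    have h2 := h _ h1 i
    rw [Polynomial.C_dvd_iff_dvd_coeff]
    intro d
    have h3 := congrArg (fun q => q.coeff d) h2
    simp only [Polynomial.coeff_map, Polynomial.coeff_zero, eq_intCast] at h3
    exact (CharP.intCast_eq_zero_iff k p _).mp h3
  rcases Nat.eq_zero_or_pos p with hp0 | hppos
  · intro P hP i
    obtain ⟨R, hR⟩ := hdvd P hP i
    rw [hR, hp0]
    simp
  · have hp2 : 2 ≤ p := by
      rcases (CharP.char_is_prime_or_zero k p) with h | h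
      · exact h.two_le
      · omega
    -- all coefficients are divisible by every power of `p`
    have hpow : ∀ e : ℕ, ∀ P : Fin n → ℤ[X], ∑ i, aeval J (P i) * Y i = 0 →
        ∀ i d, (p : ℤ) ^ e ∣ (P i).coeff d := by
      intro e
      induction e with
      | zero => intro P _ i d; simp
      | succ e ih =>
        intro P hP i d
        have hall := hdvd P hP
        choose R hR using hall
        have hRrel : ∑ i, aeval J (R i) * Y i = 0 := by
          have h1 : ((p : ℤ) : LaurentSeries ℤ) * ∑ i, aeval J (R i) * Y i = 0 := by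
            rw [← hP, Finset.mul_sum]
            refine Finset.sum_congr rfl fun i _ => ?_
            rw [hR i, map_mul, Polynomial.aeval_C, mul_assoc]
            simp
          rcases mul_eq_zero.mp h1 with h2 | h2
          · exfalso
            have h3 : ((p : ℤ) : LaurentSeries ℤ) ≠ 0 := by
              rw [← map_intCast (HahnSeries.C : ℤ →+* LaurentSeries ℤ)]
              intro h4
              have h5 : ((p : ℤ) : ℤ) = 0 :=
                HahnSeries.C_injective (h4.trans (map_zero _).symm)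
              simp at h5
              omega
            exact h3 h2
          · exact h2
        have := ih R hRrel i d
        rw [hR i, Polynomial.coeff_C_mul, pow_succ, mul_comm]
        exact mul_dvd_mul_left _ this
    intro P hP i
    ext d
    rw [Polynomial.coeff_zero]
    set a := (P i).coeff d with ha
    have h1 := hpow a.natAbs P hP i d
    refine Int.eq_zero_of_dvd_of_natAbs_lt_natAbs h1 ?_
    rw [Int.natAbs_pow, Int.natAbs_natCast]
    calc a.natAbs < 2 ^ a.natAbs := Nat.lt_two_pow_self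
      _ ≤ p ^ a.natAbs := Nat.pow_le_pow_left hp2 _

end Integers

end Fermat.Agent.S28.H325

end
end
-- ===== PACK-END S28/H325/PolyIndep.lean

-- ===== PACK-BEGIN S28/H25/ThetaAnalytic.lean
section




/-!
# The `θ`-identity for `j`, analytic part (helper25, S28 piece [A-θ])

In `ℂ⟦q⟧`, with `e4, e6, δ` the `q`-expansions of `E₄, E₆, Δ` and `θ = q d/dq`:
* `e4 ^ 3 - e6 ^ 2 = 1728 * δ`;
* `3 * e4 ^ 2 * θ e4 * δ - e4 ^ 3 * θ δ = - (e4 ^ 2 * e6 * δ)`.
-/

set_option autoImplicit false

open UpperHalfPlane hiding I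
open Function Derivative Complex ModularForm EisensteinSeries
open scoped Manifold MatrixGroups

noncomputable section

namespace Fermat.Agent.S28.H25

/-- Functions on `ℍ` whose cusp function (period `1`) is analytic at `0`. -/
def qAnalytic : Subring (ℍ → ℂ) where
  carrier := {F | AnalyticAt ℂ (cuspFunction 1 F) 0}
  mul_mem' {f g} hf hg := by
    simp only [Set.mem_ofPred_eq] at hf hg ⊢
    rw [cuspFunction_mul hf.continuousAt hg.continuousAt]
    exact hf.mul hg
  one_mem' := by
    simp only [Set.mem_ofPred_eq]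
    have h1 : cuspFunction 1 (1 : ℍ → ℂ) = 1 := by
      ext q
      rcases eq_or_ne q 0 with rfl | hq
      · simpa [cuspFunction, Function.Periodic.cuspFunction] using!
          tendsto_const_nhds.limUnder_eq
      · simp [cuspFunction, Function.Periodic.cuspFunction_eq_of_nonzero 1 _ hq]
    rw [h1]
    exact analyticAt_const
  add_mem' {f g} hf hg := by
    simp only [Set.mem_ofPred_eq] at hf hg ⊢
    rw [cuspFunction_add hf.continuousAt hg.continuousAt]
    exact hf.add hg
  zero_mem' := by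
    simp only [Set.mem_ofPred_eq]
    have h0 : cuspFunction 1 (0 : ℍ → ℂ) = 0 := by
      ext q
      rcases eq_or_ne q 0 with rfl | hq
      · simpa [cuspFunction, Function.Periodic.cuspFunction] using!
          tendsto_const_nhds.limUnder_eq
      · simp [cuspFunction, Function.Periodic.cuspFunction_eq_of_nonzero 1 _ hq]
    rw [h0]
    exact analyticAt_const
  neg_mem' {f} hf := by
    simp only [Set.mem_ofPred_eq] at hf ⊢
    rw [cuspFunction_neg hf.continuousAt]
    exact hf.neg

theorem mem_qAnalytic_iff {F : ℍ → ℂ} :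
    F ∈ qAnalytic ↔ AnalyticAt ℂ (cuspFunction 1 F) 0 := Iff.rfl

/-- The `q`-expansion, as a ring homomorphism on `qAnalytic`. -/
def qExpRingHom : qAnalytic →+* PowerSeries ℂ where
  toFun F := qExpansion 1 (F : ℍ → ℂ)
  map_one' := qExpansion_one 1
  map_mul' F G := qExpansion_mul F.2 G.2
  map_zero' := qExpansion_zero 1
  map_add' F G := qExpansion_add F.2 G.2

@[simp] theorem qExpRingHom_apply (F : qAnalytic) :
    qExpRingHom F = qExpansion 1 (F : ℍ → ℂ) := rfl

theorem mem_qAnalytic_of_modularForm {k : ℤ} (f : ModularForm 𝒮ℒ k) :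
    (f : ℍ → ℂ) ∈ qAnalytic :=
  ModularFormClass.analyticAt_cuspFunction_zero f one_pos one_mem_strictPeriods_SL

theorem periodic_of_modularForm {k : ℤ} (f : ModularForm 𝒮ℒ k) :
    Periodic ((f : ℍ → ℂ) ∘ ofComplex) (1 : ℝ) :=
  SlashInvariantFormClass.periodic_comp_ofComplex f one_mem_strictPeriods_SL

theorem mem_qAnalytic_D_of_modularForm {k : ℤ} (f : ModularForm 𝒮ℒ k) :
    D (f : ℍ → ℂ) ∈ qAnalytic :=
  analyticAt_cuspFunction_D one_pos (periodic_of_modularForm f) (ModularFormClass.holo f)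
    (ModularFormClass.bdd_at_infty f)

theorem qExpansion_D_of_modularForm {k : ℤ} (f : ModularForm 𝒮ℒ k) :
    qExpansion 1 (D (f : ℍ → ℂ)) = thetaP (qExpansion 1 (f : ℍ → ℂ)) :=
  qExpansion_D (periodic_of_modularForm f) (ModularFormClass.holo f)
    (ModularFormClass.bdd_at_infty f)

/-- `Δ` as a modular form of weight 12 -/
def discForm : ModularForm 𝒮ℒ 12 := (CuspForm.discriminant : CuspForm 𝒮ℒ 12)

theorem coe_discForm : (discForm : ℍ → ℂ) = ModularForm.discriminant := rfl

/-- `e4 ^ 3 - e6 ^ 2 = 1728 δ` in `ℂ⟦q⟧`. -/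
theorem qExp_E4_cube_sub_E6_sq :
    qExpansion 1 E₄ ^ 3 - qExpansion 1 E₆ ^ 2 =
      1728 * qExpansion 1 ModularForm.discriminant := by
  let a4 : qAnalytic := ⟨E₄, mem_qAnalytic_of_modularForm E₄⟩
  let a6 : qAnalytic := ⟨E₆, mem_qAnalytic_of_modularForm E₆⟩
  let aΔ : qAnalytic := ⟨ModularForm.discriminant, mem_qAnalytic_of_modularForm discForm⟩
  have key : a4 ^ 3 - a6 ^ 2 = 1728 * aΔ := by
    apply Subtype.ext
    funext z
    have := Fermat.Agent.S20.L1.E₄_cube_sub_E₆_sq z
    have h3 : ((1728 : qAnalytic) : ℍ → ℂ) z = 1728 := rfl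
    push_cast
    simp only [a4, a6, aΔ, Pi.sub_apply, Pi.mul_apply, Pi.pow_apply]
    rw [h3]
    exact this
  have := congrArg qExpRingHom key
  simpa only [map_sub, map_pow, map_mul, map_ofNat, qExpRingHom_apply] using this

/-- `3 e4² θ(e4) δ - e4³ θ(δ) = - e4² e6 δ` in `ℂ⟦q⟧`. -/
theorem qExp_theta_relation :
    3 * qExpansion 1 E₄ ^ 2 * thetaP (qExpansion 1 E₄) * qExpansion 1 ModularForm.discriminant
      - qExpansion 1 E₄ ^ 3 * thetaP (qExpansion 1 ModularForm.discriminant) =
      - (qExpansion 1 E₄ ^ 2 * qExpansion 1 E₆ * qExpansion 1 ModularForm.discriminant) := by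
  let a4 : qAnalytic := ⟨E₄, mem_qAnalytic_of_modularForm E₄⟩
  let a6 : qAnalytic := ⟨E₆, mem_qAnalytic_of_modularForm E₆⟩
  let aΔ : qAnalytic := ⟨ModularForm.discriminant, mem_qAnalytic_of_modularForm discForm⟩
  let d4 : qAnalytic := ⟨D (E₄ : ℍ → ℂ), mem_qAnalytic_D_of_modularForm E₄⟩
  let dΔ : qAnalytic := ⟨D (ModularForm.discriminant : ℍ → ℂ),
    mem_qAnalytic_D_of_modularForm discForm⟩
  have key : 3 * a4 ^ 2 * d4 * aΔ - a4 ^ 3 * dΔ = - (a4 ^ 2 * a6 * aΔ) := by
    apply Subtype.ext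
    funext z
    have h4 := Fermat.Agent.S20.L1.ramanujan_E₄ z
    have hΔ := Fermat.Agent.S20.L1.ramanujan_discriminant z
    have h3 : ((3 : qAnalytic) : ℍ → ℂ) z = 3 := rfl
    push_cast
    simp only [a4, a6, aΔ, d4, dΔ, Pi.sub_apply, Pi.mul_apply, Pi.pow_apply, Pi.neg_apply]
    rw [h3, h4, hΔ]
    ring
  have := congrArg qExpRingHom key
  simp only [map_sub, map_pow, map_mul, map_neg, map_ofNat, qExpRingHom_apply] at this
  have e1 : qExpansion 1 (D (E₄ : ℍ → ℂ)) = thetaP (qExpansion 1 E₄) :=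
    qExpansion_D_of_modularForm E₄
  have e2 : qExpansion 1 (D (ModularForm.discriminant : ℍ → ℂ)) =
      thetaP (qExpansion 1 ModularForm.discriminant) :=
    qExpansion_D_of_modularForm discForm
  simpa only [a4, a6, aΔ, d4, dΔ, e1, e2] using this

end Fermat.Agent.S28.H25

end
end
-- ===== PACK-END S28/H25/ThetaAnalytic.lean

-- ===== PACK-BEGIN S18/H516/GaussSpan.lean
section




/-!
# S18 / MOD (helper516): base change of the S28 basis from `ℚ` to an arbitrary field `L ⊇ ℚ`

`F_L := laurentBaseChange L (modularFunctionFieldFull N) ⊆ L((q))` is exactly the `L(j)`-span of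
the images of the S28 "monomials" `y i ∈ ℤ[j_d : d ∣ N]`.
-/

set_option autoImplicit false
set_option linter.unusedSectionVars false

noncomputable section

namespace Fermat.Agent.S18.H516

open ModularCurve HahnSeries IntermediateField Polynomial Fermat.Agent.S28

section CoeffEmb

variable (L : Type*) [Field L] [Algebra ℚ L]

theorem coeffEmb_jq : coeffEmb L jq = jqModC L := by
  rw [← jqModC_rat, coeffEmb, coeffMap_jqModC]

theorem coeffEmb_aeval (x : LaurentSeries ℚ) (r : ℚ[X]) :
    coeffEmb L (aeval x r) = aeval (coeffEmb L x) (r.map (algebraMap ℚ L)) := by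
  rw [aeval_def, aeval_def, hom_eval₂, eval₂_map]
  congr 1
  exact RingHom.ext_rat _ _

/-- `coeffEmb` maps `ℚ(j)` into `L(j)`. -/
theorem coeffEmb_mem_jField {c : LaurentSeries ℚ} (hc : c ∈ jField ℚ) :
    coeffEmb L c ∈ jField L := by
  rw [jField, mem_adjoin_simple_iff] at hc
  obtain ⟨r, s, rfl⟩ := hc
  have hj : coeffEmb L (jqModC ℚ) = jqModC L := by
    rw [coeffEmb, coeffMap_jqModC]
  rw [map_div₀, coeffEmb_aeval, coeffEmb_aeval, hj]
  rw [jField, mem_adjoin_simple_iff]
  exact ⟨_, _, rfl⟩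

theorem coeffMap_intCast_eq_coeffEmb (y : LaurentSeries ℤ) :
    coeffMap (Int.castRingHom L) y = coeffEmb L (coeffMap (Int.castRingHom ℚ) y) := by
  rw [coeffEmb, coeffMap_coeffMap]
  exact coeffMap_congr (RingHom.ext_int _ _) y

end CoeffEmb

section Closure

variable (R : Type*) [CommRing R] (N : ℕ)

/-- The generators `j(q^d)`, `d ∣ N` over an arbitrary ring. -/
theorem coeffMap_mem_of_mem_closure {K : Type*} [Field K] [NeZero N] {y : LaurentSeries ℤ}
    (hy : y ∈ Subring.closure (intDivisorExpansions N)) :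
    coeffMap (Int.castRingHom K) y ∈ modularFunctionFieldFullC K N := by
  induction hy using Subring.closure_induction with
  | mem x hx =>
    obtain ⟨d, hd, hdN, rfl⟩ := hx
    rw [coeffMap_qExpand, coeffMap_jqModC]
    exact jqModCd_mem_full K N hdN
  | zero => rw [map_zero]; exact zero_mem _
  | one => rw [map_one]; exact one_mem _
  | add x y _ _ hx hy => rw [map_add]; exact add_mem hx hy
  | neg x _ hx => rw [map_neg]; exact neg_mem hx
  | mul x y _ _ hx hy => rw [map_mul]; exact mul_mem hx hy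

end Closure

section Span

variable (L : Type*) [Field L] [Algebra ℚ L] (N : ℕ) [NeZero N]
variable {n : ℕ} (y : Fin n → LaurentSeries ℤ)

/-- The `L(j)`-span of the base-changed monomials. -/
def spanL : Submodule (jField L) (LaurentSeries L) :=
  Submodule.span (jField L) (Set.range fun i => coeffMap (Int.castRingHom L) (y i))

/-- Hypothesis package extracted from `CoreData.exists_basis` (char-0 half). -/
def SpansQ : Prop :=
  (∀ i, y i ∈ Subring.closure (intDivisorExpansions N)) ∧
    ∀ x ∈ modularFunctionFieldFull N,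
      x ∈ Submodule.span (jField ℚ) (Set.range fun i => coeffMap (Int.castRingHom ℚ) (y i))

variable {N y}

omit [Algebra ℚ L] in
theorem yL_mem_spanL (i : Fin n) : coeffMap (Int.castRingHom L) (y i) ∈ spanL L y :=
  Submodule.subset_span ⟨i, rfl⟩

theorem coeffEmb_mem_spanL (h : SpansQ N y) {x : LaurentSeries ℚ}
    (hx : x ∈ modularFunctionFieldFull N) : coeffEmb L x ∈ spanL L y := by
  have hx' := h.2 x hx
  clear hx
  induction hx' using Submodule.span_induction with
  | mem z hz =>
    obtain ⟨i, rfl⟩ := hz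
    rw [← coeffMap_intCast_eq_coeffEmb L (y i)]
    exact yL_mem_spanL L i
  | zero => rw [map_zero]; exact zero_mem _
  | add a b _ _ ha hb => rw [map_add]; exact add_mem ha hb
  | smul c a _ ha =>
    have : coeffEmb L (c • a) = (⟨coeffEmb L c, coeffEmb_mem_jField L c.2⟩ : jField L) •
        coeffEmb L a := by
      show coeffEmb L ((c : LaurentSeries ℚ) * a) = coeffEmb L c * coeffEmb L a
      rw [map_mul]
    rw [this]
    exact Submodule.smul_mem _ _ ha

theorem yQ_mem_full (h : SpansQ N y) (i : Fin n) :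
    coeffMap (Int.castRingHom ℚ) (y i) ∈ modularFunctionFieldFull N := by
  have := coeffMap_mem_of_mem_closure (K := ℚ) N (h.1 i)
  rwa [modularFunctionFieldFullC_rat] at this

theorem one_mem_spanL (h : SpansQ N y) : (1 : LaurentSeries L) ∈ spanL L y := by
  have := coeffEmb_mem_spanL L h (one_mem (modularFunctionFieldFull N))
  rwa [map_one] at this

theorem mul_mem_spanL (h : SpansQ N y) {a b : LaurentSeries L} (ha : a ∈ spanL L y)
    (hb : b ∈ spanL L y) : a * b ∈ spanL L y := by
  induction ha using Submodule.span_induction with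
  | mem z hz =>
    obtain ⟨i, rfl⟩ := hz
    induction hb using Submodule.span_induction with
    | mem w hw =>
      obtain ⟨j, rfl⟩ := hw
      show coeffMap (Int.castRingHom L) (y i) * coeffMap (Int.castRingHom L) (y j) ∈ _
      rw [coeffMap_intCast_eq_coeffEmb L (y i), coeffMap_intCast_eq_coeffEmb L (y j), ← map_mul]
      exact coeffEmb_mem_spanL L h (mul_mem (yQ_mem_full h i) (yQ_mem_full h j))
    | zero => rw [mul_zero]; exact zero_mem _
    | add a b _ _ ha hb => rw [mul_add]; exact add_mem ha hb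
    | smul c a _ ha =>
      have : (fun i => coeffMap (Int.castRingHom L) (y i)) i * (c • a) =
          c • ((fun i => coeffMap (Int.castRingHom L) (y i)) i * a) := by
        show _ * ((c : LaurentSeries L) * a) = (c : LaurentSeries L) * (_ * a)
        ring
      rw [this]
      exact Submodule.smul_mem _ _ ha
  | zero => rw [zero_mul]; exact zero_mem _
  | add a b _ _ ha hb => rw [add_mul]; exact add_mem ha hb
  | smul c a _ ha =>
    have : (c • a) * b = c • (a * b) := by
      show ((c : LaurentSeries L) * a) * b = (c : LaurentSeries L) * (a * b)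
      ring
    rw [this]
    exact Submodule.smul_mem _ _ ha

/-- The span as a subalgebra over `L(j)`. -/
def spanAlg (h : SpansQ N y) : Subalgebra (jField L) (LaurentSeries L) where
  carrier := spanL L y
  mul_mem' := fun ha hb => mul_mem_spanL L h ha hb
  add_mem' := fun ha hb => add_mem ha hb
  algebraMap_mem' c := by
    have : algebraMap (jField L) (LaurentSeries L) c = c • (1 : LaurentSeries L) := by
      rw [Algebra.smul_def, mul_one]
    rw [this]
    exact Submodule.smul_mem _ _ (one_mem_spanL L h)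

theorem mem_spanAlg (h : SpansQ N y) {x : LaurentSeries L} :
    x ∈ spanAlg L h ↔ x ∈ spanL L y := Iff.rfl

theorem inv_mem_spanL (h : SpansQ N y) {x : LaurentSeries L} (hx : x ∈ spanL L y) :
    x⁻¹ ∈ spanL L y := by
  have hfin : Module.Finite (jField L) (spanAlg L h) := by
    have : Module.Finite (jField L) (spanL L y) :=
      Module.Finite.span_of_finite _ (Set.finite_range _)
    exact this
  have hint : IsIntegral (jField L) (⟨x, hx⟩ : spanAlg L h) := IsIntegral.of_finite _ _
  have halg : IsAlgebraic (jField L) ((⟨x, hx⟩ : spanAlg L h) : LaurentSeries L) :=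
    (hint.isAlgebraic).algebraMap (A := LaurentSeries L)
  exact (spanAlg L h).inv_mem_of_algebraic (x := ⟨x, hx⟩) halg

/-- The span as an intermediate field of `L((q))/L`. -/
def spanField (h : SpansQ N y) : IntermediateField L (LaurentSeries L) where
  carrier := spanL L y
  mul_mem' := fun ha hb => mul_mem_spanL L h ha hb
  add_mem' := fun ha hb => add_mem ha hb
  one_mem' := one_mem_spanL L h
  zero_mem' := zero_mem _
  algebraMap_mem' c := by
    have hc : algebraMap L (LaurentSeries L) c ∈ jField L := (jField L).algebraMap_mem c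
    have : algebraMap L (LaurentSeries L) c =
        (⟨_, hc⟩ : jField L) • (1 : LaurentSeries L) := by
      show _ = algebraMap L (LaurentSeries L) c * 1
      rw [mul_one]
    rw [this]
    exact Submodule.smul_mem _ _ (one_mem_spanL L h)
  inv_mem' := fun x hx => inv_mem_spanL L h hx

theorem jField_le_baseChange : jField L ≤ laurentBaseChange L (modularFunctionFieldFull N) := by
  rw [jField, adjoin_le_iff]
  rintro x rfl
  have hj : jq ∈ modularFunctionFieldFull N := modularFunctionField_le_full N (jq_mem N)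
  have := coeffEmb_mem_laurentBaseChange L hj
  rwa [coeffEmb_jq] at this

/-- **Base change of the S28 basis.** `F_L` is the `L(j)`-span of the monomials. -/
theorem mem_baseChange_iff_mem_spanL (h : SpansQ N y) {x : LaurentSeries L} :
    x ∈ laurentBaseChange L (modularFunctionFieldFull N) ↔ x ∈ spanL L y := by
  constructor
  · intro hx
    have hle : laurentBaseChange L (modularFunctionFieldFull N) ≤ spanField L h := by
      rw [laurentBaseChange, adjoin_le_iff]
      rintro z ⟨w, hw, rfl⟩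
      exact coeffEmb_mem_spanL L h hw
    exact hle hx
  · intro hx
    induction hx using Submodule.span_induction with
    | mem z hz =>
      obtain ⟨i, rfl⟩ := hz
      show coeffMap (Int.castRingHom L) (y i) ∈ _
      rw [coeffMap_intCast_eq_coeffEmb L (y i)]
      exact coeffEmb_mem_laurentBaseChange L (yQ_mem_full h i)
    | zero => exact zero_mem _
    | add a b _ _ ha hb => exact add_mem ha hb
    | smul c a _ ha =>
      exact mul_mem (jField_le_baseChange L c.2) ha

end Span

end Fermat.Agent.S18.H516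

end
end
-- ===== PACK-END S18/H516/GaussSpan.lean

-- ===== PACK-BEGIN S24/Mod/H368Gens.lean
section



/-!
# S24 / MOD glue (helper368): generators of the function field of `X₀(N)`

The Prelude defines `modularFunctionFieldBar N` as the field generated over `ℚ̄` by the image
of the whole field `ℚ(j(q^d) : d ∣ N)`.  Here we show it is generated by the finitely many
series `j(q^d)`, `d ∣ N`, and deduce the `MvPolynomial` presentation used to construct
embeddings.
-/

set_option autoImplicit false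
set_option linter.style.haveILetI false

noncomputable section

open ModularCurve IntermediateField MvPolynomial

namespace Fermat.Agent.S24.H368

variable (L : Type*) [Field L] [Algebra ℚ L]

/-- `j(q^d)` with coefficients in `L`, for a divisor `d` of `N`. -/
def gen (N : ℕ) (d : N.divisors) : LaurentSeries L :=
  haveI : NeZero d.1 := ⟨(Nat.pos_of_mem_divisors d.2).ne'⟩
  coeffEmb L (qExpand ℚ d.1 jq)

theorem gen_eq (N : ℕ) (d : ℕ) [NeZero d] (hd : d ∈ N.divisors) :
    gen L N ⟨d, hd⟩ = coeffEmb L (qExpand ℚ d jq) := rfl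

theorem gen_one (N : ℕ) [NeZero N] :
    gen L N ⟨1, Nat.one_mem_divisors.2 (NeZero.ne N)⟩ = coeffEmb L jq := by
  rw [gen_eq, qExpand_one_apply]

/-- The image under `coeffEmb` of the field generated by a set lies in the field generated by
the image of the set. -/
theorem coeffEmb_mem_adjoin_image (T : Set (LaurentSeries ℚ)) {x : LaurentSeries ℚ}
    (hx : x ∈ IntermediateField.adjoin ℚ T) :
    coeffEmb L x ∈ IntermediateField.adjoin L (⇑(coeffEmb L) '' T) := by
  induction hx using IntermediateField.adjoin_induction with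
  | mem y hy => exact subset_adjoin L _ ⟨y, hy, rfl⟩
  | algebraMap c =>
    have : coeffEmb L (algebraMap ℚ (LaurentSeries ℚ) c)
        = algebraMap L (LaurentSeries L) (algebraMap ℚ L c) := by
      rw [algebraMap_apply_eq_single, algebraMap_laurentSeries_eq_single]
      exact coeffMap_single _ _ _
    rw [this]
    exact (IntermediateField.adjoin L _).algebraMap_mem _
  | add x y _ _ hx hy => rw [map_add]; exact add_mem hx hy
  | inv x _ hx => rw [map_inv₀]; exact inv_mem hx
  | mul x y _ _ hx hy => rw [map_mul]; exact mul_mem hx hy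

theorem laurentBaseChange_adjoin (T : Set (LaurentSeries ℚ)) :
    laurentBaseChange L (IntermediateField.adjoin ℚ T)
      = IntermediateField.adjoin L (⇑(coeffEmb L) '' T) := by
  apply le_antisymm
  · rw [laurentBaseChange, adjoin_le_iff]
    rintro _ ⟨x, hx, rfl⟩
    exact coeffEmb_mem_adjoin_image L T hx
  · rw [laurentBaseChange]
    exact IntermediateField.adjoin.mono L _ _ (Set.image_mono (subset_adjoin ℚ T))

theorem image_divisorExpansions (N : ℕ) [NeZero N] :
    ⇑(coeffEmb L) '' divisorExpansions N = Set.range (gen L N) := by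
  ext x
  constructor
  · rintro ⟨y, ⟨d, hne, hd, rfl⟩, rfl⟩
    exact ⟨⟨d, Nat.mem_divisors.2 ⟨hd, NeZero.ne N⟩⟩, rfl⟩
  · rintro ⟨⟨d, hd⟩, rfl⟩
    exact ⟨_, ⟨d, ⟨(Nat.pos_of_mem_divisors hd).ne'⟩, Nat.dvd_of_mem_divisors hd, rfl⟩, rfl⟩

/-- The function field of `X₀(N)` over `L` is generated over `L` by the `j(q^d)`, `d ∣ N`. -/
theorem laurentBaseChange_full_eq_adjoin (N : ℕ) [NeZero N] :
    laurentBaseChange L (modularFunctionFieldFull N)
      = IntermediateField.adjoin L (Set.range (gen L N)) := by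
  rw [modularFunctionFieldFull, laurentBaseChange_adjoin, image_divisorExpansions]

theorem modularFunctionFieldBar_eq_adjoin (N : ℕ) [NeZero N] :
    modularFunctionFieldBar N
      = IntermediateField.adjoin (AlgebraicClosure ℚ) (Set.range (gen (AlgebraicClosure ℚ) N)) :=
  laurentBaseChange_full_eq_adjoin _ N

/-- Every element of `K(s)` is a quotient of two polynomial expressions in the generators. -/
theorem exists_aeval_div {K E ι : Type*} [Field K] [Field E] [Algebra K E] (s : ι → E)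
    {x : E} (hx : x ∈ IntermediateField.adjoin K (Set.range s)) :
    ∃ p q : MvPolynomial ι K, aeval s q ≠ 0 ∧ x = aeval s p / aeval s q := by
  obtain ⟨a, ha, b, hb, rfl⟩ := IntermediateField.mem_adjoin_iff_div.1 hx
  rw [Algebra.adjoin_range_eq_range_aeval] at ha hb
  obtain ⟨p, rfl⟩ := ha
  obtain ⟨q, rfl⟩ := hb
  by_cases hq : aeval s q = 0
  · refine ⟨0, 1, by simp, ?_⟩
    simp [hq]
  · exact ⟨p, q, hq, rfl⟩

end Fermat.Agent.S24.H368

end
end
-- ===== PACK-END S24/Mod/H368Gens.lean

-- ===== PACK-BEGIN S18/Mod/H216/Parts.lean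
section


/-!
# S18 / MOD-ASM (helper216): `Alg.GoodModel` split into six independent PARTS

`Alg.GoodModel Lc Ec Fc R V w x S` (Alg/Spec v4, on main) has 34 fields.  They are grouped here into six `Prop`-structures
with the SAME field names and the SAME field types, so that each group can be proved by a different
owner, in any order:

| part | structure | fields |
|---|---|---|
| G-R   | `PartR Ec R w`        | `R_le R_total w_mem w_ne_zero w_inv_not_mem w_gen w_discrete residue_perfect` |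
| G-FLD | `PartFld Lc Ec Fc x`  | `E_le_L E_le_F L_algebraic L_algClosed E_closed_in_F compositum x_mem x_transcendental finite` |
| G-V   | `PartV Fc R V w x`    | `V_le V_total R_le_V w_inv_not_mem_V V_gen x_mem_V gauss` |
| G-QEP | `PartQep Fc R V w x`  | `qep_fin qep_inf` |
| G-SEP | `PartSep R V w x`     | `separable` |
| G-BR  | `PartBr Lc R x S`     | `S_mem S_distinct S_unit unramified` |

`goodModel_of_parts` assembles them (+ `CharZero Ω`); `GoodModel.partR` … project back.
Everything here is Mathlib-only (abstract field `Ω`).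
-/

set_option autoImplicit false

namespace Fermat.Agent.S18.Mod.H216

open Fermat.Agent.S18.Alg

variable {Ω : Type*} [Field Ω]

/-- **G-R**: `R` is a discrete valuation ring of `Ec`, uniformiser `w`, perfect residue field. -/
structure PartR (Ec : Subfield Ω) (R : Subring Ω) (w : Ω) : Prop where
  R_le : (R : Set Ω) ⊆ Ec
  R_total : ∀ e ∈ Ec, e ∈ R ∨ e⁻¹ ∈ R
  w_mem : w ∈ R
  w_ne_zero : w ≠ 0
  w_inv_not_mem : w⁻¹ ∉ R
  w_gen : ∀ r ∈ R, r⁻¹ ∉ R → r * w⁻¹ ∈ R
  w_discrete : ∀ r ∈ R, r ≠ 0 → ∃ n : ℕ, r * (w⁻¹) ^ n ∈ R ∧ (r * (w⁻¹) ^ n)⁻¹ ∈ R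
  residue_perfect : ∃ p : ℕ, p.Prime ∧ (p : Ω) * w⁻¹ ∈ R ∧
    ∀ r ∈ R, ∃ s ∈ R, (r - s ^ p) * w⁻¹ ∈ R

/-- **G-FLD**: the fields `Ec ≤ Lc`, `Ec ≤ Fc`, and the coordinate `x`. -/
structure PartFld (Lc Ec Fc : Subfield Ω) (x : Ω) : Prop where
  E_le_L : Ec ≤ Lc
  E_le_F : Ec ≤ Fc
  L_algebraic : ∀ a ∈ Lc, IsAlgebraic Ec a
  L_algClosed : IsAlgClosed Lc
  E_closed_in_F : ∀ f ∈ Fc, IsAlgebraic Ec f → f ∈ Ec
  compositum : Subfield.closure ((Fc : Set Ω) ∪ Lc) = ⊤
  x_mem : x ∈ Fc
  x_transcendental : Transcendental Lc x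
  finite : ∃ s : Finset Ω, (s : Set Ω) ⊆ Fc ∧
    ∀ f ∈ Fc, f ∈ Submodule.span (ratField Ec x) (s : Set Ω)

/-- **G-V**: `V` is the Gauss valuation ring of `Fc`. -/
structure PartV (Fc : Subfield Ω) (R V : Subring Ω) (w x : Ω) : Prop where
  V_le : (V : Set Ω) ⊆ Fc
  V_total : ∀ f ∈ Fc, f ∈ V ∨ f⁻¹ ∈ V
  R_le_V : R ≤ V
  w_inv_not_mem_V : w⁻¹ ∉ V
  V_gen : ∀ f ∈ V, f⁻¹ ∉ V → f * w⁻¹ ∈ V
  x_mem_V : x ∈ V
  gauss : ∀ P : Polynomial Ω, (∀ i, P.coeff i ∈ R) → (∃ i, P.coeff i ≠ 0 ∧ (P.coeff i)⁻¹ ∈ R) →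
    (P.eval x)⁻¹ ∈ V

/-- **G-QEP**: the `q`-expansion principle on both charts. -/
structure PartQep (Fc : Subfield Ω) (R V : Subring Ω) (w x : Ω) : Prop where
  qep_fin : ∀ b ∈ chart Fc R x, b * w⁻¹ ∈ V → b * w⁻¹ ∈ chart Fc R x
  qep_inf : ∀ b ∈ chart Fc R x⁻¹, b * w⁻¹ ∈ V → b * w⁻¹ ∈ chart Fc R x⁻¹

/-- **G-SEP**: the residue field of `V` is separable over `κ(x̄)`. -/
structure PartSep (R V : Subring Ω) (w x : Ω) : Prop where
  separable : ∀ f ∈ V, ∃ P : Polynomial Ω, (∀ i, P.coeff i ∈ polyRing R x) ∧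
    P.eval f * w⁻¹ ∈ V ∧ (Polynomial.derivative P).eval f ≠ 0 ∧
    ((Polynomial.derivative P).eval f)⁻¹ ∈ V

/-- **G-BR**: the branch values. -/
structure PartBr (Lc : Subfield Ω) (R : Subring Ω) (x : Ω) (S : Finset Ω) : Prop where
  S_mem : ∀ s ∈ S, s ∈ R
  S_distinct : ∀ s ∈ S, ∀ t ∈ S, s ≠ t → (s - t)⁻¹ ∈ R
  S_unit : ∀ s ∈ S, s ≠ 0 → s⁻¹ ∈ R
  unramified : ∀ O : ValuationSubring Ω, (∀ a ∈ Lc, a ∈ O) → ∀ c ∈ Lc, c ∉ S →
    x - c ∈ O → (x - c)⁻¹ ∉ O → ∀ t ∈ O, t⁻¹ ∉ O → t * (x - c)⁻¹ ∈ O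

/-- **Assembly**: the six parts give a `GoodModel`. -/
theorem goodModel_of_parts {Lc Ec Fc : Subfield Ω} {R V : Subring Ω} {w x : Ω} {S : Finset Ω}
    (h0 : CharZero Ω) (hR : PartR Ec R w) (hF : PartFld Lc Ec Fc x) (hV : PartV Fc R V w x)
    (hQ : PartQep Fc R V w x) (hS : PartSep R V w x) (hB : PartBr Lc R x S) :
    GoodModel Lc Ec Fc R V w x S where
  charZero := h0
  R_le := hR.R_le
  R_total := hR.R_total
  w_mem := hR.w_mem
  w_ne_zero := hR.w_ne_zero
  w_inv_not_mem := hR.w_inv_not_mem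
  w_gen := hR.w_gen
  w_discrete := hR.w_discrete
  residue_perfect := hR.residue_perfect
  E_le_L := hF.E_le_L
  E_le_F := hF.E_le_F
  L_algebraic := hF.L_algebraic
  L_algClosed := hF.L_algClosed
  E_closed_in_F := hF.E_closed_in_F
  compositum := hF.compositum
  x_mem := hF.x_mem
  x_transcendental := hF.x_transcendental
  finite := hF.finite
  V_le := hV.V_le
  V_total := hV.V_total
  R_le_V := hV.R_le_V
  w_inv_not_mem_V := hV.w_inv_not_mem_V
  V_gen := hV.V_gen
  x_mem_V := hV.x_mem_V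
  gauss := hV.gauss
  qep_fin := hQ.qep_fin
  qep_inf := hQ.qep_inf
  separable := hS.separable
  S_mem := hB.S_mem
  S_distinct := hB.S_distinct
  S_unit := hB.S_unit
  unramified := hB.unramified

section Project

variable {Lc Ec Fc : Subfield Ω} {R V : Subring Ω} {w x : Ω} {S : Finset Ω}

theorem partR_of_goodModel (h : GoodModel Lc Ec Fc R V w x S) : PartR Ec R w :=
  ⟨h.R_le, h.R_total, h.w_mem, h.w_ne_zero, h.w_inv_not_mem, h.w_gen, h.w_discrete,
    h.residue_perfect⟩

theorem partFld_of_goodModel (h : GoodModel Lc Ec Fc R V w x S) : PartFld Lc Ec Fc x :=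
  ⟨h.E_le_L, h.E_le_F, h.L_algebraic, h.L_algClosed, h.E_closed_in_F, h.compositum, h.x_mem,
    h.x_transcendental, h.finite⟩

theorem partV_of_goodModel (h : GoodModel Lc Ec Fc R V w x S) : PartV Fc R V w x :=
  ⟨h.V_le, h.V_total, h.R_le_V, h.w_inv_not_mem_V, h.V_gen, h.x_mem_V, h.gauss⟩

theorem partQep_of_goodModel (h : GoodModel Lc Ec Fc R V w x S) : PartQep Fc R V w x :=
  ⟨h.qep_fin, h.qep_inf⟩

theorem partSep_of_goodModel (h : GoodModel Lc Ec Fc R V w x S) : PartSep R V w x :=
  ⟨h.separable⟩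

theorem partBr_of_goodModel (h : GoodModel Lc Ec Fc R V w x S) : PartBr Lc R x S :=
  ⟨h.S_mem, h.S_distinct, h.S_unit, h.unramified⟩

end Project

end Fermat.Agent.S18.Mod.H216

end
-- ===== PACK-END S18/Mod/H216/Parts.lean

-- ===== PACK-BEGIN S18/H602/DVR.lean
section



/-!
# S18, piece d1 (continued): `R_E = A ∩ E` is a discrete valuation ring  (owner helper602)

For a valuation subring `A ⊆ Q̄` lying over a prime `ℓ` (`(ℓ : Q̄) ∈ A.nonunits`, which is the
Prelude's `A.LiesOverPrime ℓ` unfolded) and a finite extension `E/ℚ` inside `Q̄`, the ring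
`R_E = A ∩ E` is the localisation of `𝓞 E` at a nonzero prime; in particular it is a
discrete valuation ring.
-/

set_option autoImplicit false

noncomputable section

namespace Fermat.Agent.S18.H602

open ModularCurve AlgebraicCurve HahnSeries IntermediateField IsDedekindDomain

open scoped NumberField

local notation "Q̄" => AlgebraicClosure ℚ

section DVR

/-- Valuation subrings contain all algebraic integers. -/
theorem mem_of_isIntegral_int {K : Type*} [Field K] (B : ValuationSubring K) {x : K}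
    (hx : IsIntegral ℤ x) : x ∈ B := by
  have h : IsIntegral B x := hx.tower_top
  obtain ⟨y, rfl⟩ := (IsIntegrallyClosed.isIntegral_iff (R := B) (K := K)).mp h
  exact y.2

variable (A : ValuationSubring Q̄) (E : IntermediateField ℚ Q̄)

theorem natCast_mem_RE (n : ℕ) : (n : E) ∈ RE A E := natCast_mem _ n

theorem natCast_not_isUnit_RE {ℓ : ℕ} (hA : (ℓ : Q̄) ∈ A.nonunits) :
    ¬ IsUnit (⟨(ℓ : E), natCast_mem_RE A E ℓ⟩ : RE A E) := by
  intro hu
  have hu' := (toA A E).isUnit_map hu
  rw [ValuationSubring.mem_nonunits_iff_exists_mem_maximalIdeal] at hA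
  obtain ⟨hℓA, hmem⟩ := hA
  rw [IsLocalRing.mem_maximalIdeal, mem_nonunits_iff] at hmem
  apply hmem
  convert hu' using 1
  exact Subtype.ext (by simp)

theorem RE_ne_top {ℓ : ℕ} (hℓ : ℓ ≠ 0) (hA : (ℓ : Q̄) ∈ A.nonunits) : RE A E ≠ ⊤ := by
  intro h
  apply natCast_not_isUnit_RE A E hA
  have hinv : ((ℓ : E)⁻¹ : E) ∈ RE A E := h ▸ ValuationSubring.mem_top _
  have hℓE : (ℓ : E) ≠ 0 := by exact_mod_cast hℓ
  exact isUnit_iff_exists_inv.mpr ⟨⟨_, hinv⟩, Subtype.ext (mul_inv_cancel₀ hℓE)⟩

theorem algebraMap_ringOfIntegers_mem_RE (x : 𝓞 E) : algebraMap (𝓞 E) E x ∈ RE A E :=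
  mem_of_isIntegral_int _ (NumberField.RingOfIntegers.isIntegral_coe x)

/-- The inclusion `𝓞 E → R_E`. -/
def ofInt : 𝓞 E →+* RE A E :=
  (algebraMap (𝓞 E) E).codRestrict (RE A E) (algebraMap_ringOfIntegers_mem_RE A E)

@[simp]
theorem coe_ofInt (x : 𝓞 E) : ((ofInt A E x : RE A E) : E) = algebraMap (𝓞 E) E x := rfl

/-- The prime of `𝓞 E` below the maximal ideal of `R_E`. -/
def primeBelow : Ideal (𝓞 E) := (IsLocalRing.maximalIdeal (RE A E)).comap (ofInt A E)

instance primeBelow_isPrime : (primeBelow A E).IsPrime :=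
  Ideal.comap_isPrime (ofInt A E) _

theorem natCast_mem_primeBelow {ℓ : ℕ} (hA : (ℓ : Q̄) ∈ A.nonunits) :
    (ℓ : 𝓞 E) ∈ primeBelow A E := by
  rw [primeBelow, Ideal.mem_comap, IsLocalRing.mem_maximalIdeal, mem_nonunits_iff]
  convert natCast_not_isUnit_RE A E hA using 2
  exact Subtype.ext (by simp)

theorem primeBelow_ne_bot {ℓ : ℕ} (hℓ : ℓ ≠ 0) (hA : (ℓ : Q̄) ∈ A.nonunits) :
    primeBelow A E ≠ ⊥ := by
  intro h
  have h1 := natCast_mem_primeBelow A E hA
  rw [h, Ideal.mem_bot] at h1
  exact hℓ (by exact_mod_cast h1)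

theorem numberField_of_finiteDimensional [FiniteDimensional ℚ E] : NumberField E :=
  NumberField.mk

variable [NumberField E]

/-- The height-one prime of `𝓞 E` cut out by `A`. -/
def primeSpec {ℓ : ℕ} (hℓ : ℓ ≠ 0) (hA : (ℓ : Q̄) ∈ A.nonunits) : HeightOneSpectrum (𝓞 E) :=
  ⟨primeBelow A E, inferInstance, primeBelow_ne_bot A E hℓ hA⟩

theorem valuationSubringAtPrime_le_RE {ℓ : ℕ} (hℓ : ℓ ≠ 0) (hA : (ℓ : Q̄) ∈ A.nonunits) :
    (primeSpec A E hℓ hA).valuationSubringAtPrime E ≤ RE A E := by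
  rintro x ⟨a, s, hs, rfl⟩
  have hs' : IsUnit (ofInt A E s) := by
    by_contra hnu
    exact hs ((IsLocalRing.mem_maximalIdeal _).mpr hnu)
  obtain ⟨b, hb⟩ := isUnit_iff_exists_inv.mp hs'
  have hb' : algebraMap (𝓞 E) E s * (b : E) = 1 := congrArg (fun z : RE A E => (z : E)) hb
  have hinv : (algebraMap (𝓞 E) E s)⁻¹ = (b : E) := inv_eq_of_mul_eq_one_right hb'
  rw [hinv]
  exact mul_mem (algebraMap_ringOfIntegers_mem_RE A E a) b.2

/-- `R_E = A ∩ E` is the localisation of `𝓞 E` at the prime below `A`. -/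
theorem RE_eq_valuationSubringAtPrime {ℓ : ℕ} (hℓ : ℓ ≠ 0) (hA : (ℓ : Q̄) ∈ A.nonunits) :
    (primeSpec A E hℓ hA).valuationSubringAtPrime E = RE A E :=
  ValuationSubring.eq_of_le_of_ne_top _ (valuationSubringAtPrime_le_RE A E hℓ hA)
    (RE_ne_top A E hℓ hA)

/-- `R_E = A ∩ E` is a discrete valuation ring (`E` a number field, `A` over a prime). -/
theorem isDiscreteValuationRing_RE' {ℓ : ℕ} (hℓ : ℓ ≠ 0) (hA : (ℓ : Q̄) ∈ A.nonunits) :
    IsDiscreteValuationRing ↥(RE A E) := by
  rw [← RE_eq_valuationSubringAtPrime A E hℓ hA]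
  exact IsLocalization.AtPrime.isDiscreteValuationRing_of_dedekind_domain (𝓞 E)
    (primeSpec A E hℓ hA).ne_bot _

omit [NumberField E] in
/-- **`R_E = A ∩ E` is a discrete valuation ring** (for `E/ℚ` finite and `A` over a prime). -/
theorem isDiscreteValuationRing_RE [FiniteDimensional ℚ E] {ℓ : ℕ} (hℓ : ℓ ≠ 0)
    (hA : (ℓ : Q̄) ∈ A.nonunits) : IsDiscreteValuationRing ↥(RE A E) :=
  haveI := numberField_of_finiteDimensional E
  isDiscreteValuationRing_RE' A E hℓ hA

end DVR

end Fermat.Agent.S18.H602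

end
end
-- ===== PACK-END S18/H602/DVR.lean

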