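import Mathlib
import Fermat.Prelude.Def_EllipticCurve_FrobeniusTrace
import Fermat.Prelude.Def_ModularCurve_X0ModL
import Fermat.Prelude.Def_ModularCurve_PeriodHomPair
import Fermat.Prelude.Def_AlgebraicCurve_DivisorClassGroup
import Fermat.Agent.Pack.S3234.G0E1L3
import Fermat.Agent.Pack.S3234.G0E0L0
import Fermat.Agent.Pack.S3234.G0E1L0
import Fermat.Agent.Pack.S3234.G0E2L0
import Fermat.Agent.Pack.S3234.G0E2L1
import Fermat.Agent.Pack.S3234.G0E0L1
import Fermat.Agent.Pack.S3234.G0E2L2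
import Fermat.Agent.Pack.S3234.G0E1L1

-- ===== PACK-BEGIN S55/H414/CycloLevel.lean
section


/-!
# S55, leaf CYC-INF (helper414), part 1: the cyclotomic levels `ℚ(ζ_N) ⊆ ℚ̄`

For `N ≠ 0` we define `cycloLevel N = ℚ(ζ_N)` as an intermediate field of `ℚ̄/ℚ`, show that it is
Galois with commutative Galois group, and that it is unramified at every prime not dividing `N`
(in the Prelude sense: inertia groups of valuation subrings of `ℚ̄` fix it pointwise).
-/

set_option autoImplicit false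

namespace Fermat.Agent.S55.H414

open ExtCitation Fermat.Agent.S55.Bridge

/-- A chosen primitive `N`-th root of unity in `ℚ̄`. -/
noncomputable def zetaBar (N : ℕ) [NeZero N] : AlgebraicClosure ℚ :=
  (HasEnoughRootsOfUnity.exists_primitiveRoot (AlgebraicClosure ℚ) N).choose

theorem zetaBar_spec (N : ℕ) [NeZero N] : IsPrimitiveRoot (zetaBar N) N :=
  (HasEnoughRootsOfUnity.exists_primitiveRoot (AlgebraicClosure ℚ) N).choose_spec

/-- The cyclotomic field `ℚ(ζ_N)` inside `ℚ̄`. -/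
noncomputable def cycloLevel (N : ℕ) [NeZero N] : IntermediateField ℚ (AlgebraicClosure ℚ) :=
  IntermediateField.adjoin ℚ {zetaBar N}

theorem zetaBar_mem_cycloLevel (N : ℕ) [NeZero N] : zetaBar N ∈ cycloLevel N :=
  IntermediateField.subset_adjoin ℚ _ rfl

instance isCyclotomicExtension_cycloLevel (N : ℕ) [NeZero N] :
    IsCyclotomicExtension {N} ℚ (cycloLevel N) :=
  haveI : Algebra.IsAlgebraic ℚ (AlgebraicClosure ℚ) := AlgebraicClosure.isAlgebraic ℚ
  haveI : Algebra.IsIntegral ℚ (AlgebraicClosure ℚ) := Algebra.IsAlgebraic.isIntegral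
  (zetaBar_spec N).intermediateField_adjoin_isCyclotomicExtension ℚ

instance finiteDimensional_cycloLevel (N : ℕ) [NeZero N] :
    FiniteDimensional ℚ (cycloLevel N) :=
  IsCyclotomicExtension.finiteDimensional {N} ℚ (cycloLevel N)

instance isGalois_cycloLevel (N : ℕ) [NeZero N] : IsGalois ℚ (cycloLevel N) :=
  IsCyclotomicExtension.isGalois {N} ℚ (cycloLevel N)

/-- An automorphism of `ℚ̄` fixes `ℚ(ζ_N)` pointwise iff it fixes `ζ_N`. -/
theorem mem_fixingSubgroup_cycloLevel_iff (N : ℕ) [NeZero N]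
    (σ : AlgebraicClosure ℚ ≃ₐ[ℚ] AlgebraicClosure ℚ) :
    σ ∈ (cycloLevel N).fixingSubgroup ↔ σ (zetaBar N) = zetaBar N := by
  constructor
  · intro h
    exact (IntermediateField.mem_fixingSubgroup_iff _ σ).1 h _ (zetaBar_mem_cycloLevel N)
  · intro h
    rw [IntermediateField.mem_fixingSubgroup_iff]
    intro x hx
    have hle : cycloLevel N ≤ IntermediateField.fixedField (Subgroup.zpowers σ) := by
      rw [cycloLevel, IntermediateField.adjoin_le_iff]
      rintro y rfl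
      rw [SetLike.mem_coe, IntermediateField.mem_fixedField_iff]
      intro τ hτ
      obtain ⟨k, rfl⟩ := Subgroup.mem_zpowers_iff.1 hτ
      have hfix : ∀ m : ℕ, (σ ^ m) (zetaBar N) = zetaBar N := by
        intro m
        induction m with
        | zero => simp
        | succ m ih => rw [pow_succ, AlgEquiv.mul_apply, h, ih]
      rcases Int.eq_nat_or_neg k with ⟨m, rfl | rfl⟩
      · rw [zpow_natCast]; exact hfix m
      · rw [zpow_neg, zpow_natCast]
        have := hfix m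
        calc (σ ^ m)⁻¹ (zetaBar N) = (σ ^ m)⁻¹ ((σ ^ m) (zetaBar N)) := by rw [this]
          _ = zetaBar N := by
            show ((σ ^ m)⁻¹ * (σ ^ m)) (zetaBar N) = zetaBar N
            rw [inv_mul_cancel]; rfl
    have := hle hx
    rw [IntermediateField.mem_fixedField_iff] at this
    exact this σ (Subgroup.mem_zpowers σ)

/-- Any `N`-th root of unity has valuation `1`. -/
theorem valuation_eq_one_of_pow_eq_one (A : ValuationSubring (AlgebraicClosure ℚ)) {N : ℕ}
    (hN : N ≠ 0) {a : AlgebraicClosure ℚ} (ha : a ^ N = 1) : A.valuation a = 1 := by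
  have h : (A.valuation a) ^ N = 1 := by rw [← map_pow, ha, map_one]
  exact (pow_eq_one_iff.1 h).resolve_right hN

/-- If `N` is a unit at `A` then `ℚ(ζ_N)` is fixed by the inertia group at `A`. -/
theorem inertia_le_fixingSubgroup_cycloLevel (N : ℕ) [NeZero N]
    (A : ValuationSubring (AlgebraicClosure ℚ))
    (hNv : A.valuation (N : AlgebraicClosure ℚ) = 1) :
    A.inertiaSubgroupIn ℚ ≤ (cycloLevel N).fixingSubgroup := by
  intro σ hσ
  rw [mem_fixingSubgroup_cycloLevel_iff]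
  by_contra hne
  have hz : zetaBar N ^ N = 1 := (zetaBar_spec N).pow_eq_one
  have hσz : (σ (zetaBar N)) ^ N = 1 := by rw [← map_pow, hz, map_one]
  have h1 := val_sub_roots_eq_one (A := A) (NeZero.ne N) hNv hσz hz hne
  have h2 := inertia_val_sub_lt_one A hσ (zetaBar N)
    (valuation_eq_one_of_pow_eq_one A (NeZero.ne N) hz).le
  rw [h1] at h2
  exact lt_irrefl _ h2

/-- `ℚ(ζ_{p^n})` is unramified outside every set of primes containing `p`. -/
theorem isUnramifiedOutside_cycloLevel (p : ℕ) [Fact p.Prime] (n : ℕ)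
    (S : Finset Nat.Primes) (hpS : pPrime p ∈ S) :
    (cycloLevel (p ^ n)).IsUnramifiedOutside S := by
  refine ⟨inferInstance, fun q hq A hA => ?_⟩
  apply inertia_le_fixingSubgroup_cycloLevel
  have hp : p.Prime := Fact.out
  have hqp : (q : ℕ) ≠ p := by
    rintro h
    apply hq
    have : q = pPrime p := Subtype.ext h
    rw [this]; exact hpS
  have := val_prime_eq_one (A := A) hA q.2 hp hqp
  rw [Nat.cast_pow, map_pow, this, one_pow]

end Fermat.Agent.S55.H414

end
-- ===== PACK-END S55/H414/CycloLevel.lean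

-- ===== PACK-BEGIN Lib/Cheb/H476/FrobAt.lean
section





/-!
# CHEB piece F6 (bridge), part 1: Frobenius elements at a GIVEN valuation subring of `ℚ̄`

`exists_frobenius_at`: for every valuation subring `A` of `ℚ̄` over a prime number `ℓ` there is
`σ ∈ Gal(ℚ̄/ℚ)` which is a Frobenius element at `A`, and which satisfies `σ x ≡ x ^ ℓ` modulo
the prime of `ℤ̄` below `A`.

Also: elementwise descriptions of Frobenius elements and of the inertia group.
-/

set_option autoImplicit false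

open scoped Pointwise

namespace Fermat.Agent.Lib.Cheb.H476

open Fermat.Agent.Lib.Cheb.Spec

/-- Frobenius elements exist at every valuation subring of `ℚ̄` over a prime number. -/
theorem exists_frobenius_at (ℓ : ℕ) (hℓ : ℓ.Prime) (A : ValuationSubring Qb)
    (hA : A.LiesOverPrime ℓ) :
    ∃ σ : GQ, A.IsFrobeniusAt σ ℓ ∧
      ∀ x : integralClosure ℤ Qb, σ • x - x ^ ℓ ∈ Fermat.Agent.S54.primeBelow A := by
  have : Algebra.IsAlgebraic ℚ (AlgebraicClosure ℚ) := AlgebraicClosure.isAlgebraic ℚ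
  have := Fermat.Agent.S54.primeBelow_isPrime A
  have hℓQ : (ℓ : integralClosure ℤ (AlgebraicClosure ℚ)) ∈ Fermat.Agent.S54.primeBelow A := by
    rw [Fermat.Agent.S54.mem_primeBelow]
    exact hA
  obtain ⟨σ, hσQ', hσF⟩ :=
    Fermat.Agent.S54.exists_frob_integralClosure ℓ hℓ (Fermat.Agent.S54.primeBelow A) hℓQ
  have hσQ : ∀ x, σ • x ∈ Fermat.Agent.S54.primeBelow A ↔
      x ∈ Fermat.Agent.S54.primeBelow A := by
    intro x
    conv_lhs => rw [← hσQ']
    exact Ideal.smul_mem_pointwise_smul_iff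
  have key : ∀ τ : AlgebraicClosure ℚ ≃ₐ[ℚ] AlgebraicClosure ℚ,
      (∀ x, τ • x ∈ Fermat.Agent.S54.primeBelow A ↔ x ∈ Fermat.Agent.S54.primeBelow A) →
      ∀ x ∈ A, τ x ∈ A := by
    intro τ hτ x hx
    obtain ⟨b, s, hb, hs, hsA, hxs⟩ :=
      (Fermat.Agent.S54.mem_valuationSubring_iff A ℓ hℓ hA x).mp hx
    refine (Fermat.Agent.S54.mem_valuationSubring_iff A ℓ hℓ hA (τ x)).mpr
      ⟨τ b, τ s, hb.map τ, hs.map τ, ?_, ?_⟩
    · exact (hτ ⟨s, hs⟩).not.mpr hsA
    · rw [← map_mul, hxs]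
  have hσA : σ ∈ A.decompositionSubgroup ℚ := by
    rw [MulAction.mem_stabilizer_iff]
    ext x
    rw [ValuationSubring.mem_smul_pointwise_iff_exists]
    constructor
    · rintro ⟨s, hs, rfl⟩
      exact key σ hσQ s hs
    · intro hx
      refine ⟨σ⁻¹ • x, key σ⁻¹ ?_ x hx, by simp⟩
      intro y
      rw [← hσQ (σ⁻¹ • y)]
      simp
  refine ⟨σ, ⟨hσA, ?_⟩, hσF⟩
  intro x
  obtain ⟨a, rfl⟩ := IsLocalRing.residue_surjective x
  obtain ⟨b, s, hb, hs, hsA, hxs⟩ :=
    (Fermat.Agent.S54.mem_valuationSubring_iff A ℓ hℓ hA a).mp a.2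
  have hbA : b ∈ A := Fermat.Agent.S54.isIntegral_mem_valuationSubring A hb
  have hsA' : s ∈ A := Fermat.Agent.S54.isIntegral_mem_valuationSubring A hs
  have hint : ∀ (y : AlgebraicClosure ℚ) (hy : IsIntegral ℤ y),
      (⟨σ, hσA⟩ : A.decompositionSubgroup ℚ) •
        IsLocalRing.residue A ⟨y, Fermat.Agent.S54.isIntegral_mem_valuationSubring A hy⟩ =
      (IsLocalRing.residue A ⟨y, Fermat.Agent.S54.isIntegral_mem_valuationSubring A hy⟩) ^ ℓ := by
    intro y hy
    rw [← IsLocalRing.ResidueField.residue_smul, ← map_pow, ← sub_eq_zero, ← map_sub,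
      IsLocalRing.residue_eq_zero_iff, ← ValuationSubring.coe_mem_nonunits_iff]
    exact hσF ⟨y, hy⟩
  have h1 : IsLocalRing.residue A a * IsLocalRing.residue A ⟨s, hsA'⟩ =
      IsLocalRing.residue A ⟨b, hbA⟩ := by
    rw [← map_mul]
    congr 1
    exact Subtype.ext hxs
  have h2 : IsLocalRing.residue A ⟨s, hsA'⟩ ≠ 0 := by
    rw [Ne, IsLocalRing.residue_eq_zero_iff, ← ValuationSubring.coe_mem_nonunits_iff]
    exact hsA
  have h3 := congrArg (fun z => (⟨σ, hσA⟩ : A.decompositionSubgroup ℚ) • z) h1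
  simp only [smul_mul'] at h3
  rw [hint s hs, hint b hb, ← h1, mul_pow] at h3
  exact mul_right_cancel₀ (pow_ne_zero _ h2) h3

/-- Elements of the inertia group move elements of the valuation ring by nonunits. -/
theorem sub_mem_nonunits_of_mem_inertia (A : ValuationSubring Qb) (ι : GQ)
    (hι : ι ∈ A.inertiaSubgroupIn ℚ) (a : Qb) (ha : a ∈ A) : ι a - a ∈ A.nonunits := by
  obtain ⟨ι', hι', rfl⟩ := hι
  have h1 : ι' • IsLocalRing.residue A ⟨a, ha⟩ = IsLocalRing.residue A ⟨a, ha⟩ := by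
    have := congrArg (fun f => f (IsLocalRing.residue A ⟨a, ha⟩)) (MonoidHom.mem_ker.mp hι')
    simpa using this
  rw [← IsLocalRing.ResidueField.residue_smul, ← sub_eq_zero, ← map_sub,
    IsLocalRing.residue_eq_zero_iff, ← ValuationSubring.coe_mem_nonunits_iff] at h1
  exact h1

end Fermat.Agent.Lib.Cheb.H476

end
-- ===== PACK-END Lib/Cheb/H476/FrobAt.lean

-- ===== PACK-BEGIN S22/H262/Cocycle2.lean
section


set_option autoImplicit false

/-!
# Further properties of the Eichler cocycle: upper triangular matrices, additivity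
-/

open Complex Filter Function Metric Set
open UpperHalfPlane hiding I
open scoped Real Topology Manifold ModularForm MatrixGroups

namespace Fermat.Agent.S22.H262

theorem bigG_add (n : ℕ) (E₁ E₂ : ℕ → ℍ → ℂ) (z : ℍ) (v : ℂ × ℂ) :
    bigG n (E₁ + E₂) z v = bigG n E₁ z v + bigG n E₂ z v := by
  simp only [bigG, Pi.add_apply, ← Finset.sum_add_distrib]
  refine Finset.sum_congr rfl fun j _ => ?_
  ring

theorem bigG_smul (n : ℕ) (c : ℂ) (E : ℕ → ℍ → ℂ) (z : ℍ) (v : ℂ × ℂ) :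
    bigG n (c • E) z v = c * bigG n E z v := by
  simp only [bigG, Pi.smul_apply, smul_eq_mul, Finset.mul_sum]
  refine Finset.sum_congr rfl fun j _ => ?_
  ring

theorem bigG_zero (n : ℕ) (z : ℍ) (v : ℂ × ℂ) : bigG n 0 z v = 0 := by
  simp [bigG]

theorem bigG_sum {ι : Type*} (n : ℕ) (s : Finset ι) (E : ι → ℕ → ℍ → ℂ) (z : ℍ) (v : ℂ × ℂ) :
    bigG n (∑ i ∈ s, E i) z v = ∑ i ∈ s, bigG n (E i) z v := by
  classical
  induction s using Finset.induction_on with
  | empty => simp [bigG_zero]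
  | insert a s ha ih => rw [Finset.sum_insert ha, Finset.sum_insert ha, bigG_add, ih]

/-- On the "diagonal" `v = (z y, y)` only the top term of `bigG` survives. -/
theorem bigG_diag (n : ℕ) (E : ℕ → ℍ → ℂ) (z : ℍ) (y : ℂ) :
    bigG n E z ((z : ℂ) * y, y) = (n.factorial : ℂ) * E (n + 1) z * y ^ n := by
  unfold bigG
  rw [Finset.sum_range_succ, Finset.sum_eq_zero]
  · simp [Nat.descFactorial_self]
  · intro j hj
    have hj' : j < n := Finset.mem_range.mp hj
    have : n - j ≠ 0 := by omega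
    simp [this]

theorem cocyc_add (n : ℕ) {h₁ h₂ : ℍ → ℂ} (A : GL (Fin 2) ℝ) (h1 : HasTower h₁)
    (h2 : HasTower h₂) (h1A : HasTower (h₁ ∣[(n : ℤ) + 2] A))
    (h2A : HasTower (h₂ ∣[(n : ℤ) + 2] A)) (v : ℂ × ℂ) :
    cocyc n (h₁ + h₂) A v = cocyc n h₁ A v + cocyc n h₂ A v := by
  unfold cocyc
  rw [SlashAction.add_slash, tower_add h1 h2, tower_add h1A h2A, bigG_add, bigG_add]
  ring

theorem cocyc_smul (n : ℕ) {h : ℍ → ℂ} (A : GL (Fin 2) ℝ) (hA : 0 < A.det.val)
    (hh : HasTower h) (hhA : HasTower (h ∣[(n : ℤ) + 2] A)) (c : ℂ) (v : ℂ × ℂ) :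
    cocyc n (c • h) A v = c * cocyc n h A v := by
  unfold cocyc
  have hs : (c • h) ∣[(n : ℤ) + 2] A = c • (h ∣[(n : ℤ) + 2] A) := by
    rw [ModularForm.smul_slash, UpperHalfPlane.σ, if_pos hA]
    rfl
  rw [hs, tower_smul hh, tower_smul hhA, bigG_smul, bigG_smul]
  ring

theorem cocyc_sum {ι : Type*} (n : ℕ) (s : Finset ι) (h : ι → ℍ → ℂ) (A : GL (Fin 2) ℝ)
    (hh : ∀ i ∈ s, HasTower (h i)) (hhA : ∀ i ∈ s, HasTower (h i ∣[(n : ℤ) + 2] A))
    (v : ℂ × ℂ) :
    cocyc n (∑ i ∈ s, h i) A v = ∑ i ∈ s, cocyc n (h i) A v := by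
  unfold cocyc
  rw [SlashAction.sum_slash, (tower_sum s h hh).2,
    (tower_sum s (fun i => h i ∣[(n : ℤ) + 2] A) hhA).2, bigG_sum, bigG_sum,
    ← Finset.sum_sub_distrib]

/-- The explicit tower of `h ∣[k] δ` for an upper triangular `δ` with positive determinant. -/
theorem IsTower.slash_upper (n : ℕ) {h : ℍ → ℂ} {E : ℕ → ℍ → ℂ} (hE : IsTower h E)
    (δ : GL (Fin 2) ℝ) (hδ : 0 < δ.det.val) (h10 : δ 1 0 = 0) :
    IsTower (h ∣[(n : ℤ) + 2] δ) (fun r z =>
      (δ.det.val : ℂ) ^ (n + 1) * ((δ 1 1 : ℝ) : ℂ)⁻¹ ^ (n + 2) *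
        (((δ 1 1 : ℝ) : ℂ) ^ 2 / (δ.det.val : ℂ)) ^ r * E r (δ • z)) where
  zero := by
    funext z
    rw [ModularForm.slash_apply, UpperHalfPlane.σ, if_pos hδ]
    simp only [ContinuousAlgEquiv.refl_apply, abs_of_pos hδ, pow_zero, mul_one, hE.zero]
    have e1 : ((n : ℤ) + 2 - 1) = ((n + 1 : ℕ) : ℤ) := by push_cast; ring
    have e2 : -((n : ℤ) + 2) = -((n + 2 : ℕ) : ℤ) := by push_cast; ring
    have hden : denom δ z = ((δ 1 1 : ℝ) : ℂ) := by simp [denom, h10]
    rw [e1, e2, zpow_natCast, zpow_neg, zpow_natCast, hden, inv_pow]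
    ring
  hasDeriv r z := by
    have h1 : HasDerivAt (E (r + 1) ∘ ofComplex) (E r (δ • z)) ((δ • z : ℍ) : ℂ) :=
      hE.hasDeriv r (δ • z)
    have h2 : HasDerivAt (fun w : ℂ => ((δ • ofComplex w : ℍ) : ℂ))
        (δ.det.val / denom δ z ^ 2) (z : ℂ) := (hasStrictDerivAt_smul hδ z).hasDerivAt
    have h3 := h1.comp_of_eq (x := (z : ℂ)) h2 (by simp)
    have h4 := h3.const_mul ((δ.det.val : ℂ) ^ (n + 1) * ((δ 1 1 : ℝ) : ℂ)⁻¹ ^ (n + 2) *
        (((δ 1 1 : ℝ) : ℂ) ^ 2 / (δ.det.val : ℂ)) ^ (r + 1))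
    have hden : denom δ z = ((δ 1 1 : ℝ) : ℂ) := by simp [denom, h10]
    have hdet : (δ.det.val : ℂ) ≠ 0 := by exact_mod_cast hδ.ne'
    have hd : ((δ 1 1 : ℝ) : ℂ) ≠ 0 := by
      rw [← hden]
      exact denom_ne_zero δ z
    refine (h4.congr_deriv ?_).congr_of_eventuallyEq ?_
    · rw [hden, pow_succ (((δ 1 1 : ℝ) : ℂ) ^ 2 / (δ.det.val : ℂ)) r]
      field_simp
    · filter_upwards with w
      simp [Function.comp_def]
  isZero r := by
    have h1 : Tendsto (fun z : ℍ => E (r + 1) (δ • z)) atImInfty (𝓝 0) :=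
      (hE.isZero r).comp (tendsto_smul_atImInfty h10)
    have h2 := h1.const_mul ((δ.det.val : ℂ) ^ (n + 1) * ((δ 1 1 : ℝ) : ℂ)⁻¹ ^ (n + 2) *
        (((δ 1 1 : ℝ) : ℂ) ^ 2 / (δ.det.val : ℂ)) ^ (r + 1))
    rw [mul_zero] at h2
    exact h2

theorem HasTower.slash_upper (n : ℕ) {h : ℍ → ℂ} (hh : HasTower h)
    (δ : GL (Fin 2) ℝ) (hδ : 0 < δ.det.val) (h10 : δ 1 0 = 0) :
    HasTower (h ∣[(n : ℤ) + 2] δ) :=
  ⟨_, hh.isTower.slash_upper n δ hδ h10⟩

/-- The cocycle vanishes on upper triangular matrices. -/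
theorem cocyc_upper (n : ℕ) {h : ℍ → ℂ} (hh : HasTower h)
    (δ : GL (Fin 2) ℝ) (hδ : 0 < δ.det.val) (h10 : δ 1 0 = 0) (v : ℂ × ℂ) :
    cocyc n h δ v = 0 := by
  unfold cocyc
  rw [(hh.isTower.slash_upper n δ hδ h10).tower_eq, sub_eq_zero]
  unfold bigG
  refine Finset.sum_congr rfl fun j hj => ?_
  have hj' : j ≤ n := Nat.lt_succ_iff.mp (Finset.mem_range.mp hj)
  have hden : denom δ UpperHalfPlane.I = ((δ 1 1 : ℝ) : ℂ) := by simp [denom, h10]
  have hdet : (δ.det.val : ℂ) ≠ 0 := by exact_mod_cast hδ.ne'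
  have hd : ((δ 1 1 : ℝ) : ℂ) ≠ 0 := by
    rw [← hden]
    exact denom_ne_zero δ _
  rw [actV_sub δ hδ, hden]
  have hv2 : (actV δ v).2 = ((δ 1 1 : ℝ) : ℂ) * v.2 := by simp [actV, h10]
  rw [hv2]
  obtain ⟨m, rfl⟩ : ∃ m, n = j + m := ⟨n - j, by omega⟩
  simp only [Nat.add_sub_cancel_left, div_pow, mul_pow, inv_pow]
  field_simp
  ring

end Fermat.Agent.S22.H262

end
-- ===== PACK-END S22/H262/Cocycle2.lean

-- ===== PACK-BEGIN S21/IntA.lean
section


/-!
# S21 — INT-A: the `Γ₀(N)`-partition of unity `chi N χ₁` built from an `SL(2,ℤ)`-partition `χ₁`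
-/

set_option autoImplicit false
set_option linter.unusedSectionVars false
set_option linter.style.haveILetI false

open UpperHalfPlane CongruenceSubgroup MeasureTheory
open scoped MatrixGroups ContDiff

namespace Fermat.Agent.S21

namespace IntAAux

theorem mob_mem_Uhp (g : SL(2, ℤ)) (z : ℂ) : mob g z ∈ Uhp := (g • ofComplex z).im_pos

theorem mob_mul (g h : SL(2, ℤ)) (z : ℂ) : mob (g * h) z = mob g (mob h z) := by
  simp only [mob, ofComplex_apply, mul_smul]

theorem continuousOn_mob (g : SL(2, ℤ)) : ContinuousOn (mob g) Uhp := by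
  intro z hz
  have h1 : ContinuousAt (ofComplex : ℂ → ℍ) z := (contMDiffAt_ofComplex (n := 0) hz).continuousAt
  have h2 : ContinuousAt (fun w : ℍ => g • w) (ofComplex z) :=
    (continuous_const_smul (g : GL (Fin 2) ℝ)).continuousAt
  have h3 : ContinuousAt (fun w : ℍ => (w : ℂ)) (g • ofComplex z) :=
    UpperHalfPlane.continuous_coe.continuousAt
  have h4 : ContinuousAt (fun w : ℂ => g • ofComplex w) z :=
    ContinuousAt.comp (f := (ofComplex : ℂ → ℍ)) (g := fun w : ℍ => g • w) h2 h1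
  exact (ContinuousAt.comp (f := fun w : ℂ => g • ofComplex w)
    (g := fun w : ℍ => (w : ℂ)) h3 h4).continuousWithinAt

/-- The support of `g ↦ χ₁ (mob g z)` is finite. -/
theorem finite_support (χ₁ : ℂ → ℝ) (hχ : IsSL2ZPartition χ₁) (z : ℂ) (hz : z ∈ Uhp) :
    (Function.support fun g : SL(2, ℤ) => χ₁ (mob g z)).Finite := by
  refine (hχ.locfin {z} isCompact_singleton (by simpa using hz)).subset ?_
  intro g hg
  exact ⟨z, rfl, hg⟩

/-- `chi` on the upper half plane. -/
theorem chi_of_mem (N : ℕ) (χ₁ : ℂ → ℝ) {z : ℂ} (hz : z ∈ Uhp) :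
    chi N χ₁ z = ∑ᶠ q : SL(2, ℤ) ⧸ Gamma0 N, χ₁ (mob (Quotient.out q) z) := by
  unfold chi
  rw [Set.indicator_of_mem hz]

theorem chi_of_notMem (N : ℕ) (χ₁ : ℂ → ℝ) {z : ℂ} (hz : z ∉ Uhp) :
    chi N χ₁ z = 0 := by
  unfold chi
  rw [Set.indicator_of_notMem hz]

/-- The bijection `(γ, q) ↦ q.out * γ`. -/
noncomputable def prodEquiv (Γ : Subgroup SL(2, ℤ)) : Γ × (SL(2, ℤ) ⧸ Γ) ≃ SL(2, ℤ) where
  toFun p := Quotient.out p.2 * (p.1 : SL(2, ℤ))
  invFun g := (⟨(Quotient.out (QuotientGroup.mk g : SL(2, ℤ) ⧸ Γ))⁻¹ * g, by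
      rw [← QuotientGroup.eq]
      exact QuotientGroup.out_eq' _⟩, QuotientGroup.mk g)
  left_inv := by
    rintro ⟨γ, q⟩
    have h : (QuotientGroup.mk (Quotient.out q * (γ : SL(2, ℤ))) : SL(2, ℤ) ⧸ Γ) = q := by
      rw [QuotientGroup.mk_mul_of_mem _ γ.2]
      exact QuotientGroup.out_eq' q
    ext1
    · apply Subtype.ext
      simp only [h]
      group
    · exact h
  right_inv := by
    intro g
    simp

theorem prodEquiv_apply (Γ : Subgroup SL(2, ℤ)) (γ : Γ) (q : SL(2, ℤ) ⧸ Γ) :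
    prodEquiv Γ (γ, q) = Quotient.out q * (γ : SL(2, ℤ)) := rfl

end IntAAux

open IntAAux

section INT

variable (N : ℕ) [NeZero N] {χ₁ : ℂ → ℝ}

theorem chi_nonneg (hχ : IsSL2ZPartition χ₁) (z : ℂ) : 0 ≤ chi N χ₁ z := by
  unfold chi
  exact Set.indicator_nonneg (fun w _ => finsum_nonneg fun q => hχ.nonneg _) z

theorem chi_le_one (hχ : IsSL2ZPartition χ₁) (z : ℂ) : chi N χ₁ z ≤ 1 := by
  by_cases hz : z ∈ Uhp
  · rw [chi_of_mem N χ₁ hz, ← hχ.sum_eq_one z hz]
    have hfin := finite_support χ₁ hχ z hz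
    -- rewrite the left-hand side as a sum over `SL(2,ℤ)` supported on the range of `Quotient.out`
    classical
    have hinj : Function.Injective (Quotient.out : SL(2, ℤ) ⧸ Gamma0 N → SL(2, ℤ)) :=
      Quotient.out_injective
    have h1 : ∑ᶠ q : SL(2, ℤ) ⧸ Gamma0 N, χ₁ (mob (Quotient.out q) z)
        = ∑ᶠ g ∈ Set.range (Quotient.out : SL(2, ℤ) ⧸ Gamma0 N → SL(2, ℤ)), χ₁ (mob g z) :=
      (finsum_mem_range (f := fun g : SL(2, ℤ) => χ₁ (mob g z)) hinj).symm
    rw [h1, finsum_mem_def]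
    refine finsum_le_finsum' ?_ hfin (fun g => ?_)
    · refine hfin.subset fun g hg => ?_
      simp only [Function.mem_support, ne_eq] at hg ⊢
      intro h0
      apply hg
      rw [Set.indicator_apply, h0, ite_self]
    · show Set.indicator _ _ g ≤ _
      rw [Set.indicator_apply]
      split_ifs
      · exact le_rfl
      · exact hχ.nonneg _
  · rw [chi_of_notMem N χ₁ hz]
    exact zero_le_one

theorem continuousOn_chi (hχ : IsSL2ZPartition χ₁) : ContinuousOn (chi N χ₁) Uhp := by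
  haveI : Finite (SL(2, ℤ) ⧸ Gamma0 N) := Subgroup.finite_quotient_of_finiteIndex
  letI : Fintype (SL(2, ℤ) ⧸ Gamma0 N) := Fintype.ofFinite _
  have h : ContinuousOn
      (fun z => ∑ q : SL(2, ℤ) ⧸ Gamma0 N, χ₁ (mob (Quotient.out q) z)) Uhp := by
    refine continuousOn_finsetSum _ fun q _ => ?_
    exact hχ.smooth.continuousOn.comp (continuousOn_mob _) fun z _ => mob_mem_Uhp _ z
  refine h.congr fun z hz => ?_
  rw [chi_of_mem N χ₁ hz, finsum_eq_sum_of_fintype]

theorem measurable_chi (hχ : IsSL2ZPartition χ₁) : Measurable (chi N χ₁) := by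
  classical
  have h1 : chi N χ₁ = Uhp.piecewise (chi N χ₁) (fun _ => (0 : ℝ)) := by
    funext z
    by_cases hz : z ∈ Uhp
    · rw [Set.piecewise_eq_of_mem _ _ _ hz]
    · rw [Set.piecewise_eq_of_notMem _ _ _ hz, chi_of_notMem N χ₁ hz]
  rw [h1]
  exact (continuousOn_chi N hχ).measurable_piecewise continuousOn_const isOpen_Uhp.measurableSet

theorem chi_locfin (hχ : IsSL2ZPartition χ₁) (K : Set ℂ) (hK : IsCompact K) (hKU : K ⊆ Uhp) :
    {γ : Gamma0 N | ∃ z ∈ K, chi N χ₁ (mob (γ : SL(2, ℤ)) z) ≠ 0}.Finite := by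
  haveI : Finite (SL(2, ℤ) ⧸ Gamma0 N) := Subgroup.finite_quotient_of_finiteIndex
  have hF := hχ.locfin K hK hKU
  -- the finite set of all `q.out⁻¹ * g`, `g ∈ F`
  have hfin : (Set.image2 (fun (q : SL(2, ℤ) ⧸ Gamma0 N) (g : SL(2, ℤ)) => (Quotient.out q)⁻¹ * g)
      Set.univ {g : SL(2, ℤ) | ∃ z ∈ K, χ₁ (mob g z) ≠ 0}).Finite :=
    Set.Finite.image2 _ Set.finite_univ hF
  refine Set.Finite.of_finite_image (f := fun γ : Gamma0 N => (γ : SL(2, ℤ)))
    (hfin.subset ?_) Subtype.val_injective.injOn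
  rintro _ ⟨γ, ⟨z, hzK, hz⟩, rfl⟩
  rw [chi_of_mem N χ₁ (mob_mem_Uhp _ z)] at hz
  obtain ⟨q, hq⟩ : ∃ q : SL(2, ℤ) ⧸ Gamma0 N,
      χ₁ (mob (Quotient.out q) (mob (γ : SL(2, ℤ)) z)) ≠ 0 := by
    by_contra hcon
    push Not at hcon
    exact hz (by simp [hcon])
  refine ⟨q, Set.mem_univ _, Quotient.out q * (γ : SL(2, ℤ)), ⟨z, hzK, ?_⟩, by group⟩
  rwa [mob_mul]

theorem chi_sum_eq_one (hχ : IsSL2ZPartition χ₁) (z : ℂ) (hz : z ∈ Uhp) :
    ∑ᶠ γ : Gamma0 N, chi N χ₁ (mob (γ : SL(2, ℤ)) z) = 1 := by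
  have hfin := finite_support χ₁ hχ z hz
  have h1 : ∀ γ : Gamma0 N, chi N χ₁ (mob (γ : SL(2, ℤ)) z)
      = ∑ᶠ q : SL(2, ℤ) ⧸ Gamma0 N, χ₁ (mob (prodEquiv (Gamma0 N) (γ, q)) z) := by
    intro γ
    rw [chi_of_mem N χ₁ (mob_mem_Uhp _ z)]
    refine finsum_congr fun q => ?_
    rw [prodEquiv_apply, mob_mul]
  simp only [h1]
  have hfin' : (Function.support fun p : Gamma0 N × (SL(2, ℤ) ⧸ Gamma0 N) =>
      χ₁ (mob (prodEquiv (Gamma0 N) p) z)).Finite := by
    have : (Function.support fun p : Gamma0 N × (SL(2, ℤ) ⧸ Gamma0 N) =>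
        χ₁ (mob (prodEquiv (Gamma0 N) p) z))
        = (prodEquiv (Gamma0 N)) ⁻¹' (Function.support fun g : SL(2, ℤ) => χ₁ (mob g z)) := rfl
    rw [this]
    exact hfin.preimage (prodEquiv (Gamma0 N)).injective.injOn
  rw [← finsum_curry (fun p : Gamma0 N × (SL(2, ℤ) ⧸ Gamma0 N) =>
      χ₁ (mob (prodEquiv (Gamma0 N) p) z)) hfin']
  rw [finsum_comp_equiv (prodEquiv (Gamma0 N)) (f := fun g : SL(2, ℤ) => χ₁ (mob g z))]
  exact hχ.sum_eq_one z hz

end INT

end Fermat.Agent.S21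

end
-- ===== PACK-END S21/IntA.lean

-- ===== PACK-BEGIN S24/Deg/H457_Alg.lean
section




/-!
# S24 / DEG-ALG (helper457), part 3: the degree bound from relations over `ℂ`

Interface hypothesis `Hyp L N n` (to be proved analytically for `L = ℂ`, `n = |SL₂(ℤ)/Γ₀(N)|`):
every element of the `L`-subalgebra of `L((q))` generated by the `j(q^d)`, `d ∣ N`, is a root of a
monic polynomial of degree `n` with coefficients in `L[j]`.

Main result: `finiteDimensional_and_finrank_le`.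
-/

set_option autoImplicit false

noncomputable section

open Polynomial ModularCurve IntermediateField

namespace Fermat.Agent.S24.Deg457

section General

variable (K : Type*) [Field K] [Algebra ℚ K]

/-- `j` as a Laurent series over `K` -/
def JK : LaurentSeries K := coeffEmb K jq

theorem JK_eq : JK K = jqModC K := by
  rw [JK, coeffEmb, ← jqModC_rat, coeffMap_jqModC]

theorem aeval_JK_ne_zero {t : K[X]} (ht : t ≠ 0) : aeval (JK K) t ≠ 0 := by
  intro hp
  rw [JK_eq] at hp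
  set n := t.natDegree with hn
  have hcoeff : (aeval (jqModC K) t).coeff (-(n : ℤ)) = t.coeff n := by
    rw [aeval_def, eval₂_eq_sum_range, HahnSeries.coeff_sum, Finset.sum_eq_single n]
    · rw [algebraMap_laurentSeries_eq_single, HahnSeries.coeff_single_zero_mul,
        coeff_jqModC_pow_self, mul_one]
    · intro i hi hin
      have hilt : i < n := lt_of_le_of_ne (Nat.lt_succ_iff.mp (Finset.mem_range.mp hi)) hin
      rw [algebraMap_laurentSeries_eq_single, HahnSeries.coeff_single_zero_mul,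
        coeff_jqModC_pow_of_lt, mul_zero]
      omega
    · intro hn'
      exact absurd (Finset.self_mem_range_succ n) hn'
  rw [hp] at hcoeff
  simp only [HahnSeries.coeff_zero] at hcoeff
  exact ht (leadingCoeff_eq_zero.mp hcoeff.symm)

/-- the generators `j(q^d)`, `d ∣ N`, over `K` -/
def gens (N : ℕ) : Set (LaurentSeries K) := ⇑(coeffEmb K) '' divisorExpansions N

/-- the `K`-algebra generated by the `j(q^d)` -/
def AK (N : ℕ) : Subalgebra K (LaurentSeries K) := Algebra.adjoin K (gens K N)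

theorem JK_mem_gens (N : ℕ) : JK K ∈ gens K N := by
  refine ⟨jq, ?_, rfl⟩
  have := mem_divisorExpansions N (d := 1) (one_dvd N)
  rwa [qExpand_one_apply] at this

theorem JK_mem_AK (N : ℕ) : JK K ∈ AK K N := Algebra.subset_adjoin (JK_mem_gens K N)

theorem aeval_JK_mem_AK (N : ℕ) (t : K[X]) : aeval (JK K) t ∈ AK K N := by
  rw [aeval_def, eval₂_eq_sum_range]
  refine Subalgebra.sum_mem _ fun i _ => ?_
  exact Subalgebra.mul_mem _ (Subalgebra.algebraMap_mem _ _)
    (Subalgebra.pow_mem _ (JK_mem_AK K N) _)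

/-- The interface hypothesis. -/
def Hyp (N n : ℕ) : Prop :=
  ∀ b ∈ AK K N, ∃ P : K[X][X], P.Monic ∧ P.natDegree = n ∧ P.eval₂ (evJ (JK K)) b = 0

/-- `x` is a root of a nonzero polynomial of degree `≤ n` over `K[j]`. -/
def AlgDeg (n : ℕ) (x : LaurentSeries K) : Prop :=
  ∃ Q : K[X][X], Q ≠ 0 ∧ Q.natDegree ≤ n ∧ Q.eval₂ (evJ (JK K)) x = 0

variable {K}

theorem eval₂_mem_AK {N : ℕ} (Q : K[X][X]) {s : LaurentSeries K} (hs : s ∈ AK K N) :
    Q.eval₂ (evJ (JK K)) s ∈ AK K N := by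
  rw [eval₂_eq_sum_range]
  refine Subalgebra.sum_mem _ fun i _ => ?_
  exact Subalgebra.mul_mem _ (aeval_JK_mem_AK K N _) (Subalgebra.pow_mem _ hs _)

theorem AlgDeg.of_mul_eq {n : ℕ} {x a : LaurentSeries K} {t : K[X]} (ht : t ≠ 0)
    (hxa : x * aeval (JK K) t = a) (ha : AlgDeg K n a) : AlgDeg K n x := by
  obtain ⟨Q, hQ0, hQn, hQ⟩ := ha
  have hlin : (C t * X : K[X][X]) ≠ C ((C t * X : K[X][X]).coeff 0) := by
    intro h
    have h1 := congrArg (fun p : K[X][X] => p.coeff 1) h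
    simp only [coeff_C_mul, coeff_X_one, mul_one, coeff_X_zero, mul_zero, map_zero,
      coeff_zero] at h1
    exact ht h1
  refine ⟨Q.comp (C t * X), ?_, ?_, ?_⟩
  · intro h
    rcases (comp_eq_zero_iff.mp h) with h | ⟨_, h⟩
    · exact hQ0 h
    · exact hlin h
  · rw [natDegree_comp]
    have : (C t * X : K[X][X]).natDegree ≤ 1 := by
      refine (natDegree_C_mul_le _ _).trans ?_
      exact natDegree_X_le
    calc Q.natDegree * (C t * X : K[X][X]).natDegree ≤ Q.natDegree * 1 :=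
          Nat.mul_le_mul_left _ this
      _ = Q.natDegree := mul_one _
      _ ≤ n := hQn
  · rw [eval₂_comp, eval₂_mul, eval₂_C, eval₂_X, evJ_apply, mul_comm, hxa]
    exact hQ

/-- a nonzero algebraic element of `A` has an "inverse up to a polynomial in `j`" in `A`. -/
theorem exists_mul_eq_aeval {N n : ℕ} {s : LaurentSeries K} (hs : s ∈ AK K N) (hs0 : s ≠ 0)
    (ha : AlgDeg K n s) : ∃ g ∈ AK K N, ∃ t : K[X], t ≠ 0 ∧ s * g = aeval (JK K) t := by
  obtain ⟨Q, hQ0, -, hQ⟩ := ha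
  -- strong induction on the degree to reach a nonzero constant coefficient
  have key : ∀ m : ℕ, ∀ Q : K[X][X], Q.natDegree ≤ m → Q ≠ 0 → Q.eval₂ (evJ (JK K)) s = 0 →
      ∃ Q₁ : K[X][X], Q₁.coeff 0 ≠ 0 ∧ Q₁.eval₂ (evJ (JK K)) s = 0 := by
    intro m
    induction m with
    | zero =>
      intro Q hdeg hQ0 hQ
      refine ⟨Q, ?_, hQ⟩
      intro h0
      apply hQ0
      rw [eq_C_of_natDegree_le_zero hdeg, h0, map_zero]
    | succ m ih =>
      intro Q hdeg hQ0 hQ
      by_cases h0 : Q.coeff 0 = 0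
      · have hdiv : Q = divX Q * X := by
          conv_lhs => rw [← divX_mul_X_add Q, h0, map_zero, add_zero]
        have hd0 : divX Q ≠ 0 := by
          intro h; apply hQ0; rw [hdiv, h, zero_mul]
        have hev : (divX Q).eval₂ (evJ (JK K)) s = 0 := by
          rw [hdiv, eval₂_mul, eval₂_X] at hQ
          rcases mul_eq_zero.mp hQ with h | h
          · exact h
          · exact absurd h hs0
        refine ih (divX Q) ?_ hd0 hev
        rw [natDegree_divX_eq_natDegree_tsub_one]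
        omega
      · exact ⟨Q, h0, hQ⟩
  obtain ⟨Q₁, h0, hQ₁⟩ := key Q.natDegree Q le_rfl hQ0 hQ
  refine ⟨-(divX Q₁).eval₂ (evJ (JK K)) s, Subalgebra.neg_mem _ (eval₂_mem_AK _ hs),
    Q₁.coeff 0, h0, ?_⟩
  have hsplit : Q₁.eval₂ (evJ (JK K)) s
      = (divX Q₁).eval₂ (evJ (JK K)) s * s + aeval (JK K) (Q₁.coeff 0) := by
    conv_lhs => rw [← divX_mul_X_add Q₁]
    rw [eval₂_add, eval₂_mul, eval₂_X, eval₂_C, evJ_apply]
  rw [hQ₁] at hsplit
  linear_combination hsplit

end General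

section Descent

variable {K L : Type*} [Field K] [Algebra ℚ K] [Field L] [Algebra ℚ L]

theorem coeffMap_coeffEmb' (ι : K →+* L) (y : LaurentSeries ℚ) :
    coeffMap ι (coeffEmb K y) = coeffEmb L y := by
  rw [coeffEmb, coeffMap_coeffMap, coeffEmb]
  exact coeffMap_congr (Subsingleton.elim _ _) y

theorem coeffMap_JK (ι : K →+* L) : coeffMap ι (JK K) = JK L := coeffMap_coeffEmb' ι jq

theorem coeffMap_mem_AK (ι : K →+* L) {N : ℕ} {a : LaurentSeries K} (ha : a ∈ AK K N) :
    coeffMap ι a ∈ AK L N := by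
  unfold AK at ha
  induction ha using Algebra.adjoin_induction with
  | mem x hx =>
    obtain ⟨y, hy, rfl⟩ := hx
    rw [coeffMap_coeffEmb']
    exact Algebra.subset_adjoin ⟨y, hy, rfl⟩
  | algebraMap r =>
    rw [coeffMap_algebraMap']
    exact Subalgebra.algebraMap_mem _ _
  | add x y _ _ hx hy =>
    rw [map_add]; exact Subalgebra.add_mem _ hx hy
  | mul x y _ _ hx hy =>
    rw [map_mul]; exact Subalgebra.mul_mem _ hx hy

/-- Lemma B: elements of `A_K` are algebraic of degree `≤ n` over `K[j]`, given the hypothesis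
over the bigger field `L`. -/
theorem algDeg_of_mem_AK (ι : K →+* L) {N n : ℕ} (hyp : Hyp L N n) {a : LaurentSeries K}
    (ha : a ∈ AK K N) : AlgDeg K n a := by
  obtain ⟨P, hP, hn, h0⟩ := hyp _ (coeffMap_mem_AK ι ha)
  rw [← coeffMap_JK ι] at h0
  exact exists_relation_of_coeffMap_monic ι (JK K) a n P hP hn h0

end Descent

section Field

variable {K L : Type*} [Field K] [Algebra ℚ K] [Field L] [Algebra ℚ L]

theorem coeffEmb_mem_adjoin_gens (N : ℕ) {y : LaurentSeries ℚ}
    (hy : y ∈ IntermediateField.adjoin ℚ (divisorExpansions N)) :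
    coeffEmb K y ∈ IntermediateField.adjoin K (gens K N) := by
  refine IntermediateField.adjoin_induction ℚ
    (p := fun y _ => coeffEmb K y ∈ IntermediateField.adjoin K (gens K N)) ?_ ?_ ?_ ?_ ?_ hy
  · intro x hx
    exact IntermediateField.subset_adjoin K _ ⟨x, hx, rfl⟩
  · intro c
    have : coeffEmb K (algebraMap ℚ (LaurentSeries ℚ) c)
        = algebraMap K (LaurentSeries K) (algebraMap ℚ K c) := by
      rw [coeffEmb, coeffMap_algebraMap']
    rw [this]
    exact IntermediateField.algebraMap_mem _ _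
  · intro x y _ _ hx hy
    rw [map_add]; exact add_mem hx hy
  · intro x _ hx
    rw [map_inv₀]; exact inv_mem hx
  · intro x y _ _ hx hy
    rw [map_mul]; exact mul_mem hx hy

/-- the base-changed function field is generated over `K` by the `j(q^d)`. -/
theorem laurentBaseChange_full_le (N : ℕ) :
    laurentBaseChange K (modularFunctionFieldFull N) ≤ IntermediateField.adjoin K (gens K N) := by
  rw [laurentBaseChange, IntermediateField.adjoin_le_iff]
  rintro _ ⟨y, hy, rfl⟩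
  exact coeffEmb_mem_adjoin_gens N hy

/-- Lemma H: every element of the function field is algebraic of degree `≤ n` over `K[j]`. -/
theorem algDeg_of_mem_field (ι : K →+* L) {N n : ℕ} (hyp : Hyp L N n) {x : LaurentSeries K}
    (hx : x ∈ laurentBaseChange K (modularFunctionFieldFull N)) : AlgDeg K n x := by
  have hx' := laurentBaseChange_full_le (K := K) N hx
  rw [IntermediateField.mem_adjoin_iff_div] at hx'
  obtain ⟨r, hr, s, hs, rfl⟩ := hx'
  have hr' : r ∈ AK K N := hr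
  have hs' : s ∈ AK K N := hs
  by_cases hs0 : s = 0
  · subst hs0
    rw [div_zero]
    exact algDeg_of_mem_AK ι hyp (Subalgebra.zero_mem _)
  · obtain ⟨g, hg, t, ht, hst⟩ := exists_mul_eq_aeval hs' hs0 (algDeg_of_mem_AK ι hyp hs')
    refine AlgDeg.of_mul_eq (a := r * g) ht ?_ (algDeg_of_mem_AK ι hyp (Subalgebra.mul_mem _ hr' hg))
    rw [← hst]
    field_simp

end Field

end Fermat.Agent.S24.Deg457

end
end
-- ===== PACK-END S24/Deg/H457_Alg.lean

-- ===== PACK-BEGIN S21/H381/Parabolic.lean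
section




/-!
# S21, piece B: periods of cusp forms are parabolic homomorphisms
-/

set_option autoImplicit false

namespace Fermat.Agent.S21.H381

open CongruenceSubgroup ModularCurve ModularCurve.Period Filter Topology Function Complex
open UpperHalfPlane hiding I
open scoped Manifold MatrixGroups ModularForm

/-- An element of `SL(2, ℤ)` with `trace ^ 2 = 4` is conjugate (as a Möbius transformation)
to a translation `T ^ n`. -/
theorem exists_conj_T_zpow (γ : SL(2, ℤ))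
    (htr : ((γ : Matrix (Fin 2) (Fin 2) ℤ).trace) ^ 2 = 4) :
    ∃ δ : SL(2, ℤ), ∃ n : ℤ, ∀ w : ℍ, γ • (δ • w) = δ • (ModularGroup.T ^ n • w) := by
  have hdet := γ.det_coe
  rw [Matrix.det_fin_two] at hdet
  rw [Matrix.trace_fin_two] at htr
  by_cases hc : γ 1 0 = 0
  · obtain ⟨n, hn⟩ := ModularGroup.exists_eq_T_zpow_of_c_eq_zero hc
    exact ⟨1, n, fun w => by simp [hn]⟩
  · set a := γ 0 0 with ha
    set b := γ 0 1 with hb
    set c := γ 1 0 with hc'
    set d := γ 1 1 with hd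
    set g : ℤ := (Int.gcd (a - d) (2 * c) : ℤ) with hg
    have hg0 : g ≠ 0 := by
      rw [hg]
      intro h
      have h2 : Int.gcd (a - d) (2 * c) = 0 := by exact_mod_cast h
      rw [Int.gcd_eq_zero_iff] at h2
      have : c = 0 := by omega
      exact hc this
    have hga : g ∣ (a - d) := Int.gcd_dvd_left _ _
    have hgc : g ∣ (2 * c) := Int.gcd_dvd_right _ _
    obtain ⟨p, hp⟩ := hga
    obtain ⟨q, hq⟩ := hgc
    have hcop : IsCoprime p q := by
      have hbez := Int.gcd_eq_gcd_ab (a - d) (2 * c)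
      rw [← hg] at hbez
      refine ⟨Int.gcdA (a - d) (2 * c), Int.gcdB (a - d) (2 * c), ?_⟩
      have : g * (Int.gcdA (a - d) (2 * c) * p + Int.gcdB (a - d) (2 * c) * q) = g * 1 := by
        have e1 : g * p = a - d := hp.symm
        have e2 : g * q = 2 * c := hq.symm
        calc g * (Int.gcdA (a - d) (2 * c) * p + Int.gcdB (a - d) (2 * c) * q)
            = (g * p) * Int.gcdA (a - d) (2 * c) + (g * q) * Int.gcdB (a - d) (2 * c) := by ring
          _ = g := by rw [e1, e2]; exact hbez.symm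
          _ = g * 1 := (mul_one g).symm
      exact mul_left_cancel₀ hg0 this
    obtain ⟨δ, hδ0, hδ1⟩ := hcop.exists_SL2_col 0
    have hδdet := δ.det_coe
    rw [Matrix.det_fin_two, hδ0, hδ1] at hδdet
    have hM : (δ⁻¹ * γ * δ) 1 0 = 0 := by
      have hQ : g ^ 2 * (c * p ^ 2 + (d - a) * p * q - b * q ^ 2) = 0 := by
        have e1 : g * p = a - d := hp.symm
        have e2 : g * q = 2 * c := hq.symm
        have : g ^ 2 * (c * p ^ 2 + (d - a) * p * q - b * q ^ 2)
            = c * (g * p) ^ 2 + (d - a) * (g * p) * (g * q) - b * (g * q) ^ 2 := by ring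
        rw [this, e1, e2]
        have h4 : (a + d) ^ 2 = 4 := htr
        have h1 : a * d - b * c = 1 := hdet
        linear_combination (-c) * h4 + (4 * c) * h1
      have hQ' : c * p ^ 2 + (d - a) * p * q - b * q ^ 2 = 0 := by
        rcases mul_eq_zero.mp hQ with h | h
        · exact absurd (pow_eq_zero_iff two_ne_zero |>.mp h) hg0
        · exact h
      simp only [Matrix.SpecialLinearGroup.coe_mul, Matrix.SpecialLinearGroup.coe_inv,
        Matrix.adjugate_fin_two, Matrix.mul_apply, Fin.sum_univ_two, Matrix.of_apply,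
        Matrix.cons_val', Matrix.cons_val_zero, Matrix.cons_val_one, Matrix.empty_val',
        Matrix.cons_val_fin_one, hδ0, hδ1]
      rw [← ha, ← hb, ← hc', ← hd]
      linear_combination hQ'
    obtain ⟨n, hn⟩ := ModularGroup.exists_eq_T_zpow_of_c_eq_zero hM
    refine ⟨δ, n, fun w => ?_⟩
    rw [← hn w, ← mul_smul, ← mul_smul]
    congr 1
    group

/-- Translation by `T ^ n` preserves the filter `atImInfty`. -/
theorem tendsto_T_zpow_smul_atImInfty (n : ℤ) :
    Tendsto (fun w : ℍ => ModularGroup.T ^ n • w) atImInfty atImInfty := by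
  rw [atImInfty, tendsto_comap_iff]
  have : (UpperHalfPlane.im ∘ fun w : ℍ => ModularGroup.T ^ n • w) = UpperHalfPlane.im := by
    funext w
    exact ModularGroup.im_T_zpow_smul w n
  rw [this]
  exact tendsto_comap

variable {N : ℕ} [NeZero N]

/-- **Piece B**: the period homomorphism of a cusp form kills every `γ` with `trace ^ 2 = 4`. -/
theorem periodMap_mem_parabolicHoms (f : CuspForm (Gamma0 N) 2) :
    periodMap N f ∈ parabolicHoms ℂ (Gamma0 N) ℂ := by
  rw [mem_parabolicHoms_iff]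
  intro γ hγ
  obtain ⟨F, hF⟩ := exists_hasEquivariantPrimitive f
  obtain ⟨δ, n, hδ⟩ := exists_conj_T_zpow (γ : SL(2, ℤ)) hγ
  obtain ⟨L, hL⟩ := hF.2.2.2 δ
  have hconst : ∀ w : ℍ, periodMap N f (Additive.ofMul γ)
      = F (δ • (ModularGroup.T ^ n • w)) - F (δ • w) := by
    intro w
    rw [periodMap_apply hF γ (δ • w), hδ w]
  have h1 : Tendsto (fun w : ℍ => F (δ • (ModularGroup.T ^ n • w)) - F (δ • w)) atImInfty
      (𝓝 (L - L)) :=
    (hL.comp (tendsto_T_zpow_smul_atImInfty n)).sub hL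
  have h2 : Tendsto (fun w : ℍ => F (δ • (ModularGroup.T ^ n • w)) - F (δ • w)) atImInfty
      (𝓝 (periodMap N f (Additive.ofMul γ))) := by
    have : (fun w : ℍ => F (δ • (ModularGroup.T ^ n • w)) - F (δ • w))
        = fun _ => periodMap N f (Additive.ofMul γ) := funext fun w => (hconst w).symm
    rw [this]; exact tendsto_const_nhds
  have := tendsto_nhds_unique h2 h1
  rw [sub_self] at this
  exact this

/-- **Piece B'**: the range of `periodHomPair` consists of parabolic homomorphisms. -/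
theorem range_periodHomPair_le :
    LinearMap.range (periodHomPair N) ≤ parabolicHoms ℂ (Gamma0 N) ℂ := by
  rintro ψ ⟨⟨f, g⟩, rfl⟩
  rw [periodHomPair_apply]
  have hf := periodMap_mem_parabolicHoms f
  have hg := periodMap_mem_parabolicHoms g
  exact Submodule.add_mem _
    (Submodule.add_mem _ hf (charInvolution_mem_parabolicHoms N ℂ ℂ hf))
    (Submodule.sub_mem _ hg (charInvolution_mem_parabolicHoms N ℂ ℂ hg))

end Fermat.Agent.S21.H381

end
-- ===== PACK-END S21/H381/Parabolic.lean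

-- ===== PACK-BEGIN S29/M4a/Fac.lean
section
/-
S29 / M4a-TOP (helper391) — part 1: the factorisation `heckeFac` of `DefsM.lean` coincides with the
transfer element `H201.trf` of helper201's `Transfer.lean` (Prelude coset representatives).

* `M4aTop_heckeRep_unique` : uniqueness of `t * heckeRep ℓ j` (integer matrices, `det t = 1`).
* `M4aTop_heckeFac_eq`     : `IsHeckeFactor ℓ γ i q → heckeFac N ℓ γ i = q`.
* `M4aTop_idx`             : the bijection `Option (Fin ℓ) ≃ OnePoint (ZMod ℓ)`.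
* `M4aTop_isHeckeFactor_trf`, `M4aTop_heckeFac_eq_trf`, `M4aTop_heckeCoh_eq_sum_trf`.
-/



set_option autoImplicit false

noncomputable section

namespace Fermat.Agent.S29

open CongruenceSubgroup Matrix.SpecialLinearGroup
open scoped MatrixGroups

/-! ### Uniqueness of the factorisation -/

theorem M4aTop_heckeRep_none (ℓ : ℕ) : heckeRep ℓ none = !![(ℓ : ℤ), 0; 0, 1] := rfl

theorem M4aTop_heckeRep_some (ℓ : ℕ) (b : Fin ℓ) :
    heckeRep ℓ (some b) = !![1, ((b : ℕ) : ℤ); 0, (ℓ : ℤ)] := rfl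

theorem M4aTop_det_heckeRep (ℓ : ℕ) (j : Option (Fin ℓ)) : (heckeRep ℓ j).det = (ℓ : ℤ) := by
  cases j with
  | none => rw [M4aTop_heckeRep_none, Matrix.det_fin_two_of]; ring
  | some b => rw [M4aTop_heckeRep_some, Matrix.det_fin_two_of]; ring

/-- Right cancellation of a coset representative. -/
theorem M4aTop_mul_heckeRep_cancel {ℓ : ℕ} (hℓ : ℓ ≠ 0) (j : Option (Fin ℓ))
    {t t' : Matrix (Fin 2) (Fin 2) ℤ} (h : t * heckeRep ℓ j = t' * heckeRep ℓ j) : t = t' := by
  have h2 := congrArg (fun M => M * (heckeRep ℓ j).adjugate) h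
  simp only [Matrix.mul_assoc, Matrix.mul_adjugate, M4aTop_det_heckeRep] at h2
  have hℓ' : (ℓ : ℤ) ≠ 0 := by exact_mod_cast hℓ
  ext a b
  have h3 := congrFun (congrFun h2 a) b
  simp only [Matrix.mul_smul, Matrix.mul_one, Matrix.smul_apply, smul_eq_mul] at h3
  exact mul_left_cancel₀ hℓ' h3

theorem M4aTop_heckeRep_unique {ℓ : ℕ} (hℓ : 2 ≤ ℓ) {t t' : Matrix (Fin 2) (Fin 2) ℤ}
    (ht : t.det = 1) (ht' : t'.det = 1) {j j' : Option (Fin ℓ)}
    (h : t * heckeRep ℓ j = t' * heckeRep ℓ j') : j = j' ∧ t = t' := by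
  have hℓ0 : ℓ ≠ 0 := by omega
  have hj : j = j' := by
    rw [Matrix.det_fin_two] at ht ht'
    have h00 := congrFun (congrFun h 0) 0
    have h01 := congrFun (congrFun h 0) 1
    have h10 := congrFun (congrFun h 1) 0
    have h11 := congrFun (congrFun h 1) 1
    have hnot : ¬ ((ℓ : ℤ) ∣ 1) := by
      intro hd
      have := Int.le_of_dvd one_pos hd
      have : (2 : ℤ) ≤ ℓ := by exact_mod_cast hℓ
      omega
    cases j with
    | none =>
      cases j' with
      | none => rfl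
      | some b' =>
        exfalso
        simp only [M4aTop_heckeRep_none, M4aTop_heckeRep_some, Matrix.mul_apply, Fin.sum_univ_two,
          Matrix.of_apply, Matrix.cons_val_zero, Matrix.cons_val_one, Matrix.cons_val',
          Matrix.cons_val_fin_one] at h00 h10
        -- `t' 0 0 = ℓ * t 0 0`, `t' 1 0 = ℓ * t 1 0`
        apply hnot
        refine ⟨t 0 0 * t' 1 1 - t' 0 1 * t 1 0, ?_⟩
        rw [← ht']
        have e0 : t' 0 0 = t 0 0 * ℓ := by linarith
        have e1 : t' 1 0 = t 1 0 * ℓ := by linarith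
        rw [e0, e1]; ring
    | some b =>
      cases j' with
      | none =>
        exfalso
        simp only [M4aTop_heckeRep_none, M4aTop_heckeRep_some, Matrix.mul_apply, Fin.sum_univ_two,
          Matrix.of_apply, Matrix.cons_val_zero, Matrix.cons_val_one, Matrix.cons_val',
          Matrix.cons_val_fin_one] at h00 h10
        apply hnot
        refine ⟨t' 0 0 * t 1 1 - t 0 1 * t' 1 0, ?_⟩
        rw [← ht]
        have e0 : t 0 0 = t' 0 0 * ℓ := by linarith
        have e1 : t 1 0 = t' 1 0 * ℓ := by linarith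
        rw [e0, e1]; ring
      | some b' =>
        simp only [M4aTop_heckeRep_some, Matrix.mul_apply, Fin.sum_univ_two,
          Matrix.of_apply, Matrix.cons_val_zero, Matrix.cons_val_one, Matrix.cons_val',
          Matrix.cons_val_fin_one] at h00 h01 h10 h11
        have e0 : t 0 0 = t' 0 0 := by linarith
        have e1 : t 1 0 = t' 1 0 := by linarith
        -- `(b - b') = ℓ * (...)`
        have hd : (ℓ : ℤ) ∣ ((b : ℕ) : ℤ) - ((b' : ℕ) : ℤ) := by
          refine ⟨(t' 0 1 - t 0 1) * t 1 1 - (t' 1 1 - t 1 1) * t 0 1, ?_⟩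
          have k0 : t 0 0 * ((b : ℕ) : ℤ) + t 0 1 * ℓ = t 0 0 * ((b' : ℕ) : ℤ) + t' 0 1 * ℓ := by
            rw [← e0] at h01; exact h01
          have k1 : t 1 0 * ((b : ℕ) : ℤ) + t 1 1 * ℓ = t 1 0 * ((b' : ℕ) : ℤ) + t' 1 1 * ℓ := by
            rw [← e1] at h11; exact h11
          have : ((b : ℕ) : ℤ) - ((b' : ℕ) : ℤ)
              = (t 0 0 * t 1 1 - t 0 1 * t 1 0) * (((b : ℕ) : ℤ) - ((b' : ℕ) : ℤ)) := by
            rw [ht, one_mul]
          rw [this]
          linear_combination t 1 1 * k0 - t 0 1 * k1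
        have hb : (b : ℕ) < ℓ := b.2
        have hb' : (b' : ℕ) < ℓ := b'.2
        have : ((b : ℕ) : ℤ) - ((b' : ℕ) : ℤ) = 0 := by
          apply Int.eq_zero_of_abs_lt_dvd hd
          rw [abs_lt]
          constructor <;> omega
        have hbb : (b : ℕ) = (b' : ℕ) := by omega
        rw [Fin.ext hbb]
  subst hj
  exact ⟨rfl, M4aTop_mul_heckeRep_cancel hℓ0 j h⟩

theorem M4aTop_G0_ext {N : ℕ} {γ γ' : G0 N} (h : γ.mat = γ'.mat) : γ = γ' :=
  Subtype.ext (Subtype.ext h)

theorem M4aTop_det_mat {N : ℕ} (γ : G0 N) : γ.mat.det = 1 := (γ : SL(2, ℤ)).2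

theorem M4aTop_isHeckeFactor_unique {N ℓ : ℕ} (hℓ : 2 ≤ ℓ) {γ : G0 N} {i : Option (Fin ℓ)}
    {q q' : Option (Fin ℓ) × G0 N} (hq : IsHeckeFactor ℓ γ i q) (hq' : IsHeckeFactor ℓ γ i q') :
    q = q' := by
  have h : q.2.mat * heckeRep ℓ q.1 = q'.2.mat * heckeRep ℓ q'.1 := by
    rw [← hq, ← hq']
  obtain ⟨h1, h2⟩ := M4aTop_heckeRep_unique hℓ (M4aTop_det_mat q.2) (M4aTop_det_mat q'.2) h
  exact Prod.ext h1 (M4aTop_G0_ext h2)

theorem M4aTop_heckeFac_spec {N ℓ : ℕ} {γ : G0 N} {i : Option (Fin ℓ)}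
    (h : ∃ q : Option (Fin ℓ) × G0 N, IsHeckeFactor ℓ γ i q) :
    IsHeckeFactor ℓ γ i (heckeFac N ℓ γ i) := by
  unfold heckeFac
  rw [dif_pos h]
  exact Classical.choose_spec h

theorem M4aTop_heckeFac_eq {N ℓ : ℕ} (hℓ : 2 ≤ ℓ) {γ : G0 N} {i : Option (Fin ℓ)}
    {q : Option (Fin ℓ) × G0 N} (hq : IsHeckeFactor ℓ γ i q) : heckeFac N ℓ γ i = q :=
  M4aTop_isHeckeFactor_unique hℓ (M4aTop_heckeFac_spec ⟨q, hq⟩) hq


/-! ### Comparison with the Prelude coset representatives and `H201.trf` -/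

/-- The Prelude's coset representative (in `GL₂(ℝ)`, indexed by `ℙ¹(𝔽_ℓ)`). -/
abbrev M4aTop_pRep (ℓ : ℕ) (x : OnePoint (ZMod ℓ)) : GL (Fin 2) ℝ :=
  P2MW.S_ModularForm_heckeT_slash_eq_self_of_mem_Gamma0.ModularForm.HeckeSlashInvariance.heckeRep
    ℓ x

/-- The index bijection `Option (Fin ℓ) ≃ OnePoint (ZMod ℓ)`. -/
def M4aTop_idx (ℓ : ℕ) [NeZero ℓ] : Option (Fin ℓ) ≃ OnePoint (ZMod ℓ) :=
  Equiv.optionCongr (ZMod.finEquiv ℓ).toEquiv

theorem M4aTop_idx_none (ℓ : ℕ) [NeZero ℓ] : M4aTop_idx ℓ none = OnePoint.infty := rfl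

theorem M4aTop_idx_some (ℓ : ℕ) [NeZero ℓ] (b : Fin ℓ) :
    M4aTop_idx ℓ (some b) = OnePoint.some (ZMod.finEquiv ℓ b) := rfl

theorem M4aTop_val_finEquiv (ℓ : ℕ) [NeZero ℓ] (b : Fin ℓ) : (ZMod.finEquiv ℓ b).val = (b : ℕ) := by
  cases ℓ with
  | zero => exact (NeZero.ne 0 rfl).elim
  | succ n => rfl

/-- The Prelude representative is the real image of the integral one. -/
theorem M4aTop_pRep_idx (ℓ : ℕ) [NeZero ℓ] (i : Option (Fin ℓ)) :
    ((M4aTop_pRep ℓ (M4aTop_idx ℓ i) : GL (Fin 2) ℝ) : Matrix (Fin 2) (Fin 2) ℝ)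
      = (heckeRep ℓ i).map (Int.castRingHom ℝ) := by
  have hℓ : ℓ ≠ 0 := NeZero.ne ℓ
  cases i with
  | none =>
    rw [M4aTop_idx_none, M4aTop_heckeRep_none]
    show ((ModularForm.heckeDiagMatrix ℓ : GL (Fin 2) ℝ) : Matrix (Fin 2) (Fin 2) ℝ) = _
    rw [ModularForm.val_heckeDiagMatrix hℓ]
    ext a b
    fin_cases a <;> fin_cases b <;> simp
  | some b =>
    rw [M4aTop_idx_some, M4aTop_heckeRep_some]
    show ((ModularForm.heckeMatrix ℓ (ZMod.finEquiv ℓ b).val : GL (Fin 2) ℝ) :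
      Matrix (Fin 2) (Fin 2) ℝ) = _
    rw [ModularForm.val_heckeMatrix hℓ, M4aTop_val_finEquiv]
    ext a b
    fin_cases a <;> fin_cases b <;> simp

theorem M4aTop_mapGL_coe {N : ℕ} (γ : G0 N) :
    ((mapGL ℝ (γ : SL(2, ℤ)) : GL (Fin 2) ℝ) : Matrix (Fin 2) (Fin 2) ℝ)
      = γ.mat.map (Int.castRingHom ℝ) := rfl

section Trf

variable {N ℓ : ℕ} [Fact ℓ.Prime]

/-- The index permutation induced by `γ`, transported to `Option (Fin ℓ)`. -/
def M4aTop_perm (γ : G0 N) : Equiv.Perm (Option (Fin ℓ)) :=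
  ((M4aTop_idx ℓ).trans (H201.permOf (p := ℓ) γ)).trans (M4aTop_idx ℓ).symm

theorem M4aTop_idx_perm (γ : G0 N) (i : Option (Fin ℓ)) :
    M4aTop_idx ℓ (M4aTop_perm γ i)
      = P2MW.S_ModularForm_heckeT_slash_eq_self_of_mem_Gamma0.ModularForm.HeckeSlashInvariance.redMatrix
          ℓ (γ : SL(2, ℤ)) • M4aTop_idx ℓ i := by
  simp [M4aTop_perm, H201.permOf_apply]

/-- `H201.trf` realises the factorisation of `DefsM.lean`. -/
theorem M4aTop_isHeckeFactor_trf (hℓN : ¬ ℓ ∣ N) (γ : G0 N) (i : Option (Fin ℓ)) :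
    IsHeckeFactor ℓ γ i (M4aTop_perm γ i, H201.trf hℓN γ (M4aTop_idx ℓ i)) := by
  have h := H201.trf_spec hℓN γ (M4aTop_idx ℓ i)
  rw [← M4aTop_idx_perm] at h
  have h2 := congrArg (fun M : GL (Fin 2) ℝ => (M : Matrix (Fin 2) (Fin 2) ℝ)) h
  simp only [Matrix.GeneralLinearGroup.coe_mul] at h2
  have h3 : (heckeRep ℓ i * γ.mat).map (Int.castRingHom ℝ)
      = (G0.mat (H201.trf hℓN γ (M4aTop_idx ℓ i)) * heckeRep ℓ (M4aTop_perm γ i)).map
          (Int.castRingHom ℝ) := by
    rw [Matrix.map_mul, Matrix.map_mul, ← M4aTop_pRep_idx, ← M4aTop_pRep_idx, ← M4aTop_mapGL_coe,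
      ← M4aTop_mapGL_coe]
    exact h2
  exact Matrix.map_injective (RingHom.injective_int (Int.castRingHom ℝ)) h3

theorem M4aTop_heckeFac_eq_trf (hℓN : ¬ ℓ ∣ N) (γ : G0 N) (i : Option (Fin ℓ)) :
    heckeFac N ℓ γ i = (M4aTop_perm γ i, H201.trf hℓN γ (M4aTop_idx ℓ i)) :=
  M4aTop_heckeFac_eq (Fact.out : ℓ.Prime).two_le (M4aTop_isHeckeFactor_trf hℓN γ i)

/-- The cohomological Hecke operator of `DefsM.lean` is helper201's transfer sum. -/
theorem M4aTop_heckeCoh_eq_sum_trf (hℓN : ¬ ℓ ∣ N) {A : Type*} [AddCommMonoid A] (c : G0 N → A)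
    (γ : G0 N) :
    heckeCoh N ℓ c γ = ∑ x : OnePoint (ZMod ℓ), c (H201.trf hℓN γ x) := by
  unfold heckeCoh
  simp only [M4aTop_heckeFac_eq_trf hℓN]
  exact Equiv.sum_comp (M4aTop_idx ℓ) (fun x => c (H201.trf hℓN γ x))

end Trf

end Fermat.Agent.S29

end
end
-- ===== PACK-END S29/M4a/Fac.lean

-- ===== PACK-BEGIN S29/Parts.lean
section
/-
S29 row — the REMAINING INPUTS of the final chain, as `Prop`s (row-lead helper269).
`Fermat/Agent/S29/Main.lean` proves  `S29_of_parts : FrobeniusDivisionStatement → RawESStatement →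
M4aStatement → M4bStatement → HCohStatement → (frozen S29 statement)`,  sorry-free.
A piece is DONE when it proves one of these `Prop`s verbatim.
-/


set_option autoImplicit false

noncomputable section

namespace Fermat.Agent.S29

open ModularCurve AlgebraicCurve

/-- EXTERNAL (rows S37/S18): RAW Eichler–Shimura on the `p`-torsion of the Prelude `JZero N`:
inertia at `ℓ ∤ N p` acts trivially and every Frobenius at `ℓ` satisfies `σ² - T_ℓ σ + ℓ = 0`,
`T_ℓ = heckeOperatorBar N ℓ`.  (Implied by `M.ESStatement` of helper30, by `M.RedStatement`, and by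
the frozen S37 together with `HeckeOperatorsCommuteBar`.) -/
def RawESStatement : Prop :=
  ∀ (N p : ℕ) [NeZero N], p.Prime → ∀ (ℓ : ℕ) (hℓ : ℓ.Prime), ¬ ℓ ∣ N * p →
    ∀ A : VQ, A.LiesOverPrime ℓ →
      (∀ σ ∈ A.inertiaSubgroupIn ℚ, ∀ x : JZero N, (p : ℤ) • x = 0 → σ • x = x) ∧
      (∀ σ : GQ, A.IsFrobeniusAt σ ℓ → ∀ x : JZero N, (p : ℤ) • x = 0 →
        σ • σ • x - heckeOperatorBar N ⟨ℓ, hℓ⟩ (σ • x) + (ℓ : ℤ) • x = 0)

/-- PIECE `M4a` (eigensystem occurs in `Hom_par(Γ₀(N), 𝔽_p) ⊗ F`, in coordinates). -/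
def M4aStatement : Prop :=
  ∀ (N : ℕ) [NeZero N] (g : CuspForm (CongruenceSubgroup.Gamma0 N) 2),
    g.IsNormalizedEigenform → ∀ (p : ℕ) [Fact p.Prime] (F : Type) [Field F] [IsAlgClosed F]
    [CharP F p] [Algebra (ZMod p) F] (ψ : integralClosure ℤ ℂ →+* F)
    (a : ℕ → integralClosure ℤ ℂ),
    (∀ ℓ : ℕ, ℓ.Prime → ¬ ℓ ∣ N →
      ((a ℓ : integralClosure ℤ ℂ) : ℂ) = ModularFormClass.qCoeff g ℓ) →
    ∃ (n : ℕ) (w : Fin n → F) (c : Fin n → G0 N → ZMod p),
      LinearIndependent (ZMod p) w ∧ (∀ j, IsParHom (c j)) ∧ (∃ j, c j ≠ 0) ∧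
      ∀ ℓ : ℕ, ℓ.Prime → ¬ ℓ ∣ N * p → ∀ γ : G0 N,
        ∑ j, w j * algebraMap (ZMod p) F (heckeCoh N ℓ (c j) γ)
          = ψ (a ℓ) * ∑ j, w j * algebraMap (ZMod p) F (c j γ)

/-- PIECE `M4b` (the Kummer map / bridge). -/
def M4bStatement : Prop :=
  ∀ (N : ℕ) [NeZero N] (p : ℕ) [Fact p.Prime],
    ∃ κ : (G0 N → ZMod p) → Jp N p,
      (∀ c c', IsParHom c → IsParHom c' → κ (c + c') = κ c + κ c') ∧
      (∀ c, IsParHom c → κ c = 0 → c = 0) ∧
      (∀ ℓ : Nat.Primes, ¬ (ℓ : ℕ) ∣ N * p → ∀ c, IsParHom c →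
        κ (heckeCoh N ℓ c) = heckeJp N p ℓ (κ c))

/-- PIECE `HCoh` (the cohomological Hecke operator preserves parabolic characters), for the
coefficient groups `ℤ/p`. -/
def HCohStatement : Prop :=
  ∀ (N : ℕ) [NeZero N] (p : ℕ) (ℓ : ℕ), ℓ.Prime → ¬ ℓ ∣ N →
    ∀ c : G0 N → ZMod p, IsParHom c → IsParHom (heckeCoh N ℓ c)

end Fermat.Agent.S29

end
end
-- ===== PACK-END S29/Parts.lean

-- ===== PACK-BEGIN S24/H864/FF3b.lean
section




/-!
# S24 / ALG / FF1+FF3 (part b): places of a Dedekind domain with fraction field `F`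
-/

set_option autoImplicit false

noncomputable section

open AlgebraicCurve IsDedekindDomain

namespace Fermat.Agent.S24.H864

section Dict

variable {K F : Type*} [Field K] [Field F] [Algebra K F]
variable {S : Type*} [CommRing S] [IsDedekindDomain S] [Algebra S F] [IsFractionRing S F]
  [Algebra K S] [IsScalarTower K S F]

/-- `ord` of the place attached to a height one prime is `-log` of the adic valuation. -/
theorem ord_ofHeightOneSpectrum (w : HeightOneSpectrum S) (x : F) :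
    (Place.ofHeightOneSpectrum (K := K) w).ord x = -(WithZero.log (w.valuation F x)) := by
  rcases eq_or_ne x 0 with rfl | hx
  · simp
  set N : F → ℤ := fun y => -(WithZero.log (w.valuation F y)) with hN
  have hmul : ∀ f g : F, f ≠ 0 → g ≠ 0 → N (f * g) = N f + N g := by
    intro f g hf hg
    simp only [hN, map_mul]
    rw [WithZero.log_mul ((Valuation.ne_zero_iff _).mpr hf) ((Valuation.ne_zero_iff _).mpr hg)]
    ring
  have hmem : ∀ f : F, f ≠ 0 →
      (f ∈ (Place.ofHeightOneSpectrum (K := K) w).toValuationSubring ↔ 0 ≤ N f) := by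
    intro f hf
    rw [Place.ofHeightOneSpectrum_toValuationSubring, Valuation.mem_valuationSubring_iff]
    have h0 : w.valuation F f ≠ 0 := (Valuation.ne_zero_iff _).mpr hf
    simp only [hN]
    rw [← WithZero.log_le_log h0 one_ne_zero, WithZero.log_one]
    omega
  obtain ⟨π, hπ⟩ := w.valuation_exists_uniformizer F
  have hπ0 : π ≠ 0 := by
    intro h
    rw [h, map_zero] at hπ
    exact WithZero.exp_ne_zero.symm hπ
  have hNπ : N π = 1 := by
    simp only [hN, hπ, WithZero.log_exp]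
    norm_num
  exact (FF.ordLike_eq_ord N hmul _ hmem hπ0 hNπ hx).symm

/-- On elements of `S`, `ord` is the multiplicity of the prime in the principal ideal. -/
theorem ord_ofHeightOneSpectrum_algebraMap (w : HeightOneSpectrum S) {s : S} (hs : s ≠ 0) :
    (Place.ofHeightOneSpectrum (K := K) w).ord (algebraMap S F s)
      = (multiplicity w.asIdeal (Ideal.span {s}) : ℤ) := by
  rw [ord_ofHeightOneSpectrum, HeightOneSpectrum.valuation_of_algebraMap,
    HeightOneSpectrum.intValuation_eq_exp_neg_multiplicity w hs, WithZero.log_exp, neg_neg]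

theorem ord_ofHeightOneSpectrum_pos_iff (w : HeightOneSpectrum S) {s : S} (hs : s ≠ 0) :
    0 < (Place.ofHeightOneSpectrum (K := K) w).ord (algebraMap S F s) ↔ s ∈ w.asIdeal := by
  rw [← HeightOneSpectrum.valuation_lt_one_iff_mem (K := F), ord_ofHeightOneSpectrum]
  have h0 : w.valuation F (algebraMap S F s) ≠ 0 :=
    (Valuation.ne_zero_iff _).mpr ((map_ne_zero_iff _ (IsFractionRing.injective S F)).mpr hs)
  rw [← WithZero.log_lt_log h0 one_ne_zero, WithZero.log_one]
  omega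

theorem ofHeightOneSpectrum_injective :
    Function.Injective (fun w : HeightOneSpectrum S => Place.ofHeightOneSpectrum (K := K) (F := F) w) := by
  intro w w' h
  simp only at h
  apply HeightOneSpectrum.ext
  ext s
  rcases eq_or_ne s 0 with rfl | hs
  · simp
  · rw [← ord_ofHeightOneSpectrum_pos_iff (K := K) (F := F) w hs,
      ← ord_ofHeightOneSpectrum_pos_iff (K := K) (F := F) w' hs, h]

/-- The prime of `S` cut out by a place whose valuation ring contains `S`. -/
def primeOfPlace (v : Place K F) (hS : ∀ s : S, algebraMap S F s ∈ v.toValuationSubring) :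
    Ideal S :=
  Ideal.comap ((algebraMap S F).codRestrict v.toValuationSubring.toSubring hS)
    (IsLocalRing.maximalIdeal v.toValuationSubring)

instance primeOfPlace_isPrime (v : Place K F)
    (hS : ∀ s : S, algebraMap S F s ∈ v.toValuationSubring) : (primeOfPlace v hS).IsPrime :=
  Ideal.comap_isPrime _ _

theorem mem_primeOfPlace (v : Place K F)
    (hS : ∀ s : S, algebraMap S F s ∈ v.toValuationSubring) {s : S} (hs : s ≠ 0) :
    s ∈ primeOfPlace v hS ↔ 0 < v.ord (algebraMap S F s) := by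
  have hs' : algebraMap S F s ≠ 0 := (map_ne_zero_iff _ (IsFractionRing.injective S F)).mpr hs
  rw [FF.ord_pos_iff_mem_nonunits v hs']
  rw [primeOfPlace, Ideal.mem_comap, IsLocalRing.mem_maximalIdeal, mem_nonunits_iff,
    ValuationSubring.mem_nonunits_iff_exists_mem_maximalIdeal]
  constructor
  · intro h
    exact ⟨hS s, by rw [IsLocalRing.mem_maximalIdeal, mem_nonunits_iff]; exact h⟩
  · rintro ⟨_, h⟩
    rw [IsLocalRing.mem_maximalIdeal, mem_nonunits_iff] at h
    exact h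

/-- **Dictionary, surjectivity.**  A place whose valuation ring contains `S` and which is
positive on some nonzero element of `S` comes from a height one prime of `S`. -/
theorem exists_heightOneSpectrum_of_place (v : Place K F)
    (hS : ∀ s : S, algebraMap S F s ∈ v.toValuationSubring)
    {s0 : S} (hs0 : s0 ≠ 0) (hpos : 0 < v.ord (algebraMap S F s0)) :
    ∃ w : HeightOneSpectrum S,
      Place.ofHeightOneSpectrum (K := K) w = v ∧ w.asIdeal = primeOfPlace v hS := by
  have hne : primeOfPlace v hS ≠ ⊥ := by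
    intro h
    have : s0 ∈ primeOfPlace v hS := (mem_primeOfPlace v hS hs0).mpr hpos
    rw [h, Ideal.mem_bot] at this
    exact hs0 this
  refine ⟨⟨primeOfPlace v hS, inferInstance, hne⟩, ?_, rfl⟩
  set w : HeightOneSpectrum S := ⟨primeOfPlace v hS, inferInstance, hne⟩ with hw
  apply Place.ext
  rw [Place.ofHeightOneSpectrum_toValuationSubring,
    ← HeightOneSpectrum.valuationSubringAtPrime_eq_valuationSubring]
  refine ValuationSubring.eq_of_le_of_ne_top _ ?_ v.ne_top'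
  rintro x ⟨a, s, hs, rfl⟩
  have hsq : s ∉ primeOfPlace v hS := hs
  have hs0' : s ≠ 0 := by
    rintro rfl
    exact hsq (Ideal.zero_mem _)
  have hsF : algebraMap S F s ≠ 0 := (map_ne_zero_iff _ (IsFractionRing.injective S F)).mpr hs0'
  have h1 : ¬ 0 < v.ord (algebraMap S F s) := fun h => hsq ((mem_primeOfPlace v hS hs0').mpr h)
  have h2 : 0 ≤ v.ord (algebraMap S F s) := (FF.mem_iff_ord_nonneg v).mp (hS s)
  have h3 : v.ord (algebraMap S F s) = 0 := by omega
  have h4 : (algebraMap S F s)⁻¹ ∈ v.toValuationSubring := by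
    rw [FF.mem_iff_ord_nonneg, Place.ord_inv, h3]
    simp
  exact mul_mem (hS a) h4

end Dict

end Fermat.Agent.S24.H864

end
end
-- ===== PACK-END S24/H864/FF3b.lean

-- ===== PACK-BEGIN S37/H400/KronNorm.lean
section
/-
S37 / helper400 — piece KRON, part (K6): the Kronecker NORM, formal version.

`kronNorm p f := V_p f · det (secMat p f)`  (classically `f(q^p) · ∏_b f(ζ^b q^{1/p})`, i.e. the
`q`-expansion of `Nm_α(β f)` once NORM-ID identifies the characteristic polynomial of `β f` over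
`α F_N` with `kronPoly p f`).

* `kronNorm_mul`, `kronNorm_one`, `kronNorm_pow` : multiplicativity.
* `coeffMap_kronNorm` : compatibility with coefficient homomorphisms (reduction `A → k`).
* `det_secMat_char`, `kronNorm_char` : over a domain of characteristic `p`
    `det (secMat p f) = frob f`,  `kronNorm p f = V_p f · frob f`.
* `kronNorm_char_of_frobenius` : if `f = frob g` coefficientwise then
    `kronNorm p f = g ^ p · frob f`  (`= (Φ⁻¹ f)^p · Φ f`, the form used in step (E)).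
* `coeffMap_kronNorm_char` : the reduction statement
    `coeffMap φ (kronNorm p f) = V_p f̄ · frob f̄` for `φ : S → R`, `R` a domain of char. `p`.
* `kronPoly_coeff_zero` : constant term of `kronPoly` is `(-1)^(p+1) · kronNorm`.
-/


set_option autoImplicit false

noncomputable section

set_option linter.style.haveILetI false

open ModularCurve Polynomial Matrix

namespace Fermat.Agent.S37.H400

variable {R : Type*} [CommRing R]

/-- The formal Kronecker norm `V_p f · det (secMat p f)`. -/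
def kronNorm (p : ℕ) [NeZero p] (f : LaurentSeries R) : LaurentSeries R :=
  qExpand R p f * (secMat p f).det

theorem kronNorm_mul (p : ℕ) [NeZero p] (f g : LaurentSeries R) :
    kronNorm p (f * g) = kronNorm p f * kronNorm p g := by
  rw [kronNorm, kronNorm, kronNorm, map_mul, secMat_mul, Matrix.det_mul]
  ring

theorem kronNorm_one (p : ℕ) [NeZero p] : kronNorm p (1 : LaurentSeries R) = 1 := by
  rw [kronNorm, map_one, secMat_one, Matrix.det_one, mul_one]

/-- `kronNorm` as a monoid homomorphism. -/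
def kronNormHom (p : ℕ) [NeZero p] : LaurentSeries R →* LaurentSeries R where
  toFun := kronNorm p
  map_one' := kronNorm_one p
  map_mul' := kronNorm_mul p

theorem kronNormHom_apply (p : ℕ) [NeZero p] (f : LaurentSeries R) :
    kronNormHom p f = kronNorm p f := rfl

theorem kronNorm_pow (p : ℕ) [NeZero p] (f : LaurentSeries R) (n : ℕ) :
    kronNorm p (f ^ n) = kronNorm p f ^ n :=
  map_pow (kronNormHom p) f n

theorem coeffMap_qExpand_h400 {S : Type*} [CommRing S] (φ : R →+* S) (n : ℕ)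
    [NeZero n] (x : LaurentSeries R) : coeffMap φ (qExpand R n x) = qExpand S n (coeffMap φ x) := by
  ext k
  by_cases hk : (n : ℤ) ∣ k
  · obtain ⟨m, rfl⟩ := hk
    rw [coeffMap_coeff, qExpand_coeff_mul, qExpand_coeff_mul, coeffMap_coeff]
  · rw [coeffMap_coeff, qExpand_coeff_of_not_dvd n _ hk, qExpand_coeff_of_not_dvd n _ hk,
      map_zero]

/-- Base change of the Kronecker norm along a coefficient homomorphism. -/
theorem coeffMap_kronNorm {S : Type*} [CommRing S] (φ : R →+* S) (p : ℕ) [NeZero p]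
    (f : LaurentSeries R) :
    coeffMap φ (kronNorm p f) = kronNorm p (coeffMap φ f) := by
  rw [kronNorm, kronNorm, map_mul, coeffMap_qExpand_h400, RingHom.map_det,
    RingHom.mapMatrix_apply, secMat_coeffMap]

/-- Over a domain of characteristic `p`, `det (secMat p f) = frob f`. -/
theorem det_secMat_char [IsDomain R] (p : ℕ) [Fact p.Prime] [CharP R p]
    (f : LaurentSeries R) :
    haveI : NeZero p := ⟨(Fact.out : p.Prime).ne_zero⟩
    (secMat p f).det = coeffMap (frobenius R p) f := by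
  haveI : NeZero p := ⟨(Fact.out : p.Prime).ne_zero⟩
  haveI := charP_laurentSeries (R := R) p
  show (secMat p f).det = coeffMap (frobenius R p) f
  rw [Matrix.det_eq_sign_charpoly_coeff, charpoly_secMat_char, Fintype.card_fin,
    coeff_sub, coeff_X_pow, coeff_C_zero, if_neg (Fact.out : p.Prime).pos.ne, zero_sub]
  rcases (Fact.out : p.Prime).eq_two_or_odd' with h2 | hodd
  · subst h2
    have h2' : (2 : LaurentSeries R) = 0 := by
      have := CharP.cast_eq_zero (LaurentSeries R) 2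
      exact_mod_cast this
    have : -(coeffMap (frobenius R 2) f) = coeffMap (frobenius R 2) f := by
      rw [neg_eq_iff_add_eq_zero, ← two_mul, h2', zero_mul]
    rw [this]
    simp
  · rw [hodd.neg_one_pow]
    ring

/-- Over a domain of characteristic `p`: `kronNorm p f = V_p f · frob f`. -/
theorem kronNorm_char [IsDomain R] (p : ℕ) [Fact p.Prime] [CharP R p] (f : LaurentSeries R) :
    haveI : NeZero p := ⟨(Fact.out : p.Prime).ne_zero⟩
    kronNorm p f = qExpand R p f * coeffMap (frobenius R p) f := by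
  haveI : NeZero p := ⟨(Fact.out : p.Prime).ne_zero⟩
  show kronNorm p f = _
  rw [kronNorm, det_secMat_char]

/-- Over a domain of characteristic `p`, if `f = frob g` coefficientwise (`g = Φ⁻¹ f`), then
`kronNorm p f = g ^ p · frob f = (Φ⁻¹ f) ^ p · Φ f`. -/
theorem kronNorm_char_of_frobenius [IsDomain R] (p : ℕ) [Fact p.Prime] [CharP R p]
    (f g : LaurentSeries R) (hg : coeffMap (frobenius R p) g = f) :
    haveI : NeZero p := ⟨(Fact.out : p.Prime).ne_zero⟩
    kronNorm p f = g ^ p * coeffMap (frobenius R p) f := by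
  haveI : NeZero p := ⟨(Fact.out : p.Prime).ne_zero⟩
  show kronNorm p f = _
  rw [kronNorm_char, laurent_pow_char, hg]

/-- Over `𝔽_p`: `kronNorm p f = f ^ (p + 1)`. -/
theorem kronNorm_zmod (p : ℕ) [Fact p.Prime] (f : LaurentSeries (ZMod p)) :
    haveI : NeZero p := ⟨(Fact.out : p.Prime).ne_zero⟩
    kronNorm p f = f ^ (p + 1) := by
  haveI : NeZero p := ⟨(Fact.out : p.Prime).ne_zero⟩
  show kronNorm p f = _
  rw [kronNorm_char_of_frobenius p f f (coeffMap_frobenius_zmod p f), coeffMap_frobenius_zmod,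
    pow_succ]

/-- **Kronecker congruence for norms.**  For `f` with coefficients in `S` and a reduction
`φ : S → R` to a domain of characteristic `p`, the reduction of the Kronecker norm of `f` is
`V_p f̄ · frob f̄`. -/
theorem coeffMap_kronNorm_char {S : Type*} [CommRing S] [IsDomain R] (p : ℕ) [Fact p.Prime]
    [CharP R p] (φ : S →+* R) (f : LaurentSeries S) :
    haveI : NeZero p := ⟨(Fact.out : p.Prime).ne_zero⟩
    coeffMap φ (kronNorm p f) =
      qExpand R p (coeffMap φ f) * coeffMap (frobenius R p) (coeffMap φ f) := by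
  haveI : NeZero p := ⟨(Fact.out : p.Prime).ne_zero⟩
  show coeffMap φ (kronNorm p f) = _
  rw [coeffMap_kronNorm, kronNorm_char]

/-- The reduction of the Kronecker norm is nonzero as soon as the reduction of `f` is. -/
theorem coeffMap_kronNorm_ne_zero {S : Type*} [CommRing S] [IsDomain R] (p : ℕ) [Fact p.Prime]
    [CharP R p] (φ : S →+* R) (f : LaurentSeries S) (hf : coeffMap φ f ≠ 0) :
    haveI : NeZero p := ⟨(Fact.out : p.Prime).ne_zero⟩
    coeffMap φ (kronNorm p f) ≠ 0 := by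
  haveI : NeZero p := ⟨(Fact.out : p.Prime).ne_zero⟩
  show coeffMap φ (kronNorm p f) ≠ 0
  rw [coeffMap_kronNorm_char]
  refine mul_ne_zero ?_ ?_
  · intro h
    exact hf (qExpand_injective (R := R) (N := p) (by rw [h, map_zero]))
  · intro h
    apply hf
    ext k
    have hk := congrArg (fun x : LaurentSeries R => x.coeff k) h
    simp only [coeffMap_coeff, HahnSeries.coeff_zero] at hk ⊢
    exact frobenius_inj R p (by rw [hk, map_zero])

/-- The constant term of `kronPoly` is `(-1)^(p+1)` times the Kronecker norm. -/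
theorem kronPoly_coeff_zero (p : ℕ) [NeZero p] (f : LaurentSeries R) :
    (kronPoly p f).coeff 0 = (-1) ^ (p + 1) * kronNorm p f := by
  rw [kronPoly, Polynomial.mul_coeff_zero, coeff_sub, coeff_X_zero, coeff_C_zero, zero_sub,
    kronNorm, Matrix.det_eq_sign_charpoly_coeff, Fintype.card_fin, pow_succ]
  have h : ((-1 : LaurentSeries R) ^ p) * (-1) ^ p = 1 := by
    rw [← mul_pow]; simp
  linear_combination (qExpand R p f * (secMat p f).charpoly.coeff 0) * h

end Fermat.Agent.S37.H400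

end

end
-- ===== PACK-END S37/H400/KronNorm.lean

-- ===== PACK-BEGIN S20/Comb694/Fixed.lean
section


/-!
# Fixed points of `S` and `S * T` on `SL(2,ℤ) ⧸ Gamma0 N`

* `card_fixedBy_S : Nat.card (MulAction.fixedBy (SL(2,ℤ) ⧸ Gamma0 N) S) = nuTwo N`
* `card_fixedBy_ST : Nat.card (MulAction.fixedBy (SL(2,ℤ) ⧸ Gamma0 N) (S * T)) = nuThree N`
-/

set_option autoImplicit false

namespace Fermat.Agent.S20.Comb694

open Matrix MatrixGroups CongruenceSubgroup

variable (N : ℕ)

/-- From a root of `x² + 1` in `ZMod N` to a fixed point of `S`. -/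
noncomputable def rootToFixedS (x : {x : ZMod N // x ^ 2 + 1 = 0}) :
    MulAction.fixedBy (SL(2, ℤ) ⧸ Gamma0 N) ModularGroup.S :=
  ⟨QuotientGroup.mk (colRep (ZMod.cast x.1 : ℤ)), by
    rw [MulAction.mem_fixedBy, S_smul_mk_eq_mk_iff]
    simp only [colRep_apply_zero_zero, colRep_apply_one_zero, ZMod.intCast_zmod_cast,
      Int.cast_one, one_pow]
    exact x.2⟩

lemma rootToFixedS_bijective : Function.Bijective (rootToFixedS N) := by
  constructor
  · rintro ⟨x, hx⟩ ⟨y, hy⟩ h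
    have h' := congrArg Subtype.val h
    simp only [rootToFixedS] at h'
    rw [mk_eq_mk_iff] at h'
    simp only [colRep_apply_zero_zero, colRep_apply_one_zero, ZMod.intCast_zmod_cast,
      Int.cast_one, mul_one, one_mul] at h'
    exact Subtype.ext (sub_eq_zero.mp h')
  · rintro ⟨q, hq⟩
    obtain ⟨g, rfl⟩ := QuotientGroup.mk_surjective q
    rw [MulAction.mem_fixedBy, S_smul_mk_eq_mk_iff] at hq
    have hinv := c_mul_inv_eq_one N g (-((g 1 0 : ℤ) : ZMod N)) (by linear_combination hq)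
    set a : ZMod N := ((g 0 0 : ℤ) : ZMod N) with ha
    set c : ZMod N := ((g 1 0 : ℤ) : ZMod N) with hc
    set i : ZMod N := (-c * ((g 1 1 : ℤ) : ZMod N) ^ 2
        - 2 * a * ((g 0 1 : ℤ) : ZMod N) * ((g 1 1 : ℤ) : ZMod N)
        + ((g 0 1 : ℤ) : ZMod N) ^ 2 * c) with hi
    refine ⟨⟨a * i, ?_⟩, ?_⟩
    · linear_combination (i ^ 2) * hq - (c * i + 1) * hinv
    · apply Subtype.ext
      simp only [rootToFixedS]
      rw [mk_eq_mk_iff]
      simp only [colRep_apply_zero_zero, colRep_apply_one_zero, ZMod.intCast_zmod_cast,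
        Int.cast_one, one_mul]
      linear_combination a * hinv

/-- **(I2)** The number of fixed points of `S` on `SL(2,ℤ) ⧸ Γ₀(N)` is `ν₂(N)`. -/
theorem card_fixedBy_S :
    Nat.card (MulAction.fixedBy (SL(2, ℤ) ⧸ Gamma0 N) ModularGroup.S) = ModularCurve.nuTwo N := by
  rw [ModularCurve.nuTwo]
  exact (Nat.card_eq_of_bijective _ (rootToFixedS_bijective N)).symm

/-- From a root of `x² + x + 1` in `ZMod N` to a fixed point of `S * T`. -/
noncomputable def rootToFixedST (x : {x : ZMod N // x ^ 2 + x + 1 = 0}) :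
    MulAction.fixedBy (SL(2, ℤ) ⧸ Gamma0 N) (ModularGroup.S * ModularGroup.T) :=
  ⟨QuotientGroup.mk (colRep (ZMod.cast x.1 : ℤ)), by
    rw [MulAction.mem_fixedBy, ST_smul_mk_eq_mk_iff]
    simp only [colRep_apply_zero_zero, colRep_apply_one_zero, ZMod.intCast_zmod_cast,
      Int.cast_one, one_pow, mul_one]
    exact x.2⟩

lemma rootToFixedST_bijective : Function.Bijective (rootToFixedST N) := by
  constructor
  · rintro ⟨x, hx⟩ ⟨y, hy⟩ h
    have h' := congrArg Subtype.val h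
    simp only [rootToFixedST] at h'
    rw [mk_eq_mk_iff] at h'
    simp only [colRep_apply_zero_zero, colRep_apply_one_zero, ZMod.intCast_zmod_cast,
      Int.cast_one, mul_one, one_mul] at h'
    exact Subtype.ext (sub_eq_zero.mp h')
  · rintro ⟨q, hq⟩
    obtain ⟨g, rfl⟩ := QuotientGroup.mk_surjective q
    rw [MulAction.mem_fixedBy, ST_smul_mk_eq_mk_iff] at hq
    have hinv := c_mul_inv_eq_one N g (-((g 0 0 : ℤ) : ZMod N) - ((g 1 0 : ℤ) : ZMod N))
      (by linear_combination hq)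
    set a : ZMod N := ((g 0 0 : ℤ) : ZMod N) with ha
    set c : ZMod N := ((g 1 0 : ℤ) : ZMod N) with hc
    set i : ZMod N := ((-a - c) * ((g 1 1 : ℤ) : ZMod N) ^ 2
        - 2 * a * ((g 0 1 : ℤ) : ZMod N) * ((g 1 1 : ℤ) : ZMod N)
        + ((g 0 1 : ℤ) : ZMod N) ^ 2 * c) with hi
    refine ⟨⟨a * i, ?_⟩, ?_⟩
    · linear_combination (i ^ 2) * hq - (c * i + 1 + a * i) * hinv
    · apply Subtype.ext
      simp only [rootToFixedST]
      rw [mk_eq_mk_iff]
      simp only [colRep_apply_zero_zero, colRep_apply_one_zero, ZMod.intCast_zmod_cast,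
        Int.cast_one, one_mul]
      linear_combination a * hinv

/-- **(I3)** The number of fixed points of `S * T` on `SL(2,ℤ) ⧸ Γ₀(N)` is `ν₃(N)`. -/
theorem card_fixedBy_ST :
    Nat.card (MulAction.fixedBy (SL(2, ℤ) ⧸ Gamma0 N) (ModularGroup.S * ModularGroup.T))
      = ModularCurve.nuThree N := by
  rw [ModularCurve.nuThree]
  exact (Nat.card_eq_of_bijective _ (rootToFixedST_bijective N)).symm

end Fermat.Agent.S20.Comb694

end
-- ===== PACK-END S20/Comb694/Fixed.lean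

-- ===== PACK-BEGIN S18/H438/Front/Gauss.lean
section



/-!
# S18 / ALG-FRONT (helper438), part 2: the chart and the Gauss valuation ring

Setting: `F` a field, `R : Subring F`, `z : F`, `B := chartRing R z` (integral closure of `R[z]`),
`V : ValuationSubring F` ("Gauss valuation ring") and `w ∈ R` with

* `hRV : ∀ r ∈ R, r ∈ V`, `hzV : z ∈ V`,
* `hwV : w⁻¹ ∉ V`, `hVgen : ∀ f ∈ V, f⁻¹ ∉ V → f * w⁻¹ ∈ V`   (`𝔪_V = w V`),
* `qep : ∀ b ∈ B, b * w⁻¹ ∈ V → b * w⁻¹ ∈ B`                  (`q`-expansion principle).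

Results:

* `chartRing_le_valuationSubring` : `B ⊆ V`;
* `prime_chartUnif`               : `ϖ := w` is a prime element of `B`;
* `exists_fraction_of_mem_valuationSubring` : `V = B_(ϖ)`: every `v ∈ V` is `b / t`, `t ∉ ϖ B`;
* `oneModPi_of_sub_one_mem`       : `(u - 1) / w ∈ V` ⟹ `H754.OneModPi ϖ u`.
-/

set_option autoImplicit false
set_option linter.style.haveILetI false
set_option linter.unusedSectionVars false

noncomputable section

namespace Fermat.Agent.S18.H438

open Polynomial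

variable {F : Type*} [Field F] (R : Subring F) (z : F) (V : ValuationSubring F)

/-- `R[z] ⊆ V` as soon as `R ⊆ V` and `z ∈ V`. -/
theorem baseRing_le_valuationSubring (hRV : ∀ r ∈ R, r ∈ V) (hzV : z ∈ V) {f : F}
    (hf : f ∈ baseRing R z) : f ∈ V := by
  obtain ⟨P, rfl⟩ := exists_aeval_eq_of_mem_baseRing R z hf
  rw [Polynomial.aeval_eq_sum_range]
  refine V.toSubring.sum_mem fun i _ => ?_
  rw [Algebra.smul_def]
  exact mul_mem (hRV _ (P.coeff i).2) (pow_mem hzV i)

/-- An element integral over a subring contained in `V` lies in `V`. -/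
theorem mem_valuationSubring_of_isIntegral {A : Type*} [CommRing A] [Algebra A F]
    (hA : ∀ a : A, algebraMap A F a ∈ V) {f : F} (hf : IsIntegral A f) : f ∈ V := by
  -- transport integrality to `V`
  let i : A →+* V := (algebraMap A F).codRestrict V.toSubring hA
  have hi : (algebraMap V F).comp i = algebraMap A F := by
    ext a; rfl
  have hint : IsIntegral V f := by
    obtain ⟨p, hp, hpf⟩ := hf
    refine ⟨p.map i, hp.map i, ?_⟩
    rw [Polynomial.eval₂_map, hi]
    exact hpf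
  obtain ⟨y, hy⟩ := (IsIntegrallyClosed.isIntegral_iff (R := V) (K := F)).1 hint
  rw [← hy]
  exact y.2

/-- The chart is contained in the Gauss valuation ring. -/
theorem chartRing_le_valuationSubring (hRV : ∀ r ∈ R, r ∈ V) (hzV : z ∈ V) {f : F}
    (hf : f ∈ chartRing R z) : f ∈ V :=
  mem_valuationSubring_of_isIntegral V
    (fun a => baseRing_le_valuationSubring R z V hRV hzV a.2) hf

variable {R z V}

/-- the uniformiser as an element of the chart -/
def chartUnif {w : F} (hwR : w ∈ R) : chartRing R z :=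
  algebraMap (baseRing R z) (chartRing R z) ⟨w, coe_mem_baseRing R z ⟨w, hwR⟩⟩

@[simp] theorem coe_chartUnif {w : F} (hwR : w ∈ R) :
    ((chartUnif (z := z) hwR : chartRing R z) : F) = w := rfl

theorem algebraMap_chartUnif {w : F} (hwR : w ∈ R) :
    algebraMap (chartRing R z) F (chartUnif (z := z) hwR) = w := rfl

/-- divisibility by `ϖ` in the chart, elementwise -/
theorem chartUnif_dvd_iff {w : F} (hwR : w ∈ R) (hw0 : w ≠ 0) (b : chartRing R z) :
    chartUnif (z := z) hwR ∣ b ↔ (b : F) * w⁻¹ ∈ chartRing R z := by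
  constructor
  · rintro ⟨c, rfl⟩
    have : ((chartUnif (z := z) hwR * c : chartRing R z) : F) * w⁻¹ = (c : F) := by
      rw [MulMemClass.coe_mul, coe_chartUnif]
      field_simp
    rw [this]
    exact c.2
  · intro h
    refine ⟨⟨(b : F) * w⁻¹, h⟩, Subtype.ext ?_⟩
    rw [MulMemClass.coe_mul, coe_chartUnif]
    field_simp

section Prime

variable {w : F} (hwR : w ∈ R) (hw0 : w ≠ 0) (hRV : ∀ r ∈ R, r ∈ V) (hzV : z ∈ V)
  (hwV : w⁻¹ ∉ V) (hVgen : ∀ f ∈ V, f⁻¹ ∉ V → f * w⁻¹ ∈ V)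
  (qep : ∀ b ∈ chartRing R z, b * w⁻¹ ∈ V → b * w⁻¹ ∈ chartRing R z)

include hw0 hRV hzV hwV hVgen qep

/-- In `V`, an element which is not a unit is divisible by `w`; in particular for `a b ∈ V` with
`a * b ∈ w V` one of them is in `w V`. -/
theorem mem_smul_of_mul_mem {a b : F} (ha : a ∈ V) (hb : b ∈ V) (hab : a * b * w⁻¹ ∈ V) :
    a * w⁻¹ ∈ V ∨ b * w⁻¹ ∈ V := by
  by_cases ha0 : a = 0
  · left; rw [ha0, zero_mul]; exact V.zero_mem
  by_cases hb0 : b = 0
  · right; rw [hb0, zero_mul]; exact V.zero_mem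
  by_cases hau : a⁻¹ ∈ V
  · -- `a` is a unit of `V`
    right
    have : b * w⁻¹ = a⁻¹ * (a * b * w⁻¹) := by field_simp
    rw [this]
    exact mul_mem hau hab
  · left
    exact hVgen a ha hau

/-- **`ϖ` is a prime element of the chart.** -/
theorem prime_chartUnif : Prime (chartUnif (z := z) hwR) := by
  refine ⟨?_, ?_, ?_⟩
  · intro h
    exact hw0 (congrArg Subtype.val h)
  · rintro ⟨⟨u, v, huv, hvu⟩, hu⟩
    have hv : (v : F) = w⁻¹ := by
      have h1 : (u : F) * (v : F) = 1 := congrArg Subtype.val huv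
      have h2 : (u : F) = w := by
        have h3 : u = chartUnif (z := z) hwR := hu
        rw [h3]; rfl
      rw [h2] at h1
      exact eq_inv_of_mul_eq_one_right h1
    exact hwV (hv ▸ chartRing_le_valuationSubring R z V hRV hzV v.2)
  · intro a b hab
    rw [chartUnif_dvd_iff hwR hw0] at hab
    have haV := chartRing_le_valuationSubring R z V hRV hzV a.2
    have hbV := chartRing_le_valuationSubring R z V hRV hzV b.2
    have habV : (a : F) * (b : F) * w⁻¹ ∈ V := by
      have := chartRing_le_valuationSubring R z V hRV hzV hab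
      simpa using this
    rcases mem_smul_of_mul_mem hw0 hRV hzV hwV hVgen qep haV hbV habV with h | h
    · left
      rw [chartUnif_dvd_iff hwR hw0]
      exact qep _ a.2 h
    · right
      rw [chartUnif_dvd_iff hwR hw0]
      exact qep _ b.2 h

end Prime

section Fraction

variable {w : F} (hwR : w ∈ R) (hw0 : w ≠ 0) (hRV : ∀ r ∈ R, r ∈ V) (hzV : z ∈ V)
  (hwV : w⁻¹ ∉ V) (hVgen : ∀ f ∈ V, f⁻¹ ∉ V → f * w⁻¹ ∈ V)
  (qep : ∀ b ∈ chartRing R z, b * w⁻¹ ∈ V → b * w⁻¹ ∈ chartRing R z)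
  [IsFractionRing (chartRing R z) F] [IsNoetherianRing (chartRing R z)]

include hw0 hRV hzV hwV hVgen qep

/-- **`V = B_(ϖ)`.**  Every element of the Gauss valuation ring is a fraction `b / t` of elements
of the chart with `ϖ ∤ t`. -/
theorem exists_fraction_of_mem_valuationSubring {v : F} (hv : v ∈ V) :
    ∃ b t : chartRing R z, ¬ chartUnif (z := z) hwR ∣ t ∧ v * (t : F) = (b : F) := by
  have hprime := prime_chartUnif hwR hw0 hRV hzV hwV hVgen qep
  obtain ⟨b₀, t₀, ht₀, hbt⟩ := IsFractionRing.div_surjective (A := chartRing R z) v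
  have ht₀0 : t₀ ≠ 0 := nonZeroDivisors.ne_zero ht₀
  obtain ⟨n, t, hnt, rfl⟩ := WfDvdMonoid.max_power_factor ht₀0 hprime.irreducible
  -- `v * (ϖ ^ n * t) = b₀`
  have hv0 : v * ((chartUnif (z := z) hwR ^ n * t : chartRing R z) : F) = (b₀ : F) := by
    have hne : algebraMap (chartRing R z) F (chartUnif (z := z) hwR ^ n * t) ≠ 0 := by
      intro h
      exact ht₀0 ((FaithfulSMul.algebraMap_injective (chartRing R z) F) (by rw [h, map_zero]))
    rw [← hbt]
    exact div_mul_cancel₀ _ hne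
  -- strip the powers of `ϖ`
  have key : ∀ (n : ℕ) (b : chartRing R z),
      v * ((chartUnif (z := z) hwR ^ n * t : chartRing R z) : F) = (b : F) →
      ∃ b' : chartRing R z, v * (t : F) = (b' : F) := by
    intro n
    induction n with
    | zero => intro b hb; exact ⟨b, by simpa using hb⟩
    | succ n ih =>
      intro b hb
      -- `b / w = v * ϖ ^ n * t ∈ V`
      have hbw : (b : F) * w⁻¹ = v * ((chartUnif (z := z) hwR ^ n * t : chartRing R z) : F) := by
        rw [← hb]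
        simp only [MulMemClass.coe_mul, SubmonoidClass.coe_pow, coe_chartUnif, pow_succ]
        field_simp
      have hmemV : (b : F) * w⁻¹ ∈ V := by
        rw [hbw]
        exact mul_mem hv (chartRing_le_valuationSubring R z V hRV hzV (Subtype.mem _))
      have hmemB := qep _ b.2 hmemV
      exact ih ⟨(b : F) * w⁻¹, hmemB⟩ hbw.symm
  obtain ⟨b', hb'⟩ := key n b₀ hv0
  exact ⟨b', t, hnt, hb'⟩

/-- **`OneModPi`**: if `(u - 1) / w ∈ V` then `u = a / s` with `a ≡ s mod ϖ`, `ϖ ∤ s`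
(the hypothesis shape of the Kummer pieces `H754`). -/
theorem oneModPi_of_sub_one_mem {u : F} (hu : (u - 1) * w⁻¹ ∈ V) :
    H754.OneModPi (chartUnif (z := z) hwR) u := by
  obtain ⟨b, t, ht, hbt⟩ :=
    exists_fraction_of_mem_valuationSubring hwR hw0 hRV hzV hwV hVgen qep hu
  refine ⟨t + chartUnif (z := z) hwR * b, t, ?_, ?_, ?_⟩
  · rw [Ideal.mem_span_singleton]; exact ht
  · rw [Ideal.mem_span_singleton]
    exact ⟨b, by ring⟩
  · show u * (t : F) = ((t + chartUnif (z := z) hwR * b : chartRing R z) : F)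
    simp only [AddMemClass.coe_add, MulMemClass.coe_mul, coe_chartUnif, ← hbt]
    field_simp
    ring

end Fraction

end Fermat.Agent.S18.H438

end
end
-- ===== PACK-END S18/H438/Front/Gauss.lean

-- ===== PACK-BEGIN S18/H214/LocalExist.lean
section




/-!
# S18, route K, piece LE ("local existence"): the input `σ₀, σ₁` of the Kummer endgame

One chart (`exists_sigma`): `B` a noetherian integrally closed domain, `F = Frac B`, `ϖ ∈ B` prime,
special fibre regular (`H754.RegularAlong ϖ`, output of b2), `u ≡ 1 mod ϖ` (`H754.OneModPi`),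
`m ∣ div u` (`H754.DivisibleDivisor B m u`).  Then there is `σ ∈ F` with
`σ ^ m * u ∈ 1 + ϖ B` and `σ ∈ 1 + ϖ B_(ϖ)`.
-/

set_option autoImplicit false

namespace Fermat.Agent.S18.H214

open Fermat.Agent.S18.H754

section LocalRing

variable {B : Type*} [CommRing B] [IsDomain B]

/-- The image of a prime element `ϖ ∈ 𝔪` in the localisation at `𝔪` is prime. -/
theorem prime_algebraMap_atPrime (ϖ : B) (hϖ : Prime ϖ) (𝔪 : Ideal B) [𝔪.IsPrime]
    (hm : ϖ ∈ 𝔪) : Prime (algebraMap B (Localization.AtPrime 𝔪) ϖ) := by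
  have hinj : Function.Injective (algebraMap B (Localization.AtPrime 𝔪)) :=
    IsLocalization.injective (Localization.AtPrime 𝔪) 𝔪.primeCompl_le_nonZeroDivisors
  have h0 : algebraMap B (Localization.AtPrime 𝔪) ϖ ≠ 0 := by
    rw [Ne, ← map_zero (algebraMap B (Localization.AtPrime 𝔪))]
    exact fun h => hϖ.ne_zero (hinj h)
  rw [← Ideal.span_singleton_prime h0]
  have hp : (Ideal.span {ϖ}).IsPrime := (Ideal.span_singleton_prime hϖ.ne_zero).2 hϖ
  have hd : Disjoint (𝔪.primeCompl : Set B) (Ideal.span {ϖ} : Ideal B) := by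
    rw [Set.disjoint_left]
    intro x hx hx'
    exact hx ((Ideal.span_singleton_le_iff_mem 𝔪).2 hm hx')
  have := IsLocalization.isPrime_of_isPrime_disjoint 𝔪.primeCompl (Localization.AtPrime 𝔪)
    (Ideal.span {ϖ}) hp hd
  rwa [Ideal.map_span, Set.image_singleton] at this

/-- Divisibility by `ϖ` descends from the localisation at `𝔪 ∋ ϖ`. -/
theorem dvd_of_algebraMap_dvd_atPrime (ϖ : B) (hϖ : Prime ϖ) (𝔪 : Ideal B) [𝔪.IsPrime]
    (hm : ϖ ∈ 𝔪) (x : B)
    (h : algebraMap B (Localization.AtPrime 𝔪) ϖ ∣ algebraMap B (Localization.AtPrime 𝔪) x) :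
    ϖ ∣ x := by
  have hinj : Function.Injective (algebraMap B (Localization.AtPrime 𝔪)) :=
    IsLocalization.injective (Localization.AtPrime 𝔪) 𝔪.primeCompl_le_nonZeroDivisors
  obtain ⟨y, hy⟩ := h
  obtain ⟨b, r, rfl⟩ := IsLocalization.exists_mk'_eq 𝔪.primeCompl y
  have h1 : algebraMap B (Localization.AtPrime 𝔪) (x * r) =
      algebraMap B (Localization.AtPrime 𝔪) (ϖ * b) := by
    rw [map_mul, map_mul, hy, mul_assoc, IsLocalization.mk'_spec]
  have h2 : x * r = ϖ * b := hinj h1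
  have h3 : ϖ ∣ x * r := ⟨b, h2⟩
  rcases hϖ.dvd_or_dvd h3 with h4 | h4
  · exact h4
  · exact absurd (𝔪.mem_of_dvd h4 hm) r.2

/-- b2 output ⟹ the local ring of the special fibre at a closed point is a principal ideal ring
(a discrete valuation ring or a field). -/
theorem isPrincipalIdealRing_quotient_atPrime [IsNoetherianRing B] (ϖ : B) (hϖ : Prime ϖ)
    (hreg : RegularAlong ϖ) (𝔪 : Ideal B) [h𝔪 : 𝔪.IsMaximal] (hm : ϖ ∈ 𝔪) :
    IsPrincipalIdealRing (Localization.AtPrime 𝔪 ⧸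
      Ideal.span {algebraMap B (Localization.AtPrime 𝔪) ϖ}) := by
  set A := Localization.AtPrime 𝔪 with hA
  set ϖA := algebraMap B A ϖ with hϖA
  have hpr : Prime ϖA := prime_algebraMap_atPrime ϖ hϖ 𝔪 hm
  have hI : (Ideal.span {ϖA}).IsPrime := (Ideal.span_singleton_prime hpr.ne_zero).2 hpr
  have : IsLocalRing (A ⧸ Ideal.span {ϖA}) :=
    IsLocalRing.of_surjective' (Ideal.Quotient.mk (Ideal.span {ϖA})) Ideal.Quotient.mk_surjective
  obtain ⟨t, htm, ht⟩ := hreg 𝔪 h𝔪 hm
  have hϖmax : ϖA ∈ IsLocalRing.maximalIdeal A :=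
    (IsLocalization.AtPrime.to_map_mem_maximal_iff A 𝔪 ϖ).2 hm
  have htmax : algebraMap B A t ∈ IsLocalRing.maximalIdeal A :=
    (IsLocalization.AtPrime.to_map_mem_maximal_iff A 𝔪 t).2 htm
  -- the maximal ideal of the quotient is generated by the image of `t`
  have key : IsLocalRing.maximalIdeal (A ⧸ Ideal.span {ϖA}) =
      Ideal.span {Ideal.Quotient.mk (Ideal.span {ϖA}) (algebraMap B A t)} := by
    apply le_antisymm
    · intro x hx
      obtain ⟨y, rfl⟩ := Ideal.Quotient.mk_surjective x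
      have hy : y ∈ IsLocalRing.maximalIdeal A := by
        rw [IsLocalRing.mem_maximalIdeal, mem_nonunits_iff] at hx ⊢
        exact fun hu => hx (hu.map _)
      obtain ⟨b, r, rfl⟩ := IsLocalization.exists_mk'_eq 𝔪.primeCompl y
      rw [IsLocalization.AtPrime.mk'_mem_maximal_iff A 𝔪] at hy
      obtain ⟨s, hs, hsb⟩ := ht b hy
      obtain ⟨c₁, c₂, hc⟩ := Ideal.mem_span_pair.1 hsb
      have hsu : IsUnit (algebraMap B A s) :=
        (IsLocalization.AtPrime.isUnit_to_map_iff A 𝔪 s).2 hs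
      have hru : IsUnit (algebraMap B A r) :=
        (IsLocalization.AtPrime.isUnit_to_map_iff A 𝔪 r).2 r.2
      obtain ⟨su, hsu'⟩ := hsu
      obtain ⟨ru, hru'⟩ := hru
      have e1 : IsLocalization.mk' A b r * algebraMap B A r = algebraMap B A b :=
        IsLocalization.mk'_spec A b r
      have e2 : algebraMap B A s * algebraMap B A b =
          algebraMap B A c₁ * ϖA + algebraMap B A c₂ * algebraMap B A t := by
        rw [← map_mul, ← hc, map_add, map_mul, map_mul]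
      have e3 : IsLocalization.mk' A b r =
          ((su⁻¹ * ru⁻¹ : Aˣ) : A) * algebraMap B A c₁ * ϖA +
            ((su⁻¹ * ru⁻¹ : Aˣ) : A) * algebraMap B A c₂ * algebraMap B A t := by
        have : IsLocalization.mk' A b r * ((su * ru : Aˣ) : A) =
            algebraMap B A c₁ * ϖA + algebraMap B A c₂ * algebraMap B A t := by
          rw [Units.val_mul, hsu', hru', ← e2, ← e1]; ring
        calc IsLocalization.mk' A b r
            = IsLocalization.mk' A b r * ((su * ru : Aˣ) : A) * ((su⁻¹ * ru⁻¹ : Aˣ) : A) := by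
              rw [mul_assoc, ← Units.val_mul]
              have : su * ru * (su⁻¹ * ru⁻¹) = 1 := by
                rw [mul_comm su⁻¹, mul_assoc, ← mul_assoc ru, mul_inv_cancel, one_mul,
                  mul_inv_cancel]
              rw [this, Units.val_one, mul_one]
          _ = _ := by rw [this]; ring
      refine Ideal.mem_span_singleton'.2
        ⟨Ideal.Quotient.mk (Ideal.span {ϖA}) (((su⁻¹ * ru⁻¹ : Aˣ) : A) * algebraMap B A c₂), ?_⟩
      rw [← map_mul, Ideal.Quotient.eq, Ideal.mem_span_singleton]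
      refine ⟨-(((su⁻¹ * ru⁻¹ : Aˣ) : A) * algebraMap B A c₁), ?_⟩
      rw [e3]; ring
    · rw [Ideal.span_singleton_le_iff_mem, IsLocalRing.mem_maximalIdeal, mem_nonunits_iff]
      intro hu
      obtain ⟨e, he⟩ := hu.exists_right_inv
      obtain ⟨e', rfl⟩ := Ideal.Quotient.mk_surjective e
      have he' : algebraMap B A t * e' - 1 ∈ Ideal.span {ϖA} := by
        rw [← Ideal.Quotient.eq, map_mul, map_one]; exact he
      obtain ⟨d, hd⟩ := Ideal.mem_span_singleton.1 he'
      have h1 : (1 : A) = algebraMap B A t * e' - ϖA * d := by rw [← hd]; ring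
      have h2 : (1 : A) ∈ IsLocalRing.maximalIdeal A := by
        rw [h1]
        exact Ideal.sub_mem _ (Ideal.mul_mem_right _ _ htmax) (Ideal.mul_mem_right _ _ hϖmax)
      exact (Ideal.ne_top_iff_one _).1 (IsLocalRing.maximalIdeal.isMaximal A).ne_top h2
  have hprin : (IsLocalRing.maximalIdeal (A ⧸ Ideal.span {ϖA})).IsPrincipal := ⟨⟨_, key⟩⟩
  exact ((tfae_of_isNoetherianRing_of_isLocalRing_of_isDomain
    (R := A ⧸ Ideal.span {ϖA})).out 0 4).2 hprin

end LocalRing

section LocalData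

variable {B : Type*} [CommRing B] [IsDomain B] [IsNoetherianRing B]
  {F : Type*} [Field F] [Algebra B F] [IsFractionRing B F]

/-- **Local data at a closed point of the special fibre**, written without denominators in `B`:
`u = a / s = (b / r) · (t₁ / t₂) ^ m` with `r ∉ 𝔪`, `t₁ ≡ t₂ ≢ 0 mod ϖ`. -/
theorem exists_local_data (ϖ : B) (hϖ : Prime ϖ) (hreg : RegularAlong ϖ) (m : ℕ) (hm : m ≠ 0)
    (a s : B) (hs : ¬ ϖ ∣ s) (has : ϖ ∣ a - s)
    (u : F) (hu : u * algebraMap B F s = algebraMap B F a)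
    (hdiv : DivisibleDivisor B m u)
    (𝔪 : Ideal B) [h𝔪 : 𝔪.IsMaximal] (hm𝔪 : ϖ ∈ 𝔪) :
    ∃ t₁ t₂ b r : B, r ∉ 𝔪 ∧ ¬ ϖ ∣ t₁ ∧ ¬ ϖ ∣ t₂ ∧ ϖ ∣ t₁ - t₂ ∧
      a * t₂ ^ m * r = b * s * t₁ ^ m := by
  classical
  set A := Localization.AtPrime 𝔪 with hA
  set f := algebraMap B A with hf
  have hinj : Function.Injective f :=
    IsLocalization.injective A 𝔪.primeCompl_le_nonZeroDivisors
  have hinjF : Function.Injective (algebraMap B F) := IsFractionRing.injective B F
  have ha : ¬ ϖ ∣ a := by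
    intro h
    apply hs
    have := dvd_sub h has
    rwa [sub_sub_cancel] at this
  have hpr : Prime (f ϖ) := prime_algebraMap_atPrime ϖ hϖ 𝔪 hm𝔪
  have hI : (Ideal.span {f ϖ}).IsPrime := (Ideal.span_singleton_prime hpr.ne_zero).2 hpr
  have : IsPrincipalIdealRing (A ⧸ Ideal.span {f ϖ}) :=
    isPrincipalIdealRing_quotient_atPrime ϖ hϖ hreg 𝔪 hm𝔪
  have : UniqueFactorizationMonoid A :=
    ufd_of_quotient_isPrincipalIdealRing (f ϖ) hpr.ne_zero hpr.not_isUnit hI
  have hndvd : ∀ x : B, ¬ ϖ ∣ x → ¬ f ϖ ∣ f x := fun x hx h =>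
    hx (dvd_of_algebraMap_dvd_atPrime ϖ hϖ 𝔪 hm𝔪 x h)
  -- the hypothesis of `local_kummer_structure`
  have hloc : ∀ π : A, Prime π → ¬ Associated π (f ϖ) → ∃ a' s' z₁ z₂ : A, ¬ π ∣ a' ∧ ¬ π ∣ s' ∧
      z₁ ≠ 0 ∧ z₂ ≠ 0 ∧ f a * s' * z₂ ^ m = a' * f s * z₁ ^ m := by
    intro π hπ _
    have hπI : (Ideal.span {π}).IsPrime := (Ideal.span_singleton_prime hπ.ne_zero).2 hπ
    set 𝔭 : Ideal B := (Ideal.span {π}).under B with h𝔭
    have h𝔭prime : 𝔭.IsPrime := Ideal.IsPrime.under B (Ideal.span {π})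
    have hht : 𝔭.height = 1 := by
      rw [h𝔭, IsLocalization.height_under 𝔪.primeCompl]
      exact Ideal.height_span_singleton_eq_one_of_mem_nonZeroDivisors
        (mem_nonZeroDivisors_of_ne_zero hπ.ne_zero) hπ.not_isUnit
    obtain ⟨t, a', s', ha', hs', heq⟩ := hdiv 𝔭 h𝔭prime hht
    have hmem : ∀ x : B, x ∉ 𝔭 → ¬ π ∣ f x := by
      intro x hx hd
      apply hx
      rw [h𝔭, Ideal.under_def, Ideal.mem_comap, Ideal.mem_span_singleton]
      exact hd
    obtain ⟨n, d, hd, rfl⟩ := IsFractionRing.div_surjective B t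
    have hd0 : d ≠ 0 := nonZeroDivisors.ne_zero hd
    have hdF : algebraMap B F d ≠ 0 := fun h => hd0 (hinjF (by rw [h, map_zero]))
    have hs0 : s ≠ 0 := fun h => hs (h ▸ dvd_zero ϖ)
    have hsF : algebraMap B F s ≠ 0 := fun h => hs0 (hinjF (by rw [h, map_zero]))
    have ha'0 : a' ≠ 0 := fun h => ha' (h ▸ 𝔭.zero_mem)
    -- the identity in `B`
    have key : a * s' * n ^ m = a' * s * d ^ m := by
      apply hinjF
      simp only [map_mul, map_pow]
      have hu' : u = algebraMap B F a / algebraMap B F s := by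
        rw [eq_div_iff hsF]; exact hu
      rw [hu', div_pow] at heq
      field_simp at heq
      linear_combination heq
    have hn0 : n ≠ 0 := by
      rintro rfl
      rw [zero_pow hm, mul_zero] at key
      have := key.symm
      rcases mul_eq_zero.1 this with h | h
      · rcases mul_eq_zero.1 h with h | h
        · exact ha'0 h
        · exact hs0 h
      · exact hd0 (pow_eq_zero_iff hm |>.1 h)
    refine ⟨f a', f s', f d, f n, hmem a' ha', hmem s' hs', ?_, ?_, ?_⟩
    · exact fun h => hd0 (hinj (by rw [h, map_zero]))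
    · exact fun h => hn0 (hinj (by rw [h, map_zero]))
    · rw [← map_pow, ← map_pow, ← map_mul, ← map_mul, ← map_mul, ← map_mul, key]
  obtain ⟨c, t₁, t₂, ht₁, ht₂, ht₁₂, -, heq⟩ :=
    local_kummer_structure (f ϖ) hpr m hm (f a) (f s) (hndvd a ha) (hndvd s hs)
      (by rw [← map_sub]; exact map_dvd f has) hloc
  -- clear denominators
  obtain ⟨b₁, r₁, rfl⟩ := IsLocalization.exists_mk'_eq 𝔪.primeCompl t₁
  obtain ⟨b₂, r₂, rfl⟩ := IsLocalization.exists_mk'_eq 𝔪.primeCompl t₂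
  obtain ⟨bc, rc, hc⟩ := IsLocalization.exists_mk'_eq 𝔪.primeCompl (c : A)
  have e₁ : f (b₁ * r₂) = IsLocalization.mk' A b₁ r₁ * (f r₁ * f r₂) := by
    rw [map_mul, ← mul_assoc, IsLocalization.mk'_spec]
  have e₂ : f (b₂ * r₁) = IsLocalization.mk' A b₂ r₂ * (f r₁ * f r₂) := by
    rw [map_mul, mul_comm (f r₁), ← mul_assoc, IsLocalization.mk'_spec]
  have ec : (c : A) * f rc = f bc := by rw [← hc, IsLocalization.mk'_spec]
  have hr₁u : IsUnit (f r₁) := (IsLocalization.AtPrime.isUnit_to_map_iff A 𝔪 r₁).2 r₁.2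
  have hr₂u : IsUnit (f r₂) := (IsLocalization.AtPrime.isUnit_to_map_iff A 𝔪 r₂).2 r₂.2
  have hru : IsUnit (f r₁ * f r₂) := hr₁u.mul hr₂u
  refine ⟨b₁ * r₂, b₂ * r₁, bc, rc, rc.2, ?_, ?_, ?_, ?_⟩
  · intro h
    have h1 : f ϖ ∣ IsLocalization.mk' A b₁ r₁ * (f r₁ * f r₂) := by
      rw [← e₁]; exact map_dvd f h
    exact ht₁ ((hru.dvd_mul_right).1 h1)
  · intro h
    have h1 : f ϖ ∣ IsLocalization.mk' A b₂ r₂ * (f r₁ * f r₂) := by
      rw [← e₂]; exact map_dvd f h
    exact ht₂ ((hru.dvd_mul_right).1 h1)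
  · apply dvd_of_algebraMap_dvd_atPrime ϖ hϖ 𝔪 hm𝔪
    rw [map_sub]
    show f ϖ ∣ f (b₁ * r₂) - f (b₂ * r₁)
    rw [e₁, e₂, ← sub_mul]
    exact Dvd.dvd.mul_right ht₁₂ _
  · apply hinj
    rw [map_mul, map_mul, map_mul, map_mul, map_pow, map_pow, e₁, e₂, ← ec]
    have : f a * IsLocalization.mk' A b₂ r₂ ^ m =
        (c : A) * f s * IsLocalization.mk' A b₁ r₁ ^ m := heq
    rw [mul_pow, mul_pow]
    linear_combination (f r₁ * f r₂) ^ m * f rc * this

omit [IsNoetherianRing B] in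
/-- Elements `σ` with `σ ^ m * u ∈ B` are closed under addition (`B` integrally closed). -/
theorem exists_add_pow_mul_eq [IsIntegrallyClosed B] (m : ℕ) (hm : m ≠ 0) (u σ₁ σ₂ : F)
    (b₁ b₂ : B) (h₁ : σ₁ ^ m * u = algebraMap B F b₁) (h₂ : σ₂ ^ m * u = algebraMap B F b₂) :
    ∃ b : B, (σ₁ + σ₂) ^ m * u = algebraMap B F b := by
  classical
  have hterm : ∀ k ∈ Finset.range (m + 1), ∃ c : B,
      σ₁ ^ k * σ₂ ^ (m - k) * u = algebraMap B F c := by
    intro k hk
    have hk' : k ≤ m := Nat.lt_succ_iff.1 (Finset.mem_range.1 hk)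
    have hpow : (σ₁ ^ k * σ₂ ^ (m - k) * u) ^ m = algebraMap B F (b₁ ^ k * b₂ ^ (m - k)) := by
      rw [map_mul, map_pow, map_pow, ← h₁, ← h₂]
      have : u ^ m = u ^ k * u ^ (m - k) := by rw [← pow_add, Nat.add_sub_cancel' hk']
      rw [mul_pow, mul_pow, this]
      ring
    have hint : IsIntegral B (σ₁ ^ k * σ₂ ^ (m - k) * u) :=
      IsIntegral.of_pow (Nat.pos_of_ne_zero hm) (hpow ▸ isIntegral_algebraMap)
    obtain ⟨c, hc⟩ := IsIntegrallyClosed.isIntegral_iff.1 hint
    exact ⟨c, hc.symm⟩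
  choose! c hc using hterm
  refine ⟨∑ k ∈ Finset.range (m + 1), c k * (m.choose k : B), ?_⟩
  rw [add_pow, Finset.sum_mul, map_sum]
  refine Finset.sum_congr rfl fun k hk => ?_
  rw [map_mul, ← hc k hk, map_natCast]
  ring

/-- **LE, one chart.**  There is `σ ∈ F` with `σ ^ m * u ∈ 1 + ϖ B` and `σ ∈ 1 + ϖ B_(ϖ)`. -/
theorem exists_sigma [IsIntegrallyClosed B] (ϖ : B) (hϖ : Prime ϖ) (hreg : RegularAlong ϖ)
    (m : ℕ) (hm : m ≠ 0) (u : F) (hu : OneModPi ϖ u) (hdiv : DivisibleDivisor B m u) :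
    ∃ σ : F, (∃ b : B, σ ^ m * u - 1 = algebraMap B F (ϖ * b)) ∧
      ∃ a' s' : B, ¬ ϖ ∣ s' ∧ (σ - 1) * algebraMap B F s' = algebraMap B F (ϖ * a') := by
  classical
  obtain ⟨a, s, hs, has, hus⟩ := hu
  rw [Ideal.mem_span_singleton] at hs has
  have hinjF : Function.Injective (algebraMap B F) := IsFractionRing.injective B F
  have hs0 : s ≠ 0 := fun h => hs (h ▸ dvd_zero ϖ)
  have hsF : algebraMap B F s ≠ 0 := fun h => hs0 (hinjF (by rw [h, map_zero]))
  -- the ideal of "good" elements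
  let Good : B → Prop := fun g => ∃ σ : F, (∃ b : B, σ ^ m * u = algebraMap B F b) ∧
    ∃ a' s' : B, ¬ ϖ ∣ s' ∧ (σ - algebraMap B F g) * algebraMap B F s' = algebraMap B F (ϖ * a')
  let I : Ideal B :=
    { carrier := {g | Good g}
      zero_mem' := by
        refine ⟨0, ⟨0, by rw [zero_pow hm, zero_mul, map_zero]⟩, 0, 1, hϖ.not_dvd_one, ?_⟩
        simp
      add_mem' := by
        rintro g₁ g₂ ⟨σ₁, ⟨b₁, hb₁⟩, a₁, s₁, hs₁, e₁⟩ ⟨σ₂, ⟨b₂, hb₂⟩, a₂, s₂, hs₂, e₂⟩
        refine ⟨σ₁ + σ₂, exists_add_pow_mul_eq m hm u σ₁ σ₂ b₁ b₂ hb₁ hb₂,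
          a₁ * s₂ + a₂ * s₁, s₁ * s₂, ?_, ?_⟩
        · exact fun h => (hϖ.dvd_or_dvd h).elim hs₁ hs₂
        · simp only [map_add, map_mul] at e₁ e₂ ⊢
          linear_combination algebraMap B F s₂ * e₁ + algebraMap B F s₁ * e₂
      smul_mem' := by
        rintro c g ⟨σ, ⟨b, hb⟩, a', s', hs', e⟩
        refine ⟨algebraMap B F c * σ, ⟨c ^ m * b, ?_⟩, c * a', s', hs', ?_⟩
        · rw [mul_pow, mul_assoc, hb, map_mul, map_pow]
        · simp only [smul_eq_mul, map_mul] at e ⊢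
          linear_combination algebraMap B F c * e }
  have hI : ∀ g : B, g ∈ I ↔ Good g := fun g => Iff.rfl
  -- `ϖ ∈ I`
  have hϖI : ϖ ∈ I := by
    obtain ⟨k, rfl⟩ : ∃ k, m = k + 1 := ⟨m - 1, by omega⟩
    refine ⟨algebraMap B F (ϖ * s), ⟨ϖ ^ (k + 1) * s ^ k * a, ?_⟩, s - 1, 1, hϖ.not_dvd_one, ?_⟩
    · simp only [map_mul, map_pow]
      rw [← hus]; ring
    · simp only [map_mul, map_sub, map_one]; ring
  -- `I` is contained in no maximal ideal
  have htop : I = ⊤ := by
    by_contra hne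
    obtain ⟨𝔪, h𝔪, hle⟩ := Ideal.exists_le_maximal I hne
    have hm𝔪 : ϖ ∈ 𝔪 := hle hϖI
    obtain ⟨t₁, t₂, b, r, hr, ht₁, ht₂, ⟨d, hd⟩, heq⟩ :=
      exists_local_data ϖ hϖ hreg m hm a s hs has u hus hdiv 𝔪 hm𝔪
    apply hr
    apply hle
    have ht₁0 : t₁ ≠ 0 := fun h => ht₁ (h ▸ dvd_zero ϖ)
    have ht₁F : algebraMap B F t₁ ≠ 0 := fun h => ht₁0 (hinjF (by rw [h, map_zero]))
    obtain ⟨k, rfl⟩ : ∃ k, m = k + 1 := ⟨m - 1, by omega⟩
    refine ⟨algebraMap B F r * algebraMap B F t₂ / algebraMap B F t₁,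
      ⟨r ^ k * b, ?_⟩, -(r * d), t₁, ht₁, ?_⟩
    · have hu' : u = algebraMap B F a / algebraMap B F s := by
        rw [eq_div_iff hsF]; exact hus
      have heqF := congrArg (algebraMap B F) heq
      simp only [map_mul, map_pow] at heqF ⊢
      rw [hu', div_pow, div_mul_div_comm, div_eq_iff (mul_ne_zero (pow_ne_zero _ ht₁F) hsF)]
      linear_combination (algebraMap B F r) ^ k * heqF
    · have hdF := congrArg (algebraMap B F) hd
      simp only [map_mul, map_sub, map_neg] at hdF ⊢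
      rw [sub_mul, div_mul_cancel₀ _ ht₁F]
      linear_combination (-(algebraMap B F r)) * hdF
  have h1 : (1 : B) ∈ I := by rw [htop]; exact Submodule.mem_top
  obtain ⟨σ, ⟨b, hb⟩, a', s', hs', e⟩ := h1
  rw [map_one] at e
  refine ⟨σ, ?_, a', s', hs', e⟩
  -- `ϖ ∣ b - 1`
  obtain ⟨a'', ha''⟩ := has
  have key : b * s' ^ m * s = (s' + ϖ * a') ^ m * a := by
    apply hinjF
    simp only [map_mul, map_pow, map_add]
    rw [← hb, ← hus]
    have : algebraMap B F s' + algebraMap B F ϖ * algebraMap B F a' = σ * algebraMap B F s' := by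
      rw [map_mul] at e
      linear_combination -e
    rw [this]; ring
  have hdvd1 : ϖ ∣ (s' + ϖ * a') ^ m - s' ^ m := by
    have := sub_dvd_pow_sub_pow (s' + ϖ * a') s' m
    rw [add_sub_cancel_left] at this
    exact (Dvd.intro _ rfl).trans this
  have hdvd2 : ϖ ∣ (b - 1) * (s' ^ m * s) := by
    obtain ⟨e₁, he₁⟩ := hdvd1
    refine ⟨e₁ * a + s' ^ m * a'', ?_⟩
    linear_combination key + a * he₁ + s' ^ m * ha''
  have hdvd3 : ϖ ∣ b - 1 := by
    rcases hϖ.dvd_or_dvd hdvd2 with h | h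
    · exact h
    · rcases hϖ.dvd_or_dvd h with h' | h'
      · exact absurd (hϖ.dvd_of_dvd_pow h') hs'
      · exact absurd h' hs
  obtain ⟨b', hb'⟩ := hdvd3
  refine ⟨b', ?_⟩
  rw [hb, ← map_one (algebraMap B F), ← map_sub, hb']

end LocalData

section TwoCharts

variable {R : Type*} [CommRing R] {F : Type*} [Field F] [Algebra R F]

/-- In an `m`-root closed subalgebra, `{σ | σ ^ m * u ∈ M}` is closed under addition. -/
theorem add_pow_mul_mem_of_rootClosed (M : Subalgebra R F) (m : ℕ)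
    (hrc : ∀ f : F, f ^ m ∈ M → f ∈ M) (u σ₁ σ₂ : F)
    (h₁ : σ₁ ^ m * u ∈ M) (h₂ : σ₂ ^ m * u ∈ M) : (σ₁ + σ₂) ^ m * u ∈ M := by
  classical
  rw [add_pow, Finset.sum_mul]
  refine M.sum_mem fun k hk => ?_
  have hk' : k ≤ m := Nat.lt_succ_iff.1 (Finset.mem_range.1 hk)
  have hterm : σ₁ ^ k * σ₂ ^ (m - k) * u ∈ M := by
    apply hrc
    have : (σ₁ ^ k * σ₂ ^ (m - k) * u) ^ m = (σ₁ ^ m * u) ^ k * (σ₂ ^ m * u) ^ (m - k) := by
      have hu : u ^ m = u ^ k * u ^ (m - k) := by rw [← pow_add, Nat.add_sub_cancel' hk']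
      rw [mul_pow, mul_pow, hu]
      ring
    rw [this]
    exact M.mul_mem (M.pow_mem h₁ _) (M.pow_mem h₂ _)
  have : σ₁ ^ k * σ₂ ^ (m - k) * (m.choose k : F) * u =
      (m.choose k : F) * (σ₁ ^ k * σ₂ ^ (m - k) * u) := by ring
  rw [this]
  exact M.mul_mem (natCast_mem M _) hterm

/-- **LE, two charts**: exactly the input `σ₀, σ₁, h₀, h₁, h₀₁` of `H394.kummer_endgame`.

Hypotheses per chart `B ∈ {B₀, B₁}` (as a ring `↥B`): noetherian, integrally closed with fraction
field `F`, `w` prime, special fibre regular (b2), `u ≡ 1 mod w`, `m ∣ div u`.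
On the overlap `M`: `m`-root closed, and saturated (`hsat`: an element `f` with `w f ∈ M` and
`s₀ s₁ f ∈ M` for some `sᵢ ∈ Bᵢ ∖ w Bᵢ` lies in `M`; this is the `q`-expansion principle on `M`). -/
theorem local_existence (m : ℕ) (hm : m ≠ 0) (w : R) (u : F) (B₀ B₁ M : Subalgebra R F)
    (h0M : B₀ ≤ M) (h1M : B₁ ≤ M)
    [IsNoetherianRing B₀] [IsIntegrallyClosed B₀] [IsFractionRing B₀ F]
    [IsNoetherianRing B₁] [IsIntegrallyClosed B₁] [IsFractionRing B₁ F]
    (hw₀ : Prime (algebraMap R B₀ w)) (hw₁ : Prime (algebraMap R B₁ w))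
    (hreg₀ : RegularAlong (algebraMap R B₀ w)) (hreg₁ : RegularAlong (algebraMap R B₁ w))
    (hu₀ : OneModPi (algebraMap R B₀ w) u) (hu₁ : OneModPi (algebraMap R B₁ w) u)
    (hdiv₀ : DivisibleDivisor B₀ m u) (hdiv₁ : DivisibleDivisor B₁ m u)
    (hrcM : ∀ f : F, f ^ m ∈ M → f ∈ M)
    (hsat : ∀ f : F, ∀ s₀ : B₀, ¬ algebraMap R B₀ w ∣ s₀ → ∀ s₁ : B₁, ¬ algebraMap R B₁ w ∣ s₁ →
      (s₀ : F) * (s₁ : F) * f ∈ M → algebraMap R F w * f ∈ M → f ∈ M) :
    ∃ σ₀ σ₁ : F, (∃ b ∈ B₀, σ₀ ^ m * u - 1 = algebraMap R F w * b) ∧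
      (∃ b ∈ B₁, σ₁ ^ m * u - 1 = algebraMap R F w * b) ∧
      ∃ γ : F, σ₀ - σ₁ = algebraMap R F w * γ ∧ γ ^ m * u ∈ M := by
  classical
  obtain ⟨σ₀, ⟨b₀, hb₀⟩, a₀, s₀, hs₀, e₀⟩ := exists_sigma _ hw₀ hreg₀ m hm u hu₀ hdiv₀
  obtain ⟨σ₁, ⟨b₁, hb₁⟩, a₁, s₁, hs₁, e₁⟩ := exists_sigma _ hw₁ hreg₁ m hm u hu₁ hdiv₁
  obtain ⟨a, s, hs, -, hus⟩ := hu₀
  rw [Ideal.mem_span_singleton] at hs
  set W : F := algebraMap R F w with hW
  have hW0 : W ≠ 0 := by
    intro h
    apply hw₀.ne_zero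
    apply Subtype.ext
    exact h
  have hc₀ : ∀ x : B₀, algebraMap B₀ F x = (x : F) := fun _ => rfl
  have hc₁ : ∀ x : B₁, algebraMap B₁ F x = (x : F) := fun _ => rfl
  have hwc₀ : ((algebraMap R B₀ w : B₀) : F) = W := rfl
  have hwc₁ : ((algebraMap R B₁ w : B₁) : F) = W := rfl
  simp only [hc₀, Subalgebra.coe_mul, hwc₀] at hb₀ e₀ hus
  simp only [hc₁, Subalgebra.coe_mul, hwc₁] at hb₁ e₁
  refine ⟨σ₀, σ₁, ⟨b₀, b₀.2, hb₀⟩, ⟨b₁, b₁.2, hb₁⟩, (σ₀ - σ₁) / W, ?_, ?_⟩
  · rw [mul_div_cancel₀ _ hW0]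
  -- `f := γ ^ m * u`
  set f : F := ((σ₀ - σ₁) / W) ^ m * u with hf
  -- (i) `W ^ m * f ∈ M`
  have hσ₀M : σ₀ ^ m * u ∈ M := by
    have : σ₀ ^ m * u = 1 + W * b₀ := by rw [← hb₀]; ring
    rw [this]
    exact M.add_mem M.one_mem (M.mul_mem (M.algebraMap_mem w) (h0M b₀.2))
  have hσ₁M : σ₁ ^ m * u ∈ M := by
    have : σ₁ ^ m * u = 1 + W * b₁ := by rw [← hb₁]; ring
    rw [this]
    exact M.add_mem M.one_mem (M.mul_mem (M.algebraMap_mem w) (h1M b₁.2))
  have hnegM : (-σ₁) ^ m * u ∈ M := by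
    rcases Nat.even_or_odd m with h | h
    · rwa [h.neg_pow]
    · rw [h.neg_pow, neg_mul]; exact M.neg_mem hσ₁M
  have hi : W ^ m * f ∈ M := by
    have h := add_pow_mul_mem_of_rootClosed M m hrcM u σ₀ (-σ₁) hσ₀M hnegM
    have : W ^ m * f = (σ₀ + -σ₁) ^ m * u := by
      rw [hf, div_pow, ← sub_eq_add_neg]
      field_simp
    rw [this]; exact h
  -- (ii) `D * f ∈ M`
  set S₀ : B₀ := s₀ ^ m * s with hS₀
  set S₁ : B₁ := s₁ ^ m with hS₁
  have hS₀' : ¬ algebraMap R B₀ w ∣ S₀ := by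
    intro h
    rcases hw₀.dvd_or_dvd h with h' | h'
    · exact hs₀ (hw₀.dvd_of_dvd_pow h')
    · exact hs h'
  have hS₁' : ¬ algebraMap R B₁ w ∣ S₁ := fun h => hs₁ (hw₁.dvd_of_dvd_pow h)
  have hii : (S₀ : F) * (S₁ : F) * f ∈ M := by
    have hγ : (σ₀ - σ₁) / W * ((s₀ : F) * (s₁ : F)) = (a₀ : F) * s₁ - (a₁ : F) * s₀ := by
      field_simp
      linear_combination (s₁ : F) * e₀ - (s₀ : F) * e₁
    have hS₀c : (S₀ : F) = (s₀ : F) ^ m * (s : F) := by
      rw [hS₀, Subalgebra.coe_mul, Subalgebra.coe_pow]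
    have hS₁c : (S₁ : F) = (s₁ : F) ^ m := by
      rw [hS₁, Subalgebra.coe_pow]
    have : (S₀ : F) * (S₁ : F) * f = ((a₀ : F) * s₁ - (a₁ : F) * s₀) ^ m * (a : F) := by
      rw [← hγ, ← hus, hf, hS₀c, hS₁c, mul_pow, mul_pow]
      ring
    rw [this]
    exact M.mul_mem (M.pow_mem (M.sub_mem (M.mul_mem (h0M a₀.2) (h1M s₁.2))
      (M.mul_mem (h1M a₁.2) (h0M s₀.2))) _) (h0M a.2)
  -- (iii) descend
  have hdesc : ∀ k : ℕ, k ≤ m → W ^ (m - k) * f ∈ M := by
    intro k
    induction k with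
    | zero => intro _; simpa using hi
    | succ k ih =>
      intro hk
      have h1 := ih (Nat.le_of_succ_le hk)
      apply hsat _ S₀ hS₀' S₁ hS₁'
      · have : (S₀ : F) * (S₁ : F) * (W ^ (m - (k + 1)) * f) =
            W ^ (m - (k + 1)) * ((S₀ : F) * (S₁ : F) * f) := by ring
        rw [this]
        exact M.mul_mem (M.pow_mem (M.algebraMap_mem w) _) hii
      · have : W * (W ^ (m - (k + 1)) * f) = W ^ (m - k) * f := by
          rw [← mul_assoc, ← pow_succ']
          congr 2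
          omega
        rw [this]; exact h1
  have := hdesc m le_rfl
  simpa using this

end TwoCharts

end Fermat.Agent.S18.H214

end
-- ===== PACK-END S18/H214/LocalExist.lean

-- ===== PACK-BEGIN S18/H498/CechFinite.lean
section



/-!
# S18, piece b5 (continued): the torsion bound and finiteness of `C / (B₁ + B₂)`

* `exists_torsion_bound`: in a finite module over a noetherian ring, the `ϖ`-power torsion is
  killed by a fixed power `ϖ ^ c`.
* `finite_cech_quotient`: if `C = B₁[1/x]`, `B₁ ⊆ B₂[x]`, `x⁻¹ ∈ B₂` and `B₁` is a finite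
  `R[x]`-module, then `C / (B₁ + B₂)` is a finite `R`-module (this is "H¹ of a projective curve
  over `R` is finite", by hand).
* `idem_trivial_of_cech_finite`: the connectedness statement with these inputs.
-/

set_option autoImplicit false
set_option linter.style.haveILetI false

namespace Fermat.Agent.S18.H498

section Torsion

variable {R M : Type*} [CommRing R] [IsNoetherianRing R] [AddCommGroup M] [Module R M]
  [Module.Finite R M]

theorem exists_torsion_bound (ϖ : R) :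
    ∃ c : ℕ, ∀ (n : ℕ) (m : M), ϖ ^ n • m = 0 → ϖ ^ c • m = 0 := by
  haveI : IsNoetherian R M := isNoetherian_of_isNoetherianRing_of_finite R M
  let T : ℕ →o Submodule R M :=
    { toFun := fun n => LinearMap.ker (LinearMap.lsmul R M (ϖ ^ n))
      monotone' := by
        intro a b hab m hm
        simp only [LinearMap.mem_ker, LinearMap.lsmul_apply] at hm ⊢
        obtain ⟨k, rfl⟩ := Nat.exists_eq_add_of_le hab
        rw [pow_add, mul_comm, mul_smul, hm, smul_zero] }
  obtain ⟨c, hc⟩ := monotone_stabilizes_iff_noetherian.mpr ‹IsNoetherian R M› T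
  have hT : ∀ (n : ℕ) (m : M), m ∈ T n ↔ ϖ ^ n • m = 0 := by
    intro n m
    change m ∈ LinearMap.ker (LinearMap.lsmul R M (ϖ ^ n)) ↔ _
    rw [LinearMap.mem_ker, LinearMap.lsmul_apply]
  refine ⟨c, fun n m hm => ?_⟩
  rcases le_total c n with h | h
  · have hmem : m ∈ T n := (hT n m).mpr hm
    rw [← hc n h] at hmem
    exact (hT c m).mp hmem
  · obtain ⟨k, rfl⟩ := Nat.exists_eq_add_of_le h
    rw [pow_add, mul_comm, mul_smul, hm, smul_zero]

end Torsion

section Finite

variable {R C : Type*} [CommRing R] [CommRing C] [Algebra R C]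

/-- Finiteness of the Čech `H¹` for two charts glued along `x ↦ x⁻¹`. -/
theorem finite_cech_quotient (B₁ B₂ : Subalgebra R C) (x x' : C) (hx : x ∈ B₁) (hx' : x' ∈ B₂)
    (hxx' : x * x' = 1)
    (ι : Type*) [Finite ι] (g : ι → C) (hg : ∀ i, g i ∈ B₁)
    (hgen : ∀ b ∈ B₁, ∃ P : ι → Polynomial R, b = ∑ᶠ i, Polynomial.aeval x (P i) * g i)
    (hloc : ∀ y : C, ∃ n : ℕ, x ^ n * y ∈ B₁)
    (hinf : ∀ i, ∃ n : ℕ, x' ^ n * g i ∈ B₂) :
    Module.Finite R (C ⧸ (Subalgebra.toSubmodule B₁ ⊔ Subalgebra.toSubmodule B₂)) := by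
  classical
  haveI : Fintype ι := Fintype.ofFinite ι
  choose N hN using hinf
  let Nmax : ℕ := Finset.univ.sup N
  have hNmax : ∀ i, ∀ a, Nmax ≤ a → x' ^ a * g i ∈ B₂ := by
    intro i a ha
    have hle : N i ≤ a := le_trans (Finset.le_sup (f := N) (Finset.mem_univ i)) ha
    obtain ⟨k, rfl⟩ := Nat.exists_eq_add_of_le hle
    rw [pow_add, mul_comm (x' ^ N i), mul_assoc]
    exact B₂.mul_mem (B₂.pow_mem hx' k) (hN i)
  -- the finite generating family
  let W : Submodule R C := Submodule.span R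
    (Set.range fun q : ι × Fin Nmax => x' ^ (q.2 : ℕ) * g q.1)
  let S : Submodule R C := Subalgebra.toSubmodule B₁ ⊔ Subalgebra.toSubmodule B₂
  have hkey : ∀ (i : ι) (n j : ℕ), x' ^ n * (x ^ j * g i) ∈ S ⊔ W := by
    intro i n j
    rcases le_total n j with h | h
    · -- `x^(j-n) g i ∈ B₁`
      obtain ⟨k, rfl⟩ := Nat.exists_eq_add_of_le h
      have : x' ^ n * (x ^ (n + k) * g i) = x ^ k * g i := by
        rw [pow_add, ← mul_assoc, ← mul_assoc, ← mul_pow, mul_comm x' x, hxx', one_pow, one_mul]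
      rw [this]
      exact Submodule.mem_sup_left (Submodule.mem_sup_left (B₁.mul_mem (B₁.pow_mem hx k) (hg i)))
    · obtain ⟨k, rfl⟩ := Nat.exists_eq_add_of_le h
      have : x' ^ (j + k) * (x ^ j * g i) = x' ^ k * g i := by
        rw [pow_add, mul_comm (x' ^ j), mul_assoc, ← mul_assoc (x' ^ j), ← mul_pow,
          mul_comm x' x, hxx', one_pow, one_mul]
      rw [this]
      rcases lt_or_ge k Nmax with hk | hk
      · exact Submodule.mem_sup_right (Submodule.subset_span ⟨(i, ⟨k, hk⟩), rfl⟩)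
      · exact Submodule.mem_sup_left (Submodule.mem_sup_right (hNmax i k hk))
  have hpoly : ∀ (i : ι) (n : ℕ) (P : Polynomial R),
      x' ^ n * (Polynomial.aeval x P * g i) ∈ S ⊔ W := by
    intro i n P
    induction P using Polynomial.induction_on' with
    | add P Q hP hQ =>
      rw [map_add, add_mul, mul_add]
      exact Submodule.add_mem _ hP hQ
    | monomial j a =>
      rw [Polynomial.aeval_monomial, mul_assoc, ← Algebra.smul_def, mul_smul_comm]
      exact Submodule.smul_mem _ _ (hkey i n j)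
  have htop : S ⊔ W = ⊤ := by
    rw [eq_top_iff]
    intro y _
    obtain ⟨n, hn⟩ := hloc y
    obtain ⟨P, hP⟩ := hgen _ hn
    have hy : y = x' ^ n * (x ^ n * y) := by
      rw [← mul_assoc, ← mul_pow, mul_comm x' x, hxx', one_pow, one_mul]
    rw [hy, hP, finsum_eq_sum_of_fintype, Finset.mul_sum]
    exact Submodule.sum_mem _ fun i _ => hpoly i n (P i)
  have hWfg : W.FG := Submodule.fg_span (Set.finite_range _)
  -- `C ⧸ S` is the image of `W`
  have hsurj : Function.Surjective (S.mkQ.comp W.subtype) := by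
    intro q
    obtain ⟨y, rfl⟩ := S.mkQ_surjective q
    have hy : y ∈ S ⊔ W := htop ▸ Submodule.mem_top
    obtain ⟨s, hs, w, hw, rfl⟩ := Submodule.mem_sup.mp hy
    refine ⟨⟨w, hw⟩, ?_⟩
    simp only [LinearMap.comp_apply, Submodule.subtype_apply, Submodule.mkQ_apply,
      Submodule.Quotient.mk_add]
    rw [(Submodule.Quotient.mk_eq_zero S).mpr hs, zero_add]
  haveI : Module.Finite R W := Module.Finite.iff_fg.mpr hWfg
  exact Module.Finite.of_surjective _ hsurj

end Finite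

section Main

variable {R C : Type*} [CommRing R] [IsLocalRing R] [IsNoetherianRing R] [CommRing C]
  [Algebra R C]

/-- Connectedness with the finiteness hypothesis on `C / (B₁ + B₂)`. -/
theorem idem_trivial_of_cech_finite (ϖ : R) (B₁ B₂ : Subalgebra R C)
    (hint : ∀ y : C, y ∈ B₁ → y ∈ B₂ → ∃ r : R, algebraMap R C r = y)
    [Module.Finite R (C ⧸ (Subalgebra.toSubmodule B₁ ⊔ Subalgebra.toSubmodule B₂))]
    (e₁ e₂ : C) (he₁ : e₁ ∈ B₁) (he₂ : e₂ ∈ B₂)
    (h₁ : ∃ a ∈ B₁, e₁ ^ 2 - e₁ = algebraMap R C ϖ * a)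
    (h₂ : ∃ a ∈ B₂, e₂ ^ 2 - e₂ = algebraMap R C ϖ * a)
    (h₁₂ : ∃ y : C, e₁ - e₂ = algebraMap R C ϖ * y) :
    (∃ a ∈ B₁, e₁ = algebraMap R C ϖ * a) ∨ (∃ a ∈ B₁, 1 - e₁ = algebraMap R C ϖ * a) := by
  obtain ⟨c, hc⟩ := exists_torsion_bound
    (M := C ⧸ (Subalgebra.toSubmodule B₁ ⊔ Subalgebra.toSubmodule B₂)) ϖ
  refine idem_trivial_of_cech ϖ B₁ B₂ hint c ?_ e₁ e₂ he₁ he₂ h₁ h₂ h₁₂
  intro n y hy
  have hmem : ∀ k : ℕ, (∃ b₁ ∈ B₁, ∃ b₂ ∈ B₂, algebraMap R C ϖ ^ k * y = b₁ + b₂) ↔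
      ϖ ^ k • (Submodule.Quotient.mk y :
        C ⧸ (Subalgebra.toSubmodule B₁ ⊔ Subalgebra.toSubmodule B₂)) = 0 := by
    intro k
    rw [← Submodule.Quotient.mk_smul, Submodule.Quotient.mk_eq_zero, Submodule.mem_sup,
      Algebra.smul_def, map_pow]
    constructor
    · rintro ⟨b₁, hb₁, b₂, hb₂, h⟩
      exact ⟨b₁, hb₁, b₂, hb₂, h.symm⟩
    · rintro ⟨b₁, hb₁, b₂, hb₂, h⟩
      exact ⟨b₁, hb₁, b₂, hb₂, h.symm⟩
  exact (hmem c).mpr (hc n _ ((hmem n).mp hy))

end Main

end Fermat.Agent.S18.H498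

end
-- ===== PACK-END S18/H498/CechFinite.lean

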