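import Mathlib
import Fermat.Prelude.Def_GaloisRep_Adic
import Fermat.Prelude.Def_ModularCurve_JqCoeff
import Fermat.Prelude.Def_ModularCurve_X0ModL
import Fermat.Agent.Pack.S3234.G0E0L0
import Fermat.Agent.Pack.S3234.G0E1L3
import Fermat.Agent.Pack.S3234.G0E2L0
import Fermat.Agent.Pack.S3234.G0E2L1
import Fermat.Agent.Pack.S3234.G0E2L2
import Fermat.Agent.Pack.S3234.G0E2L3
import Fermat.Agent.Pack.S3234.G0E1L2
import Fermat.Agent.Pack.S3234.G0E1L1
import Fermat.Agent.Pack.S3234.G0E1L0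

-- ===== PACK-BEGIN Lib/Cheb/H761/PrimeSum.lean
section



/-!
# Piece Z of the shared library CHEB: `Spec.PrimeSumStatement`

`∑_p c_F(p) p^(-s) = log (1 / (s - 1)) + O(1)` on `(1, 2]`, where `c_F(p)` is the number of prime
ideals of `𝓞 F` of norm `p`.
-/

set_option autoImplicit false
set_option linter.unusedSectionVars false
set_option linter.unusedVariables false

namespace Fermat.Agent.Lib.Cheb.H761

open IsDedekindDomain Filter Topology NumberField Ideal

noncomputable section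

variable (F : Type*) [Field F] [NumberField F]

/-- At most `[F : ℚ]` primes of `𝓞 F` contain a given rational prime. -/
lemma card_le_of_natCast_mem {p : ℕ} (hp : p.Prime) (T : Finset (HeightOneSpectrum (𝓞 F)))
    (hT : ∀ 𝔭 ∈ T, (p : 𝓞 F) ∈ 𝔭.asIdeal) : T.card ≤ Module.finrank ℤ (𝓞 F) := by
  classical
  have hdvd : ∀ 𝔭 ∈ T, 𝔭.asIdeal ∣ span {(p : 𝓞 F)} := fun 𝔭 h𝔭 =>
    Ideal.dvd_iff_le.mpr ((span_singleton_le_iff_mem _).mpr (hT 𝔭 h𝔭))
  have hprod : ∏ 𝔭 ∈ T, 𝔭.asIdeal ∣ span {(p : 𝓞 F)} := by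
    have := Finset.prod_primes_dvd (s := T.image (fun 𝔭 => 𝔭.asIdeal)) (span {(p : 𝓞 F)})
      (by
        intro a ha
        obtain ⟨𝔭, -, rfl⟩ := Finset.mem_image.mp ha
        exact 𝔭.prime)
      (by
        intro a ha
        obtain ⟨𝔭, h𝔭, rfl⟩ := Finset.mem_image.mp ha
        exact hdvd 𝔭 h𝔭)
    rwa [Finset.prod_image (fun x _ y _ h => HeightOneSpectrum.ext h)] at this
  have hnorm := Ideal.absNorm_dvd_absNorm_of_le (Ideal.dvd_iff_le.mp hprod)
  rw [Ideal.absNorm_span_natCast, map_prod] at hnorm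
  have hle : ∀ 𝔭 ∈ T, p ≤ absNorm 𝔭.asIdeal := by
    intro 𝔭 h𝔭
    have h1 := Ideal.absNorm_dvd_absNorm_of_le (Ideal.dvd_iff_le.mp (hdvd 𝔭 h𝔭))
    rw [Ideal.absNorm_span_natCast] at h1
    obtain ⟨k, -, hk⟩ := (Nat.dvd_prime_pow hp).mp h1
    have hk0 : k ≠ 0 := by
      rintro rfl
      rw [pow_zero, Ideal.absNorm_eq_one_iff] at hk
      exact 𝔭.isPrime.ne_top hk
    rw [hk]
    exact Nat.le_self_pow hk0 p
  have h2 : p ^ T.card ≤ ∏ 𝔭 ∈ T, absNorm 𝔭.asIdeal := by
    rw [← Finset.prod_const]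
    exact Finset.prod_le_prod' hle
  have h3 : ∏ 𝔭 ∈ T, absNorm 𝔭.asIdeal ≤ p ^ Module.finrank ℤ (𝓞 F) :=
    Nat.le_of_dvd (pow_pos hp.pos _) hnorm
  exact (Nat.pow_le_pow_iff_right hp.one_lt).mp (h2.trans h3)

/-- the rational prime below a prime ideal -/
def primeBelow (𝔭 : HeightOneSpectrum (𝓞 F)) : ℕ :=
  haveI := 𝔭.isMaximal
  (Ideal.exists_prime_and_absNorm_eq_pow 𝔭.asIdeal).choose

lemma primeBelow_spec (𝔭 : HeightOneSpectrum (𝓞 F)) :
    ∃ n, 0 < n ∧ (primeBelow F 𝔭 : 𝓞 F) ∈ 𝔭.asIdeal ∧ (primeBelow F 𝔭).Prime ∧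
      absNorm 𝔭.asIdeal = primeBelow F 𝔭 ^ n :=
  haveI := 𝔭.isMaximal
  (Ideal.exists_prime_and_absNorm_eq_pow 𝔭.asIdeal).choose_spec

/-- For a prime of non-prime norm, `N𝔭 ≥ p²`. -/
lemma sq_primeBelow_le (𝔭 : HeightOneSpectrum (𝓞 F)) (h : ¬ (absNorm 𝔭.asIdeal).Prime) :
    primeBelow F 𝔭 ^ 2 ≤ absNorm 𝔭.asIdeal := by
  obtain ⟨n, hn, -, hp, hN⟩ := primeBelow_spec F 𝔭
  have hn2 : 2 ≤ n := by
    by_contra hlt
    have : n = 1 := by omega
    rw [this, pow_one] at hN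
    exact h (hN ▸ hp)
  rw [hN]
  exact Nat.pow_le_pow_right hp.pos hn2

/-- the primes of non-prime norm -/
def highPrimes : Set (HeightOneSpectrum (𝓞 F)) := {𝔭 | ¬ (absNorm 𝔭.asIdeal).Prime}

/-- the constant bounding the contribution of the primes of degree `≥ 2` -/
def highBound : ℝ := (Module.finrank ℤ (𝓞 F) : ℝ) * ∑' n : ℕ, ((n : ℝ) ^ 2)⁻¹

lemma summable_inv_sq : Summable (fun n : ℕ => ((n : ℝ) ^ 2)⁻¹) := by
  have := (Real.summable_nat_pow_inv (p := 2)).mpr (by norm_num)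
  exact this

lemma sum_highPrimes_le {s : ℝ} (hs : 1 ≤ s) (T : Finset (HeightOneSpectrum (𝓞 F)))
    (hT : ∀ 𝔭 ∈ T, ¬ (absNorm 𝔭.asIdeal).Prime) :
    ∑ 𝔭 ∈ T, normPow F s 𝔭.asIdeal ≤ highBound F := by
  classical
  have h1 : ∀ 𝔭 ∈ T, normPow F s 𝔭.asIdeal ≤ (((primeBelow F 𝔭 : ℕ) : ℝ) ^ 2)⁻¹ := by
    intro 𝔭 h𝔭
    have hsq := sq_primeBelow_le F 𝔭 (hT 𝔭 h𝔭)
    obtain ⟨n, hn, -, hp, hN⟩ := primeBelow_spec F 𝔭
    have hpos : (0 : ℝ) < (primeBelow F 𝔭 : ℝ) ^ 2 := by
      have : (0 : ℝ) < primeBelow F 𝔭 := by exact_mod_cast hp.pos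
      positivity
    have hle : ((primeBelow F 𝔭 : ℝ)) ^ 2 ≤ (absNorm 𝔭.asIdeal : ℝ) := by exact_mod_cast hsq
    have h1N : (1 : ℝ) ≤ absNorm 𝔭.asIdeal := by
      have : (1 : ℝ) ≤ (primeBelow F 𝔭 : ℝ) ^ 2 := by
        have : (1 : ℝ) ≤ primeBelow F 𝔭 := by exact_mod_cast hp.one_lt.le
        nlinarith
      linarith
    calc normPow F s 𝔭.asIdeal ≤ normPow F 1 𝔭.asIdeal :=
          normPow_anti F hs 𝔭.asIdeal one_pos
      _ = (absNorm 𝔭.asIdeal : ℝ)⁻¹ := by
          rw [normPow, Real.rpow_neg_one]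
      _ ≤ (((primeBelow F 𝔭 : ℕ) : ℝ) ^ 2)⁻¹ := inv_anti₀ hpos hle
  calc ∑ 𝔭 ∈ T, normPow F s 𝔭.asIdeal
      ≤ ∑ 𝔭 ∈ T, (((primeBelow F 𝔭 : ℕ) : ℝ) ^ 2)⁻¹ := Finset.sum_le_sum h1
    _ = ∑ p ∈ T.image (primeBelow F),
          ∑ 𝔭 ∈ T.filter (fun 𝔭 => primeBelow F 𝔭 = p), (((primeBelow F 𝔭 : ℕ) : ℝ) ^ 2)⁻¹ := by
        rw [Finset.sum_fiberwise_of_maps_to (fun 𝔭 h𝔭 => Finset.mem_image_of_mem _ h𝔭)]
    _ ≤ ∑ p ∈ T.image (primeBelow F), (Module.finrank ℤ (𝓞 F) : ℝ) * ((p : ℝ) ^ 2)⁻¹ := by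
        refine Finset.sum_le_sum fun p hp => ?_
        obtain ⟨𝔮, h𝔮, rfl⟩ := Finset.mem_image.mp hp
        have hcard : (T.filter (fun 𝔭 => primeBelow F 𝔭 = primeBelow F 𝔮)).card ≤
            Module.finrank ℤ (𝓞 F) := by
          obtain ⟨n, -, -, hpr, -⟩ := primeBelow_spec F 𝔮
          refine card_le_of_natCast_mem F hpr _ fun 𝔭 h𝔭 => ?_
          obtain ⟨-, h⟩ := Finset.mem_filter.mp h𝔭
          obtain ⟨m, -, hmem, -, -⟩ := primeBelow_spec F 𝔭
          rwa [h] at hmem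
        calc ∑ 𝔭 ∈ T.filter (fun 𝔭 => primeBelow F 𝔭 = primeBelow F 𝔮),
              (((primeBelow F 𝔭 : ℕ) : ℝ) ^ 2)⁻¹
            = ∑ 𝔭 ∈ T.filter (fun 𝔭 => primeBelow F 𝔭 = primeBelow F 𝔮),
              (((primeBelow F 𝔮 : ℕ) : ℝ) ^ 2)⁻¹ := by
              refine Finset.sum_congr rfl fun 𝔭 h𝔭 => ?_
              rw [(Finset.mem_filter.mp h𝔭).2]
          _ = ((T.filter (fun 𝔭 => primeBelow F 𝔭 = primeBelow F 𝔮)).card : ℝ) *
              (((primeBelow F 𝔮 : ℕ) : ℝ) ^ 2)⁻¹ := by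
              rw [Finset.sum_const, nsmul_eq_mul]
          _ ≤ (Module.finrank ℤ (𝓞 F) : ℝ) * (((primeBelow F 𝔮 : ℕ) : ℝ) ^ 2)⁻¹ := by
              gcongr
    _ = (Module.finrank ℤ (𝓞 F) : ℝ) * ∑ p ∈ T.image (primeBelow F), ((p : ℝ) ^ 2)⁻¹ := by
        rw [Finset.mul_sum]
    _ ≤ highBound F := by
        rw [highBound]
        gcongr
        exact summable_inv_sq.sum_le_tsum _ (fun n _ => by positivity)

lemma highBound_nonneg : 0 ≤ highBound F := by
  rw [highBound]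
  have : 0 ≤ ∑' n : ℕ, ((n : ℝ) ^ 2)⁻¹ := tsum_nonneg fun n => by positivity
  positivity

/-- The primes of degree `≥ 2` contribute at most `highBound F`. -/
theorem tsum_highPrimes_le {s : ℝ} (hs : 1 < s) :
    ∑' 𝔭 : highPrimes F, normPow F s 𝔭.1.asIdeal ≤ highBound F := by
  classical
  have hsum : Summable (fun 𝔭 : highPrimes F => normPow F s 𝔭.1.asIdeal) :=
    (summable_primeSum F hs).subtype _
  refine hsum.tsum_le_of_sum_le fun T => ?_
  have := sum_highPrimes_le F hs.le (T.image Subtype.val) (by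
    intro 𝔭 h𝔭
    obtain ⟨x, -, rfl⟩ := Finset.mem_image.mp h𝔭
    exact x.2)
  rwa [Finset.sum_image (fun x _ y _ h => Subtype.ext h)] at this

/-- the primes of prime norm -/
def lowPrimes : Set (HeightOneSpectrum (𝓞 F)) := {𝔭 | (absNorm 𝔭.asIdeal).Prime}

/-- the norm map on primes of prime norm -/
def lowNorm (𝔭 : lowPrimes F) : Nat.Primes := ⟨absNorm 𝔭.1.asIdeal, 𝔭.2⟩

/-- the fibre of `lowNorm` is the set counted by `Spec.primeCount` -/
def fibreEquiv (p : Nat.Primes) :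
    {𝔭 : lowPrimes F // lowNorm F 𝔭 = p} ≃
      {𝔮 : Ideal (𝓞 F) // 𝔮.IsPrime ∧ Ideal.absNorm 𝔮 = (p : ℕ)} where
  toFun x := ⟨x.1.1.asIdeal, x.1.1.isPrime, congrArg Subtype.val x.2⟩
  invFun 𝔮 := ⟨⟨⟨𝔮.1, 𝔮.2.1, by
      rintro h
      have := 𝔮.2.2
      rw [h, Ideal.absNorm_bot] at this
      exact p.2.ne_zero this.symm⟩, by
      show (absNorm 𝔮.1).Prime
      rw [𝔮.2.2]; exact p.2⟩, Subtype.ext 𝔮.2.2⟩
  left_inv x := by
    apply Subtype.ext
    apply Subtype.ext
    apply HeightOneSpectrum.ext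
    rfl
  right_inv 𝔮 := by
    apply Subtype.ext
    rfl

end

noncomputable section Final

variable (F : Type) [Field F] [NumberField F]

lemma finite_fibre (p : Nat.Primes) : Finite {𝔭 : lowPrimes F // lowNorm F 𝔭 = p} := by
  have hfin : Finite {𝔮 : Ideal (𝓞 F) // 𝔮.IsPrime ∧ Ideal.absNorm 𝔮 = (p : ℕ)} :=
    ((Ideal.finite_setOfPred_absNorm_eq (S := 𝓞 F) (p : ℕ)).subset
      (fun 𝔮 h𝔮 => h𝔮.2)).to_subtype
  exact Finite.of_equiv _ (fibreEquiv F p).symm

lemma card_fibre (p : Nat.Primes) :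
    Nat.card {𝔭 : lowPrimes F // lowNorm F 𝔭 = p} = Spec.primeCount F p :=
  Nat.card_congr (fibreEquiv F p)

lemma tsum_fibre (s : ℝ) (p : Nat.Primes) :
    ∑' x : {𝔭 : lowPrimes F // lowNorm F 𝔭 = p}, normPow F s x.1.1.asIdeal =
      (Spec.primeCount F p : ℝ) * ((p : ℕ) : ℝ) ^ (-s) := by
  have := finite_fibre F p
  have : Fintype {𝔭 : lowPrimes F // lowNorm F 𝔭 = p} := Fintype.ofFinite _
  rw [tsum_fintype]
  have h : ∀ x : {𝔭 : lowPrimes F // lowNorm F 𝔭 = p},
      normPow F s x.1.1.asIdeal = ((p : ℕ) : ℝ) ^ (-s) := by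
    intro x
    have := congrArg Subtype.val x.2
    simp only [lowNorm] at this
    simp only [normPow, this]
  simp only [h, Finset.sum_const, Finset.card_univ, nsmul_eq_mul, ← card_fibre F p,
    Nat.card_eq_fintype_card]

/-- The sum over the primes of prime norm, indexed by the rational primes. -/
theorem tsum_lowPrimes_eq {s : ℝ} (hs : 1 < s) :
    ∑' 𝔭 : lowPrimes F, normPow F s 𝔭.1.asIdeal =
      ∑' p : Nat.Primes, (Spec.primeCount F p : ℝ) * ((p : ℕ) : ℝ) ^ (-s) := by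
  have hsum : Summable (fun 𝔭 : lowPrimes F => normPow F s 𝔭.1.asIdeal) :=
    (summable_primeSum F hs).subtype _
  have hsum' : Summable (fun y : Σ p : Nat.Primes, {𝔭 : lowPrimes F // lowNorm F 𝔭 = p} =>
      normPow F s y.2.1.1.asIdeal) :=
    ((Equiv.sigmaFiberEquiv (lowNorm F)).summable_iff
      (f := fun 𝔭 : lowPrimes F => normPow F s 𝔭.1.asIdeal)).mpr hsum
  calc ∑' 𝔭 : lowPrimes F, normPow F s 𝔭.1.asIdeal
      = ∑' y : Σ p : Nat.Primes, {𝔭 : lowPrimes F // lowNorm F 𝔭 = p},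
          normPow F s y.2.1.1.asIdeal :=
        ((Equiv.sigmaFiberEquiv (lowNorm F)).tsum_eq
          (fun 𝔭 : lowPrimes F => normPow F s 𝔭.1.asIdeal)).symm
    _ = ∑' p : Nat.Primes, ∑' x : {𝔭 : lowPrimes F // lowNorm F 𝔭 = p},
          normPow F s x.1.1.asIdeal := hsum'.tsum_sigma
    _ = _ := tsum_congr fun p => tsum_fibre F s p

/-- **Piece Z**: `Spec.PrimeSumStatement`. -/
theorem primeSum_statement : Spec.PrimeSumStatement := by
  intro F _ _
  obtain ⟨C, hC⟩ := exists_primeSum_bound F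
  refine ⟨C + highBound F, fun s hs1 hs2 => ?_⟩
  have h1 := hC s hs1 hs2
  have hsum := summable_primeSum F hs1
  have hsplit : primeSum F s =
      (∑' 𝔭 : lowPrimes F, normPow F s 𝔭.1.asIdeal) +
        ∑' 𝔭 : highPrimes F, normPow F s 𝔭.1.asIdeal := by
    have hc : highPrimes F = (lowPrimes F)ᶜ := rfl
    rw [primeSum, hc]
    exact ((hsum.subtype _).tsum_add_tsum_compl (hsum.subtype _)).symm
  have hhigh := tsum_highPrimes_le F hs1
  have hhigh0 : 0 ≤ ∑' 𝔭 : highPrimes F, normPow F s 𝔭.1.asIdeal :=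
    tsum_nonneg fun _ => normPow_nonneg F s _
  have hlog : Real.log (1 / (s - 1)) = -Real.log (s - 1) := by
    rw [one_div, Real.log_inv]
  rw [← tsum_lowPrimes_eq F hs1, hlog]
  rw [abs_le] at h1 ⊢
  rw [hsplit] at h1
  constructor <;> linarith [h1.1, h1.2]

end Final

end Fermat.Agent.Lib.Cheb.H761

end
-- ===== PACK-END Lib/Cheb/H761/PrimeSum.lean

-- ===== PACK-BEGIN S30/H529/AdicEigen.lean
section




/-!
# S30 helper (helper529): the adic eigenmodule attached to a Galois module with finite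
`p`-torsion

Specialisation of `exists_adic_eigenmodule` to `G = Gal(ℚ̄/ℚ)`, with the conclusion in the
language of the Prelude (`GaloisActionIsAdicContinuous`).
-/

set_option autoImplicit false
set_option linter.unusedSectionVars false

namespace Fermat.Agent.S30.H529

open IsLocalRing TensorProduct

noncomputable section

/-- If `J[p]` is finite then `J[p ^ n]` is finite. -/
theorem finite_torsion_pow (J : Type*) [AddCommGroup J] (p : ℕ)
    (hfin : {x : J | p • x = 0}.Finite) (n : ℕ) : {x : J | p ^ n • x = 0}.Finite := by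
  induction n with
  | zero =>
    have : {x : J | p ^ 0 • x = 0} = {0} := by
      ext x
      simp
    rw [this]
    exact Set.finite_singleton 0
  | succ n ih =>
    have hsub : {x : J | p ^ (n + 1) • x = 0}
        ⊆ ⋃ y ∈ {y : J | p ^ n • y = 0}, {x : J | p • x = y} := by
      intro x hx
      simp only [Set.mem_ofPred_eq] at hx
      simp only [Set.mem_iUnion, Set.mem_ofPred_eq, exists_prop]
      refine ⟨p • x, ?_, rfl⟩
      rw [← mul_smul, ← pow_succ]
      exact hx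
    refine Set.Finite.subset (Set.Finite.biUnion ih ?_) hsub
    intro y _
    by_cases hy : ∃ x₀ : J, p • x₀ = y
    · obtain ⟨x₀, hx₀⟩ := hy
      have hsub2 : {x : J | p • x = y} ⊆ (fun z => x₀ + z) '' {z : J | p • z = 0} := by
        intro x hx
        simp only [Set.mem_ofPred_eq] at hx
        refine ⟨x - x₀, ?_, add_sub_cancel x₀ x⟩
        simp only [Set.mem_ofPred_eq]
        rw [smul_sub, hx, hx₀, sub_self]
      exact Set.Finite.subset (hfin.image _) hsub2
    · have : {x : J | p • x = y} = ∅ := by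
        ext x
        simp only [Set.mem_ofPred_eq, Set.mem_empty_iff_false, iff_false]
        intro hx
        exact hy ⟨x, hx⟩
      rw [this]
      exact Set.finite_empty

/-- A common finite level for finitely many smooth vectors. -/
theorem exists_common_level {J : Type*} [AddCommGroup J]
    [DistribMulAction (AlgebraicClosure ℚ ≃ₐ[ℚ] AlgebraicClosure ℚ) J] (S : Set J)
    (hS : S.Finite)
    (hsm : ∀ x ∈ S, ∃ L : IntermediateField ℚ (AlgebraicClosure ℚ), FiniteDimensional ℚ L ∧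
      ∀ σ : AlgebraicClosure ℚ ≃ₐ[ℚ] AlgebraicClosure ℚ, (∀ y ∈ L, σ y = y) → σ • x = x) :
    ∃ L : IntermediateField ℚ (AlgebraicClosure ℚ), FiniteDimensional ℚ L ∧
      ∀ σ : AlgebraicClosure ℚ ≃ₐ[ℚ] AlgebraicClosure ℚ, (∀ y ∈ L, σ y = y) →
        ∀ x ∈ S, σ • x = x := by
  induction S, hS using Set.Finite.induction_on with
  | empty =>
    exact ⟨⊥, inferInstance, fun _ _ x hx => absurd hx (Set.notMem_empty x)⟩
  | @insert b S _ _ ih =>
    obtain ⟨L₁, hL₁, h₁⟩ := ih (fun x hx => hsm x (Set.mem_insert_of_mem _ hx))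
    obtain ⟨L₂, hL₂, h₂⟩ := hsm b (Set.mem_insert _ _)
    refine ⟨L₁ ⊔ L₂, inferInstance, fun σ hσ x hx => ?_⟩
    rcases Set.mem_insert_iff.mp hx with rfl | hx
    · exact h₂ σ (fun y hy => hσ y ((le_sup_right : L₂ ≤ L₁ ⊔ L₂) hy))
    · exact h₁ σ (fun y hy => hσ y ((le_sup_left : L₁ ≤ L₁ ⊔ L₂) hy)) x hx

section Main

variable (p : ℕ)
variable (O : Type) [CommRing O] [IsDomain O] [IsDiscreteValuationRing O]
  [IsAdicComplete (maximalIdeal O) O] [CharZero O]
variable (J : Type) [AddCommGroup J]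
  [DistribMulAction (AlgebraicClosure ℚ ≃ₐ[ℚ] AlgebraicClosure ℚ) J]
variable {ι : Type*} (T : ι → J →+ J) (a : ι → O)

/-- **Adic eigenmodule from a smooth Galois module with finite `p`-torsion.** -/
theorem exists_adic_galois_eigenmodule (hpO : (p : O) ∈ maximalIdeal O) (hp0 : p ≠ 0)
    (hT : ∀ (i : ι) (γ : AlgebraicClosure ℚ ≃ₐ[ℚ] AlgebraicClosure ℚ) (x : J),
      T i (γ • x) = γ • T i x)
    (hfin : {x : J | p • x = 0}.Finite)
    (hsm : ∀ x : J, (∃ n : ℕ, p ^ n • x = 0) →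
      ∃ L : IntermediateField ℚ (AlgebraicClosure ℚ), FiniteDimensional ℚ L ∧
        ∀ σ : AlgebraicClosure ℚ ≃ₐ[ℚ] AlgebraicClosure ℚ, (∀ y ∈ L, σ y = y) → σ • x = x)
    (v : ℕ → O ⊗[ℤ] J) (hv0 : (p : O) • v 0 = 0) (hv : ∀ n, (p : O) • v (n + 1) = v n)
    (hne : v ≠ 0) (heig : ∀ i n, tensorOp O T i (v n) = a i • v n) :
    ∃ (M : Type) (_ : AddCommGroup M) (_ : Module O M) (_ : Module.Free O M)
      (_ : Module.Finite O M)
      (ρ : (AlgebraicClosure ℚ ≃ₐ[ℚ] AlgebraicClosure ℚ) →* Module.End O M),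
      Nontrivial M ∧ GaloisActionIsAdicContinuous O ρ ∧
      (∀ γ : AlgebraicClosure ℚ ≃ₐ[ℚ] AlgebraicClosure ℚ,
        (∀ x : J, (∃ n : ℕ, p ^ n • x = 0) → γ • x = x) → ρ γ = 1) ∧
      (∀ (γ : AlgebraicClosure ℚ ≃ₐ[ℚ] AlgebraicClosure ℚ) (i : ι) (c : ℤ),
        (∀ x : J, (∃ n : ℕ, p ^ n • x = 0) → γ • γ • x - T i (γ • x) + c • x = 0) →
        ρ γ * ρ γ - a i • ρ γ + (c : O) • (1 : Module.End O M) = 0) := by
  obtain ⟨M, i1, i2, i3, i4, ρ, hnt, hcont, hunr, hquad⟩ :=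
    exists_adic_eigenmodule p O J T a hpO hp0 hT hfin v hv0 hv hne heig
  refine ⟨M, i1, i2, i3, i4, ρ, hnt, ?_, hunr, hquad⟩
  intro n
  obtain ⟨L, hL, hLfix⟩ := exists_common_level {x : J | p ^ n • x = 0}
    (finite_torsion_pow J p hfin n) (fun x hx => hsm x ⟨n, hx⟩)
  exact ⟨L, hL, fun σ hσ m => hcont n σ (fun x hx => hLfix σ hσ x hx) m⟩

end Main

end

end Fermat.Agent.S30.H529

end
-- ===== PACK-END S30/H529/AdicEigen.lean

-- ===== PACK-BEGIN S24/JFun/Laurent.lean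
section



/-!
# Laurent (ℤ-indexed) form of the bridge `j(τ) = ∑ₙ jq_n qⁿ`

Adapters of `hasSum_qjFun` to the Prelude's Laurent series `ModularCurve.jqModC ℂ`.
-/

set_option autoImplicit false

namespace Fermat.Agent.S24.JFun

open Filter Topology Complex Function
open UpperHalfPlane hiding I
open ModularForm EisensteinSeries MatrixGroups

local notation "𝕢" => Function.Periodic.qParam

/-- Coefficients of the Prelude's Laurent series `jqModC ℂ` in terms of `jNum`. -/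
theorem coeff_jqModC_natCast_sub_one (k : ℕ) :
    (ModularCurve.jqModC ℂ).coeff ((k : ℤ) - 1) = ((ModularCurve.jNum.coeff k : ℤ) : ℂ) := by
  rw [ModularCurve.jqModC, HahnSeries.coeff_single_mul, one_mul,
    show ((k : ℤ) - 1 - (-1)) = (k : ℤ) by ring, HahnSeries.ofPowerSeries_apply_coeff,
    PowerSeries.coeff_map]
  simp

theorem coeff_jqModC_of_lt {n : ℤ} (hn : n < -1) : (ModularCurve.jqModC ℂ).coeff n = 0 := by
  rw [ModularCurve.jqModC, HahnSeries.coeff_single_mul, one_mul]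
  exact ModularCurve.ofPowerSeries_coeff_of_neg _ (by omega)

/-- **Bridge, Laurent form**: `j(τ) = ∑_{n ∈ ℤ} (jqModC ℂ)_n qⁿ` for every `τ : ℍ`. -/
theorem hasSum_jFun (τ : ℍ) :
    HasSum (fun n : ℤ => (ModularCurve.jqModC ℂ).coeff n * 𝕢 1 (τ : ℂ) ^ n) (jFun τ) := by
  have hq : 𝕢 1 (τ : ℂ) ≠ 0 := qParam_one_ne_zero _
  have hinj : Function.Injective (fun k : ℕ => ((k : ℤ) - 1)) := by
    intro a b hab
    simp only [sub_left_inj, Nat.cast_inj] at hab
    exact hab
  have hsupp : ∀ n : ℤ, n ∉ Set.range (fun k : ℕ => ((k : ℤ) - 1)) →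
      (ModularCurve.jqModC ℂ).coeff n * 𝕢 1 (τ : ℂ) ^ n = 0 := by
    intro n hn
    have hlt : n < -1 := by
      by_contra hcon
      have hcon : -1 ≤ n := not_lt.mp hcon
      apply hn
      refine ⟨(n + 1).toNat, ?_⟩
      simp only
      rw [Int.toNat_of_nonneg (by omega)]
      ring
    rw [coeff_jqModC_of_lt hlt, zero_mul]
  rw [← hinj.hasSum_iff hsupp]
  have h := (hasSum_qjFun τ).mul_left ((𝕢 1 (τ : ℂ))⁻¹)
  rw [← mul_assoc, inv_mul_cancel₀ hq, one_mul] at h
  have hfun : ((fun n : ℤ => (ModularCurve.jqModC ℂ).coeff n * 𝕢 1 (τ : ℂ) ^ n) ∘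
      fun k : ℕ => ((k : ℤ) - 1))
      = fun i : ℕ => (𝕢 1 (τ : ℂ))⁻¹ *
          (((ModularCurve.jNum.coeff i : ℤ) : ℂ) * 𝕢 1 (τ : ℂ) ^ i) := by
    funext k
    simp only [comp_apply]
    rw [coeff_jqModC_natCast_sub_one, zpow_sub₀ hq, zpow_natCast, zpow_one]
    field_simp
  rw [hfun]
  exact h

/-- The same with `q` written out as `exp (2πiτ)`. -/
theorem hasSum_jFun_cexp (τ : ℍ) :
    HasSum (fun n : ℤ => (ModularCurve.jqModC ℂ).coeff n *
      Complex.exp (2 * (Real.pi : ℂ) * I * (τ : ℂ)) ^ n) (jFun τ) := by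
  have h := hasSum_jFun τ
  have hq : 𝕢 1 (τ : ℂ) = Complex.exp (2 * (Real.pi : ℂ) * I * (τ : ℂ)) := by
    simp [Function.Periodic.qParam]
  rw [hq] at h
  exact h

/-- `ℕ`-indexed form with `q` written out as `exp (2πiτ)`. -/
theorem hasSum_qjFun_cexp (τ : ℍ) :
    HasSum (fun n : ℕ => ((ModularCurve.jNum.coeff n : ℤ) : ℂ) *
      Complex.exp (2 * (Real.pi : ℂ) * I * (τ : ℂ)) ^ n)
      (Complex.exp (2 * (Real.pi : ℂ) * I * (τ : ℂ)) * jFun τ) := by
  have h := hasSum_qjFun τ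
  have hq : 𝕢 1 (τ : ℂ) = Complex.exp (2 * (Real.pi : ℂ) * I * (τ : ℂ)) := by
    simp [Function.Periodic.qParam]
  rw [hq] at h
  exact h

end Fermat.Agent.S24.JFun

end
-- ===== PACK-END S24/JFun/Laurent.lean

-- ===== PACK-BEGIN S24/H624/Moebius.lean
section


/-!
# Order of vanishing under Möbius transformations; the rotation lemma
-/

set_option autoImplicit false

namespace Fermat.Agent.S24.H624

open UpperHalfPlane Complex
open scoped Manifold Topology MatrixGroups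

/-- The Möbius map of `g` on `ℂ` (junk where the denominator vanishes). -/
noncomputable def moeb (g : GL (Fin 2) ℝ) (z : ℂ) : ℂ := num g z / denom g z

theorem moeb_coe {g : GL (Fin 2) ℝ} (hg : 0 < g.det.val) (τ : ℍ) :
    moeb g (τ : ℂ) = ((g • τ : ℍ) : ℂ) :=
  (coe_smul_of_det_pos hg τ).symm

theorem hasDerivAt_num (g : GL (Fin 2) ℝ) (z : ℂ) :
    HasDerivAt (num g) ((g 0 0 : ℝ) : ℂ) z := by
  have h : HasDerivAt (fun w : ℂ => ((g 0 0 : ℝ) : ℂ) * w + ((g 0 1 : ℝ) : ℂ))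
      (((g 0 0 : ℝ) : ℂ) * 1) z :=
    ((hasDerivAt_id z).const_mul _).add_const _
  rw [mul_one] at h
  exact h

theorem hasDerivAt_denom (g : GL (Fin 2) ℝ) (z : ℂ) :
    HasDerivAt (denom g) ((g 1 0 : ℝ) : ℂ) z := by
  have h : HasDerivAt (fun w : ℂ => ((g 1 0 : ℝ) : ℂ) * w + ((g 1 1 : ℝ) : ℂ))
      (((g 1 0 : ℝ) : ℂ) * 1) z :=
    ((hasDerivAt_id z).const_mul _).add_const _
  rw [mul_one] at h
  exact h

theorem det_eq (g : GL (Fin 2) ℝ) :
    ((g.det.val : ℝ) : ℂ) = (g 0 0 : ℂ) * (g 1 1 : ℂ) - (g 0 1 : ℂ) * (g 1 0 : ℂ) := by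
  rw [Matrix.GeneralLinearGroup.val_det_apply, Matrix.det_fin_two]
  push_cast
  rfl

theorem hasDerivAt_moeb (g : GL (Fin 2) ℝ) {z : ℂ} (hz : denom g z ≠ 0) :
    HasDerivAt (moeb g) (((g.det.val : ℝ) : ℂ) / denom g z ^ 2) z := by
  have h := (hasDerivAt_num g z).div (hasDerivAt_denom g z) hz
  have e : (((g 0 0 : ℝ) : ℂ) * denom g z - num g z * ((g 1 0 : ℝ) : ℂ)) / denom g z ^ 2
      = ((g.det.val : ℝ) : ℂ) / denom g z ^ 2 := by
    rw [det_eq]
    congr 1
    simp only [num, denom]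
    ring
  rw [e] at h
  exact h

theorem analyticAt_moeb (g : GL (Fin 2) ℝ) {z : ℂ} (hz : denom g z ≠ 0) :
    AnalyticAt ℂ (moeb g) z := by
  have hn : AnalyticAt ℂ (num g) z := by
    have : num g = fun w : ℂ => ((g 0 0 : ℝ) : ℂ) * w + ((g 0 1 : ℝ) : ℂ) := by
      funext w; simp [num]
    rw [this]
    fun_prop
  have hd : AnalyticAt ℂ (denom g) z := by
    have : denom g = fun w : ℂ => ((g 1 0 : ℝ) : ℂ) * w + ((g 1 1 : ℝ) : ℂ) := by
      funext w; simp [denom]
    rw [this]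
    fun_prop
  exact hn.div hd hz

theorem deriv_moeb_ne_zero {g : GL (Fin 2) ℝ} (hg : 0 < g.det.val) {z : ℂ}
    (hz : denom g z ≠ 0) : deriv (moeb g) z ≠ 0 := by
  rw [(hasDerivAt_moeb g hz).deriv]
  refine div_ne_zero ?_ (pow_ne_zero _ hz)
  exact_mod_cast hg.ne'

theorem eventuallyEq_comp_smul {g : GL (Fin 2) ℝ} (hg : 0 < g.det.val) (f : ℍ → ℂ) (τ : ℍ) :
    ((fun z : ℍ => f (g • z)) ∘ ofComplex) =ᶠ[𝓝 (τ : ℂ)] ((f ∘ ofComplex) ∘ moeb g) := by
  filter_upwards [isOpen_upperHalfPlaneSet.mem_nhds τ.im_pos] with z hz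
  have hz' : 0 < z.im := hz
  simp only [Function.comp_apply]
  rw [ofComplex_apply_of_im_pos hz']
  have : moeb g z = ((g • (⟨z, hz'⟩ : ℍ) : ℍ) : ℂ) := moeb_coe hg ⟨z, hz'⟩
  rw [this, ofComplex_apply]

/-- Order of vanishing is invariant under Möbius transformations. -/
theorem ordAt_comp_smul {g : GL (Fin 2) ℝ} (hg : 0 < g.det.val) (f : ℍ → ℂ) (τ : ℍ) :
    ordAt τ (fun z : ℍ => f (g • z)) = ordAt (g • τ) f := by
  have hd : denom g (τ : ℂ) ≠ 0 := denom_ne_zero g τ
  rw [ordAt_def, analyticOrderAt_congr (eventuallyEq_comp_smul hg f τ),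
    analyticOrderAt_comp_of_deriv_ne_zero (analyticAt_moeb g hd) (deriv_moeb_ne_zero hg hd),
    moeb_coe hg, ordAt_def]

theorem mdiff_comp_smul {g : GL (Fin 2) ℝ} (hg : 0 < g.det.val) {f : ℍ → ℂ} (hf : MDiff f) :
    MDiff (fun z : ℍ => f (g • z)) :=
  hf.comp (mdifferentiable_smul hg)

/-- Key algebraic identity: `g z - g w = det g * (z - w) / (denom z * denom w)`. -/
theorem moeb_sub_moeb (g : GL (Fin 2) ℝ) {z w : ℂ} (hz : denom g z ≠ 0) (hw : denom g w ≠ 0) :
    moeb g z - moeb g w = ((g.det.val : ℝ) : ℂ) * (z - w) / (denom g z * denom g w) := by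
  rw [det_eq]
  unfold moeb
  rw [div_sub_div _ _ hz hw]
  congr 1
  simp only [num, denom]
  ring

/-- **Rotation lemma.** If `g` fixes `τ`, and the nonzero holomorphic function `f` is invariant
under `g`, then `(deriv of g at τ) ^ ord_τ f = 1`, i.e. `(det g / denom g τ ^ 2) ^ n = 1`. -/
theorem rotation_lemma {g : GL (Fin 2) ℝ} (hg : 0 < g.det.val) {f : ℍ → ℂ} (hf : MDiff f)
    (hf0 : f ≠ 0) {τ : ℍ} (hτ : g • τ = τ) (hinv : ∀ z : ℍ, f (g • z) = f z) :
    (((g.det.val : ℝ) : ℂ) / denom g (τ : ℂ) ^ 2) ^ (ordAt τ f).toNat = 1 := by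
  set n := (ordAt τ f).toNat with hn
  have hne := ordAt_ne_top hf hf0 τ
  have hord : analyticOrderAt (f ∘ ofComplex) (τ : ℂ) = (n : ℕ∞) := by
    rw [← ordAt_def, hn, ENat.natCast_toNat hne]
  obtain ⟨u, hu, hu0, hfu⟩ :=
    ((analyticAt_of_mdiff hf τ).analyticOrderAt_eq_natCast).mp hord
  have hd : denom g (τ : ℂ) ≠ 0 := denom_ne_zero g τ
  have hmτ : moeb g (τ : ℂ) = (τ : ℂ) := by rw [moeb_coe hg, hτ]
  have hmcont : ContinuousAt (moeb g) (τ : ℂ) := (analyticAt_moeb g hd).continuousAt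
  -- near τ: f ∘ ofComplex ∘ moeb = f ∘ ofComplex
  have h1 : ∀ᶠ z in 𝓝 (τ : ℂ), (f ∘ ofComplex) (moeb g z) = (f ∘ ofComplex) z := by
    filter_upwards [eventuallyEq_comp_smul hg f τ] with z hz
    have := hz
    simp only [Function.comp_apply] at this ⊢
    rw [← this, hinv]
  -- near τ: moeb z is near τ so factorization applies at moeb z
  have h2 : ∀ᶠ z in 𝓝 (τ : ℂ), (f ∘ ofComplex) (moeb g z)
      = (moeb g z - (τ : ℂ)) ^ n • u (moeb g z) := by
    have : Filter.Tendsto (moeb g) (𝓝 (τ : ℂ)) (𝓝 (τ : ℂ)) := by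
      have := hmcont.tendsto
      rwa [hmτ] at this
    exact this.eventually hfu
  have h3 : ∀ᶠ z in 𝓝 (τ : ℂ), denom g z ≠ 0 :=
    (hasDerivAt_denom g _).continuousAt.eventually_ne hd
  set c : ℂ := ((g.det.val : ℝ) : ℂ) with hc
  -- on a punctured neighbourhood: (c / (denom z * denom τ))^n * u (moeb z) = u z
  have h4 : ∀ᶠ z in 𝓝[≠] (τ : ℂ),
      (c / (denom g z * denom g (τ : ℂ))) ^ n * u (moeb g z) = u z := by
    have hall := (h1.and (h2.and (h3.and hfu)))
    filter_upwards [hall.filter_mono nhdsWithin_le_nhds, self_mem_nhdsWithin] with z hz hzne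
    obtain ⟨e1, e2, e3, e4⟩ := hz
    have hzne' : z - (τ : ℂ) ≠ 0 := sub_ne_zero.mpr hzne
    have e5 : moeb g z - (τ : ℂ) = c * (z - (τ : ℂ)) / (denom g z * denom g (τ : ℂ)) := by
      have := moeb_sub_moeb g e3 hd
      rwa [hmτ] at this
    rw [e2, e4, e5] at e1
    simp only [smul_eq_mul] at e1
    have e6 : c * (z - (τ : ℂ)) / (denom g z * denom g (τ : ℂ))
        = (z - (τ : ℂ)) * (c / (denom g z * denom g (τ : ℂ))) := by ring
    rw [e6, mul_pow, mul_assoc] at e1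
    exact mul_left_cancel₀ (pow_ne_zero n hzne') e1
  -- pass to the limit
  have hL : Filter.Tendsto (fun z => (c / (denom g z * denom g (τ : ℂ))) ^ n * u (moeb g z))
      (𝓝[≠] (τ : ℂ)) (𝓝 ((c / (denom g (τ : ℂ) * denom g (τ : ℂ))) ^ n * u (τ : ℂ))) := by
    have hcd : ContinuousAt (fun z => (c / (denom g z * denom g (τ : ℂ))) ^ n) (τ : ℂ) := by
      have hden : ContinuousAt (fun z => denom g z * denom g (τ : ℂ)) (τ : ℂ) :=
        ((hasDerivAt_denom g _).continuousAt).mul continuousAt_const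
      exact ((continuousAt_const.div hden (mul_ne_zero hd hd))).pow n
    have hu' : ContinuousAt (fun z => u (moeb g z)) (τ : ℂ) := by
      have : ContinuousAt u (moeb g (τ : ℂ)) := by rw [hmτ]; exact hu.continuousAt
      exact ContinuousAt.comp (f := moeb g) (g := u) this hmcont
    have hmul : ContinuousAt
        (fun z => (c / (denom g z * denom g (τ : ℂ))) ^ n * u (moeb g z)) (τ : ℂ) := hcd.mul hu'
    have := hmul.tendsto
    simp only [hmτ] at this
    exact this.mono_left nhdsWithin_le_nhds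
  have hR : Filter.Tendsto u (𝓝[≠] (τ : ℂ)) (𝓝 (u (τ : ℂ))) :=
    hu.continuousAt.tendsto.mono_left nhdsWithin_le_nhds
  have hlim := tendsto_nhds_unique (hL.congr' h4) hR
  have hfin : (c / (denom g (τ : ℂ) * denom g (τ : ℂ))) ^ n = 1 := by
    have := mul_right_cancel₀ hu0 (hlim.trans (one_mul _).symm)
    exact this
  rw [← hfin, sq]

end Fermat.Agent.S24.H624

end
-- ===== PACK-END S24/H624/Moebius.lean

-- ===== PACK-BEGIN S24/Inf/Unique.lean
section


/-!
# S24 / MOD-INF — uniqueness of convergent Laurent expansions, the expansion ring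
-/

set_option autoImplicit false

noncomputable section

open HahnSeries ModularCurve UpperHalfPlane Complex
open scoped Real

namespace Fermat.Agent.S24

/-- A power series converging to `0` on the punctured unit disc has zero constant coefficient. -/
theorem inf_coeff_zero_eq_zero_of_hasSum_zero (a : ℕ → ℂ)
    (h : ∀ z : ℂ, z ≠ 0 → ‖z‖ < 1 → HasSum (fun n => a n * z ^ n) 0) : a 0 = 0 := by
  have hhalf : HasSum (fun n => a n * ((1 / 2 : ℝ) : ℂ) ^ n) 0 :=
    h _ (by norm_num) (by rw [Complex.norm_real]; norm_num)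
  have hs1 : Summable (fun n => ‖a (n + 1)‖ * (1 / 2 : ℝ) ^ n) := by
    have h1 : Summable (fun n => ‖a n * ((1 / 2 : ℝ) : ℂ) ^ n‖) := hhalf.summable.norm
    have h2 := (summable_nat_add_iff 1).mpr h1
    have h3 := h2.mul_left 2
    refine h3.congr fun n => ?_
    rw [norm_mul, norm_pow, Complex.norm_real, pow_succ]
    simp only [Real.norm_eq_abs]
    rw [abs_of_pos (by norm_num : (0 : ℝ) < 1 / 2)]
    ring
  set C : ℝ := ∑' n, ‖a (n + 1)‖ * (1 / 2 : ℝ) ^ n with hC
  have hC0 : 0 ≤ C := tsum_nonneg fun n => by positivity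
  have key : ∀ t : ℝ, 0 < t → t ≤ 1 / 2 → ‖a 0‖ ≤ t * C := by
    intro t ht0 ht
    have hz : HasSum (fun n => a n * ((t : ℝ) : ℂ) ^ n) 0 :=
      h _ (by exact_mod_cast ht0.ne') (by
        rw [Complex.norm_real, Real.norm_eq_abs, abs_of_pos ht0]; linarith)
    have hz' := (hasSum_nat_add_iff' 1).mpr hz
    simp only [Finset.range_one, Finset.sum_singleton, pow_zero, mul_one, zero_sub] at hz'
    have hb : HasSum (fun n => t * (‖a (n + 1)‖ * (1 / 2 : ℝ) ^ n)) (t * C) :=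
      hs1.hasSum.mul_left t
    have := hz'.norm_le_of_bounded hb (fun n => by
      rw [norm_mul, norm_pow, Complex.norm_real, Real.norm_eq_abs, abs_of_pos ht0, pow_succ]
      have : t ^ n ≤ (1 / 2 : ℝ) ^ n := pow_le_pow_left₀ ht0.le ht n
      have h0 : 0 ≤ ‖a (n + 1)‖ := norm_nonneg _
      calc ‖a (n + 1)‖ * (t ^ n * t) = t * (‖a (n + 1)‖ * t ^ n) := by ring
        _ ≤ t * (‖a (n + 1)‖ * (1 / 2 : ℝ) ^ n) := by gcongr)
    rwa [norm_neg] at this
  by_contra hne
  have hpos : 0 < ‖a 0‖ := norm_pos_iff.mpr hne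
  set t : ℝ := min (1 / 2) (‖a 0‖ / (2 * (C + 1))) with ht
  have ht0 : 0 < t := lt_min (by norm_num) (by positivity)
  have ht1 : t ≤ 1 / 2 := min_le_left _ _
  have ht2 : t ≤ ‖a 0‖ / (2 * (C + 1)) := min_le_right _ _
  have h1 := key t ht0 ht1
  have h2 : t * C ≤ ‖a 0‖ / (2 * (C + 1)) * C := by gcongr
  have h3 : ‖a 0‖ / (2 * (C + 1)) * C < ‖a 0‖ := by
    rw [div_mul_eq_mul_div, div_lt_iff₀ (by positivity)]
    nlinarith
  linarith

variable {N : ℕ} [NeZero N]

theorem InfPExp.coeff_zero_eq_zero {ψ : PowerSeries ℂ} (h : InfPExp N (fun _ => 0) ψ) :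
    PowerSeries.coeff 0 ψ = 0 := by
  refine inf_coeff_zero_eq_zero_of_hasSum_zero (fun n => PowerSeries.coeff n ψ) ?_
  intro z hz hz1
  obtain ⟨τ, rfl⟩ := exists_infZ_eq N hz hz1
  exact h τ

/-- Uniqueness of the expansion: only the zero series converges to the zero function. -/
theorem InfExp.eq_zero {φ : LaurentSeries ℂ} (h : InfExp N (fun _ => 0) φ) : φ = 0 := by
  by_contra hφ
  have h1 := h.powerSeriesPart
  simp only [mul_zero] at h1
  have h2 := h1.coeff_zero_eq_zero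
  rw [LaurentSeries.powerSeriesPart_coeff] at h2
  simp only [Nat.cast_zero, add_zero] at h2
  exact hφ (coeff_order_eq_zero.mp h2)

theorem InfExp.unique {f : ℍ → ℂ} {φ ψ : LaurentSeries ℂ} (hφ : InfExp N f φ)
    (hψ : InfExp N f ψ) : φ = ψ := by
  have h := hφ.sub hψ
  simp only [sub_self] at h
  exact sub_eq_zero.mp h.eq_zero

theorem InfExp.unique' {f g : ℍ → ℂ} {φ ψ : LaurentSeries ℂ} (hφ : InfExp N f φ)
    (hψ : InfExp N g ψ) (hfg : ∀ τ, f τ = g τ) : φ = ψ :=
  (hφ.congr hfg).unique hψ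

variable (N) in
/-- The ring of functions on `ℍ` admitting a convergent Laurent expansion in
`z = exp (2πiτ/N)` (finitely many negative exponents). -/
def expRing : Subring (ℍ → ℂ) where
  carrier := {f | ∃ φ, InfExp N f φ}
  mul_mem' := by
    rintro f g ⟨φ, hφ⟩ ⟨ψ, hψ⟩
    exact ⟨φ * ψ, hφ.mul hψ⟩
  one_mem' := ⟨1, InfExp.one⟩
  add_mem' := by
    rintro f g ⟨φ, hφ⟩ ⟨ψ, hψ⟩
    exact ⟨φ + ψ, hφ.add hψ⟩
  zero_mem' := ⟨0, InfExp.zero⟩
  neg_mem' := by
    rintro f ⟨φ, hφ⟩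
    exact ⟨-φ, hφ.neg⟩

theorem mem_expRing {f : ℍ → ℂ} : f ∈ expRing N ↔ ∃ φ, InfExp N f φ := Iff.rfl

theorem InfExp.mem_expRing {f : ℍ → ℂ} {φ : LaurentSeries ℂ} (h : InfExp N f φ) :
    f ∈ expRing N := ⟨φ, h⟩

variable (N) in
/-- The expansion at `∞` as a function. -/
def expInfFun (f : expRing N) : LaurentSeries ℂ := Classical.choose f.2

theorem expInfFun_spec (f : expRing N) : InfExp N (f : ℍ → ℂ) (expInfFun N f) :=
  Classical.choose_spec f.2

theorem InfExp.expInfFun_eq {f : ℍ → ℂ} {φ : LaurentSeries ℂ} (h : InfExp N f φ) :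
    expInfFun N ⟨f, h.mem_expRing⟩ = φ :=
  (expInfFun_spec _).unique h

variable (N) in
/-- The expansion at `∞` as a ring homomorphism. -/
def expInf : expRing N →+* LaurentSeries ℂ where
  toFun := expInfFun N
  map_one' := (expInfFun_spec (1 : expRing N)).unique InfExp.one
  map_mul' f g := (expInfFun_spec (f * g)).unique ((expInfFun_spec f).mul (expInfFun_spec g))
  map_zero' := (expInfFun_spec (0 : expRing N)).unique InfExp.zero
  map_add' f g := (expInfFun_spec (f + g)).unique ((expInfFun_spec f).add (expInfFun_spec g))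

theorem expInf_spec (f : expRing N) : InfExp N (f : ℍ → ℂ) (expInf N f) :=
  expInfFun_spec f

theorem InfExp.expInf_eq {f : ℍ → ℂ} {φ : LaurentSeries ℂ} (h : InfExp N f φ) :
    expInf N ⟨f, h.mem_expRing⟩ = φ :=
  h.expInfFun_eq

theorem expInf_injective : Function.Injective (expInf N) := by
  intro f g hfg
  apply Subtype.ext
  have hf := expInf_spec f
  have hg := expInf_spec g
  rw [hfg] at hf
  exact hf.fun_unique hg

instance expRing_isDomain : IsDomain (expRing N) :=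
  Function.Injective.isDomain (expInf N) expInf_injective

end Fermat.Agent.S24

end
end
-- ===== PACK-END S24/Inf/Unique.lean

-- ===== PACK-BEGIN S29/H149/HCoh.lean
section


/-!
# S29 layer M, piece `HCoh` (helper149)

For a prime `ℓ ∤ N` the factorisation `α_i γ = γ'_i α_{π(i)}` (`heckeFac`) exists, is unique,
permutes the index set and satisfies the cocycle rule; hence the cohomological Hecke operator
`heckeCoh` preserves parabolic characters (`IsParHom`): additivity is the transfer computation,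
vanishing on parabolic / finite-order elements is the cycle argument (the product of the `γ'_i`
over a cycle of `π` is conjugate to a power of `γ`), done over the orbits of `π` so that it is
valid with torsion coefficients (`A = ZMod p`).

Main results: `isParHom_heckeCoh` (the piece), `HCoh_isFactorSystem`, `HCoh_heckeFac_spec`,
`HCoh_heckeFac_unique`, `HCoh_exists_factor`, `HCoh_factor_unique`, `HCoh_perm`,
`HCoh_transfer_mul`, `HCoh_transfer_eq_zero`, `HCoh_sum_eq_zero_of_orbits`.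
-/

set_option autoImplicit false

namespace Fermat.Agent.S29.H149

open Fermat.Agent.S29
open scoped MatrixGroups

/-! ### A combinatorial lemma: sums over the orbits of a permutation -/

theorem HCoh_sum_eq_zero_of_orbits {ι : Type*} [Fintype ι] [DecidableEq ι] {A : Type*}
    [AddCommMonoid A] (σ : Equiv.Perm ι) (f : ι → A)
    (h : ∀ i : ι, ∀ r : ℕ, 0 < r → (σ ^ r) i = i → ∑ k ∈ Finset.range r, f ((σ ^ k) i) = 0) :
    ∑ i, f i = 0 := by
  suffices H : ∀ n : ℕ, ∀ s : Finset ι, s.card = n → (∀ i ∈ s, σ i ∈ s) → ∑ i ∈ s, f i = 0 from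
    H _ Finset.univ rfl (fun i _ => Finset.mem_univ _)
  intro n
  induction n using Nat.strong_induction_on with
  | _ n ih =>
    intro s hs hinv
    rcases s.eq_empty_or_nonempty with rfl | ⟨i₀, hi₀⟩
    · simp
    · have hpow : ∀ k : ℕ, (σ ^ k) i₀ ∈ s := by
        intro k
        induction k with
        | zero => simpa using hi₀
        | succ k ihk =>
          rw [pow_succ', Equiv.Perm.mul_apply]
          exact hinv _ ihk
      have hper : i₀ ∈ Function.periodicPts σ := by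
        refine Function.mk_mem_periodicPts (orderOf_pos σ) ?_
        show σ^[orderOf σ] i₀ = i₀
        rw [Equiv.Perm.iterate_eq_pow, pow_orderOf_eq_one]
        rfl
      set r := Function.minimalPeriod σ i₀ with hr
      have hrpos : 0 < r := Function.minimalPeriod_pos_of_mem_periodicPts hper
      have hfix : (σ ^ r) i₀ = i₀ := by
        have := Function.isPeriodicPt_minimalPeriod σ i₀
        rw [← Equiv.Perm.iterate_eq_pow]
        exact this
      set O : Finset ι := (Finset.range r).image (fun k => (σ ^ k) i₀) with hO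
      have hOs : O ⊆ s := by
        intro x hx
        rw [hO, Finset.mem_image] at hx
        obtain ⟨k, -, rfl⟩ := hx
        exact hpow k
      have hOne : O.Nonempty :=
        ⟨i₀, Finset.mem_image.mpr ⟨0, Finset.mem_range.mpr hrpos, by simp⟩⟩
      have hsumO : ∑ i ∈ O, f i = 0 := by
        rw [hO, Finset.sum_image]
        · exact h i₀ r hrpos hfix
        · intro a ha b hb hab
          rw [Finset.coe_range, Set.mem_Iio] at ha hb
          simp only [← Equiv.Perm.iterate_eq_pow] at hab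
          exact (Function.iterate_eq_iterate_iff_of_lt_minimalPeriod ha hb).mp hab
      have hinv' : ∀ i ∈ s \ O, σ i ∈ s \ O := by
        intro i hi
        rw [Finset.mem_sdiff] at hi ⊢
        refine ⟨hinv i hi.1, fun hσ => hi.2 ?_⟩
        rw [hO, Finset.mem_image] at hσ
        obtain ⟨k, hk, hk'⟩ := hσ
        rw [Finset.mem_range] at hk
        have key : ∃ m, m < r ∧ (σ ^ (m + 1)) i₀ = σ i := by
          rcases Nat.eq_zero_or_pos k with rfl | hkpos
          · refine ⟨r - 1, by omega, ?_⟩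
            rw [Nat.sub_add_cancel hrpos, hfix, ← hk']
            simp
          · refine ⟨k - 1, by omega, ?_⟩
            rw [Nat.sub_add_cancel hkpos, hk']
        obtain ⟨m, hm, hm'⟩ := key
        rw [pow_succ', Equiv.Perm.mul_apply] at hm'
        have := σ.injective hm'
        rw [hO, Finset.mem_image]
        exact ⟨m, Finset.mem_range.mpr hm, this⟩
      have hcard : (s \ O).card < n := by
        rw [← hs]
        exact Finset.card_lt_card (Finset.sdiff_ssubset hOs hOne)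
      have := ih _ hcard (s \ O) rfl hinv'
      rw [← Finset.sum_sdiff hOs, this, hsumO, add_zero]

/-! ### Abstract factor systems -/

section abstract

variable {Γ : Type*} [Group Γ] {ι : Type*}

/-- A "factor system": `fac γ i = (π_γ i, γ'_i)` with the cocycle rule. -/
structure HCoh_IsFactorSystem (fac : Γ → ι → ι × Γ) : Prop where
  one : ∀ i, fac 1 i = (i, 1)
  mul : ∀ γ δ i, fac (γ * δ) i = ((fac δ (fac γ i).1).1, (fac γ i).2 * (fac δ (fac γ i).1).2)

variable {fac : Γ → ι → ι × Γ}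

/-- The permutation of the index set attached to `γ`. -/
def HCoh_perm (hf : HCoh_IsFactorSystem fac) (γ : Γ) : Equiv.Perm ι where
  toFun i := (fac γ i).1
  invFun i := (fac γ⁻¹ i).1
  left_inv i := by
    have := hf.mul γ γ⁻¹ i
    rw [mul_inv_cancel, hf.one] at this
    exact (congrArg Prod.fst this).symm
  right_inv i := by
    have := hf.mul γ⁻¹ γ i
    rw [inv_mul_cancel, hf.one] at this
    exact (congrArg Prod.fst this).symm

@[simp] theorem HCoh_perm_apply (hf : HCoh_IsFactorSystem fac) (γ : Γ) (i : ι) :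
    HCoh_perm hf γ i = (fac γ i).1 := rfl

theorem HCoh_pow_fst (hf : HCoh_IsFactorSystem fac) (γ : Γ) (n : ℕ) (i : ι) :
    (fac (γ ^ n) i).1 = (HCoh_perm hf γ ^ n) i := by
  induction n with
  | zero => simp [hf.one]
  | succ n ih =>
    rw [pow_succ, hf.mul, pow_succ', Equiv.Perm.mul_apply, ← ih]
    rfl

theorem HCoh_map_one {A : Type*} [AddCommGroup A] {c : Γ → A}
    (hc : ∀ γ δ, c (γ * δ) = c γ + c δ) : c 1 = 0 := by
  have := hc 1 1
  rw [mul_one] at this
  exact (add_eq_left.mp this.symm)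

theorem HCoh_map_pow_snd (hf : HCoh_IsFactorSystem fac) {A : Type*} [AddCommGroup A] {c : Γ → A}
    (hc : ∀ γ δ, c (γ * δ) = c γ + c δ) (γ : Γ) (n : ℕ) (i : ι) :
    c (fac (γ ^ n) i).2 = ∑ k ∈ Finset.range n, c (fac γ ((HCoh_perm hf γ ^ k) i)).2 := by
  induction n with
  | zero => simp [hf.one, HCoh_map_one hc]
  | succ n ih =>
    rw [pow_succ, hf.mul, Finset.sum_range_succ, ← ih, hc, HCoh_pow_fst hf]

theorem HCoh_pow_of_fixed (hf : HCoh_IsFactorSystem fac) (g : Γ) (i : ι) (hi : (fac g i).1 = i)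
    (m : ℕ) : fac (g ^ m) i = (i, (fac g i).2 ^ m) := by
  induction m with
  | zero => simp [hf.one]
  | succ m ih =>
    rw [pow_succ, hf.mul, ih]
    simp only
    rw [hi, pow_succ]

/-- Additivity of the transfer. -/
theorem HCoh_transfer_mul [Fintype ι] (hf : HCoh_IsFactorSystem fac) {A : Type*}
    [AddCommGroup A] {c : Γ → A} (hc : ∀ γ δ, c (γ * δ) = c γ + c δ) (γ δ : Γ) :
    ∑ i, c (fac (γ * δ) i).2 = ∑ i, c (fac γ i).2 + ∑ i, c (fac δ i).2 := by
  simp only [hf.mul, hc, Finset.sum_add_distrib]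
  congr 1
  exact Equiv.sum_comp (HCoh_perm hf γ) (fun j => c (fac δ j).2)

/-- Vanishing of the transfer on a class `Z` of elements stable under "cycle products". -/
theorem HCoh_transfer_eq_zero [Fintype ι] (hf : HCoh_IsFactorSystem fac) {A : Type*}
    [AddCommGroup A] {c : Γ → A} (hc : ∀ γ δ, c (γ * δ) = c γ + c δ) (Z : Γ → Prop)
    (hZ : ∀ γ, Z γ → c γ = 0)
    (hclosed : ∀ γ, Z γ → ∀ r : ℕ, 0 < r → ∀ i, (fac (γ ^ r) i).1 = i → Z (fac (γ ^ r) i).2)
    (γ : Γ) (hγ : Z γ) : ∑ i, c (fac γ i).2 = 0 := by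
  classical
  refine HCoh_sum_eq_zero_of_orbits (HCoh_perm hf γ) (fun i => c (fac γ i).2) ?_
  intro i r hr hfix
  rw [← HCoh_map_pow_snd hf hc]
  refine hZ _ (hclosed γ hγ r hr i ?_)
  rw [HCoh_pow_fst hf]
  exact hfix

/-- Cycle products of elements of finite order have finite order. -/
theorem HCoh_finite_order_closed (hf : HCoh_IsFactorSystem fac) (γ : Γ) (n : ℕ) (hn : γ ^ n = 1)
    (r : ℕ) (i : ι) (hi : (fac (γ ^ r) i).1 = i) : (fac (γ ^ r) i).2 ^ n = 1 := by
  have h1 := HCoh_pow_of_fixed hf (γ ^ r) i hi n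
  rw [← pow_mul, mul_comm, pow_mul, hn, one_pow, hf.one] at h1
  exact (congrArg Prod.snd h1).symm

end abstract

/-! ### Integer matrices of elements of `Γ₀(N)` -/

section mat

variable {N : ℕ}

theorem HCoh_mat_one : (1 : G0 N).mat = 1 := rfl

theorem HCoh_mat_mul (γ γ' : G0 N) : (γ * γ').mat = γ.mat * γ'.mat := rfl

theorem HCoh_mat_pow (γ : G0 N) (n : ℕ) : (γ ^ n).mat = γ.mat ^ n := by
  induction n with
  | zero => simp [HCoh_mat_one]
  | succ n ih => rw [pow_succ, pow_succ, HCoh_mat_mul, ih]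

theorem HCoh_mat_det (γ : G0 N) : γ.mat.det = 1 := (γ : SL(2, ℤ)).2

theorem HCoh_mat_det' (γ : G0 N) : γ.mat 0 0 * γ.mat 1 1 - γ.mat 0 1 * γ.mat 1 0 = 1 := by
  rw [← Matrix.det_fin_two, HCoh_mat_det]

theorem HCoh_mat_injective :
    Function.Injective (G0.mat : G0 N → Matrix (Fin 2) (Fin 2) ℤ) := by
  intro γ γ' h
  apply Subtype.ext
  apply Subtype.ext
  exact h

theorem HCoh_mat_dvd (γ : G0 N) : (N : ℤ) ∣ γ.mat 1 0 := by
  have := CongruenceSubgroup.Gamma0_mem.mp γ.2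
  exact (ZMod.intCast_zmod_eq_zero_iff_dvd _ _).mp this

/-- Build an element of `Γ₀(N)` from an integer matrix. -/
def HCoh_mk (M : Matrix (Fin 2) (Fin 2) ℤ) (hdet : M.det = 1) (hN : (N : ℤ) ∣ M 1 0) : G0 N :=
  ⟨⟨M, hdet⟩, CongruenceSubgroup.Gamma0_mem.mpr ((ZMod.intCast_zmod_eq_zero_iff_dvd _ _).mpr hN)⟩

@[simp] theorem HCoh_mk_mat (M : Matrix (Fin 2) (Fin 2) ℤ) (hdet : M.det = 1)
    (hN : (N : ℤ) ∣ M 1 0) : (HCoh_mk M hdet hN : G0 N).mat = M := rfl

theorem HCoh_heckeRep_det {ℓ : ℕ} (i : Option (Fin ℓ)) : (heckeRep ℓ i).det = ℓ := by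
  cases i <;> simp [heckeRep, Matrix.det_fin_two]

/-- Existence of the factorisation `M = γ' * α_j` for `det M = ℓ`, `N ∣ M₁₀`. -/
theorem HCoh_exists_factor {ℓ : ℕ} (hℓ : ℓ.Prime) (hℓN : ¬ ℓ ∣ N)
    (M : Matrix (Fin 2) (Fin 2) ℤ) (hdet : M.det = ℓ) (hN : (N : ℤ) ∣ M 1 0) :
    ∃ q : Option (Fin ℓ) × G0 N, M = q.2.mat * heckeRep ℓ q.1 := by
  have : Fact ℓ.Prime := ⟨hℓ⟩
  have hd : M 0 0 * M 1 1 - M 0 1 * M 1 0 = ℓ := by rw [← hdet, Matrix.det_fin_two]
  have hℓ0 : (ℓ : ℤ) ≠ 0 := by exact_mod_cast hℓ.ne_zero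
  by_cases h0 : (ℓ : ℤ) ∣ M 0 0 ∧ (ℓ : ℤ) ∣ M 1 0
  · obtain ⟨⟨a', ha'⟩, ⟨c', hc'⟩⟩ := h0
    have hdet' : (!![a', M 0 1; c', M 1 1] : Matrix (Fin 2) (Fin 2) ℤ).det = 1 := by
      rw [Matrix.det_fin_two_of]
      apply mul_left_cancel₀ hℓ0
      rw [ha', hc'] at hd
      linear_combination hd
    have hN' : (N : ℤ) ∣ (!![a', M 0 1; c', M 1 1] : Matrix (Fin 2) (Fin 2) ℤ) 1 0 := by
      have hcop : IsCoprime (N : ℤ) (ℓ : ℤ) := by
        rw [Int.isCoprime_iff_gcd_eq_one, Int.gcd_natCast_natCast]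
        exact Nat.Coprime.symm ((Nat.Prime.coprime_iff_not_dvd hℓ).mpr hℓN)
      have : (N : ℤ) ∣ (ℓ : ℤ) * c' := hc' ▸ hN
      simpa using hcop.dvd_of_dvd_mul_left this
    refine ⟨(none, HCoh_mk _ hdet' hN'), ?_⟩
    ext i j
    fin_cases i <;> fin_cases j <;>
      simp [heckeRep, Matrix.mul_apply, Fin.sum_univ_two, ha', hc', mul_comm]
  · -- find `k` with `M₀₁ ≡ k M₀₀`, `M₁₁ ≡ k M₁₀` mod `ℓ`
    have hdz : ((M 0 0 : ℤ) : ZMod ℓ) * (M 1 1 : ℤ) - (M 0 1 : ℤ) * (M 1 0 : ℤ) = 0 := by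
      have := congrArg (Int.cast : ℤ → ZMod ℓ) hd
      push_cast at this
      rw [this]
      simp
    have hk : ∃ k : ZMod ℓ, ((M 0 1 : ℤ) : ZMod ℓ) = (M 0 0 : ℤ) * k ∧
        ((M 1 1 : ℤ) : ZMod ℓ) = (M 1 0 : ℤ) * k := by
      by_cases ha : ((M 0 0 : ℤ) : ZMod ℓ) = 0
      · have hc : ((M 1 0 : ℤ) : ZMod ℓ) ≠ 0 := by
          intro hc
          exact h0 ⟨(ZMod.intCast_zmod_eq_zero_iff_dvd _ _).mp ha,
            (ZMod.intCast_zmod_eq_zero_iff_dvd _ _).mp hc⟩
        refine ⟨(M 1 1 : ℤ) / (M 1 0 : ℤ), ?_, ?_⟩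
        · rw [ha, zero_mul]
          rw [ha, zero_mul, zero_sub, neg_eq_zero] at hdz
          exact (mul_eq_zero.mp hdz).resolve_right hc
        · field_simp
      · refine ⟨(M 0 1 : ℤ) / (M 0 0 : ℤ), ?_, ?_⟩
        · field_simp
        · field_simp
          linear_combination hdz
    obtain ⟨k, hk1, hk2⟩ := hk
    obtain ⟨kv, hkv, h1, h2⟩ : ∃ kv : ℕ, kv < ℓ ∧ (ℓ : ℤ) ∣ M 0 1 - M 0 0 * (kv : ℤ) ∧
        (ℓ : ℤ) ∣ M 1 1 - M 1 0 * (kv : ℤ) := by
      refine ⟨k.val, ZMod.val_lt k, ?_, ?_⟩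
      · rw [← ZMod.intCast_zmod_eq_zero_iff_dvd]
        push_cast
        rw [ZMod.natCast_zmod_val, hk1, sub_self]
      · rw [← ZMod.intCast_zmod_eq_zero_iff_dvd]
        push_cast
        rw [ZMod.natCast_zmod_val, hk2, sub_self]
    obtain ⟨b', hb'⟩ := h1
    obtain ⟨d', hd'⟩ := h2
    have hdet' : (!![M 0 0, b'; M 1 0, d'] : Matrix (Fin 2) (Fin 2) ℤ).det = 1 := by
      rw [Matrix.det_fin_two_of]
      apply mul_left_cancel₀ hℓ0
      linear_combination hd - M 0 0 * hd' + M 1 0 * hb'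
    have hN' : (N : ℤ) ∣ (!![M 0 0, b'; M 1 0, d'] : Matrix (Fin 2) (Fin 2) ℤ) 1 0 := by
      simpa using hN
    refine ⟨(some ⟨kv, hkv⟩, HCoh_mk _ hdet' hN'), ?_⟩
    ext i j
    fin_cases i <;> fin_cases j
    · simp [heckeRep, Matrix.mul_apply, Fin.sum_univ_two]
    · simp [heckeRep, Matrix.mul_apply, Fin.sum_univ_two]
      linear_combination hb'
    · simp [heckeRep, Matrix.mul_apply, Fin.sum_univ_two]
    · simp [heckeRep, Matrix.mul_apply, Fin.sum_univ_two]
      linear_combination hd'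

end mat

section unique

variable {N : ℕ}

theorem HCoh_mul_right_cancel {A : Matrix (Fin 2) (Fin 2) ℤ} (hA : A.det ≠ 0)
    {X Y : Matrix (Fin 2) (Fin 2) ℤ} (h : X * A = Y * A) : X = Y := by
  have h2 := congrArg (· * A.adjugate) h
  simp only [Matrix.mul_assoc, Matrix.mul_adjugate, Matrix.mul_smul, Matrix.mul_one] at h2
  ext i j
  have h3 := congrFun (congrFun h2 i) j
  simp only [Matrix.smul_apply, smul_eq_mul] at h3
  exact mul_left_cancel₀ hA h3

/-- Uniqueness of the factorisation. -/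
theorem HCoh_factor_unique {ℓ : ℕ} (hℓ : ℓ.Prime) {i j : Option (Fin ℓ)} {γ γ' : G0 N}
    (h : γ.mat * heckeRep ℓ i = γ'.mat * heckeRep ℓ j) : i = j ∧ γ = γ' := by
  have hℓ0 : (ℓ : ℤ) ≠ 0 := by exact_mod_cast hℓ.ne_zero
  have hℓp : Prime (ℓ : ℤ) := Nat.prime_iff_prime_int.mp hℓ
  have hnd : ¬ (ℓ : ℤ) ∣ 1 := fun h1 => hℓp.not_isUnit (isUnit_of_dvd_one h1)
  have hγ := HCoh_mat_det' γ
  have hγ' := HCoh_mat_det' γ'
  have e00 := congrFun (congrFun h 0) 0
  have e01 := congrFun (congrFun h 0) 1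
  have e10 := congrFun (congrFun h 1) 0
  have e11 := congrFun (congrFun h 1) 1
  have hij : i = j := by
    rcases i with _ | k <;> rcases j with _ | k'
    · rfl
    · exfalso
      simp [heckeRep, Matrix.mul_apply, Fin.sum_univ_two] at e00 e10
      apply hnd
      refine ⟨γ.mat 0 0 * γ'.mat 1 1 - γ'.mat 0 1 * γ.mat 1 0, ?_⟩
      rw [← e00, ← e10] at hγ'
      linear_combination -hγ'
    · exfalso
      simp [heckeRep, Matrix.mul_apply, Fin.sum_univ_two] at e00 e10
      apply hnd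
      refine ⟨γ'.mat 0 0 * γ.mat 1 1 - γ.mat 0 1 * γ'.mat 1 0, ?_⟩
      rw [e00, e10] at hγ
      linear_combination -hγ
    · simp [heckeRep, Matrix.mul_apply, Fin.sum_univ_two] at e00 e01 e10 e11
      by_contra hne
      have hkk : (k : ℕ) ≠ (k' : ℕ) := fun hk => hne (by rw [Fin.ext hk])
      have hnd' : ¬ (ℓ : ℤ) ∣ ((k : ℕ) : ℤ) - ((k' : ℕ) : ℤ) := by
        intro hd
        have hlt : |((k : ℕ) : ℤ) - ((k' : ℕ) : ℤ)| < (ℓ : ℤ) := by
          have h1 := k.2
          have h2 := k'.2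
          rw [abs_lt]
          constructor <;> omega
        have := Int.eq_zero_of_abs_lt_dvd hd hlt
        apply hkk
        omega
      have ha : (ℓ : ℤ) ∣ γ.mat 0 0 := by
        have : (ℓ : ℤ) ∣ γ.mat 0 0 * (((k : ℕ) : ℤ) - ((k' : ℕ) : ℤ)) := by
          refine ⟨γ'.mat 0 1 - γ.mat 0 1, ?_⟩
          rw [← e00] at e01
          linear_combination e01
        exact (hℓp.dvd_or_dvd this).resolve_right hnd'
      have hc : (ℓ : ℤ) ∣ γ.mat 1 0 := by
        have : (ℓ : ℤ) ∣ γ.mat 1 0 * (((k : ℕ) : ℤ) - ((k' : ℕ) : ℤ)) := by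
          refine ⟨γ'.mat 1 1 - γ.mat 1 1, ?_⟩
          rw [← e10] at e11
          linear_combination e11
        exact (hℓp.dvd_or_dvd this).resolve_right hnd'
      apply hnd
      rw [← hγ]
      exact dvd_sub (Dvd.dvd.mul_right ha _) (Dvd.dvd.mul_left hc _)
  subst hij
  refine ⟨rfl, HCoh_mat_injective (HCoh_mul_right_cancel ?_ h)⟩
  rw [HCoh_heckeRep_det]
  exact hℓ0

theorem HCoh_exists_isHeckeFactor {ℓ : ℕ} (hℓ : ℓ.Prime) (hℓN : ¬ ℓ ∣ N) (γ : G0 N)
    (i : Option (Fin ℓ)) : ∃ q : Option (Fin ℓ) × G0 N, IsHeckeFactor ℓ γ i q := by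
  refine HCoh_exists_factor hℓ hℓN (heckeRep ℓ i * γ.mat) ?_ ?_
  · rw [Matrix.det_mul, HCoh_heckeRep_det, HCoh_mat_det, mul_one]
  · have := HCoh_mat_dvd γ
    rcases i with _ | k
    · simpa [heckeRep, Matrix.mul_apply, Fin.sum_univ_two] using this
    · simpa [heckeRep, Matrix.mul_apply, Fin.sum_univ_two] using Dvd.dvd.mul_left this _

theorem HCoh_heckeFac_spec {ℓ : ℕ} (hℓ : ℓ.Prime) (hℓN : ¬ ℓ ∣ N) (γ : G0 N)
    (i : Option (Fin ℓ)) : IsHeckeFactor ℓ γ i (heckeFac N ℓ γ i) := by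
  unfold heckeFac
  rw [dif_pos (HCoh_exists_isHeckeFactor hℓ hℓN γ i)]
  exact Classical.choose_spec (HCoh_exists_isHeckeFactor hℓ hℓN γ i)

theorem HCoh_heckeFac_unique {ℓ : ℕ} (hℓ : ℓ.Prime) (hℓN : ¬ ℓ ∣ N) {γ : G0 N}
    {i : Option (Fin ℓ)} {q : Option (Fin ℓ) × G0 N} (h : IsHeckeFactor ℓ γ i q) :
    heckeFac N ℓ γ i = q := by
  have h' := HCoh_heckeFac_spec hℓ hℓN γ i
  unfold IsHeckeFactor at h h'
  obtain ⟨h1, h2⟩ := HCoh_factor_unique hℓ (h'.symm.trans h)
  exact Prod.ext h1 h2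

theorem HCoh_isFactorSystem {ℓ : ℕ} (hℓ : ℓ.Prime) (hℓN : ¬ ℓ ∣ N) :
    HCoh_IsFactorSystem (heckeFac N ℓ) where
  one i := by
    apply HCoh_heckeFac_unique hℓ hℓN
    unfold IsHeckeFactor
    simp [HCoh_mat_one]
  mul γ δ i := by
    apply HCoh_heckeFac_unique hℓ hℓN
    have h1 := HCoh_heckeFac_spec hℓ hℓN γ i
    have h2 := HCoh_heckeFac_spec hℓ hℓN δ (heckeFac N ℓ γ i).1
    unfold IsHeckeFactor at h1 h2 ⊢
    simp only [HCoh_mat_mul]
    rw [← Matrix.mul_assoc, h1, Matrix.mul_assoc, h2, Matrix.mul_assoc]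

end unique

/-! ### Traces -/

section trace

theorem HCoh_trace_eq_of_conj {A G D : Matrix (Fin 2) (Fin 2) ℤ} (hA : A.det ≠ 0)
    (h : A * G = D * A) : G.trace = D.trace := by
  have h1 : (A.adjugate * (A * G)).trace = A.det * G.trace := by
    rw [← Matrix.mul_assoc, Matrix.adjugate_mul, Matrix.smul_mul, Matrix.one_mul,
      Matrix.trace_smul, smul_eq_mul]
  have h2 : (A.adjugate * (D * A)).trace = A.det * D.trace := by
    rw [Matrix.trace_mul_comm, Matrix.mul_assoc, Matrix.mul_adjugate, Matrix.mul_smul,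
      Matrix.mul_one, Matrix.trace_smul, smul_eq_mul]
  rw [h, h2] at h1
  exact (mul_left_cancel₀ hA h1).symm

theorem HCoh_sq_eq {G : Matrix (Fin 2) (Fin 2) ℤ} (hdet : G.det = 1) :
    G * G = G.trace • G - 1 := by
  rw [Matrix.det_fin_two] at hdet
  ext i j
  rw [Matrix.sub_apply, Matrix.smul_apply, Matrix.trace_fin_two, Matrix.mul_apply,
    Fin.sum_univ_two, smul_eq_mul]
  fin_cases i <;> fin_cases j
  · simp only [Fin.zero_eta, Fin.isValue, Matrix.one_apply_eq]
    linear_combination (-1 : ℤ) * hdet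
  · simp only [Fin.zero_eta, Fin.isValue, Fin.mk_one, ne_eq, zero_ne_one, not_false_eq_true,
      Matrix.one_apply_ne, sub_zero]
    ring
  · simp only [Fin.mk_one, Fin.isValue, Fin.zero_eta, ne_eq, one_ne_zero, not_false_eq_true,
      Matrix.one_apply_ne, sub_zero]
    ring
  · simp only [Fin.mk_one, Fin.isValue, Matrix.one_apply_eq]
    linear_combination (-1 : ℤ) * hdet

theorem HCoh_trace_pow_rec {G : Matrix (Fin 2) (Fin 2) ℤ} (hdet : G.det = 1) (n : ℕ) :
    (G ^ (n + 2)).trace = G.trace * (G ^ (n + 1)).trace - (G ^ n).trace := by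
  have : G ^ (n + 2) = G.trace • G ^ (n + 1) - G ^ n := by
    rw [pow_add, pow_two, HCoh_sq_eq hdet, mul_sub, mul_one, Matrix.mul_smul, ← pow_succ]
  rw [this, Matrix.trace_sub, Matrix.trace_smul, smul_eq_mul]

theorem HCoh_trace_pow {G : Matrix (Fin 2) (Fin 2) ℤ} (hdet : G.det = 1)
    (ht : G.trace = 2 ∨ G.trace = -2) (r : ℕ) :
    (G ^ r).trace = 2 ∨ (G ^ r).trace = -2 := by
  have key : ∀ n : ℕ, ((G ^ n).trace = 2 ∨ (G ^ n).trace = -2) ∧
      ((G ^ (n + 1)).trace = G.trace * (G ^ n).trace / 2) := by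
    intro n
    induction n with
    | zero =>
      refine ⟨Or.inl (by simp), ?_⟩
      simp
    | succ n ih =>
      obtain ⟨ih1, ih2⟩ := ih
      have hrec := HCoh_trace_pow_rec hdet n
      rcases ht with ht | ht <;> rcases ih1 with ih1 | ih1 <;>
        rw [ht, ih1] at ih2 <;> norm_num at ih2 <;>
        rw [ht, ih1, ih2] at hrec <;> norm_num at hrec <;>
        rw [ht, ih2, hrec] <;> norm_num
  exact (key r).1

end trace

/-! ### The piece `HCoh` -/

theorem isParHom_heckeCoh {N : ℕ} {ℓ : ℕ} (hℓ : ℓ.Prime) (hℓN : ¬ ℓ ∣ N) {A : Type*}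
    [AddCommGroup A] {c : G0 N → A} (hc : IsParHom c) : IsParHom (heckeCoh N ℓ c) := by
  have hf := HCoh_isFactorSystem (N := N) hℓ hℓN
  have hℓ0 : (ℓ : ℤ) ≠ 0 := by exact_mod_cast hℓ.ne_zero
  refine ⟨?_, ?_, ?_⟩
  · intro γ γ'
    exact HCoh_transfer_mul hf hc.map_mul γ γ'
  · intro γ hγ
    refine HCoh_transfer_eq_zero hf hc.map_mul
      (fun γ : G0 N => γ.mat.trace = 2 ∨ γ.mat.trace = -2) hc.parabolic ?_ γ hγ
    intro γ hγ r _ i hi
    have h1 := HCoh_heckeFac_spec hℓ hℓN (γ ^ r) i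
    unfold IsHeckeFactor at h1
    rw [hi] at h1
    have h2 := HCoh_trace_eq_of_conj (by rw [HCoh_heckeRep_det]; exact hℓ0) h1
    show (heckeFac N ℓ (γ ^ r) i).2.mat.trace = 2 ∨ (heckeFac N ℓ (γ ^ r) i).2.mat.trace = -2
    rw [← h2, HCoh_mat_pow]
    exact HCoh_trace_pow (HCoh_mat_det γ) hγ r
  · intro γ n hn hγn
    refine HCoh_transfer_eq_zero hf hc.map_mul
      (fun γ : G0 N => ∃ n : ℕ, 0 < n ∧ γ ^ n = 1) (fun γ ⟨n, hn, h⟩ => hc.elliptic γ n hn h)
      ?_ γ ⟨n, hn, hγn⟩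
    rintro γ ⟨n, hn, hγn⟩ r _ i hi
    exact ⟨n, hn, HCoh_finite_order_closed hf γ n hγn r i hi⟩

end Fermat.Agent.S29.H149

end
-- ===== PACK-END S29/H149/HCoh.lean

-- ===== PACK-BEGIN S24/H117/Approx.lean
section


/-!
# S24 / H117 — a weak approximation lemma for places

For a place `v` and a finite set `s` of places not containing `v`, there is `f : F` with
`v.ord f < 0` and `0 < w.ord f` for all `w ∈ s`.
-/

set_option autoImplicit false

noncomputable section

open AlgebraicCurve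

namespace Fermat.Agent.S24.H117

variable {K F : Type*} [Field K] [Field F] [Algebra K F]

/-- Two distinct places are separated by a function. -/
theorem exists_ord_pos_neg {v w : Place K F} (h : v ≠ w) :
    ∃ y : F, 0 < v.ord y ∧ w.ord y < 0 := by
  have h1 : ∃ a : F, 0 ≤ v.ord a ∧ w.ord a < 0 := by
    by_contra hcon
    push Not at hcon
    exact h (place_ext_of_le hcon)
  have h2 : ∃ b : F, 0 ≤ w.ord b ∧ v.ord b < 0 := by
    by_contra hcon
    push Not at hcon
    exact h (place_ext_of_le hcon).symm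
  obtain ⟨a, ha1, ha2⟩ := h1
  obtain ⟨b, hb1, hb2⟩ := h2
  have ha0 : a ≠ 0 := ne_zero_of_ord_ne_zero w ha2.ne
  have hb0 : b ≠ 0 := ne_zero_of_ord_ne_zero v hb2.ne
  refine ⟨a / b, ?_, ?_⟩
  · rw [ord_div v ha0 hb0]; omega
  · rw [ord_div w ha0 hb0]; omega

/-- There is a function with a zero at `v` and poles at all places of `s`. -/
theorem exists_ord_pos_forall_neg (v : Place K F) (s : Finset (Place K F)) (hv : v ∉ s) :
    ∃ u : F, 0 < v.ord u ∧ ∀ w ∈ s, w.ord u < 0 := by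
  classical
  induction s using Finset.induction_on with
  | empty =>
    obtain ⟨π, -, hπ⟩ := exists_ord_eq_one v
    exact ⟨π, by omega, by simp⟩
  | insert w s hw ih =>
    have hvs : v ∉ s := fun h => hv (Finset.mem_insert_of_mem h)
    have hvw : v ≠ w := fun h => hv (h ▸ Finset.mem_insert_self _ _)
    obtain ⟨u, hu1, hu2⟩ := ih hvs
    by_cases hwu : w.ord u < 0
    · refine ⟨u, hu1, fun w' hw' => ?_⟩
      rcases Finset.mem_insert.mp hw' with rfl | h
      · exact hwu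
      · exact hu2 w' h
    · push Not at hwu
      obtain ⟨y, hy1, hy2⟩ := exists_ord_pos_neg hvw
      have hu0 : u ≠ 0 := ne_zero_of_ord_ne_zero v hu1.ne'
      have hy0 : y ≠ 0 := ne_zero_of_ord_ne_zero v hy1.ne'
      -- choose a large exponent
      obtain ⟨N, hN1, hNbig⟩ : ∃ N : ℕ, 1 ≤ N ∧ ∀ w' ∈ s, (w'.ord u).natAbs < N := by
        refine ⟨1 + ∑ w' ∈ s, (w'.ord u).natAbs, by omega, fun w' hw' => ?_⟩
        have := Finset.single_le_sum (f := fun w' : Place K F => (w'.ord u).natAbs)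
          (fun _ _ => Nat.zero_le _) hw'
        have h2 : (w'.ord u).natAbs ≤ ∑ w' ∈ s, (w'.ord u).natAbs := this
        omega
      have hyN0 : y ^ N ≠ 0 := pow_ne_zero _ hy0
      have hwlt : w.ord (y ^ N) < w.ord u := by
        rw [ord_pow]
        have : (N : ℤ) * w.ord y < 0 := by
          have : (1 : ℤ) ≤ N := by exact_mod_cast hN1
          nlinarith
        omega
      have hsum_w : w.ord (u + y ^ N) = w.ord (y ^ N) := by
        rw [add_comm]
        exact ord_add_eq_of_lt w hwlt hyN0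
      have hne : u + y ^ N ≠ 0 := by
        apply ne_zero_of_ord_ne_zero w
        rw [hsum_w, ord_pow]
        have : (1 : ℤ) ≤ N := by exact_mod_cast hN1
        nlinarith
      refine ⟨u + y ^ N, ?_, fun w' hw' => ?_⟩
      · have := ord_add_ge v hne
        have h2 : 0 < v.ord (y ^ N) := by
          rw [ord_pow]
          have : (1 : ℤ) ≤ N := by exact_mod_cast hN1
          nlinarith
        have : 0 < min (v.ord u) (v.ord (y ^ N)) := lt_min hu1 h2
        omega
      · rcases Finset.mem_insert.mp hw' with rfl | h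
        · rw [hsum_w, ord_pow]
          have : (1 : ℤ) ≤ N := by exact_mod_cast hN1
          nlinarith
        · have hu' := hu2 w' h
          have hbig := hNbig w' h
          have hneq : w'.ord (y ^ N) ≠ w'.ord u := by
            rw [ord_pow]
            intro heq
            rcases eq_or_ne (w'.ord y) 0 with h0 | h0
            · rw [h0, mul_zero] at heq
              omega
            · have h1 : (w'.ord u).natAbs = N * (w'.ord y).natAbs := by
                rw [← heq, Int.natAbs_mul, Int.natAbs_natCast]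
              have h2 : 1 ≤ (w'.ord y).natAbs := Int.natAbs_pos.mpr h0
              have h3 : N ≤ N * (w'.ord y).natAbs := Nat.le_mul_of_pos_right N h2
              omega
          rcases lt_or_gt_of_ne hneq with hlt | hgt
          · rw [add_comm, ord_add_eq_of_lt w' hlt hyN0]
            omega
          · rw [ord_add_eq_of_lt w' hgt hu0]
            exact hu'

/-- **Weak approximation (the form we need).** -/
theorem exists_ord_neg_forall_pos (v : Place K F) (s : Finset (Place K F)) (hv : v ∉ s) :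
    ∃ f : F, v.ord f < 0 ∧ ∀ w ∈ s, 0 < w.ord f := by
  obtain ⟨u, hu1, hu2⟩ := exists_ord_pos_forall_neg v s hv
  refine ⟨u⁻¹, ?_, fun w hw => ?_⟩
  · rw [v.ord_inv]; omega
  · rw [w.ord_inv]
    have := hu2 w hw
    omega

end Fermat.Agent.S24.H117

end
end
-- ===== PACK-END S24/H117/Approx.lean

-- ===== PACK-BEGIN S28/H565/JExp.lean
section





/-!
# S28 analytic bridge, part 3: the `q`-expansions of `Δ`, `E₄` and `j` (helper565)

We identify the analytic `q`-expansions of Mathlib's `Δ`, `E₄` and of `j = E₄³/Δ` with the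
formal series of the Prelude (`ModularCurve.etaProd`, `ModularCurve.eisenstein4`,
`ModularCurve.jqModC ℂ`).
-/

set_option autoImplicit false

noncomputable section

open UpperHalfPlane Complex Function Filter Topology ModularForm
open scoped Real PowerSeries.WithPiTopology MatrixGroups

namespace Fermat.Agent.S28.H565

local notation "𝕢" => Periodic.qParam

/-- The Taylor series at `0` of a function on the unit disc, as a formal power series. -/
def taylorPS (G : ℂ → ℂ) : PowerSeries ℂ :=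
  PowerSeries.mk fun n => (n.factorial : ℂ)⁻¹ * iteratedDeriv n G 0

theorem hasPExp_of_differentiableOn {G : ℂ → ℂ}
    (hG : DifferentiableOn ℂ G (Metric.ball 0 1)) {h : ℝ} (hh : 0 < h) :
    HasPExp h (fun τ => G (𝕢 h τ)) (taylorPS G) := by
  intro τ
  have hq : 𝕢 h τ ∈ Metric.ball (0 : ℂ) 1 := by
    simpa using Periodic.norm_qParam_lt_one hh τ.im_pos
  have := hasSum_taylorSeries_on_ball hG hq
  refine this.congr_fun ?_ |>.mono_left le_rfl
  intro k
  simp only [taylorPS, PowerSeries.coeff_mk, sub_zero, smul_eq_mul]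
  ring

theorem hasPExp_eulerFun {h : ℝ} (hh : 0 < h) :
    HasPExp h (fun τ => eulerFun (𝕢 h τ)) etaProdC :=
  fun τ => hasSum_etaProdC (Periodic.norm_qParam_lt_one hh τ.im_pos)

theorem eulerFun_zero : eulerFun 0 = 1 := by
  simp [eulerFun]

theorem eulerFun_ne_zero {q : ℂ} (hq : ‖q‖ < 1) : eulerFun q ≠ 0 := by
  rcases eq_or_ne q 0 with rfl | hq0
  · rw [eulerFun_zero]; exact one_ne_zero
  · have him := Periodic.im_invQParam_pos_of_norm_lt_one one_pos hq hq0
    have h1 := ModularForm.eta_tprod_ne_zero (z := Periodic.invQParam 1 q) him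
    have h2 : ∀ n : ℕ, ModularForm.eta_q n (Periodic.invQParam 1 q) = q ^ (n + 1) := by
      intro n
      rw [ModularForm.eta_q_eq_pow]
      congr 1
      have := Periodic.qParam_right_inv one_ne_zero hq0
      simpa [Periodic.qParam] using this
    simpa [eulerFun, h2] using h1

theorem discriminant_eq_eulerFun (τ : ℍ) :
    ModularForm.discriminant τ = 𝕢 1 τ * eulerFun (𝕢 1 τ) ^ 24 := by
  rw [ModularForm.discriminant_eq_q_prod]
  have hq : ‖𝕢 1 (τ : ℂ)‖ < 1 := Periodic.norm_qParam_lt_one one_pos τ.im_pos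
  have h2 : ∀ n : ℕ, ModularForm.eta_q n (τ : ℂ) = 𝕢 1 τ ^ (n + 1) := by
    intro n
    rw [ModularForm.eta_q_eq_pow]
    simp [Periodic.qParam]
  simp only [h2]
  rw [(ModularForm.multipliable_one_sub_pow hq).tprod_pow 24]
  rfl

/-- The complex version of the formal series `dedekindEtaUnit = etaProd ^ 24`. -/
theorem map_dedekindEtaUnit :
    PowerSeries.map (Int.castRingHom ℂ) ModularCurve.dedekindEtaUnit = etaProdC ^ 24 := by
  rw [ModularCurve.dedekindEtaUnit, map_pow, etaProdC]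

/-- The complex version of the formal inverse of `etaProd ^ 24`. -/
def etaInvC : PowerSeries ℂ := PowerSeries.map (Int.castRingHom ℂ) ModularCurve.dedekindEtaUnitInv

theorem etaProdC_pow_mul_etaInvC : etaProdC ^ 24 * etaInvC = 1 := by
  rw [← map_dedekindEtaUnit, etaInvC, ← map_mul, ModularCurve.dedekindEtaUnit_mul_inv, map_one]

theorem hasPExp_eulerFun_pow_inv {h : ℝ} (hh : 0 < h) :
    HasPExp h (fun τ => (eulerFun (𝕢 h τ) ^ 24)⁻¹) etaInvC := by
  have hd : DifferentiableOn ℂ (fun q => (eulerFun q ^ 24)⁻¹) (Metric.ball 0 1) := by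
    refine DifferentiableOn.inv (differentiableOn_eulerFun.pow 24) ?_
    intro q hq
    exact pow_ne_zero _ (eulerFun_ne_zero (by simpa using hq))
  have h1 := hasPExp_of_differentiableOn hd hh
  have h2 := (hasPExp_eulerFun hh).pow 24
  have h3 := h1.mul h2
  have h4 : HasPExp h 1 (taylorPS (fun q => (eulerFun q ^ 24)⁻¹) * etaProdC ^ 24) := by
    refine h3.congr fun τ => ?_
    have hne : eulerFun (𝕢 h τ) ^ 24 ≠ 0 :=
      pow_ne_zero _ (eulerFun_ne_zero (Periodic.norm_qParam_lt_one hh τ.im_pos))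
    simp only [Pi.mul_apply, Pi.pow_apply, Pi.one_apply]
    exact inv_mul_cancel₀ hne
  have h5 : HasPExp h 1 1 := by
    have := HasPExp.const (h := h) 1
    rwa [map_one] at this
  have h6 := h4.unique hh h5
  have h7 : taylorPS (fun q => (eulerFun q ^ 24)⁻¹) = etaInvC := by
    calc taylorPS (fun q => (eulerFun q ^ 24)⁻¹)
        = taylorPS (fun q => (eulerFun q ^ 24)⁻¹) * (etaProdC ^ 24 * etaInvC) := by
          rw [etaProdC_pow_mul_etaInvC, mul_one]
      _ = etaInvC := by rw [← mul_assoc, h6, one_mul]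
  rw [← h7]
  exact h1

/-- The formal `q`-expansion of `Δ`, over `ℂ`. -/
def deltaSeriesC : LaurentSeries ℂ :=
  HahnSeries.single (1 : ℤ) (1 : ℂ) * HahnSeries.ofPowerSeries ℤ ℂ (etaProdC ^ 24)

/-- The formal `q`-expansion of `Δ⁻¹`, over `ℂ`. -/
def deltaInvSeriesC : LaurentSeries ℂ :=
  HahnSeries.single (-1 : ℤ) (1 : ℂ) * HahnSeries.ofPowerSeries ℤ ℂ etaInvC

theorem deltaSeriesC_mul_inv : deltaSeriesC * deltaInvSeriesC = 1 := by
  rw [deltaSeriesC, deltaInvSeriesC]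
  have h1 : HahnSeries.single (1 : ℤ) (1 : ℂ) * HahnSeries.single (-1 : ℤ) (1 : ℂ) = 1 := by
    rw [HahnSeries.single_mul_single]
    simp
  have h2 : HahnSeries.ofPowerSeries ℤ ℂ (etaProdC ^ 24) * HahnSeries.ofPowerSeries ℤ ℂ etaInvC
      = 1 := by
    rw [← map_mul, etaProdC_pow_mul_etaInvC, map_one]
  calc HahnSeries.single (1 : ℤ) (1 : ℂ) * HahnSeries.ofPowerSeries ℤ ℂ (etaProdC ^ 24) *
        (HahnSeries.single (-1 : ℤ) (1 : ℂ) * HahnSeries.ofPowerSeries ℤ ℂ etaInvC)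
      = (HahnSeries.single (1 : ℤ) (1 : ℂ) * HahnSeries.single (-1 : ℤ) (1 : ℂ)) *
        (HahnSeries.ofPowerSeries ℤ ℂ (etaProdC ^ 24) * HahnSeries.ofPowerSeries ℤ ℂ etaInvC) := by
          ring
    _ = 1 := by rw [h1, h2, mul_one]

/-- **`q`-expansion of `Δ`**. -/
theorem hasTExp_discriminant : HasTExp 1 ModularForm.discriminant deltaSeriesC := by
  rw [deltaSeriesC, hasTExp_single_mul_iff]
  refine ((hasPExp_eulerFun one_pos).pow 24).congr fun τ => ?_
  have hq : 𝕢 1 (τ : ℂ) ≠ 0 := Periodic.qParam_ne_zero _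
  rw [discriminant_eq_eulerFun, zpow_neg, zpow_one]
  simp only [Pi.pow_apply]
  field_simp

/-- **`q`-expansion of `Δ⁻¹`**. -/
theorem hasTExp_discriminant_inv :
    HasTExp 1 (fun τ => (ModularForm.discriminant τ)⁻¹) deltaInvSeriesC := by
  rw [deltaInvSeriesC, hasTExp_single_mul_iff]
  refine (hasPExp_eulerFun_pow_inv one_pos).congr fun τ => ?_
  have hq : 𝕢 1 (τ : ℂ) ≠ 0 := Periodic.qParam_ne_zero _
  rw [discriminant_eq_eulerFun, neg_neg, zpow_one, mul_inv]
  field_simp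

/-- The complex version of the formal Eisenstein series `E₄`. -/
def e4C : PowerSeries ℂ := PowerSeries.map (Int.castRingHom ℂ) ModularCurve.eisenstein4

theorem qExpansion_E₄ : qExpansion 1 E₄ = e4C := by
  ext m
  rw [EisensteinSeries.E_qExpansion_coeff _ ⟨2, rfl⟩, e4C, PowerSeries.coeff_map,
    ModularCurve.eisenstein4, PowerSeries.coeff_mk]
  by_cases hm : m = 0
  · simp [hm]
  · rw [if_neg hm, if_neg hm, show bernoulli 4 = -1 / 30 by decide +kernel,
      ArithmeticFunction.sigma_apply, eq_intCast]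
    push_cast
    ring

/-- **`q`-expansion of `E₄`**. -/
theorem hasPExp_E₄ : HasPExp 1 E₄ e4C := by
  intro τ
  have := ModularForm.hasSum_qExpansion E₄ one_pos one_mem_strictPeriods_SL τ
  rwa [qExpansion_E₄] at this

/-- The analytic `j`-function `E₄³/Δ`. -/
def jFun (τ : ℍ) : ℂ := E₄ τ ^ 3 / ModularForm.discriminant τ

theorem jqModC_eq : ModularCurve.jqModC ℂ =
    HahnSeries.single (-1 : ℤ) (1 : ℂ) * HahnSeries.ofPowerSeries ℤ ℂ (e4C ^ 3 * etaInvC) := by
  rw [ModularCurve.jqModC, ModularCurve.jNum, map_mul, map_pow, e4C, etaInvC]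

/-- **`q`-expansion of `j`**: the analytic `j`-function has the Prelude's formal series
`jqModC ℂ` as its convergent Laurent expansion in `q = exp (2πiτ)`. -/
theorem hasTExp_jFun : HasTExp 1 jFun (ModularCurve.jqModC ℂ) := by
  rw [jqModC_eq, hasTExp_single_mul_iff]
  refine ((hasPExp_E₄.pow 3).mul (hasPExp_eulerFun_pow_inv one_pos)).congr fun τ => ?_
  have hq : 𝕢 1 (τ : ℂ) ≠ 0 := Periodic.qParam_ne_zero _
  have hE : eulerFun (𝕢 1 τ) ^ 24 ≠ 0 :=
    pow_ne_zero _ (eulerFun_ne_zero (Periodic.norm_qParam_lt_one one_pos τ.im_pos))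
  simp only [Pi.mul_apply, Pi.pow_apply, jFun]
  rw [discriminant_eq_eulerFun, neg_neg, zpow_one]
  field_simp

end Fermat.Agent.S28.H565

end
end
-- ===== PACK-END S28/H565/JExp.lean

-- ===== PACK-BEGIN S29/H751/PthRootUHP.lean
section


/-!
# Holomorphic `p`-th roots on `ℍ` and the character of a root (helper751, S29 / P5)

* `exists_pow_eq_UHP`: a holomorphic `F : ℍ → ℂ` all of whose orders of vanishing are finite and
  divisible by `p` is a `p`-th power of a holomorphic function.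
* `eq_of_pow_eq_UHP`: two holomorphic functions on `ℍ` with the same `p`-th power which agree
  at one point where they do not vanish are equal.
* `exists_character_of_pow_eq`: if `U ^ p` is weakly modular of weight `k * p` for a group `Γ`
  of matrices of positive determinant, then `U` is weakly modular of weight `k` with a character
  `χ : Γ →* ℂˣ`, `χ ^ p = 1`.
-/

set_option autoImplicit false

open Complex Set Metric Filter Topology UpperHalfPlane
open scoped Manifold MatrixGroups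

namespace Fermat.Agent.S29.H751

/-- `F ∘ ofComplex` agrees with `u` on the upper half plane when `F τ = u τ`. -/
theorem comp_ofComplex_eqOn (u : ℂ → ℂ) :
    EqOn ((fun τ : ℍ => u τ) ∘ ofComplex) u {z : ℂ | 0 < z.im} := by
  intro z hz
  simp only [Function.comp_apply, ofComplex_apply_of_im_pos hz]

/-- **Holomorphic `p`-th roots on `ℍ`.** -/
theorem exists_pow_eq_UHP {F : ℍ → ℂ} (hF : MDifferentiable 𝓘(ℂ) 𝓘(ℂ) F) (p : ℕ) (hp : p ≠ 0)
    (hord : ∀ τ : ℍ, ∃ m : ℕ, analyticOrderAt (F ∘ ofComplex) (τ : ℂ) = ((p * m : ℕ) : ℕ∞)) :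
    ∃ U : ℍ → ℂ, MDifferentiable 𝓘(ℂ) 𝓘(ℂ) U ∧ ∀ τ : ℍ, U τ ^ p = F τ := by
  obtain ⟨u, hu, hup⟩ := exists_pow_eq_on_upperHalfPlane (G := F ∘ ofComplex) p hp
    (UpperHalfPlane.mdifferentiable_iff.1 hF) (fun z hz => hord ⟨z, hz⟩)
  refine ⟨fun τ => u τ, ?_, fun τ => ?_⟩
  · rw [UpperHalfPlane.mdifferentiable_iff]
    exact hu.congr (comp_ofComplex_eqOn u)
  · have := hup τ τ.im_pos
    rw [this, comp_ofComplex]

/-- Uniqueness of normalised holomorphic `p`-th roots on `ℍ`. -/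
theorem eq_of_pow_eq_UHP {A B : ℍ → ℂ} (hA : MDifferentiable 𝓘(ℂ) 𝓘(ℂ) A)
    (hB : MDifferentiable 𝓘(ℂ) 𝓘(ℂ) B) {p : ℕ} (hp : p ≠ 0)
    (h : ∀ τ : ℍ, A τ ^ p = B τ ^ p) {τ₀ : ℍ} (h0 : A τ₀ = B τ₀) (hne : A τ₀ ≠ 0) : A = B := by
  have hHo : IsOpen {z : ℂ | 0 < z.im} := isOpen_lt continuous_const Complex.continuous_im
  have hHc : IsPreconnected {z : ℂ | 0 < z.im} :=
    (convex_halfSpace_im_gt 0).isPreconnected
  have key := eqOn_of_pow_eq_of_eq hHo hHc (UpperHalfPlane.mdifferentiable_iff.1 hA)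
    (UpperHalfPlane.mdifferentiable_iff.1 hB) hp
    (fun z hz => by
      simp only [Function.comp_apply]
      exact h _)
    (z₀ := (τ₀ : ℂ)) τ₀.im_pos
    (by simp only [Function.comp_apply, ofComplex_apply]; exact h0)
    (by simp only [Function.comp_apply, ofComplex_apply]; exact hne)
  funext τ
  have := key τ.im_pos
  simpa only [Function.comp_apply, ofComplex_apply] using this

/-- **The character of a `p`-th root.**  Let `Γ` be a group of real matrices of positive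
determinant and `U` a holomorphic function on `ℍ`, not identically zero, such that `U ^ p`
is weakly modular of weight `k * p` for `Γ`.  Then `U` is weakly modular of weight `k` up to
a character `χ` of `Γ` with `χ ^ p = 1`. -/
theorem exists_character_of_pow_eq (Γ : Subgroup (GL (Fin 2) ℝ))
    (hdet : ∀ γ ∈ Γ, 0 < (γ.det : ℝ)) (k : ℤ) {p : ℕ} (hp : p ≠ 0) {U : ℍ → ℂ}
    (hU : MDifferentiable 𝓘(ℂ) 𝓘(ℂ) U) (hne : ∃ τ, U τ ≠ 0)
    (hpow : ∀ γ ∈ Γ, ∀ τ : ℍ, U (γ • τ) ^ p = (denom γ τ ^ k * U τ) ^ p) :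
    ∃ χ : Γ →* ℂˣ, (∀ γ, χ γ ^ p = 1) ∧
      ∀ (γ : Γ) (τ : ℍ), U ((γ : GL (Fin 2) ℝ) • τ) = χ γ * denom γ τ ^ k * U τ := by
  classical
  obtain ⟨τ₁, hτ₁⟩ := hne
  -- for each `γ`, the constant
  have key : ∀ γ : Γ, ∃ ζ : ℂˣ, ζ ^ p = 1 ∧
      ∀ τ : ℍ, U ((γ : GL (Fin 2) ℝ) • τ) = ζ * denom γ τ ^ k * U τ := by
    intro γ
    have hB1 : denom (γ : GL (Fin 2) ℝ) τ₁ ^ k * U τ₁ ≠ 0 :=
      mul_ne_zero (zpow_ne_zero _ (denom_ne_zero _ _)) hτ₁
    have hA1 : U ((γ : GL (Fin 2) ℝ) • τ₁) ≠ 0 := by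
      intro h0
      have := hpow γ γ.2 τ₁
      rw [h0, zero_pow hp] at this
      exact pow_ne_zero p hB1 this.symm
    set z : ℂ := U ((γ : GL (Fin 2) ℝ) • τ₁) / (denom (γ : GL (Fin 2) ℝ) τ₁ ^ k * U τ₁) with hz
    have hz0 : z ≠ 0 := div_ne_zero hA1 hB1
    have hzp : z ^ p = 1 := by
      rw [hz, div_pow, hpow γ γ.2 τ₁, div_self (pow_ne_zero p hB1)]
    refine ⟨Units.mk0 z hz0, ?_, ?_⟩
    · ext
      simp [hzp]
    · intro τ
      have hAd : MDifferentiable 𝓘(ℂ) 𝓘(ℂ) (fun τ : ℍ => U ((γ : GL (Fin 2) ℝ) • τ)) :=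
        hU.comp (UpperHalfPlane.mdifferentiable_smul (hdet γ γ.2))
      have hBd : MDifferentiable 𝓘(ℂ) 𝓘(ℂ)
          (fun τ : ℍ => z * denom (γ : GL (Fin 2) ℝ) τ ^ k * U τ) := by
        have h1 : MDifferentiable 𝓘(ℂ) 𝓘(ℂ)
            (fun τ : ℍ => denom (γ : GL (Fin 2) ℝ) τ ^ k) := mdifferentiable_denom_zpow _ k
        have h2 : MDifferentiable 𝓘(ℂ) 𝓘(ℂ)
            (fun τ : ℍ => z * denom (γ : GL (Fin 2) ℝ) τ ^ k) :=
          (mdifferentiable_const (c := z)).mul h1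
        exact h2.mul hU
      have := eq_of_pow_eq_UHP hAd hBd hp (fun τ => by
        rw [hpow γ γ.2 τ, mul_assoc, mul_pow z, hzp, one_mul]) (τ₀ := τ₁)
        (by
          simp only [hz]
          field_simp) hA1
      simpa using congrFun this τ
  choose χ hχp hχ using key
  have hmul : ∀ γ δ : Γ, χ (γ * δ) = χ γ * χ δ := by
    intro γ δ
    have h1 := hχ (γ * δ) τ₁
    have h2 := hχ γ ((δ : GL (Fin 2) ℝ) • τ₁)
    have h3 := hχ δ τ₁
    have hco : denom ((γ : GL (Fin 2) ℝ) * δ) τ₁ =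
        denom (γ : GL (Fin 2) ℝ) (((δ : GL (Fin 2) ℝ) • τ₁ : ℍ) : ℂ) *
          denom (δ : GL (Fin 2) ℝ) τ₁ := by
      rw [denom_cocycle _ _ τ₁.im_ne_zero, coe_smul_of_det_pos (hdet δ δ.2)]
    have hsm : ((γ * δ : Γ) : GL (Fin 2) ℝ) • τ₁ =
        (γ : GL (Fin 2) ℝ) • ((δ : GL (Fin 2) ℝ) • τ₁) := by
      rw [Subgroup.coe_mul, mul_smul]
    rw [hsm, h2, h3, Subgroup.coe_mul, hco, mul_zpow] at h1
    have hd1 := zpow_ne_zero k (denom_ne_zero (γ : GL (Fin 2) ℝ) ((δ : GL (Fin 2) ℝ) • τ₁))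
    have hd2 := zpow_ne_zero k (denom_ne_zero (δ : GL (Fin 2) ℝ) τ₁)
    have h4 : ((χ (γ * δ) : ℂˣ) : ℂ) = (χ γ : ℂ) * (χ δ : ℂ) := by
      have h5 : (χ γ : ℂ) * (χ δ : ℂ) *
          (denom (γ : GL (Fin 2) ℝ) (((δ : GL (Fin 2) ℝ) • τ₁ : ℍ) : ℂ) ^ k *
            denom (δ : GL (Fin 2) ℝ) τ₁ ^ k * U τ₁) =
          (χ (γ * δ) : ℂ) *
          (denom (γ : GL (Fin 2) ℝ) (((δ : GL (Fin 2) ℝ) • τ₁ : ℍ) : ℂ) ^ k *
            denom (δ : GL (Fin 2) ℝ) τ₁ ^ k * U τ₁) := by
        linear_combination h1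
      exact (mul_right_cancel₀ (mul_ne_zero (mul_ne_zero hd1 hd2) hτ₁) h5).symm
    exact Units.ext (by simpa using h4)
  exact ⟨MonoidHom.mk' χ hmul, fun γ => hχp γ, fun γ τ => hχ γ τ⟩

end Fermat.Agent.S29.H751

end
-- ===== PACK-END S29/H751/PthRootUHP.lean

-- ===== PACK-BEGIN S29/H942/MeroRootUnique.lean
section


/-!
# Uniqueness of meromorphic `p`-th roots up to a root of unity
-/

set_option autoImplicit false

noncomputable section

open Filter Topology Set Complex MeromorphicOn Function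

namespace Fermat.Agent.S29.H942

/-- `h` is a `p`-th root of `f` on `V`, in normal form: `h` is meromorphic in normal form on `V`
and `h ^ p = f` on a punctured neighbourhood of every point of `V`. -/
def IsNFRootOn (h f : ℂ → ℂ) (V : Set ℂ) (p : ℕ) : Prop :=
  MeromorphicNFOn h V ∧ ∀ x ∈ V, (h ^ p) =ᶠ[𝓝[≠] x] f

lemma IsNFRootOn.mono {h f : ℂ → ℂ} {V W : Set ℂ} {p : ℕ} (hh : IsNFRootOn h f V p)
    (hWV : W ⊆ V) : IsNFRootOn h f W p :=
  ⟨fun _ hz => hh.1 (hWV hz), fun x hx => hh.2 x (hWV hx)⟩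

/-- Equality on a codiscrete subset of an open set gives equality on punctured neighbourhoods. -/
lemma eventuallyEq_nhdsNE_of_codiscreteWithin {f g : ℂ → ℂ} {V : Set ℂ} (hV : IsOpen V)
    (h : f =ᶠ[codiscreteWithin V] g) {x : ℂ} (hx : x ∈ V) : f =ᶠ[𝓝[≠] x] g := by
  have h1 := (mem_codiscreteWithin_iff_forall_mem_nhdsNE.1 h) x hx
  have h2 : V ∈ 𝓝[≠] x := mem_nhdsWithin_of_mem_nhds (hV.mem_nhds hx)
  filter_upwards [h1, h2] with y hy hyV
  rcases hy with hy | hy
  · exact hy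
  · exact absurd hyV hy

/-- From a meromorphic root to a root in normal form. -/
lemma isNFRootOn_toMeromorphicNFOn {h f : ℂ → ℂ} {V : Set ℂ} (hV : IsOpen V) {p : ℕ}
    (hh : MeromorphicOn h V) (hpow : (h ^ p) =ᶠ[codiscreteWithin V] f) :
    IsNFRootOn (toMeromorphicNFOn h V) f V p := by
  refine ⟨meromorphicNFOn_toMeromorphicNFOn h V, fun x hx => ?_⟩
  have h1 := hh.toMeromorphicNFOn_eq_self_on_nhdsNE hx
  have h2 := eventuallyEq_nhdsNE_of_codiscreteWithin hV hpow hx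
  filter_upwards [h1, h2] with y hy1 hy2
  simp only [Pi.pow_apply] at hy2 ⊢
  rw [hy1, hy2]

/-- The order of a root is finite if the order of the function is finite. -/
lemma IsNFRootOn.order_ne_top {h f : ℂ → ℂ} {V : Set ℂ} {p : ℕ} (hp : p ≠ 0)
    (hh : IsNFRootOn h f V p) {x : ℂ} (hx : x ∈ V) (hf : meromorphicOrderAt f x ≠ ⊤) :
    meromorphicOrderAt h x ≠ ⊤ := by
  intro htop
  apply hf
  rw [← meromorphicOrderAt_congr (hh.2 x hx), meromorphicOrderAt_pow (hh.1 hx).meromorphicAt,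
    htop]
  exact WithTop.mul_top (by exact_mod_cast hp)

/-- A root of a function of finite order does not vanish on a punctured neighbourhood. -/
lemma IsNFRootOn.eventually_ne_zero {h f : ℂ → ℂ} {V : Set ℂ} {p : ℕ} (hp : p ≠ 0)
    (hh : IsNFRootOn h f V p) {x : ℂ} (hx : x ∈ V) (hf : meromorphicOrderAt f x ≠ ⊤) :
    ∀ᶠ y in 𝓝[≠] x, h y ≠ 0 :=
  (meromorphicOrderAt_ne_top_iff_eventually_ne_zero (hh.1 hx).meromorphicAt).1
    (hh.order_ne_top hp hx hf)

/-- A function in normal form whose `p`-th power is `1` on a punctured neighbourhood of `x` is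
analytic at `x` and its `p`-th power is `1` at `x`. -/
lemma analyticAt_of_nf_pow_eq_one {q : ℂ → ℂ} {x : ℂ} {p : ℕ} (hp : p ≠ 0)
    (hq : MeromorphicNFAt q x) (hpow : (q ^ p) =ᶠ[𝓝[≠] x] (fun _ => (1 : ℂ))) :
    AnalyticAt ℂ q x ∧ q x ^ p = 1 := by
  have h1 : meromorphicOrderAt (q ^ p) x = 0 := by
    rw [meromorphicOrderAt_congr hpow]
    have : AnalyticAt ℂ (fun _ : ℂ => (1 : ℂ)) x := analyticAt_const
    rw [this.meromorphicOrderAt_eq]
    simp [analyticOrderAt_eq_zero]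
  rw [meromorphicOrderAt_pow hq.meromorphicAt] at h1
  have h2 : meromorphicOrderAt q x = 0 := by
    have hne : meromorphicOrderAt q x ≠ ⊤ := by
      intro h3
      rw [h3, WithTop.mul_top (by exact_mod_cast hp)] at h1
      exact absurd h1 (by simp)
    obtain ⟨n, hn⟩ := WithTop.ne_top_iff_exists.1 hne
    rw [← hn] at h1 ⊢
    have h4 : (((p : ℤ) * n : ℤ) : WithTop ℤ) = 0 := by
      rw [← h1]
      push_cast
      rfl
    have h5 : (p : ℤ) * n = 0 := by exact_mod_cast h4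
    have h6 : n = 0 := by
      rcases mul_eq_zero.1 h5 with h | h
      · exact absurd (by exact_mod_cast h) hp
      · exact h
    rw [h6]
    rfl
  have hA : AnalyticAt ℂ q x := hq.meromorphicOrderAt_nonneg_iff_analyticAt.1 (le_of_eq h2.symm)
  refine ⟨hA, ?_⟩
  have hc : ContinuousAt (q ^ p) x := (hA.pow p).continuousAt
  have hc1 : ContinuousAt (fun _ : ℂ => (1 : ℂ)) x := continuousAt_const
  have := (hc.eventuallyEq_nhds_iff_eventuallyEq_nhdsNE hc1).1 hpow
  exact this.self_of_nhds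

/-- **Uniqueness.** Two roots in normal form of the same function (of finite order everywhere)
on a preconnected open set differ by a `p`-th root of unity. -/
theorem IsNFRootOn.exists_eq_mul {h₁ h₂ f : ℂ → ℂ} {V : Set ℂ} {p : ℕ} (hp : p ≠ 0)
    (hV : IsOpen V) (hVc : IsPreconnected V) (hf : ∀ x ∈ V, meromorphicOrderAt f x ≠ ⊤)
    (hh₁ : IsNFRootOn h₁ f V p) (hh₂ : IsNFRootOn h₂ f V p) :
    ∃ ζ : ℂ, ζ ^ p = 1 ∧ ∀ x ∈ V, h₂ x = ζ * h₁ x := by
  have hm₁ : MeromorphicOn h₁ V := hh₁.1.meromorphicOn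
  have hm₂ : MeromorphicOn h₂ V := hh₂.1.meromorphicOn
  have hmq : MeromorphicOn (h₂ / h₁) V := hm₂.div hm₁
  set q := toMeromorphicNFOn (h₂ / h₁) V with hq
  have hqNF : MeromorphicNFOn q V := meromorphicNFOn_toMeromorphicNFOn _ _
  -- `q = h₂ / h₁` on punctured neighbourhoods
  have hq1 : ∀ x ∈ V, q =ᶠ[𝓝[≠] x] (h₂ / h₁) := fun x hx =>
    hmq.toMeromorphicNFOn_eq_self_on_nhdsNE hx
  -- `q ^ p = 1` on punctured neighbourhoods
  have hq2 : ∀ x ∈ V, (q ^ p) =ᶠ[𝓝[≠] x] (fun _ => (1 : ℂ)) := by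
    intro x hx
    filter_upwards [hq1 x hx, hh₁.2 x hx, hh₂.2 x hx, hh₁.eventually_ne_zero hp hx (hf x hx)]
      with y hy1 hy2 hy3 hy4
    simp only [Pi.pow_apply, Pi.div_apply] at hy1 hy2 hy3 ⊢
    rw [hy1, div_pow, hy2, hy3, div_self]
    rw [← hy2]
    exact pow_ne_zero p hy4
  have hq3 : ∀ x ∈ V, AnalyticAt ℂ q x ∧ q x ^ p = 1 := fun x hx =>
    analyticAt_of_nf_pow_eq_one hp (hqNF hx) (hq2 x hx)
  -- `q` is constant
  have hqc : ContinuousOn q V := fun x hx => (hq3 x hx).1.continuousAt.continuousWithinAt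
  have hT : IsDiscrete {t : ℂ | t ^ p = 1} := by
    have hfin : {t : ℂ | t ^ p = 1}.Finite := by
      refine Set.Finite.subset (Polynomial.nthRootsFinset p (1 : ℂ)).finite_toSet ?_
      intro t ht
      simp only [Finset.mem_coe]
      exact (Polynomial.mem_nthRootsFinset (Nat.pos_of_ne_zero hp) _).2 ht
    exact hfin.isDiscrete
  obtain ⟨ζ, hζ, hqζ⟩ := hVc.eqOn_const_of_mapsTo hT hqc (fun x hx => (hq3 x hx).2)
    ⟨1, by simp⟩
  have hζ0 : ζ ≠ 0 := by
    intro h0
    have hζ' : ζ ^ p = 1 := hζ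
    rw [h0, zero_pow hp] at hζ'
    exact zero_ne_one hζ'
  refine ⟨ζ, hζ, fun x hx => ?_⟩
  -- both sides are in normal form at `x` and agree on a punctured neighbourhood
  have hNF2 : MeromorphicNFAt h₂ x := hh₂.1 hx
  have hNF1 : MeromorphicNFAt ((fun _ : ℂ => ζ) • h₁) x :=
    (hh₁.1 hx).smul_analytic analyticAt_const hζ0
  have hVn : V ∈ 𝓝[≠] x := mem_nhdsWithin_of_mem_nhds (hV.mem_nhds hx)
  have heq : h₂ =ᶠ[𝓝[≠] x] ((fun _ : ℂ => ζ) • h₁) := by
    filter_upwards [hq1 x hx, hh₁.eventually_ne_zero hp hx (hf x hx), hVn] with y hy1 hy2 hyV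
    have h3 : q y = ζ := hqζ hyV
    simp only [Pi.div_apply] at hy1
    simp only [Pi.smul_apply', smul_eq_mul]
    rw [← h3, hy1, div_mul_cancel₀ _ hy2]
  have := (hNF2.eventuallyEq_nhdsNE_iff_eventuallyEq_nhds hNF1).1 heq
  simpa using this.self_of_nhds

end Fermat.Agent.S29.H942

end
end
-- ===== PACK-END S29/H942/MeroRootUnique.lean

-- ===== PACK-BEGIN S20/Comb/Fixed.lean
section


/-!
# Fixed points of `S` and `S * T` on `SL(2,ℤ) ⧸ Gamma0 N`

* `card_fixedBy_S : Nat.card (MulAction.fixedBy (SL(2,ℤ) ⧸ Gamma0 N) S) = nuTwo N`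
* `card_fixedBy_ST : Nat.card (MulAction.fixedBy (SL(2,ℤ) ⧸ Gamma0 N) (S * T)) = nuThree N`
-/

set_option autoImplicit false

namespace Fermat.Agent.S20.Comb

open Matrix MatrixGroups CongruenceSubgroup

variable (N : ℕ)

/-- From a root of `x² + 1` in `ZMod N` to a fixed point of `S`. -/
noncomputable def rootToFixedS (x : {x : ZMod N // x ^ 2 + 1 = 0}) :
    MulAction.fixedBy (SL(2, ℤ) ⧸ Gamma0 N) ModularGroup.S :=
  ⟨QuotientGroup.mk (colRep (ZMod.cast x.1 : ℤ)), by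
    rw [MulAction.mem_fixedBy, S_smul_mk_eq_mk_iff]
    simp only [colRep_apply_zero_zero, colRep_apply_one_zero, ZMod.intCast_zmod_cast,
      Int.cast_one, one_pow]
    exact x.2⟩

lemma rootToFixedS_bijective : Function.Bijective (rootToFixedS N) := by
  constructor
  · rintro ⟨x, hx⟩ ⟨y, hy⟩ h
    have h' := congrArg Subtype.val h
    simp only [rootToFixedS] at h'
    rw [mk_eq_mk_iff] at h'
    simp only [colRep_apply_zero_zero, colRep_apply_one_zero, ZMod.intCast_zmod_cast,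
      Int.cast_one, mul_one, one_mul] at h'
    exact Subtype.ext (sub_eq_zero.mp h')
  · rintro ⟨q, hq⟩
    obtain ⟨g, rfl⟩ := QuotientGroup.mk_surjective q
    rw [MulAction.mem_fixedBy, S_smul_mk_eq_mk_iff] at hq
    have hinv := c_mul_inv_eq_one N g (-((g 1 0 : ℤ) : ZMod N)) (by linear_combination hq)
    set a : ZMod N := ((g 0 0 : ℤ) : ZMod N) with ha
    set c : ZMod N := ((g 1 0 : ℤ) : ZMod N) with hc
    set i : ZMod N := (-c * ((g 1 1 : ℤ) : ZMod N) ^ 2
        - 2 * a * ((g 0 1 : ℤ) : ZMod N) * ((g 1 1 : ℤ) : ZMod N)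
        + ((g 0 1 : ℤ) : ZMod N) ^ 2 * c) with hi
    refine ⟨⟨a * i, ?_⟩, ?_⟩
    · linear_combination (i ^ 2) * hq - (c * i + 1) * hinv
    · apply Subtype.ext
      simp only [rootToFixedS]
      rw [mk_eq_mk_iff]
      simp only [colRep_apply_zero_zero, colRep_apply_one_zero, ZMod.intCast_zmod_cast,
        Int.cast_one, one_mul]
      linear_combination a * hinv

/-- **(I2)** The number of fixed points of `S` on `SL(2,ℤ) ⧸ Γ₀(N)` is `ν₂(N)`. -/
theorem card_fixedBy_S :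
    Nat.card (MulAction.fixedBy (SL(2, ℤ) ⧸ Gamma0 N) ModularGroup.S) = ModularCurve.nuTwo N := by
  rw [ModularCurve.nuTwo]
  exact (Nat.card_eq_of_bijective _ (rootToFixedS_bijective N)).symm

/-- From a root of `x² + x + 1` in `ZMod N` to a fixed point of `S * T`. -/
noncomputable def rootToFixedST (x : {x : ZMod N // x ^ 2 + x + 1 = 0}) :
    MulAction.fixedBy (SL(2, ℤ) ⧸ Gamma0 N) (ModularGroup.S * ModularGroup.T) :=
  ⟨QuotientGroup.mk (colRep (ZMod.cast x.1 : ℤ)), by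
    rw [MulAction.mem_fixedBy, ST_smul_mk_eq_mk_iff]
    simp only [colRep_apply_zero_zero, colRep_apply_one_zero, ZMod.intCast_zmod_cast,
      Int.cast_one, one_pow, mul_one]
    exact x.2⟩

lemma rootToFixedST_bijective : Function.Bijective (rootToFixedST N) := by
  constructor
  · rintro ⟨x, hx⟩ ⟨y, hy⟩ h
    have h' := congrArg Subtype.val h
    simp only [rootToFixedST] at h'
    rw [mk_eq_mk_iff] at h'
    simp only [colRep_apply_zero_zero, colRep_apply_one_zero, ZMod.intCast_zmod_cast,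
      Int.cast_one, mul_one, one_mul] at h'
    exact Subtype.ext (sub_eq_zero.mp h')
  · rintro ⟨q, hq⟩
    obtain ⟨g, rfl⟩ := QuotientGroup.mk_surjective q
    rw [MulAction.mem_fixedBy, ST_smul_mk_eq_mk_iff] at hq
    have hinv := c_mul_inv_eq_one N g (-((g 0 0 : ℤ) : ZMod N) - ((g 1 0 : ℤ) : ZMod N))
      (by linear_combination hq)
    set a : ZMod N := ((g 0 0 : ℤ) : ZMod N) with ha
    set c : ZMod N := ((g 1 0 : ℤ) : ZMod N) with hc
    set i : ZMod N := ((-a - c) * ((g 1 1 : ℤ) : ZMod N) ^ 2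
        - 2 * a * ((g 0 1 : ℤ) : ZMod N) * ((g 1 1 : ℤ) : ZMod N)
        + ((g 0 1 : ℤ) : ZMod N) ^ 2 * c) with hi
    refine ⟨⟨a * i, ?_⟩, ?_⟩
    · linear_combination (i ^ 2) * hq - (c * i + 1 + a * i) * hinv
    · apply Subtype.ext
      simp only [rootToFixedST]
      rw [mk_eq_mk_iff]
      simp only [colRep_apply_zero_zero, colRep_apply_one_zero, ZMod.intCast_zmod_cast,
        Int.cast_one, one_mul]
      linear_combination a * hinv

/-- **(I3)** The number of fixed points of `S * T` on `SL(2,ℤ) ⧸ Γ₀(N)` is `ν₃(N)`. -/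
theorem card_fixedBy_ST :
    Nat.card (MulAction.fixedBy (SL(2, ℤ) ⧸ Gamma0 N) (ModularGroup.S * ModularGroup.T))
      = ModularCurve.nuThree N := by
  rw [ModularCurve.nuThree]
  exact (Nat.card_eq_of_bijective _ (rootToFixedST_bijective N)).symm

end Fermat.Agent.S20.Comb

end
-- ===== PACK-END S20/Comb/Fixed.lean

-- ===== PACK-BEGIN S18/B12/Spec2.lean
section



/-!
# S18, Route K, b2: assembly pieces (squad S18/S33, squad-lead helper33) — FROZEN statements

Abstract setting for the assembly of `B2Statement` (see `coord/S18-b1b2.md`, section "Assembly"):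
`P` = a noetherian UFD (later `R[X]`), `w ∈ P` a prime (later `C w`) with `P/(w)` a PID (later `k'[X]`)
and `P[1/w]` a PID containing `ℚ` (later `E[X]`); `B` = integrally closed domain, finite and
torsion-free over `P`.  Special fibre `B/wB := B ⧸ (span {w}).map (algebraMap P B)` as an algebra over
`P ⧸ span {w}` (Mathlib instance `Ideal.Quotient.algebraQuotientMapQuotient`).
-/

set_option autoImplicit false

noncomputable section

namespace Fermat.Agent.S18.B12

open Polynomial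

universe u v

/-- Gram determinant of the integral trace form of an `n`-tuple of `B`. -/
def intDiscr (P : Type u) (B : Type v) [CommRing P] [IsDomain P] [IsIntegrallyClosed P]
    [CommRing B] [IsDomain B] [IsIntegrallyClosed B] [Algebra P B] [Module.Finite P B]
    [Module.IsTorsionFree P B] {n : ℕ} (x : Fin n → B) : P :=
  (Matrix.of fun i j => Algebra.intTrace P B (x i * x j)).det

/-- `x` is a basis of `B` over `P` locally at the ideal `𝔪`: linearly independent, and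
`g • B ⊆ span x` for some `g ∉ 𝔪`. -/
def IsLocalBasis (P : Type u) (B : Type v) [CommRing P] [CommRing B] [Algebra P B]
    (𝔪 : Ideal P) (n : ℕ) (x : Fin n → B) : Prop :=
  LinearIndependent P x ∧ ∃ g : P, g ∉ 𝔪 ∧ ∀ b : B, g • b ∈ Submodule.span P (Set.range x)

/-- **A0 (abstract regular sequence).**  `w` prime in `P`, `w ∤ u`: if `u * b = w * b'` in the
normal `B` then `b = w * b''`, `b' = u * b''`.  (Implies both statements of P1.) -/
def RegSeqAbsStatement : Prop :=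
  ∀ (P : Type u) [CommRing P] [IsDomain P] [IsIntegrallyClosed P]
    (B : Type v) [CommRing B] [IsDomain B] [IsIntegrallyClosed B] [Algebra P B]
    [Algebra.IsIntegral P B] [Module.IsTorsionFree P B]
    (u w : P) (_ : Prime w) (_ : ¬ w ∣ u) (b b' : B),
    algebraMap P B u * b = algebraMap P B w * b' →
    ∃ b'' : B, b = algebraMap P B w * b'' ∧ b' = algebraMap P B u * b''

/-- **A2 (local basis).**  `P` noetherian domain, `𝔪 = (w, p)` maximal, `(p, w)` regular on `B`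
(hypothesis `hreg`).  Then `B` has a basis locally at `𝔪`. -/
def LocalBasisStatement : Prop :=
  ∀ (P : Type u) [CommRing P] [IsDomain P] [IsNoetherianRing P]
    (B : Type v) [CommRing B] [Algebra P B] [Module.Finite P B] [Module.IsTorsionFree P B]
    (w p : P) (_ : (Ideal.span {w, p}).IsMaximal)
    (_ : ∀ b b' : B, algebraMap P B p * b = algebraMap P B w * b' →
      ∃ b'' : B, b = algebraMap P B w * b'' ∧ b' = algebraMap P B p * b''),
    ∃ (n : ℕ) (x : Fin n → B), IsLocalBasis P B (Ideal.span {w, p}) n x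

/-- **A2' (rank).**  A local basis has `n = Module.finrank P B` elements, and the Gram determinant
of any other `n`-tuple `x'` satisfies `g² · intDiscr x' = u² · intDiscr x` with `g ∉ 𝔪`. -/
def LocalBasisRankStatement : Prop :=
  ∀ (P : Type u) [CommRing P] [IsDomain P] [IsIntegrallyClosed P]
    (B : Type v) [CommRing B] [IsDomain B] [IsIntegrallyClosed B] [Algebra P B]
    [Module.Finite P B] [Module.IsTorsionFree P B]
    (𝔪 : Ideal P) [𝔪.IsPrime] (n : ℕ) (x : Fin n → B), IsLocalBasis P B 𝔪 n x →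
    n = Module.finrank P B ∧
    ∀ x' : Fin n → B, ∃ g u : P, g ∉ 𝔪 ∧ g ^ 2 * intDiscr P B x' = u ^ 2 * intDiscr P B x

/-- **A3 (discriminant reduction mod `w`).**  `w` prime with `P/(w)` a PID, `x` a local basis at a
prime `𝔪 ∋ w`, `bb` a basis of `B/wB` over `P/(w)`.  Then `bb` has `n` elements and
`intDiscr x mod w = ū² · disc(bb)` with `u ∉ 𝔪`. -/
def DiscrRedStatement : Prop :=
  ∀ (P : Type u) [CommRing P] [IsDomain P] [IsIntegrallyClosed P]
    (B : Type v) [CommRing B] [IsDomain B] [IsIntegrallyClosed B] [Algebra P B]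
    [Module.Finite P B] [Module.IsTorsionFree P B]
    (w : P) (_ : Prime w) (𝔪 : Ideal P) [𝔪.IsPrime] (_ : w ∈ 𝔪)
    (n : ℕ) (x : Fin n → B) (_ : IsLocalBasis P B 𝔪 n x)
    (n' : ℕ) (bb : Module.Basis (Fin n') (P ⧸ Ideal.span {w})
      (B ⧸ (Ideal.span {w}).map (algebraMap P B))),
    n' = n ∧ ∃ u : P, u ∉ 𝔪 ∧
      Ideal.Quotient.mk (Ideal.span {w}) (intDiscr P B x) =
        Ideal.Quotient.mk (Ideal.span {w}) u ^ 2 * Algebra.discr (P ⧸ Ideal.span {w}) bb

/-- **A4 (UFD step).**  If every prime factor of `D ≠ 0` lying in the prime ideal `𝔪` is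
associated to `p`, then `D = p ^ a * D₁` with `D₁ ∉ 𝔪`. -/
def UFDStepStatement : Prop :=
  ∀ (P : Type u) [CommRing P] [IsDomain P] [UniqueFactorizationMonoid P]
    (𝔪 : Ideal P) [𝔪.IsPrime] (p : P) (_ : Prime p) (D : P) (_ : D ≠ 0)
    (_ : ∀ π : P, Prime π → π ∣ D → π ∈ 𝔪 → Associated π p),
    ∃ (a : ℕ) (D₁ : P), D = p ^ a * D₁ ∧ D₁ ∉ 𝔪

/-- **A5 (generic fibre).**  `P[1/w]` a PID in which every positive integer is invertible.
`π ≠ w` a prime of `P`, `x` a local basis at `(π)`, `y` a family of `r` elements of `B` that is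
independent modulo `rad(πB)`.  Then `π ^ (n - r + 1) ∤ intDiscr x`.
(Apply `TameDiscrStatement` to `Λ = P[1/w]`, `C₀ = B[1/w]`, which is a Dedekind domain.) -/
def GenericDiscrStatement : Prop :=
  ∀ (P : Type u) [CommRing P] [IsDomain P] [UniqueFactorizationMonoid P] [IsNoetherianRing P]
    (w : P) (_ : Prime w) (_ : IsPrincipalIdealRing (Localization.Away w))
    (_ : ∀ m : ℕ, m ≠ 0 → IsUnit (algebraMap P (Localization.Away w) (m : P)))
    (B : Type v) [CommRing B] [IsDomain B] [IsIntegrallyClosed B] [Algebra P B]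
    [Module.Finite P B] [Module.IsTorsionFree P B]
    (π : P) (_ : Prime π) (_ : ¬ Associated π w)
    (n : ℕ) (x : Fin n → B) (_ : IsLocalBasis P B (Ideal.span {π}) n x)
    (r : ℕ) (y : Fin r → B)
    (_ : ∀ a : Fin r → P,
      (∑ i, a i • y i) ∈ (Ideal.span {algebraMap P B π}).radical → ∀ i, π ∣ a i),
    ¬ π ^ (n - r + 1) ∣ intDiscr P B x

/-- **A5' (reduced basis at a prime `s` with `P/(s)` a PID).**  There is a family `y` of elements
of `B` which is independent modulo `rad(sB)` and spans `B` modulo `rad(sB)`. -/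
def RedBasisAbsStatement : Prop :=
  ∀ (P : Type u) [CommRing P] [IsDomain P] [IsIntegrallyClosed P]
    (B : Type v) [CommRing B] [IsDomain B] [IsIntegrallyClosed B] [Algebra P B]
    [Module.Finite P B] [Module.IsTorsionFree P B]
    (s : P) (_ : Prime s) (_ : IsPrincipalIdealRing (P ⧸ Ideal.span {s})),
    ∃ (r : ℕ) (y : Fin r → B),
      (∀ a : Fin r → P,
        (∑ i, a i • y i) ∈ (Ideal.span {algebraMap P B s}).radical → ∀ i, s ∣ a i) ∧
      (∀ b : B, ∃ a : Fin r → P,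
        b - ∑ i, a i • y i ∈ (Ideal.span {algebraMap P B s}).radical)

/-- **P2'' (special fibre, internal idempotent form).**  `Λ` a PID, `t` prime, `C` a commutative
`Λ`-algebra with basis `b`; `(C/tC)_red` spanned by `s` elements; `disc b ≠ 0`,
`t ^ (n - s + 1) ∤ disc b`.  If `e * e = g • e` with `g ≠ 0` (so `e/g` is an idempotent of
`Frac C`), then `h • e = g • c` for some `h ∉ (t)`, `c ∈ C`. -/
def SFIdemIntStatement : Prop :=
  ∀ (Λ : Type u) [CommRing Λ] [IsDomain Λ] [IsPrincipalIdealRing Λ] (t : Λ) (_ : Prime t)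
    (C : Type v) [CommRing C] [Algebra Λ C] (n : ℕ) (b : Module.Basis (Fin n) Λ C)
    (s : ℕ) (y : Fin s → C)
    (_ : ∀ x : C, ∃ a : Fin s → Λ,
        x - ∑ i, a i • y i ∈ (Ideal.span {algebraMap Λ C t}).radical),
    Algebra.discr Λ b ≠ 0 → ¬ t ^ (n - s + 1) ∣ Algebra.discr Λ b →
    ∀ (e : C) (g : Λ), g ≠ 0 → e * e = g • e → ∃ (h : Λ) (c : C), ¬ t ∣ h ∧ h • e = g • c

/-- **A6 (special fibre at the closed point `𝔪 = (w, p)`).**  `x` local basis at `𝔪`,
`intDiscr x = p ^ a * D₁` with `D₁ ∉ 𝔪`, `y` spans `B` modulo `rad(𝔪B)` with `a ≤ n - r`.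
Then every idempotent `e/g` of `Frac(B/wB)` is regular at `𝔪`: `h e ≡ g c mod wB`, `h ∉ 𝔪`. -/
def SpecialFibreStatement : Prop :=
  ∀ (P : Type u) [CommRing P] [IsDomain P] [UniqueFactorizationMonoid P] [IsNoetherianRing P]
    (w : P) (_ : Prime w) (_ : IsPrincipalIdealRing (P ⧸ Ideal.span {w}))
    (B : Type v) [CommRing B] [IsDomain B] [IsIntegrallyClosed B] [Algebra P B]
    [Module.Finite P B] [Module.IsTorsionFree P B]
    (p : P) (_ : (Ideal.span {w, p}).IsMaximal) (_ : ¬ w ∣ p)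
    (n : ℕ) (x : Fin n → B) (_ : IsLocalBasis P B (Ideal.span {w, p}) n x)
    (a : ℕ) (D₁ : P) (_ : intDiscr P B x = p ^ a * D₁) (_ : D₁ ∉ Ideal.span {w, p})
    (r : ℕ) (y : Fin r → B)
    (_ : ∀ b : B, ∃ c : Fin r → P, b - ∑ i, c i • y i ∈
      (Ideal.span {algebraMap P B w, algebraMap P B p}).radical)
    (_ : a ≤ n - r)
    (e : B) (g : P), ¬ w ∣ g →
      e ^ 2 - algebraMap P B g * e ∈ Ideal.span {algebraMap P B w} →
      ∃ (h : P) (c : B), h ∉ Ideal.span {w, p} ∧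
        algebraMap P B h * e - algebraMap P B g * c ∈ Ideal.span {algebraMap P B w}

/-- **A7 (abstract b2).**  `S` = finite set of branch primes. -/
def B2AbsStatement : Prop :=
  ∀ (P : Type u) [CommRing P] [IsDomain P] [UniqueFactorizationMonoid P] [IsNoetherianRing P]
    (w : P) (_ : Prime w) (_ : IsPrincipalIdealRing (P ⧸ Ideal.span {w}))
    (_ : IsPrincipalIdealRing (Localization.Away w))
    (_ : ∀ m : ℕ, m ≠ 0 → IsUnit (algebraMap P (Localization.Away w) (m : P)))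
    (B : Type v) [CommRing B] [IsDomain B] [IsIntegrallyClosed B] [Algebra P B]
    [Module.Finite P B] [Module.IsTorsionFree P B]
    (_ : ∃ x : Fin (Module.finrank P B) → B, ¬ w ∣ intDiscr P B x)
    (S : Finset P)
    (_ : ∀ s ∈ S, Prime s ∧ ¬ Associated s w ∧ (Ideal.span {w, s}).IsMaximal ∧
      IsPrincipalIdealRing (P ⧸ Ideal.span {s}))
    (_ : ∀ s ∈ S, ∀ s' ∈ S, s ≠ s' → s' ∉ Ideal.span {w, s})
    (_ : ∀ π : P, Prime π → ¬ Associated π w → (∀ s ∈ S, ¬ Associated π s) →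
        (Ideal.span {algebraMap P B π}).IsRadical)
    (e : B) (g : P), ¬ w ∣ g →
      e ^ 2 - algebraMap P B g * e ∈ Ideal.span {algebraMap P B w} →
      ∃ c : B, e - algebraMap P B g * c ∈ Ideal.span {algebraMap P B w}

/-- **A1 (instantiation `P = R[X]`).**  The ring-theoretic facts about `R[X]` needed to deduce
`B2Statement` from `B2AbsStatement`. -/
def PolyInstStatement : Prop :=
  ∀ (R : Type u) [CommRing R] [IsDomain R] [IsDiscreteValuationRing R] [CharZero R]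
    (w : R) (_ : Irreducible w),
    Prime (C w : R[X]) ∧
    IsPrincipalIdealRing (R[X] ⧸ Ideal.span {(C w : R[X])}) ∧
    IsPrincipalIdealRing (Localization.Away (C w : R[X])) ∧
    (∀ m : ℕ, m ≠ 0 → IsUnit (algebraMap R[X] (Localization.Away (C w : R[X])) (m : R[X]))) ∧
    ∀ c : R, Prime (X - C c : R[X]) ∧ ¬ Associated (X - C c : R[X]) (C w) ∧
      (Ideal.span {(C w : R[X]), X - C c}).IsMaximal ∧
      IsPrincipalIdealRing (R[X] ⧸ Ideal.span {(X - C c : R[X])}) ∧
      ∀ c' : R, X - C c' ∈ Ideal.span {(C w : R[X]), X - C c} → ¬ IsUnit (c - c')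

end Fermat.Agent.S18.B12

end
end
-- ===== PACK-END S18/B12/Spec2.lean

-- ===== PACK-BEGIN S18/H203/TorsionFree.lean
section


/-!
# S18 / b1 (helper203): `B / w B` is torsion-free over `S / w S`

`S` an integrally closed domain, `w ∈ S` prime, `F / Frac S` a field extension, `B` the integral
closure of `S` in `F`.

* `dvd_of_dvd_smul` : `w ∣ t • b` in `B`, `w ∤ t` in `S`  ⟹  `w ∣ b` in `B`.
* `dvd_of_dvd_mul` : the same with `algebraMap S B t * b`.
* `not_dvd_of_not_dvd` : if `w ∤ b` in `B` and `w ∤ t` in `S` then `w ∤ t • b`.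
-/

set_option autoImplicit false

namespace Fermat.Agent.S18.H203

section

variable {S B : Type*} [CommRing S] [IsDomain S] [IsIntegrallyClosed S]
  [CommRing B] [Algebra S B]

/-- **b1, regular sequence.** In the integral closure `B` of `S`: if the prime element `w`
divides `t • b` and `w ∤ t` in `S`, then `w ∣ b` in `B`. -/
theorem dvd_of_dvd_smul (K F : Type*) [Field K] [Algebra S K] [IsFractionRing S K]
    [Field F] [Algebra K F] [Algebra S F] [IsScalarTower S K F]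
    [Algebra B F] [IsScalarTower S B F] [IsIntegralClosure B S F]
    {w t : S} (hw : Prime w) (ht : ¬ w ∣ t) {b : B}
    (h : algebraMap S B w ∣ t • b) : algebraMap S B w ∣ b := by
  obtain ⟨y, hy⟩ := h
  have hinjK : Function.Injective (algebraMap S K) := IsFractionRing.injective S K
  have hw0 : algebraMap S K w ≠ 0 := by
    simpa using (map_ne_zero_iff _ hinjK).mpr hw.ne_zero
  have hwF : algebraMap S F w ≠ 0 := by
    rw [IsScalarTower.algebraMap_apply S K F]
    simpa using (map_ne_zero_iff _ (algebraMap K F).injective).mpr hw0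
  set z : F := (algebraMap S F w)⁻¹ * algebraMap B F b with hz
  have h1 : algebraMap S F w * z = algebraMap B F b := by
    rw [hz, mul_inv_cancel_left₀ hwF]
  have h2 : algebraMap S F t * z = algebraMap B F y := by
    have e1 : algebraMap B F (t • b) = algebraMap S F t * algebraMap B F b := by
      rw [Algebra.smul_def, map_mul, ← IsScalarTower.algebraMap_apply]
    have e2 : algebraMap B F (t • b) = algebraMap S F w * algebraMap B F y := by
      rw [hy, map_mul, ← IsScalarTower.algebraMap_apply]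
    rw [hz]
    calc algebraMap S F t * ((algebraMap S F w)⁻¹ * algebraMap B F b)
        = (algebraMap S F w)⁻¹ * (algebraMap S F t * algebraMap B F b) := by ring
      _ = (algebraMap S F w)⁻¹ * (algebraMap S F w * algebraMap B F y) := by rw [← e1, e2]
      _ = algebraMap B F y := inv_mul_cancel_left₀ hwF _
  have hi1 : IsIntegral S (algebraMap S F w * z) := by
    rw [h1]; exact (IsIntegralClosure.isIntegral S F b).algebraMap
  have hi2 : IsIntegral S (algebraMap S F t * z) := by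
    rw [h2]; exact (IsIntegralClosure.isIntegral S F y).algebraMap
  have hzi : IsIntegral S z := isIntegral_of_isIntegral_mul K hw ht hi1 hi2
  obtain ⟨b', hb'⟩ := (IsIntegralClosure.isIntegral_iff (A := B)).mp hzi
  refine ⟨b', ?_⟩
  apply IsIntegralClosure.algebraMap_injective B S F
  rw [map_mul, hb', ← IsScalarTower.algebraMap_apply, h1]

/-- Multiplicative form of `dvd_of_dvd_smul`. -/
theorem dvd_of_dvd_mul (K F : Type*) [Field K] [Algebra S K] [IsFractionRing S K]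
    [Field F] [Algebra K F] [Algebra S F] [IsScalarTower S K F]
    [Algebra B F] [IsScalarTower S B F] [IsIntegralClosure B S F]
    {w t : S} (hw : Prime w) (ht : ¬ w ∣ t) {b : B}
    (h : algebraMap S B w ∣ algebraMap S B t * b) : algebraMap S B w ∣ b := by
  rw [← Algebra.smul_def] at h
  exact dvd_of_dvd_smul K F hw ht h

end

end Fermat.Agent.S18.H203

end
-- ===== PACK-END S18/H203/TorsionFree.lean

-- ===== PACK-BEGIN S18/H425/Hsep.lean
section




/-!
# S18 / b2.5 HSEP (helper425): the hypothesis `hsep` of `B2RegularStatement` / `B2Statement`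
from elementwise separability of the special fibre

EXACT STATEMENTS (Mathlib-only):

* `hsep_gen` : `Λ` noetherian integrally closed domain, `w ∈ Λ` prime, `B` integrally closed
  domain, finite and torsion-free over `Λ`, `w` prime in `B`, and
  `∀ b : B, ∃ P : Λ[X], w ∣ P(b) ∧ ¬ w ∣ P'(b)`.  Then
  `∃ x : Fin (finrank Λ B) → B, ¬ w ∣ det (intTrace Λ B (x i * x j))`.
* `hsep_poly` : the case `Λ = R[X]`, `w = C w₀`, `R` a DVR — the hypothesis `hsep` of
  `Fermat.Agent.S18.B12.B2RegularStatement` (origin/helper33 Spec3.lean), verbatim.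
-/

set_option autoImplicit false

noncomputable section

namespace Fermat.Agent.S18.H425

open Polynomial IsLocalRing

universe u v

/-- Compatibility of `aeval` with a commutative square of ring homomorphisms. -/
theorem aeval_map_of_comp_eq {Λ B K F : Type*} [CommRing Λ] [CommRing B] [Algebra Λ B]
    [CommRing K] [CommRing F] [Algebra K F] (g : Λ →+* K) (φ : B →+* F)
    (h : (algebraMap K F).comp g = φ.comp (algebraMap Λ B)) (Q : Λ[X]) (c : B) :
    aeval (φ c) (Q.map g) = φ (aeval c Q) := by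
  rw [aeval_def, eval₂_map, h, aeval_def, hom_eval₂]

theorem hsep_gen (Λ : Type u) [CommRing Λ] [IsDomain Λ] [IsIntegrallyClosed Λ]
    [IsNoetherianRing Λ] (w : Λ) (hw : Prime w)
    (B : Type v) [CommRing B] [IsDomain B] [IsIntegrallyClosed B] [Algebra Λ B]
    [Module.Finite Λ B] [Module.IsTorsionFree Λ B]
    (hwB : Prime (algebraMap Λ B w))
    (hel : ∀ b : B, ∃ P : Λ[X], algebraMap Λ B w ∣ aeval b P ∧
          ¬ algebraMap Λ B w ∣ aeval b (derivative P)) :
    ∃ x : Fin (Module.finrank Λ B) → B,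
        ¬ w ∣ (Matrix.of fun i j => Algebra.intTrace Λ B (x i * x j)).det := by
  classical
  -- the prime `𝔭 = (w)` of `Λ` and the prime `P = (w)` of `B`
  let 𝔭 : Ideal Λ := Ideal.span {w}
  have h𝔭 : 𝔭.IsPrime := (Ideal.span_singleton_prime hw.ne_zero).mpr hw
  let P : Ideal B := Ideal.span {algebraMap Λ B w}
  have hP : P.IsPrime := (Ideal.span_singleton_prime hwB.ne_zero).mpr hwB
  have hPover : P.LiesOver 𝔭 := by
    constructor
    ext s
    rw [Ideal.under_def, Ideal.mem_comap, Ideal.mem_span_singleton, Ideal.mem_span_singleton]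
    exact ⟨fun h => map_dvd (algebraMap Λ B) h, fun h => dvd_of_algebraMap_dvd hw.ne_zero h⟩
  have hP𝔭 : 𝔭.map (algebraMap Λ B) = P := by
    rw [Ideal.map_span, Set.image_singleton]
  -- localisations
  let Λₚ := Localization.AtPrime 𝔭
  let Bₚ := Localization (Algebra.algebraMapSubmonoid B 𝔭.primeCompl)
  let _ : Algebra Λₚ Bₚ := localizationAlgebra 𝔭.primeCompl B
  have : IsScalarTower Λ Λₚ Bₚ := IsScalarTower.of_algebraMap_eq'
    (by rw [RingHom.algebraMap_toAlgebra, IsLocalization.map_comp, ← IsScalarTower.algebraMap_eq])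
  have : IsLocalization (Submonoid.map (algebraMap Λ B) (Ideal.primeCompl 𝔭)) Bₚ :=
    inferInstanceAs (IsLocalization (Algebra.algebraMapSubmonoid B 𝔭.primeCompl) Bₚ)
  have e : Algebra.algebraMapSubmonoid B 𝔭.primeCompl ≤ nonZeroDivisors B :=
    Submonoid.map_le_of_le_comap _ <| 𝔭.primeCompl_le_nonZeroDivisors.trans
      (nonZeroDivisors_le_comap_nonZeroDivisors_of_injective _
        (FaithfulSMul.algebraMap_injective _ _))
  have : IsDomain Bₚ := IsLocalization.isDomain_of_le_nonZeroDivisors _ e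
  have hinjB : Function.Injective (algebraMap Λ B) := FaithfulSMul.algebraMap_injective Λ B
  have hinjp : Function.Injective (algebraMap Λₚ Bₚ) :=
    localizationAlgebra_injective (Rₘ := Λₚ) (Sₘ := Bₚ) hinjB
  have : Module.IsTorsionFree Λₚ Bₚ := Module.isTorsionFree_iff_algebraMap_injective.mpr hinjp
  have : Module.Finite Λₚ Bₚ := .of_isLocalization Λ B 𝔭.primeCompl
  have : IsIntegrallyClosed Bₚ := isIntegrallyClosed_of_isLocalization _ _ e
  have : IsNoetherianRing Λₚ := IsLocalization.isNoetherianRing 𝔭.primeCompl Λₚ inferInstance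
  have hmaxeq : maximalIdeal Λₚ = Ideal.span {algebraMap Λ Λₚ w} := by
    rw [← IsLocalization.AtPrime.map_eq_maximalIdeal 𝔭 Λₚ, Ideal.map_span, Set.image_singleton]
  have : IsPrincipalIdealRing Λₚ := by
    refine ((tfae_of_isNoetherianRing_of_isLocalRing_of_isDomain Λₚ).out 4 0).mp ?_
    rw [hmaxeq]
    exact ⟨⟨_, rfl⟩⟩
  have : Module.Free Λₚ Bₚ := Module.free_of_finite_type_torsion_free'
  -- the ideal `𝔪 Bₚ`
  have hmapeq : Ideal.map (algebraMap Λₚ Bₚ) (maximalIdeal Λₚ) = P.map (algebraMap B Bₚ) := by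
    rw [← IsLocalization.AtPrime.map_eq_maximalIdeal 𝔭 Λₚ, Ideal.map_map,
      ← IsScalarTower.algebraMap_eq, IsScalarTower.algebraMap_eq Λ B Bₚ, ← Ideal.map_map, hP𝔭]
  have hprime : (Ideal.map (algebraMap Λₚ Bₚ) (maximalIdeal Λₚ)).IsPrime := by
    rw [hmapeq]
    exact IsLocalization.AtPrime.isPrime_map_of_liesOver B 𝔭 Bₚ P
  -- the residue field `K̄ = Λₚ/𝔪` and the residue algebra `F̄ = Bₚ/𝔪Bₚ`
  let _ : Field (Λₚ ⧸ maximalIdeal Λₚ) := Ideal.Quotient.field _
  have hmax : (Ideal.map (algebraMap Λₚ Bₚ) (maximalIdeal Λₚ)).IsMaximal := by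
    have hdom : IsDomain (Bₚ ⧸ Ideal.map (algebraMap Λₚ Bₚ) (maximalIdeal Λₚ)) :=
      Ideal.Quotient.isDomain _
    have hfin : Module.Finite (Λₚ ⧸ maximalIdeal Λₚ)
        (Bₚ ⧸ Ideal.map (algebraMap Λₚ Bₚ) (maximalIdeal Λₚ)) :=
      Module.Finite.of_restrictScalars_finite Λₚ _ _
    have hint : Algebra.IsIntegral (Λₚ ⧸ maximalIdeal Λₚ)
        (Bₚ ⧸ Ideal.map (algebraMap Λₚ Bₚ) (maximalIdeal Λₚ)) := Algebra.IsIntegral.of_finite _ _
    exact Ideal.Quotient.maximal_of_isField _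
      (isField_of_isIntegral_of_isField' (Field.toIsField (Λₚ ⧸ maximalIdeal Λₚ)))
  let _ : Field (Bₚ ⧸ Ideal.map (algebraMap Λₚ Bₚ) (maximalIdeal Λₚ)) := Ideal.Quotient.field _
  -- the kernel of `B → F̄`
  have hker : ∀ c : B, Ideal.Quotient.mk (Ideal.map (algebraMap Λₚ Bₚ) (maximalIdeal Λₚ))
      (algebraMap B Bₚ c) = 0 ↔ algebraMap Λ B w ∣ c := by
    intro c
    rw [Ideal.Quotient.eq_zero_iff_mem, hmapeq, ← Ideal.mem_comap, ← Ideal.under_def,
      IsLocalization.under_map_of_isPrime_disjoint (Algebra.algebraMapSubmonoid B 𝔭.primeCompl)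
        Bₚ hP (Ideal.disjoint_primeCompl_of_liesOver P 𝔭), Ideal.mem_span_singleton]
  -- the two maps to the residue objects
  let g : Λ →+* (Λₚ ⧸ maximalIdeal Λₚ) :=
    (Ideal.Quotient.mk (maximalIdeal Λₚ)).comp (algebraMap Λ Λₚ)
  let φ : B →+* (Bₚ ⧸ Ideal.map (algebraMap Λₚ Bₚ) (maximalIdeal Λₚ)) :=
    (Ideal.Quotient.mk _).comp (algebraMap B Bₚ)
  have hsq : (algebraMap (Λₚ ⧸ maximalIdeal Λₚ)
      (Bₚ ⧸ Ideal.map (algebraMap Λₚ Bₚ) (maximalIdeal Λₚ))).comp g =
      φ.comp (algebraMap Λ B) := by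
    ext a
    simp only [g, φ, RingHom.comp_apply]
    rw [Ideal.Quotient.algebraMap_quotient_map_quotient, ← IsScalarTower.algebraMap_apply,
      ← IsScalarTower.algebraMap_apply]
  have hg : ∀ s₀ : Λ, s₀ ∈ 𝔭.primeCompl → g s₀ ≠ 0 := by
    intro s₀ hs₀ h0
    simp only [g, RingHom.comp_apply] at h0
    rw [Ideal.Quotient.eq_zero_iff_mem, IsLocalRing.mem_maximalIdeal, mem_nonunits_iff] at h0
    exact h0 ((IsLocalization.AtPrime.isUnit_to_map_iff Λₚ 𝔭 s₀).mpr hs₀)
  -- elementwise separability of `F̄ / K̄`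
  have hsepel : ∀ y : Bₚ ⧸ Ideal.map (algebraMap Λₚ Bₚ) (maximalIdeal Λₚ),
      IsSeparable (Λₚ ⧸ maximalIdeal Λₚ) y := by
    intro y
    obtain ⟨y, rfl⟩ := Ideal.Quotient.mk_surjective y
    obtain ⟨⟨b, s⟩, hbs⟩ := IsLocalization.surj (Algebra.algebraMapSubmonoid B 𝔭.primeCompl) y
    obtain ⟨s₀, hs₀, hs₀'⟩ := s.2
    obtain ⟨Q, hQ0, hQ1⟩ := hel b
    have hb : IsSeparable (Λₚ ⧸ maximalIdeal Λₚ) (φ b) := by
      apply isSeparable_of_aeval_derivative_ne_zero _ (Q.map g)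
      · rw [aeval_map_of_comp_eq g φ hsq]
        exact (hker _).mpr hQ0
      · rw [derivative_map, aeval_map_of_comp_eq g φ hsq]
        exact fun h => hQ1 ((hker _).mp h)
    have hrel : Ideal.Quotient.mk (Ideal.map (algebraMap Λₚ Bₚ) (maximalIdeal Λₚ)) y *
        algebraMap (Λₚ ⧸ maximalIdeal Λₚ) _ (g s₀) = φ b := by
      have h1 : algebraMap (Λₚ ⧸ maximalIdeal Λₚ)
          (Bₚ ⧸ Ideal.map (algebraMap Λₚ Bₚ) (maximalIdeal Λₚ)) (g s₀) =
          φ (algebraMap Λ B s₀) := by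
        have := congrArg (fun f => f s₀) hsq
        simpa using this
      rw [h1, hs₀']
      simp only [φ, RingHom.comp_apply]
      rw [← map_mul, hbs]
    have hy : Ideal.Quotient.mk (Ideal.map (algebraMap Λₚ Bₚ) (maximalIdeal Λₚ)) y =
        φ b * algebraMap (Λₚ ⧸ maximalIdeal Λₚ) _ (g s₀)⁻¹ := by
      rw [← hrel, mul_assoc, ← map_mul, mul_inv_cancel₀ (hg s₀ hs₀), map_one, mul_one]
    rw [hy]
    exact Field.isSeparable_mul hb (isSeparable_algebraMap _)
  -- rank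
  have hrank : Module.finrank Λₚ Bₚ = Module.finrank Λ B := by
    have h1 : Module.finrank Λₚ Bₚ = Module.finrank Λ Bₚ :=
      IsLocalization.finrank_eq Λₚ 𝔭.primeCompl 𝔭.primeCompl_le_nonZeroDivisors
    have h2 : Module.finrank Λ Bₚ = Module.finrank Λ B :=
      IsLocalizedModule.finrank_eq 𝔭.primeCompl (IsScalarTower.toAlgHom Λ B Bₚ).toLinearMap
        𝔭.primeCompl_le_nonZeroDivisors
    rw [h1, h2]
  let bas : Module.Basis (Fin (Module.finrank Λ B)) Λₚ Bₚ := Module.finBasisOfFinrankEq Λₚ Bₚ hrank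
  -- clear denominators
  have hex : ∀ i, ∃ (x : B) (s₀ : Λ), s₀ ∈ 𝔭.primeCompl ∧
      algebraMap Λ Λₚ s₀ • bas i = algebraMap B Bₚ x := by
    intro i
    obtain ⟨⟨b, s⟩, hbs⟩ :=
      IsLocalization.surj (Algebra.algebraMapSubmonoid B 𝔭.primeCompl) (bas i)
    obtain ⟨s₀, hs₀, hs₀'⟩ := s.2
    refine ⟨b, s₀, hs₀, ?_⟩
    rw [Algebra.smul_def, ← IsScalarTower.algebraMap_apply,
      IsScalarTower.algebraMap_apply Λ B Bₚ, hs₀', mul_comm]
    exact hbs
  choose x s₀ hs₀ hx using hex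
  have hunit : ∀ i, IsUnit (algebraMap Λ Λₚ (s₀ i)) := fun i =>
    (IsLocalization.AtPrime.isUnit_to_map_iff Λₚ 𝔭 (s₀ i)).mpr (hs₀ i)
  let bas' : Module.Basis (Fin (Module.finrank Λ B)) Λₚ Bₚ := bas.isUnitSMul hunit
  have hbas' : ∀ i, bas' i = algebraMap B Bₚ (x i) := fun i => by
    rw [Module.Basis.isUnitSMul_apply, hx]
  have hdiscr : IsUnit (Algebra.discr Λₚ bas') :=
    isUnit_discr_of_isSeparable_quotient bas' hmax hsepel
  refine ⟨x, fun hdvd => ?_⟩
  have hmap : algebraMap Λ Λₚ (Matrix.of fun i j => Algebra.intTrace Λ B (x i * x j)).det =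
      Algebra.discr Λₚ bas' := by
    rw [Algebra.discr_def, RingHom.map_det]
    congr 1
    ext i j
    simp only [RingHom.mapMatrix_apply, Matrix.map_apply, Matrix.of_apply,
      Algebra.traceMatrix_apply, Algebra.traceForm_apply, hbas']
    rw [Algebra.intTrace_eq_of_isLocalization Λ B 𝔭.primeCompl (Aₘ := Λₚ) (Bₘ := Bₚ),
      Algebra.intTrace_eq_trace, map_mul]
  rw [← hmap, IsLocalization.AtPrime.isUnit_to_map_iff Λₚ 𝔭] at hdiscr
  exact hdiscr (Ideal.mem_span_singleton.mpr hdvd)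

/-- **HSEP**, in the exact shape of the hypothesis `hsep` of
`Fermat.Agent.S18.B12.B2RegularStatement` / `B2Statement` (origin/helper33). -/
theorem hsep_poly (R : Type u) [CommRing R] [IsDomain R] [IsDiscreteValuationRing R]
    (w : R) (hw : Irreducible w)
    (B : Type v) [CommRing B] [IsDomain B] [IsIntegrallyClosed B] [Algebra R[X] B]
    [Module.Finite R[X] B] [Module.IsTorsionFree R[X] B]
    (hwB : Prime (algebraMap R[X] B (C w)))
    (hel : ∀ b : B, ∃ P : R[X][X], algebraMap R[X] B (C w) ∣ aeval b P ∧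
          ¬ algebraMap R[X] B (C w) ∣ aeval b (derivative P)) :
    ∃ x : Fin (Module.finrank R[X] B) → B,
        ¬ C w ∣ (Matrix.of fun i j => Algebra.intTrace R[X] B (x i * x j)).det := by
  have hwp : Prime (C w : R[X]) :=
    (Polynomial.prime_C_iff).mpr hw.prime
  exact hsep_gen R[X] (C w) hwp B hwB hel

end Fermat.Agent.S18.H425

end
end
-- ===== PACK-END S18/H425/Hsep.lean

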