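import Fermat.Prelude.Def_CuspForm_HeckeGaloisRepDatum
import Mathlib
import Fermat.Prelude.Def_AlgebraicCurve_DivisorClassGroup
import Mathlib.RingTheory.Finiteness.Basic
import Mathlib.LinearAlgebra.Quotient.Basic
import Fermat.Agent.Pack.S3234.G0E1L0
import Fermat.Agent.Pack.S3234.G0E0L0
import Fermat.Agent.Pack.S3234.G0E2L0
import Fermat.Agent.Pack.S3234.G0E2L1
import Fermat.Agent.Pack.S3234.G0E2L2
import Fermat.Agent.Pack.S3234.G0E2L3
import Fermat.Agent.Pack.S3234.G0E0L1
import Fermat.Agent.Pack.S3234.G0E1L2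
import Fermat.Agent.Pack.S3234.G0E1L3
import Fermat.Agent.Pack.S3234.G0E1L1

-- ===== PACK-BEGIN S30/H990/Lattice.lean
section
/-
S30 top glue (helper990): pure algebra, part 4.
Restriction of a representation to a stable saturated lattice; congruences pass to saturated
lattices; rank one lattices give characters.
-/


set_option autoImplicit false

namespace Fermat.Agent.S30.H990

open Module Polynomial

section Restrict

variable {𝒪 M G : Type*} [CommRing 𝒪] [AddCommGroup M] [Module 𝒪 M] [Group G]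

/-- Restriction of a representation to a stable submodule. -/
def restrictRep (ρ : G →* Module.End 𝒪 M) (Λ : Submodule 𝒪 M)
    (h : ∀ g, ∀ x ∈ Λ, ρ g x ∈ Λ) : G →* Module.End 𝒪 Λ where
  toFun g := (ρ g).restrict (h g)
  map_one' := by
    ext x
    simp
  map_mul' g g' := by
    ext x
    simp

@[simp] theorem restrictRep_apply (ρ : G →* Module.End 𝒪 M) (Λ : Submodule 𝒪 M)
    (h : ∀ g, ∀ x ∈ Λ, ρ g x ∈ Λ) (g : G) (x : Λ) :
    ((restrictRep ρ Λ h g x : Λ) : M) = ρ g (x : M) := rfl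

theorem rel_restrictRep (ρ : G →* Module.End 𝒪 M) (d : G →* 𝒪ˣ) (Λ : Submodule 𝒪 M)
    (h : ∀ g, ∀ x ∈ Λ, ρ g x ∈ Λ) {g : G} {a : 𝒪} (hr : Rel ρ d g a) :
    Rel (restrictRep ρ Λ h) d g a := by
  unfold Rel
  ext x
  have := rel_apply ρ d hr (x : M)
  simpa using this

end Restrict

section SatCong

variable {𝒪 M : Type*} [CommRing 𝒪] [IsDomain 𝒪] [IsPrincipalIdealRing 𝒪]
  [AddCommGroup M] [Module 𝒪 M]

/-- Congruences modulo an ideal pass to saturated submodules. -/
theorem mem_smul_top_sat (N : Submodule 𝒪 M) (I : Ideal 𝒪) (x : sat N)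
    (hx : (x : M) ∈ I • (⊤ : Submodule 𝒪 M)) :
    x ∈ I • (⊤ : Submodule 𝒪 (sat N)) := by
  obtain ⟨ϖ, hϖ⟩ := IsPrincipalIdealRing.principal I
  have hI : I = Ideal.span {ϖ} := hϖ
  rw [hI, Submodule.ideal_span_singleton_smul, Submodule.mem_smul_pointwise_iff_exists] at hx
  obtain ⟨m, -, hm⟩ := hx
  by_cases h0 : ϖ = 0
  · have : x = 0 := by
      apply Subtype.ext
      rw [← hm, h0, zero_smul]; rfl
    rw [this]; exact Submodule.zero_mem _
  · have hmem : m ∈ sat N := by
      apply mem_sat_of_smul_mem h0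
      rw [hm]; exact x.2
    have : x = ϖ • (⟨m, hmem⟩ : sat N) := Subtype.ext hm.symm
    rw [this]
    exact Submodule.smul_mem_smul (hI ▸ Ideal.subset_span (Set.mem_singleton ϖ))
      Submodule.mem_top

end SatCong

section RankOne

variable {𝒪 V : Type*} [CommRing 𝒪] [IsDomain 𝒪] [AddCommGroup V] [Module 𝒪 V]
  [Module.Free 𝒪 V] [Module.Finite 𝒪 V]

/-- On a free module of rank one every endomorphism is multiplication by its determinant. -/
theorem apply_eq_det_smul (h1 : Module.finrank 𝒪 V = 1) (f : Module.End 𝒪 V) (x : V) :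
    f x = LinearMap.det f • x := by
  classical
  let b : Basis (Fin 1) 𝒪 V := Module.finBasisOfFinrankEq 𝒪 V h1
  have hdet : LinearMap.det f = b.repr (f (b 0)) 0 := by
    rw [← LinearMap.det_toMatrix b f, Matrix.det_fin_one, LinearMap.toMatrix_apply]
  have hb : f (b 0) = LinearMap.det f • b 0 := by
    conv_lhs => rw [← b.sum_repr (f (b 0))]
    rw [Fin.sum_univ_one, hdet]
  have hx : x = b.repr x 0 • b 0 := by
    conv_lhs => rw [← b.sum_repr x]
    rw [Fin.sum_univ_one]
  rw [hx, map_smul, hb, smul_comm]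

/-- In a free module of rank one, `r • e ∈ I • ⊤` for a basis vector `e` forces `r ∈ I`. -/
theorem mem_of_smul_basis_mem (h1 : Module.finrank 𝒪 V = 1) (I : Ideal 𝒪) (r : 𝒪)
    (h : ∀ x : V, r • x ∈ I • (⊤ : Submodule 𝒪 V)) : r ∈ I := by
  classical
  let b : Basis (Fin 1) 𝒪 V := Module.finBasisOfFinrankEq 𝒪 V h1
  have key : ∀ y ∈ I • (⊤ : Submodule 𝒪 V), b.repr y 0 ∈ I := by
    intro y hy
    refine Submodule.smul_induction_on hy ?_ ?_
    · intro i hi n _
      rw [map_smul, Finsupp.smul_apply, smul_eq_mul]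
      exact I.mul_mem_right _ hi
    · intro y z hy hz
      rw [map_add, Finsupp.add_apply]
      exact I.add_mem hy hz
  have := key _ (h (b 0))
  rwa [map_smul, Finsupp.smul_apply, Basis.repr_self, Finsupp.single_eq_same, smul_eq_mul,
    mul_one] at this

end RankOne

end Fermat.Agent.S30.H990

end
-- ===== PACK-END S30/H990/Lattice.lean

-- ===== PACK-BEGIN S30/H990/Limit.lean
section
/-
S30 top glue (helper990): the quadratic relation for every element of `G_ℚ`.
* `adic_compactness`: a decreasing sequence of nonempty "closed" subsets of a complete ring with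
  finite quotients `R ⧸ I ^ n` has a common point.
* `rel_mod_of_mul`: the quadratic relation is stable under multiplication by elements
  congruent to `1`.
* `exists_rel_of_mod`: relations modulo all `𝔪 ^ n` give an exact relation.
-/


set_option autoImplicit false

namespace Fermat.Agent.S30.H990

section Compactness

variable {R : Type*} [CommRing R] (I : Ideal R)

theorem adic_compactness [IsPrecomplete I R] (hfin : ∀ n, Finite (R ⧸ I ^ n))
    (A : ℕ → Set R) (hne : ∀ n, (A n).Nonempty) (hanti : ∀ m n, m ≤ n → A n ⊆ A m)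
    (hclosed : ∀ n a a', a ∈ A n → a' - a ∈ I ^ n → a' ∈ A n) :
    ∃ a, ∀ n, a ∈ A n := by
  classical
  -- `x` is approximable to order `n` by elements of all `A N`
  let Good : ℕ → R → Prop := fun n x => ∀ N, ∃ a ∈ A N, a - x ∈ I ^ n
  have good0 : Good 0 0 := by
    intro N
    obtain ⟨a, ha⟩ := hne N
    exact ⟨a, ha, by simp⟩
  have step : ∀ n x, Good n x → ∃ y, y - x ∈ I ^ n ∧ Good (n + 1) y := by
    intro n x hx
    choose a ha hax using hx
    have := hfin (n + 1)
    obtain ⟨y₀, hy₀⟩ := Finite.exists_infinite_fiber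
      (fun N : ℕ => Ideal.Quotient.mk (I ^ (n + 1)) (a N))
    have hinf : (((fun N : ℕ => Ideal.Quotient.mk (I ^ (n + 1)) (a N)) ⁻¹' {y₀}) : Set ℕ).Infinite :=
      Set.infinite_coe_iff.mp hy₀
    obtain ⟨N₀, hN₀⟩ := hinf.nonempty
    refine ⟨a N₀, hax N₀, fun N => ?_⟩
    obtain ⟨N', hN', hlt⟩ := hinf.exists_gt N
    refine ⟨a N', hanti N N' hlt.le (ha N'), ?_⟩
    rw [← Ideal.Quotient.eq]
    have h1 : Ideal.Quotient.mk (I ^ (n + 1)) (a N') = y₀ := hN'
    have h2 : Ideal.Quotient.mk (I ^ (n + 1)) (a N₀) = y₀ := hN₀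
    rw [h1, h2]
  let s : (n : ℕ) → {x : R // Good n x} := fun n =>
    Nat.rec (motive := fun n => {x : R // Good n x}) ⟨0, good0⟩
      (fun n prev => ⟨(step n prev.1 prev.2).choose, (step n prev.1 prev.2).choose_spec.2⟩) n
  have hs : ∀ n, (s (n + 1)).1 - (s n).1 ∈ I ^ n := fun n =>
    (step n (s n).1 (s n).2).choose_spec.1
  have hcauchy : ∀ m n, m ≤ n → (s n).1 - (s m).1 ∈ I ^ m := by
    intro m n hmn
    induction n, hmn using Nat.le_induction with
    | base => simp
    | succ n hmn ih =>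
      have h1 : (s (n + 1)).1 - (s n).1 ∈ I ^ m := Ideal.pow_le_pow_right hmn (hs n)
      have : (s (n + 1)).1 - (s m).1 = ((s (n + 1)).1 - (s n).1) + ((s n).1 - (s m).1) := by ring
      rw [this]
      exact (I ^ m).add_mem h1 ih
  obtain ⟨L, hL⟩ := IsPrecomplete.prec' (I := I) (M := R) (fun n => (s n).1) (by
    intro m n hmn
    rw [SModEq.sub_mem, smul_eq_mul, Ideal.mul_top]
    have := hcauchy m n hmn
    rw [← neg_sub]
    exact (I ^ m).neg_mem this)
  refine ⟨L, fun n => ?_⟩
  obtain ⟨a, ha, hax⟩ := (s n).2 n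
  refine hclosed n a L ha ?_
  have h1 := hL n
  rw [SModEq.sub_mem, smul_eq_mul, Ideal.mul_top] at h1
  have : L - a = -((s n).1 - L) - (a - (s n).1) := by ring
  rw [this]
  exact (I ^ n).sub_mem ((I ^ n).neg_mem h1) hax

end Compactness

section ModRel

variable {𝒪 M : Type*} [CommRing 𝒪] [AddCommGroup M] [Module 𝒪 M]

theorem map_mem_smul_top (I : Ideal 𝒪) (f : M →ₗ[𝒪] M) {x : M}
    (hx : x ∈ I • (⊤ : Submodule 𝒪 M)) : f x ∈ I • (⊤ : Submodule 𝒪 M) := by
  refine Submodule.smul_induction_on hx ?_ ?_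
  · intro r hr n _
    rw [map_smul]
    exact Submodule.smul_mem_smul hr Submodule.mem_top
  · intro x y hx hy
    rw [map_add]
    exact Submodule.add_mem _ hx hy

/-- The quadratic relation of `h` passes, modulo `I`, to `h * s` for `s ≡ 1` and `u ≡ 1`. -/
theorem rel_mod_of_mul (I : Ideal 𝒪) (h s : Module.End 𝒪 M) (t b u : 𝒪)
    (hrel : h * h - t • h + b • (1 : Module.End 𝒪 M) = 0)
    (hs : ∀ v, s v - v ∈ I • (⊤ : Submodule 𝒪 M)) (hu : u - 1 ∈ I) (v : M) :
    (h * s) ((h * s) v) - t • (h * s) v + (b * u) • v ∈ I • (⊤ : Submodule 𝒪 M) := by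
  have h0 : h (h v) - t • h v + b • v = 0 := by
    have := congrArg (fun f : Module.End 𝒪 M => f v) hrel
    simpa using this
  have key : (h * s) ((h * s) v) - t • (h * s) v + (b * u) • v
      = h (s (h v) - h v) + h (s (h (s v - v))) - t • h (s v - v) + (b * (u - 1)) • v := by
    simp only [Module.End.mul_apply, map_sub]
    rw [← sub_eq_zero]
    rw [← h0]
    module
  rw [key]
  have m1 : s v - v ∈ I • (⊤ : Submodule 𝒪 M) := hs v
  have m2 : s (h v) - h v ∈ I • (⊤ : Submodule 𝒪 M) := hs (h v)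
  refine Submodule.add_mem _ (Submodule.sub_mem _ (Submodule.add_mem _ ?_ ?_) ?_) ?_
  · exact map_mem_smul_top I h m2
  · exact map_mem_smul_top I h (map_mem_smul_top I s (map_mem_smul_top I h m1))
  · exact Submodule.smul_mem _ _ (map_mem_smul_top I h m1)
  · exact Submodule.smul_mem_smul (I.mul_mem_left _ hu) Submodule.mem_top

end ModRel

section Exact

variable {𝒪 M G : Type*} [CommRing 𝒪] [IsLocalRing 𝒪] [IsNoetherianRing 𝒪]
  [IsPrecomplete (IsLocalRing.maximalIdeal 𝒪) 𝒪] [Finite (IsLocalRing.ResidueField 𝒪)]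
  [AddCommGroup M] [Module 𝒪 M] [Module.Finite 𝒪 M] [Group G]

/-- Relations modulo all powers of the maximal ideal give an exact relation. -/
theorem exists_rel_of_mod (ρ : G →* Module.End 𝒪 M) (d : G →* 𝒪ˣ) (g : G)
    (hmod : ∀ n : ℕ, ∃ a : 𝒪, ∀ v : M,
      ρ g (ρ g v) - a • ρ g v + ((d g : 𝒪ˣ) : 𝒪) • v
        ∈ (IsLocalRing.maximalIdeal 𝒪 ^ n) • (⊤ : Submodule 𝒪 M)) :
    ∃ a, Rel ρ d g a := by
  have hfin : ∀ n, Finite (𝒪 ⧸ IsLocalRing.maximalIdeal 𝒪 ^ n) := by
    intro n
    have : Finite (𝒪 ⧸ IsLocalRing.maximalIdeal 𝒪) :=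
      (inferInstance : Finite (IsLocalRing.ResidueField 𝒪))
    exact Ideal.finite_quotient_pow (IsNoetherian.noetherian _) n
  obtain ⟨a, ha⟩ := adic_compactness (IsLocalRing.maximalIdeal 𝒪) hfin
    (fun n => {a : 𝒪 | ∀ v : M, ρ g (ρ g v) - a • ρ g v + ((d g : 𝒪ˣ) : 𝒪) • v
        ∈ (IsLocalRing.maximalIdeal 𝒪 ^ n) • (⊤ : Submodule 𝒪 M)})
    (fun n => hmod n)
    (fun m n hmn a ha v =>
      Submodule.smul_mono_left (Ideal.pow_le_pow_right hmn) (ha v))
    (fun n a a' ha haa' v => by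
      have : ρ g (ρ g v) - a' • ρ g v + ((d g : 𝒪ˣ) : 𝒪) • v
          = (ρ g (ρ g v) - a • ρ g v + ((d g : 𝒪ˣ) : 𝒪) • v) - (a' - a) • ρ g v := by
        module
      rw [this]
      exact Submodule.sub_mem _ (ha v) (Submodule.smul_mem_smul haa' Submodule.mem_top))
  refine ⟨a, ?_⟩
  unfold Rel
  ext v
  have hv : ρ g (ρ g v) - a • ρ g v + ((d g : 𝒪ˣ) : 𝒪) • v
      ∈ ⨅ i : ℕ, (IsLocalRing.maximalIdeal 𝒪 ^ i) • (⊤ : Submodule 𝒪 M) := by
    rw [Submodule.mem_iInf]
    exact fun n => ha n v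
  rw [Ideal.iInf_pow_smul_eq_bot_of_isLocalRing _ (IsLocalRing.maximalIdeal.isMaximal 𝒪).ne_top,
    Submodule.mem_bot] at hv
  simpa using hv

end Exact

end Fermat.Agent.S30.H990

end
-- ===== PACK-END S30/H990/Limit.lean

-- ===== PACK-BEGIN Lib/Cheb/H993/Glue.lean
section



/-!
# Piece `M` of CHEB: the finite-level Frobenius density theorem from `Z`, `B0`, `A`, `D`

`frobFinite : PrimeSumStatement → PrimeCountBoundStatement → CountStatement → FrobStatement →
  FrobFiniteStatement`.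
-/

set_option autoImplicit false

namespace Fermat.Agent.Lib.Cheb.H993

open NumberField
open scoped Pointwise Classical
open Fermat.Agent.Lib.Cheb

noncomputable section

variable (L : Type) [Field L] [NumberField L]

/-- The primes of `𝓞 L` above `p` whose decomposition group is exactly `X`. -/
def primesEq (X : Subgroup (L ≃ₐ[ℚ] L)) (p : ℕ) : Set (Ideal (𝓞 L)) :=
  {P | P.IsPrime ∧ (p : 𝓞 L) ∈ P ∧ Spec.decomp L P = X}

/-- `|D_P|`. -/
def dcard (P : Ideal (𝓞 L)) : ℕ := Nat.card (Spec.decomp L P)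

theorem finite_above {p : ℕ} (hp : p ≠ 0) : {P : Ideal (𝓞 L) | (p : 𝓞 L) ∈ P}.Finite := by
  refine (Ideal.finite_setOfPred_absNorm_le (S := 𝓞 L) (p ^ Module.finrank ℤ (𝓞 L))).subset ?_
  intro P hP
  have hle : Ideal.span {(p : 𝓞 L)} ≤ P := (Ideal.span_singleton_le_iff_mem P).mpr hP
  have hdvd := Ideal.absNorm_dvd_absNorm_of_le hle
  rw [Ideal.absNorm_span_natCast] at hdvd
  exact Nat.le_of_dvd (pow_pos (Nat.pos_of_ne_zero hp) _) hdvd

theorem finite_primesEq (X : Subgroup (L ≃ₐ[ℚ] L)) {p : ℕ} (hp : p ≠ 0) :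
    (primesEq L X p).Finite :=
  (finite_above L hp).subset fun _ h => h.2.1

theorem finite_primesLe (H : Subgroup (L ≃ₐ[ℚ] L)) {p : ℕ} (hp : p ≠ 0) :
    (Spec.primesLe L H p).Finite :=
  (finite_above L hp).subset fun _ h => h.2.1

/-- The weight of the subgroup `X` at `p`. -/
def wt (X : Subgroup (L ≃ₐ[ℚ] L)) (p : ℕ) : ℕ := ∑ᶠ P ∈ primesEq L X p, dcard L P

theorem decompWeight_eq (H : Subgroup (L ≃ₐ[ℚ] L)) (p : ℕ) :
    Spec.decompWeight L H p = ∑ᶠ P ∈ Spec.primesLe L H p, dcard L P := by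
  unfold Spec.decompWeight dcard
  exact finsum_set_coe_eq_finsum_mem (s := Spec.primesLe L H p)
    (f := fun P => Nat.card (Spec.decomp L P))

variable [IsGalois ℚ L]

theorem primesLe_eq_iUnion (H : Subgroup (L ≃ₐ[ℚ] L)) (p : ℕ) :
    Spec.primesLe L H p = ⋃ X ∈ (below H : Set (Subgroup (L ≃ₐ[ℚ] L))), primesEq L X p := by
  ext P
  simp only [Spec.primesLe, primesEq, Set.mem_iUnion, Finset.mem_coe, mem_below,
    Set.mem_ofPred_eq, exists_prop]
  constructor
  · rintro ⟨h1, h2, h3⟩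
    exact ⟨_, h3, h1, h2, rfl⟩
  · rintro ⟨X, hX, h1, h2, h3⟩
    exact ⟨h1, h2, h3 ▸ hX⟩

theorem decompWeight_eq_sum (H : Subgroup (L ≃ₐ[ℚ] L)) {p : ℕ} (hp : p ≠ 0) :
    Spec.decompWeight L H p = ∑ X ∈ below H, wt L X p := by
  rw [decompWeight_eq, primesLe_eq_iUnion, finsum_mem_biUnion]
  · exact finsum_mem_coe_finset (fun X => ∑ᶠ P ∈ primesEq L X p, dcard L P) (below H)
  · intro X _ Y _ hXY
    rw [Function.onFun, Set.disjoint_left]
    intro P hPX hPY
    exact hXY (hPX.2.2.symm.trans hPY.2.2)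
  · exact (below H).finite_toSet
  · intro X _
    exact finite_primesEq L X hp

theorem exists_of_wt_pos {X : Subgroup (L ≃ₐ[ℚ] L)} {p : ℕ} (h : 0 < wt L X p) :
    ∃ P : Ideal (𝓞 L), P.IsPrime ∧ (p : 𝓞 L) ∈ P ∧ Spec.decomp L P = X := by
  by_contra hcon
  have hempty : primesEq L X p = ∅ := by
    ext P
    simp only [primesEq, Set.mem_ofPred_eq, Set.mem_empty_iff_false, iff_false]
    exact fun hP => hcon ⟨P, hP⟩
  unfold wt at h
  rw [hempty] at h
  simp at h

theorem wt_le_decompWeight_top (X : Subgroup (L ≃ₐ[ℚ] L)) {p : ℕ} (hp : p ≠ 0) :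
    wt L X p ≤ Spec.decompWeight L ⊤ p := by
  rw [decompWeight_eq_sum L ⊤ hp]
  exact Finset.single_le_sum (f := fun X => wt L X p) (fun _ _ => Nat.zero_le _)
    (mem_below.mpr le_top)

/-- **Piece M.** -/
theorem frobFinite (hZ : Spec.PrimeSumStatement) (hB0 : Spec.PrimeCountBoundStatement)
    (hA : Spec.CountStatement) (hD : Spec.FrobStatement) : Spec.FrobFiniteStatement := by
  intro L _ _ _ σ S
  haveI : Fintype (Subgroup (L ≃ₐ[ℚ] L)) := Fintype.ofFinite _
  -- bad primes
  choose BA hBA using fun H : Subgroup (L ≃ₐ[ℚ] L) => hA L H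
  obtain ⟨BD, hBD⟩ := hD L
  let Bad : Finset ℕ := Finset.univ.biUnion BA
  have hBad : ∀ (H : Subgroup (L ≃ₐ[ℚ] L)) (p : ℕ), p ∉ Bad → p ∉ BA H := by
    intro H p hp hpH
    exact hp (Finset.mem_biUnion.mpr ⟨H, Finset.mem_univ _, hpH⟩)
  -- weights
  let v : Subgroup (L ≃ₐ[ℚ] L) → ℕ → ℝ := fun X p =>
    if p.Prime ∧ p ∉ Bad then (wt L X p : ℝ) else 0
  let K : ℝ := (Module.finrank ℚ (IntermediateField.fixedField (⊤ : Subgroup (L ≃ₐ[ℚ] L))) : ℝ) *
    (Nat.card (⊤ : Subgroup (L ≃ₐ[ℚ] L)) : ℝ)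
  have hv0 : ∀ X p, 0 ≤ v X p := by
    intro X p
    simp only [v]
    split_ifs
    · exact Nat.cast_nonneg _
    · exact le_rfl
  have hK0 : 0 ≤ K := by positivity
  have hvK : ∀ X p, v X p ≤ K := by
    intro X p
    simp only [v]
    split_ifs with h
    · have h1 := wt_le_decompWeight_top L X h.1.ne_zero
      have h2 := hBA ⊤ p h.1 (hBad ⊤ p h.2)
      have h3 := hB0 (IntermediateField.fixedField (⊤ : Subgroup (L ≃ₐ[ℚ] L))) p
      have h4 : wt L X p ≤ Module.finrank ℚ (IntermediateField.fixedField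
          (⊤ : Subgroup (L ≃ₐ[ℚ] L))) * Nat.card (⊤ : Subgroup (L ≃ₐ[ℚ] L)) := by
        rw [← h2] at h1
        exact h1.trans (Nat.mul_le_mul_right _ h3)
      simp only [K]
      exact_mod_cast h4
    · exact hK0
  -- the hypothesis of the induction
  have hW : ∀ H : Subgroup (L ≃ₐ[ℚ] L),
      LogAsymp (pSum (fun p => ∑ X ∈ below H, v X p)) (Nat.card H) := by
    intro H
    set F := IntermediateField.fixedField H with hF
    obtain ⟨C, hC⟩ := hZ F
    -- full prime sum of `primeCount F`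
    have h1 : LogAsymp (pSum (fun p => (Spec.primeCount F p : ℝ))) 1 := by
      refine ⟨C, fun s hs1 hs2 => ?_⟩
      rw [one_mul]
      exact hC s hs1 hs2
    -- the part supported on the bad primes
    let b : ℕ → ℝ := fun p => if p ∈ Bad then (Spec.primeCount F p : ℝ) else 0
    have hb0 : ∀ p, 0 ≤ b p := fun p => by
      simp only [b]; split_ifs
      · exact Nat.cast_nonneg _
      · exact le_rfl
    have hbK : ∀ p, b p ≤ (Module.finrank ℚ F : ℝ) := fun p => by
      simp only [b]; split_ifs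
      · exact_mod_cast hB0 F p
      · exact Nat.cast_nonneg _
    have h2 : LogAsymp (pSum b) 0 :=
      LogAsymp.zero_of_bounded (K := (Module.finrank ℚ F : ℝ) * Bad.card) fun s hs1 _ =>
        abs_pSum_le_of_support Bad hb0 hbK (fun p hp => by simp [b, hp]) hs1
    have h3 := (h1.sub h2).const_mul (Nat.card H : ℝ)
    rw [sub_zero, mul_one] at h3
    refine h3.congr fun s hs1 _ => ?_
    -- pointwise identity of the coefficients at primes
    have hc0 : ∀ p, 0 ≤ (Spec.primeCount F p : ℝ) := fun p => Nat.cast_nonneg _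
    have hcK : ∀ p, (Spec.primeCount F p : ℝ) ≤ (Module.finrank ℚ F : ℝ) := fun p => by
      exact_mod_cast hB0 F p
    have hs1' := summable_pSum hc0 hcK hs1
    have hs2' := summable_pSum hb0 hbK hs1
    unfold pSum
    rw [← Summable.tsum_sub hs1' hs2', ← tsum_mul_left]
    congr 1
    funext p
    by_cases hp : (p : ℕ) ∈ Bad
    · have hv : ∀ X, v X p = 0 := fun X => by simp [v, hp]
      simp [hv, b, hp]
    · have hv : ∀ X, v X p = (wt L X p : ℝ) := fun X => by simp [v, hp, p.2]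
      have h5 := decompWeight_eq_sum L H p.2.ne_zero
      have h6 := hBA H p p.2 (hBad H p hp)
      simp only [hv, b, hp, if_false, sub_zero]
      rw [← Nat.cast_sum, ← h5, ← h6]
      push_cast
      ring
  -- apply the induction to `X = zpowers σ`
  have hgens : 0 < gens (Subgroup.zpowers σ) := by
    unfold gens
    haveI : Nonempty {x : L ≃ₐ[ℚ] L // Subgroup.zpowers x = Subgroup.zpowers σ} := ⟨⟨σ, rfl⟩⟩
    exact Nat.card_pos
  obtain ⟨p, hp, hpS, hpos⟩ :=
    exists_pos_of_gens_pos v K hv0 hvK hW (Subgroup.zpowers σ) hgens (S ∪ Bad ∪ BD)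
  have hpS' : p ∉ S := fun h => hpS (Finset.mem_union_left _ (Finset.mem_union_left _ h))
  have hpBad : p ∉ Bad := fun h => hpS (Finset.mem_union_left _ (Finset.mem_union_right _ h))
  have hpBD : p ∉ BD := fun h => hpS (Finset.mem_union_right _ h)
  have hwt : 0 < wt L (Subgroup.zpowers σ) p := by
    have : v (Subgroup.zpowers σ) p = (wt L (Subgroup.zpowers σ) p : ℝ) := by
      simp [v, hp, hpBad]
    rw [this] at hpos
    exact_mod_cast hpos
  obtain ⟨P, hP, hpP, hdec⟩ := exists_of_wt_pos L hwt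
  obtain ⟨hin, τ, hτ, hτd⟩ := hBD p hp hpBD P hP hpP
  exact ⟨p, P, τ, hp, hpS', hP, hpP, hin, hτ, hτd.symm.trans hdec⟩

end

end Fermat.Agent.Lib.Cheb.H993

end
-- ===== PACK-END Lib/Cheb/H993/Glue.lean

-- ===== PACK-BEGIN S37/H99/FrobAt.lean
section


/-!
# S37 (helper99): Frobenius elements exist at EVERY valuation subring of `ℚ̄` over a prime

`Fermat.Agent.S54.exists_frobenius` produces *some* `A`; the same proof works for a given `A`.
Also: two Frobenius elements at `A` differ by an element of the inertia subgroup.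
-/

set_option autoImplicit false

namespace Fermat.Agent.S37.H99

open scoped Pointwise
open Fermat.Agent.S54

/-- For every valuation subring `A` of `ℚ̄` over the prime `ℓ` there is a Frobenius element
at `A`. -/
theorem exists_isFrobeniusAt (ℓ : ℕ) (hℓ : ℓ.Prime)
    (A : ValuationSubring (AlgebraicClosure ℚ)) (hA : A.LiesOverPrime ℓ) :
    ∃ σ : AlgebraicClosure ℚ ≃ₐ[ℚ] AlgebraicClosure ℚ, A.IsFrobeniusAt σ ℓ := by
  have : Algebra.IsAlgebraic ℚ (AlgebraicClosure ℚ) := AlgebraicClosure.isAlgebraic ℚ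
  have := primeBelow_isPrime A
  have hℓQ : (ℓ : integralClosure ℤ (AlgebraicClosure ℚ)) ∈ primeBelow A := by
    rw [mem_primeBelow]
    exact hA
  obtain ⟨σ, hσQ', hσF⟩ := exists_frob_integralClosure ℓ hℓ (primeBelow A) hℓQ
  have hσQ : ∀ x, σ • x ∈ primeBelow A ↔ x ∈ primeBelow A := by
    intro x
    conv_lhs => rw [← hσQ']
    exact Ideal.smul_mem_pointwise_smul_iff
  have key : ∀ τ : AlgebraicClosure ℚ ≃ₐ[ℚ] AlgebraicClosure ℚ,
      (∀ x, τ • x ∈ primeBelow A ↔ x ∈ primeBelow A) → ∀ x ∈ A, τ x ∈ A := by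
    intro τ hτ x hx
    obtain ⟨b, s, hb, hs, hsA, hxs⟩ := (mem_valuationSubring_iff A ℓ hℓ hA x).mp hx
    refine (mem_valuationSubring_iff A ℓ hℓ hA (τ x)).mpr
      ⟨τ b, τ s, hb.map τ, hs.map τ, ?_, ?_⟩
    · exact (hτ ⟨s, hs⟩).not.mpr hsA
    · rw [← map_mul, hxs]
  have hσA : σ ∈ A.decompositionSubgroup ℚ := by
    rw [MulAction.mem_stabilizer_iff]
    ext x
    rw [ValuationSubring.mem_smul_pointwise_iff_exists]
    constructor
    · rintro ⟨s, hs, rfl⟩
      exact key σ hσQ s hs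
    · intro hx
      refine ⟨σ⁻¹ • x, key σ⁻¹ ?_ x hx, by simp⟩
      intro y
      rw [← hσQ (σ⁻¹ • y)]
      simp
  refine ⟨σ, hσA, ?_⟩
  intro x
  obtain ⟨a, rfl⟩ := IsLocalRing.residue_surjective x
  obtain ⟨b, s, hb, hs, hsA, hxs⟩ := (mem_valuationSubring_iff A ℓ hℓ hA a).mp a.2
  have hbA : b ∈ A := isIntegral_mem_valuationSubring A hb
  have hsA' : s ∈ A := isIntegral_mem_valuationSubring A hs
  have hint : ∀ (y : AlgebraicClosure ℚ) (hy : IsIntegral ℤ y),
      (⟨σ, hσA⟩ : A.decompositionSubgroup ℚ) •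
        IsLocalRing.residue A ⟨y, isIntegral_mem_valuationSubring A hy⟩ =
      (IsLocalRing.residue A ⟨y, isIntegral_mem_valuationSubring A hy⟩) ^ ℓ := by
    intro y hy
    rw [← IsLocalRing.ResidueField.residue_smul, ← map_pow, ← sub_eq_zero, ← map_sub,
      IsLocalRing.residue_eq_zero_iff, ← ValuationSubring.coe_mem_nonunits_iff]
    exact hσF ⟨y, hy⟩
  have h1 : IsLocalRing.residue A a * IsLocalRing.residue A ⟨s, hsA'⟩ =
      IsLocalRing.residue A ⟨b, hbA⟩ := by
    rw [← map_mul]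
    congr 1
    exact Subtype.ext hxs
  have h2 : IsLocalRing.residue A ⟨s, hsA'⟩ ≠ 0 := by
    rw [Ne, IsLocalRing.residue_eq_zero_iff, ← ValuationSubring.coe_mem_nonunits_iff]
    exact hsA
  have h3 := congrArg (fun z => (⟨σ, hσA⟩ : A.decompositionSubgroup ℚ) • z) h1
  simp only [smul_mul'] at h3
  rw [hint s hs, hint b hb, ← h1, mul_pow] at h3
  exact mul_right_cancel₀ (pow_ne_zero _ h2) h3

end Fermat.Agent.S37.H99

end
-- ===== PACK-END S37/H99/FrobAt.lean

-- ===== PACK-BEGIN S30/H330/AdicDefs.lean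
section
/-
S30 (p-adic Galois representation attached to a Hecke eigensystem) -- ADIC MODULE LAYER.
Interface definitions (sorry-free).  helper330.  Namespace `Fermat.Agent.S30.H330`.

The layer turns
  * the frozen statement S37 (through "torsion relations" on `J₀(N)(ℚ̄)[p^∞]`),
  * a Kummer map on `ℚ/ℤ`-valued parabolic characters (p-adic form of S29 piece M4b),
  * an eigen parabolic character with values in `𝒪'` (characteristic-0 form of S29 piece M4a)
into a nonzero finite free `𝒪'`-module with adically continuous `G_ℚ`-action, unramified outside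
`N p`, on which every Frobenius at `ℓ ∉ S` satisfies `σ² - χ(T_ℓ) σ + ℓ = 0` (`HasAdicFrobModule`).
The top glue of S30 (helper990) consumes `HasAdicFrobModule`.
-/



set_option autoImplicit false

noncomputable section

namespace Fermat.Agent.S30.H330

open Fermat.Agent.S29 ModularCurve

/-- `ℚ/ℤ`, the value group of finite-order characters. -/
abbrev QZ : Type := AddCircle (1 : ℚ)

/-- OUTPUT of the adic module layer: a nonzero finite free `O`-module with an adically continuous
action of `G_ℚ`, unramified at all primes `ℓ ∤ S`, on which all Frobenii at the primes `ℓ` with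
`good ℓ` satisfy `σ² - a ℓ • σ + ℓ = 0`. -/
def HasAdicFrobModule (O : Type) [CommRing O] [IsLocalRing O] (S : ℕ) (good : ℕ → Prop)
    (a : ℕ → O) : Prop :=
  ∃ (M : Type) (_ : AddCommGroup M) (_ : Module O M) (_ : Module.Free O M) (_ : Module.Finite O M)
    (ρ : GQ →* Module.End O M),
    Nontrivial M ∧ GaloisActionIsAdicContinuous O ρ ∧
    (∀ ℓ : ℕ, ℓ.Prime → ¬ ℓ ∣ S → ∀ A : VQ, A.LiesOverPrime ℓ →
      ∀ σ ∈ A.inertiaSubgroupIn ℚ, ρ σ = 1) ∧
    (∀ ℓ : ℕ, ℓ.Prime → good ℓ → ∀ A : VQ, A.LiesOverPrime ℓ →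
      ∀ σ : GQ, A.IsFrobeniusAt σ ℓ →
        ρ σ * ρ σ - a ℓ • ρ σ + (ℓ : O) • (1 : Module.End O M) = 0)

/-- INPUT (K): the Kummer map on `ℚ/ℤ`-valued parabolic characters of `Γ₀(N)`:
additive, injective, onto the torsion of `J₀(N)(ℚ̄)`, Hecke-equivariant.
(`κ c = ` class of `div(h)`, `h` any nonzero meromorphic function on `ℍ ∪ cusps` with
`h(γ z) = exp(2πi c(γ)) h(z)`; S29 piece M4b is the restriction to `(1/p)ℤ/ℤ`.) -/
def KummerStatement (N : ℕ) [NeZero N] (p : ℕ) : Prop :=
  ∃ κ : (G0 N → QZ) → JZero N,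
    (∀ c c', IsParHom c → IsParHom c' → κ (c + c') = κ c + κ c') ∧
    (∀ c, IsParHom c → κ c = 0 → c = 0) ∧
    (∀ x : JZero N, (∃ n : ℕ, (p ^ n) • x = 0) → ∃ c, IsParHom c ∧ κ c = x) ∧
    (∀ ℓ : Nat.Primes, ¬ (ℓ : ℕ) ∣ N * p → ∀ c, IsParHom c →
      κ (heckeCoh N ℓ c) = heckeOperatorBar N ℓ (κ c))

/-- INPUT (P): the eigensystem `χ` occurs in the parabolic cohomology with coefficients in `O`. -/
def ParEigenStatement (N : ℕ) [NeZero N] (S : Finset ℕ) (O : Type) [CommRing O]
    (χ : CuspForm.heckeAlgebra N 2 (↑S : Set ℕ) →+* O) : Prop :=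
  ∃ c : G0 N → O, IsParHom c ∧ c ≠ 0 ∧
    ∀ (ℓ : ℕ) (hℓ : ℓ.Prime) (hℓN : ¬ ℓ ∣ N) (hℓS : ℓ ∉ (↑S : Set ℕ)) (γ : G0 N),
      heckeCoh N ℓ c γ = χ (CuspForm.heckeAlgebra.T hℓ hℓN hℓS) * c γ

/-- INPUT (T): the consequences of S37 on the `p`-power torsion of `J₀(N)(ℚ̄)`
(inertia acts trivially, Eichler–Shimura relation), for all primes `ℓ ∤ N p`. -/
def TorsionRelations (N : ℕ) [NeZero N] (p : ℕ) : Prop :=
  ∀ (ℓ : ℕ) (hℓ : ℓ.Prime), ¬ ℓ ∣ N * p → ∀ A : VQ, A.LiesOverPrime ℓ →
    (∀ σ ∈ A.inertiaSubgroupIn ℚ, ∀ x : JZero N, (∃ n : ℕ, (p ^ n) • x = 0) → σ • x = x) ∧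
    (∀ σ : GQ, A.IsFrobeniusAt σ ℓ → ∀ x : JZero N, (∃ n : ℕ, (p ^ n) • x = 0) →
      σ • σ • x - heckeOperatorBar N ⟨ℓ, hℓ⟩ (σ • x) + ℓ • x = 0)

/-- INPUT (Sm) = S29 piece M3. -/
def SmoothStatement (N : ℕ) [NeZero N] : Prop :=
  ∀ x : JZero N, ∃ L : IntermediateField ℚ (AlgebraicClosure ℚ), FiniteDimensional ℚ L ∧
    ∀ σ : GQ, (∀ y ∈ L, σ y = y) → σ • x = x

/-- INPUT (GH) = S29 piece M2. -/
def GaloisHeckeStatement (N : ℕ) [NeZero N] : Prop :=
  ∀ (σ : GQ) (ℓ : Nat.Primes) (x : JZero N),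
    σ • heckeOperatorBar N ℓ x = heckeOperatorBar N ℓ (σ • x)

/-- The eigenvalue function attached to `χ`. -/
def eigenvalue {N : ℕ} [NeZero N] {S : Finset ℕ} {O : Type} [CommRing O]
    (χ : CuspForm.heckeAlgebra N 2 (↑S : Set ℕ) →+* O) (ℓ : ℕ) : O :=
  open Classical in
  if h : ℓ.Prime ∧ ¬ ℓ ∣ N ∧ ℓ ∉ (↑S : Set ℕ) then χ (CuspForm.heckeAlgebra.T h.1 h.2.1 h.2.2) else 0

end Fermat.Agent.S30.H330

end
end
-- ===== PACK-END S30/H330/AdicDefs.lean

-- ===== PACK-BEGIN S24/Mod/H997Bridge.lean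
section


/-!
# S24 / MOD — analytic interface (`HolBase`) and the bridge `e : R_N → Hol`

`HolBase N` packages a ring `Hol` of functions `ℍ → ℂ` (intended: holomorphic functions on `ℍ`
invariant under `Γ(N)` and meromorphic at the cusps), stable under the action of `SL(2,ℤ)`,
containing the functions `J d = (τ ↦ j(dτ))` for `d ∣ N`, together with ONE injective expansion
ring hom `qexp : Hol →+* ℂ((z))` (intended: expansion at `i∞` in `z = q^{1/N}`) such that the
expansion of `J d` is the formal series `jq(z^{N d})` of the Prelude.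

From this we construct the *bridge* `e : R_N →+* Hol` (injective, `e (j(q^d)) = J d`,
`e c = const (ι c)`), i.e. "formal relation ⇔ analytic relation".
-/

set_option autoImplicit false

noncomputable section

open ModularCurve HahnSeries UpperHalfPlane
open scoped MatrixGroups

namespace Fermat.Agent.S24.H997

/-- Precomposition of a function on `ℍ` with the action of `g ∈ SL(2,ℤ)`. -/
def compSL (g : SL(2, ℤ)) (f : ℍ → ℂ) : ℍ → ℂ := fun τ => f (g • τ)

@[simp] theorem compSL_apply (g : SL(2, ℤ)) (f : ℍ → ℂ) (τ : ℍ) : compSL g f τ = f (g • τ) := rfl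

theorem compSL_one (f : ℍ → ℂ) : compSL 1 f = f := by
  funext τ; simp [compSL]

theorem compSL_mul (g h : SL(2, ℤ)) (f : ℍ → ℂ) : compSL (g * h) f = compSL h (compSL g f) := by
  funext τ; simp [compSL, mul_smul]

/-- The fixed embedding `ℚ̄ → ℂ`. -/
def ιKAlg : Kbar →ₐ[ℚ] ℂ :=
  haveI : Algebra.IsAlgebraic ℚ (AlgebraicClosure ℚ) := AlgebraicClosure.isAlgebraic ℚ
  IsAlgClosed.lift

/-- The fixed embedding `ℚ̄ → ℂ`. -/
def ιK : Kbar →+* ℂ := ιKAlg.toRingHom

theorem ιK_injective : Function.Injective ιK := ιK.injective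

theorem ιK_algebraMap (c : ℚ) : ιK (algebraMap ℚ Kbar c) = (c : ℂ) := by
  have := ιKAlg.commutes c
  simpa [ιK] using this

/-- Basic analytic interface. -/
structure HolBase (N : ℕ) [NeZero N] where
  /-- the ring of nice functions on `ℍ` -/
  Hol : Subring (ℍ → ℂ)
  const_mem : ∀ c : ℂ, (fun _ : ℍ => c) ∈ Hol
  comp_mem : ∀ (g : SL(2, ℤ)) (f : ℍ → ℂ), f ∈ Hol → compSL g f ∈ Hol
  /-- `J d τ = j(dτ)` -/
  J : ℕ → ℍ → ℂ
  J_mem : ∀ d, d ∣ N → J d ∈ Hol
  J_one_inv : ∀ (g : SL(2, ℤ)) (τ : ℍ), J 1 (g • τ) = J 1 τ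
  J_inv : ∀ d, d ∣ N → ∀ g ∈ CongruenceSubgroup.Gamma0 N, ∀ τ : ℍ, J d (g • τ) = J d τ
  J_distinct : ∀ g : SL(2, ℤ), (∀ τ : ℍ, J N (g • τ) = J N τ) → g ∈ CongruenceSubgroup.Gamma0 N
  /-- expansion at `i∞` in the variable `z = q^{1/N}` -/
  qexp : Hol →+* LaurentSeries ℂ
  qexp_injective : Function.Injective qexp
  qexp_const : ∀ c : ℂ, qexp ⟨_, const_mem c⟩ = HahnSeries.C c
  qexp_J : ∀ (d : ℕ) (hd : d ∣ N) (k : ℤ),
    (qexp ⟨J d, J_mem d hd⟩).coeff k
      = if ((N * d : ℕ) : ℤ) ∣ k then ((jq.coeff (k / ((N * d : ℕ) : ℤ)) : ℚ) : ℂ) else 0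

namespace HolBase

variable {N : ℕ} [NeZero N] (B : HolBase N)

/-- constant functions as elements of `Hol` -/
def constH (c : ℂ) : B.Hol := ⟨_, B.const_mem c⟩

/-- `J d` as an element of `Hol` -/
def JH (d : ℕ) (hd : d ∣ N) : B.Hol := ⟨B.J d, B.J_mem d hd⟩

/-- precomposition with `g ∈ SL(2,ℤ)` as a ring endomorphism of `Hol` -/
def compH (g : SL(2, ℤ)) : B.Hol →+* B.Hol where
  toFun h := ⟨compSL g h.1, B.comp_mem g h.1 h.2⟩
  map_one' := rfl
  map_mul' _ _ := rfl
  map_zero' := rfl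
  map_add' _ _ := rfl

@[simp] theorem compH_apply (g : SL(2, ℤ)) (h : B.Hol) (τ : ℍ) :
    (B.compH g h : ℍ → ℂ) τ = (h : ℍ → ℂ) (g • τ) := rfl

theorem compH_one (h : B.Hol) : B.compH 1 h = h := by
  apply Subtype.ext; funext τ; simp

theorem compH_mul (g g' : SL(2, ℤ)) (h : B.Hol) :
    B.compH (g * g') h = B.compH g' (B.compH g h) := by
  apply Subtype.ext; funext τ; simp [mul_smul]

theorem compH_injective (g : SL(2, ℤ)) : Function.Injective (B.compH g) := by
  intro h h' hh
  have := congrArg (B.compH g⁻¹) hh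
  rwa [← compH_mul, ← compH_mul, mul_inv_cancel, compH_one, compH_one] at this

theorem compH_constH (g : SL(2, ℤ)) (c : ℂ) : B.compH g (B.constH c) = B.constH c := rfl

theorem compH_JH_one (g : SL(2, ℤ)) : B.compH g (B.JH 1 (one_dvd N)) = B.JH 1 (one_dvd N) := by
  apply Subtype.ext; funext τ; exact B.J_one_inv g τ

theorem compH_JH_of_mem (d : ℕ) (hd : d ∣ N) {g : SL(2, ℤ)}
    (hg : g ∈ CongruenceSubgroup.Gamma0 N) : B.compH g (B.JH d hd) = B.JH d hd := by
  apply Subtype.ext; funext τ; exact B.J_inv d hd g hg τ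

/-- The formal comparison map `ℚ̄((q)) → ℂ((z))`, `q ↦ z^N`, coefficients via `ιK`. -/
def Φ (N : ℕ) [NeZero N] : LaurentSeries Kbar →+* LaurentSeries ℂ :=
  (qExpand ℂ N).comp (coeffMap ιK)

theorem Φ_injective : Function.Injective (Φ N) := by
  intro x y h
  have h1 : coeffMap ιK x = coeffMap ιK y := qExpand_injective N h
  ext k
  apply ιK_injective
  have := congrArg (fun s => s.coeff k) h1
  simpa using this

theorem Φ_coeff (x : LaurentSeries Kbar) (k : ℤ) :
    (Φ N x).coeff k = if (N : ℤ) ∣ k then ιK (x.coeff (k / N)) else 0 := by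
  split_ifs with h
  · obtain ⟨m, rfl⟩ := h
    have hN : (N : ℤ) ≠ 0 := by exact_mod_cast NeZero.ne N
    rw [Int.mul_ediv_cancel_left _ hN]
    show (qExpand ℂ N (coeffMap ιK x)).coeff (N * m) = _
    rw [qExpand_coeff_mul]; rfl
  · exact qExpand_coeff_of_not_dvd N _ h

theorem Φ_algebraMap (c : Kbar) :
    Φ N (algebraMap Kbar (LaurentSeries Kbar) c) = HahnSeries.C (ιK c) := by
  rw [algebraMap_laurentSeries_eq_single]
  show qExpand ℂ N (coeffMap ιK (HahnSeries.single 0 c)) = _
  rw [coeffMap_single, qExpand_single, mul_zero]; rfl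

theorem Φ_gen (d : ℕ) [NeZero d] (hd : d ∣ N) :
    Φ N (coeffEmb Kbar (qExpand ℚ d jq)) = B.qexp (B.JH d hd) := by
  ext k
  rw [Φ_coeff]
  show _ = (B.qexp ⟨B.J d, B.J_mem d hd⟩).coeff k
  rw [B.qexp_J d hd k]
  have hN : (N : ℤ) ≠ 0 := by exact_mod_cast NeZero.ne N
  have hd0 : (d : ℤ) ≠ 0 := by exact_mod_cast NeZero.ne d
  by_cases h1 : (N : ℤ) ∣ k
  · obtain ⟨m, rfl⟩ := h1
    rw [if_pos (dvd_mul_right _ _), Int.mul_ediv_cancel_left _ hN, coeffEmb_coeff, ιK_algebraMap]
    by_cases h2 : (d : ℤ) ∣ m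
    · obtain ⟨l, rfl⟩ := h2
      have h3 : ((N * d : ℕ) : ℤ) ∣ (N : ℤ) * (d * l) := ⟨l, by push_cast; ring⟩
      rw [if_pos h3, qExpand_coeff_mul]
      have : (N : ℤ) * (d * l) / ((N * d : ℕ) : ℤ) = l := by
        have h4 : (N : ℤ) * (d * l) = ((N * d : ℕ) : ℤ) * l := by push_cast; ring
        rw [h4, Int.mul_ediv_cancel_left]
        exact_mod_cast (Nat.mul_ne_zero (NeZero.ne N) (NeZero.ne d))
      rw [this]
    · have h3 : ¬ ((N * d : ℕ) : ℤ) ∣ (N : ℤ) * m := by
        rintro ⟨l, hl⟩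
        apply h2
        refine ⟨l, ?_⟩
        have : (N : ℤ) * m = N * (d * l) := by rw [hl]; push_cast; ring
        exact mul_left_cancel₀ hN this
      rw [if_neg h3, qExpand_coeff_of_not_dvd d _ h2]
      simp
  · have h3 : ¬ ((N * d : ℕ) : ℤ) ∣ k := by
      intro h; apply h1
      exact dvd_trans ⟨(d : ℤ), by push_cast; ring⟩ h
    rw [if_neg h1, if_neg h3]

theorem Φ_mem_range {r : LaurentSeries Kbar} (hr : r ∈ RN N) : Φ N r ∈ B.qexp.range := by
  induction hr using Algebra.adjoin_induction with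
  | mem x hx =>
      obtain ⟨y, ⟨d, hne, hd, rfl⟩, rfl⟩ := hx
      exact ⟨B.JH d hd, (B.Φ_gen d hd).symm⟩
  | algebraMap c =>
      exact ⟨B.constH (ιK c), by rw [Φ_algebraMap]; exact B.qexp_const _⟩
  | add _ _ _ _ hx hy => rw [map_add]; exact add_mem hx hy
  | mul _ _ _ _ hx hy => rw [map_mul]; exact mul_mem hx hy

/-- `Hol ≃ range qexp`. -/
def qexpEquiv : B.Hol ≃+* B.qexp.range :=
  RingEquiv.ofBijective B.qexp.rangeRestrict
    ⟨fun x y h => B.qexp_injective (congrArg Subtype.val h), B.qexp.rangeRestrict_surjective⟩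

/-- The bridge `e : R_N →+* Hol`. -/
def bridge : RN N →+* B.Hol :=
  (B.qexpEquiv.symm : B.qexp.range →+* B.Hol).comp
    (((Φ N).comp (RN N).val.toRingHom).codRestrict B.qexp.range fun r => B.Φ_mem_range r.2)

theorem qexp_bridge (r : RN N) : B.qexp (B.bridge r) = Φ N (r : LaurentSeries Kbar) := by
  have h := B.qexpEquiv.apply_symm_apply
    ((((Φ N).comp (RN N).val.toRingHom).codRestrict B.qexp.range
      fun r => B.Φ_mem_range r.2) r)
  exact congrArg Subtype.val h

theorem bridge_injective : Function.Injective B.bridge := by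
  intro r r' h
  apply Subtype.ext
  apply Φ_injective (N := N)
  rw [← qexp_bridge, ← qexp_bridge, h]

theorem bridge_algebraMap (c : Kbar) : B.bridge (algebraMap Kbar (RN N) c) = B.constH (ιK c) := by
  apply B.qexp_injective
  rw [qexp_bridge]
  show Φ N (algebraMap Kbar (LaurentSeries Kbar) c) = _
  rw [Φ_algebraMap]
  exact (B.qexp_const _).symm

theorem bridge_jR (d : ℕ) [NeZero d] (hd : d ∣ N) : B.bridge (jR N d hd) = B.JH d hd := by
  apply B.qexp_injective
  rw [qexp_bridge]
  exact B.Φ_gen d hd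

/-- Every `e r` is `Γ₀(N)`-invariant. -/
theorem compH_bridge_of_mem {g : SL(2, ℤ)} (hg : g ∈ CongruenceSubgroup.Gamma0 N) (r : RN N) :
    B.compH g (B.bridge r) = B.bridge r := by
  obtain ⟨r, hr⟩ := r
  induction hr using Algebra.adjoin_induction with
  | mem x hx =>
      obtain ⟨y, ⟨d, hne, hd, rfl⟩, rfl⟩ := hx
      have : (⟨coeffEmb Kbar (qExpand ℚ d jq), Algebra.subset_adjoin
          ⟨_, ⟨d, hne, hd, rfl⟩, rfl⟩⟩ : RN N) = jR N d hd := rfl
      rw [this, bridge_jR]
      exact B.compH_JH_of_mem d hd hg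
  | algebraMap c =>
      have : (⟨algebraMap Kbar (LaurentSeries Kbar) c, Subalgebra.algebraMap_mem _ c⟩ : RN N)
          = algebraMap Kbar (RN N) c := rfl
      rw [this, bridge_algebraMap]
      rfl
  | add x y hx hy ihx ihy =>
      have : (⟨x + y, add_mem hx hy⟩ : RN N) = ⟨x, hx⟩ + ⟨y, hy⟩ := rfl
      rw [this, map_add, map_add, ihx, ihy]
  | mul x y hx hy ihx ihy =>
      have : (⟨x * y, mul_mem hx hy⟩ : RN N) = ⟨x, hx⟩ * ⟨y, hy⟩ := rfl
      rw [this, map_mul, map_mul, ihx, ihy]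

end HolBase

end Fermat.Agent.S24.H997

end
end
-- ===== PACK-END S24/Mod/H997Bridge.lean

-- ===== PACK-BEGIN S24/FFFinite.lean
section




/-!
# S24 / FF layer: change of coordinate, residue degree one

Embedding-free algebraic core (helper804).
-/

set_option autoImplicit false

namespace Fermat.Agent.S24.FF

open AlgebraicCurve Polynomial IntermediateField

variable {K F : Type*} [Field K] [Field F] [Algebra K F]

/-- Exchange: if `F` is finite over `K(x)` and `y` is transcendental, then `F` is finite over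
`K(y)`.  (Intrinsic version of Mathlib's `finiteDimensional_of_adjoin_transcendental`.) -/
theorem finiteDimensional_adjoin_of_transcendental {x y : F} (hx : Transcendental K x)
    (hy : Transcendental K y) [hfin : FiniteDimensional K⟮x⟯ F] : FiniteDimensional K⟮y⟯ F := by
  have halg : Algebra.IsAlgebraic K⟮x⟯ F := Algebra.IsAlgebraic.of_finite _ _
  have hxy : IsAlgebraic K⟮y⟯ x :=
    isAlgebraic_adjoin_iff.mpr
      (IsAlgebraic.adjoin_singleton hx hy (isAlgebraic_adjoin_iff.mp (halg.isAlgebraic y)))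
  let Fyx := restrictScalars K K⟮y⟯⟮x⟯
  let Fxy := restrictScalars K K⟮x⟯⟮y⟯
  let : Algebra K⟮y⟯ Fyx := K⟮y⟯⟮x⟯.algebra
  let : Module K⟮y⟯ Fyx := Algebra.toModule
  let : SMul K⟮y⟯ Fyx := Algebra.toSMul
  let : Algebra K⟮x⟯ Fxy := K⟮x⟯⟮y⟯.algebra
  let : Module K⟮x⟯ Fxy := Algebra.toModule
  let : SMul K⟮x⟯ Fxy := Algebra.toSMul
  have : FiniteDimensional K⟮y⟯ Fyx :=
    adjoin.finiteDimensional (isAlgebraic_iff_isIntegral.mp hxy)
  have : FiniteDimensional Fyx F := by
    unfold Fyx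
    rw [adjoin_simple_comm]
    have : IsScalarTower K⟮x⟯ Fxy F := isScalarTower_mid' K⟮x⟯⟮y⟯
    exact .right K⟮x⟯ Fxy F
  have : IsScalarTower K⟮y⟯ Fyx F := isScalarTower_mid' K⟮y⟯⟮x⟯
  exact .trans K⟮y⟯ Fyx F

/-- In an algebraically closed field `K ⊆ F`, an element of `F` algebraic over `K` is a
constant. -/
theorem mem_range_of_isAlgebraic [IsAlgClosed K] {f : F} (hf : IsAlgebraic K f) :
    f ∈ (algebraMap K F).range := by
  have hint : IsIntegral K f := hf.isIntegral
  exact minpoly.mem_range_of_degree_eq_one K f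
    (IsAlgClosed.degree_eq_one_of_irreducible K (minpoly.irreducible hint))

/-- Non-constants are transcendental (for `K` algebraically closed). -/
theorem transcendental_of_not_mem_range [IsAlgClosed K] {f : F}
    (hf : f ∉ (algebraMap K F).range) : Transcendental K f :=
  fun h => hf (mem_range_of_isAlgebraic h)

/-- Every element integral at `v` is congruent to a constant modulo the maximal ideal. -/
theorem exists_const_sub_mem_nonunits [IsAlgClosed K] (v : Place K F) {x : F}
    (hx : Transcendental K x) [FiniteDimensional K⟮x⟯ F] {f : F}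
    (hf : f ∈ v.toValuationSubring) :
    ∃ a : K, f - algebraMap K F a ∈ v.toValuationSubring.nonunits := by
  by_cases hfK : f ∈ (algebraMap K F).range
  · obtain ⟨a, rfl⟩ := hfK
    refine ⟨a, ?_⟩
    rw [sub_self]
    exact (ValuationSubring.mem_nonunits_iff _).mpr (by simp)
  · have hft := transcendental_of_not_mem_range hfK
    have : FiniteDimensional K⟮f⟯ F := finiteDimensional_adjoin_of_transcendental hx hft
    have halg : Algebra.IsAlgebraic K⟮f⟯ F := Algebra.IsAlgebraic.of_finite _ _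
    obtain ⟨a, ha⟩ := exists_ord_sub_pos v f (ord_nonneg_of_mem v hf)
    refine ⟨a, (ord_pos_iff_mem_nonunits v ?_).mp ha⟩
    intro h0
    rw [h0, v.ord_zero] at ha
    exact lt_irrefl _ ha

end Fermat.Agent.S24.FF

namespace Fermat.Agent.S24.FF

open AlgebraicCurve Polynomial IntermediateField

variable {K F : Type*} [Field K] [Field F] [Algebra K F]

/-- **FF2.** Over an algebraically closed constant field every place of a function field of
one variable has degree one. -/
theorem deg_eq_one [IsAlgClosed K] (v : Place K F) {x : F}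
    (hx : Transcendental K x) [FiniteDimensional K⟮x⟯ F] : v.deg = 1 := by
  have hsurj : Function.Surjective (algebraMap K v.ResidueField) := by
    intro c
    obtain ⟨f, rfl⟩ := IsLocalRing.residue_surjective c
    obtain ⟨a, ha⟩ := exists_const_sub_mem_nonunits v hx f.2
    refine ⟨a, ?_⟩
    have hmem : f - algebraMap K v.toValuationSubring a ∈
        IsLocalRing.maximalIdeal v.toValuationSubring := by
      rw [← ValuationSubring.coe_mem_nonunits_iff]
      exact ha
    have h0 := (IsLocalRing.residue_eq_zero_iff _).mpr hmem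
    rw [map_sub, sub_eq_zero] at h0
    rw [h0]
    rfl
  have hbij : Function.Bijective (algebraMap K v.ResidueField) :=
    ⟨(algebraMap K v.ResidueField).injective, hsurj⟩
  show Module.finrank K v.ResidueField = 1
  rw [← Module.finrank_self K]
  exact ((AlgEquiv.ofBijective (Algebra.ofId K v.ResidueField) hbij).toLinearEquiv.finrank_eq).symm

end Fermat.Agent.S24.FF

end
-- ===== PACK-END S24/FFFinite.lean

-- ===== PACK-BEGIN S29/H201/PeriodHecke.lean
section



/-!
# S29 / P5-E2 (helper201) — Hecke equivariance of the period map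

`periodMap N (T_p f) = heckeHom p (periodMap N f)` for `p ∤ N`.
-/

set_option autoImplicit false

open CongruenceSubgroup Matrix.SpecialLinearGroup UpperHalfPlane ModularCurve ModularCurve.Period
open Filter Topology
open scoped MatrixGroups ModularForm
open P2MW.S_ModularForm_heckeT_slash_eq_self_of_mem_Gamma0.ModularForm.HeckeSlashInvariance

namespace Fermat.Agent.S29.H201

variable {N : ℕ} {p : ℕ} [Fact p.Prime]

/-- The Hecke transform of a primitive. -/
noncomputable def heckePrim (p : ℕ) [Fact p.Prime] (F : ℍ → ℂ) : ℍ → ℂ :=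
  fun τ => ∑ x : OnePoint (ZMod p), F (_root_.P2MW.S_ModularForm_heckeT_slash_eq_self_of_mem_Gamma0.ModularForm.HeckeSlashInvariance.heckeRep p x • τ)

omit [Fact p.Prime] in
theorem det_heckeRep_pos (x : OnePoint (ZMod p)) :
    0 < ((_root_.P2MW.S_ModularForm_heckeT_slash_eq_self_of_mem_Gamma0.ModularForm.HeckeSlashInvariance.heckeRep p x : GL (Fin 2) ℝ) : Matrix (Fin 2) (Fin 2) ℝ).det := by
  induction x using OnePoint.rec with
  | infty =>
    have := ModularForm.det_heckeDiagMatrix_pos p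
    rwa [Matrix.GeneralLinearGroup.val_det_apply] at this
  | coe j =>
    have := ModularForm.det_heckeMatrix_pos p j.val
    rwa [Matrix.GeneralLinearGroup.val_det_apply] at this

/-- Chain rule for the action of `g ∈ GL₂(ℝ)⁺`. -/
theorem hasDerivAt_comp_smul_GL {F f : ℍ → ℂ}
    (hF : ∀ τ : ℍ, HasDerivAt (F ∘ ofComplex) (f τ) ↑τ) (g : GL (Fin 2) ℝ)
    (hpos : 0 < (g : Matrix (Fin 2) (Fin 2) ℝ).det) (τ : ℍ) :
    HasDerivAt ((fun w : ℍ => F (g • w)) ∘ ofComplex) ((f ∣[(2 : ℤ)] g) τ) ↑τ := by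
  have h_smul : HasDerivAt (fun w ↦ ↑(g • ofComplex w) : ℂ → ℂ)
      (((g : Matrix (Fin 2) (Fin 2) ℝ).det : ℂ) / denom g τ ^ 2) ↑τ :=
    (hasStrictDerivAt_smul hpos τ).hasDerivAt
  have h_F : HasDerivAt (F ∘ ofComplex) (f (g • τ)) ↑(g • ofComplex (τ : ℂ)) := by
    rw [ofComplex_apply]
    exact hF (g • τ)
  have hcomp := h_F.comp (τ : ℂ) h_smul
  have heq : ((fun w : ℍ => F (g • w)) ∘ ofComplex)
      = (F ∘ ofComplex) ∘ (fun w ↦ ↑(g • ofComplex w) : ℂ → ℂ) := by
    funext z
    simp only [Function.comp_apply, ofComplex_apply]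
  rw [heq]
  refine hcomp.congr_deriv ?_
  have hdet' : 0 < (g.det : ℝ) := by
    rwa [Matrix.GeneralLinearGroup.val_det_apply]
  rw [ModularForm.slash_apply, UpperHalfPlane.σ, if_pos hdet']
  have hz := denom_ne_zero g τ
  simp only [ContinuousAlgEquiv.refl_apply]
  rw [show (2 : ℤ) - 1 = 1 by norm_num, zpow_one, zpow_neg, abs_of_pos hdet',
    Matrix.GeneralLinearGroup.val_det_apply]
  rw [div_eq_mul_inv, mul_assoc]
  norm_cast

theorem im_heckeRep_smul (x : OnePoint (ZMod p)) (τ : ℍ) :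
    τ.im / p ≤ (_root_.P2MW.S_ModularForm_heckeT_slash_eq_self_of_mem_Gamma0.ModularForm.HeckeSlashInvariance.heckeRep p x • τ).im := by
  have hp : p ≠ 0 := (Fact.out : p.Prime).ne_zero
  have hp1 : (1 : ℝ) ≤ p := by exact_mod_cast (Fact.out : p.Prime).one_le
  have hpos : (0 : ℝ) < p := by linarith
  have him : 0 < τ.im := τ.im_pos
  induction x using OnePoint.rec with
  | infty =>
    have h := ModularForm.coe_heckeDiagMatrix_smul hp τ
    have h2 : (_root_.P2MW.S_ModularForm_heckeT_slash_eq_self_of_mem_Gamma0.ModularForm.HeckeSlashInvariance.heckeRep p (OnePoint.infty : OnePoint (ZMod p)) • τ).im = p * τ.im := by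
      have := congrArg Complex.im h
      simpa using this
    rw [h2]
    calc τ.im / p ≤ τ.im := div_le_self him.le hp1
      _ ≤ p * τ.im := le_mul_of_one_le_left him.le hp1
  | coe j =>
    have h := ModularForm.coe_heckeMatrix_smul hp j.val τ
    have h2 : (_root_.P2MW.S_ModularForm_heckeT_slash_eq_self_of_mem_Gamma0.ModularForm.HeckeSlashInvariance.heckeRep p (j : OnePoint (ZMod p)) • τ).im = τ.im / p := by
      have := congrArg Complex.im h
      rw [UpperHalfPlane.coe_im] at this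
      show (ModularForm.heckeMatrix p j.val • τ).im = _
      rw [this, Complex.div_natCast_im, Complex.add_im, Complex.natCast_im, add_zero,
        UpperHalfPlane.coe_im]
    rw [h2]

theorem tendsto_heckeRep_smul (x : OnePoint (ZMod p)) :
    Tendsto (fun τ : ℍ => _root_.P2MW.S_ModularForm_heckeT_slash_eq_self_of_mem_Gamma0.ModularForm.HeckeSlashInvariance.heckeRep p x • τ) atImInfty atImInfty := by
  have hpos : (0 : ℝ) < p := by exact_mod_cast (Fact.out : p.Prime).pos
  rw [atImInfty, tendsto_comap_iff]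
  refine tendsto_atTop_mono (fun τ => im_heckeRep_smul x τ) ?_
  exact (tendsto_comap.atTop_div_const hpos)

theorem SL_smul_eq_mapGL_smul (γ : SL(2, ℤ)) (τ : ℍ) : γ • τ = (mapGL ℝ γ) • τ := rfl

theorem heckePrim_smul_sub (hpN : ¬ p ∣ N)
    {f : CuspForm (Gamma0 N) 2} {F : ℍ → ℂ} (hF : HasEquivariantPrimitive N f F)
    (γ : Gamma0 N) (τ : ℍ) :
    heckePrim p F ((γ : SL(2, ℤ)) • τ) - heckePrim p F τ
      = ∑ x : OnePoint (ZMod p), hF.2.2.1.period (trf hpN γ x) := by
  have key : ∀ x : OnePoint (ZMod p), F (_root_.P2MW.S_ModularForm_heckeT_slash_eq_self_of_mem_Gamma0.ModularForm.HeckeSlashInvariance.heckeRep p x • ((γ : SL(2, ℤ)) • τ))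
      = F (_root_.P2MW.S_ModularForm_heckeT_slash_eq_self_of_mem_Gamma0.ModularForm.HeckeSlashInvariance.heckeRep p (permOf γ x) • τ) + hF.2.2.1.period (trf hpN γ x) := by
    intro x
    have h1 : _root_.P2MW.S_ModularForm_heckeT_slash_eq_self_of_mem_Gamma0.ModularForm.HeckeSlashInvariance.heckeRep p x • ((γ : SL(2, ℤ)) • τ)
        = ((trf hpN γ x : Gamma0 N) : SL(2, ℤ)) • (_root_.P2MW.S_ModularForm_heckeT_slash_eq_self_of_mem_Gamma0.ModularForm.HeckeSlashInvariance.heckeRep p (permOf γ x) • τ) := by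
      rw [SL_smul_eq_mapGL_smul, SL_smul_eq_mapGL_smul, ← mul_smul, ← mul_smul, trf_spec hpN γ x]
      rfl
    rw [h1, ← hF.2.2.1.sub_eq_period (trf hpN γ x) (_root_.P2MW.S_ModularForm_heckeT_slash_eq_self_of_mem_Gamma0.ModularForm.HeckeSlashInvariance.heckeRep p (permOf γ x) • τ)]
    ring
  unfold heckePrim
  simp only [key, Finset.sum_add_distrib]
  rw [Equiv.sum_comp (permOf γ) (fun y => F (_root_.P2MW.S_ModularForm_heckeT_slash_eq_self_of_mem_Gamma0.ModularForm.HeckeSlashInvariance.heckeRep p y • τ))]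
  ring

theorem hasEquivariantPrimitive_heckePrim (hp : p.Prime) (hpN : ¬ p ∣ N)
    {f : CuspForm (Gamma0 N) 2} {F : ℍ → ℂ} (hF : HasEquivariantPrimitive N f F) :
    HasEquivariantPrimitive N (CuspForm.heckeTLin 2 hp hpN f) (heckePrim p F) := by
  refine ⟨fun τ => ?_, ?_, fun γ => ?_, fun δ => ?_⟩
  · -- derivative
    have hsum : (heckePrim p F ∘ ofComplex)
        = fun z => ∑ x : OnePoint (ZMod p), ((fun w : ℍ => F (_root_.P2MW.S_ModularForm_heckeT_slash_eq_self_of_mem_Gamma0.ModularForm.HeckeSlashInvariance.heckeRep p x • w)) ∘ ofComplex) z := by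
      funext z
      rfl
    rw [hsum, CuspForm.heckeTLin_apply_apply, heckeT_eq_sum_onePoint, Finset.sum_apply]
    exact HasDerivAt.fun_sum fun x _ =>
      hasDerivAt_comp_smul_GL hF.1 (_root_.P2MW.S_ModularForm_heckeT_slash_eq_self_of_mem_Gamma0.ModularForm.HeckeSlashInvariance.heckeRep p x) (det_heckeRep_pos x) τ
  · -- limit `0` at `i∞`
    have h : Tendsto (fun τ : ℍ => ∑ x : OnePoint (ZMod p), F (_root_.P2MW.S_ModularForm_heckeT_slash_eq_self_of_mem_Gamma0.ModularForm.HeckeSlashInvariance.heckeRep p x • τ)) atImInfty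
        (𝓝 (∑ _x : OnePoint (ZMod p), (0 : ℂ))) :=
      tendsto_finsetSum _ fun x _ => hF.2.1.comp (tendsto_heckeRep_smul x)
    rw [Finset.sum_const_zero] at h
    exact h
  · exact ⟨_, fun z => heckePrim_smul_sub hpN hF γ z⟩
  · -- limits at the cusps
    have h1 : ¬ p ∣ 1 := fun h => hp.one_lt.ne' (Nat.dvd_one.mp h)
    have hx : ∀ x : OnePoint (ZMod p), ∃ L : ℂ,
        Tendsto (fun w : ℍ => F (_root_.P2MW.S_ModularForm_heckeT_slash_eq_self_of_mem_Gamma0.ModularForm.HeckeSlashInvariance.heckeRep p x • (δ • w))) atImInfty (𝓝 L) := by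
      intro x
      obtain ⟨g', -, hg'⟩ := heckeRep_mul (N := 1) h1 δ (one_dvd _) x
      obtain ⟨L, hL⟩ := hF.2.2.2 g'
      refine ⟨L, ?_⟩
      have heq : (fun w : ℍ => F (_root_.P2MW.S_ModularForm_heckeT_slash_eq_self_of_mem_Gamma0.ModularForm.HeckeSlashInvariance.heckeRep p x • (δ • w)))
          = (fun w : ℍ => F (g' • w)) ∘ (fun w : ℍ => _root_.P2MW.S_ModularForm_heckeT_slash_eq_self_of_mem_Gamma0.ModularForm.HeckeSlashInvariance.heckeRep p (redMatrix p δ • x) • w) := by
        funext w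
        simp only [Function.comp_apply]
        rw [SL_smul_eq_mapGL_smul, SL_smul_eq_mapGL_smul, ← mul_smul, ← mul_smul, hg']
      rw [heq]
      exact hL.comp (tendsto_heckeRep_smul _)
    choose L hL using hx
    exact ⟨∑ x : OnePoint (ZMod p), L x, tendsto_finsetSum _ fun x _ => hL x⟩

/-- **E2a**: Hecke equivariance of the period map. -/
theorem periodMap_heckeTLin (hp : p.Prime) (hpN : ¬ p ∣ N) (f : CuspForm (Gamma0 N) 2) :
    periodMap N (CuspForm.heckeTLin 2 hp hpN f) = heckeHom p hpN ℂ (periodMap N f) := by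
  haveI : NeZero N := ⟨fun h => hpN (h ▸ dvd_zero p)⟩
  obtain ⟨F, hF⟩ := Fermat.Agent.S21.H381.exists_hasEquivariantPrimitive f
  refine AddMonoidHom.ext fun γ => ?_
  obtain ⟨γ, rfl⟩ : ∃ γ' : Gamma0 N, Additive.ofMul γ' = γ := ⟨Additive.toMul γ, rfl⟩
  rw [Fermat.Agent.S21.H381.periodMap_apply (hasEquivariantPrimitive_heckePrim hp hpN hF) γ
    UpperHalfPlane.I, heckePrim_smul_sub hpN hF γ UpperHalfPlane.I, heckeHom_apply]
  refine Finset.sum_congr rfl fun x _ => ?_
  rw [Fermat.Agent.S21.H381.periodMap_apply hF (trf hpN γ x) UpperHalfPlane.I,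
    hF.2.2.1.sub_eq_period]

end Fermat.Agent.S29.H201

end
-- ===== PACK-END S29/H201/PeriodHecke.lean

-- ===== PACK-BEGIN S18/H264/SepGraph.lean
section


/-!
# S18 / G-SEP (helper264): the field `separable` of `Alg.GoodModel` from a reduction *relation*

Mathlib-only, abstract.  Instead of a reduction homomorphism on the valuation ring `V` we use a
subring `T ≤ Ω × L` ("`(g, ḡ) ∈ T` iff `ḡ` is a reduction of `g`"); no well-definedness is
needed.  `L` is a field of characteristic `ℓ` with a `ℤ`-valued valuation (`L = k((q))`).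

* `evalZZ x y` : evaluation `ℤ[X][Y] → B`, `X ↦ x`, `Y ↦ y`;
* `evalZZ_mem_graph` : `(P(x, f), P(x̄, f̄)) ∈ T`;
* `exists_poly_of_graph` : from `P ∈ ℤ[X][Y]` with `P(x̄, f̄) = 0`, `(∂P/∂Y)(x̄, f̄) ≠ 0`
  to the conclusion of the field `separable` (with coefficients even in `ℤ[x]`);
* `exists_poly_of_graph_sep` : the same from `f̄` algebraic over `𝔽_ℓ(x̄)` and `ℓ ∤ v(x̄)`.
-/

set_option autoImplicit false

namespace Fermat.Agent.S18.H264

open Polynomial

section EvalZZ

/-- Evaluation of an integral bivariate polynomial: `X ↦ x` (inner variable), `Y ↦ y`. -/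
noncomputable def evalZZ {B : Type*} [CommRing B] (x y : B) : Polynomial (Polynomial ℤ) →+* B :=
  Polynomial.eval₂RingHom (Polynomial.eval₂RingHom (Int.castRingHom B) x) y

theorem evalZZ_apply {B : Type*} [CommRing B] (x y : B) (P : Polynomial (Polynomial ℤ)) :
    evalZZ x y P = P.eval₂ (Polynomial.eval₂RingHom (Int.castRingHom B) x) y := rfl

theorem map_evalZZ {B C : Type*} [CommRing B] [CommRing C] (φ : B →+* C) (x y : B)
    (P : Polynomial (Polynomial ℤ)) : φ (evalZZ x y P) = evalZZ (φ x) (φ y) P := by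
  have h : φ.comp (Polynomial.eval₂RingHom (Int.castRingHom B) x) =
      Polynomial.eval₂RingHom (Int.castRingHom C) (φ x) := by
    refine Polynomial.ringHom_ext (fun n => ?_) ?_
    · simp
    · simp
  rw [evalZZ_apply, evalZZ_apply, Polynomial.hom_eval₂, h]

end EvalZZ

section Graph

variable {Ω L : Type*} [Field Ω] [Field L]

/-- Polynomial expressions respect the reduction relation. -/
theorem evalZZ_mem_graph (T : Subring (Ω × L)) {x f : Ω} {xb fb : L} (hx : (x, xb) ∈ T)
    (hf : (f, fb) ∈ T) (P : Polynomial (Polynomial ℤ)) :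
    (evalZZ x f P, evalZZ xb fb P) ∈ T := by
  have h1 := map_evalZZ ((RingHom.fst Ω L).comp T.subtype) ⟨(x, xb), hx⟩ ⟨(f, fb), hf⟩ P
  have h2 := map_evalZZ ((RingHom.snd Ω L).comp T.subtype) ⟨(x, xb), hx⟩ ⟨(f, fb), hf⟩ P
  have h3 : ((evalZZ (⟨(x, xb), hx⟩ : T) ⟨(f, fb), hf⟩ P : T) : Ω × L) =
      (evalZZ x f P, evalZZ xb fb P) := Prod.ext h1 h2
  rw [← h3]
  exact Subtype.property _

/-- The value at `x` of an integral polynomial lies in every subring containing `x`. -/
theorem eval₂_intCast_mem (S : Subring Ω) {x : Ω} (hx : x ∈ S) (g : Polynomial ℤ) :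
    Polynomial.eval₂ (Int.castRingHom Ω) x g ∈ S := by
  rw [eval₂_eq_sum_range]
  refine sum_mem fun i _ => ?_
  exact mul_mem (by simp) (pow_mem hx _)

/-- **The field `separable` from a reduction relation and an integral polynomial.** -/
theorem exists_poly_of_graph (T : Subring (Ω × L)) (V R : Subring Ω) (w x f : Ω) (xb fb : L)
    (hx : (x, xb) ∈ T) (hf : (f, fb) ∈ T)
    (hker : ∀ g : Ω, (g, (0 : L)) ∈ T → g * w⁻¹ ∈ V)
    (hunit : ∀ (g : Ω) (b : L), (g, b) ∈ T → b ≠ 0 → g ≠ 0 ∧ g⁻¹ ∈ V)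
    (P : Polynomial (Polynomial ℤ)) (h0 : evalZZ xb fb P = 0)
    (h1 : evalZZ xb fb (derivative P) ≠ 0) :
    ∃ PΩ : Polynomial Ω, (∀ i, PΩ.coeff i ∈ Subring.closure ((R : Set Ω) ∪ {x})) ∧
      PΩ.eval f * w⁻¹ ∈ V ∧ (derivative PΩ).eval f ≠ 0 ∧ ((derivative PΩ).eval f)⁻¹ ∈ V := by
  refine ⟨P.map (Polynomial.eval₂RingHom (Int.castRingHom Ω) x), ?_, ?_, ?_⟩
  · intro i
    rw [coeff_map, coe_eval₂RingHom]
    exact eval₂_intCast_mem _
      (Subring.subset_closure (Set.mem_union_right _ (Set.mem_singleton x))) _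
  · rw [eval_map, ← evalZZ_apply]
    apply hker
    have h := evalZZ_mem_graph T hx hf P
    rwa [h0] at h
  · rw [derivative_map, eval_map, ← evalZZ_apply]
    exact hunit _ _ (evalZZ_mem_graph T hx hf (derivative P)) h1

end Graph

section Sep

variable {Ω L : Type*} [Field Ω] [Field L] (ℓ : ℕ) [hℓ : Fact ℓ.Prime] [Algebra (ZMod ℓ) L]

/-- Lifting a bivariate polynomial over `𝔽_ℓ` to `ℤ`. -/
theorem exists_int_lift (xb fb : L) (Pbar : Polynomial (Polynomial (ZMod ℓ))) :
    ∃ P : Polynomial (Polynomial ℤ),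
      evalZZ xb fb P =
        Pbar.eval₂ (aeval xb : Polynomial (ZMod ℓ) →ₐ[ZMod ℓ] L).toRingHom fb ∧
      evalZZ xb fb (derivative P) =
        (derivative Pbar).eval₂ (aeval xb : Polynomial (ZMod ℓ) →ₐ[ZMod ℓ] L).toRingHom fb := by
  obtain ⟨P, hP⟩ := Polynomial.map_surjective
    (Polynomial.mapRingHom (Int.castRingHom (ZMod ℓ)))
    (Polynomial.map_surjective _ (ZMod.intCast_surjective)) Pbar
  have hcomp : ((aeval xb : Polynomial (ZMod ℓ) →ₐ[ZMod ℓ] L).toRingHom).comp
      (Polynomial.mapRingHom (Int.castRingHom (ZMod ℓ))) =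
      Polynomial.eval₂RingHom (Int.castRingHom L) xb := by
    refine Polynomial.ringHom_ext (fun n => ?_) ?_
    · simp
    · simp
  refine ⟨P, ?_, ?_⟩
  · rw [← hP, Polynomial.eval₂_map, hcomp, evalZZ_apply]
  · rw [← hP, derivative_map, Polynomial.eval₂_map, hcomp, evalZZ_apply]

/-- **The field `separable` from a reduction relation**, for `L` of characteristic `ℓ` with a
`ℤ`-valued valuation `v`, `ℓ ∤ v x̄`, `f̄` algebraic over `𝔽_ℓ(x̄)`. -/
theorem exists_poly_of_graph_sep (v : AddValuation L (WithTop ℤ))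
    (T : Subring (Ω × L)) (V R : Subring Ω) (w x f : Ω) (xb fb : L)
    (hx : (x, xb) ∈ T) (hf : (f, fb) ∈ T)
    (hker : ∀ g : Ω, (g, (0 : L)) ∈ T → g * w⁻¹ ∈ V)
    (hunit : ∀ (g : Ω) (b : L), (g, b) ∈ T → b ≠ 0 → g ≠ 0 ∧ g⁻¹ ∈ V)
    (n : ℤ) (hv : v xb = (n : WithTop ℤ)) (hn : ¬ (ℓ : ℤ) ∣ n)
    (halg : IsAlgebraic (IntermediateField.adjoin (ZMod ℓ) {xb}) fb) :
    ∃ PΩ : Polynomial Ω, (∀ i, PΩ.coeff i ∈ Subring.closure ((R : Set Ω) ∪ {x})) ∧
      PΩ.eval f * w⁻¹ ∈ V ∧ (derivative PΩ).eval f ≠ 0 ∧ ((derivative PΩ).eval f)⁻¹ ∈ V := by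
  have hsep := isSeparable_of_isAlgebraic_of_addVal (κ := ZMod ℓ) ℓ v xb n hv hn fb halg
  obtain ⟨Pbar, hb0, hb1⟩ := exists_bivariate_simple_root xb fb hsep
  obtain ⟨P, hP0, hP1⟩ := exists_int_lift ℓ xb fb Pbar
  exact exists_poly_of_graph T V R w x f xb fb hx hf hker hunit P (by rw [hP0, hb0])
    (by rw [hP1]; exact hb1)

end Sep

end Fermat.Agent.S18.H264

end
-- ===== PACK-END S18/H264/SepGraph.lean

-- ===== PACK-BEGIN S18/H558/CechFG.lean
section




/-!
# S18 / piece b5 (continued): `H¹` of the two-chart cover is finitely generated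

`B = B_mid`, `x ∈ B` a unit with inverse `y`, `Bfin ∋ x` finitely generated as a module over
`A[x]`, `Binf ∋ y`, `B = Bfin[1/x]`, and every generator of `Bfin` lies in `x ^ D • Binf`.
Then `B / (Bfin + Binf)` is a finitely generated `A`-module, hence (for noetherian `A`) its
`w`-power torsion is bounded, which is the hypothesis `hH1` of `cech_idempotent_trivial`.
-/

namespace Fermat.Agent.S18.H558

variable {A B : Type*} [CommRing A] [CommRing B] [Algebra A B]

/-- The two charts together with finitely many explicit elements span `B` over `A`. -/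
theorem cech_span_top {ι : Type*} [Finite ι] (x y : B) (hxy : x * y = 1)
    (Bfin Binf : Subalgebra A B) (hx : x ∈ Bfin) (hy : y ∈ Binf)
    (bs : ι → B) (hbs : ∀ i, bs i ∈ Bfin)
    (hgen : ∀ b ∈ Bfin, b ∈ Submodule.span A {z : B | ∃ (j : ℕ) (i : ι), z = x ^ j * bs i})
    (hloc : ∀ b : B, ∃ K : ℕ, x ^ K * b ∈ Bfin)
    (hinf : ∀ i, ∃ D : ℕ, y ^ D * bs i ∈ Binf) :
    ∃ G : Set B, G.Finite ∧
      Bfin.toSubmodule ⊔ Binf.toSubmodule ⊔ Submodule.span A G = ⊤ := by
  classical
  cases nonempty_fintype ι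
  choose Df hDf using hinf
  let D : ℕ := Finset.univ.sup Df
  have hD : ∀ i, Df i ≤ D := fun i => Finset.le_sup (f := Df) (Finset.mem_univ i)
  let G : Set B := (fun p : ι × ℕ => y ^ p.2 * bs p.1) '' ((Finset.univ ×ˢ Finset.range D : Finset (ι × ℕ)) : Set (ι × ℕ))
  refine ⟨G, (Finset.finite_toSet _).image _, ?_⟩
  set T : Submodule A B := Bfin.toSubmodule ⊔ Binf.toSubmodule ⊔ Submodule.span A G with hT
  have hfinT : ∀ b ∈ Bfin, b ∈ T := fun b hb =>
    Submodule.mem_sup_left (Submodule.mem_sup_left hb)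
  have hinfT : ∀ b ∈ Binf, b ∈ T := fun b hb =>
    Submodule.mem_sup_left (Submodule.mem_sup_right hb)
  have hGT : ∀ b ∈ G, b ∈ T := fun b hb =>
    Submodule.mem_sup_right (Submodule.subset_span hb)
  have hyx : ∀ n : ℕ, y ^ n * x ^ n = 1 := fun n => by
    rw [← mul_pow, mul_comm y x, hxy, one_pow]
  -- the monomials
  have hmono : ∀ (K j : ℕ) (i : ι), y ^ K * (x ^ j * bs i) ∈ T := by
    intro K j i
    rcases le_or_gt K j with hKj | hjK
    · obtain ⟨d, rfl⟩ := Nat.exists_eq_add_of_le hKj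
      have : y ^ K * (x ^ (K + d) * bs i) = x ^ d * bs i := by
        rw [pow_add, ← mul_assoc, ← mul_assoc, hyx, one_mul]
      rw [this]
      exact hfinT _ (Bfin.mul_mem (Bfin.pow_mem hx d) (hbs i))
    · obtain ⟨k, rfl⟩ := Nat.exists_eq_add_of_le hjK.le
      have : y ^ (j + k) * (x ^ j * bs i) = y ^ k * bs i := by
        rw [pow_add, mul_comm (y ^ j) (y ^ k), mul_assoc, ← mul_assoc (y ^ j), hyx, one_mul]
      rw [this]
      rcases le_or_gt (Df i) k with hDk | hkD
      · obtain ⟨d, rfl⟩ := Nat.exists_eq_add_of_le hDk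
        have : y ^ (Df i + d) * bs i = y ^ d * (y ^ Df i * bs i) := by
          rw [pow_add]; ring
        rw [this]
        exact hinfT _ (Binf.mul_mem (Binf.pow_mem hy d) (hDf i))
      · apply hGT
        refine ⟨(i, k), ?_, rfl⟩
        simp only [Finset.coe_product, Finset.coe_univ, Finset.coe_range, Set.mem_prod,
          Set.mem_univ, Set.mem_Iio, true_and]
        exact lt_of_lt_of_le hkD (hD i)
  rw [eq_top_iff]
  rintro b -
  obtain ⟨K, hK⟩ := hloc b
  have hb : b = y ^ K * (x ^ K * b) := by rw [← mul_assoc, hyx, one_mul]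
  rw [hb]
  have hspan := hgen _ hK
  refine Submodule.span_induction (p := fun z _ => y ^ K * z ∈ T) ?_ ?_ ?_ ?_ hspan
  · rintro z ⟨j, i, rfl⟩
    exact hmono K j i
  · simp
  · intro u v _ _ hu hv
    rw [mul_add]
    exact T.add_mem hu hv
  · intro a u _ hu
    rw [mul_smul_comm]
    exact T.smul_mem a hu

/-- Bounded `w`-power torsion of `B / (Bfin + Binf)` from finite generation, for noetherian `A`. -/
theorem cech_h1_bound [IsNoetherianRing A] (w : A) (Bfin Binf : Subalgebra A B)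
    (G : Set B) (hG : G.Finite)
    (htop : Bfin.toSubmodule ⊔ Binf.toSubmodule ⊔ Submodule.span A G = ⊤) :
    ∃ c : ℕ, ∀ (n : ℕ) (h : B),
      algebraMap A B w ^ n * h ∈ Bfin.toSubmodule ⊔ Binf.toSubmodule →
      algebraMap A B w ^ c * h ∈ Bfin.toSubmodule ⊔ Binf.toSubmodule := by
  set S : Submodule A B := Bfin.toSubmodule ⊔ Binf.toSubmodule with hS
  have hfinG : Module.Finite A (Submodule.span A G) := Module.Finite.span_of_finite A hG
  let φ : Submodule.span A G →ₗ[A] B ⧸ S := S.mkQ.comp (Submodule.span A G).subtype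
  have hφ : Function.Surjective φ := by
    intro m
    obtain ⟨b, rfl⟩ := S.mkQ_surjective m
    have hb : b ∈ S ⊔ Submodule.span A G := by rw [htop]; trivial
    obtain ⟨s, hs, g, hg, rfl⟩ := Submodule.mem_sup.1 hb
    refine ⟨⟨g, hg⟩, ?_⟩
    change S.mkQ g = S.mkQ (s + g)
    have hs0 : S.mkQ s = 0 := (Submodule.Quotient.mk_eq_zero S).2 hs
    rw [map_add, hs0, zero_add]
  have hfinQ : Module.Finite A (B ⧸ S) := Module.Finite.of_surjective φ hφ
  obtain ⟨c, hc⟩ := exists_torsion_bound (A := A) (M := B ⧸ S) w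
  refine ⟨c, fun n h hn => ?_⟩
  have e : ∀ k : ℕ, algebraMap A B w ^ k * h = w ^ k • h := fun k => by
    rw [Algebra.smul_def, map_pow]
  rw [e] at hn ⊢
  have h1 : w ^ n • (S.mkQ h) = 0 := by
    rw [← map_smul]
    exact (Submodule.Quotient.mk_eq_zero S).2 hn
  have h2 := hc n _ h1
  rw [← map_smul] at h2
  exact (Submodule.Quotient.mk_eq_zero S).1 h2

/-- **Connectedness of the two-chart model (piece b5).**  Packaged form:
noetherian base `A`, `(w)` prime in `A`, two charts `Bfin ∋ x`, `Binf ∋ x⁻¹` of `B = Bfin[1/x]`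
with `Bfin` finite over `A[x]`, `Bfin ∩ Binf = A` and `A / w → Bfin / w` injective.  Then every
compatible pair of idempotents modulo `w` on the two charts is `(0, 0)` or `(1, 1)`. -/
theorem cech_connected [IsNoetherianRing A] {ι : Type*} [Finite ι] (w : A) (x y : B)
    (hxy : x * y = 1) (Bfin Binf : Subalgebra A B) (hx : x ∈ Bfin) (hy : y ∈ Binf)
    (bs : ι → B) (hbs : ∀ i, bs i ∈ Bfin)
    (hgen : ∀ b ∈ Bfin, b ∈ Submodule.span A {z : B | ∃ (j : ℕ) (i : ι), z = x ^ j * bs i})
    (hloc : ∀ b : B, ∃ K : ℕ, x ^ K * b ∈ Bfin)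
    (hinf : ∀ i, ∃ D : ℕ, y ^ D * bs i ∈ Binf)
    (hH0 : ∀ b : B, b ∈ Bfin → b ∈ Binf → ∃ a : A, algebraMap A B a = b)
    (hinj : ∀ a : A, (∃ t ∈ Bfin, algebraMap A B a = algebraMap A B w * t) → w ∣ a)
    (hprime : ∀ a b : A, w ∣ a * b → w ∣ a ∨ w ∣ b)
    (e₁ e₂ : B) (he₁ : e₁ ∈ Bfin) (he₂ : e₂ ∈ Binf)
    (hi₁ : ∃ t ∈ Bfin, e₁ ^ 2 - e₁ = algebraMap A B w * t)
    (hi₂ : ∃ t ∈ Binf, e₂ ^ 2 - e₂ = algebraMap A B w * t)
    (h₁₂ : ∃ t : B, e₁ - e₂ = algebraMap A B w * t) :
    ((∃ t ∈ Bfin, e₁ = algebraMap A B w * t) ∧ (∃ t ∈ Binf, e₂ = algebraMap A B w * t)) ∨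
    ((∃ t ∈ Bfin, 1 - e₁ = algebraMap A B w * t) ∧ (∃ t ∈ Binf, 1 - e₂ = algebraMap A B w * t)) := by
  obtain ⟨G, hG, htop⟩ := cech_span_top x y hxy Bfin Binf hx hy bs hbs hgen hloc hinf
  obtain ⟨c, hc⟩ := cech_h1_bound w Bfin Binf G hG htop
  exact cech_idempotent_trivial w Bfin Binf c (fun h hh => hc (c + 1) h hh) hH0 hinj hprime
    e₁ e₂ he₁ he₂ hi₁ hi₂ h₁₂

end Fermat.Agent.S18.H558

end
-- ===== PACK-END S18/H558/CechFG.lean

-- ===== PACK-BEGIN S37/H278/Normal.lean
section




/-!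
# S37 / S18, piece b2-core (helper278): normality criterion via the discriminant

`o` a DVR with uniformizer `t` and fraction field `K`; `C` a finite free `o`-algebra with basis `b`
(rank `n`); `L = K ⊗ C` (any localization of `C` at `o \ {0}`).  Let `J = rad(tC)` (equal to the
Jacobson radical of `C`).  If `C / J` is generated by `s` elements as an `o`-module (e.g. `C` has
at most `s` maximal ideals, all with residue field `o / t`) and `t ^ (n - s + 1) ∤ disc(b)`, then
`C` is integrally closed in `L`.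

No differents, no completions: the trace form kills `J` modulo `t`, and an integral element
`y = z / t ∉ C` produces one more factor `t` in the Gram determinant of an adapted basis.
-/

set_option autoImplicit false
set_option linter.style.haveILetI false
set_option linter.unusedSectionVars false

namespace Fermat.Agent.S37.H278

open Module Polynomial

section Basics

variable {o : Type*} [CommRing o] [IsDomain o]
  {C : Type*} [CommRing C] [Algebra o C]

/-- divisibility of the discriminant by `r` does not depend on the basis -/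
theorem dvd_discr_of_dvd_discr {ι ι' : Type*} [Fintype ι] [Fintype ι'] [DecidableEq ι]
    [DecidableEq ι'] (b : Basis ι o C) (b' : Basis ι' o C) (r : o)
    (h : r ∣ Algebra.discr o b') : r ∣ Algebra.discr o b := by
  let e : ι' ≃ ι := b'.indexEquiv b
  let b'' : Basis ι o C := b'.reindex e
  have h1 : Algebra.discr o b'' = Algebra.discr o b' := by
    have := Algebra.discr_reindex o b' e
    rwa [← Basis.coe_reindex] at this
  have h2 : Algebra.discr o b'' = (b.toMatrix b'').det ^ 2 * Algebra.discr o b := by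
    rw [← Algebra.discr_of_matrix_vecMul, Basis.toMatrix_map_vecMul]
  have h3 : IsUnit (b.toMatrix b'').det := by
    rw [← LinearMap.toMatrix_id_eq_basis_toMatrix b'' b]
    exact LinearEquiv.isUnit_det (LinearEquiv.refl o C) b'' b
  rw [← h1, h2] at h
  exact ((h3.pow 2).dvd_mul_left).mp h

end Basics

section Main

variable {o : Type*} [CommRing o] [IsDomain o] [IsDiscreteValuationRing o]
  {K : Type*} [Field K] [Algebra o K] [IsFractionRing o K]
  {C : Type*} [CommRing C] [Algebra o C] [Module.Free o C] [Module.Finite o C]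
  {L : Type*} [CommRing L] [Algebra K L] [Algebra o L] [Algebra C L]
  [IsScalarTower o K L] [IsScalarTower o C L]
  [IsLocalization (Algebra.algebraMapSubmonoid C (nonZeroDivisors o)) L]

omit [IsDiscreteValuationRing o] [Module.Finite o C] in
theorem smul_eq_zero_imp {σ : o} (hσ : σ ≠ 0) {c : C} (h : σ • c = 0) : c = 0 := by
  have hreg : IsSMulRegular C σ :=
    Module.IsTorsionFree.isSMulRegular (IsRegular.of_ne_zero hσ)
  exact hreg (by simpa using h)

omit [IsDiscreteValuationRing o] [Module.Finite o C] in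
include o in
theorem algebraMap_injective_of_free (L : Type*) [CommRing L] [Algebra o L] [Algebra C L]
    [IsScalarTower o C L]
    [IsLocalization (Algebra.algebraMapSubmonoid C (nonZeroDivisors o)) L] :
    Function.Injective (algebraMap C L) := by
  apply IsLocalization.injective L (M := Algebra.algebraMapSubmonoid C (nonZeroDivisors o))
  rintro _ ⟨σ, hσ, rfl⟩
  rw [mem_nonZeroDivisors_iff_right]
  intro c hc
  have hσ0 : σ ≠ 0 := nonZeroDivisors.ne_zero hσ
  apply smul_eq_zero_imp hσ0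
  rw [Algebra.smul_def, mul_comm]
  exact hc

omit [IsDiscreteValuationRing o] [Module.Free o C] [Module.Finite o C] in
include o in
theorem exists_smul_mem_range (l : L) :
    ∃ σ : o, σ ≠ 0 ∧ σ • l ∈ (algebraMap C L).range := by
  obtain ⟨⟨c, ⟨_, σ, hσ, rfl⟩⟩, h⟩ :=
    IsLocalization.surj (Algebra.algebraMapSubmonoid C (nonZeroDivisors o)) l
  refine ⟨σ, nonZeroDivisors.ne_zero hσ, c, ?_⟩
  simp only at h
  rw [← h, ← IsScalarTower.algebraMap_apply, Algebra.smul_def, mul_comm]

include K in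
/-- Step A: a minimal counterexample. -/
theorem exists_minimal_counterexample {t : o} (ht : Irreducible t) (x : L) (hx : IsIntegral o x)
    (hxC : x ∉ (algebraMap C L).range) :
    ∃ (y : L) (z : C), IsIntegral o y ∧ y ∉ (algebraMap C L).range ∧
      algebraMap C L z = t • y ∧
      z ∉ (IsLocalRing.maximalIdeal o • ⊤ : Submodule o C) := by
  classical
  -- some power of t moves x into the range
  have hex : ∃ k : ℕ, t ^ k • x ∈ (algebraMap C L).range := by
    obtain ⟨σ, hσ, c, hc⟩ := exists_smul_mem_range (o := o) (C := C) x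
    obtain ⟨n, w, hw⟩ := IsDiscreteValuationRing.eq_unit_mul_pow_irreducible hσ ht
    refine ⟨n, (↑w⁻¹ : o) • c, ?_⟩
    rw [Algebra.smul_def, map_mul, hc, ← IsScalarTower.algebraMap_apply, ← Algebra.smul_def,
      smul_smul, hw]
    congr 1
    rw [← mul_assoc, Units.inv_mul, one_mul]
  let k := Nat.find hex
  have hk : t ^ k • x ∈ (algebraMap C L).range := Nat.find_spec hex
  have hk0 : k ≠ 0 := by
    intro h0
    rw [h0, pow_zero, one_smul] at hk
    exact hxC hk
  obtain ⟨k', hk'⟩ : ∃ k', k = k' + 1 := ⟨k - 1, by omega⟩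
  have hmin : t ^ k' • x ∉ (algebraMap C L).range := by
    have : k' < k := by omega
    exact Nat.find_min hex this
  obtain ⟨z, hz⟩ := hk
  refine ⟨t ^ k' • x, z, ?_, hmin, ?_, ?_⟩
  · rw [Algebra.smul_def]
    exact (isIntegral_algebraMap).mul hx
  · rw [hz, hk', pow_succ, smul_smul, mul_comm]
  · intro hzmem
    rw [ht.maximalIdeal_eq, Submodule.ideal_span_singleton_smul] at hzmem
    obtain ⟨z', -, hz'⟩ := hzmem
    have hz'' : t • z' = z := hz'
    apply hmin
    refine ⟨z', ?_⟩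
    have h1 : t • (algebraMap C L z' - t ^ k' • x) = 0 := by
      rw [smul_sub, smul_smul, ← pow_succ', ← hk', ← hz, ← hz'']
      rw [Algebra.smul_def t z', map_mul, ← IsScalarTower.algebraMap_apply, ← Algebra.smul_def,
        sub_self]
    have := smul_eq_zero_of_fractionRing K ht.ne_zero h1
    exact sub_eq_zero.mp this

omit [IsDiscreteValuationRing o] [Module.Finite o C] in
include o in
/-- Step A': `z = t y` with `y` integral is nilpotent modulo `t`. -/
theorem exists_pow_eq_smul {t : o} {y : L} {z : C} (hy : IsIntegral o y)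
    (hz : algebraMap C L z = t • y) : ∃ (d : ℕ) (c : C), z ^ d = t • c := by
  obtain ⟨p, hp, hpy⟩ := hy
  have hq : eval₂ (algebraMap o L) (algebraMap o L t * y) (p.scaleRoots t) = 0 :=
    scaleRoots_eval₂_eq_zero (algebraMap o L) hpy
  rw [← Algebra.smul_def, ← hz] at hq
  have hq' : algebraMap C L (eval₂ (algebraMap o C) z (p.scaleRoots t)) = 0 := by
    rw [Polynomial.hom_eval₂, ← IsScalarTower.algebraMap_eq]
    exact hq
  have hq0 : eval₂ (algebraMap o C) z (p.scaleRoots t) = 0 :=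
    (algebraMap_injective_of_free (o := o) L) (by rw [hq', map_zero])
  have hmonic : (p.scaleRoots t).Monic := (monic_scaleRoots_iff t).mpr hp
  have hsum := hmonic.as_sum
  rw [natDegree_scaleRoots] at hsum
  rw [hsum, eval₂_add, eval₂_pow, eval₂_X, eval₂_finsetSum] at hq0
  refine ⟨p.natDegree, -∑ i ∈ Finset.range p.natDegree,
    (p.coeff i * t ^ (p.natDegree - i - 1)) • z ^ i, ?_⟩
  rw [eq_neg_of_add_eq_zero_left hq0, smul_neg, Finset.smul_sum]
  congr 1
  refine Finset.sum_congr rfl fun i hi => ?_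
  have hi' : i < p.natDegree := Finset.mem_range.mp hi
  have hpow : t ^ (p.natDegree - i) = t * t ^ (p.natDegree - i - 1) := by
    rw [← pow_succ']
    congr 1
    omega
  rw [eval₂_mul, eval₂_C, eval₂_pow, eval₂_X, coeff_scaleRoots, smul_smul, Algebra.smul_def, hpow]
  congr 2
  ring

omit [IsDiscreteValuationRing o] [Module.Free o C] [Module.Finite o C] in
theorem mem_radical_span_iff {t : o} (c : C) :
    c ∈ (Ideal.span {algebraMap o C t}).radical ↔ ∃ (k : ℕ) (c' : C), c ^ k = t • c' := by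
  constructor
  · rintro ⟨k, hk⟩
    obtain ⟨c', hc'⟩ := Ideal.mem_span_singleton'.mp hk
    exact ⟨k, c', by rw [← hc', Algebra.smul_def, mul_comm]⟩
  · rintro ⟨k, c', hk⟩
    refine ⟨k, Ideal.mem_span_singleton'.mpr ⟨c', ?_⟩⟩
    rw [hk, Algebra.smul_def, mul_comm]

include K in
/-- **Normality criterion (b2-core).**  `o` a DVR with uniformizer `t`, `C` a finite free
`o`-algebra with basis `b`, `L` its localization at `o \ {0}`.  If `C / rad(tC)` is generated by
`s` elements as `o`-module and `t ^ (n - s + 1) ∤ disc(b)` (`n = #ι`), then every element of `L`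
integral over `o` lies in (the image of) `C`. -/
theorem mem_range_of_isIntegral {t : o} (ht : Irreducible t)
    {ι : Type*} [Fintype ι] [DecidableEq ι] (b : Basis ι o C)
    (s : ℕ) (u : Fin s → C)
    (hu : ((Ideal.span {algebraMap o C t}).radical.restrictScalars o) ⊔
        Submodule.span o (Set.range u) = ⊤)
    (hd : ¬ t ^ (Fintype.card ι - s + 1) ∣ Algebra.discr o b)
    (x : L) (hx : IsIntegral o x) : x ∈ (algebraMap C L).range := by
  classical
  by_contra hxC
  obtain ⟨y, z, hy, hyC, hzy, hzt⟩ := exists_minimal_counterexample (K := K) ht x hx hxC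
  set J : Ideal C := (Ideal.span {algebraMap o C t}).radical with hJ
  have hzJ : z ∈ J := (mem_radical_span_iff z).mpr (exists_pow_eq_smul hy hzy)
  obtain ⟨ι', _, _, b', Z, i₀, hi₀Z, hbi₀, hbZ, hcard⟩ :=
    exists_adapted_basis (J.restrictScalars o) z hzJ hzt s u hu
  -- the lattice generated by `C` and `y`
  let G : Set L := Set.range (fun i => algebraMap C L (b' i)) ∪ {y}
  have hGfin : G.Finite := (Set.finite_range _).union (Set.finite_singleton y)
  have hGint : ∀ g ∈ G, IsIntegral o g := by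
    rintro g (⟨i, rfl⟩ | rfl)
    · exact (Algebra.IsIntegral.isIntegral (R := o) (b' i)).map (IsScalarTower.toAlgHom o C L)
    · exact hy
  have hrange : ∀ c : C, algebraMap C L c ∈ Algebra.adjoin o G := by
    intro c
    have hc : c = ∑ i, (b'.repr c i) • b' i := (b'.sum_repr c).symm
    rw [hc, map_sum]
    refine Subalgebra.sum_mem _ fun i _ => ?_
    rw [Algebra.smul_def, map_mul, ← IsScalarTower.algebraMap_apply, ← Algebra.smul_def]
    exact Subalgebra.smul_mem _
      (Algebra.subset_adjoin (Set.mem_union_left _ (Set.mem_range_self i))) _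
  have hspan : ∀ l : L, ∃ σ : o, σ ≠ 0 ∧ σ • l ∈ Algebra.adjoin o G := by
    intro l
    obtain ⟨σ, hσ, c, hc⟩ := exists_smul_mem_range (o := o) (C := C) l
    exact ⟨σ, hσ, hc ▸ hrange c⟩
  have hR : IsLattice (Algebra.adjoin o G) := isLattice_adjoin hGfin hGint hspan
  let φ : C →ₐ[o] Algebra.adjoin o G :=
    (IsScalarTower.toAlgHom o C L).codRestrict (Algebra.adjoin o G) hrange
  let yR : Algebra.adjoin o G :=
    ⟨y, Algebra.subset_adjoin (Set.mem_union_right _ (Set.mem_singleton y))⟩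
  have hφ : ∀ c : C, ((φ c : Algebra.adjoin o G) : L) = algebraMap C L c := fun c => rfl
  have hφz : φ z = t • yR := Subtype.ext (by
    rw [hφ, hzy]; rfl)
  -- compatibility of traces
  have hτ : ∀ c : C, Algebra.trace o C c = Algebra.trace o (Algebra.adjoin o G) (φ c) := by
    intro c
    apply IsFractionRing.injective o K
    rw [← hR.trace_eq (K := K), hφ,
      ← Algebra.trace_localization o (nonZeroDivisors o) (Rₘ := K) (Sₘ := L)]
  have hE1 : ∀ c ∈ J, t ∣ Algebra.trace o C c := fun c hc => by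
    obtain ⟨k, c', hk⟩ := (mem_radical_span_iff c).mp hc
    exact dvd_trace_of_pow_mem ht c k ⟨c', hk⟩
  have hE2 : ∀ c : C, Algebra.trace o C (z * c) =
      t * Algebra.trace o (Algebra.adjoin o G) (yR * φ c) := by
    intro c
    rw [hτ, map_mul, hφz, smul_mul_assoc, map_smul, smul_eq_mul]
  have hE3 : ∀ c ∈ J, t ∣ Algebra.trace o (Algebra.adjoin o G) (yR * φ c) := by
    intro c hc
    obtain ⟨k, c', hk⟩ := (mem_radical_span_iff c).mp hc
    refine hR.dvd_trace (K := K) ht _ k ⟨yR ^ k * φ c', ?_⟩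
    rw [mul_pow, ← map_pow, hk, map_smul, mul_smul_comm]
  -- the Gram matrix of the adapted basis
  have hdet : t ^ (Z.card + 1) ∣ Algebra.discr o b' := by
    rw [Algebra.discr_def]
    refine pow_card_succ_dvd_det t _ Z i₀ ?_ ?_ ?_
    · intro i hi j
      rw [Algebra.traceMatrix_apply, Algebra.traceForm_apply]
      exact hE1 _ (J.mul_mem_right _ (hbZ i hi))
    · intro i hi
      rw [Algebra.traceMatrix_apply, Algebra.traceForm_apply, hbi₀, mul_comm, hE2, pow_two]
      exact mul_dvd_mul_left t (hE3 _ (hbZ i hi))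
    · intro j
      rw [Algebra.traceMatrix_apply, Algebra.traceForm_apply, hbi₀, mul_comm, hE2]
      exact dvd_mul_right t _
  have hcard' : Fintype.card ι = Fintype.card ι' := Fintype.card_congr (b.indexEquiv b')
  have hfin : t ^ (Fintype.card ι - s + 1) ∣ Algebra.discr o b' :=
    (pow_dvd_pow t (by omega)).trans hdet
  exact hd (dvd_discr_of_dvd_discr b b' _ hfin)

include K in
/-- **Normality criterion**, `IsIntegrallyClosedIn` form. -/
theorem isIntegrallyClosedIn_of_discr {t : o} (ht : Irreducible t)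
    {ι : Type*} [Fintype ι] [DecidableEq ι] (b : Basis ι o C)
    (s : ℕ) (u : Fin s → C)
    (hu : ((Ideal.span {algebraMap o C t}).radical.restrictScalars o) ⊔
        Submodule.span o (Set.range u) = ⊤)
    (hd : ¬ t ^ (Fintype.card ι - s + 1) ∣ Algebra.discr o b) :
    IsIntegrallyClosedIn C L := by
  refine ⟨algebraMap_injective_of_free (o := o) L, fun {x} => ⟨fun hx => ?_, ?_⟩⟩
  · have hx' : IsIntegral o x := isIntegral_trans (R := o) (A := C) x hx
    exact mem_range_of_isIntegral (K := K) ht b s u hu hd x hx'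
  · rintro ⟨c, rfl⟩
    exact isIntegral_algebraMap

omit [Module.Free o C] [Module.Finite o C] in
/-- The discriminant is always divisible by `t ^ (n - s)` when `C / rad(tC)` is generated by
`s` elements (no hypothesis on `L`). -/
theorem pow_dvd_discr [Module.Free o C] [Module.Finite o C] {t : o} (ht : Irreducible t)
    {ι : Type*} [Fintype ι] [DecidableEq ι] (b : Basis ι o C)
    (s : ℕ) (u : Fin s → C)
    (hu : ((Ideal.span {algebraMap o C t}).radical.restrictScalars o) ⊔
        Submodule.span o (Set.range u) = ⊤) :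
    t ^ (Fintype.card ι - s) ∣ Algebra.discr o b := by
  classical
  by_cases hn : Fintype.card ι ≤ s
  · rw [Nat.sub_eq_zero_of_le hn, pow_zero]
    exact one_dvd _
  -- `t • b i₁` is a nonzero element of `rad(tC)`, not in `t 𝔪`... we use `z := t`-free variant:
  -- pick an element of the radical outside `𝔪 C`; it exists since `n > s`.
  set J : Ideal C := (Ideal.span {algebraMap o C t}).radical with hJ
  have hex : ∃ z ∈ J, z ∉ (IsLocalRing.maximalIdeal o • ⊤ : Submodule o C) := by
    by_contra hcon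
    -- then `C = 𝔪 C + span u`, so `C` is generated by `s` elements (Nakayama), contradiction
    have hle : (J.restrictScalars o) ≤ (IsLocalRing.maximalIdeal o • ⊤ : Submodule o C) := by
      intro z hz
      by_contra hz'
      exact hcon ⟨z, hz, hz'⟩
    have htop : (⊤ : Submodule o C) ≤
        Submodule.span o (Set.range u) ⊔ (IsLocalRing.maximalIdeal o • ⊤ : Submodule o C) :=
      calc (⊤ : Submodule o C) = J.restrictScalars o ⊔ Submodule.span o (Set.range u) := hu.symm
        _ ≤ (IsLocalRing.maximalIdeal o • ⊤ : Submodule o C) ⊔ Submodule.span o (Set.range u) :=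
            sup_le_sup_right hle _
        _ = _ := sup_comm _ _
    have hjac : IsLocalRing.maximalIdeal o ≤ Ideal.jacobson ⊥ :=
      (IsLocalRing.jacobson_eq_maximalIdeal ⊥ bot_ne_top).ge
    have hspan : (⊤ : Submodule o C) ≤ Submodule.span o (Set.range u) :=
      Submodule.le_of_le_smul_of_le_jacobson_bot (Module.Finite.fg_top) hjac htop
    have hcardle : Fintype.card ι ≤ s := by
      have h1 : Module.finrank o C = Fintype.card ι := Module.finrank_eq_card_basis b
      have h2 := finrank_span_le_card (R := o) (Set.range u)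
      rw [top_le_iff.mp hspan, finrank_top] at h2
      have h4 : (Set.range u).toFinset.card ≤ s := by
        calc (Set.range u).toFinset.card ≤ (Finset.univ : Finset (Fin s)).card := by
              rw [Set.toFinset_range]
              exact Finset.card_image_le
          _ = s := by simp
      omega
    exact hn hcardle
  obtain ⟨z, hzJ, hzt⟩ := hex
  obtain ⟨ι', _, _, b', Z, i₀, hi₀Z, hbi₀, hbZ, hcard⟩ :=
    exists_adapted_basis (J.restrictScalars o) z hzJ hzt s u hu
  have hE1 : ∀ c ∈ J, t ∣ Algebra.trace o C c := fun c hc => by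
    obtain ⟨k, c', hk⟩ := (mem_radical_span_iff c).mp hc
    exact dvd_trace_of_pow_mem ht c k ⟨c', hk⟩
  have hdet : t ^ Z.card ∣ Algebra.discr o b' := by
    rw [Algebra.discr_def]
    refine pow_card_dvd_det t _ Z ?_
    intro i hi j
    rw [Algebra.traceMatrix_apply, Algebra.traceForm_apply]
    exact hE1 _ (J.mul_mem_right _ (hbZ i hi))
  have hcard' : Fintype.card ι = Fintype.card ι' := Fintype.card_congr (b.indexEquiv b')
  have hfin : t ^ (Fintype.card ι - s) ∣ Algebra.discr o b' :=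
    (pow_dvd_pow t (by omega)).trans hdet
  exact dvd_discr_of_dvd_discr b b' _ hfin

end Main

end Fermat.Agent.S37.H278

end
-- ===== PACK-END S37/H278/Normal.lean

-- ===== PACK-BEGIN S18/H754/HncUnram.lean
section


/-!
# S18 / ALG-FRONT / hNC adapter: `(π)` is radical in the chart `B` when the generic fibre is
unramified over the zeros of `π`

* `isDiscreteValuationRing_atPrime_of_height_one`, `exists_dvd_or_dvd_of_height_one` (N3):
  `B_𝔓` is a valuation ring for a height-one prime `𝔓` of a Noetherian normal domain.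
* `exists_valuationSubring_dominating` (N4): a valuation subring of `Ω ⊇ B` dominating `B_𝔓`.
* `isRadical_span_of_unramified` (N5, main): see the statement.
-/

set_option autoImplicit false

noncomputable section

namespace Fermat.Agent.S18.H754

open IsLocalRing

section HeightOne

variable {B : Type*} [CommRing B] [IsDomain B] [IsNoetherianRing B] [IsIntegrallyClosed B]

/-- Localisation at a height-one prime of a Noetherian normal domain is a DVR. -/
theorem isDiscreteValuationRing_atPrime_of_height_one (𝔭 : Ideal B) [h𝔭 : 𝔭.IsPrime]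
    (h : 𝔭.height = 1) : IsDiscreteValuationRing (Localization.AtPrime 𝔭) := by
  set A := Localization.AtPrime 𝔭 with hA
  haveI : IsNoetherianRing A := IsLocalization.isNoetherianRing 𝔭.primeCompl A inferInstance
  haveI : IsIntegrallyClosed A :=
    isIntegrallyClosed_of_isLocalization A 𝔭.primeCompl 𝔭.primeCompl_le_nonZeroDivisors
  have h𝔭bot : 𝔭 ≠ ⊥ := Ideal.ne_bot_of_height_eq_one h
  have hmax : maximalIdeal A = 𝔭.map (algebraMap B A) :=
    (IsLocalization.AtPrime.map_eq_maximalIdeal 𝔭 A).symm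
  have hinj : Function.Injective (algebraMap B A) :=
    IsLocalization.injective A 𝔭.primeCompl_le_nonZeroDivisors
  have hnf : ¬ IsField A := by
    rw [isField_iff_maximalIdeal_eq]
    intro hbot
    obtain ⟨x, hx, hx0⟩ := Submodule.exists_mem_ne_zero_of_ne_bot h𝔭bot
    have hxmem : algebraMap B A x ∈ maximalIdeal A := by
      rw [hmax]; exact Ideal.mem_map_of_mem _ hx
    rw [hbot, Ideal.mem_bot] at hxmem
    exact hx0 (hinj (by rw [hxmem, map_zero]))
  have huniq : ∀ P : Ideal A, P ≠ ⊥ → P.IsPrime → P = maximalIdeal A := by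
    intro P hP hPprime
    have hP' : (P.comap (algebraMap B A)).IsPrime := Ideal.comap_isPrime _ _
    have hmapcomap : (P.comap (algebraMap B A)).map (algebraMap B A) = P :=
      IsLocalization.map_comap 𝔭.primeCompl A P
    have hle : P.comap (algebraMap B A) ≤ 𝔭 := by
      have hdisj : Disjoint (𝔭.primeCompl : Set B) (P.comap (algebraMap B A) : Set B) :=
        ((IsLocalization.isPrime_iff_isPrime_disjoint 𝔭.primeCompl A P).1 hPprime).2
      intro x hx
      by_contra hx𝔭
      exact Set.disjoint_left.1 hdisj hx𝔭 hx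
    have hne : P.comap (algebraMap B A) ≠ ⊥ := by
      intro h0
      apply hP
      rw [← hmapcomap, h0, Ideal.map_bot]
    have h1 : 𝔭.height ≤ (P.comap (algebraMap B A)).height := by
      rw [h]
      rw [Order.one_le_iff_pos, pos_iff_ne_zero]
      intro h0
      rw [Ideal.height_eq_zero_iff, IsDomain.minimalPrimes_eq_singleton_bot,
        Set.mem_singleton_iff] at h0
      exact hne h0
    have hfin : (P.comap (algebraMap B A)).FiniteHeight := by
      refine ⟨Or.inr ?_⟩
      intro htop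
      have h2 := Ideal.height_mono hle
      rw [htop, h, top_le_iff] at h2
      exact ENat.one_ne_top h2
    have heq : P.comap (algebraMap B A) = 𝔭 := by
      by_contra hne'
      have hlt : P.comap (algebraMap B A) < 𝔭 := lt_of_le_of_ne hle hne'
      have h3 := Ideal.height_strict_mono_of_isPrime hlt
      exact absurd (lt_of_lt_of_le h3 h1) (lt_irrefl _)
    calc P = (P.comap (algebraMap B A)).map (algebraMap B A) := hmapcomap.symm
      _ = 𝔭.map (algebraMap B A) := by rw [heq]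
      _ = maximalIdeal A := hmax.symm
  have htfae := (IsDiscreteValuationRing.TFAE A hnf).out 0 3
  rw [htfae]
  refine ⟨inferInstance, maximalIdeal A, ⟨?_, inferInstance⟩, ?_⟩
  · exact isField_iff_maximalIdeal_eq.not.1 hnf
  · rintro P ⟨hP, hPprime⟩
    exact huniq P hP hPprime

/-- `B_𝔓` is a valuation ring (elementwise). -/
theorem exists_dvd_or_dvd_of_height_one (𝔭 : Ideal B) [h𝔭 : 𝔭.IsPrime] (h : 𝔭.height = 1)
    (a c : B) : ∃ s : B, s ∉ 𝔭 ∧ (c ∣ s * a ∨ a ∣ s * c) := by
  haveI := isDiscreteValuationRing_atPrime_of_height_one 𝔭 h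
  haveI : ValuationRing (Localization.AtPrime 𝔭) :=
    ValuationRing.iff_local_bezout_domain.mpr ⟨inferInstance, inferInstance⟩
  have hinj : Function.Injective (algebraMap B (Localization.AtPrime 𝔭)) :=
    IsLocalization.injective _ 𝔭.primeCompl_le_nonZeroDivisors
  have key : ∀ a c : B, algebraMap B (Localization.AtPrime 𝔭) a ∣
      algebraMap B (Localization.AtPrime 𝔭) c → ∃ s : B, s ∉ 𝔭 ∧ a ∣ s * c := by
    intro a c ⟨r, hr⟩
    obtain ⟨r₁, ⟨s₁, hs₁⟩, rfl⟩ := IsLocalization.exists_mk'_eq 𝔭.primeCompl r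
    refine ⟨s₁, hs₁, r₁, ?_⟩
    apply hinj
    have h1 : IsLocalization.mk' (Localization.AtPrime 𝔭) r₁ ⟨s₁, hs₁⟩ *
        algebraMap B (Localization.AtPrime 𝔭) s₁ = algebraMap B (Localization.AtPrime 𝔭) r₁ :=
      IsLocalization.mk'_spec _ r₁ ⟨s₁, hs₁⟩
    rw [map_mul, map_mul, hr, ← h1]
    ring
  rcases ValuationRing.dvd_total (algebraMap B (Localization.AtPrime 𝔭) a)
      (algebraMap B (Localization.AtPrime 𝔭) c) with h1 | h1
  · obtain ⟨s, hs, hd⟩ := key a c h1
    exact ⟨s, hs, Or.inr hd⟩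
  · obtain ⟨s, hs, hd⟩ := key c a h1
    exact ⟨s, hs, Or.inl hd⟩

end HeightOne

section Dominate

variable {B : Type*} [CommRing B] [IsDomain B]
  {Ω : Type*} [Field Ω] [Algebra B Ω] [FaithfulSMul B Ω]

/-- A valuation subring of `Ω ⊇ B` dominating `B_𝔓`. -/
theorem exists_valuationSubring_dominating (𝔭 : Ideal B) [h𝔭 : 𝔭.IsPrime] :
    ∃ O : ValuationSubring Ω, (∀ b : B, algebraMap B Ω b ∈ O) ∧
      (∀ b : B, b ∉ 𝔭 → (algebraMap B Ω b)⁻¹ ∈ O) ∧
      (∀ b : B, b ∈ 𝔭 → b ≠ 0 → (algebraMap B Ω b)⁻¹ ∉ O) := by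
  classical
  have hinj : Function.Injective (algebraMap B Ω) := FaithfulSMul.algebraMap_injective B Ω
  have hunit : ∀ y : 𝔭.primeCompl, IsUnit (algebraMap B Ω y) := by
    intro y
    rw [isUnit_iff_ne_zero]
    intro h0
    have : (y : B) = 0 := hinj (by rw [h0, map_zero])
    exact y.2 (this ▸ 𝔭.zero_mem)
  let f : Localization.AtPrime 𝔭 →+* Ω := IsLocalization.lift hunit
  have hf : ∀ b : B, f (algebraMap B (Localization.AtPrime 𝔭) b) = algebraMap B Ω b :=
    fun b => IsLocalization.lift_eq hunit b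
  have hfinj : Function.Injective f := by
    rw [IsLocalization.lift_injective_iff]
    intro a b
    rw [(IsLocalization.injective (Localization.AtPrime 𝔭)
      𝔭.primeCompl_le_nonZeroDivisors).eq_iff, hinj.eq_iff]
  let A : LocalSubring Ω := LocalSubring.range f
  obtain ⟨O, hO⟩ := A.exists_le_valuationSubring
  obtain ⟨hle, hloc⟩ := hO
  have hAmem : ∀ r : Localization.AtPrime 𝔭, f r ∈ A.toSubring := fun r => ⟨r, rfl⟩
  have hOmem : ∀ r : Localization.AtPrime 𝔭, f r ∈ O := fun r => hle (hAmem r)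
  refine ⟨O, fun b => ?_, fun b hb => ?_, fun b hb hb0 hinv => ?_⟩
  · rw [← hf b]
    exact hOmem _
  · have h1 : f (IsLocalization.mk' (Localization.AtPrime 𝔭) 1 (⟨b, hb⟩ : 𝔭.primeCompl)) =
        (algebraMap B Ω b)⁻¹ := by
      have hb0 : algebraMap B Ω b ≠ 0 := (hunit ⟨b, hb⟩).ne_zero
      rw [IsLocalization.lift_mk'_spec, map_one]
      exact (mul_inv_cancel₀ hb0).symm
    rw [← h1]
    exact hOmem _
  · -- `algebraMap b` would be a unit of `O`, hence of `A`, hence of `B_𝔓`
    have hb' : algebraMap B Ω b ≠ 0 := fun h0 => hb0 (hinj (by rw [h0, map_zero]))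
    let xA : A.toSubring := ⟨algebraMap B Ω b, by rw [← hf b]; exact hAmem _⟩
    have hu : IsUnit (Subring.inclusion hle xA) := by
      rw [isUnit_iff_exists_inv]
      refine ⟨⟨(algebraMap B Ω b)⁻¹, hinv⟩, ?_⟩
      apply Subtype.ext
      change algebraMap B Ω b * (algebraMap B Ω b)⁻¹ = 1
      exact mul_inv_cancel₀ hb'
    have hu' : IsUnit xA := hloc.map_nonunit xA hu
    obtain ⟨⟨y, r, hr⟩, hy⟩ := isUnit_iff_exists_inv.1 hu'
    have h2 : algebraMap B Ω b * f r = 1 := by
      have := congrArg Subtype.val hy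
      simpa [xA, ← hr] using this
    have h3 : f (algebraMap B (Localization.AtPrime 𝔭) b * r) = f 1 := by
      rw [map_mul, hf, h2, map_one]
    have h4 : algebraMap B (Localization.AtPrime 𝔭) b * r = 1 := hfinj h3
    have h5 : IsUnit (algebraMap B (Localization.AtPrime 𝔭) b) :=
      IsUnit.of_mul_eq_one _ h4
    have h6 := (IsLocalization.AtPrime.isUnit_to_map_iff (Localization.AtPrime 𝔭) 𝔭 b).1 h5
    exact h6 hb

end Dominate

end Fermat.Agent.S18.H754

end

end
-- ===== PACK-END S18/H754/HncUnram.lean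

-- ===== PACK-BEGIN S18/H394/KummerFinite.lean
section



/-!
# S18, Route K, pieces b3+b4 (helper394): finiteness of the Kummer chart

If `B` is contained in a finitely generated `R[x]`-submodule of `F` and `u` has a denominator in
`B`, then `kummerSub B` is finitely generated over `R[x]` (in the explicit form consumed by the
two-chart connectedness theorem).
-/

set_option autoImplicit false

namespace Fermat.Agent.S18.H394

open Polynomial

section Finite

variable {R F C : Type*} [CommRing R] [IsNoetherianRing R] [Field F] [Algebra R F]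
  [CommRing C] [Algebra F C] [Algebra R C] [IsScalarTower R F C]

omit [IsNoetherianRing R] [Algebra R C] [IsScalarTower R F C] [CommRing C] [Algebra F C] in
theorem pow_mul_mem_of_mem_degSet {m : ℕ} (hm0 : 0 < m) {u : F} (hu : u ≠ 0)
    {B : Subalgebra R F} (hB : RootClosed m B) {d : F} (hdB : d ∈ B) (hdu : d * u⁻¹ ∈ B)
    {k : ℕ} {f : F} (hf : f ∈ degSet B m u k) : d ^ k * f ∈ B := by
  apply hB
  obtain ⟨m', rfl⟩ : ∃ m', m = m' + 1 := Nat.exists_eq_succ_of_ne_zero hm0.ne'
  have hf' : f ^ (m' + 1) * u ^ k ∈ B := hf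
  have key : (d ^ k * f) ^ (m' + 1) = (d * u⁻¹) ^ k * (d ^ k) ^ m' * (f ^ (m' + 1) * u ^ k) := by
    have hu' : (u⁻¹) ^ k * u ^ k = 1 := by rw [← mul_pow, inv_mul_cancel₀ hu, one_pow]
    calc (d ^ k * f) ^ (m' + 1) = d ^ k * (d ^ k) ^ m' * f ^ (m' + 1) * 1 := by ring
      _ = d ^ k * (d ^ k) ^ m' * f ^ (m' + 1) * ((u⁻¹) ^ k * u ^ k) := by rw [hu']
      _ = (d * u⁻¹) ^ k * (d ^ k) ^ m' * (f ^ (m' + 1) * u ^ k) := by ring
  rw [key]
  exact B.mul_mem (B.mul_mem (B.pow_mem hdu k) (B.pow_mem (B.pow_mem hdB k) m')) hf'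

theorem kummerSub_fg (pb : PowerBasis F C) (u : F) (hu : u ≠ 0)
    (hT : pb.gen ^ pb.dim = algebraMap F C u) (hm0 : 0 < pb.dim)
    (B : Subalgebra R F) (hB : RootClosed pb.dim B)
    (x : F) (hx : x ∈ B)
    (hfin : ∃ s : Finset F, ∀ b ∈ B, ∃ P : F → Polynomial R,
      b = ∑ β ∈ s, Polynomial.aeval x (P β) * β)
    (hden : ∃ d ∈ B, d ≠ 0 ∧ d * u⁻¹ ∈ B) :
    ∃ S : Finset C, (∀ c ∈ S, c ∈ kummerSub pb u hT hm0 B hB) ∧
      ∀ b ∈ kummerSub pb u hT hm0 B hB, ∃ P : C → Polynomial R,
        b = ∑ c ∈ S, Polynomial.aeval (algebraMap F C x) (P c) * c := by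
  classical
  letI modF : Module R[X] F := Module.compHom F (aeval x : R[X] →ₐ[R] F).toRingHom
  letI modC : Module R[X] C :=
    Module.compHom C (aeval (algebraMap F C x) : R[X] →ₐ[R] C).toRingHom
  have smulF : ∀ (p : R[X]) (f : F), p • f = aeval x p * f := fun _ _ => rfl
  have smulC : ∀ (p : R[X]) (c : C), p • c = aeval (algebraMap F C x) p * c := fun _ _ => rfl
  have haevalB : ∀ p : R[X], aeval x p ∈ B := fun p => by
    have : aeval x p ∈ Algebra.adjoin R {x} := Polynomial.aeval_mem_adjoin_singleton R x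
    exact (Algebra.adjoin_le (Set.singleton_subset_iff.mpr hx)) this
  set K := kummerSub pb u hT hm0 B hB with hK
  have haevalC : ∀ p : R[X], aeval (algebraMap F C x) p = algebraMap F C (aeval x p) := fun p =>
    Polynomial.aeval_algebraMap_apply C x p
  obtain ⟨s₀, hs₀⟩ := hfin
  obtain ⟨d, hdB, hd0, hdu⟩ := hden
  -- the ambient finitely generated module
  let N : Submodule R[X] F := Submodule.span R[X] (s₀ : Set F)
  have hNfg : N.FG := Submodule.fg_span (Finset.finite_toSet s₀)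
  have hBN : ∀ b ∈ B, b ∈ N := by
    intro b hb
    obtain ⟨P, hP⟩ := hs₀ b hb
    rw [hP]
    refine N.sum_mem fun β hβ => ?_
    rw [← smulF]
    exact N.smul_mem (P β) (Submodule.subset_span hβ)
  -- the graded pieces as `R[X]`-submodules of `F`
  let I : ℕ → Submodule R[X] F := fun k =>
    { carrier := degSet B pb.dim u k
      add_mem' := fun ha hb => add_mem_degSet hB ha hb
      zero_mem' := zero_mem_degSet hm0 k
      smul_mem' := fun p f hf => by
        show p • f ∈ degSet B pb.dim u k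
        rw [smulF]
        exact smul_mem_degSet (haevalB p) hf }
  -- multiplication by a constant as an `R[X]`-linear map
  let mulL : F → (F →ₗ[R[X]] F) := fun a =>
    { toFun := fun f => a * f
      map_add' := fun f g => mul_add a f g
      map_smul' := fun p f => by
        show a * (p • f) = p • (a * f)
        rw [smulF, smulF]; ring }
  have hIfg : ∀ k, (I k).FG := by
    intro k
    have hJle : (I k).map (mulL (d ^ k)) ≤ N := by
      rintro _ ⟨f, hf, rfl⟩
      exact hBN _ (pow_mul_mem_of_mem_degSet hm0 hu hB hdB hdu hf)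
    have hJfg : ((I k).map (mulL (d ^ k))).FG := Submodule.FG.of_le hNfg hJle
    have hI : I k = ((I k).map (mulL (d ^ k))).map (mulL (d ^ k)⁻¹) := by
      rw [← Submodule.map_comp]
      have : (mulL (d ^ k)⁻¹).comp (mulL (d ^ k)) = LinearMap.id := by
        apply LinearMap.ext
        intro f
        show (d ^ k)⁻¹ * (d ^ k * f) = f
        rw [← mul_assoc, inv_mul_cancel₀ (pow_ne_zero k hd0), one_mul]
      rw [this, Submodule.map_id]
    rw [hI]
    exact hJfg.map _
  -- the Kummer algebra as an `R[X]`-submodule of `C`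
  let K' : Submodule R[X] C :=
    { carrier := K
      add_mem' := fun ha hb => K.add_mem ha hb
      zero_mem' := K.zero_mem
      smul_mem' := fun p c hc => by
        show p • c ∈ K
        rw [smulC, haevalC]
        exact K.mul_mem (algebraMap_mem_kummerSub hT hm0 hB (haevalB p)) hc }
  let φ : ℕ → (F →ₗ[R[X]] C) := fun k =>
    { toFun := fun f => algebraMap F C f * pb.gen ^ k
      map_add' := fun f g => by rw [map_add, add_mul]
      map_smul' := fun p f => by
        show algebraMap F C (p • f) * pb.gen ^ k = p • (algebraMap F C f * pb.gen ^ k)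
        rw [smulF, smulC, haevalC, map_mul, mul_assoc] }
  have hK' : K' = ⨆ k : Fin pb.dim, (I (k : ℕ)).map (φ (k : ℕ)) := by
    apply le_antisymm
    · intro c hc
      have hcK : c ∈ K := hc
      rw [← sum_co pb c]
      refine Submodule.sum_mem _ fun k _ => ?_
      refine (le_iSup (fun k : Fin pb.dim => (I (k : ℕ)).map (φ (k : ℕ))) k) ?_
      exact ⟨co pb k c, hcK k, rfl⟩
    · refine iSup_le fun k => ?_
      rintro _ ⟨f, hf, rfl⟩
      exact monomial_mem_kummerSub hT hm0 hB hf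
  have hK'fg : K'.FG := by
    rw [hK']
    exact Submodule.fg_iSup _ fun k => (hIfg k).map _
  obtain ⟨S, hS⟩ := hK'fg
  refine ⟨S, fun c hc => ?_, fun b hb => ?_⟩
  · have : c ∈ K' := hS ▸ Submodule.subset_span hc
    exact this
  · have hb' : b ∈ Submodule.span R[X] (S : Set C) := by rw [hS]; exact hb
    obtain ⟨f, -, hf⟩ := Submodule.mem_span_finset.mp hb'
    exact ⟨f, hf.symm⟩

end Finite

end Fermat.Agent.S18.H394

end
-- ===== PACK-END S18/H394/KummerFinite.lean

-- ===== PACK-BEGIN S18/H425/GoodModelInv.lean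
section


/-!
# S18 / ALG (helper425): `GoodModel` is symmetric under `x ↦ x⁻¹`

* `mem_polyRing_iff` : `c ∈ polyRing R x ↔ ∃ Q : R[X], aeval x Q = c`.
* `goodModel_x_inv_mem_V` : `x⁻¹ ∈ V` (so `x` is a unit of `V`, with the field `x_mem_V`).
* `not_isIntegral_mul_inv` : `z / w` is not integral over `R[z]` (`z` transcendental, `w` a non-unit).
* `goodModel_inv` : `GoodModel Lc Ec Fc R V w x S →
    GoodModel Lc Ec Fc R V w x⁻¹ (insert 0 ((S.erase 0).image (·⁻¹)))`.
* `goodFamily_inv` : the same for `GoodFamily` (same family `𝓕`).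

So the chart at infinity needs no separate treatment: apply any chart theorem to `x⁻¹`.
Imports only the frozen interface `Alg/Spec.lean`.
-/

set_option autoImplicit false

noncomputable section

namespace Fermat.Agent.S18.H425

open Polynomial Fermat.Agent.S18.Alg

variable {Ω : Type*} [Field Ω]

/-- `R[x]` consists of the values at `x` of the polynomials with coefficients in `R`. -/
theorem mem_polyRing_iff {R : Subring Ω} {x c : Ω} :
    c ∈ polyRing R x ↔ ∃ Q : Polynomial R, aeval x Q = c := by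
  have h : polyRing R x = (Algebra.adjoin R {x}).toSubring := by
    rw [Algebra.adjoin_eq_ring_closure]
    unfold polyRing
    congr 1
    have hr : Set.range (algebraMap R Ω) = (R : Set Ω) := by
      ext y
      constructor
      · rintro ⟨a, rfl⟩
        exact a.2
      · intro hy
        exact ⟨⟨y, hy⟩, rfl⟩
    rw [hr]
  rw [h, Subalgebra.mem_toSubring, Algebra.adjoin_singleton_eq_range_aeval]
  rfl

theorem mem_polyRing_of_mem {R : Subring Ω} (x : Ω) {r : Ω} (hr : r ∈ R) : r ∈ polyRing R x :=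
  Subring.subset_closure (Or.inl hr)

theorem self_mem_polyRing (R : Subring Ω) (x : Ω) : x ∈ polyRing R x :=
  Subring.subset_closure (Or.inr rfl)

/-- `x⁻¹ ^ N * Q(x) = (reflect N Q)(x⁻¹)` for `natDegree Q ≤ N`. -/
theorem aeval_inv_reflect {R : Subring Ω} {x : Ω} (hx : x ≠ 0) (N : ℕ) (Q : Polynomial R)
    (hQ : Q.natDegree ≤ N) : aeval x⁻¹ (reflect N Q) = aeval x Q * (x⁻¹) ^ N := by
  let _ : Invertible x := invertibleOfNonzero hx
  have h := eval₂_reflect_mul_pow (algebraMap R Ω) x N Q hQ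
  rw [invOf_eq_inv] at h
  rw [aeval_def, aeval_def, ← h, mul_assoc, ← mul_pow, mul_inv_cancel₀ hx, one_pow, mul_one]

/-- A polynomial relation over a subring `R ≤ Lc` is a polynomial relation over `Lc`. -/
theorem transcendental_subring {R : Subring Ω} {Lc : Subfield Ω} (hRL : ∀ r ∈ R, r ∈ Lc)
    {z : Ω} (hz : Transcendental Lc z) : Transcendental R z := by
  rw [transcendental_iff]
  intro Q hQ
  let ι : R →+* Lc :=
    { toFun := fun r => ⟨r.1, hRL r.1 r.2⟩
      map_one' := rfl
      map_mul' := fun _ _ => rfl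
      map_zero' := rfl
      map_add' := fun _ _ => rfl }
  have hι : Function.Injective ι := fun a b hab =>
    Subtype.ext (congrArg (fun y : Lc => (y : Ω)) hab)
  have hcomp : (algebraMap Lc Ω).comp ι = algebraMap R Ω := rfl
  have h0 : aeval z (Q.map ι) = 0 := by
    rw [aeval_def, eval₂_map, hcomp, ← aeval_def, hQ]
  have := (transcendental_iff.mp hz) (Q.map ι) h0
  exact (Polynomial.map_eq_zero_iff hι).mp this

/-- If `z` is transcendental over `R` and `w ∈ R` is a nonzero non-unit of `R`, then `z / w` is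
not integral over `R[z]`. -/
theorem not_isIntegral_mul_inv {R : Subring Ω} {z w : Ω} (hz : Transcendental R z)
    (hw : w ∈ R) (hw0 : w ≠ 0) (hwinv : w⁻¹ ∉ R) :
    ¬ IsIntegral (polyRing R z) (z * w⁻¹) := by
  rintro ⟨p, hp, hp0⟩
  set n := p.natDegree with hn
  have hcoeff : ∀ i, ∃ Q : Polynomial R, aeval z Q = ((p.coeff i : polyRing R z) : Ω) :=
    fun i => mem_polyRing_iff.mp (p.coeff i).2
  choose Q hQ using hcoeff
  let ω : R := ⟨w, hw⟩
  let H : Polynomial R := ∑ i ∈ Finset.range n, Q i * C ω ^ (n - 1 - i) * X ^ i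
  have hsum : (z * w⁻¹) ^ n +
      ∑ i ∈ Finset.range n, ((p.coeff i : polyRing R z) : Ω) * (z * w⁻¹) ^ i = 0 := by
    rw [eval₂_eq_sum_range, Finset.sum_range_succ, ← hn] at hp0
    have hlead : p.coeff n = 1 := hp
    rw [hlead, map_one, one_mul, add_comm] at hp0
    exact hp0
  have hG : aeval z (X ^ n + C ω * H) = 0 := by
    have hω : algebraMap R Ω ω = w := rfl
    rw [map_add, map_mul, map_pow, aeval_X, aeval_C, hω, map_sum]
    have : w ^ n * ((z * w⁻¹) ^ n +
        ∑ i ∈ Finset.range n, ((p.coeff i : polyRing R z) : Ω) * (z * w⁻¹) ^ i) = 0 := by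
      rw [hsum, mul_zero]
    rw [← this, mul_add, Finset.mul_sum, Finset.mul_sum]
    congr 1
    · rw [mul_pow, mul_comm (z ^ n), ← mul_assoc, ← mul_pow, mul_inv_cancel₀ hw0, one_pow,
        one_mul]
    · apply Finset.sum_congr rfl
      intro i hi
      have hi' : i < n := Finset.mem_range.mp hi
      rw [map_mul, map_mul, map_pow, map_pow, aeval_X, aeval_C, hω, hQ]
      have hwn : w ^ n = w * w ^ (n - 1 - i) * w ^ i := by
        rw [← pow_succ', ← pow_add]
        congr 1
        omega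
      rw [hwn, mul_pow]
      have hwi : w ^ i * (w⁻¹) ^ i = 1 := by
        rw [← mul_pow, mul_inv_cancel₀ hw0, one_pow]
      calc w * (((p.coeff i : polyRing R z) : Ω) * w ^ (n - 1 - i) * z ^ i)
          = w * w ^ (n - 1 - i) * (((p.coeff i : polyRing R z) : Ω) * z ^ i) * 1 := by ring
        _ = w * w ^ (n - 1 - i) * (((p.coeff i : polyRing R z) : Ω) * z ^ i) *
              (w ^ i * (w⁻¹) ^ i) := by rw [hwi]
        _ = w * w ^ (n - 1 - i) * w ^ i *
              (((p.coeff i : polyRing R z) : Ω) * (z ^ i * w⁻¹ ^ i)) := by ring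
  have hG0 := (transcendental_iff.mp hz) _ hG
  have hc := congrArg (fun P => P.coeff n) hG0
  simp only [coeff_add, coeff_X_pow, if_true, coeff_C_mul, coeff_zero] at hc
  apply hwinv
  have h1 : w * (-(H.coeff n : R) : R) = 1 := by
    have h2 : (1 : R) + ω * H.coeff n = 0 := hc
    have h3 := congrArg (fun r : R => (r : Ω)) h2
    simp only [Subring.coe_add, Subring.coe_one, Subring.coe_mul, Subring.coe_zero] at h3
    have hω : (ω : Ω) = w := rfl
    rw [hω] at h3
    rw [Subring.coe_neg, mul_neg]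
    linear_combination -h3
  have h4 : w⁻¹ = ((-(H.coeff n : R) : R) : Ω) := by
    exact inv_eq_of_mul_eq_one_right h1
  rw [h4]
  exact (-(H.coeff n)).2

/-- `P(x⁻¹) = (reflect N P)(x) * x⁻¹ ^ N` for a polynomial over `Ω`, `natDegree P ≤ N`. -/
theorem eval_inv_eq_reflect {x : Ω} (hx : x ≠ 0) (N : ℕ) (P : Polynomial Ω)
    (hP : P.natDegree ≤ N) : P.eval x⁻¹ = (reflect N P).eval x * (x⁻¹) ^ N := by
  let _ : Invertible x⁻¹ := invertibleOfNonzero (inv_ne_zero hx)
  have h := eval₂_reflect_mul_pow (RingHom.id Ω) x⁻¹ N P hP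
  rw [invOf_eq_inv, inv_inv] at h
  rw [eval, eval, h]

/-- For a valuation subring: `a⁻¹ ∉ O` iff `a ≠ 0` and `v a < 1`. -/
theorem inv_not_mem_iff (O : ValuationSubring Ω) {a : Ω} :
    a⁻¹ ∉ O ↔ a ≠ 0 ∧ O.valuation a < 1 := by
  constructor
  · intro h
    have ha : a ≠ 0 := by
      rintro rfl
      exact h (by simp)
    refine ⟨ha, ?_⟩
    by_contra hlt
    apply h
    rw [← ValuationSubring.valuation_le_one_iff, map_inv₀]
    exact inv_le_one_of_one_le₀ (not_lt.mp hlt)
  · rintro ⟨ha, hlt⟩ hmem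
    rw [← ValuationSubring.valuation_le_one_iff, map_inv₀] at hmem
    have hv0 : O.valuation a ≠ 0 := (Valuation.ne_zero_iff _).mpr ha
    have : 1 ≤ O.valuation a := by
      have := (inv_le_one₀ (zero_lt_iff.mpr hv0)).mp hmem
      exact this
    exact absurd hlt (not_lt.mpr this)

section GoodModel

variable {Lc Ec Fc : Subfield Ω} {R V : Subring Ω} {w x : Ω} {S : Finset Ω}

theorem goodModel_x_ne_zero (h : GoodModel Lc Ec Fc R V w x S) : x ≠ 0 := by
  rintro rfl
  exact h.x_transcendental isAlgebraic_zero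

theorem goodModel_R_le_Lc (h : GoodModel Lc Ec Fc R V w x S) : ∀ r ∈ R, r ∈ Lc :=
  fun _ hr => h.E_le_L (h.R_le hr)

theorem goodModel_transcendental_inv (h : GoodModel Lc Ec Fc R V w x S) :
    Transcendental Lc x⁻¹ := by
  intro hx
  apply h.x_transcendental
  have := hx.inv
  rwa [inv_inv] at this

/-- `x⁻¹ ∈ V`. -/
theorem goodModel_x_inv_mem_V (h : GoodModel Lc Ec Fc R V w x S) : x⁻¹ ∈ V := by
  have := h.gauss X (fun i => by
    rw [coeff_X]
    split_ifs
    · exact R.one_mem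
    · exact R.zero_mem) ⟨1, by simp, by simp⟩
  simpa using this

theorem ratField_inv (Ec : Subfield Ω) (x : Ω) : ratField Ec x⁻¹ = ratField Ec x := by
  unfold ratField
  apply le_antisymm
  · rw [Subfield.closure_le]
    rintro y (hy | hy)
    · exact Subfield.subset_closure (Or.inl hy)
    · rw [Set.mem_singleton_iff] at hy
      rw [hy]
      exact Subfield.inv_mem _ (Subfield.subset_closure (Or.inr rfl))
  · rw [Subfield.closure_le]
    rintro y (hy | hy)
    · exact Subfield.subset_closure (Or.inl hy)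
    · rw [Set.mem_singleton_iff] at hy
      rw [hy]
      have : x⁻¹ ∈ Subfield.closure ((Ec : Set Ω) ∪ {x⁻¹}) :=
        Subfield.subset_closure (Or.inr rfl)
      have := Subfield.inv_mem _ this
      rwa [inv_inv] at this

/-- `gauss` for `x⁻¹`. -/
theorem goodModel_gauss_inv (h : GoodModel Lc Ec Fc R V w x S) (P : Polynomial Ω)
    (hP : ∀ i, P.coeff i ∈ R) (hu : ∃ i, P.coeff i ≠ 0 ∧ (P.coeff i)⁻¹ ∈ R) :
    (P.eval x⁻¹)⁻¹ ∈ V := by
  have hx := goodModel_x_ne_zero h
  rw [eval_inv_eq_reflect hx P.natDegree P le_rfl, mul_inv, ← inv_pow, inv_inv]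
  refine V.mul_mem (h.gauss _ (fun i => ?_) ?_) (V.pow_mem h.x_mem_V _)
  · rw [coeff_reflect]
    exact hP _
  · obtain ⟨i, hi0, hi⟩ := hu
    refine ⟨revAt P.natDegree i, ?_, ?_⟩
    · rw [coeff_reflect, revAt_invol]
      exact hi0
    · rw [coeff_reflect, revAt_invol]
      exact hi

/-- `separable` for `x⁻¹`. -/
theorem goodModel_separable_inv (h : GoodModel Lc Ec Fc R V w x S) (f : Ω) (hf : f ∈ V) :
    ∃ P : Polynomial Ω, (∀ i, P.coeff i ∈ polyRing R x⁻¹) ∧
      P.eval f * w⁻¹ ∈ V ∧ (Polynomial.derivative P).eval f ≠ 0 ∧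
      ((Polynomial.derivative P).eval f)⁻¹ ∈ V := by
  have hx := goodModel_x_ne_zero h
  obtain ⟨P, hPc, hP0, hP1, hP2⟩ := h.separable f hf
  have hex : ∀ i, ∃ Q : Polynomial R, aeval x Q = P.coeff i := fun i => mem_polyRing_iff.mp (hPc i)
  choose Q hQ using hex
  let D : ℕ := P.support.sup fun i => (Q i).natDegree
  refine ⟨C ((x⁻¹) ^ D) * P, fun i => ?_, ?_, ?_, ?_⟩
  · rw [coeff_C_mul]
    by_cases hi : i ∈ P.support
    · have hdeg : (Q i).natDegree ≤ D := Finset.le_sup (f := fun i => (Q i).natDegree) hi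
      rw [mem_polyRing_iff]
      exact ⟨reflect D (Q i), by rw [aeval_inv_reflect hx D (Q i) hdeg, hQ, mul_comm]⟩
    · rw [notMem_support_iff.mp hi, mul_zero]
      exact Subring.zero_mem _
  · rw [eval_mul, eval_C, mul_assoc]
    exact V.mul_mem (V.pow_mem (goodModel_x_inv_mem_V h) _) hP0
  · rw [derivative_C_mul, eval_mul, eval_C]
    exact mul_ne_zero (pow_ne_zero _ (inv_ne_zero hx)) hP1
  · rw [derivative_C_mul, eval_mul, eval_C, mul_inv, ← inv_pow, inv_inv]
    exact V.mul_mem (V.pow_mem h.x_mem_V _) hP2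

/-- `unramified` for `x⁻¹`. -/
theorem goodModel_unramified_inv [DecidableEq Ω] (h : GoodModel Lc Ec Fc R V w x S)
    (O : ValuationSubring Ω) (hL : ∀ a ∈ Lc, a ∈ O) (c : Ω) (hc : c ∈ Lc)
    (hcS : c ∉ insert 0 ((S.erase 0).image (·⁻¹)))
    (h1 : x⁻¹ - c ∈ O) (h2 : (x⁻¹ - c)⁻¹ ∉ O) (t : Ω) (ht : t ∈ O) (ht' : t⁻¹ ∉ O) :
    t * (x⁻¹ - c)⁻¹ ∈ O := by
  have hx := goodModel_x_ne_zero h
  have hc0 : c ≠ 0 := by
    rintro rfl
    exact hcS (Finset.mem_insert_self _ _)
  have hcinvS : c⁻¹ ∉ S := by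
    intro hmem
    apply hcS
    apply Finset.mem_insert_of_mem
    rw [Finset.mem_image]
    exact ⟨c⁻¹, Finset.mem_erase.mpr ⟨inv_ne_zero hc0, hmem⟩, inv_inv c⟩
  have hcO : c ∈ O := hL c hc
  have hcinvO : c⁻¹ ∈ O := hL _ (Lc.inv_mem hc)
  obtain ⟨hne, hlt⟩ := (inv_not_mem_iff O).mp h2
  have hvc : O.valuation c = 1 := by
    apply le_antisymm ((ValuationSubring.valuation_le_one_iff O c).mpr hcO)
    have := (ValuationSubring.valuation_le_one_iff O c⁻¹).mpr hcinvO
    rw [map_inv₀] at this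
    exact (inv_le_one₀ (zero_lt_iff.mpr ((Valuation.ne_zero_iff _).mpr hc0))).mp this
  have hvxinv : O.valuation x⁻¹ = 1 := by
    have : x⁻¹ = (x⁻¹ - c) + c := by ring
    rw [this, Valuation.map_add_eq_of_lt_right _ (by rw [hvc]; exact hlt), hvc]
  have hvx : O.valuation x = 1 := by
    rw [map_inv₀] at hvxinv
    exact inv_eq_one.mp hvxinv
  have hxO : x ∈ O := (ValuationSubring.valuation_le_one_iff O x).mp hvx.le
  have hid : x - c⁻¹ = -(c⁻¹ * x * (x⁻¹ - c)) := by
    field_simp
    ring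
  have h1' : x - c⁻¹ ∈ O := by
    rw [hid]
    exact O.neg_mem _ (O.mul_mem _ _ (O.mul_mem _ _ hcinvO hxO) h1)
  have h2' : (x - c⁻¹)⁻¹ ∉ O := by
    rw [inv_not_mem_iff]
    refine ⟨?_, ?_⟩
    · rw [hid]
      exact neg_ne_zero.mpr (mul_ne_zero (mul_ne_zero (inv_ne_zero hc0) hx) hne)
    · rw [hid, Valuation.map_neg, map_mul, map_mul, map_inv₀, hvc, hvx, inv_one, one_mul, one_mul]
      exact hlt
  have key := h.unramified O hL c⁻¹ (Lc.inv_mem hc) hcinvS h1' h2' t ht ht'
  have hid2 : t * (x⁻¹ - c)⁻¹ = -(t * (x - c⁻¹)⁻¹ * (c⁻¹ * x)) := by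
    have hne' : x - c⁻¹ ≠ 0 := by
      rw [hid]
      exact neg_ne_zero.mpr (mul_ne_zero (mul_ne_zero (inv_ne_zero hc0) hx) hne)
    rw [hid]
    field_simp
  rw [hid2]
  exact O.neg_mem _ (O.mul_mem _ _ key (O.mul_mem _ _ hcinvO hxO))

/-- **`GoodModel` is symmetric under `x ↦ x⁻¹`**, with branch set
`S' = {0} ∪ {s⁻¹ : s ∈ S, s ≠ 0}`. -/
theorem goodModel_inv [DecidableEq Ω] (h : GoodModel Lc Ec Fc R V w x S) :
    GoodModel Lc Ec Fc R V w x⁻¹ (insert 0 ((S.erase 0).image (·⁻¹))) where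
  charZero := h.charZero
  R_le := h.R_le
  R_total := h.R_total
  w_mem := h.w_mem
  w_ne_zero := h.w_ne_zero
  w_inv_not_mem := h.w_inv_not_mem
  w_gen := h.w_gen
  w_discrete := h.w_discrete
  residue_perfect := h.residue_perfect
  E_le_L := h.E_le_L
  E_le_F := h.E_le_F
  L_algebraic := h.L_algebraic
  L_algClosed := h.L_algClosed
  E_closed_in_F := h.E_closed_in_F
  compositum := h.compositum
  x_mem := Fc.inv_mem h.x_mem
  x_transcendental := goodModel_transcendental_inv h
  finite := by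
    rw [ratField_inv]
    exact h.finite
  V_le := h.V_le
  V_total := h.V_total
  R_le_V := h.R_le_V
  w_inv_not_mem_V := h.w_inv_not_mem_V
  V_gen := h.V_gen
  x_mem_V := goodModel_x_inv_mem_V h
  gauss := goodModel_gauss_inv h
  qep_fin := h.qep_inf
  qep_inf := by
    rw [inv_inv]
    exact h.qep_fin
  separable := goodModel_separable_inv h
  S_mem := by
    intro s hs
    rcases Finset.mem_insert.mp hs with rfl | hs
    · exact R.zero_mem
    · obtain ⟨s', hs', rfl⟩ := Finset.mem_image.mp hs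
      obtain ⟨hs0, hsS⟩ := Finset.mem_erase.mp hs'
      exact h.S_unit s' hsS hs0
  S_distinct := by
    intro a ha b hb hab
    rcases Finset.mem_insert.mp ha with rfl | ha
    · rcases Finset.mem_insert.mp hb with rfl | hb
      · exact absurd rfl hab
      · obtain ⟨s', hs', rfl⟩ := Finset.mem_image.mp hb
        obtain ⟨hs0, hsS⟩ := Finset.mem_erase.mp hs'
        have : (0 - s'⁻¹)⁻¹ = -s' := by
          rw [zero_sub, inv_neg, inv_inv]
        rw [this]
        exact R.neg_mem (h.S_mem s' hsS)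
    · obtain ⟨s', hs', rfl⟩ := Finset.mem_image.mp ha
      obtain ⟨hs0, hsS⟩ := Finset.mem_erase.mp hs'
      rcases Finset.mem_insert.mp hb with rfl | hb
      · have : (s'⁻¹ - 0)⁻¹ = s' := by
          rw [sub_zero, inv_inv]
        rw [this]
        exact h.S_mem s' hsS
      · obtain ⟨t', ht', rfl⟩ := Finset.mem_image.mp hb
        obtain ⟨ht0, htS⟩ := Finset.mem_erase.mp ht'
        have hst : s' ≠ t' := by
          rintro rfl
          exact hab rfl
        have hts : t' - s' ≠ 0 := sub_ne_zero.mpr (Ne.symm hst)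
        have : (s'⁻¹ - t'⁻¹)⁻¹ = s' * t' * (t' - s')⁻¹ := by
          field_simp
        rw [this]
        exact R.mul_mem (R.mul_mem (h.S_mem s' hsS) (h.S_mem t' htS))
          (h.S_distinct t' htS s' hsS (Ne.symm hst))
  S_unit := by
    intro s hs hs0
    rcases Finset.mem_insert.mp hs with rfl | hs
    · exact absurd rfl hs0
    · obtain ⟨s', hs', rfl⟩ := Finset.mem_image.mp hs
      obtain ⟨_, hsS⟩ := Finset.mem_erase.mp hs'
      rw [inv_inv]
      exact h.S_mem s' hsS
  unramified := goodModel_unramified_inv h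

/-- A good family for `x` is a good family for `x⁻¹`. -/
theorem goodFamily_inv [DecidableEq Ω] {𝓕 : Set (Model Ω)} (h : GoodFamily Lc x S 𝓕) :
    GoodFamily Lc x⁻¹ (insert 0 ((S.erase 0).image (·⁻¹))) 𝓕 where
  good := fun p hp => goodModel_inv (h.good p hp)
  enlarge := h.enlarge

end GoodModel

end Fermat.Agent.S18.H425

end
end
-- ===== PACK-END S18/H425/GoodModelInv.lean

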