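import Mathlib
import Fermat.Prelude.Def_ModularCurve_LaurentCoeff
import Fermat.Prelude.Def_ModularCurve_X0ModL
import Mathlib.GroupTheory.Index
import Mathlib.SetTheory.Cardinal.NatCard
import Mathlib.SetTheory.Cardinal.Finite
import Fermat.Agent.Pack.S3234.G0E2L3
import Fermat.Agent.Pack.S3234.G0E0L1
import Fermat.Agent.Pack.S3234.G0E0L2
import Fermat.Agent.Pack.S3234.G0E2L1
import Fermat.Agent.Pack.S3234.G0E2L2
import Fermat.Agent.Pack.S3234.G0E2L0
import Fermat.Agent.Pack.S3234.G0E1L2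
import Fermat.Agent.Pack.S3234.G0E1L3
import Fermat.Agent.Pack.S3234.G0E1L0
import Fermat.Agent.Pack.S3234.G0E1L1

-- ===== PACK-BEGIN S24/Deg/H648JBound.lean
section


/-!
# S24 / M6-AN (helper648): the concrete `j`-function satisfies the hypotheses of
`J_scale_mem_goodRing`
-/

set_option autoImplicit false

noncomputable section

open UpperHalfPlane ModularGroup CongruenceSubgroup Polynomial ModularForm Filter Asymptotics
open scoped MatrixGroups Manifold Modular Real

namespace Fermat.Agent.S24.H648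

/-- A continuous function on `ℍ` which is `O(exp(2π m im τ))` at `i∞` is bounded by a multiple
of `exp(2π m im τ)` on the whole fundamental domain. -/
lemma exists_bound_fd_of_isBigO_exp {f : ℍ → ℂ} (hf : Continuous f) (m : ℝ)
    (hO : f =O[atImInfty] fun τ : ℍ => Real.exp (2 * π * m * τ.im)) :
    ∃ C : ℝ, ∀ τ : ℍ, τ ∈ 𝒟 → ‖f τ‖ ≤ C * Real.exp (2 * π * m * τ.im) := by
  obtain ⟨D, hD, hO'⟩ := hO.exists_pos
  rw [IsBigOWith, atImInfty, eventually_comap, eventually_atTop] at hO'
  obtain ⟨y, hy⟩ := hO'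
  have hfm : ContinuousOn (fun τ : ℍ => ‖f τ‖ / Real.exp (2 * π * m * τ.im))
      (truncatedFundamentalDomain y) := by
    apply Continuous.continuousOn
    refine hf.norm.div ?_ fun τ => (Real.exp_pos _).ne'
    exact Real.continuous_exp.comp (continuous_const.mul UpperHalfPlane.continuous_im)
  obtain ⟨E, hE⟩ : ∃ E, ∀ τ ∈ truncatedFundamentalDomain y,
      ‖f τ‖ / Real.exp (2 * π * m * τ.im) ≤ E := by
    obtain ⟨E, hE⟩ := (isCompact_truncatedFundamentalDomain y).exists_bound_of_continuousOn hfm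
    refine ⟨E, fun τ hτ => ?_⟩
    have := hE τ hτ
    rwa [Real.norm_of_nonneg (by positivity)] at this
  refine ⟨max D E, fun τ hτ => ?_⟩
  rcases le_total y (im τ) with hτ' | hτ'
  · have := hy _ hτ' τ rfl
    rw [Real.norm_of_nonneg (Real.exp_pos _).le] at this
    exact this.trans (mul_le_mul_of_nonneg_right (le_max_left _ _) (Real.exp_pos _).le)
  · rw [← div_le_iff₀ (Real.exp_pos _)]
    exact (hE τ ⟨hτ, hτ'⟩).trans (le_max_right _ _)

/-- The analytic `j`-function `E₄³/Δ`. -/
def jFun (τ : ℍ) : ℂ := E₄ τ ^ 3 / ModularForm.discriminant τ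

lemma jFun_def (τ : ℍ) : jFun τ = E₄ τ ^ 3 / ModularForm.discriminant τ := rfl

lemma mdifferentiable_jFun : MDifferentiable 𝓘(ℂ) 𝓘(ℂ) jFun := by
  have h4 : MDifferentiable 𝓘(ℂ) 𝓘(ℂ) (E₄ : ℍ → ℂ) := ModularFormClass.holo E₄
  have hΔ : MDifferentiable 𝓘(ℂ) 𝓘(ℂ) (ModularForm.discriminant : ℍ → ℂ) :=
    ModularFormClass.holo CuspForm.discriminant
  rw [UpperHalfPlane.mdifferentiable_iff] at h4 hΔ ⊢
  have : DifferentiableOn ℂ
      (fun z => ((E₄ : ℍ → ℂ) ∘ ofComplex) z ^ 3 / ((ModularForm.discriminant : ℍ → ℂ) ∘ ofComplex) z)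
      {z | 0 < z.im} :=
    (h4.pow 3).div hΔ fun z _ => discriminant_ne_zero _
  exact this

lemma jFun_smul (γ : SL(2, ℤ)) (τ : ℍ) : jFun (γ • τ) = jFun τ := by
  have : SlashInvariantFormClass (ModularForm 𝒮ℒ 4) Γ(1) 4 := Gamma_one_coe_eq_SL ▸ inferInstance
  have : SlashInvariantFormClass (CuspForm 𝒮ℒ 12) Γ(1) 12 :=
    Gamma_one_coe_eq_SL ▸ inferInstance
  have h4 := SlashInvariantForm.slash_action_eqn_SL'' E₄ (mem_Gamma_one γ) τ
  have h12 := SlashInvariantForm.slash_action_eqn_SL'' CuspForm.discriminant (mem_Gamma_one γ) τ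
  have hd : denom γ τ ≠ 0 := denom_ne_zero _ τ
  have hΔ : ModularForm.discriminant τ ≠ 0 := discriminant_ne_zero τ
  have h12' : ModularForm.discriminant (γ • τ) = denom γ τ ^ (12 : ℤ) * ModularForm.discriminant τ :=
    h12
  rw [jFun_def, jFun_def, h4, h12']
  have e1 : (denom γ τ ^ (4 : ℤ) * E₄ τ) ^ 3 = denom γ τ ^ (12 : ℤ) * E₄ τ ^ 3 := by
    rw [mul_pow, ← zpow_natCast, ← zpow_mul]
    norm_num
  rw [e1, mul_div_mul_left _ _ (zpow_ne_zero _ hd)]

lemma continuous_jFun : Continuous jFun := mdifferentiable_jFun.continuous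

lemma jFun_isBigO : jFun =O[atImInfty] fun τ : ℍ => Real.exp (2 * π * (1 : ℝ) * τ.im) := by
  have h4 : IsBoundedAtImInfty (E₄ : ℍ → ℂ) := ModularFormClass.bdd_at_infty E₄
  have h4' : (fun τ : ℍ => E₄ τ ^ 3) =O[atImInfty] (fun _ : ℍ => (1 : ℝ)) := by
    have h1 : (E₄ : ℍ → ℂ) =O[atImInfty] (fun _ : ℍ => (1 : ℝ)) := h4
    simpa using h1.pow 3
  have hΔ := exp_isBigO_discriminant
  -- `1/Δ = O(exp(2π im))`
  have hinv : (fun τ : ℍ => (ModularForm.discriminant τ)⁻¹)
      =O[atImInfty] fun τ : ℍ => (Real.exp (-2 * π * τ.im))⁻¹ := by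
    refine hΔ.inv_rev ?_
    exact Eventually.of_forall fun τ h => absurd h (Real.exp_pos _).ne'
  have hmul := h4'.mul hinv
  refine (hmul.congr_left fun τ => by rw [jFun_def, div_eq_mul_inv]).congr_right fun τ => ?_
  rw [one_mul, ← Real.exp_neg]
  congr 1
  ring

theorem jFun_bound_fd :
    ∃ C : ℝ, ∀ τ : ℍ, τ ∈ 𝒟 → ‖jFun τ‖ ≤ C * Real.exp (2 * π * τ.im) := by
  obtain ⟨C, hC⟩ := exists_bound_fd_of_isBigO_exp continuous_jFun 1 jFun_isBigO
  exact ⟨C, fun τ hτ => by simpa using hC τ hτ⟩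

/-- **`τ ↦ j (d τ)` is a good function of level `N` for `d ∣ N`.** -/
theorem jFun_scale_mem_goodRing (N : ℕ) (d : ℕ) (hd : 0 < d) (hdN : d ∣ N) (s : ℍ → ℍ)
    (hs : ∀ τ : ℍ, (s τ : ℂ) = d * τ) : (fun τ => jFun (s τ)) ∈ goodRing N :=
  J_scale_mem_goodRing N mdifferentiable_jFun jFun_smul jFun_bound_fd d hd hdN s hs

end Fermat.Agent.S24.H648

end
end
-- ===== PACK-END S24/Deg/H648JBound.lean

-- ===== PACK-BEGIN S24/H117/EmbPlace.lean
section


/-!
# S24 / H117 — the place induced by an embedding into Laurent series (LT1)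

For a ring homomorphism `σ : F →+* LaurentSeries C` which is "constant on `K`" and nontrivial
(some element has nonzero order), `{f | 0 ≤ (σ f).order}` is a discrete valuation ring of `F`
containing `K`, i.e. a `Place K F`, and `(σ f).order = k * v.ord f` for a fixed `k > 0`.
-/

set_option autoImplicit false

noncomputable section

open AlgebraicCurve

namespace Fermat.Agent.S24.H117

variable {K F : Type*} [Field K] [Field F] [Algebra K F]
variable {C : Type*} [Field C]

section Laurent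

theorem order_inv' (g : LaurentSeries C) : (g⁻¹).order = -g.order := by
  rcases eq_or_ne g 0 with rfl | hg
  · simp
  have h := HahnSeries.order_mul hg (inv_ne_zero hg)
  rw [mul_inv_cancel₀ hg, HahnSeries.order_one] at h
  omega

theorem order_add_ge' {g h : LaurentSeries C} (hg : 0 ≤ g.order) (hh : 0 ≤ h.order) :
    0 ≤ (g + h).order := by
  rcases eq_or_ne (g + h) 0 with h0 | h0
  · rw [h0, HahnSeries.order_zero]
  · exact le_trans (le_min hg hh) (HahnSeries.min_order_le_order_add h0)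

/-- The valuation subring of `C((z))` of series of non-negative order. -/
def OL (C : Type*) [Field C] : ValuationSubring (LaurentSeries C) where
  carrier := {g | 0 ≤ g.order}
  mul_mem' := by
    intro a b ha hb
    simp only [Set.mem_ofPred_eq] at ha hb ⊢
    rcases eq_or_ne a 0 with rfl | ha0
    · simp
    rcases eq_or_ne b 0 with rfl | hb0
    · simp
    rw [HahnSeries.order_mul ha0 hb0]
    omega
  one_mem' := by simp
  add_mem' := by
    intro a b ha hb
    exact order_add_ge' ha hb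
  zero_mem' := by simp
  neg_mem' := by
    intro a ha
    simp only [Set.mem_ofPred_eq] at ha ⊢
    rwa [HahnSeries.order_neg]
  mem_or_inv_mem' := by
    intro a
    simp only [Set.mem_ofPred_eq]
    rw [order_inv']
    omega

@[simp]
theorem mem_OL {g : LaurentSeries C} : g ∈ OL C ↔ 0 ≤ g.order := Iff.rfl

end Laurent

section Emb

variable (σ : F →+* LaurentSeries C)

/-- The order function of an embedding. -/
def eord (f : F) : ℤ := (σ f).order

@[simp] theorem eord_zero : eord σ 0 = 0 := by simp [eord]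

@[simp] theorem eord_one : eord σ 1 = 0 := by simp [eord]

theorem eord_mul {f g : F} (hf : f ≠ 0) (hg : g ≠ 0) :
    eord σ (f * g) = eord σ f + eord σ g := by
  simp only [eord, map_mul]
  exact HahnSeries.order_mul ((map_ne_zero σ).mpr hf) ((map_ne_zero σ).mpr hg)

theorem eord_inv (f : F) : eord σ f⁻¹ = -eord σ f := by
  simp only [eord, map_inv₀]
  exact order_inv' _

theorem eord_pow (f : F) (n : ℕ) : eord σ (f ^ n) = n * eord σ f := by
  simp only [eord, map_pow, HahnSeries.order_pow, nsmul_eq_mul]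

theorem eord_zpow (f : F) (n : ℤ) : eord σ (f ^ n) = n * eord σ f := by
  cases n with
  | ofNat n => simpa using eord_pow σ f n
  | negSucc n =>
    rw [zpow_negSucc, eord_inv, eord_pow]
    simp only [Int.negSucc_eq]
    push_cast
    ring

theorem eord_neg (f : F) : eord σ (-f) = eord σ f := by
  simp only [eord, map_neg, HahnSeries.order_neg]

theorem eord_add_ge {f g : F} (hfg : f + g ≠ 0) :
    min (eord σ f) (eord σ g) ≤ eord σ (f + g) := by
  simp only [eord, map_add]
  apply HahnSeries.min_order_le_order_add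
  rw [← map_add]
  exact (map_ne_zero σ).mpr hfg

/-- The valuation subring of `F` induced by `σ`. -/
def embRing : ValuationSubring F := (OL C).comap σ

@[simp]
theorem mem_embRing {f : F} : f ∈ embRing σ ↔ 0 ≤ eord σ f := Iff.rfl

theorem coe_ne_zero_embRing {a : embRing σ} (ha : a ≠ 0) : (a : F) ≠ 0 :=
  fun h => ha (Subtype.ext h)

theorem isUnit_embRing_iff {a : embRing σ} (ha : a ≠ 0) : IsUnit a ↔ eord σ (a : F) = 0 := by
  have ha0 : (a : F) ≠ 0 := coe_ne_zero_embRing σ ha
  constructor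
  · intro h
    obtain ⟨b, hb⟩ := isUnit_iff_exists_inv.mp h
    have hb' : (a : F) * (b : F) = 1 := congrArg Subtype.val hb
    have hbne : (b : F) ≠ 0 := by
      intro h0
      rw [h0, mul_zero] at hb'
      exact zero_ne_one hb'
    have hsum := eord_mul σ ha0 hbne
    rw [hb', eord_one] at hsum
    have h1 : 0 ≤ eord σ (a : F) := a.2
    have h2 : 0 ≤ eord σ (b : F) := b.2
    omega
  · intro h0
    have hinv : (a : F)⁻¹ ∈ embRing σ := by
      rw [mem_embRing, eord_inv]; omega
    exact ⟨⟨a, ⟨(a : F)⁻¹, hinv⟩, Subtype.ext (mul_inv_cancel₀ ha0),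
      Subtype.ext (inv_mul_cancel₀ ha0)⟩, rfl⟩

/-- If some element has nonzero order, then `embRing σ` is a discrete valuation ring: there is
an element `π` of minimal positive order `k`, and every order is a multiple of `k`. -/
theorem exists_min_pos (hnt : ∃ t : F, eord σ t ≠ 0) :
    ∃ (k : ℕ) (π : F), 0 < k ∧ π ≠ 0 ∧ eord σ π = k ∧ ∀ f : F, (k : ℤ) ∣ eord σ f := by
  classical
  obtain ⟨t, ht⟩ := hnt
  have hex : ∃ n : ℕ, 0 < n ∧ ∃ f : F, eord σ f = n := by
    rcases lt_or_gt_of_ne ht with h | h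
    · refine ⟨(eord σ t⁻¹).toNat, ?_, t⁻¹, ?_⟩
      · rw [eord_inv]; omega
      · rw [eord_inv]; omega
    · exact ⟨(eord σ t).toNat, by omega, t, by omega⟩
  let k := Nat.find hex
  obtain ⟨hk0, π, hπ⟩ := Nat.find_spec hex
  have hmin : ∀ n : ℕ, 0 < n → (∃ f : F, eord σ f = n) → k ≤ n := fun n hn hf =>
    Nat.find_min' hex ⟨hn, hf⟩
  have hπ0 : π ≠ 0 := by
    rintro rfl
    rw [eord_zero] at hπ
    have : (k : ℤ) = 0 := hπ.symm
    have hk0' : 0 < k := hk0
    omega
  refine ⟨k, π, hk0, hπ0, hπ, fun f => ?_⟩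
  rcases eq_or_ne f 0 with rfl | hf
  · simp
  -- division with remainder
  set q := eord σ f / (k : ℤ) with hq
  set r := eord σ f % (k : ℤ) with hr
  have hk0' : (0 : ℤ) < k := by exact_mod_cast hk0
  have hr0 : 0 ≤ r := Int.emod_nonneg _ hk0'.ne'
  have hrk : r < k := Int.emod_lt_of_pos _ hk0'
  have hdecomp : eord σ f = k * q + r := (Int.mul_ediv_add_emod _ _).symm
  have hg : eord σ (f * π ^ (-q)) = r := by
    rw [eord_mul σ hf (zpow_ne_zero _ hπ0), eord_zpow, hπ, hdecomp]
    ring
  by_cases hr' : r = 0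
  · exact Int.dvd_of_emod_eq_zero hr'
  · exfalso
    have := hmin r.toNat (by omega) ⟨_, by rw [hg]; omega⟩
    have hk0'' : 0 < k := hk0
    omega

theorem isDiscreteValuationRing_embRing (hnt : ∃ t : F, eord σ t ≠ 0) :
    IsDiscreteValuationRing (embRing σ) := by
  obtain ⟨k, π, hk0, hπ0, hπ, hdvd⟩ := exists_min_pos σ hnt
  have hπmem : π ∈ embRing σ := by rw [mem_embRing, hπ]; positivity
  have hk0' : (0 : ℤ) < k := by exact_mod_cast hk0
  apply IsDiscreteValuationRing.ofHasUnitMulPowIrreducibleFactorization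
  refine ⟨⟨π, hπmem⟩, ?_, ?_⟩
  · -- irreducible
    have hπne : (⟨π, hπmem⟩ : embRing σ) ≠ 0 := fun h => hπ0 (congrArg Subtype.val h)
    refine ⟨fun hu => ?_, fun a b hab => ?_⟩
    · have := (isUnit_embRing_iff σ hπne).mp hu
      simp only at this
      omega
    · have hab' : π = (a : F) * (b : F) := congrArg Subtype.val hab
      have ha0 : a ≠ 0 := by
        rintro rfl
        apply hπ0
        simpa using hab'
      have hb0 : b ≠ 0 := by
        rintro rfl
        apply hπ0
        simpa using hab'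
      have ha0' : (a : F) ≠ 0 := coe_ne_zero_embRing σ ha0
      have hb0' : (b : F) ≠ 0 := coe_ne_zero_embRing σ hb0
      have hsum := eord_mul σ ha0' hb0'
      rw [← hab', hπ] at hsum
      obtain ⟨ca, hca⟩ := hdvd (a : F)
      obtain ⟨cb, hcb⟩ := hdvd (b : F)
      have h1 : 0 ≤ eord σ (a : F) := a.2
      have h2 : 0 ≤ eord σ (b : F) := b.2
      rw [isUnit_embRing_iff σ ha0, isUnit_embRing_iff σ hb0]
      have hca0 : 0 ≤ ca := by
        by_contra hneg
        push Not at hneg
        rw [hca] at h1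
        nlinarith
      have hcb0 : 0 ≤ cb := by
        by_contra hneg
        push Not at hneg
        rw [hcb] at h2
        nlinarith
      have hsum' : (k : ℤ) * (ca + cb) = k * 1 := by rw [hca, hcb] at hsum; linarith
      have h3 : ca + cb = 1 := mul_left_cancel₀ hk0'.ne' hsum'
      rcases (show ca = 0 ∨ cb = 0 by omega) with h | h
      · left; rw [hca, h, mul_zero]
      · right; rw [hcb, h, mul_zero]
  · intro x hx
    have hx0 : (x : F) ≠ 0 := coe_ne_zero_embRing σ hx
    obtain ⟨c, hc⟩ := hdvd (x : F)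
    have hxnn : 0 ≤ eord σ (x : F) := x.2
    have hc0 : 0 ≤ c := by
      by_contra hneg
      push Not at hneg
      rw [hc] at hxnn
      nlinarith
    refine ⟨c.toNat, ?_⟩
    have hu : eord σ ((x : F) * (π ^ c.toNat)⁻¹) = 0 := by
      rw [eord_mul σ hx0 (inv_ne_zero (pow_ne_zero _ hπ0)), eord_inv, eord_pow, hπ, hc]
      have : ((c.toNat : ℕ) : ℤ) = c := Int.toNat_of_nonneg hc0
      rw [this]; ring
    have hmem : (x : F) * (π ^ c.toNat)⁻¹ ∈ embRing σ := by
      rw [mem_embRing, hu]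
    have hne : (⟨_, hmem⟩ : embRing σ) ≠ 0 := fun h =>
      (mul_ne_zero hx0 (inv_ne_zero (pow_ne_zero _ hπ0))) (congrArg Subtype.val h)
    have hunit : IsUnit (⟨_, hmem⟩ : embRing σ) := (isUnit_embRing_iff σ hne).mpr hu
    refine ⟨hunit.unit, ?_⟩
    apply Subtype.ext
    have hπpow : π ^ c.toNat ≠ 0 := pow_ne_zero _ hπ0
    show π ^ c.toNat * ((x : F) * (π ^ c.toNat)⁻¹) = (x : F)
    field_simp

/-- The place of `F/K` induced by an embedding `σ : F → C((z))` which has non-negative order on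
the constants and is nontrivial. -/
def placeOfEmb (hK : ∀ c : K, 0 ≤ eord σ (algebraMap K F c)) (hnt : ∃ t : F, eord σ t ≠ 0) :
    Place K F where
  toValuationSubring := embRing σ
  algebraMap_mem' := hK
  ne_top' := by
    obtain ⟨t, ht⟩ := hnt
    intro htop
    have h1 : t ∈ embRing σ := htop ▸ ValuationSubring.mem_top t
    have h2 : t⁻¹ ∈ embRing σ := htop ▸ ValuationSubring.mem_top t⁻¹
    rw [mem_embRing] at h1 h2
    rw [eord_inv] at h2
    omega
  isPrincipalIdealRing' :=
    haveI := isDiscreteValuationRing_embRing σ hnt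
    inferInstance

@[simp]
theorem placeOfEmb_toValuationSubring (hK : ∀ c : K, 0 ≤ eord σ (algebraMap K F c))
    (hnt : ∃ t : F, eord σ t ≠ 0) :
    (placeOfEmb σ hK hnt).toValuationSubring = embRing σ := rfl

/-- If the valuation ring of a place `v` is `{f | 0 ≤ ord (σ f)}`, then `ord ∘ σ = k * v.ord`
for some `k > 0`. -/
theorem exists_mult_of_eq (v : Place K F) (hv : v.toValuationSubring = embRing σ) :
    ∃ k : ℕ, 0 < k ∧ ∀ f : F, eord σ f = k * v.ord f := by
  have hmem : ∀ f : F, f ∈ v.toValuationSubring ↔ 0 ≤ eord σ f := fun f => by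
    rw [hv]; rfl
  obtain ⟨π, hπ⟩ := IsDiscreteValuationRing.exists_irreducible v.toValuationSubring
  have hπ0 : (π : F) ≠ 0 := fun h => hπ.ne_zero (Subtype.ext h)
  have hπnn : 0 ≤ eord σ (π : F) := (hmem _).mp π.2
  have hπpos : 0 < eord σ (π : F) := by
    rcases hπnn.lt_or_eq with h | h
    · exact h
    · exfalso
      have hinv : (π : F)⁻¹ ∈ v.toValuationSubring := by
        rw [hmem, eord_inv]; omega
      apply hπ.not_isUnit
      exact ⟨⟨π, ⟨(π : F)⁻¹, hinv⟩, Subtype.ext (mul_inv_cancel₀ hπ0),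
        Subtype.ext (inv_mul_cancel₀ hπ0)⟩, rfl⟩
  refine ⟨(eord σ (π : F)).toNat, by omega, fun f => ?_⟩
  rcases eq_or_ne f 0 with rfl | hf
  · simp
  obtain ⟨u, hu⟩ := v.exists_unit_mul_zpow hf hπ
  have hu0 : ((u : v.toValuationSubring) : F) ≠ 0 := by
    intro h
    exact u.ne_zero (Subtype.ext h)
  have hu1 : 0 ≤ eord σ ((u : v.toValuationSubring) : F) := (hmem _).mp (u : v.toValuationSubring).2
  have hu2 : 0 ≤ eord σ (((u⁻¹ : v.toValuationSubringˣ) : v.toValuationSubring) : F) :=
    (hmem _).mp ((u⁻¹ : v.toValuationSubringˣ) : v.toValuationSubring).2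
  have hmul : ((u : v.toValuationSubring) : F)
      * (((u⁻¹ : v.toValuationSubringˣ) : v.toValuationSubring) : F) = 1 := by
    exact congrArg Subtype.val (Units.mul_inv u)
  have hu2' : eord σ (((u⁻¹ : v.toValuationSubringˣ) : v.toValuationSubring) : F)
      = - eord σ ((u : v.toValuationSubring) : F) := by
    rw [← eord_inv]
    congr 1
    exact eq_inv_of_mul_eq_one_right hmul
  have hu3 : eord σ ((u : v.toValuationSubring) : F) = 0 := by omega
  conv_lhs => rw [hu]
  rw [eord_mul σ hu0 (zpow_ne_zero _ hπ0), eord_zpow, hu3, zero_add,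
    Int.toNat_of_nonneg hπnn]
  ring

theorem exists_mult (hK : ∀ c : K, 0 ≤ eord σ (algebraMap K F c))
    (hnt : ∃ t : F, eord σ t ≠ 0) :
    ∃ k : ℕ, 0 < k ∧ ∀ f : F, eord σ f = k * (placeOfEmb σ hK hnt).ord f :=
  exists_mult_of_eq σ _ rfl

end Emb

section LocalDataPlaces

variable {X : Type*} {t : F} (L : LocalData K F C X t)

theorem eord_const (x : X) (c : K) : eord (L.σ x) (algebraMap K F c) = 0 := by
  simp only [eord, L.σ_const, HahnSeries.order_C]

theorem eord_t (x : X) : eord (L.σ x) t = L.m := L.σ_t_order x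

theorem nontrivial_σ (x : X) : ∃ s : F, eord (L.σ x) s ≠ 0 :=
  ⟨t, by rw [eord_t]; exact_mod_cast L.m_pos.ne'⟩

/-- **LT1.** The place of `F/K` induced by the embedding `L.σ x`. -/
def placeOf (x : X) : Place K F :=
  placeOfEmb (L.σ x) (fun c => (eord_const L x c).ge) (nontrivial_σ L x)

theorem exists_mult_placeOf (x : X) :
    ∃ k : ℕ, 0 < k ∧ ∀ f : F, ((L.σ x) f).order = k * (placeOf L x).ord f :=
  exists_mult (L.σ x) _ _

/-- The multiplicity `k_x` with `ord_z ∘ σ_x = k_x * ord_{v_x}`. -/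
def mult (x : X) : ℕ := (exists_mult_placeOf L x).choose

theorem mult_pos (x : X) : 0 < mult L x := (exists_mult_placeOf L x).choose_spec.1

theorem order_eq (x : X) (f : F) :
    ((L.σ x) f).order = mult L x * (placeOf L x).ord f :=
  (exists_mult_placeOf L x).choose_spec.2 f

theorem mem_placeOf_iff (x : X) (f : F) :
    f ∈ (placeOf L x).toValuationSubring ↔ 0 ≤ ((L.σ x) f).order := Iff.rfl

theorem ord_placeOf_nonneg_iff (x : X) (f : F) :
    0 ≤ (placeOf L x).ord f ↔ 0 ≤ ((L.σ x) f).order := by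
  rw [← mem_iff_ord_nonneg]; rfl

theorem mult_mul_ord_t (x : X) : (mult L x : ℤ) * (placeOf L x).ord t = L.m := by
  rw [← order_eq, L.σ_t_order]

theorem ord_t_pos (x : X) : 0 < (placeOf L x).ord t := by
  have h := mult_mul_ord_t L x
  have hk : (0 : ℤ) < mult L x := by exact_mod_cast mult_pos L x
  have hm : (0 : ℤ) < L.m := by exact_mod_cast L.m_pos
  by_contra hcon
  push Not at hcon
  nlinarith

theorem placeOf_perm (x : X) : placeOf L (L.perm x) = placeOf L x := by
  apply Place.ext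
  ext f
  show 0 ≤ ((L.σ (L.perm x)) f).order ↔ 0 ≤ ((L.σ x) f).order
  rw [L.σ_perm_order]

theorem mult_perm (x : X) : mult L (L.perm x) = mult L x := by
  obtain ⟨π, hπ0, hπ⟩ := exists_ord_eq_one (placeOf L x)
  have h1 := order_eq L x π
  have h2 := order_eq L (L.perm x) π
  rw [L.σ_perm_order, placeOf_perm, h1, hπ] at h2
  have : (mult L x : ℤ) = mult L (L.perm x) := by linarith
  exact_mod_cast this.symm

end LocalDataPlaces

end Fermat.Agent.S24.H117

end
end
-- ===== PACK-END S24/H117/EmbPlace.lean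

-- ===== PACK-BEGIN S24/H117/RatFun.lean
section


/-!
# S24 / H117 — orders of rational functions of `t` at places over `t = 0`

If `0 < v.ord t` then for every `e ∈ K⟮t⟯` the order `v.ord e` is `n * v.ord t` for an integer
`n` depending only on `e` (the `t`-adic order of `e`).
-/

set_option autoImplicit false

noncomputable section

open AlgebraicCurve Polynomial IntermediateField

namespace Fermat.Agent.S24.H117

variable {K F : Type*} [Field K] [Field F] [Algebra K F]

theorem aeval_mem_place (v : Place K F) {t : F} (hv : 0 ≤ v.ord t) (p : K[X]) :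
    aeval t p ∈ v.toValuationSubring := by
  rw [aeval_eq_sum_range]
  refine Subring.sum_mem v.toValuationSubring.toSubring (fun i _ => ?_)
  rw [Algebra.smul_def]
  exact mul_mem (v.algebraMap_mem' _) (pow_mem (mem_of_ord_nonneg v hv) _)

theorem ord_aeval_of_coeff_zero_ne (v : Place K F) {t : F} (hv : 0 < v.ord t) (q : K[X])
    (hq : q.coeff 0 ≠ 0) : v.ord (aeval t q) = 0 := by
  have hdecomp : aeval t q = algebraMap K F (q.coeff 0) + aeval t q.divX * t := by
    conv_lhs => rw [← divX_mul_X_add q]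
    simp only [map_add, map_mul, aeval_X, aeval_C]
    ring
  have hc : v.ord (algebraMap K F (q.coeff 0)) = 0 := _root_.Fermat.Agent.S24.H117.ord_algebraMap v _
  have hc0 : algebraMap K F (q.coeff 0) ≠ 0 := by simpa using hq
  rw [hdecomp]
  rcases eq_or_ne (aeval t q.divX * t) 0 with h0 | h0
  · rw [h0, add_zero, hc]
  · have ht0 : t ≠ 0 := right_ne_zero_of_mul h0
    have hd0 : aeval t q.divX ≠ 0 := left_ne_zero_of_mul h0
    have h1 : 0 ≤ v.ord (aeval t q.divX) :=
      ord_nonneg_of_mem v (aeval_mem_place v hv.le _)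
    have h2 : 0 < v.ord (aeval t q.divX * t) := by
      rw [v.ord_mul hd0 ht0]; omega
    rw [ord_add_eq_of_lt v (by rw [hc]; exact h2) hc0, hc]

theorem ord_aeval_eq (v : Place K F) {t : F} (hv : 0 < v.ord t) (p : K[X]) (hp : p ≠ 0) :
    aeval t p ≠ 0 ∧ v.ord (aeval t p) = (p.rootMultiplicity 0 : ℤ) * v.ord t := by
  obtain ⟨q, hpq, hq⟩ := exists_eq_pow_rootMultiplicity_mul_and_not_dvd p hp 0
  have hq0 : q.coeff 0 ≠ 0 := by
    intro h
    apply hq
    rw [C_0, sub_zero]
    exact X_dvd_iff.mpr h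
  have ht0 : t ≠ 0 := ne_zero_of_ord_ne_zero v hv.ne'
  have hqu := ord_aeval_of_coeff_zero_ne v hv q hq0
  have hqne : aeval t q ≠ 0 := by
    intro h
    have hdecomp : aeval t q = algebraMap K F (q.coeff 0) + aeval t q.divX * t := by
      conv_lhs => rw [← divX_mul_X_add q]
      simp only [map_add, map_mul, aeval_X, aeval_C]
      ring
    -- if `aeval t q = 0` then the constant term has positive order
    have hc0 : algebraMap K F (q.coeff 0) ≠ 0 := by simpa using hq0
    have hc : v.ord (algebraMap K F (q.coeff 0)) = 0 := _root_.Fermat.Agent.S24.H117.ord_algebraMap v _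
    have heq : algebraMap K F (q.coeff 0) = -(aeval t q.divX * t) := by
      rw [h] at hdecomp
      exact eq_neg_of_add_eq_zero_left hdecomp.symm
    have hne : aeval t q.divX * t ≠ 0 := by
      intro h0
      rw [h0, neg_zero] at heq
      exact hc0 heq
    have hd0 : aeval t q.divX ≠ 0 := left_ne_zero_of_mul hne
    have h1 : 0 ≤ v.ord (aeval t q.divX) :=
      ord_nonneg_of_mem v (aeval_mem_place v hv.le _)
    rw [heq, _root_.Fermat.Agent.S24.H117.ord_neg, v.ord_mul hd0 ht0] at hc
    omega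
  have hval : aeval t p = t ^ p.rootMultiplicity 0 * aeval t q := by
    conv_lhs => rw [hpq]
    simp only [C_0, sub_zero, map_mul, map_pow, aeval_X]
  refine ⟨?_, ?_⟩
  · rw [hval]
    exact mul_ne_zero (pow_ne_zero _ ht0) hqne
  · rw [hval, v.ord_mul (pow_ne_zero _ ht0) hqne, ord_pow, hqu, add_zero]

/-- The order at a place over `t = 0` of an element of `K(t)` is a fixed multiple of `ord t`. -/
theorem exists_ord_eq_mul_of_mem_adjoin {t e : F} (he : e ∈ K⟮t⟯) :
    ∃ n : ℤ, ∀ v : Place K F, 0 < v.ord t → v.ord e = n * v.ord t := by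
  obtain ⟨r, s, rfl⟩ := (mem_adjoin_simple_iff K e).mp he
  by_cases hr : r = 0
  · exact ⟨0, fun v _ => by simp [hr]⟩
  by_cases hs : s = 0
  · exact ⟨0, fun v _ => by simp [hs]⟩
  refine ⟨(r.rootMultiplicity 0 : ℤ) - s.rootMultiplicity 0, fun v hv => ?_⟩
  obtain ⟨hr1, hr2⟩ := ord_aeval_eq v hv r hr
  obtain ⟨hs1, hs2⟩ := ord_aeval_eq v hv s hs
  rw [ord_div v hr1 hs1, hr2, hs2]
  ring

/-- Transfer of integrality on `K(t)` between two places over `t = 0`. -/
theorem ord_nonneg_of_mem_adjoin {t e : F} (he : e ∈ K⟮t⟯) {v w : Place K F}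
    (hv : 0 < v.ord t) (hw : 0 < w.ord t) (h : 0 ≤ w.ord e) : 0 ≤ v.ord e := by
  obtain ⟨n, hn⟩ := exists_ord_eq_mul_of_mem_adjoin (K := K) he
  rw [hn w hw] at h
  rw [hn v hv]
  have hn0 : 0 ≤ n := by
    by_contra hneg
    push Not at hneg
    nlinarith
  positivity

end Fermat.Agent.S24.H117

end
end
-- ===== PACK-END S24/H117/RatFun.lean

-- ===== PACK-BEGIN S29/H152/DescMain.lean
section
/-
S29 / DESC (helper152) — DESCENT `Ω → K` of Kummer classes (piece K3 of the S29 row plan).

Main result `desc_main`: let `K ⊆ Ω` be algebraically closed fields of characteristic `0`,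
`F₀ ⊆ ℚ((q))` a field containing a series `j₀` of order `-1` such that `Ω·F₀` has bounded degree
over `Ω(j₀)`.  If `f ∈ Ω·F₀` has a `p`-th root in `Ω((q))` and the `Aut(Ω/K)`-orbit of the class of
`f` modulo `p`-th powers of `Ω·F₀` is finite, then `f · g ^ p` has coefficients in `K` and lies in
`K·F₀` for some nonzero `g ∈ Ω·F₀`.

No places, no Riemann–Roch, no analysis: the space `W = h·(Ω·F₀) ∩ {integral over Ω[j], pole order
≤ m at the cusps}` is nonzero, stable under the finite-index stabiliser `H` of the class, and the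
orders of its nonzero elements are bounded (`descBound_order_le`); its element of maximal order
with leading coefficient `1` is fixed by `H`, so its coefficients lie in `Ω^H = K`.
-/









set_option autoImplicit false

namespace Fermat.Agent.S29.H152

open ModularCurve Polynomial

variable {K Ω : Type*} [Field K] [Field Ω] [Algebra K Ω]

theorem descMain_smul_eq (c : Ω) (v : LaurentSeries Ω) :
    c • v = algebraMap Ω (LaurentSeries Ω) c * v := by
  rw [algebraMap_laurentSeries_eq_single, HahnSeries.single_zero_mul_eq_smul]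

theorem descMain_order_coeffMap {R S : Type*} [CommRing R] [CommRing S] (φ : R →+* S)
    (hφ : Function.Injective φ) (x : LaurentSeries R) : (coeffMap φ x).order = x.order := by
  by_cases hx : x = 0
  · rw [hx, map_zero, HahnSeries.order_zero, HahnSeries.order_zero]
  have hx' : coeffMap φ x ≠ 0 := by
    intro h
    apply hx
    ext k
    have := congrArg (fun y => HahnSeries.coeff y k) h
    simp only [coeffMap_coeff, HahnSeries.coeff_zero] at this
    rw [HahnSeries.coeff_zero]
    exact hφ (by rw [this, map_zero])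
  apply le_antisymm
  · apply HahnSeries.order_le_of_coeff_ne_zero
    rw [coeffMap_coeff]
    intro h
    exact hx (HahnSeries.coeff_order_eq_zero.mp (hφ (by rw [h, map_zero])))
  · apply HahnSeries.order_le_of_coeff_ne_zero
    intro h
    apply hx'
    apply HahnSeries.coeff_order_eq_zero.mp
    rw [coeffMap_coeff, h, map_zero]

/-! ### The space `W` -/

section W

variable (F : IntermediateField Ω (LaurentSeries Ω)) (j h : LaurentSeries Ω) (m : ℕ)

/-- `W = {v ∈ h·F : v integral over Ω[j], v·j⁻ᵐ integral over Ω[j⁻¹]}`. -/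
def descW : Submodule Ω (LaurentSeries Ω) where
  carrier := {v | (∃ g ∈ F, v = h * g) ∧ IsIntegral (Algebra.adjoin Ω {j}) v ∧
      IsIntegral (Algebra.adjoin Ω {j⁻¹}) (v * j⁻¹ ^ m)}
  zero_mem' := ⟨⟨0, zero_mem _, (mul_zero h).symm⟩, isIntegral_zero, by
    rw [zero_mul]; exact isIntegral_zero⟩
  add_mem' := by
    rintro v w ⟨⟨g, hg, rfl⟩, hv1, hv2⟩ ⟨⟨g', hg', rfl⟩, hw1, hw2⟩
    refine ⟨⟨g + g', add_mem hg hg', (mul_add _ _ _).symm⟩, hv1.add hw1, ?_⟩
    rw [add_mul]
    exact hv2.add hw2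
  smul_mem' := by
    rintro c v ⟨⟨g, hg, rfl⟩, hv1, hv2⟩
    show c • (h * g) ∈ _
    rw [descMain_smul_eq]
    refine ⟨⟨algebraMap Ω _ c * g, mul_mem (F.algebraMap_mem c) hg, by ring⟩, ?_, ?_⟩
    · exact (isIntegral_algebraMap
        (x := (⟨_, Subalgebra.algebraMap_mem _ c⟩ : Algebra.adjoin Ω {j}))).mul hv1
    · rw [mul_assoc]
      exact (isIntegral_algebraMap
        (x := (⟨_, Subalgebra.algebraMap_mem _ c⟩ : Algebra.adjoin Ω {j⁻¹}))).mul hv2

variable {F j h m}

theorem mem_descW {v : LaurentSeries Ω} :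
    v ∈ descW F j h m ↔ (∃ g ∈ F, v = h * g) ∧ IsIntegral (Algebra.adjoin Ω {j}) v ∧
      IsIntegral (Algebra.adjoin Ω {j⁻¹}) (v * j⁻¹ ^ m) := Iff.rfl

end W

/-! ### The main theorem -/

section Main

variable [IsAlgClosed K] [IsAlgClosed Ω] [CharZero Ω] [Algebra ℚ K] [Algebra ℚ Ω]

open scoped IntermediateField.algebraAdjoinAdjoin in
/-- **DESCENT of Kummer classes** from `Ω` to `K`. -/
theorem desc_main (F₀ : IntermediateField ℚ (LaurentSeries ℚ))
    (j₀ : LaurentSeries ℚ) (hj₀ : j₀ ∈ F₀) (hj₀ord : j₀.order = -1) (n : ℕ)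
    (hdeg : ∀ u ∈ laurentBaseChange Ω F₀,
      IsIntegral (IntermediateField.adjoin Ω {coeffEmb Ω j₀}) u ∧
        (minpoly (IntermediateField.adjoin Ω {coeffEmb Ω j₀}) u).natDegree ≤ n)
    (p : ℕ) (hp : 0 < p) (f h : LaurentSeries Ω) (hf : f ∈ laurentBaseChange Ω F₀)
    (hf0 : f ≠ 0) (hh : h ^ p = f) (T : Set (LaurentSeries Ω)) (hT : T.Finite)
    (horb : ∀ σ : Ω ≃ₐ[K] Ω, ∃ t ∈ T, ∃ u ∈ laurentBaseChange Ω F₀, u ≠ 0 ∧
      coeffMap (σ : Ω →+* Ω) f = t * u ^ p) :
    ∃ g ∈ laurentBaseChange Ω F₀, g ≠ 0 ∧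
      IsIntegral (Algebra.adjoin Ω {coeffEmb Ω j₀}) (h * g) ∧
      (∃ m : ℕ, IsIntegral (Algebra.adjoin Ω {(coeffEmb Ω j₀)⁻¹}) (h * g * (coeffEmb Ω j₀)⁻¹ ^ m)) ∧
      (∃ v' : LaurentSeries K, h * g = coeffMap (algebraMap K Ω) v') ∧
      ∃ f' ∈ laurentBaseChange K F₀, f * g ^ p = coeffMap (algebraMap K Ω) f' := by
  classical
  set F := laurentBaseChange Ω F₀ with hFdef
  set j := coeffEmb Ω j₀ with hjdef
  have hjF : j ∈ F := coeffEmb_mem_laurentBaseChange Ω hj₀
  have hj : j.order = -1 := by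
    rw [hjdef, coeffEmb, descMain_order_coeffMap _ (algebraMap ℚ Ω).injective, hj₀ord]
  have hj0 : j ≠ 0 := descBound_j_ne_zero hj
  have hh0 : h ≠ 0 := by
    rintro rfl
    rw [zero_pow hp.ne'] at hh
    exact hf0 hh.symm
  have hFstab : ∀ (σ : Ω ≃ₐ[K] Ω) (x : LaurentSeries Ω), x ∈ F → descSig σ x ∈ F :=
    fun σ x hx => descSig_mem_laurentBaseChange F₀ σ hx
  have hσj : ∀ σ : Ω ≃ₐ[K] Ω, descSig σ j = j := fun σ => descSig_coeffEmb σ j₀
  have hσjinv : ∀ σ : Ω ≃ₐ[K] Ω, descSig σ j⁻¹ = j⁻¹ := fun σ => by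
    rw [map_inv₀, hσj]
  have hadjF : ∀ x ∈ Algebra.adjoin Ω {j}, x ∈ F := by
    intro x hx
    have hle : Algebra.adjoin Ω {j} ≤ F.toSubalgebra :=
      Algebra.adjoin_le (Set.singleton_subset_iff.mpr hjF)
    exact hle hx
  -- the stabiliser
  set H := descStab F hFstab f p with hH
  have hidx : H.index ≠ 0 := descStab_index_ne_zero F hFstab f p T hT horb
  -- a nonzero element of `W`
  obtain ⟨b, hbR, hb0, hbf⟩ : ∃ b ∈ Algebra.adjoin Ω {j}, b ≠ 0 ∧
      IsIntegral (Algebra.adjoin Ω {j}) (b * f) := by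
    have halg : IsAlgebraic (Algebra.adjoin Ω {j}) f :=
      (IsFractionRing.isAlgebraic_iff (Algebra.adjoin Ω {j})
        (IntermediateField.adjoin Ω {j}) (LaurentSeries Ω)).mpr (hdeg f hf).1.isAlgebraic
    obtain ⟨y, hy0, hy⟩ := halg.exists_integral_multiple
    refine ⟨y, y.2, fun h0 => hy0 (Subtype.ext h0), ?_⟩
    rwa [Algebra.smul_def] at hy
  have hbint : IsIntegral (Algebra.adjoin Ω {j}) b :=
    isIntegral_algebraMap (x := (⟨b, hbR⟩ : Algebra.adjoin Ω {j}))
  have hv₀int : IsIntegral (Algebra.adjoin Ω {j}) (h * b) := by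
    refine IsIntegral.of_pow hp ?_
    have : (h * b) ^ p = (b * f) * b ^ (p - 1) := by
      rw [mul_pow, hh, mul_comm f, mul_assoc, mul_comm f, ← mul_assoc, ← pow_succ',
        Nat.sub_add_cancel hp, mul_comm]
    rw [this]
    exact hbf.mul (hbint.pow _)
  obtain ⟨m, hm⟩ := descInt_exists_pow hj hv₀int
  have hv₀W : h * b ∈ descW F j h m := ⟨⟨b, hadjF b hbR, rfl⟩, hv₀int, hm⟩
  have hv₀0 : h * b ≠ 0 := mul_ne_zero hh0 hb0
  -- bounded orders
  have hbound : ∀ v ∈ descW F j h m, v ≠ 0 → v.order ≤ (m : ℤ) * ((n * p : ℕ) : ℤ) := by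
    rintro v ⟨⟨g, hg, rfl⟩, hv1, hv2⟩ hv0
    refine descBound_order_le hj m (n * p) hv0 hv1 hv2 ?_
    have hvp : (h * g) ^ p ∈ F := by
      rw [mul_pow, hh]
      exact mul_mem hf (pow_mem hg p)
    obtain ⟨hint, hdegp⟩ := hdeg _ hvp
    set E := IntermediateField.adjoin Ω {j} with hE
    have hQ0 : minpoly E ((h * g) ^ p) ≠ 0 := minpoly.ne_zero hint
    have hexp0 : Polynomial.expand E p (minpoly E ((h * g) ^ p)) ≠ 0 := by
      rwa [Ne, Polynomial.expand_eq_zero hp]
    have hroot : aeval (h * g) (Polynomial.expand E p (minpoly E ((h * g) ^ p))) = 0 := by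
      rw [Polynomial.expand_aeval, minpoly.aeval]
    have h1 := minpoly.degree_le_of_ne_zero E (h * g) hexp0 hroot
    have h2 := Polynomial.natDegree_le_natDegree h1
    rw [Polynomial.natDegree_expand] at h2
    exact h2.trans (Nat.mul_le_mul_right p hdegp)
  -- stability under `H`
  have hstab : ∀ φ ∈ {φ : Ω →+* Ω | ∃ σ ∈ H, φ = (σ : Ω →+* Ω)}, ∀ v ∈ descW F j h m,
      coeffMap φ v ∈ descW F j h m := by
    rintro φ ⟨σ, ⟨u, hu, hu0, hσ⟩, rfl⟩ v ⟨⟨g, hg, rfl⟩, hv1, hv2⟩
    show descSig σ (h * g) ∈ _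
    -- `σ h = h * (ζ u)` with `ζ` a constant
    have hhu0 : h * u ≠ 0 := mul_ne_zero hh0 hu0
    have hζ : (descSig σ h / (h * u)) ^ p = 1 := by
      rw [div_pow, ← map_pow, hh, hσ, mul_pow, hh]
      exact div_self (mul_ne_zero hf0 (pow_ne_zero _ hu0))
    obtain ⟨c, hc⟩ := descInt_mem_range_of_pow_eq_one (Ω := Ω) hp hζ
    have hσh : descSig σ h = h * (algebraMap Ω _ c * u) := by
      rw [hc, mul_comm (descSig σ h / (h * u)), ← mul_assoc, mul_div_assoc', mul_comm (h * u),
        mul_div_assoc, div_self hhu0, mul_one]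
    refine ⟨⟨algebraMap Ω _ c * u * descSig σ g,
      mul_mem (mul_mem (F.algebraMap_mem c) hu) (hFstab σ g hg), ?_⟩, ?_, ?_⟩
    · rw [map_mul, hσh]
      ring
    · exact descInt_isIntegral_map _ (descSig σ)
        (fun x hx => descInt_map_mem_adjoin (descSig σ) j (hσj σ)
          (fun c => ⟨σ c, descSig_algebraMap σ c⟩) hx) hv1
    · have h3 : descSig σ (h * g) * j⁻¹ ^ m = descSig σ (h * g * j⁻¹ ^ m) := by
        rw [map_mul (descSig σ) (h * g), map_pow, hσjinv]
      rw [h3]
      exact descInt_isIntegral_map _ (descSig σ)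
        (fun x hx => descInt_map_mem_adjoin (descSig σ) j⁻¹ (hσjinv σ)
          (fun c => ⟨σ c, descSig_algebraMap σ c⟩) hx) hv2
  -- the fixed vector
  obtain ⟨v, hvW, hv0, hvfix⟩ :=
    descEchelon_exists_fixed (descW F j h m) ⟨h * b, hv₀W, hv₀0⟩ _ hbound _ hstab
  have hcoeff : ∀ k, v.coeff k ∈ Set.range (algebraMap K Ω) := by
    intro k
    refine descAut_mem_range_of_fixed H hidx (v.coeff k) fun σ hσ => ?_
    have := congrArg (fun y => HahnSeries.coeff y k) (hvfix _ ⟨σ, hσ, rfl⟩)
    simpa using this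
  obtain ⟨v', hv'⟩ := descLin_exists_preimage v hcoeff
  obtain ⟨⟨g, hg, hvg⟩, hv1, hv2⟩ := hvW
  have hg0 : g ≠ 0 := by
    rintro rfl
    rw [mul_zero] at hvg
    exact hv0 hvg
  have hfg : f * g ^ p = coeffMap (algebraMap K Ω) (v' ^ p) := by
    rw [map_pow, hv', hvg, mul_pow, hh]
  refine ⟨g, hg, hg0, hvg ▸ hv1, ⟨m, hvg ▸ hv2⟩, ⟨v', by rw [hv', hvg]⟩, v' ^ p, ?_, hfg⟩
  apply descLin_mem_of_coeffMap_mem (Ω := Ω) F₀
  rw [← hfg]
  exact mul_mem hf (pow_mem hg p)

end Main

end Fermat.Agent.S29.H152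

end
-- ===== PACK-END S29/H152/DescMain.lean

-- ===== PACK-BEGIN S24/H504/Fibre.lean
section




/-!
# Embeddings inducing the same place: rigidity

Two embeddings `σ, τ : F → C((z))` over `K(t)` inducing the same place `v` over `t = 0` and
having the same leading coefficient on a uniformizer are equal.  Hence at most `e = v(t)`
embeddings induce `v`.
-/

set_option autoImplicit false

namespace Fermat.Agent.S24.H504

open AlgebraicCurve

variable {K F : Type*} [Field K] [Field F] [Algebra K F]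
variable {C : Type*} [Field C]

theorem le_ot_add {A B : LaurentSeries C} {k : ℤ} (hA : (k : WithTop ℤ) ≤ A.orderTop)
    (hB : (k : WithTop ℤ) ≤ B.orderTop) : (k : WithTop ℤ) ≤ (A + B).orderTop :=
  le_trans (le_min hA hB) HahnSeries.min_orderTop_le_orderTop_add

theorem le_ot_mul {A B : LaurentSeries C} {k l : ℤ} (hA : (k : WithTop ℤ) ≤ A.orderTop)
    (hB : (l : WithTop ℤ) ≤ B.orderTop) : ((k + l : ℤ) : WithTop ℤ) ≤ (A * B).orderTop := by
  rw [HahnSeries.orderTop_mul]
  push_cast
  exact add_le_add hA hB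

theorem le_ot_of_order {A : LaurentSeries C} {k : ℤ} (h : k ≤ A.order) :
    (k : WithTop ℤ) ≤ A.orderTop := by
  rcases eq_or_ne A 0 with rfl | hA
  · simp
  · rw [ls_orderTop_eq_order hA]
    exact_mod_cast h

theorem ot_le_of_forall {d e : WithTop ℤ} (h : ∀ k : ℤ, (k : WithTop ℤ) ≤ d → (k : WithTop ℤ) ≤ e) :
    d ≤ e := by
  induction d using WithTop.recTopCoe with
  | top =>
    induction e using WithTop.recTopCoe with
    | top => exact le_rfl
    | coe e =>
      have := h (e + 1) le_top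
      have h2 : e + 1 ≤ e := by exact_mod_cast this
      omega
  | coe d => exact h d le_rfl

section delta

variable {v : Place K F} {ι : K →+* C} {σ τ : F →+* LaurentSeries C}

/-- Key estimate: the difference `σ - τ` is as small on the whole valuation ring as on a
uniformizer. -/
theorem orderTop_sub_uniformizer_le [IsAlgClosed K] {t : F} (ht : 0 < v.ord t)
    [Algebra.IsAlgebraic (IntermediateField.adjoin K {t}) F]
    (hσK : ∀ c, σ (algebraMap K F c) = HahnSeries.C (ι c))
    (hτK : ∀ c, τ (algebraMap K F c) = HahnSeries.C (ι c))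
    (hσ : Induces σ v) (hτ : Induces τ v)
    {ϖ : F} (hϖ : v.ord ϖ = 1) {f : F} (hf : 0 ≤ v.ord f) :
    (σ ϖ - τ ϖ).orderTop ≤ (σ f - τ f).orderTop := by
  have hσϖ : 0 < (σ ϖ).order := by
    have h1 := (hσ.order_nonneg_iff ϖ).mpr (by omega)
    have h2 := (hσ.order_eq_zero_iff ϖ).not.mpr (by omega)
    omega
  set μ := (σ ϖ).order with hμ
  -- the inductive statement
  have key : ∀ (N : ℕ) (f : F), 0 ≤ v.ord f → ∀ k : ℤ, k ≤ N * μ →
      (k : WithTop ℤ) ≤ (σ ϖ - τ ϖ).orderTop → (k : WithTop ℤ) ≤ (σ f - τ f).orderTop := by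
    intro N
    induction N with
    | zero =>
      intro f hf k hk _
      have h1 : (0 : WithTop ℤ) ≤ (σ f).orderTop :=
        (ls_orderTop_nonneg_iff _).mpr ((hσ.order_nonneg_iff f).mpr hf)
      have h2 : (0 : WithTop ℤ) ≤ (τ f).orderTop :=
        (ls_orderTop_nonneg_iff _).mpr ((hτ.order_nonneg_iff f).mpr hf)
      have h3 : (0 : WithTop ℤ) ≤ (σ f - τ f).orderTop :=
        le_trans (le_min h1 h2) HahnSeries.min_orderTop_le_orderTop_sub
      have hk0 : k ≤ 0 := by simpa using hk
      exact le_trans (by exact_mod_cast hk0) h3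
    | succ N ih =>
      intro f hf k hk hkd
      obtain ⟨c, f₁, hf₁, rfl⟩ := exists_eq_const_add_mul ht hϖ hf
      have hdecomp : σ (algebraMap K F c + ϖ * f₁) - τ (algebraMap K F c + ϖ * f₁)
          = σ ϖ * (σ f₁ - τ f₁) + (σ ϖ - τ ϖ) * τ f₁ := by
        simp only [map_add, map_mul, hσK, hτK]
        ring
      rw [hdecomp]
      have hτf₁ : ((0 : ℤ) : WithTop ℤ) ≤ (τ f₁).orderTop := by
        have := (ls_orderTop_nonneg_iff _).mpr ((hτ.order_nonneg_iff f₁).mpr hf₁)
        exact_mod_cast this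
      have hk1 : ((k - μ : ℤ) : WithTop ℤ) ≤ (σ f₁ - τ f₁).orderTop := by
        apply ih f₁ hf₁ (k - μ)
        · push_cast at hk
          linarith
        · refine le_trans ?_ hkd
          exact_mod_cast (by omega : k - μ ≤ k)
      have hμ' : ((μ : ℤ) : WithTop ℤ) ≤ (σ ϖ).orderTop := le_ot_of_order le_rfl
      have h1 := le_ot_mul hμ' hk1
      have h2 := le_ot_mul hkd hτf₁
      rw [show μ + (k - μ) = k by ring] at h1
      rw [add_zero] at h2
      exact le_ot_add h1 h2
  apply ot_le_of_forall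
  intro k hk
  refine key k.toNat f hf k ?_ hk
  have : k ≤ (k.toNat : ℤ) := Int.self_le_toNat k
  have h0 : (0 : ℤ) ≤ (k.toNat : ℤ) := Nat.cast_nonneg _
  nlinarith [hσϖ]

end delta

/-! ### The geometric-sum factor -/

theorem ls_leadingCoeff_pow (A : LaurentSeries C) (n : ℕ) :
    (A ^ n).leadingCoeff = A.leadingCoeff ^ n := by
  induction n with
  | zero => simp
  | succ n ih => rw [pow_succ, HahnSeries.leadingCoeff_mul, ih, pow_succ]

theorem ls_ne_zero_of_order_ne_zero {A : LaurentSeries C} (h : A.order ≠ 0) : A ≠ 0 := by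
  rintro rfl
  simp at h

theorem ls_coeff_eq_zero_of_lt {A : LaurentSeries C} {k g : ℤ} (hg : g ≤ A.order) (hk : k < g) :
    A.coeff k = 0 :=
  HahnSeries.coeff_eq_zero_of_lt_order (lt_of_lt_of_le hk hg)

/-- A series whose coefficients vanish below `g` and whose `g`-th coefficient is nonzero has
order `g`. -/
theorem ls_order_eq_of_coeff {A : LaurentSeries C} {g : ℤ} (h0 : ∀ k < g, A.coeff k = 0)
    (hg : A.coeff g ≠ 0) : A ≠ 0 ∧ A.order = g := by
  have hA : A ≠ 0 := by
    rintro rfl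
    simp at hg
  refine ⟨hA, le_antisymm (HahnSeries.order_le_of_coeff_ne_zero hg) ?_⟩
  by_contra hlt
  push Not at hlt
  exact (HahnSeries.coeff_order_eq_zero.not.mpr hA) (h0 _ hlt)

theorem order_geom_sum₂ [CharZero C] {A B : LaurentSeries C} (hA : A ≠ 0) (hB : B ≠ 0)
    (hord : A.order = B.order) (hlc : A.leadingCoeff = B.leadingCoeff) {e : ℕ} (he : 0 < e) :
    (∑ i ∈ Finset.range e, A ^ i * B ^ (e - 1 - i)) ≠ 0 ∧
      (∑ i ∈ Finset.range e, A ^ i * B ^ (e - 1 - i)).order = ((e : ℤ) - 1) * A.order := by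
  have hterm : ∀ i ∈ Finset.range e, (A ^ i * B ^ (e - 1 - i)) ≠ 0 ∧
      (A ^ i * B ^ (e - 1 - i)).order = ((e : ℤ) - 1) * A.order ∧
      (A ^ i * B ^ (e - 1 - i)).leadingCoeff = A.leadingCoeff ^ (e - 1) := by
    intro i hi
    have hi' : i < e := Finset.mem_range.mp hi
    refine ⟨mul_ne_zero (pow_ne_zero _ hA) (pow_ne_zero _ hB), ?_, ?_⟩
    · rw [HahnSeries.order_mul (pow_ne_zero _ hA) (pow_ne_zero _ hB), HahnSeries.order_pow,
        HahnSeries.order_pow, ← hord]
      simp only [nsmul_eq_mul]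
      have : ((e - 1 - i : ℕ) : ℤ) = (e : ℤ) - 1 - i := by omega
      rw [this]
      ring
    · rw [HahnSeries.leadingCoeff_mul, ls_leadingCoeff_pow, ls_leadingCoeff_pow, ← hlc,
        ← pow_add]
      congr 1
      omega
  apply ls_order_eq_of_coeff
  · intro k hk
    rw [HahnSeries.coeff_sum]
    apply Finset.sum_eq_zero
    intro i hi
    exact ls_coeff_eq_zero_of_lt (hterm i hi).2.1.ge hk
  · rw [HahnSeries.coeff_sum]
    have : ∀ i ∈ Finset.range e, (A ^ i * B ^ (e - 1 - i)).coeff (((e : ℤ) - 1) * A.order)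
        = A.leadingCoeff ^ (e - 1) := by
      intro i hi
      rw [← (hterm i hi).2.1, ← HahnSeries.leadingCoeff_eq, (hterm i hi).2.2]
    rw [Finset.sum_congr rfl this, Finset.sum_const, Finset.card_range, nsmul_eq_mul]
    refine mul_ne_zero ?_ (pow_ne_zero _ (HahnSeries.leadingCoeff_ne_zero.mpr hA))
    exact_mod_cast he.ne'

section rigidity

variable {v : Place K F} {ι : K →+* C} {σ τ : F →+* LaurentSeries C}

theorem Induces.order_pos_of_ord_pos (hσ : Induces σ v) {f : F} (hf : 0 < v.ord f) :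
    0 < (σ f).order := by
  have h1 := (hσ.order_nonneg_iff f).mpr hf.le
  have h2 := (hσ.order_eq_zero_iff f).not.mpr hf.ne'
  omega

/-- Two embeddings inducing the same place and agreeing at `t` have the same multiplicity. -/
theorem Induces.order_eq_of_eq_at {t : F} (ht : 0 < v.ord t) (hσ : Induces σ v)
    (hτ : Induces τ v) (hst : σ t = τ t) (f : F) : (σ f).order = (τ f).order := by
  obtain ⟨μσ, _, hμσ⟩ := hσ.exists_mult
  obtain ⟨μτ, _, hμτ⟩ := hτ.exists_mult
  have h1 := hμσ t
  have h2 := hμτ t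
  rw [hst, h2] at h1
  have h3 : (μσ : ℤ) = μτ := by
    have := mul_right_cancel₀ ht.ne' h1
    exact this.symm
  rw [hμσ f, hμτ f, h3]

/-- **Rigidity.** Two embeddings over `K(t)` inducing the same place over `t = 0`, with the same
leading coefficient on a uniformizer, are equal. -/
theorem emb_eq_of_leadingCoeff_eq [IsAlgClosed K] [CharZero C] {t : F} (ht : 0 < v.ord t)
    [Algebra.IsAlgebraic (IntermediateField.adjoin K {t}) F]
    (hσK : ∀ c, σ (algebraMap K F c) = HahnSeries.C (ι c))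
    (hτK : ∀ c, τ (algebraMap K F c) = HahnSeries.C (ι c))
    (hσ : Induces σ v) (hτ : Induces τ v) (hst : σ t = τ t)
    {ϖ : F} (hϖ : v.ord ϖ = 1)
    (hlc : (σ ϖ).leadingCoeff = (τ ϖ).leadingCoeff) : σ = τ := by
  have hϖ0 : ϖ ≠ 0 := ne_zero_of_ord_ne_zero v (by omega)
  have ht0 : t ≠ 0 := ne_zero_of_ord_ne_zero v ht.ne'
  have hσϖ0 : σ ϖ ≠ 0 := (map_ne_zero σ).mpr hϖ0
  have hτϖ0 : τ ϖ ≠ 0 := (map_ne_zero τ).mpr hϖ0
  have hμ : 0 < (σ ϖ).order := hσ.order_pos_of_ord_pos (by omega)
  have hord : (σ ϖ).order = (τ ϖ).order := Induces.order_eq_of_eq_at ht hσ hτ hst ϖ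
  -- first show σ ϖ = τ ϖ
  have hD : σ ϖ - τ ϖ = 0 := by
    by_contra hD
    obtain ⟨e, he⟩ : ∃ e : ℕ, v.ord t = e := ⟨(v.ord t).toNat, (Int.toNat_of_nonneg ht.le).symm⟩
    have he0 : 0 < e := by omega
    set u := t / ϖ ^ e with hu
    have hu_ord : v.ord u = 0 := by
      rw [hu, ord_div v ht0 (pow_ne_zero _ hϖ0), ord_pow, hϖ, he]
      ring
    have hu0 : u ≠ 0 := div_ne_zero ht0 (pow_ne_zero _ hϖ0)
    have htu : t = u * ϖ ^ e := by
      rw [hu]; field_simp
    have hσu : (σ u).order = 0 := (hσ.order_eq_zero_iff u).mpr hu_ord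
    obtain ⟨hS0, hSord⟩ := order_geom_sum₂ hσϖ0 hτϖ0 hord hlc he0
    set S := ∑ i ∈ Finset.range e, σ ϖ ^ i * τ ϖ ^ (e - 1 - i) with hS
    have hgeom : S * (σ ϖ - τ ϖ) = σ ϖ ^ e - τ ϖ ^ e := geom_sum₂_mul _ _ _
    have hzero : σ u * S * (σ ϖ - τ ϖ) + (σ u - τ u) * τ ϖ ^ e = 0 := by
      have h1 : σ t - τ t = 0 := by rw [hst, sub_self]
      rw [htu, map_mul, map_mul, map_pow, map_pow] at h1
      rw [mul_assoc, hgeom]
      linear_combination h1
    have hσu0 : σ u ≠ 0 := (map_ne_zero σ).mpr hu0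
    have hX1 : σ u * S * (σ ϖ - τ ϖ) ≠ 0 := mul_ne_zero (mul_ne_zero hσu0 hS0) hD
    have hX1ord : (σ u * S * (σ ϖ - τ ϖ)).orderTop
        = (((e : ℤ) - 1) * (σ ϖ).order + (σ ϖ - τ ϖ).order : ℤ) := by
      rw [ls_orderTop_eq_order hX1, HahnSeries.order_mul (mul_ne_zero hσu0 hS0) hD,
        HahnSeries.order_mul hσu0 hS0, hσu, hSord, zero_add]
    have hX2 : (((σ ϖ - τ ϖ).order + e * (σ ϖ).order : ℤ) : WithTop ℤ)
        ≤ ((σ u - τ u) * τ ϖ ^ e).orderTop := by
      apply le_ot_mul
      · rw [← ls_orderTop_eq_order hD]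
        exact orderTop_sub_uniformizer_le ht hσK hτK hσ hτ hϖ hu_ord.ge
      · apply le_ot_of_order
        rw [HahnSeries.order_pow, ← hord]
        simp
    have hlt : (σ u * S * (σ ϖ - τ ϖ)).orderTop < ((σ u - τ u) * τ ϖ ^ e).orderTop := by
      refine lt_of_lt_of_le ?_ hX2
      rw [hX1ord]
      have : ((e : ℤ) - 1) * (σ ϖ).order + (σ ϖ - τ ϖ).order
          < (σ ϖ - τ ϖ).order + e * (σ ϖ).order := by linarith
      exact_mod_cast this
    have h3 := HahnSeries.orderTop_add_eq_left hlt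
    rw [hzero, HahnSeries.orderTop_zero] at h3
    exact hX1 (HahnSeries.orderTop_eq_top.mp h3.symm)
  -- now σ = τ on the valuation ring, hence everywhere
  have hint : ∀ f : F, 0 ≤ v.ord f → σ f = τ f := by
    intro f hf
    have := orderTop_sub_uniformizer_le ht hσK hτK hσ hτ hϖ hf
    rw [hD, HahnSeries.orderTop_zero, top_le_iff, HahnSeries.orderTop_eq_top, sub_eq_zero] at this
    exact this
  ext1 f
  rcases le_total 0 (v.ord f) with h | h
  · exact hint f h
  · have h' : 0 ≤ v.ord f⁻¹ := by rw [Place.ord_inv]; omega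
    have := hint f⁻¹ h'
    rw [map_inv₀, map_inv₀] at this
    exact inv_injective this

theorem ls_leadingCoeff_C (r : C) : (HahnSeries.C r : LaurentSeries C).leadingCoeff = r := by
  rw [HahnSeries.C_apply, HahnSeries.leadingCoeff_of_single]

theorem ls_orderTop_C {r : C} (hr : r ≠ 0) : (HahnSeries.C r : LaurentSeries C).orderTop = 0 := by
  rw [HahnSeries.C_apply, HahnSeries.orderTop_single hr]
  rfl

/-- The leading coefficient of `σ t` is a fixed constant times the `e`-th power of the leading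
coefficient of `σ ϖ`. -/
theorem exists_const_leadingCoeff [IsAlgClosed K] {t : F} (ht : 0 < v.ord t)
    [Algebra.IsAlgebraic (IntermediateField.adjoin K {t}) F] {ϖ : F} (hϖ : v.ord ϖ = 1)
    (ι : K →+* C) :
    ∃ c : K, c ≠ 0 ∧ ∀ σ : F →+* LaurentSeries C,
      (∀ c, σ (algebraMap K F c) = HahnSeries.C (ι c)) → Induces σ v →
      (σ t).leadingCoeff = ι c * (σ ϖ).leadingCoeff ^ (v.ord t).toNat := by
  have hϖ0 : ϖ ≠ 0 := ne_zero_of_ord_ne_zero v (by omega)
  have ht0 : t ≠ 0 := ne_zero_of_ord_ne_zero v ht.ne'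
  set e := (v.ord t).toNat with he
  have he' : v.ord t = e := (Int.toNat_of_nonneg ht.le).symm
  set u := t / ϖ ^ e with hu
  have hu_ord : v.ord u = 0 := by
    rw [hu, ord_div v ht0 (pow_ne_zero _ hϖ0), ord_pow, hϖ, he']
    ring
  have hu0 : u ≠ 0 := div_ne_zero ht0 (pow_ne_zero _ hϖ0)
  have htu : t = u * ϖ ^ e := by
    rw [hu]; field_simp
  obtain ⟨c, g, hg, hcg⟩ := exists_eq_const_add ht hu_ord.ge
  have hc : c ≠ 0 := by
    rintro rfl
    rw [map_zero, zero_add] at hcg
    rw [← hcg] at hg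
    rcases hg with h | h
    · exact hu0 h
    · omega
  refine ⟨c, hc, fun σ hσK hσ => ?_⟩
  have hιc : ι c ≠ 0 := (map_ne_zero ι).mpr hc
  have hlcu : (σ u).leadingCoeff = ι c := by
    rw [hcg, map_add, hσK]
    rcases hg with rfl | hg
    · rw [map_zero, add_zero, ls_leadingCoeff_C]
    · have hgo : 0 < (σ g).order := hσ.order_pos_of_ord_pos hg
      have hσg0 : σ g ≠ 0 := ls_ne_zero_of_order_ne_zero hgo.ne'
      have hlt : (HahnSeries.C (ι c) : LaurentSeries C).orderTop < (σ g).orderTop := by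
        rw [ls_orderTop_C hιc, ls_orderTop_eq_order hσg0]
        exact_mod_cast hgo
      rw [HahnSeries.leadingCoeff_add_eq_left hlt, ls_leadingCoeff_C]
  conv_lhs => rw [htu]
  rw [map_mul, map_pow, HahnSeries.leadingCoeff_mul, ls_leadingCoeff_pow, hlcu]

/-- **Fibre bound.** At most `e = v(t)` embeddings (over `K(t)`) induce the place `v`. -/
theorem card_induces_le [IsAlgClosed K] [CharZero C] {X : Type*} [Finite X] {t : F}
    (ht : 0 < v.ord t) [Algebra.IsAlgebraic (IntermediateField.adjoin K {t}) F]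
    (ι : K →+* C) (σ : X → (F →+* LaurentSeries C)) (hinj : Function.Injective σ)
    (hK : ∀ x c, σ x (algebraMap K F c) = HahnSeries.C (ι c))
    (hteq : ∀ x y, σ x t = σ y t) :
    Nat.card {x : X // Induces (σ x) v} ≤ (v.ord t).toNat := by
  classical
  obtain ⟨ϖ, hϖ⟩ := exists_ord_eq_one v
  obtain ⟨c, hc, hcσ⟩ := exists_const_leadingCoeff ht hϖ ι
  have hιc : ι c ≠ 0 := (map_ne_zero ι).mpr hc
  have he0 : 0 < (v.ord t).toNat := by omega
  rcases isEmpty_or_nonempty {x : X // Induces (σ x) v} with hemp | ⟨⟨x₀, hx₀⟩⟩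
  · simp
  set a : C := (σ x₀ t).leadingCoeff / ι c with ha
  have hmem : ∀ x : {x : X // Induces (σ x) v},
      (σ x.1 ϖ).leadingCoeff ∈ Polynomial.nthRootsFinset (v.ord t).toNat a := by
    intro x
    rw [Polynomial.mem_nthRootsFinset he0, ha, hteq x₀ x.1, hcσ (σ x.1) (hK x.1) x.2]
    field_simp
  let φ : {x : X // Induces (σ x) v} → Polynomial.nthRootsFinset (v.ord t).toNat a :=
    fun x => ⟨_, hmem x⟩
  have hφ : Function.Injective φ := by
    intro x y hxy
    have hlc : (σ x.1 ϖ).leadingCoeff = (σ y.1 ϖ).leadingCoeff := congrArg Subtype.val hxy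
    have := emb_eq_of_leadingCoeff_eq ht (hK x.1) (hK y.1) x.2 y.2 (hteq x.1 y.1) hϖ hlc
    exact Subtype.ext (hinj this)
  calc Nat.card {x : X // Induces (σ x) v}
      ≤ Nat.card (Polynomial.nthRootsFinset (v.ord t).toNat a) :=
        Nat.card_le_card_of_injective φ hφ
    _ = (Polynomial.nthRootsFinset (v.ord t).toNat a).card := Nat.card_eq_finsetCard _
    _ ≤ Multiset.card (Polynomial.nthRoots (v.ord t).toNat a) := by
        rw [Polynomial.nthRootsFinset_def]
        exact Multiset.toFinset_card_le _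
    _ ≤ (v.ord t).toNat := Polynomial.card_nthRoots _ _

end rigidity

end Fermat.Agent.S24.H504

end
-- ===== PACK-END S24/H504/Fibre.lean

-- ===== PACK-BEGIN S37/H700/GaussSpan.lean
section


/-!
# S37 / piece GAUSS (helper700): the integral monomials span `F̄_N` over `L(j)`
-/

set_option autoImplicit false

noncomputable section

namespace Fermat.Agent.S37.H700

open ModularCurve HahnSeries Polynomial
open Fermat.Agent.S28 (jField intDivisorExpansions)

section IntSeries

variable (K : Type*) [Field K]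

/-- Reduction/base change of an element of `ℤ[j(q^d) : d ∣ N]` lies in `K(j(q^d) : d ∣ N)`. -/
theorem coeffMap_intCast_mem_fullC (N : ℕ) {y : LaurentSeries ℤ}
    (hy : y ∈ Subring.closure (intDivisorExpansions N)) :
    coeffMap (Int.castRingHom K) y ∈ modularFunctionFieldFullC K N := by
  induction hy using Subring.closure_induction with
  | mem x hx =>
    obtain ⟨d, hd, hdN, rfl⟩ := hx
    rw [coeffMap_qExpand, coeffMap_jqModC]
    exact jqModCd_mem_full K N hdN
  | zero => simp
  | one => simp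
  | add x y _ _ hx hy => rw [map_add]; exact add_mem hx hy
  | neg x _ hx => rw [map_neg]; exact neg_mem hx
  | mul x y _ _ hx hy => rw [map_mul]; exact mul_mem hx hy

theorem smul_jField_def (c : jField K) (x : LaurentSeries K) :
    c • x = (c : LaurentSeries K) * x := rfl

end IntSeries

section Span

variable (L : Type*) [Field L] [Algebra ℚ L]

theorem coeffEmb_evalJ (P : ℚ[X]) :
    coeffEmb L (evalJ ℚ P) = evalJ L (P.map (algebraMap ℚ L)) :=
  coeffMap_evalJ _ P

theorem coeffEmb_intCast (y : LaurentSeries ℤ) :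
    coeffEmb L (coeffMap (Int.castRingHom ℚ) y) = coeffMap (Int.castRingHom L) y := by
  rw [coeffEmb, coeffMap_coeffMap]
  exact coeffMap_congr (RingHom.ext_int _ _) y

/-- `coeffEmb` maps `ℚ(j)` into `L(j)`. -/
theorem coeffEmb_mem_jField {c : LaurentSeries ℚ} (hc : c ∈ jField ℚ) :
    coeffEmb L c ∈ jField L := by
  obtain ⟨r, s, hs, hrs⟩ := exists_evalJ_of_mem_jField ℚ hc
  have h := congrArg (coeffEmb L) hrs
  rw [map_mul, coeffEmb_evalJ, coeffEmb_evalJ] at h
  have hs' : evalJ L (s.map (algebraMap ℚ L)) ≠ 0 := by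
    rw [Ne, evalJ_eq_zero_iff]
    exact (Polynomial.map_ne_zero_iff (algebraMap ℚ L).injective).mpr hs
  have : coeffEmb L c = evalJ L (r.map (algebraMap ℚ L)) * (evalJ L (s.map (algebraMap ℚ L)))⁻¹ := by
    rw [← h, mul_assoc, mul_inv_cancel₀ hs', mul_one]
  rw [this]
  exact mul_mem (evalJ_mem_jField L _) (inv_mem (evalJ_mem_jField L _))

variable {n : ℕ} (y : Fin n → LaurentSeries ℤ)

/-- The `L(j)`-span of the base-changed monomials. -/
def spanL : Submodule (jField L) (LaurentSeries L) :=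
  Submodule.span (jField L) (Set.range fun i => coeffMap (Int.castRingHom L) (y i))

theorem coeffEmb_mem_spanL {x : LaurentSeries ℚ}
    (hx : x ∈ Submodule.span (jField ℚ)
      (Set.range fun i => coeffMap (Int.castRingHom ℚ) (y i))) :
    coeffEmb L x ∈ spanL L y := by
  induction hx using Submodule.span_induction with
  | mem x hx =>
    obtain ⟨i, rfl⟩ := hx
    rw [coeffEmb_intCast]
    exact Submodule.subset_span ⟨i, rfl⟩
  | zero => rw [map_zero]; exact zero_mem _
  | add x y _ _ hx hy => rw [map_add]; exact add_mem hx hy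
  | smul c x _ hx =>
    rw [smul_jField_def, map_mul]
    exact (spanL L y).smul_mem ⟨coeffEmb L c, coeffEmb_mem_jField L c.2⟩ hx

variable (N : ℕ)
variable (hy_mem : ∀ i, y i ∈ Subring.closure (intDivisorExpansions N))
variable (hy_span : ∀ x ∈ modularFunctionFieldFull N,
      x ∈ Submodule.span (jField ℚ)
        (Set.range fun i => coeffMap (Int.castRingHom ℚ) (y i)))

include hy_span in
theorem coeffEmb_mem_spanL_of_mem {x : LaurentSeries ℚ} (hx : x ∈ modularFunctionFieldFull N) :
    coeffEmb L x ∈ spanL L y :=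
  coeffEmb_mem_spanL L y (hy_span x hx)

include hy_span in
theorem one_mem_spanL : (1 : LaurentSeries L) ∈ spanL L y := by
  have := coeffEmb_mem_spanL_of_mem L y N hy_span (one_mem (modularFunctionFieldFull N))
  rwa [map_one] at this

include hy_mem hy_span in
theorem gen_mul_gen_mem_spanL (i j : Fin n) :
    coeffMap (Int.castRingHom L) (y i) * coeffMap (Int.castRingHom L) (y j) ∈ spanL L y := by
  rw [← coeffEmb_intCast L (y i), ← coeffEmb_intCast L (y j), ← map_mul]
  refine coeffEmb_mem_spanL_of_mem L y N hy_span (mul_mem ?_ ?_)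
  · rw [← modularFunctionFieldFullC_rat]; exact coeffMap_intCast_mem_fullC ℚ N (hy_mem i)
  · rw [← modularFunctionFieldFullC_rat]; exact coeffMap_intCast_mem_fullC ℚ N (hy_mem j)

include hy_mem hy_span in
theorem mul_mem_spanL {a b : LaurentSeries L} (ha : a ∈ spanL L y) (hb : b ∈ spanL L y) :
    a * b ∈ spanL L y := by
  induction ha using Submodule.span_induction with
  | mem a ha =>
    obtain ⟨i, rfl⟩ := ha
    induction hb using Submodule.span_induction with
    | mem b hb =>
      obtain ⟨j, rfl⟩ := hb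
      exact gen_mul_gen_mem_spanL L y N hy_mem hy_span i j
    | zero => rw [mul_zero]; exact zero_mem _
    | add x z _ _ hx hz => rw [mul_add]; exact add_mem hx hz
    | smul c x _ hx =>
      rw [smul_jField_def, mul_left_comm]
      exact (spanL L y).smul_mem c hx
  | zero => rw [zero_mul]; exact zero_mem _
  | add x z _ _ hx hz => rw [add_mul]; exact add_mem hx hz
  | smul c x _ hx =>
    rw [smul_jField_def, mul_assoc]
    exact (spanL L y).smul_mem c hx

/-- The span as a subalgebra over `L(j)`. -/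
def spanAlg : Subalgebra (jField L) (LaurentSeries L) :=
  (spanL L y).toSubalgebra (one_mem_spanL L y N hy_span)
    (fun _ _ ha hb => mul_mem_spanL L y N hy_mem hy_span ha hb)

include hy_mem hy_span in
theorem inv_mem_spanL {a : LaurentSeries L} (ha : a ∈ spanL L y) : a⁻¹ ∈ spanL L y := by
  have hfg : (spanAlg L y N hy_mem hy_span).toSubmodule.FG := by
    show (spanL L y).FG
    exact Submodule.fg_span (Set.finite_range _)
  have hint : IsIntegral (jField L) a :=
    IsIntegral.of_mem_of_fg (spanAlg L y N hy_mem hy_span) hfg a ha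
  exact (spanAlg L y N hy_mem hy_span).inv_mem_of_algebraic
    (x := ⟨a, ha⟩) hint.isAlgebraic

include hy_mem hy_span in
/-- **Spanning over `L`**: every element of `F̄_N = L·F_N` is an `L(j)`-combination of the
integral monomials. -/
theorem mem_spanL_of_mem_baseChange {x : LaurentSeries L}
    (hx : x ∈ laurentBaseChange L (modularFunctionFieldFull N)) : x ∈ spanL L y := by
  rw [mem_laurentBaseChange_iff] at hx
  induction hx using Subfield.closure_induction with
  | mem x hx =>
    rcases hx with ⟨a, rfl⟩ | ⟨z, hz, rfl⟩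
    · have h1 := one_mem_spanL L y N hy_span
      have := (spanL L y).smul_mem
        (⟨algebraMap L (LaurentSeries L) a, (jField L).algebraMap_mem a⟩ : jField L) h1
      rwa [smul_jField_def, mul_one] at this
    · exact coeffEmb_mem_spanL_of_mem L y N hy_span hz
  | one => exact one_mem_spanL L y N hy_span
  | add x z _ _ hx hz => exact add_mem hx hz
  | neg x _ hx => exact neg_mem hx
  | inv x _ hx => exact inv_mem_spanL L y N hy_mem hy_span hx
  | mul x z _ _ hx hz => exact mul_mem_spanL L y N hy_mem hy_span hx hz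

end Span

end Fermat.Agent.S37.H700

end
end
-- ===== PACK-END S37/H700/GaussSpan.lean

-- ===== PACK-BEGIN S28/H867/Degree.lean
section



set_option autoImplicit false
noncomputable section
open ModularCurve HahnSeries IntermediateField

namespace Fermat.Agent.S28.H867

section Generic

variable {k Ω : Type*} [Field k] [Field Ω] [Algebra k Ω]

/-- `[A(S) : A]` as a `relfinrank`. -/
theorem relfinrank_sup_adjoin (A : IntermediateField k Ω) (S : Set Ω) :
    A.relfinrank (A ⊔ adjoin k S) = Module.finrank A (adjoin A S) := by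
  have h : A ≤ A ⊔ adjoin k S := le_sup_left
  rw [relfinrank_eq_finrank_of_le h]
  have : extendScalars h = adjoin A S := by
    apply IntermediateField.restrictScalars_injective k
    rw [extendScalars_restrictScalars, restrictScalars_adjoin_eq_sup]
  rw [this]

theorem relfinrank_sup_adjoin_simple (A : IntermediateField k Ω) {x : Ω} (hx : IsIntegral A x) :
    A.relfinrank (A ⊔ adjoin k {x}) = (minpoly A x).natDegree := by
  rw [relfinrank_sup_adjoin, adjoin.finrank hx]

theorem relfinrank_sup_adjoin_ne_zero (A : IntermediateField k Ω) {S : Set Ω} (hS : S.Finite)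
    (hint : ∀ x ∈ S, IsIntegral A x) : A.relfinrank (A ⊔ adjoin k S) ≠ 0 := by
  rw [relfinrank_sup_adjoin]
  have : Finite S := hS
  have := finiteDimensional_adjoin (K := A) hint
  exact Module.finrank_pos.ne'

theorem relfinrank_ne_zero_of_le {A B C : IntermediateField k Ω} (hAB : A ≤ B) (hBC : B ≤ C)
    (h : A.relfinrank C ≠ 0) : A.relfinrank B ≠ 0 ∧ B.relfinrank C ≠ 0 := by
  rw [← relfinrank_mul_relfinrank hAB hBC] at h
  exact ⟨left_ne_zero_of_mul h, right_ne_zero_of_mul h⟩

/-- A linearly independent family of size `n` inside `C` bounds `[C : B]` from below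
(when finite). -/
theorem le_relfinrank_of_linearIndependent {B C : IntermediateField k Ω} (hBC : B ≤ C)
    (hfin : B.relfinrank C ≠ 0) {n : ℕ} (v : Fin n → Ω) (hv : ∀ i, v i ∈ C)
    (hli : LinearIndependent B v) : n ≤ B.relfinrank C := by
  rw [relfinrank_eq_finrank_of_le hBC] at hfin ⊢
  have hfd : FiniteDimensional B (extendScalars hBC) :=
    Module.finite_of_finrank_pos (Nat.pos_of_ne_zero hfin)
  let v' : Fin n → extendScalars hBC := fun i => ⟨v i, hv i⟩
  have hli' : LinearIndependent B v' := by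
    apply LinearIndependent.of_comp (extendScalars hBC).val.toLinearMap
    exact hli
  simpa using hli'.fintype_card_le_finrank

end Generic

section Basic

variable (k : Type*) [Field k]

theorem jField_le_EF (M : ℕ) : jField k ≤ EF k M := by
  rw [jField, adjoin_simple_le_iff]
  exact jqModC_mem_full k M

theorem jpField_eq_map (p : ℕ) [NeZero p] :
    jpField k p = (jField k).map (qExpandAlgHomC k p) := by
  rw [jpField, jField, adjoin_map, Set.image_singleton]
  rfl

theorem EF_le_EF_mul (M p : ℕ) [NeZero M] [NeZero p] : EF k M ≤ EF k (M * p) :=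
  haveI : NeZero (M * p) := ⟨Nat.mul_ne_zero (NeZero.ne M) (NeZero.ne p)⟩
  full_degeneracyC_le k (Dvd.intro _ rfl)

theorem map_EF_le (M p : ℕ) [NeZero p] :
    (EF k M).map (qExpandAlgHomC k p) ≤ EF k (M * p) :=
  full_degeneracyC_map_le k M p

/-- Step (b): `[E_{Mp} : k(j)] ≥ p · [E_M : k(j)]`. -/
theorem degE_mul_ge (M p : ℕ) [NeZero p] (hP : PrimeLevel k p) (hI : LeafI k p)
    (hfin : degE k (M * p) ≠ 0) : p * degE k M ≤ degE k (M * p) := by
  set V := qExpandAlgHomC k p with hV
  set A₀ := jField k with hA₀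
  set A := jpField k p with hA
  set B := (EF k M).map V with hB
  set C := B ⊔ A₀ with hC
  set E' := EF k (M * p) with hE'
  set P := A₀ ⊔ A with hPdef
  have hAB : A ≤ B := by
    rw [hA, jpField_eq_map, hB]
    exact IntermediateField.map_mono _ (jField_le_EF k M)
  have hBE : B ≤ E' := map_EF_le k M p
  have hA₀E : A₀ ≤ E' := jField_le_EF k (M * p)
  have hCE : C ≤ E' := sup_le hBE hA₀E
  have hBC : B ≤ C := le_sup_left
  have hPC : P ≤ C := sup_le le_sup_right (hAB.trans hBC)
  have hPE : P ≤ E' := hPC.trans hCE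
  have hA₀P : A₀ ≤ P := le_sup_left
  have hAP : A ≤ P := le_sup_right
  -- D_{Mp} = [E' : A]
  have h1 : A₀.relfinrank E' = A.relfinrank E' := by
    rw [← relfinrank_mul_relfinrank hA₀P hPE, ← relfinrank_mul_relfinrank hAP hPE,
      hP.deg_j, hP.deg_jp]
  have h2 : A.relfinrank E' = A.relfinrank B * (B.relfinrank C * C.relfinrank E') := by
    rw [relfinrank_mul_relfinrank hBC hCE, relfinrank_mul_relfinrank hAB hBE]
  have h3 : A.relfinrank B = degE k M := by
    rw [hA, jpField_eq_map, hB, relfinrank_map_map]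
    rfl
  have hfin' : A.relfinrank E' ≠ 0 := by rw [← h1]; exact hfin
  have hBCfin : B.relfinrank C ≠ 0 := by
    rw [h2] at hfin'
    exact left_ne_zero_of_mul (right_ne_zero_of_mul hfin')
  have hCEfin : C.relfinrank E' ≠ 0 := by
    rw [h2] at hfin'
    exact right_ne_zero_of_mul (right_ne_zero_of_mul hfin')
  have h4 : p ≤ B.relfinrank C := by
    refine le_relfinrank_of_linearIndependent hBC hBCfin _ ?_ (hI B ?_)
    · intro i
      refine pow_mem ?_ _
      exact (le_sup_right : A₀ ≤ C) (mem_adjoin_simple_self k _)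
    · rw [hB]
      intro x hx
      obtain ⟨y, -, rfl⟩ := hx
      exact ⟨y, rfl⟩
  show p * degE k M ≤ A₀.relfinrank E'
  rw [h1, h2, h3]
  calc p * degE k M = degE k M * (p * 1) := by ring
    _ ≤ degE k M * (B.relfinrank C * C.relfinrank E') := by
        apply Nat.mul_le_mul_left
        exact Nat.mul_le_mul h4 (Nat.one_le_iff_ne_zero.mpr hCEfin)

end Basic

end Fermat.Agent.S28.H867

end
end
-- ===== PACK-END S28/H867/Degree.lean

-- ===== PACK-BEGIN S28/H867/GFun.lean
section



set_option autoImplicit false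
noncomputable section

namespace Fermat.Agent.S28.H867

section GFun

theorem gFun_one : gFun 1 = 1 := by
  simp [gFun]

theorem gFun_pos (N : ℕ) : 0 < gFun N := by
  unfold gFun
  apply Finset.prod_pos
  intro p hp
  have hp' := Nat.prime_of_mem_primeFactors hp
  exact Nat.mul_pos (Nat.succ_pos _) (pow_pos hp'.pos _)

theorem gFun_mul_of_dvd {M p : ℕ} (hM : M ≠ 0) (hp : p.Prime) (hpM : p ∣ M) :
    gFun (M * p) = p * gFun M := by
  unfold gFun
  have hpf : (M * p).primeFactors = M.primeFactors := by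
    rw [Nat.primeFactors_mul hM hp.ne_zero, hp.primeFactors, Finset.union_eq_left,
      Finset.singleton_subset_iff]
    exact Nat.mem_primeFactors.mpr ⟨hp, hpM, hM⟩
  have hpmem : p ∈ M.primeFactors := Nat.mem_primeFactors.mpr ⟨hp, hpM, hM⟩
  rw [hpf, ← Finset.mul_prod_erase _ _ hpmem, ← Finset.mul_prod_erase _ _ hpmem]
  have hv : 1 ≤ M.factorization p := (hp.dvd_iff_one_le_factorization hM).mp hpM
  have h1 : (M * p).factorization p = M.factorization p + 1 := by
    rw [Nat.factorization_mul hM hp.ne_zero]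
    simp [hp.factorization]
  have h2 : ∀ q ∈ M.primeFactors.erase p, (M * p).factorization q = M.factorization q := by
    intro q hq
    rw [Nat.factorization_mul hM hp.ne_zero]
    have hqp : q ≠ p := Finset.ne_of_mem_erase hq
    simp [hp.factorization, Finsupp.single_apply, hqp.symm]
  rw [Finset.prod_congr rfl fun q hq => by rw [h2 q hq], h1]
  have h3 : M.factorization p + 1 - 1 = (M.factorization p - 1) + 1 := by omega
  rw [h3, pow_succ]
  ring

theorem gFun_mul_of_not_dvd {M p : ℕ} (hM : M ≠ 0) (hp : p.Prime) (hpM : ¬ p ∣ M) :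
    gFun (M * p) = (p + 1) * gFun M := by
  unfold gFun
  have hpnmem : p ∉ M.primeFactors := fun h => hpM (Nat.dvd_of_mem_primeFactors h)
  have hpf : (M * p).primeFactors = insert p M.primeFactors := by
    rw [Nat.primeFactors_mul hM hp.ne_zero, hp.primeFactors, Finset.union_comm]
    rfl
  rw [hpf, Finset.prod_insert hpnmem]
  have h1 : (M * p).factorization p = 1 := by
    rw [Nat.factorization_mul hM hp.ne_zero]
    simp [hp.factorization, Nat.factorization_eq_zero_of_not_dvd hpM]
  have h2 : ∀ q ∈ M.primeFactors, (M * p).factorization q = M.factorization q := by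
    intro q hq
    rw [Nat.factorization_mul hM hp.ne_zero]
    have hqp : q ≠ p := fun h => hpnmem (h ▸ hq)
    simp [hp.factorization, Finsupp.single_apply, hqp.symm]
  rw [Finset.prod_congr rfl fun q hq => by rw [h2 q hq], h1]
  simp

theorem gFun_prime {p : ℕ} (hp : p.Prime) : gFun p = p + 1 := by
  have := gFun_mul_of_not_dvd (M := 1) one_ne_zero hp (by simpa using hp.one_lt.ne')
  rwa [one_mul, gFun_one, mul_one] at this

end GFun

end Fermat.Agent.S28.H867

end
end
-- ===== PACK-END S28/H867/GFun.lean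

-- ===== PACK-BEGIN S18/H264/SepModular.lean
section



/-!
# S18 / G-SEP at the modular function field (helper264)

Prelude-level consequences of `SepLaurent.lean`, for a perfect field `k` of characteristic `p`
(no hypothesis on the level `N`, not even `NeZero N`):

* `order_jqModC` : `ord_q (j̄) = -1`;
* `isSeparable_laurent_jqModC` : every `y ∈ k((q))` algebraic over `k(j̄)` is separable over it;
* `isSeparable_full` : every `y ∈ F_k = modularFunctionFieldFullC k N` algebraic over
  `k(j̄) ⊆ F_k` is separable over `k(j̄)`;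
* `algebra_isSeparable_full` : if `F_k` is algebraic (e.g. finite: Sq05 `ModFiniteStatement`)
  over `k(j̄)`, then `F_k / k(j̄)` is separable;
* `exists_bivariate_simple_root_jqModC` : liftable form, `∃ P ∈ k[X][Y]`, `P(j̄, y) = 0`,
  `(∂P/∂Y)(j̄, y) ≠ 0`.
-/

set_option autoImplicit false

noncomputable section

namespace Fermat.Agent.S18.H264

open ModularCurve IntermediateField Polynomial

section Order

variable (k : Type*) [Field k]

/-- The `q`-order of `j̄ = q⁻¹ + 744 + …` is `-1`. -/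
theorem order_jqModC : (jqModC k).order = -1 := by
  have hne : jqModC k ≠ 0 := jqModC_ne_zero_of_nontrivial k
  apply le_antisymm
  · apply HahnSeries.order_le_of_coeff_ne_zero
    rw [coeff_jqModC_neg_one]
    exact one_ne_zero
  · rw [HahnSeries.le_order_iff_forall hne]
    intro j hj
    exact coeff_jqModC_of_lt k hj

end Order

section Sep

variable (k : Type*) [Field k] [PerfectField k] (p : ℕ) [hp : Fact p.Prime] [CharP k p]

include hp in
/-- Every Laurent series algebraic over `k(j̄)` is separable over `k(j̄)`. -/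
theorem isSeparable_laurent_jqModC (y : LaurentSeries k)
    (hy : IsAlgebraic (IntermediateField.adjoin k {jqModC k}) y) :
    IsSeparable (IntermediateField.adjoin k {jqModC k}) y :=
  isSeparable_laurent_of_order_eq_neg_one p (jqModC k) y (order_jqModC k) hy

include hp in
/-- Liftable form: `∃ P ∈ k[X][Y]` with `P(j̄, y) = 0` and `(∂P/∂Y)(j̄, y) ≠ 0`. -/
theorem exists_bivariate_simple_root_jqModC (y : LaurentSeries k)
    (hy : IsAlgebraic (IntermediateField.adjoin k {jqModC k}) y) :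
    ∃ P : Polynomial (Polynomial k),
      P.eval₂ (aeval (jqModC k) : Polynomial k →ₐ[k] LaurentSeries k).toRingHom y = 0 ∧
      (derivative P).eval₂
        (aeval (jqModC k) : Polynomial k →ₐ[k] LaurentSeries k).toRingHom y ≠ 0 :=
  exists_bivariate_simple_root (jqModC k) y (isSeparable_laurent_jqModC k p y hy)

variable (N : ℕ)

include hp in
/-- Inside `F_k = modularFunctionFieldFullC k N`: every element algebraic over `k(j̄)` is
separable over `k(j̄)`.  (The element `⟨jqModC k, _⟩` is `Sq05.jC k N` unfolded.) -/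
theorem isSeparable_full (y : modularFunctionFieldFullC k N)
    (hy : IsAlgebraic
      (IntermediateField.adjoin k
        {(⟨jqModC k, jqModC_mem_full k N⟩ : modularFunctionFieldFullC k N)}) y) :
    IsSeparable
      (IntermediateField.adjoin k
        {(⟨jqModC k, jqModC_mem_full k N⟩ : modularFunctionFieldFullC k N)}) y := by
  refine isSeparable_of_isAlgebraic_of_addVal p
    ((HahnSeries.addVal ℤ k).comap (algebraMap (modularFunctionFieldFullC k N) (LaurentSeries k)))
    (⟨jqModC k, jqModC_mem_full k N⟩ : modularFunctionFieldFullC k N) (-1) ?_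
    (not_prime_dvd_neg_one p hp.out) y hy
  have h : (HahnSeries.addVal ℤ k) (jqModC k) = (((jqModC k).order : ℤ) : WithTop ℤ) :=
    HahnSeries.addVal_apply_of_ne (jqModC_ne_zero_of_nontrivial k)
  rw [order_jqModC] at h
  exact h

include hp in
/-- If `F_k` is algebraic over `k(j̄)` (e.g. finite), then `F_k / k(j̄)` is separable. -/
theorem algebra_isSeparable_full
    [Algebra.IsAlgebraic
      (IntermediateField.adjoin k
        {(⟨jqModC k, jqModC_mem_full k N⟩ : modularFunctionFieldFullC k N)})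
      (modularFunctionFieldFullC k N)] :
    Algebra.IsSeparable
      (IntermediateField.adjoin k
        {(⟨jqModC k, jqModC_mem_full k N⟩ : modularFunctionFieldFullC k N)})
      (modularFunctionFieldFullC k N) :=
  ⟨fun y => isSeparable_full k p N y (Algebra.IsAlgebraic.isAlgebraic y)⟩

end Sep

end Fermat.Agent.S18.H264

end
end
-- ===== PACK-END S18/H264/SepModular.lean

-- ===== PACK-BEGIN S20/Comb694/RelIndex.lean
section





/-!
# Relative index of `Gamma0 (p * M)` in `Gamma0 M`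

`(Gamma0 (p * M)).relIndex (Gamma0 M) = p` if `p ∣ M`, and `p + 1` otherwise (`p` prime, `M ≠ 0`).
-/

set_option autoImplicit false

namespace Fermat.Agent.S20.Comb694

open Matrix MatrixGroups CongruenceSubgroup

lemma mem_Gamma0_iff_dvd (N : ℕ) (g : SL(2, ℤ)) : g ∈ Gamma0 N ↔ (N : ℤ) ∣ g 1 0 := by
  rw [Gamma0_mem]
  exact ZMod.intCast_zmod_eq_zero_iff_dvd _ _

lemma Gamma0_mul_le (p M : ℕ) : Gamma0 (p * M) ≤ Gamma0 M := by
  intro g hg
  rw [mem_Gamma0_iff_dvd] at hg ⊢
  refine dvd_trans ?_ hg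
  push_cast
  exact dvd_mul_left _ _

/-- The matrix `[[1, 0], [c, 1]]` in `SL(2,ℤ)`. -/
def lowRep (c : ℤ) : SL(2, ℤ) := ⟨!![1, 0; c, 1], by simp [Matrix.det_fin_two]⟩

@[simp] lemma lowRep_apply_zero_zero (c : ℤ) : lowRep c 0 0 = 1 := rfl
@[simp] lemma lowRep_apply_one_zero (c : ℤ) : lowRep c 1 0 = c := rfl

lemma lowRep_mem (M : ℕ) (t : ℤ) : lowRep ((M : ℤ) * t) ∈ Gamma0 M := by
  rw [mem_Gamma0_iff_dvd, lowRep_apply_one_zero]
  exact dvd_mul_right _ _

/-- Coset criterion for `Gamma0 M ⧸ (Gamma0 (p * M)).subgroupOf (Gamma0 M)`. -/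
lemma subMk_eq_iff (p M : ℕ) (hM : M ≠ 0) (g g' : Gamma0 M) (c₁ c₁' : ℤ)
    (hc : (g : SL(2, ℤ)) 1 0 = M * c₁) (hc' : (g' : SL(2, ℤ)) 1 0 = M * c₁') :
    (QuotientGroup.mk g : Gamma0 M ⧸ (Gamma0 (p * M)).subgroupOf (Gamma0 M))
        = QuotientGroup.mk g' ↔
      (p : ℤ) ∣ ((g : SL(2, ℤ)) 0 0 * c₁' - c₁ * (g' : SL(2, ℤ)) 0 0) := by
  rw [QuotientGroup.eq, Subgroup.mem_subgroupOf, mem_Gamma0_iff_dvd]
  simp only [Subgroup.coe_mul, Subgroup.coe_inv, inv_mul_apply_one_zero, hc, hc']
  have h : (g : SL(2, ℤ)) 0 0 * ((M : ℤ) * c₁') - (M : ℤ) * c₁ * (g' : SL(2, ℤ)) 0 0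
      = (M : ℤ) * ((g : SL(2, ℤ)) 0 0 * c₁' - c₁ * (g' : SL(2, ℤ)) 0 0) := by ring
  rw [h]
  push_cast
  rw [mul_comm (p : ℤ) (M : ℤ)]
  exact mul_dvd_mul_iff_left (by exact_mod_cast hM)

/-- For `g ∈ Gamma0 M` with `p ∣ M`, the entry `g 0 0` is nonzero mod `p`. -/
lemma a_ne_zero_of_dvd (p M : ℕ) (hp : p.Prime) (h : p ∣ M) (g : Gamma0 M) :
    ¬ (p : ℤ) ∣ (g : SL(2, ℤ)) 0 0 := by
  intro ha
  have hg := (mem_Gamma0_iff_dvd M _).mp g.2
  have hpc : (p : ℤ) ∣ (g : SL(2, ℤ)) 1 0 := dvd_trans (by exact_mod_cast h) hg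
  have hdet := (g : SL(2, ℤ)).det_coe
  rw [Matrix.det_fin_two] at hdet
  have h1 : (p : ℤ) ∣ 1 := by
    rw [← hdet]
    exact dvd_sub (dvd_mul_of_dvd_left ha _) (dvd_mul_of_dvd_right hpc _)
  have := Int.natCast_dvd_natCast.mp (by simpa using h1 : ((p : ℕ) : ℤ) ∣ ((1 : ℕ) : ℤ))
  exact hp.one_lt.ne' (Nat.dvd_one.mp this)

/-- The coset representative attached to `t : ZMod p`. -/
noncomputable def relRep (p M : ℕ) (t : ZMod p) :
    Gamma0 M ⧸ (Gamma0 (p * M)).subgroupOf (Gamma0 M) :=
  QuotientGroup.mk ⟨lowRep ((M : ℤ) * (ZMod.cast t : ℤ)), lowRep_mem M _⟩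

lemma relRep_injective (p M : ℕ) (hM : M ≠ 0) : Function.Injective (relRep p M) := by
  intro t t' h
  simp only [relRep] at h
  rw [subMk_eq_iff p M hM _ _ (ZMod.cast t : ℤ) (ZMod.cast t' : ℤ) rfl rfl] at h
  simp only [lowRep_apply_zero_zero, one_mul, mul_one] at h
  have := (ZMod.intCast_zmod_eq_zero_iff_dvd _ p).mpr h
  push_cast at this
  exact (sub_eq_zero.mp this).symm

/-- Elements with `p ∤ a` are in the range of `relRep`. -/
lemma mem_range_relRep (p M : ℕ) (hM : M ≠ 0) (hp : p.Prime) (g : Gamma0 M)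
    (ha : ¬ (p : ℤ) ∣ (g : SL(2, ℤ)) 0 0) :
    (QuotientGroup.mk g : Gamma0 M ⧸ (Gamma0 (p * M)).subgroupOf (Gamma0 M))
      ∈ Set.range (relRep p M) := by
  haveI : Fact p.Prime := ⟨hp⟩
  obtain ⟨c₁, hc₁⟩ := (mem_Gamma0_iff_dvd M _).mp g.2
  have ha' : (((g : SL(2, ℤ)) 0 0 : ℤ) : ZMod p) ≠ 0 := by
    rwa [Ne, ZMod.intCast_zmod_eq_zero_iff_dvd]
  refine ⟨(c₁ : ZMod p) * (((g : SL(2, ℤ)) 0 0 : ℤ) : ZMod p)⁻¹, ?_⟩
  simp only [relRep]
  rw [subMk_eq_iff p M hM _ _ _ c₁ rfl hc₁]
  simp only [lowRep_apply_zero_zero, one_mul]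
  rw [← ZMod.intCast_zmod_eq_zero_iff_dvd]
  push_cast
  rw [mul_assoc, inv_mul_cancel₀ ha', mul_one, sub_self]

/-- **Relative index, ramified case**: `[Γ₀(M) : Γ₀(pM)] = p` if `p ∣ M`. -/
theorem relIndex_Gamma0_of_dvd (p M : ℕ) (hM : M ≠ 0) (hp : p.Prime) (h : p ∣ M) :
    (Gamma0 (p * M)).relIndex (Gamma0 M) = p := by
  have hbij : Function.Bijective (relRep p M) := by
    refine ⟨relRep_injective p M hM, ?_⟩
    intro q
    obtain ⟨g, rfl⟩ := QuotientGroup.mk_surjective q
    exact mem_range_relRep p M hM hp g (a_ne_zero_of_dvd p M hp h g)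
  rw [Subgroup.relIndex, Subgroup.index, ← Nat.card_eq_of_bijective _ hbij, Nat.card_zmod]

/-- An element of `Gamma0 M` with first column `(p, M)`, for `p ∤ M`. -/
lemma exists_special (p M : ℕ) (hp : p.Prime) (h : ¬ p ∣ M) :
    ∃ g : Gamma0 M, (g : SL(2, ℤ)) 0 0 = p ∧ (g : SL(2, ℤ)) 1 0 = M := by
  have hcop : IsCoprime (p : ℤ) (M : ℤ) := by
    rw [Int.isCoprime_iff_gcd_eq_one, Int.gcd_natCast_natCast]
    exact (Nat.Prime.coprime_iff_not_dvd hp).mpr h
  obtain ⟨g, hg0, hg1⟩ := IsCoprime.exists_SL2_col hcop 0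
  refine ⟨⟨g, ?_⟩, hg0, hg1⟩
  rw [mem_Gamma0_iff_dvd, hg1]

/-- **Relative index, unramified case**: `[Γ₀(M) : Γ₀(pM)] = p + 1` if `p ∤ M`. -/
theorem relIndex_Gamma0_of_not_dvd (p M : ℕ) (hM : M ≠ 0) (hp : p.Prime) (h : ¬ p ∣ M) :
    (Gamma0 (p * M)).relIndex (Gamma0 M) = p + 1 := by
  haveI : Fact p.Prime := ⟨hp⟩
  obtain ⟨g₀, hg₀0, hg₀1⟩ := exists_special p M hp h
  let f : Option (ZMod p) → Gamma0 M ⧸ (Gamma0 (p * M)).subgroupOf (Gamma0 M) :=
    fun o => o.elim (QuotientGroup.mk g₀) (relRep p M)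
  have hne : ∀ t : ZMod p, relRep p M t ≠ QuotientGroup.mk g₀ := by
    intro t ht
    simp only [relRep] at ht
    rw [subMk_eq_iff p M hM _ _ (ZMod.cast t : ℤ) 1 rfl (by rw [hg₀1, mul_one])] at ht
    simp only [lowRep_apply_zero_zero, one_mul, hg₀0] at ht
    have h1 : (p : ℤ) ∣ 1 := by
      have := dvd_add ht (dvd_mul_left (p : ℤ) (ZMod.cast t : ℤ))
      simpa using this
    have := Int.natCast_dvd_natCast.mp (by simpa using h1 : ((p : ℕ) : ℤ) ∣ ((1 : ℕ) : ℤ))
    exact hp.one_lt.ne' (Nat.dvd_one.mp this)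
  have hbij : Function.Bijective f := by
    constructor
    · rintro (_ | t) (_ | t') hh
      · rfl
      · exact absurd hh.symm (hne t')
      · exact absurd hh (hne t)
      · exact congrArg some (relRep_injective p M hM hh)
    · intro q
      obtain ⟨g, rfl⟩ := QuotientGroup.mk_surjective q
      by_cases ha : (p : ℤ) ∣ (g : SL(2, ℤ)) 0 0
      · refine ⟨none, ?_⟩
        obtain ⟨c₁, hc₁⟩ := (mem_Gamma0_iff_dvd M _).mp g.2
        show QuotientGroup.mk g₀ = _
        rw [subMk_eq_iff p M hM _ _ 1 c₁ (by rw [hg₀1, mul_one]) hc₁, hg₀0]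
        exact dvd_sub (dvd_mul_right _ _) (by simpa using ha)
      · obtain ⟨t, ht⟩ := mem_range_relRep p M hM hp g ha
        exact ⟨some t, ht⟩
  rw [Subgroup.relIndex, Subgroup.index, ← Nat.card_eq_of_bijective _ hbij, Finite.card_option,
    Nat.card_zmod]

end Fermat.Agent.S20.Comb694

end
-- ===== PACK-END S20/Comb694/RelIndex.lean

-- ===== PACK-BEGIN S18/H107/Branch.lean
section



/-!
# helper107 — S18 / M3-T : branch data in valuation-subring form (Mathlib-only)

`Unram107 O z` : `z` generates the maximal ideal of `O` as far as divisibility is concerned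
(`∀ s ∈ 𝔪_O, s / z ∈ O`) — the conclusion of `GoodModel.unramified`.
`OrdLe107 O y k` : `ord_O y ≤ k` (`∀ s ∈ 𝔪_O, s ^ k / y ∈ O`).

`unram_of_factor107` : `y = z ^ k * U`, `U` a unit of `O`, `z ∈ 𝔪_O`, `ord_O y ≤ k` ⟹ `ord_O z ≤ 1`.
-/

set_option autoImplicit false

namespace Fermat.Agent.S18.H107

variable {Ω : Type*} [Field Ω]

/-- `ord_O y ≤ k`, in valuation-subring language. -/
def OrdLe107 (O : ValuationSubring Ω) (y : Ω) (k : ℕ) : Prop :=
  ∀ s ∈ O, s⁻¹ ∉ O → s ^ k * y⁻¹ ∈ O

theorem val_lt_one107 (O : ValuationSubring Ω) {s : Ω} (hs : s ∈ O) (hs' : s⁻¹ ∉ O) :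
    O.valuation s < 1 := by
  have h1 : O.valuation s ≤ 1 := (O.valuation_le_one_iff s).2 hs
  refine lt_of_le_of_ne h1 fun h => hs' ?_
  refine (O.valuation_le_one_iff _).1 ?_
  rw [map_inv₀, h, inv_one]

theorem mem_of_val_lt_one107 (O : ValuationSubring Ω) {s : Ω} (h : O.valuation s < 1) : s ∈ O :=
  (O.valuation_le_one_iff s).1 h.le

theorem inv_not_mem_of_val_lt_one107 (O : ValuationSubring Ω) {s : Ω} (hs0 : s ≠ 0)
    (h : O.valuation s < 1) : s⁻¹ ∉ O := by
  intro hmem
  have h1 : O.valuation s⁻¹ ≤ 1 := (O.valuation_le_one_iff _).2 hmem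
  rw [map_inv₀] at h1
  have hpos : 0 < O.valuation s := by
    rw [Valuation.pos_iff]
    exact hs0
  have h2 : (1 : O.ValueGroup) ≤ O.valuation s := by
    have := (inv_le_one₀ hpos).1 h1
    exact this
  exact absurd h (not_lt.2 h2)

theorem val_eq_one_of_mem107 (O : ValuationSubring Ω) {c : Ω} (hc : c ∈ O) (hc' : c⁻¹ ∈ O)
    (hc0 : c ≠ 0) : O.valuation c = 1 := by
  have h1 : O.valuation c ≤ 1 := (O.valuation_le_one_iff c).2 hc
  have h2 : O.valuation c⁻¹ ≤ 1 := (O.valuation_le_one_iff _).2 hc'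
  rw [map_inv₀] at h2
  have hpos : 0 < O.valuation c := by
    rw [Valuation.pos_iff]
    exact hc0
  exact le_antisymm h1 ((inv_le_one₀ hpos).1 h2)

theorem val_const107 (O : ValuationSubring Ω) (Lc : Subfield Ω) (hL : ∀ a ∈ Lc, a ∈ O) {c : Ω}
    (hc : c ∈ Lc) (hc0 : c ≠ 0) : O.valuation c = 1 :=
  val_eq_one_of_mem107 O (hL c hc) (hL _ (Lc.inv_mem hc)) hc0

theorem val_add_eq_one107 (O : ValuationSubring Ω) {u m : Ω} (hu : O.valuation u = 1)
    (hm : O.valuation m < 1) : O.valuation (u + m) = 1 := by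
  rw [← hu]
  exact Valuation.map_add_eq_of_lt_left _ (by rw [hu]; exact hm)

/-- `ord_O y ≤ k` in terms of the valuation. -/
theorem OrdLe107.val_le {O : ValuationSubring Ω} {y : Ω} {k : ℕ} (h : OrdLe107 O y k)
    (hy : y ≠ 0) {s : Ω} (hs : O.valuation s < 1) : O.valuation s ^ k ≤ O.valuation y := by
  rcases eq_or_ne s 0 with rfl | hs0
  · rcases Nat.eq_zero_or_pos k with rfl | hk
    · -- `k = 0`: need `1 ≤ v y`
      simp only [pow_zero]
      by_contra hlt
      rw [not_le] at hlt
      -- then `y ∈ 𝔪_O`, and `OrdLe` with `s = y` gives `1 * y⁻¹ ∈ O`, contradiction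
      have hyO : y ∈ O := mem_of_val_lt_one107 O hlt
      have hy' : y⁻¹ ∉ O := inv_not_mem_of_val_lt_one107 O hy hlt
      have := h y hyO hy'
      rw [pow_zero, one_mul] at this
      exact hy' this
    · rw [map_zero, zero_pow hk.ne']
      exact zero_le
  · have hsO : s ∈ O := mem_of_val_lt_one107 O hs
    have hs' : s⁻¹ ∉ O := inv_not_mem_of_val_lt_one107 O hs0 hs
    have h1 := (O.valuation_le_one_iff _).2 (h s hsO hs')
    rw [map_mul, map_pow, map_inv₀] at h1
    have hpos : 0 < O.valuation y := by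
      rw [Valuation.pos_iff]
      exact hy
    have := (mul_inv_le_iff₀ hpos).1 h1
    rwa [one_mul] at this

/-- **Key lemma**: `y = z ^ k * U` with `U` a unit at `O`, `z ∈ 𝔪_O`, `ord_O y ≤ k`, `k ≥ 1`
⟹ `z` is a uniformiser of `O`. -/
theorem unram_of_factor107 (O : ValuationSubring Ω) {y z U : Ω} {k : ℕ} (hk : k ≠ 0)
    (hy : y = z ^ k * U) (hU : O.valuation U = 1) (hz0 : z ≠ 0)
    (hord : OrdLe107 O y k) : OrdLe107 O z 1 := by
  intro s hs hs'
  have hsv := val_lt_one107 O hs hs'
  have hU0 : U ≠ 0 := by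
    intro h0
    rw [h0, map_zero] at hU
    exact zero_ne_one hU
  have hy0 : y ≠ 0 := by
    rw [hy]
    exact mul_ne_zero (pow_ne_zero _ hz0) hU0
  have h1 := hord.val_le hy0 hsv
  rw [hy, map_mul, map_pow, hU, mul_one] at h1
  have h2 : O.valuation s ≤ O.valuation z := le_of_pow_le_pow_left₀ hk zero_le h1
  refine (O.valuation_le_one_iff _).1 ?_
  rw [pow_one, map_mul, map_inv₀]
  have hpos : 0 < O.valuation z := by
    rw [Valuation.pos_iff]
    exact hz0
  rw [mul_inv_le_iff₀ hpos, one_mul]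
  exact h2

theorem OrdLe107.one_iff {O : ValuationSubring Ω} {z : Ω} :
    OrdLe107 O z 1 ↔ ∀ s ∈ O, s⁻¹ ∉ O → s * z⁻¹ ∈ O := by
  unfold OrdLe107
  simp only [pow_one]

/-- The branch data of the `j`-line needed for the Hauptmodul transfers: `Ω / Lc(j)` is unramified
outside `0, 1728, ∞`, with ramification index `≤ 3` over `0` and `≤ 2` over `1728`. -/
structure BranchJ107 (Lc : Subfield Ω) (j : Ω) : Prop where
  generic : ∀ O : ValuationSubring Ω, (∀ a ∈ Lc, a ∈ O) → ∀ a ∈ Lc, a ≠ 0 → a ≠ 1728 →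
    j - a ∈ O → (j - a)⁻¹ ∉ O → OrdLe107 O (j - a) 1
  zero : ∀ O : ValuationSubring Ω, (∀ a ∈ Lc, a ∈ O) → j ∈ O → j⁻¹ ∉ O → OrdLe107 O j 3
  c1728 : ∀ O : ValuationSubring Ω, (∀ a ∈ Lc, a ∈ O) → j - 1728 ∈ O → (j - 1728)⁻¹ ∉ O →
    OrdLe107 O (j - 1728) 2

end Fermat.Agent.S18.H107

end
-- ===== PACK-END S18/H107/Branch.lean

-- ===== PACK-BEGIN S18/H107/IntTools.lean
section



/-!
# helper107 — S18 / M3-T : integrality toolkit for subrings of a field (Mathlib-only)

All objects are sub-objects of one field `Ω` (as in the frozen interface `Alg/Spec.lean`).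

* `intCl107 T`            : the integral closure of the subring `T` in `Ω`, as a subring.
* `isIntegral_iff_exists_poly107` : `IsIntegral T b ↔ ∃ P : Polynomial Ω` monic with coefficients in `T`,
  `P.eval b = 0`.
* `isIntegral_of_coeffs107` : a root of a monic polynomial with coefficients integral over `T` is
  integral over `T`.
* `exists_pow_mul_isIntegral107` (SCALING): `b` integral over `R'[y]`, `R' ≤ intCl T`,
  `e, y·e ∈ intCl T`  ⟹  `∃ D, b·e^D ∈ intCl T`.
* `mem_of_comaximal107` (GLUING): `z·g₁^k₁, z·g₂^k₂ ∈ B`, `a g₁ + b g₂ = 1` in `B` ⟹ `z ∈ B`.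
-/

set_option autoImplicit false

namespace Fermat.Agent.S18.H107

open Polynomial Fermat.Agent.S18.Alg

variable {Ω : Type*} [Field Ω]

/-- The integral closure of a subring `T` of `Ω` in `Ω`, as a subring of `Ω`. -/
def intCl107 (T : Subring Ω) : Subring Ω := (integralClosure T Ω).toSubring

theorem mem_intCl107 {T : Subring Ω} {b : Ω} : b ∈ intCl107 T ↔ IsIntegral T b := Iff.rfl

theorem le_intCl107 (T : Subring Ω) : T ≤ intCl107 T := fun b hb =>
  mem_intCl107.2 (isIntegral_algebraMap (R := T) (A := Ω) (x := ⟨b, hb⟩))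

theorem isIntegral_iff_exists_poly107 (T : Subring Ω) (b : Ω) :
    IsIntegral T b ↔ ∃ P : Polynomial Ω, P.Monic ∧ (∀ i, P.coeff i ∈ T) ∧ P.eval b = 0 := by
  constructor
  · rintro ⟨p, hp, hpb⟩
    refine ⟨p.map (algebraMap T Ω), hp.map _, fun i => ?_, ?_⟩
    · rw [coeff_map]
      exact (p.coeff i).2
    · rw [eval_map]
      exact hpb
  · rintro ⟨P, hP, hc, hb⟩
    have hl : P ∈ lifts (algebraMap T Ω) := by
      rw [lifts_iff_coeff_lifts]
      intro n
      exact ⟨⟨P.coeff n, hc n⟩, rfl⟩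
    obtain ⟨q, hq, -, hqm⟩ := lifts_and_degree_eq_and_monic hl hP
    refine ⟨q, hqm, ?_⟩
    rw [← eval_map, hq]
    exact hb

theorem isIntegral_of_coeffs107 (T : Subring Ω) (P : Polynomial Ω) (hP : P.Monic)
    (hc : ∀ i, P.coeff i ∈ intCl107 T) (b : Ω) (hb : P.eval b = 0) : b ∈ intCl107 T := by
  have hl : P ∈ lifts (algebraMap (integralClosure T Ω) Ω) := by
    rw [lifts_iff_coeff_lifts]
    intro n
    exact ⟨⟨P.coeff n, hc n⟩, rfl⟩
  obtain ⟨q, hq, -, hqm⟩ := lifts_and_degree_eq_and_monic hl hP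
  have hint : IsIntegral (integralClosure T Ω) b := by
    refine ⟨q, hqm, ?_⟩
    rw [← eval_map, hq]
    exact hb
  exact mem_intCl107.2 (isIntegral_trans (R := T) (A := integralClosure T Ω) b hint)

/-- Integral closedness of `intCl107 T` in polynomial form over another subring. -/
theorem isIntegral_mono107 {T T' : Subring Ω} (h : T ≤ intCl107 T') {b : Ω}
    (hb : IsIntegral T b) : b ∈ intCl107 T' := by
  obtain ⟨P, hP, hc, hPb⟩ := (isIntegral_iff_exists_poly107 T b).1 hb
  exact isIntegral_of_coeffs107 T' P hP (fun i => h (hc i)) b hPb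

theorem intCl107_mono {T T' : Subring Ω} (h : T ≤ intCl107 T') : intCl107 T ≤ intCl107 T' :=
  fun _ hb => isIntegral_mono107 h (mem_intCl107.1 hb)

theorem polyRing_le107 {R B : Subring Ω} {x : Ω} (hR : R ≤ B) (hx : x ∈ B) :
    polyRing R x ≤ B := by
  refine Subring.closure_le.2 ?_
  rintro c (hc | hc)
  · exact hR hc
  · rw [Set.mem_singleton_iff] at hc
    rw [hc]
    exact hx

theorem le_polyRing107 (R : Subring Ω) (x : Ω) : R ≤ polyRing R x := fun _ hc =>
  Subring.subset_closure (Or.inl hc)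

theorem self_mem_polyRing107 (R : Subring Ω) (x : Ω) : x ∈ polyRing R x :=
  Subring.subset_closure (Or.inr rfl)

/-- Elements of `R'[y]` become elements of `B` after multiplication by a high power of `e`,
if `e ∈ B` and `y * e ∈ B`. -/
theorem exists_pow_mul_mem107 {R' B : Subring Ω} {y e : Ω} (hR : R' ≤ B) (he : e ∈ B)
    (hye : y * e ∈ B) {c : Ω} (hc : c ∈ polyRing R' y) :
    ∃ d : ℕ, ∀ d', d ≤ d' → c * e ^ d' ∈ B := by
  induction hc using Subring.closure_induction with
  | mem c hc =>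
    rcases hc with hc | hc
    · exact ⟨0, fun d' _ => B.mul_mem (hR hc) (B.pow_mem he d')⟩
    · rw [Set.mem_singleton_iff] at hc
      subst hc
      refine ⟨1, fun d' hd' => ?_⟩
      obtain ⟨k, rfl⟩ := Nat.exists_eq_add_of_le hd'
      have : c * e ^ (1 + k) = (c * e) * e ^ k := by ring
      rw [this]
      exact B.mul_mem hye (B.pow_mem he k)
  | zero => exact ⟨0, fun d' _ => by rw [zero_mul]; exact B.zero_mem⟩
  | one => exact ⟨0, fun d' _ => by rw [one_mul]; exact B.pow_mem he d'⟩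
  | add a b _ _ ha hb =>
    obtain ⟨da, hda⟩ := ha
    obtain ⟨db, hdb⟩ := hb
    refine ⟨max da db, fun d' hd' => ?_⟩
    rw [add_mul]
    exact B.add_mem (hda d' (le_trans (le_max_left _ _) hd')) (hdb d' (le_trans (le_max_right _ _) hd'))
  | neg a _ ha =>
    obtain ⟨da, hda⟩ := ha
    refine ⟨da, fun d' hd' => ?_⟩
    rw [neg_mul]
    exact B.neg_mem (hda d' hd')
  | mul a b _ _ ha hb =>
    obtain ⟨da, hda⟩ := ha
    obtain ⟨db, hdb⟩ := hb
    refine ⟨da + db, fun d' hd' => ?_⟩
    obtain ⟨k, rfl⟩ := Nat.exists_eq_add_of_le hd'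
    have : a * b * e ^ (da + db + k) = (a * e ^ da) * (b * e ^ (db + k)) := by ring
    rw [this]
    exact B.mul_mem (hda da le_rfl) (hdb (db + k) (Nat.le_add_right _ _))

/-- **SCALING LEMMA.**  If `b` is integral over `R'[y]`, `R' ≤ intCl T` and `e`, `y * e` are
integral over `T`, then `b * e ^ D` is integral over `T` for some `D`. -/
theorem exists_pow_mul_isIntegral107 {R' T : Subring Ω} {y e : Ω} (hR : R' ≤ intCl107 T)
    (he : e ∈ intCl107 T) (hye : y * e ∈ intCl107 T) {b : Ω}
    (hb : IsIntegral (polyRing R' y) b) : ∃ D : ℕ, b * e ^ D ∈ intCl107 T := by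
  obtain ⟨P, hP, hc, hPb⟩ := (isIntegral_iff_exists_poly107 _ b).1 hb
  -- a uniform exponent for all coefficients
  have hex : ∀ i, ∃ d : ℕ, ∀ d', d ≤ d' → P.coeff i * e ^ d' ∈ intCl107 T := fun i =>
    exists_pow_mul_mem107 hR he hye (hc i)
  choose d hd using hex
  obtain ⟨D, hD⟩ : ∃ D : ℕ, ∀ i ∈ Finset.range (P.natDegree + 1), d i ≤ D :=
    ⟨(Finset.range (P.natDegree + 1)).sup d, fun i hi => Finset.le_sup hi⟩
  refine ⟨D, ?_⟩
  refine isIntegral_of_coeffs107 T (scaleRoots P (e ^ D)) ((monic_scaleRoots_iff _).2 hP)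
    (fun i => ?_) (b * e ^ D) ?_
  · rw [coeff_scaleRoots]
    rcases lt_trichotomy i P.natDegree with hi | hi | hi
    · rw [← pow_mul]
      refine hd i _ ?_
      have h1 : d i ≤ D := hD i (Finset.mem_range.2 (by omega))
      have h2 : 1 ≤ P.natDegree - i := by omega
      calc d i ≤ D := h1
        _ = D * 1 := (mul_one D).symm
        _ ≤ D * (P.natDegree - i) := Nat.mul_le_mul_left D h2
    · subst hi
      rw [Nat.sub_self, pow_zero, mul_one]
      have : P.coeff P.natDegree = 1 := hP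
      rw [this]
      exact (intCl107 T).one_mem
    · rw [coeff_eq_zero_of_natDegree_lt hi, zero_mul]
      exact (intCl107 T).zero_mem
  · have h := scaleRoots_eval₂_mul (p := P) (RingHom.id Ω) b (e ^ D)
    rw [eval₂_id, eval₂_id, RingHom.id_apply, hPb, mul_zero] at h
    rw [mul_comm]
    exact h

/-- **GLUING over two comaximal opens.** -/
theorem mem_of_comaximal107 (B : Subring Ω) (z g₁ g₂ a b : Ω) (hg₁ : g₁ ∈ B) (hg₂ : g₂ ∈ B)
    (ha : a ∈ B) (hb : b ∈ B) (hab : a * g₁ + b * g₂ = 1) (k₁ k₂ : ℕ)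
    (h₁ : z * g₁ ^ k₁ ∈ B) (h₂ : z * g₂ ^ k₂ ∈ B) : z ∈ B := by
  have hcop : IsCoprime (⟨g₁, hg₁⟩ : B) ⟨g₂, hg₂⟩ :=
    ⟨⟨a, ha⟩, ⟨b, hb⟩, Subtype.ext hab⟩
  obtain ⟨a', b', hab'⟩ := (hcop.pow (m := k₁) (n := k₂))
  have h := congrArg (Subtype.val) hab'
  simp only [Subring.coe_add, Subring.coe_mul, Subring.coe_pow, Subring.coe_one] at h
  have hz : z = (a' : Ω) * (z * g₁ ^ k₁) + (b' : Ω) * (z * g₂ ^ k₂) := by
    calc z = z * 1 := (mul_one z).symm
      _ = z * ((a' : Ω) * g₁ ^ k₁ + (b' : Ω) * g₂ ^ k₂) := by rw [h]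
      _ = _ := by ring
  rw [hz]
  exact B.add_mem (B.mul_mem a'.2 h₁) (B.mul_mem b'.2 h₂)

end Fermat.Agent.S18.H107

end
-- ===== PACK-END S18/H107/IntTools.lean

-- ===== PACK-BEGIN S18/H138/ChartsConst.lean
section


/-!
# S18, Route K, ASM (helper138): constants and finiteness of the charts

* `mem_range_of_mem_adjoin_inter` : `R[x] ∩ R[x⁻¹] = R` for `x` transcendental over `R`.
* `isIntegral_of_mem_chart_inter` : an element of `F` integral over `R[x]` and over `R[x⁻¹]` is
  integral over `R` (for `R[X]` integrally closed, e.g. `R` a DVR).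
* `exists_finite_gens`            : `B_fin` is generated over `R` by finitely many `x ^ j * bs i`.
-/

set_option autoImplicit false
set_option linter.style.haveILetI false

namespace Fermat.Agent.S18.H138

open Polynomial

variable {R : Type*} [CommRing R] {F : Type*} [Field F] [Algebra R F]

theorem mem_adjoin_singleton_iff {x c : F} :
    c ∈ Algebra.adjoin R ({x} : Set F) ↔ ∃ P : R[X], aeval x P = c := by
  rw [Algebra.adjoin_singleton_eq_range_aeval]
  rfl

/-- `x ^ d * Q(x⁻¹) = (reflect d Q)(x)` for `natDegree Q ≤ d`. -/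
theorem pow_mul_aeval_inv {x : F} (hx : x ≠ 0) (Q : R[X]) {d : ℕ} (hd : Q.natDegree ≤ d) :
    x ^ d * aeval x⁻¹ Q = aeval x (reflect d Q) := by
  letI : Invertible x := invertibleOfNonzero hx
  have h := eval₂_reflect_mul_pow (algebraMap R F) x d (reflect d Q)
    (le_trans natDegree_reflect_le (by simp [hd]))
  rw [reflect_reflect] at h
  rw [invOf_eq_inv] at h
  rw [aeval_def, aeval_def, ← h, mul_comm]

theorem ne_zero_of_transcendental {x : F} (hx : Transcendental R x) : x ≠ 0 := by
  haveI : Nontrivial R := (algebraMap R F).domain_nontrivial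
  rintro rfl
  exact hx ⟨X, X_ne_zero, by simp⟩

theorem transcendental_inv {x : F} (hx : Transcendental R x) : Transcendental R x⁻¹ := by
  have hx0 : x ≠ 0 := ne_zero_of_transcendental hx
  rw [transcendental_iff] at hx ⊢
  intro Q hQ
  have h := pow_mul_aeval_inv (R := R) hx0 Q le_rfl
  rw [hQ, mul_zero] at h
  have h2 := hx _ h.symm
  have := congrArg (reflect Q.natDegree) h2
  rwa [reflect_reflect, reflect_zero] at this

/-- `R[x] ∩ R[x⁻¹] = R` inside `F`, for `x` transcendental over `R`. -/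
theorem mem_range_of_mem_adjoin_inter {x : F} (hx : Transcendental R x) {c : F}
    (h1 : c ∈ Algebra.adjoin R ({x} : Set F)) (h2 : c ∈ Algebra.adjoin R ({x⁻¹} : Set F)) :
    c ∈ Set.range (algebraMap R F) := by
  haveI : Nontrivial R := (algebraMap R F).domain_nontrivial
  have hx0 : x ≠ 0 := ne_zero_of_transcendental hx
  obtain ⟨P, rfl⟩ := mem_adjoin_singleton_iff.1 h1
  obtain ⟨Q, hQ⟩ := mem_adjoin_singleton_iff.1 h2
  have h := pow_mul_aeval_inv (R := R) hx0 Q le_rfl
  rw [hQ] at h
  have h3 : aeval x (X ^ Q.natDegree * P) = aeval x (reflect Q.natDegree Q) := by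
    rw [map_mul, map_pow, aeval_X, h]
  have h4 : X ^ Q.natDegree * P = reflect Q.natDegree Q := by
    have := (transcendental_iff.1 hx) (X ^ Q.natDegree * P - reflect Q.natDegree Q)
      (by rw [map_sub, h3, sub_self])
    exact sub_eq_zero.1 this
  by_cases hP : P = 0
  · subst hP
    exact ⟨0, by simp⟩
  have h5 : (X ^ Q.natDegree * P).natDegree = Q.natDegree + P.natDegree := by
    rw [natDegree_X_pow_mul _ hP, add_comm]
  have h6 : (reflect Q.natDegree Q).natDegree ≤ Q.natDegree :=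
    le_trans natDegree_reflect_le (by simp)
  rw [← h4, h5] at h6
  have h7 : P.natDegree = 0 := by omega
  obtain ⟨r, hr⟩ := natDegree_eq_zero.1 h7
  exact ⟨r, by rw [← hr]; simp⟩

section Integral

theorem isIntegrallyClosed_adjoin_singleton [IsIntegrallyClosed R[X]] {x : F}
    (hx : Transcendental R x) : IsIntegrallyClosed (Algebra.adjoin R ({x} : Set F)) := by
  have hinj : Function.Injective (aeval (R := R) x) :=
    (injective_iff_map_eq_zero _).2 (transcendental_iff.1 hx)
  let e : R[X] ≃ₐ[R] Algebra.adjoin R ({x} : Set F) :=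
    (AlgEquiv.ofInjective (aeval (R := R) x) hinj).trans
      (Subalgebra.equivOfEq _ _ (Algebra.adjoin_singleton_eq_range_aeval R x).symm)
  exact IsIntegrallyClosed.of_equiv e.toRingEquiv

theorem isNoetherianRing_adjoin_singleton [IsNoetherianRing R] {x : F}
    (hx : Transcendental R x) : IsNoetherianRing (Algebra.adjoin R ({x} : Set F)) := by
  have hinj : Function.Injective (aeval (R := R) x) :=
    (injective_iff_map_eq_zero _).2 (transcendental_iff.1 hx)
  let e : R[X] ≃ₐ[R] Algebra.adjoin R ({x} : Set F) :=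
    (AlgEquiv.ofInjective (aeval (R := R) x) hinj).trans
      (Subalgebra.equivOfEq _ _ (Algebra.adjoin_singleton_eq_range_aeval R x).symm)
  exact isNoetherianRing_of_ringEquiv _ e.toRingEquiv

/-- The field generated by `R` and `x` inside `F`. -/
def baseField (R : Type*) [CommRing R] {F : Type*} [Field F] [Algebra R F] (x : F) :
    Subfield F :=
  Subfield.closure (Set.range (algebraMap R F) ∪ {x})

theorem adjoin_le_baseField (x : F) {a : F} (ha : a ∈ Algebra.adjoin R ({x} : Set F)) :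
    a ∈ baseField R x := by
  have : a ∈ (Algebra.adjoin R ({x} : Set F)).toSubring := ha
  rw [Algebra.adjoin_eq_ring_closure] at this
  exact Subfield.subring_closure_le _ this

theorem inv_mem_baseField (x : F) : x⁻¹ ∈ baseField R x :=
  (baseField R x).inv_mem (Subfield.subset_closure (by simp))

theorem baseField_inv (x : F) : baseField R x⁻¹ = baseField R x := by
  apply le_antisymm
  · refine Subfield.closure_le.2 ?_
    rintro y (hy | hy)
    · exact Subfield.subset_closure (Or.inl hy)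
    · rw [Set.mem_singleton_iff] at hy
      rw [hy]
      exact inv_mem_baseField x
  · refine Subfield.closure_le.2 ?_
    rintro y (hy | hy)
    · exact Subfield.subset_closure (Or.inl hy)
    · rw [Set.mem_singleton_iff] at hy
      rw [hy]
      have := inv_mem_baseField (R := R) x⁻¹
      rwa [inv_inv] at this

theorem exists_div_of_mem_baseField (x : F) {z : F} (hz : z ∈ baseField R x) :
    ∃ a ∈ Algebra.adjoin R ({x} : Set F), ∃ b ∈ Algebra.adjoin R ({x} : Set F), z = a / b := by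
  obtain ⟨a, ha, b, hb, rfl⟩ := Subfield.mem_closure_iff.1 hz
  rw [← Algebra.adjoin_eq_ring_closure] at ha hb
  exact ⟨a, ha, b, hb, rfl⟩

/-- Coefficients of the minimal polynomial over the fraction field of an integrally closed
subalgebra `A` of `F` lie in `A`. -/
theorem minpoly_coeff_mem (A : Subalgebra R F) [IsIntegrallyClosed A] (K : Subfield F)
    (hAK : ∀ a ∈ A, a ∈ K) (hfrac : ∀ z ∈ K, ∃ a ∈ A, ∃ b ∈ A, z = a / b)
    {y : F} (hy : IsIntegral A y) (n : ℕ) :
    (((minpoly K y).coeff n : K) : F) ∈ A := by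
  let φ : A →+* K :=
    { toFun := fun a => ⟨a, hAK a a.2⟩
      map_one' := rfl
      map_mul' := fun _ _ => rfl
      map_zero' := rfl
      map_add' := fun _ _ => rfl }
  letI : Algebra A K := φ.toAlgebra
  haveI : IsScalarTower A K F := IsScalarTower.of_algebraMap_eq (fun _ => rfl)
  have hinj : Function.Injective (algebraMap A K) := by
    intro a b hab
    have : (a : F) = b := congrArg (fun t : K => (t : F)) hab
    exact Subtype.ext this
  haveI : FaithfulSMul A K := (faithfulSMul_iff_algebraMap_injective A K).2 hinj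
  haveI : IsFractionRing A K := by
    refine IsFractionRing.of_field A K (fun z => ?_)
    obtain ⟨a, ha, b, hb, h⟩ := hfrac z z.2
    exact ⟨⟨a, ha⟩, ⟨b, hb⟩, Subtype.ext h⟩
  have h := minpoly.isIntegrallyClosed_eq_field_fractions' (R := A) (S := F) K hy
  rw [h, coeff_map]
  exact ((minpoly A y).coeff n).2

/-- An element of `F` integral over `R[x]` and over `R[x⁻¹]` is integral over `R`. -/
theorem isIntegral_of_mem_chart_inter [IsIntegrallyClosed R[X]] {x : F}
    (hx : Transcendental R x) {y : F}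
    (h1 : y ∈ chart R ({x} : Set F)) (h2 : y ∈ chart R ({x⁻¹} : Set F)) :
    IsIntegral R y := by
  have hx0 : x ≠ 0 := ne_zero_of_transcendental hx
  have hxi : Transcendental R x⁻¹ := transcendental_inv hx
  haveI := isIntegrallyClosed_adjoin_singleton (R := R) hx
  haveI := isIntegrallyClosed_adjoin_singleton (R := R) hxi
  set K := baseField R x with hK
  have hc1 : ∀ n, (((minpoly K y).coeff n : K) : F) ∈ Algebra.adjoin R ({x} : Set F) :=
    minpoly_coeff_mem _ K (fun a ha => adjoin_le_baseField x ha)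
      (fun z hz => exists_div_of_mem_baseField x hz) h1
  have hc2 : ∀ n, (((minpoly K y).coeff n : K) : F) ∈ Algebra.adjoin R ({x⁻¹} : Set F) :=
    minpoly_coeff_mem _ K (fun a ha => by
        have := adjoin_le_baseField (R := R) x⁻¹ ha
        rwa [baseField_inv] at this)
      (fun z hz => by
        have hz' : z ∈ baseField R x⁻¹ := by rwa [baseField_inv]
        exact exists_div_of_mem_baseField x⁻¹ hz') h2
  have hc : ∀ n, (((minpoly K y).coeff n : K) : F) ∈ Set.range (algebraMap R F) := fun n =>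
    mem_range_of_mem_adjoin_inter hx (hc1 n) (hc2 n)
  have hyK : IsIntegral K y := by
    obtain ⟨p, hp, hp0⟩ := h1
    refine ⟨p.map (⟨⟨⟨fun a => (⟨a, adjoin_le_baseField x a.2⟩ : K), rfl⟩, fun _ _ => rfl⟩,
      rfl, fun _ _ => rfl⟩ : Algebra.adjoin R ({x} : Set F) →+* K), hp.map _, ?_⟩
    rw [eval₂_map]
    exact hp0
  have hmem : (minpoly K y).map (algebraMap K F) ∈ lifts (algebraMap R F) := by
    rw [lifts_iff_coeff_lifts]
    intro n
    rw [coeff_map]
    exact hc n
  obtain ⟨q, hq, -, hqm⟩ := lifts_and_natDegree_eq_and_monic hmem ((minpoly.monic hyK).map _)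
  refine ⟨q, hqm, ?_⟩
  rw [← eval_map, hq, eval_map, ← aeval_def]
  exact minpoly.aeval K y

end Integral

end Fermat.Agent.S18.H138

end
-- ===== PACK-END S18/H138/ChartsConst.lean

-- ===== PACK-BEGIN S18/H274/TraceNil.lean
section


/-!
# S18 / b2 (helper274) — the radical of the trace form consists of nilpotents (char 0)

Mathlib-only.  `C` a commutative `Λ`-algebra with a finite basis `β`, `φ : Λ →+* K` a ring
homomorphism to a field of characteristic zero.

* `exists_pow_leftMulMatrix_map_eq_zero` : if `φ (Tr (z c)) = 0` for all `c`, then the matrix of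
  multiplication by some power `z ^ m` vanishes under `φ`.
* `exists_pow_dvd_of_trace_dvd` : (`φ` = reduction mod `t`)  if `t ∣ Tr (z c)` for all `c` then
  `t ∣ z ^ m` in `C` for some `m`.
* `eq_zero_of_trace_eq_zero` : (`φ` = inclusion into the fraction field) if `Tr (z c) = 0` for all
  `c` and `C` is reduced, then `z = 0`.
* `discr_ne_zero_of_charZero` : the discriminant of a basis of a reduced finite free algebra over
  a domain of characteristic zero is nonzero.
-/

namespace Fermat.Agent.S18.H274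

open Module

section basic

variable {Λ : Type*} [CommRing Λ] {C : Type*} [CommRing C] [Algebra Λ C]
variable {ι : Type*} [Fintype ι] [DecidableEq ι] (β : Basis ι Λ C)

omit [DecidableEq ι] in
include β in
theorem dvd_of_forall_dvd_repr (t : Λ) (x : C) (h : ∀ i, t ∣ β.repr x i) :
    algebraMap Λ C t ∣ x := by
  choose e he using h
  refine ⟨∑ i, e i • β i, ?_⟩
  conv_lhs => rw [← β.sum_repr x]
  rw [Finset.mul_sum]
  refine Finset.sum_congr rfl fun i _ => ?_
  rw [he i, mul_smul, Algebra.smul_def t]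

omit [Fintype ι] [DecidableEq ι] in
include β in
theorem dvd_repr_of_dvd (t : Λ) (x : C) (h : algebraMap Λ C t ∣ x) (i : ι) :
    t ∣ β.repr x i := by
  obtain ⟨c, rfl⟩ := h
  rw [← Algebra.smul_def, map_smul]
  exact ⟨β.repr c i, rfl⟩

omit [DecidableEq ι] in
theorem trace_mul_dvd_of_basis (d : Λ) (y : C)
    (h : ∀ k, d ∣ Algebra.trace Λ C (y * β k)) (c : C) :
    d ∣ Algebra.trace Λ C (y * c) := by
  conv_rhs => rw [← β.sum_repr c]
  rw [Finset.mul_sum, map_sum]
  refine Finset.dvd_sum fun k _ => ?_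
  rw [mul_smul_comm, map_smul, smul_eq_mul]
  exact Dvd.dvd.mul_left (h k) _

theorem exists_pow_leftMulMatrix_map_eq_zero {K : Type*} [Field K] [CharZero K]
    (φ : Λ →+* K) (z : C) (hz : ∀ c, φ (Algebra.trace Λ C (z * c)) = 0) :
    ∃ m : ℕ, (Algebra.leftMulMatrix β (z ^ m)).map φ = 0 := by
  let A := Algebra.leftMulMatrix β z
  have hA : ∀ k, 1 ≤ k → ((φ.mapMatrix A) ^ k).trace = 0 := by
    intro k hk
    obtain ⟨k, rfl⟩ : ∃ j, k = j + 1 := ⟨k - 1, by omega⟩
    rw [← map_pow, RingHom.mapMatrix_apply, ← AddMonoidHom.map_trace, ← map_pow,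
      ← Algebra.trace_eq_matrix_trace β, pow_succ']
    exact hz _
  obtain ⟨m, hm⟩ := matrix_isNilpotent_of_trace_pow_eq_zero (φ.mapMatrix A) hA
  refine ⟨m, ?_⟩
  rw [map_pow, ← RingHom.mapMatrix_apply, map_pow]
  exact hm

end basic

section quotient

variable {Λ : Type*} [CommRing Λ] {C : Type*} [CommRing C] [Algebra Λ C]
variable {ι : Type*} [Fintype ι] [DecidableEq ι] (β : Basis ι Λ C)

include β in
/-- If `K` is a characteristic zero field, `π : Λ →+* K` has kernel contained in `(t)` and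
`π (Tr (z c)) = 0` for all `c`, then `z` is nilpotent modulo `t C`. -/
theorem exists_pow_dvd_of_trace_map_eq_zero {K : Type*} [Field K] [CharZero K]
    (π : Λ →+* K) (t : Λ) (hker : ∀ x, π x = 0 → t ∣ x)
    (z : C) (hz : ∀ c, π (Algebra.trace Λ C (z * c)) = 0) :
    ∃ m : ℕ, algebraMap Λ C t ∣ z ^ m := by
  classical
  obtain ⟨m, hm⟩ := exists_pow_leftMulMatrix_map_eq_zero β π z hz
  refine ⟨m, dvd_of_forall_dvd_repr β t _ fun i => ?_⟩
  have h1 := Algebra.leftMulMatrix_mulVec_repr β (z ^ m) 1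
  rw [mul_one] at h1
  rw [← h1]
  simp only [Matrix.mulVec, dotProduct]
  refine Finset.dvd_sum fun j _ => ?_
  apply Dvd.dvd.mul_right
  apply hker
  have := congrFun (congrFun hm i) j
  simpa using this

end quotient

section domain

variable {Λ : Type*} [CommRing Λ] [IsDomain Λ] [CharZero Λ]
variable {C : Type*} [CommRing C] [IsReduced C] [Algebra Λ C]
variable {ι : Type*} [Fintype ι] [DecidableEq ι] (β : Basis ι Λ C)

include β in
theorem eq_zero_of_trace_eq_zero (z : C) (hz : ∀ c, Algebra.trace Λ C (z * c) = 0) : z = 0 := by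
  classical
  let K := FractionRing Λ
  have : CharZero K := charZero_of_injective_algebraMap (IsFractionRing.injective Λ K)
  obtain ⟨m, hm⟩ := exists_pow_leftMulMatrix_map_eq_zero β (algebraMap Λ K) z
    (fun c => by rw [hz c, map_zero])
  have h0 : Algebra.leftMulMatrix β (z ^ m) = 0 := by
    ext i j
    have := congrFun (congrFun hm i) j
    simp only [Matrix.map_apply, Matrix.zero_apply] at this
    rw [Matrix.zero_apply]
    exact IsFractionRing.injective Λ K (by rw [this, map_zero])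
  have h1 : z ^ m = 0 := Algebra.leftMulMatrix_injective β (by rw [h0, map_zero])
  exact IsReduced.eq_zero _ ⟨m, h1⟩

/-- The discriminant of a basis of a reduced finite free algebra over a domain of
characteristic zero is nonzero. -/
theorem discr_ne_zero_of_charZero : Algebra.discr Λ β ≠ 0 := by
  classical
  intro hD
  rw [Algebra.discr_def] at hD
  obtain ⟨v, hv0, hv⟩ := Matrix.exists_mulVec_eq_zero_iff.mpr hD
  have hz : ∀ c, Algebra.trace Λ C ((∑ i, v i • β i) * c) = 0 := by
    intro c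
    have hk : ∀ k, (0 : Λ) ∣ Algebra.trace Λ C ((∑ i, v i • β i) * β k) := by
      intro k
      rw [zero_dvd_iff]
      have := congrFun hv k
      simp only [Matrix.mulVec, dotProduct, Algebra.traceMatrix_apply, Algebra.traceForm_apply,
        Pi.zero_apply] at this
      rw [Finset.sum_mul, map_sum, ← this]
      refine Finset.sum_congr rfl fun i _ => ?_
      rw [smul_mul_assoc, map_smul, smul_eq_mul, mul_comm (β i) (β k), mul_comm]
    exact zero_dvd_iff.mp (trace_mul_dvd_of_basis β 0 _ hk c)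
  have h0 := eq_zero_of_trace_eq_zero β _ hz
  apply hv0
  funext i
  have h1 := congrArg (fun x => β.repr x i) h0
  simp only [β.repr_sum_self, map_zero, Finsupp.coe_zero, Pi.zero_apply] at h1
  exact h1

end domain

end Fermat.Agent.S18.H274

end
-- ===== PACK-END S18/H274/TraceNil.lean

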