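import Fermat.Prelude.Def_ModularCurve_HeckeModule
import Fermat.Prelude.Def_EllipticCurve_FrobeniusTrace
import Mathlib
import Fermat.Prelude.Def_AlgebraicCurve_DivisorPushPull
import Fermat.Prelude.Def_ModularCurve_JqCoeff
import Mathlib.Data.Nat.Factorization.Induction
import Mathlib.Algebra.Squarefree.Basic
import Mathlib.Data.Nat.Squarefree
import Fermat.Agent.Pack.S3234.G0E3L0
import Fermat.Agent.Pack.S3234.G0E0L0
import Fermat.Agent.Pack.S3234.G0E1L0
import Fermat.Agent.Pack.S3234.G0E3L2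
import Fermat.Agent.Pack.S3234.G0E3L1
import Fermat.Agent.Pack.S3234.G0E1L2
import Fermat.Agent.Pack.S3234.G0E1L3
import Fermat.Agent.Pack.S3234.G0E0L3
import Fermat.Agent.Pack.S3234.G0E3L3
import Fermat.Agent.Pack.S3234.G0E2L3
import Fermat.Agent.Pack.S3234.G0E2L0

-- ===== PACK-BEGIN S55/H414/CycloPow.lean
section




/-!
# S55, leaf CYC-INF (helper414), part 3: the cyclotomic character mod `N` on `G_ℚ`, Frobenius

* `cycloPow N : G_ℚ →* (ZMod N)ˣ`, `σ ζ_N = ζ_N ^ (cycloPow N σ)`, with kernel the fixing subgroup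
  of `ℚ(ζ_N)`;
* every valuation subring `A` of `ℚ̄` over a prime `q` has a Frobenius element
  (`exists_isFrobeniusAt`, the proof of `Fermat.Agent.S54.exists_frobenius` for a given `A`);
* a Frobenius element at `A | q`, `q ∤ N`, acts on `ζ_N` by `ζ ↦ ζ ^ q`;
* hence for `q ≠ p` the local degree of `ℚ(ζ_{p^n})` at `A` is divisible by `p ^ k` for `n ≫ 0`.
-/

set_option autoImplicit false

namespace Fermat.Agent.S55.H414

open ExtCitation Fermat.Agent.S55.Bridge

/-- The cyclotomic character modulo `N` of `G_ℚ`. -/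
noncomputable def cycloPow (N : ℕ) [NeZero N] :
    (AlgebraicClosure ℚ ≃ₐ[ℚ] AlgebraicClosure ℚ) →* (ZMod N)ˣ :=
  (zetaBar_spec N).autToPow ℚ

theorem cycloPow_spec (N : ℕ) [NeZero N] (σ : AlgebraicClosure ℚ ≃ₐ[ℚ] AlgebraicClosure ℚ) :
    σ (zetaBar N) = zetaBar N ^ ((cycloPow N σ : (ZMod N)ˣ) : ZMod N).val :=
  ((zetaBar_spec N).autToPow_spec ℚ σ).symm

/-- Two powers of a primitive `N`-th root of unity agree iff the exponents agree in `ZMod N`. -/
theorem pow_eq_pow_iff_natCast_eq {R : Type*} [CommRing R] [IsDomain R] {ζ : R} {N : ℕ}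
    [NeZero N] (hζ : IsPrimitiveRoot ζ N) (a b : ℕ) :
    ζ ^ a = ζ ^ b ↔ (a : ZMod N) = (b : ZMod N) := by
  obtain ⟨u, rfl⟩ := hζ.isUnit (NeZero.ne N)
  have hu : IsPrimitiveRoot u N := IsPrimitiveRoot.coe_units_iff.1 hζ
  rw [ZMod.natCast_eq_natCast_iff, ← Units.val_pow_eq_pow_val, ← Units.val_pow_eq_pow_val,
    Units.val_inj, pow_eq_pow_iff_modEq, ← hu.eq_orderOf]

/-- Characterisation of the value of the cyclotomic character. -/
theorem cycloPow_eq_iff (N : ℕ) [NeZero N] (σ : AlgebraicClosure ℚ ≃ₐ[ℚ] AlgebraicClosure ℚ)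
    (u : (ZMod N)ˣ) :
    cycloPow N σ = u ↔ σ (zetaBar N) = zetaBar N ^ (u : ZMod N).val := by
  rw [cycloPow_spec, pow_eq_pow_iff_natCast_eq (zetaBar_spec N), ZMod.natCast_zmod_val,
    ZMod.natCast_zmod_val]
  exact Units.ext_iff

/-- If `σ ζ = ζ ^ a` then `cycloPow N σ` is the class of `a`. -/
theorem coe_cycloPow_of_apply_eq_pow (N : ℕ) [NeZero N]
    (σ : AlgebraicClosure ℚ ≃ₐ[ℚ] AlgebraicClosure ℚ) (a : ℕ)
    (h : σ (zetaBar N) = zetaBar N ^ a) :
    ((cycloPow N σ : (ZMod N)ˣ) : ZMod N) = (a : ZMod N) := by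
  rw [cycloPow_spec, pow_eq_pow_iff_natCast_eq (zetaBar_spec N), ZMod.natCast_zmod_val] at h
  exact h

theorem ker_cycloPow (N : ℕ) [NeZero N] :
    (cycloPow N).ker = (cycloLevel N).fixingSubgroup := by
  ext σ
  rw [MonoidHom.mem_ker, mem_fixingSubgroup_cycloLevel_iff, cycloPow_eq_iff]
  have h1 : zetaBar N ^ ((1 : (ZMod N)ˣ) : ZMod N).val = zetaBar N := by
    conv_rhs => rw [← pow_one (zetaBar N)]
    rw [pow_eq_pow_iff_natCast_eq (zetaBar_spec N), ZMod.natCast_zmod_val, Units.val_one,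
      Nat.cast_one]
  rw [h1]

/-- The local degree `[D : D ∩ G_F]` for `F = ℚ(ζ_N)` is the order of the image of `D` under the
cyclotomic character. -/
theorem relIndex_fixingSubgroup_cycloLevel (N : ℕ) [NeZero N]
    (D : Subgroup (AlgebraicClosure ℚ ≃ₐ[ℚ] AlgebraicClosure ℚ)) :
    (cycloLevel N).fixingSubgroup.relIndex D = Nat.card (D.map (cycloPow N)) := by
  rw [← ker_cycloPow, Subgroup.relIndex_ker]

/-- The local degree `[D : D ∩ G_F]` is the order of the image of `D` in `Gal(F/ℚ)`. -/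
theorem relIndex_fixingSubgroup_eq_card_map_restrictNormalHom
    (F : IntermediateField ℚ (AlgebraicClosure ℚ)) [Normal ℚ F]
    (D : Subgroup (AlgebraicClosure ℚ ≃ₐ[ℚ] AlgebraicClosure ℚ)) :
    F.fixingSubgroup.relIndex D = Nat.card (D.map (AlgEquiv.restrictNormalHom F)) := by
  have hker : (AlgEquiv.restrictNormalHom (F := ℚ) (K₁ := AlgebraicClosure ℚ) F).ker
      = F.fixingSubgroup := by
    ext x
    rw [MonoidHom.mem_ker, IntermediateField.mem_fixingSubgroup_iff]
    constructor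
    · intro h a ha
      have h1 := AlgEquiv.restrictNormal_commutes x F ⟨a, ha⟩
      have h2 : x.restrictNormal F = 1 := h
      rw [h2] at h1
      exact h1.symm
    · intro h
      apply AlgEquiv.ext
      intro a
      apply Subtype.ext
      have h1 := AlgEquiv.restrictNormal_commutes x F a
      have h2 := h a a.2
      exact h1.trans h2
  rw [← hker, Subgroup.relIndex_ker]

/-- Every valuation subring of `ℚ̄` over a prime number `ℓ` has a Frobenius element. -/
theorem exists_isFrobeniusAt (A : ValuationSubring (AlgebraicClosure ℚ)) (ℓ : ℕ) (hℓ : ℓ.Prime)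
    (hA : A.LiesOverPrime ℓ) :
    ∃ σ : AlgebraicClosure ℚ ≃ₐ[ℚ] AlgebraicClosure ℚ, A.IsFrobeniusAt σ ℓ := by
  open Fermat.Agent.S54 in
  open scoped Pointwise in
  have : Algebra.IsAlgebraic ℚ (AlgebraicClosure ℚ) := AlgebraicClosure.isAlgebraic ℚ
  have := primeBelow_isPrime A
  have hℓQ : (ℓ : integralClosure ℤ (AlgebraicClosure ℚ)) ∈ primeBelow A := by
    rw [mem_primeBelow]
    exact hA
  obtain ⟨σ, hσQ', hσF⟩ := exists_frob_integralClosure ℓ hℓ (primeBelow A) hℓQ
  have hσQ : ∀ x, σ • x ∈ primeBelow A ↔ x ∈ primeBelow A := by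
    intro x
    conv_lhs => rw [← hσQ']
    exact Ideal.smul_mem_pointwise_smul_iff
  have key : ∀ τ : AlgebraicClosure ℚ ≃ₐ[ℚ] AlgebraicClosure ℚ,
      (∀ x, τ • x ∈ primeBelow A ↔ x ∈ primeBelow A) → ∀ x ∈ A, τ x ∈ A := by
    intro τ hτ x hx
    obtain ⟨b, s, hb, hs, hsA, hxs⟩ := (mem_valuationSubring_iff A ℓ hℓ hA x).mp hx
    refine (mem_valuationSubring_iff A ℓ hℓ hA (τ x)).mpr
      ⟨τ b, τ s, hb.map τ, hs.map τ, ?_, ?_⟩
    · exact (hτ ⟨s, hs⟩).not.mpr hsA
    · rw [← map_mul, hxs]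
  have hσA : σ ∈ A.decompositionSubgroup ℚ := by
    rw [MulAction.mem_stabilizer_iff]
    ext x
    rw [ValuationSubring.mem_smul_pointwise_iff_exists]
    constructor
    · rintro ⟨s, hs, rfl⟩
      exact key σ hσQ s hs
    · intro hx
      refine ⟨σ⁻¹ • x, key σ⁻¹ ?_ x hx, by simp⟩
      intro y
      rw [← hσQ (σ⁻¹ • y)]
      simp
  refine ⟨σ, hσA, ?_⟩
  intro x
  obtain ⟨a, rfl⟩ := IsLocalRing.residue_surjective x
  obtain ⟨b, s, hb, hs, hsA, hxs⟩ := (mem_valuationSubring_iff A ℓ hℓ hA a).mp a.2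
  have hbA : b ∈ A := isIntegral_mem_valuationSubring A hb
  have hsA' : s ∈ A := isIntegral_mem_valuationSubring A hs
  have hint : ∀ (y : AlgebraicClosure ℚ) (hy : IsIntegral ℤ y),
      (⟨σ, hσA⟩ : A.decompositionSubgroup ℚ) •
        IsLocalRing.residue A ⟨y, isIntegral_mem_valuationSubring A hy⟩ =
      (IsLocalRing.residue A ⟨y, isIntegral_mem_valuationSubring A hy⟩) ^ ℓ := by
    intro y hy
    rw [← IsLocalRing.ResidueField.residue_smul, ← map_pow, ← sub_eq_zero, ← map_sub,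
      IsLocalRing.residue_eq_zero_iff, ← ValuationSubring.coe_mem_nonunits_iff]
    exact hσF ⟨y, hy⟩
  have h1 : IsLocalRing.residue A a * IsLocalRing.residue A ⟨s, hsA'⟩ =
      IsLocalRing.residue A ⟨b, hbA⟩ := by
    rw [← map_mul]
    congr 1
    exact Subtype.ext hxs
  have h2 : IsLocalRing.residue A ⟨s, hsA'⟩ ≠ 0 := by
    rw [Ne, IsLocalRing.residue_eq_zero_iff, ← ValuationSubring.coe_mem_nonunits_iff]
    exact hsA
  have h3 := congrArg (fun z => (⟨σ, hσA⟩ : A.decompositionSubgroup ℚ) • z) h1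
  simp only [smul_mul'] at h3
  rw [hint s hs, hint b hb, ← h1, mul_pow] at h3
  exact mul_right_cancel₀ (pow_ne_zero _ h2) h3

/-- A Frobenius element at `A` is congruent to the `q`-th power map on `A`. -/
theorem IsFrobeniusAt_val_sub_pow_lt_one {A : ValuationSubring (AlgebraicClosure ℚ)}
    {σ : AlgebraicClosure ℚ ≃ₐ[ℚ] AlgebraicClosure ℚ} {q : ℕ} (hσ : A.IsFrobeniusAt σ q)
    (z : AlgebraicClosure ℚ) (hz : z ∈ A) : A.valuation (σ z - z ^ q) < 1 := by
  obtain ⟨hσD, hF⟩ := hσ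
  have h2 := hF (IsLocalRing.residue A ⟨z, hz⟩)
  rw [← IsLocalRing.ResidueField.residue_smul, ← map_pow] at h2
  have h3 : ((⟨σ, hσD⟩ : A.decompositionSubgroup ℚ) • (⟨z, hz⟩ : A)) - (⟨z, hz⟩ : A) ^ q
      ∈ IsLocalRing.maximalIdeal A := by
    rw [← Ideal.Quotient.eq]
    exact h2
  rw [ValuationSubring.valuation_lt_one_iff] at h3
  exact h3

/-- A Frobenius element at `A | q` acts on `N`-th roots of unity (`N` a unit at `A`) by
`ζ ↦ ζ ^ q`. -/
theorem IsFrobeniusAt_apply_root {A : ValuationSubring (AlgebraicClosure ℚ)}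
    {σ : AlgebraicClosure ℚ ≃ₐ[ℚ] AlgebraicClosure ℚ} {q : ℕ} (hσ : A.IsFrobeniusAt σ q)
    {N : ℕ} (hN : N ≠ 0) (hNv : A.valuation (N : AlgebraicClosure ℚ) = 1)
    {z : AlgebraicClosure ℚ} (hz : z ^ N = 1) : σ z = z ^ q := by
  by_contra hne
  have hσz : (σ z) ^ N = 1 := by rw [← map_pow, hz, map_one]
  have hzq : (z ^ q) ^ N = 1 := by rw [← pow_mul, mul_comm, pow_mul, hz, one_pow]
  have h1 := val_sub_roots_eq_one (A := A) hN hNv hσz hzq hne
  have hzA : z ∈ A := (A.valuation_le_one_iff z).1 (valuation_eq_one_of_pow_eq_one A hN hz).le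
  have h2 := IsFrobeniusAt_val_sub_pow_lt_one hσ z hzA
  rw [h1] at h2
  exact lt_irrefl _ h2

/-- **CYC-INF, case `q ≠ p`.** For a valuation subring `A` of `ℚ̄` over a prime `q ≠ p` and every
`k`, for all large `n` the local degree at `A` of `ℚ(ζ_{p^n})/ℚ` is divisible by `p ^ k`. -/
theorem exists_forall_pow_dvd_relIndex_of_ne (p : ℕ) [Fact p.Prime] (q : ℕ) (hq : q.Prime)
    (hqp : q ≠ p) (A : ValuationSubring (AlgebraicClosure ℚ)) (hA : A.LiesOverPrime q) (k : ℕ) :
    ∃ n₀ : ℕ, ∀ n, n₀ ≤ n →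
      p ^ k ∣ (cycloLevel (p ^ n)).fixingSubgroup.relIndex (A.decompositionSubgroup ℚ) := by
  have hp : p.Prime := Fact.out
  obtain ⟨n₀, hn₀⟩ := exists_forall_pow_dvd_orderOf p q hp hq.two_le k
  obtain ⟨σ, hσ⟩ := exists_isFrobeniusAt A q hq hA
  refine ⟨n₀, fun n hn => ?_⟩
  rw [relIndex_fixingSubgroup_cycloLevel]
  have hNv : A.valuation ((p ^ n : ℕ) : AlgebraicClosure ℚ) = 1 := by
    rw [Nat.cast_pow, map_pow, val_prime_eq_one (A := A) hA hq hp hqp, one_pow]
  have hζ : σ (zetaBar (p ^ n)) = zetaBar (p ^ n) ^ q :=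
    IsFrobeniusAt_apply_root hσ (NeZero.ne _) hNv (zetaBar_spec (p ^ n)).pow_eq_one
  have hu := coe_cycloPow_of_apply_eq_pow (p ^ n) σ q hζ
  have hdvd := hn₀ n hn (cycloPow (p ^ n) σ) hu
  have hmem : cycloPow (p ^ n) σ ∈ (A.decompositionSubgroup ℚ).map (cycloPow (p ^ n)) :=
    Subgroup.mem_map_of_mem _ hσ.mem_decompositionSubgroup
  have h2 : orderOf (cycloPow (p ^ n) σ) ∣
      Nat.card ((A.decompositionSubgroup ℚ).map (cycloPow (p ^ n))) := by
    have := Subgroup.orderOf_dvd_natCard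
      ((A.decompositionSubgroup ℚ).map (cycloPow (p ^ n))) hmem
    exact this
  exact hdvd.trans h2

end Fermat.Agent.S55.H414

end
-- ===== PACK-END S55/H414/CycloPow.lean

-- ===== PACK-BEGIN S24/Mod/H997Local.lean
section


/-!
# S24 / MOD — construction of `LocalData` from an abstract expansion with rotation data
-/

set_option autoImplicit false

noncomputable section

open ModularCurve HahnSeries UpperHalfPlane
open scoped MatrixGroups

namespace Fermat.Agent.S24.H997

/-! ### The "rotation relation" on Laurent series -/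

/-- `b` has the same order as `a`, and leading coefficient `ζ ^ order * (leading coeff of a)`. -/
def RotRel (ζ : ℂ) (a b : LaurentSeries ℂ) : Prop :=
  b.order = a.order ∧ b.leadingCoeff = ζ ^ a.order * a.leadingCoeff

namespace RotRel

variable {ζ : ℂ} {a b a' b' : LaurentSeries ℂ}

theorem zero : RotRel ζ 0 0 := ⟨rfl, by simp⟩

theorem eq_zero_iff (h : RotRel ζ a b) (hζ : ζ ≠ 0) : b = 0 ↔ a = 0 := by
  rw [← leadingCoeff_eq_zero (x := b), ← leadingCoeff_eq_zero (x := a), h.2]
  simp [zpow_ne_zero _ hζ]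

theorem mul (hζ : ζ ≠ 0) (h : RotRel ζ a b) (h' : RotRel ζ a' b') :
    RotRel ζ (a * a') (b * b') := by
  by_cases ha : a = 0
  · have hb : b = 0 := (h.eq_zero_iff hζ).mpr ha
    simp only [ha, hb, zero_mul]; exact zero
  by_cases ha' : a' = 0
  · have hb' : b' = 0 := (h'.eq_zero_iff hζ).mpr ha'
    simp only [ha', hb', mul_zero]; exact zero
  have hb : b ≠ 0 := fun hb => ha ((h.eq_zero_iff hζ).mp hb)
  have hb' : b' ≠ 0 := fun hb' => ha' ((h'.eq_zero_iff hζ).mp hb')
  have hab : a.leadingCoeff * a'.leadingCoeff ≠ 0 :=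
    mul_ne_zero (leadingCoeff_ne_zero.mpr ha) (leadingCoeff_ne_zero.mpr ha')
  have hbb : b.leadingCoeff * b'.leadingCoeff ≠ 0 :=
    mul_ne_zero (leadingCoeff_ne_zero.mpr hb) (leadingCoeff_ne_zero.mpr hb')
  refine ⟨?_, ?_⟩
  · rw [order_mul_of_ne_zero hab, order_mul_of_ne_zero hbb, h.1, h'.1]
  · rw [leadingCoeff_mul, leadingCoeff_mul, order_mul_of_ne_zero hab, h.2, h'.2, zpow_add₀ hζ]
    ring

theorem one : RotRel ζ 1 1 := ⟨rfl, by simp⟩

theorem order_inv' {x : LaurentSeries ℂ} (hx : x ≠ 0) : x⁻¹.order = -x.order := by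
  have hxi : x⁻¹ ≠ 0 := inv_ne_zero hx
  have h : x.leadingCoeff * x⁻¹.leadingCoeff ≠ 0 :=
    mul_ne_zero (leadingCoeff_ne_zero.mpr hx) (leadingCoeff_ne_zero.mpr hxi)
  have := order_mul_of_ne_zero h
  rw [mul_inv_cancel₀ hx, order_one] at this
  omega

theorem leadingCoeff_inv' {x : LaurentSeries ℂ} (hx : x ≠ 0) :
    x⁻¹.leadingCoeff = (x.leadingCoeff)⁻¹ := by
  have := leadingCoeff_mul x x⁻¹
  rw [mul_inv_cancel₀ hx, leadingCoeff_one] at this
  exact eq_inv_of_mul_eq_one_right this.symm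

theorem inv (hζ : ζ ≠ 0) (h : RotRel ζ a b) : RotRel ζ a⁻¹ b⁻¹ := by
  by_cases ha : a = 0
  · have hb : b = 0 := (h.eq_zero_iff hζ).mpr ha
    simp only [ha, hb, inv_zero]; exact zero
  have hb : b ≠ 0 := fun hb => ha ((h.eq_zero_iff hζ).mp hb)
  refine ⟨?_, ?_⟩
  · rw [order_inv' hb, order_inv' ha, h.1]
  · rw [leadingCoeff_inv' hb, leadingCoeff_inv' ha, order_inv' ha, h.2, mul_inv, zpow_neg]

theorem div (hζ : ζ ≠ 0) (h : RotRel ζ a b) (h' : RotRel ζ a' b') :
    RotRel ζ (a / a') (b / b') := by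
  rw [div_eq_mul_inv, div_eq_mul_inv]
  exact h.mul hζ (h'.inv hζ)

end RotRel

variable {N : ℕ} [NeZero N]

/-- An abstract injective expansion ring hom on `Hol`. -/
structure Expansion (B : HolBase N) where
  E : B.Hol →+* LaurentSeries ℂ
  inj : Function.Injective E
  const : ∀ c : ℂ, E (B.constH c) = HahnSeries.C c

/-- Rotation data for an expansion: precomposition with `ε` rotates the local coordinate
by the primitive `m`-th root of unity `ζ` (to first order). -/
structure RotData (B : HolBase N) (X : Expansion B) (ε : SL(2, ℤ)) where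
  m : ℕ
  m_pos : 0 < m
  ζ : ℂ
  hζ : IsPrimitiveRoot ζ m
  rot : ∀ h : B.Hol, RotRel ζ (X.E h) (X.E (B.compH ε h))

namespace HolBase

variable (B : HolBase N) (X : Expansion B)

/-- the ring hom `R_N → ℂ((z))`, `r ↦ E (e r ∘ g⁻¹)` -/
def sG (g : SL(2, ℤ)) : RN N →+* LaurentSeries ℂ :=
  X.E.comp ((B.compH g⁻¹).comp B.bridge)

theorem sG_apply (g : SL(2, ℤ)) (r : RN N) :
    B.sG X g r = X.E (B.compH g⁻¹ (B.bridge r)) := rfl

theorem sG_injective (g : SL(2, ℤ)) : Function.Injective (B.sG X g) :=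
  X.inj.comp ((B.compH_injective g⁻¹).comp B.bridge_injective)

/-- the embedding `FF N → ℂ((z))` attached to `g` -/
def sigmaG (g : SL(2, ℤ)) : FF N →+* LaurentSeries ℂ :=
  liftF (B.sG X g) (B.sG_injective X g)

theorem sigmaG_inclRN (g : SL(2, ℤ)) (r : RN N) :
    B.sigmaG X g (inclRN N r) = X.E (B.compH g⁻¹ (B.bridge r)) :=
  liftF_inclRN _ _ r

theorem sigmaG_algebraMap (g : SL(2, ℤ)) (c : Kbar) :
    B.sigmaG X g (algebraMap Kbar (FF N) c) = HahnSeries.C (ιK c) := by
  rw [sigmaG, liftF_algebraMap, sG_apply, bridge_algebraMap, compH_constH, X.const]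

theorem sigmaG_jF (g : SL(2, ℤ)) :
    B.sigmaG X g (jF N) = X.E (B.JH 1 (one_dvd N)) := by
  rw [← inclRN_jR_one, sigmaG_inclRN, bridge_jR, compH_JH_one]

theorem sG_mul_of_mem (g : SL(2, ℤ)) {δ : SL(2, ℤ)} (hδ : δ ∈ CongruenceSubgroup.Gamma0 N) :
    B.sG X (g * δ) = B.sG X g := by
  ext1 r
  rw [sG_apply, sG_apply, mul_inv_rev, compH_mul,
    B.compH_bridge_of_mem (inv_mem hδ)]

theorem sigmaG_mul_of_mem (g : SL(2, ℤ)) {δ : SL(2, ℤ)}
    (hδ : δ ∈ CongruenceSubgroup.Gamma0 N) : B.sigmaG X (g * δ) = B.sigmaG X g := by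
  unfold sigmaG
  congr 1
  exact B.sG_mul_of_mem X g hδ

theorem sigmaG_eq_of_mk_eq {g g' : SL(2, ℤ)}
    (h : (g : XX N) = (g' : XX N)) : B.sigmaG X g = B.sigmaG X g' := by
  have hmem : g⁻¹ * g' ∈ CongruenceSubgroup.Gamma0 N := QuotientGroup.eq.mp h
  have := B.sigmaG_mul_of_mem X g hmem
  rw [mul_inv_cancel_left] at this
  exact this.symm

/-- the embedding attached to a coset -/
def sigmaX (x : XX N) : FF N →+* LaurentSeries ℂ := B.sigmaG X (Quotient.out x)

theorem sigmaX_mk (g : SL(2, ℤ)) : B.sigmaX X (g : XX N) = B.sigmaG X g :=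
  B.sigmaG_eq_of_mk_eq X (QuotientGroup.out_eq' _)

theorem sigmaX_injective : Function.Injective (B.sigmaX X) := by
  intro x y hxy
  obtain ⟨g, rfl⟩ := QuotientGroup.mk_surjective x
  obtain ⟨g', rfl⟩ := QuotientGroup.mk_surjective y
  rw [sigmaX_mk, sigmaX_mk] at hxy
  have h1 := congrArg (fun s => s (inclRN N (jR N N dvd_rfl))) hxy
  simp only [sigmaG_inclRN, bridge_jR] at h1
  have h2 := X.inj h1
  apply QuotientGroup.eq.mpr
  apply B.J_distinct
  intro τ
  have h3 := congrArg (fun h : B.Hol => (h : ℍ → ℂ) (g' • τ)) h2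
  simp only [compH_apply] at h3
  rw [← mul_smul, ← mul_smul, inv_mul_cancel, one_smul] at h3
  exact h3

theorem rotRel_sigmaG (ε : SL(2, ℤ)) (R : RotData B X ε) (g : SL(2, ℤ)) (f : FF N) :
    RotRel R.ζ (B.sigmaG X g f) (B.sigmaG X (ε⁻¹ * g) f) := by
  have hζ : R.ζ ≠ 0 := R.hζ.ne_zero R.m_pos.ne'
  obtain ⟨r, t, -, rfl⟩ := exists_div_inclRN N f
  rw [map_div₀, map_div₀]
  have key : ∀ r : RN N, RotRel R.ζ (B.sigmaG X g (inclRN N r))
      (B.sigmaG X (ε⁻¹ * g) (inclRN N r)) := by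
    intro r
    rw [sigmaG_inclRN, sigmaG_inclRN, mul_inv_rev, inv_inv, compH_mul]
    exact R.rot _
  exact (key r).div hζ (key t)

/-- `LocalData` from an expansion with rotation data. -/
def mkLocalData (ε : SL(2, ℤ)) (R : RotData B X ε) (t : FF N) (u : LaurentSeries ℂ)
    (ht : ∀ g : SL(2, ℤ), B.sigmaG X g t = u) (hu : u.order = (R.m : ℤ)) :
    LocalData Kbar (FF N) ℂ (XX N) t where
  m := R.m
  m_pos := R.m_pos
  ζ := R.ζ
  hζ := R.hζ
  ι := ιK
  perm := permOf N ε⁻¹
  σ := B.sigmaX X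
  σ_inj := B.sigmaX_injective X
  σ_const x c := B.sigmaG_algebraMap X _ c
  σ_t_eq x y := by
    show B.sigmaG X _ t = B.sigmaG X _ t
    rw [ht, ht]
  σ_t_order x := by
    show (B.sigmaG X _ t).order = _
    rw [ht, hu]
  σ_perm_order x f := by
    obtain ⟨g, rfl⟩ := QuotientGroup.mk_surjective x
    have h : permOf N ε⁻¹ (g : XX N) = ((ε⁻¹ * g : SL(2, ℤ)) : XX N) := rfl
    rw [h, sigmaX_mk, sigmaX_mk]
    exact (B.rotRel_sigmaG X ε R g f).1
  σ_perm_leadingCoeff x f := by
    obtain ⟨g, rfl⟩ := QuotientGroup.mk_surjective x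
    have h : permOf N ε⁻¹ (g : XX N) = ((ε⁻¹ * g : SL(2, ℤ)) : XX N) := rfl
    rw [h, sigmaX_mk, sigmaX_mk]
    exact (B.rotRel_sigmaG X ε R g f).2

@[simp] theorem mkLocalData_perm (ε : SL(2, ℤ)) (R : RotData B X ε) (t : FF N)
    (u : LaurentSeries ℂ) (ht : ∀ g : SL(2, ℤ), B.sigmaG X g t = u)
    (hu : u.order = (R.m : ℤ)) :
    (B.mkLocalData X ε R t u ht hu).perm = permOf N ε⁻¹ := rfl

end HolBase

end Fermat.Agent.S24.H997

end
end
-- ===== PACK-END S24/Mod/H997Local.lean

-- ===== PACK-BEGIN S24/H624/SL2Z.lean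
section


/-!
# `SL(2, ℤ)` acting on holomorphic functions; divisibility of orders at elliptic points
-/

set_option autoImplicit false

namespace Fermat.Agent.S24.H624

open UpperHalfPlane Complex
open scoped Manifold Topology MatrixGroups

theorem det_coe_SL_pos (γ : SL(2, ℤ)) : 0 < ((γ : GL (Fin 2) ℝ).det.val : ℝ) := by
  simp

theorem det_coe_SL (γ : SL(2, ℤ)) : ((γ : GL (Fin 2) ℝ).det.val : ℝ) = 1 := by
  simp

/-- Precomposition with `γ ∈ SL(2, ℤ)` as an algebra endomorphism of `holoRing`. -/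
noncomputable def precompSL (γ : SL(2, ℤ)) : holoRing →ₐ[ℂ] holoRing where
  toFun f := ⟨fun τ => (f : ℍ → ℂ) (γ • τ), mdiff_comp_smul (det_coe_SL_pos γ) f.2⟩
  map_one' := rfl
  map_mul' _ _ := rfl
  map_zero' := rfl
  map_add' _ _ := rfl
  commutes' _ := rfl

@[simp]
theorem precompSL_apply (γ : SL(2, ℤ)) (f : holoRing) (τ : ℍ) :
    (precompSL γ f : ℍ → ℂ) τ = (f : ℍ → ℂ) (γ • τ) := rfl

theorem precompSL_one (f : holoRing) : precompSL 1 f = f := by
  ext τ
  simp

theorem precompSL_mul (γ δ : SL(2, ℤ)) (f : holoRing) :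
    precompSL (γ * δ) f = precompSL δ (precompSL γ f) := by
  ext τ
  simp [mul_smul]

/-- Left action of `SL(2, ℤ)` on holomorphic functions: `(γ • f) τ = f (γ⁻¹ • τ)`. -/
noncomputable instance instMulSemiringActionHoloRing : MulSemiringAction SL(2, ℤ) holoRing where
  smul γ f := precompSL γ⁻¹ f
  one_smul f := by
    show precompSL (1 : SL(2, ℤ))⁻¹ f = f
    rw [inv_one, precompSL_one]
  mul_smul γ δ f := by
    show precompSL (γ * δ)⁻¹ f = precompSL γ⁻¹ (precompSL δ⁻¹ f)
    rw [mul_inv_rev, precompSL_mul]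
  smul_zero γ := map_zero _
  smul_add γ f g := map_add _ f g
  smul_one γ := map_one _
  smul_mul γ f g := map_mul _ f g

theorem smul_holoRing_apply (γ : SL(2, ℤ)) (f : holoRing) (τ : ℍ) :
    ((γ • f : holoRing) : ℍ → ℂ) τ = (f : ℍ → ℂ) (γ⁻¹ • τ) := rfl

theorem smul_holoRing_def (γ : SL(2, ℤ)) (f : holoRing) : γ • f = precompSL γ⁻¹ f := rfl

instance instSMulCommClassHoloRing : SMulCommClass SL(2, ℤ) ℂ holoRing where
  smul_comm γ c f := by
    ext τ
    rfl

theorem ordAt_precompSL (γ : SL(2, ℤ)) (f : holoRing) (τ : ℍ) :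
    ordAt τ (precompSL γ f : ℍ → ℂ) = ordAt (γ • τ) (f : ℍ → ℂ) :=
  ordAt_comp_smul (det_coe_SL_pos γ) (f : ℍ → ℂ) τ

theorem ordAt_smul_holoRing (γ : SL(2, ℤ)) (f : holoRing) (τ : ℍ) :
    ordAt (γ • τ) ((γ • f : holoRing) : ℍ → ℂ) = ordAt τ (f : ℍ → ℂ) := by
  rw [smul_holoRing_def, ordAt_precompSL, inv_smul_smul]

/-- Rotation lemma for `SL(2, ℤ)`: if `γ` fixes `τ` and `f ≠ 0` is `γ`-invariant of order `n`
at `τ`, then `(c τ + d) ^ (2 n) = 1`. -/
theorem denom_pow_eq_one {γ : SL(2, ℤ)} {f : ℍ → ℂ} (hf : MDiff f) (hf0 : f ≠ 0) {τ : ℍ}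
    (hτ : γ • τ = τ) (hinv : ∀ z : ℍ, f (γ • z) = f z) :
    denom (γ : GL (Fin 2) ℝ) (τ : ℂ) ^ (2 * (ordAt τ f).toNat) = 1 := by
  have h := rotation_lemma (g := (γ : GL (Fin 2) ℝ)) (det_coe_SL_pos γ) hf hf0 hτ hinv
  rw [det_coe_SL γ] at h
  have hd : denom (γ : GL (Fin 2) ℝ) (τ : ℂ) ≠ 0 := denom_ne_zero _ τ
  rw [Complex.ofReal_one, div_pow, one_pow, ← pow_mul] at h
  have h2 := (div_eq_one_iff_eq (pow_ne_zero _ hd)).mp h
  exact h2.symm

/-- The quadratic relation satisfied by `λ = c τ + d` at a fixed point: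
`λ ^ 2 - (a + d) λ + 1 = 0`. -/
theorem denom_sq_eq_of_fixed {γ : SL(2, ℤ)} {τ : ℍ} (hτ : γ • τ = τ) :
    denom (γ : GL (Fin 2) ℝ) (τ : ℂ) ^ 2
      = (((γ 0 0 + γ 1 1 : ℤ) : ℂ)) * denom (γ : GL (Fin 2) ℝ) (τ : ℂ) - 1 := by
  have hd : denom (γ : GL (Fin 2) ℝ) (τ : ℂ) ≠ 0 := denom_ne_zero _ τ
  have h1 : ((γ • τ : ℍ) : ℂ) = num (γ : GL (Fin 2) ℝ) τ / denom (γ : GL (Fin 2) ℝ) τ :=
    coe_smul_of_det_pos (det_coe_SL_pos γ) τ
  rw [hτ] at h1
  have h2 : (τ : ℂ) * denom (γ : GL (Fin 2) ℝ) τ = num (γ : GL (Fin 2) ℝ) τ :=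
    (eq_div_iff hd).mp h1
  have hdet : ((γ 0 0 : ℤ) : ℂ) * ((γ 1 1 : ℤ) : ℂ) - ((γ 0 1 : ℤ) : ℂ) * ((γ 1 0 : ℤ) : ℂ) = 1 := by
    have := γ.det_coe
    rw [Matrix.det_fin_two] at this
    exact_mod_cast this
  have hnum : num (γ : GL (Fin 2) ℝ) (τ : ℂ) = ((γ 0 0 : ℤ) : ℂ) * τ + ((γ 0 1 : ℤ) : ℂ) := by
    simp [num]
  have hden : denom (γ : GL (Fin 2) ℝ) (τ : ℂ) = ((γ 1 0 : ℤ) : ℂ) * τ + ((γ 1 1 : ℤ) : ℂ) := by
    simp [denom]
  rw [hnum, hden] at h2
  rw [hden]
  push_cast
  linear_combination (((γ 1 0 : ℤ) : ℂ)) * h2 - hdet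

/-- At a fixed point of an element of trace `0`, invariant functions vanish to even order. -/
theorem even_ordAt_of_trace_zero {γ : SL(2, ℤ)} {f : ℍ → ℂ} (hf : MDiff f) (hf0 : f ≠ 0)
    {τ : ℍ} (hτ : γ • τ = τ) (htr : γ 0 0 + γ 1 1 = 0) (hinv : ∀ z : ℍ, f (γ • z) = f z) :
    Even (ordAt τ f).toNat := by
  have h1 := denom_pow_eq_one hf hf0 hτ hinv
  have h2 := denom_sq_eq_of_fixed hτ
  rw [htr] at h2
  simp only [Int.cast_zero, zero_mul, zero_sub] at h2
  rw [pow_mul, h2] at h1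
  by_contra hodd
  rw [Nat.not_even_iff_odd] at hodd
  rw [hodd.neg_one_pow] at h1
  norm_num at h1

theorem three_dvd_of_root {μ : ℂ} (hμ : μ ^ 2 + μ + 1 = 0) {n : ℕ} (hn : μ ^ n = 1) : 3 ∣ n := by
  have h3 : μ ^ 3 = 1 := by linear_combination (μ - 1) * hμ
  have hμ1 : μ ≠ 1 := by
    rintro rfl
    norm_num at hμ
  have hμ2 : μ ^ 2 ≠ 1 := by
    intro h
    have : μ = -2 := by linear_combination hμ - h
    rw [this] at h
    norm_num at h
  have hdiv : μ ^ n = μ ^ (n % 3) := by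
    conv_lhs => rw [← Nat.div_add_mod n 3, pow_add, pow_mul, h3, one_pow, one_mul]
  rw [hdiv] at hn
  have hlt : n % 3 < 3 := Nat.mod_lt _ (by norm_num)
  interval_cases h : n % 3
  · exact Nat.dvd_of_mod_eq_zero h
  · rw [pow_one] at hn; exact absurd hn hμ1
  · exact absurd hn hμ2

/-- At a fixed point of an element of trace `±1`, invariant functions vanish to order divisible
by `3`. -/
theorem three_dvd_ordAt_of_trace {γ : SL(2, ℤ)} {f : ℍ → ℂ} (hf : MDiff f) (hf0 : f ≠ 0)
    {τ : ℍ} (hτ : γ • τ = τ) (htr : γ 0 0 + γ 1 1 = 1 ∨ γ 0 0 + γ 1 1 = -1)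
    (hinv : ∀ z : ℍ, f (γ • z) = f z) :
    3 ∣ (ordAt τ f).toNat := by
  have h1 := denom_pow_eq_one hf hf0 hτ hinv
  have h2 := denom_sq_eq_of_fixed hτ
  rw [pow_mul] at h1
  set lam := denom (γ : GL (Fin 2) ℝ) (τ : ℂ) with hlam
  refine three_dvd_of_root (μ := lam ^ 2) ?_ h1
  rcases htr with htr | htr
  · rw [htr] at h2
    simp only [Int.cast_one, one_mul] at h2
    linear_combination (lam ^ 2 + lam + 1) * h2
  · rw [htr] at h2
    simp only [Int.cast_neg, Int.cast_one, neg_mul, one_mul] at h2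
    linear_combination (lam ^ 2 - lam + 1) * h2

end Fermat.Agent.S24.H624

end
-- ===== PACK-END S24/H624/SL2Z.lean

-- ===== PACK-BEGIN S29/H222/ESKSpec.lean
section
/-
S29 / helper222 — piece ESK: the Eichler–Shimura input of layer M ("ES raw": inertia acts trivially
on `J₀(N)(ℚ̄)[m]`, Frobenius satisfies `σ² - T_ℓ σ + ℓ = 0` on `J₀(N)(ℚ̄)[m]`) DIRECTLY from the
S18 hub `CoreStatement N A m`, WITHOUT S37 (no special fibre, no place reduction map, no `J'`, no
commutativity of Hecke operators).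

This file: the interface (definitions + the two target statements as `Prop`s).
-/





set_option autoImplicit false

noncomputable section

namespace Fermat.Agent.S29.H222

open ModularCurve AlgebraicCurve HahnSeries
open Fermat.Agent.S18 (Qb IsInt toF CoreStatement)

/-- The absolute Galois group of `ℚ`. -/
abbrev GQ' : Type := Qb ≃ₐ[ℚ] Qb

/-- The norm along `α : F_N → F_{Nℓ}` (inclusion) of `β y` (`β = q ↦ q^ℓ`): the function whose
divisor is `T_ℓ (div y)` for the Prelude Hecke correspondence. -/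
def heckeNorm (N ℓ : ℕ) [NeZero N] [NeZero ℓ] (y : modularFunctionFieldBar N) :
    modularFunctionFieldBar N :=
  letI := algebraAlong (heckeAlphaBar Qb N ℓ)
  Algebra.norm (modularFunctionFieldBar N) (heckeBetaBar Qb N ℓ y)

/-- **NORM-ID** (piece NKI of the S37 row): the norm along `α` of `β y` has `q`-expansion the
formal Kronecker norm `V_ℓ y · det (secMat ℓ y)` (`Fermat.Agent.S37.H400.kronNorm`, on main). -/
def NormId (N ℓ : ℕ) [NeZero N] [NeZero ℓ] : Prop :=
  ∀ y : modularFunctionFieldBar N,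
    ((heckeNorm N ℓ y : modularFunctionFieldBar N) : LaurentSeries Qb)
      = Fermat.Agent.S37.H400.kronNorm ℓ (y : LaurentSeries Qb)

/-- Target (U): inertia at `A` acts trivially on the `m`-torsion of `J₀(N)(ℚ̄)`. -/
def InertiaTrivialOn (N : ℕ) (A : ValuationSubring Qb) (m : ℕ) : Prop :=
  ∀ τ ∈ A.inertiaSubgroupIn ℚ, ∀ x : JZero N, (m : ℤ) • x = 0 → τ • x = x

/-- Target (F): every Frobenius element at `A` satisfies the Eichler–Shimura relation
`σ² - T_ℓ σ + ℓ = 0` on the `m`-torsion of `J₀(N)(ℚ̄)` (`T_ℓ` = the RAW Prelude operator). -/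
def FrobQuadraticOn (N : ℕ) [NeZero N] (ℓ : ℕ) (hℓ : ℓ.Prime) (A : ValuationSubring Qb)
    (m : ℕ) : Prop :=
  ∀ σ : GQ', A.IsFrobeniusAt σ ℓ → ∀ x : JZero N, (m : ℤ) • x = 0 →
    σ • σ • x - heckeOperatorBar N ⟨ℓ, hℓ⟩ (σ • x) + (ℓ : ℤ) • x = 0

/-- The statement of piece ESK-U. -/
def ESKInertiaStatement : Prop :=
  ∀ (N : ℕ) [NeZero N] (m : ℕ), m ≠ 0 → ∀ A : ValuationSubring Qb,
    CoreStatement N A m → PrincipalGeneratedByIntegral A (IsLocalRing.residue A) N →
      InertiaTrivialOn N A m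

/-- The statement of piece ESK-F. -/
def ESKFrobStatement : Prop :=
  ∀ (N : ℕ) [NeZero N] (ℓ : ℕ) (hℓ : ℓ.Prime) (m : ℕ), m ≠ 0 → ∀ A : ValuationSubring Qb,
    A.LiesOverPrime ℓ →
    CoreStatement N A m → PrincipalGeneratedByIntegral A (IsLocalRing.residue A) N →
    (haveI : NeZero ℓ := ⟨hℓ.ne_zero⟩; HeckeInputsAlong Qb N ℓ) →
    (haveI : NeZero ℓ := ⟨hℓ.ne_zero⟩; NormId N ℓ) →
      FrobQuadraticOn N ℓ hℓ A m

end Fermat.Agent.S29.H222

end
end
-- ===== PACK-END S29/H222/ESKSpec.lean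

-- ===== PACK-BEGIN S29/H812/OrdSum.lean
section





/-!
# S29 / H812 — order of a finite sum with a unique strictly minimal term, and local
"indicator" functions at the places of a finite set (from weak approximation).
-/

set_option autoImplicit false

noncomputable section

open AlgebraicCurve WithZero

namespace Fermat.Agent.S29.H812

open Fermat.Agent.S24

variable {K F : Type*} [Field K] [Field F] [Algebra K F] (v : Place K F)

/-- If one term of a finite sum has strictly smaller order than all other nonzero terms, then the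
sum is nonzero and has the order of that term. -/
theorem ord_sum_eq_of_lt {ι : Type*} (s : Finset ι) (f : ι → F) (j : ι) (hj : j ∈ s)
    (hfj : f j ≠ 0) (h : ∀ i ∈ s, i ≠ j → f i = 0 ∨ v.ord (f j) < v.ord (f i)) :
    (∑ i ∈ s, f i) ≠ 0 ∧ v.ord (∑ i ∈ s, f i) = v.ord (f j) := by
  classical
  have key : v.adicValuation (∑ i ∈ s, f i) = v.adicValuation (f j) := by
    apply Valuation.map_sum_eq_of_lt _ hj
    intro i hi
    rw [Finset.mem_sdiff, Finset.mem_singleton] at hi
    by_cases hi0 : f i = 0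
    · rw [hi0, map_zero]
      exact zero_lt_iff.mpr (v.adicValuation_ne_zero hfj)
    · rcases h i hi.1 hi.2 with h0 | hlt
      · exact absurd h0 hi0
      · rw [H504.adicValuation_eq_exp_neg_ord v hi0, H504.adicValuation_eq_exp_neg_ord v hfj,
          exp_lt_exp]
        omega
  have hne : (∑ i ∈ s, f i) ≠ 0 := by
    intro h0
    rw [h0, map_zero] at key
    exact v.adicValuation_ne_zero hfj key.symm
  refine ⟨hne, ?_⟩
  rw [H504.adicValuation_eq_exp_neg_ord v hne, H504.adicValuation_eq_exp_neg_ord v hfj] at key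
  have := WithZero.exp_injective key
  omega

/-- `ord` of a finite sum is at least a common lower bound of the orders of the nonzero terms,
provided the sum is nonzero. -/
theorem le_ord_sum {ι : Type*} (s : Finset ι) (f : ι → F) (m : ℤ)
    (h : ∀ i ∈ s, f i = 0 ∨ m ≤ v.ord (f i)) (hne : (∑ i ∈ s, f i) ≠ 0) :
    m ≤ v.ord (∑ i ∈ s, f i) := by
  classical
  have key : v.adicValuation (∑ i ∈ s, f i) ≤ exp (-m) := by
    apply Valuation.map_sum_le
    intro i hi
    by_cases hi0 : f i = 0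
    · rw [hi0, map_zero]; exact zero_le
    · rcases h i hi with h0 | hle
      · exact absurd h0 hi0
      · rw [H504.adicValuation_eq_exp_neg_ord v hi0, exp_le_exp]
        omega
  rw [H504.adicValuation_eq_exp_neg_ord v hne, exp_le_exp] at key
  omega

/-- Membership version: a finite sum of elements of the valuation ring is in the valuation
ring. -/
theorem ord_one_add_of_neg {f : F} (hf : v.ord f < 0) :
    1 + f ≠ 0 ∧ v.ord (1 + f) = v.ord f := by
  have hf0 : f ≠ 0 := H117.ne_zero_of_ord_ne_zero v hf.ne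
  have h := H117.ord_add_eq_of_lt v (f := f) (g := 1) (by rw [v.ord_one]; exact hf) hf0
  rw [add_comm] at h
  refine ⟨?_, h⟩
  intro h0
  rw [h0, v.ord_zero] at h
  omega

theorem ord_one_add_of_pos {f : F} (hf : 0 < v.ord f) :
    1 + f ≠ 0 ∧ v.ord (1 + f) = 0 := by
  have h := H117.ord_add_eq_of_lt v (f := 1) (g := f) (by rw [v.ord_one]; exact hf) one_ne_zero
  rw [v.ord_one] at h
  refine ⟨?_, h⟩
  intro h0
  have hf1 : f = -1 := by linear_combination h0
  rw [hf1, H117.ord_neg, v.ord_one] at hf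
  exact lt_irrefl _ hf

/-- **Indicator functions.**  For a place `w` and a finite set `s` of other places there is
`ε` with `ε ≡ 1` at `w` (i.e. `ord_w (1 - ε) > 0`, `ord_w ε = 0`) and `ord_{w'} ε > 0`,
`ord_{w'} (1 - ε) = 0` for `w' ∈ s`. -/
theorem exists_indicator (w : Place K F) (s : Finset (Place K F)) (hw : w ∉ s) :
    ∃ ε : F, ε ≠ 0 ∧ 1 - ε ≠ 0 ∧ w.ord ε = 0 ∧ 0 < w.ord (1 - ε) ∧
      ∀ w' ∈ s, 0 < w'.ord ε ∧ w'.ord (1 - ε) = 0 := by
  obtain ⟨f, hf1, hf2⟩ := H117.exists_ord_neg_forall_pos w s hw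
  have hf0 : f ≠ 0 := H117.ne_zero_of_ord_ne_zero w hf1.ne
  obtain ⟨h1, h2⟩ := ord_one_add_of_neg w hf1
  have hinv : (1 + f)⁻¹ ≠ 0 := inv_ne_zero h1
  have hε : 1 - f / (1 + f) = (1 + f)⁻¹ := by field_simp; ring
  refine ⟨f / (1 + f), div_ne_zero hf0 h1, by rw [hε]; exact hinv, ?_, ?_, ?_⟩
  · rw [H117.ord_div w hf0 h1, h2]; ring
  · rw [hε, w.ord_inv, h2]; omega
  · intro w' hw'
    obtain ⟨h3, h4⟩ := ord_one_add_of_pos w' (hf2 w' hw')
    constructor
    · rw [H117.ord_div w' hf0 h3, h4]; have := hf2 w' hw'; omega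
    · rw [hε, w'.ord_inv, h4]; rfl

end Fermat.Agent.S29.H812

end
end
-- ===== PACK-END S29/H812/OrdSum.lean

-- ===== PACK-BEGIN S24/H504/FF1.lean
section



/-!
# The fundamental inequality `n ≤ ∑_{v | t} e_v` from local embedding data

Dedekind-free: every embedding `σ x` induces a place over `t = 0`, and at most `e_v = v(t)`
embeddings induce a given place `v` (rigidity, `card_induces_le`).
-/

set_option autoImplicit false

namespace Fermat.Agent.S24.H504

open AlgebraicCurve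

variable {K F : Type*} [Field K] [Field F] [Algebra K F]
variable {C : Type*} [Field C] {X : Type*} {t : F}

theorem LocalData.order_const_nonneg (L : LocalData K F C X t) (x : X) (c : K) :
    0 ≤ (L.σ x (algebraMap K F c)).order := by
  rw [L.σ_const, HahnSeries.order_C]

theorem LocalData.exists_order_ne_zero (L : LocalData K F C X t) (x : X) :
    ∃ f : F, (L.σ x f).order ≠ 0 :=
  ⟨t, by rw [L.σ_t_order]; exact_mod_cast L.m_pos.ne'⟩

/-- The place of `F/K` induced by the embedding `σ x`. -/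
noncomputable def LocalData.placeAt (L : LocalData K F C X t) (x : X) : Place K F :=
  placeOfEmb (L.σ x) (LocalData.order_const_nonneg L x) (LocalData.exists_order_ne_zero L x)

theorem LocalData.induces_placeAt (L : LocalData K F C X t) (x : X) :
    Induces (L.σ x) (LocalData.placeAt L x) :=
  induces_placeOfEmb _ _ _

theorem LocalData.ord_t_pos_of_induces (L : LocalData K F C X t) {x : X} {v : Place K F}
    (h : Induces (L.σ x) v) : 0 < v.ord t := by
  have hm : 0 < (L.σ x t).order := by rw [L.σ_t_order]; exact_mod_cast L.m_pos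
  have h1 := (h.order_nonneg_iff t).mp hm.le
  have h2 := (h.order_eq_zero_iff t).not.mp hm.ne'
  omega

theorem LocalData.placeAt_ord_t_pos (L : LocalData K F C X t) (x : X) :
    0 < (LocalData.placeAt L x).ord t :=
  LocalData.ord_t_pos_of_induces L (LocalData.induces_placeAt L x)

theorem LocalData.placeAt_eq_iff (L : LocalData K F C X t) (x : X) (v : Place K F) :
    LocalData.placeAt L x = v ↔ Induces (L.σ x) v :=
  ⟨fun h => h ▸ LocalData.induces_placeAt L x,
    fun h => (LocalData.induces_placeAt L x).unique h⟩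

/-- **Fibre bound** in `LocalData` language: at most `v(t)` of the embeddings induce `v`. -/
theorem LocalData.card_fibre_le [IsAlgClosed K] [CharZero C] [Finite X]
    [Algebra.IsAlgebraic (IntermediateField.adjoin K {t}) F]
    (L : LocalData K F C X t) (v : Place K F) (hv : 0 < v.ord t) :
    (Nat.card {x : X // Induces (L.σ x) v} : ℤ) ≤ v.ord t := by
  have := card_induces_le hv L.ι L.σ L.σ_inj L.σ_const L.σ_t_eq
  have h2 : ((v.ord t).toNat : ℤ) = v.ord t := Int.toNat_of_nonneg hv.le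
  rw [← h2]
  exact_mod_cast this

/-- **Fundamental inequality (FF1).** `n = #X ≤ ∑_{v over t = 0} v(t)`. -/
theorem LocalData.card_le_sum_ord [IsAlgClosed K] [CharZero C] [Finite X]
    [Algebra.IsAlgebraic (IntermediateField.adjoin K {t}) F]
    (L : LocalData K F C X t) (s : Finset (Place K F)) (hs : ∀ v, v ∈ s ↔ 0 < v.ord t) :
    (Nat.card X : ℤ) ≤ ∑ v ∈ s, v.ord t := by
  classical
  have := Fintype.ofFinite X
  have hmaps : ∀ x ∈ (Finset.univ : Finset X), LocalData.placeAt L x ∈ s :=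
    fun x _ => (hs _).mpr (LocalData.placeAt_ord_t_pos L x)
  have hcard := Finset.card_eq_sum_card_fiberwise hmaps
  rw [Nat.card_eq_fintype_card, ← Finset.card_univ, hcard]
  push_cast
  apply Finset.sum_le_sum
  intro v hv
  have hfib := LocalData.card_fibre_le L v ((hs v).mp hv)
  refine le_trans (le_of_eq ?_) hfib
  congr 1
  rw [Nat.card_eq_fintype_card, Fintype.card_subtype]
  congr 1
  ext x
  simp only [Finset.mem_filter, Finset.mem_univ, true_and]
  exact LocalData.placeAt_eq_iff L x v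

end Fermat.Agent.S24.H504

end
-- ===== PACK-END S24/H504/FF1.lean

-- ===== PACK-BEGIN S28/H25/ThetaFormal.lean
section




/-!
# The `θ`-identity for `j`, formal part (helper25, S28 piece [A-θ])

`(θ j)⁶ = Δ · j⁴ · (j - 1728)³` in `ℤ((q))`, for the Prelude's formal `j = jqModC ℤ`,
`Δ = q · dedekindEtaUnit`, `θ = q d/dq`, assuming the two bridges
* `qExpansion 1 E₄ = eisenstein4` (proved here) and
* `qExpansion 1 Δ = X * dedekindEtaUnit` (hypothesis `DeltaBridge`).
-/

set_option autoImplicit false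

open UpperHalfPlane hiding I
open ModularForm EisensteinSeries ModularCurve
open scoped MatrixGroups

noncomputable section

namespace Fermat.Agent.S28.H25

section thetaP

variable {R : Type*} [CommRing R]

theorem thetaP_mul (f g : PowerSeries R) :
    thetaP (f * g) = thetaP f * g + f * thetaP g := by
  unfold thetaP
  rw [Derivation.leibniz]
  simp only [smul_eq_mul]
  ring

theorem thetaP_X : thetaP (PowerSeries.X : PowerSeries R) = PowerSeries.X := by
  unfold thetaP
  rw [PowerSeries.derivative_X, mul_one]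

theorem thetaP_pow_three (f : PowerSeries R) :
    thetaP (f ^ 3) = 3 * f ^ 2 * thetaP f := by
  have : f ^ 3 = f * (f * f) := by ring
  rw [this, thetaP_mul, thetaP_mul]
  ring

theorem thetaP_map {S : Type*} [CommRing S] (φ : R →+* S) (f : PowerSeries R) :
    thetaP (f.map φ) = (thetaP f).map φ := by
  ext n
  simp [coeff_thetaP]

end thetaP

/-- Pure algebra: the `θ`-identity from the two analytic relations, over a field. -/
theorem theta_identity_of_relations {K : Type*} [Field K]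
    (E e6 et eti u : PowerSeries K) (h0 : et * eti = 1) (hu : u = E ^ 3 * eti)
    (hi : E ^ 3 - e6 ^ 2 = 1728 * (PowerSeries.X * et))
    (hii : 3 * E ^ 2 * thetaP E * (PowerSeries.X * et) - E ^ 3 * thetaP (PowerSeries.X * et) =
      - (E ^ 2 * e6 * (PowerSeries.X * et))) :
    (thetaP u - u) ^ 6 = et * u ^ 4 * (u - 1728 * PowerSeries.X) ^ 3 := by
  have heta : et ≠ 0 := by
    rintro rfl
    simp at h0
  have hX : (PowerSeries.X : PowerSeries K) ≠ 0 := PowerSeries.X_ne_zero
  have hueta : u * et = E ^ 3 := by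
    rw [hu]
    linear_combination E ^ 3 * h0
  have hθ : thetaP u * et + u * thetaP et = 3 * E ^ 2 * thetaP E := by
    rw [← thetaP_mul, hueta, thetaP_pow_three]
  have hbr : 3 * E ^ 2 * thetaP E * et - E ^ 3 * et - E ^ 3 * thetaP et + E ^ 2 * e6 * et = 0 := by
    have h1 : PowerSeries.X * (3 * E ^ 2 * thetaP E * et - E ^ 3 * et - E ^ 3 * thetaP et
        + E ^ 2 * e6 * et) = 0 := by
      rw [thetaP_mul, thetaP_X] at hii
      linear_combination hii
    rcases mul_eq_zero.mp h1 with h | h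
    · exact absurd h hX
    · exact h
  have h1 : (thetaP u - u) * et = - (E ^ 2 * e6) := by
    apply mul_right_cancel₀ heta
    linear_combination et * hθ + hbr - (thetaP et + et) * hueta
  have h2 : e6 ^ 2 = et * (u - 1728 * PowerSeries.X) := by
    linear_combination -hi - hueta
  have h3 : ((thetaP u - u) * et) ^ 6 = et ^ 6 * (et * u ^ 4 * (u - 1728 * PowerSeries.X) ^ 3) := by
    calc ((thetaP u - u) * et) ^ 6 = (- (E ^ 2 * e6)) ^ 6 := by rw [h1]
      _ = (E ^ 3) ^ 4 * (e6 ^ 2) ^ 3 := by ring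
      _ = (u * et) ^ 4 * (et * (u - 1728 * PowerSeries.X)) ^ 3 := by rw [hueta, h2]
      _ = et ^ 6 * (et * u ^ 4 * (u - 1728 * PowerSeries.X) ^ 3) := by ring
  apply mul_left_cancel₀ (pow_ne_zero 6 heta)
  rw [← h3]
  ring

/-- Bridge B1: the `q`-expansion of `E₄` is the Prelude's `eisenstein4`. -/
theorem qExpansion_E4_eq_eisenstein4 :
    qExpansion 1 E₄ = eisenstein4.map (Int.castRingHom ℂ) := by
  ext m
  rw [E_qExpansion_coeff _ ⟨2, rfl⟩]
  simp only [eisenstein4, PowerSeries.coeff_map, PowerSeries.coeff_mk]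
  split_ifs with h
  · simp
  · norm_num [show bernoulli 4 = -1 / 30 by decide +kernel, ArithmeticFunction.sigma_apply]

/-- Bridge B2 (to be supplied): the `q`-expansion of `Δ` is `q ∏ (1 - qⁿ)²⁴`. -/
def DeltaBridge : Prop :=
  qExpansion 1 ModularForm.discriminant =
    PowerSeries.X * dedekindEtaUnit.map (Int.castRingHom ℂ)

/-- The `θ`-identity in `ℤ⟦q⟧`: with `u = q · j = E₄³ / ∏(1-qⁿ)²⁴`,
`(θ u - u)⁶ = ∏(1-qⁿ)²⁴ · u⁴ · (u - 1728 q)³`. -/
theorem theta_identity_powerSeries (hΔ : DeltaBridge) :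
    (thetaP jNum - jNum) ^ 6 =
      dedekindEtaUnit * jNum ^ 4 * (jNum - 1728 * PowerSeries.X) ^ 3 := by
  have hinj : Function.Injective (PowerSeries.map (Int.castRingHom ℂ)) := by
    intro f g hfg
    ext n
    have := congrArg (PowerSeries.coeff n) hfg
    simpa using this
  apply hinj
  have hΔ' : qExpansion 1 ModularForm.discriminant =
      PowerSeries.X * dedekindEtaUnit.map (Int.castRingHom ℂ) := hΔ
  have h := theta_identity_of_relations (K := ℂ) (eisenstein4.map (Int.castRingHom ℂ))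
    (qExpansion 1 E₆) (dedekindEtaUnit.map (Int.castRingHom ℂ))
    (dedekindEtaUnitInv.map (Int.castRingHom ℂ)) (jNum.map (Int.castRingHom ℂ))
    (by rw [← map_mul, dedekindEtaUnit_mul_inv, map_one])
    (by rw [jNum, map_mul, map_pow])
    (by rw [← qExpansion_E4_eq_eisenstein4, ← hΔ']; exact qExp_E4_cube_sub_E6_sq)
    (by rw [← qExpansion_E4_eq_eisenstein4, ← hΔ']; exact qExp_theta_relation)
  simp only [map_pow, map_mul, map_sub, map_ofNat, PowerSeries.map_X, ← thetaP_map]
  exact h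

end Fermat.Agent.S28.H25

end
end
-- ===== PACK-END S28/H25/ThetaFormal.lean

-- ===== PACK-BEGIN S18/Mod/H216/QepAbs.lean
section



/-!
# S18 / MOD (helper216): the q-expansion principle, ABSTRACT form (Mathlib-only + Lemma M)

Setting of `Alg/Spec.lean`: `R ⊆ Ec ⊆ Fc ⊆ Ω`, Gauss valuation ring `V`, uniformiser `w`,
coordinate `x`.  For `t ∈ {x, x⁻¹}` a **denominator statement**

    `Den t` : ∀ f ∈ Fc ∩ V, ∃ s ∈ R[t], s ∉ wV, s·f integral over R[t]

implies the q-expansion principle on the chart `R[t]` (`qep_of_den`; Lemma M of S28/H806).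
`den_inv_of_den` transfers `Den x` to `Den x⁻¹`, so that

    `partQep_of_den` : PartR + PartV + x ∈ V + x transcendental over R + Den x  ⟹  PartQep.
-/

set_option autoImplicit false
set_option linter.unusedSectionVars false
set_option linter.style.haveILetI false

noncomputable section

namespace Fermat.Agent.S18.Mod.H216

open Polynomial Fermat.Agent.S18.Alg

variable {Ω : Type*} [Field Ω]

section PolyRing

variable (R : Subring Ω) (t : Ω)

/-- Evaluation `R[X] → Ω`, `X ↦ t`. -/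
def evR : (↥R)[X] →+* Ω := Polynomial.eval₂RingHom R.subtype t

theorem evR_apply (p : (↥R)[X]) : evR R t p = p.eval₂ R.subtype t := rfl

theorem evR_C (r : R) : evR R t (C r) = (r : Ω) := by simp [evR]

theorem evR_X : evR R t X = t := by simp [evR]

theorem evR_eq_sum (p : (↥R)[X]) :
    evR R t p = ∑ i ∈ Finset.range (p.natDegree + 1), ((p.coeff i : R) : Ω) * t ^ i := by
  rw [evR_apply, Polynomial.eval₂_eq_sum_range]
  rfl

theorem polyRing_eq_range : polyRing R t = (evR R t).range := by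
  apply le_antisymm
  · rw [polyRing, Subring.closure_le]
    rintro u (hu | hu)
    · exact ⟨C ⟨u, hu⟩, evR_C R t _⟩
    · rw [Set.mem_singleton_iff] at hu
      rw [hu]
      exact ⟨X, evR_X R t⟩
  · rintro _ ⟨p, rfl⟩
    rw [evR_eq_sum]
    refine sum_mem fun i _ => mul_mem ?_ (pow_mem ?_ i)
    · exact Subring.subset_closure (Or.inl (p.coeff i).2)
    · exact Subring.subset_closure (Or.inr rfl)

theorem mem_polyRing_iff {u : Ω} : u ∈ polyRing R t ↔ ∃ p : (↥R)[X], evR R t p = u := by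
  rw [polyRing_eq_range]
  rfl

theorem le_polyRing : R ≤ polyRing R t := fun _ hr => Subring.subset_closure (Or.inl hr)

theorem self_mem_polyRing : t ∈ polyRing R t := Subring.subset_closure (Or.inr rfl)

theorem polyRing_le {V : Subring Ω} (hRV : R ≤ V) (ht : t ∈ V) : polyRing R t ≤ V := by
  rw [polyRing, Subring.closure_le]
  rintro u (hu | hu)
  · exact hRV hu
  · rw [Set.mem_singleton_iff] at hu
    rw [hu]
    exact ht

/-- `R[X] ≃ R[t]` when `t` is transcendental over `R`. -/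
def polyEquiv (htr : Function.Injective (evR R t)) : (↥R)[X] ≃+* ↥(polyRing R t) :=
  (RingEquiv.ofBijective (evR R t).rangeRestrict
    ⟨fun a b h => htr (congrArg Subtype.val h), (evR R t).rangeRestrict_surjective⟩).trans
    (RingEquiv.subringCongr (polyRing_eq_range R t).symm)

end PolyRing

section Main

variable {Ec Fc : Subfield Ω} {R V : Subring Ω} {w x : Ω}

theorem dvd_total_of_partR (hR : PartR Ec R w) (a b : ↥R) :
    ∃ c : ↥R, a * c = b ∨ b * c = a := by
  by_cases ha : (a : Ω) = 0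
  · refine ⟨0, Or.inr ?_⟩
    apply Subtype.ext
    simp [ha]
  by_cases hb : (b : Ω) = 0
  · refine ⟨0, Or.inl ?_⟩
    apply Subtype.ext
    simp [hb]
  have hmem : (b : Ω) * (a : Ω)⁻¹ ∈ Ec := mul_mem (hR.R_le b.2) (inv_mem (hR.R_le a.2))
  rcases hR.R_total _ hmem with h | h
  · refine ⟨⟨_, h⟩, Or.inl ?_⟩
    apply Subtype.ext
    show (a : Ω) * ((b : Ω) * (a : Ω)⁻¹) = b
    field_simp
  · refine ⟨⟨_, h⟩, Or.inr ?_⟩
    apply Subtype.ext
    show (b : Ω) * ((b : Ω) * (a : Ω)⁻¹)⁻¹ = a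
    field_simp

theorem valuationRing_of_partR (hR : PartR Ec R w) : ValuationRing ↥R :=
  haveI : PreValuationRing ↥R := ⟨dvd_total_of_partR hR⟩
  {}

end Main

section Residue

variable {Fc : Subfield Ω} {R V : Subring Ω} {w x : Ω}

/-- The ideal `wV` of `V`. -/
def wIdeal (V : Subring Ω) (w : Ω) (hw : w ∈ V) : Ideal ↥V := Ideal.span {(⟨w, hw⟩ : ↥V)}

theorem mem_wIdeal_iff (hw : w ∈ V) (hw0 : w ≠ 0) (u : ↥V) :
    u ∈ wIdeal V w hw ↔ (u : Ω) * w⁻¹ ∈ V := by
  rw [wIdeal, Ideal.mem_span_singleton]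
  constructor
  · rintro ⟨c, hc⟩
    have h1 : (u : Ω) = w * c := congrArg Subtype.val hc
    have h2 : (u : Ω) * w⁻¹ = c := by rw [h1]; field_simp
    rw [h2]
    exact c.2
  · intro h
    refine ⟨⟨_, h⟩, Subtype.ext ?_⟩
    show (u : Ω) = w * ((u : Ω) * w⁻¹)
    field_simp

theorem wIdeal_isPrime (hV : PartV Fc R V w x) (hwV : w ∈ V) (hw0 : w ≠ 0) :
    (wIdeal V w hwV).IsPrime := by
  rw [Ideal.isPrime_iff]
  constructor
  · intro h
    have h1 : (1 : ↥V) ∈ wIdeal V w hwV := by rw [h]; trivial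
    rw [mem_wIdeal_iff hwV hw0] at h1
    apply hV.w_inv_not_mem_V
    simpa using h1
  · intro a b hab
    rw [mem_wIdeal_iff hwV hw0] at hab
    rw [mem_wIdeal_iff hwV hw0, mem_wIdeal_iff hwV hw0]
    by_contra hcon
    push Not at hcon
    have ha : (a : Ω)⁻¹ ∈ V := by
      by_contra h
      exact hcon.1 (hV.V_gen a a.2 h)
    have ha0 : (a : Ω) ≠ 0 := by
      intro h0
      apply hcon.1
      rw [h0, zero_mul]
      exact zero_mem _
    have h3 : (b : Ω) * w⁻¹ = (a : Ω)⁻¹ * (((a * b : ↥V) : Ω) * w⁻¹) := by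
      push_cast
      field_simp
    exact hcon.2 (h3 ▸ mul_mem ha hab)

end Residue

section Qep

variable {Ec Fc : Subfield Ω} {R V : Subring Ω} {w x : Ω}

/-- Kernel form of the Gauss property for the chart parameter `t`: a polynomial in `t` over `R`
lying in `wV` has all its coefficients in `wR`. -/
def KernelAt (R V : Subring Ω) (w t : Ω) : Prop :=
  ∀ p : (↥R)[X], evR R t p * w⁻¹ ∈ V → ∀ i, ((p.coeff i : ↥R) : Ω) * w⁻¹ ∈ R

/-- The denominator statement on the chart `R[t]`. -/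
def DenAt (Fc : Subfield Ω) (R V : Subring Ω) (w t : Ω) : Prop :=
  ∀ f ∈ Fc, f ∈ V → ∃ s ∈ polyRing R t, s * w⁻¹ ∉ V ∧ IsIntegral (polyRing R t) (s * f)

/-- **QEP from denominators** (Lemma M). -/
theorem qep_of_den (hR : PartR Ec R w) (hV : PartV Fc R V w x) (hEF : Ec ≤ Fc) {t : Ω}
    (htV : t ∈ V) (htr : Function.Injective (evR R t)) (hker : KernelAt R V w t)
    (hden : DenAt Fc R V w t) :
    ∀ b ∈ chart Fc R t, b * w⁻¹ ∈ V → b * w⁻¹ ∈ chart Fc R t := by
  intro b hb hbV
  have hwR := hR.w_mem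
  have hwV : w ∈ V := hV.R_le_V hwR
  have hw0 := hR.w_ne_zero
  have hwF : w ∈ Fc := hEF (hR.R_le hwR)
  have hyF : b * w⁻¹ ∈ Fc := mul_mem hb.1 (inv_mem hwF)
  refine ⟨hyF, ?_⟩
  obtain ⟨s, hsP, hsV, hsint⟩ := hden _ hyF hbV
  haveI := valuationRing_of_partR hR
  haveI : IsIntegrallyClosed ↥(polyRing R t) := IsIntegrallyClosed.of_equiv (polyEquiv R t htr)
  haveI := wIdeal_isPrime hV hwV hw0
  have hPV : polyRing R t ≤ V := polyRing_le R t hV.R_le_V htV
  let red : ↥(polyRing R t) →+* (↥V ⧸ wIdeal V w hwV) :=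
    (Ideal.Quotient.mk _).comp (Subring.inclusion hPV)
  have hred : ∀ u : ↥(polyRing R t), red u = 0 ↔ (u : Ω) * w⁻¹ ∈ V := by
    intro u
    show Ideal.Quotient.mk _ (Subring.inclusion hPV u) = 0 ↔ _
    rw [Ideal.Quotient.eq_zero_iff_mem, mem_wIdeal_iff hwV hw0]
    rfl
  let ell : ↥(polyRing R t) := ⟨w, le_polyRing R t hwR⟩
  refine Fermat.Agent.S28.H806.isIntegral_of_isIntegral_smul_of_isIntegral_smul red ell ⟨s, hsP⟩
    ?_ ?_ ?_ ?_ (b * w⁻¹) ?_ ?_
  · intro h
    exact hw0 (congrArg Subtype.val h)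
  · rw [hred]
    show w * w⁻¹ ∈ V
    rw [mul_inv_cancel₀ hw0]
    exact one_mem _
  · intro u hu
    rw [hred] at hu
    obtain ⟨p, hp⟩ := (mem_polyRing_iff R t).mp u.2
    have hc := hker p (by rw [hp]; exact hu)
    have hmem : (u : Ω) * w⁻¹ ∈ polyRing R t := by
      rw [← hp, evR_eq_sum, Finset.sum_mul]
      refine sum_mem fun i _ => ?_
      have h4 : ((p.coeff i : ↥R) : Ω) * t ^ i * w⁻¹ = (((p.coeff i : ↥R) : Ω) * w⁻¹) * t ^ i := by
        ring
      rw [h4]
      exact mul_mem (le_polyRing R t (hc i)) (pow_mem (self_mem_polyRing R t) i)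
    refine ⟨⟨_, hmem⟩, Subtype.ext ?_⟩
    show (u : Ω) = w * ((u : Ω) * w⁻¹)
    field_simp
  · rw [Ne, hred]
    exact hsV
  · have h5 : ell • (b * w⁻¹) = b := by
      show w * (b * w⁻¹) = b
      field_simp
    rw [h5]
    exact hb.2
  · exact hsint

/-- The kernel property for `x` from the `gauss` field. -/
theorem kernelAt_of_gauss (hR : PartR Ec R w) (hV : PartV Fc R V w x)
    (htr : Function.Injective (evR R x)) : KernelAt R V w x := by
  intro p hp i
  by_contra hi
  have hci : ((p.coeff i : ↥R) : Ω) ≠ 0 := by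
    intro h0
    apply hi
    rw [h0, zero_mul]
    exact zero_mem _
  have hunit : ((p.coeff i : ↥R) : Ω)⁻¹ ∈ R := by
    by_contra h
    exact hi (hR.w_gen _ (p.coeff i).2 h)
  have hg := hV.gauss (p.map R.subtype) (fun k => by rw [coeff_map]; exact (p.coeff k).2)
    ⟨i, by rw [coeff_map]; exact hci, by rw [coeff_map]; exact hunit⟩
  have hev : (p.map R.subtype).eval x = evR R x p := by rw [evR_apply, eval_map]
  rw [hev] at hg
  have hne : evR R x p ≠ 0 := by
    intro h0
    have hp0 : p = 0 := htr (by rw [h0, map_zero])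
    apply hci
    rw [hp0]
    simp
  apply hV.w_inv_not_mem_V
  have h6 : w⁻¹ = (evR R x p)⁻¹ * (evR R x p * w⁻¹) := by
    field_simp
  rw [h6]
  exact mul_mem hg hp

theorem inv_mem_V_of_gauss (hV : PartV Fc R V w x) : x⁻¹ ∈ V := by
  have h1 : (1 : Ω) ∈ R := one_mem _
  have hg := hV.gauss (X : Polynomial Ω) (fun k => by
      rw [coeff_X]
      split_ifs
      · exact one_mem _
      · exact zero_mem _)
    ⟨1, by simp, by simp [h1]⟩
  simpa using hg

/-- `p(x⁻¹) = (reflect d p)(x) · x⁻ᵈ` for `d ≥ deg p`. -/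
theorem evR_inv_eq (R : Subring Ω) {x : Ω} (hx0 : x ≠ 0) (p : (↥R)[X]) (d : ℕ)
    (hd : p.natDegree ≤ d) :
    evR R x⁻¹ p = evR R x (p.reflect d) * (x⁻¹) ^ d := by
  letI : Invertible x⁻¹ := invertibleOfNonzero (inv_ne_zero hx0)
  have h := eval₂_reflect_mul_pow R.subtype x⁻¹ d p hd
  rw [invOf_eq_inv, inv_inv] at h
  rw [evR_apply, evR_apply, h]

/-- `p(x) = (reflect d p)(x⁻¹) · xᵈ` for `d ≥ deg p`. -/
theorem evR_eq_inv (R : Subring Ω) {x : Ω} (hx0 : x ≠ 0) (p : (↥R)[X]) (d : ℕ)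
    (hd : p.natDegree ≤ d) :
    evR R x p = evR R x⁻¹ (p.reflect d) * x ^ d := by
  letI : Invertible x := invertibleOfNonzero hx0
  have h := eval₂_reflect_mul_pow R.subtype x d p hd
  rw [invOf_eq_inv] at h
  rw [evR_apply, evR_apply, h]

theorem coeff_eq_coeff_reflect (p : (↥R)[X]) (d i : ℕ) :
    p.coeff i = (p.reflect d).coeff (revAt d i) := by
  rw [coeff_reflect, revAt_invol]

theorem injective_evR_inv (hx0 : x ≠ 0) (htr : Function.Injective (evR R x)) :
    Function.Injective (evR R x⁻¹) := by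
  rw [injective_iff_map_eq_zero]
  intro p hp
  rw [evR_inv_eq R hx0 p p.natDegree le_rfl] at hp
  have h1 : evR R x (p.reflect p.natDegree) = 0 := by
    rcases mul_eq_zero.mp hp with h | h
    · exact h
    · exact absurd h (pow_ne_zero _ (inv_ne_zero hx0))
  have h2 : p.reflect p.natDegree = 0 := htr (by rw [h1, map_zero])
  ext i
  rw [coeff_eq_coeff_reflect p p.natDegree i, h2]
  simp

theorem kernelAt_inv (hx0 : x ≠ 0) (hxV : x ∈ V) (hker : KernelAt R V w x) :
    KernelAt R V w x⁻¹ := by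
  intro p hp i
  rw [coeff_eq_coeff_reflect p p.natDegree i]
  apply hker
  have h0 : (x⁻¹) ^ p.natDegree * x ^ p.natDegree = 1 := by
    rw [← mul_pow, inv_mul_cancel₀ hx0, one_pow]
  have h1 : evR R x (p.reflect p.natDegree) * w⁻¹ = evR R x⁻¹ p * w⁻¹ * x ^ p.natDegree := by
    rw [evR_inv_eq R hx0 p p.natDegree le_rfl]
    calc evR R x (p.reflect p.natDegree) * w⁻¹
        = evR R x (p.reflect p.natDegree) * w⁻¹ * ((x⁻¹) ^ p.natDegree * x ^ p.natDegree) := by
          rw [h0, mul_one]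
      _ = _ := by ring
  rw [h1]
  exact mul_mem hp (pow_mem hxV _)

/-- Integral over `R[x]` ⟹ `x⁻ᴰ · z` integral over `R[x⁻¹]` for some `D`. -/
theorem exists_pow_isIntegral_inv (R : Subring Ω) {x : Ω} (hx0 : x ≠ 0) {z : Ω}
    (hz : IsIntegral (polyRing R x) z) :
    ∃ D : ℕ, IsIntegral (polyRing R x⁻¹) ((x⁻¹) ^ D * z) := by
  classical
  obtain ⟨Q, hmonic, hroot⟩ := hz
  have hcoeff : ∀ i, ∃ p : (↥R)[X], evR R x p = ((Q.coeff i : ↥(polyRing R x)) : Ω) :=
    fun i => (mem_polyRing_iff R x).mp (Q.coeff i).2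
  choose p hp using hcoeff
  set D : ℕ := ∑ i ∈ Finset.range (Q.natDegree + 1), (p i).natDegree with hD
  have hpD : ∀ i ≤ Q.natDegree, (p i).natDegree ≤ D := fun i hi =>
    Finset.single_le_sum (f := fun i => (p i).natDegree) (fun _ _ => Nat.zero_le _)
      (Finset.mem_range.mpr (Nat.lt_succ_of_le hi))
  set q : Polynomial Ω := (Q.map (algebraMap (polyRing R x) Ω)).scaleRoots ((x⁻¹) ^ D) with hq
  have hqmonic : q.Monic := (Polynomial.monic_scaleRoots_iff _).mpr (hmonic.map _)
  have hqroot : q.eval ((x⁻¹) ^ D * z) = 0 := by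
    rw [hq, Polynomial.scaleRoots_eval_mul, Polynomial.eval_map, hroot, mul_zero]
  have hxx : ∀ n : ℕ, x ^ n * (x⁻¹) ^ n = 1 := fun n => by
    rw [← mul_pow, mul_inv_cancel₀ hx0, one_pow]
  have hqcoeff : ∀ i, q.coeff i ∈ polyRing R x⁻¹ := by
    intro i
    rw [hq, Polynomial.coeff_scaleRoots, Polynomial.coeff_map, hmonic.natDegree_map]
    by_cases hi : i < Q.natDegree
    · obtain ⟨k, hk⟩ : ∃ k, Q.natDegree - i = k + 1 := ⟨Q.natDegree - i - 1, by omega⟩
      have h1 : algebraMap (polyRing R x) Ω (Q.coeff i) = evR R x (p i) := (hp i).symm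
      have h2 : evR R x (p i) * (x⁻¹) ^ D = evR R x⁻¹ ((p i).reflect D) := by
        rw [evR_eq_inv R hx0 (p i) D (hpD i hi.le), mul_assoc, hxx, mul_one]
      have h3 : algebraMap (polyRing R x) Ω (Q.coeff i) * ((x⁻¹) ^ D) ^ (Q.natDegree - i) =
          evR R x⁻¹ ((p i).reflect D) * ((x⁻¹) ^ D) ^ k := by
        rw [hk, pow_succ, h1, ← h2]
        ring
      rw [h3]
      exact mul_mem ((mem_polyRing_iff R x⁻¹).mpr ⟨_, rfl⟩)
        (pow_mem (pow_mem (self_mem_polyRing R x⁻¹) D) k)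
    · rcases (not_lt.mp hi).lt_or_eq with hlt | heq
      · rw [Polynomial.coeff_eq_zero_of_natDegree_lt hlt, map_zero, zero_mul]
        exact zero_mem _
      · rw [← heq, hmonic.coeff_natDegree, map_one, one_mul, Nat.sub_self, pow_zero]
        exact one_mem _
  have hlifts : q ∈ Polynomial.lifts (algebraMap (polyRing R x⁻¹) Ω) :=
    (Polynomial.lifts_iff_coeff_lifts q).mpr fun i => ⟨⟨q.coeff i, hqcoeff i⟩, rfl⟩
  obtain ⟨q', hq'q, -, hq'monic⟩ := Polynomial.lifts_and_natDegree_eq_and_monic hlifts hqmonic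
  refine ⟨D, q', hq'monic, ?_⟩
  rw [Polynomial.eval₂_eq_eval_map, hq'q, hqroot]

/-- Transfer of the denominator statement from the chart `R[x]` to the chart `R[x⁻¹]`. -/
theorem denAt_inv (hx0 : x ≠ 0) (hxV : x ∈ V) (hden : DenAt Fc R V w x) :
    DenAt Fc R V w x⁻¹ := by
  intro f hf hfV
  obtain ⟨s, hsP, hsV, hsint⟩ := hden f hf hfV
  obtain ⟨p, hp⟩ := (mem_polyRing_iff R x).mp hsP
  obtain ⟨D, hD⟩ := exists_pow_isIntegral_inv R hx0 hsint
  have hxx : ∀ n : ℕ, x ^ n * (x⁻¹) ^ n = 1 := fun n => by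
    rw [← mul_pow, mul_inv_cancel₀ hx0, one_pow]
  have hs1 : (x⁻¹) ^ p.natDegree * s ∈ polyRing R x⁻¹ := by
    have h1 : (x⁻¹) ^ p.natDegree * s = evR R x⁻¹ (p.reflect p.natDegree) := by
      rw [← hp, evR_eq_inv R hx0 p p.natDegree le_rfl, mul_comm, mul_assoc, hxx, mul_one]
    rw [h1]
    exact (mem_polyRing_iff R x⁻¹).mpr ⟨_, rfl⟩
  refine ⟨(x⁻¹) ^ D * ((x⁻¹) ^ p.natDegree * s),
    mul_mem (pow_mem (self_mem_polyRing R x⁻¹) D) hs1, ?_, ?_⟩
  · intro h
    apply hsV
    have h2 : s * w⁻¹ =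
        x ^ D * x ^ p.natDegree * ((x⁻¹) ^ D * ((x⁻¹) ^ p.natDegree * s) * w⁻¹) := by
      calc s * w⁻¹ = (x ^ D * (x⁻¹) ^ D) * (x ^ p.natDegree * (x⁻¹) ^ p.natDegree) * (s * w⁻¹) := by
            rw [hxx, hxx, one_mul, one_mul]
        _ = _ := by ring
    rw [h2]
    exact mul_mem (mul_mem (pow_mem hxV D) (pow_mem hxV _)) h
  · have h3 : (x⁻¹) ^ D * ((x⁻¹) ^ p.natDegree * s) * f =
        (x⁻¹) ^ p.natDegree * ((x⁻¹) ^ D * (s * f)) := by ring
    rw [h3]
    have h4 : IsIntegral (polyRing R x⁻¹) ((x⁻¹) ^ p.natDegree) :=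
      isIntegral_algebraMap (R := polyRing R x⁻¹) (A := Ω)
        (x := ⟨(x⁻¹) ^ p.natDegree, pow_mem (self_mem_polyRing R x⁻¹) _⟩)
    exact h4.mul hD

/-- **G-QEP from denominators on the finite chart.** -/
theorem partQep_of_den (hR : PartR Ec R w) (hV : PartV Fc R V w x) (hEF : Ec ≤ Fc)
    (hxV : x ∈ V) (htr : Function.Injective (evR R x)) (hden : DenAt Fc R V w x) :
    PartQep Fc R V w x := by
  have hx0 : x ≠ 0 := by
    intro h0
    have h1 : evR R x X = evR R x 0 := by rw [evR_X, map_zero, h0]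
    exact X_ne_zero (htr h1)
  have hker := kernelAt_of_gauss hR hV htr
  exact ⟨qep_of_den hR hV hEF hxV htr hker hden,
    qep_of_den hR hV hEF (inv_mem_V_of_gauss hV) (injective_evR_inv hx0 htr)
      (kernelAt_inv hx0 hxV hker) (denAt_inv hx0 hxV hden)⟩

/-- Adapter: `x` transcendental over a subfield `Lc ⊇ R` (as in `GoodModel.x_transcendental`)
gives injectivity of `R[X] → Ω`. -/
theorem injective_evR_of_transcendental {Lc : Subfield Ω} (hRL : (R : Set Ω) ⊆ Lc)
    (hx : Transcendental Lc x) : Function.Injective (evR R x) := by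
  rw [injective_iff_map_eq_zero]
  intro p hp
  let ι : ↥R →+* ↥Lc := Subring.inclusion (S := R) (T := Lc.toSubring) hRL
  have h1 : Polynomial.aeval x (p.map ι) = 0 := by
    rw [Polynomial.aeval_def, Polynomial.eval₂_map]
    exact hp
  have h2 : p.map ι = 0 := by
    by_contra hne
    exact hx ⟨_, hne, h1⟩
  exact Polynomial.map_injective ι (Subring.inclusion_injective hRL) (by rw [h2, Polynomial.map_zero])

end Qep

end Fermat.Agent.S18.Mod.H216

end
end
-- ===== PACK-END S18/Mod/H216/QepAbs.lean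

-- ===== PACK-BEGIN S18/H456/ModBasic.lean
section


/-!
# S18 / MOD assembly (helper456, backup MOD-ASM): basic facts on the concrete objects

Membership lemmas for `Lc`, `Ec`, `Rc`, `Fc` and the "easy" fields of `Alg.GoodModel`
(`charZero`, `R_le`, `R_total`, `E_le_L`, `E_le_F`, `L_algebraic`, `L_algClosed`, `compositum`).
-/

set_option autoImplicit false

noncomputable section

namespace Fermat.Agent.S18.H456

open ModularCurve AlgebraicCurve HahnSeries Fermat.Agent.S18 Fermat.Agent.S18.Mod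

variable (M : ℕ) (A : ValuationSubring Qb) (E : IntermediateField ℚ Qb)

/-- The constant `c ∈ Q̄` as an element of `Ω`. -/
abbrev cst (c : Qb) : Om M := algebraMap Qb (Om M) c

theorem cst_injective : Function.Injective (cst M) := (algebraMap Qb (Om M)).injective

theorem mem_Lc_iff {f : Om M} : f ∈ Lc M ↔ ∃ c : Qb, cst M c = f := Iff.rfl

theorem cst_mem_Lc (c : Qb) : cst M c ∈ Lc M := ⟨c, rfl⟩

theorem mem_Ec_iff {f : Om M} : f ∈ Ec M E ↔ ∃ c ∈ E, cst M c = f := by
  unfold Ec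
  rw [Subfield.mem_map]
  rfl

theorem cst_mem_Ec {c : Qb} (hc : c ∈ E) : cst M c ∈ Ec M E := (mem_Ec_iff M E).2 ⟨c, hc, rfl⟩

theorem cst_mem_Ec_iff {c : Qb} : cst M c ∈ Ec M E ↔ c ∈ E := by
  refine ⟨fun h => ?_, cst_mem_Ec M E⟩
  obtain ⟨c', hc', h⟩ := (mem_Ec_iff M E).1 h
  rwa [← cst_injective M h]

theorem mem_Rc_iff {f : Om M} : f ∈ Rc M A E ↔ ∃ c, c ∈ A ∧ c ∈ E ∧ cst M c = f := by
  unfold Rc
  rw [Subring.mem_map]
  constructor
  · rintro ⟨c, hc, rfl⟩
    exact ⟨c, hc.1, hc.2, rfl⟩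
  · rintro ⟨c, hA, hE, rfl⟩
    exact ⟨c, ⟨hA, hE⟩, rfl⟩

theorem cst_mem_Rc {c : Qb} (hA : c ∈ A) (hE : c ∈ E) : cst M c ∈ Rc M A E :=
  (mem_Rc_iff M A E).2 ⟨c, hA, hE, rfl⟩

theorem cst_mem_Rc_iff {c : Qb} : cst M c ∈ Rc M A E ↔ c ∈ A ∧ c ∈ E := by
  refine ⟨fun h => ?_, fun h => cst_mem_Rc M A E h.1 h.2⟩
  obtain ⟨c', hA, hE, h⟩ := (mem_Rc_iff M A E).1 h
  rw [← cst_injective M h]
  exact ⟨hA, hE⟩

/-! ### The easy fields -/

theorem field_charZero : CharZero (Om M) :=
  charZero_of_injective_algebraMap (algebraMap Qb (Om M)).injective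

theorem field_R_le : (Rc M A E : Set (Om M)) ⊆ Ec M E := by
  intro f hf
  obtain ⟨c, -, hE, rfl⟩ := (mem_Rc_iff M A E).1 hf
  exact cst_mem_Ec M E hE

theorem field_R_total : ∀ e ∈ Ec M E, e ∈ Rc M A E ∨ e⁻¹ ∈ Rc M A E := by
  intro e he
  obtain ⟨c, hE, rfl⟩ := (mem_Ec_iff M E).1 he
  rcases A.mem_or_inv_mem c with h | h
  · exact Or.inl (cst_mem_Rc M A E h hE)
  · right
    rw [← map_inv₀]
    exact cst_mem_Rc M A E h (inv_mem hE)

theorem field_E_le_L : Ec M E ≤ Lc M := by
  intro f hf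
  obtain ⟨c, -, rfl⟩ := (mem_Ec_iff M E).1 hf
  exact cst_mem_Lc M c

theorem field_E_le_F : Ec M E ≤ Fc M E := by
  intro f hf
  exact Subfield.subset_closure (Or.inl hf)

theorem field_L_algebraic : ∀ a ∈ Lc M, IsAlgebraic (Ec M E) a := by
  intro a ha
  obtain ⟨c, rfl⟩ := (mem_Lc_iff M).1 ha
  have hc : IsAlgebraic ℚ c := (AlgebraicClosure.isAlgebraic ℚ).isAlgebraic c
  obtain ⟨p, hp0, hp⟩ := hc
  -- the ring hom ℚ → Ec
  let φ : ℚ →+* Ec M E := algebraMap ℚ (Ec M E)
  refine ⟨p.map φ, (Polynomial.map_ne_zero_iff φ.injective).2 hp0, ?_⟩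
  rw [Polynomial.aeval_def, Polynomial.eval₂_map]
  have hcomp : (algebraMap (Ec M E) (Om M)).comp φ = (algebraMap Qb (Om M)).comp (algebraMap ℚ Qb) :=
    RingHom.ext_rat _ _
  rw [hcomp, ← Polynomial.hom_eval₂]
  rw [Polynomial.aeval_def] at hp
  rw [hp, map_zero]

theorem field_L_algClosed : IsAlgClosed (Lc M) := by
  let e : Qb ≃+* Lc M := RingEquiv.ofBijective (algebraMap Qb (Om M)).rangeRestrictField
    ⟨(algebraMap Qb (Om M)).rangeRestrictField.injective, fun ⟨y, c, hc⟩ => ⟨c, Subtype.ext hc⟩⟩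
  exact IsAlgClosed.of_ringEquiv Qb (Lc M) e

end Fermat.Agent.S18.H456

end
end
-- ===== PACK-END S18/H456/ModBasic.lean

-- ===== PACK-BEGIN S20/Comb694/Index.lean
section





/-!
# The index of `Gamma0 N` in `SL(2,ℤ)` is the Dedekind psi function

* `index_Gamma0 : (Gamma0 N).index = ModularCurve.dedekindPsi N` (all `N`, including `N = 0`)
* `card_quotient_Gamma0 : Nat.card (SL(2,ℤ) ⧸ Gamma0 N) = ModularCurve.dedekindPsi N`
-/

set_option autoImplicit false

namespace Fermat.Agent.S20.Comb694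

open Matrix MatrixGroups CongruenceSubgroup

lemma dedekindPsi_prime_mul_of_dvd (p M : ℕ) (hp : p.Prime) (hM : M ≠ 0) (h : p ∣ M) :
    ModularCurve.dedekindPsi (p * M) = p * ModularCurve.dedekindPsi M := by
  unfold ModularCurve.dedekindPsi
  have hset : (p * M).divisors.filter Squarefree = M.divisors.filter Squarefree := by
    ext d
    simp only [Finset.mem_filter, Nat.mem_divisors]
    constructor
    · rintro ⟨⟨hd, -⟩, hsq⟩
      refine ⟨⟨?_, hM⟩, hsq⟩
      by_cases hpd : p ∣ d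
      · obtain ⟨d', rfl⟩ := hpd
        have hd' : d' ∣ M := (Nat.mul_dvd_mul_iff_left hp.pos).mp hd
        have hcop : Nat.Coprime p d' := by
          rw [Nat.Prime.coprime_iff_not_dvd hp]
          intro hpd'
          have h2 : p * p ∣ p * d' := Nat.mul_dvd_mul_left p hpd'
          have h3 := hsq p h2
          exact hp.one_lt.ne' (Nat.isUnit_iff.mp h3)
        exact Nat.Coprime.mul_dvd_of_dvd_of_dvd hcop h hd'
      · exact Nat.Coprime.dvd_of_dvd_mul_left
          ((Nat.Prime.coprime_iff_not_dvd hp).mpr hpd).symm hd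
    · rintro ⟨⟨hd, -⟩, hsq⟩
      exact ⟨⟨dvd_mul_of_dvd_right hd p, mul_ne_zero hp.ne_zero hM⟩, hsq⟩
  rw [hset, Finset.mul_sum]
  refine Finset.sum_congr rfl fun d hd => ?_
  have hd' : d ∣ M := (Nat.mem_divisors.mp (Finset.mem_filter.mp hd).1).1
  exact Nat.mul_div_assoc p hd'

lemma dedekindPsi_prime_mul_of_not_dvd (p M : ℕ) (hp : p.Prime) (hM : M ≠ 0) (h : ¬ p ∣ M) :
    ModularCurve.dedekindPsi (p * M) = (p + 1) * ModularCurve.dedekindPsi M := by
  unfold ModularCurve.dedekindPsi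
  rw [← Finset.sum_filter_add_sum_filter_not ((p * M).divisors.filter Squarefree) (fun d => p ∣ d)]
  have hset1 : ((p * M).divisors.filter Squarefree).filter (fun d => ¬ p ∣ d)
      = M.divisors.filter Squarefree := by
    ext d
    simp only [Finset.mem_filter, Nat.mem_divisors]
    constructor
    · rintro ⟨⟨⟨hd, -⟩, hsq⟩, hpd⟩
      exact ⟨⟨Nat.Coprime.dvd_of_dvd_mul_left
        ((Nat.Prime.coprime_iff_not_dvd hp).mpr hpd).symm hd, hM⟩, hsq⟩
    · rintro ⟨⟨hd, -⟩, hsq⟩
      exact ⟨⟨⟨dvd_mul_of_dvd_right hd p, mul_ne_zero hp.ne_zero hM⟩, hsq⟩,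
        fun hpd => h (dvd_trans hpd hd)⟩
  have hset2 : ((p * M).divisors.filter Squarefree).filter (fun d => p ∣ d)
      = (M.divisors.filter Squarefree).image (fun d => p * d) := by
    ext d
    simp only [Finset.mem_filter, Nat.mem_divisors, Finset.mem_image]
    constructor
    · rintro ⟨⟨⟨hd, -⟩, hsq⟩, ⟨d', rfl⟩⟩
      exact ⟨d', ⟨⟨(Nat.mul_dvd_mul_iff_left hp.pos).mp hd, hM⟩, hsq.of_mul_right⟩, rfl⟩
    · rintro ⟨d', ⟨⟨hd', -⟩, hsq'⟩, rfl⟩
      have hcop : Nat.Coprime p d' :=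
        (Nat.Prime.coprime_iff_not_dvd hp).mpr fun hpd => h (dvd_trans hpd hd')
      exact ⟨⟨⟨Nat.mul_dvd_mul_left p hd', mul_ne_zero hp.ne_zero hM⟩,
        (Nat.squarefree_mul hcop).mpr ⟨hp.prime.squarefree, hsq'⟩⟩, dvd_mul_right _ _⟩
  rw [hset1, hset2, Finset.sum_image (fun x _ y _ hxy => Nat.eq_of_mul_eq_mul_left hp.pos hxy),
    add_mul, one_mul, Finset.mul_sum, add_comm]
  congr 1
  · refine Finset.sum_congr rfl fun d hd => ?_
    have hd' : d ∣ M := (Nat.mem_divisors.mp (Finset.mem_filter.mp hd).1).1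
    exact Nat.mul_div_assoc p hd'
  · refine Finset.sum_congr rfl fun d hd => ?_
    exact Nat.mul_div_mul_left M d hp.pos

lemma Gamma0_one_eq_top : Gamma0 1 = ⊤ := by
  ext g
  simp only [Gamma0_mem, Subgroup.mem_top, iff_true]
  exact Subsingleton.elim _ _

lemma index_Gamma0_zero : (Gamma0 0).index = 0 := by
  rw [Subgroup.index]
  haveI : Infinite (SL(2, ℤ) ⧸ Gamma0 0) := by
    refine Infinite.of_injective
      (fun t : ℤ => (QuotientGroup.mk (lowRep t) : SL(2, ℤ) ⧸ Gamma0 0)) ?_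
    intro t t' h
    simp only at h
    rw [mk_eq_mk_iff] at h
    simp only [lowRep_apply_zero_zero, lowRep_apply_one_zero, Int.cast_one, one_mul,
      mul_one] at h
    have h' : ((t' - t : ℤ) : ZMod 0) = 0 := h
    have h'' := (ZMod.intCast_zmod_eq_zero_iff_dvd (t' - t) 0).mp h'
    simp only [Nat.cast_zero, zero_dvd_iff] at h''
    exact (sub_eq_zero.mp h'').symm
  exact Nat.card_eq_zero_of_infinite

lemma dedekindPsi_zero : ModularCurve.dedekindPsi 0 = 0 := by
  simp [ModularCurve.dedekindPsi]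

/-- **(I1)** The index of `Γ₀(N)` in `SL(2,ℤ)` is `ψ(N)` (for `N ≠ 0`). -/
theorem index_Gamma0_of_ne_zero (N : ℕ) (hN : N ≠ 0) :
    (Gamma0 N).index = ModularCurve.dedekindPsi N := by
  induction N using induction_on_primes with
  | zero => exact absurd rfl hN
  | one => rw [ModularCurve.dedekindPsi_one, Gamma0_one_eq_top, Subgroup.index_top]
  | prime_mul p M hp ih =>
    have hM : M ≠ 0 := fun h => hN (by rw [h, mul_zero])
    rw [← Subgroup.relIndex_mul_index (Gamma0_mul_le p M), ih hM]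
    by_cases h : p ∣ M
    · rw [relIndex_Gamma0_of_dvd p M hM hp h, dedekindPsi_prime_mul_of_dvd p M hp hM h]
    · rw [relIndex_Gamma0_of_not_dvd p M hM hp h, dedekindPsi_prime_mul_of_not_dvd p M hp hM h]

/-- **(I1)** The index of `Γ₀(N)` in `SL(2,ℤ)` is `ψ(N)` (all `N`; both sides are `0` for
`N = 0`). -/
theorem index_Gamma0 (N : ℕ) : (Gamma0 N).index = ModularCurve.dedekindPsi N := by
  rcases eq_or_ne N 0 with rfl | hN
  · rw [index_Gamma0_zero, dedekindPsi_zero]
  · exact index_Gamma0_of_ne_zero N hN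

/-- **(I1)** `#(SL(2,ℤ) ⧸ Γ₀(N)) = ψ(N)`. -/
theorem card_quotient_Gamma0 (N : ℕ) :
    Nat.card (SL(2, ℤ) ⧸ Gamma0 N) = ModularCurve.dedekindPsi N :=
  index_Gamma0 N

end Fermat.Agent.S20.Comb694

end
-- ===== PACK-END S20/Comb694/Index.lean

-- ===== PACK-BEGIN S18/B12/H93/LocalBasis.lean
section



/-!
# S18 / B12 / A2: `LocalBasisStatement` (helper93).

`𝔪 = (w, p)` maximal, `(p, w)` regular on the finite `P`-module `B`: a lift of a basis of `B/𝔪B`
is a basis of `B` locally at `𝔪` (Nakayama twice).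
-/

set_option autoImplicit false

namespace Fermat.Agent.S18.B12.H93

open Pointwise

attribute [local instance] Ideal.Quotient.field

universe u v

theorem localBasis : LocalBasisStatement.{u, v} := by
  intro P _ _ _ B _ _ _ _ w p hmax hreg
  classical
  set 𝔪 : Ideal P := Ideal.span {w, p} with h𝔪
  have hw𝔪 : w ∈ 𝔪 := Ideal.subset_span (by simp)
  have hp𝔪 : p ∈ 𝔪 := Ideal.subset_span (by simp)
  let N : Submodule P B := 𝔪 • ⊤
  have hfin : Module.Finite (P ⧸ 𝔪) (B ⧸ N) := Module.Finite.of_restrictScalars_finite P _ _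
  let β := Module.finBasis (P ⧸ 𝔪) (B ⧸ N)
  have hlift : ∀ i, ∃ x : B, N.mkQ x = β i := fun i => Submodule.mkQ_surjective N _
  choose x hx using hlift
  refine ⟨Module.finrank (P ⧸ 𝔪) (B ⧸ N), x, ?_⟩
  have hmksmul : ∀ (a : P) (y : B ⧸ N), (Ideal.Quotient.mk 𝔪 a) • y = a • y := by
    intro a y
    rw [← Ideal.Quotient.algebraMap_eq, algebraMap_smul]
  -- reduction of a combination
  have hred : ∀ a : Fin (Module.finrank (P ⧸ 𝔪) (B ⧸ N)) → P,
      N.mkQ (∑ i, a i • x i) = ∑ i, (Ideal.Quotient.mk 𝔪 (a i)) • β i := by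
    intro a
    rw [map_sum]
    refine Finset.sum_congr rfl fun i _ => ?_
    rw [map_smul, hx, hmksmul]
  -- spanning modulo `𝔪`
  have hspan : (⊤ : Submodule P B) ≤ Submodule.span P (Set.range x) ⊔ 𝔪 • ⊤ := by
    intro b _
    have hl : ∀ i, ∃ a : P, Ideal.Quotient.mk 𝔪 a = β.repr (N.mkQ b) i :=
      fun i => Ideal.Quotient.mk_surjective _
    choose a ha using hl
    have h1 : N.mkQ (b - ∑ i, a i • x i) = 0 := by
      rw [map_sub, hred, sub_eq_zero]
      conv_lhs => rw [← β.sum_repr (N.mkQ b)]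
      exact Finset.sum_congr rfl fun i _ => by rw [ha]
    have h2 : b - ∑ i, a i • x i ∈ N := by
      rwa [Submodule.mkQ_apply, Submodule.Quotient.mk_eq_zero] at h1
    have h3 : ∑ i, a i • x i ∈ Submodule.span P (Set.range x) :=
      Submodule.sum_mem _ fun i _ => Submodule.smul_mem _ _ (Submodule.subset_span ⟨i, rfl⟩)
    have : b = ∑ i, a i • x i + (b - ∑ i, a i • x i) := by ring
    rw [this]
    exact Submodule.add_mem_sup h3 h2
  obtain ⟨g, hg1, hgle⟩ := Submodule.exists_sub_one_mem_and_smul_le_of_fg_of_le_sup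
    (N := Submodule.span P (Set.range x)) (N' := ⊤) (P := ⊤) (I := 𝔪)
    (Module.finite_def.mp inferInstance) le_rfl hspan
  have hg𝔪 : g ∉ 𝔪 := by
    intro hg
    have : (1 : P) ∈ 𝔪 := by
      have := 𝔪.sub_mem hg hg1
      simpa using this
    exact hmax.ne_top ((Ideal.eq_top_iff_one 𝔪).mpr this)
  have hgB : ∀ b : B, g • b ∈ Submodule.span P (Set.range x) := fun b =>
    hgle (Submodule.smul_mem_pointwise_smul b g ⊤ Submodule.mem_top)
  refine ⟨?_, g, hg𝔪, hgB⟩
  -- linear independence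
  let L : (Fin (Module.finrank (P ⧸ 𝔪) (B ⧸ N)) → P) →ₗ[P] B := Fintype.linearCombination P x
  have hLapp : ∀ a, L a = ∑ i, a i • x i := fun a => Fintype.linearCombination_apply P x a
  set I : Submodule P (Fin (Module.finrank (P ⧸ 𝔪) (B ⧸ N)) → P) := LinearMap.ker L with hI
  have hIfg : I.FG := IsNoetherian.noetherian I
  -- `g • I ≤ 𝔪 • I`
  have hkey : ∀ a ∈ I, g • a ∈ 𝔪 • I := by
    intro a ha
    have ha0 : ∑ i, a i • x i = 0 := by rw [← hLapp]; exact ha
    -- coefficients lie in `𝔪`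
    have hmem : ∀ i, a i ∈ 𝔪 := by
      intro i
      have h1 := hred a
      rw [ha0, map_zero] at h1
      have h2 := (Fintype.linearIndependent_iff.mp β.linearIndependent) _ h1.symm i
      exact Ideal.Quotient.eq_zero_iff_mem.mp h2
    have hdec : ∀ i, ∃ c d : P, c * w + d * p = a i := fun i => Ideal.mem_span_pair.mp (hmem i)
    choose c d hcd using hdec
    have hrel : algebraMap P B p * (∑ i, d i • x i) = algebraMap P B w * (-∑ i, c i • x i) := by
      have : ∑ i, (c i * w + d i * p) • x i = 0 := by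
        rw [← ha0]; exact Finset.sum_congr rfl fun i _ => by rw [hcd]
      rw [← Algebra.smul_def, ← Algebra.smul_def, smul_neg, Finset.smul_sum, Finset.smul_sum,
        eq_neg_iff_add_eq_zero, ← Finset.sum_add_distrib, ← this]
      refine Finset.sum_congr rfl fun i _ => ?_
      rw [smul_smul, smul_smul, ← add_smul]
      congr 1; ring
    obtain ⟨b'', hb1, hb2⟩ := hreg _ _ hrel
    obtain ⟨e, he⟩ := (Submodule.mem_span_range_iff_exists_fun P).mp (hgB b'')
    -- two relations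
    have hr1 : (fun i => g * d i - w * e i) ∈ I := by
      rw [hI, LinearMap.mem_ker, hLapp]
      have : ∑ i, (g * d i - w * e i) • x i = g • ∑ i, d i • x i - w • ∑ i, e i • x i := by
        rw [Finset.smul_sum, Finset.smul_sum, ← Finset.sum_sub_distrib]
        exact Finset.sum_congr rfl fun i _ => by rw [sub_smul, smul_smul, smul_smul]
      rw [this, hb1, he, ← Algebra.smul_def, smul_comm, sub_self]
    have hr2 : (fun i => g * c i + p * e i) ∈ I := by
      rw [hI, LinearMap.mem_ker, hLapp]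
      have : ∑ i, (g * c i + p * e i) • x i = g • ∑ i, c i • x i + p • ∑ i, e i • x i := by
        rw [Finset.smul_sum, Finset.smul_sum, ← Finset.sum_add_distrib]
        exact Finset.sum_congr rfl fun i _ => by rw [add_smul, smul_smul, smul_smul]
      have hc : ∑ i, c i • x i = -(algebraMap P B p * b'') := by rw [← hb2, neg_neg]
      rw [this, hc, he, ← Algebra.smul_def, smul_neg, smul_comm, neg_add_cancel]
    have hsum : g • a = w • (fun i => g * c i + p * e i) + p • (fun i => g * d i - w * e i) := by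
      funext i
      simp only [Pi.smul_apply, Pi.add_apply, smul_eq_mul]
      rw [← hcd i]; ring
    rw [hsum]
    exact Submodule.add_mem _ (Submodule.smul_mem_smul hw𝔪 hr2) (Submodule.smul_mem_smul hp𝔪 hr1)
  have hIle : I ≤ 𝔪 • I := by
    intro a ha
    have h1 : g • a ∈ 𝔪 • I := hkey a ha
    have h2 : (g - 1) • a ∈ 𝔪 • I := Submodule.smul_mem_smul hg1 ha
    have : a = g • a - (g - 1) • a := by rw [sub_smul, one_smul]; abel
    rw [this]
    exact Submodule.sub_mem _ h1 h2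
  obtain ⟨r, hr1, hr0⟩ := Submodule.exists_sub_one_mem_and_smul_eq_zero_of_fg_of_le_smul 𝔪 I
    hIfg hIle
  have hrne : r ≠ 0 := by
    rintro rfl
    have : (1 : P) ∈ 𝔪 := by
      have := 𝔪.neg_mem hr1
      simpa using this
    exact hmax.ne_top ((Ideal.eq_top_iff_one 𝔪).mpr this)
  rw [Fintype.linearIndependent_iff]
  intro a ha i
  have haI : a ∈ I := by rw [hI, LinearMap.mem_ker, hLapp]; exact ha
  have h0 := hr0 a haI
  have h1 := congrFun h0 i
  rw [Pi.smul_apply, smul_eq_mul, Pi.zero_apply] at h1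
  exact (mul_eq_zero.mp h1).resolve_left hrne

end Fermat.Agent.S18.B12.H93

end
-- ===== PACK-END S18/B12/H93/LocalBasis.lean

-- ===== PACK-BEGIN S18/B12/H203/UFDStep.lean
section



/-!
# S18 / b2.5, piece A4: the UFD step (`UFDStepStatement`)

If every prime factor of `D ≠ 0` lying in the prime ideal `𝔪` is associated to the prime `p`,
then `D = p ^ a * D₁` with `D₁ ∉ 𝔪`.
-/

set_option autoImplicit false

namespace Fermat.Agent.S18.B12.H203

universe u v

/-- In a UFD, a nonzero element of a prime ideal has a prime factor in that ideal. -/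
theorem exists_prime_dvd_mem_of_mem {P : Type u} [CommRing P] [IsDomain P]
    [UniqueFactorizationMonoid P] (𝔪 : Ideal P) [h𝔪 : 𝔪.IsPrime] (d : P) (hd0 : d ≠ 0)
    (hd : d ∈ 𝔪) : ∃ π : P, Prime π ∧ π ∣ d ∧ π ∈ 𝔪 := by
  revert hd0 hd
  refine UniqueFactorizationMonoid.induction_on_prime
    (P := fun d : P => d ≠ 0 → d ∈ 𝔪 → ∃ π : P, Prime π ∧ π ∣ d ∧ π ∈ 𝔪) d ?_ ?_ ?_
  · intro h0 _
    exact absurd rfl h0
  · intro x hx _ hxm
    exact absurd (Ideal.eq_top_of_isUnit_mem 𝔪 hxm hx) h𝔪.ne_top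
  · intro a q ha0 hq ih _ hmem
    rcases h𝔪.mem_or_mem hmem with hqm | ham
    · exact ⟨q, hq, dvd_mul_right q a, hqm⟩
    · obtain ⟨π, hπ, hπa, hπm⟩ := ih ha0 ham
      exact ⟨π, hπ, hπa.mul_left q, hπm⟩

/-- **A4 (UFD step).** -/
theorem ufdStep.{w} : UFDStepStatement.{w} := by
  intro P _ _ _ 𝔪 h𝔪 p hp D hD hass
  obtain ⟨a, D₁, hpD₁, hDeq⟩ := WfDvdMonoid.max_power_factor hD hp.irreducible
  refine ⟨a, D₁, hDeq, ?_⟩
  intro hmem
  have hD₁0 : D₁ ≠ 0 := by
    rintro rfl
    exact hD (by rw [hDeq, mul_zero])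
  obtain ⟨π, hπ, hπD₁, hπm⟩ := exists_prime_dvd_mem_of_mem 𝔪 D₁ hD₁0 hmem
  have hπD : π ∣ D := by
    rw [hDeq]
    exact hπD₁.mul_left _
  have hassoc : Associated π p := hass π hπ hπD hπm
  exact hpD₁ (hassoc.symm.dvd.trans hπD₁)

end Fermat.Agent.S18.B12.H203

end
-- ===== PACK-END S18/B12/H203/UFDStep.lean

-- ===== PACK-BEGIN S18/B12/H203/PolyInst.lean
section



/-!
# S18 / b2.5, piece A1: instantiation `P = R[X]` (`PolyInstStatement`)

`R` a discrete valuation ring of characteristic zero, `w` a uniformizer.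
-/

set_option autoImplicit false
set_option linter.unusedSectionVars false

noncomputable section

namespace Fermat.Agent.S18.B12.H203

open Polynomial

universe u

section

variable {R : Type u} [CommRing R] [IsDomain R] [IsDiscreteValuationRing R]

/-- The ideal generated by a uniformizer of a DVR is maximal. -/
theorem span_irreducible_isMaximal {w : R} (hw : Irreducible w) :
    (Ideal.span {w}).IsMaximal := by
  rw [← (IsDiscreteValuationRing.irreducible_iff_uniformizer w).mp hw]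
  infer_instance

/-- Every nonzero element of a DVR becomes a unit after inverting a uniformizer. -/
theorem isUnit_algebraMap_away_of_ne_zero {w : R} (hw : Irreducible w) {r : R} (hr : r ≠ 0)
    (S : Type*) [CommRing S] [Algebra R S] [IsLocalization.Away w S] :
    IsUnit (algebraMap R S r) := by
  obtain ⟨n, hn⟩ := IsDiscreteValuationRing.associated_pow_irreducible hr hw
  rw [IsLocalization.Away.algebraMap_isUnit_iff w]
  exact ⟨n, hn.dvd⟩

/-- The localization of a DVR away from a uniformizer is a field. -/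
theorem isField_localization_away {w : R} (hw : Irreducible w) :
    IsField (Localization.Away w) := by
  have hle : Submonoid.powers w ≤ nonZeroDivisors R :=
    Submonoid.powers_le.mpr (mem_nonZeroDivisors_of_ne_zero hw.ne_zero)
  have hdom : IsDomain (Localization.Away w) :=
    IsLocalization.isDomain_localization hle
  refine ⟨exists_pair_ne _, mul_comm, ?_⟩
  intro a ha
  obtain ⟨⟨r, s⟩, hrs⟩ := IsLocalization.surj (Submonoid.powers w) a
  simp only at hrs
  have hr : r ≠ 0 := by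
    rintro rfl
    rw [map_zero] at hrs
    have hs : IsUnit (algebraMap R (Localization.Away w) s) :=
      IsLocalization.map_units _ s
    exact ha ((hs.mul_left_eq_zero).mp hrs)
  have hru : IsUnit (algebraMap R (Localization.Away w) r) :=
    isUnit_algebraMap_away_of_ne_zero hw hr _
  have hau : IsUnit a := by
    have : IsUnit (a * algebraMap R (Localization.Away w) s) := hrs ▸ hru
    exact isUnit_of_mul_isUnit_left this
  obtain ⟨b, hb⟩ := hau.exists_right_inv
  exact ⟨b, hb⟩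

/-- `R[X][1/C w]` is a principal ideal ring. -/
theorem isPrincipalIdealRing_away_C {w : R} (hw : Irreducible w) :
    IsPrincipalIdealRing (Localization.Away (C w : R[X])) := by
  let _ : Field (Localization.Away w) := (isField_localization_away hw).toField
  let _ : Algebra R[X] (Localization.Away w)[X] :=
    (mapRingHom (algebraMap R (Localization.Away w))).toAlgebra
  have hloc : IsLocalization (Submonoid.powers (C w : R[X])) (Localization.Away w)[X] := by
    have := Polynomial.isLocalization (Submonoid.powers w) (Localization.Away w)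
    rwa [Submonoid.map_powers] at this
  let e : (Localization.Away w)[X] ≃ₐ[R[X]] Localization.Away (C w : R[X]) :=
    IsLocalization.algEquiv (Submonoid.powers (C w : R[X])) _ _
  exact IsPrincipalIdealRing.of_surjective e.toRingEquiv.toRingHom e.surjective

/-- Positive integers are invertible in `R[X][1/C w]` when `R` has characteristic zero. -/
theorem isUnit_natCast_away_C [CharZero R] {w : R} (hw : Irreducible w) (m : ℕ) (hm : m ≠ 0) :
    IsUnit (algebraMap R[X] (Localization.Away (C w : R[X])) (m : R[X])) := by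
  have hm' : (m : R) ≠ 0 := Nat.cast_ne_zero.mpr hm
  obtain ⟨n, hn⟩ := IsDiscreteValuationRing.associated_pow_irreducible hm' hw
  rw [IsLocalization.Away.algebraMap_isUnit_iff (C w : R[X])]
  refine ⟨n, ?_⟩
  obtain ⟨d, hd⟩ := hn.dvd
  refine ⟨C d, ?_⟩
  rw [← C_pow, hd, C_mul, C_eq_natCast]

/-- The evaluation-at-`c`-mod-`w` map `R[X] → R/(w)`. -/
def evalModHom (w c : R) : R[X] →+* R ⧸ Ideal.span {w} :=
  (Ideal.Quotient.mk (Ideal.span {w})).comp (evalRingHom c)

theorem evalModHom_apply (w c : R) (f : R[X]) :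
    evalModHom w c f = Ideal.Quotient.mk (Ideal.span {w}) (f.eval c) := rfl

theorem evalModHom_surjective (w c : R) : Function.Surjective (evalModHom w c) := by
  intro y
  obtain ⟨r, rfl⟩ := Ideal.Quotient.mk_surjective y
  exact ⟨C r, by simp [evalModHom_apply]⟩

theorem ker_evalModHom (w c : R) :
    RingHom.ker (evalModHom w c) = Ideal.span {(C w : R[X]), X - C c} := by
  apply le_antisymm
  · intro f hf
    rw [RingHom.mem_ker, evalModHom_apply, Ideal.Quotient.eq_zero_iff_mem,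
      Ideal.mem_span_singleton] at hf
    obtain ⟨r, hr⟩ := hf
    obtain ⟨q, hq⟩ := (X_sub_C_dvd_sub_C_eval (a := c) (p := f))
    have hfe : f = C w * C r + (X - C c) * q := by
      rw [← hq, ← C_mul, ← hr]
      ring
    rw [hfe]
    refine Ideal.add_mem _ (Ideal.mul_mem_right _ _ (Ideal.subset_span (by simp)))
      (Ideal.mul_mem_right _ _ (Ideal.subset_span (by simp)))
  · rw [Ideal.span_le]
    intro f hf
    rcases hf with rfl | hf
    · simp [evalModHom_apply]
    · rw [Set.mem_singleton_iff] at hf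
      subst hf
      simp [evalModHom_apply]

end

/-- **A1 (instantiation `P = R[X]`).** -/
theorem polyInst.{w} : PolyInstStatement.{w} := by
  intro R _ _ _ _ w hw
  have hmax : (Ideal.span {w}).IsMaximal := span_irreducible_isMaximal hw
  have hwp : Prime w := hw.prime
  refine ⟨Polynomial.prime_C_iff.mpr hwp, ?_, isPrincipalIdealRing_away_C hw,
    isUnit_natCast_away_C hw, ?_⟩
  · -- `R[X]/(C w) ≃ (R/w)[X]`
    let _ : Field (R ⧸ Ideal.span {w}) := Ideal.Quotient.field _
    let e : (R ⧸ Ideal.span {w})[X] ≃+* R[X] ⧸ (Ideal.span {w}).map (C : R →+* R[X]) :=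
      Ideal.polynomialQuotientEquivQuotientPolynomial (Ideal.span {w})
    have hmap : (Ideal.span {w}).map (C : R →+* R[X]) = Ideal.span {(C w : R[X])} := by
      rw [Ideal.map_span, Set.image_singleton]
    let e' : R[X] ⧸ (Ideal.span {w}).map (C : R →+* R[X]) ≃+* R[X] ⧸ Ideal.span {(C w : R[X])} :=
      Ideal.quotEquivOfEq hmap
    exact IsPrincipalIdealRing.of_surjective (e.trans e').toRingHom (e.trans e').surjective
  · intro c
    refine ⟨Polynomial.prime_X_sub_C c, ?_, ?_, ?_, ?_⟩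
    · intro hass
      have hdvd : (X - C c : R[X]) ∣ C w := hass.dvd
      rw [Polynomial.dvd_iff_isRoot, IsRoot.def, eval_C] at hdvd
      exact hw.ne_zero hdvd
    · letI : Field (R ⧸ Ideal.span {w}) := Ideal.Quotient.field _
      rw [← ker_evalModHom]
      exact RingHom.ker_isMaximal_of_surjective _ (evalModHom_surjective w c)
    · let e : (R[X] ⧸ Ideal.span {(X - C c : R[X])}) ≃ₐ[R] R :=
        Polynomial.quotientSpanXSubCAlgEquiv c
      exact IsPrincipalIdealRing.of_surjective e.symm.toRingEquiv.toRingHom e.symm.surjective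
    · intro c' hmem hunit
      rw [← ker_evalModHom, RingHom.mem_ker, evalModHom_apply, eval_sub, eval_X, eval_C,
        Ideal.Quotient.eq_zero_iff_mem] at hmem
      exact hmax.ne_top (Ideal.eq_top_of_isUnit_mem _ hmem hunit)

end Fermat.Agent.S18.B12.H203

end
end
-- ===== PACK-END S18/B12/H203/PolyInst.lean

-- ===== PACK-BEGIN S18/H274/Tame.lean
section




/-!
# S18 / b2.3 (helper274) — TAME discriminant bound

Mathlib-only, sorry-free.  `Λ` a domain, `t` a prime element, `π : Λ →+* K` a surjection onto a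
field of characteristic `0` with kernel `(t)`.  `C` a Dedekind domain which is free of finite rank
over `Λ` with basis `β`.

* `pow_dvd_mul_of_trace_dvd` : if `t ^ a ∣ Tr (y c)` for all `c : C`, then `t ^ a ∣ t * y` in `C`
  ("`t` times the trace dual is integral").
* `tame_discr_of_residue` : if `y : Fin r → C` is linearly independent modulo `rad (t C)` then
  `¬ t ^ (card ι - r + 1) ∣ discr β`.
* `tameDiscr` : the same in the frozen shape `TameDiscrStatement` of
  `origin/helper33:Fermat/Agent/S18/B12/Spec.lean` (`Λ` a PID containing `ℚ`).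
-/

namespace Fermat.Agent.S18.H274

open Module

section

variable {Λ : Type*} [CommRing Λ] [IsDomain Λ]
variable {C : Type*} [CommRing C] [IsDedekindDomain C] [Algebra Λ C]
variable {ι : Type*} [Fintype ι] [DecidableEq ι] (β : Basis ι Λ C)
variable {K : Type*} [Field K] [CharZero K] (π : Λ →+* K)

include β π in
/-- **`t` times the trace dual is integral.**  If `t ^ a` divides `Tr (y c)` for all `c`, then
`t ^ a` divides `t * y` in `C`. -/
theorem pow_dvd_mul_of_trace_dvd (t : Λ) (ht0 : t ≠ 0) (hπt : π t = 0)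
    (hker : ∀ x, π x = 0 → t ∣ x) (y : C) (a : ℕ)
    (hy : ∀ c, t ^ a ∣ Algebra.trace Λ C (y * c)) :
    algebraMap Λ C t ^ a ∣ algebraMap Λ C t * y := by
  classical
  have hinj : Function.Injective (algebraMap Λ C) := β.algebraMap_injective
  have hτ : algebraMap Λ C t ≠ 0 := fun h => ht0 (hinj (by rw [h, map_zero]))
  obtain ⟨β₀, β₀', z, z₁, h1, hz, hz₁⟩ :=
    exists_split_of_isDedekindDomain (algebraMap Λ C t * y) (algebraMap Λ C t ^ a)
      (pow_ne_zero a hτ)
  have hzc : ∀ c, π (Algebra.trace Λ C (z * c)) = 0 := by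
    intro c
    obtain ⟨e, he⟩ := hy (β₀' * c)
    have h2 : t ^ a * Algebra.trace Λ C (z * c) = t ^ a * (t * e) := by
      calc t ^ a * Algebra.trace Λ C (z * c)
          = Algebra.trace Λ C ((z * algebraMap Λ C t ^ a) * c) := by
            rw [← smul_eq_mul, ← map_smul, Algebra.smul_def, map_pow]
            congr 1; ring
        _ = Algebra.trace Λ C (t • (y * (β₀' * c))) := by
            rw [hz, Algebra.smul_def]
            congr 1; ring
        _ = t ^ a * (t * e) := by
            rw [map_smul, he, smul_eq_mul]; ring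
    have h3 := mul_left_cancel₀ (pow_ne_zero a ht0) h2
    rw [h3, map_mul, hπt, zero_mul]
  obtain ⟨m, c₀, hc₀⟩ := exists_pow_dvd_of_trace_map_eq_zero β π t hker z hzc
  have hβ₀ : β₀ = 1 - z := by rw [← h1]; ring
  have hgeom := mul_neg_geom_sum z (m * a)
  refine ⟨(∑ i ∈ Finset.range (m * a), z ^ i) * z₁ + c₀ ^ a * (algebraMap Λ C t * y), ?_⟩
  have hzma : z ^ (m * a) = algebraMap Λ C t ^ a * c₀ ^ a := by
    rw [pow_mul, hc₀, mul_pow]
  calc algebraMap Λ C t * y
      = (1 - z ^ (m * a)) * (algebraMap Λ C t * y) + z ^ (m * a) * (algebraMap Λ C t * y) := by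
        ring
    _ = (∑ i ∈ Finset.range (m * a), z ^ i) * (β₀ * (algebraMap Λ C t * y))
          + z ^ (m * a) * (algebraMap Λ C t * y) := by
        rw [← hgeom, hβ₀]; ring
    _ = algebraMap Λ C t ^ a *
          ((∑ i ∈ Finset.range (m * a), z ^ i) * z₁ + c₀ ^ a * (algebraMap Λ C t * y)) := by
        rw [← hz₁, hzma]; ring

include π in
/-- **TAME discriminant bound**, residue-field form.  `π : Λ →+* K` a surjection onto a field
of characteristic `0` with kernel `(t)`, `t` prime; `C` Dedekind, free over `Λ` with basis `β`.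
If `y : Fin r → C` is linearly independent modulo `rad (t C)`, then
`t ^ (card ι - r + 1)` does not divide the discriminant of `β`. -/
theorem tame_discr_of_residue [WfDvdMonoid Λ] (hπ : Function.Surjective π)
    (t : Λ) (ht : Prime t) (hπt : π t = 0) (hker : ∀ x, π x = 0 → t ∣ x)
    (r : ℕ) (y : Fin r → C)
    (hy : ∀ a : Fin r → Λ,
        (∑ i, a i • y i) ∈ (Ideal.span {algebraMap Λ C t}).radical → ∀ i, t ∣ a i) :
    ¬ t ^ (Fintype.card ι - r + 1) ∣ Algebra.discr Λ β := by
  classical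
  have ht0 : t ≠ 0 := ht.ne_zero
  have hchar : CharZero Λ := ⟨fun n m h => by
    have := congrArg π h
    simpa using this⟩
  -- Step 1: the discriminant is nonzero
  have hD0 : Algebra.discr Λ β ≠ 0 := discr_ne_zero_of_charZero β
  -- Step 2: `D = t ^ a * D'`
  obtain ⟨a, D', hD', hD⟩ := WfDvdMonoid.max_power_factor hD0 ht.irreducible
  set G := Algebra.traceMatrix Λ β with hG
  have hGdet : G.det = t ^ a * D' := by rw [← hD, Algebra.discr_def]
  have hGsymm : ∀ i k, G i k = G k i := by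
    intro i k
    simp only [hG, Algebra.traceMatrix_apply, Algebra.traceForm_apply, mul_comm]
  have hGapp : ∀ i k, G i k = Algebra.trace Λ C (β i * β k) := by
    intro i k
    simp only [hG, Algebra.traceMatrix_apply, Algebra.traceForm_apply]
  -- trace of `(∑ i, M i j • β i) * β k` is `(G * M) k j`
  have htrcol : ∀ (M : Matrix ι ι Λ) (j k : ι),
      Algebra.trace Λ C ((∑ i, M i j • β i) * β k) = (G * M) k j := by
    intro M j k
    rw [Finset.sum_mul, map_sum, Matrix.mul_apply]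
    refine Finset.sum_congr rfl fun i _ => ?_
    rw [smul_mul_assoc, map_smul, smul_eq_mul, hGsymm k i, hGapp, mul_comm]
  -- Step 3: the matrix `N` with `t • adj G = t ^ a • N`
  have hdual : ∀ j, algebraMap Λ C t ^ a ∣ algebraMap Λ C t * (∑ i, G.adjugate i j • β i) := by
    intro j
    apply pow_dvd_mul_of_trace_dvd β π t ht0 hπt hker
    apply trace_mul_dvd_of_basis β
    intro k
    rw [htrcol, Matrix.mul_adjugate, hGdet, Matrix.smul_apply, Matrix.one_apply, smul_eq_mul]
    split_ifs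
    · rw [mul_one]; exact Dvd.intro _ rfl
    · rw [mul_zero]; exact dvd_zero _
  choose x hx using hdual
  let N : Matrix ι ι Λ := fun i j => β.repr (x j) i
  have hxN : ∀ j, x j = ∑ i, N i j • β i := fun j => (β.sum_repr (x j)).symm
  have hN : ∀ i j, t * G.adjugate i j = t ^ a * N i j := by
    intro i j
    have h1 : β.repr (algebraMap Λ C t * ∑ i, G.adjugate i j • β i) i
        = β.repr (algebraMap Λ C t ^ a * x j) i := by rw [hx j]
    rw [← Algebra.smul_def, map_smul, Finsupp.smul_apply, β.repr_sum_self, ← map_pow,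
      ← Algebra.smul_def, map_smul, Finsupp.smul_apply, smul_eq_mul, smul_eq_mul] at h1
    exact h1
  -- Step 4: `G * N = (t * D') • 1`
  have hGN : G * N = (t * D') • (1 : Matrix ι ι Λ) := by
    ext i j
    apply mul_left_cancel₀ (pow_ne_zero a ht0)
    have h2 : t ^ a * (G * N) i j = t * (G * G.adjugate) i j := by
      rw [Matrix.mul_apply, Matrix.mul_apply, Finset.mul_sum, Finset.mul_sum]
      refine Finset.sum_congr rfl fun k _ => ?_
      rw [mul_left_comm, ← hN, mul_left_comm]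
    rw [h2, Matrix.mul_adjugate, hGdet]
    simp only [Matrix.smul_apply, smul_eq_mul]
    ring
  -- Step 5: the columns of `N` are nilpotent modulo `t`
  have hxrad : ∀ j, x j ∈ (Ideal.span {algebraMap Λ C t}).radical := by
    intro j
    have h3 : ∀ c, π (Algebra.trace Λ C (x j * c)) = 0 := by
      intro c
      have h4 : t ∣ Algebra.trace Λ C (x j * c) := by
        apply trace_mul_dvd_of_basis β
        intro k
        rw [hxN j, htrcol, hGN, Matrix.smul_apply, smul_eq_mul, mul_assoc]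
        exact Dvd.intro _ rfl
      obtain ⟨e, he⟩ := h4
      rw [he, map_mul, hπt, zero_mul]
    obtain ⟨m, hm⟩ := exists_pow_dvd_of_trace_map_eq_zero β π t hker (x j) h3
    rw [Ideal.mem_radical_iff]
    exact ⟨m, Ideal.mem_span_singleton.mpr hm⟩
  -- Step 6: rank bound
  let Nbar : Matrix ι ι K := N.map π
  let Ybar : Matrix ι (Fin r) K := fun i' i => π (β.repr (y i) i')
  let W : Submodule K (ι → K) := LinearMap.range Nbar.mulVecLin
  let f : (Fin r → K) →ₗ[K] ((ι → K) ⧸ W) := W.mkQ ∘ₗ Ybar.mulVecLin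
  have hfinj : Function.Injective f := by
    rw [← LinearMap.ker_eq_bot, LinearMap.ker_eq_bot']
    intro abar habar
    have h5 : Ybar.mulVec abar ∈ W := by
      have : W.mkQ (Ybar.mulVecLin abar) = 0 := habar
      rwa [Submodule.mkQ_apply, Submodule.Quotient.mk_eq_zero] at this
    obtain ⟨vbar, hvbar⟩ := h5
    choose a₀ ha₀ using fun i => hπ (abar i)
    choose v hv using fun j => hπ (vbar j)
    -- the element `e = ∑ a i • y i - ∑ v j • x j` is divisible by `t`
    have he : algebraMap Λ C t ∣ (∑ i, a₀ i • y i) - ∑ j, v j • x j := by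
      apply dvd_of_forall_dvd_repr β
      intro i'
      apply hker
      have h6 := congrFun hvbar i'
      simp only [Matrix.mulVecLin_apply, Matrix.mulVec, dotProduct, Nbar, Ybar,
        Matrix.map_apply] at h6
      rw [map_sub, Finsupp.sub_apply, map_sum, map_sum, Finsupp.finsetSum_apply,
        Finsupp.finsetSum_apply, map_sub, map_sum, map_sum, sub_eq_zero]
      have e1 : ∀ i, π ((β.repr (a₀ i • y i)) i') = π (β.repr (y i) i') * abar i := by
        intro i
        rw [map_smul, Finsupp.smul_apply, smul_eq_mul, map_mul, ha₀, mul_comm]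
      have e2 : ∀ j, π ((β.repr (v j • x j)) i') = π (N i' j) * vbar j := by
        intro j
        rw [map_smul, Finsupp.smul_apply, smul_eq_mul, map_mul, hv, mul_comm]
      simp only [e1, e2]
      exact h6.symm
    -- hence `∑ a i • y i` is in the radical
    have hrad : (∑ i, a₀ i • y i) ∈ (Ideal.span {algebraMap Λ C t}).radical := by
      have h7 : (∑ i, a₀ i • y i) = ((∑ i, a₀ i • y i) - ∑ j, v j • x j) + ∑ j, v j • x j := by
        ring
      rw [h7]
      refine Ideal.add_mem _ (Ideal.le_radical (Ideal.mem_span_singleton.mpr he)) ?_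
      refine Ideal.sum_mem _ fun j _ => ?_
      rw [Algebra.smul_def]
      exact Ideal.mul_mem_left _ _ (hxrad j)
    funext i
    rw [← ha₀ i]
    obtain ⟨e, he'⟩ := hy a₀ hrad i
    rw [he', map_mul, hπt, zero_mul, Pi.zero_apply]
  have hrank : r + Nbar.rank ≤ Fintype.card ι := by
    have h8 := LinearMap.finrank_le_finrank_of_injective hfinj
    have h9 := Submodule.finrank_quotient_add_finrank W
    rw [Module.finrank_fin_fun, ] at h8
    rw [Module.finrank_fintype_fun_eq_card] at h9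
    have h10 : Nbar.rank = finrank K W := rfl
    omega
  -- Step 7: DET-RANK
  have hdetN : t ^ r ∣ N.det := by
    refine dvd_trans (pow_dvd_pow t ?_) (pow_sub_rank_dvd_det π hπ t hker N)
    have : (N.map π).rank = Nbar.rank := rfl
    omega
  -- Step 8: `a + r ≤ card ι`
  have hdet : t ^ a * D' * N.det = t ^ Fintype.card ι * D' ^ Fintype.card ι := by
    rw [← hGdet, ← Matrix.det_mul, hGN, Matrix.det_smul, Matrix.det_one, mul_one, mul_pow]
  have har : a + r ≤ Fintype.card ι := by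
    by_contra hlt
    rw [not_le] at hlt
    obtain ⟨e, he⟩ := hdetN
    obtain ⟨d, hd⟩ : ∃ d, a + r = Fintype.card ι + (d + 1) :=
      ⟨a + r - Fintype.card ι - 1, by omega⟩
    have h11 : t ^ Fintype.card ι * (t * (t ^ d * (D' * e)))
        = t ^ Fintype.card ι * D' ^ Fintype.card ι := by
      rw [← hdet, he]
      have : t ^ a * D' * (t ^ r * e) = t ^ (a + r) * (D' * e) := by ring
      rw [this, hd]
      ring
    have h12 := mul_left_cancel₀ (pow_ne_zero _ ht0) h11
    exact hD' (ht.dvd_of_dvd_pow (Dvd.intro _ h12))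
  -- Step 9: conclusion
  intro hdvd
  rw [hD] at hdvd
  obtain ⟨d, hd⟩ : ∃ d, Fintype.card ι - r + 1 = a + (d + 1) :=
    ⟨Fintype.card ι - r - a, by omega⟩
  rw [hd, pow_add, pow_succ] at hdvd
  have h13 := (mul_dvd_mul_iff_left (pow_ne_zero a ht0)).mp hdvd
  exact hD' (dvd_trans (Dvd.intro_left _ rfl) h13)

end

universe u v

/-- **b2-α (tame discriminant)** in the frozen shape `TameDiscrStatement` of
`origin/helper33:Fermat/Agent/S18/B12/Spec.lean` (unfolded):
`theorem foo : TameDiscrStatement := fun Λ _ _ _ _ t ht C₀ _ _ _ _ _ n β r y hy =>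
   tameDiscr Λ t ht C₀ n β r y hy`. -/
theorem tameDiscr
    (Λ : Type u) [CommRing Λ] [IsDomain Λ] [IsPrincipalIdealRing Λ] [Algebra ℚ Λ]
    (t : Λ) (ht : Prime t)
    (C₀ : Type v) [CommRing C₀] [IsDomain C₀] [IsDedekindDomain C₀] [Algebra Λ C₀]
    [Module.IsTorsionFree Λ C₀]
    (n : ℕ) (β : Module.Basis (Fin n) Λ C₀) (r : ℕ) (y : Fin r → C₀)
    (hy : ∀ a : Fin r → Λ,
        (∑ i, a i • y i) ∈ (Ideal.span {algebraMap Λ C₀ t}).radical → ∀ i, t ∣ a i) :
    ¬ t ^ (n - r + 1) ∣ Algebra.discr Λ β := by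
  have hmax : (Ideal.span {t}).IsMaximal :=
    PrincipalIdealRing.isMaximal_of_irreducible ht.irreducible
  let _ : Field (Λ ⧸ Ideal.span {t}) := Ideal.Quotient.field _
  have hchar : CharZero (Λ ⧸ Ideal.span {t}) := algebraRat.charZero _
  have h := tame_discr_of_residue β (Ideal.Quotient.mk (Ideal.span {t}))
    Ideal.Quotient.mk_surjective t ht
    ((Ideal.Quotient.eq_zero_iff_dvd t t).mpr dvd_rfl)
    (fun x hx => (Ideal.Quotient.eq_zero_iff_dvd t x).mp hx) r y hy
  rwa [Fintype.card_fin] at h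

end Fermat.Agent.S18.H274

end
-- ===== PACK-END S18/H274/Tame.lean

-- ===== PACK-BEGIN S55/Bridge/InertiaConj.lean
section


/-!
# S55 bridge: inertia groups of valuation subrings of `ℚ̄` — membership criterion, conjugation,
and normal (Galois) levels unramified outside `S`.
-/

set_option autoImplicit false

namespace Fermat.Agent.S55.Bridge

open IntermediateField
open scoped Pointwise

attribute [local instance] isAlgebraic_Qbar isGalois_Qbar

section inertia

variable (A : ValuationSubring (AlgebraicClosure ℚ))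

/-- Membership in the decomposition group, elementwise. -/
theorem mem_decompositionSubgroup_iff (σ : AlgebraicClosure ℚ ≃ₐ[ℚ] AlgebraicClosure ℚ) :
    σ ∈ A.decompositionSubgroup ℚ ↔ ∀ x, σ x ∈ A ↔ x ∈ A := by
  rw [MulAction.mem_stabilizer_iff]
  constructor
  · intro h x
    have hinv : σ⁻¹ • A = A := by
      conv_lhs => rw [← h]
      rw [inv_smul_smul]
    have h1 := ValuationSubring.mem_pointwise_smul_iff_inv_smul_mem (S := A)
      (g := σ⁻¹) (x := x)
    rw [hinv, inv_inv] at h1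
    rw [h1]
    rfl
  · intro h
    apply SetLike.ext
    intro x
    rw [ValuationSubring.mem_pointwise_smul_iff_inv_smul_mem]
    have h2 := h (σ⁻¹ • x)
    rw [AlgEquiv.smul_def] at h2 ⊢
    rw [← h2]
    have : σ (σ⁻¹ x) = x := by
      show (σ * σ⁻¹) x = x
      rw [mul_inv_cancel]
      rfl
    rw [this]

/-- Membership in the inertia group, elementwise. -/
theorem mem_inertiaSubgroupIn_iff (σ : AlgebraicClosure ℚ ≃ₐ[ℚ] AlgebraicClosure ℚ) :
    σ ∈ A.inertiaSubgroupIn ℚ ↔
      σ ∈ A.decompositionSubgroup ℚ ∧ ∀ z ∈ A, σ z - z ∈ A.nonunits := by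
  constructor
  · intro hσ
    have hD : σ ∈ A.decompositionSubgroup ℚ := by
      obtain ⟨g, -, rfl⟩ := hσ
      exact g.2
    refine ⟨hD, fun z hz => ?_⟩
    rw [ValuationSubring.mem_nonunits_iff]
    exact inertia_val_sub_lt_one A hσ z ((A.valuation_le_one_iff z).2 hz)
  · rintro ⟨hD, h⟩
    refine ⟨⟨σ, hD⟩, ?_, rfl⟩
    show (⟨σ, hD⟩ : A.decompositionSubgroup ℚ) ∈ MonoidHom.ker
      (MulSemiringAction.toRingAut (A.decompositionSubgroup ℚ) (IsLocalRing.ResidueField A))
    rw [MonoidHom.mem_ker]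
    apply RingEquiv.ext
    intro y
    obtain ⟨x, rfl⟩ := IsLocalRing.residue_surjective y
    show (⟨σ, hD⟩ : A.decompositionSubgroup ℚ) • (IsLocalRing.residue A x)
      = IsLocalRing.residue A x
    rw [← IsLocalRing.ResidueField.residue_smul]
    rw [← sub_eq_zero, ← map_sub, IsLocalRing.residue_eq_zero_iff]
    have h3 := h x.1 x.2
    rw [ValuationSubring.mem_nonunits_iff] at h3
    rw [ValuationSubring.valuation_lt_one_iff]
    exact h3

theorem mem_smul_valuationSubring_iff (b : AlgebraicClosure ℚ ≃ₐ[ℚ] AlgebraicClosure ℚ)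
    (x : AlgebraicClosure ℚ) : x ∈ b • A ↔ b⁻¹ x ∈ A := by
  rw [ValuationSubring.mem_pointwise_smul_iff_inv_smul_mem]
  rfl

theorem mem_nonunits_iff_inv_not_mem (x : AlgebraicClosure ℚ) :
    x ∈ A.nonunits ↔ x = 0 ∨ x⁻¹ ∉ A := by
  rw [ValuationSubring.mem_nonunits_iff]
  rcases eq_or_ne x 0 with rfl | hx
  · simp
  · simp only [hx, false_or]
    rw [← A.valuation_le_one_iff, map_inv₀, not_le]
    have hpos : 0 < A.valuation x := by
      rw [zero_lt_iff]
      exact (A.valuation.ne_zero_iff).2 hx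
    rw [one_lt_inv₀ hpos]

theorem mem_nonunits_smul_iff (b : AlgebraicClosure ℚ ≃ₐ[ℚ] AlgebraicClosure ℚ)
    (x : AlgebraicClosure ℚ) : x ∈ (b • A).nonunits ↔ b⁻¹ x ∈ A.nonunits := by
  rw [mem_nonunits_iff_inv_not_mem, mem_nonunits_iff_inv_not_mem, mem_smul_valuationSubring_iff,
    map_inv₀]
  have : b⁻¹ x = 0 ↔ x = 0 := by
    rw [map_eq_zero_iff _ (b⁻¹).injective]
  rw [this]

theorem liesOverPrime_smul (b : AlgebraicClosure ℚ ≃ₐ[ℚ] AlgebraicClosure ℚ) (q : ℕ)
    (hA : A.LiesOverPrime q) : (b • A).LiesOverPrime q := by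
  show (q : AlgebraicClosure ℚ) ∈ (b • A).nonunits
  rw [mem_nonunits_smul_iff, map_natCast]
  exact hA

theorem apply_inv_conj (b σ : AlgebraicClosure ℚ ≃ₐ[ℚ] AlgebraicClosure ℚ)
    (x : AlgebraicClosure ℚ) : b⁻¹ ((b * σ * b⁻¹) x) = σ (b⁻¹ x) := by
  show (b⁻¹ * (b * σ * b⁻¹)) x = (σ * b⁻¹) x
  congr 1
  group

/-- Conjugation carries the inertia group of `A` to that of `b • A`. -/
theorem conj_mem_inertiaSubgroupIn (b σ : AlgebraicClosure ℚ ≃ₐ[ℚ] AlgebraicClosure ℚ)
    (hσ : σ ∈ A.inertiaSubgroupIn ℚ) : b * σ * b⁻¹ ∈ (b • A).inertiaSubgroupIn ℚ := by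
  rw [mem_inertiaSubgroupIn_iff] at hσ ⊢
  obtain ⟨hD, hI⟩ := hσ
  rw [mem_decompositionSubgroup_iff] at hD
  refine ⟨?_, ?_⟩
  · rw [mem_decompositionSubgroup_iff]
    intro x
    rw [mem_smul_valuationSubring_iff, mem_smul_valuationSubring_iff, apply_inv_conj, hD]
  · intro z hz
    rw [mem_smul_valuationSubring_iff] at hz
    rw [mem_nonunits_smul_iff, map_sub, apply_inv_conj]
    exact hI _ hz

end inertia

section Levels

variable (S : Finset Nat.Primes)

/-- Every finite extension unramified outside `S` is contained in a finite GALOIS extension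
unramified outside `S`. -/
theorem exists_galois_level_ge (F : IntermediateField ℚ (AlgebraicClosure ℚ))
    (hF : F.IsUnramifiedOutside S) :
    ∃ L : IntermediateField ℚ (AlgebraicClosure ℚ),
      L.IsUnramifiedOutside S ∧ IsGalois ℚ L ∧ F ≤ L := by
  haveI := hF.1
  haveI : (F.fixingSubgroup.normalCore).Normal := Subgroup.normalCore_normal _
  -- the normal closure is a finite Galois extension containing `F`
  have hfinN : FiniteDimensional ℚ (IntermediateField.normalClosure ℚ F (AlgebraicClosure ℚ)) :=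
    normalClosure.is_finiteDimensional ℚ F (AlgebraicClosure ℚ)
  have hgalN : IsGalois ℚ (IntermediateField.normalClosure ℚ F (AlgebraicClosure ℚ)) :=
    IsGalois.normalClosure ℚ F (AlgebraicClosure ℚ)
  have hnormal : (IntermediateField.normalClosure ℚ F
      (AlgebraicClosure ℚ)).fixingSubgroup.Normal :=
    (InfiniteGalois.normal_iff_isGalois _).2 hgalN
  have hle : (IntermediateField.normalClosure ℚ F (AlgebraicClosure ℚ)).fixingSubgroup
      ≤ F.fixingSubgroup.normalCore := by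
    rw [Subgroup.normal_le_normalCore]
    exact IntermediateField.fixingSubgroup_antitone (IntermediateField.le_normalClosure F)
  obtain ⟨L, hL, hgal, hfix, -⟩ := exists_galois_level_of_subgroup S F.fixingSubgroup.normalCore
    (IntermediateField.normalClosure ℚ F (AlgebraicClosure ℚ)) hfinN hle
    (by
      intro q hq A hA σ hσ
      rw [Subgroup.normalCore]
      intro b
      have h1 := conj_mem_inertiaSubgroupIn A b σ hσ
      exact hF.2 q hq (b • A) (liesOverPrime_smul A b q hA) h1)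
  refine ⟨L, hL, hgal, ?_⟩
  have h2 : L.fixingSubgroup ≤ F.fixingSubgroup := by
    rw [hfix]
    exact Subgroup.normalCore_le _
  rw [← InfiniteGalois.fixedField_fixingSubgroup F, ← InfiniteGalois.fixedField_fixingSubgroup L]
  exact IntermediateField.fixedField_antitone h2

end Levels

end Fermat.Agent.S55.Bridge

end
-- ===== PACK-END S55/Bridge/InertiaConj.lean

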