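import Fermat.Prelude.Thm_Subgroup_IsArithmetic_exists_nat_mem_strictPeriods_conj
import Fermat.Prelude.Def_CuspForm_HeckeAlgebra
import Mathlib
import Fermat.Prelude.Def_ModularCurve_X0
import Fermat.Agent.Pack.S3234.G0E3L2
import Fermat.Agent.Pack.S3234.G0E3L0
import Fermat.Agent.Pack.S3234.G0E0L0
import Fermat.Agent.Pack.S3234.G0E3L3
import Fermat.Agent.Pack.S3234.G0E2L1
import Fermat.Agent.Pack.S3234.G0E2L2
import Fermat.Agent.Pack.S3234.G0E2L0
import Fermat.Agent.Pack.S3234.G0E3L1

-- ===== PACK-BEGIN S30/H990/TwoDim.lean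
section
/-
S30 top glue (helper990): pure algebra, part 5: the two-dimensional representation.
-/


set_option autoImplicit false

namespace Fermat.Agent.S30.H990

open Module Polynomial

/-- Output of the extraction: a rank two representation with prescribed characteristic
polynomials, as congruent to `1` as the input data. -/
structure TwoDimOut {𝒪 M G : Type} [CommRing 𝒪] [AddCommGroup M] [Module 𝒪 M] [Group G]
    (ρ : G →* Module.End 𝒪 M) (d : G →* 𝒪ˣ) : Type 1 where
  V : Type
  [instAddCommGroup : AddCommGroup V]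
  [instModule : Module 𝒪 V]
  [instFree : Module.Free 𝒪 V]
  [instFinite : Module.Finite 𝒪 V]
  finrank_eq : Module.finrank 𝒪 V = 2
  ρ₂ : G →* Module.End 𝒪 V
  charpoly_eq : ∀ (g : G) (a : 𝒪), Rel ρ d g a →
    LinearMap.charpoly (ρ₂ g) = X ^ 2 - C a * X + C ((d g : 𝒪ˣ) : 𝒪)
  cong : ∀ (I : Ideal 𝒪) (g : G), (∀ v : M, ρ g v - v ∈ I • (⊤ : Submodule 𝒪 M)) →
    ((d g : 𝒪ˣ) : 𝒪) - 1 ∈ I → ∀ v : V, ρ₂ g v - v ∈ I • (⊤ : Submodule 𝒪 V)

attribute [instance] TwoDimOut.instAddCommGroup TwoDimOut.instModule TwoDimOut.instFree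
  TwoDimOut.instFinite

section Constructions

variable {𝒪 M G : Type} [CommRing 𝒪] [IsDomain 𝒪] [IsPrincipalIdealRing 𝒪]
  [AddCommGroup M] [Module 𝒪 M] [Module.Free 𝒪 M] [Module.Finite 𝒪 M] [Group G]
  (ρ : G →* Module.End 𝒪 M) (d : G →* 𝒪ˣ)

/-- Stability of the saturation of a span, checked on generators. -/
theorem sat_span_stable (s : Set M)
    (h : ∀ g, ∀ x ∈ s, ∃ r : 𝒪, r ≠ 0 ∧ r • ρ g x ∈ Submodule.span 𝒪 s) :
    ∀ g, ∀ x ∈ sat (Submodule.span 𝒪 s), ρ g x ∈ sat (Submodule.span 𝒪 s) := by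
  intro g x hx
  refine map_mem_sat (ρ g) (fun y hy => ?_) hx
  refine map_span_le_sat (ρ g) (fun z hz => ?_) hy
  obtain ⟨r, hr, hrz⟩ := h g z hz
  exact ⟨r, hr, hrz⟩

/-- The rank two case. -/
theorem twoDim_of_rank_two (hrel : ∀ g, ∃ a, Rel ρ d g a) (h2 : (2 : 𝒪) ≠ 0)
    (c : G) (hdc : d c = -1)
    (u w : M) (ε : 𝒪) (hε : ε * ε = 1) (hu0 : u ≠ 0) (hw0 : w ≠ 0)
    (hu : ρ c u = ε • u) (hw : ρ c w = -ε • w)
    (hsu : ∀ g, ∃ r : 𝒪, r ≠ 0 ∧ r • ρ g u ∈ Submodule.span 𝒪 {u, w})
    (hsw : ∀ g, ∃ r : 𝒪, r ≠ 0 ∧ r • ρ g w ∈ Submodule.span 𝒪 {u, w}) :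
    Nonempty (TwoDimOut ρ d) := by
  classical
  have hε0 : ε ≠ 0 := by rintro rfl; simp at hε
  -- linear independence
  have hli : LinearIndependent 𝒪 ![u, w] := by
    rw [LinearIndependent.pair_iff]
    intro s t hst
    have h1 := congrArg (ρ c) hst
    rw [map_add, map_smul, map_smul, hu, hw, map_zero] at h1
    have h3 : (2 * ε * s) • u = 0 := by
      have : (2 * ε * s) • u = ε • (s • u + t • w) + (s • ε • u + t • (-ε • w)) := by
        module
      rw [this, hst, h1, smul_zero, add_zero]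
    have hs : s = 0 := by
      rcases smul_eq_zero.mp h3 with h | h
      · rcases mul_eq_zero.mp h with h | h
        · exact absurd h (mul_ne_zero h2 hε0)
        · exact h
      · exact absurd h hu0
    refine ⟨hs, ?_⟩
    rw [hs, zero_smul, zero_add] at hst
    exact (smul_eq_zero.mp hst).resolve_right hw0
  have hrange : Set.range ![u, w] = ({u, w} : Set M) := by
    ext x
    simp only [Set.mem_range, Set.mem_insert_iff, Set.mem_singleton_iff]
    constructor
    · rintro ⟨i, rfl⟩
      fin_cases i <;> simp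
    · rintro (rfl | rfl)
      · exact ⟨0, rfl⟩
      · exact ⟨1, rfl⟩
  set Λ : Submodule 𝒪 M := sat (Submodule.span 𝒪 ({u, w} : Set M)) with hΛ
  have hfr : Module.finrank 𝒪 Λ = 2 := by
    have := finrank_sat_span ![u, w] hli
    rwa [hrange] at this
  have hstab : ∀ g, ∀ x ∈ Λ, ρ g x ∈ Λ := by
    apply sat_span_stable
    intro g x hx
    rcases hx with rfl | hx
    · exact hsu g
    · rw [Set.mem_singleton_iff] at hx
      subst hx
      exact hsw g
  have huΛ : u ∈ Λ := le_sat _ (Submodule.subset_span (by simp))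
  have hwΛ : w ∈ Λ := le_sat _ (Submodule.subset_span (by simp))
  set ρΛ := restrictRep ρ Λ hstab with hρΛ
  let b : Basis (Fin 2) 𝒪 Λ := Module.finBasisOfFinrankEq 𝒪 Λ hfr
  let A : G →* Matrix (Fin 2) (Fin 2) 𝒪 :=
    ((LinearMap.toMatrixAlgEquiv b : Module.End 𝒪 Λ ≃ₐ[𝒪] Matrix (Fin 2) (Fin 2) 𝒪) :
      Module.End 𝒪 Λ →* Matrix (Fin 2) (Fin 2) 𝒪).comp ρΛ
  have hA : ∀ g, A g = LinearMap.toMatrixAlgEquiv b (ρΛ g) := fun g => rfl
  have hArel : ∀ g a, Rel ρ d g a →
      A g * A g - a • A g + ((d g : 𝒪ˣ) : 𝒪) • (1 : Matrix (Fin 2) (Fin 2) 𝒪) = 0 := by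
    intro g a hr
    have := rel_restrictRep ρ d Λ hstab hr
    unfold Rel at this
    have h' := congrArg (LinearMap.toMatrixAlgEquiv b) this
    simpa only [map_add, map_sub, map_mul, map_smul, map_one, map_zero, hA] using h'
  have hcns : ¬ ∃ l : 𝒪, A c = l • (1 : Matrix (Fin 2) (Fin 2) 𝒪) := by
    rintro ⟨l, hl⟩
    have h1 : ρΛ c = l • (1 : Module.End 𝒪 Λ) := by
      apply (LinearMap.toMatrixAlgEquiv b).injective
      rw [← hA, hl, map_smul, map_one]
    have e1 : ρ c u = l • u := by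
      have := congrArg (fun f : Module.End 𝒪 Λ => ((f ⟨u, huΛ⟩ : Λ) : M)) h1
      exact this
    have e2 : ρ c w = l • w := by
      have := congrArg (fun f : Module.End 𝒪 Λ => ((f ⟨w, hwΛ⟩ : Λ) : M)) h1
      exact this
    have f1 : l = ε := by
      have : (l - ε) • u = 0 := by rw [sub_smul, ← e1, ← hu, sub_self]
      exact sub_eq_zero.mp ((smul_eq_zero.mp this).resolve_right hu0)
    have f2 : l = -ε := by
      have : (l - -ε) • w = 0 := by rw [sub_smul, ← e2, ← hw, sub_self]
      exact sub_eq_zero.mp ((smul_eq_zero.mp this).resolve_right hw0)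
    have : 2 * ε = 0 := by
      have := f1.symm.trans f2
      linear_combination this
    exact mul_ne_zero h2 hε0 this
  refine ⟨{ V := Λ
            finrank_eq := hfr
            ρ₂ := ρΛ
            charpoly_eq := ?_
            cong := ?_ }⟩
  · intro g a hr
    obtain ⟨ht, hd⟩ := mat2_trace_det_of_rel A d (fun g => by
      obtain ⟨a, ha⟩ := hrel g
      exact ⟨a, hArel g a ha⟩) c hdc hcns g a (hArel g a hr)
    rw [← LinearMap.charpoly_toMatrix (ρΛ g) b]
    have : LinearMap.toMatrix b b (ρΛ g) = A g := rfl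
    rw [this, Matrix.charpoly_fin_two, ht, hd]
  · intro I g hg _ v
    have hmem : ((ρΛ g v - v : Λ) : M) ∈ I • (⊤ : Submodule 𝒪 M) := hg (v : M)
    exact mem_smul_top_sat _ I _ hmem

end Constructions

end Fermat.Agent.S30.H990

end
-- ===== PACK-END S30/H990/TwoDim.lean

-- ===== PACK-BEGIN S22/H262/Nice.lean
section




set_option autoImplicit false

/-!
# Towers exist for `f ∣[k] A`, `f` a cusp form on `Γ₀(N)`, `A` an integer matrix of positive
determinant.
-/

open Complex Filter Function Metric Set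
open UpperHalfPlane hiding I
open scoped Real Topology Manifold ModularForm MatrixGroups Pointwise

namespace Fermat.Agent.S22.H262

open Matrix.SpecialLinearGroup in
theorem hasTower_slash_SL {N : ℕ} [NeZero N] {k : ℤ}
    (f : CuspForm (CongruenceSubgroup.Gamma0 N) k) (g : SL(2, ℤ)) :
    HasTower (⇑f ∣[k] (mapGL ℝ g)) := by
  obtain ⟨M, hM, hper⟩ := Subgroup.IsArithmetic.exists_nat_mem_strictPeriods_conj
    ((CongruenceSubgroup.Gamma0 N).map (mapGL ℝ))
  have hM' : (0 : ℝ) < M := by exact_mod_cast hM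
  have h1 := hper g⁻¹
  rw [map_inv] at h1
  let F := CuspForm.translate f (mapGL ℝ g)
  have hF : ⇑F = ⇑f ∣[k] (mapGL ℝ g) := rfl
  rw [← hF]
  refine exists_isTower hM' (SlashInvariantFormClass.periodic_comp_ofComplex F h1)
    (CuspFormClass.holo F) ?_
  rw [hF]
  exact CuspFormClass.zero_at_infty_slash f g

end Fermat.Agent.S22.H262

end
-- ===== PACK-END S22/H262/Nice.lean

-- ===== PACK-BEGIN S30/H330/AdicAssembly.lean
section
/-
S30 -- ADIC MODULE LAYER, pieces 2-4 (helper330): eigenvector, finiteness of `J[p]`, assembly.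
`hasAdicFrobModule_of_inputs` : (K) + (P) + (T) + (Sm) + (GH)  ⟹  `HasAdicFrobModule`.
-/



set_option autoImplicit false

noncomputable section

namespace Fermat.Agent.S30.H330

open Fermat.Agent.S29 ModularCurve
open scoped MatrixGroups

/-! ### Generalities on parabolic characters -/

section ParHom

variable {N : ℕ}

theorem isParHom_zero {A : Type*} [AddCommGroup A] : IsParHom (0 : G0 N → A) :=
  ⟨fun _ _ => by simp, fun _ _ => rfl, fun _ _ _ _ => rfl⟩

theorem isParHom_add {A : Type*} [AddCommGroup A] {c c' : G0 N → A} (hc : IsParHom c)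
    (hc' : IsParHom c') : IsParHom (c + c') :=
  ⟨fun γ γ' => by simp only [Pi.add_apply, hc.map_mul, hc'.map_mul]; abel,
    fun γ h => by simp only [Pi.add_apply, hc.parabolic γ h, hc'.parabolic γ h, add_zero],
    fun γ n hn h => by
      simp only [Pi.add_apply, hc.elliptic γ n hn h, hc'.elliptic γ n hn h, add_zero]⟩

theorem isParHom_nsmul {A : Type*} [AddCommGroup A] {c : G0 N → A} (hc : IsParHom c) (n : ℕ) :
    IsParHom (n • c) := by
  induction n with
  | zero => rw [zero_nsmul]; exact isParHom_zero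
  | succ n ih => rw [succ_nsmul]; exact isParHom_add ih hc

/-- Push-forward of a parabolic character along an additive map. -/
theorem isParHom_comp {A B : Type*} [AddCommGroup A] [AddCommGroup B] {c : G0 N → A}
    (hc : IsParHom c) (φ : A →+ B) : IsParHom (fun γ => φ (c γ)) :=
  ⟨fun γ γ' => by simp only [hc.map_mul, map_add],
    fun γ h => by simp only [hc.parabolic γ h, map_zero],
    fun γ n hn h => by simp only [hc.elliptic γ n hn h, map_zero]⟩

theorem isParHom_map_one {A : Type*} [AddCommGroup A] {c : G0 N → A} (hc : IsParHom c) :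
    c 1 = 0 := by
  have := hc.map_mul 1 1
  rw [mul_one] at this
  exact left_eq_add.mp this

theorem heckeCoh_comp {A B : Type*} [AddCommGroup A] [AddCommGroup B] (ℓ : ℕ) (c : G0 N → A)
    (φ : A →+ B) : heckeCoh N ℓ (fun γ => φ (c γ)) = fun γ => φ (heckeCoh N ℓ c γ) := by
  funext γ
  simp only [heckeCoh, map_sum]

end ParHom

/-! ### Consequences of the Kummer statement -/

section Kummer

variable {N : ℕ}

theorem kummer_zero {κ : (G0 N → QZ) → JZero N}
    (hadd : ∀ c c', IsParHom c → IsParHom c' → κ (c + c') = κ c + κ c') : κ 0 = 0 := by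
  have := hadd 0 0 isParHom_zero isParHom_zero
  rw [add_zero] at this
  exact left_eq_add.mp this

theorem kummer_nsmul {κ : (G0 N → QZ) → JZero N}
    (hadd : ∀ c c', IsParHom c → IsParHom c' → κ (c + c') = κ c + κ c') {c : G0 N → QZ}
    (hc : IsParHom c) (n : ℕ) : κ (n • c) = n • κ c := by
  induction n with
  | zero => rw [zero_nsmul, zero_nsmul]; exact kummer_zero hadd
  | succ n ih => rw [succ_nsmul, succ_nsmul, hadd _ _ (isParHom_nsmul hc n) hc, ih]

end Kummer

/-! ### Piece 3: finiteness of the `p`-torsion -/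

section Fin

variable {N : ℕ} [NeZero N]

theorem fg_SL2Z : Group.FG SL(2, ℤ) := by
  rw [Group.fg_iff]
  exact ⟨{ModularGroup.S, ModularGroup.T}, SpecialLinearGroup.SL2Z_generators,
    Set.toFinite _⟩

theorem fg_G0 : Group.FG (G0 N) := by
  have := fg_SL2Z
  exact Subgroup.fg_of_index_ne_zero (CongruenceSubgroup.Gamma0 N)

/-- The `p`-torsion of `ℚ/ℤ` is finite. -/
theorem finite_QZ_torsion {p : ℕ} (hp : p.Prime) : {y : QZ | p • y = 0}.Finite := by
  have h1 := AddCircle.finite_setOfPred_addOrderOf_eq (1 : ℚ) (n := 1) one_pos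
  have hp' := AddCircle.finite_setOfPred_addOrderOf_eq (1 : ℚ) (n := p) hp.pos
  refine (h1.union hp').subset ?_
  intro y hy
  have hdvd : addOrderOf y ∣ p := addOrderOf_dvd_of_nsmul_eq_zero hy
  rcases (Nat.dvd_prime hp).mp hdvd with h | h
  · exact Or.inl h
  · exact Or.inr h

/-- A parabolic character as a monoid homomorphism. -/
def parHomToMonoidHom {c : G0 N → QZ} (hc : IsParHom c) : G0 N →* Multiplicative QZ where
  toFun γ := Multiplicative.ofAdd (c γ)
  map_one' := by rw [isParHom_map_one hc]; rfl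
  map_mul' γ γ' := by rw [hc.map_mul]; rfl

omit [NeZero N] in
theorem parHom_ext {S₀ : Set (G0 N)} (hS₀ : Subgroup.closure S₀ = ⊤) {c c' : G0 N → QZ}
    (hc : IsParHom c) (hc' : IsParHom c') (h : ∀ s ∈ S₀, c s = c' s) : c = c' := by
  have heq : parHomToMonoidHom hc = parHomToMonoidHom hc' := by
    refine MonoidHom.eq_of_eqOn_dense hS₀ ?_
    intro s hs
    show Multiplicative.ofAdd (c s) = Multiplicative.ofAdd (c' s)
    rw [h s hs]
  funext γ
  have := congrArg (fun φ : G0 N →* Multiplicative QZ => Multiplicative.toAdd (φ γ)) heq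
  exact this

/-- The set of parabolic characters of exponent `p` is finite. -/
theorem finite_parHom_torsion {p : ℕ} (hp : p.Prime) :
    {c : G0 N → QZ | IsParHom c ∧ p • c = 0}.Finite := by
  classical
  obtain ⟨S₀, hS₀, hS₀fin⟩ := Group.fg_iff.mp (fg_G0 (N := N))
  have : Finite S₀ := hS₀fin.to_subtype
  let f : (G0 N → QZ) → (S₀ → QZ) := fun c s => c s
  refine Set.Finite.of_finite_image (f := f) ?_ ?_
  · refine (Set.Finite.pi (t := fun _ : S₀ => {y : QZ | p • y = 0})
      (fun _ => finite_QZ_torsion hp)).subset ?_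
    rintro _ ⟨c, ⟨-, hc⟩, rfl⟩
    intro s _
    show p • c s = 0
    have := congrFun hc s
    simpa using this
  · rintro c ⟨hc, -⟩ c' ⟨hc', -⟩ h
    refine parHom_ext hS₀ hc hc' fun s hs => ?_
    exact congrFun h ⟨s, hs⟩

/-- PIECE 3: finiteness of the `p`-torsion of `J₀(N)(ℚ̄)`. -/
theorem finite_torsion {p : ℕ} [Fact p.Prime] (hK : KummerStatement N p) :
    {x : JZero N | p • x = 0}.Finite := by
  obtain ⟨κ, hadd, hinj, hsurj, -⟩ := hK
  refine ((finite_parHom_torsion (N := N) (Fact.out : p.Prime)).image κ).subset ?_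
  intro x hx
  obtain ⟨c, hc, rfl⟩ := hsurj x ⟨1, by simpa using hx⟩
  refine ⟨c, ⟨hc, ?_⟩, rfl⟩
  apply hinj _ (isParHom_nsmul hc p)
  rw [kummer_nsmul hadd hc]
  exact hx

end Fin

/-! ### Piece 2: the eigenvector -/

section Eigen

/-- A nonzero additive character `ϑ : L → ℚ/ℤ` killing `O`, with `ϑ(1/ϖ) ≠ 0`. -/
theorem exists_character {O : Type} [CommRing O] [IsDomain O] {ϖ : O} (hϖ : Irreducible ϖ) :
    ∃ ϑ : FractionRing O →+ QZ, (∀ r : O, ϑ (algebraMap O (FractionRing O) r) = 0) ∧
      ϑ ((algebraMap O (FractionRing O) ϖ)⁻¹) ≠ 0 := by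
  let Osub : AddSubgroup (FractionRing O) := (algebraMap O (FractionRing O)).toAddMonoidHom.range
  have hne : (QuotientAddGroup.mk ((algebraMap O (FractionRing O) ϖ)⁻¹) : FractionRing O ⧸ Osub)
      ≠ 0 := by
    intro h
    rw [QuotientAddGroup.eq_zero_iff] at h
    obtain ⟨r, hr⟩ := h
    have hϖ0 : algebraMap O (FractionRing O) ϖ ≠ 0 := algebraMap_irreducible_ne_zero hϖ
    have h1 : algebraMap O (FractionRing O) (r * ϖ) = algebraMap O (FractionRing O) 1 := by
      rw [map_mul, map_one]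
      have : algebraMap O (FractionRing O) r = (algebraMap O (FractionRing O) ϖ)⁻¹ := hr
      rw [this, inv_mul_cancel₀ hϖ0]
    have h2 : r * ϖ = 1 := IsFractionRing.injective O (FractionRing O) h1
    exact hϖ.not_isUnit (IsUnit.of_mul_eq_one r (by rw [mul_comm]; exact h2))
  obtain ⟨ϑ₀, hϑ₀⟩ := CharacterModule.exists_character_apply_ne_zero_of_ne_zero hne
  refine ⟨(show (FractionRing O ⧸ Osub) →+ QZ from ϑ₀).comp (QuotientAddGroup.mk' Osub),
    fun r => ?_, hϑ₀⟩
  show ϑ₀ (QuotientAddGroup.mk (algebraMap O (FractionRing O) r)) = 0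
  have : (QuotientAddGroup.mk (algebraMap O (FractionRing O) r) : FractionRing O ⧸ Osub) = 0 := by
    rw [QuotientAddGroup.eq_zero_iff]
    exact ⟨r, rfl⟩
  rw [this, map_zero]

theorem eigenvalue_eq {N : ℕ} [NeZero N] {S : Finset ℕ} {O : Type} [CommRing O]
    (χ : CuspForm.heckeAlgebra N 2 (↑S : Set ℕ) →+* O) {ℓ : ℕ} (hℓ : ℓ.Prime) (hℓN : ¬ ℓ ∣ N)
    (hℓS : ℓ ∉ (↑S : Set ℕ)) : eigenvalue χ ℓ = χ (CuspForm.heckeAlgebra.T hℓ hℓN hℓS) := by
  unfold eigenvalue
  rw [dif_pos ⟨hℓ, hℓN, hℓS⟩]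

/-- PIECE 2: the eigenvector `f(x) = κ(γ ↦ ϑ(c(γ) x))`. -/
theorem exists_eigenHom {p : ℕ} [Fact p.Prime] {N : ℕ} [NeZero N] {S : Finset ℕ}
    (hpS : p ∈ S) (hNS : ∀ q : ℕ, q.Prime → q ∣ N → q ∈ S)
    {O : Type} [CommRing O] [IsDomain O] [IsDiscreteValuationRing O]
    (χ : CuspForm.heckeAlgebra N 2 (↑S : Set ℕ) →+* O)
    (hK : KummerStatement N p) (hP : ParEigenStatement N S O χ) :
    ∃ f : FractionRing O →+ JZero N,
      (∀ r : O, f (algebraMap O (FractionRing O) r) = 0) ∧ f ≠ 0 ∧
      ∀ (ℓ : Nat.Primes), (ℓ : ℕ) ∉ S → ∀ x,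
        heckeOperatorBar N ℓ (f x) =
          f (algebraMap O (FractionRing O) (eigenvalue χ ℓ) * x) := by
  classical
  obtain ⟨κ, hadd, hinj, -, hhecke⟩ := hK
  obtain ⟨c, hc, hc0, hceig⟩ := hP
  obtain ⟨ϖ, hϖ⟩ := IsDiscreteValuationRing.exists_irreducible O
  obtain ⟨ϑ, hϑ0, hϑ1⟩ := exists_character hϖ
  -- the additive map `r ↦ ϑ (r x)`
  let φ : FractionRing O → (O →+ QZ) := fun x =>
    ϑ.comp ((AddMonoidHom.mulRight x).comp (algebraMap O (FractionRing O)).toAddMonoidHom)
  have hφ : ∀ x r, φ x r = ϑ (algebraMap O (FractionRing O) r * x) := fun x r => rfl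
  let cx : FractionRing O → (G0 N → QZ) := fun x γ => φ x (c γ)
  have hcx : ∀ x, IsParHom (cx x) := fun x => isParHom_comp hc (φ x)
  have hcx_add : ∀ x y, cx (x + y) = cx x + cx y := by
    intro x y
    funext γ
    show φ (x + y) (c γ) = φ x (c γ) + φ y (c γ)
    rw [hφ, hφ, hφ, mul_add, map_add]
  let f : FractionRing O →+ JZero N := AddMonoidHom.mk' (fun x => κ (cx x)) (fun x y => by
    show κ (cx (x + y)) = κ (cx x) + κ (cx y)
    rw [hcx_add, hadd _ _ (hcx x) (hcx y)])
  have hf : ∀ x, f x = κ (cx x) := fun x => rfl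
  refine ⟨f, fun r => ?_, ?_, fun ℓ hℓS x => ?_⟩
  · rw [hf]
    have : cx (algebraMap O (FractionRing O) r) = 0 := by
      funext γ
      show φ _ (c γ) = 0
      rw [hφ, ← map_mul]
      exact hϑ0 _
    rw [this]
    exact kummer_zero hadd
  · intro hf0
    obtain ⟨γ₀, hγ₀⟩ : ∃ γ₀, c γ₀ ≠ 0 := by
      by_contra h
      push Not at h
      exact hc0 (funext h)
    have hcγ : algebraMap O (FractionRing O) (c γ₀) ≠ 0 := by
      simpa using hγ₀
    set x₀ : FractionRing O :=
      (algebraMap O (FractionRing O) (c γ₀))⁻¹ * (algebraMap O (FractionRing O) ϖ)⁻¹ with hx₀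
    have h1 : κ (cx x₀) = 0 := by
      rw [← hf, hf0]
      rfl
    have h2 := hinj _ (hcx x₀) h1
    have h3 : cx x₀ γ₀ = 0 := by rw [h2]; rfl
    apply hϑ1
    have h4 : cx x₀ γ₀ = ϑ ((algebraMap O (FractionRing O) ϖ)⁻¹) := by
      show φ x₀ (c γ₀) = _
      rw [hφ, hx₀, mul_inv_cancel_left₀ hcγ]
    rw [← h4, h3]
  · have hℓ : (ℓ : ℕ).Prime := ℓ.2
    have hℓN : ¬ (ℓ : ℕ) ∣ N := fun h => hℓS (hNS _ hℓ h)
    have hℓS' : (ℓ : ℕ) ∉ (↑S : Set ℕ) := by simpa using hℓS
    have hℓNp : ¬ (ℓ : ℕ) ∣ N * p := by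
      intro h
      rcases (Nat.Prime.dvd_mul hℓ).mp h with h | h
      · exact hℓN h
      · have : (ℓ : ℕ) = p := (Nat.prime_dvd_prime_iff_eq hℓ (Fact.out : p.Prime)).mp h
        exact hℓS (this ▸ hpS)
    rw [hf, hf, ← hhecke ℓ hℓNp _ (hcx x)]
    congr 1
    rw [show cx x = fun γ => φ x (c γ) from rfl, heckeCoh_comp]
    funext γ
    show φ x (heckeCoh N ℓ c γ) = φ _ (c γ)
    rw [hφ, hφ, hceig ℓ hℓ hℓN hℓS' γ, eigenvalue_eq χ hℓ hℓN hℓS']
    congr 1
    rw [map_mul (algebraMap O (FractionRing O))]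
    ring

end Eigen

/-! ### Piece 4: assembly -/

/-- ASSEMBLY of the adic module layer: (K) + (P) + (T) + (Sm) + (GH) ⟹ `HasAdicFrobModule`. -/
theorem hasAdicFrobModule_of_inputs {p : ℕ} [Fact p.Prime] {N : ℕ} [NeZero N] {S : Finset ℕ}
    (hpS : p ∈ S) (hNS : ∀ q : ℕ, q.Prime → q ∣ N → q ∈ S)
    {O : Type} [CommRing O] [IsDomain O] [IsDiscreteValuationRing O]
    [IsAdicComplete (IsLocalRing.maximalIdeal O) O] [Finite (IsLocalRing.ResidueField O)]
    [CharZero O] (hpO : (p : O) ∈ IsLocalRing.maximalIdeal O)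
    (χ : CuspForm.heckeAlgebra N 2 (↑S : Set ℕ) →+* O)
    (hK : KummerStatement N p) (hP : ParEigenStatement N S O χ) (hT : TorsionRelations N p)
    (hSm : SmoothStatement N) (hGH : GaloisHeckeStatement N) :
    HasAdicFrobModule O (N * p) (fun ℓ => ℓ ∉ S) (eigenvalue χ) := by
  classical
  obtain ⟨f, hf0, hf, hfe⟩ := exists_eigenHom hpS hNS χ hK hP
  have hfin := finite_torsion hK
  -- index set of Hecke operators
  let t : {ℓ : Nat.Primes // (ℓ : ℕ) ∉ S} → JZero N →+ JZero N := fun i =>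
    (heckeOperatorBar N i.1).toAddMonoidHom
  let a : {ℓ : Nat.Primes // (ℓ : ℕ) ∉ S} → O := fun i => eigenvalue χ (i.1 : ℕ)
  have ht : ∀ i (σ : GQ) (x : JZero N), σ • t i x = t i (σ • x) := fun i σ x => hGH σ i.1 x
  obtain ⟨M, i1, i2, i3, i4, ρ, hnt, hcont, hunr, hquad⟩ :=
    adicModule_of_torsion (J := JZero N) (Fact.out : p.Prime) hpO (fun x => hSm x) hfin t ht a f
      hf0 hf (fun i x => hfe i.1 i.2 x)
  refine ⟨M, i1, i2, i3, i4, ρ, hnt, hcont, ?_, ?_⟩
  · intro ℓ hℓ hℓNp A hA σ hσ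
    exact hunr σ fun x hx => (hT ℓ hℓ hℓNp A hA).1 σ hσ x hx
  · intro ℓ hℓ hℓS A hA σ hσ
    have hℓN : ¬ ℓ ∣ N := fun h => hℓS (hNS _ hℓ h)
    have hℓNp : ¬ ℓ ∣ N * p := by
      intro h
      rcases (Nat.Prime.dvd_mul hℓ).mp h with h | h
      · exact hℓN h
      · have : ℓ = p := (Nat.prime_dvd_prime_iff_eq hℓ (Fact.out : p.Prime)).mp h
        exact hℓS (this ▸ hpS)
    exact hquad ⟨⟨ℓ, hℓ⟩, hℓS⟩ ℓ σ fun x hx => (hT ℓ hℓ hℓNp A hA).2 σ hσ x hx

end Fermat.Agent.S30.H330

end
end
-- ===== PACK-END S30/H330/AdicAssembly.lean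

-- ===== PACK-BEGIN S28/H867/Transfer.lean
section



set_option autoImplicit false
noncomputable section
open ModularCurve HahnSeries IntermediateField Polynomial

namespace Fermat.Agent.S28.H867

section Transfer

variable (k : Type*) [Field k]

/-- `coeffMap` commutes with `evalAt`. -/
theorem coeffMap_comp_evalAt (y : LaurentSeries ℤ) :
    (coeffMap (Int.castRingHom k)).comp (evalAt y) = evalAt (coeffMap (Int.castRingHom k) y) := by
  apply Polynomial.ringHom_ext
  · intro a
    simp [evalAt]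
  · simp [evalAt]

/-- `qExpand` commutes with `evalAt`. -/
theorem qExpand_comp_evalAt (p : ℕ) [NeZero p] (y : LaurentSeries k) :
    (qExpand k p).comp (evalAt y) = evalAt (qExpand k p y) := by
  apply Polynomial.ringHom_ext
  · intro a
    simp [evalAt]
  · simp [evalAt]

variable {k} in
theorem eval₂_evalAt_transfer (Φ : Polynomial (Polynomial ℤ)) (y x : LaurentSeries ℤ)
    (h : Φ.eval₂ (evalAt y) x = 0) :
    Φ.eval₂ (evalAt (coeffMap (Int.castRingHom k) y)) (coeffMap (Int.castRingHom k) x) = 0 := by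
  rw [← coeffMap_comp_evalAt, ← Polynomial.hom_eval₂, h, map_zero]

variable {k} in
theorem eval₂_evalAt_qExpand (p : ℕ) [NeZero p] (Φ : Polynomial (Polynomial ℤ))
    (y x : LaurentSeries k) (h : Φ.eval₂ (evalAt y) x = 0) :
    Φ.eval₂ (evalAt (qExpand k p y)) (qExpand k p x) = 0 := by
  rw [← qExpand_comp_evalAt, ← Polynomial.hom_eval₂, h, map_zero]

theorem coeffMap_jp (p : ℕ) [NeZero p] :
    coeffMap (Int.castRingHom k) (qExpand ℤ p (jqModC ℤ)) = jp k p := by
  rw [coeffMap_qExpand, coeffMap_jqModC]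

/-- `Φ_p(j_p, j) = 0` over `k`. -/
theorem modPoly_eval_jp_field {p : ℕ} [NeZero p] (D : ModPolyData p) :
    D.Φ.eval₂ (evalAt (jqModC k)) (jp k p) = 0 := by
  have := eval₂_evalAt_transfer (k := k) D.Φ _ _ D.eval_jp
  rwa [coeffMap_jp, coeffMap_jqModC] at this

/-- `Φ_p(j, j_p) = 0` over `k`. -/
theorem modPoly_eval_j_field {p : ℕ} [NeZero p] (D : ModPolyData p) :
    D.Φ.eval₂ (evalAt (jp k p)) (jqModC k) = 0 := by
  have := eval₂_evalAt_transfer (k := k) D.Φ _ _ D.eval_j
  rwa [coeffMap_jp, coeffMap_jqModC] at this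

end Transfer

section PolyOver

variable {k : Type*} [Field k]

/-- The polynomial `Φ(X, y)` with coefficients in a subfield `A ∋ y`. -/
def polyOver (A : IntermediateField k (LaurentSeries k)) (y : A) (Φ : Polynomial (Polynomial ℤ)) :
    Polynomial A :=
  Φ.map (Polynomial.aeval (R := ℤ) y).toRingHom

theorem polyOver_monic (A : IntermediateField k (LaurentSeries k)) (y : A)
    {Φ : Polynomial (Polynomial ℤ)} (h : Φ.Monic) : (polyOver A y Φ).Monic :=
  h.map _

theorem polyOver_natDegree (A : IntermediateField k (LaurentSeries k)) (y : A)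
    {Φ : Polynomial (Polynomial ℤ)} (h : Φ.Monic) : (polyOver A y Φ).natDegree = Φ.natDegree :=
  h.natDegree_map _

theorem aeval_polyOver (A : IntermediateField k (LaurentSeries k)) (y : A)
    (Φ : Polynomial (Polynomial ℤ)) (x : LaurentSeries k) :
    Polynomial.aeval x (polyOver A y Φ) = Φ.eval₂ (evalAt (y : LaurentSeries k)) x := by
  rw [polyOver, Polynomial.aeval_def, Polynomial.eval₂_map]
  congr 1
  apply Polynomial.ringHom_ext
  · intro a
    simp [evalAt]
  · simp [evalAt]

end PolyOver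

end Fermat.Agent.S28.H867

end
end
-- ===== PACK-END S28/H867/Transfer.lean

-- ===== PACK-BEGIN S28/H807/Eigen.lean
section
/-
S28 / helper807 — evaluation of the section-matrix characteristic polynomial:
`charpoly (secMat p g)` evaluated at `q = y^p` is `∏_b (X - G_b)`, where `G_b` is the value of
`g` at the `p` distinct `p`-th roots `y_b` of `q`.
-/



set_option autoImplicit false
set_option maxHeartbeats 400000

noncomputable section

open ModularCurve Polynomial Matrix

namespace Fermat.Agent.S28.H807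

/-- The subring of Laurent series converging at a nonzero point `z`. -/
def convSubring (z : ℂ) (hz : z ≠ 0) : Subring (LaurentSeries ℂ) where
  carrier := {c | Summable (fun n : ℤ => c.coeff n * z ^ n)}
  mul_mem' := fun {a b} ha hb =>
    (HasLSum.mul hz (c := a) (d := b) ha.hasSum hb.hasSum).summable
  one_mem' := (hasLSum_one z).summable
  add_mem' := fun {a b} ha hb => (HasLSum.add (c := a) (d := b) ha.hasSum hb.hasSum).summable
  zero_mem' := (hasLSum_zero z).summable
  neg_mem' := fun {a} ha => (HasLSum.neg (c := a) ha.hasSum).summable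

theorem mem_convSubring {z : ℂ} {hz : z ≠ 0} {c : LaurentSeries ℂ} :
    c ∈ convSubring z hz ↔ Summable (fun n : ℤ => c.coeff n * z ^ n) := Iff.rfl

theorem HasLSum.mem_convSubring {z A : ℂ} (hz : z ≠ 0) {c : LaurentSeries ℂ}
    (h : HasLSum c z A) : c ∈ convSubring z hz := h.summable

/-- Evaluation of a Laurent series at a point (junk value if not convergent). -/
def evalL (z : ℂ) (c : LaurentSeries ℂ) : ℂ := ∑' n : ℤ, c.coeff n * z ^ n

theorem HasLSum.evalL_eq {z A : ℂ} {c : LaurentSeries ℂ} (h : HasLSum c z A) :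
    evalL z c = A := HasSum.tsum_eq h

theorem hasLSum_evalL {z : ℂ} {hz : z ≠ 0} {c : LaurentSeries ℂ} (h : c ∈ convSubring z hz) :
    HasLSum c z (evalL z c) := Summable.hasSum h

/-- Evaluation at `z` as a ring homomorphism on the convergent subring. -/
def evalHom (z : ℂ) (hz : z ≠ 0) : convSubring z hz →+* ℂ where
  toFun c := evalL z c.1
  map_one' := (hasLSum_one z).evalL_eq
  map_zero' := (hasLSum_zero z).evalL_eq
  map_add' := fun a b => ((hasLSum_evalL a.2).add (hasLSum_evalL b.2)).evalL_eq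
  map_mul' := fun a b => ((hasLSum_evalL a.2).mul hz (hasLSum_evalL b.2)).evalL_eq

theorem evalHom_apply (z : ℂ) (hz : z ≠ 0) (c : convSubring z hz) :
    evalHom z hz c = evalL z c.1 := rfl

/-- A matrix with a full system of left eigenvectors `(y_b^i)_i` (Vandermonde) has
characteristic polynomial `∏_b (X - G_b)`. -/
theorem charpoly_eq_prod_of_vandermonde {p : ℕ} (M : Matrix (Fin p) (Fin p) ℂ) (y : Fin p → ℂ)
    (hy : Function.Injective y) (G : Fin p → ℂ)
    (h : ∀ b i : Fin p, ∑ i' : Fin p, y b ^ (i' : ℕ) * M i' i = G b * y b ^ (i : ℕ)) :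
    M.charpoly = ∏ b : Fin p, (X - C (G b)) := by
  set W : Matrix (Fin p) (Fin p) ℂ := Matrix.vandermonde y with hW
  have hWM : W * M = Matrix.diagonal G * W := by
    ext b i
    rw [Matrix.mul_apply, Matrix.diagonal_mul]
    simp only [hW, Matrix.vandermonde_apply]
    exact h b i
  have hdet : IsUnit W.det := by
    rw [isUnit_iff_ne_zero]
    exact Matrix.det_vandermonde_ne_zero_iff.mpr hy
  have hWu : IsUnit W := (Matrix.isUnit_iff_isUnit_det W).mpr hdet
  obtain ⟨u, hu⟩ := hWu
  have hM : M = u.val⁻¹ * Matrix.diagonal G * u.val := by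
    have h1 : u.val⁻¹ * (u.val * M) = M := by
      rw [← Matrix.mul_assoc, Matrix.nonsing_inv_mul _ (by rw [hu]; exact hdet), Matrix.one_mul]
    rw [← h1, hu, hWM, Matrix.mul_assoc]
  rw [hM, Matrix.charpoly_units_conj', Matrix.charpoly_diagonal]

/-- **Evaluation of the section charpoly.** -/
theorem hasLSum_coeff_mul_charpoly {p : ℕ} [NeZero p] (g e : LaurentSeries ℂ) (q : ℂ)
    (y : Fin p → ℂ) (hy0 : ∀ b, y b ≠ 0) (hyq : ∀ b, y b ^ p = q) (hy : Function.Injective y)
    (Gv : Fin p → ℂ) (hG : ∀ b, HasLSum g (y b) (Gv b)) (Ev : ℂ) (hE : HasLSum e q Ev) (k : ℕ) :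
    HasLSum (((X - C e) * (secMat p g).charpoly).coeff k) q
      (((X - C Ev) * ∏ b : Fin p, (X - C (Gv b))).coeff k) := by
  have hp : 0 < p := Nat.pos_of_ne_zero (NeZero.ne p)
  set b0 : Fin p := ⟨0, hp⟩
  have hq : q ≠ 0 := by rw [← hyq b0]; exact pow_ne_zero _ (hy0 b0)
  -- entries of the section matrix converge at `q`
  have hent : ∀ i' i : Fin p, secMat p g i' i ∈ convSubring q hq := by
    intro i' i
    have := (hG b0).hasLSum_secL p (hy0 b0) ((i' : ℤ) - (i : ℤ))
    rw [hyq b0] at this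
    exact this.mem_convSubring hq
  set M' : Matrix (Fin p) (Fin p) (convSubring q hq) := fun i' i => ⟨secMat p g i' i, hent i' i⟩
    with hM'
  set e' : convSubring q hq := ⟨e, hE.mem_convSubring hq⟩ with he'
  set Φ' : Polynomial (convSubring q hq) := (X - C e') * M'.charpoly with hΦ'
  have hsub : Φ'.map (convSubring q hq).subtype = (X - C e) * (secMat p g).charpoly := by
    rw [hΦ', Polynomial.map_mul, Polynomial.map_sub, Polynomial.map_X, Polynomial.map_C,
      ← Matrix.charpoly_map]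
    rfl
  -- evaluated matrix
  set Mτ : Matrix (Fin p) (Fin p) ℂ := M'.map (evalHom q hq) with hMτ
  have hMτ_apply : ∀ i' i : Fin p, Mτ i' i = secVal p g (y b0) ((i' : ℤ) - (i : ℤ)) := by
    intro i' i
    simp only [hMτ, Matrix.map_apply, evalHom_apply, hM']
    have := (hG b0).hasLSum_secL p (hy0 b0) ((i' : ℤ) - (i : ℤ))
    rw [hyq b0] at this
    exact this.evalL_eq
  have hchar : Mτ.charpoly = ∏ b : Fin p, (X - C (Gv b)) := by
    apply charpoly_eq_prod_of_vandermonde Mτ y hy Gv
    intro b i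
    have hreg := (hG b).regroup p (hy0 b) i
    rw [← hreg]
    apply Finset.sum_congr rfl
    intro i' _
    rw [hMτ_apply, secVal_congr p g (y := y b) (y' := y b0) (by rw [hyq, hyq])]
  have hev : Φ'.map (evalHom q hq) = (X - C Ev) * ∏ b : Fin p, (X - C (Gv b)) := by
    rw [hΦ', Polynomial.map_mul, Polynomial.map_sub, Polynomial.map_X, Polynomial.map_C,
      ← Matrix.charpoly_map, ← hMτ, hchar]
    congr 3
    exact hE.evalL_eq
  have h1 : ((X - C e) * (secMat p g).charpoly).coeff k = ((Φ'.coeff k : convSubring q hq) :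
      LaurentSeries ℂ) := by
    rw [← hsub, Polynomial.coeff_map]; rfl
  have h2 : ((X - C Ev) * ∏ b : Fin p, (X - C (Gv b))).coeff k = evalHom q hq (Φ'.coeff k) := by
    rw [← hev, Polynomial.coeff_map]
  rw [h1, h2]
  exact hasLSum_evalL (Φ'.coeff k).2

end Fermat.Agent.S28.H807

end

end
-- ===== PACK-END S28/H807/Eigen.lean

-- ===== PACK-BEGIN S28/H685/EtaBridge.lean
section




/-!
# S28 helper (helper685): the formal eta product is the Taylor series of the analytic one

The Prelude defines `ModularCurve.etaProd = ∏' n, (1 - X ^ (n + 1))` as a formal product in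
`PowerSeries ℤ` (Pi topology).  We show that its coefficients are the Taylor coefficients of the
analytic function `q ↦ ∏' n, (1 - q ^ (n + 1))` on the open unit disc.
-/

set_option autoImplicit false

namespace Fermat.Agent.S28.H685

open UpperHalfPlane Function Complex Filter
open scoped Topology Manifold PowerSeries.WithPiTopology

noncomputable section

local notation "𝕢" => Periodic.qParam

/-- Iterated derivatives of a locally uniform limit of holomorphic functions. -/
theorem tendstoLocallyUniformlyOn_iteratedDeriv {ι : Type*} {l : Filter ι} {U : Set ℂ}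
    (hU : IsOpen U) {F : ι → ℂ → ℂ} {f : ℂ → ℂ} (hF : TendstoLocallyUniformlyOn F f l U)
    (hd : ∀ᶠ i in l, DifferentiableOn ℂ (F i) U) (k : ℕ) :
    TendstoLocallyUniformlyOn (fun i => iteratedDeriv k (F i)) (iteratedDeriv k f) l U ∧
      ∀ᶠ i in l, DifferentiableOn ℂ (iteratedDeriv k (F i)) U := by
  induction k with
  | zero =>
    simp only [iteratedDeriv_zero]
    exact ⟨hF, hd⟩
  | succ k ih =>
    obtain ⟨h1, h2⟩ := ih
    refine ⟨?_, ?_⟩
    · have := h1.deriv h2 hU
      simpa only [iteratedDeriv_succ, Function.comp_def] using this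
    · filter_upwards [h2] with i hi
      simpa only [iteratedDeriv_succ] using hi.deriv hU

theorem iteratedDeriv_polynomial_eval (P : Polynomial ℂ) (k : ℕ) :
    iteratedDeriv k (fun x => P.eval x) = fun x => (Polynomial.derivative^[k] P).eval x := by
  induction k with
  | zero => simp
  | succ k ih =>
    rw [iteratedDeriv_succ, ih]
    funext x
    rw [Polynomial.deriv, Function.iterate_succ_apply']

theorem iteratedDeriv_polynomial_eval_zero (P : Polynomial ℂ) (k : ℕ) :
    iteratedDeriv k (fun x => P.eval x) 0 = k.factorial * P.coeff k := by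
  rw [iteratedDeriv_polynomial_eval]
  beta_reduce
  rw [← Polynomial.coeff_zero_eq_eval_zero,
    Polynomial.coeff_iterate_derivative, zero_add, Nat.descFactorial_self, nsmul_eq_mul]

/-- The analytic eta product `∏ (1 - q ^ (n + 1))`. -/
def etaC (q : ℂ) : ℂ := ∏' n : ℕ, (1 - q ^ (n + 1))

/-- Partial products of the eta product, as integer polynomials. -/
def etaPartial (s : Finset ℕ) : Polynomial ℤ := ∏ n ∈ s, (1 - Polynomial.X ^ (n + 1))

theorem coe_etaPartial (s : Finset ℕ) :
    ((etaPartial s : Polynomial ℤ) : PowerSeries ℤ) = ∏ n ∈ s, (1 - PowerSeries.X ^ (n + 1)) := by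
  have := map_prod (Polynomial.coeToPowerSeries.ringHom (R := ℤ))
    (fun n : ℕ => (1 - Polynomial.X ^ (n + 1) : Polynomial ℤ)) s
  rw [etaPartial]
  rw [Polynomial.coeToPowerSeries.ringHom_apply] at this
  rw [this]
  refine Finset.prod_congr rfl fun n _ => ?_
  rw [Polynomial.coeToPowerSeries.ringHom_apply]
  simp

theorem eval_etaPartial (s : Finset ℕ) (q : ℂ) :
    ((etaPartial s).map (Int.castRingHom ℂ)).eval q = ∏ n ∈ s, (1 - q ^ (n + 1)) := by
  simp [etaPartial, Polynomial.map_prod, Polynomial.eval_prod]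

theorem tendsto_coeff_etaPartial (k : ℕ) :
    Tendsto (fun s : Finset ℕ => (((etaPartial s).coeff k : ℤ) : ℂ)) atTop
      (𝓝 ((PowerSeries.coeff k ModularCurve.etaProd : ℤ) : ℂ)) := by
  have h1 : HasProd (fun n : ℕ => (1 - PowerSeries.X ^ (n + 1) : PowerSeries ℤ))
      ModularCurve.etaProd :=
    (PowerSeries.WithPiTopology.multipliable_one_sub_X_pow ℤ).hasProd
  have h2 : Tendsto (fun s : Finset ℕ => ∏ n ∈ s, (1 - PowerSeries.X ^ (n + 1) : PowerSeries ℤ))
      atTop (𝓝 ModularCurve.etaProd) := h1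
  have h3 := ((PowerSeries.WithPiTopology.continuous_coeff ℤ k).tendsto _).comp h2
  have h4 : Continuous (fun n : ℤ => (n : ℂ)) := continuous_of_discreteTopology
  have h5 := (h4.tendsto _).comp h3
  refine h5.congr fun s => ?_
  simp only [Function.comp_apply]
  rw [← coe_etaPartial, Polynomial.coeff_coe]

theorem differentiableOn_etaC : DifferentiableOn ℂ etaC (Metric.ball 0 1) :=
  ModularForm.differentiableOn_tprod_one_sub_pow

theorem taylor_etaC (k : ℕ) :
    (k.factorial : ℂ)⁻¹ * iteratedDeriv k etaC 0 =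
      ((PowerSeries.coeff k ModularCurve.etaProd : ℤ) : ℂ) := by
  have hloc : TendstoLocallyUniformlyOn
      (fun (s : Finset ℕ) (q : ℂ) => ∏ n ∈ s, (1 - q ^ (n + 1))) etaC atTop (Metric.ball 0 1) :=
    hasProdLocallyUniformlyOn_iff_tendstoLocallyUniformlyOn.mp
      ModularForm.multipliableLocallyUniformlyOn_one_sub_pow.hasProdLocallyUniformlyOn
  have hd : ∀ᶠ s : Finset ℕ in atTop,
      DifferentiableOn ℂ (fun q : ℂ => ∏ n ∈ s, (1 - q ^ (n + 1))) (Metric.ball 0 1) :=
    .of_forall fun s => by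
      have : DifferentiableOn ℂ (∏ n ∈ s, fun q : ℂ => (1 - q ^ (n + 1))) (Metric.ball 0 1) :=
        DifferentiableOn.finsetProd (fun _ _ => by fun_prop)
      simpa [Finset.prod_fn] using this
  have h1 := (tendstoLocallyUniformlyOn_iteratedDeriv Metric.isOpen_ball hloc hd k).1.tendsto_at
    (Metric.mem_ball_self (one_pos : (0 : ℝ) < 1))
  have h2 : ∀ s : Finset ℕ, iteratedDeriv k (fun q : ℂ => ∏ n ∈ s, (1 - q ^ (n + 1))) 0 =
      k.factorial * (((etaPartial s).coeff k : ℤ) : ℂ) := by
    intro s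
    have := iteratedDeriv_polynomial_eval_zero ((etaPartial s).map (Int.castRingHom ℂ)) k
    simp only [eval_etaPartial, Polynomial.coeff_map, eq_intCast] at this
    exact this
  simp only [h2] at h1
  have h3 := (tendsto_coeff_etaPartial k).const_mul (k.factorial : ℂ)
  have h4 := tendsto_nhds_unique h1 h3
  rw [h4, ← mul_assoc, inv_mul_cancel₀ (by exact_mod_cast k.factorial_ne_zero), one_mul]

/-- The formal eta product with complex coefficients. -/
def etaProdC : PowerSeries ℂ := ModularCurve.etaProd.map (Int.castRingHom ℂ)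

theorem hasSum_etaC {q : ℂ} (hq : ‖q‖ < 1) :
    HasSum (fun n : ℕ => PowerSeries.coeff n etaProdC * q ^ n) (etaC q) := by
  have := Complex.hasSum_taylorSeries_on_ball differentiableOn_etaC
    (z := q) (by simpa using hq)
  simp only [sub_zero, smul_eq_mul] at this
  have hfun : (fun n : ℕ => PowerSeries.coeff n etaProdC * q ^ n) =
      fun n : ℕ => ((n.factorial : ℂ))⁻¹ * (q ^ n * iteratedDeriv n etaC 0) := by
    funext n
    rw [etaProdC, PowerSeries.coeff_map, eq_intCast, ← taylor_etaC]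
    ring
  rw [hfun]
  exact this

/-- The function `τ ↦ ∏ (1 - q ^ (n + 1))` has `q`-expansion the formal eta product. -/
theorem hasQExp_etaC : HasQExp 1 (fun τ => etaC (𝕢 1 τ)) etaProdC :=
  fun τ => hasSum_etaC (Periodic.norm_qParam_lt_one one_pos τ.im_pos)

end

end Fermat.Agent.S28.H685

end
-- ===== PACK-END S28/H685/EtaBridge.lean

-- ===== PACK-BEGIN S28/H685/JPrinciple.lean
section



/-!
# S28 helper (helper685): the `j`-polynomial principle (abstract Hauptmodul form)

A function on `ℍ` which is the sum of a convergent Laurent series in `q = exp (2 π i τ)` with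
finitely many negative exponents and which is invariant under `τ ↦ -1/τ` is a polynomial in any
"Hauptmodul" `j` (an `S`-invariant function with a convergent expansion `q⁻¹ + O(1)`), and the
same identity holds for the formal Laurent series.
-/

set_option autoImplicit false

namespace Fermat.Agent.S28.H685

open UpperHalfPlane Function Complex Filter HahnSeries ModularForm SlashInvariantForm
  ModularFormClass
open scoped Topology Manifold MatrixGroups

noncomputable section

local notation "𝕢" => Periodic.qParam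

/-- Weight-zero slash invariance is invariance. -/
theorem slash_zero_eq_of_invariant (F : ℍ → ℂ) (γ : SL(2, ℤ))
    (hγ : ∀ τ, F (γ • τ) = F τ) : F ∣[(0 : ℤ)] γ = F := by
  ext z
  rw [SL_slash_apply]
  simp only [neg_zero, zpow_zero, mul_one]
  exact hγ z

/-- A holomorphic function, bounded at `i∞` and invariant under `S` and `T`, as a modular form
of weight zero and level one. -/
def levelOneOfInvariant (F : ℍ → ℂ) (hol : MDiff F) (bdd : IsBoundedAtImInfty F)
    (hS : ∀ τ, F (ModularGroup.S • τ) = F τ) (hT : ∀ τ, F (ModularGroup.T • τ) = F τ) :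
    ModularForm 𝒮ℒ 0 where
  toFun := F
  slash_action_eq' A hA := by
    obtain ⟨A, rfl⟩ := hA
    exact slash_action_generators_SL2Z (slash_zero_eq_of_invariant F _ hS)
      (slash_zero_eq_of_invariant F _ hT) A
  holo' := hol
  bdd_at_cusps' hc := by
    rw [Subgroup.IsArithmetic.isCusp_iff_isCusp_SL2Z] at hc
    rw [OnePoint.isBoundedAt_iff_forall_SL2Z hc]
    intro γ _
    rw [slash_action_generators_SL2Z (slash_zero_eq_of_invariant F _ hS)
      (slash_zero_eq_of_invariant F _ hT)]
    exact bdd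

/-- A holomorphic function on `ℍ`, bounded at `i∞` and invariant under `S` and `T`, is
constant. -/
theorem exists_const_of_invariant (F : ℍ → ℂ) (hol : MDiff F) (bdd : IsBoundedAtImInfty F)
    (hS : ∀ τ, F (ModularGroup.S • τ) = F τ) (hT : ∀ τ, F (ModularGroup.T • τ) = F τ) :
    ∃ c : ℂ, ∀ τ, F τ = c := by
  obtain ⟨c, hc⟩ := levelOne_weight_zero_const (levelOneOfInvariant F hol bdd hS hT)
  exact ⟨c, fun τ => congrFun hc τ⟩

/-- Invariance under `T` of a function given by a `q`-series of period one. -/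
theorem HasQLaurent.T_invariant {F : ℍ → ℂ} {φ : LaurentSeries ℂ} (hF : HasQLaurent 1 F φ)
    (τ : ℍ) : F (ModularGroup.T • τ) = F τ := by
  refine hF.vadd_period one_pos τ _ ?_
  rw [UpperHalfPlane.modular_T_smul]
  simp [add_comm]

/-- A Laurent series without negative exponents is a power series. -/
theorem exists_ofPowerSeries_eq (φ : LaurentSeries ℂ) (hφ : ∀ n : ℤ, n < 0 → φ.coeff n = 0) :
    ∃ A : PowerSeries ℂ, HahnSeries.ofPowerSeries ℤ ℂ A = φ := by
  refine ⟨PowerSeries.mk fun n => φ.coeff n, ?_⟩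
  ext n
  rcases lt_or_ge n 0 with hn | hn
  · rw [ofPS_coeff_of_neg _ hn, hφ n hn]
  · lift n to ℕ using hn
    rw [HahnSeries.ofPowerSeries_apply_coeff, PowerSeries.coeff_mk]

/-- The constant case of the principle. -/
theorem exists_const_of_S_invariant (F : ℍ → ℂ) (φ : LaurentSeries ℂ)
    (hφ : ∀ n : ℤ, n < 0 → φ.coeff n = 0) (hF : HasQLaurent 1 F φ)
    (hS : ∀ τ, F (ModularGroup.S • τ) = F τ) :
    ∃ c : ℂ, φ = HahnSeries.C c ∧ ∀ τ, F τ = c := by
  obtain ⟨A, rfl⟩ := exists_ofPowerSeries_eq φ hφ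
  have hA : HasQExp 1 F A := hF.hasQExp_of_ofPowerSeries
  obtain ⟨c, hc⟩ := exists_const_of_invariant F (hA.mdifferentiable one_pos)
    (hA.isBoundedAtImInfty one_pos) hS hF.T_invariant
  refine ⟨c, ?_, hc⟩
  have h1 : HasQLaurent 1 (fun _ => c) (HahnSeries.ofPowerSeries ℤ ℂ A) := hF.congr_fun hc
  exact h1.unique one_pos (HasQLaurent.const c)

/-- Structure of the powers of a series `q⁻¹ (1 + O(q))`. -/
theorem hauptmodul_pow (J : PowerSeries ℂ) (n : ℕ) :
    (HahnSeries.single (-1 : ℤ) (1 : ℂ) * HahnSeries.ofPowerSeries ℤ ℂ J) ^ n =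
      HahnSeries.single (-(n : ℤ)) (1 : ℂ) * HahnSeries.ofPowerSeries ℤ ℂ (J ^ n) := by
  have h : n • (-1 : ℤ) = -(n : ℤ) := by simp
  rw [mul_pow, HahnSeries.single_pow, one_pow, h, ← map_pow]

theorem coeff_hauptmodul_pow_self (J : PowerSeries ℂ) (hJ : PowerSeries.constantCoeff J = 1)
    (n : ℕ) :
    ((HahnSeries.single (-1 : ℤ) (1 : ℂ) * HahnSeries.ofPowerSeries ℤ ℂ J) ^ n).coeff
      (-(n : ℤ)) = 1 := by
  rw [hauptmodul_pow]
  have := coeff_single_mul_ofPS (-(n : ℤ)) (J ^ n) 0
  simp only [Nat.cast_zero, zero_add] at this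
  rw [this, PowerSeries.coeff_zero_eq_constantCoeff, map_pow, hJ, one_pow]

theorem coeff_hauptmodul_pow_of_lt (J : PowerSeries ℂ) (n : ℕ) {k : ℤ} (hk : k < -(n : ℤ)) :
    ((HahnSeries.single (-1 : ℤ) (1 : ℂ) * HahnSeries.ofPowerSeries ℤ ℂ J) ^ n).coeff k = 0 := by
  rw [hauptmodul_pow]
  exact coeff_single_mul_ofPS_of_lt _ _ hk

/-- **The `j`-polynomial principle**, abstract form. -/
theorem exists_polynomial_of_S_invariant_aux
    (jF : ℍ → ℂ) (J : PowerSeries ℂ) (hJ0 : PowerSeries.constantCoeff J = 1)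
    (hj : HasQLaurent 1 jF (HahnSeries.single (-1 : ℤ) (1 : ℂ) * HahnSeries.ofPowerSeries ℤ ℂ J))
    (hjS : ∀ τ, jF (ModularGroup.S • τ) = jF τ) :
    ∀ (m : ℕ) (F : ℍ → ℂ) (φ : LaurentSeries ℂ), (∀ n : ℤ, n < -(m : ℤ) → φ.coeff n = 0) →
      HasQLaurent 1 F φ → (∀ τ, F (ModularGroup.S • τ) = F τ) →
      ∃ P : Polynomial ℂ, P.natDegree ≤ m ∧
        φ = Polynomial.aeval
          (HahnSeries.single (-1 : ℤ) (1 : ℂ) * HahnSeries.ofPowerSeries ℤ ℂ J) P ∧
        ∀ τ, F τ = P.eval (jF τ) := by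
  intro m
  induction m with
  | zero =>
    intro F φ hφ hF hS
    obtain ⟨c, hc, hFc⟩ := exists_const_of_S_invariant F φ (by simpa using hφ) hF hS
    refine ⟨Polynomial.C c, by simp, ?_, fun τ => by simpa using hFc τ⟩
    rw [hc, Polynomial.aeval_C, algebraMap_eq_C]
  | succ m ih =>
    intro F φ hφ hF hS
    set jφ := HahnSeries.single (-1 : ℤ) (1 : ℂ) * HahnSeries.ofPowerSeries ℤ ℂ J with hjφ
    set a := φ.coeff (-((m + 1 : ℕ) : ℤ)) with ha
    have hF' : HasQLaurent 1 (fun τ => F τ - a * jF τ ^ (m + 1))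
        (φ - HahnSeries.C a * jφ ^ (m + 1)) := hF.sub ((hj.pow (m + 1)).const_mul a)
    have hS' : ∀ τ, (fun τ => F τ - a * jF τ ^ (m + 1)) (ModularGroup.S • τ) =
        (fun τ => F τ - a * jF τ ^ (m + 1)) τ := by
      intro τ
      simp only [hS τ, hjS τ]
    have hφ' : ∀ n : ℤ, n < -(m : ℤ) → (φ - HahnSeries.C a * jφ ^ (m + 1)).coeff n = 0 := by
      intro n hn
      rw [HahnSeries.coeff_sub, HahnSeries.C_mul_eq_smul, HahnSeries.coeff_smul, smul_eq_mul]
      rcases lt_or_eq_of_le (show n ≤ -((m + 1 : ℕ) : ℤ) by push_cast; omega) with h1 | h1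
      · rw [hφ n h1, coeff_hauptmodul_pow_of_lt J (m + 1) h1, mul_zero, sub_zero]
      · rw [h1, coeff_hauptmodul_pow_self J hJ0 (m + 1), mul_one, ← ha, sub_self]
    obtain ⟨P, hPdeg, hPφ, hPF⟩ := ih _ _ hφ' hF' hS'
    refine ⟨P + Polynomial.C a * Polynomial.X ^ (m + 1), ?_, ?_, ?_⟩
    · refine (Polynomial.natDegree_add_le _ _).trans (max_le (hPdeg.trans (Nat.le_succ m)) ?_)
      exact (Polynomial.natDegree_C_mul_X_pow_le a (m + 1))
    · rw [map_add, ← hPφ, map_mul, map_pow, Polynomial.aeval_X, Polynomial.aeval_C,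
        algebraMap_eq_C]
      ring
    · intro τ
      have := hPF τ
      simp only [Polynomial.eval_add, Polynomial.eval_mul, Polynomial.eval_C,
        Polynomial.eval_pow, Polynomial.eval_X]
      rw [← this]
      ring

end

end Fermat.Agent.S28.H685

end
-- ===== PACK-END S28/H685/JPrinciple.lean

-- ===== PACK-BEGIN Lib/RR/Basic.lean
section


/-!
# RR library, layer L1: the spaces `L(D)`

* `L(D) = 0` for `deg D < 0`;
* `L(D + P) ⊆ L(D) + K f₀`;
* `L(D)` is finite-dimensional and `ℓ(D) ≤ deg D + 1` for `deg D ≥ -1`;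
* `L(0) = K`, `ℓ(0) = 1`;
* `ℓ(D + div z) = ℓ(D)`.
-/

set_option autoImplicit false

noncomputable section

open AlgebraicCurve

namespace Fermat.Agent.Lib.RR

variable {K F : Type*} [Field K] [Field F] [Algebra K F]

/-! ### Divisors and degrees -/

theorem degree_eq_sum (D : Divisor K F) :
    Divisor.degree D = ∑ v ∈ D.support, D v * (v.deg : ℤ) := by
  simp [Divisor.degree, Finsupp.liftAddHom_apply, Finsupp.sum]

theorem degree_nonneg {D : Divisor K F} (h : 0 ≤ D) : 0 ≤ Divisor.degree D := by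
  rw [degree_eq_sum]
  refine Finset.sum_nonneg fun v _ => mul_nonneg ?_ (Int.natCast_nonneg _)
  simpa using Finsupp.le_def.mp h v

theorem degree_mono {D D' : Divisor K F} (h : D ≤ D') :
    Divisor.degree D ≤ Divisor.degree D' := by
  have h1 : 0 ≤ D' - D := sub_nonneg.mpr h
  have h2 := degree_nonneg h1
  rw [map_sub] at h2
  linarith

theorem degree_prim (v : Place K F) (hv : v.deg = 1) : Divisor.degree (prim v) = 1 := by
  simp [prim, hv]

@[simp] theorem prim_apply_self (v : Place K F) : prim v v = 1 := by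
  simp [prim]

theorem prim_apply_of_ne {v w : Place K F} (h : w ≠ v) : prim v w = 0 := by
  simp [prim, h.symm]

/-! ### The spaces `L(D)` -/

theorem mem_L_iff {D : Divisor K F} {f : F} :
    f ∈ riemannRochSpace D ↔ ∀ v : Place K F, f = 0 ∨ -D v ≤ v.ord f :=
  mem_riemannRochSpace_iff

theorem L_mono {D D' : Divisor K F} (h : D ≤ D') :
    riemannRochSpace D ≤ riemannRochSpace D' := by
  intro f hf
  rw [mem_L_iff] at hf ⊢
  intro v
  rcases hf v with h0 | h1
  · exact Or.inl h0
  · right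
    have := Finsupp.le_def.mp h v
    omega

/-- A nonzero element of `L(D)` forces `deg D ≥ 0`. -/
theorem degree_nonneg_of_mem_L [HasPrincipalDivisors K F] {D : Divisor K F} {f : F}
    (hf : f ∈ riemannRochSpace D) (hf0 : f ≠ 0) : 0 ≤ Divisor.degree D := by
  obtain ⟨E, hE, hE0⟩ := HasPrincipalDivisors.exists_divisor (K := K) f hf0
  have h1 : 0 ≤ D + E := by
    rw [Finsupp.le_def]
    intro v
    have := (mem_L_iff.mp hf v).resolve_left hf0
    simp only [Finsupp.coe_zero, Pi.zero_apply, Finsupp.coe_add, Pi.add_apply, hE v]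
    omega
  have h2 := degree_nonneg h1
  rw [map_add, hE0, add_zero] at h2
  exact h2

theorem L_eq_bot_of_degree_neg [HasPrincipalDivisors K F] {D : Divisor K F}
    (h : Divisor.degree D < 0) : riemannRochSpace D = ⊥ := by
  rw [eq_bot_iff]
  intro f hf
  rw [Submodule.mem_bot]
  by_contra hf0
  have := degree_nonneg_of_mem_L hf hf0
  omega

/-- One step: `L(D + P) ⊆ L(D) + K f₀` for any `f₀ ∈ L(D + P) \ L(D)`, `P` of degree one. -/
theorem L_add_prim_le (v : Place K F) (hv : v.deg = 1) (D : Divisor K F) {f₀ : F}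
    (hf₀ : f₀ ∈ riemannRochSpace (D + prim v)) (hf₀' : f₀ ∉ riemannRochSpace D) :
    riemannRochSpace (D + prim v) ≤ riemannRochSpace D ⊔ Submodule.span K {f₀} := by
  classical
  have hf₀0 : f₀ ≠ 0 := fun h => hf₀' (h ▸ Submodule.zero_mem _)
  -- the order of `f₀` at `v` is exactly `-(D v + 1)`
  have hord₀ : v.ord f₀ = -(D v + 1) := by
    have h1 := (mem_L_iff.mp hf₀ v).resolve_left hf₀0
    simp only [Finsupp.coe_add, Pi.add_apply, prim_apply_self] at h1
    by_contra hne
    apply hf₀'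
    rw [mem_L_iff]
    intro w
    right
    by_cases hw : w = v
    · subst hw; omega
    · have h2 := (mem_L_iff.mp hf₀ w).resolve_left hf₀0
      simpa [prim_apply_of_ne hw] using h2
  intro f hf
  rcases eq_or_ne f 0 with rfl | hf0
  · exact Submodule.zero_mem _
  have hordf := (mem_L_iff.mp hf v).resolve_left hf0
  simp only [Finsupp.coe_add, Pi.add_apply, prim_apply_self] at hordf
  have hg : 0 ≤ v.ord (f * f₀⁻¹) := by
    rw [v.ord_mul hf0 (inv_ne_zero hf₀0), v.ord_inv, hord₀]; omega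
  obtain ⟨c, hc⟩ := exists_const_sub v hv hg
  have hdecomp : f = (f - c • f₀) + c • f₀ := by ring
  rw [hdecomp]
  refine Submodule.add_mem _ (Submodule.mem_sup_left ?_)
    (Submodule.mem_sup_right (Submodule.smul_mem _ _ (Submodule.mem_span_singleton_self _)))
  have hmem' : f - c • f₀ ∈ riemannRochSpace (D + prim v) :=
    Submodule.sub_mem _ hf (Submodule.smul_mem _ _ hf₀)
  rw [mem_L_iff]
  intro w
  by_cases hw : w = v
  · subst hw
    have hfac : f - c • f₀ = (f * f₀⁻¹ - algebraMap K F c) * f₀ := by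
      rw [Algebra.smul_def]; field_simp
    rcases hc with hc | hc
    · left; rw [hfac, hc, zero_mul]
    · rcases eq_or_ne (f - c • f₀) 0 with h0 | h0
      · exact Or.inl h0
      right
      have hne : f * f₀⁻¹ - algebraMap K F c ≠ 0 := by
        intro h; rw [hfac, h, zero_mul] at h0; exact h0 rfl
      rw [hfac, w.ord_mul hne hf₀0, hord₀]
      omega
  · have h2 := mem_L_iff.mp hmem' w
    simpa [prim_apply_of_ne hw] using h2

/-- One step, dimension form. -/
theorem L_add_prim_finite (v : Place K F) (hv : v.deg = 1) (D : Divisor K F)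
    [Module.Finite K (riemannRochSpace D)] :
    Module.Finite K (riemannRochSpace (D + prim v)) ∧
      ell (D + prim v) ≤ ell D + 1 := by
  classical
  by_cases h : riemannRochSpace (D + prim v) ≤ riemannRochSpace D
  · have hfin : Module.Finite K (riemannRochSpace (D + prim v)) :=
      Submodule.finiteDimensional_of_le h
    exact ⟨hfin, (Submodule.finrank_mono h).trans (Nat.le_succ _)⟩
  · obtain ⟨f₀, hf₀, hf₀'⟩ := SetLike.not_le_iff_exists.mp h
    have hle := L_add_prim_le v hv D hf₀ hf₀'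
    have hfin' : Module.Finite K ↥(riemannRochSpace D ⊔ Submodule.span K {f₀}) := inferInstance
    have hfin : Module.Finite K (riemannRochSpace (D + prim v)) :=
      Submodule.finiteDimensional_of_le hle
    refine ⟨hfin, ?_⟩
    calc ell (D + prim v) ≤ Module.finrank K ↥(riemannRochSpace D ⊔ Submodule.span K {f₀}) :=
          Submodule.finrank_mono hle
      _ ≤ Module.finrank K (riemannRochSpace D) + Module.finrank K (Submodule.span K {f₀}) :=
          Submodule.finrank_add_le_finrank_add_finrank _ _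
      _ ≤ ell D + 1 := by
          have := finrank_span_singleton (K := K) (fun h => hf₀' (h ▸ Submodule.zero_mem _) : f₀ ≠ 0)
          rw [this]; rfl


/-! ### Consequences under the standing hypotheses -/

section FF1

variable [hFF : FF1 K F]

instance (priority := 100) instHasPrincipalDivisors_of_FF1 : HasPrincipalDivisors K F := hFF.hpd

theorem deg_eq_one (v : Place K F) : v.deg = 1 := FF1.deg_eq_one v

@[simp] theorem degree_prim' (v : Place K F) : Divisor.degree (prim v) = 1 :=
  degree_prim v (deg_eq_one v)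

/-- `L(D)` is finite-dimensional, of dimension at most `deg D + 1`. -/
theorem finite_and_ell_le : ∀ (n : ℕ) (D : Divisor K F), Divisor.degree D + 1 ≤ n →
    Module.Finite K (riemannRochSpace D) ∧ ell D ≤ n := by
  intro n
  induction n with
  | zero =>
    intro D hD
    have h : riemannRochSpace D = ⊥ := L_eq_bot_of_degree_neg (by push_cast at hD; omega)
    refine ⟨by rw [h]; infer_instance, ?_⟩
    have h0 : ell D = 0 := by unfold ell; rw [h]; exact finrank_bot K F
    omega
  | succ n ih =>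
    intro D hD
    obtain ⟨v₀⟩ := hFF.nonempty_place
    have hdeg : Divisor.degree (D - prim v₀) + 1 ≤ n := by
      rw [map_sub, degree_prim']; push_cast at hD; omega
    obtain ⟨hfin, hle⟩ := ih (D - prim v₀) hdeg
    have := L_add_prim_finite v₀ (deg_eq_one v₀) (D - prim v₀)
    rw [sub_add_cancel] at this
    exact ⟨this.1, this.2.trans (by omega)⟩

instance finite_L (D : Divisor K F) : Module.Finite K (riemannRochSpace D) :=
  (finite_and_ell_le (Divisor.degree D + 1).toNat D (Int.self_le_toNat _)).1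

theorem ell_le_toNat (D : Divisor K F) : ell D ≤ (Divisor.degree D + 1).toNat :=
  (finite_and_ell_le (Divisor.degree D + 1).toNat D (Int.self_le_toNat _)).2

theorem ell_le_degree_add_one {D : Divisor K F} (h : -1 ≤ Divisor.degree D) :
    (ell D : ℤ) ≤ Divisor.degree D + 1 := by
  have := ell_le_toNat D
  have h2 : ((Divisor.degree D + 1).toNat : ℤ) = Divisor.degree D + 1 :=
    Int.toNat_of_nonneg (by omega)
  omega

theorem ell_eq_zero_of_degree_neg {D : Divisor K F} (h : Divisor.degree D < 0) : ell D = 0 := by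
  unfold ell; rw [L_eq_bot_of_degree_neg h]; exact finrank_bot K F

theorem ell_mono {D D' : Divisor K F} (h : D ≤ D') : ell D ≤ ell D' :=
  Submodule.finrank_mono (L_mono h)

theorem ell_add_prim_le (D : Divisor K F) (v : Place K F) : ell (D + prim v) ≤ ell D + 1 :=
  (L_add_prim_finite v (deg_eq_one v) D).2

/-- Induction principle: from `D` upwards, adding one place at a time. -/
theorem induction_ge {P : Divisor K F → Prop} (D : Divisor K F) (h0 : P D)
    (hstep : ∀ (D' : Divisor K F) (v : Place K F), D ≤ D' → P D' → P (D' + prim v)) :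
    ∀ D', D ≤ D' → P D' := by
  classical
  have key : ∀ (n : ℕ) (D' : Divisor K F), D ≤ D' → Divisor.degree (D' - D) ≤ n → P D' := by
    intro n
    induction n with
    | zero =>
      intro D' hle hdeg
      have hE : 0 ≤ D' - D := sub_nonneg.mpr hle
      have hE0 : D' - D = 0 := by
        by_contra hne
        obtain ⟨v, hv⟩ := Finsupp.support_nonempty_iff.mpr hne
        rw [Finsupp.mem_support_iff] at hv
        have hv0 : 0 ≤ (D' - D) v := by simpa using Finsupp.le_def.mp hE v
        have hge : prim v ≤ D' - D := by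
          rw [Finsupp.le_def]
          intro w
          by_cases hw : w = v
          · subst hw; rw [prim_apply_self]; omega
          · rw [prim_apply_of_ne hw]; simpa using Finsupp.le_def.mp hE w
        have := degree_mono hge
        rw [degree_prim'] at this
        push_cast at hdeg
        omega
      rw [sub_eq_zero] at hE0
      rw [hE0]; exact h0
    | succ n ih =>
      intro D' hle hdeg
      by_cases hE0 : D' - D = 0
      · rw [sub_eq_zero] at hE0
        rw [hE0]; exact h0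
      have hE : 0 ≤ D' - D := sub_nonneg.mpr hle
      obtain ⟨v, hv⟩ := Finsupp.support_nonempty_iff.mpr hE0
      rw [Finsupp.mem_support_iff] at hv
      have hv0 : 0 ≤ (D' - D) v := by simpa using Finsupp.le_def.mp hE v
      have hge : prim v ≤ D' - D := by
        rw [Finsupp.le_def]
        intro w
        by_cases hw : w = v
        · subst hw; rw [prim_apply_self]; omega
        · rw [prim_apply_of_ne hw]; simpa using Finsupp.le_def.mp hE w
      have hle' : D ≤ D' - prim v := by
        have : D + prim v ≤ D' := by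
          have := add_le_add_left hge D
          rwa [sub_add_cancel, add_comm] at this
        exact le_sub_iff_add_le.mpr this
      have hdeg' : Divisor.degree (D' - prim v - D) ≤ n := by
        have : D' - prim v - D = (D' - D) - prim v := by abel
        rw [this, map_sub, degree_prim']
        push_cast at hdeg; omega
      have := hstep (D' - prim v) v hle' (ih (D' - prim v) hle' hdeg')
      rwa [sub_add_cancel] at this
  intro D' hle
  exact key (Divisor.degree (D' - D)).toNat D' hle (Int.self_le_toNat _)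

/-- `deg D - ℓ(D)` is monotone in `D`. -/
theorem degree_sub_ell_mono {D D' : Divisor K F} (h : D ≤ D') :
    Divisor.degree D - ell D ≤ Divisor.degree D' - ell D' := by
  refine induction_ge (P := fun D' => Divisor.degree D - ell D ≤ Divisor.degree D' - ell D')
    D le_rfl ?_ D' h
  intro D'' v _ hP
  have h1 := ell_add_prim_le D'' v
  rw [map_add, degree_prim']
  omega

/-- Functions without poles are constant. -/
theorem L_zero : riemannRochSpace (0 : Divisor K F) = LinearMap.range (Algebra.linearMap K F) := by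
  apply le_antisymm
  · intro f hf
    obtain ⟨v₀⟩ := hFF.nonempty_place
    have hf0 : 0 ≤ v₀.ord f := by
      rcases mem_L_iff.mp hf v₀ with h | h
      · simp [h]
      · simpa using h
    obtain ⟨c, hc⟩ := exists_const_sub v₀ (deg_eq_one v₀) hf0
    have hcL : algebraMap K F c ∈ riemannRochSpace (0 : Divisor K F) := by
      rw [mem_L_iff]; intro v; right; simp [ord_algebraMap]
    have hg : f - algebraMap K F c ∈ riemannRochSpace (0 : Divisor K F) :=
      Submodule.sub_mem _ hf hcL
    have hzero : f - algebraMap K F c = 0 := by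
      by_contra hne
      have hpos := hc.resolve_left hne
      have hmem : f - algebraMap K F c ∈ riemannRochSpace (-prim v₀) := by
        rw [mem_L_iff]
        intro w
        right
        by_cases hw : w = v₀
        · subst hw; simp only [Finsupp.coe_neg, Pi.neg_apply, prim_apply_self, neg_neg]; omega
        · have := (mem_L_iff.mp hg w).resolve_left hne
          simpa [prim_apply_of_ne hw] using this
      have hbot : riemannRochSpace (-prim v₀) = ⊥ :=
        L_eq_bot_of_degree_neg (by rw [map_neg, degree_prim']; omega)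
      rw [hbot, Submodule.mem_bot] at hmem
      exact hne hmem
    exact ⟨c, by rw [Algebra.linearMap_apply]; exact (sub_eq_zero.mp hzero).symm⟩
  · rintro _ ⟨c, rfl⟩
    rw [mem_L_iff]; intro v; right
    simp [ord_algebraMap]

theorem ell_zero : ell (0 : Divisor K F) = 1 := by
  unfold ell
  rw [L_zero]
  have hinj : Function.Injective (Algebra.linearMap K F) := (algebraMap K F).injective
  rw [LinearMap.finrank_range_of_inj hinj]
  exact Module.finrank_self K

/-- The divisor of a nonzero function. -/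
def divOf (z : F) (hz : z ≠ 0) : Divisor K F :=
  (HasPrincipalDivisors.exists_divisor (K := K) z hz).choose

theorem divOf_apply (z : F) (hz : z ≠ 0) (v : Place K F) : divOf z hz v = v.ord z :=
  (HasPrincipalDivisors.exists_divisor (K := K) z hz).choose_spec.1 v

@[simp] theorem degree_divOf (z : F) (hz : z ≠ 0) : Divisor.degree (divOf (K := K) z hz) = 0 :=
  (HasPrincipalDivisors.exists_divisor (K := K) z hz).choose_spec.2

/-- Multiplication by `z` maps `L(D + div z)` isomorphically onto `L(D)`. -/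
theorem ell_add_divOf (D : Divisor K F) (z : F) (hz : z ≠ 0) :
    ell (D + divOf z hz) = ell D := by
  let e : F ≃ₗ[K] F :=
    LinearEquiv.ofLinearMap (LinearMap.mulLeft K z) (LinearMap.mulLeft K z⁻¹)
      (by ext x; simp [hz]) (by ext x; simp [hz])
  have hmap : Submodule.map (e : F →ₗ[K] F) (riemannRochSpace (D + divOf z hz))
      = riemannRochSpace D := by
    ext f
    simp only [Submodule.mem_map, mem_L_iff]
    constructor
    · rintro ⟨g, hg, rfl⟩ v
      rcases hg v with h | h
      · left; simp [e, h]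
      · rcases eq_or_ne g 0 with rfl | hg0
        · left; simp [e]
        right
        show -D v ≤ v.ord (z * g)
        rw [v.ord_mul hz hg0]
        simp only [Finsupp.coe_add, Pi.add_apply, divOf_apply] at h
        omega
    · intro hf
      refine ⟨z⁻¹ * f, fun v => ?_, by simp [e, hz]⟩
      rcases hf v with h | h
      · left; simp [h]
      · rcases eq_or_ne f 0 with rfl | hf0
        · left; simp
        right
        rw [v.ord_mul (inv_ne_zero hz) hf0, v.ord_inv]
        simp only [Finsupp.coe_add, Pi.add_apply, divOf_apply]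
        omega
  unfold ell
  rw [← hmap]
  exact (LinearEquiv.finrank_map_eq e _).symm

end FF1

end Fermat.Agent.Lib.RR

end
end
-- ===== PACK-END Lib/RR/Basic.lean

-- ===== PACK-BEGIN Lib/RR/Approx.lean
section


/-!
# RR library: separation / approximation for finitely many places

(The first three lemmas follow helper144's `S24/Alg/LocApprox.lean`.)
-/

set_option autoImplicit false

noncomputable section

open AlgebraicCurve

namespace Fermat.Agent.Lib.RR

variable {K F : Type*} [Field K] [Field F] [Algebra K F]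

/-- The valuation rings of two places are comparable only if the places are equal. -/
theorem place_eq_of_le {v w : Place K F} (h : v.toValuationSubring ≤ w.toValuationSubring) :
    v = w := by
  apply Place.ext
  refine le_antisymm h ?_
  intro f hf
  by_contra hfv
  have hfw : 0 ≤ w.ord f := ord_nonneg_of_mem w hf
  have hfv' : v.ord f < 0 := by
    by_contra h0
    exact hfv (mem_of_ord_nonneg v (not_lt.mp h0))
  have hf0 : f ≠ 0 := ne_zero_of_ord_ne_zero v hfv'.ne
  obtain ⟨h1, hh1⟩ := exists_ord_eq_one w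
  have hh0 : h1 ≠ 0 := ne_zero_of_ord_ne_zero w (by omega)
  set r : ℕ := (v.ord h1).toNat + 1 with hr
  have hfr : f ^ r ≠ 0 := pow_ne_zero r hf0
  have hv : v.ord (f ^ r * h1) < 0 := by
    rw [v.ord_mul hfr hh0, ord_pow]
    have : (r : ℤ) * v.ord f ≤ -(r : ℤ) := by nlinarith
    have : v.ord h1 ≤ (v.ord h1).toNat := Int.self_le_toNat _
    have : (r : ℤ) = (v.ord h1).toNat + 1 := by rw [hr]; push_cast; ring
    omega
  have hmem : (f ^ r * h1)⁻¹ ∈ w.toValuationSubring := by
    apply h
    apply mem_of_ord_nonneg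
    rw [v.ord_inv]; omega
  have hw := ord_nonneg_of_mem w hmem
  rw [w.ord_inv, w.ord_mul hfr hh0, ord_pow, hh1] at hw
  have : 0 ≤ (r : ℤ) * w.ord f := mul_nonneg (Int.natCast_nonneg r) hfw
  omega

/-- Two distinct places are separated by a function. -/
theorem exists_sep {v w : Place K F} (hvw : v ≠ w) :
    ∃ c : F, 0 < v.ord c ∧ w.ord c < 0 := by
  have h1 : ¬ v.toValuationSubring ≤ w.toValuationSubring := fun h => hvw (place_eq_of_le h)
  have h2 : ¬ w.toValuationSubring ≤ v.toValuationSubring :=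
    fun h => hvw (place_eq_of_le h).symm
  obtain ⟨a, hav, haw⟩ := SetLike.not_le_iff_exists.mp h1
  obtain ⟨b, hbw, hbv⟩ := SetLike.not_le_iff_exists.mp h2
  have hav' : 0 ≤ v.ord a := ord_nonneg_of_mem v hav
  have hbw' : 0 ≤ w.ord b := ord_nonneg_of_mem w hbw
  have haw' : w.ord a < 0 := by
    by_contra h0; exact haw (mem_of_ord_nonneg w (not_lt.mp h0))
  have hbv' : v.ord b < 0 := by
    by_contra h0; exact hbv (mem_of_ord_nonneg v (not_lt.mp h0))
  have ha0 : a ≠ 0 := ne_zero_of_ord_ne_zero w haw'.ne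
  have hb0 : b ≠ 0 := ne_zero_of_ord_ne_zero v hbv'.ne
  refine ⟨a * b⁻¹, ?_, ?_⟩
  · rw [v.ord_mul ha0 (inv_ne_zero hb0), v.ord_inv]; omega
  · rw [w.ord_mul ha0 (inv_ne_zero hb0), w.ord_inv]; omega

/-- For a place `v` outside a finite set `S` of places there is a function with a zero at `v` and
poles at all places of `S`. -/
theorem exists_zero_poles (v : Place K F) (S : Finset (Place K F)) (hv : v ∉ S) :
    ∃ g : F, 0 < v.ord g ∧ ∀ w ∈ S, w.ord g < 0 := by
  classical
  induction S using Finset.induction_on with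
  | empty =>
    obtain ⟨h, hh⟩ := exists_ord_eq_one v
    exact ⟨h, by omega, by simp⟩
  | insert w₀ S' hw₀ ih =>
    have hv' : v ∉ S' := fun h => hv (Finset.mem_insert_of_mem h)
    have hvw₀ : v ≠ w₀ := fun h => hv (h ▸ Finset.mem_insert_self _ _)
    obtain ⟨g, hgv, hgS⟩ := ih hv'
    obtain ⟨c, hcv, hcw⟩ := exists_sep hvw₀
    have hg0 : g ≠ 0 := ne_zero_of_ord_ne_zero v hgv.ne'
    have hc0 : c ≠ 0 := ne_zero_of_ord_ne_zero v hcv.ne'
    by_cases hgw : w₀.ord g < 0
    · refine ⟨g, hgv, ?_⟩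
      intro w hw
      rcases Finset.mem_insert.mp hw with rfl | hw
      · exact hgw
      · exact hgS w hw
    · have hgw := not_lt.mp hgw
      set r : ℕ := (∑ w ∈ S', (w.ord c).natAbs) + 1 with hr
      have hrS : ∀ w ∈ S', -(r : ℤ) < w.ord c := by
        intro w hw
        have h1 : (w.ord c).natAbs ≤ ∑ w ∈ S', (w.ord c).natAbs :=
          Finset.single_le_sum (f := fun w : Place K F => (w.ord c).natAbs)
            (fun _ _ => Nat.zero_le _) hw
        have h2 : (r : ℤ) = ((∑ w ∈ S', (w.ord c).natAbs : ℕ) : ℤ) + 1 := by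
          rw [hr]; push_cast; ring
        have h3 : ((w.ord c).natAbs : ℤ) ≤ ((∑ w ∈ S', (w.ord c).natAbs : ℕ) : ℤ) := by
          exact_mod_cast h1
        omega
      have hr1 : 1 ≤ r := by omega
      have hgr0 : g ^ r ≠ 0 := pow_ne_zero r hg0
      have hw₀' : w₀.ord (c + g ^ r) = w₀.ord c := by
        apply ord_add_eq_of_lt w₀ hc0 hgr0
        rw [ord_pow]
        have : 0 ≤ (r : ℤ) * w₀.ord g := mul_nonneg (Int.natCast_nonneg r) hgw
        omega
      have hsum0 : c + g ^ r ≠ 0 := ne_zero_of_ord_ne_zero w₀ (by rw [hw₀']; omega)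
      refine ⟨c + g ^ r, ?_, ?_⟩
      · have h1 := ord_add v hc0 hgr0 hsum0
        rw [ord_pow] at h1
        have h2 : 0 < (r : ℤ) * v.ord g := mul_pos (by exact_mod_cast hr1) hgv
        have h3 : 0 < min (v.ord c) ((r : ℤ) * v.ord g) := lt_min hcv h2
        omega
      · intro w hw
        rcases Finset.mem_insert.mp hw with rfl | hw
        · rw [hw₀']; exact hcw
        · have h1 : w.ord (g ^ r) < w.ord c := by
            rw [ord_pow]
            have h2 := hgS w hw
            have h3 := hrS w hw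
            have h4 : (r : ℤ) * w.ord g ≤ -(r : ℤ) := by nlinarith
            omega
          rw [add_comm, ord_add_eq_of_lt w hgr0 hc0 h1, ord_pow]
          have h2 := hgS w hw
          have hrpos : (0 : ℤ) < r := by exact_mod_cast hr1
          exact mul_neg_of_pos_of_neg hrpos h2

/-- For a place `v` outside a finite set `S` of places and every `M` there is a function which is
a unit at `v` and vanishes to order at least `M` at all places of `S`. -/
theorem exists_unit_zeros (v : Place K F) (S : Finset (Place K F)) (hv : v ∉ S) (M : ℕ) :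
    ∃ s : F, s ≠ 0 ∧ v.ord s = 0 ∧ ∀ w ∈ S, (M : ℤ) ≤ w.ord s := by
  obtain ⟨g, hgv, hgS⟩ := exists_zero_poles v S hv
  have hg0 : g ≠ 0 := ne_zero_of_ord_ne_zero v hgv.ne'
  -- `u = g⁻¹` has a pole at `v` and zeros on `S`; `s = 1 / (1 + g ^ (M+1))`
  set r : ℕ := M + 1 with hr
  have hgr0 : g ^ r ≠ 0 := pow_ne_zero r hg0
  have hrpos : (0 : ℤ) < r := by rw [hr]; push_cast; omega
  have hv1 : v.ord (1 + g ^ r) = 0 := by
    have h1 : v.ord (1 : F) < v.ord (g ^ r) := by
      rw [v.ord_one, ord_pow]; exact mul_pos hrpos hgv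
    rw [ord_add_eq_of_lt v one_ne_zero hgr0 h1, v.ord_one]
  have hne : (1 + g ^ r : F) ≠ 0 := by
    intro h0
    have h1 : v.ord (1 : F) < v.ord (g ^ r) := by
      rw [v.ord_one, ord_pow]; exact mul_pos hrpos hgv
    have h2 : g ^ r = -1 := by rw [← sub_eq_zero, sub_neg_eq_add, add_comm]; exact h0
    rw [h2, ord_neg, v.ord_one] at h1
    exact lt_irrefl _ h1
  refine ⟨(1 + g ^ r)⁻¹, inv_ne_zero hne, by rw [v.ord_inv, hv1, neg_zero], ?_⟩
  intro w hw
  have hgw := hgS w hw
  have h1 : w.ord (g ^ r) < w.ord (1 : F) := by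
    rw [w.ord_one, ord_pow]; exact mul_neg_of_pos_of_neg hrpos hgw
  have h2 : w.ord (1 + g ^ r) = w.ord (g ^ r) := by
    rw [add_comm]; exact ord_add_eq_of_lt w hgr0 one_ne_zero h1
  rw [w.ord_inv, h2, ord_pow]
  have h3 : (r : ℤ) * w.ord g ≤ -(r : ℤ) := by nlinarith
  rw [hr] at h3 ⊢
  push_cast at h3 ⊢
  omega

/-- The order of a finite sum all of whose terms are `0` or of order `> n`. -/
theorem ord_sum_gt (v : Place K F) {ι : Type*} (s : Finset ι) (y : ι → F) (n : ℤ)
    (h : ∀ i ∈ s, y i = 0 ∨ n < v.ord (y i)) :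
    ∑ i ∈ s, y i = 0 ∨ n < v.ord (∑ i ∈ s, y i) := by
  classical
  induction s using Finset.induction_on with
  | empty => left; simp
  | insert a s ha ih =>
    rw [Finset.sum_insert ha]
    have h1 := h a (Finset.mem_insert_self _ _)
    have h2 := ih (fun i hi => h i (Finset.mem_insert_of_mem hi))
    have h1' : y a = 0 ∨ n + 1 ≤ v.ord (y a) := h1.imp id (fun h => by omega)
    have h2' : ∑ i ∈ s, y i = 0 ∨ n + 1 ≤ v.ord (∑ i ∈ s, y i) := h2.imp id (fun h => by omega)
    exact (ord_add_of_le v h1' h2').imp id (fun h => by omega)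

end Fermat.Agent.Lib.RR

end
end
-- ===== PACK-END Lib/RR/Approx.lean

-- ===== PACK-BEGIN S18/Mod/H216/Vc.lean
section


/-!
# S18 / MOD-ASM (helper216): the Gauss valuation ring `Vc M A E` as a `Subring`

`Mod.VcSet M A E` (frozen in `Mod/Defs.lean`) is only a set.  Here:

* `intE M A E : Subring (LaurentSeries A)` — the series satisfying `IsIntE M A E`;
* `Vc M A E : Subring (Om M)` with `(Vc M A E : Set (Om M)) = VcSet M A E` (`coe_Vc`);
* `mem_Vc_iff`, `mem_Vc_of_isIntE`.
-/

set_option autoImplicit false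

noncomputable section

namespace Fermat.Agent.S18.Mod.H216

open ModularCurve AlgebraicCurve HahnSeries Fermat.Agent.S18 Fermat.Agent.S18.Mod

variable (M : ℕ) (A : ValuationSubring Qb) (E : IntermediateField ℚ Qb)

/-- The coercion `Ω = F_M → Q̄((q))` as a ring homomorphism. -/
def omVal : Om M →+* LaurentSeries Qb := (modularFunctionFieldBar M).val.toRingHom

@[simp] theorem omVal_apply (f : Om M) : omVal M f = (f : LaurentSeries Qb) := rfl

theorem omVal_injective : Function.Injective (omVal M) := Subtype.val_injective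

/-- Series over `Q̄` all of whose coefficients lie in `E`. -/
def coeffsIn : Subring (LaurentSeries Qb) where
  carrier := {U | ∀ n : ℤ, U.coeff n ∈ E}
  zero_mem' := fun n => by simp
  one_mem' := fun n => by
    rw [HahnSeries.coeff_one]
    split_ifs
    · exact one_mem _
    · exact zero_mem _
  add_mem' := fun {a b} ha hb n => by
    rw [HahnSeries.coeff_add]
    exact add_mem (ha n) (hb n)
  neg_mem' := fun {a} ha n => by
    rw [HahnSeries.coeff_neg]
    exact neg_mem (ha n)
  mul_mem' := fun {a b} ha hb n => by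
    rw [HahnSeries.coeff_mul]
    exact sum_mem fun ij _ => mul_mem (ha _) (hb _)

theorem mem_coeffsIn {U : LaurentSeries Qb} : U ∈ coeffsIn E ↔ ∀ n : ℤ, U.coeff n ∈ E := Iff.rfl

/-- The subring of `A((q))` cut out by `IsIntE`. -/
def intE : Subring (LaurentSeries A) :=
  (coeffsIn E).comap (coeffMap A.subtype) ⊓
    ((Fc M E).toSubring.map (omVal M)).comap (coeffMap A.subtype)

theorem mem_intE {U : LaurentSeries A} : U ∈ intE M A E ↔ IsIntE M A E U := by
  constructor
  · rintro ⟨h1, f, hf, hfU⟩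
    exact ⟨fun n => h1 n, f, hf, hfU⟩
  · rintro ⟨h1, f, hf, hfU⟩
    exact ⟨fun n => h1 n, f, hf, hfU⟩

theorem red_mul_ne_zero {U V : LaurentSeries A}
    (hU : coeffMap (IsLocalRing.residue A) U ≠ 0) (hV : coeffMap (IsLocalRing.residue A) V ≠ 0) :
    coeffMap (IsLocalRing.residue A) (U * V) ≠ 0 := by
  rw [map_mul]
  exact mul_ne_zero hU hV

theorem red_one_ne_zero : coeffMap (IsLocalRing.residue A) (1 : LaurentSeries A) ≠ 0 := by
  rw [map_one]
  exact one_ne_zero

/-- The Gauss valuation ring of `Fc M E`, as a subring of `Ω`. -/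
def Vc : Subring (Om M) where
  carrier := VcSet M A E
  zero_mem' := by
    refine ⟨zero_mem _, 0, 1, (mem_intE M A E).mp (zero_mem _), (mem_intE M A E).mp (one_mem _),
      red_one_ne_zero A, ?_⟩
    simp
  one_mem' := by
    refine ⟨one_mem _, 1, 1, (mem_intE M A E).mp (one_mem _), (mem_intE M A E).mp (one_mem _),
      red_one_ne_zero A, ?_⟩
    simp
  add_mem' := by
    rintro f g ⟨hf, U₁, U₂, h₁, h₂, hne, heq⟩ ⟨hg, W₁, W₂, k₁, k₂, kne, keq⟩
    rw [← mem_intE] at h₁ h₂ k₁ k₂
    refine ⟨add_mem hf hg, U₁ * W₂ + W₁ * U₂, U₂ * W₂,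
      (mem_intE M A E).mp (add_mem (mul_mem h₁ k₂) (mul_mem k₁ h₂)),
      (mem_intE M A E).mp (mul_mem h₂ k₂), red_mul_ne_zero A hne kne, ?_⟩
    push_cast
    rw [map_add, map_mul, map_mul, map_mul, ← heq, ← keq]
    ring
  neg_mem' := by
    rintro f ⟨hf, U₁, U₂, h₁, h₂, hne, heq⟩
    rw [← mem_intE] at h₁ h₂
    refine ⟨neg_mem hf, -U₁, U₂, (mem_intE M A E).mp (neg_mem h₁), (mem_intE M A E).mp h₂,
      hne, ?_⟩
    push_cast
    rw [map_neg, ← heq]
    ring
  mul_mem' := by
    rintro f g ⟨hf, U₁, U₂, h₁, h₂, hne, heq⟩ ⟨hg, W₁, W₂, k₁, k₂, kne, keq⟩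
    rw [← mem_intE] at h₁ h₂ k₁ k₂
    refine ⟨mul_mem hf hg, U₁ * W₁, U₂ * W₂, (mem_intE M A E).mp (mul_mem h₁ k₁),
      (mem_intE M A E).mp (mul_mem h₂ k₂), red_mul_ne_zero A hne kne, ?_⟩
    push_cast
    rw [map_mul, map_mul, ← heq, ← keq]
    ring

@[simp] theorem coe_Vc : (Vc M A E : Set (Om M)) = VcSet M A E := rfl

theorem mem_Vc_iff {f : Om M} : f ∈ Vc M A E ↔ f ∈ VcSet M A E := Iff.rfl

theorem Vc_le_Fc : (Vc M A E : Set (Om M)) ⊆ Fc M E := fun _ hf => hf.1

/-- An `E`-rational integral series lying in `Fc` gives an element of `Vc`. -/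
theorem mem_Vc_of_isIntE {f : Om M} {U : LaurentSeries A} (hU : IsIntE M A E U)
    (hfU : (f : LaurentSeries Qb) = coeffMap A.subtype U) : f ∈ Vc M A E := by
  obtain ⟨h1, g, hg, hgU⟩ := hU
  have hfg : f = g := Subtype.ext (hfU.trans hgU.symm)
  refine ⟨hfg ▸ hg, U, 1, ⟨h1, g, hg, hgU⟩, (mem_intE M A E).mp (one_mem _), red_one_ne_zero A, ?_⟩
  rw [map_one, mul_one, hfU]

end Fermat.Agent.S18.Mod.H216

end
end
-- ===== PACK-END S18/Mod/H216/Vc.lean

-- ===== PACK-BEGIN S18/H138/CechSub.lean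
section


/-!
# S18, Route K, ASM (helper138): two-chart connectedness inside an ambient ring

`H558.cech_connected` is stated with `B_mid` as the ambient ring.  In the assembly the three
charts `Bf, Bi ≤ Bm` are subalgebras of a big field `F'`; this file transports the lemma.
-/

set_option autoImplicit false
set_option linter.style.haveILetI false

namespace Fermat.Agent.S18.H138

variable {R F : Type*} [CommRing R] [CommRing F] [Algebra R F]

/-- **Two-chart connectedness, subalgebra form.**  `Bf, Bi ≤ Bm` subalgebras of an ambient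
`R`-algebra `F`, `x ∈ Bf`, `y ∈ Bi`, `x y = 1`, `Bm = Bf[1/x]`, `Bf` generated over `R[x]` by
finitely many `bs i` with `y ^ D * bs i ∈ Bi`, `Bf ∩ Bi = R`, `R/w → Bf/w` injective, `w` prime.
Then a pair `e₁ ∈ Bf`, `e₂ ∈ Bi` of idempotents modulo `w` (in their charts) which are congruent
modulo `w Bm` is `(0,0)` or `(1,1)` modulo `w`. -/
theorem cech_connected_sub [IsNoetherianRing R] {ι : Type*} [Finite ι] (w : R) (x y : F)
    (hxy : x * y = 1) (Bf Bi Bm : Subalgebra R F) (hfm : Bf ≤ Bm) (him : Bi ≤ Bm)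
    (hx : x ∈ Bf) (hy : y ∈ Bi)
    (bs : ι → F) (hbs : ∀ i, bs i ∈ Bf)
    (hgen : ∀ b ∈ Bf, b ∈ Submodule.span R {z : F | ∃ (j : ℕ) (i : ι), z = x ^ j * bs i})
    (hloc : ∀ b ∈ Bm, ∃ K : ℕ, x ^ K * b ∈ Bf)
    (hinf : ∀ i, ∃ D : ℕ, y ^ D * bs i ∈ Bi)
    (hH0 : ∀ b : F, b ∈ Bf → b ∈ Bi → ∃ a : R, algebraMap R F a = b)
    (hinj : ∀ a : R, (∃ t ∈ Bf, algebraMap R F a = algebraMap R F w * t) → w ∣ a)
    (hprime : ∀ a b : R, w ∣ a * b → w ∣ a ∨ w ∣ b)
    (e₁ e₂ : F) (he₁ : e₁ ∈ Bf) (he₂ : e₂ ∈ Bi)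
    (hi₁ : ∃ t ∈ Bf, e₁ ^ 2 - e₁ = algebraMap R F w * t)
    (hi₂ : ∃ t ∈ Bi, e₂ ^ 2 - e₂ = algebraMap R F w * t)
    (h₁₂ : ∃ t ∈ Bm, e₁ - e₂ = algebraMap R F w * t) :
    ((∃ t ∈ Bf, e₁ = algebraMap R F w * t) ∧ (∃ t ∈ Bi, e₂ = algebraMap R F w * t)) ∨
    ((∃ t ∈ Bf, 1 - e₁ = algebraMap R F w * t) ∧
      (∃ t ∈ Bi, 1 - e₂ = algebraMap R F w * t)) := by
  classical
  -- the ambient ring is `Bm`
  let ι' : Bm →ₐ[R] F := Bm.val
  have hι' : Function.Injective ι' := Subtype.val_injective
  let Bf' : Subalgebra R Bm := Bf.comap ι'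
  let Bi' : Subalgebra R Bm := Bi.comap ι'
  have hxm : x ∈ Bm := hfm hx
  have hym : y ∈ Bm := him hy
  have hwm : ∀ a : R, ((algebraMap R Bm a : Bm) : F) = algebraMap R F a := fun a => rfl
  have key := H558.cech_connected (A := R) (B := Bm) (ι := ι) w ⟨x, hxm⟩ ⟨y, hym⟩
    (Subtype.ext (by simpa using hxy)) Bf' Bi' (by simpa [Bf', ι'] using hx)
    (by simpa [Bi', ι'] using hy)
    (fun i => ⟨bs i, hfm (hbs i)⟩) (fun i => by simpa [Bf', ι'] using hbs i)
    (by
      intro b hb
      have hb' : (b : F) ∈ Bf := by simpa [Bf', ι'] using hb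
      have h1 := hgen _ hb'
      -- transport the span along the injective map `Bm → F`
      have h2 : Submodule.span R {z : F | ∃ (j : ℕ) (i : ι), z = x ^ j * bs i} =
          Submodule.map ι'.toLinearMap (Submodule.span R
            {z : Bm | ∃ (j : ℕ) (i : ι), z = (⟨x, hxm⟩ : Bm) ^ j * ⟨bs i, hfm (hbs i)⟩}) := by
        rw [Submodule.map_span]
        congr 1
        ext z
        constructor
        · rintro ⟨j, i, rfl⟩
          exact ⟨(⟨x, hxm⟩ : Bm) ^ j * ⟨bs i, hfm (hbs i)⟩, ⟨j, i, rfl⟩, by simp [ι']⟩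
        · rintro ⟨z', ⟨j, i, rfl⟩, rfl⟩
          exact ⟨j, i, by simp [ι']⟩
      rw [h2] at h1
      obtain ⟨c, hc, hcb⟩ := h1
      have : c = b := hι' hcb
      rwa [this] at hc)
    (by
      intro b
      obtain ⟨K, hK⟩ := hloc b b.2
      exact ⟨K, by simpa [Bf', ι'] using hK⟩)
    (by
      intro i
      obtain ⟨D, hD⟩ := hinf i
      exact ⟨D, by simpa [Bi', ι'] using hD⟩)
    (by
      intro b hbf hbi
      obtain ⟨a, ha⟩ := hH0 b (by simpa [Bf', ι'] using hbf) (by simpa [Bi', ι'] using hbi)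
      exact ⟨a, Subtype.ext ha⟩)
    (by
      rintro a ⟨t, ht, hat⟩
      refine hinj a ⟨t, by simpa [Bf', ι'] using ht, ?_⟩
      have := congrArg (Subtype.val) hat
      simpa using this)
    hprime ⟨e₁, hfm he₁⟩ ⟨e₂, him he₂⟩ (by simpa [Bf', ι'] using he₁)
    (by simpa [Bi', ι'] using he₂)
    (by
      obtain ⟨t, ht, h⟩ := hi₁
      exact ⟨⟨t, hfm ht⟩, by simpa [Bf', ι'] using ht, Subtype.ext (by simpa using h)⟩)
    (by
      obtain ⟨t, ht, h⟩ := hi₂
      exact ⟨⟨t, him ht⟩, by simpa [Bi', ι'] using ht, Subtype.ext (by simpa using h)⟩)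
    (by
      obtain ⟨t, ht, h⟩ := h₁₂
      exact ⟨⟨t, ht⟩, Subtype.ext (by simpa using h)⟩)
  have conv : ∀ (C : Subalgebra R F) (u : F) (hu : u ∈ Bm),
      (∃ t ∈ C.comap ι', (⟨u, hu⟩ : Bm) = algebraMap R Bm w * t) →
        ∃ t ∈ C, u = algebraMap R F w * t := by
    rintro C u hu ⟨t, ht, h⟩
    refine ⟨t, by simpa [ι'] using ht, ?_⟩
    have := congrArg Subtype.val h
    simpa using this
  rcases key with ⟨h1, h2⟩ | ⟨h1, h2⟩
  · exact Or.inl ⟨conv Bf e₁ (hfm he₁) h1, conv Bi e₂ (him he₂) h2⟩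
  · refine Or.inr ⟨conv Bf (1 - e₁) (Bm.sub_mem Bm.one_mem (hfm he₁)) ?_,
      conv Bi (1 - e₂) (Bm.sub_mem Bm.one_mem (him he₂)) ?_⟩
    · obtain ⟨t, ht, h⟩ := h1
      exact ⟨t, ht, by rw [← h]; rfl⟩
    · obtain ⟨t, ht, h⟩ := h2
      exact ⟨t, ht, by rw [← h]; rfl⟩

end Fermat.Agent.S18.H138

end
-- ===== PACK-END S18/H138/CechSub.lean

-- ===== PACK-BEGIN S18/B12/Spec3.lean
section



/-!
# S18, Route K, b2: the HEART (`B2CoreAbsStatement`) and the two OUTPUT SHAPES
(squad S18/S33, squad-lead helper33) — FROZEN statements, Mathlib-only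

* `B2CoreAbsStatement` : at every closed point `t` of the special fibre `B/wB` over `Λ = P/(w)`:
  `ord_t disc(B/wB) ≤ n - s` with `(B/wB mod t)_red` spanned by `s` elements
  (exactly the hypothesis of "Theorem L", `SFLatticeStatement` / H933 / H636 / H998).
* Output O1 `B2RegularStatement` : `B/wB` a domain ⟹ `RegularAlong w` (shape of
  `Fermat.Agent.S18.H754.RegularAlong`, consumed by the Kummer endgame K').
* Output O2 `B2Statement` (Spec.lean) : idempotents of `Frac(B/wB)` lie in `B/wB` (no domain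
  hypothesis; consumed by "b4 = b2 for the cover").
-/

set_option autoImplicit false

noncomputable section

namespace Fermat.Agent.S18.B12

open Polynomial

universe u v

/-- **A6' (heart of b2).**  Abstract setting of Spec2 (`P` noetherian UFD, `w` prime, `P/(w)` and
`P[1/w]` PIDs, char 0 generic fibre, `B` normal finite torsion-free over `P`, `hsep`, branch primes
`S` pairwise comaximal mod `w`, unramified outside `S`).  Then for every prime `t` of
`Λ = P/(w)` and every `Λ`-basis `bb` of `B/wB`: `disc bb ≠ 0`, and there is a family of `s`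
elements spanning `B/wB` modulo `rad(t)` with `t ^ (n - s + 1) ∤ disc bb`. -/
def B2CoreAbsStatement : Prop :=
  ∀ (P : Type u) [CommRing P] [IsDomain P] [UniqueFactorizationMonoid P] [IsNoetherianRing P]
    (w : P) (_ : Prime w) (_ : IsPrincipalIdealRing (P ⧸ Ideal.span {w}))
    (_ : IsPrincipalIdealRing (Localization.Away w))
    (_ : ∀ m : ℕ, m ≠ 0 → IsUnit (algebraMap P (Localization.Away w) (m : P)))
    (B : Type v) [CommRing B] [IsDomain B] [IsIntegrallyClosed B] [Algebra P B]
    [Module.Finite P B] [Module.IsTorsionFree P B]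
    (_ : ∃ x : Fin (Module.finrank P B) → B, ¬ w ∣ intDiscr P B x)
    (S : Finset P)
    (_ : ∀ s ∈ S, Prime s ∧ ¬ Associated s w ∧ (Ideal.span {w, s}).IsMaximal ∧
      IsPrincipalIdealRing (P ⧸ Ideal.span {s}))
    (_ : ∀ s ∈ S, ∀ s' ∈ S, s ≠ s' → s' ∉ Ideal.span {w, s})
    (_ : ∀ π : P, Prime π → ¬ Associated π w → (∀ s ∈ S, ¬ Associated π s) →
        (Ideal.span {algebraMap P B π}).IsRadical)
    (t : P ⧸ Ideal.span {w}) (_ : Prime t) (n : ℕ)
    (bb : Module.Basis (Fin n) (P ⧸ Ideal.span {w})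
      (B ⧸ (Ideal.span {w}).map (algebraMap P B))),
    Algebra.discr (P ⧸ Ideal.span {w}) bb ≠ 0 ∧
    ∃ (s : ℕ) (y : Fin s → B ⧸ (Ideal.span {w}).map (algebraMap P B)),
      (∀ c : B ⧸ (Ideal.span {w}).map (algebraMap P B), ∃ a : Fin s → P ⧸ Ideal.span {w},
        c - ∑ i, a i • y i ∈ (Ideal.span {algebraMap (P ⧸ Ideal.span {w})
          (B ⧸ (Ideal.span {w}).map (algebraMap P B)) t}).radical) ∧
      ¬ t ^ (n - s + 1) ∣ Algebra.discr (P ⧸ Ideal.span {w}) bb

/-- **A8 (normality from the discriminant bounds).**  `Λ` a PID, `C` a domain, free of rank `n`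
over `Λ`, satisfying the bound of `B2CoreAbsStatement` at every prime `t`.  Then `C` is
integrally closed.  (Apply Theorem L to `C ⊆ C[f]`, `f` integral over `C`.) -/
def IntClosedOfDiscrStatement : Prop :=
  ∀ (Λ : Type u) [CommRing Λ] [IsDomain Λ] [IsPrincipalIdealRing Λ]
    (C : Type v) [CommRing C] [IsDomain C] [Algebra Λ C] (n : ℕ) (b : Module.Basis (Fin n) Λ C),
    Algebra.discr Λ b ≠ 0 →
    (∀ t : Λ, Prime t → ∃ (s : ℕ) (y : Fin s → C),
      (∀ c : C, ∃ a : Fin s → Λ,
        c - ∑ i, a i • y i ∈ (Ideal.span {algebraMap Λ C t}).radical) ∧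
      ¬ t ^ (n - s + 1) ∣ Algebra.discr Λ b) →
    IsIntegrallyClosed C

/-- **A9 (regularity along a Dedekind special fibre).**  If `B/ϖB` is a Dedekind domain then
every maximal ideal `𝔪 ∋ ϖ` of `B` is locally generated by `ϖ` and one more element. -/
def RegularAlongOfDedekindStatement : Prop :=
  ∀ (B : Type u) [CommRing B] (ϖ : B), IsDedekindDomain (B ⧸ Ideal.span {ϖ}) →
    ∀ 𝔪 : Ideal B, 𝔪.IsMaximal → ϖ ∈ 𝔪 →
      ∃ t ∈ 𝔪, ∀ a ∈ 𝔪, ∃ s : B, s ∉ 𝔪 ∧ s * a ∈ Ideal.span {ϖ, t}

/-- **OUTPUT O1 (b2, regular form; concrete).**  As `B2Statement`, plus `hdom`: `w` is prime in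
`B` (the special fibre is a domain; QEP).  Conclusion = `H754.RegularAlong (C w)`, unfolded. -/
def B2RegularStatement : Prop :=
  ∀ (R : Type u) [CommRing R] [IsDomain R] [IsDiscreteValuationRing R] [CharZero R]
    (w : R) (_ : Irreducible w)
    (B : Type v) [CommRing B] [IsDomain B] [IsIntegrallyClosed B] [Algebra R[X] B]
    [Module.Finite R[X] B] [Module.IsTorsionFree R[X] B]
    (_ : Prime (algebraMap R[X] B (C w)))
    (_ : ∃ x : Fin (Module.finrank R[X] B) → B,
        ¬ C w ∣ (Matrix.of fun i j => Algebra.intTrace R[X] B (x i * x j)).det)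
    (S : Finset R) (_ : ∀ c ∈ S, ∀ c' ∈ S, c ≠ c' → IsUnit (c - c'))
    (_ : ∀ π : R[X], Prime π → ¬ Associated π (C w) → (∀ c ∈ S, ¬ Associated π (X - C c)) →
        (Ideal.span {algebraMap R[X] B π}).IsRadical)
    (𝔪 : Ideal B), 𝔪.IsMaximal → algebraMap R[X] B (C w) ∈ 𝔪 →
      ∃ t ∈ 𝔪, ∀ a ∈ 𝔪, ∃ s : B, s ∉ 𝔪 ∧
        s * a ∈ Ideal.span {algebraMap R[X] B (C w), t}

end Fermat.Agent.S18.B12

end
end
-- ===== PACK-END S18/B12/Spec3.lean

-- ===== PACK-BEGIN S18/H203/QuotFree.lean
section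


/-!
# S18 / b1 (helper203): the special fibre `B / w B` is free over `S / w S`

`S` an integrally closed domain, `w ∈ S` prime, `F / Frac S` a field extension, `B` the integral
closure of `S` in `F`.  Put `S̄ := S ⧸ (w)` and `B̄ := B ⧸ (w) B` (Mathlib instance
`Ideal.Quotient.algebraQuotientMapQuotient : Algebra S̄ B̄`).

* `isTorsionFree_quotient` : `B̄` is a torsion-free `S̄`-module.
* `finite_quotient`        : `B̄` is a finite `S̄`-module if `B` is a finite `S`-module.
* `free_quotient`          : `B̄` is a free `S̄`-module if moreover `S̄` is a PID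
  (application: `S = R[x]`, `R` a DVR with uniformiser `w`, `S̄ = κ[x]`).
-/

set_option autoImplicit false

namespace Fermat.Agent.S18.H203

open Ideal

section

variable {S B : Type*} [CommRing S] [IsDomain S] [IsIntegrallyClosed S]
  [CommRing B] [Algebra S B]

omit [IsDomain S] [IsIntegrallyClosed S] in
/-- `(w) B` is the principal ideal generated by the image of `w`. -/
theorem map_span_singleton_eq (w : S) :
    (Ideal.span {w}).map (algebraMap S B) = Ideal.span {algebraMap S B w} := by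
  rw [Ideal.map_span, Set.image_singleton]

omit [IsDomain S] [IsIntegrallyClosed S] in
/-- membership in `(w) B` is divisibility by `w`. -/
theorem mem_map_span_singleton_iff (w : S) (b : B) :
    b ∈ (Ideal.span {w}).map (algebraMap S B) ↔ algebraMap S B w ∣ b := by
  rw [map_span_singleton_eq, Ideal.mem_span_singleton]

/-- **b1, torsion-freeness of the special fibre.** -/
theorem isTorsionFree_quotient (K F : Type*) [Field K] [Algebra S K] [IsFractionRing S K]
    [Field F] [Algebra K F] [Algebra S F] [IsScalarTower S K F]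
    [Algebra B F] [IsScalarTower S B F] [IsIntegralClosure B S F]
    {w : S} (hw : Prime w) :
    Module.IsTorsionFree (S ⧸ Ideal.span {w}) (B ⧸ (Ideal.span {w}).map (algebraMap S B)) := by
  have : (Ideal.span {w}).IsPrime := (Ideal.span_singleton_prime hw.ne_zero).mpr hw
  refine ⟨fun r hr => ?_⟩
  obtain ⟨t, rfl⟩ := Ideal.Quotient.mk_surjective r
  have ht : ¬ w ∣ t := by
    intro hdvd
    have h0 : (Ideal.Quotient.mk (Ideal.span {w}) t) = 0 := by
      rw [Ideal.Quotient.eq_zero_iff_mem, Ideal.mem_span_singleton]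
      exact hdvd
    exact hr.ne_zero h0
  intro x y hxy
  obtain ⟨x, rfl⟩ := Ideal.Quotient.mk_surjective x
  obtain ⟨y, rfl⟩ := Ideal.Quotient.mk_surjective y
  simp only [Ideal.Quotient.mk_smul_mk_quotient_map_quotient] at hxy
  rw [Ideal.Quotient.eq, ← mul_sub, mem_map_span_singleton_iff] at hxy
  rw [Ideal.Quotient.eq, mem_map_span_singleton_iff]
  exact dvd_of_dvd_mul K F hw ht hxy

omit [IsDomain S] [IsIntegrallyClosed S] in
/-- The special fibre is a finite module. -/
theorem finite_quotient [Module.Finite S B] (I : Ideal S) :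
    Module.Finite (S ⧸ I) (B ⧸ I.map (algebraMap S B)) := by
  have : Module.Finite S (B ⧸ I.map (algebraMap S B)) :=
    Module.Finite.of_surjective (Ideal.Quotient.mkₐ S (I.map (algebraMap S B))).toLinearMap
      (Ideal.Quotient.mkₐ_surjective S _)
  exact Module.Finite.of_restrictScalars_finite S (S ⧸ I) (B ⧸ I.map (algebraMap S B))

/-- **b1, freeness of the special fibre.** -/
theorem free_quotient (K F : Type*) [Field K] [Algebra S K] [IsFractionRing S K]
    [Field F] [Algebra K F] [Algebra S F] [IsScalarTower S K F]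
    [Algebra B F] [IsScalarTower S B F] [IsIntegralClosure B S F] [Module.Finite S B]
    {w : S} (hw : Prime w) [IsPrincipalIdealRing (S ⧸ Ideal.span {w})] :
    Module.Free (S ⧸ Ideal.span {w}) (B ⧸ (Ideal.span {w}).map (algebraMap S B)) := by
  have : (Ideal.span {w}).IsPrime := (Ideal.span_singleton_prime hw.ne_zero).mpr hw
  have := isTorsionFree_quotient (B := B) K F hw
  have := finite_quotient (B := B) (Ideal.span {w})
  exact Module.free_of_finite_type_torsion_free'

end

end Fermat.Agent.S18.H203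

end
-- ===== PACK-END S18/H203/QuotFree.lean

-- ===== PACK-BEGIN S18/B12/H278/Transfer.lean
section


/-!
# b2-SF core over a PID (helper278)

`Λ` a PID, `t` a prime element, `C` a finite free commutative `Λ`-algebra with basis `b`,
`f : C →ₐ[Λ] L` an injective map into a commutative `Λ`-algebra without `Λ`-torsion.
If `C / rad(tC)` is spanned by `s` elements over `Λ` and `t ^ (n - s + 1) ∤ disc(b)`, then every
`x : L` integral over `Λ` with `g₀ • x ∈ C` for some `g₀ ≠ 0` satisfies `g • x ∈ C` for some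
`g ∉ (t)`:  **`C` is integrally closed in `L ∩ (C ⊗ Frac Λ)` locally at `t`**.

Proof: localise at `(t)` and apply the DVR criterion `mem_range_of_isIntegral` of
`Fermat/Agent/S37/H278/Normal.lean`.
-/

set_option autoImplicit false
set_option linter.style.haveILetI false
set_option linter.unusedSectionVars false

namespace Fermat.Agent.S18.B12.H278

open Module Polynomial Fermat.Agent.S37.H278

section Transfer

variable {Λ : Type*} [CommRing Λ] [IsDomain Λ] [IsPrincipalIdealRing Λ]
  {C : Type*} [CommRing C] [Algebra Λ C]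
  {L : Type*} [CommRing L] [Algebra Λ L]

/-- Divisibility by powers of `t` can be tested in the localisation at `(t)`. -/
theorem pow_dvd_of_pow_dvd_algebraMap {t : Λ} (ht : Prime t) (P : Ideal Λ) [P.IsPrime]
    (hP : P = Ideal.span {t})
    (o : Type*) [CommRing o] [Algebra Λ o] [IsLocalization.AtPrime o P] (k : ℕ) (d : Λ)
    (h : algebraMap Λ o t ^ k ∣ algebraMap Λ o d) : t ^ k ∣ d := by
  obtain ⟨e, he⟩ := h
  obtain ⟨⟨a, g⟩, hag⟩ := IsLocalization.surj P.primeCompl e
  simp only at hag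
  have hinj : Function.Injective (algebraMap Λ o) :=
    IsLocalization.injective o (Ideal.primeCompl_le_nonZeroDivisors P)
  have h1 : g.1 * d = t ^ k * a := by
    apply hinj
    rw [map_mul, map_mul, map_pow, he, ← hag]
    ring
  have hg : ¬ t ∣ g.1 := by
    intro hdiv
    exact g.2 (hP.ge (Ideal.mem_span_singleton.mpr hdiv))
  exact ht.pow_dvd_of_dvd_mul_left k hg ⟨a, h1⟩

/-- The image of `t` is a uniformiser of the localisation at `(t)`. -/
theorem irreducible_algebraMap_of_atPrime {t : Λ} (P : Ideal Λ) [P.IsPrime]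
    (hP : P = Ideal.span {t})
    (o : Type*) [CommRing o] [IsDomain o] [IsDiscreteValuationRing o] [Algebra Λ o]
    [IsLocalization.AtPrime o P] : Irreducible (algebraMap Λ o t) := by
  rw [IsDiscreteValuationRing.irreducible_iff_uniformizer,
    ← IsLocalization.AtPrime.map_eq_maximalIdeal P o, hP, Ideal.map_span, Set.image_singleton]

/-- Transfer of the spanning hypothesis to the localisation. -/
theorem sup_eq_top_of_atPrime {t : Λ} (P : Ideal Λ) [P.IsPrime]
    (o : Type*) [CommRing o] [Algebra Λ o] [IsLocalization.AtPrime o P]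
    (C' : Type*) [CommRing C'] [Algebra C C'] [Algebra o C'] [Algebra Λ C']
    [IsScalarTower Λ o C'] [IsScalarTower Λ C C']
    [IsLocalization (Algebra.algebraMapSubmonoid C P.primeCompl) C']
    (s : ℕ) (y : Fin s → C)
    (hy : ∀ x : C, ∃ a : Fin s → Λ,
        x - ∑ i, a i • y i ∈ (Ideal.span {algebraMap Λ C t}).radical) :
    ((Ideal.span {algebraMap o C' (algebraMap Λ o t)}).radical.restrictScalars o) ⊔
        Submodule.span o (Set.range fun i => algebraMap C C' (y i)) = ⊤ := by
  rw [eq_top_iff]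
  intro c' _
  obtain ⟨⟨c, m⟩, hcm⟩ := IsLocalization.surj (Algebra.algebraMapSubmonoid C P.primeCompl) c'
  obtain ⟨g, hg, hgm⟩ := m.2
  simp only at hcm
  -- `algebraMap g` is a unit of `o`
  obtain ⟨v, hv⟩ := (IsLocalization.map_units o (⟨g, hg⟩ : P.primeCompl)).exists_right_inv
  simp only at hv
  have hc' : c' = v • algebraMap C C' c := by
    rw [← hcm, ← hgm, ← IsScalarTower.algebraMap_apply, IsScalarTower.algebraMap_apply Λ o C',
      Algebra.smul_def, mul_comm c', ← mul_assoc, ← map_mul, mul_comm v, hv, map_one, one_mul]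
  rw [hc']
  refine Submodule.smul_mem _ _ ?_
  obtain ⟨a, ha⟩ := hy c
  have h1 : algebraMap C C' c =
      algebraMap C C' (c - ∑ i, a i • y i) + ∑ i, algebraMap Λ o (a i) • algebraMap C C' (y i) := by
    rw [map_sub, map_sum]
    have : ∀ i, algebraMap C C' (a i • y i) = algebraMap Λ o (a i) • algebraMap C C' (y i) := by
      intro i
      rw [Algebra.smul_def, map_mul, Algebra.smul_def, ← IsScalarTower.algebraMap_apply,
        ← IsScalarTower.algebraMap_apply]
    simp only [this]
    ring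
  rw [h1]
  refine Submodule.add_mem_sup ?_ ?_
  · show algebraMap C C' (c - ∑ i, a i • y i) ∈
      (Ideal.span {algebraMap o C' (algebraMap Λ o t)}).radical
    have h2 := Ideal.map_radical_le (algebraMap C C') (Ideal.mem_map_of_mem (algebraMap C C') ha)
    rw [Ideal.map_span, Set.image_singleton, ← IsScalarTower.algebraMap_apply,
      IsScalarTower.algebraMap_apply Λ o C'] at h2
    exact h2
  · refine Submodule.sum_mem _ fun i _ => Submodule.smul_mem _ _ (Submodule.subset_span ⟨i, rfl⟩)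

/-- Main transfer theorem, with abstract localisations `o = Λ_(t)`, `C' = C_(t)`,
`L' = C' ⊗ Frac o`. -/
theorem exists_smul_mem_range_aux {t : Λ} (ht : Prime t) (P : Ideal Λ) [P.IsPrime]
    (hP : P = Ideal.span {t})
    (o : Type*) [CommRing o] [IsDomain o] [IsDiscreteValuationRing o] [Algebra Λ o]
    [IsLocalization.AtPrime o P]
    (C' : Type*) [CommRing C'] [Algebra C C'] [Algebra o C'] [Algebra Λ C']
    [IsScalarTower Λ o C'] [IsScalarTower Λ C C']
    [IsLocalization (Algebra.algebraMapSubmonoid C P.primeCompl) C']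
    (L' : Type*) [CommRing L'] [Algebra o L'] [Algebra C' L']
    [IsScalarTower o C' L']
    [IsLocalization (Algebra.algebraMapSubmonoid C' (nonZeroDivisors o)) L']
    (hL : ∀ (g : Λ) (l : L), g ≠ 0 → g • l = 0 → l = 0)
    (f : C →ₐ[Λ] L) (hf : Function.Injective f)
    {ι : Type*} [Fintype ι] [DecidableEq ι] (b : Basis ι Λ C) (s : ℕ) (y : Fin s → C)
    (hy : ∀ x : C, ∃ a : Fin s → Λ,
        x - ∑ i, a i • y i ∈ (Ideal.span {algebraMap Λ C t}).radical)
    (hd : ¬ t ^ (Fintype.card ι - s + 1) ∣ Algebra.discr Λ b)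
    (x : L) (hx : IsIntegral Λ x) (hx0 : ∃ g₀ : Λ, g₀ ≠ 0 ∧ g₀ • x ∈ f.range) :
    ∃ g : Λ, ¬ t ∣ g ∧ g • x ∈ f.range := by
  classical
  -- `L'` is an algebra over `K = Frac o`
  have hunitK : ∀ z : nonZeroDivisors o, IsUnit (algebraMap o L' z) := by
    intro z
    rw [IsScalarTower.algebraMap_apply o C' L']
    exact IsLocalization.map_units L' (⟨algebraMap o C' z, ⟨z, z.2, rfl⟩⟩ :
      Algebra.algebraMapSubmonoid C' (nonZeroDivisors o))
  letI : Algebra (FractionRing o) L' :=
    (IsLocalization.lift (M := nonZeroDivisors o) (g := algebraMap o L') hunitK).toAlgebra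
  haveI : IsScalarTower o (FractionRing o) L' :=
    IsScalarTower.of_algebraMap_eq (fun z => (IsLocalization.lift_eq hunitK z).symm)
  obtain ⟨g₀, hg₀, c₀, hc₀'⟩ := hx0
  have hc₀ : f c₀ = g₀ • x := hc₀'
  obtain ⟨p, hpm, hpx⟩ := hx
  let b' : Basis ι o C' := b.localizationLocalization o P.primeCompl C'
  haveI : Module.Free o C' := Module.Free.of_basis b'
  haveI : Module.Finite o C' := Module.Finite.of_basis b'
  haveI : Module.Free Λ C := Module.Free.of_basis b
  have ht' : Irreducible (algebraMap Λ o t) := irreducible_algebraMap_of_atPrime P hP o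
  have hu' := sup_eq_top_of_atPrime (t := t) P o C' s y hy
  have hd' : ¬ algebraMap Λ o t ^ (Fintype.card ι - s + 1) ∣ Algebra.discr o b' := by
    rw [Algebra.discr_localizationLocalization Λ P.primeCompl C' b]
    exact fun h => hd (pow_dvd_of_pow_dvd_algebraMap ht P hP o _ _ h)
  -- the maps
  have hinjΛo : Function.Injective (algebraMap Λ o) :=
    IsLocalization.injective o (Ideal.primeCompl_le_nonZeroDivisors P)
  have hinjC : Function.Injective (algebraMap C C') := by
    apply IsLocalization.injective C' (M := Algebra.algebraMapSubmonoid C P.primeCompl)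
    rintro _ ⟨g, hg, rfl⟩
    rw [mem_nonZeroDivisors_iff_right]
    intro c hc
    have hg0 : g ≠ 0 := fun h => hg (h ▸ P.zero_mem)
    apply smul_eq_zero_imp hg0
    rw [Algebra.smul_def, mul_comm]
    exact hc
  have hinjC' : Function.Injective (algebraMap C' L') := algebraMap_injective_of_free (o := o) L'
  let φ : C →+* L' := (algebraMap C' L').comp (algebraMap C C')
  have hφ : Function.Injective φ := hinjC'.comp hinjC
  let ψ : Λ →+* L' := φ.comp (algebraMap Λ C)
  have hψ : ∀ a, ψ a = algebraMap o L' (algebraMap Λ o a) := by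
    intro a
    show algebraMap C' L' (algebraMap C C' (algebraMap Λ C a)) = _
    rw [← IsScalarTower.algebraMap_apply Λ C C', IsScalarTower.algebraMap_apply Λ o C',
      ← IsScalarTower.algebraMap_apply o C' L']
  have hunit : IsUnit (ψ g₀) := by
    have hmem : algebraMap o C' (algebraMap Λ o g₀) ∈
        Algebra.algebraMapSubmonoid C' (nonZeroDivisors o) :=
      ⟨algebraMap Λ o g₀, mem_nonZeroDivisors_of_ne_zero
        (fun h => hg₀ (hinjΛo (by rw [h, map_zero]))), rfl⟩
    have := IsLocalization.map_units L' (⟨_, hmem⟩ :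
      Algebra.algebraMapSubmonoid C' (nonZeroDivisors o))
    rw [hψ, IsScalarTower.algebraMap_apply o C' L']
    exact this
  obtain ⟨w, hw⟩ := hunit.exists_left_inv
  -- the element `x' = c₀ / g₀` of `L'`
  set x' : L' := w * φ c₀ with hx'
  have hgx' : ψ g₀ * x' = φ c₀ := by
    rw [hx', ← mul_assoc, mul_comm (ψ g₀), hw, one_mul]
  -- `c₀` is a root of the scaled polynomial
  have hq : eval₂ (algebraMap Λ C) c₀ (scaleRoots p g₀) = 0 := by
    apply hf
    rw [map_zero]
    have h1 : f (eval₂ (algebraMap Λ C) c₀ (scaleRoots p g₀)) =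
        eval₂ (algebraMap Λ L) (f c₀) (scaleRoots p g₀) := by
      rw [← Polynomial.aeval_def, ← Polynomial.aeval_def, Polynomial.aeval_algHom_apply]
    rw [h1, hc₀, Algebra.smul_def, scaleRoots_eval₂_mul, hpx, mul_zero]
  have hx'int : IsIntegral o x' := by
    refine ⟨p.map (algebraMap Λ o), hpm.map _, ?_⟩
    rw [eval₂_map]
    have h2 : eval₂ ((algebraMap o L').comp (algebraMap Λ o)) x' p = eval₂ ψ x' p := by
      congr 1
      ext a
      exact (hψ a).symm
    rw [h2]
    have h3 : ψ g₀ ^ p.natDegree * eval₂ ψ x' p = 0 := by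
      rw [← scaleRoots_eval₂_mul, hgx']
      have : eval₂ ψ (φ c₀) (scaleRoots p g₀) = φ (eval₂ (algebraMap Λ C) c₀ (scaleRoots p g₀)) := by
        rw [Polynomial.hom_eval₂]
      rw [this, hq, map_zero]
    have hu2 : IsUnit (ψ g₀ ^ p.natDegree) := hunit.pow _
    exact (hu2.mul_right_eq_zero).mp h3
  -- apply the DVR criterion
  obtain ⟨c', hc'⟩ := mem_range_of_isIntegral (K := FractionRing o) ht' b' s
    (fun i => algebraMap C C' (y i)) hu' hd' x' hx'int
  obtain ⟨⟨c, m⟩, hcm⟩ := IsLocalization.surj (Algebra.algebraMapSubmonoid C P.primeCompl) c'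
  obtain ⟨g, hg, hgm⟩ := m.2
  simp only at hcm
  refine ⟨g, fun hdiv => hg (hP.ge (Ideal.mem_span_singleton.mpr hdiv)), c, ?_⟩
  -- `g • c₀ = g₀ • c` in `C`
  have hkey : g • c₀ = g₀ • c := by
    apply hφ
    have e1 : φ (g • c₀) = ψ g * φ c₀ := by
      rw [Algebra.smul_def, map_mul]; rfl
    have e2 : φ (g₀ • c) = ψ g₀ * φ c := by
      rw [Algebra.smul_def, map_mul]; rfl
    have e3 : φ c = x' * ψ g := by
      show algebraMap C' L' (algebraMap C C' c) = _
      rw [← hcm, map_mul, hc', ← hgm]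
      rfl
    rw [e1, e2, e3, ← hgx']
    ring
  show f c = g • x
  have hfin : g₀ • (f c - g • x) = 0 := by
    rw [smul_sub, smul_comm g₀ g x, ← hc₀, ← map_smul, ← map_smul, hkey, sub_self]
  exact sub_eq_zero.mp (hL g₀ _ hg₀ hfin)

/-- **Normality criterion over a PID, local at a prime `t`.**
`C` finite free `Λ`-algebra with basis `b`, `f : C → L` injective, `L` without `Λ`-torsion.  If
`C / rad(tC)` is spanned by `s` elements and `t ^ (n - s + 1) ∤ disc(b)`, then every `x : L`
integral over `Λ` which is a fraction of an element of `C` lies in `C` locally at `t`. -/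
theorem exists_smul_mem_range_of_isIntegral {t : Λ} (ht : Prime t)
    (hL : ∀ (g : Λ) (l : L), g ≠ 0 → g • l = 0 → l = 0)
    (f : C →ₐ[Λ] L) (hf : Function.Injective f)
    {ι : Type*} [Fintype ι] [DecidableEq ι] (b : Basis ι Λ C) (s : ℕ) (y : Fin s → C)
    (hy : ∀ x : C, ∃ a : Fin s → Λ,
        x - ∑ i, a i • y i ∈ (Ideal.span {algebraMap Λ C t}).radical)
    (hd : ¬ t ^ (Fintype.card ι - s + 1) ∣ Algebra.discr Λ b)
    (x : L) (hx : IsIntegral Λ x) (hx0 : ∃ g₀ : Λ, g₀ ≠ 0 ∧ g₀ • x ∈ f.range) :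
    ∃ g : Λ, ¬ t ∣ g ∧ g • x ∈ f.range := by
  haveI hP : (Ideal.span {t} : Ideal Λ).IsPrime := (Ideal.span_singleton_prime ht.ne_zero).mpr ht
  haveI : IsDiscreteValuationRing (Localization.AtPrime (Ideal.span {t} : Ideal Λ)) :=
    IsLocalization.AtPrime.isDiscreteValuationRing_of_dedekind_domain Λ
      (P := Ideal.span {t}) (by
        rw [Ne, Ideal.span_singleton_eq_bot]; exact ht.ne_zero) _
  exact exists_smul_mem_range_aux ht (Ideal.span {t}) rfl
    (Localization.AtPrime (Ideal.span {t} : Ideal Λ))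
    (Localization (Algebra.algebraMapSubmonoid C (Ideal.span {t} : Ideal Λ).primeCompl))
    (Localization (Algebra.algebraMapSubmonoid
      (Localization (Algebra.algebraMapSubmonoid C (Ideal.span {t} : Ideal Λ).primeCompl))
      (nonZeroDivisors (Localization.AtPrime (Ideal.span {t} : Ideal Λ)))))
    hL f hf b s y hy hd x hx hx0

end Transfer

end Fermat.Agent.S18.B12.H278

end
-- ===== PACK-END S18/B12/H278/Transfer.lean

-- ===== PACK-BEGIN S18/H754/HncMain.lean
section


/-!
# S18 / ALG-FRONT / hNC adapter, main theorem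

`B` Noetherian normal domain inside a field `Ω`, `Lc ≤ Ω` a subfield of constants,
`π = lc * ∏_{c ∈ roots} (x - c)` in `Ω` with pairwise distinct `c ∈ Lc ∖ S`, `lc ∈ Lc ∖ {0}`.
Hypotheses:
* `hw`/`hLc`  : some `w ∈ B` lies in no height-one prime containing `π`, and every constant
  becomes integral over `B` after multiplication by a power of `w` (so `Lc ⊆ O` for every
  valuation ring `O` of `Ω` dominating `B_𝔓`);
* `hunr`     : the `unramified` field of `Alg.GoodModel`, verbatim.
Conclusion: `(π)` is a radical ideal of `B`  (= hypothesis `hNC` of `B12.B2RegularStatement`).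
-/

set_option autoImplicit false

noncomputable section

namespace Fermat.Agent.S18.H754

section Main

variable {B : Type*} [CommRing B] [IsDomain B] [IsNoetherianRing B] [IsIntegrallyClosed B]
  {Ω : Type*} [Field Ω] [Algebra B Ω] [FaithfulSMul B Ω]

omit [IsDomain B] [IsNoetherianRing B] [IsIntegrallyClosed B] [FaithfulSMul B Ω] in
/-- elements integral over `B` lie in every valuation subring containing `B`. -/
theorem mem_valuationSubring_of_isIntegral (O : ValuationSubring Ω)
    (hB : ∀ b : B, algebraMap B Ω b ∈ O) {a : Ω} (ha : IsIntegral B a) : a ∈ O := by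
  obtain ⟨P, hP, hPa⟩ := ha
  let g : B →+* O := (algebraMap B Ω).codRestrict O.toSubring hB
  have hint : IsIntegral O a := by
    refine ⟨P.map g, hP.map g, ?_⟩
    rw [Polynomial.eval₂_map]
    exact hPa
  obtain ⟨y, hy⟩ := IsIntegrallyClosed.isIntegral_iff.1 hint
  rw [← hy]
  exact y.2

/-- **hNC adapter** (abstract form). -/
theorem isRadical_span_of_unramified (Lc : Subfield Ω) (π : B) (hπ : π ≠ 0)
    (w : B) (hw : ∀ 𝔓 : Ideal B, 𝔓.IsPrime → 𝔓.height = 1 → π ∈ 𝔓 → w ∉ 𝔓)
    (hLc : ∀ a ∈ Lc, ∃ n : ℕ, IsIntegral B (algebraMap B Ω w ^ n * a))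
    (x : Ω) (S : Finset Ω) (roots : Finset Ω) (hroots : ∀ c ∈ roots, c ∈ Lc ∧ c ∉ S)
    (lc : Ω) (hlc : lc ∈ Lc) (hlc0 : lc ≠ 0)
    (hfac : algebraMap B Ω π = lc * ∏ c ∈ roots, (x - c))
    (hunr : ∀ O : ValuationSubring Ω, (∀ a ∈ Lc, a ∈ O) → ∀ c ∈ Lc, c ∉ S →
        x - c ∈ O → (x - c)⁻¹ ∉ O → ∀ t ∈ O, t⁻¹ ∉ O → t * (x - c)⁻¹ ∈ O) :
    (Ideal.span {π}).IsRadical := by
  classical
  have hinj : Function.Injective (algebraMap B Ω) := FaithfulSMul.algebraMap_injective B Ω
  refine isRadical_span_singleton_of_local_gen π hπ ?_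
  intro 𝔓 h𝔓 hht hπ𝔓 b hb𝔓
  haveI := h𝔓
  by_cases hb0 : b = 0
  · refine ⟨1, ?_, ?_⟩
    · exact fun h1 => h𝔓.ne_top ((Ideal.eq_top_iff_one _).2 h1)
    · rw [hb0, mul_zero]; exact dvd_zero _
  obtain ⟨O, hBO, hunitO, hnonunitO⟩ := exists_valuationSubring_dominating (Ω := Ω) 𝔓
  set v := O.valuation with hv
  have hvle : ∀ y : Ω, v y ≤ 1 ↔ y ∈ O := fun y => O.valuation_le_one_iff y
  -- valuations of elements of `B`
  have hvB : ∀ b : B, v (algebraMap B Ω b) ≤ 1 := fun b => (hvle _).2 (hBO b)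
  have hvunit : ∀ b : B, b ∉ 𝔓 → v (algebraMap B Ω b) = 1 := by
    intro b hb
    have hb0 : algebraMap B Ω b ≠ 0 := by
      intro h0
      have : b = 0 := hinj (by rw [h0, map_zero])
      exact hb (this ▸ 𝔓.zero_mem)
    have h1 := (hvle _).2 (hunitO b hb)
    rw [map_inv₀] at h1
    have h2 := hvB b
    have hne : v (algebraMap B Ω b) ≠ 0 := (Valuation.ne_zero_iff v).2 hb0
    have h3 : 1 ≤ v (algebraMap B Ω b) := by
      rwa [inv_le_one₀ (zero_lt_iff.2 hne)] at h1
    exact le_antisymm h2 h3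
  have hvlt : ∀ b : B, b ∈ 𝔓 → v (algebraMap B Ω b) < 1 := by
    intro b hb
    by_cases hb0 : b = 0
    · rw [hb0, map_zero, map_zero]; exact zero_lt_one
    have hb0' : algebraMap B Ω b ≠ 0 := fun h0 => hb0 (hinj (by rw [h0, map_zero]))
    have h1 := hnonunitO b hb hb0
    rw [← hvle, map_inv₀, not_le] at h1
    have hne : v (algebraMap B Ω b) ≠ 0 := (Valuation.ne_zero_iff v).2 hb0'
    exact (one_lt_inv₀ (zero_lt_iff.2 hne)).1 h1
  -- constants lie in `O`
  have hLcO : ∀ a ∈ Lc, a ∈ O := by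
    intro a ha
    obtain ⟨n, hn⟩ := hLc a ha
    have h1 : algebraMap B Ω w ^ n * a ∈ O := mem_valuationSubring_of_isIntegral O hBO hn
    have hw𝔓 := hw 𝔓 h𝔓 hht hπ𝔓
    have h2 : v (algebraMap B Ω w ^ n * a) ≤ 1 := (hvle _).2 h1
    rw [map_mul, map_pow, hvunit w hw𝔓, one_pow, one_mul] at h2
    exact (hvle _).1 h2
  have hvLc : ∀ a ∈ Lc, a ≠ 0 → v a = 1 := by
    intro a ha ha0
    have h1 : v a ≤ 1 := (hvle _).2 (hLcO a ha)
    have h2 : v a⁻¹ ≤ 1 := (hvle _).2 (hLcO _ (Lc.inv_mem ha))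
    rw [map_inv₀] at h2
    have hne : v a ≠ 0 := (Valuation.ne_zero_iff v).2 ha0
    have h3 : 1 ≤ v a := by rwa [inv_le_one₀ (zero_lt_iff.2 hne)] at h2
    exact le_antisymm h1 h3
  -- the valuation of `π`
  have hπ0 : algebraMap B Ω π ≠ 0 := fun h0 => hπ (hinj (by rw [h0, map_zero]))
  have hvπ : v (algebraMap B Ω π) < 1 := hvlt π hπ𝔓
  have hprod : v (algebraMap B Ω π) = ∏ c ∈ roots, v (x - c) := by
    rw [hfac, map_mul, hvLc lc hlc hlc0, one_mul, map_prod]
  have hfactor0 : ∀ c ∈ roots, x - c ≠ 0 := by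
    intro c hc h0
    apply hπ0
    rw [hfac, Finset.prod_eq_zero hc h0, mul_zero]
  -- `x ∈ O`
  have hxO : v x ≤ 1 := by
    by_contra hx
    rw [not_le] at hx
    have h1 : ∀ c ∈ roots, 1 ≤ v (x - c) := by
      intro c hc
      have hcv : v c ≤ 1 := (hvle _).2 (hLcO c (hroots c hc).1)
      have : v (x - c) = v x := Valuation.map_sub_eq_of_lt_left v (lt_of_le_of_lt hcv hx)
      rw [this]
      exact hx.le
    have h2 : 1 ≤ ∏ c ∈ roots, v (x - c) := Finset.one_le_prod' h1
    rw [← hprod] at h2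
    exact absurd hvπ (not_lt.2 h2)
  have hfle : ∀ c ∈ roots, v (x - c) ≤ 1 := by
    intro c hc
    have hcv : v c ≤ 1 := (hvle _).2 (hLcO c (hroots c hc).1)
    exact (Valuation.map_sub v x c).trans (max_le hxO hcv)
  -- some factor is a non-unit
  have hex : ∃ c₀ ∈ roots, v (x - c₀) < 1 := by
    by_contra hcon
    have h1 : ∀ c ∈ roots, v (x - c) = 1 := by
      intro c hc
      by_contra hne
      exact hcon ⟨c, hc, lt_of_le_of_ne (hfle c hc) hne⟩
    rw [hprod, Finset.prod_eq_one h1] at hvπ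
    exact lt_irrefl _ hvπ
  obtain ⟨c₀, hc₀, hvc₀⟩ := hex
  have hother : ∀ c ∈ roots.erase c₀, v (x - c) = 1 := by
    intro c hc
    rw [Finset.mem_erase] at hc
    have h1 : x - c = (x - c₀) + (c₀ - c) := by ring
    have h2 : v (c₀ - c) = 1 :=
      hvLc _ (Lc.sub_mem (hroots c₀ hc₀).1 (hroots c hc.2).1) (sub_ne_zero.2 (Ne.symm hc.1))
    rw [h1, Valuation.map_add_eq_of_lt_right v (by rw [h2]; exact hvc₀), h2]
  have hvπ' : v (algebraMap B Ω π) = v (x - c₀) := by
    rw [hprod, ← Finset.mul_prod_erase roots _ hc₀, Finset.prod_eq_one hother, mul_one]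
  -- apply `unramified`
  have hkey : ∀ t : Ω, t ≠ 0 → v t < 1 → v t ≤ v (algebraMap B Ω π) := by
    intro t ht0 hvt
    have hc₀0 := hfactor0 c₀ hc₀
    have hne : v (x - c₀) ≠ 0 := (Valuation.ne_zero_iff v).2 hc₀0
    have hnet : v t ≠ 0 := (Valuation.ne_zero_iff v).2 ht0
    have h1 : (x - c₀)⁻¹ ∉ O := by
      rw [← hvle, map_inv₀, not_le]
      exact (one_lt_inv₀ (zero_lt_iff.2 hne)).2 hvc₀
    have h2 : t⁻¹ ∉ O := by
      rw [← hvle, map_inv₀, not_le]
      exact (one_lt_inv₀ (zero_lt_iff.2 hnet)).2 hvt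
    have h3 := hunr O hLcO c₀ (hroots c₀ hc₀).1 (hroots c₀ hc₀).2
      ((hvle _).1 hvc₀.le) h1 t ((hvle _).1 hvt.le) h2
    rw [← hvle, map_mul, map_inv₀] at h3
    rw [hvπ']
    rwa [← div_eq_mul_inv, div_le_one₀ (zero_lt_iff.2 hne)] at h3
  -- `B_𝔓` is a valuation ring
  have hb0' : algebraMap B Ω b ≠ 0 := fun h0 => hb0 (hinj (by rw [h0, map_zero]))
  obtain ⟨s, hs, hd | hd⟩ := exists_dvd_or_dvd_of_height_one 𝔓 hht b π
  · exact ⟨s, hs, hd⟩
  · obtain ⟨d, hd⟩ := hd
    -- `s π = b d`, so `v d = v π / v b ≥ 1`, so `d ∉ 𝔓`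
    have h1 : v (algebraMap B Ω π) = v (algebraMap B Ω b) * v (algebraMap B Ω d) := by
      have := congrArg (fun y => v (algebraMap B Ω y)) hd
      simp only [map_mul] at this
      rwa [hvunit s hs, one_mul] at this
    have h2 := hkey _ hb0' (hvlt b hb𝔓)
    have hd𝔓 : d ∉ 𝔓 := by
      intro hd𝔓
      have h3 := hvlt d hd𝔓
      have hnb : v (algebraMap B Ω b) ≠ 0 := (Valuation.ne_zero_iff v).2 hb0'
      have h4 : v (algebraMap B Ω b) * v (algebraMap B Ω d) < v (algebraMap B Ω b) * 1 :=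
        mul_lt_mul_of_pos_left h3 (zero_lt_iff.2 hnb)
      rw [mul_one, ← h1] at h4
      exact absurd h2 (not_le.2 h4)
    refine ⟨d, hd𝔓, s, ?_⟩
    rw [mul_comm d b, ← hd, mul_comm]

end Main

end Fermat.Agent.S18.H754

end

end
-- ===== PACK-END S18/H754/HncMain.lean

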