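import Mathlib
import Fermat.Prelude.Def_EllipticCurve_FrobeniusTrace
import Fermat.Prelude.Def_AlgebraicCurve_DivisorClassGroup
import Fermat.Prelude.Def_ModularCurve_X0ModL
import Fermat.Prelude.Def_ModularCurve_ReductionModL
import Fermat.Agent.Pack.S3234.G0E3L1
import Fermat.Agent.Pack.S3234.G0E0L0
import Fermat.Agent.Pack.S3234.G0E1L0
import Fermat.Agent.Pack.S3234.G0E3L0
import Fermat.Agent.Pack.S3234.G0E3L3
import Fermat.Agent.Pack.S3234.G0E3L2
import Fermat.Agent.Pack.S3234.G0E2L2
import Fermat.Agent.Pack.S3234.G0E2L1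
import Fermat.Agent.Pack.S3234.G0E1L3
import Fermat.Agent.Pack.S3234.G0E2L3
import Fermat.Agent.Pack.S3234.G0E1L1
import Fermat.Agent.Pack.S3234.G0E1L2

-- ===== PACK-BEGIN Lib/Cheb/H761/PrimeCountBound.lean
section


/-!
# Piece B0 of the shared library CHEB: `Spec.PrimeCountBoundStatement`

There are at most `[F : ℚ]` prime ideals of `𝓞 F` of any given norm.
-/

set_option autoImplicit false

namespace Fermat.Agent.Lib.Cheb.H761

open IsDedekindDomain NumberField Ideal

/-- A nonzero prime ideal of norm `n` contains the least prime factor of `n`. -/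
lemma minFac_mem_of_absNorm_eq {F : Type} [Field F] [NumberField F]
    (𝔭 : HeightOneSpectrum (𝓞 F)) : ((absNorm 𝔭.asIdeal).minFac : 𝓞 F) ∈ 𝔭.asIdeal := by
  have := 𝔭.isMaximal
  obtain ⟨p, n, hn, hmem, hp, hN⟩ := Ideal.exists_prime_and_absNorm_eq_pow 𝔭.asIdeal
  rw [hN, hp.pow_minFac hn.ne']
  exact hmem

/-- **Piece B0**: `Spec.PrimeCountBoundStatement`. -/
theorem primeCountBound_statement : Spec.PrimeCountBoundStatement := by
  classical
  intro F _ _ p
  rw [Spec.primeCount]
  have hfinset : {𝔮 : Ideal (𝓞 F) | 𝔮.IsPrime ∧ Ideal.absNorm 𝔮 = p}.Finite :=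
    (Ideal.finite_setOfPred_absNorm_eq (S := 𝓞 F) p).subset (fun 𝔮 h𝔮 => h𝔮.2)
  have hd : 1 ≤ Module.finrank ℚ F := Module.finrank_pos
  rcases Nat.eq_zero_or_pos p with rfl | hp0
  · -- only the zero ideal has norm `0`
    have hsub : Subsingleton {𝔮 : Ideal (𝓞 F) // 𝔮.IsPrime ∧ Ideal.absNorm 𝔮 = 0} := by
      refine ⟨fun a b => Subtype.ext ?_⟩
      rw [Ideal.absNorm_eq_zero_iff.mp a.2.2, Ideal.absNorm_eq_zero_iff.mp b.2.2]
    exact (Finite.card_le_one_iff_subsingleton.mpr hsub).trans hd
  · have hfin : Finite {𝔮 : Ideal (𝓞 F) // 𝔮.IsPrime ∧ Ideal.absNorm 𝔮 = p} :=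
      hfinset.to_subtype
    have : Fintype {𝔮 : Ideal (𝓞 F) // 𝔮.IsPrime ∧ Ideal.absNorm 𝔮 = p} := Fintype.ofFinite _
    rw [Nat.card_eq_fintype_card]
    by_cases hne : Nonempty {𝔮 : Ideal (𝓞 F) // 𝔮.IsPrime ∧ Ideal.absNorm 𝔮 = p}
    · -- every such prime contains `p.minFac`, which is prime
      let ι : {𝔮 : Ideal (𝓞 F) // 𝔮.IsPrime ∧ Ideal.absNorm 𝔮 = p} → HeightOneSpectrum (𝓞 F) :=
        fun 𝔮 => ⟨𝔮.1, 𝔮.2.1, by
          rintro h
          have := 𝔮.2.2
          rw [h, Ideal.absNorm_bot] at this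
          omega⟩
      have hι : Function.Injective ι := by
        intro a b h
        apply Subtype.ext
        exact congrArg HeightOneSpectrum.asIdeal h
      have hp1 : p ≠ 1 := by
        rintro rfl
        obtain ⟨𝔮⟩ := hne
        exact 𝔮.2.1.ne_top (Ideal.absNorm_eq_one_iff.mp 𝔮.2.2)
      have hprime : p.minFac.Prime := Nat.minFac_prime hp1
      have hcard := card_le_of_natCast_mem F hprime (Finset.univ.image ι) (by
        intro 𝔭 h𝔭
        obtain ⟨𝔮, -, rfl⟩ := Finset.mem_image.mp h𝔭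
        have := minFac_mem_of_absNorm_eq (ι 𝔮)
        have hN : absNorm (ι 𝔮).asIdeal = p := 𝔮.2.2
        rwa [hN] at this)
      rw [Finset.card_image_of_injective _ hι, Finset.card_univ,
        NumberField.RingOfIntegers.rank] at hcard
      exact hcard
    · rw [not_nonempty_iff] at hne
      rw [Fintype.card_eq_zero]
      exact Nat.zero_le _

end Fermat.Agent.Lib.Cheb.H761

end
-- ===== PACK-END Lib/Cheb/H761/PrimeCountBound.lean

-- ===== PACK-BEGIN Lib/Cheb/H476/Core.lean
section






/-!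
# CHEB piece F6 (bridge), part 2: from a prime of a Galois number field inside `ℚ̄`
to a valuation subring of `ℚ̄` with a Frobenius element
-/

set_option autoImplicit false

open NumberField
open scoped Pointwise

namespace Fermat.Agent.Lib.Cheb.H476

open Fermat.Agent.Lib.Cheb.Spec

/-- The inclusion of the ring of integers of a subfield of `ℚ̄` into `ℚ̄`. -/
noncomputable def incl (L : IntermediateField ℚ Qb) : 𝓞 L →+* Qb :=
  (algebraMap L Qb).comp (algebraMap (𝓞 L) L)

theorem incl_apply (L : IntermediateField ℚ Qb) (x : 𝓞 L) :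
    incl L x = ((x : L) : Qb) := rfl

theorem incl_injective (L : IntermediateField ℚ Qb) : Function.Injective (incl L) := by
  intro x y h
  have h1 : ((x : L) : Qb) = ((y : L) : Qb) := h
  exact RingOfIntegers.ext (Subtype.ext h1)

theorem incl_isIntegral (L : IntermediateField ℚ Qb) (x : 𝓞 L) : IsIntegral ℤ (incl L x) := by
  have h1 : IsIntegral ℤ (x : L) := RingOfIntegers.isIntegral_coe x
  exact h1.map (IsScalarTower.toAlgHom ℤ L Qb)

/-- A valuation subring of `ℚ̄` whose maximal ideal contains a given proper ideal of the ring of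
integers of a subfield. -/
theorem exists_valuationSubring_over (L : IntermediateField ℚ Qb) (P : Ideal (𝓞 L))
    (hP : P ≠ ⊤) : ∃ A : ValuationSubring Qb, ∀ x ∈ P, incl L x ∈ A.nonunits := by
  let I : Ideal (incl L).range := P.map (incl L).rangeRestrict
  have hI : I ≠ ⊤ := by
    intro h
    have h1 : (1 : (incl L).range) ∈ I := by rw [h]; trivial
    rw [Ideal.mem_map_iff_of_surjective _ (incl L).rangeRestrict_surjective] at h1
    obtain ⟨x, hx, hx1⟩ := h1
    have h2 : incl L x = incl L 1 := by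
      have := congrArg Subtype.val hx1
      simpa using this
    have h3 : x = 1 := incl_injective L h2
    exact hP ((Ideal.eq_top_iff_one P).mpr (h3 ▸ hx))
  obtain ⟨A, -, hA⟩ := Ideal.image_subset_nonunits_valuationSubring I hI
  refine ⟨A, fun x hx => hA ⟨(incl L).rangeRestrict x, Ideal.mem_map_of_mem _ hx, rfl⟩⟩

/-- The maximal ideal of `A` cuts out exactly `P`. -/
theorem incl_mem_nonunits_iff (L : IntermediateField ℚ Qb) [NumberField L]
    (A : ValuationSubring Qb) (P : Ideal (𝓞 L)) (hP : P.IsMaximal)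
    (hA : ∀ x ∈ P, incl L x ∈ A.nonunits) (x : 𝓞 L) :
    incl L x ∈ A.nonunits ↔ x ∈ P := by
  refine ⟨fun hx => ?_, hA x⟩
  by_contra hxP
  obtain ⟨y, m, hm, hxy⟩ := hP.exists_inv hxP
  have h1 : incl L y * incl L x + incl L m = 1 := by
    rw [← map_mul, ← map_add, hxy, map_one]
  have hy : A.valuation (incl L y) ≤ 1 :=
    (A.valuation_le_one_iff _).mpr
      (Fermat.Agent.S54.isIntegral_mem_valuationSubring A (incl_isIntegral L y))
  have hx' : A.valuation (incl L x) < 1 := A.mem_nonunits_iff.mp hx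
  have hm' : A.valuation (incl L m) < 1 := A.mem_nonunits_iff.mp (hA m hm)
  have h2 : A.valuation (incl L y * incl L x) < 1 := by
    rw [map_mul]
    exact mul_lt_of_le_one_of_lt hy hx'
  have h3 : A.valuation (incl L y * incl L x + incl L m) < 1 :=
    lt_of_le_of_lt (A.valuation.map_add _ _) (max_lt h2 hm')
  rw [h1, map_one] at h3
  exact lt_irrefl _ h3


/-- The prime of `ℤ` below a prime of `𝓞 L` containing the prime number `p` has residue field of
cardinality `p`. -/
theorem card_quot_under (L : IntermediateField ℚ Qb) [NumberField L] (p : ℕ) (hp : p.Prime)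
    (P : Ideal (𝓞 L)) (hP : P.IsPrime) (hpP : (p : 𝓞 L) ∈ P) :
    Nat.card (ℤ ⧸ P.under ℤ) = p := by
  have : Fact p.Prime := ⟨hp⟩
  have hle : Ideal.span {(p : ℤ)} ≤ P.under ℤ := by
    rw [Ideal.span_le, Set.singleton_subset_iff]
    show algebraMap ℤ (𝓞 L) (p : ℤ) ∈ P
    simpa using hpP
  have hne : P.under ℤ ≠ ⊤ := (Ideal.IsPrime.under ℤ P).ne_top
  have heq : Ideal.span {(p : ℤ)} = P.under ℤ :=
    (Int.ideal_span_isMaximal_of_prime p).eq_of_le hne hle
  rw [← heq, Int.card_ideal_quot]

/-- **Core of the bridge.**  A prime `P` of a Galois number field `L ⊆ ℚ̄` above `p`, with trivial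
inertia group and arithmetic Frobenius `τ`, is induced by a valuation subring `A` of `ℚ̄`
over `p` carrying a Frobenius element `φ` which restricts to `τ`; the inertia group of `A` acts
trivially on `L`. -/
theorem exists_frobenius_restrict (L : IntermediateField ℚ Qb) [NumberField L] [IsGalois ℚ L]
    (p : ℕ) (hp : p.Prime) (P : Ideal (𝓞 L)) (hP : P.IsPrime) (hpP : (p : 𝓞 L) ∈ P)
    (hI : InertiaTrivial L P) (τ : L ≃ₐ[ℚ] L) (hτ : IsArithFrobAt ℤ τ P) :
    ∃ (A : ValuationSubring Qb) (φ : GQ), A.LiesOverPrime p ∧ A.IsFrobeniusAt φ p ∧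
      (∀ ι ∈ A.inertiaSubgroupIn ℚ, ∀ x : L, ι (x : Qb) = x) ∧
      (∀ x : L, φ (x : Qb) = (τ x : L)) := by
  have hP0 : P ≠ ⊥ := by
    intro h
    rw [h, Ideal.mem_bot] at hpP
    exact hp.ne_zero (by exact_mod_cast hpP)
  have hPmax : P.IsMaximal := hP.isMaximal hP0
  obtain ⟨A, hA⟩ := exists_valuationSubring_over L P hP.ne_top
  have hAp : A.LiesOverPrime p := by
    have h := hA _ hpP
    have h' : incl L (p : 𝓞 L) = (p : Qb) := by simp
    rw [h'] at h
    exact h
  obtain ⟨φ, hφ, hφF⟩ := exists_frobenius_at p hp A hAp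
  have hmem := incl_mem_nonunits_iff L A P hPmax hA
  have hres : ∀ (g : GQ) (x : L), ((AlgEquiv.restrictNormal g L x : L) : Qb) = g (x : Qb) :=
    fun g x => AlgEquiv.restrictNormal_commutes g L x
  have hcard := card_quot_under L p hp P hP hpP
  refine ⟨A, φ, hAp, hφ, ?_, ?_⟩
  · intro ι hι x
    have h1 : AlgEquiv.restrictNormal ι L = 1 := by
      apply hI
      intro y
      rw [← hmem]
      have h2 : incl L (AlgEquiv.restrictNormal ι L • y - y) = ι (incl L y) - incl L y := by
        rw [map_sub]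
        congr 1
        exact hres ι y
      rw [h2]
      exact sub_mem_nonunits_of_mem_inertia A ι hι _
        (Fermat.Agent.S54.isIntegral_mem_valuationSubring A (incl_isIntegral L y))
    rw [← hres, h1]
    rfl
  · have h1 : IsArithFrobAt ℤ (AlgEquiv.restrictNormal φ L) P := by
      intro y
      rw [hcard]
      rw [← hmem]
      have h2 : incl L ((MulSemiringAction.toAlgHom ℤ (𝓞 L) (AlgEquiv.restrictNormal φ L)) y
          - y ^ p) = φ (incl L y) - incl L y ^ p := by
        rw [map_sub, map_pow]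
        congr 1
        exact hres φ y
      rw [h2]
      exact hφF ⟨incl L y, incl_isIntegral L y⟩
    have h2 := IsArithFrobAt.mul_inv_mem_inertia h1 hτ
    have h3 : AlgEquiv.restrictNormal φ L * τ⁻¹ = 1 := hI _ h2
    have h4 : AlgEquiv.restrictNormal φ L = τ := mul_inv_eq_one.mp h3
    intro x
    rw [← hres, h4]

end Fermat.Agent.Lib.Cheb.H476

end
-- ===== PACK-END Lib/Cheb/H476/Core.lean

-- ===== PACK-BEGIN S24/Deg/H457_Main.lean
section


/-!
# S24 / DEG-ALG (helper457), part 4: the degree bound for `FF N / Kbar(jF N)`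

`finiteDimensional_and_finrank_le`: from the interface hypothesis `Hyp ℂ N n` (relations over `ℂ`)
we get `FiniteDimensional Kbar⟮jF N⟯ (FF N)` and `finrank ≤ n`.
-/

set_option autoImplicit false

noncomputable section

open Polynomial ModularCurve IntermediateField

namespace Fermat.Agent.S24.Deg457

/-- Lemma X: a bivariate relation gives integrality + degree bound over an intermediate field. -/
theorem isIntegral_and_natDegree_le_of_relation {K M E : Type*} [Field K] [Field M] [Field E]
    [Algebra K M] [Algebra M E] [Algebra K E] [IsScalarTower K M E] (j : M)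
    (hj : ∀ t : K[X], t ≠ 0 → aeval j t ≠ 0) (x : E) (Q : K[X][X]) (hQ0 : Q ≠ 0) (n : ℕ)
    (hQn : Q.natDegree ≤ n)
    (hQ : Q.eval₂ ((aeval (algebraMap M E j) : K[X] →ₐ[K] E).toRingHom) x = 0) :
    IsIntegral M x ∧ (minpoly M x).natDegree ≤ n := by
  set φ : K[X] →+* M := (aeval j : K[X] →ₐ[K] M).toRingHom with hφ
  have hφinj : Function.Injective φ := by
    rw [injective_iff_map_eq_zero]
    intro t ht
    by_contra h0
    exact hj t h0 ht
  have hp0 : Q.map φ ≠ 0 := by
    rw [Ne, Polynomial.map_eq_zero_iff hφinj]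
    exact hQ0
  have hcomp : (algebraMap M E).comp φ = (aeval (algebraMap M E j) : K[X] →ₐ[K] E).toRingHom := by
    refine Polynomial.ringHom_ext ?_ ?_
    · intro c
      simp [hφ, ← IsScalarTower.algebraMap_apply]
    · simp [hφ]
  have hroot : aeval x (Q.map φ) = 0 := by
    rw [aeval_def, eval₂_map, hcomp]
    exact hQ
  have hint : IsIntegral M x := (IsAlgebraic.isIntegral ⟨Q.map φ, hp0, hroot⟩)
  refine ⟨hint, ?_⟩
  have h1 := minpoly.degree_le_of_ne_zero M x hp0 hroot
  have h2 := natDegree_le_natDegree h1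
  exact h2.trans ((natDegree_map_le).trans hQn)

/-- an embedding `ℚ̄ → ℂ` -/
def iotaC : Kbar →+* ℂ := by
  haveI : Algebra.IsAlgebraic ℚ (AlgebraicClosure ℚ) := AlgebraicClosure.isAlgebraic ℚ
  exact ((IsAlgClosed.lift : AlgebraicClosure ℚ →ₐ[ℚ] ℂ) : AlgebraicClosure ℚ →+* ℂ)

variable (N : ℕ) [NeZero N]

theorem coe_jF : ((jF N : FF N) : LaurentSeries Kbar) = JK Kbar := rfl

/-- **Degree bound** (DEG-ALG): from the analytic interface hypothesis over `ℂ`. -/
theorem finiteDimensional_and_finrank_le (n : ℕ) (hyp : Hyp ℂ N n) :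
    FiniteDimensional ↥(IntermediateField.adjoin Kbar {jF N}) (FF N) ∧
      Module.finrank ↥(IntermediateField.adjoin Kbar {jF N}) (FF N) ≤ n := by
  refine finiteDimensional_and_finrank_le_of_forall_natDegree_minpoly_le n fun x => ?_
  obtain ⟨Q, hQ0, hQn, hQ⟩ := algDeg_of_mem_field iotaC hyp x.2
  have hinc : Function.Injective (algebraMap (FF N) (LaurentSeries Kbar)) :=
    (algebraMap (FF N) (LaurentSeries Kbar)).injective
  refine isIntegral_and_natDegree_le_of_relation (K := Kbar)
    (AdjoinSimple.gen Kbar (jF N)) ?_ x Q hQ0 n hQn ?_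
  · intro t ht h0
    apply aeval_JK_ne_zero Kbar ht
    have h1 := congrArg (algebraMap ↥(IntermediateField.adjoin Kbar {jF N}) (FF N)) h0
    rw [← aeval_algebraMap_apply, map_zero, AdjoinSimple.algebraMap_gen] at h1
    have h2 := congrArg (algebraMap (FF N) (LaurentSeries Kbar)) h1
    rw [← aeval_algebraMap_apply, map_zero] at h2
    exact h2
  · apply hinc
    rw [map_zero, Polynomial.hom_eval₂, AdjoinSimple.algebraMap_gen]
    have hcomp : (algebraMap (FF N) (LaurentSeries Kbar)).comp
        ((aeval (jF N) : Kbar[X] →ₐ[Kbar] FF N).toRingHom) = evJ (JK Kbar) := by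
      refine Polynomial.ringHom_ext ?_ ?_
      · intro c
        simp [evJ, ← IsScalarTower.algebraMap_apply]
      · simp [evJ]
        rfl
    rw [hcomp]
    exact hQ

end Fermat.Agent.S24.Deg457

end
end
-- ===== PACK-END S24/Deg/H457_Main.lean

-- ===== PACK-BEGIN S24/Deg/H648D5.lean
section


/-!
# S24 / M6-AN (helper648): the polynomiality principle (D5) in `ExpGrowth` form

A holomorphic `SL₂(ℤ)`-invariant function on `ℍ` of at most exponential growth at `i∞` is a
polynomial in `j = E₄³/Δ`.  (The function-level induction follows helper505's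
`levelOne_structure`, re-proved here from Mathlib only.)
-/

set_option autoImplicit false

noncomputable section

open UpperHalfPlane ModularGroup CongruenceSubgroup ModularForm Filter Asymptotics
  SlashInvariantForm SlashInvariantFormClass ModularFormClass CuspFormClass
open scoped MatrixGroups Manifold Modular Real

namespace Fermat.Agent.S24.H648

/-- `E₄ ^ n` as a modular form of weight `k = 4 n`. -/
def E4pow (n : ℕ) (k : ℤ) (hk : (n : ℤ) * 4 = k) : ModularForm 𝒮ℒ k :=
  ModularForm.mcast hk (E₄.pow n)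

theorem E4pow_apply (n : ℕ) (k : ℤ) (hk : (n : ℤ) * 4 = k) (z : ℍ) :
    E4pow n k hk z = E₄ z ^ n := by
  simp [E4pow]

theorem qExpansion_E4pow_coeff_zero (n : ℕ) (k : ℤ) (hk : (n : ℤ) * 4 = k) :
    (qExpansion 1 (E4pow n k hk)).coeff 0 = 1 := by
  have h4 : (qExpansion 1 E₄).coeff 0 = 1 := EisensteinSeries.E_qExpansion_coeff_zero (by norm_num) (by decide)
  rw [E4pow, ModularForm.qExpansion_mcast,
    ModularForm.qExpansion_pow one_pos one_mem_strictPeriods_SL,
    PowerSeries.coeff_zero_eq_constantCoeff, map_pow, ← PowerSeries.coeff_zero_eq_constantCoeff,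
    h4, one_pow]

/-- Level one structure theorem, function level: a modular form of weight `12 m` is
`Δ^m · P(j)` with `deg P ≤ m`. -/
theorem levelOne_poly (m : ℕ) : ∀ (k : ℤ) (_ : k = 12 * m) (F : ModularForm 𝒮ℒ k),
    ∃ P : Polynomial ℂ, P.natDegree ≤ m ∧
      ∀ z : ℍ, F z = ModularForm.discriminant z ^ m * P.eval (jFun z) := by
  induction m with
  | zero =>
    intro k hk F
    simp only [Nat.cast_zero, mul_zero] at hk
    subst hk
    obtain ⟨c, hc⟩ := levelOne_weight_zero_const F
    exact ⟨Polynomial.C c, by simp, fun z => by simp [hc]⟩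
  | succ m ih =>
    intro k hk F
    set c₀ : ℂ := (qExpansion 1 F).coeff 0 with hc₀
    have hk4 : ((3 * (m + 1) : ℕ) : ℤ) * 4 = k := by rw [hk]; push_cast; ring
    set G : ModularForm 𝒮ℒ k := F - c₀ • E4pow (3 * (m + 1)) k hk4 with hG
    have hGq : qExpansion 1 G
        = qExpansion 1 F - c₀ • qExpansion 1 (E4pow (3 * (m + 1)) k hk4) := by
      have h1 : (G : ℍ → ℂ) = ⇑F - ⇑(c₀ • E4pow (3 * (m + 1)) k hk4) := rfl
      rw [h1, ModularForm.qExpansion_sub one_pos one_mem_strictPeriods_SL]
      have h2 : (⇑(c₀ • E4pow (3 * (m + 1)) k hk4) : ℍ → ℂ)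
          = c₀ • ⇑(E4pow (3 * (m + 1)) k hk4) := rfl
      rw [h2, ModularForm.qExpansion_smul one_pos one_mem_strictPeriods_SL]
    have hG0 : (qExpansion 1 G).coeff 0 = 0 := by
      rw [hGq, map_sub, PowerSeries.coeff_smul, qExpansion_E4pow_coeff_zero]
      simp [hc₀]
    set H : ModularForm 𝒮ℒ (k - 12) := CuspForm.discriminantEquiv (G.toCuspForm hG0) with hH
    obtain ⟨P, hPdeg, hPval⟩ := ih (k - 12) (by rw [hk]; push_cast; ring) H
    have hGH : ∀ z, G z = ModularForm.discriminant z * H z := fun z => by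
      rw [hH, discriminant_mul_discriminantEquiv_apply]; rfl
    have hFG : ∀ z, F z = c₀ * E₄ z ^ (3 * (m + 1)) + G z := fun z => by
      have : G z = F z - c₀ * E4pow (3 * (m + 1)) k hk4 z := rfl
      rw [this, E4pow_apply]; ring
    refine ⟨Polynomial.C c₀ * Polynomial.X ^ (m + 1) + P, ?_, ?_⟩
    · refine (Polynomial.natDegree_add_le _ _).trans (max_le ?_ (hPdeg.trans (Nat.le_succ m)))
      exact Polynomial.natDegree_C_mul_X_pow_le _ _
    · intro z
      rw [hFG, hGH, hPval, Polynomial.eval_add, Polynomial.eval_mul, Polynomial.eval_C,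
        Polynomial.eval_pow, Polynomial.eval_X, jFun_def]
      have hΔ := discriminant_ne_zero z
      have hJ : ModularForm.discriminant z * (E₄ z ^ 3 / ModularForm.discriminant z) = E₄ z ^ 3 :=
        mul_div_cancel₀ _ hΔ
      have : ModularForm.discriminant z ^ (m + 1) *
          (c₀ * (E₄ z ^ 3 / ModularForm.discriminant z) ^ (m + 1) +
            Polynomial.eval (E₄ z ^ 3 / ModularForm.discriminant z) P) =
          c₀ * (ModularForm.discriminant z * (E₄ z ^ 3 / ModularForm.discriminant z)) ^ (m + 1) +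
          ModularForm.discriminant z * (ModularForm.discriminant z ^ m *
            Polynomial.eval (E₄ z ^ 3 / ModularForm.discriminant z) P) := by ring
      rw [this, hJ, pow_mul]


lemma discriminant_smul (γ : SL(2, ℤ)) (τ : ℍ) :
    ModularForm.discriminant (γ • τ) = denom γ τ ^ (12 : ℤ) * ModularForm.discriminant τ := by
  have : SlashInvariantFormClass (CuspForm 𝒮ℒ 12) Γ(1) 12 :=
    Gamma_one_coe_eq_SL ▸ inferInstance
  exact SlashInvariantForm.slash_action_eqn_SL'' CuspForm.discriminant (mem_Gamma_one γ) τ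

lemma discriminant_pow_mul_slash (m : ℕ) (F : ℍ → ℂ)
    (inv : ∀ (γ : SL(2, ℤ)) (τ : ℍ), F (γ • τ) = F τ) (γ : SL(2, ℤ)) :
    (fun z => ModularForm.discriminant z ^ m * F z) ∣[(12 * m : ℤ)] γ
      = fun z => ModularForm.discriminant z ^ m * F z := by
  funext z
  rw [ModularForm.SL_slash_apply]
  rw [inv, discriminant_smul, mul_pow, ← zpow_natCast (denom γ z ^ (12 : ℤ)) m, ← zpow_mul]
  have hd : denom γ z ≠ 0 := denom_ne_zero _ z
  have : denom γ z ^ ((12 : ℤ) * m) * ModularForm.discriminant z ^ m * F z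
      * denom γ z ^ (-(12 * (m : ℤ)))
      = (denom γ z ^ ((12 : ℤ) * m) * denom γ z ^ (-(12 * (m : ℤ))))
        * (ModularForm.discriminant z ^ m * F z) := by ring
  rw [this, ← zpow_add₀ hd]
  simp

/-- `Δ^m · F` as a modular form of weight `12 m`. -/
def mfOfInvariant (m : ℕ) (F : ℍ → ℂ) (hol : MDifferentiable 𝓘(ℂ) 𝓘(ℂ) F)
    (inv : ∀ (γ : SL(2, ℤ)) (τ : ℍ), F (γ • τ) = F τ)
    (bdd : IsBoundedAtImInfty (fun z => ModularForm.discriminant z ^ m * F z)) :
    ModularForm 𝒮ℒ (12 * m) where
  toFun := fun z => ModularForm.discriminant z ^ m * F z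
  slash_action_eq' := fun _ ⟨γ, hγ⟩ => hγ ▸ discriminant_pow_mul_slash m F inv γ
  holo' := by
    have hΔ : MDifferentiable 𝓘(ℂ) 𝓘(ℂ) (ModularForm.discriminant : ℍ → ℂ) :=
      ModularFormClass.holo CuspForm.discriminant
    exact (hΔ.pow m).mul hol
  bdd_at_cusps' {c} hc := by
    rw [Subgroup.IsArithmetic.isCusp_iff_isCusp_SL2Z] at hc
    rw [OnePoint.isBoundedAt_iff_forall_SL2Z hc]
    intro γ _
    rw [discriminant_pow_mul_slash m F inv γ]
    exact bdd

lemma mfOfInvariant_apply (m : ℕ) (F : ℍ → ℂ) (hol : MDifferentiable 𝓘(ℂ) 𝓘(ℂ) F)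
    (inv : ∀ (γ : SL(2, ℤ)) (τ : ℍ), F (γ • τ) = F τ)
    (bdd : IsBoundedAtImInfty (fun z => ModularForm.discriminant z ^ m * F z)) (z : ℍ) :
    mfOfInvariant m F hol inv bdd z = ModularForm.discriminant z ^ m * F z := rfl

/-- Polynomiality principle, `IsBoundedAtImInfty` form. -/
theorem exists_polynomial_of_isBoundedAtImInfty (m : ℕ) (F : ℍ → ℂ)
    (hol : MDifferentiable 𝓘(ℂ) 𝓘(ℂ) F)
    (inv : ∀ (γ : SL(2, ℤ)) (τ : ℍ), F (γ • τ) = F τ)
    (bdd : IsBoundedAtImInfty (fun z => ModularForm.discriminant z ^ m * F z)) :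
    ∃ p : Polynomial ℂ, p.natDegree ≤ m ∧ ∀ τ, F τ = p.eval (jFun τ) := by
  obtain ⟨P, hdeg, hP⟩ := levelOne_poly m (12 * m) rfl (mfOfInvariant m F hol inv bdd)
  refine ⟨P, hdeg, fun τ => ?_⟩
  have h := hP τ
  rw [mfOfInvariant_apply] at h
  exact mul_left_cancel₀ (pow_ne_zero m (discriminant_ne_zero τ)) h

lemma ExpGrowth.isBigO {F : ℍ → ℂ} {C : ℝ} {m : ℕ}
    (h : ∀ τ : ℍ, 1 ≤ τ.im → ‖F τ‖ ≤ C * Real.exp (2 * π * m * τ.im)) :
    F =O[atImInfty] fun τ : ℍ => Real.exp (2 * π * m * τ.im) := by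
  refine IsBigO.of_bound C ?_
  rw [atImInfty, eventually_comap, eventually_atTop]
  refine ⟨1, fun y hy τ hτ => ?_⟩
  rw [Real.norm_of_nonneg (Real.exp_pos _).le]
  exact h τ (hτ ▸ hy)

/-- **Polynomiality principle (D5), `ExpGrowth` form.** -/
theorem exists_polynomial_of_expGrowth (F : ℍ → ℂ)
    (hol : MDifferentiable 𝓘(ℂ) 𝓘(ℂ) F)
    (inv : ∀ (γ : SL(2, ℤ)) (τ : ℍ), F (γ • τ) = F τ) (gr : ExpGrowth F) :
    ∃ p : Polynomial ℂ, ∀ τ, F τ = p.eval (jFun τ) := by
  obtain ⟨C, m, h⟩ := gr
  have hF := ExpGrowth.isBigO h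
  have hΔ : (ModularForm.discriminant : ℍ → ℂ)
      =O[atImInfty] fun τ : ℍ => Real.exp (-2 * π * τ.im / 1) :=
    CuspFormClass.exp_decay_atImInfty CuspForm.discriminant one_pos one_mem_strictPeriods_SL
  have hprod := (hΔ.pow m).mul hF
  have bdd : IsBoundedAtImInfty (fun z => ModularForm.discriminant z ^ m * F z) := by
    refine hprod.congr_right fun τ => ?_
    rw [← Real.exp_nat_mul, ← Real.exp_add]
    have : (m : ℝ) * (-2 * π * τ.im / 1) + 2 * π * m * τ.im = 0 := by ring
    rw [this, Real.exp_zero]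
    rfl
  obtain ⟨p, -, hp⟩ := exists_polynomial_of_isBoundedAtImInfty m F hol inv bdd
  exact ⟨p, hp⟩

section final

variable {N : ℕ} [Fintype (SL(2, ℤ) ⧸ Gamma0 N)]

/-- **M6-AN, unconditional.**  For every good function `f` of level `N` the conjugate product
`∏ₓ (Y - f ∘ gₓ⁻¹)` has coefficients in `ℂ[j]`. -/
theorem exists_charPoly_jFun {f : ℍ → ℂ} (hf : f ∈ goodRing N) :
    ∃ P : Polynomial (Polynomial ℂ), P.Monic ∧
      P.natDegree = Fintype.card (SL(2, ℤ) ⧸ Gamma0 N) ∧
      ∀ τ : ℍ, P.map (Polynomial.evalRingHom (jFun τ)) = charPolyAt N f τ :=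
  exists_charPoly jFun exists_polynomial_of_expGrowth hf

/-- **Function-level `HYP(n)`, unconditional.** -/
theorem exists_charPoly_jFun_eval_eq_zero {f : ℍ → ℂ} (hf : f ∈ goodRing N) :
    ∃ P : Polynomial (Polynomial ℂ), P.Monic ∧
      P.natDegree = Fintype.card (SL(2, ℤ) ⧸ Gamma0 N) ∧
      ∀ τ : ℍ, (P.map (Polynomial.evalRingHom (jFun τ))).eval (f τ) = 0 :=
  exists_charPoly_eval_eq_zero jFun exists_polynomial_of_expGrowth hf

end final

end Fermat.Agent.S24.H648

end
end
-- ===== PACK-END S24/Deg/H648D5.lean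

-- ===== PACK-BEGIN S24/FFSum.lean
section





/-!
# S24 / FF layer: zeros of a coordinate function, `∑ ord_v(t) = [F : K(t)]`

Bridge between the Prelude's `Place K F` and the primes of the integral closure of `K[t]`
in `F`, and the fundamental identity.  (helper804)
-/

set_option autoImplicit false

namespace Fermat.Agent.S24.FF

open AlgebraicCurve Polynomial IntermediateField IsDedekindDomain

open scoped IntermediateField.algebraAdjoinAdjoin

variable {K F : Type*} [Field K] [Field F] [Algebra K F]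

variable (K) in
/-- `K[t] ⊆ F`. -/
abbrev coordRing (t : F) : Subalgebra K F := Algebra.adjoin K {t}

variable (K) in
/-- The integral closure of `K[t]` in `F`. -/
abbrev intRing (t : F) : Subalgebra (coordRing K t) F := integralClosure (coordRing K t) F

variable (K) in
/-- `t` is a coordinate function on the curve with function field `F`: transcendental over `K`
with `F` finite over `K(t)`. -/
class IsCoord (t : F) : Prop where
  transcendental : Transcendental K t
  finite : FiniteDimensional K⟮t⟯ F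

variable {t : F}

instance instFiniteOfIsCoord [h : IsCoord K t] : FiniteDimensional K⟮t⟯ F := h.finite

instance instPIDCoordRing [h : IsCoord K t] : IsPrincipalIdealRing (coordRing K t) :=
  IsPrincipalIdealRing.of_surjective
    (algEquivOfTranscendental K t h.transcendental : K[X] →+* coordRing K t)
    (algEquivOfTranscendental K t h.transcendental).surjective

instance instDedekindIntRing [CharZero K] [IsCoord K t] : IsDedekindDomain (intRing K t) :=
  integralClosure.isDedekindDomain (coordRing K t) K⟮t⟯ F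

instance instFractionIntRing [IsCoord K t] : IsFractionRing (intRing K t) F :=
  integralClosure.isFractionRing_of_finite_extension K⟮t⟯ F

instance instFiniteIntRing [CharZero K] [IsCoord K t] :
    Module.Finite (coordRing K t) (intRing K t) :=
  IsIntegralClosure.finite (coordRing K t) K⟮t⟯ F (intRing K t)

/-- Any transcendental element is a coordinate as soon as one coordinate exists. -/
theorem IsCoord.of_transcendental {x : F} [hx : IsCoord K x] {y : F} (hy : Transcendental K y) :
    IsCoord K y :=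
  ⟨hy, finiteDimensional_adjoin_of_transcendental hx.transcendental hy⟩

section placeOfPrime

variable [CharZero K] [IsCoord K t]

variable (K t) in
/-- The place attached to a nonzero prime of the integral closure of `K[t]`. -/
noncomputable def placeOfPrime (q : HeightOneSpectrum (intRing K t)) : Place K F :=
  Place.ofHeightOneSpectrum (K := K) q

theorem placeOfPrime_toValuationSubring (q : HeightOneSpectrum (intRing K t)) :
    (placeOfPrime K t q).toValuationSubring = (q.valuation F).valuationSubring := rfl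

theorem ord_placeOfPrime (q : HeightOneSpectrum (intRing K t)) (f : F) :
    (placeOfPrime K t q).ord f = -WithZero.log (q.valuation F f) := by
  rcases eq_or_ne f 0 with rfl | hf
  · simp
  obtain ⟨π, hπ⟩ := q.valuation_exists_uniformizer F
  have hπ0 : π ≠ 0 := by
    rintro rfl
    rw [map_zero] at hπ
    exact WithZero.exp_ne_zero hπ.symm
  symm
  refine ordLike_eq_ord (fun f => -WithZero.log (q.valuation F f)) ?_ (placeOfPrime K t q) ?_
    hπ0 ?_ hf
  · intro f g hf hg
    simp only [map_mul]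
    rw [WithZero.log_mul ((Valuation.ne_zero_iff _).mpr hf) ((Valuation.ne_zero_iff _).mpr hg)]
    ring
  · intro f hf
    rw [placeOfPrime_toValuationSubring, Valuation.mem_valuationSubring_iff,
      neg_nonneg, WithZero.log_le_iff_le_exp ((Valuation.ne_zero_iff _).mpr hf)]
    simp
  · simp [hπ]

end placeOfPrime

end Fermat.Agent.S24.FF

end
-- ===== PACK-END S24/FFSum.lean

-- ===== PACK-BEGIN S29/H942/MeroRootGlue.lean
section


/-!
# Gluing meromorphic `p`-th roots along an exhaustion by simply connected open sets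
-/

set_option autoImplicit false

noncomputable section

open Filter Topology Set Complex MeromorphicOn Function

namespace Fermat.Agent.S29.H942

/-- Existence of a root in normal form on a simply connected open set on which `f` has finitely
many zeros and poles. -/
theorem exists_isNFRootOn_of_finite {f : ℂ → ℂ} {U : Set ℂ}
    (hUc : IsSimplyConnected U) (hU : IsOpen U) (hf : MeromorphicOn f U)
    (h₂f : ∀ x ∈ U, meromorphicOrderAt f x ≠ ⊤) (h₃f : (divisor f U).support.Finite)
    {p : ℕ} (hp : p ≠ 0) (hdiv : ∀ x ∈ U, (p : ℤ) ∣ (meromorphicOrderAt f x).untop₀) :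
    ∃ h : ℂ → ℂ, IsNFRootOn h f U p := by
  have hdiv' : ∀ z, (p : ℤ) ∣ divisor f U z := by
    intro z
    by_cases hz : z ∈ U
    · rw [divisor_apply hf hz]
      exact hdiv z hz
    · have : divisor f U z = 0 := by
        rw [divisor_def]
        simp [hz]
      rw [this]
      exact dvd_zero _
  obtain ⟨h, hh, hpow⟩ := exists_meromorphicOn_pow_eq_of_finite hUc hU hf
    (fun u => h₂f u u.2) h₃f hp hdiv'
  exact ⟨_, isNFRootOn_toMeromorphicNFOn hU hh hpow⟩

/-- Multiplying a root by a root of unity gives a root. -/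
lemma IsNFRootOn.const_mul {h f : ℂ → ℂ} {V : Set ℂ} {p : ℕ} (hh : IsNFRootOn h f V p)
    {ζ : ℂ} (hζ : ζ ^ p = 1) (hζ0 : ζ ≠ 0) : IsNFRootOn (fun z => ζ * h z) f V p := by
  refine ⟨fun x hx => ?_, fun x hx => ?_⟩
  · have := (hh.1 hx).smul_analytic (g := fun _ : ℂ => ζ) analyticAt_const hζ0
    exact this
  · filter_upwards [hh.2 x hx] with y hy
    simp only [Pi.pow_apply] at hy ⊢
    rw [mul_pow, hζ, one_mul, hy]

/-- A root (of a function of finite order) on a nonempty open set is non-zero somewhere. -/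
lemma IsNFRootOn.exists_ne_zero {h f : ℂ → ℂ} {V : Set ℂ} {p : ℕ} (hp : p ≠ 0)
    (hh : IsNFRootOn h f V p) (hV : IsOpen V) (hne : V.Nonempty)
    (hf : ∀ x ∈ V, meromorphicOrderAt f x ≠ ⊤) : ∃ y ∈ V, h y ≠ 0 := by
  obtain ⟨x, hx⟩ := hne
  have h1 := hh.eventually_ne_zero hp hx (hf x hx)
  have h2 : V ∈ 𝓝[≠] x := mem_nhdsWithin_of_mem_nhds (hV.mem_nhds hx)
  obtain ⟨y, hy1, hy2⟩ := (h1.and h2).exists
  exact ⟨y, hy2, hy1⟩

/-- **Gluing.** -/
theorem exists_isNFRootOn_iUnion {f : ℂ → ℂ} {p : ℕ} (hp : p ≠ 0) (V : ℕ → Set ℂ)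
    (hVo : ∀ n, IsOpen (V n)) (hVsc : ∀ n, IsSimplyConnected (V n)) (hmono : Monotone V)
    (hf : ∀ n, MeromorphicOn f (V n)) (hford : ∀ n, ∀ x ∈ V n, meromorphicOrderAt f x ≠ ⊤)
    (hfin : ∀ n, (divisor f (V n)).support.Finite)
    (hdiv : ∀ n, ∀ x ∈ V n, (p : ℤ) ∣ (meromorphicOrderAt f x).untop₀) :
    ∃ h : ℂ → ℂ, IsNFRootOn h f (⋃ n, V n) p := by
  classical
  -- roots on each `V n`
  have h1 : ∀ n, ∃ h : ℂ → ℂ, IsNFRootOn h f (V n) p := fun n =>
    exists_isNFRootOn_of_finite (hVsc n) (hVo n) (hf n) (hford n) (hfin n) hp (hdiv n)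
  choose H hH using h1
  have hpc : ∀ n, IsPreconnected (V n) := fun n =>
    (hVsc n).isPathConnected.isConnected.isPreconnected
  have hV0 : ∀ n, V 0 ⊆ V n := fun n => hmono (Nat.zero_le n)
  -- normalisation against `H 0` on `V 0`
  have h2 : ∀ n, ∃ ζ : ℂ, ζ ^ p = 1 ∧ ∀ x ∈ V 0, H n x = ζ * H 0 x := fun n =>
    IsNFRootOn.exists_eq_mul hp (hVo 0) (hpc 0) (hford 0) (hH 0) ((hH n).mono (hV0 n))
  choose ζ hζ hζH using h2
  have hζ0 : ∀ n, ζ n ≠ 0 := by
    intro n h0
    have := hζ n
    rw [h0, zero_pow hp] at this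
    exact zero_ne_one this
  set H' : ℕ → ℂ → ℂ := fun n z => (ζ n)⁻¹ * H n z with hH'def
  have hH' : ∀ n, IsNFRootOn (H' n) f (V n) p := fun n =>
    (hH n).const_mul (by rw [inv_pow, hζ n, inv_one]) (inv_ne_zero (hζ0 n))
  have hH'0 : ∀ n, ∀ x ∈ V 0, H' n x = H 0 x := by
    intro n x hx
    simp only [hH'def]
    rw [hζH n x hx, ← mul_assoc, inv_mul_cancel₀ (hζ0 n), one_mul]
  obtain ⟨y₀, hy₀V, hy₀⟩ := (hH 0).exists_ne_zero hp (hVo 0) (hVsc 0).nonempty (hford 0)
  -- compatibility
  have h3 : ∀ n m, n ≤ m → ∀ x ∈ V n, H' m x = H' n x := by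
    intro n m hnm x hx
    obtain ⟨ξ, -, hξH⟩ := IsNFRootOn.exists_eq_mul hp (hVo n) (hpc n) (hford n) (hH' n)
      ((hH' m).mono (hmono hnm))
    have h4 := hξH y₀ (hV0 n hy₀V)
    rw [hH'0 m y₀ hy₀V, hH'0 n y₀ hy₀V] at h4
    have h5 : ξ = 1 := by
      have : (ξ - 1) * H 0 y₀ = 0 := by rw [sub_mul, one_mul, ← h4, sub_self]
      rcases mul_eq_zero.1 this with h | h
      · exact sub_eq_zero.1 h
      · exact absurd h hy₀
    rw [hξH x hx, h5, one_mul]
  -- the glued function
  set idx : ℂ → ℕ := fun z => if hz : ∃ n, z ∈ V n then Nat.find hz else 0 with hidx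
  set h : ℂ → ℂ := fun z => H' (idx z) z with hh
  have h6 : ∀ m, ∀ x ∈ V m, h x = H' m x := by
    intro m x hx
    have hex : ∃ n, x ∈ V n := ⟨m, hx⟩
    have hi : idx x = Nat.find hex := by simp only [hidx, dif_pos hex]
    have hle : idx x ≤ m := by rw [hi]; exact Nat.find_min' hex hx
    have hmem : x ∈ V (idx x) := by rw [hi]; exact Nat.find_spec hex
    exact (h3 (idx x) m hle x hmem).symm
  refine ⟨h, fun x hx => ?_, fun x hx => ?_⟩
  · obtain ⟨m, hm⟩ := mem_iUnion.1 hx
    have heq : h =ᶠ[𝓝 x] H' m := by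
      filter_upwards [(hVo m).mem_nhds hm] with y hy using h6 m y hy
    exact (meromorphicNFAt_congr heq).2 ((hH' m).1 hm)
  · obtain ⟨m, hm⟩ := mem_iUnion.1 hx
    have hVn : V m ∈ 𝓝[≠] x := mem_nhdsWithin_of_mem_nhds ((hVo m).mem_nhds hm)
    filter_upwards [(hH' m).2 x hm, hVn] with y hy hyV
    simp only [Pi.pow_apply] at hy ⊢
    rw [h6 m y hyV, hy]

end Fermat.Agent.S29.H942

end
end
-- ===== PACK-END S29/H942/MeroRootGlue.lean

-- ===== PACK-BEGIN S37/H700/GaussNorm.lean
section


/-!
# S37 / piece GAUSS (helper700): normal forms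

* `exists_normaliser` : among finitely many elements of `L`, not all zero, one divides all
  the others in the valuation ring `A`.
* `normalize_family`  : a finite family of polynomials over `L`, not all zero, can be scaled
  into `A[X]` such that one member has nonzero reduction.
* `exists_denominator`: every element of the span satisfies `Q(j)·x = ∑ Pᵢ(j)·yᵢ`.
-/

set_option autoImplicit false

noncomputable section

namespace Fermat.Agent.S37.H700

open ModularCurve HahnSeries Polynomial
open Fermat.Agent.S28 (jField intDivisorExpansions)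

section Normalise

variable {L : Type*} [Field L] (A : ValuationSubring L)

theorem exists_normaliser (C : Finset L) (hC : ∃ x ∈ C, x ≠ 0) :
    ∃ x₀ ∈ C, x₀ ≠ 0 ∧ ∀ x ∈ C, x₀⁻¹ * x ∈ A := by
  obtain ⟨x₁, hx₁, hx₁0⟩ := hC
  obtain ⟨x₀, hx₀, hmax⟩ := Finset.exists_max_image C (fun x => A.valuation x) ⟨x₁, hx₁⟩
  have hx₀0 : x₀ ≠ 0 := by
    intro h
    have h1 := hmax x₁ hx₁
    simp only [h, map_zero] at h1
    exact hx₁0 ((map_eq_zero _).mp (le_antisymm h1 zero_le))
  refine ⟨x₀, hx₀, hx₀0, fun x hx => ?_⟩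
  rw [← A.valuation_le_one_iff, map_mul, map_inv₀]
  have hv0 : A.valuation x₀ ≠ 0 := (_root_.map_ne_zero _).mpr hx₀0
  rw [inv_mul_le_iff₀ (lt_of_le_of_ne zero_le hv0.symm), mul_one]
  exact hmax x hx

theorem exists_lift_of_coeff_mem (P : L[X]) (h : ∀ m, P.coeff m ∈ A) :
    ∃ P' : Polynomial A, P'.map A.subtype = P := by
  have : P ∈ Polynomial.lifts A.subtype := by
    rw [Polynomial.lifts_iff_coeff_lifts]
    intro m
    exact ⟨⟨P.coeff m, h m⟩, rfl⟩
  exact (Polynomial.mem_lifts P).mp this

theorem normalize_family {ι : Type*} [Fintype ι] (P : ι → L[X]) (h : ∃ i, P i ≠ 0) :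
    ∃ c : L, c ≠ 0 ∧ ∃ P' : ι → Polynomial A,
      (∀ i, (P' i).map A.subtype = Polynomial.C c * P i) ∧
      ∃ i, (P' i).map (IsLocalRing.residue A) ≠ 0 := by
  classical
  set C : Finset L := Finset.univ.biUnion (fun i => (P i).coeffs) with hCdef
  have hCne : ∃ x ∈ C, x ≠ 0 := by
    obtain ⟨i, hi⟩ := h
    refine ⟨(P i).leadingCoeff, ?_, Polynomial.leadingCoeff_ne_zero.mpr hi⟩
    rw [hCdef, Finset.mem_biUnion]
    exact ⟨i, Finset.mem_univ _, Polynomial.coeff_mem_coeffs (Polynomial.leadingCoeff_ne_zero.mpr hi)⟩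
  obtain ⟨x₀, hx₀C, hx₀0, hx₀⟩ := exists_normaliser A C hCne
  have hcoeff : ∀ i m, x₀⁻¹ * (P i).coeff m ∈ A := by
    intro i m
    by_cases hz : (P i).coeff m = 0
    · rw [hz, mul_zero]; exact A.zero_mem
    · apply hx₀
      rw [hCdef, Finset.mem_biUnion]
      exact ⟨i, Finset.mem_univ _, Polynomial.coeff_mem_coeffs hz⟩
  have hlift : ∀ i, ∃ P' : Polynomial A, P'.map A.subtype = Polynomial.C x₀⁻¹ * P i := by
    intro i
    apply exists_lift_of_coeff_mem
    intro m
    rw [Polynomial.coeff_C_mul]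
    exact hcoeff i m
  choose P' hP' using hlift
  refine ⟨x₀⁻¹, inv_ne_zero hx₀0, P', hP', ?_⟩
  rw [hCdef, Finset.mem_biUnion] at hx₀C
  obtain ⟨i₀, -, hi₀⟩ := hx₀C
  rw [Polynomial.mem_coeffs_iff] at hi₀
  obtain ⟨m₀, -, hm₀⟩ := hi₀
  refine ⟨i₀, fun hzero => ?_⟩
  have h1 : ((P' i₀).coeff m₀ : L) = 1 := by
    have := congrArg (fun p => Polynomial.coeff p m₀) (hP' i₀)
    simp only [Polynomial.coeff_map, Polynomial.coeff_C_mul] at this
    rw [← hm₀, inv_mul_cancel₀ hx₀0] at this
    exact this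
  have h2 : (P' i₀).coeff m₀ = 1 := Subtype.ext h1
  have h3 := congrArg (fun p => Polynomial.coeff p m₀) hzero
  simp only [Polynomial.coeff_map, Polynomial.coeff_zero, h2, map_one] at h3
  exact one_ne_zero h3

end Normalise

section Denominator

variable (L : Type*) [Field L] {n : ℕ} (y : Fin n → LaurentSeries ℤ)

/-- Every element of the `L(j)`-span has a polynomial denominator. -/
theorem exists_denominator {x : LaurentSeries L} (hx : x ∈ spanL L y) :
    ∃ (Q : L[X]) (P : Fin n → L[X]), Q ≠ 0 ∧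
      evalJ L Q * x = ∑ i, evalJ L (P i) * coeffMap (Int.castRingHom L) (y i) := by
  classical
  induction hx using Submodule.span_induction with
  | mem x hx =>
    obtain ⟨i, rfl⟩ := hx
    refine ⟨1, fun j => if j = i then 1 else 0, one_ne_zero, ?_⟩
    rw [evalJ_one, one_mul, Finset.sum_eq_single i]
    · simp [evalJ_one]
    · intro j _ hj
      simp [hj, evalJ_zero]
    · intro h
      exact absurd (Finset.mem_univ i) h
  | zero =>
    exact ⟨1, fun _ => 0, one_ne_zero, by simp [evalJ_zero]⟩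
  | add x z _ _ hx hz =>
    obtain ⟨Q₁, P₁, hQ₁, h₁⟩ := hx
    obtain ⟨Q₂, P₂, hQ₂, h₂⟩ := hz
    refine ⟨Q₁ * Q₂, fun i => Q₂ * P₁ i + Q₁ * P₂ i, mul_ne_zero hQ₁ hQ₂, ?_⟩
    simp only [evalJ_mul, evalJ_add, add_mul, Finset.sum_add_distrib, mul_assoc]
    rw [← Finset.mul_sum, ← Finset.mul_sum, ← h₁, ← h₂]
    ring
  | smul c x _ hx =>
    obtain ⟨Q, P, hQ, h⟩ := hx
    obtain ⟨r, s, hs, hrs⟩ := exists_evalJ_of_mem_jField L c.2
    refine ⟨s * Q, fun i => r * P i, mul_ne_zero hs hQ, ?_⟩
    simp only [evalJ_mul, mul_assoc]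
    rw [← Finset.mul_sum, ← h, smul_jField_def, ← hrs]
    ring

end Denominator

end Fermat.Agent.S37.H700

end
end
-- ===== PACK-END S37/H700/GaussNorm.lean

-- ===== PACK-BEGIN S28/H626/Pair.lean
section
/-
S28 helper (helper626): the gcd lemma for the generators `j(q^d)`:
`j(q^{pre}) ∈ k(j(q^{re}), j(q^{pe}))` for distinct primes `p ≠ r` (invertible in `k`).
-/




set_option autoImplicit false

noncomputable section

open ModularCurve HahnSeries Polynomial

namespace Fermat.Agent.S28.H626

section Relations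

variable (k : Type*) [Field k]

/-- `j(q^d) ∈ k((q))`. -/
abbrev jd (d : ℕ) [NeZero d] : LaurentSeries k := qExpand k d (jqModC k)

theorem jd_congr {d d' : ℕ} [NeZero d] [NeZero d'] (h : d = d') : jd k d = jd k d' := by
  subst h; rfl

/-- the ring hom `ℤ((q)) → k((q))`, `q ↦ q^e`. -/
def levelHom (e : ℕ) [NeZero e] : LaurentSeries ℤ →+* LaurentSeries k :=
  (qExpand k e).comp (coeffMap (Int.castRingHom k))

theorem levelHom_j (e : ℕ) [NeZero e] : levelHom k e (jqModC ℤ) = jd k e := by
  simp only [levelHom, RingHom.comp_apply, coeffMap_jqModC]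

theorem levelHom_jp (e : ℕ) [NeZero e] (p : ℕ) [NeZero p] :
    levelHom k e (qExpand ℤ p (jqModC ℤ)) = jd k (e * p) := by
  simp only [levelHom, RingHom.comp_apply, coeffMap_qExpand, coeffMap_jqModC, qExpand_qExpand]

variable {k}

/-- `Φ_p(j(q^e), j(q^{ep})) = 0`. -/
theorem ev2_jd_up {p : ℕ} [NeZero p] {Φ : Polynomial (Polynomial ℤ)} (hΦ : IsModPoly p Φ)
    (e : ℕ) [NeZero e] : ev2 Φ (jd k e) (jd k (e * p)) = 0 := by
  have h := congrArg (levelHom k e) hΦ.eval_jp
  rwa [map_ev2, levelHom_j, levelHom_jp, map_zero] at h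

/-- `Φ_p(j(q^{ep}), j(q^e)) = 0`. -/
theorem ev2_jd_down {p : ℕ} [NeZero p] {Φ : Polynomial (Polynomial ℤ)} (hΦ : IsModPoly p Φ)
    (e : ℕ) [NeZero e] : ev2 Φ (jd k (e * p)) (jd k e) = 0 := by
  have h := congrArg (levelHom k e) hΦ.eval_j
  rwa [map_ev2, levelHom_j, levelHom_jp, map_zero] at h

theorem jd_ne_of_ne {d d' : ℕ} [NeZero d] [NeZero d'] (h : d ≠ d') : jd k d ≠ jd k d' := by
  have h1 : jd k d = jTw k 1 d := (jTw_one k d).symm
  have h2 : jd k d' = jTw k 1 d' := (jTw_one k d').symm
  rw [h1, h2]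
  exact jTw_ne_of_ne h

end Relations

section Embedding

variable (k : Type*) [Field k] (Ω : Type*) [Field Ω] [Algebra k Ω]

/-- The embedding `k((q)) → Ω((t))`, `q ↦ t^m`. -/
def embHom (m : ℕ) [NeZero m] : LaurentSeries k →+* LaurentSeries Ω :=
  (qExpand Ω m).comp (coeffMap (algebraMap k Ω))

theorem embHom_jd (m : ℕ) [NeZero m] (d : ℕ) [NeZero d] :
    embHom k Ω m (jd k d) = jTw Ω 1 (m * d) := by
  simp only [embHom, RingHom.comp_apply, jd, coeffMap_qExpand, coeffMap_jqModC, qExpand_qExpand,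
    jTw_one]

end Embedding

section Pair

variable {k : Type*} [Field k]

theorem exists_primitiveRoot_unit (Ω : Type*) [Field Ω] (p : ℕ) [HasEnoughRootsOfUnity Ω p]
    (hp : p ≠ 0) : ∃ ζ : Ωˣ, IsPrimitiveRoot ζ p := by
  obtain ⟨ζ, hζ⟩ := HasEnoughRootsOfUnity.exists_primitiveRoot Ω p
  obtain ⟨u, hu⟩ := hζ.isUnit hp
  refine ⟨u, ?_⟩
  rw [← IsPrimitiveRoot.coe_units_iff, hu]
  exact hζ

/-- **The gcd lemma.** For distinct primes `p ≠ r` invertible in `k`,
`j(q^{pre})` lies in every subfield of `k((q))` containing `j(q^{re})` and `j(q^{pe})`. -/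
theorem jd_mem_of_pair {p r : ℕ} [NeZero p] [NeZero r] (hp : p.Prime) (hr : r.Prime)
    (hpr : p ≠ r) [NeZero (p : k)] [NeZero (r : k)]
    {Φp Φr : Polynomial (Polynomial ℤ)} (hΦp : IsModPoly p Φp) (hΦr : IsModPoly r Φr)
    (e : ℕ) [NeZero e] (E : IntermediateField k (LaurentSeries k))
    (h1 : jd k (r * e) ∈ E) (h2 : jd k (p * e) ∈ E) : jd k (p * r * e) ∈ E := by
  classical
  obtain ⟨ζp, hζp⟩ := exists_primitiveRoot_unit (AlgebraicClosure k) p hp.ne_zero
  obtain ⟨ζr, hζr⟩ := exists_primitiveRoot_unit (AlgebraicClosure k) r hr.ne_zero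
  have hp0 : 0 < p := hp.pos
  have hr0 : 0 < r := hr.pos
  have he0 : 0 < e := Nat.pos_of_ne_zero (NeZero.ne e)
  -- the two polynomials over `E`
  set y1 : E := ⟨jd k (r * e), h1⟩ with hy1
  set y2 : E := ⟨jd k (p * e), h2⟩ with hy2
  set ι : LaurentSeries k →+* LaurentSeries (AlgebraicClosure k) :=
    embHom k (AlgebraicClosure k) (p * r) with hι
  have hP : ((spec Φp y1).map (ι.comp (algebraMap E (LaurentSeries k)))) =
      spec Φp (jTw (AlgebraicClosure k) 1 (r * r * e * p)) := by
    rw [map_spec]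
    congr 1
    show ι (jd k (r * e)) = _
    rw [hι, embHom_jd]
    exact jTw_congr _ (by ring)
  have hQ : ((spec Φr y2).map (ι.comp (algebraMap E (LaurentSeries k)))) =
      spec Φr (jTw (AlgebraicClosure k) 1 (p * p * e * r)) := by
    rw [map_spec]
    congr 1
    show ι (jd k (p * e)) = _
    rw [hι, embHom_jd]
    exact jTw_congr _ (by ring)
  have hx : ι (jd k (p * r * e)) = jTw (AlgebraicClosure k) 1 (r * r * e * p * p) := by
    rw [hι, embHom_jd]
    exact jTw_congr _ (by ring)
  have hmem : jd k (p * r * e) ∈ (algebraMap E (LaurentSeries k)).range := by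
    refine mem_range_of_unique_common_root ι (jd k (p * r * e)) (spec Φp y1) (spec Φr y2)
      (spec_monic hΦp.monic y1).ne_zero ?_ ?_ ?_ ?_ ?_
    · -- root of P
      rw [Polynomial.aeval_def, Polynomial.eval₂_eq_eval_map, map_spec, eval_spec]
      show ev2 Φp (jd k (r * e)) (jd k (p * r * e)) = 0
      rw [jd_congr k (show p * r * e = r * e * p by ring)]
      exact ev2_jd_up hΦp (r * e)
    · rw [Polynomial.aeval_def, Polynomial.eval₂_eq_eval_map, map_spec, eval_spec]
      show ev2 Φr (jd k (p * e)) (jd k (p * r * e)) = 0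
      rw [jd_congr k (show p * r * e = p * e * r by ring)]
      exact ev2_jd_up hΦr (p * e)
    · rw [hP]
      exact splits_spec hp.one_lt hΦp hζp (r * r * e)
    · rw [hP, roots_spec hp.one_lt hΦp hζp (r * r * e)]
      exact rootMultiset_nodup hp.one_lt hζp _
    · intro β hβ hQβ
      rw [hP, roots_spec hp.one_lt hΦp hζp (r * r * e)] at hβ
      rw [hx]
      rcases mem_rootMultiset.mp hβ with hβ1 | ⟨b, -, hβ1⟩
      · exact hβ1
      · exfalso
        have hβroot : β ∈ (spec Φr (jTw (AlgebraicClosure k) 1 (p * p * e * r))).roots := by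
          rw [Polynomial.mem_roots (spec_monic hΦr.monic _).ne_zero, Polynomial.IsRoot, ← hQ]
          exact hQβ
        rw [roots_spec hr.one_lt hΦr hζr (p * p * e)] at hβroot
        have hne : r * r ≠ p * p := by
          intro h
          exact hpr ((Nat.mul_self_inj.mp h).symm)
        rcases mem_rootMultiset.mp hβroot with hβ2 | ⟨c, -, hβ2⟩
        · have h3 := (jTw_inj (hβ1.symm.trans hβ2)).1
          -- r*r*e = p*p*e*r*r
          have h4 : r * r * e * 1 = r * r * e * (p * p) := by
            rw [mul_one]; exact h3.trans (by ring)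
          have h5 : 1 = p * p := Nat.eq_of_mul_eq_mul_left (by positivity) h4
          have : 1 < p * p := by nlinarith [hp.one_lt]
          omega
        · have h3 := (jTw_inj (hβ1.symm.trans hβ2)).1
          exact hne (Nat.eq_of_mul_eq_mul_right he0 h3)
  obtain ⟨z, hz⟩ := hmem
  rw [← hz]
  exact z.2

end Pair

end Fermat.Agent.S28.H626

end

end
-- ===== PACK-END S28/H626/Pair.lean

-- ===== PACK-BEGIN S28/H325/Glue.lean
section




/-!
# S28, piece [L-glue], part 2: from degree bounds to `CoreData`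

Input: integrality of the `j(q^d)` over `ℤ[j]`, an upper bound `n` for the degree of
`F = ℚ(j(q^d) : d ∣ N)` over `ℚ(j)` and `n` elements of `K'(j(q^d) : d ∣ N)` which are linearly
independent over `K'(j)` (for some field `K' ⊇ K`).  Output: `CoreData N K`.
-/

set_option autoImplicit false

noncomputable section

open ModularCurve HahnSeries Polynomial

namespace Fermat.Agent.S28.H325

/-- reduction of integral `q`-series to a ring `k`. -/
abbrev castL (k : Type*) [CommRing k] : LaurentSeries ℤ →+* LaurentSeries k :=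
  coeffMap (Int.castRingHom k)

theorem castL_jqModC (k : Type*) [CommRing k] : castL k (jqModC ℤ) = jqModC k :=
  coeffMap_jqModC _

theorem castL_comp {k k' : Type*} [CommRing k] [CommRing k'] (φ : k →+* k')
    (x : LaurentSeries ℤ) : coeffMap φ (castL k x) = castL k' x := by
  rw [castL, castL, coeffMap_coeffMap]
  exact coeffMap_congr (RingHom.ext_int _ _) x

theorem castL_image_intDivisorExpansions (k : Type*) [Field k] (N : ℕ) :
    castL k '' intDivisorExpansions N = divisorExpansionsC k N := by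
  ext x
  constructor
  · rintro ⟨y, ⟨d, hd, hdN, rfl⟩, rfl⟩
    exact ⟨d, hd, hdN, by rw [castL, coeffMap_qExpand, coeffMap_jqModC]⟩
  · rintro ⟨d, hd, hdN, rfl⟩
    exact ⟨_, ⟨d, hd, hdN, rfl⟩, by rw [castL, coeffMap_qExpand, coeffMap_jqModC]⟩

/-- `jField k` is `k(j)`. -/
theorem jField_eq (k : Type*) [Field k] : jField k = IntermediateField.adjoin k {jqModC k} := rfl

theorem jqModC_mem_jField (k : Type*) [Field k] : jqModC k ∈ jField k :=
  IntermediateField.subset_adjoin k _ (Set.mem_singleton _)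

/-- The transfer theorem: linear independence over `K'(j)` of the reductions implies linear
independence over `K(j)` (for a subfield `K → K'`) and over `ℚ(j)`. -/
theorem linearIndependent_transfer {K K' : Type*} [Field K] [Field K'] (φ : K →+* K') {n : ℕ}
    (Y : Fin n → LaurentSeries ℤ)
    (h : LinearIndependent (jField K') (fun i => castL K' (Y i))) :
    LinearIndependent (jField K) (fun i => castL K (Y i)) ∧
      LinearIndependent (jField ℚ) (fun i => castL ℚ (Y i)) := by
  have h1 : PolyIndep (jqModC K') (fun i => castL K' (Y i)) :=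
    polyIndep_of_linearIndependent (fun P hP => (aeval_jqModC_eq_zero_iff K' P).mp hP) h
  constructor
  · apply linearIndependent_of_polyIndep
    apply PolyIndep.of_injective φ φ.injective
    rw [coeffMap_jqModC]
    simpa only [castL_comp] using h1
  · have h2 : PolyIndep (jqModC ℤ) Y := by
      apply PolyIndep.int_of_field (k := K')
      rw [coeffMap_jqModC]
      exact h1
    have h3 := PolyIndep.rat_of_int h2
    rw [coeffMap_jqModC] at h3
    exact linearIndependent_of_polyIndep h3

/-! ### Integrality and the monomial spanning set -/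

theorem castL_comp_evalAt (k : Type*) [CommRing k] :
    (castL k).comp (evalAt (jqModC ℤ)) = evalAt (jqModC k) := by
  refine Polynomial.ringHom_ext' (Subsingleton.elim _ _) ?_
  simp [evalAt, castL_jqModC]

/-- `ℤ[X] → k(j)`, `X ↦ j`. -/
def evalJField (k : Type*) [Field k] : Polynomial ℤ →+* jField k :=
  Polynomial.eval₂RingHom (Int.castRingHom (jField k)) ⟨jqModC k, jqModC_mem_jField k⟩

theorem algebraMap_comp_evalJField (k : Type*) [Field k] :
    (algebraMap (jField k) (LaurentSeries k)).comp (evalJField k) = evalAt (jqModC k) := by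
  refine Polynomial.ringHom_ext' (Subsingleton.elim _ _) ?_
  simp [evalAt, evalJField]

theorem isIntegral_jField_of_monic (k : Type*) [Field k] (d : ℕ) [NeZero d]
    (h : ∃ P : Polynomial (Polynomial ℤ), P.Monic ∧
      P.eval₂ (evalAt (jqModC ℤ)) (qExpand ℤ d (jqModC ℤ)) = 0) :
    IsIntegral (jField k) (qExpand k d (jqModC k)) := by
  obtain ⟨P, hmonic, hP⟩ := h
  refine ⟨P.map (evalJField k), hmonic.map _, ?_⟩
  rw [Polynomial.eval₂_map, algebraMap_comp_evalJField, ← castL_comp_evalAt]
  have := congrArg (castL k) hP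
  rw [Polynomial.hom_eval₂, map_zero, castL, coeffMap_qExpand, coeffMap_jqModC] at this
  exact this

/-- Under integrality, `k(j(q^d) : d ∣ N)` is spanned over `k(j)` by the monomials in the
`j(q^d)`. -/
theorem mem_span_monomials_of_mem_full (k : Type*) [Field k] (N : ℕ) [NeZero N]
    (hint : ∀ (d : ℕ) [NeZero d], d ∣ N →
      ∃ P : Polynomial (Polynomial ℤ), P.Monic ∧
        P.eval₂ (evalAt (jqModC ℤ)) (qExpand ℤ d (jqModC ℤ)) = 0)
    {x : LaurentSeries k} (hx : x ∈ modularFunctionFieldFullC k N) :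
    x ∈ Submodule.span (jField k)
      ((Submonoid.closure (divisorExpansionsC k N) : Submonoid (LaurentSeries k)) :
        Set (LaurentSeries k)) := by
  have halg : ∀ y ∈ divisorExpansionsC k N, IsAlgebraic (jField k) y := by
    rintro y ⟨d, hd, hdN, rfl⟩
    exact (isIntegral_jField_of_monic k d (hint d hdN)).isAlgebraic
  have h1 : x ∈ IntermediateField.adjoin (jField k) (divisorExpansionsC k N) := by
    have h2 : modularFunctionFieldFullC k N ≤
        (IntermediateField.adjoin (jField k) (divisorExpansionsC k N)).restrictScalars k := by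
      rw [modularFunctionFieldFullC, IntermediateField.adjoin_le_iff]
      intro y hy
      exact IntermediateField.subset_adjoin (jField k) _ hy
    exact h2 hx
  have h3 := IntermediateField.adjoin_toSubalgebra_of_isAlgebraic halg
  have h4 : x ∈ (IntermediateField.adjoin (jField k) (divisorExpansionsC k N)).toSubalgebra := h1
  rw [h3] at h4
  have h5 := Algebra.adjoin_eq_span (R := jField k) (s := divisorExpansionsC k N)
  have h6 : x ∈ Subalgebra.toSubmodule (Algebra.adjoin (jField k) (divisorExpansionsC k N)) := h4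
  rw [h5] at h6
  exact h6

theorem monomials_subset_full (k : Type*) [Field k] (N : ℕ) :
    ((Submonoid.closure (divisorExpansionsC k N) : Submonoid (LaurentSeries k)) :
        Set (LaurentSeries k)) ⊆ modularFunctionFieldFullC k N := by
  intro x hx
  have : Submonoid.closure (divisorExpansionsC k N) ≤
      (modularFunctionFieldFullC k N).toSubalgebra.toSubmonoid := by
    rw [Submonoid.closure_le]
    intro y hy
    exact IntermediateField.subset_adjoin k _ hy
  exact this hx

theorem castL_image_closure (k : Type*) [Field k] (N : ℕ) :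
    castL k '' ((Submonoid.closure (intDivisorExpansions N) : Submonoid (LaurentSeries ℤ)) :
        Set (LaurentSeries ℤ)) =
      ((Submonoid.closure (divisorExpansionsC k N) : Submonoid (LaurentSeries k)) :
        Set (LaurentSeries k)) := by
  rw [← castL_image_intDivisorExpansions]
  have := MonoidHom.map_mclosure ((castL k : LaurentSeries ℤ →+* LaurentSeries k) :
    LaurentSeries ℤ →* LaurentSeries k) (intDivisorExpansions N)
  have h2 := congrArg (fun S : Submonoid (LaurentSeries k) => (S : Set (LaurentSeries k))) this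
  simp only [Submonoid.coe_map] at h2
  exact h2

/-! ### Extraction of independent monomials -/

open Cardinal in
/-- If `k(j(q^d) : d ∣ N)` contains `n` elements linearly independent over `k(j)`, then there are
`n` integral monomials in the `j(q^d)` whose reductions are linearly independent over `k(j)`. -/
theorem exists_monomials_linearIndependent (k : Type*) [Field k] (N : ℕ) [NeZero N]
    (hint : ∀ (d : ℕ) [NeZero d], d ∣ N →
      ∃ P : Polynomial (Polynomial ℤ), P.Monic ∧
        P.eval₂ (evalAt (jqModC ℤ)) (qExpand ℤ d (jqModC ℤ)) = 0)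
    (n : ℕ)
    (hL : ∃ x : Fin n → LaurentSeries k, (∀ i, x i ∈ modularFunctionFieldFullC k N) ∧
      LinearIndependent (jField k) x) :
    ∃ Y : Fin n → LaurentSeries ℤ,
      (∀ i, Y i ∈ Submonoid.closure (intDivisorExpansions N)) ∧
      LinearIndependent (jField k) (fun i => castL k (Y i)) := by
  classical
  obtain ⟨x, hxF, hxli⟩ := hL
  set T : Set (LaurentSeries k) :=
    ((Submonoid.closure (divisorExpansionsC k N) : Submonoid (LaurentSeries k)) :
        Set (LaurentSeries k)) with hT
  obtain ⟨b, hbT, hspan, hli⟩ := exists_linearIndependent (jField k) T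
  have hxb : ∀ i, x i ∈ Submodule.span (jField k) b := fun i => by
    rw [hspan]
    exact mem_span_monomials_of_mem_full k N hint (hxF i)
  have hli' : LinearIndependent (jField k)
      (fun i => (⟨x i, hxb i⟩ : Submodule.span (jField k) b)) := by
    apply LinearIndependent.of_comp (Submodule.span (jField k) b).subtype
    exact hxli
  have h1 := hli'.cardinal_lift_le_rank
  have h2 : Module.rank (jField k) (Submodule.span (jField k) b) = #b := rank_span_set hli
  rw [h2] at h1
  obtain ⟨e⟩ := Cardinal.lift_mk_le'.mp h1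
  have hmem : ∀ i, ∃ Y : LaurentSeries ℤ,
      Y ∈ Submonoid.closure (intDivisorExpansions N) ∧ castL k Y = (e i : LaurentSeries k) := by
    intro i
    have h3 : (e i : LaurentSeries k) ∈ T := hbT (e i).2
    rw [hT, ← castL_image_closure] at h3
    obtain ⟨Y, hY, hYe⟩ := h3
    exact ⟨Y, hY, hYe⟩
  choose Y hY hYe using hmem
  refine ⟨Y, hY, ?_⟩
  have h4 : (fun i => castL k (Y i)) = (fun z : b => (z : LaurentSeries k)) ∘ e := by
    funext i
    exact hYe i
  rw [h4]
  exact hli.comp e e.injective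

/-! ### Assembly -/

/-- **Glue.** Degree bounds (upper bound `n` over `ℚ`, lower bound `n` over some field `K' ⊇ K`)
together with integrality of the `j(q^d)` produce `CoreData N K`. -/
theorem coreData_of_bounds (N : ℕ) [NeZero N] (K : Type) [Field K] {K' : Type*} [Field K']
    (φ : K →+* K') (n : ℕ)
    (hint : ∀ (d : ℕ) [NeZero d], d ∣ N →
      ∃ P : Polynomial (Polynomial ℤ), P.Monic ∧
        P.eval₂ (evalAt (jqModC ℤ)) (qExpand ℤ d (jqModC ℤ)) = 0)
    (hU : ∀ (m : ℕ) (x : Fin m → LaurentSeries ℚ), (∀ i, x i ∈ modularFunctionFieldFull N) →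
      LinearIndependent (jField ℚ) x → m ≤ n)
    (hL : ∃ x : Fin n → LaurentSeries K', (∀ i, x i ∈ modularFunctionFieldFullC K' N) ∧
      LinearIndependent (jField K') x) :
    CoreData N K := by
  obtain ⟨Y, hY, hYli⟩ := exists_monomials_linearIndependent K' N hint n hL
  obtain ⟨hK, hQ⟩ := linearIndependent_transfer φ Y hYli
  refine ⟨⟨n, Y, ?_, ?_, hK⟩, fun d _ hd => hint d hd⟩
  · intro i
    have : Submonoid.closure (intDivisorExpansions N) ≤
        (Subring.closure (intDivisorExpansions N)).toSubmonoid := by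
      rw [Submonoid.closure_le]
      exact Subring.subset_closure
    exact this (hY i)
  · intro x hx
    by_contra hxs
    have hYF : ∀ i, castL ℚ (Y i) ∈ modularFunctionFieldFull N := by
      intro i
      have h1 : castL ℚ (Y i) ∈ castL ℚ ''
          ((Submonoid.closure (intDivisorExpansions N) : Submonoid (LaurentSeries ℤ)) :
            Set (LaurentSeries ℤ)) := ⟨Y i, hY i, rfl⟩
      rw [castL_image_closure] at h1
      exact monomials_subset_full ℚ N h1
    have hcons : LinearIndependent (jField ℚ)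
        (Fin.cons x (fun i => castL ℚ (Y i)) : Fin (n + 1) → LaurentSeries ℚ) :=
      linearIndependent_finCons.mpr ⟨hQ, hxs⟩
    have := hU (n + 1) _ (fun i => by
      refine Fin.cases ?_ (fun j => ?_) i
      · simpa using hx
      · simpa using hYF j) hcons
    omega

end Fermat.Agent.S28.H325

end
end
-- ===== PACK-END S28/H325/Glue.lean

-- ===== PACK-BEGIN S18/H516/GaussDecomp.lean
section






/-!
# S18 / MOD (helper516): Gauss decomposition from the S28 basis

`A` a valuation subring of a field `L ⊇ ℚ`, `π : A →+* k` any ring hom to a field `k`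
such that `CoreData N k` holds (S28; true when `char k ∤ N`).

* `exists_gauss_decomp` (G4): every `f ≠ 0` in `F_L` is `c · U₁ / U₂` with `U₁, U₂ ∈ A((q))`,
  images in `F_L`, reductions in `F_k` and nonzero.  (This is `PrincipalGeneratedByIntegral`
  as a theorem, valid at every level.)
* `red_mem_of_incl_mem` (G5): `U ∈ A((q))` with image in `F_L` has reduction in `F_k`.
-/

set_option autoImplicit false
set_option linter.unusedSectionVars false

noncomputable section

namespace Fermat.Agent.S18.H516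

open ModularCurve IntermediateField Polynomial Fermat.Agent.S28

section Scale

variable {L : Type*} [Field L] (A : ValuationSubring L)

/-- Joint scaling of a finite family of polynomials over the fraction field of a valuation ring:
after division by a suitable constant all coefficients are integral and one of them is `1`. -/
theorem exists_scale {n : ℕ} (H : Fin n → L[X]) (hH : ∃ i, H i ≠ 0) :
    ∃ (c : L) (H' : Fin n → A[X]), c ≠ 0 ∧
      (∀ i, (H' i).map A.subtype = C c⁻¹ * H i) ∧ ∃ i m, (H' i).coeff m = 1 := by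
  classical
  set T : Finset (Σ _ : Fin n, ℕ) := Finset.univ.sigma (fun i => (H i).support) with hT
  have hTne : T.Nonempty := by
    obtain ⟨i, hi⟩ := hH
    obtain ⟨m, hm⟩ : (H i).support.Nonempty := by
      rw [Finset.nonempty_iff_ne_empty, Ne, Polynomial.support_eq_empty]
      exact hi
    exact ⟨⟨i, m⟩, by simp [hT, hm]⟩
  obtain ⟨⟨i0, m0⟩, h0T, hmax⟩ := Finset.exists_max_image T
    (fun p => A.valuation ((H p.1).coeff p.2)) hTne
  have hc : (H i0).coeff m0 ≠ 0 := by
    have : m0 ∈ (H i0).support := by simpa [hT] using h0T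
    exact Polynomial.mem_support_iff.mp this
  set c : L := (H i0).coeff m0 with hcdef
  have hmem : ∀ i m, c⁻¹ * (H i).coeff m ∈ A := by
    intro i m
    by_cases h0 : (H i).coeff m = 0
    · rw [h0, mul_zero]; exact zero_mem _
    · have hT' : (⟨i, m⟩ : Σ _ : Fin n, ℕ) ∈ T := by
        simp [hT, Polynomial.mem_support_iff, h0]
      have hle := hmax ⟨i, m⟩ hT'
      rw [← A.valuation_le_one_iff, map_mul, map_inv₀]
      have hvc : A.valuation c ≠ 0 := (_root_.map_ne_zero _).mpr hc
      rw [inv_mul_le_iff₀ (zero_lt_iff.mpr hvc), mul_one]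
      exact hle
  have hsub : ∀ i, (↑(C c⁻¹ * H i).coeffs : Set L) ⊆ A.toSubring := by
    intro i x hx
    rw [Finset.mem_coe, Polynomial.mem_coeffs_iff] at hx
    obtain ⟨m, -, rfl⟩ := hx
    rw [Polynomial.coeff_C_mul]
    exact hmem i m
  refine ⟨c, fun i => (C c⁻¹ * H i).toSubring A.toSubring (hsub i), hc,
    fun i => Polynomial.map_toSubring _ A.toSubring (hsub i), i0, m0, ?_⟩
  apply Subtype.ext
  rw [Polynomial.coeff_toSubring, Polynomial.coeff_C_mul]
  show c⁻¹ * c = 1
  exact inv_mul_cancel₀ hc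

end Scale

section Eval

variable {R S : Type*} [CommRing R] [CommRing S]

theorem coeffMap_C (f : R →+* S) (a : R) :
    coeffMap f (HahnSeries.C (Γ := ℤ) a) = HahnSeries.C (f a) := by
  rw [HahnSeries.C_apply, HahnSeries.C_apply, coeffMap_single]

/-- Evaluation of a polynomial at `j ∈ R((q))`. -/
def evJ (P : R[X]) : LaurentSeries R := P.eval₂ (HahnSeries.C (Γ := ℤ) (R := R)) (jqModC R)

theorem coeffMap_evJ (f : R →+* S) (P : R[X]) : coeffMap f (evJ P) = evJ (P.map f) := by
  rw [evJ, evJ, hom_eval₂, eval₂_map, coeffMap_jqModC]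
  congr 1
  ext a
  exact congrArg (fun z : LaurentSeries S => z.coeff _) (coeffMap_C f a)

theorem evJ_add (P Q : R[X]) : evJ (P + Q) = evJ P + evJ Q := eval₂_add _ _

theorem evJ_mul (P Q : R[X]) : evJ (P * Q) = evJ P * evJ Q := eval₂_mul _ _

theorem evJ_C (a : R) : evJ (C a) = HahnSeries.C a := eval₂_C _ _

theorem evJ_zero : evJ (0 : R[X]) = 0 := eval₂_zero _ _

theorem evJ_one : evJ (1 : R[X]) = 1 := eval₂_one _ _

theorem evJ_prod {ι : Type*} (s : Finset ι) (g : ι → R[X]) :
    evJ (∏ i ∈ s, g i) = ∏ i ∈ s, evJ (g i) :=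
  eval₂_finsetProd _ _ _ _

end Eval

section Field

variable (K : Type*) [Field K]

theorem aeval_eq_evJ (Q : K[X]) : aeval (jqModC K) Q = evJ Q := by
  rw [aeval_def, evJ]
  congr 1
  ext a
  rw [algebraMap_laurentSeries_eq_single, HahnSeries.C_apply]

theorem evJ_eq_zero_iff {Q : K[X]} : evJ Q = 0 ↔ Q = 0 := by
  constructor
  · intro h
    exact Fermat.Agent.S28.H806.eq_zero_of_eval₂_C_eq_zero (jqModC K)
      (Fermat.Agent.S28.H806.jqModC_order_ne_zero K) Q h
  · rintro rfl
    exact evJ_zero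

theorem evJ_mem_jField (Q : K[X]) : evJ Q ∈ jField K := by
  rw [← aeval_eq_evJ, jField, mem_adjoin_simple_iff]
  exact ⟨Q, 1, by simp⟩

theorem exists_fraction {c : LaurentSeries K} (hc : c ∈ jField K) :
    ∃ r s : K[X], s ≠ 0 ∧ evJ s * c = evJ r := by
  rw [jField, mem_adjoin_simple_iff] at hc
  obtain ⟨r, s, rfl⟩ := hc
  by_cases hs : s = 0
  · refine ⟨0, 1, one_ne_zero, ?_⟩
    rw [hs, map_zero, div_zero, mul_zero, evJ_zero]
  · refine ⟨r, s, hs, ?_⟩
    have hs' : aeval (jqModC K) s ≠ 0 := by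
      rw [aeval_eq_evJ]
      exact fun h => hs (evJ_eq_zero_iff K |>.mp h)
    rw [← aeval_eq_evJ, ← aeval_eq_evJ]
    field_simp

/-- Clearing denominators in a `K(j)`-linear combination. -/
theorem exists_cleared {n : ℕ} (v : Fin n → LaurentSeries K) {x : LaurentSeries K}
    (hx : x ∈ Submodule.span (jField K) (Set.range v)) :
    ∃ (G : K[X]) (H : Fin n → K[X]), G ≠ 0 ∧ evJ G * x = ∑ i, evJ (H i) * v i := by
  classical
  obtain ⟨c, rfl⟩ := (Submodule.mem_span_range_iff_exists_fun (jField K)).mp hx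
  have hc : ∀ i, ∃ r s : K[X], s ≠ 0 ∧ evJ s * (c i : LaurentSeries K) = evJ r :=
    fun i => exists_fraction K (c i).2
  choose r s hs hrs using hc
  refine ⟨∏ i, s i, fun i => r i * ∏ j ∈ Finset.univ.erase i, s j, ?_, ?_⟩
  · exact Finset.prod_ne_zero_iff.mpr fun i _ => hs i
  · rw [Finset.mul_sum]
    refine Finset.sum_congr rfl fun i _ => ?_
    rw [← Finset.mul_prod_erase Finset.univ s (Finset.mem_univ i), evJ_mul, evJ_mul,
      IntermediateField.smul_def, smul_eq_mul, ← hrs i]
    ring

end Field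

section Decomp

variable {L : Type*} [Field L] [Algebra ℚ L] (A : ValuationSubring L)
variable {k : Type} [Field k] (π : A →+* k) (N : ℕ) [NeZero N]

/-- Integral series: image in `F_L`, reduction in `F_k` and nonzero. -/
def IsIntSeries (U : LaurentSeries A) : Prop :=
  coeffMap A.subtype U ∈ laurentBaseChange L (modularFunctionFieldFull N) ∧
    coeffMap π U ∈ modularFunctionFieldFullC k N ∧ coeffMap π U ≠ 0

omit [Algebra ℚ L] in
theorem incl_injective : Function.Injective (coeffMap A.subtype) := by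
  intro x y hxy
  ext m
  have := congrArg (fun z : LaurentSeries L => z.coeff m) hxy
  exact this

theorem jField_le_fullC (K : Type*) [Field K] : jField K ≤ modularFunctionFieldFullC K N := by
  rw [jField, adjoin_le_iff]
  rintro x rfl
  exact jqModC_mem_full K N

theorem C_mem_baseChange (c : L) :
    HahnSeries.C (Γ := ℤ) c ∈ laurentBaseChange L (modularFunctionFieldFull N) := by
  have := (laurentBaseChange L (modularFunctionFieldFull N)).algebraMap_mem c
  rwa [algebraMap_laurentSeries_eq_single, ← HahnSeries.C_apply] at this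

/-- **(G4) Gauss decomposition.** -/
theorem exists_gauss_decomp (core : CoreData N k) {f : LaurentSeries L}
    (hf : f ∈ laurentBaseChange L (modularFunctionFieldFull N)) (hf0 : f ≠ 0) :
    ∃ (c : L) (U₁ U₂ : LaurentSeries A), c ≠ 0 ∧ IsIntSeries A π N U₁ ∧ IsIntSeries A π N U₂ ∧
      f * coeffMap A.subtype U₂ = HahnSeries.C c * coeffMap A.subtype U₁ := by
  classical
  obtain ⟨n, y, hy, hspan, hli⟩ := core.exists_basis
  have hS : SpansQ N y := ⟨hy, hspan⟩
  have hfs := (mem_baseChange_iff_mem_spanL L hS).mp hf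
  obtain ⟨G, H, hG, hGH⟩ := exists_cleared L _ hfs
  have hGne : evJ G ≠ 0 := fun h => hG ((evJ_eq_zero_iff L).mp h)
  have hH : ∃ i, H i ≠ 0 := by
    by_contra hcon
    push Not at hcon
    have : evJ G * f = 0 := by
      rw [hGH]
      exact Finset.sum_eq_zero fun i _ => by rw [hcon i, evJ_zero, zero_mul]
    rcases mul_eq_zero.mp this with h | h
    · exact hGne h
    · exact hf0 h
  obtain ⟨g0, G', hg0, hG', i1, m1, hG1⟩ := exists_scale A (fun _ : Fin 1 => G) ⟨0, hG⟩
  obtain rfl : i1 = 0 := Subsingleton.elim _ _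
  obtain ⟨h0, H', hh0, hH', i0, m0, hH1⟩ := exists_scale A H hH
  set U₂ : LaurentSeries A := evJ (G' 0) with hU₂
  set U₁ : LaurentSeries A := ∑ i, evJ (H' i) * coeffMap (Int.castRingHom A) (y i) with hU₁
  have hU₂L : coeffMap A.subtype U₂ = HahnSeries.C g0⁻¹ * evJ G := by
    rw [hU₂, coeffMap_evJ, hG' 0, evJ_mul, evJ_C]
  have hU₁L : coeffMap A.subtype U₁ =
      HahnSeries.C h0⁻¹ * ∑ i, evJ (H i) * coeffMap (Int.castRingHom L) (y i) := by
    rw [hU₁, map_sum, Finset.mul_sum]
    refine Finset.sum_congr rfl fun i _ => ?_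
    rw [map_mul, coeffMap_evJ, hH' i, evJ_mul, evJ_C, coeffMap_coeffMap,
      show (A.subtype.comp (Int.castRingHom A)) = Int.castRingHom L from RingHom.ext_int _ _]
    ring
  have hU₁k : coeffMap π U₁ =
      ∑ i, evJ ((H' i).map π) * coeffMap (Int.castRingHom k) (y i) := by
    rw [hU₁, map_sum]
    refine Finset.sum_congr rfl fun i _ => ?_
    rw [map_mul, coeffMap_evJ, coeffMap_coeffMap,
      show (π.comp (Int.castRingHom A)) = Int.castRingHom k from RingHom.ext_int _ _]
  have hU₂k : coeffMap π U₂ = evJ ((G' 0).map π) := by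
    rw [hU₂, coeffMap_evJ]
  refine ⟨h0 * g0⁻¹, U₁, U₂, mul_ne_zero hh0 (inv_ne_zero hg0), ⟨?_, ?_, ?_⟩, ⟨?_, ?_, ?_⟩, ?_⟩
  · rw [hU₁L, ← hGH]
    exact mul_mem (C_mem_baseChange N _)
      (mul_mem (jField_le_baseChange L (evJ_mem_jField L G)) hf)
  · rw [hU₁k]
    refine sum_mem fun i _ => mul_mem (jField_le_fullC N k (evJ_mem_jField k _)) ?_
    exact coeffMap_mem_of_mem_closure N (hy i)
  · rw [hU₁k]
    intro h0'
    have hli' := Fintype.linearIndependent_iff.mp hli
      (fun i => (⟨evJ ((H' i).map π), evJ_mem_jField k _⟩ : jField k)) h0' i0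
    have h1 : evJ ((H' i0).map π) = 0 := congrArg Subtype.val hli'
    have h2 := (evJ_eq_zero_iff k).mp h1
    have h3 := congrArg (fun P : k[X] => P.coeff m0) h2
    simp only [Polynomial.coeff_map, Polynomial.coeff_zero, hH1, map_one] at h3
    exact one_ne_zero h3
  · rw [hU₂L]
    exact mul_mem (C_mem_baseChange N _) (jField_le_baseChange L (evJ_mem_jField L G))
  · rw [hU₂k]
    exact jField_le_fullC N k (evJ_mem_jField k _)
  · rw [hU₂k]
    intro h1
    have h2 := (evJ_eq_zero_iff k).mp h1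
    have h3 := congrArg (fun P : k[X] => P.coeff m1) h2
    simp only [Polynomial.coeff_map, Polynomial.coeff_zero, hG1, map_one] at h3
    exact one_ne_zero h3
  · rw [hU₂L, hU₁L, ← hGH, map_mul]
    have hC : HahnSeries.C (Γ := ℤ) h0 * HahnSeries.C h0⁻¹ = 1 := by
      rw [← map_mul, mul_inv_cancel₀ hh0, map_one]
    calc f * (HahnSeries.C g0⁻¹ * evJ G)
        = (HahnSeries.C (Γ := ℤ) h0 * HahnSeries.C h0⁻¹) * (HahnSeries.C g0⁻¹ * (evJ G * f)) := by
          rw [hC]; ring
      _ = HahnSeries.C h0 * HahnSeries.C g0⁻¹ * (HahnSeries.C h0⁻¹ * (evJ G * f)) := by ring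

theorem C_mem_fullC (K : Type*) [Field K] (c : K) :
    HahnSeries.C (Γ := ℤ) c ∈ modularFunctionFieldFullC K N := by
  have := (modularFunctionFieldFullC K N).algebraMap_mem c
  rwa [algebraMap_laurentSeries_eq_single, ← HahnSeries.C_apply] at this

/-- **(G5)** A series with coefficients in `A` lying in `F_L` reduces into `F_k`. -/
theorem red_mem_of_incl_mem (core : CoreData N k) {U : LaurentSeries A}
    (hU : coeffMap A.subtype U ∈ laurentBaseChange L (modularFunctionFieldFull N)) :
    coeffMap π U ∈ modularFunctionFieldFullC k N := by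
  by_cases hU0 : U = 0
  · rw [hU0, map_zero]; exact zero_mem _
  have hU0' : coeffMap A.subtype U ≠ 0 := fun h => hU0 (incl_injective A (by rw [h, map_zero]))
  obtain ⟨c, U₁, U₂, hc, h₁, h₂, heq⟩ := exists_gauss_decomp A π N core hU hU0'
  rcases A.mem_or_inv_mem c with hcA | hcA
  · have h1 : U * U₂ = HahnSeries.C ⟨c, hcA⟩ * U₁ := by
      apply incl_injective A
      rw [map_mul, map_mul, coeffMap_C, heq]
      rfl
    have hk := congrArg (coeffMap π) h1
    rw [map_mul, map_mul, coeffMap_C] at hk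
    have h2 : coeffMap π U =
        HahnSeries.C (π ⟨c, hcA⟩) * coeffMap π U₁ * (coeffMap π U₂)⁻¹ := by
      rw [← hk, mul_assoc, mul_inv_cancel₀ h₂.2.2, mul_one]
    rw [h2]
    exact mul_mem (mul_mem (C_mem_fullC N k _) h₁.2.1) (inv_mem h₂.2.1)
  · have h1 : HahnSeries.C ⟨c⁻¹, hcA⟩ * (U * U₂) = U₁ := by
      apply incl_injective A
      rw [map_mul, map_mul, coeffMap_C, heq]
      show HahnSeries.C c⁻¹ * (HahnSeries.C c * _) = _
      rw [← mul_assoc, ← map_mul, inv_mul_cancel₀ hc, map_one, one_mul]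
    have hk := congrArg (coeffMap π) h1
    rw [map_mul, map_mul, coeffMap_C] at hk
    have hne : HahnSeries.C (Γ := ℤ) (π ⟨c⁻¹, hcA⟩) ≠ 0 := by
      intro h0
      rw [h0, zero_mul] at hk
      exact h₁.2.2 hk.symm
    have h2 : coeffMap π U =
        (HahnSeries.C (Γ := ℤ) (π ⟨c⁻¹, hcA⟩))⁻¹ * coeffMap π U₁ * (coeffMap π U₂)⁻¹ := by
      rw [← hk, ← mul_assoc, inv_mul_cancel₀ hne, one_mul, mul_assoc,
        mul_inv_cancel₀ h₂.2.2, mul_one]
    rw [h2]
    exact mul_mem (mul_mem (inv_mem (C_mem_fullC N k _)) h₁.2.1) (inv_mem h₂.2.1)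

end Decomp

end Fermat.Agent.S18.H516

end
end
-- ===== PACK-END S18/H516/GaussDecomp.lean

-- ===== PACK-BEGIN S28/H326/Pairs.lean
section
/-
S28 / helper326: the conjugate families `w i` (of the modular unit `p¹² Δ(q^p)/Δ(q)`),
`Y i`, and `y i` (of `j(q^p)`), `i ∈ P¹(𝔽_p) = Option (Fin p)`, as Laurent series over `ℂ`
in `t = q^(1/p)`; their mixed power sums in terms of the integer Hecke series.
-/





set_option autoImplicit false
set_option linter.unusedSectionVars false

noncomputable section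

namespace Fermat.Agent.S28.H326

open ModularCurve HahnSeries

/-! ### Integer data -/

/-- formal `Δ = q ∏ (1 - qⁿ)²⁴` as a power series over `ℤ` -/
def DZ : PowerSeries ℤ := PowerSeries.X * dedekindEtaUnit

/-- formal `E₄³` -/
def EZ : PowerSeries ℤ := eisenstein4 ^ 3

theorem jNum_mul_unit : jNum * dedekindEtaUnit = EZ := by
  rw [jNum, EZ, mul_assoc, mul_comm dedekindEtaUnitInv, dedekindEtaUnit_mul_inv, mul_one]

/-- formal `Δ` as a Laurent series over `ℤ` -/
def deltaZ : LaurentSeries ℤ := HahnSeries.ofPowerSeries ℤ ℤ DZ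

/-- formal `Δ⁻¹` as a Laurent series over `ℤ` -/
def deltaInvZ : LaurentSeries ℤ :=
  HahnSeries.single (-1 : ℤ) 1 * HahnSeries.ofPowerSeries ℤ ℤ dedekindEtaUnitInv

theorem deltaZ_mul_deltaInvZ : deltaZ * deltaInvZ = 1 := by
  rw [deltaZ, deltaInvZ, DZ, map_mul, HahnSeries.ofPowerSeries_X]
  calc single (1 : ℤ) (1 : ℤ) * (HahnSeries.ofPowerSeries ℤ ℤ) dedekindEtaUnit *
        (single (-1 : ℤ) (1 : ℤ) * (HahnSeries.ofPowerSeries ℤ ℤ) dedekindEtaUnitInv)
      = (single (1 : ℤ) (1 : ℤ) * single (-1 : ℤ) (1 : ℤ)) *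
          ((HahnSeries.ofPowerSeries ℤ ℤ) dedekindEtaUnit *
            (HahnSeries.ofPowerSeries ℤ ℤ) dedekindEtaUnitInv) := by ring
    _ = 1 := by
      rw [← map_mul, dedekindEtaUnit_mul_inv, HahnSeries.single_mul_single]
      simp

/-- `jq · Δ = E₄³` in `ℤ((q))`. -/
theorem jq_mul_deltaZ : jqModC ℤ * deltaZ = HahnSeries.ofPowerSeries ℤ ℤ EZ := by
  rw [jqModC, deltaZ, DZ, map_mul, HahnSeries.ofPowerSeries_X, ← jNum_mul_unit, map_mul]
  have h : (jNum.map (Int.castRingHom ℤ)) = jNum := by
    ext n; simp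
  rw [h]
  calc single (-1 : ℤ) (1 : ℤ) * (HahnSeries.ofPowerSeries ℤ ℤ) jNum *
        (single (1 : ℤ) (1 : ℤ) * (HahnSeries.ofPowerSeries ℤ ℤ) dedekindEtaUnit)
      = (single (-1 : ℤ) (1 : ℤ) * single (1 : ℤ) (1 : ℤ)) *
          ((HahnSeries.ofPowerSeries ℤ ℤ) jNum *
            (HahnSeries.ofPowerSeries ℤ ℤ) dedekindEtaUnit) := by ring
    _ = _ := by
      rw [HahnSeries.single_mul_single]
      simp

/-! ### Complex versions -/

/-- cast of power series `ℤ⟦X⟧ → ℂ⟦X⟧` -/
abbrev toC : PowerSeries ℤ →+* PowerSeries ℂ := PowerSeries.map (Int.castRingHom ℂ)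

theorem kap_ofPS (g : PowerSeries ℤ) : kap (HahnSeries.ofPowerSeries ℤ ℤ g) = ofPS (toC g) :=
  coeffMap_ofPowerSeries _ g

variable (p : ℕ) [NeZero p]

/-- `U_p` on integer power series -/
def UpZ (g : PowerSeries ℤ) : PowerSeries ℤ := PowerSeries.mk fun n => g.coeff (n * p)

theorem toC_UpZ (g : PowerSeries ℤ) : toC (UpZ p g) = Up p (toC g) := by
  ext n
  simp [UpZ, Up]

/-- the integer Hecke series `p · T_p^{(k)} φ = p^k φ(q^p) + p (U_p φ)(q)` -/
def heckeL (k : ℕ) (φ : PowerSeries ℤ) : LaurentSeries ℤ :=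
  (p : LaurentSeries ℤ) ^ k * qExpand ℤ p (HahnSeries.ofPowerSeries ℤ ℤ φ) +
    (p : LaurentSeries ℤ) * HahnSeries.ofPowerSeries ℤ ℤ (UpZ p φ)

/-- **The analytic input** (to be supplied from the Hecke operator `T_p` on level one forms):
`p · T_p(E₄^{3a} Δ^r) = P(j) · Δ^{a+r}` with `P ∈ ℤ[X]`. -/
def HeckeInput : Prop :=
  ∀ a r : ℕ, ∃ P : Polynomial ℤ,
    heckeL p (12 * (a + r)) (EZ ^ a * DZ ^ r) =
      Polynomial.aeval (jqModC ℤ) P * deltaZ ^ (a + r)

/-- `θ : ℤ[Y] → ℂ((t))`, `Y ↦ j(t^p)` -/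
def theta : Polynomial ℤ →+* LaurentSeries ℂ :=
  (qExpand ℂ p).comp (kap.comp (Polynomial.aeval (jqModC ℤ)).toRingHom)

theorem theta_apply (P : Polynomial ℤ) :
    theta p P = qExpand ℂ p (kap (Polynomial.aeval (jqModC ℤ) P)) := rfl

theorem theta_X : theta p Polynomial.X = jP p := by
  rw [theta_apply, Polynomial.aeval_X, jP, coeffMap_jqModC]

theorem theta_eq_aeval (P : Polynomial ℤ) :
    theta p P = Polynomial.aeval (jP p) (P.map (Int.castRingHom ℚ)) := by
  induction P using Polynomial.induction_on' with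
  | add a b ha hb => rw [map_add, ha, hb, Polynomial.map_add, map_add]
  | monomial n c =>
    rw [← Polynomial.C_mul_X_pow_eq_monomial, map_mul, map_pow, theta_X, Polynomial.map_mul,
      Polynomial.map_pow, Polynomial.map_X, Polynomial.map_C, map_mul, map_pow,
      Polynomial.aeval_X, Polynomial.aeval_C]
    congr 1
    rw [theta_apply, Polynomial.aeval_C]
    simp

/-- The `ℚ`-subalgebra `ℚ[j(t^p)]` of `ℂ((t))`. -/
def Bsub : Subalgebra ℚ (LaurentSeries ℂ) := (Polynomial.aeval (jP p)).range

theorem theta_mem_Bsub (P : Polynomial ℤ) : theta p P ∈ Bsub p :=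
  ⟨P.map (Int.castRingHom ℚ), (theta_eq_aeval p P).symm⟩

/-! ### The conjugates -/

/-- `E₄³` over `ℂ` -/
def EC : PowerSeries ℂ := toC EZ
/-- `Δ` over `ℂ` -/
def DC : PowerSeries ℂ := toC DZ

/-- the `p + 1` conjugation maps, indexed by `P¹(𝔽_p)` -/
def conj : Option (Fin p) → (PowerSeries ℂ →+* LaurentSeries ℂ)
  | none => cInf p
  | some b => cB p b

/-- the weight-12 scalars -/
def scal : Option (Fin p) → LaurentSeries ℂ
  | none => (p : LaurentSeries ℂ) ^ 12
  | some _ => 1

/-- `Δ(t^p)` -/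
def del : LaurentSeries ℂ := cBase p DC

/-- `Δ(t^p)⁻¹` -/
def delInv : LaurentSeries ℂ := qExpand ℂ p (kap deltaInvZ)

theorem del_eq : del p = qExpand ℂ p (kap deltaZ) := by
  rw [del, cBase, RingHom.comp_apply, deltaZ, kap_ofPS, DC]

theorem del_mul_delInv : del p * delInv p = 1 := by
  rw [del_eq, delInv, ← map_mul, ← map_mul, deltaZ_mul_deltaInvZ, map_one, map_one]

theorem delInv_mem_IntCoeff : delInv p ∈ IntCoeff :=
  qExpand_mem_IntCoeff p (kap_mem_IntCoeff _)

/-- conjugates of the unit: `w_∞ = p¹² Δ(t^(p²))/Δ(t^p)`, `w_b = Δ(ζ^b t)/Δ(t^p)` -/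
def w (i : Option (Fin p)) : LaurentSeries ℂ := scal p i * conj p i DC * delInv p

/-- `Y_∞ = p¹² E₄³(t^(p²))/Δ(t^p)`, `Y_b = E₄³(ζ^b t)/Δ(t^p)` -/
def Y (i : Option (Fin p)) : LaurentSeries ℂ := scal p i * conj p i EC * delInv p

theorem sum_scal_pow_conj (m : ℕ) (φ : PowerSeries ℤ) :
    ∑ i, scal p i ^ m * conj p i (toC φ) = qExpand ℂ p (kap (heckeL p (12 * m) φ)) := by
  rw [Fintype.sum_option]
  simp only [scal, conj, one_pow, one_mul]
  rw [Fin.sum_univ_eq_sum_range (fun b => cB p b (toC φ)) p, sum_cB, heckeL]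
  simp only [map_add, map_mul, map_pow, map_natCast, coeffMap_qExpand, kap_ofPS, toC_UpZ,
    ← pow_mul]
  rfl

/-- **Mixed power sums** are in `ℤ[j(t^p)]`. -/
theorem sum_Y_pow_mul_w_pow (h : HeckeInput p) (a r : ℕ) :
    ∃ P : Polynomial ℤ, ∑ i, Y p i ^ a * w p i ^ r = theta p P := by
  obtain ⟨P, hP⟩ := h a r
  refine ⟨P, ?_⟩
  have h1 : ∀ i, Y p i ^ a * w p i ^ r =
      (scal p i ^ (a + r) * conj p i (toC (EZ ^ a * DZ ^ r))) * delInv p ^ (a + r) := by
    intro i
    rw [Y, w, EC, DC, map_mul, map_mul, map_pow, map_pow, map_pow, map_pow]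
    ring
  simp only [h1]
  rw [← Finset.sum_mul, sum_scal_pow_conj, hP, map_mul, map_mul, map_pow, map_pow, ← del_eq,
    ← theta_apply, mul_assoc, ← mul_pow, del_mul_delInv, one_pow, mul_one]

theorem sum_w_pow_mem (h : HeckeInput p) (r : ℕ) : ∑ i, w p i ^ r ∈ Bsub p := by
  obtain ⟨P, hP⟩ := sum_Y_pow_mul_w_pow p h 0 r
  simp only [pow_zero, one_mul] at hP
  rw [hP]
  exact theta_mem_Bsub p P

end Fermat.Agent.S28.H326

end
end
-- ===== PACK-END S28/H326/Pairs.lean

-- ===== PACK-BEGIN S18/H107/T2Branch.lean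
section




/-!
# helper107 — S18 / M3-T : `unramified` for the Hauptmodul `t₂` (`j t² = (t + 256)³`)

From the branch data of the `j`-line (`BranchJ107`): for every constant `c ∉ {-64, 0}`, at a place
`O` with `t ≡ c`, `t - c` is a uniformiser.  (`t = -256` lies over `j = 0` with `e(t/j) = 3`,
`t = 512` over `j = 1728` with `e(t/j) = 2`; only `t = -64`, `0`, `∞` can ramify in `Ω / Lc(t)`.)
-/

set_option autoImplicit false

namespace Fermat.Agent.S18.H107

variable {Ω : Type*} [Field Ω] [CharZero Ω]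

theorem unramified_t2_107 (Lc : Subfield Ω) (j t : Ω) (hrel : j * t ^ 2 = (t + 256) ^ 3)
    (hB : BranchJ107 Lc j) (O : ValuationSubring Ω) (hL : ∀ a ∈ Lc, a ∈ O) (c : Ω) (hc : c ∈ Lc)
    (hc64 : c ≠ -64) (hc0 : c ≠ 0) (hz : t - c ∈ O) (hz' : (t - c)⁻¹ ∉ O) :
    ∀ s ∈ O, s⁻¹ ∉ O → s * (t - c)⁻¹ ∈ O := by
  rw [← OrdLe107.one_iff]
  have hzv : O.valuation (t - c) < 1 := val_lt_one107 O hz hz'
  have hz0 : t - c ≠ 0 := by
    intro h0
    rw [h0, inv_zero] at hz'
    exact hz' O.zero_mem
  have hcv : O.valuation c = 1 := val_const107 O Lc hL hc hc0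
  have htv : O.valuation t = 1 := by
    have : t = c + (t - c) := by ring
    rw [this]
    exact val_add_eq_one107 O hcv hzv
  have ht0 : t ≠ 0 := by
    intro h0
    rw [h0, map_zero] at htv
    exact zero_ne_one htv
  have htO : t ∈ O := (O.valuation_le_one_iff _).1 htv.le
  have hcO : c ∈ O := hL c hc
  have ht2v : O.valuation ((t ^ 2)⁻¹) = 1 := by
    rw [map_inv₀, map_pow, htv, one_pow, inv_one]
  by_cases h256 : c = -256
  · -- over `j = 0`
    subst h256
    have hy : j = (t - -256) ^ 3 * (t ^ 2)⁻¹ := by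
      field_simp
      linear_combination hrel
    have hj0 : j ≠ 0 := by
      rw [hy]
      exact mul_ne_zero (pow_ne_zero _ hz0) (inv_ne_zero (pow_ne_zero _ ht0))
    have hjv : O.valuation j < 1 := by
      rw [hy, map_mul, ht2v, mul_one, map_pow]
      exact pow_lt_one₀ zero_le hzv (by norm_num)
    exact unram_of_factor107 O (k := 3) (by norm_num) hy ht2v hz0
      (hB.zero O hL (mem_of_val_lt_one107 O hjv) (inv_not_mem_of_val_lt_one107 O hj0 hjv))
  by_cases h512 : c = 512
  · -- over `j = 1728`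
    subst h512
    have h576 : O.valuation (576 : Ω) = 1 :=
      val_const107 O Lc hL (ofNat_mem Lc 576) (by norm_num)
    have ht64 : O.valuation (t + 64) = 1 := by
      have : t + 64 = 576 + (t - 512) := by ring
      rw [this]
      exact val_add_eq_one107 O h576 hzv
    have hUv : O.valuation ((t + 64) * (t ^ 2)⁻¹) = 1 := by
      rw [map_mul, ht64, ht2v, mul_one]
    have hy : j - 1728 = (t - 512) ^ 2 * ((t + 64) * (t ^ 2)⁻¹) := by
      field_simp
      linear_combination hrel
    have hU0 : (t + 64) * (t ^ 2)⁻¹ ≠ 0 := by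
      intro h0
      rw [h0, map_zero] at hUv
      exact zero_ne_one hUv
    have hy0 : j - 1728 ≠ 0 := by
      rw [hy]
      exact mul_ne_zero (pow_ne_zero _ hz0) hU0
    have hyv : O.valuation (j - 1728) < 1 := by
      rw [hy, map_mul, hUv, mul_one, map_pow]
      exact pow_lt_one₀ zero_le hzv (by norm_num)
    exact unram_of_factor107 O (k := 2) (by norm_num) hy hUv hz0
      (hB.c1728 O hL (mem_of_val_lt_one107 O hyv) (inv_not_mem_of_val_lt_one107 O hy0 hyv))
  · -- generic point
    have hc256 : c + 256 ≠ 0 := fun h => h256 (by linear_combination h)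
    have hc512 : c - 512 ≠ 0 := fun h => h512 (by linear_combination h)
    have hc64' : c + 64 ≠ 0 := fun h => hc64 (by linear_combination h)
    set a : Ω := (c + 256) ^ 3 * (c ^ 2)⁻¹ with ha
    have haL : a ∈ Lc :=
      Lc.mul_mem (Lc.pow_mem (Lc.add_mem hc (ofNat_mem Lc 256)) 3) (Lc.inv_mem (Lc.pow_mem hc 2))
    have ha0 : a ≠ 0 := mul_ne_zero (pow_ne_zero _ hc256) (inv_ne_zero (pow_ne_zero _ hc0))
    have ha1728 : a ≠ 1728 := by
      intro h
      have h1 : (c - 512) ^ 2 * (c + 64) = 0 := by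
        have h2 : (c + 256) ^ 3 = 1728 * c ^ 2 := by
          rw [ha] at h
          field_simp at h
          linear_combination h
        linear_combination h2
      rcases mul_eq_zero.1 h1 with h3 | h3
      · exact hc512 (pow_eq_zero_iff (by norm_num) |>.1 h3)
      · exact hc64' h3
    -- the cofactor
    set W : Ω := c ^ 2 * t ^ 2 - (196608 * c + 16777216) * t - 16777216 * c with hW
    set W₀ : Ω := c * (c + 256) ^ 2 * (c - 512) with hW₀
    set W₁ : Ω := c ^ 2 * (t + c) - 196608 * c - 16777216 with hW₁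
    have hW₀L : W₀ ∈ Lc :=
      Lc.mul_mem (Lc.mul_mem hc (Lc.pow_mem (Lc.add_mem hc (ofNat_mem Lc 256)) 2))
        (Lc.sub_mem hc (ofNat_mem Lc 512))
    have hW₀0 : W₀ ≠ 0 := mul_ne_zero (mul_ne_zero hc0 (pow_ne_zero _ hc256)) hc512
    have hW₁O : W₁ ∈ O :=
      sub_mem (sub_mem (mul_mem (pow_mem hcO 2) (add_mem htO hcO))
        (mul_mem (ofNat_mem O 196608) hcO)) (ofNat_mem O 16777216)
    have hWv : O.valuation W = 1 := by
      have e : W = W₀ + (t - c) * W₁ := by
        rw [hW, hW₀, hW₁]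
        ring
      rw [e]
      refine val_add_eq_one107 O (val_const107 O Lc hL hW₀L hW₀0) ?_
      rw [map_mul]
      calc O.valuation (t - c) * O.valuation W₁ ≤ O.valuation (t - c) * 1 := by
            gcongr
            exact (O.valuation_le_one_iff _).2 hW₁O
        _ = O.valuation (t - c) := mul_one _
        _ < 1 := hzv
    have hUv : O.valuation (W * (t ^ 2 * c ^ 2)⁻¹) = 1 := by
      rw [map_mul, hWv, one_mul, map_inv₀, map_mul, map_pow, map_pow, htv, hcv, one_pow,
        mul_one, inv_one]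
    have hy : j - a = (t - c) ^ 1 * (W * (t ^ 2 * c ^ 2)⁻¹) := by
      rw [ha, hW]
      field_simp
      linear_combination (c ^ 2) * hrel
    have hU0 : W * (t ^ 2 * c ^ 2)⁻¹ ≠ 0 := by
      intro h0
      rw [h0, map_zero] at hUv
      exact zero_ne_one hUv
    have hy0 : j - a ≠ 0 := by
      rw [hy]
      exact mul_ne_zero (pow_ne_zero _ hz0) hU0
    have hyv : O.valuation (j - a) < 1 := by
      rw [hy, map_mul, hUv, mul_one, pow_one]
      exact hzv
    exact unram_of_factor107 O (k := 1) (by norm_num) hy hUv hz0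
      (hB.generic O hL a haL ha0 ha1728 (mem_of_val_lt_one107 O hyv)
        (inv_not_mem_of_val_lt_one107 O hy0 hyv))

end Fermat.Agent.S18.H107

end
-- ===== PACK-END S18/H107/T2Branch.lean

-- ===== PACK-BEGIN S18/H438/Front/Transport.lean
section




/-!
# S18 / ALG-FRONT (helper438), part 4: from `Alg.GoodModel` (sub-objects of `Ω`) to the field `Fc`

For `G : Alg.GoodModel Lc Ec Fc R V w x S` we define, inside the field `↥Fc`:

* `Rf Fc R : Subring Fc`             (the DVR `R`),
* `Vf G : ValuationSubring Fc`       (the Gauss valuation ring),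
* `xf G, wf G : Fc`                  (coordinate, uniformiser),

and prove the hypotheses of `Front/Chart.lean` and `Front/Gauss.lean` for both charts
(`z = xf G` and `z = (xf G)⁻¹`).
-/

set_option autoImplicit false
set_option linter.style.haveILetI false
set_option linter.unusedSectionVars false

noncomputable section

namespace Fermat.Agent.S18.H438

open Alg Polynomial

variable {Ω : Type*} [Field Ω] {Lc Ec Fc : Subfield Ω} {R V : Subring Ω} {w x : Ω}
  {S : Finset Ω}

/-- `R` as a subring of the field `Fc`. -/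
def Rf (Fc : Subfield Ω) (R : Subring Ω) : Subring Fc := R.comap Fc.subtype

theorem mem_Rf {f : Fc} : f ∈ Rf Fc R ↔ (f : Ω) ∈ R := Iff.rfl

namespace GoodModelFront

variable (G : GoodModel Lc Ec Fc R V w x S)

include G in
theorem R_le_Fc {r : Ω} (hr : r ∈ R) : r ∈ Fc := G.E_le_F (G.R_le hr)

include G in
theorem w_mem_Fc : w ∈ Fc := R_le_Fc G G.w_mem

/-- the coordinate as an element of `Fc` -/
def xf : Fc := ⟨x, G.x_mem⟩

/-- the uniformiser as an element of `Fc` -/
def wf : Fc := ⟨w, w_mem_Fc G⟩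

@[simp] theorem coe_xf : ((xf G : Fc) : Ω) = x := rfl
@[simp] theorem coe_wf : ((wf G : Fc) : Ω) = w := rfl

/-- the Gauss valuation ring as a valuation subring of `Fc` -/
def Vf : ValuationSubring Fc :=
  { V.comap Fc.subtype with
    mem_or_inv_mem' := fun f => by
      rcases G.V_total f f.2 with h | h
      · exact Or.inl h
      · exact Or.inr h }

theorem mem_Vf {f : Fc} : f ∈ Vf G ↔ (f : Ω) ∈ V := Iff.rfl

include G

theorem wf_mem_Rf : wf G ∈ Rf Fc R := G.w_mem

theorem wf_ne_zero : wf G ≠ 0 := fun h => G.w_ne_zero (congrArg Subtype.val h)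

theorem wf_inv_not_mem_Rf : (wf G)⁻¹ ∉ Rf Fc R := fun h => G.w_inv_not_mem h

theorem wf_inv_not_mem_Vf : (wf G)⁻¹ ∉ Vf G := fun h => G.w_inv_not_mem_V h

theorem Rf_le_Vf : ∀ r ∈ Rf Fc R, r ∈ Vf G := fun _ hr => G.R_le_V hr

theorem Vf_gen : ∀ f ∈ Vf G, f⁻¹ ∉ Vf G → f * (wf G)⁻¹ ∈ Vf G :=
  fun f hf hinv => G.V_gen f hf hinv

theorem Rf_disc : ∀ r ∈ Rf Fc R, r ≠ 0 →
    ∃ n : ℕ, r * ((wf G)⁻¹) ^ n ∈ Rf Fc R ∧ (r * ((wf G)⁻¹) ^ n)⁻¹ ∈ Rf Fc R := by
  intro r hr hr0
  have hr0' : (r : Ω) ≠ 0 := fun h => hr0 (Subtype.ext h)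
  obtain ⟨n, h1, h2⟩ := G.w_discrete r hr hr0'
  exact ⟨n, h1, h2⟩

/-- **`R` is a discrete valuation ring.** -/
theorem isDiscreteValuationRing_Rf : IsDiscreteValuationRing (Rf Fc R) :=
  isDiscreteValuationRing_of_disc (Rf Fc R) (wf_mem_Rf G) (wf_ne_zero G)
    (wf_inv_not_mem_Rf G) (Rf_disc G)

theorem irreducible_wf : Irreducible (⟨wf G, wf_mem_Rf G⟩ : Rf Fc R) :=
  irreducible_unif_of_disc (Rf Fc R) (wf_mem_Rf G) (wf_ne_zero G)
    (wf_inv_not_mem_Rf G) (Rf_disc G)

theorem charZero_Fc : CharZero Fc :=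
  haveI := G.charZero
  RingHom.charZero Fc.subtype

/-- `x ∈ V` (field `x_mem_V` of the v4 interface). -/
theorem xf_mem_Vf : xf G ∈ Vf G := G.x_mem_V

/-- `x⁻¹ ∈ V` (Gauss). -/
theorem xf_inv_mem_Vf : (xf G)⁻¹ ∈ Vf G := by
  have h := G.gauss (Polynomial.X : Polynomial Ω)
    (fun i => by
      rw [Polynomial.coeff_X]
      split_ifs
      · exact R.one_mem
      · exact R.zero_mem)
    ⟨1, by simp, by simp [R.one_mem]⟩
  rw [Polynomial.eval_X] at h
  exact h

end GoodModelFront

end Fermat.Agent.S18.H438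

end
end
-- ===== PACK-END S18/H438/Front/Transport.lean

-- ===== PACK-BEGIN S18/B12/H93/RegSeqAbs.lean
section




/-!
# S18 / B12 / A0: `RegSeqAbsStatement` (helper93), adapter over `H393.isIntegral_of_isIntegral_mul'`.
-/

set_option autoImplicit false

namespace Fermat.Agent.S18.B12.H93

attribute [local instance] FractionRing.liftAlgebra FractionRing.isScalarTower_liftAlgebra

universe u v

theorem regSeqAbs : RegSeqAbsStatement.{u, v} := by
  intro P _ _ _ B _ _ _ _ _ _ u w hw hwu b b' hbb'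
  classical
  have hw0 : w ≠ 0 := hw.ne_zero
  have hinjPB : Function.Injective (algebraMap P B) := FaithfulSMul.algebraMap_injective P B
  have hinjBF : Function.Injective (algebraMap B (FractionRing B)) :=
    IsFractionRing.injective B (FractionRing B)
  have hwB : algebraMap P B w ≠ 0 := fun h => hw0 (hinjPB (by rw [map_zero]; exact h))
  have hwF : algebraMap B (FractionRing B) (algebraMap P B w) ≠ 0 :=
    fun h => hwB (hinjBF (by rw [map_zero]; exact h))
  -- the element `f = b / w`
  set f : FractionRing B :=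
    algebraMap B (FractionRing B) b * (algebraMap B (FractionRing B) (algebraMap P B w))⁻¹ with hf
  have hPF : ∀ x : P, algebraMap P (FractionRing B) x =
      algebraMap B (FractionRing B) (algebraMap P B x) :=
    fun x => IsScalarTower.algebraMap_apply P B (FractionRing B) x
  have hwf : algebraMap P (FractionRing B) w * f = algebraMap B (FractionRing B) b := by
    rw [hPF, hf]
    field_simp
  have huf : algebraMap P (FractionRing B) u * f = algebraMap B (FractionRing B) b' := by
    rw [hPF, hf, ← mul_assoc, ← map_mul, hbb', map_mul]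
    field_simp
  have hintB : ∀ x : B, IsIntegral P (algebraMap B (FractionRing B) x) :=
    fun x => (Algebra.IsIntegral.isIntegral x).algebraMap
  have hfint : IsIntegral P f :=
    Fermat.Agent.S18.H393.isIntegral_of_isIntegral_mul' (FractionRing P) hw hwu
      (hwf ▸ hintB b) (huf ▸ hintB b')
  have hfintB : IsIntegral B f := hfint.tower_top
  obtain ⟨b'', hb''⟩ := IsIntegrallyClosed.isIntegral_iff.mp hfintB
  refine ⟨b'', ?_, ?_⟩
  · apply hinjBF
    rw [map_mul, hb'', ← hPF, hwf]
  · apply hinjBF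
    rw [map_mul, hb'', ← hPF, huf]

end Fermat.Agent.S18.B12.H93

end
-- ===== PACK-END S18/B12/H93/RegSeqAbs.lean

-- ===== PACK-BEGIN S18/B12/H393/DiscrRed.lean
section



/-!
# S18 / Route K / b2.5, piece A3 (helper393): `DiscrRedStatement`

`discrRed : DiscrRedStatement` (exact frozen shape of `B12/Spec2.lean`).

* `smul_trace_eq_trace_of_quasiBasis` : generic trace lemma.  `M` finite free over `A`,
  `x` a linearly independent family with `g • M ⊆ span x`, `f` an endomorphism with
  `g • f (x j) = ∑ i, m i j • x i`.  Then `g * tr f = tr m`.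
  (Proof: `tr (φ ∘ f ∘ ι) = tr (ι ∘ φ ∘ f)` for `ι : span x → M`, `φ = g • _ : M → span x`.)
* `smul_intTrace_eq` : `g * intTrace P B β = tr m` if `g • (β * x j) = ∑ i, m i j • x i`
  (`x` a local basis of `B` over `P`).
* `mk_intTrace_eq_trace` : `intTrace P B β mod w = Tr_{(B/wB)/(P/w)} (β mod w)`.
-/

set_option autoImplicit false

noncomputable section

namespace Fermat.Agent.S18.B12.H393

open Fermat.Agent.S18.B12

universe u v

section Generic

variable {A : Type*} [CommRing A] {M : Type*} [AddCommGroup M] [Module A M]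

/-- **Generic trace lemma.** -/
theorem smul_trace_eq_trace_of_quasiBasis [Module.Free A M] [Module.Finite A M]
    {n : ℕ} (f : M →ₗ[A] M) (x : Fin n → M) (hli : LinearIndependent A x) (g : A)
    (hspan : ∀ y : M, g • y ∈ Submodule.span A (Set.range x))
    (m : Matrix (Fin n) (Fin n) A) (hm : ∀ j, g • f (x j) = ∑ i, m i j • x i) :
    g * LinearMap.trace A M f = m.trace := by
  classical
  set E : Submodule A M := Submodule.span A (Set.range x) with hE
  let bE : Module.Basis (Fin n) A E := Module.Basis.span hli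
  have hbE : ∀ j, ((bE j : E) : M) = x j := fun j => Module.Basis.coe_span_apply hli j
  have : Module.Free A E := Module.Free.of_basis bE
  have : Module.Finite A E := Module.Finite.of_basis bE
  let φ : M →ₗ[A] E :=
    { toFun := fun y => ⟨g • y, hspan y⟩
      map_add' := fun y z => Subtype.ext (by simp [smul_add])
      map_smul' := fun r y => Subtype.ext (by simp [smul_comm g r]) }
  have h1 : LinearMap.trace A M (E.subtype ∘ₗ (φ ∘ₗ f)) =
      LinearMap.trace A E ((φ ∘ₗ f) ∘ₗ E.subtype) :=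
    LinearMap.trace_comp_comm' (φ ∘ₗ f) E.subtype
  have h2 : E.subtype ∘ₗ (φ ∘ₗ f) = g • f := by
    ext y; simp [φ]
  have h3 : LinearMap.toMatrix bE bE ((φ ∘ₗ f) ∘ₗ E.subtype) = m := by
    ext i j
    rw [LinearMap.toMatrix_apply]
    have : ((φ ∘ₗ f) ∘ₗ E.subtype) (bE j) = ∑ i, m i j • bE i := by
      apply Subtype.ext
      simp only [LinearMap.coe_comp, Function.comp_apply, Submodule.subtype_apply,
        LinearMap.coe_mk, AddHom.coe_mk, φ, hbE]
      rw [hm j, Submodule.coe_sum]
      refine Finset.sum_congr rfl fun i _ => ?_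
      rw [Submodule.coe_smul, hbE]
    rw [this, map_sum]
    simp [Finsupp.single_apply, Finset.sum_apply']
  rw [h2, map_smul, smul_eq_mul] at h1
  rw [h1, LinearMap.trace_eq_matrix_trace A bE, h3]

end Generic

section IntTrace

attribute [local instance] FractionRing.liftAlgebra FractionRing.isScalarTower_liftAlgebra

variable {P : Type u} [CommRing P] [IsDomain P] [IsIntegrallyClosed P]
  {B : Type v} [CommRing B] [IsDomain B] [IsIntegrallyClosed B] [Algebra P B]
  [Module.Finite P B] [Module.IsTorsionFree P B]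

/-- `g * intTrace β = tr m` when `g • (β * x j) = ∑ i, m i j • x i` for a quasi-basis `x`. -/
theorem smul_intTrace_eq {n : ℕ} (x : Fin n → B) (hli : LinearIndependent P x) (g : P)
    (hspan : ∀ b : B, g • b ∈ Submodule.span P (Set.range x)) (β : B)
    (m : Matrix (Fin n) (Fin n) P) (hm : ∀ j, g • (β * x j) = ∑ i, m i j • x i) :
    g * Algebra.intTrace P B β = m.trace := by
  classical
  have : IsIntegralClosure B P (FractionRing B) :=
    IsIntegralClosure.of_isIntegrallyClosed _ _ _
  have : Algebra.IsAlgebraic (FractionRing P) (FractionRing B) :=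
    isAlgebraic_of_isFractionRing P B ..
  have hloc : IsLocalization (Algebra.algebraMapSubmonoid B (nonZeroDivisors P))
      (FractionRing B) :=
    IsIntegralClosure.isLocalization _ (FractionRing P) _ _
  have : FiniteDimensional (FractionRing P) (FractionRing B) :=
    .of_isLocalization P B (nonZeroDivisors P)
  set K := FractionRing P
  set L := FractionRing B
  have hinjBL : Function.Injective (algebraMap B L) := IsFractionRing.injective B L
  -- linear independence over `K`
  have hliP : LinearIndependent P (fun j => algebraMap B L (x j)) := by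
    have := hli.map' (IsScalarTower.toAlgHom P B L).toLinearMap
      (LinearMap.ker_eq_bot.mpr hinjBL)
    exact this
  have hliK : LinearIndependent K (fun j => algebraMap B L (x j)) :=
    (LinearIndependent.iff_fractionRing P K).mp hliP
  -- images of elements of the `P`-span lie in the `K`-span
  have hmemK : ∀ y : B, y ∈ Submodule.span P (Set.range x) →
      algebraMap B L y ∈ Submodule.span K (Set.range fun j => algebraMap B L (x j)) := by
    intro y hy
    rw [Submodule.mem_span_range_iff_exists_fun] at hy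
    obtain ⟨c, rfl⟩ := hy
    rw [map_sum]
    refine Submodule.sum_mem _ fun i _ => ?_
    have : algebraMap B L (c i • x i) = algebraMap P K (c i) • algebraMap B L (x i) := by
      rw [Algebra.smul_def, map_mul, ← IsScalarTower.algebraMap_apply,
        IsScalarTower.algebraMap_apply P K L, ← Algebra.smul_def]
    rw [this]
    exact Submodule.smul_mem _ _ (Submodule.subset_span ⟨i, rfl⟩)
  have hspanK : ∀ ℓ : L, algebraMap P K g • ℓ ∈
      Submodule.span K (Set.range fun j => algebraMap B L (x j)) := by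
    intro ℓ
    obtain ⟨⟨b, s⟩, hs⟩ := IsLocalization.surj (Algebra.algebraMapSubmonoid B (nonZeroDivisors P)) ℓ
    obtain ⟨s₀, hs₀, hs₀'⟩ := s.2
    have hs₀K : algebraMap P K s₀ ≠ 0 := by
      have := (IsFractionRing.injective P K).ne (nonZeroDivisors.ne_zero hs₀)
      simpa using this
    have hℓ : ℓ = (algebraMap P K s₀)⁻¹ • algebraMap B L b := by
      rw [eq_inv_smul_iff₀ hs₀K]
      simp only at hs
      rw [← hs, ← hs₀', Algebra.smul_def, ← IsScalarTower.algebraMap_apply,
        IsScalarTower.algebraMap_apply P B L, mul_comm]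
    have hgb : algebraMap P K g • algebraMap B L b = algebraMap B L (g • b) := by
      rw [Algebra.smul_def (A := B), map_mul, ← IsScalarTower.algebraMap_apply,
        IsScalarTower.algebraMap_apply P K L, ← Algebra.smul_def]
    rw [hℓ, smul_comm, hgb]
    exact Submodule.smul_mem _ _ (hmemK _ (hspan b))
  have hmK : ∀ j, algebraMap P K g • (Algebra.lmul K L (algebraMap B L β)) (algebraMap B L (x j)) =
      ∑ i, (m.map (algebraMap P K)) i j • algebraMap B L (x i) := by
    intro j
    have h := congrArg (algebraMap B L) (hm j)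
    rw [map_sum] at h
    have e1 : algebraMap B L (g • (β * x j)) =
        algebraMap P K g • (Algebra.lmul K L (algebraMap B L β)) (algebraMap B L (x j)) := by
      rw [Algebra.smul_def (A := B), map_mul, ← IsScalarTower.algebraMap_apply,
        IsScalarTower.algebraMap_apply P K L, ← Algebra.smul_def, map_mul]
      rfl
    rw [← e1, h]
    refine Finset.sum_congr rfl fun i _ => ?_
    rw [Matrix.map_apply, Algebra.smul_def (A := B), map_mul, ← IsScalarTower.algebraMap_apply,
      IsScalarTower.algebraMap_apply P K L, ← Algebra.smul_def]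
  have key := smul_trace_eq_trace_of_quasiBasis (A := K) (M := L)
    (Algebra.lmul K L (algebraMap B L β)) (fun j => algebraMap B L (x j)) hliK
    (algebraMap P K g) hspanK (m.map (algebraMap P K)) hmK
  apply IsFractionRing.injective P K
  rw [map_mul, Algebra.algebraMap_intTrace_fractionRing, Algebra.trace_apply, key]
  simp [Matrix.trace, map_sum]

end IntTrace

section Reduction

variable {P : Type u} [CommRing P]
  {B : Type v} [CommRing B] [Algebra P B]

/-- Membership in `w B` (as the ideal `(span {w}).map (algebraMap P B)`). -/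
theorem mem_map_span_singleton_iff (w : P) (b : B) :
    b ∈ (Ideal.span {w}).map (algebraMap P B) ↔ ∃ β : B, b = w • β := by
  rw [Ideal.map_span, Set.image_singleton, Ideal.mem_span_singleton']
  constructor
  · rintro ⟨β, rfl⟩; exact ⟨β, by rw [Algebra.smul_def, mul_comm]⟩
  · rintro ⟨β, rfl⟩; exact ⟨β, by rw [Algebra.smul_def, mul_comm]⟩

theorem mk_sum_smul (w : P) {n : ℕ} (c : Fin n → P) (x : Fin n → B) :
    Ideal.Quotient.mk ((Ideal.span {w}).map (algebraMap P B)) (∑ i, c i • x i) =
      ∑ i, Ideal.Quotient.mk (Ideal.span {w}) (c i) •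
        Ideal.Quotient.mk ((Ideal.span {w}).map (algebraMap P B)) (x i) := by
  rw [map_sum]
  refine Finset.sum_congr rfl fun i _ => ?_
  rw [Ideal.Quotient.mk_smul_mk_quotient_map_quotient, Algebra.smul_def]

/-- The reduction mod `w` of a quasi-basis is linearly independent over `P/(w)`. -/
theorem linearIndependent_mk_of_quasiBasis {w : P} (hw : Prime w) {n : ℕ} (x : Fin n → B)
    (hli : LinearIndependent P x) (g : P) (hg : ¬ w ∣ g)
    (hspan : ∀ b : B, g • b ∈ Submodule.span P (Set.range x)) :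
    LinearIndependent (P ⧸ Ideal.span {w})
      (fun j => Ideal.Quotient.mk ((Ideal.span {w}).map (algebraMap P B)) (x j)) := by
  classical
  rw [Fintype.linearIndependent_iff]
  intro cb hcb i
  choose c hc using fun i => Ideal.Quotient.mk_surjective (cb i)
  have h0 : Ideal.Quotient.mk ((Ideal.span {w}).map (algebraMap P B)) (∑ i, c i • x i) = 0 := by
    rw [mk_sum_smul, ← hcb]
    refine Finset.sum_congr rfl fun i _ => ?_
    rw [hc i]
  rw [Ideal.Quotient.eq_zero_iff_mem, mem_map_span_singleton_iff] at h0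
  obtain ⟨β, hβ⟩ := h0
  have hgβ := hspan β
  rw [Submodule.mem_span_range_iff_exists_fun] at hgβ
  obtain ⟨d, hd⟩ := hgβ
  have hrel : ∑ i, (g * c i - w * d i) • x i = 0 := by
    simp only [sub_smul, Finset.sum_sub_distrib, mul_smul]
    rw [← Finset.smul_sum, ← Finset.smul_sum, hβ, hd, smul_comm, sub_self]
  have := (Fintype.linearIndependent_iff.mp hli) _ hrel i
  have hdvd : w ∣ g * c i := ⟨d i, sub_eq_zero.mp this⟩
  have hwc : w ∣ c i := (hw.dvd_or_dvd hdvd).resolve_left hg
  rw [← hc i, Ideal.Quotient.eq_zero_iff_mem, Ideal.mem_span_singleton]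
  exact hwc

theorem smul_mem_span_mk_of_quasiBasis (w : P) {n : ℕ} (x : Fin n → B) (g : P)
    (hspan : ∀ b : B, g • b ∈ Submodule.span P (Set.range x))
    (q : B ⧸ (Ideal.span {w}).map (algebraMap P B)) :
    Ideal.Quotient.mk (Ideal.span {w}) g • q ∈ Submodule.span (P ⧸ Ideal.span {w})
      (Set.range fun j => Ideal.Quotient.mk ((Ideal.span {w}).map (algebraMap P B)) (x j)) := by
  obtain ⟨b, rfl⟩ := Ideal.Quotient.mk_surjective q
  have h := hspan b
  rw [Submodule.mem_span_range_iff_exists_fun] at h ⊢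
  obtain ⟨c, hc⟩ := h
  refine ⟨fun i => Ideal.Quotient.mk (Ideal.span {w}) (c i), ?_⟩
  rw [← mk_sum_smul, hc, Ideal.Quotient.mk_smul_mk_quotient_map_quotient, Algebra.smul_def]

end Reduction

section Main

variable {P : Type u} [CommRing P] [IsDomain P] [IsIntegrallyClosed P]
  {B : Type v} [CommRing B] [IsDomain B] [IsIntegrallyClosed B] [Algebra P B]
  [Module.Finite P B] [Module.IsTorsionFree P B]

/-- **Trace reduction.** `intTrace P B β mod w` is the trace of `β mod w` on `B/wB` over `P/(w)`. -/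
theorem mk_intTrace_eq_trace {w : P} (hw : Prime w) {n : ℕ} (x : Fin n → B)
    (hli : LinearIndependent P x) (g : P) (hg : ¬ w ∣ g)
    (hspan : ∀ b : B, g • b ∈ Submodule.span P (Set.range x))
    [Module.Free (P ⧸ Ideal.span {w}) (B ⧸ (Ideal.span {w}).map (algebraMap P B))]
    [Module.Finite (P ⧸ Ideal.span {w}) (B ⧸ (Ideal.span {w}).map (algebraMap P B))]
    (β : B) :
    Ideal.Quotient.mk (Ideal.span {w}) (Algebra.intTrace P B β) =
      Algebra.trace (P ⧸ Ideal.span {w}) (B ⧸ (Ideal.span {w}).map (algebraMap P B))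
        (Ideal.Quotient.mk _ β) := by
  classical
  have hIp : (Ideal.span {w}).IsPrime := (Ideal.span_singleton_prime hw.ne_zero).mpr hw
  have hex : ∀ j, ∃ c : Fin n → P, ∑ i, c i • x i = g • (β * x j) := fun j =>
    (Submodule.mem_span_range_iff_exists_fun P).mp (hspan (β * x j))
  choose c hc using hex
  let m : Matrix (Fin n) (Fin n) P := Matrix.of fun i j => c j i
  have hm : ∀ j, g • (β * x j) = ∑ i, m i j • x i := fun j => (hc j).symm
  have hP := smul_intTrace_eq x hli g hspan β m hm
  have hmΛ : ∀ j, Ideal.Quotient.mk (Ideal.span {w}) g •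
      (Algebra.lmul (P ⧸ Ideal.span {w}) (B ⧸ (Ideal.span {w}).map (algebraMap P B))
        (Ideal.Quotient.mk _ β)) (Ideal.Quotient.mk _ (x j)) =
      ∑ i, (m.map (Ideal.Quotient.mk (Ideal.span {w}))) i j •
        Ideal.Quotient.mk ((Ideal.span {w}).map (algebraMap P B)) (x i) := by
    intro j
    have h := congrArg (Ideal.Quotient.mk ((Ideal.span {w}).map (algebraMap P B))) (hm j)
    rw [mk_sum_smul] at h
    rw [show (∑ i, (m.map (Ideal.Quotient.mk (Ideal.span {w}))) i j •
        Ideal.Quotient.mk ((Ideal.span {w}).map (algebraMap P B)) (x i)) =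
        ∑ i, Ideal.Quotient.mk (Ideal.span {w}) (m i j) •
          Ideal.Quotient.mk ((Ideal.span {w}).map (algebraMap P B)) (x i) from rfl, ← h]
    change Ideal.Quotient.mk (Ideal.span {w}) g •
      (Ideal.Quotient.mk ((Ideal.span {w}).map (algebraMap P B)) β *
        Ideal.Quotient.mk ((Ideal.span {w}).map (algebraMap P B)) (x j)) = _
    rw [← map_mul, Ideal.Quotient.mk_smul_mk_quotient_map_quotient, Algebra.smul_def]
  have hΛ := smul_trace_eq_trace_of_quasiBasis (A := P ⧸ Ideal.span {w})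
    (M := B ⧸ (Ideal.span {w}).map (algebraMap P B))
    (Algebra.lmul _ _ (Ideal.Quotient.mk _ β))
    (fun j => Ideal.Quotient.mk _ (x j))
    (linearIndependent_mk_of_quasiBasis hw x hli g hg hspan)
    (Ideal.Quotient.mk _ g)
    (smul_mem_span_mk_of_quasiBasis w x g hspan)
    (m.map (Ideal.Quotient.mk _)) hmΛ
  have hg0 : Ideal.Quotient.mk (Ideal.span {w}) g ≠ 0 := by
    rw [Ne, Ideal.Quotient.eq_zero_iff_mem, Ideal.mem_span_singleton]; exact hg
  apply mul_left_cancel₀ hg0
  rw [Algebra.trace_apply, hΛ, ← map_mul, hP]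
  simp [Matrix.trace, map_sum]

/-- **A3.** `DiscrRedStatement` (exact frozen shape of `B12/Spec2.lean`). -/
theorem discrRed : DiscrRedStatement.{u, v} := by
  intro P _ _ _ B _ _ _ _ _ _ w hw 𝔪 _ hw𝔪 n x hx n' bb
  classical
  obtain ⟨hli, g, hg𝔪, hspan⟩ := hx
  have hgw : ¬ w ∣ g := fun h => hg𝔪 (Ideal.mem_of_dvd 𝔪 h hw𝔪)
  have hIp : (Ideal.span {w}).IsPrime := (Ideal.span_singleton_prime hw.ne_zero).mpr hw
  have hfree : Module.Free (P ⧸ Ideal.span {w}) (B ⧸ (Ideal.span {w}).map (algebraMap P B)) :=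
    Module.Free.of_basis bb
  have hfin : Module.Finite (P ⧸ Ideal.span {w}) (B ⧸ (Ideal.span {w}).map (algebraMap P B)) :=
    Module.Finite.of_basis bb
  have hliΛ := linearIndependent_mk_of_quasiBasis hw x hli g hgw hspan
  have hspanΛ := smul_mem_span_mk_of_quasiBasis w x g hspan
  have hg0 : Ideal.Quotient.mk (Ideal.span {w}) g ≠ 0 := by
    rw [Ne, Ideal.Quotient.eq_zero_iff_mem, Ideal.mem_span_singleton]; exact hgw
  -- ranks
  have hrank : Module.finrank (P ⧸ Ideal.span {w})
      (B ⧸ (Ideal.span {w}).map (algebraMap P B)) = n' := by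
    rw [Module.finrank_eq_card_basis bb, Fintype.card_fin]
  have hn : n' = n := by
    apply le_antisymm
    · -- `B/wB` embeds into `span x̄` by multiplication by `ḡ`
      set E := Submodule.span (P ⧸ Ideal.span {w})
        (Set.range fun j => Ideal.Quotient.mk ((Ideal.span {w}).map (algebraMap P B)) (x j))
      let bE : Module.Basis (Fin n) (P ⧸ Ideal.span {w}) E := Module.Basis.span hliΛ
      have : Module.Free (P ⧸ Ideal.span {w}) E := Module.Free.of_basis bE
      have : Module.Finite (P ⧸ Ideal.span {w}) E := Module.Finite.of_basis bE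
      let φ : (B ⧸ (Ideal.span {w}).map (algebraMap P B)) →ₗ[P ⧸ Ideal.span {w}] E :=
        { toFun := fun y => ⟨Ideal.Quotient.mk (Ideal.span {w}) g • y, hspanΛ y⟩
          map_add' := fun y z => Subtype.ext (by simp [smul_add])
          map_smul' := fun r y => Subtype.ext (by simp [smul_comm (Ideal.Quotient.mk _ g) r]) }
      have hφ : Function.Injective φ := by
        intro y z hyz
        have h1 : Ideal.Quotient.mk (Ideal.span {w}) g • y =
            Ideal.Quotient.mk (Ideal.span {w}) g • z := congrArg Subtype.val hyz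
        have h2 : Ideal.Quotient.mk (Ideal.span {w}) g • (y - z) = 0 := by
          rw [smul_sub, h1, sub_self]
        exact sub_eq_zero.mp ((smul_eq_zero.mp h2).resolve_left hg0)
      have h1 := LinearMap.finrank_le_finrank_of_injective hφ
      rw [hrank, Module.finrank_eq_card_basis bE, Fintype.card_fin] at h1
      exact h1
    · have h1 := hliΛ.fintype_card_le_finrank
      rw [Fintype.card_fin, hrank] at h1
      exact h1
  subst hn
  refine ⟨rfl, ?_⟩
  -- the matrices
  let Pm : Matrix (Fin n') (Fin n') (P ⧸ Ideal.span {w}) :=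
    Matrix.of fun i j => bb.repr (Ideal.Quotient.mk _ (x i)) j
  have hex : ∀ i, ∃ c : Fin n' → (P ⧸ Ideal.span {w}),
      ∑ j, c j • Ideal.Quotient.mk ((Ideal.span {w}).map (algebraMap P B)) (x j) =
        Ideal.Quotient.mk (Ideal.span {w}) g • bb i := fun i =>
    (Submodule.mem_span_range_iff_exists_fun _).mp (hspanΛ (bb i))
  choose V hV using hex
  let Vm : Matrix (Fin n') (Fin n') (P ⧸ Ideal.span {w}) := Matrix.of V
  have hVP : Vm * Pm = Ideal.Quotient.mk (Ideal.span {w}) g • (1 : Matrix _ _ _) := by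
    ext i k
    have h := congrArg (fun y => bb.repr y k) (hV i)
    simp only [map_sum, map_smul, Finsupp.coe_finsetSum, Finsupp.coe_smul, Finset.sum_apply,
      Pi.smul_apply, smul_eq_mul, Module.Basis.repr_self, Finsupp.single_apply] at h
    rw [Matrix.mul_apply, Matrix.smul_apply, Matrix.one_apply]
    simp only [Vm, Pm, Matrix.of_apply, smul_eq_mul]
    rw [h]
  have hdet : Vm.det * Pm.det = Ideal.Quotient.mk (Ideal.span {w}) g ^ n' := by
    rw [← Matrix.det_mul, hVP, Matrix.det_smul, Matrix.det_one, mul_one, Fintype.card_fin]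
  obtain ⟨u, hu⟩ := Ideal.Quotient.mk_surjective Pm.det
  obtain ⟨v, hv⟩ := Ideal.Quotient.mk_surjective Vm.det
  refine ⟨u, ?_, ?_⟩
  · intro hu𝔪
    have h1 : Ideal.Quotient.mk (Ideal.span {w}) (v * u - g ^ n') = 0 := by
      rw [map_sub, map_mul, map_pow, hu, hv, hdet, sub_self]
    rw [Ideal.Quotient.eq_zero_iff_mem, Ideal.mem_span_singleton] at h1
    have h2 : v * u - g ^ n' ∈ 𝔪 := Ideal.mem_of_dvd 𝔪 h1 hw𝔪
    have h3 : g ^ n' ∈ 𝔪 := by
      have := 𝔪.sub_mem (𝔪.mul_mem_left v hu𝔪) h2
      simpa using this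
    exact hg𝔪 (Ideal.IsPrime.mem_of_pow_mem inferInstance n' h3)
  · -- discriminants
    have hxb : (fun i => Ideal.Quotient.mk ((Ideal.span {w}).map (algebraMap P B)) (x i)) =
        (Pm.map (algebraMap (P ⧸ Ideal.span {w})
          (B ⧸ (Ideal.span {w}).map (algebraMap P B)))).mulVec bb := by
      funext i
      simp only [Matrix.mulVec, dotProduct, Matrix.map_apply, Pm, Matrix.of_apply]
      conv_lhs => rw [← bb.sum_repr (Ideal.Quotient.mk _ (x i))]
      refine Finset.sum_congr rfl fun j _ => ?_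
      rw [Algebra.smul_def]
    have hdisc : Algebra.discr (P ⧸ Ideal.span {w})
        (fun i => Ideal.Quotient.mk ((Ideal.span {w}).map (algebraMap P B)) (x i)) =
        Pm.det ^ 2 * Algebra.discr (P ⧸ Ideal.span {w}) bb := by
      rw [hxb, Algebra.discr_of_matrix_mulVec]
    rw [hu, ← hdisc, Algebra.discr_def, intDiscr, RingHom.map_det]
    congr 1
    ext i j
    simp only [RingHom.mapMatrix_apply, Matrix.map_apply, Matrix.of_apply,
      Algebra.traceMatrix_apply, Algebra.traceForm_apply]
    rw [mk_intTrace_eq_trace hw x hli g hgw hspan, map_mul]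

end Main

end Fermat.Agent.S18.B12.H393

end
end
-- ===== PACK-END S18/B12/H393/DiscrRed.lean

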