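import Mathlib
import Fermat.Prelude.Def_CuspForm_HeckeAlgebra
import Fermat.Prelude.Def_ModularCurve_PeriodHomPair
import Fermat.Statements.S37
import Mathlib.Data.Nat.Factorization.Induction
import Mathlib.Algebra.Squarefree.Basic
import Mathlib.Data.Nat.Squarefree
import Fermat.Agent.Pack.S3234.G0E3L0
import Fermat.Agent.Pack.S3234.G0E3L1
import Fermat.Agent.Pack.S3234.G0E3L3
import Fermat.Agent.Pack.S3234.G0E2L2
import Fermat.Agent.Pack.S3234.G0E3L2
import Fermat.Agent.Pack.S3234.G0E2L1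
import Fermat.Agent.Pack.S3234.G0E2L0
import Fermat.Agent.Pack.S3234.G0E1L0
import Fermat.Agent.Pack.S3234.G0E2L3
import Fermat.Agent.Pack.S3234.G0E1L1

-- ===== PACK-BEGIN S22/H262/IntMat.lean
section


set_option autoImplicit false

/-!
# Integer matrices of positive determinant inside `GL₂(ℝ)`; Hermite decomposition
-/

open Complex Filter Function Metric Set
open UpperHalfPlane hiding I
open scoped Real Topology Manifold ModularForm MatrixGroups

namespace Fermat.Agent.S22.H262

open Matrix.SpecialLinearGroup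

/-- Integer matrices of positive determinant, as a submonoid of `GL₂(ℝ)`. -/
def posInt : Submonoid (GL (Fin 2) ℝ) where
  carrier := {A | (∀ i j, ∃ m : ℤ, A i j = m) ∧ 0 < A.det.val}
  one_mem' := by
    refine ⟨fun i j => ?_, by simp⟩
    by_cases h : i = j
    · exact ⟨1, by simp [h]⟩
    · exact ⟨0, by simp [h]⟩
  mul_mem' := by
    rintro A B ⟨hA, hA'⟩ ⟨hB, hB'⟩
    refine ⟨fun i j => ?_, ?_⟩
    · obtain ⟨a0, ha0⟩ := hA i 0
      obtain ⟨a1, ha1⟩ := hA i 1
      obtain ⟨b0, hb0⟩ := hB 0 j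
      obtain ⟨b1, hb1⟩ := hB 1 j
      refine ⟨a0 * b0 + a1 * b1, ?_⟩
      simp only [Matrix.GeneralLinearGroup.coe_mul, Matrix.mul_apply, Fin.sum_univ_two, ha0, ha1,
        hb0, hb1]
      push_cast
      ring
    · rw [map_mul, Units.val_mul]
      exact mul_pos hA' hB'

theorem mem_posInt {A : GL (Fin 2) ℝ} :
    A ∈ posInt ↔ (∀ i j, ∃ m : ℤ, A i j = m) ∧ 0 < A.det.val := Iff.rfl

theorem det_pos_of_mem_posInt {A : GL (Fin 2) ℝ} (hA : A ∈ posInt) : 0 < A.det.val := hA.2

theorem mapGL_mem_posInt (g : SL(2, ℤ)) : (mapGL ℝ g : GL (Fin 2) ℝ) ∈ posInt := by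
  refine ⟨fun i j => ⟨g i j, by simp⟩, by simp⟩

/-- Integer vectors in `ℂ²`. -/
def Vint : Set (ℂ × ℂ) := {v | ∃ x y : ℤ, v = ((x : ℂ), (y : ℂ))}

theorem actV_mem_Vint {A : GL (Fin 2) ℝ} (hA : A ∈ posInt) {v : ℂ × ℂ} (hv : v ∈ Vint) :
    actV A v ∈ Vint := by
  obtain ⟨x, y, rfl⟩ := hv
  obtain ⟨a, ha⟩ := hA.1 0 0
  obtain ⟨b, hb⟩ := hA.1 0 1
  obtain ⟨c, hc⟩ := hA.1 1 0
  obtain ⟨d, hd⟩ := hA.1 1 1
  refine ⟨a * x + b * y, c * x + d * y, ?_⟩
  simp only [actV, ha, hb, hc, hd]
  push_cast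
  rfl

/-- The element of `GL₂(ℝ)` attached to an integer matrix with positive determinant. -/
noncomputable def glOfInt (M : Matrix (Fin 2) (Fin 2) ℤ) (hM : 0 < M.det) : GL (Fin 2) ℝ :=
  Matrix.GeneralLinearGroup.mkOfDetNeZero (M.map (Int.castRingHom ℝ)) (by
    have : (M.map (Int.castRingHom ℝ)).det = ((M.det : ℤ) : ℝ) := by
      rw [← RingHom.mapMatrix_apply, ← RingHom.map_det]
      rfl
    rw [this]
    exact_mod_cast hM.ne')

theorem glOfInt_apply (M : Matrix (Fin 2) (Fin 2) ℤ) (hM : 0 < M.det) (i j : Fin 2) :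
    (glOfInt M hM) i j = (M i j : ℝ) := rfl

theorem det_glOfInt (M : Matrix (Fin 2) (Fin 2) ℤ) (hM : 0 < M.det) :
    (glOfInt M hM).det.val = (M.det : ℝ) := by
  rw [Matrix.GeneralLinearGroup.val_det_apply]
  show (M.map (Int.castRingHom ℝ)).det = _
  rw [← RingHom.mapMatrix_apply, ← RingHom.map_det]
  rfl

theorem glOfInt_mem_posInt (M : Matrix (Fin 2) (Fin 2) ℤ) (hM : 0 < M.det) :
    glOfInt M hM ∈ posInt :=
  ⟨fun i j => ⟨M i j, rfl⟩, by rw [det_glOfInt]; exact_mod_cast hM⟩

theorem exists_eq_glOfInt {A : GL (Fin 2) ℝ} (hA : A ∈ posInt) :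
    ∃ (M : Matrix (Fin 2) (Fin 2) ℤ) (hM : 0 < M.det), A = glOfInt M hM := by
  choose m hm using hA.1
  let M : Matrix (Fin 2) (Fin 2) ℤ := Matrix.of m
  have hAM : (A : Matrix (Fin 2) (Fin 2) ℝ) = M.map (Int.castRingHom ℝ) := by
    ext i j
    simp [M, hm i j]
  have hdet : ((M.det : ℤ) : ℝ) = A.det.val := by
    rw [Matrix.GeneralLinearGroup.val_det_apply, hAM, ← RingHom.mapMatrix_apply,
      ← RingHom.map_det]
    rfl
  have hM : 0 < M.det := by
    have := hA.2
    rw [← hdet] at this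
    exact_mod_cast this
  refine ⟨M, hM, ?_⟩
  ext i j
  rw [glOfInt_apply]
  exact hm i j

/-- Hermite decomposition of integer matrices with nonzero determinant. -/
theorem exists_SL_mul_upper (m : ℤ) (hm : m ≠ 0) (A : FixedDetMatrix (Fin 2) ℤ m) :
    ∃ (g : SL(2, ℤ)) (D : FixedDetMatrix (Fin 2) ℤ m), D.1 1 0 = 0 ∧ A.1 = g.1 * D.1 := by
  induction A using FixedDetMatrices.induction_on hm with
  | h0 A h _ _ _ => exact ⟨1, A, h, by simp⟩
  | hS B ih =>
    obtain ⟨g, D, hD, hB⟩ := ih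
    exact ⟨ModularGroup.S * g, D, hD, by
      rw [FixedDetMatrices.smul_coe, hB, Matrix.SpecialLinearGroup.coe_mul, Matrix.mul_assoc]⟩
  | hT B ih =>
    obtain ⟨g, D, hD, hB⟩ := ih
    exact ⟨ModularGroup.T * g, D, hD, by
      rw [FixedDetMatrices.smul_coe, hB, Matrix.SpecialLinearGroup.coe_mul, Matrix.mul_assoc]⟩

/-- Hermite decomposition inside `GL₂(ℝ)`. -/
theorem exists_mapGL_mul_upper {A : GL (Fin 2) ℝ} (hA : A ∈ posInt) :
    ∃ (g : SL(2, ℤ)) (δ : GL (Fin 2) ℝ), δ ∈ posInt ∧ δ 1 0 = 0 ∧ A = mapGL ℝ g * δ := by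
  obtain ⟨M, hM, rfl⟩ := exists_eq_glOfInt hA
  obtain ⟨g, D, hD, hMD⟩ := exists_SL_mul_upper M.det hM.ne' ⟨M, rfl⟩
  have hDdet : 0 < D.1.det := by rw [D.2]; exact hM
  refine ⟨g, glOfInt D.1 hDdet, glOfInt_mem_posInt _ _, ?_, ?_⟩
  · rw [glOfInt_apply, hD]
    simp
  · ext i j
    simp only [Matrix.GeneralLinearGroup.coe_mul, Matrix.mul_apply, Fin.sum_univ_two,
      glOfInt_apply]
    have := congrFun (congrFun hMD i) j
    simp only [Matrix.mul_apply, Fin.sum_univ_two] at this
    have h2 : (M i j : ℝ) = ((g.1 i 0 * D.1 0 j + g.1 i 1 * D.1 1 j : ℤ) : ℝ) := by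
      exact_mod_cast congrArg (Int.cast : ℤ → ℝ) this
    rw [h2]
    simp

end Fermat.Agent.S22.H262

end
-- ===== PACK-END S22/H262/IntMat.lean

-- ===== PACK-BEGIN S24/Inf/Subst.lean
section


/-!
# S24 / MOD-INF — substitution `τ ↦ (aτ + b)/d` in convergent Laurent expansions
-/

set_option autoImplicit false

noncomputable section

open HahnSeries ModularCurve UpperHalfPlane Complex
open scoped Real

namespace Fermat.Agent.S24

/-- The map `τ ↦ (aτ + b)/d` of `ℍ` (the identity if `a = 0` or `d = 0`). -/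
def infAff (a : ℕ) (b : ℤ) (d : ℕ) (τ : ℍ) : ℍ :=
  if h : 0 < a ∧ 0 < d then
    ⟨((a : ℂ) * τ + b) / d, by
      have ha : (0 : ℝ) < a := by exact_mod_cast h.1
      have hd : (0 : ℝ) < d := by exact_mod_cast h.2
      have e : (((a : ℂ) * τ + b) / d).im = a * τ.im / d := by
        have : ((a : ℂ) * τ + b) / d = (((a : ℝ) : ℂ) * τ + ((b : ℝ) : ℂ)) / ((d : ℝ) : ℂ) := by
          push_cast; rfl
        rw [this, Complex.div_ofReal_im]
        simp
      rw [e]
      have := τ.im_pos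
      positivity⟩
  else τ

theorem infAff_coe {a d : ℕ} (ha : 0 < a) (hd : 0 < d) (b : ℤ) (τ : ℍ) :
    (infAff a b d τ : ℂ) = ((a : ℂ) * τ + b) / d := by
  rw [infAff, dif_pos ⟨ha, hd⟩]

@[simp]
theorem infAff_one_zero_one (τ : ℍ) : infAff 1 0 1 τ = τ := by
  apply UpperHalfPlane.ext
  rw [infAff_coe one_pos one_pos]
  simp

/-- The unit `exp (2πi b/n)` of `ℂ`. -/
def infRoot (b : ℤ) (n : ℕ) : ℂˣ :=
  Units.mk0 (Complex.exp (2 * π * Complex.I * b / n)) (Complex.exp_ne_zero _)

@[simp]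
theorem infRoot_coe (b : ℤ) (n : ℕ) :
    ((infRoot b n : ℂˣ) : ℂ) = Complex.exp (2 * π * Complex.I * b / n) := rfl

theorem infRoot_zpow_coe (b : ℤ) (n : ℕ) (k : ℤ) :
    (((infRoot b n) ^ k : ℂˣ) : ℂ) = Complex.exp (2 * π * Complex.I * b / n) ^ k := by
  rw [Units.val_zpow_eq_zpow_val, infRoot_coe]

theorem infRoot_zero (n : ℕ) : infRoot 0 n = 1 := by
  apply Units.ext
  simp

/-- Key computation: `z_M((aτ+b)/d) = exp(2πi b/(dM)) · z_N(τ)^e` when `e·d·M = a·N`. -/
theorem infZ_infAff {M N a d e : ℕ} (b : ℤ) (ha : 0 < a) (hd : 0 < d) (hM : 0 < M)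
    (hN : 0 < N) (he : e * (d * M) = a * N) (τ : ℍ) :
    infZ M (infAff a b d τ) = (infRoot b (d * M) : ℂ) * infZ N τ ^ e := by
  rw [infZ_def, infZ_def, infAff_coe ha hd, infRoot_coe, ← Complex.exp_nat_mul, ← Complex.exp_add]
  congr 1
  have hd' : (d : ℂ) ≠ 0 := by exact_mod_cast hd.ne'
  have hM' : (M : ℂ) ≠ 0 := by exact_mod_cast hM.ne'
  have hN' : (N : ℂ) ≠ 0 := by exact_mod_cast hN.ne'
  have he' : (e : ℂ) * ((d : ℂ) * M) = a * N := by exact_mod_cast congrArg (Nat.cast : ℕ → ℂ) he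
  push_cast
  field_simp
  linear_combination (-(τ : ℂ)) * he'

/-- **Substitution (general form).** If `z_M(u τ) = c · z_N(τ)^k` then `f ∘ u` has the
expansion `φ(c · z^k)` in `z_N`. -/
theorem InfExp.subst {M N : ℕ} {f : ℍ → ℂ} {φ : LaurentSeries ℂ} (hf : InfExp M f φ)
    (u : ℍ → ℍ) (c : ℂˣ) (k : ℕ) [NeZero k]
    (hu : ∀ τ : ℍ, infZ M (u τ) = (c : ℂ) * infZ N τ ^ k) :
    InfExp N (fun τ => f (u τ)) (qExpand ℂ k (infTwist c φ)) := by
  intro τ
  have h := hf (u τ)
  rw [hu τ] at h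
  have he0 : (k : ℤ) ≠ 0 := by exact_mod_cast NeZero.ne k
  have hinj : Function.Injective (fun n : ℤ => (k : ℤ) * n) :=
    mul_right_injective₀ he0
  have hrange : ∀ m : ℤ, m ∉ Set.range (fun n : ℤ => (k : ℤ) * n) →
      (qExpand ℂ k (infTwist c φ)).coeff m * infZ N τ ^ m = 0 := by
    intro m hm
    rw [qExpand_coeff_of_not_dvd k _ (fun ⟨j, hj⟩ => hm ⟨j, hj.symm⟩), zero_mul]
  rw [← hinj.hasSum_iff hrange]
  convert h using 1
  funext n
  simp only [Function.comp_apply, qExpand_coeff_mul, infTwist_coeff]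
  rw [mul_zpow, ← zpow_natCast (infZ N τ) k, ← zpow_mul, Units.val_zpow_eq_zpow_val]
  ring

/-- **Substitution.** If `φ` converges to `f` in `z_M`, then `f ∘ (τ ↦ (aτ+b)/d)` has the
expansion `φ(u · z_N^e)` in `z_N`, `u = exp(2πi b/(dM))`, `e = aN/(dM)`. -/
theorem InfExp.comp_infAff {M N a d e : ℕ} [NeZero e] (b : ℤ) (ha : 0 < a) (hd : 0 < d)
    (hM : 0 < M) (hN : 0 < N) (he : e * (d * M) = a * N) {f : ℍ → ℂ} {φ : LaurentSeries ℂ}
    (hf : InfExp M f φ) :
    InfExp N (fun τ => f (infAff a b d τ)) (qExpand ℂ e (infTwist (infRoot b (d * M)) φ)) :=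
  hf.subst (infAff a b d) (infRoot b (d * M)) e (infZ_infAff b ha hd hM hN he)

/-- Translation `τ ↦ τ + 1`: the expansion in `z_N` is twisted by `ζ_N = exp(2πi/N)`. -/
theorem InfExp.comp_translate {N : ℕ} [NeZero N] {f : ℍ → ℂ} {φ : LaurentSeries ℂ}
    (hf : InfExp N f φ) (b : ℤ) :
    InfExp N (fun τ => f (infAff 1 b 1 τ)) (infTwist (infRoot b N) φ) := by
  have hN : 0 < N := Nat.pos_of_ne_zero (NeZero.ne N)
  have h := hf.comp_infAff (e := 1) b one_pos one_pos hN hN (by ring)
  rw [qExpand_one_apply, one_mul] at h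
  exact h

end Fermat.Agent.S24

end
end
-- ===== PACK-END S24/Inf/Subst.lean

-- ===== PACK-BEGIN S24/H117/Integral.lean
section




/-!
# S24 / H117 — integrality at all places over `t = 0` from the embeddings

Key lemma for LT2: if `F / E` (`E ⊆ K(t)`) has degree `#X` and `L : LocalData K F C X t`, then an
element `f : F` whose images under all the embeddings `L.σ x` have non-negative order has
non-negative order at **every** place `v` of `F` with `0 < v.ord t`.
-/

set_option autoImplicit false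
set_option linter.style.haveILetI false

noncomputable section

open AlgebraicCurve Polynomial IntermediateField

namespace Fermat.Agent.S24.H117

variable {K F : Type*} [Field K] [Field F] [Algebra K F]
variable {C : Type*} [Field C] {X : Type*}
variable {t : F} (L : LocalData K F C X t)

theorem σ_aeval_eq (x y : X) (p : K[X]) : L.σ x (aeval t p) = L.σ y (aeval t p) := by
  rw [aeval_eq_sum_range]
  simp only [map_sum, Algebra.smul_def, map_mul, map_pow, L.σ_const, L.σ_t_eq x y]

/-- All the embeddings of a `LocalData` agree on `K(t)`. -/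
theorem σ_eq_of_mem_adjoin (x y : X) {e : F} (he : e ∈ K⟮t⟯) : L.σ x e = L.σ y e := by
  obtain ⟨r, s, rfl⟩ := (mem_adjoin_simple_iff K e).mp he
  rw [map_div₀, map_div₀, σ_aeval_eq L x y r, σ_aeval_eq L x y s]

variable [CharZero K]

/-- **Integrality lemma.** -/
theorem ord_nonneg_of_forall_order_nonneg
    (E : IntermediateField K F) (hE : E ≤ K⟮t⟯) [FiniteDimensional E F]
    (hrank : Module.finrank E F = Nat.card X)
    (f : F) (hf : ∀ x, 0 ≤ ((L.σ x) f).order)
    (v : Place K F) (hv : 0 < v.ord t) : 0 ≤ v.ord f := by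
  classical
  have hXne : Nonempty X := by
    have h0 : 0 < Nat.card X := hrank ▸ Module.finrank_pos
    exact (Nat.card_pos_iff.mp h0).1
  obtain ⟨x₀⟩ := hXne
  have : CharZero E := charZero_of_injective_algebraMap (algebraMap K E).injective
  let σ₀ : E →+* LaurentSeries C := (L.σ x₀).comp (algebraMap E F)
  letI algELS : Algebra E (LaurentSeries C) := σ₀.toAlgebra
  -- the embeddings as `E`-algebra homomorphisms into the algebraic closure
  let τ : X → (F →ₐ[E] AlgebraicClosure (LaurentSeries C)) := fun x =>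
    { toRingHom := (algebraMap (LaurentSeries C) (AlgebraicClosure (LaurentSeries C))).comp (L.σ x)
      commutes' := fun e => by
        show algebraMap (LaurentSeries C) (AlgebraicClosure (LaurentSeries C)) (L.σ x (e : F))
          = algebraMap (LaurentSeries C) (AlgebraicClosure (LaurentSeries C)) (L.σ x₀ (e : F))
        rw [σ_eq_of_mem_adjoin L x x₀ (hE e.2)] }
  have hτapply : ∀ x g, τ x g
      = algebraMap (LaurentSeries C) (AlgebraicClosure (LaurentSeries C)) (L.σ x g) :=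
    fun _ _ => rfl
  have hτinj : Function.Injective τ := by
    intro x y hxy
    apply L.σ_inj
    ext g : 1
    have := DFunLike.congr_fun hxy g
    rw [hτapply, hτapply] at this
    exact (algebraMap (LaurentSeries C) (AlgebraicClosure (LaurentSeries C))).injective this
  have hcard : Nat.card (F →ₐ[E] AlgebraicClosure (LaurentSeries C)) = Nat.card X := by
    rw [← hrank, ← Fintype.card_eq_nat_card]
    exact AlgHom.card E F (AlgebraicClosure (LaurentSeries C))
  have hτsurj : Function.Surjective τ :=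
    ((Nat.bijective_iff_injective_and_card τ).mpr ⟨hτinj, hcard.symm⟩).2
  -- the minimal polynomial of `f`
  have hfint : IsIntegral E f := Algebra.IsIntegral.isIntegral f
  have hPmonic : (minpoly E f).Monic := minpoly.monic hfint
  -- coefficients of the minimal polynomial are integral at `x₀`
  have hcoeff : ∀ i, 0 ≤ ((L.σ x₀) (((minpoly E f).coeff i : E) : F)).order := by
    intro i
    have hint : IsIntegral (OL C)
        (((minpoly E f).map (algebraMap E (AlgebraicClosure (LaurentSeries C)))).coeff i) := by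
      refine Polynomial.isIntegral_coeff_of_factors _ ?_ (IsAlgClosed.splits _) ?_ i
      · rw [(hPmonic.map _).leadingCoeff]
        exact isIntegral_one
      · intro r hr
        have hr' : r ∈ (minpoly E f).rootSet (AlgebraicClosure (LaurentSeries C)) := by
          rw [mem_rootSet']
          refine ⟨(hPmonic.map _).ne_zero, ?_⟩
          rw [IsRoot, eval_map_algebraMap] at hr
          exact hr
        rw [← Algebra.IsAlgebraic.range_eval_eq_rootSet_minpoly] at hr'
        obtain ⟨ψ, rfl⟩ := hr'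
        obtain ⟨x, rfl⟩ := hτsurj ψ
        show IsIntegral (OL C) (τ x f)
        rw [hτapply]
        have : algebraMap (LaurentSeries C) (AlgebraicClosure (LaurentSeries C)) (L.σ x f)
            = algebraMap (OL C) (AlgebraicClosure (LaurentSeries C)) ⟨L.σ x f, hf x⟩ := rfl
        rw [this]
        exact isIntegral_algebraMap
    rw [coeff_map] at hint
    have h2 : IsIntegral (OL C) (σ₀ ((minpoly E f).coeff i)) := by
      have : algebraMap E (AlgebraicClosure (LaurentSeries C)) ((minpoly E f).coeff i)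
          = algebraMap (LaurentSeries C) (AlgebraicClosure (LaurentSeries C))
            (σ₀ ((minpoly E f).coeff i)) := rfl
      rw [this] at hint
      exact (isIntegral_algebraMap_iff
        (algebraMap (LaurentSeries C) (AlgebraicClosure (LaurentSeries C))).injective).mp hint
    obtain ⟨y, hy⟩ := IsIntegrallyClosed.isIntegral_iff.mp h2
    have : σ₀ ((minpoly E f).coeff i) ∈ OL C := hy ▸ y.2
    exact this
  -- transfer to `v`
  have hcoeffv : ∀ i, (((minpoly E f).coeff i : E) : F) ∈ v.toValuationSubring := fun i =>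
    mem_of_ord_nonneg v (ord_nonneg_of_mem_adjoin (hE ((minpoly E f).coeff i).2) hv
      (ord_t_pos L x₀) ((ord_placeOf_nonneg_iff L x₀ _).mpr (hcoeff i)))
  -- `f` is integral over `O_v`
  have hint : IsIntegral v.toValuationSubring f := by
    have hlifts : (minpoly E f).map (algebraMap E F)
        ∈ Polynomial.lifts (algebraMap v.toValuationSubring F) := by
      rw [lifts_iff_coeff_lifts]
      intro n
      rw [coeff_map]
      exact ⟨⟨_, hcoeffv n⟩, rfl⟩
    obtain ⟨q, hq, -, hqm⟩ := lifts_and_natDegree_eq_and_monic hlifts (hPmonic.map _)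
    refine ⟨q, hqm, ?_⟩
    rw [← eval_map, hq, eval_map_algebraMap]
    exact minpoly.aeval E f
  obtain ⟨y, hy⟩ := IsIntegrallyClosed.isIntegral_iff.mp hint
  exact ord_nonneg_of_mem v (hy ▸ y.2)

end Fermat.Agent.S24.H117

end
end
-- ===== PACK-END S24/H117/Integral.lean

-- ===== PACK-BEGIN S30/H709/PeriodLattice.lean
section






/-!
# S30-OCC, the period lattice

`perFun N γ` is the period functional `f ↦ ∫_z^{γ z} f` on `S₂(Γ₀(N))` (Prelude `periodMap`),
`perLattice N` is the subgroup of the dual of `S₂(Γ₀(N))` generated by the period functionals.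
It is a finitely generated free abelian group; under the hypothesis `PeriodHecke N fac`
(Hecke-equivariance of the period map: `λ_γ ∘ T_ℓ = ∑_{δ ∈ fac ℓ γ} λ_δ`) it is stable under the
transposes of all elements of the Hecke algebra, and the Hecke algebra acts faithfully on it
(`perRho`, `perRho_injective`).
-/

set_option autoImplicit false

noncomputable section

namespace Fermat.Agent.S30.H709

open CongruenceSubgroup ModularCurve ModularCurve.Period
open scoped MatrixGroups

/-- `SL(2, ℤ)` is finitely generated. -/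
theorem fg_SL2Z : Group.FG SL(2, ℤ) :=
  Group.fg_iff.mpr ⟨{ModularGroup.S, ModularGroup.T}, SpecialLinearGroup.SL2Z_generators,
    Set.toFinite _⟩

/-- `Γ₀(N)` is finitely generated (Schreier). -/
theorem fg_Gamma0 (N : ℕ) [NeZero N] : Group.FG (Gamma0 N) := by
  have := fg_SL2Z
  exact Subgroup.fg_of_index_ne_zero (Gamma0 N)

section PerFun

variable (N : ℕ) [NeZero N]

/-- The period functional `λ_γ : f ↦ periodMap N f γ` on weight-2 cusp forms. -/
def perFun (γ : Gamma0 N) : Module.Dual ℂ (CuspForm (Gamma0 N) 2) where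
  toFun f := periodMap N f (Additive.ofMul γ)
  map_add' f g := by rw [Fermat.Agent.S21.H381.periodMap_add]; rfl
  map_smul' a f := by rw [Fermat.Agent.S21.H381.periodMap_smul]; rfl

theorem perFun_apply (γ : Gamma0 N) (f : CuspForm (Gamma0 N) 2) :
    perFun N γ f = periodMap N f (Additive.ofMul γ) := rfl

theorem perFun_mul (γ δ : Gamma0 N) : perFun N (γ * δ) = perFun N γ + perFun N δ := by
  refine LinearMap.ext fun f => ?_
  rw [LinearMap.add_apply, perFun_apply, perFun_apply, perFun_apply, ofMul_mul, map_add]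

theorem perFun_one : perFun N 1 = 0 := by
  refine LinearMap.ext fun f => ?_
  rw [perFun_apply, ofMul_one, map_zero, LinearMap.zero_apply]

theorem perFun_inv (γ : Gamma0 N) : perFun N γ⁻¹ = - perFun N γ := by
  refine LinearMap.ext fun f => ?_
  rw [LinearMap.neg_apply, perFun_apply, perFun_apply, ofMul_inv, map_neg]

/-- Period functionals vanish on elements of trace `±2`. -/
theorem perFun_eq_zero_of_trace (γ : Gamma0 N)
    (hγ : ((γ : SL(2, ℤ)) : Matrix (Fin 2) (Fin 2) ℤ).trace ^ 2 = 4) : perFun N γ = 0 := by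
  refine LinearMap.ext fun f => ?_
  rw [perFun_apply, LinearMap.zero_apply]
  exact (mem_parabolicHoms_iff.mp (Fermat.Agent.S21.H381.periodMap_mem_parabolicHoms f)) γ hγ

/-- The period map is injective on cusp forms. -/
theorem periodMap_eq_zero {f : CuspForm (Gamma0 N) 2} (hf : periodMap N f = 0) : f = 0 := by
  have hinj := Fermat.Agent.S21.H81.injective_periodHomPair_of N
    (Fermat.Agent.S21.H381.existsPeriodMapLinear N)
    (fun f => Fermat.Agent.S21.H381.exists_hasEquivariantPrimitive f)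
  have h0 : periodHomPair N (f, f) = periodHomPair N 0 := by
    rw [Fermat.Agent.S21.H381.periodHomPair_apply, hf, map_zero, map_zero]
    simp
  have := hinj h0
  exact congrArg Prod.fst this

/-- The period lattice: the subgroup of the dual of `S₂(Γ₀(N))` generated by the period
functionals. -/
def perLattice : Submodule ℤ (Module.Dual ℂ (CuspForm (Gamma0 N) 2)) :=
  Submodule.span ℤ (Set.range (perFun N))

theorem perFun_mem_perLattice (γ : Gamma0 N) : perFun N γ ∈ perLattice N :=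
  Submodule.subset_span ⟨γ, rfl⟩

theorem perLattice_fg : (perLattice N).FG := by
  obtain ⟨G, hG, hfin⟩ := Group.fg_iff.mp (fg_Gamma0 N)
  have hle : perLattice N ≤ Submodule.span ℤ (perFun N '' G) := by
    refine Submodule.span_le.mpr ?_
    rintro _ ⟨γ, rfl⟩
    have hγ : γ ∈ Subgroup.closure G := by rw [hG]; exact Subgroup.mem_top γ
    induction hγ using Subgroup.closure_induction with
    | mem x hx => exact Submodule.subset_span ⟨x, hx, rfl⟩
    | one => rw [perFun_one]; exact Submodule.zero_mem _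
    | mul x y _ _ hx hy => rw [perFun_mul]; exact Submodule.add_mem _ hx hy
    | inv x _ hx => rw [perFun_inv]; exact Submodule.neg_mem _ hx
  have heq : perLattice N = Submodule.span ℤ (perFun N '' G) :=
    le_antisymm hle (Submodule.span_mono (Set.image_subset_range _ _))
  rw [heq]
  exact Submodule.fg_span (hfin.image _)

instance perLattice_finite : Module.Finite ℤ (perLattice N) :=
  Module.Finite.iff_fg.mpr (perLattice_fg N)

instance perLattice_free : Module.Free ℤ (perLattice N) :=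
  Module.free_of_finite_type_torsion_free'

end PerFun

section Hecke

variable (N : ℕ) [NeZero N]

/-- **Hypothesis `PeriodHecke`** (Hecke-equivariance of the period map, to be supplied by the
`M4a`/`E2a` owners): for every prime `ℓ ∤ N`, the period of `T_ℓ f` along `γ` is the sum of the
periods of `f` along the elements of the multiset `fac ℓ γ`
(`= {γ'ᵢ}` with `αᵢ γ = γ'ᵢ α_{π i}`, `αᵢ` the standard coset representatives of `T_ℓ`). -/
def PeriodHecke (fac : ℕ → Gamma0 N → Multiset (Gamma0 N)) : Prop :=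
  ∀ (ℓ : ℕ) (hℓ : ℓ.Prime) (hℓN : ¬ ℓ ∣ N) (f : CuspForm (Gamma0 N) 2) (γ : Gamma0 N),
    periodMap N (CuspForm.heckeTLin 2 hℓ hℓN f) (Additive.ofMul γ)
      = ((fac ℓ γ).map fun δ => periodMap N f (Additive.ofMul δ)).sum

variable {N}

theorem PeriodHecke.transpose_perFun {fac : ℕ → Gamma0 N → Multiset (Gamma0 N)}
    (hPH : PeriodHecke N fac) {ℓ : ℕ} (hℓ : ℓ.Prime) (hℓN : ¬ ℓ ∣ N) (γ : Gamma0 N) :
    Module.Dual.transpose (CuspForm.heckeTLin 2 hℓ hℓN) (perFun N γ)
      = ((fac ℓ γ).map (perFun N)).sum := by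
  refine LinearMap.ext fun f => ?_
  rw [Module.Dual.transpose_apply, LinearMap.comp_apply, perFun_apply, hPH ℓ hℓ hℓN f γ]
  have : ∀ m : Multiset (Gamma0 N),
      ((m.map (perFun N)).sum : Module.Dual ℂ (CuspForm (Gamma0 N) 2)) f
        = (m.map fun δ => periodMap N f (Additive.ofMul δ)).sum := by
    intro m
    induction m using Multiset.induction_on with
    | empty => simp
    | cons a m ih =>
      rw [Multiset.map_cons, Multiset.sum_cons, LinearMap.add_apply, ih, Multiset.map_cons,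
        Multiset.sum_cons, perFun_apply]
  rw [this]

/-- Under `PeriodHecke`, and when `S` contains the primes dividing `N`, the period lattice is
stable under the transpose of every element of the Hecke algebra. -/
theorem transpose_mem_perLattice {fac : ℕ → Gamma0 N → Multiset (Gamma0 N)}
    (hPH : PeriodHecke N fac) {S : Set ℕ} (hNS : ∀ q : ℕ, q.Prime → q ∣ N → q ∈ S)
    {t : Module.End ℂ (CuspForm (Gamma0 N) 2)} (ht : t ∈ CuspForm.heckeAlgebra N 2 S)
    {x : Module.Dual ℂ (CuspForm (Gamma0 N) 2)} (hx : x ∈ perLattice N) :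
    Module.Dual.transpose t x ∈ perLattice N := by
  induction ht using Algebra.adjoin_induction generalizing x with
  | mem t ht =>
    rcases ht with ⟨ℓ, hℓ, hℓN, -, rfl⟩ | ⟨q, hqN, hq, hqS, rfl⟩
    · induction hx using Submodule.span_induction with
      | mem y hy =>
        obtain ⟨γ, rfl⟩ := hy
        rw [hPH.transpose_perFun hℓ hℓN γ]
        refine multiset_sum_mem _ ?_
        intro z hz
        obtain ⟨δ, -, rfl⟩ := Multiset.mem_map.mp hz
        exact perFun_mem_perLattice N δ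
      | zero => rw [map_zero]; exact Submodule.zero_mem _
      | add y z _ _ hy hz => rw [map_add]; exact Submodule.add_mem _ hy hz
      | smul n y _ hy =>
        have : Module.Dual.transpose (CuspForm.heckeTLin 2 hℓ hℓN) (n • y)
            = n • Module.Dual.transpose (CuspForm.heckeTLin 2 hℓ hℓN) y := map_zsmul _ _ _
        rw [this]
        exact Submodule.smul_mem _ _ hy
    · exact absurd (hNS q hq hqN) hqS
  | algebraMap n =>
    have : Module.Dual.transpose (algebraMap ℤ (Module.End ℂ (CuspForm (Gamma0 N) 2)) n) x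
        = n • x := by
      refine LinearMap.ext fun f => ?_
      rw [Module.Dual.transpose_apply, LinearMap.comp_apply, Module.algebraMap_end_apply,
        map_zsmul, LinearMap.smul_apply]
    rw [this]
    exact Submodule.smul_mem _ _ hx
  | add t s _ _ iht ihs =>
    rw [map_add, LinearMap.add_apply]
    exact Submodule.add_mem _ (iht hx) (ihs hx)
  | mul t s _ _ iht ihs =>
    have : Module.Dual.transpose (t * s) x
        = Module.Dual.transpose s (Module.Dual.transpose t x) := by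
      refine LinearMap.ext fun f => ?_
      simp only [Module.Dual.transpose_apply, LinearMap.comp_apply, Module.End.mul_apply]
    rw [this]
    exact ihs (iht hx)

/-- The transpose of a Hecke operator, restricted to the period lattice. -/
def perRhoAux {fac : ℕ → Gamma0 N → Multiset (Gamma0 N)}
    (hPH : PeriodHecke N fac) {S : Set ℕ} (hNS : ∀ q : ℕ, q.Prime → q ∣ N → q ∈ S)
    (t : CuspForm.heckeAlgebra N 2 S) : Module.End ℤ (perLattice N) :=
  ((Module.Dual.transpose (R := ℂ)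
      (t : Module.End ℂ (CuspForm (Gamma0 N) 2))).restrictScalars ℤ).restrict
        (p := perLattice N) (q := perLattice N) (fun _ hx => transpose_mem_perLattice hPH hNS t.2 hx)

theorem perRhoAux_apply {fac : ℕ → Gamma0 N → Multiset (Gamma0 N)}
    (hPH : PeriodHecke N fac) {S : Set ℕ} (hNS : ∀ q : ℕ, q.Prime → q ∣ N → q ∈ S)
    (t : CuspForm.heckeAlgebra N 2 S) (x : perLattice N) (f : CuspForm (Gamma0 N) 2) :
    ((perRhoAux hPH hNS t x : perLattice N) : Module.Dual ℂ (CuspForm (Gamma0 N) 2)) f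
      = (x : Module.Dual ℂ (CuspForm (Gamma0 N) 2))
          ((t : Module.End ℂ (CuspForm (Gamma0 N) 2)) f) :=
  rfl

/-- The action of the Hecke algebra on the period lattice (by transposes). -/
def perRho {fac : ℕ → Gamma0 N → Multiset (Gamma0 N)}
    (hPH : PeriodHecke N fac) {S : Set ℕ} (hNS : ∀ q : ℕ, q.Prime → q ∣ N → q ∈ S) :
    CuspForm.heckeAlgebra N 2 S →+* Module.End ℤ (perLattice N) where
  toFun t := perRhoAux hPH hNS t
  map_one' := by
    refine LinearMap.ext fun x => Subtype.ext ?_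
    refine LinearMap.ext fun f => ?_
    rw [perRhoAux_apply]
    rfl
  map_mul' t s := by
    refine LinearMap.ext fun x => Subtype.ext ?_
    refine LinearMap.ext fun f => ?_
    rw [Module.End.mul_apply, perRhoAux_apply, perRhoAux_apply, perRhoAux_apply, mul_comm t s]
    rfl
  map_zero' := by
    refine LinearMap.ext fun x => Subtype.ext ?_
    refine LinearMap.ext fun f => ?_
    rw [perRhoAux_apply]
    simp
  map_add' t s := by
    refine LinearMap.ext fun x => Subtype.ext ?_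
    refine LinearMap.ext fun f => ?_
    rw [LinearMap.add_apply, Submodule.coe_add, LinearMap.add_apply, perRhoAux_apply,
      perRhoAux_apply, perRhoAux_apply, Subalgebra.coe_add, LinearMap.add_apply, map_add]

theorem perRho_apply_apply {fac : ℕ → Gamma0 N → Multiset (Gamma0 N)}
    (hPH : PeriodHecke N fac) {S : Set ℕ} (hNS : ∀ q : ℕ, q.Prime → q ∣ N → q ∈ S)
    (t : CuspForm.heckeAlgebra N 2 S) (x : perLattice N) (f : CuspForm (Gamma0 N) 2) :
    ((perRho hPH hNS t x : perLattice N) : Module.Dual ℂ (CuspForm (Gamma0 N) 2)) f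
      = (x : Module.Dual ℂ (CuspForm (Gamma0 N) 2))
          ((t : Module.End ℂ (CuspForm (Gamma0 N) 2)) f) :=
  rfl

/-- The Hecke algebra acts faithfully on the period lattice. -/
theorem perRho_injective {fac : ℕ → Gamma0 N → Multiset (Gamma0 N)}
    (hPH : PeriodHecke N fac) {S : Set ℕ} (hNS : ∀ q : ℕ, q.Prime → q ∣ N → q ∈ S) :
    Function.Injective (perRho hPH hNS : CuspForm.heckeAlgebra N 2 S →+* _) := by
  rw [injective_iff_map_eq_zero]
  intro t ht
  apply Subtype.ext
  refine LinearMap.ext fun f => ?_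
  rw [ZeroMemClass.coe_zero, LinearMap.zero_apply]
  apply periodMap_eq_zero N
  refine AddMonoidHom.ext fun γ => ?_
  obtain ⟨γ, rfl⟩ : ∃ γ' : Gamma0 N, Additive.ofMul γ' = γ := ⟨Additive.toMul γ, rfl⟩
  have h1 := congrArg (fun u : Module.End ℤ (perLattice N) =>
    ((u ⟨perFun N γ, perFun_mem_perLattice N γ⟩ : perLattice N) :
      Module.Dual ℂ (CuspForm (Gamma0 N) 2)) f) ht
  simp only [perRho_apply_apply, perFun_apply,
    LinearMap.zero_apply, ZeroMemClass.coe_zero] at h1
  rw [h1, AddMonoidHom.zero_apply]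

end Hecke

end Fermat.Agent.S30.H709

end
end
-- ===== PACK-END S30/H709/PeriodLattice.lean

-- ===== PACK-BEGIN S37/H99/Formal.lean
section



/-!
# S37 (helper99): formal reduction R1

`SpecializationExists N p J` follows from the existence, for every prime `ℓ ∤ N * p` and every
valuation subring `A` over `ℓ`, of an additive "reduction map" `red : J →+ Y` (into ANY additive
group, no Hecke structure on `Y`) with four pointwise properties.  The quotient `J'`, the map `sp`
and the Frobenius `F` of `IsSpecialization` are then constructed formally.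
-/

set_option autoImplicit false

noncomputable section

namespace Fermat.Agent.S37.H99

open ModularCurve ValuationSubring

section Abstract

variable {K L : Type*} [Field K] [Field L] [Algebra K L]
variable (p : ℕ) (J : Type) [AddCommGroup J] [Module HeckeAlg J]
  [DistribMulAction (L ≃ₐ[K] L) J] [SMulCommClass (L ≃ₐ[K] L) HeckeAlg J]

/-- The four pointwise properties of a reduction map at `(A, ℓ)`. -/
structure IsRed (A : ValuationSubring L) (ℓ : ℕ) (hℓ : ℓ.Prime) {Y : Type*} [AddCommGroup Y]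
    (red : J →+ Y) : Prop where
  inertia : ∀ τ ∈ A.inertiaSubgroupIn K, ∀ x : J, red (τ • x) = red x
  frob_ker : ∀ σ : L ≃ₐ[K] L, A.IsFrobeniusAt σ ℓ → ∀ x : J, red x = 0 → red (σ • x) = 0
  inj_torsion : ∀ x : J, (∃ n : ℕ, p ^ n • x = 0) → red x = 0 → x = 0
  relation : ∀ σ : L ≃ₐ[K] L, A.IsFrobeniusAt σ ℓ → ∀ x : J,
    red (σ • σ • x - heckeGen ⟨ℓ, hℓ⟩ • (σ • x) + ℓ • x) = 0

variable {p J}

/-- The largest Hecke submodule contained in the kernel of `red`. -/
def redKer {Y : Type*} [AddCommGroup Y] (red : J →+ Y) : Submodule HeckeAlg J where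
  carrier := {x | ∀ t : HeckeAlg, red (t • x) = 0}
  zero_mem' := fun t => by simp
  add_mem' := by
    intro x y hx hy t
    rw [smul_add, map_add, hx t, hy t, add_zero]
  smul_mem' := by
    intro c x hx t
    rw [← mul_smul]
    exact hx (t * c)

theorem mem_redKer {Y : Type*} [AddCommGroup Y] (red : J →+ Y) (x : J) :
    x ∈ redKer red ↔ ∀ t : HeckeAlg, red (t • x) = 0 := Iff.rfl

/-- two Frobenius elements at `A` differ by inertia -/
theorem inv_mul_mem_inertiaSubgroupIn {A : ValuationSubring L} {ℓ : ℕ} {σ₀ σ : L ≃ₐ[K] L}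
    (h₀ : A.IsFrobeniusAt σ₀ ℓ) (h : A.IsFrobeniusAt σ ℓ) :
    σ₀⁻¹ * σ ∈ A.inertiaSubgroupIn K := by
  have hσ₀ := h₀.mem_decompositionSubgroup
  have hσ := h.mem_decompositionSubgroup
  let d₀ : A.decompositionSubgroup K := ⟨σ₀, hσ₀⟩
  let d : A.decompositionSubgroup K := ⟨σ, hσ⟩
  refine ⟨d₀⁻¹ * d, ?_, rfl⟩
  refine MonoidHom.mem_ker.mpr ?_
  ext x
  show (d₀⁻¹ * d) • x = x
  rw [mul_smul]
  have h1 : d • x = x ^ ℓ := h.smul_residue_eq x
  have h2 : d₀ • x = x ^ ℓ := h₀.smul_residue_eq x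
  rw [h1, ← h2, inv_smul_smul]

variable (p) in
/-- **R1 at one place.** -/
theorem exists_specialization_of_isRed (A : ValuationSubring L) (ℓ : ℕ) (hℓ : ℓ.Prime)
    (hfrob : ∃ σ₀ : L ≃ₐ[K] L, A.IsFrobeniusAt σ₀ ℓ)
    {Y : Type*} [AddCommGroup Y] (red : J →+ Y) (hred : IsRed (K := K) p J A ℓ hℓ red) :
    ∃ (J' : Type) (_ : AddCommGroup J') (_ : Module HeckeAlg J') (sp : J →+ J')
      (F : J' →+ J'),
      IsSpecialization (K := K) p J J' A ℓ sp F ∧ SpecialFibreRelation J' ℓ hℓ F := by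
  obtain ⟨σ₀, hσ₀⟩ := hfrob
  let M : Submodule HeckeAlg J := redKer red
  -- commutation of Galois with Hecke
  have hcomm : ∀ (g : L ≃ₐ[K] L) (t : HeckeAlg) (x : J), t • (g • x) = g • (t • x) :=
    fun g t x => (smul_comm g t x).symm
  -- Frobenius elements preserve `M`
  have hFM : ∀ σ : L ≃ₐ[K] L, A.IsFrobeniusAt σ ℓ → ∀ x ∈ M, σ • x ∈ M := by
    intro σ hσ x hx t
    rw [hcomm]
    exact hred.frob_ker σ hσ _ (hx t)
  -- inertia acts trivially modulo `M`
  have hIM : ∀ τ ∈ A.inertiaSubgroupIn K, ∀ x : J, τ • x - x ∈ M := by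
    intro τ hτ x t
    rw [smul_sub, map_sub, hcomm, hred.inertia τ hτ, sub_self]
  -- the additive endomorphism `x ↦ σ₀ • x` of `J`
  let φ : J →+ J := DistribSMul.toAddMonoidHom J σ₀
  have hφ : ∀ x, φ x = σ₀ • x := fun _ => rfl
  -- the induced map on the quotient
  let F : (J ⧸ M) →+ (J ⧸ M) :=
    QuotientAddGroup.map M.toAddSubgroup M.toAddSubgroup φ (by
      intro x hx
      exact hFM σ₀ hσ₀ x hx)
  have hF : ∀ x : J, F (Submodule.Quotient.mk x) = Submodule.Quotient.mk (σ₀ • x) := fun _ => rfl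
  let sp : J →+ (J ⧸ M) := (Submodule.mkQ M).toAddMonoidHom
  have hsp : ∀ x : J, sp x = Submodule.Quotient.mk x := fun _ => rfl
  refine ⟨J ⧸ M, inferInstance, inferInstance, sp, F, ⟨?_, ?_, ?_, ?_⟩, ?_⟩
  · -- hecke_comm
    intro T x
    rfl
  · -- inertia_comm
    intro τ hτ x
    rw [hsp, hsp, Submodule.Quotient.eq]
    exact hIM τ hτ x
  · -- frobenius_comm
    intro σ hσ x
    rw [hsp, hsp, hF, Submodule.Quotient.eq]
    have hτ := inv_mul_mem_inertiaSubgroupIn hσ₀ hσ
    have h1 : σ • x - σ₀ • x = σ₀ • ((σ₀⁻¹ * σ) • x - x) := by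
      rw [smul_sub, ← mul_smul, mul_inv_cancel_left]
    rw [h1]
    exact hFM σ₀ hσ₀ _ (hIM _ hτ x)
  · -- injective_torsion
    intro x hx hx0
    rw [hsp, Submodule.Quotient.mk_eq_zero] at hx0
    have := hx0 1
    rw [one_smul] at this
    exact hred.inj_torsion x hx this
  · -- special fibre relation
    intro y
    obtain ⟨x, rfl⟩ := Submodule.Quotient.mk_surjective M y
    rw [hF, hF]
    have h2 : (Submodule.Quotient.mk (σ₀ • σ₀ • x) : J ⧸ M)
        - heckeGen ⟨ℓ, hℓ⟩ • (Submodule.Quotient.mk (σ₀ • x) : J ⧸ M)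
        + ℓ • (Submodule.Quotient.mk x : J ⧸ M)
        = Submodule.Quotient.mk (σ₀ • σ₀ • x - heckeGen ⟨ℓ, hℓ⟩ • (σ₀ • x) + ℓ • x) := by
      rfl
    rw [h2, Submodule.Quotient.mk_eq_zero]
    intro t
    have h3 : t • (σ₀ • σ₀ • x - heckeGen ⟨ℓ, hℓ⟩ • (σ₀ • x) + ℓ • x)
        = σ₀ • σ₀ • (t • x) - heckeGen ⟨ℓ, hℓ⟩ • (σ₀ • (t • x)) + ℓ • (t • x) := by
      rw [smul_add, smul_sub, hcomm, hcomm, smul_comm t (heckeGen ⟨ℓ, hℓ⟩), hcomm,
        smul_comm t ℓ]
    rw [h3]
    exact hred.relation σ₀ hσ₀ (t • x)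

end Abstract

section Rat

variable (N p : ℕ) (J : Type) [AddCommGroup J] [Module HeckeAlg J]
  [DistribMulAction (AlgebraicClosure ℚ ≃ₐ[ℚ] AlgebraicClosure ℚ) J]
  [SMulCommClass (AlgebraicClosure ℚ ≃ₐ[ℚ] AlgebraicClosure ℚ) HeckeAlg J]

/-- **R1.**  Over `ℚ`, `SpecializationExists` follows from the existence of reduction maps. -/
theorem specializationExists_of_isRed
    (H : ∀ ℓ : ℕ, (hℓ : ℓ.Prime) → ¬ ℓ ∣ N * p →
      ∀ A : ValuationSubring (AlgebraicClosure ℚ), A.LiesOverPrime ℓ →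
        ∃ (Y : Type) (_ : AddCommGroup Y) (red : J →+ Y),
          IsRed (K := ℚ) p J A ℓ hℓ red) :
    SpecializationExists (K := ℚ) (L := AlgebraicClosure ℚ) N p J := by
  intro ℓ hℓ hdvd A hA
  obtain ⟨Y, _, red, hred⟩ := H ℓ hℓ hdvd A hA
  exact exists_specialization_of_isRed p A ℓ hℓ (exists_isFrobeniusAt ℓ hℓ A hA) red hred

end Rat

end Fermat.Agent.S37.H99

end
end
-- ===== PACK-END S37/H99/Formal.lean

-- ===== PACK-BEGIN S24/H864/FF3c.lean
section


/-!
# S24 / ALG / FF1+FF3 (part c): the fundamental identity, abstract form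

`R ⊆ S` Dedekind domains, `S` finite over `R`, `F = Frac S`, `p = (τ)` a maximal ideal of `R`
with residue field `K` (algebraically closed).  Then the places `v` of `F/K` with `0 < v(τ)`
(assumed to contain `R` in their valuation ring) correspond to the primes of `S` over `p`, and
`∑_v v(τ) = rank_R S`.
-/

set_option autoImplicit false

noncomputable section

open AlgebraicCurve IsDedekindDomain

namespace Fermat.Agent.S24.H864

/-- universe-polymorphic version of `IsAlgClosed.of_ringEquiv` -/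
theorem isAlgClosed_of_ringEquiv {k : Type*} {k' : Type*} [Field k] [Field k'] [IsAlgClosed k]
    (e : k ≃+* k') : IsAlgClosed k' := by
  apply IsAlgClosed.of_exists_root
  intro p hmp hp
  have hpe : (p.map e.symm.toRingHom).degree ≠ 0 := by
    rw [Polynomial.degree_map]
    exact ne_of_gt (Polynomial.degree_pos_of_irreducible hp)
  rcases IsAlgClosed.exists_root (k := k) (p.map e.symm.toRingHom) hpe with ⟨x, hx⟩
  use e x
  rw [Polynomial.IsRoot] at hx
  apply e.symm.injective
  rw [map_zero, ← hx]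
  clear hx hpe hp hmp
  induction p using Polynomial.induction_on <;> simp_all

section Rel

variable {K F : Type*} [Field K] [Field F] [Algebra K F]
variable {S : Type*} [CommRing S] [IsDedekindDomain S] [Algebra S F] [IsFractionRing S F]
  [Algebra K S] [IsScalarTower K S F]
variable {R : Type*} [CommRing R] [IsDomain R] [Algebra R S] [Algebra R F] [IsScalarTower R S F]
  [Module.Finite R S]

omit [IsDedekindDomain S] [IsFractionRing S F] [Algebra K S] [IsScalarTower K S F] [IsDomain R] in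
/-- valuation rings are integrally closed: `S ⊆ O_v` as soon as `R ⊆ O_v`. -/
theorem algebraMap_mem_of_base (v : Place K F)
    (hR : ∀ r : R, algebraMap R F r ∈ v.toValuationSubring) (s : S) :
    algebraMap S F s ∈ v.toValuationSubring := by
  have hint : IsIntegral R s := Algebra.IsIntegral.isIntegral s
  obtain ⟨P, hP, hPs⟩ := hint
  set φ : R →+* v.toValuationSubring :=
    (algebraMap R F).codRestrict v.toValuationSubring.toSubring hR with hφ
  have hcomp : (algebraMap v.toValuationSubring F).comp φ = algebraMap R F := by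
    ext r; rfl
  have h1 : IsIntegral v.toValuationSubring (algebraMap S F s) := by
    refine ⟨P.map φ, hP.map φ, ?_⟩
    rw [Polynomial.eval₂_map, hcomp]
    have h2 := congrArg (algebraMap S F) hPs
    rw [map_zero, Polynomial.hom_eval₂, ← IsScalarTower.algebraMap_eq] at h2
    exact h2
  obtain ⟨y, hy⟩ := IsIntegrallyClosed.isIntegral_iff.mp h1
  rw [← hy]
  exact y.2

variable (p : Ideal R) [hpmax : p.IsMaximal] (τ : R)

omit [IsFractionRing S F] [Algebra K S] [IsScalarTower K S F] [Algebra R F] [IsScalarTower R S F]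
  [Module.Finite R S] [IsDedekindDomain S] [IsDomain R] hpmax in
theorem algebraMap_mem_of_primesOver (hp : p = Ideal.span {τ}) (q : p.primesOver S) :
    algebraMap R S τ ∈ q.1 := by
  have h1 : τ ∈ p := by rw [hp]; exact Ideal.mem_span_singleton_self τ
  have h2 := q.1.over_def p
  rw [h2] at h1
  exact h1

omit [IsFractionRing S F] [Algebra K S] [IsScalarTower K S F] [Algebra R F] [IsScalarTower R S F]
  [Module.Finite R S] [IsDedekindDomain S] [IsDomain R] hpmax in
theorem primesOver_ne_bot (hp : p = Ideal.span {τ}) (hτ : τ ≠ 0)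
    (hinj : Function.Injective (algebraMap R S)) (q : p.primesOver S) : q.1 ≠ ⊥ := by
  intro h
  have h1 := algebraMap_mem_of_primesOver p τ hp q
  rw [h, Ideal.mem_bot] at h1
  exact hτ (hinj (by rw [h1, map_zero]))

/-- the height one prime attached to a prime over `p` -/
def wOf (hp : p = Ideal.span {τ}) (hτ : τ ≠ 0)
    (hinj : Function.Injective (algebraMap R S)) (q : p.primesOver S) : HeightOneSpectrum S :=
  ⟨q.1, q.2.1, primesOver_ne_bot p τ hp hτ hinj q⟩

omit hpmax [Module.Finite R S] in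
theorem ord_wOf (hp : p = Ideal.span {τ}) (hτ : τ ≠ 0)
    (hinj : Function.Injective (algebraMap R S)) (q : p.primesOver S) :
    (Place.ofHeightOneSpectrum (K := K) (F := F) (wOf p τ hp hτ hinj q)).ord (algebraMap R F τ)
      = (q.1.ramificationIdx R : ℤ) := by
  have hτ' : algebraMap R S τ ≠ 0 := fun h => hτ (hinj (by rw [h, map_zero]))
  rw [IsScalarTower.algebraMap_apply R S F, ord_ofHeightOneSpectrum_algebraMap _ hτ']
  have hmap : p.map (algebraMap R S) = Ideal.span {algebraMap R S τ} := by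
    rw [hp, Ideal.map_span, Set.image_singleton]
  have hne : p.map (algebraMap R S) ≠ ⊥ := by
    rw [hmap, Ne, Ideal.span_singleton_eq_bot]
    exact hτ'
  rw [Ideal.IsDedekindDomain.ramificationIdx_eq_multiplicity p q.1 hne, hmap]
  rfl

section Inertia

variable [IsAlgClosed K] [Algebra K R] [IsScalarTower K R S]

omit [IsFractionRing S F] [Algebra K S] [IsScalarTower K S F] [Algebra R F] [IsScalarTower R S F]
  [IsDedekindDomain S] [IsDomain R] [Algebra K F] [IsScalarTower K R S] in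
/-- residue field `K` algebraically closed ⟹ all inertia degrees are `1`. -/
theorem inertiaDeg_eq_one (hres : ∀ r : R, ∃ c : K, r - algebraMap K R c ∈ p)
    (q : p.primesOver S) : q.1.inertiaDeg R = 1 := by
  haveI : q.1.IsMaximal := Ideal.primesOver.isMaximal q
  rw [Ideal.inertiaDeg_eq_of_isMaximal p q.1]
  letI : Field (R ⧸ p) := Ideal.Quotient.field p
  letI : Field (S ⧸ q.1) := Ideal.Quotient.field q.1
  -- `K ≃ R ⧸ p`
  let f : K →+* R ⧸ p := (Ideal.Quotient.mk p).comp (algebraMap K R)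
  have hf : Function.Bijective f := by
    refine ⟨f.injective, fun y => ?_⟩
    obtain ⟨r, rfl⟩ := Ideal.Quotient.mk_surjective y
    obtain ⟨c, hc⟩ := hres r
    refine ⟨c, ?_⟩
    show Ideal.Quotient.mk p (algebraMap K R c) = Ideal.Quotient.mk p r
    rw [eq_comm, Ideal.Quotient.eq]
    exact hc
  haveI : IsAlgClosed (R ⧸ p) := isAlgClosed_of_ringEquiv (RingEquiv.ofBijective f hf)
  haveI : Algebra.IsIntegral (R ⧸ p) (S ⧸ q.1) := inferInstance
  have hbij : Function.Bijective (algebraMap (R ⧸ p) (S ⧸ q.1)) :=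
    IsAlgClosed.algebraMap_bijective_of_isIntegral
  have htop : (⊥ : Subalgebra (R ⧸ p) (S ⧸ q.1)) = ⊤ :=
    (Algebra.surjective_algebraMap_iff.mp hbij.2).symm
  exact Subalgebra.bot_eq_top_iff_finrank_eq_one.mp htop

end Inertia

section Main

variable [IsAlgClosed K] [Algebra K R] [IsScalarTower K R S] [Module.Flat R S]

/-- **Fundamental identity, abstract form.** -/
theorem fundamental_identity_abstract
    (hp : p = Ideal.span {τ}) (hτ : τ ≠ 0) (hinj : Function.Injective (algebraMap R S))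
    (hres : ∀ r : R, ∃ c : K, r - algebraMap K R c ∈ p)
    (hR : ∀ v : Place K F, 0 < v.ord (algebraMap R F τ) →
      ∀ r : R, algebraMap R F r ∈ v.toValuationSubring)
    (s : Finset (Place K F)) (hs : ∀ v, v ∈ s ↔ 0 < v.ord (algebraMap R F τ)) :
    ∑ v ∈ s, v.ord (algebraMap R F τ) = (Module.finrank R S : ℤ) := by
  classical
  haveI : Fintype (p.primesOver S) := (Algebra.QuasiFinite.finite_primesOver p).fintype
  have hsum := Ideal.sum_ramification_inertia_eq_finrank p S
  have hτ' : algebraMap R S τ ≠ 0 := fun h => hτ (hinj (by rw [h, map_zero]))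
  set g : p.primesOver S → Place K F :=
    fun q => Place.ofHeightOneSpectrum (K := K) (wOf p τ hp hτ hinj q) with hg
  have hg_inj : Function.Injective g := by
    intro q q' h
    have h1 : wOf p τ hp hτ hinj q = wOf p τ hp hτ hinj q' :=
      ofHeightOneSpectrum_injective (K := K) (F := F) h
    exact Subtype.ext (congrArg HeightOneSpectrum.asIdeal h1)
  have hg_ord : ∀ q, (g q).ord (algebraMap R F τ) = (q.1.ramificationIdx R : ℤ) :=
    fun q => ord_wOf p τ hp hτ hinj q
  have himg : Finset.univ.image g = s := by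
    ext v
    rw [Finset.mem_image, hs]
    constructor
    · rintro ⟨q, -, rfl⟩
      rw [hg_ord]
      exact_mod_cast Ideal.ramificationIdx_pos q.1 R
    · intro hv
      have hS := algebraMap_mem_of_base (S := S) v (hR v hv)
      have hv' : 0 < v.ord (algebraMap S F (algebraMap R S τ)) := by
        rwa [← IsScalarTower.algebraMap_apply R S F]
      obtain ⟨w, hw, hwq⟩ := exists_heightOneSpectrum_of_place v hS hτ' hv'
      have hle : p ≤ w.asIdeal.under R := by
        rw [hp, Ideal.span_singleton_le_iff_mem, Ideal.under_def, Ideal.mem_comap, hwq]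
        exact (mem_primeOfPlace v hS hτ').mpr hv'
      have hne : w.asIdeal.under R ≠ ⊤ := (Ideal.IsPrime.under R w.asIdeal).ne_top
      have hq : w.asIdeal ∈ p.primesOver S := ⟨w.isPrime, ⟨hpmax.eq_of_le hne hle⟩⟩
      refine ⟨⟨w.asIdeal, hq⟩, Finset.mem_univ _, ?_⟩
      rw [← hw]
      show Place.ofHeightOneSpectrum (K := K) (wOf p τ hp hτ hinj ⟨w.asIdeal, hq⟩) = _
      congr 1
  rw [← himg, Finset.sum_image (fun a _ b _ h => hg_inj h)]
  simp_rw [hg_ord]
  rw [← hsum]
  push_cast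
  refine Finset.sum_congr rfl fun q _ => ?_
  rw [inertiaDeg_eq_one p hres q, Nat.cast_one, mul_one]

end Main

end Rel

end Fermat.Agent.S24.H864

end
end
-- ===== PACK-END S24/H864/FF3c.lean

-- ===== PACK-BEGIN S28/H88/PrimeLevel.lean
section
/-
S28 (Igusa) -- helper88: prime-level step [L2]: `j(q^p) ∉ k(j)` for `(p : k) ≠ 0`.
Inputs (explicit hypotheses): the unit polynomial `UnitPolyData p` and the θ-identity
`(θ j)^6 = Δ j^4 (j - 1728)^3` over `ℤ`.
-/


set_option autoImplicit false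

noncomputable section

open ModularCurve HahnSeries

namespace Fermat.Agent.S28

section KeyOrder

variable (k : Type*) [Field k]

/-- The coefficient of `q^{-deg P}` in `P(j)` is the leading coefficient of `P`. -/
theorem h88_coeff_aeval_jqModC (P : Polynomial k) :
    (Polynomial.aeval (jqModC k) P).coeff (-(P.natDegree : ℤ)) = P.leadingCoeff := by
  rw [Polynomial.aeval_eq_sum_range, HahnSeries.coeff_sum,
    Finset.sum_eq_single_of_mem P.natDegree (Finset.self_mem_range_succ _)]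
  · rw [Algebra.smul_def, algebraMap_laurentSeries_eq_single, HahnSeries.coeff_single_zero_mul,
      coeff_jqModC_pow_self, mul_one]; rfl
  · intro i hi hne
    have hlt : i < P.natDegree :=
      lt_of_le_of_ne (Nat.lt_succ_iff.mp (Finset.mem_range.mp hi)) hne
    rw [Algebra.smul_def, algebraMap_laurentSeries_eq_single, HahnSeries.coeff_single_zero_mul,
      coeff_jqModC_pow_of_lt k (by omega), mul_zero]

theorem h88_aeval_jqModC_injective :
    Function.Injective (Polynomial.aeval (jqModC k) : Polynomial k →ₐ[k] LaurentSeries k) := by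
  rw [injective_iff_map_eq_zero]
  intro P hP
  have h := h88_coeff_aeval_jqModC k P
  rw [hP, HahnSeries.coeff_zero] at h
  exact Polynomial.leadingCoeff_eq_zero.mp h.symm

theorem h88_order_aeval_jqModC_le {P : Polynomial k} (hP : P ≠ 0) :
    (Polynomial.aeval (jqModC k) P).order ≤ 0 := by
  have h : (Polynomial.aeval (jqModC k) P).coeff (-(P.natDegree : ℤ)) ≠ 0 := by
    rw [h88_coeff_aeval_jqModC]
    exact Polynomial.leadingCoeff_ne_zero.mpr hP
  have := HahnSeries.order_le_of_coeff_ne_zero h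
  omega

theorem h88_jqModC_mem_jField : jqModC k ∈ jField k :=
  IntermediateField.subset_adjoin k _ (Set.mem_singleton _)

/-- Chain rule: `θ` maps `k(j)` into `k(j) · θ j`. -/
theorem h88_chain_rule {x : LaurentSeries k} (hx : x ∈ jField k) :
    ∃ c ∈ jField k, thetaL k x = c * thetaL k (jqModC k) := by
  unfold jField at hx
  induction hx using IntermediateField.adjoin_induction with
  | mem x hx =>
    rw [Set.mem_singleton_iff] at hx; subst hx
    exact ⟨1, one_mem _, (one_mul _).symm⟩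
  | algebraMap c =>
    refine ⟨0, zero_mem _, ?_⟩
    rw [zero_mul, algebraMap_laurentSeries_eq_single]
    exact h88_thetaL_single_zero c
  | add x y hx hy ihx ihy =>
    obtain ⟨a, ha, hxa⟩ := ihx
    obtain ⟨b, hb, hyb⟩ := ihy
    exact ⟨a + b, add_mem ha hb, by rw [h88_thetaL_add, hxa, hyb, add_mul]⟩
  | inv x hx ih =>
    obtain ⟨a, ha, hxa⟩ := ih
    refine ⟨-a * x⁻¹ * x⁻¹, mul_mem (mul_mem (neg_mem ha) (inv_mem hx)) (inv_mem hx), ?_⟩
    by_cases hx0 : x = 0
    · subst hx0; simp [h88_thetaL_zero]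
    · have h1 : thetaL k (x * x⁻¹) = 0 := by
        rw [mul_inv_cancel₀ hx0]; exact h88_thetaL_one
      rw [h88_thetaL_mul, hxa] at h1
      have h2 : x * thetaL k x⁻¹ = -(a * thetaL k (jqModC k) * x⁻¹) :=
        eq_neg_of_add_eq_zero_right h1
      have h3 : thetaL k x⁻¹ = x⁻¹ * (x * thetaL k x⁻¹) := by
        rw [← mul_assoc, inv_mul_cancel₀ hx0, one_mul]
      rw [h3, h2]; ring
  | mul x y hx hy ihx ihy =>
    obtain ⟨a, ha, hxa⟩ := ihx
    obtain ⟨b, hb, hyb⟩ := ihy
    exact ⟨a * y + x * b, add_mem (mul_mem ha hy) (mul_mem hx hb), by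
      rw [h88_thetaL_mul, hxa, hyb]; ring⟩

end KeyOrder

section DeltaCoeff

variable (R : Type*) [CommRing R]

theorem h88_deltaL_coeff_of_le {m : ℤ} (hm : m ≤ 0) : (deltaL R).coeff m = 0 := by
  rw [deltaL, HahnSeries.coeff_single_mul, ofPowerSeries_coeff_of_neg _ (by omega), mul_zero]

theorem h88_deltaL_coeff_one : (deltaL R).coeff 1 = 1 := by
  rw [deltaL, HahnSeries.coeff_single_mul, sub_self, one_mul]
  have h := HahnSeries.ofPowerSeries_apply_coeff (Γ := ℤ)
    (dedekindEtaUnit.map (Int.castRingHom R)) 0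
  rw [Nat.cast_zero] at h
  rw [h, PowerSeries.coeff_map, PowerSeries.coeff_zero_eq_constantCoeff,
    constantCoeff_dedekindEtaUnit]
  simp

theorem h88_qExpand_deltaL_coeff_of_lt (p : ℕ) [NeZero p] {n : ℤ} (hn : n < p) :
    (qExpand R p (deltaL R)).coeff n = 0 := by
  by_cases hdvd : (p : ℤ) ∣ n
  · obtain ⟨m, rfl⟩ := hdvd
    rw [qExpand_coeff_mul]
    apply h88_deltaL_coeff_of_le
    by_contra hm
    rw [not_le] at hm
    have hp : (0 : ℤ) < p := by exact_mod_cast Nat.pos_of_ne_zero (NeZero.ne p)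
    nlinarith
  · exact qExpand_coeff_of_not_dvd p _ hdvd

end DeltaCoeff

section Transport

variable (k : Type*) [Field k]

theorem h88_coeffMap_comp_evalAt :
    (coeffMap (Int.castRingHom k)).comp (evalAt (jqModC ℤ)) = evalAt (jqModC k) := by
  apply Polynomial.ringHom_ext
  · intro a
    simp [evalAt]
  · simp [evalAt, coeffMap_jqModC]

/-- The θ-identity over `k`, transported from `ℤ`. -/
theorem h88_theta_identity_field
    (hθ : (thetaL ℤ (jqModC ℤ)) ^ 6 = deltaL ℤ * (jqModC ℤ) ^ 4 * (jqModC ℤ - 1728) ^ 3) :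
    (thetaL k (jqModC k)) ^ 6 = deltaL k * (jqModC k) ^ 4 * (jqModC k - 1728) ^ 3 := by
  have h := congrArg (coeffMap (Int.castRingHom k)) hθ
  simpa only [map_pow, map_mul, map_sub, h88_coeffMap_thetaL, coeffMap_jqModC,
    h88_coeffMap_deltaL, map_ofNat] using h

/-- The unit polynomial relation over `k`, transported from `ℤ`. -/
theorem h88_unitPoly_field (p : ℕ) [NeZero p] (W : UnitPolyData p) :
    W.W.eval₂ (evalAt (jqModC k)) ((p : LaurentSeries k) ^ 12 * unitL k p) = 0 := by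
  have h := congrArg (coeffMap (Int.castRingHom k)) W.eval_unit
  rw [Polynomial.hom_eval₂, map_zero, map_mul, map_pow, map_natCast, h88_coeffMap_unitL,
    h88_coeffMap_comp_evalAt] at h
  exact h

end Transport

section RatFuncEmbedding

variable (k : Type*) [Field k]

/-- The embedding `k(X) → k((q))`, `X ↦ j`. -/
def h88_iota : RatFunc k →ₐ[k] LaurentSeries k :=
  RatFunc.liftAlgHom (Polynomial.aeval (jqModC k))
    (nonZeroDivisors_le_comap_nonZeroDivisors_of_injective _ (h88_aeval_jqModC_injective k))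

theorem h88_iota_injective : Function.Injective (h88_iota k) :=
  RatFunc.liftAlgHom_injective _ (h88_aeval_jqModC_injective k)

theorem h88_iota_algebraMap (P : Polynomial k) :
    h88_iota k (algebraMap (Polynomial k) (RatFunc k) P) = Polynomial.aeval (jqModC k) P := by
  have h := RatFunc.liftAlgHom_apply_div (Polynomial.aeval (jqModC k))
    (nonZeroDivisors_le_comap_nonZeroDivisors_of_injective _ (h88_aeval_jqModC_injective k)) P 1
  simpa [h88_iota] using h

theorem h88_jField_le_range : jField k ≤ (h88_iota k).fieldRange := by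
  unfold jField
  rw [IntermediateField.adjoin_le_iff]
  intro x hx
  rw [Set.mem_singleton_iff] at hx
  subst hx
  exact ⟨algebraMap (Polynomial k) (RatFunc k) Polynomial.X,
    (h88_iota_algebraMap k Polynomial.X).trans (Polynomial.aeval_X _)⟩

/-- An element of `k(j)` which is a root of a monic polynomial with coefficients in the
image of `ℤ[j]` is a polynomial in `j`. -/
theorem h88_exists_poly_of_integral {w : LaurentSeries k} (hw : w ∈ jField k)
    (W : Polynomial (Polynomial ℤ)) (hW : W.Monic)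
    (hroot : W.eval₂ (evalAt (jqModC k)) w = 0) :
    ∃ P : Polynomial k, w = Polynomial.aeval (jqModC k) P := by
  obtain ⟨r, hr⟩ := h88_jField_le_range k hw
  let ψ : Polynomial ℤ →+* Polynomial k := Polynomial.mapRingHom (Int.castRingHom k)
  have hcomp : ((h88_iota k).toRingHom.comp (algebraMap (Polynomial k) (RatFunc k))).comp ψ
      = evalAt (jqModC k) := by
    apply Polynomial.ringHom_ext
    · intro a
      simp [ψ, evalAt]
    · show h88_iota k (algebraMap (Polynomial k) (RatFunc k)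
          (Polynomial.map (Int.castRingHom k) Polynomial.X))
        = Polynomial.aeval (jqModC k) Polynomial.X
      rw [Polynomial.map_X, h88_iota_algebraMap, Polynomial.aeval_X]
      exact (Polynomial.aeval_X (R := ℤ) (jqModC k)).symm
  have hint : IsIntegral (Polynomial k) r := by
    refine ⟨W.map ψ, hW.map ψ, ?_⟩
    apply h88_iota_injective k
    rw [map_zero, Polynomial.eval₂_map]
    have h2 := Polynomial.hom_eval₂ W ((algebraMap (Polynomial k) (RatFunc k)).comp ψ)
      (h88_iota k).toRingHom r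
    rw [← RingHom.comp_assoc, hcomp, hr, hroot] at h2
    exact h2
  obtain ⟨P, hP⟩ := IsIntegrallyClosed.isIntegral_iff.mp hint
  refine ⟨P, ?_⟩
  rw [← h88_iota_algebraMap, hP]
  exact hr.symm

end RatFuncEmbedding

section Main

variable (k : Type*) [Field k]

theorem h88_natCast_mem_jField (n : ℕ) : (n : LaurentSeries k) ∈ jField k :=
  natCast_mem _ n

theorem h88_natCast_ne_zero {p : ℕ} (hpk : (p : k) ≠ 0) : (p : LaurentSeries k) ≠ 0 := by
  have h : (p : LaurentSeries k) = algebraMap k (LaurentSeries k) (p : k) :=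
    (map_natCast _ p).symm
  rw [h]
  exact (map_ne_zero (algebraMap k (LaurentSeries k))).mpr hpk

theorem h88_deltaL_ne_zero : deltaL k ≠ 0 := by
  intro h
  have := h88_deltaL_coeff_one k
  rw [h, HahnSeries.coeff_zero] at this
  exact zero_ne_one this

theorem h88_qExpand_jqModC_coeff (p : ℕ) [NeZero p] :
    (qExpand k p (jqModC k)).coeff (-(p : ℤ)) = 1 := by
  have h := qExpand_coeff_mul (R := k) p (jqModC k) (-1)
  rw [coeff_jqModC_neg_one] at h
  rw [← h]
  congr 1
  ring

/-- **[L2]** For `(p : k) ≠ 0`, `p > 1`: `j(q^p) ∉ k(j)`. -/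
theorem h88_jp_not_mem_jField (p : ℕ) [NeZero p] (hpk : (p : k) ≠ 0) (hp1 : 1 < p)
    (W : UnitPolyData p)
    (hθ : (thetaL ℤ (jqModC ℤ)) ^ 6 = deltaL ℤ * (jqModC ℤ) ^ 4 * (jqModC ℤ - 1728) ^ 3) :
    qExpand k p (jqModC k) ∉ jField k := by
  intro hmem
  have hθk := h88_theta_identity_field k hθ
  have hjmem := h88_jqModC_mem_jField k
  have hp0 : (p : LaurentSeries k) ≠ 0 := h88_natCast_ne_zero k hpk
  have hpmem : (p : LaurentSeries k) ∈ jField k := h88_natCast_mem_jField k p
  have h1728 : (1728 : LaurentSeries k) ∈ jField k := by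
    have := h88_natCast_mem_jField k 1728
    rwa [Nat.cast_ofNat] at this
  have hd := h88_deltaL_mul_deltaInvL k
  obtain ⟨c, hc, hcj⟩ := h88_chain_rule k hmem
  have h1 : thetaL k (qExpand k p (jqModC k))
      = (p : LaurentSeries k) * qExpand k p (thetaL k (jqModC k)) :=
    h88_thetaL_qExpand p (jqModC k)
  have hVθ : (qExpand k p (thetaL k (jqModC k))) ^ 6
      = qExpand k p (deltaL k) * (qExpand k p (jqModC k)) ^ 4
        * (qExpand k p (jqModC k) - 1728) ^ 3 := by
    have h := congrArg (qExpand k p) hθk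
    simpa only [map_pow, map_mul, map_sub, map_ofNat] using h
  have h2 : (p : LaurentSeries k) ^ 6 * (qExpand k p (deltaL k) * (qExpand k p (jqModC k)) ^ 4
        * (qExpand k p (jqModC k) - 1728) ^ 3)
      = c ^ 6 * (deltaL k * (jqModC k) ^ 4 * (jqModC k - 1728) ^ 3) := by
    rw [← hVθ, ← hθk, ← mul_pow, ← mul_pow, ← h1, hcj]
  have h3 : (p : LaurentSeries k) ^ 6 * unitL k p * ((qExpand k p (jqModC k)) ^ 4
        * (qExpand k p (jqModC k) - 1728) ^ 3)
      = c ^ 6 * ((jqModC k) ^ 4 * (jqModC k - 1728) ^ 3) := by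
    have h : (p : LaurentSeries k) ^ 6 * (qExpand k p (deltaL k) * (qExpand k p (jqModC k)) ^ 4
              * (qExpand k p (jqModC k) - 1728) ^ 3) * deltaInvL k
        = c ^ 6 * (deltaL k * (jqModC k) ^ 4 * (jqModC k - 1728) ^ 3) * deltaInvL k := by
      rw [h2]
    unfold unitL
    calc _ = (p : LaurentSeries k) ^ 6 * (qExpand k p (deltaL k) * (qExpand k p (jqModC k)) ^ 4
              * (qExpand k p (jqModC k) - 1728) ^ 3) * deltaInvL k := by ring
      _ = c ^ 6 * (deltaL k * (jqModC k) ^ 4 * (jqModC k - 1728) ^ 3) * deltaInvL k := h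
      _ = c ^ 6 * ((jqModC k) ^ 4 * (jqModC k - 1728) ^ 3) * (deltaL k * deltaInvL k) := by ring
      _ = _ := by rw [hd, mul_one]
  have hp_neg : (-(p : ℤ)) ≠ 0 := by
    have : (0 : ℤ) < p := by exact_mod_cast Nat.pos_of_ne_zero (NeZero.ne p)
    omega
  have hVj : qExpand k p (jqModC k) ≠ 0 := by
    intro h
    have := h88_qExpand_jqModC_coeff k p
    rw [h, HahnSeries.coeff_zero] at this
    exact zero_ne_one this
  have hVj' : qExpand k p (jqModC k) - 1728 ≠ 0 := by
    intro h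
    have h4 := h88_qExpand_jqModC_coeff k p
    have h5 : qExpand k p (jqModC k) = ((1728 : ℕ) : LaurentSeries k) := by
      rw [Nat.cast_ofNat]; exact sub_eq_zero.mp h
    have h6 : ((1728 : ℕ) : LaurentSeries k) = HahnSeries.single 0 ((1728 : ℕ) : k) := by
      rw [← algebraMap_laurentSeries_eq_single, map_natCast]
    rw [h5, h6, HahnSeries.coeff_single_of_ne hp_neg] at h4
    exact zero_ne_one h4
  have hden : (p : LaurentSeries k) ^ 6 * ((qExpand k p (jqModC k)) ^ 4
        * (qExpand k p (jqModC k) - 1728) ^ 3) ≠ 0 :=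
    mul_ne_zero (pow_ne_zero _ hp0) (mul_ne_zero (pow_ne_zero _ hVj) (pow_ne_zero _ hVj'))
  have hu : unitL k p ∈ jField k := by
    have h : unitL k p = c ^ 6 * ((jqModC k) ^ 4 * (jqModC k - 1728) ^ 3)
        * ((p : LaurentSeries k) ^ 6 * ((qExpand k p (jqModC k)) ^ 4
          * (qExpand k p (jqModC k) - 1728) ^ 3))⁻¹ := by
      rw [eq_mul_inv_iff_mul_eq₀ hden, ← h3]; ring
    rw [h]
    exact mul_mem (mul_mem (pow_mem hc 6)
      (mul_mem (pow_mem hjmem 4) (pow_mem (sub_mem hjmem h1728) 3)))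
      (inv_mem (mul_mem (pow_mem hpmem 6)
        (mul_mem (pow_mem hmem 4) (pow_mem (sub_mem hmem h1728) 3))))
  have hw : (p : LaurentSeries k) ^ 12 * unitL k p ∈ jField k :=
    mul_mem (pow_mem hpmem 12) hu
  obtain ⟨P, hP⟩ := h88_exists_poly_of_integral k hw W.W W.monic (h88_unitPoly_field k p W)
  -- order contradiction
  have hwΔ : Polynomial.aeval (jqModC k) P * deltaL k
      = (p : LaurentSeries k) ^ 12 * qExpand k p (deltaL k) := by
    rw [← hP]
    unfold unitL
    calc _ = (p : LaurentSeries k) ^ 12 * qExpand k p (deltaL k) * (deltaL k * deltaInvL k) := by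
          ring
      _ = _ := by rw [hd, mul_one]
  have hVΔ : qExpand k p (deltaL k) ≠ 0 := fun h =>
    h88_deltaL_ne_zero k (qExpand_injective p (by rw [h, map_zero]))
  have hrhs : (p : LaurentSeries k) ^ 12 * qExpand k p (deltaL k) ≠ 0 :=
    mul_ne_zero (pow_ne_zero _ hp0) hVΔ
  have hP0 : P ≠ 0 := by
    intro h
    rw [h, map_zero, zero_mul] at hwΔ
    exact hrhs hwΔ.symm
  have hPj : Polynomial.aeval (jqModC k) P ≠ 0 := fun h =>
    hP0 (h88_aeval_jqModC_injective k (by rw [h, map_zero]))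
  have hord : (Polynomial.aeval (jqModC k) P * deltaL k).order ≤ 1 := by
    rw [HahnSeries.order_mul hPj (h88_deltaL_ne_zero k)]
    have ha := h88_order_aeval_jqModC_le k hP0
    have hb : (deltaL k).order ≤ 1 := HahnSeries.order_le_of_coeff_ne_zero (by
      rw [h88_deltaL_coeff_one]; exact one_ne_zero)
    omega
  have hne : (Polynomial.aeval (jqModC k) P * deltaL k).coeff
      (Polynomial.aeval (jqModC k) P * deltaL k).order ≠ 0 := by
    rw [Ne, HahnSeries.coeff_order_eq_zero]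
    exact mul_ne_zero hPj (h88_deltaL_ne_zero k)
  have hlt : (Polynomial.aeval (jqModC k) P * deltaL k).order < (p : ℤ) := by
    have : (1 : ℤ) < p := by exact_mod_cast hp1
    omega
  have hzero : ∀ n : ℤ, n < p →
      ((p : LaurentSeries k) ^ 12 * qExpand k p (deltaL k)).coeff n = 0 := by
    intro n hn
    rw [← Nat.cast_pow, ← nsmul_eq_mul, HahnSeries.coeff_smul,
      h88_qExpand_deltaL_coeff_of_lt k p hn, smul_zero]
  rw [hwΔ] at hne hlt
  exact hne (hzero _ hlt)

end Main

end Fermat.Agent.S28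

end

end
-- ===== PACK-END S28/H88/PrimeLevel.lean

-- ===== PACK-BEGIN S20/Comb/Index.lean
section





/-!
# The index of `Gamma0 N` in `SL(2,ℤ)` is the Dedekind psi function

* `index_Gamma0 : (Gamma0 N).index = ModularCurve.dedekindPsi N` (all `N`, including `N = 0`)
* `card_quotient_Gamma0 : Nat.card (SL(2,ℤ) ⧸ Gamma0 N) = ModularCurve.dedekindPsi N`
-/

set_option autoImplicit false

namespace Fermat.Agent.S20.Comb

open Matrix MatrixGroups CongruenceSubgroup

lemma dedekindPsi_prime_mul_of_dvd (p M : ℕ) (hp : p.Prime) (hM : M ≠ 0) (h : p ∣ M) :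
    ModularCurve.dedekindPsi (p * M) = p * ModularCurve.dedekindPsi M := by
  unfold ModularCurve.dedekindPsi
  have hset : (p * M).divisors.filter Squarefree = M.divisors.filter Squarefree := by
    ext d
    simp only [Finset.mem_filter, Nat.mem_divisors]
    constructor
    · rintro ⟨⟨hd, -⟩, hsq⟩
      refine ⟨⟨?_, hM⟩, hsq⟩
      by_cases hpd : p ∣ d
      · obtain ⟨d', rfl⟩ := hpd
        have hd' : d' ∣ M := (Nat.mul_dvd_mul_iff_left hp.pos).mp hd
        have hcop : Nat.Coprime p d' := by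
          rw [Nat.Prime.coprime_iff_not_dvd hp]
          intro hpd'
          have h2 : p * p ∣ p * d' := Nat.mul_dvd_mul_left p hpd'
          have h3 := hsq p h2
          exact hp.one_lt.ne' (Nat.isUnit_iff.mp h3)
        exact Nat.Coprime.mul_dvd_of_dvd_of_dvd hcop h hd'
      · exact Nat.Coprime.dvd_of_dvd_mul_left
          ((Nat.Prime.coprime_iff_not_dvd hp).mpr hpd).symm hd
    · rintro ⟨⟨hd, -⟩, hsq⟩
      exact ⟨⟨dvd_mul_of_dvd_right hd p, mul_ne_zero hp.ne_zero hM⟩, hsq⟩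
  rw [hset, Finset.mul_sum]
  refine Finset.sum_congr rfl fun d hd => ?_
  have hd' : d ∣ M := (Nat.mem_divisors.mp (Finset.mem_filter.mp hd).1).1
  exact Nat.mul_div_assoc p hd'

lemma dedekindPsi_prime_mul_of_not_dvd (p M : ℕ) (hp : p.Prime) (hM : M ≠ 0) (h : ¬ p ∣ M) :
    ModularCurve.dedekindPsi (p * M) = (p + 1) * ModularCurve.dedekindPsi M := by
  unfold ModularCurve.dedekindPsi
  rw [← Finset.sum_filter_add_sum_filter_not ((p * M).divisors.filter Squarefree) (fun d => p ∣ d)]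
  have hset1 : ((p * M).divisors.filter Squarefree).filter (fun d => ¬ p ∣ d)
      = M.divisors.filter Squarefree := by
    ext d
    simp only [Finset.mem_filter, Nat.mem_divisors]
    constructor
    · rintro ⟨⟨⟨hd, -⟩, hsq⟩, hpd⟩
      exact ⟨⟨Nat.Coprime.dvd_of_dvd_mul_left
        ((Nat.Prime.coprime_iff_not_dvd hp).mpr hpd).symm hd, hM⟩, hsq⟩
    · rintro ⟨⟨hd, -⟩, hsq⟩
      exact ⟨⟨⟨dvd_mul_of_dvd_right hd p, mul_ne_zero hp.ne_zero hM⟩, hsq⟩,
        fun hpd => h (dvd_trans hpd hd)⟩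
  have hset2 : ((p * M).divisors.filter Squarefree).filter (fun d => p ∣ d)
      = (M.divisors.filter Squarefree).image (fun d => p * d) := by
    ext d
    simp only [Finset.mem_filter, Nat.mem_divisors, Finset.mem_image]
    constructor
    · rintro ⟨⟨⟨hd, -⟩, hsq⟩, ⟨d', rfl⟩⟩
      exact ⟨d', ⟨⟨(Nat.mul_dvd_mul_iff_left hp.pos).mp hd, hM⟩, hsq.of_mul_right⟩, rfl⟩
    · rintro ⟨d', ⟨⟨hd', -⟩, hsq'⟩, rfl⟩
      have hcop : Nat.Coprime p d' :=
        (Nat.Prime.coprime_iff_not_dvd hp).mpr fun hpd => h (dvd_trans hpd hd')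
      exact ⟨⟨⟨Nat.mul_dvd_mul_left p hd', mul_ne_zero hp.ne_zero hM⟩,
        (Nat.squarefree_mul hcop).mpr ⟨hp.prime.squarefree, hsq'⟩⟩, dvd_mul_right _ _⟩
  rw [hset1, hset2, Finset.sum_image (fun x _ y _ hxy => Nat.eq_of_mul_eq_mul_left hp.pos hxy),
    add_mul, one_mul, Finset.mul_sum, add_comm]
  congr 1
  · refine Finset.sum_congr rfl fun d hd => ?_
    have hd' : d ∣ M := (Nat.mem_divisors.mp (Finset.mem_filter.mp hd).1).1
    exact Nat.mul_div_assoc p hd'
  · refine Finset.sum_congr rfl fun d hd => ?_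
    exact Nat.mul_div_mul_left M d hp.pos

lemma Gamma0_one_eq_top : Gamma0 1 = ⊤ := by
  ext g
  simp only [Gamma0_mem, Subgroup.mem_top, iff_true]
  exact Subsingleton.elim _ _

lemma index_Gamma0_zero : (Gamma0 0).index = 0 := by
  rw [Subgroup.index]
  haveI : Infinite (SL(2, ℤ) ⧸ Gamma0 0) := by
    refine Infinite.of_injective
      (fun t : ℤ => (QuotientGroup.mk (lowRep t) : SL(2, ℤ) ⧸ Gamma0 0)) ?_
    intro t t' h
    simp only at h
    rw [mk_eq_mk_iff] at h
    simp only [lowRep_apply_zero_zero, lowRep_apply_one_zero, Int.cast_one, one_mul,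
      mul_one] at h
    have h' : ((t' - t : ℤ) : ZMod 0) = 0 := h
    have h'' := (ZMod.intCast_zmod_eq_zero_iff_dvd (t' - t) 0).mp h'
    simp only [Nat.cast_zero, zero_dvd_iff] at h''
    exact (sub_eq_zero.mp h'').symm
  exact Nat.card_eq_zero_of_infinite

lemma dedekindPsi_zero : ModularCurve.dedekindPsi 0 = 0 := by
  simp [ModularCurve.dedekindPsi]

/-- **(I1)** The index of `Γ₀(N)` in `SL(2,ℤ)` is `ψ(N)` (for `N ≠ 0`). -/
theorem index_Gamma0_of_ne_zero (N : ℕ) (hN : N ≠ 0) :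
    (Gamma0 N).index = ModularCurve.dedekindPsi N := by
  induction N using induction_on_primes with
  | zero => exact absurd rfl hN
  | one => rw [ModularCurve.dedekindPsi_one, Gamma0_one_eq_top, Subgroup.index_top]
  | prime_mul p M hp ih =>
    have hM : M ≠ 0 := fun h => hN (by rw [h, mul_zero])
    rw [← Subgroup.relIndex_mul_index (Gamma0_mul_le p M), ih hM]
    by_cases h : p ∣ M
    · rw [relIndex_Gamma0_of_dvd p M hM hp h, dedekindPsi_prime_mul_of_dvd p M hp hM h]
    · rw [relIndex_Gamma0_of_not_dvd p M hM hp h, dedekindPsi_prime_mul_of_not_dvd p M hp hM h]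

/-- **(I1)** The index of `Γ₀(N)` in `SL(2,ℤ)` is `ψ(N)` (all `N`; both sides are `0` for
`N = 0`). -/
theorem index_Gamma0 (N : ℕ) : (Gamma0 N).index = ModularCurve.dedekindPsi N := by
  rcases eq_or_ne N 0 with rfl | hN
  · rw [index_Gamma0_zero, dedekindPsi_zero]
  · exact index_Gamma0_of_ne_zero N hN

/-- **(I1)** `#(SL(2,ℤ) ⧸ Γ₀(N)) = ψ(N)`. -/
theorem card_quotient_Gamma0 (N : ℕ) :
    Nat.card (SL(2, ℤ) ⧸ Gamma0 N) = ModularCurve.dedekindPsi N :=
  index_Gamma0 N

end Fermat.Agent.S20.Comb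

end
-- ===== PACK-END S20/Comb/Index.lean

-- ===== PACK-BEGIN S18/Mod/H216/Family.lean
section


/-!
# S18 / MOD-ASM (helper216): `GoodModelStatement` from `GoodAt`

`GoodAt M A x S` : for EVERY number field `E ⊆ Q̄` the concrete objects
`(Ec M E, Fc M E, Rc M A E, V, w)` (with `V` the subring whose carrier is `VcSet M A E` and `w` some
uniformiser) form an `Alg.GoodModel`.

`goodModelStatement_of_goodAt` : the frozen MOD deliverable `Mod.GoodModelStatement M ℓ A`
(node_mod of `Integ/Skeleton.lean`) follows from `GoodAt` for every admissible coordinate.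
The family is `{ all concrete good models }`; directedness is monotonicity in `E`.
-/

set_option autoImplicit false
set_option linter.style.haveILetI false

noncomputable section

namespace Fermat.Agent.S18.Mod.H216

open ModularCurve AlgebraicCurve HahnSeries Fermat.Agent.S18 Fermat.Agent.S18.Mod

/-- The per-number-field MOD deliverable. -/
def GoodAt (M : ℕ) (A : ValuationSubring Qb) (x : Om M) (S : Finset (Om M)) : Prop :=
  ∀ E : IntermediateField ℚ Qb, FiniteDimensional ℚ E →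
    ∃ (V : Subring (Om M)) (w : Om M), (V : Set (Om M)) = VcSet M A E ∧
      Alg.GoodModel (Lc M) (Ec M E) (Fc M E) (Rc M A E) V w x S

section Mono

variable (M : ℕ) (A : ValuationSubring Qb) {E E' : IntermediateField ℚ Qb}

theorem Ec_mono (h : E ≤ E') : Ec M E ≤ Ec M E' := by
  rintro _ ⟨a, ha, rfl⟩
  exact ⟨a, h ha, rfl⟩

theorem Fc_mono (h : E ≤ E') : Fc M E ≤ Fc M E' :=
  Subfield.closure_mono (Set.union_subset_union_left _ (Ec_mono M h))

theorem Rc_mono (h : E ≤ E') : Rc M A E ≤ Rc M A E' := by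
  rintro _ ⟨a, ha, rfl⟩
  exact ⟨a, ⟨ha.1, h ha.2⟩, rfl⟩

theorem IsIntE_mono (h : E ≤ E') {U : LaurentSeries A} (hU : IsIntE M A E U) :
    IsIntE M A E' U := by
  obtain ⟨h1, f, hf, hfU⟩ := hU
  exact ⟨fun n => h (h1 n), f, Fc_mono M h hf, hfU⟩

theorem VcSet_mono (h : E ≤ E') : VcSet M A E ⊆ VcSet M A E' := by
  rintro f ⟨hf, U₁, U₂, h₁, h₂, hne, heq⟩
  exact ⟨Fc_mono M h hf, U₁, U₂, IsIntE_mono M A h h₁, IsIntE_mono M A h h₂, hne, heq⟩

end Mono

/-- Every finite set of elements of `Q̄` lies in a number field containing a given one. -/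
theorem exists_finite_ge (E : IntermediateField ℚ Qb) (hE : FiniteDimensional ℚ E)
    (T : Set Qb) (hT : T.Finite) :
    ∃ E' : IntermediateField ℚ Qb, FiniteDimensional ℚ E' ∧ E ≤ E' ∧ ∀ a ∈ T, a ∈ E' := by
  haveI := hE
  haveI : Finite T := hT
  haveI : Algebra.IsAlgebraic ℚ Qb := AlgebraicClosure.isAlgebraic ℚ
  haveI : FiniteDimensional ℚ (IntermediateField.adjoin ℚ T) :=
    IntermediateField.finiteDimensional_adjoin
      (fun x _ => (Algebra.IsAlgebraic.isAlgebraic (R := ℚ) x).isIntegral)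
  refine ⟨E ⊔ IntermediateField.adjoin ℚ T, inferInstance, le_sup_left, fun a ha => ?_⟩
  exact (le_sup_right : IntermediateField.adjoin ℚ T ≤ E ⊔ IntermediateField.adjoin ℚ T)
    (IntermediateField.subset_adjoin ℚ T ha)

/-- **MOD assembly, top step**: the frozen `GoodModelStatement` from `GoodAt`. -/
theorem goodModelStatement_of_goodAt (M ℓ : ℕ) (A : ValuationSubring Qb)
    (h : ∀ (x : Om M) (S : Finset (Om M)), IsCoordinate M ℓ x S → GoodAt M A x S) :
    GoodModelStatement M ℓ A := by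
  intro x S hxS
  have hg := h x S hxS
  refine ⟨{p | ∃ E : IntermediateField ℚ Qb, FiniteDimensional ℚ E ∧ p.1 = Ec M E ∧
      p.2.1 = Fc M E ∧ p.2.2.1 = Rc M A E ∧ (p.2.2.2.1 : Set (Om M)) = VcSet M A E ∧
      Alg.GoodModel (Lc M) p.1 p.2.1 p.2.2.1 p.2.2.2.1 p.2.2.2.2 x S}, ?_, ⟨?_, ?_⟩, ?_⟩
  · rintro p ⟨E, hE, h1, h2, h3, h4, -⟩
    exact ⟨E, hE, h1, h2, h3, h4⟩
  · rintro p ⟨E, hE, h1, h2, h3, h4, h5⟩
    exact h5
  · rintro p ⟨E, hE, h1, h2, h3, h4, h5⟩ T hT
    have hfin : {b : Qb | algebraMap Qb (Om M) b ∈ T}.Finite :=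
      T.finite_toSet.preimage (Set.injOn_of_injective (algebraMap Qb (Om M)).injective)
    obtain ⟨E', hE', hle, hT'⟩ := exists_finite_ge E hE _ hfin
    obtain ⟨V', w', hV', hgood'⟩ := hg E' hE'
    refine ⟨(Ec M E', Fc M E', Rc M A E', V', w'), ⟨E', hE', rfl, rfl, rfl, hV', hgood'⟩,
      ⟨?_, ?_, ?_, ?_⟩, ?_⟩
    · rw [h1]; exact Ec_mono M hle
    · rw [h2]; exact Fc_mono M hle
    · rw [h3]; exact Rc_mono M A hle
    · intro f hf
      have hf' : f ∈ (p.2.2.2.1 : Set (Om M)) := hf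
      rw [h4] at hf'
      have := VcSet_mono M A hle hf'
      rw [← hV'] at this
      exact this
    · intro a ha
      obtain ⟨b, rfl⟩ := hT a ha
      exact ⟨b, hT' b ha, rfl⟩
  · intro T
    obtain ⟨E', hE', -, hT'⟩ := exists_finite_ge ⊥ inferInstance (T : Set Qb) T.finite_toSet
    obtain ⟨V', w', hV', hgood'⟩ := hg E' hE'
    exact ⟨E', V', w', hE', fun a ha => hT' a ha, hV', ⟨E', hE', rfl, rfl, rfl, hV', hgood'⟩⟩

end Fermat.Agent.S18.Mod.H216

end
end
-- ===== PACK-END S18/Mod/H216/Family.lean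

-- ===== PACK-BEGIN S18/H107/QepTransfer.lean
section




/-!
# helper107 — S18 / M3-T : transfer of the `q`-expansion principle between coordinates

`Qep107 Fc R V w y` is the field `qep_fin` of the frozen `GoodModel` for the coordinate `y`
(`qep_inf` is `Qep107 Fc R V w y⁻¹`).

`qep_transfer107`: if QEP holds for the charts of `y₁` and `y₂` (application: `j`, `j⁻¹`) and
`Spec R[x]` is covered by two comaximal opens `D(g₁)`, `D(g₂)` on which `x` is "controlled" by
`y₁` resp. `y₂` (`OpenData107`), then QEP holds for the chart of `x`.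
No noetherian / S2 / finiteness hypothesis is used.
-/

set_option autoImplicit false

namespace Fermat.Agent.S18.H107

open Polynomial Fermat.Agent.S18.Alg

variable {Ω : Type*} [Field Ω]

/-- The `q`-expansion principle on the chart of the coordinate `y`
(= `GoodModel.qep_fin` with `x := y`). -/
def Qep107 (Fc : Subfield Ω) (R V : Subring Ω) (w y : Ω) : Prop :=
  ∀ b ∈ chart Fc R y, b * w⁻¹ ∈ V → b * w⁻¹ ∈ chart Fc R y

/-- The open `D(g) ⊆ Spec R[x]` is controlled by the chart of `y`: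
* `e` is a unit-like multiplier: `e ∈ V`, `e` and `x·e` integral over `R[y]`;
* `y ∈ R[x][1/g]` : `y * g ^ k` integral over `R[x]`;
* `e⁻¹ ∈ R[x][1/g]` : `e * f = g ^ k'` with `f` integral over `R[x]`. -/
structure OpenData107 (Fc : Subfield Ω) (R V : Subring Ω) (x y g e : Ω) : Prop where
  g_mem : g ∈ polyRing R x
  e_mem_Fc : e ∈ Fc
  e_mem_V : e ∈ V
  e_int : e ∈ intCl107 (polyRing R y)
  xe_int : x * e ∈ intCl107 (polyRing R y)
  y_loc : ∃ k : ℕ, y * g ^ k ∈ intCl107 (polyRing R x)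
  e_inv : ∃ f ∈ intCl107 (polyRing R x), ∃ k : ℕ, e * f = g ^ k

theorem OpenData107.exists_pow_mul_mem {Fc : Subfield Ω} {R V : Subring Ω} {w x y g e : Ω}
    (o : OpenData107 Fc R V x y g e) (q : Qep107 Fc R V w y) {b : Ω} (hb : b ∈ chart Fc R x)
    (hz : b * w⁻¹ ∈ V) : ∃ K : ℕ, b * w⁻¹ * g ^ K ∈ intCl107 (polyRing R x) := by
  obtain ⟨hbF, hbI⟩ := hb
  -- step 1: `b * e ^ D` is integral over `R[y]`
  obtain ⟨D, hD⟩ := exists_pow_mul_isIntegral107 (R' := R) (T := polyRing R y) (y := x) (e := e)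
    ((le_polyRing107 R y).trans (le_intCl107 _)) o.e_int o.xe_int hbI
  have hchart : b * e ^ D ∈ chart Fc R y := ⟨Fc.mul_mem hbF (Fc.pow_mem o.e_mem_Fc D), hD⟩
  -- step 2/3: QEP for `y`
  have hV : b * e ^ D * w⁻¹ ∈ V := by
    have : b * e ^ D * w⁻¹ = b * w⁻¹ * e ^ D := by ring
    rw [this]
    exact V.mul_mem hz (V.pow_mem o.e_mem_V D)
  have h3 := (q _ hchart hV).2
  -- step 4: back to `R[x]`
  obtain ⟨k, hk⟩ := o.y_loc
  have hgI : g ∈ intCl107 (polyRing R x) := le_intCl107 _ o.g_mem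
  obtain ⟨D', hD'⟩ := exists_pow_mul_isIntegral107 (R' := R) (T := polyRing R x) (y := y)
    (e := g ^ k) ((le_polyRing107 R x).trans (le_intCl107 _)) ((intCl107 _).pow_mem hgI k) hk h3
  -- step 5: remove `e ^ D`
  obtain ⟨f, hf, k', hef⟩ := o.e_inv
  refine ⟨k' * D + k * D', ?_⟩
  have : b * w⁻¹ * g ^ (k' * D + k * D') = (b * e ^ D * w⁻¹ * (g ^ k) ^ D') * f ^ D := by
    rw [pow_add, pow_mul, pow_mul, ← hef]
    ring
  rw [this]
  exact (intCl107 _).mul_mem hD' ((intCl107 _).pow_mem hf D)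

/-- **QEP transfer.** -/
theorem qep_transfer107 {Fc : Subfield Ω} {R V : Subring Ω} {w x y₁ y₂ g₁ g₂ e₁ e₂ a b : Ω}
    (hw : w ∈ Fc) (q₁ : Qep107 Fc R V w y₁) (q₂ : Qep107 Fc R V w y₂)
    (o₁ : OpenData107 Fc R V x y₁ g₁ e₁) (o₂ : OpenData107 Fc R V x y₂ g₂ e₂)
    (ha : a ∈ polyRing R x) (hb : b ∈ polyRing R x) (hab : a * g₁ + b * g₂ = 1) :
    Qep107 Fc R V w x := by
  intro c hc hz
  obtain ⟨K₁, h₁⟩ := o₁.exists_pow_mul_mem q₁ hc hz
  obtain ⟨K₂, h₂⟩ := o₂.exists_pow_mul_mem q₂ hc hz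
  refine ⟨Fc.mul_mem hc.1 (Fc.inv_mem hw), ?_⟩
  exact mem_intCl107.1 (mem_of_comaximal107 (intCl107 (polyRing R x)) (c * w⁻¹) g₁ g₂ a b
    (le_intCl107 _ o₁.g_mem) (le_intCl107 _ o₂.g_mem) (le_intCl107 _ ha) (le_intCl107 _ hb)
    hab K₁ K₂ h₁ h₂)

end Fermat.Agent.S18.H107

end
-- ===== PACK-END S18/H107/QepTransfer.lean

-- ===== PACK-BEGIN S18/H107/PolyInt.lean
section




/-!
# helper107 — S18 / M3-T : explicit monic equations (cubic, quartic) give integrality
-/

set_option autoImplicit false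

namespace Fermat.Agent.S18.H107

open Polynomial Fermat.Agent.S18.Alg

variable {Ω : Type*} [Field Ω]

theorem mem_intCl_of_cubic107 (T : Subring Ω) (b a₂ a₁ a₀ : Ω) (h₂ : a₂ ∈ T) (h₁ : a₁ ∈ T)
    (h₀ : a₀ ∈ T) (h : b ^ 3 + a₂ * b ^ 2 + a₁ * b + a₀ = 0) : b ∈ intCl107 T := by
  rw [mem_intCl107]
  refine ⟨X ^ 3 + (C (⟨a₂, h₂⟩ : T) * X ^ 2 + C (⟨a₁, h₁⟩ : T) * X + C (⟨a₀, h₀⟩ : T)),
    monic_X_pow_add (lt_of_le_of_lt degree_quadratic_le (by norm_num)), ?_⟩
  simp only [eval₂_add, eval₂_mul, eval₂_pow, eval₂_X, eval₂_C]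
  show b ^ 3 + (a₂ * b ^ 2 + a₁ * b + a₀) = 0
  linear_combination h

theorem mem_intCl_of_quartic107 (T : Subring Ω) (b a₃ a₂ a₁ a₀ : Ω) (h₃ : a₃ ∈ T) (h₂ : a₂ ∈ T)
    (h₁ : a₁ ∈ T) (h₀ : a₀ ∈ T) (h : b ^ 4 + a₃ * b ^ 3 + a₂ * b ^ 2 + a₁ * b + a₀ = 0) :
    b ∈ intCl107 T := by
  rw [mem_intCl107]
  refine ⟨X ^ 4 + (C (⟨a₃, h₃⟩ : T) * X ^ 3 + C (⟨a₂, h₂⟩ : T) * X ^ 2 + C (⟨a₁, h₁⟩ : T) * X +
      C (⟨a₀, h₀⟩ : T)),
    monic_X_pow_add (lt_of_le_of_lt degree_cubic_le (by norm_num)), ?_⟩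
  simp only [eval₂_add, eval₂_mul, eval₂_pow, eval₂_X, eval₂_C]
  show b ^ 4 + (a₃ * b ^ 3 + a₂ * b ^ 2 + a₁ * b + a₀) = 0
  linear_combination h

theorem natCast_mem_polyRing107 (R : Subring Ω) (x : Ω) (n : ℕ) : (n : Ω) ∈ polyRing R x :=
  natCast_mem _ n

end Fermat.Agent.S18.H107

end
-- ===== PACK-END S18/H107/PolyInt.lean

-- ===== PACK-BEGIN S18/H107/T3Branch.lean
section




/-!
# helper107 — S18 / M3-T : `unramified` for the Hauptmodul `t₃` (`j t³ = (t + 27)(t + 243)³`)

From the branch data of the `j`-line (`BranchJ107`): for every constant `c ∉ {-27, 0}`, at a place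
`O` with `t ≡ c`, `t - c` is a uniformiser.  (`t = -243` lies over `j = 0` with `e(t/j) = 3`, the
two roots of `t² - 486 t - 19683` over `j = 1728` with `e(t/j) = 2`; only `t = -27`, `0`, `∞` can
ramify in `Ω / Lc(t)`.)
-/

set_option autoImplicit false

namespace Fermat.Agent.S18.H107

variable {Ω : Type*} [Field Ω] [CharZero Ω]

theorem unramified_t3_107 (Lc : Subfield Ω) (j t : Ω)
    (hrel : j * t ^ 3 = (t + 27) * (t + 243) ^ 3)
    (hB : BranchJ107 Lc j) (O : ValuationSubring Ω) (hL : ∀ a ∈ Lc, a ∈ O) (c : Ω) (hc : c ∈ Lc)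
    (hc27 : c ≠ -27) (hc0 : c ≠ 0) (hz : t - c ∈ O) (hz' : (t - c)⁻¹ ∉ O) :
    ∀ s ∈ O, s⁻¹ ∉ O → s * (t - c)⁻¹ ∈ O := by
  rw [← OrdLe107.one_iff]
  have hzv : O.valuation (t - c) < 1 := val_lt_one107 O hz hz'
  have hz0 : t - c ≠ 0 := by
    intro h0
    rw [h0, inv_zero] at hz'
    exact hz' O.zero_mem
  have hcv : O.valuation c = 1 := val_const107 O Lc hL hc hc0
  have htv : O.valuation t = 1 := by
    have : t = c + (t - c) := by ring
    rw [this]
    exact val_add_eq_one107 O hcv hzv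
  have ht0 : t ≠ 0 := by
    intro h0
    rw [h0, map_zero] at htv
    exact zero_ne_one htv
  have htO : t ∈ O := (O.valuation_le_one_iff _).1 htv.le
  have hcO : c ∈ O := hL c hc
  have ht3v : O.valuation ((t ^ 3)⁻¹) = 1 := by
    rw [map_inv₀, map_pow, htv, one_pow, inv_one]
  by_cases h243 : c = -243
  · -- over `j = 0`
    subst h243
    have h216 : O.valuation (-216 : Ω) = 1 :=
      val_const107 O Lc hL (Lc.neg_mem (ofNat_mem Lc 216)) (by norm_num)
    have ht27 : O.valuation (t + 27) = 1 := by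
      have : t + 27 = -216 + (t - -243) := by ring
      rw [this]
      exact val_add_eq_one107 O h216 hzv
    have hUv : O.valuation ((t + 27) * (t ^ 3)⁻¹) = 1 := by
      rw [map_mul, ht27, ht3v, mul_one]
    have hU0 : (t + 27) * (t ^ 3)⁻¹ ≠ 0 := by
      intro h0
      rw [h0, map_zero] at hUv
      exact zero_ne_one hUv
    have hy : j = (t - -243) ^ 3 * ((t + 27) * (t ^ 3)⁻¹) := by
      field_simp
      linear_combination hrel
    have hj0 : j ≠ 0 := by
      rw [hy]
      exact mul_ne_zero (pow_ne_zero _ hz0) hU0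
    have hjv : O.valuation j < 1 := by
      rw [hy, map_mul, hUv, mul_one, map_pow]
      exact pow_lt_one₀ zero_le hzv (by norm_num)
    exact unram_of_factor107 O (k := 3) (by norm_num) hy hUv hz0
      (hB.zero O hL (mem_of_val_lt_one107 O hjv) (inv_not_mem_of_val_lt_one107 O hj0 hjv))
  by_cases hq : c ^ 2 - 486 * c - 19683 = 0
  · -- over `j = 1728`
    have h2c : 2 * c - 486 ≠ 0 := by
      intro h
      have h1 : (314928 : Ω) = 0 := by
        linear_combination (2 * c - 486) * h - 4 * hq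
      norm_num at h1
    have h2cL : 2 * c - 486 ∈ Lc :=
      Lc.sub_mem (Lc.mul_mem (ofNat_mem Lc 2) hc) (ofNat_mem Lc 486)
    have htc : O.valuation (t + c - 486) = 1 := by
      have : t + c - 486 = (2 * c - 486) + (t - c) := by ring
      rw [this]
      exact val_add_eq_one107 O (val_const107 O Lc hL h2cL h2c) hzv
    have hUv : O.valuation ((t + c - 486) ^ 2 * (t ^ 3)⁻¹) = 1 := by
      rw [map_mul, map_pow, htc, one_pow, ht3v, mul_one]
    have hU0 : (t + c - 486) ^ 2 * (t ^ 3)⁻¹ ≠ 0 := by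
      intro h0
      rw [h0, map_zero] at hUv
      exact zero_ne_one hUv
    have hy : j - 1728 = (t - c) ^ 2 * ((t + c - 486) ^ 2 * (t ^ 3)⁻¹) := by
      field_simp
      linear_combination hrel +
        (2 * (t - c) * (t + c - 486) + (c ^ 2 - 486 * c - 19683)) * hq
    have hy0 : j - 1728 ≠ 0 := by
      rw [hy]
      exact mul_ne_zero (pow_ne_zero _ hz0) hU0
    have hyv : O.valuation (j - 1728) < 1 := by
      rw [hy, map_mul, hUv, mul_one, map_pow]
      exact pow_lt_one₀ zero_le hzv (by norm_num)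
    exact unram_of_factor107 O (k := 2) (by norm_num) hy hUv hz0
      (hB.c1728 O hL (mem_of_val_lt_one107 O hyv) (inv_not_mem_of_val_lt_one107 O hy0 hyv))
  · -- generic point
    have hc27' : c + 27 ≠ 0 := fun h => hc27 (by linear_combination h)
    have hc243 : c + 243 ≠ 0 := fun h => h243 (by linear_combination h)
    set a : Ω := (c + 27) * (c + 243) ^ 3 * (c ^ 3)⁻¹ with ha
    have haL : a ∈ Lc :=
      Lc.mul_mem (Lc.mul_mem (Lc.add_mem hc (ofNat_mem Lc 27))
        (Lc.pow_mem (Lc.add_mem hc (ofNat_mem Lc 243)) 3)) (Lc.inv_mem (Lc.pow_mem hc 3))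
    have ha0 : a ≠ 0 :=
      mul_ne_zero (mul_ne_zero hc27' (pow_ne_zero _ hc243)) (inv_ne_zero (pow_ne_zero _ hc0))
    have ha1728 : a ≠ 1728 := by
      intro h
      have h1 : (c ^ 2 - 486 * c - 19683) ^ 2 = 0 := by
        have h2 : (c + 27) * (c + 243) ^ 3 = 1728 * c ^ 3 := by
          rw [ha] at h
          field_simp at h
          linear_combination h
        linear_combination h2
      exact hq (pow_eq_zero_iff (by norm_num) |>.1 h1)
    -- the cofactor
    set W : Ω := c ^ 3 * t ^ 3 - (196830 * c ^ 2 + 19131876 * c + 387420489) * t ^ 2 -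
      (19131876 * c ^ 2 + 387420489 * c) * t - 387420489 * c ^ 2 with hW
    set W₀ : Ω := c ^ 2 * (c + 243) ^ 2 * (c ^ 2 - 486 * c - 19683) with hW₀
    set W₁ : Ω := c ^ 3 * (t ^ 2 + t * c + c ^ 2) -
      (196830 * c ^ 2 + 19131876 * c + 387420489) * (t + c) -
      (19131876 * c ^ 2 + 387420489 * c) with hW₁
    have hW₀L : W₀ ∈ Lc :=
      Lc.mul_mem (Lc.mul_mem (Lc.pow_mem hc 2) (Lc.pow_mem (Lc.add_mem hc (ofNat_mem Lc 243)) 2))
        (Lc.sub_mem (Lc.sub_mem (Lc.pow_mem hc 2) (Lc.mul_mem (ofNat_mem Lc 486) hc))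
          (ofNat_mem Lc 19683))
    have hW₀0 : W₀ ≠ 0 := mul_ne_zero (mul_ne_zero (pow_ne_zero _ hc0) (pow_ne_zero _ hc243)) hq
    have hW₁O : W₁ ∈ O :=
      sub_mem (sub_mem
        (mul_mem (pow_mem hcO 3) (add_mem (add_mem (pow_mem htO 2) (mul_mem htO hcO))
          (pow_mem hcO 2)))
        (mul_mem (add_mem (add_mem (mul_mem (ofNat_mem O 196830) (pow_mem hcO 2))
          (mul_mem (ofNat_mem O 19131876) hcO)) (ofNat_mem O 387420489)) (add_mem htO hcO)))
        (add_mem (mul_mem (ofNat_mem O 19131876) (pow_mem hcO 2))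
          (mul_mem (ofNat_mem O 387420489) hcO))
    have hWv : O.valuation W = 1 := by
      have e : W = W₀ + (t - c) * W₁ := by
        rw [hW, hW₀, hW₁]
        ring
      rw [e]
      refine val_add_eq_one107 O (val_const107 O Lc hL hW₀L hW₀0) ?_
      rw [map_mul]
      calc O.valuation (t - c) * O.valuation W₁ ≤ O.valuation (t - c) * 1 := by
            gcongr
            exact (O.valuation_le_one_iff _).2 hW₁O
        _ = O.valuation (t - c) := mul_one _
        _ < 1 := hzv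
    have hUv : O.valuation (W * (t ^ 3 * c ^ 3)⁻¹) = 1 := by
      rw [map_mul, hWv, one_mul, map_inv₀, map_mul, map_pow, map_pow, htv, hcv, one_pow,
        mul_one, inv_one]
    have hy : j - a = (t - c) ^ 1 * (W * (t ^ 3 * c ^ 3)⁻¹) := by
      rw [ha, hW]
      field_simp
      linear_combination (c ^ 3) * hrel
    have hU0 : W * (t ^ 3 * c ^ 3)⁻¹ ≠ 0 := by
      intro h0
      rw [h0, map_zero] at hUv
      exact zero_ne_one hUv
    have hy0 : j - a ≠ 0 := by
      rw [hy]
      exact mul_ne_zero (pow_ne_zero _ hz0) hU0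
    have hyv : O.valuation (j - a) < 1 := by
      rw [hy, map_mul, hUv, mul_one, pow_one]
      exact hzv
    exact unram_of_factor107 O (k := 1) (by norm_num) hy hUv hz0
      (hB.generic O hL a haL ha0 ha1728 (mem_of_val_lt_one107 O hyv)
        (inv_not_mem_of_val_lt_one107 O hy0 hyv))

end Fermat.Agent.S18.H107

end
-- ===== PACK-END S18/H107/T3Branch.lean

-- ===== PACK-BEGIN S18/H845/ConstExtSub.lean
section


/-!
# S18 / d1(c) in the language of `Alg/Spec.lean` (sub-objects of one field `Ω`)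

`Ec ≤ Lc`, `Ec ≤ Fc` subfields of `Ω` (char 0), `Lc` algebraic over `Ec`, `Ω = Fc · Lc`.
Every discrete valuation ring `W` of `Fc` containing `Ec` is `O ∩ Fc` for a valuation subring `O`
of `Ω` containing `Lc`, in which a uniformiser of `W` is still a uniformiser.  Consequently a
divisibility statement `m ∣ ord_O(u)` at all `Lc`-places of `Ω` descends to all `Ec`-places of
`Fc`.
-/

set_option autoImplicit false
set_option linter.unusedSectionVars false

namespace Fermat.Agent.S18.H845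

section Sub

variable {Ω : Type*} [Field Ω] [CharZero Ω]

/-- **d1(c), sub-object form.** -/
theorem exists_valuationSubring_over (Lc Ec Fc : Subfield Ω) (E_le_F : Ec ≤ Fc)
    (L_algebraic : ∀ a ∈ Lc, IsAlgebraic Ec a)
    (compositum : Subfield.closure ((Fc : Set Ω) ∪ Lc) = ⊤)
    (W : ValuationSubring Fc) [IsDiscreteValuationRing W]
    (hEW : ∀ e : Fc, (e : Ω) ∈ Ec → e ∈ W) :
    ∃ O : ValuationSubring Ω, (∀ a ∈ Lc, a ∈ O) ∧ (∀ f : Fc, (f : Ω) ∈ O ↔ f ∈ W) ∧
      IsDiscreteValuationRing O ∧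
      (∀ π : W, Irreducible π → ∀ f : Ω, f ≠ 0 →
        ∃ k : ℤ, O.valuation f = O.valuation ((π : Fc) : Ω) ^ k) ∧
      ∀ π : W, Irreducible π → ((π : Fc) : Ω) ∈ O ∧ (((π : Fc) : Ω))⁻¹ ∉ O ∧
        ∀ t ∈ O, t⁻¹ ∉ O → t * (((π : Fc) : Ω))⁻¹ ∈ O := by
  let _ : Algebra Ec Fc := (Subfield.inclusion E_le_F).toAlgebra
  have : IsScalarTower Ec Fc Ω := IsScalarTower.of_algebraMap_eq (fun _ => rfl)
  have : CharZero Ec := ⟨fun a b h => by
    have h' := congrArg (Subtype.val : Ec → Ω) h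
    exact Nat.cast_injective (R := Ω) (by simpa using h')⟩
  have hEV : ∀ c : Ec, algebraMap Ec Fc c ∈ W := fun c => hEW _ c.2
  have hgen : IntermediateField.adjoin Fc {α : Ω | IsAlgebraic Ec α} = ⊤ := by
    rw [← IntermediateField.toSubfield_injective.eq_iff]
    show Subfield.closure (Set.range (algebraMap Fc Ω) ∪ {α : Ω | IsAlgebraic Ec α}) = ⊤
    rw [eq_top_iff, ← compositum]
    apply Subfield.closure_mono
    rintro x (hx | hx)
    · exact Or.inl ⟨⟨x, hx⟩, rfl⟩
    · exact Or.inr (L_algebraic x hx)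
  obtain ⟨O, hcomap, hdvr, hconst, hirr, hval⟩ :=
    exists_dvr_extension (E := Ec) (K := Fc) (L := Ω) W hEV hgen
  refine ⟨O, fun a ha => hconst a (L_algebraic a ha), ?_, hdvr, hval, ?_⟩
  · intro f
    rw [← hcomap]
    rfl
  · intro π hπ
    obtain ⟨hmem, hirrO⟩ := hirr π hπ
    have hπ0 : ((π : Fc) : Ω) ≠ 0 := by
      intro h
      apply hπ.ne_zero
      apply Subtype.ext
      apply Subtype.ext
      exact h
    have hlt : O.valuation ((π : Fc) : Ω) < 1 := by
      have h1 : ¬ IsUnit (⟨((π : Fc) : Ω), hmem⟩ : O) := hirrO.not_isUnit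
      rw [O.valuation_eq_one_iff] at h1
      exact lt_of_le_of_ne ((O.valuation_le_one_iff _).mpr hmem) h1
    have hpos : 0 < O.valuation ((π : Fc) : Ω) :=
      zero_lt_iff.mpr ((Valuation.ne_zero_iff _).mpr hπ0)
    refine ⟨hmem, ?_, ?_⟩
    · intro hinv
      have h1 : O.valuation (((π : Fc) : Ω))⁻¹ ≤ 1 := (O.valuation_le_one_iff _).mpr hinv
      rw [map_inv₀] at h1
      have h2 : 1 ≤ O.valuation ((π : Fc) : Ω) := by
        rwa [inv_le_one₀ hpos] at h1
      exact absurd hlt (not_lt.mpr h2)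
    · intro t ht htinv
      have ht0 : t ≠ 0 := by
        rintro rfl
        rw [inv_zero] at htinv
        exact htinv O.zero_mem
      obtain ⟨k, hk'⟩ := hval π hπ t ht0
      have hk : O.valuation t = O.valuation ((π : Fc) : Ω) ^ k := hk'
      have htlt : O.valuation t < 1 := by
        have h1 : O.valuation t ≤ 1 := (O.valuation_le_one_iff _).mpr ht
        refine lt_of_le_of_ne h1 ?_
        intro h1'
        apply htinv
        rw [← O.valuation_le_one_iff, map_inv₀, h1', inv_one]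
      rw [hk] at htlt
      have hk1 : 1 ≤ k := by
        have := (zpow_lt_one_iff_right_of_lt_one₀ hpos hlt).mp htlt
        omega
      rw [← O.valuation_le_one_iff, map_mul, map_inv₀, hk]
      have : O.valuation ((π : Fc) : Ω) ^ k * (O.valuation ((π : Fc) : Ω))⁻¹ =
          O.valuation ((π : Fc) : Ω) ^ (k - 1) := by
        rw [zpow_sub₀ hpos.ne', zpow_one, div_eq_mul_inv]
      rw [this]
      exact (zpow_le_one_iff_right_of_lt_one₀ hpos hlt).mpr (by omega)

/-- **Descent of divisibility.**  If `u ∈ Fc` has `m ∣ ord_O(u)` at every valuation subring `O`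
of `Ω` containing `Lc` (in the form used by `Alg.AlgMainStatement`), then `m ∣ ord_W(u)` at every
discrete valuation ring `W` of `Fc` containing `Ec`. -/
theorem exists_pow_unit_of_forall_over (Lc Ec Fc : Subfield Ω) (E_le_F : Ec ≤ Fc)
    (L_algebraic : ∀ a ∈ Lc, IsAlgebraic Ec a)
    (compositum : Subfield.closure ((Fc : Set Ω) ∪ Lc) = ⊤)
    {u : Fc} (hu : u ≠ 0) {m : ℕ}
    (hdiv : ∀ O : ValuationSubring Ω, (∀ a ∈ Lc, a ∈ O) →
      ∃ t : Ω, t ≠ 0 ∧ (u : Ω) * t ^ m ∈ O ∧ ((u : Ω) * t ^ m)⁻¹ ∈ O)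
    (W : ValuationSubring Fc) [IsDiscreteValuationRing W]
    (hEW : ∀ e : Fc, (e : Ω) ∈ Ec → e ∈ W) :
    ∃ s : Fc, s ≠ 0 ∧ u * s ^ m ∈ W ∧ (u * s ^ m)⁻¹ ∈ W := by
  obtain ⟨O, hL, hOW, _, hval, hunif⟩ :=
    exists_valuationSubring_over Lc Ec Fc E_le_F L_algebraic compositum W hEW
  obtain ⟨π, hπ⟩ := IsDiscreteValuationRing.exists_irreducible W
  obtain ⟨hπO, hπinv, _⟩ := hunif π hπ
  have hπ0 : ((π : Fc) : Ω) ≠ 0 := by
    rintro h
    rw [h, inv_zero] at hπinv
    exact hπinv O.zero_mem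
  have hπF0 : (π : Fc) ≠ 0 := fun h => hπ0 (by rw [h]; rfl)
  have hpos : 0 < O.valuation ((π : Fc) : Ω) :=
    zero_lt_iff.mpr ((Valuation.ne_zero_iff _).mpr hπ0)
  have hlt : O.valuation ((π : Fc) : Ω) < 1 := by
    refine lt_of_le_of_ne ((O.valuation_le_one_iff _).mpr hπO) ?_
    intro h1
    apply hπinv
    rw [← O.valuation_le_one_iff, map_inv₀, h1, inv_one]
  obtain ⟨t, ht0, ht1, ht2⟩ := hdiv O hL
  have hunit : O.valuation ((u : Ω) * t ^ m) = 1 := by
    have h1 : O.valuation ((u : Ω) * t ^ m) ≤ 1 := (O.valuation_le_one_iff _).mpr ht1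
    have h2 : O.valuation ((u : Ω) * t ^ m)⁻¹ ≤ 1 := (O.valuation_le_one_iff _).mpr ht2
    rw [map_inv₀] at h2
    have h0 : O.valuation ((u : Ω) * t ^ m) ≠ 0 := by
      rw [Valuation.ne_zero_iff]
      exact mul_ne_zero (fun h => hu (Subtype.ext h)) (pow_ne_zero m ht0)
    have h3 : 1 ≤ O.valuation ((u : Ω) * t ^ m) := by
      rwa [inv_le_one₀ (zero_lt_iff.mpr h0)] at h2
    exact le_antisymm h1 h3
  obtain ⟨k, hk⟩ := hval π hπ t ht0
  -- take `s = π ^ k`
  refine ⟨(π : Fc) ^ k, zpow_ne_zero k hπF0, ?_⟩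
  have hval1 : O.valuation (((u * ((π : Fc) ^ k) ^ m : Fc)) : Ω) = 1 := by
    have e : (((u * ((π : Fc) ^ k) ^ m : Fc)) : Ω) = (u : Ω) * (((π : Fc) : Ω) ^ k) ^ m := by
      push_cast
      rfl
    rw [e, map_mul, map_pow, map_zpow₀, ← hk, ← map_pow, ← map_mul]
    exact hunit
  constructor
  · rw [← hOW, ← O.valuation_le_one_iff]
    exact hval1.le
  · rw [← hOW, ← O.valuation_le_one_iff]
    have e : (((u * ((π : Fc) ^ k) ^ m)⁻¹ : Fc) : Ω) = ((((u * ((π : Fc) ^ k) ^ m : Fc)) : Ω))⁻¹ := by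
      push_cast
      rfl
    rw [e, map_inv₀, hval1, inv_one]

end Sub

end Fermat.Agent.S18.H845

end
-- ===== PACK-END S18/H845/ConstExtSub.lean

-- ===== PACK-BEGIN S18/B12/H93/LocalBasisRank.lean
section



/-!
# S18 / B12 / A2': `LocalBasisRankStatement` (helper93).
-/

set_option autoImplicit false

namespace Fermat.Agent.S18.B12.H93

universe u v

theorem localBasisRank : LocalBasisRankStatement.{u, v} := by
  intro P _ _ _ B _ _ _ _ _ _ 𝔪 _ n x hx
  obtain ⟨hli, g, hg, hgB⟩ := hx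
  classical
  have hg0 : g ≠ 0 := fun h => hg (h ▸ 𝔪.zero_mem)
  constructor
  · apply le_antisymm
    · have := hli.fintype_card_le_finrank
      simpa using this
    · have hfin : Module.Finite P (Submodule.span P (Set.range x)) :=
        Module.Finite.span_of_finite P (Set.finite_range x)
      let f : B →ₗ[P] Submodule.span P (Set.range x) :=
        (LinearMap.lsmul P B g).codRestrict _ hgB
      have hf : Function.Injective f := by
        intro a b hab
        have h1 : g • a = g • b := congrArg Subtype.val hab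
        exact smul_right_injective B hg0 h1
      have h1 := LinearMap.finrank_le_finrank_of_injective hf
      have h2 : Module.finrank P (Submodule.span P (Set.range x)) = n := by
        rw [finrank_span_eq_card hli, Fintype.card_fin]
      omega
  · intro x'
    have hU : ∀ i, ∃ c : Fin n → P, ∑ j, c j • x j = g • x' i :=
      fun i => (Submodule.mem_span_range_iff_exists_fun P).mp (hgB (x' i))
    choose U hUx using hU
    refine ⟨g ^ n, (Matrix.of U).det, fun h => hg (Ideal.IsPrime.mem_of_pow_mem inferInstance n h),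
      ?_⟩
    set G : Matrix (Fin n) (Fin n) P := Matrix.of fun i j => Algebra.intTrace P B (x i * x j)
      with hG
    set G' : Matrix (Fin n) (Fin n) P := Matrix.of fun i j => Algebra.intTrace P B (x' i * x' j)
      with hG'
    have hmat : (g ^ 2) • G' = Matrix.of U * G * (Matrix.of U).transpose := by
      ext i j
      rw [Matrix.smul_apply, hG', Matrix.of_apply, smul_eq_mul, Matrix.mul_apply]
      have h1 : g ^ 2 * Algebra.intTrace P B (x' i * x' j) =
          Algebra.intTrace P B ((g • x' i) * (g • x' j)) := by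
        rw [smul_mul_smul_comm, ← sq, map_smul, smul_eq_mul]
      rw [h1, ← hUx i, ← hUx j, Finset.sum_mul_sum, map_sum]
      simp_rw [Matrix.mul_apply, Finset.sum_mul]
      rw [Finset.sum_comm]
      refine Finset.sum_congr rfl fun k _ => ?_
      rw [map_sum]
      refine Finset.sum_congr rfl fun l _ => ?_
      rw [smul_mul_smul_comm, map_smul, smul_eq_mul, Matrix.transpose_apply, Matrix.of_apply,
        Matrix.of_apply, hG, Matrix.of_apply]
      ring
    have hdet := congrArg Matrix.det hmat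
    rw [Matrix.det_smul, Matrix.det_mul, Matrix.det_mul, Matrix.det_transpose, Fintype.card_fin]
      at hdet
    show (g ^ n) ^ 2 * G'.det = (Matrix.of U).det ^ 2 * G.det
    rw [← pow_mul, mul_comm n 2, pow_mul, hdet]
    ring

end Fermat.Agent.S18.B12.H93

end
-- ===== PACK-END S18/B12/H93/LocalBasisRank.lean

-- ===== PACK-BEGIN S18/H394/KummerEndgame.lean
section




/-!
# S18, Route K, pieces b3+b4 (helper394): the Kummer endgame

Abstract statement (`kummer_endgame_aux`): two charts `B₀, B₁ ⊆ M ⊆ F` over a noetherian local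
ring `R`, an element `u ∈ F` of exact order `m` modulo constants and `m`-th powers, and
"local existence" data `σ₀, σ₁` (`σⱼ ^ m * u ≡ 1 mod w Bⱼ`, `σ₀ ≡ σ₁`) are contradictory.
The proof applies the two-chart connectedness theorem (b5, `H498.idem_trivial_of_cech_finite`)
to the graded Kummer algebra of `Graded.lean`.
-/

set_option autoImplicit false

namespace Fermat.Agent.S18.H394

open Polynomial

section Identities

variable {C : Type*} [CommRing C]

theorem idem_identity (t β ω ν : C) (n : ℕ) (hn : ν * (n : C) = 1) (ht : t ^ n = 1 + ω * β) :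
    (ν * ∑ i ∈ Finset.range n, t ^ i) ^ 2 - ν * ∑ i ∈ Finset.range n, t ^ i =
      ω * (ν ^ 2 * β * ∑ i ∈ Finset.range n, ∑ j ∈ Finset.range i, t ^ j) := by
  set S := ∑ i ∈ Finset.range n, t ^ i with hS
  have h1 : S * (t - 1) = ω * β := by rw [hS, geom_sum_mul, ht]; ring
  have h2 : S * S - (n : C) * S = (∑ i ∈ Finset.range n, ∑ j ∈ Finset.range i, t ^ j) * (ω * β) := by
    have : S * S - (n : C) * S = ∑ i ∈ Finset.range n, (t ^ i - 1) * S := by
      rw [← Finset.sum_mul, Finset.sum_sub_distrib, ← hS]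
      simp [sub_mul]
    rw [this, Finset.sum_mul]
    refine Finset.sum_congr rfl fun i _ => ?_
    rw [← geom_sum_mul, mul_assoc, mul_comm (t - 1) S, h1]
  have h3 : (ν * S) ^ 2 - ν * S = ν ^ 2 * (S * S - (n : C) * S) + ν * (ν * (n : C) - 1) * S := by
    ring
  rw [h3, h2, hn]
  ring

theorem diff_identity (t₀ t₁ : C) (n : ℕ) :
    ∑ i ∈ Finset.range n, t₀ ^ i - ∑ i ∈ Finset.range n, t₁ ^ i =
      (t₀ - t₁) * ∑ i ∈ Finset.range n, ∑ a ∈ Finset.range i, t₀ ^ a * t₁ ^ (i - 1 - a) := by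
  rw [← Finset.sum_sub_distrib, Finset.mul_sum]
  refine Finset.sum_congr rfl fun i _ => ?_
  rw [← geom_sum₂_mul, mul_comm]

end Identities

section Localisation

variable {R F C : Type*} [CommRing R] [Field F] [Algebra R F] [CommRing C] [Algebra F C]
  [Algebra R C] [IsScalarTower R F C]

/-- If `M = B[1/z]` then the Kummer algebra of `M` is the localisation of that of `B`. -/
theorem exists_pow_mul_mem_kummerSub (pb : PowerBasis F C) (u : F)
    (hT : pb.gen ^ pb.dim = algebraMap F C u) (hm0 : 0 < pb.dim)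
    (B M : Subalgebra R F) (hB : RootClosed pb.dim B) (hM : RootClosed pb.dim M)
    (z : F) (hz : z ∈ B) (hloc : ∀ y ∈ M, ∃ n : ℕ, z ^ n * y ∈ B)
    (c : C) (hc : c ∈ kummerSub pb u hT hm0 M hM) :
    ∃ n : ℕ, algebraMap F C z ^ n * c ∈ kummerSub pb u hT hm0 B hB := by
  classical
  have h : ∀ k : Fin pb.dim, ∃ n : ℕ, z ^ n * (co pb k c ^ pb.dim * u ^ (k : ℕ)) ∈ B :=
    fun k => hloc _ (hc k)
  choose N hN using h
  refine ⟨∑ k, N k, fun k => ?_⟩
  rw [← map_pow, co_algebraMap_mul, mem_degSet]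
  have hle : N k ≤ (∑ k, N k) * pb.dim := by
    calc N k ≤ ∑ k, N k := Finset.single_le_sum (fun _ _ => Nat.zero_le _) (Finset.mem_univ k)
      _ ≤ (∑ k, N k) * pb.dim := Nat.le_mul_of_pos_right _ hm0
  obtain ⟨d, hd⟩ := Nat.exists_eq_add_of_le hle
  have : (z ^ (∑ k, N k) * co pb k c) ^ pb.dim * u ^ (k : ℕ)
      = z ^ d * (z ^ N k * (co pb k c ^ pb.dim * u ^ (k : ℕ))) := by
    rw [mul_pow, ← pow_mul, hd, pow_add]
    ring
  rw [this]
  exact B.mul_mem (B.pow_mem hz d) (hN k)

end Localisation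

section Main

variable {R F C : Type*} [CommRing R] [IsLocalRing R] [IsNoetherianRing R] [Field F] [Algebra R F]
  [CommRing C] [Algebra F C] [Algebra R C] [IsScalarTower R F C]

omit [IsLocalRing R] [IsNoetherianRing R] in
/-- The intersection of the two Kummer charts consists of constants. -/
theorem kummerSub_inf (pb : PowerBasis F C) (u : F)
    (hT : pb.gen ^ pb.dim = algebraMap F C u) (hm0 : 0 < pb.dim)
    (B₀ B₁ : Subalgebra R F) (hrc0 : RootClosed pb.dim B₀) (hrc1 : RootClosed pb.dim B₁)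
    (hint : ∀ y : F, y ∈ B₀ → y ∈ B₁ → ∃ r : R, algebraMap R F r = y)
    (hord : ∀ i : ℕ, 0 < i → i < pb.dim → ∀ f : F, f ≠ 0 → ∀ r : R,
        f ^ pb.dim * u ^ i ≠ algebraMap R F r)
    (c : C) (h0 : c ∈ kummerSub pb u hT hm0 B₀ hrc0) (h1 : c ∈ kummerSub pb u hT hm0 B₁ hrc1) :
    ∃ r : R, algebraMap R C r = c := by
  classical
  have hk : ∀ k : Fin pb.dim, (k : ℕ) ≠ 0 → co pb k c = 0 := by
    intro k hk0
    by_contra hne
    obtain ⟨r, hr⟩ := hint _ (h0 k) (h1 k)
    exact hord k (Nat.pos_of_ne_zero hk0) k.2 _ hne r hr.symm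
  have h00 : co pb ⟨0, hm0⟩ c ∈ B₀ := mem_of_mem_degSet_zero hrc0 (h0 ⟨0, hm0⟩)
  have h01 : co pb ⟨0, hm0⟩ c ∈ B₁ := mem_of_mem_degSet_zero hrc1 (h1 ⟨0, hm0⟩)
  obtain ⟨r, hr⟩ := hint _ h00 h01
  refine ⟨r, ?_⟩
  rw [← sum_co pb c, Finset.sum_eq_single (⟨0, hm0⟩ : Fin pb.dim)]
  · rw [← hr, pow_zero, mul_one, ← IsScalarTower.algebraMap_apply]
  · intro k _ hk0
    rw [hk k (fun h => hk0 (Fin.ext h)), map_zero, zero_mul]
  · intro h
    exact absurd (Finset.mem_univ _) h

/-- **Kummer endgame (abstract form).**  See the module docstring. -/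
theorem kummer_endgame_aux
    (pb : PowerBasis F C) (u : F) (hT : pb.gen ^ pb.dim = algebraMap F C u)
    (hm0 : 0 < pb.dim) (hm1 : 1 < pb.dim)
    (ν : R) (hν : ν * (pb.dim : R) = 1)
    (w : R)
    (B₀ B₁ M : Subalgebra R F)
    (hrc0 : RootClosed pb.dim B₀) (hrc1 : RootClosed pb.dim B₁) (hrcM : RootClosed pb.dim M)
    (x : F) (hx0 : x ≠ 0) (hx : x ∈ B₀) (hx' : x⁻¹ ∈ B₁)
    (h0M : B₀ ≤ M) (h1M : B₁ ≤ M)
    (hloc0 : ∀ y ∈ M, ∃ n : ℕ, x ^ n * y ∈ B₀)
    (hloc1 : ∀ y ∈ M, ∃ n : ℕ, x⁻¹ ^ n * y ∈ B₁)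
    (hint : ∀ y : F, y ∈ B₀ → y ∈ B₁ → ∃ r : R, algebraMap R F r = y)
    (ι : Type*) [Finite ι] (g : ι → C)
    (hg : ∀ i, g i ∈ kummerSub pb u hT hm0 B₀ hrc0)
    (hgen : ∀ b ∈ kummerSub pb u hT hm0 B₀ hrc0, ∃ P : ι → Polynomial R,
        b = ∑ᶠ i, Polynomial.aeval (algebraMap F C x) (P i) * g i)
    (hw1 : ∀ b ∈ B₀, algebraMap R F w * b ≠ 1)
    (hord : ∀ i : ℕ, 0 < i → i < pb.dim → ∀ f : F, f ≠ 0 → ∀ r : R,
        f ^ pb.dim * u ^ i ≠ algebraMap R F r)
    (σ₀ σ₁ : F)
    (h₀ : ∃ b ∈ B₀, σ₀ ^ pb.dim * u - 1 = algebraMap R F w * b)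
    (h₁ : ∃ b ∈ B₁, σ₁ ^ pb.dim * u - 1 = algebraMap R F w * b)
    (h₀₁ : ∃ γ : F, σ₀ - σ₁ = algebraMap R F w * γ ∧ γ ^ pb.dim * u ∈ M) : False := by
  classical
  haveI : Fintype ι := Fintype.ofFinite ι
  obtain ⟨b₀, hb₀, hσ₀⟩ := h₀
  obtain ⟨b₁, hb₁, hσ₁⟩ := h₁
  obtain ⟨γ, hγ, hγM⟩ := h₀₁
  -- the three Kummer algebras
  set K0 := kummerSub pb u hT hm0 B₀ hrc0 with hK0
  set K1 := kummerSub pb u hT hm0 B₁ hrc1 with hK1
  set KM := kummerSub pb u hT hm0 M hrcM with hKM
  have hK0M : K0 ≤ KM := kummerSub_mono hT hm0 hrc0 hrcM h0M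
  have hK1M : K1 ≤ KM := kummerSub_mono hT hm0 hrc1 hrcM h1M
  -- basic elements
  have hwC : algebraMap R C w = algebraMap F C (algebraMap R F w) :=
    IsScalarTower.algebraMap_apply R F C w
  have hνC : algebraMap R C ν * ((pb.dim : ℕ) : C) = 1 := by
    rw [← map_natCast (algebraMap R C), ← map_mul, hν, map_one]
  set t₀ : C := algebraMap F C σ₀ * pb.gen with ht₀
  set t₁ : C := algebraMap F C σ₁ * pb.gen with ht₁
  have hσ₀B : σ₀ ∈ degSet B₀ pb.dim u 1 := by
    rw [mem_degSet, pow_one]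
    have : σ₀ ^ pb.dim * u = 1 + algebraMap R F w * b₀ := by rw [← hσ₀]; ring
    rw [this]
    exact B₀.add_mem B₀.one_mem (B₀.mul_mem (B₀.algebraMap_mem w) hb₀)
  have hσ₁B : σ₁ ∈ degSet B₁ pb.dim u 1 := by
    rw [mem_degSet, pow_one]
    have : σ₁ ^ pb.dim * u = 1 + algebraMap R F w * b₁ := by rw [← hσ₁]; ring
    rw [this]
    exact B₁.add_mem B₁.one_mem (B₁.mul_mem (B₁.algebraMap_mem w) hb₁)
  have ht₀K : t₀ ∈ K0 := by
    have := monomial_mem_kummerSub hT hm0 hrc0 hσ₀B
    rwa [pow_one] at this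
  have ht₁K : t₁ ∈ K1 := by
    have := monomial_mem_kummerSub hT hm0 hrc1 hσ₁B
    rwa [pow_one] at this
  have ht₀m : t₀ ^ pb.dim = 1 + algebraMap R C w * algebraMap F C b₀ := by
    rw [ht₀, mul_pow, hT, ← map_pow, ← map_mul, hwC, ← map_mul, ← map_one (algebraMap F C),
      ← map_add]
    congr 1
    rw [← hσ₀]; ring
  have ht₁m : t₁ ^ pb.dim = 1 + algebraMap R C w * algebraMap F C b₁ := by
    rw [ht₁, mul_pow, hT, ← map_pow, ← map_mul, hwC, ← map_mul, ← map_one (algebraMap F C),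
      ← map_add]
    congr 1
    rw [← hσ₁]; ring
  set E₀ : C := algebraMap R C ν * ∑ i ∈ Finset.range pb.dim, t₀ ^ i with hE₀
  set E₁ : C := algebraMap R C ν * ∑ i ∈ Finset.range pb.dim, t₁ ^ i with hE₁
  have hE₀K : E₀ ∈ K0 :=
    K0.mul_mem (K0.algebraMap_mem ν) (K0.sum_mem fun i _ => K0.pow_mem ht₀K i)
  have hE₁K : E₁ ∈ K1 :=
    K1.mul_mem (K1.algebraMap_mem ν) (K1.sum_mem fun i _ => K1.pow_mem ht₁K i)
  -- idempotent mod `w`
  have hid₀ : ∃ a ∈ K0, E₀ ^ 2 - E₀ = algebraMap R C w * a := by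
    refine ⟨_, ?_, idem_identity t₀ (algebraMap F C b₀) (algebraMap R C w) (algebraMap R C ν)
      pb.dim hνC ht₀m⟩
    refine K0.mul_mem (K0.mul_mem (K0.pow_mem (K0.algebraMap_mem ν) 2)
      (algebraMap_mem_kummerSub hT hm0 hrc0 hb₀)) ?_
    exact K0.sum_mem fun i _ => K0.sum_mem fun j _ => K0.pow_mem ht₀K j
  have hid₁ : ∃ a ∈ K1, E₁ ^ 2 - E₁ = algebraMap R C w * a := by
    refine ⟨_, ?_, idem_identity t₁ (algebraMap F C b₁) (algebraMap R C w) (algebraMap R C ν)
      pb.dim hνC ht₁m⟩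
    refine K1.mul_mem (K1.mul_mem (K1.pow_mem (K1.algebraMap_mem ν) 2)
      (algebraMap_mem_kummerSub hT hm0 hrc1 hb₁)) ?_
    exact K1.sum_mem fun i _ => K1.sum_mem fun j _ => K1.pow_mem ht₁K j
  -- compatibility on the overlap
  have hγK : algebraMap F C γ * pb.gen ∈ KM := by
    have hγd : γ ∈ degSet M pb.dim u 1 := by rw [mem_degSet, pow_one]; exact hγM
    have := monomial_mem_kummerSub hT hm0 hrcM hγd
    rwa [pow_one] at this
  have hdiff : ∃ y ∈ KM, E₀ - E₁ = algebraMap R C w * y := by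
    refine ⟨algebraMap R C ν * ((algebraMap F C γ * pb.gen) *
      ∑ i ∈ Finset.range pb.dim, ∑ a ∈ Finset.range i, t₀ ^ a * t₁ ^ (i - 1 - a)), ?_, ?_⟩
    · refine KM.mul_mem (KM.algebraMap_mem ν) (KM.mul_mem hγK ?_)
      exact KM.sum_mem fun i _ => KM.sum_mem fun a _ =>
        KM.mul_mem (KM.pow_mem (hK0M ht₀K) a) (KM.pow_mem (hK1M ht₁K) _)
    · have htt : t₀ - t₁ = algebraMap R C w * (algebraMap F C γ * pb.gen) := by
        rw [ht₀, ht₁, ← sub_mul, ← map_sub, hγ, map_mul, hwC, mul_assoc]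
      rw [hE₀, hE₁, ← mul_sub, diff_identity, htt]
      ring
  -- the ambient ring and the charts
  let C0 : Subalgebra R KM := K0.comap KM.val
  let C1 : Subalgebra R KM := K1.comap KM.val
  have hxK0 : algebraMap F C x ∈ K0 := algebraMap_mem_kummerSub hT hm0 hrc0 hx
  have hxK1 : algebraMap F C x⁻¹ ∈ K1 := algebraMap_mem_kummerSub hT hm0 hrc1 hx'
  let xK : KM := ⟨algebraMap F C x, hK0M hxK0⟩
  let xK' : KM := ⟨algebraMap F C x⁻¹, hK1M hxK1⟩
  have hxx' : xK * xK' = 1 := by
    apply Subtype.ext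
    show algebraMap F C x * algebraMap F C x⁻¹ = 1
    rw [← map_mul, mul_inv_cancel₀ hx0, map_one]
  have hlocK : ∀ y : KM, ∃ n : ℕ, xK ^ n * y ∈ C0 := by
    intro y
    obtain ⟨n, hn⟩ := exists_pow_mul_mem_kummerSub pb u hT hm0 B₀ M hrc0 hrcM x hx hloc0 y y.2
    exact ⟨n, hn⟩
  have hlocK' : ∀ y : KM, ∃ n : ℕ, xK' ^ n * y ∈ C1 := by
    intro y
    obtain ⟨n, hn⟩ := exists_pow_mul_mem_kummerSub pb u hT hm0 B₁ M hrc1 hrcM x⁻¹ hx' hloc1 y y.2
    exact ⟨n, hn⟩
  let gK : ι → KM := fun i => ⟨g i, hK0M (hg i)⟩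
  have hgenK : ∀ b ∈ C0, ∃ P : ι → Polynomial R, b = ∑ᶠ i, Polynomial.aeval xK (P i) * gK i := by
    intro b hb
    obtain ⟨P, hP⟩ := hgen (b : C) hb
    refine ⟨P, Subtype.ext ?_⟩
    rw [hP, finsum_eq_sum_of_fintype, finsum_eq_sum_of_fintype]
    rw [show ((∑ i, Polynomial.aeval xK (P i) * gK i : KM) : C)
        = KM.val (∑ i, Polynomial.aeval xK (P i) * gK i) from rfl, map_sum]
    refine Finset.sum_congr rfl fun i _ => ?_
    rw [map_mul, ← Polynomial.aeval_algHom_apply]
    rfl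
  haveI : Module.Finite R (↥KM ⧸ (Subalgebra.toSubmodule C0 ⊔ Subalgebra.toSubmodule C1)) :=
    H498.finite_cech_quotient C0 C1 xK xK' hxK0 hxK1 hxx' ι gK hg hgenK hlocK
      (fun i => hlocK' (gK i))
  have hintK : ∀ y : KM, y ∈ C0 → y ∈ C1 → ∃ r : R, algebraMap R KM r = y := by
    intro y hy0 hy1
    obtain ⟨r, hr⟩ := kummerSub_inf pb u hT hm0 B₀ B₁ hrc0 hrc1 hint hord (y : C) hy0 hy1
    exact ⟨r, Subtype.ext hr⟩
  let e₀ : KM := ⟨E₀, hK0M hE₀K⟩
  let e₁ : KM := ⟨E₁, hK1M hE₁K⟩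
  have h1K : ∃ a ∈ C0, e₀ ^ 2 - e₀ = algebraMap R KM w * a := by
    obtain ⟨a, ha, h⟩ := hid₀
    exact ⟨⟨a, hK0M ha⟩, ha, Subtype.ext h⟩
  have h2K : ∃ a ∈ C1, e₁ ^ 2 - e₁ = algebraMap R KM w * a := by
    obtain ⟨a, ha, h⟩ := hid₁
    exact ⟨⟨a, hK1M ha⟩, ha, Subtype.ext h⟩
  have h12K : ∃ y : KM, e₀ - e₁ = algebraMap R KM w * y := by
    obtain ⟨y, hy, h⟩ := hdiff
    exact ⟨⟨y, hy⟩, Subtype.ext h⟩
  have hconcl := H498.idem_trivial_of_cech_finite w C0 C1 hintK e₀ e₁ hE₀K hE₁K h1K h2K h12K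
  -- the coefficient of `T` in `E₀`
  let k1 : Fin pb.dim := ⟨1, hm1⟩
  have hco1 : co pb k1 (1 : C) = 0 := by
    have h1 : (1 : C) = algebraMap F C 1 * pb.gen ^ (0 * pb.dim + ((⟨0, hm0⟩ : Fin pb.dim) : ℕ)) := by
      simp
    rw [h1, co_monomial pb hT, if_neg]
    intro h
    have := congrArg Fin.val h
    simp [k1] at this
  have hcoE : co pb k1 E₀ = algebraMap R F ν * σ₀ := by
    have hE : E₀ = ∑ i : Fin pb.dim,
        algebraMap F C (algebraMap R F ν * σ₀ ^ (i : ℕ)) * pb.gen ^ (0 * pb.dim + (i : ℕ)) := by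
      rw [hE₀, ← Fin.sum_univ_eq_sum_range (fun i => t₀ ^ i) pb.dim, Finset.mul_sum]
      refine Finset.sum_congr rfl fun i _ => ?_
      rw [ht₀, mul_pow, zero_mul, zero_add, map_mul, map_pow,
        ← IsScalarTower.algebraMap_apply R F C, mul_assoc]
    rw [hE, map_sum]
    rw [Finset.sum_congr rfl (fun i _ => co_monomial pb hT _ 0 i k1)]
    rw [Finset.sum_ite_eq' Finset.univ k1]
    simp [k1]
  have hfinal : ∀ a₁ : F, a₁ ∈ degSet B₀ pb.dim u 1 → ∀ ε : F, (ε = 1 ∨ ε = -1) →
      algebraMap R F ν * σ₀ = ε * (algebraMap R F w * a₁) → False := by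
    intro a₁ ha₁ ε hε h
    rw [mem_degSet, pow_one] at ha₁
    have hνF : algebraMap R F ν * ((pb.dim : ℕ) : F) = 1 := by
      rw [← map_natCast (algebraMap R F), ← map_mul, hν, map_one]
    have hσ : σ₀ = ((pb.dim : ℕ) : F) * ε * algebraMap R F w * a₁ := by
      calc σ₀ = (algebraMap R F ν * ((pb.dim : ℕ) : F)) * σ₀ := by rw [hνF, one_mul]
        _ = ((pb.dim : ℕ) : F) * (algebraMap R F ν * σ₀) := by ring
        _ = ((pb.dim : ℕ) : F) * ε * algebraMap R F w * a₁ := by rw [h]; ring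
    obtain ⟨d, hd⟩ : ∃ d, pb.dim = d + 1 := Nat.exists_eq_succ_of_ne_zero hm0.ne'
    have hεB : ε ∈ B₀ := by
      rcases hε with rfl | rfl
      · exact B₀.one_mem
      · exact B₀.neg_mem B₀.one_mem
    have hkey : (1 : F) = algebraMap R F w *
        ((((pb.dim : ℕ) : F) * ε) ^ pb.dim * algebraMap R F w ^ d * (a₁ ^ pb.dim * u) - b₀) := by
      have h1 : σ₀ ^ pb.dim * u = algebraMap R F w *
          ((((pb.dim : ℕ) : F) * ε) ^ pb.dim * algebraMap R F w ^ d * (a₁ ^ pb.dim * u)) := by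
        conv_lhs => rw [hσ]
        rw [mul_pow, mul_pow]
        conv_lhs => rw [show algebraMap R F w ^ pb.dim = algebraMap R F w ^ d * algebraMap R F w
          from by rw [hd, pow_succ]]
        ring
      rw [mul_sub, ← h1, ← hσ₀]
      ring
    refine hw1 _ ?_ hkey.symm
    refine B₀.sub_mem (B₀.mul_mem (B₀.mul_mem (B₀.pow_mem (B₀.mul_mem (natCast_mem B₀ _) hεB) _)
      (B₀.pow_mem (B₀.algebraMap_mem w) d)) ha₁) hb₀
  rcases hconcl with ⟨a, ha, hEa⟩ | ⟨a, ha, hEa⟩
  · have hEa' : E₀ = algebraMap R C w * (a : C) := congrArg Subtype.val hEa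
    have h := congrArg (co pb k1) hEa'
    rw [hcoE, hwC, co_algebraMap_mul] at h
    exact hfinal (co pb k1 (a : C)) (ha k1) 1 (Or.inl rfl) (by rw [h, one_mul])
  · have hEa' : 1 - E₀ = algebraMap R C w * (a : C) := congrArg Subtype.val hEa
    have h := congrArg (co pb k1) hEa'
    rw [map_sub, hco1, hcoE, hwC, co_algebraMap_mul, zero_sub] at h
    refine hfinal (co pb k1 (a : C)) (ha k1) (-1) (Or.inr rfl) ?_
    rw [neg_one_mul, ← h, neg_neg]

end Main

end Fermat.Agent.S18.H394

end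
-- ===== PACK-END S18/H394/KummerEndgame.lean

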