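import Fermat.Prelude.Def_GaloisRep_ComplexConjugation
import Mathlib
import Fermat.Prelude.Def_EllipticCurve_FrobeniusTrace
import Fermat.Prelude.Def_AlgebraicCurve_DivisorClassGroup
import Fermat.Prelude.Def_ModularCurve_X0ModL
import Fermat.Prelude.Thm_ModularForm_sturm_bound_Gamma0
import Mathlib.RingTheory.PowerSeries.Expand
import Fermat.Agent.Pack.S3234.G0E4L0
import Fermat.Agent.Pack.S3234.G0E0L2
import Fermat.Agent.Pack.S3234.G0E0L0
import Fermat.Agent.Pack.S3234.G0E4L2
import Fermat.Agent.Pack.S3234.G0E4L3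
import Fermat.Agent.Pack.S3234.G0E4L1
import Fermat.Agent.Pack.S3234.G0E3L1
import Fermat.Agent.Pack.S3234.G0E2L2
import Fermat.Agent.Pack.S3234.G0E3L0
import Fermat.Agent.Pack.S3234.G0E2L0
import Fermat.Agent.Pack.S3234.G0E2L1
import Fermat.Agent.Pack.S3234.G0E1L0
import Fermat.Agent.Pack.S3234.G0E3L3
import Fermat.Agent.Pack.S3234.G0E1L2
import Fermat.Agent.Pack.S3234.G0E1L1

-- ===== PACK-BEGIN S30/H990/Cyclo.lean
section
/-
S30 top glue (helper990): the `p`-adic cyclotomic character with values in a complete local ring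
`𝒪` with `p ∈ 𝔪`: Frobenius elements, inertia, complex conjugation, continuity.
-/




set_option autoImplicit false

namespace Fermat.Agent.S30.H990

open Fermat.Agent.S55.H414 Fermat.Agent.S55.Bridge

section PadicHom

variable (p : ℕ) [Fact p.Prime]

/-- Ring homomorphisms from `ℤ_[p]` to a ring killed by a power of `p` are unique. -/
theorem padicInt_ringHom_ext {R : Type*} [Ring R] (m : ℕ) (hm : (p : R) ^ m = 0)
    (f g : ℤ_[p] →+* R) : f = g := by
  have key : ∀ (h : ℤ_[p] →+* R) (x : ℤ_[p]), h x = ((x.appr m : ℕ) : R) := by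
    intro h x
    have := PadicInt.appr_spec m x
    rw [Ideal.mem_span_singleton'] at this
    obtain ⟨y, hy⟩ := this
    have hx : x = y * (p : ℤ_[p]) ^ m + ((x.appr m : ℕ) : ℤ_[p]) := by rw [hy]; ring
    conv_lhs => rw [hx]
    rw [map_add, map_mul, map_pow, map_natCast, map_natCast, hm, mul_zero, zero_add]
  ext x
  rw [key f, key g]

variable (𝒪 : Type) [CommRing 𝒪] [IsLocalRing 𝒪]
  [IsAdicComplete (IsLocalRing.maximalIdeal 𝒪) 𝒪]

/-- A complete local ring with `p` in its maximal ideal is a `ℤ_[p]`-algebra. -/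
theorem exists_padicInt_ringHom (hp : (p : 𝒪) ∈ IsLocalRing.maximalIdeal 𝒪) :
    Nonempty (ℤ_[p] →+* 𝒪) := by
  classical
  have hpow : ∀ n, (p : 𝒪 ⧸ IsLocalRing.maximalIdeal 𝒪 ^ n) ^ n = 0 := by
    intro n
    have : (p : 𝒪 ⧸ IsLocalRing.maximalIdeal 𝒪 ^ n) ^ n
        = Ideal.Quotient.mk (IsLocalRing.maximalIdeal 𝒪 ^ n) ((p : 𝒪) ^ n) := by
      simp
    rw [this, Ideal.Quotient.eq_zero_iff_mem]
    exact Ideal.pow_mem_pow hp n
  have hzero : ∀ n, ((p ^ n : ℕ) : 𝒪 ⧸ IsLocalRing.maximalIdeal 𝒪 ^ n) = 0 := by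
    intro n
    rw [Nat.cast_pow]
    exact hpow n
  let f : (n : ℕ) → ℤ_[p] →+* 𝒪 ⧸ IsLocalRing.maximalIdeal 𝒪 ^ n := fun n =>
    haveI := ringChar.charP (𝒪 ⧸ IsLocalRing.maximalIdeal 𝒪 ^ n)
    (ZMod.castHom ((ringChar.spec _ _).mp (hzero n))
      (𝒪 ⧸ IsLocalRing.maximalIdeal 𝒪 ^ n)).comp (PadicInt.toZModPow n)
  refine ⟨IsAdicComplete.liftRingHom (IsLocalRing.maximalIdeal 𝒪) f ?_⟩
  intro m n hle
  exact padicInt_ringHom_ext p m (hpow m) _ _

end PadicHom

section CycloZp

variable (p : ℕ) [Fact p.Prime]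

/-- The `p`-adic cyclotomic character of `G_ℚ`. -/
noncomputable def cycloZp : GQ →* ℤ_[p]ˣ :=
  (cyclotomicCharacter (AlgebraicClosure ℚ) p).comp
    (MulSemiringAction.toRingAut GQ (AlgebraicClosure ℚ))

theorem cycloZp_spec (σ : GQ) (n : ℕ) :
    σ (zetaBar (p ^ n)) =
      zetaBar (p ^ n) ^ ((PadicInt.toZModPow n) ((cycloZp p σ : ℤ_[p]ˣ) : ℤ_[p])).val :=
  cyclotomicCharacter.spec p (MulSemiringAction.toRingAut GQ (AlgebraicClosure ℚ) σ)
    (zetaBar (p ^ n)) (zetaBar_spec (p ^ n)).pow_eq_one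

/-- The value of the cyclotomic character is determined by the action on the roots of unity
`ζ_{p^n}`. -/
theorem toZModPow_cycloZp (σ : GQ) (n : ℕ) (a : ℕ)
    (h : σ (zetaBar (p ^ n)) = zetaBar (p ^ n) ^ a) :
    (PadicInt.toZModPow n) ((cycloZp p σ : ℤ_[p]ˣ) : ℤ_[p]) = (a : ZMod (p ^ n)) := by
  have h1 := cycloZp_spec p σ n
  rw [h, pow_eq_pow_iff_natCast_eq (zetaBar_spec (p ^ n)), ZMod.natCast_zmod_val] at h1
  exact h1.symm

theorem cycloZp_eq_of_forall (σ : GQ) (x : ℤ_[p])
    (h : ∀ n, ∃ a : ℕ, σ (zetaBar (p ^ n)) = zetaBar (p ^ n) ^ a ∧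
      (a : ZMod (p ^ n)) = PadicInt.toZModPow n x) :
    ((cycloZp p σ : ℤ_[p]ˣ) : ℤ_[p]) = x := by
  rw [← PadicInt.ext_of_toZModPow]
  intro n
  obtain ⟨a, ha, hax⟩ := h n
  rw [toZModPow_cycloZp p σ n a ha, hax]

/-- Frobenius elements at `ℓ ≠ p`. -/
theorem cycloZp_frobenius {ℓ : ℕ} (hℓ : ℓ.Prime) (hℓp : ℓ ≠ p)
    (A : ValuationSubring (AlgebraicClosure ℚ)) (hA : A.LiesOverPrime ℓ) (σ : GQ)
    (hσ : A.IsFrobeniusAt σ ℓ) : ((cycloZp p σ : ℤ_[p]ˣ) : ℤ_[p]) = (ℓ : ℤ_[p]) := by
  have hp : p.Prime := Fact.out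
  apply cycloZp_eq_of_forall
  intro n
  have hNv : A.valuation ((p ^ n : ℕ) : AlgebraicClosure ℚ) = 1 := by
    rw [Nat.cast_pow, map_pow, val_prime_eq_one (A := A) hA hℓ hp hℓp, one_pow]
  refine ⟨ℓ, IsFrobeniusAt_apply_root hσ (NeZero.ne _) hNv (zetaBar_spec (p ^ n)).pow_eq_one, ?_⟩
  rw [map_natCast]

/-- Inertia at `q ≠ p`. -/
theorem cycloZp_inertia {q : ℕ} (hq : q.Prime) (hqp : q ≠ p)
    (P : ValuationSubring (AlgebraicClosure ℚ)) (hP : P.LiesOverPrime q) (σ : GQ)
    (hσ : σ ∈ P.inertiaSubgroupIn ℚ) : cycloZp p σ = 1 := by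
  have hp : p.Prime := Fact.out
  apply Units.ext
  rw [Units.val_one]
  apply cycloZp_eq_of_forall
  intro n
  have hNv : P.valuation ((p ^ n : ℕ) : AlgebraicClosure ℚ) = 1 := by
    rw [Nat.cast_pow, map_pow, val_prime_eq_one (A := P) hP hq hp hqp, one_pow]
  have h1 := inertia_le_fixingSubgroup_cycloLevel (p ^ n) P hNv hσ
  rw [mem_fixingSubgroup_cycloLevel_iff] at h1
  refine ⟨1, by rw [h1, pow_one], ?_⟩
  rw [Nat.cast_one, map_one]

/-- Complex conjugation inverts roots of unity. -/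
theorem complexConjugation_root {N : ℕ} (hN : N ≠ 0) {z : AlgebraicClosure ℚ} (hz : z ^ N = 1) :
    complexConjugation z = z⁻¹ := by
  apply complexEmbedding.toRingHom.injective
  show complexEmbedding (complexConjugation z) = complexEmbedding z⁻¹
  rw [complexEmbedding_complexConjugation, map_inv₀]
  have h1 : (complexEmbedding z) ^ N = 1 := by rw [← map_pow, hz, map_one]
  exact (Complex.inv_eq_conj (Complex.norm_eq_one_of_pow_eq_one h1 hN)).symm

/-- Complex conjugation. -/
theorem cycloZp_complexConjugation : cycloZp p complexConjugation = -1 := by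
  have hp : p.Prime := Fact.out
  apply Units.ext
  rw [Units.val_neg, Units.val_one]
  apply cycloZp_eq_of_forall
  intro n
  have hz := (zetaBar_spec (p ^ n)).pow_eq_one
  have hpos : 0 < p ^ n := pos_of_ne_zero (NeZero.ne _)
  refine ⟨p ^ n - 1, ?_, ?_⟩
  · rw [complexConjugation_root (NeZero.ne (p ^ n)) hz]
    apply inv_eq_of_mul_eq_one_right
    rw [← pow_succ', Nat.sub_add_cancel hpos, hz]
  · rw [Nat.cast_sub hpos, Nat.cast_one, ZMod.natCast_self, zero_sub, map_neg, map_one]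

/-- Continuity. -/
theorem cycloZp_sub_one_mem (n : ℕ) (σ : GQ) (h : ∀ x ∈ cycloLevel (p ^ n), σ x = x) :
    ((cycloZp p σ : ℤ_[p]ˣ) : ℤ_[p]) - 1 ∈ Ideal.span {(p : ℤ_[p]) ^ n} := by
  rw [← PadicInt.ker_toZModPow, RingHom.mem_ker, map_sub, map_one, sub_eq_zero]
  have h1 : σ (zetaBar (p ^ n)) = zetaBar (p ^ n) ^ 1 := by
    rw [pow_one]
    exact h _ (zetaBar_mem_cycloLevel (p ^ n))
  rw [toZModPow_cycloZp p σ n 1 h1, Nat.cast_one]

end CycloZp

section Cyclo

variable (p : ℕ) [Fact p.Prime] (𝒪 : Type) [CommRing 𝒪] [IsLocalRing 𝒪]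
  [IsAdicComplete (IsLocalRing.maximalIdeal 𝒪) 𝒪]

/-- The `p`-adic cyclotomic character with values in `𝒪`. -/
theorem exists_cyclo (hp : (p : 𝒪) ∈ IsLocalRing.maximalIdeal 𝒪) :
    ∃ d : GQ →* 𝒪ˣ,
      (∀ ℓ : ℕ, ℓ.Prime → ℓ ≠ p → ∀ A : ValuationSubring (AlgebraicClosure ℚ),
        A.LiesOverPrime ℓ → ∀ σ : GQ, A.IsFrobeniusAt σ ℓ → ((d σ : 𝒪ˣ) : 𝒪) = (ℓ : 𝒪)) ∧
      (∀ q : ℕ, q.Prime → q ≠ p → ∀ P : ValuationSubring (AlgebraicClosure ℚ),
        P.LiesOverPrime q → ∀ σ ∈ P.inertiaSubgroupIn ℚ, d σ = 1) ∧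
      d complexConjugation = -1 ∧
      (∀ (n : ℕ) (σ : GQ), (∀ x ∈ cycloLevel (p ^ n), σ x = x) →
        ((d σ : 𝒪ˣ) : 𝒪) - 1 ∈ IsLocalRing.maximalIdeal 𝒪 ^ n) := by
  obtain ⟨φ⟩ := exists_padicInt_ringHom p 𝒪 hp
  refine ⟨(Units.map (φ : ℤ_[p] →* 𝒪)).comp (cycloZp p), ?_, ?_, ?_, ?_⟩
  · intro ℓ hℓ hℓp A hA σ hσ
    show φ ((cycloZp p σ : ℤ_[p]ˣ) : ℤ_[p]) = (ℓ : 𝒪)
    rw [cycloZp_frobenius p hℓ hℓp A hA σ hσ, map_natCast]
  · intro q hq hqp P hP σ hσ
    rw [MonoidHom.comp_apply, cycloZp_inertia p hq hqp P hP σ hσ, map_one]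
  · rw [MonoidHom.comp_apply, cycloZp_complexConjugation]
    apply Units.ext
    show φ ((-1 : ℤ_[p]ˣ) : ℤ_[p]) = ((-1 : 𝒪ˣ) : 𝒪)
    rw [Units.val_neg, Units.val_one, Units.val_neg, Units.val_one, map_neg, map_one]
  · intro n σ h
    have h1 := cycloZp_sub_one_mem p n σ h
    rw [Ideal.mem_span_singleton'] at h1
    obtain ⟨y, hy⟩ := h1
    show φ ((cycloZp p σ : ℤ_[p]ˣ) : ℤ_[p]) - 1 ∈ IsLocalRing.maximalIdeal 𝒪 ^ n
    have : φ ((cycloZp p σ : ℤ_[p]ˣ) : ℤ_[p]) - 1 = φ y * (p : 𝒪) ^ n := by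
      rw [← map_one φ, ← map_sub, ← hy, map_mul, map_pow, map_natCast]
    rw [this]
    exact Ideal.mul_mem_left _ _ (Ideal.pow_mem_pow hp n)

end Cyclo

end Fermat.Agent.S30.H990

end
-- ===== PACK-END S30/H990/Cyclo.lean

-- ===== PACK-BEGIN Lib/Cheb/H476/Bridge.lean
section





/-!
# CHEB piece F6 (bridge): `Spec.BridgeDivisionStatement` and `Spec.BridgeStatement`

From the finite-level statements (Galois number fields, primes of rings of integers, Mathlib's
`IsArithFrobAt`) to the Prelude-level statements (valuation subrings of `ℚ̄`, Prelude's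
`IsFrobeniusAt`, `inertiaSubgroupIn`).
-/

set_option autoImplicit false
set_option linter.style.haveILetI false

open NumberField
open scoped Pointwise

namespace Fermat.Agent.Lib.Cheb.H476

open Fermat.Agent.Lib.Cheb.Spec

/-- The normal closure of a finite extension of `ℚ` inside `ℚ̄` is a number field. -/
theorem numberField_normalClosure (E : IntermediateField ℚ Qb) [FiniteDimensional ℚ E] :
    NumberField (IntermediateField.normalClosure ℚ E Qb) :=
  { to_charZero := inferInstance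
    to_finiteDimensional := inferInstance }

/-- The normal closure of a finite extension of `ℚ` inside `ℚ̄` is Galois over `ℚ`. -/
theorem isGalois_normalClosure (E : IntermediateField ℚ Qb) [FiniteDimensional ℚ E] :
    IsGalois ℚ (IntermediateField.normalClosure ℚ E Qb) := by
  haveI : Algebra.IsAlgebraic ℚ Qb := AlgebraicClosure.isAlgebraic ℚ
  haveI : IsAlgClosure ℚ Qb := ⟨inferInstance, inferInstance⟩
  haveI : Normal ℚ Qb := IsAlgClosure.normal ℚ Qb
  have hn : Normal ℚ (IntermediateField.normalClosure ℚ E Qb) := normalClosure.normal ℚ E Qb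
  exact isGalois_iff.mpr ⟨inferInstance, hn⟩

theorem restrictNormal_coe (L : IntermediateField ℚ Qb) [Normal ℚ L] (g : GQ) (x : L) :
    ((AlgEquiv.restrictNormal g L x : L) : Qb) = g (x : Qb) :=
  AlgEquiv.restrictNormal_commutes g L x

theorem restrictNormal_pow (L : IntermediateField ℚ Qb) [Normal ℚ L] (g : GQ) (n : ℕ) :
    AlgEquiv.restrictNormal (g ^ n) L = (AlgEquiv.restrictNormal g L) ^ n :=
  map_pow (AlgEquiv.restrictNormalHom L) g n

/-- **F6 / W5, Tier 1**: the bridge from the finite-level Frobenius density theorem to the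
Prelude-level division statement. -/
theorem bridgeDivision : BridgeDivisionStatement := by
  intro hF E hE σ S
  haveI := hE
  haveI := numberField_normalClosure E
  haveI := isGalois_normalClosure E
  obtain ⟨p, P, τ, hp, hpS, hP, hpP, hI, hτ, hz⟩ :=
    hF (IntermediateField.normalClosure ℚ E Qb)
      (AlgEquiv.restrictNormal σ (IntermediateField.normalClosure ℚ E Qb)) S
  obtain ⟨A, φ, hAp, hφ, hin, hφτ⟩ :=
    exists_frobenius_restrict (IntermediateField.normalClosure ℚ E Qb) p hp P hP hpP hI τ hτ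
  have h1 : τ ∈ Subgroup.zpowers
      (AlgEquiv.restrictNormal σ (IntermediateField.normalClosure ℚ E Qb)) :=
    hz ▸ Subgroup.mem_zpowers τ
  have h2 : AlgEquiv.restrictNormal σ (IntermediateField.normalClosure ℚ E Qb) ∈
      Subgroup.zpowers τ := hz.symm ▸ Subgroup.mem_zpowers _
  obtain ⟨k, hk⟩ := (isOfFinOrder_of_finite
    (AlgEquiv.restrictNormal σ (IntermediateField.normalClosure ℚ E Qb))).mem_powers_iff_mem_zpowers.mpr h1
  obtain ⟨j, hj⟩ := (isOfFinOrder_of_finite τ).mem_powers_iff_mem_zpowers.mpr h2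
  replace hk : AlgEquiv.restrictNormal σ (IntermediateField.normalClosure ℚ E Qb) ^ k = τ := hk
  replace hj : τ ^ j = AlgEquiv.restrictNormal σ (IntermediateField.normalClosure ℚ E Qb) := hj
  have hEL : E ≤ IntermediateField.normalClosure ℚ E Qb := IntermediateField.le_normalClosure E
  refine ⟨p, A, φ, k, j, hp, hpS, hAp, hφ, ?_, ?_, ?_⟩
  · intro ι hι x hx
    exact hin ι hι ⟨x, hEL hx⟩
  · intro x hx
    have h3 := hφτ ⟨x, hEL hx⟩
    rw [← hk, ← restrictNormal_pow, restrictNormal_coe] at h3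
    exact h3
  · intro x hx
    have h4 : AlgEquiv.restrictNormal (φ ^ j) (IntermediateField.normalClosure ℚ E Qb) =
        AlgEquiv.restrictNormal σ (IntermediateField.normalClosure ℚ E Qb) := by
      rw [restrictNormal_pow, ← hj]
      congr 1
      apply AlgEquiv.ext
      intro y
      apply Subtype.ext
      rw [restrictNormal_coe]
      exact hφτ y
    have h5 := restrictNormal_coe (IntermediateField.normalClosure ℚ E Qb) (φ ^ j) ⟨x, hEL hx⟩
    rw [h4, restrictNormal_coe] at h5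
    exact h5.symm

/-- **Bridge, Tier 2**: from finite-level qualitative Chebotarev to the Prelude-level
statement. -/
theorem bridge : BridgeStatement := by
  intro hF E hE σ S
  haveI := hE
  haveI := numberField_normalClosure E
  haveI := isGalois_normalClosure E
  obtain ⟨p, P, hp, hpS, hP, hpP, hI, hτ⟩ :=
    hF (IntermediateField.normalClosure ℚ E Qb)
      (AlgEquiv.restrictNormal σ (IntermediateField.normalClosure ℚ E Qb)) S
  obtain ⟨A, φ, hAp, hφ, hin, hφτ⟩ :=
    exists_frobenius_restrict (IntermediateField.normalClosure ℚ E Qb) p hp P hP hpP hI _ hτ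
  have hEL : E ≤ IntermediateField.normalClosure ℚ E Qb := IntermediateField.le_normalClosure E
  refine ⟨p, A, φ, hp, hpS, hAp, hφ, ?_, ?_⟩
  · intro ι hι x hx
    exact hin ι hι ⟨x, hEL hx⟩
  · intro x hx
    have h3 := hφτ ⟨x, hEL hx⟩
    rw [restrictNormal_coe] at h3
    exact h3

end Fermat.Agent.Lib.Cheb.H476

end
-- ===== PACK-END Lib/Cheb/H476/Bridge.lean

-- ===== PACK-BEGIN S22/H262/Lattice.lean
section



set_option autoImplicit false

/-!
# The period lattice: functionals, Hecke stability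
-/

open Complex Filter Function Metric Set
open UpperHalfPlane hiding I
open scoped Real Topology Manifold ModularForm MatrixGroups

namespace Fermat.Agent.S22.H262

open Matrix.SpecialLinearGroup CuspForm

variable {N : ℕ} [NeZero N] {n : ℕ}

theorem hasTower_slash_posInt (f : CuspForm (CongruenceSubgroup.Gamma0 N) ((n : ℤ) + 2))
    {A : GL (Fin 2) ℝ} (hA : A ∈ posInt) : HasTower (⇑f ∣[(n : ℤ) + 2] A) := by
  obtain ⟨g, δ, hδ, h10, rfl⟩ := exists_mapGL_mul_upper hA
  rw [SlashAction.slash_mul]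
  exact (hasTower_slash_SL f g).slash_upper n δ hδ.2 h10

theorem hasTower_cuspForm (f : CuspForm (CongruenceSubgroup.Gamma0 N) ((n : ℤ) + 2)) :
    HasTower (⇑f) := by
  have := hasTower_slash_posInt f (one_mem posInt)
  rwa [SlashAction.slash_one] at this

theorem hasTower_slash_slash (f : CuspForm (CongruenceSubgroup.Gamma0 N) ((n : ℤ) + 2))
    {A B : GL (Fin 2) ℝ} (hA : A ∈ posInt) (hB : B ∈ posInt) :
    HasTower ((⇑f ∣[(n : ℤ) + 2] A) ∣[(n : ℤ) + 2] B) := by
  rw [← SlashAction.slash_mul]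
  exact hasTower_slash_posInt f (mul_mem hA hB)

theorem smul_slash_pos (k : ℤ) {A : GL (Fin 2) ℝ} (hA : 0 < A.det.val) (c : ℂ) (h : ℍ → ℂ) :
    (c • h) ∣[k] A = c • (h ∣[k] A) := by
  rw [ModularForm.smul_slash, UpperHalfPlane.σ, if_pos hA]
  rfl

/-- The functional `f ↦ c_{f|B}(A)(v)`. -/
noncomputable def lamG (N : ℕ) [NeZero N] (n : ℕ) (B A : posInt) (v : ℂ × ℂ) :
    Module.Dual ℂ (CuspForm (CongruenceSubgroup.Gamma0 N) ((n : ℤ) + 2)) where
  toFun f := cocyc n (⇑f ∣[(n : ℤ) + 2] (B : GL (Fin 2) ℝ)) A v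
  map_add' f g := by
    rw [FunLike.coe_add, SlashAction.add_slash]
    exact cocyc_add n _ (hasTower_slash_posInt f B.2) (hasTower_slash_posInt g B.2)
      (hasTower_slash_slash f B.2 A.2) (hasTower_slash_slash g B.2 A.2) v
  map_smul' c f := by
    rw [FunLike.coe_smul, smul_slash_pos _ B.2.2, RingHom.id_apply, smul_eq_mul]
    exact cocyc_smul n _ A.2.2 (hasTower_slash_posInt f B.2) (hasTower_slash_slash f B.2 A.2) c v

theorem lamG_apply (B A : posInt) (v : ℂ × ℂ)
    (f : CuspForm (CongruenceSubgroup.Gamma0 N) ((n : ℤ) + 2)) :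
    lamG N n B A v f = cocyc n (⇑f ∣[(n : ℤ) + 2] (B : GL (Fin 2) ℝ)) A v := rfl

/-- The functional `f ↦ c_f(A)(v)`. -/
noncomputable def lam (N : ℕ) [NeZero N] (n : ℕ) (A : posInt) (v : ℂ × ℂ) :
    Module.Dual ℂ (CuspForm (CongruenceSubgroup.Gamma0 N) ((n : ℤ) + 2)) :=
  lamG N n 1 A v

theorem lam_apply (A : posInt) (v : ℂ × ℂ)
    (f : CuspForm (CongruenceSubgroup.Gamma0 N) ((n : ℤ) + 2)) :
    lam N n A v f = cocyc n (⇑f) A v := by
  rw [lam, lamG_apply]
  simp

/-- The period lattice. -/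
noncomputable def periodLattice (N : ℕ) [NeZero N] (n : ℕ) :
    Submodule ℤ (Module.Dual ℂ (CuspForm (CongruenceSubgroup.Gamma0 N) ((n : ℤ) + 2))) :=
  Submodule.span ℤ {l | ∃ (A : posInt) (v : ℂ × ℂ), v ∈ Vint ∧ l = lam N n A v}

theorem lam_mem_periodLattice (A : posInt) {v : ℂ × ℂ} (hv : v ∈ Vint) :
    lam N n A v ∈ periodLattice N n :=
  Submodule.subset_span ⟨A, v, hv, rfl⟩

/-- Key identity: `c_{f|δ}(A) = c_f(δ A)` for upper triangular `δ`. -/
theorem cocyc_slash_upper (f : CuspForm (CongruenceSubgroup.Gamma0 N) ((n : ℤ) + 2))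
    {δ A : GL (Fin 2) ℝ} (hδ : δ ∈ posInt) (h10 : δ 1 0 = 0) (hA : A ∈ posInt) (v : ℂ × ℂ) :
    cocyc n (⇑f ∣[(n : ℤ) + 2] δ) A v = cocyc n (⇑f) (δ * A) v := by
  rw [cocyc_mul n δ A hδ.2 hA.2 (hasTower_cuspForm f) (hasTower_slash_posInt f hδ)
    (hasTower_slash_posInt f (mul_mem hδ hA)), cocyc_upper n (hasTower_cuspForm f) δ hδ.2 h10,
    zero_add]

theorem heckeMatrix_mem_posInt {p : ℕ} (hp : p ≠ 0) (j : ℕ) :
    ModularForm.heckeMatrix p j ∈ posInt := by
  refine ⟨fun i k => ?_, ModularForm.det_heckeMatrix_pos p j⟩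
  have h := ModularForm.val_heckeMatrix hp j
  fin_cases i <;> fin_cases k
  · exact ⟨1, by simp [h]⟩
  · exact ⟨j, by simp [h]⟩
  · exact ⟨0, by simp [h]⟩
  · exact ⟨p, by simp [h]⟩

theorem heckeDiagMatrix_mem_posInt {p : ℕ} (hp : p ≠ 0) :
    ModularForm.heckeDiagMatrix p ∈ posInt := by
  refine ⟨fun i k => ?_, ModularForm.det_heckeDiagMatrix_pos p⟩
  have h := ModularForm.val_heckeDiagMatrix hp
  fin_cases i <;> fin_cases k
  · exact ⟨p, by simp [h]⟩
  · exact ⟨0, by simp [h]⟩
  · exact ⟨0, by simp [h]⟩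
  · exact ⟨1, by simp [h]⟩

theorem heckeMatrix_one_zero {p : ℕ} (hp : p ≠ 0) (j : ℕ) :
    (ModularForm.heckeMatrix p j) 1 0 = 0 := by
  simp [ModularForm.val_heckeMatrix hp j]

theorem heckeDiagMatrix_one_zero {p : ℕ} (hp : p ≠ 0) :
    (ModularForm.heckeDiagMatrix p) 1 0 = 0 := by
  simp [ModularForm.val_heckeDiagMatrix hp]

theorem cocyc_heckeU (f : CuspForm (CongruenceSubgroup.Gamma0 N) ((n : ℤ) + 2))
    {p : ℕ} (hp : p ≠ 0) (A : posInt) (v : ℂ × ℂ) :
    cocyc n (ModularForm.heckeU ((n : ℤ) + 2) p ⇑f) A v =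
      ∑ j ∈ Finset.range p,
        lam N n (⟨ModularForm.heckeMatrix p j, heckeMatrix_mem_posInt hp j⟩ * A) v f := by
  rw [ModularForm.heckeU_def, cocyc_sum n _ _ _
    (fun j _ => hasTower_slash_posInt f (heckeMatrix_mem_posInt hp j))
    (fun j _ => hasTower_slash_slash f (heckeMatrix_mem_posInt hp j) A.2)]
  refine Finset.sum_congr rfl fun j _ => ?_
  rw [lam_apply, cocyc_slash_upper f (heckeMatrix_mem_posInt hp j) (heckeMatrix_one_zero hp j)
    A.2]
  rfl

theorem cocyc_heckeT (f : CuspForm (CongruenceSubgroup.Gamma0 N) ((n : ℤ) + 2))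
    {p : ℕ} (hp : p ≠ 0) (A : posInt) (v : ℂ × ℂ) :
    cocyc n (ModularForm.heckeT ((n : ℤ) + 2) p ⇑f) A v =
      (∑ j ∈ Finset.range p,
        lam N n (⟨ModularForm.heckeMatrix p j, heckeMatrix_mem_posInt hp j⟩ * A) v f) +
      lam N n (⟨ModularForm.heckeDiagMatrix p, heckeDiagMatrix_mem_posInt hp⟩ * A) v f := by
  have hU : HasTower (ModularForm.heckeU ((n : ℤ) + 2) p ⇑f) := by
    rw [ModularForm.heckeU_def]
    exact (tower_sum _ _
      (fun j _ => hasTower_slash_posInt f (heckeMatrix_mem_posInt hp j))).1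
  have hUA : HasTower (ModularForm.heckeU ((n : ℤ) + 2) p ⇑f ∣[(n : ℤ) + 2]
      (A : GL (Fin 2) ℝ)) := by
    rw [ModularForm.heckeU_def, SlashAction.sum_slash]
    exact (tower_sum _ _
      (fun j _ => hasTower_slash_slash f (heckeMatrix_mem_posInt hp j) A.2)).1
  rw [ModularForm.heckeT_eq_heckeU_add, cocyc_add n _ hU
    (hasTower_slash_posInt f (heckeDiagMatrix_mem_posInt hp)) hUA
    (hasTower_slash_slash f (heckeDiagMatrix_mem_posInt hp) A.2), cocyc_heckeU f hp,
    lam_apply, cocyc_slash_upper f (heckeDiagMatrix_mem_posInt hp)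
      (heckeDiagMatrix_one_zero hp) A.2]
  rfl

/-- The period lattice is stable under the Hecke generators. -/
theorem periodLattice_stable (S : Set ℕ) (T : Module.End ℂ
    (CuspForm (CongruenceSubgroup.Gamma0 N) ((n : ℤ) + 2)))
    (hT : T ∈ heckeGenerators N ((n : ℤ) + 2) S) (l : Module.Dual ℂ
    (CuspForm (CongruenceSubgroup.Gamma0 N) ((n : ℤ) + 2))) (hl : l ∈ periodLattice N n) :
    l ∘ₗ T ∈ periodLattice N n := by
  induction hl using Submodule.span_induction with
  | zero => rw [LinearMap.zero_comp]; exact Submodule.zero_mem _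
  | add x y _ _ hx hy => rw [LinearMap.add_comp]; exact Submodule.add_mem _ hx hy
  | smul a x _ hx =>
    have : (a • x) ∘ₗ T = a • (x ∘ₗ T) := by
      ext f
      simp
    rw [this]
    exact Submodule.smul_mem _ a hx
  | mem x hx =>
    obtain ⟨A, v, hv, rfl⟩ := hx
    rcases hT with ⟨ℓ, hℓ, hℓN, -, rfl⟩ | ⟨q, hqN, hq, -, rfl⟩
    · have hℓ0 : ℓ ≠ 0 := hℓ.ne_zero
      have : lam N n A v ∘ₗ heckeTLin ((n : ℤ) + 2) hℓ hℓN =
          (∑ j ∈ Finset.range ℓ,
            lam N n (⟨ModularForm.heckeMatrix ℓ j, heckeMatrix_mem_posInt hℓ0 j⟩ * A) v) +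
          lam N n (⟨ModularForm.heckeDiagMatrix ℓ, heckeDiagMatrix_mem_posInt hℓ0⟩ * A) v := by
        ext f
        rw [LinearMap.comp_apply, lam_apply, CuspForm.coe_heckeTLin_apply, cocyc_heckeT f hℓ0]
        simp
      rw [this]
      exact Submodule.add_mem _ (Submodule.sum_mem _ fun j _ => lam_mem_periodLattice _ hv)
        (lam_mem_periodLattice _ hv)
    · have hq0 : q ≠ 0 := hq.ne_zero
      have : lam N n A v ∘ₗ heckeULin ((n : ℤ) + 2) hqN =
          (∑ j ∈ Finset.range q,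
            lam N n (⟨ModularForm.heckeMatrix q j, heckeMatrix_mem_posInt hq0 j⟩ * A) v) := by
        ext f
        rw [LinearMap.comp_apply, lam_apply, CuspForm.coe_heckeULin_apply, cocyc_heckeU f hq0]
        simp
      rw [this]
      exact Submodule.sum_mem _ fun j _ => lam_mem_periodLattice _ hv

end Fermat.Agent.S22.H262

end
-- ===== PACK-END S22/H262/Lattice.lean

-- ===== PACK-BEGIN S24/FFDict.lean
section




/-!
# S24 / FF layer: dictionary between places and primes of the integral closure of `K[t]`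
(helper804)
-/

set_option autoImplicit false
set_option linter.unusedSectionVars false

namespace Fermat.Agent.S24.FF

open AlgebraicCurve Polynomial IntermediateField IsDedekindDomain

open scoped IntermediateField.algebraAdjoinAdjoin

variable {K F : Type*} [Field K] [Field F] [Algebra K F] {t : F}

/-- `K[t] ⊆ O_v` when `t` is integral at `v`. -/
theorem mem_of_mem_coordRing (v : Place K F) (ht : 0 ≤ v.ord t) {r : F}
    (hr : r ∈ coordRing K t) : r ∈ v.toValuationSubring := by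
  induction hr using Algebra.adjoin_induction with
  | mem x hx =>
    rw [Set.mem_singleton_iff] at hx
    subst hx
    exact mem_of_ord_nonneg v ht
  | algebraMap a => exact v.algebraMap_mem' a
  | add x y _ _ hx hy => exact add_mem hx hy
  | mul x y _ _ hx hy => exact mul_mem hx hy

/-- The integral closure of `K[t]` is contained in `O_v` when `t` is integral at `v`. -/
theorem mem_of_mem_intRing (v : Place K F) (ht : 0 ≤ v.ord t) {s : F}
    (hs : s ∈ intRing K t) : s ∈ v.toValuationSubring := by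
  let φ : coordRing K t →+* v.toValuationSubring :=
    { toFun := fun y => ⟨y, mem_of_mem_coordRing v ht y.2⟩
      map_one' := rfl
      map_mul' := fun _ _ => rfl
      map_zero' := rfl
      map_add' := fun _ _ => rfl }
  obtain ⟨p, hpm, hp⟩ := hs
  have hint' : IsIntegral v.toValuationSubring s := by
    refine ⟨p.map φ, hpm.map φ, ?_⟩
    rw [← hp, Polynomial.eval₂_map]
    rfl
  obtain ⟨y, hy⟩ := IsIntegrallyClosed.isIntegral_iff.mp hint'
  rw [← hy]
  exact y.2

/-- The inclusion of the integral closure of `K[t]` into `O_v`. -/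
def toPlaceRing (v : Place K F) (ht : 0 ≤ v.ord t) : intRing K t →+* v.toValuationSubring where
  toFun s := ⟨s, mem_of_mem_intRing v ht s.2⟩
  map_one' := rfl
  map_mul' _ _ := rfl
  map_zero' := rfl
  map_add' _ _ := rfl

@[simp] theorem coe_toPlaceRing (v : Place K F) (ht : 0 ≤ v.ord t) (s : intRing K t) :
    ((toPlaceRing v ht s : v.toValuationSubring) : F) = (s : F) := rfl

/-- The center of the place `v` on the integral closure of `K[t]`. -/
def center (v : Place K F) (ht : 0 ≤ v.ord t) : Ideal (intRing K t) :=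
  Ideal.comap (toPlaceRing v ht) (IsLocalRing.maximalIdeal v.toValuationSubring)

instance center_isPrime (v : Place K F) (ht : 0 ≤ v.ord t) : (center v ht).IsPrime := by
  unfold center
  infer_instance

theorem mem_center_iff (v : Place K F) (ht : 0 ≤ v.ord t) (s : intRing K t) :
    s ∈ center v ht ↔ (s : F) ∈ v.toValuationSubring.nonunits := by
  rw [center, Ideal.mem_comap]
  exact ValuationSubring.coe_mem_nonunits_iff.symm

theorem mem_nonunits_valuationSubring_iff {Γ₀ : Type*} [LinearOrderedCommGroupWithZero Γ₀]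
    (w : Valuation F Γ₀) (x : F) : x ∈ w.valuationSubring.nonunits ↔ w x < 1 := by
  rw [ValuationSubring.mem_nonunits_iff]
  exact (Valuation.isEquiv_valuation_valuationSubring w).lt_one_iff_lt_one.symm

variable (K t) in
/-- `t` as an element of `K[t]`. -/
def tR : coordRing K t := ⟨t, Algebra.self_mem_adjoin_singleton K t⟩

variable (K t) in
/-- `t` as an element of the integral closure of `K[t]`. -/
def tS : intRing K t := algebraMap (coordRing K t) (intRing K t) (tR K t)

@[simp] theorem coe_tR : ((tR K t : coordRing K t) : F) = t := rfl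

@[simp] theorem coe_tS : ((tS K t : intRing K t) : F) = t := rfl

section withCoord

variable [CharZero K] [IsCoord K t]

theorem center_ne_bot (v : Place K F) (ht : 0 < v.ord t) : center v ht.le ≠ ⊥ := by
  intro h
  have ht0 : t ≠ 0 := by
    rintro rfl
    simp at ht
  have htS : tS K t ∈ center v ht.le :=
    (mem_center_iff v ht.le _).mpr ((ord_pos_iff_mem_nonunits v ht0).mp ht)
  rw [h, Ideal.mem_bot] at htS
  apply ht0
  have := congrArg (fun s : intRing K t => (s : F)) htS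
  simpa using this

/-- The center of `v` as a height-one prime. -/
def centerPrime (v : Place K F) (ht : 0 < v.ord t) : HeightOneSpectrum (intRing K t) :=
  ⟨center v ht.le, inferInstance, center_ne_bot v ht⟩

@[simp] theorem centerPrime_asIdeal (v : Place K F) (ht : 0 < v.ord t) :
    (centerPrime v ht).asIdeal = center v ht.le := rfl

/-- **Dictionary, surjectivity**: a place at which `t` vanishes is the place of its center. -/
theorem placeOfPrime_centerPrime (v : Place K F) (ht : 0 < v.ord t) :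
    placeOfPrime K t (centerPrime v ht) = v := by
  apply Place.ext
  rw [placeOfPrime_toValuationSubring,
    ← HeightOneSpectrum.valuationSubringAtPrime_eq_valuationSubring]
  refine ValuationSubring.eq_of_le_of_ne_top _ ?_ v.ne_top'
  rintro x ⟨a, s, hs, rfl⟩
  have ha : (a : F) ∈ v.toValuationSubring := mem_of_mem_intRing v ht.le a.2
  have hs' : (s : F) ∉ v.toValuationSubring.nonunits := fun h =>
    hs ((mem_center_iff v ht.le s).mpr h)
  have hsinv : (s : F)⁻¹ ∈ v.toValuationSubring := by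
    by_contra hcon
    exact hs' ((ValuationSubring.mem_nonunits_iff_or _).mpr (Or.inr hcon))
  exact mul_mem ha hsinv

theorem ord_t_placeOfPrime_nonneg (q : HeightOneSpectrum (intRing K t)) :
    0 ≤ (placeOfPrime K t q).ord t := by
  apply ord_nonneg_of_mem
  rw [placeOfPrime_toValuationSubring, Valuation.mem_valuationSubring_iff]
  exact q.valuation_le_one (tS K t)

/-- **Dictionary, injectivity**: the center of the place of `q` is `q`. -/
theorem center_placeOfPrime (q : HeightOneSpectrum (intRing K t)) :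
    center (placeOfPrime K t q) (ord_t_placeOfPrime_nonneg q) = q.asIdeal := by
  ext s
  rw [mem_center_iff, placeOfPrime_toValuationSubring, mem_nonunits_valuationSubring_iff]
  exact q.valuation_lt_one_iff_mem s

theorem placeOfPrime_injective :
    Function.Injective (placeOfPrime K t : HeightOneSpectrum (intRing K t) → Place K F) := by
  intro q q' h
  have h1 := center_placeOfPrime q
  have h2 := center_placeOfPrime q'
  apply HeightOneSpectrum.ext
  rw [← h1, ← h2]
  congr 1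

/-- `t` vanishes at the place of `q` iff `t ∈ q`. -/
theorem ord_t_placeOfPrime_pos_iff (ht0 : t ≠ 0) (q : HeightOneSpectrum (intRing K t)) :
    0 < (placeOfPrime K t q).ord t ↔ tS K t ∈ q.asIdeal := by
  rw [ord_pos_iff_mem_nonunits _ ht0, placeOfPrime_toValuationSubring,
    mem_nonunits_valuationSubring_iff]
  exact q.valuation_lt_one_iff_mem (tS K t)

end withCoord

end Fermat.Agent.S24.FF

end
-- ===== PACK-END S24/FFDict.lean

-- ===== PACK-BEGIN S37/H99/Glue.lean
section


/-!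
# S37 (helper99): the frozen statement S37 from reduction data (R1, final glue)

`RedData N A ℓ hℓ` is the ONLY thing left to construct: an additive map `red` from
`JZero N = Pic⁰(ℚ̄(X₀(N)))` to an arbitrary additive group such that
* inertia at `A` acts trivially after `red`,
* Frobenius elements at `A` preserve `ker red`,
* `red` is injective on torsion of order prime to `ℓ`,
* (Eichler–Shimura) `red (σ²x - T_ℓ σ x + ℓ x) = 0` for Frobenius elements `σ` at `A`.
No Hecke-module structure on the target is needed.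
-/

set_option autoImplicit false

noncomputable section

namespace Fermat.Agent.S37.H99

open ModularCurve ValuationSubring

/-- Reduction data for `J₀(N)` at a valuation subring `A` of `ℚ̄` over the prime `ℓ`. -/
structure RedData (N : ℕ) [NeZero N] (A : ValuationSubring (AlgebraicClosure ℚ)) (ℓ : ℕ)
    (hℓ : ℓ.Prime) where
  /-- the target group (e.g. divisor classes on the special fibre) -/
  Y : Type
  /-- additive group structure on the target -/
  instY : AddCommGroup Y
  /-- the reduction map -/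
  red : JZero N →+ Y
  inertia : ∀ τ ∈ A.inertiaSubgroupIn ℚ, ∀ x : JZero N, red (τ • x) = red x
  frob_ker : ∀ σ : AlgebraicClosure ℚ ≃ₐ[ℚ] AlgebraicClosure ℚ, A.IsFrobeniusAt σ ℓ →
    ∀ x : JZero N, red x = 0 → red (σ • x) = 0
  inj_torsion : ∀ (m : ℕ) (x : JZero N), m.Coprime ℓ → m • x = 0 → red x = 0 → x = 0
  relation : ∀ σ : AlgebraicClosure ℚ ≃ₐ[ℚ] AlgebraicClosure ℚ, A.IsFrobeniusAt σ ℓ →
    ∀ x : JZero N, red (σ • σ • x - heckeOperatorBar N ⟨ℓ, hℓ⟩ (σ • x) + ℓ • x) = 0

attribute [instance] RedData.instY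

/-- **S37 from reduction data.**  Same binders and conclusion as the frozen statement, plus the
hypothesis `H`. -/
theorem result_of_redData (N p : ℕ) [NeZero N]
    (H : ∀ ℓ : ℕ, (hℓ : ℓ.Prime) → ¬ ℓ ∣ N →
      ∀ A : ValuationSubring (AlgebraicClosure ℚ), A.LiesOverPrime ℓ →
        Nonempty (RedData N A ℓ hℓ))
    (hcomm : ModularCurve.HeckeOperatorsCommuteBar N) :
    letI := ModularCurve.heckeModuleBar N
    ∀ (_ : SMulCommClass (AlgebraicClosure ℚ ≃ₐ[ℚ] AlgebraicClosure ℚ) ModularCurve.HeckeAlg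
      (ModularCurve.JZero N)),
      ModularCurve.SpecializationExists (K := ℚ) (L := AlgebraicClosure ℚ) N p
        (ModularCurve.JZero N) := by
  letI := ModularCurve.heckeModuleBar N
  intro _
  refine specializationExists_of_isRed N p (JZero N) ?_
  intro ℓ hℓ hdvd A hA
  have hℓN : ¬ ℓ ∣ N := fun h => hdvd (Dvd.dvd.mul_right h p)
  have hℓp : ¬ ℓ ∣ p := fun h => hdvd (Dvd.dvd.mul_left h N)
  obtain ⟨D⟩ := H ℓ hℓ hℓN A hA
  refine ⟨D.Y, D.instY, D.red, ⟨D.inertia, D.frob_ker, ?_, ?_⟩⟩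
  · rintro x ⟨n, hn⟩ hx
    refine D.inj_torsion (p ^ n) x ?_ hn hx
    exact Nat.Coprime.pow_left n ((Nat.coprime_comm.mp ((Nat.Prime.coprime_iff_not_dvd hℓ).mpr hℓp)))
  · intro σ hσ x
    have h := D.relation σ hσ x
    rwa [← heckeModuleBar_heckeGen_smul hcomm ⟨ℓ, hℓ⟩ (σ • x)] at h

end Fermat.Agent.S37.H99

end
end
-- ===== PACK-END S37/H99/Glue.lean

-- ===== PACK-BEGIN S29/H395/AnalyticKron.lean
section
/-
S29 / layer M / bridge BR, piece NORM (analytic half, `q`-expansions) — helper395.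

**Analytic Kronecker norm.**  If `a : ℍ → ℂ` has the (everywhere convergent) `q`-expansion `A` at
`i∞` (`InfExp 1 a A`, S24), then

  `heckeProd ℓ a τ = a (ℓ τ) * ∏_{j < ℓ} a ((τ + j) / ℓ)`

has the `q`-expansion `kronNorm ℓ A = V_ℓ A * det (secMat ℓ A)` (helper400's formal Kronecker norm,
which row S37 identifies with the `q`-expansion of `Nm_α (β y)`).
-/






set_option autoImplicit false

noncomputable section

open CongruenceSubgroup Matrix.SpecialLinearGroup UpperHalfPlane ModularCurve HahnSeries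
open scoped MatrixGroups Real Polynomial OnePoint
open P2MW.S_ModularForm_heckeT_slash_eq_self_of_mem_Gamma0.ModularForm.HeckeSlashInvariance

namespace Fermat.Agent.S29.H395

open Fermat.Agent.S24 Fermat.Agent.S37.H340 Fermat.Agent.S37.H400

/-! ### `InfExp` bookkeeping -/

theorem infExp_finset_prod {N : ℕ} {ι : Type*} (s : Finset ι) (f : ι → ℍ → ℂ)
    (φ : ι → LaurentSeries ℂ) (h : ∀ i ∈ s, InfExp N (f i) (φ i)) :
    InfExp N (fun τ => ∏ i ∈ s, f i τ) (∏ i ∈ s, φ i) := by
  classical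
  induction s using Finset.induction_on with
  | empty => simpa using (InfExp.one (N := N))
  | insert i s hi ih =>
    have h1 := h i (Finset.mem_insert_self i s)
    have h2 := ih fun j hj => h j (Finset.mem_insert_of_mem hj)
    have := h1.mul h2
    simpa [Finset.prod_insert hi] using this

theorem infZ_pow_eq (ℓ : ℕ) [NeZero ℓ] (τ : ℍ) : infZ ℓ τ ^ ℓ = infZ 1 τ := by
  rw [infZ_def, infZ_def, ← Complex.exp_nat_mul]
  congr 1
  have hℓ : (ℓ : ℂ) ≠ 0 := by exact_mod_cast NeZero.ne ℓ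
  field_simp
  simp

/-- Descent of the variable: an expansion in `z_ℓ = q^{1/ℓ}` which only involves powers of
`z_ℓ^ℓ = q` is an expansion in `q`. -/
theorem infExp_of_qExpand {ℓ : ℕ} [NeZero ℓ] {f : ℍ → ℂ} {φ : LaurentSeries ℂ}
    (h : InfExp ℓ f (qExpand ℂ ℓ φ)) : InfExp 1 f φ := by
  intro τ
  have h1 := h τ
  have he0 : (ℓ : ℤ) ≠ 0 := by exact_mod_cast NeZero.ne ℓ
  have hinj : Function.Injective (fun n : ℤ => (ℓ : ℤ) * n) := mul_right_injective₀ he0
  have hrange : ∀ m : ℤ, m ∉ Set.range (fun n : ℤ => (ℓ : ℤ) * n) →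
      (qExpand ℂ ℓ φ).coeff m * infZ ℓ τ ^ m = 0 := by
    intro m hm
    rw [qExpand_coeff_of_not_dvd ℓ _ (fun ⟨j, hj⟩ => hm ⟨j, hj.symm⟩), zero_mul]
  rw [← hinj.hasSum_iff hrange] at h1
  convert h1 using 1
  funext n
  simp only [Function.comp_apply, qExpand_coeff_mul]
  rw [← infZ_pow_eq ℓ τ, ← zpow_natCast (infZ ℓ τ) ℓ, ← zpow_mul]

/-! ### The Hecke representatives as affine maps -/

section Rep

variable {ℓ : ℕ} [Fact ℓ.Prime]

theorem heckeRep_infty_smul (τ : ℍ) : _root_.P2MW.S_ModularForm_heckeT_slash_eq_self_of_mem_Gamma0.ModularForm.HeckeSlashInvariance.heckeRep ℓ ∞ • τ = infAff ℓ 0 1 τ := by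
  have hℓ : ℓ ≠ 0 := (Fact.out : ℓ.Prime).ne_zero
  apply UpperHalfPlane.ext
  rw [heckeRep_infty, ModularForm.coe_heckeDiagMatrix_smul hℓ,
    infAff_coe (Nat.pos_of_ne_zero hℓ) one_pos]
  simp

theorem heckeRep_coe_smul (j : ZMod ℓ) (τ : ℍ) :
    _root_.P2MW.S_ModularForm_heckeT_slash_eq_self_of_mem_Gamma0.ModularForm.HeckeSlashInvariance.heckeRep ℓ (j : OnePoint (ZMod ℓ)) • τ = infAff 1 (j.val : ℤ) ℓ τ := by
  have hℓ : ℓ ≠ 0 := (Fact.out : ℓ.Prime).ne_zero
  apply UpperHalfPlane.ext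
  rw [heckeRep_coe, ModularForm.coe_heckeMatrix_smul hℓ,
    infAff_coe one_pos (Nat.pos_of_ne_zero hℓ)]
  simp

theorem heckeProd_eq (a : ℍ → ℂ) (τ : ℍ) :
    heckeProd ℓ a τ = a (infAff ℓ 0 1 τ) * ∏ j : ZMod ℓ, a (infAff 1 (j.val : ℤ) ℓ τ) := by
  rw [heckeProd_apply]
  have h := Fintype.prod_option (fun x : OnePoint (ZMod ℓ) => a (_root_.P2MW.S_ModularForm_heckeT_slash_eq_self_of_mem_Gamma0.ModularForm.HeckeSlashInvariance.heckeRep ℓ x • τ))
  rw [show (∏ x : OnePoint (ZMod ℓ), a (_root_.P2MW.S_ModularForm_heckeT_slash_eq_self_of_mem_Gamma0.ModularForm.HeckeSlashInvariance.heckeRep ℓ x • τ))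
      = ∏ x : Option (ZMod ℓ), a (_root_.P2MW.S_ModularForm_heckeT_slash_eq_self_of_mem_Gamma0.ModularForm.HeckeSlashInvariance.heckeRep ℓ x • τ) from rfl, h]
  congr 1
  · exact congrArg a (heckeRep_infty_smul τ)
  · exact Finset.prod_congr rfl fun j _ => congrArg a (heckeRep_coe_smul j τ)

end Rep

/-! ### Expansions of the translates -/

section Translates

variable {ℓ : ℕ} [NeZero ℓ] {a : ℍ → ℂ} {A : LaurentSeries ℂ}

theorem infExp_comp_mul (ha : InfExp 1 a A) :
    InfExp 1 (fun τ => a (infAff ℓ 0 1 τ)) (qExpand ℂ ℓ A) := by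
  have hℓ : 0 < ℓ := Nat.pos_of_ne_zero (NeZero.ne ℓ)
  have h := ha.comp_infAff (N := 1) (e := ℓ) 0 hℓ one_pos one_pos one_pos (by ring)
  rwa [infRoot_zero, infTwist_one] at h

theorem infExp_comp_div (ha : InfExp 1 a A) (j : ℤ) :
    InfExp ℓ (fun τ => a (infAff 1 j ℓ τ)) (infTwist (infRoot j ℓ) A) := by
  have hℓ : 0 < ℓ := Nat.pos_of_ne_zero (NeZero.ne ℓ)
  have h := ha.comp_infAff (N := ℓ) (e := 1) j one_pos hℓ one_pos hℓ (by ring)
  rwa [qExpand_one_apply, mul_one] at h

end Translates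

/-! ### The formal product formula -/

section Formal

variable (ℓ : ℕ) [NeZero ℓ]

/-- `ζ_ℓ = exp (2πi/ℓ)`. -/
def zetaL : ℂ := Complex.exp (2 * π * Complex.I / ℓ)

theorem isPrimitiveRoot_zetaL : IsPrimitiveRoot (zetaL ℓ) ℓ :=
  Complex.isPrimitiveRoot_exp ℓ (NeZero.ne ℓ)

omit [NeZero ℓ] in
theorem infRoot_eq_zetaL_pow (b : ℕ) : ((infRoot (b : ℤ) ℓ : ℂˣ) : ℂ) = zetaL ℓ ^ b := by
  rw [infRoot_coe, zetaL, ← Complex.exp_nat_mul]
  congr 1
  push_cast
  ring

theorem zpw_eq_zpow {w : ℂ} (hw : w ^ ℓ = 1) (hw0 : w ≠ 0) (n : ℤ) : zpw ℓ w n = w ^ n := by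
  unfold zpw
  have hℓ : (0 : ℤ) < ℓ := by exact_mod_cast Nat.pos_of_ne_zero (NeZero.ne ℓ)
  have h1 : n = (ℓ : ℤ) * (n / ℓ) + n % ℓ := (Int.mul_ediv_add_emod n ℓ).symm
  have h2 : 0 ≤ n % (ℓ : ℤ) := Int.emod_nonneg n hℓ.ne'
  conv_rhs => rw [h1]
  rw [zpow_add₀ hw0, zpow_mul, zpow_natCast, hw, one_zpow, one_mul]
  conv_rhs => rw [← Int.toNat_of_nonneg h2]
  rw [zpow_natCast]

theorem tw_eq_infTwist (b : ℕ) (A : LaurentSeries ℂ) :
    tw ℓ (zetaL ℓ ^ b) A = infTwist (infRoot (b : ℤ) ℓ) A := by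
  ext n
  rw [tw_coeff, infTwist_coeff, Units.val_zpow_eq_zpow_val, infRoot_eq_zetaL_pow, mul_comm]
  congr 1
  have hζ := (isPrimitiveRoot_zetaL ℓ)
  refine zpw_eq_zpow ℓ ?_ (pow_ne_zero _ (hζ.ne_zero (NeZero.ne ℓ))) n
  rw [← pow_mul, mul_comm, pow_mul, hζ.pow_eq_one, one_pow]

theorem kronMat_eq_secMat (A : LaurentSeries ℂ) : kronMat ℓ A = secMat ℓ A := by
  ext i j n
  rw [kronMat_apply, secMat_apply', sect_coeff, secL_coeff]

/-- **Product formula** `∏_{b < ℓ} A(ζ^b z) = (det secMat A)(z^ℓ)`. -/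
theorem prod_infTwist_eq (A : LaurentSeries ℂ) :
    ∏ b : Fin ℓ, infTwist (infRoot ((b : ℕ) : ℤ) ℓ) A = qExpand ℂ ℓ (secMat ℓ A).det := by
  classical
  have h := kron_map_qExpand_eq_prod (isPrimitiveRoot_zetaL ℓ) A
  have h0 : (Polynomial.map (qExpand ℂ ℓ) (kron ℓ A)).coeff 0
      = (∏ b : Fin ℓ, (Polynomial.X - Polynomial.C (tw ℓ (zetaL ℓ ^ (b : ℕ)) A))).coeff 0 := by
    rw [h]
  rw [Polynomial.coeff_map, kron, Polynomial.coeff_zero_eq_eval_zero (∏ b : Fin ℓ, _),
    Polynomial.eval_prod] at h0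
  simp only [Polynomial.eval_sub, Polynomial.eval_X, Polynomial.eval_C, zero_sub] at h0
  rw [Finset.prod_neg, Finset.card_univ, Fintype.card_fin] at h0
  have hdet := Matrix.det_eq_sign_charpoly_coeff (kronMat ℓ A)
  rw [Fintype.card_fin] at hdet
  rw [← kronMat_eq_secMat, hdet, map_mul, map_pow, map_neg, map_one, h0, ← mul_assoc,
    ← mul_pow]
  simp only [neg_mul_neg, one_mul, one_pow]
  exact Finset.prod_congr rfl fun b _ => (tw_eq_infTwist ℓ b A).symm

end Formal

/-! ### The main statement -/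

/-- **Analytic Kronecker norm**: `heckeProd ℓ a` has the `q`-expansion `kronNorm ℓ A`. -/
theorem infExp_heckeProd {ℓ : ℕ} [Fact ℓ.Prime] {a : ℍ → ℂ} {A : LaurentSeries ℂ}
    (ha : InfExp 1 a A) : InfExp 1 (heckeProd ℓ a) (kronNorm ℓ A) := by
  have h1 : InfExp 1 (fun τ => a (infAff ℓ 0 1 τ)) (qExpand ℂ ℓ A) := infExp_comp_mul ha
  have h2 : InfExp ℓ (fun τ => ∏ b : Fin ℓ, a (infAff 1 ((b : ℕ) : ℤ) ℓ τ))
      (∏ b : Fin ℓ, infTwist (infRoot ((b : ℕ) : ℤ) ℓ) A) :=
    infExp_finset_prod Finset.univ _ _ fun b _ => infExp_comp_div ha _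
  rw [prod_infTwist_eq] at h2
  have h3 := infExp_of_qExpand h2
  have h4 := h1.mul h3
  rw [kronNorm]
  refine h4.congr fun τ => ?_
  rw [heckeProd_eq]
  congr 1
  -- reindex `Fin ℓ ≃ ZMod ℓ`
  refine Finset.prod_nbij' (fun b : Fin ℓ => ((b : ℕ) : ZMod ℓ))
    (fun j : ZMod ℓ => ⟨j.val, ZMod.val_lt j⟩) (fun _ _ => Finset.mem_univ _)
    (fun _ _ => Finset.mem_univ _) (fun b _ => ?_) (fun j _ => ?_) (fun b _ => ?_)
  · exact Fin.ext (ZMod.val_natCast_of_lt b.2)
  · exact ZMod.natCast_zmod_val j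
  · rw [ZMod.val_natCast_of_lt b.2]

end Fermat.Agent.S29.H395

end

end
-- ===== PACK-END S29/H395/AnalyticKron.lean

-- ===== PACK-BEGIN S29/H222/ESKInt.lean
section
/-
S29 / helper222 — piece ESK, part 1: integral series (`S18.IsInt`) and the action of the
decomposition group of `A` on them.
-/


set_option autoImplicit false
set_option linter.style.haveILetI false

noncomputable section

namespace Fermat.Agent.S29.H222

open ModularCurve AlgebraicCurve HahnSeries IsLocalRing
open Fermat.Agent.S18 (Qb IsInt toF CoreStatement)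

variable {A : ValuationSubring Qb} {N : ℕ}

/-! ### Basic algebra of integral series -/

theorem esk_coeffMap_subtype_injective :
    Function.Injective (coeffMap A.subtype : LaurentSeries A → LaurentSeries Qb) := by
  intro x y hxy
  ext k
  have := congrArg (fun z => z.coeff k) hxy
  simpa using this

theorem isInt_one : IsInt A N (1 : LaurentSeries A) :=
  ⟨by rw [map_one]; exact one_mem _, by rw [map_one]; exact one_mem _,
    by rw [map_one]; exact one_ne_zero⟩

theorem isInt_mul {U V : LaurentSeries A} (hU : IsInt A N U) (hV : IsInt A N V) :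
    IsInt A N (U * V) :=
  ⟨by rw [map_mul]; exact mul_mem hU.1 hV.1, by rw [map_mul]; exact mul_mem hU.2.1 hV.2.1,
    by rw [map_mul]; exact mul_ne_zero hU.2.2 hV.2.2⟩

theorem isInt_pow {U : LaurentSeries A} (hU : IsInt A N U) (n : ℕ) : IsInt A N (U ^ n) :=
  ⟨by rw [map_pow]; exact pow_mem hU.1 n, by rw [map_pow]; exact pow_mem hU.2.1 n,
    by rw [map_pow]; exact pow_ne_zero n hU.2.2⟩

theorem toF_ne_zero {U : LaurentSeries A} (hU : IsInt A N U) : toF hU ≠ 0 := by
  intro h0
  have h1 : coeffMap A.subtype U = 0 := congrArg Subtype.val h0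
  have h2 : U = 0 := esk_coeffMap_subtype_injective (by rw [h1, map_zero])
  exact hU.2.2 (by rw [h2, map_zero])

@[simp] theorem coe_toF {U : LaurentSeries A} (hU : IsInt A N U) :
    ((toF hU : modularFunctionFieldBar N) : LaurentSeries Qb) = coeffMap A.subtype U := rfl

theorem toF_mul {U V : LaurentSeries A} (hU : IsInt A N U) (hV : IsInt A N V) :
    toF (isInt_mul hU hV) = toF hU * toF hV :=
  Subtype.ext (map_mul _ _ _)

theorem toF_pow {U : LaurentSeries A} (hU : IsInt A N U) (n : ℕ) :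
    toF (isInt_pow hU n) = toF hU ^ n :=
  Subtype.ext (map_pow _ _ _)

theorem toF_congr {U V : LaurentSeries A} (hU : IsInt A N U) (hV : IsInt A N V) (h : U = V) :
    toF hU = toF hV := by
  subst h; rfl

/-! ### Coefficientwise ring homomorphisms preserve the function field in characteristic `ℓ` -/

theorem coeffMap_mem_fullC {k : Type*} [Field k] (φ : k →+* k) {x : LaurentSeries k}
    (hx : x ∈ modularFunctionFieldFullC k N) :
    coeffMap φ x ∈ modularFunctionFieldFullC k N := by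
  unfold modularFunctionFieldFullC at hx
  induction hx using IntermediateField.adjoin_induction with
  | mem y hy =>
      obtain ⟨d, hne, hd, rfl⟩ := hy
      haveI := hne
      rw [coeffMap_qExpand, coeffMap_jqModC]
      exact jqModCd_mem_full k N hd
  | algebraMap c =>
      rw [coeffMap_algebraMap]
      exact (modularFunctionFieldFullC k N).algebraMap_mem _
  | add y z _ _ hy hz => rw [map_add]; exact add_mem hy hz
  | inv y _ hy => rw [map_inv₀]; exact inv_mem hy
  | mul y z _ _ hy hz => rw [map_mul]; exact mul_mem hy hz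

theorem coeffMap_ne_zero_of_injective {R S : Type*} [CommRing R] [CommRing S] (φ : R →+* S)
    (hφ : Function.Injective φ) {x : LaurentSeries R} (hx : x ≠ 0) : coeffMap φ x ≠ 0 := by
  intro h
  apply hx
  ext n
  have hn := congrArg (fun y : LaurentSeries S => y.coeff n) h
  simp only [coeffMap_coeff, HahnSeries.coeff_zero] at hn ⊢
  exact hφ (by rw [hn, map_zero])

/-! ### The decomposition group acts on integral series -/

/-- The ring endomorphism of `A` induced by an element of the decomposition group. -/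
def decA (g : A.decompositionSubgroup ℚ) : A →+* A :=
  MulSemiringAction.toRingHom (A.decompositionSubgroup ℚ) A g

@[simp] theorem coe_decA (g : A.decompositionSubgroup ℚ) (a : A) :
    ((decA g a : A) : Qb) = (g : Qb ≃ₐ[ℚ] Qb) (a : Qb) := rfl

/-- The ring endomorphism of the residue field induced by an element of the decomposition
group. -/
def decK (g : A.decompositionSubgroup ℚ) : ResidueField A →+* ResidueField A :=
  MulSemiringAction.toRingHom (A.decompositionSubgroup ℚ) (ResidueField A) g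

theorem decK_residue (g : A.decompositionSubgroup ℚ) (a : A) :
    decK g (residue A a) = residue A (decA g a) := rfl

theorem decK_injective (g : A.decompositionSubgroup ℚ) : Function.Injective (decK g) :=
  (decK g).injective

/-- The coefficientwise action of the decomposition group on `A((q))`. -/
def galA (g : A.decompositionSubgroup ℚ) : LaurentSeries A →+* LaurentSeries A :=
  coeffMap (decA g)

theorem coeffMap_subtype_galA (g : A.decompositionSubgroup ℚ) (U : LaurentSeries A) :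
    coeffMap A.subtype (galA g U)
      = coeffMap (((g : Qb ≃ₐ[ℚ] Qb)) : Qb →+* Qb) (coeffMap A.subtype U) := by
  rw [galA, coeffMap_coeffMap, coeffMap_coeffMap]
  exact coeffMap_congr (RingHom.ext fun a => rfl) U

theorem coeffMap_residue_galA (g : A.decompositionSubgroup ℚ) (U : LaurentSeries A) :
    coeffMap (residue A) (galA g U) = coeffMap (decK g) (coeffMap (residue A) U) := by
  rw [galA, coeffMap_coeffMap, coeffMap_coeffMap]
  exact coeffMap_congr (RingHom.ext fun a => rfl) U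

theorem isInt_galA (g : A.decompositionSubgroup ℚ) {U : LaurentSeries A} (hU : IsInt A N U) :
    IsInt A N (galA g U) := by
  refine ⟨?_, ?_, ?_⟩
  · rw [coeffMap_subtype_galA]
    exact coeffMap_mem_laurentBaseChange (g : Qb ≃ₐ[ℚ] Qb) hU.1
  · rw [coeffMap_residue_galA]
    exact coeffMap_mem_fullC _ hU.2.1
  · rw [coeffMap_residue_galA]
    exact coeffMap_ne_zero_of_injective _ (decK_injective g) hU.2.2

theorem toF_galA (g : A.decompositionSubgroup ℚ) {U : LaurentSeries A} (hU : IsInt A N U) :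
    toF (isInt_galA g hU)
      = arithmeticGalois (modularFunctionFieldFull N) (g : Qb ≃ₐ[ℚ] Qb) • toF hU := by
  apply Subtype.ext
  rw [coe_arithmeticGalois_smul]
  exact coeffMap_subtype_galA g U

end Fermat.Agent.S29.H222

end
end
-- ===== PACK-END S29/H222/ESKInt.lean

-- ===== PACK-BEGIN S28/H626/Tower.lean
section
/-
S28 helper (helper626): generation of `k(j(q^d) : d ∣ Mp)` over `k(j(q^d) : d ∣ M)` by a single
element, and the degree bounds `≤ p + 1` (`p ∤ M`), `≤ p` (`p ∣ M`).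
-/




set_option autoImplicit false

noncomputable section

open ModularCurve HahnSeries Polynomial IntermediateField

namespace Fermat.Agent.S28.H626

section Hyp

variable (k : Type*) [Field k]

/-- Hypothesis package for level `N`: every prime `p ∣ N` is invertible in `k` and has a
modular polynomial. -/
def HasModPolys (N : ℕ) : Prop :=
  ∀ p (hp : p.Prime), p ∣ N →
    (p : k) ≠ 0 ∧ ∃ Φ : Polynomial (Polynomial ℤ), @IsModPoly p ⟨hp.ne_zero⟩ Φ

variable {k}

theorem HasModPolys.mono {N M : ℕ} (H : HasModPolys k N) (h : M ∣ N) : HasModPolys k M :=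
  fun p hp hpM => H p hp (hpM.trans h)

end Hyp

section Generation

variable {k : Type*} [Field k]

/-- **Generation.** If an intermediate field `E` contains `j(q^d)` for all `d ∣ M` and
`j(q^{p^{b+1}})` for the exact power `p^b ∥ M`, then it contains `j(q^d)` for all `d ∣ M p`. -/
theorem jd_mem_of_gen {M p : ℕ} (hp : p.Prime) (H : HasModPolys k (M * p))
    (E : IntermediateField k (LaurentSeries k))
    (h1 : ∀ (d : ℕ) [NeZero d], d ∣ M → jd k d ∈ E)
    (h2 : ∀ (b : ℕ) [NeZero (p ^ (b + 1))], p ^ b ∣ M → ¬ p ^ (b + 1) ∣ M →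
      jd k (p ^ (b + 1)) ∈ E) :
    ∀ (d : ℕ) [NeZero d], d ∣ M * p → jd k d ∈ E := by
  intro d
  induction d using Nat.strong_induction_on with
  | _ d ih =>
    intro inst hd
    by_cases hdM : d ∣ M
    · exact h1 d hdM
    have hpd : p ∣ d := by
      by_contra hpd
      have hcop : Nat.Coprime d p := ((Nat.Prime.coprime_iff_not_dvd hp).2 hpd).symm
      exact hdM (hcop.dvd_of_dvd_mul_right hd)
    obtain ⟨g, rfl⟩ := hpd
    have hg0 : g ≠ 0 := by
      rintro rfl
      exact (NeZero.ne (p * 0)) (mul_zero p)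
    have hgM : g ∣ M := by
      rw [mul_comm M p] at hd
      exact Nat.dvd_of_mul_dvd_mul_left hp.pos hd
    have : NeZero p := ⟨hp.ne_zero⟩
    by_cases hg : ∃ r, r.Prime ∧ r ∣ g ∧ r ≠ p
    · obtain ⟨r, hr, ⟨e, rfl⟩, hrp⟩ := hg
      have he0 : e ≠ 0 := by
        rintro rfl
        exact hg0 (mul_zero r)
      have : NeZero r := ⟨hr.ne_zero⟩
      have : NeZero e := ⟨he0⟩
      have hrM : r ∣ M * p := (Dvd.intro e rfl : r ∣ r * e).trans (hgM.trans (Dvd.intro p rfl))
      obtain ⟨hpk, Φp, hΦp⟩ := H p hp (Dvd.intro_left M rfl)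
      obtain ⟨hrk, Φr, hΦr⟩ := H r hr hrM
      have : NeZero (p : k) := ⟨hpk⟩
      have : NeZero (r : k) := ⟨hrk⟩
      have m1 : jd k (r * e) ∈ E := h1 (r * e) hgM
      have m2 : jd k (p * e) ∈ E := by
        refine ih (p * e) ?_ ?_
        · have : e < r * e := by
            have := hr.one_lt
            have he : 0 < e := Nat.pos_of_ne_zero he0
            nlinarith
          exact Nat.mul_lt_mul_of_pos_left this hp.pos
        · refine Dvd.dvd.trans ?_ hd
          exact mul_dvd_mul_left p (Dvd.intro_left r rfl)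
      have := jd_mem_of_pair hp hr hrp.symm hΦp hΦr e E m1 m2
      rwa [jd_congr k (show p * r * e = p * (r * e) by ring)] at this
    · have hg' : ∀ {r : ℕ}, r.Prime → r ∣ g → r = p := by
        intro r hr hrg
        by_contra hne
        exact hg ⟨r, hr, hrg, hne⟩
      have hgp := Nat.eq_prime_pow_of_unique_prime_dvd hg0 hg'
      set b := g.primeFactorsList.length with hb
      have hd' : p * g = p ^ (b + 1) := by rw [pow_succ, mul_comm, ← hgp]
      have : NeZero (p ^ (b + 1)) := ⟨pow_ne_zero _ hp.ne_zero⟩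
      rw [jd_congr k hd']
      refine h2 b ?_ ?_
      · rw [← hgp]; exact hgM
      · rw [← hd']; exact hdM

end Generation

/-! ### Degree of a simple extension, in `relrank` form -/

section Degree

variable {K L : Type*} [Field K] [Field L] [Algebra K L]

/-- If `A ≤ B ≤ A(x)`, `x ∈ B` and `x` is a root of a monic `P ∈ A[X]`, then `[B : A] ≤ deg P`. -/
theorem relrank_le_natDegree (A B : IntermediateField K L) (hAB : A ≤ B)
    (x : L) (P : Polynomial A) (hP : P.Monic) (hx : Polynomial.aeval x P = 0)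
    (hB : B ≤ (IntermediateField.adjoin A {x}).restrictScalars K) (hxB : x ∈ B) :
    IntermediateField.relrank A B ≤ (P.natDegree : Cardinal) := by
  have hint : IsIntegral A x := ⟨P, hP, hx⟩
  have hBeq : B = (IntermediateField.adjoin A {x}).restrictScalars K := by
    refine le_antisymm hB ?_
    rw [IntermediateField.restrictScalars_adjoin_eq_sup]
    refine sup_le hAB ?_
    rw [IntermediateField.adjoin_le_iff]
    intro y hy
    rw [Set.mem_singleton_iff] at hy
    rw [hy]
    exact hxB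
  rw [IntermediateField.relrank_eq_rank_of_le hAB]
  have hext : IntermediateField.extendScalars hAB = IntermediateField.adjoin A {x} := by
    ext y
    rw [IntermediateField.mem_extendScalars, hBeq]
    rfl
  rw [hext]
  have := IntermediateField.adjoin.finiteDimensional hint
  rw [← Module.finrank_eq_rank, IntermediateField.adjoin.finrank hint, Nat.cast_le]
  exact Polynomial.natDegree_le_natDegree (minpoly.degree_le_of_ne_zero A x hP.ne_zero hx)

end Degree

/-! ### The tower steps -/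

section Steps

variable {k : Type*} [Field k]

theorem jd_mem_full (N : ℕ) [NeZero N] (d : ℕ) [NeZero d] (hd : d ∣ N) :
    jd k d ∈ modularFunctionFieldFullC k N :=
  jqModCd_mem_full k N hd

theorem full_le_of_forall_mem (N : ℕ) [NeZero N] (E : IntermediateField k (LaurentSeries k))
    (h : ∀ (d : ℕ) [NeZero d], d ∣ N → jd k d ∈ E) : modularFunctionFieldFullC k N ≤ E := by
  rw [modularFunctionFieldFullC, IntermediateField.adjoin_le_iff]
  rintro x ⟨d, hne, hdvd, rfl⟩
  exact h d hdvd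

theorem jd_one : jd k 1 = jqModC k := qExpand_one_apply _

/-- uniqueness of the exact exponent -/
theorem exact_pow_unique {p M a b : ℕ} (ha : p ^ a ∣ M) (ha' : ¬ p ^ (a + 1) ∣ M)
    (hb : p ^ b ∣ M) (hb' : ¬ p ^ (b + 1) ∣ M) : b = a := by
  rcases lt_trichotomy b a with h | h | h
  · exact absurd ((pow_dvd_pow p (Nat.succ_le_of_lt h)).trans ha) hb'
  · exact h
  · exact absurd ((pow_dvd_pow p (Nat.succ_le_of_lt h)).trans hb) ha'

/-- **Generation, packaged.** `k(j_d : d ∣ Mp) ≤ k(j_d : d ∣ M)(j_{p^{a+1}})` for `p^a ∥ M`. -/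
theorem full_mul_le_adjoin {M p a : ℕ} [NeZero M] [NeZero (M * p)] [NeZero (p ^ (a + 1))]
    (hp : p.Prime) (H : HasModPolys k (M * p))
    (ha : p ^ a ∣ M) (ha' : ¬ p ^ (a + 1) ∣ M) :
    modularFunctionFieldFullC k (M * p) ≤
      (IntermediateField.adjoin (modularFunctionFieldFullC k M)
        {jd k (p ^ (a + 1))}).restrictScalars k := by
  refine full_le_of_forall_mem (M * p) _ ?_
  refine jd_mem_of_gen hp H _ ?_ ?_
  · intro d _ hd
    rw [IntermediateField.mem_restrictScalars]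
    exact IntermediateField.algebraMap_mem _ (⟨jd k d, jd_mem_full M d hd⟩ :
      modularFunctionFieldFullC k M)
  · intro b _ hb hb'
    have hba : b = a := exact_pow_unique ha ha' hb hb'
    subst hba
    rw [IntermediateField.mem_restrictScalars]
    exact IntermediateField.subset_adjoin _ _ (Set.mem_singleton _)

/-- **Step, `p ∤ M`**: `[k(j_d : d ∣ Mp) : k(j_d : d ∣ M)] ≤ p + 1`. -/
theorem relrank_full_step_of_not_dvd {M p : ℕ} [NeZero M] [NeZero (M * p)]
    (hp : p.Prime) (H : HasModPolys k (M * p)) (hpM : ¬ p ∣ M) :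
    IntermediateField.relrank (modularFunctionFieldFullC k M)
      (modularFunctionFieldFullC k (M * p)) ≤ ((p + 1 : ℕ) : Cardinal) := by
  have instp : NeZero p := ⟨hp.ne_zero⟩
  have instp1 : NeZero (p ^ (0 + 1)) := ⟨pow_ne_zero _ hp.ne_zero⟩
  obtain ⟨-, Φ, hΦ⟩ := H p hp (Dvd.intro_left M rfl)
  have hAB : modularFunctionFieldFullC k M ≤ modularFunctionFieldFullC k (M * p) :=
    full_degeneracyC_le k (Dvd.intro p rfl)
  have hj : jqModC k ∈ modularFunctionFieldFullC k M := jqModC_mem_full k M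
  have hx : jd k (p ^ (0 + 1)) = jd k p := jd_congr k (by simp)
  have key := relrank_le_natDegree (modularFunctionFieldFullC k M)
    (modularFunctionFieldFullC k (M * p)) hAB (jd k (p ^ (0 + 1)))
    (spec Φ (⟨jqModC k, hj⟩ : modularFunctionFieldFullC k M)) (spec_monic hΦ.monic _) ?_
    (full_mul_le_adjoin hp H (by simp) (by simpa using hpM)) ?_
  · rwa [spec_natDegree hΦ.monic, hΦ.natDegree_eq] at key
  · rw [Polynomial.aeval_def, Polynomial.eval₂_eq_eval_map, map_spec, eval_spec, hx]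
    show ev2 Φ (jqModC k) (jd k p) = 0
    have := ev2_jd_up (k := k) hΦ 1
    rwa [jd_one, jd_congr k (one_mul p)] at this
  · rw [hx]
    exact jd_mem_full (M * p) p (Dvd.intro_left M rfl)

/-- **Step, `p ∣ M`**: `[k(j_d : d ∣ Mp) : k(j_d : d ∣ M)] ≤ p`. -/
theorem relrank_full_step_of_dvd {M p : ℕ} [NeZero M] [NeZero (M * p)]
    (hp : p.Prime) (H : HasModPolys k (M * p)) (hpM : p ∣ M) :
    IntermediateField.relrank (modularFunctionFieldFullC k M)
      (modularFunctionFieldFullC k (M * p)) ≤ ((p : ℕ) : Cardinal) := by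
  classical
  have instp : NeZero p := ⟨hp.ne_zero⟩
  obtain ⟨-, Φ, hΦ⟩ := H p hp (Dvd.intro_left M rfl)
  -- the exact exponent
  obtain ⟨a, M', hM', hMeq⟩ := Nat.exists_eq_pow_mul_and_not_dvd (NeZero.ne M) p hp.ne_one
  have ha : p ^ a ∣ M := ⟨M', hMeq⟩
  have ha' : ¬ p ^ (a + 1) ∣ M := by
    rintro ⟨c, hc⟩
    apply hM'
    have h3 : p ^ a * M' = p ^ a * (p * c) := by rw [← hMeq, hc, pow_succ]; ring
    exact ⟨c, Nat.eq_of_mul_eq_mul_left (pow_pos hp.pos a) h3⟩
  have ha1 : a ≠ 0 := by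
    rintro rfl
    apply hM'
    rw [pow_zero, one_mul] at hMeq
    rwa [← hMeq]
  obtain ⟨a', rfl⟩ := Nat.exists_eq_succ_of_ne_zero ha1
  have inst1 : NeZero (p ^ (a' + 1 + 1)) := ⟨pow_ne_zero _ hp.ne_zero⟩
  have inst2 : NeZero (p ^ (a' + 1)) := ⟨pow_ne_zero _ hp.ne_zero⟩
  have inst3 : NeZero (p ^ a') := ⟨pow_ne_zero _ hp.ne_zero⟩
  have hAB : modularFunctionFieldFullC k M ≤ modularFunctionFieldFullC k (M * p) :=
    full_degeneracyC_le k (Dvd.intro p rfl)
  have hy : jd k (p ^ (a' + 1)) ∈ modularFunctionFieldFullC k M := jd_mem_full M _ ha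
  have hz : jd k (p ^ a') ∈ modularFunctionFieldFullC k M :=
    jd_mem_full M _ ((pow_dvd_pow p (Nat.le_succ a')).trans ha)
  set y' : modularFunctionFieldFullC k M := ⟨jd k (p ^ (a' + 1)), hy⟩ with hy'
  set z' : modularFunctionFieldFullC k M := ⟨jd k (p ^ a'), hz⟩ with hz'
  set x : LaurentSeries k := jd k (p ^ (a' + 1 + 1)) with hxdef
  -- `z'` is a root of `P₀ = Φ(y', X)`
  have hroot : (spec Φ y').IsRoot z' := by
    rw [Polynomial.IsRoot, eval_spec]
    apply (algebraMap (modularFunctionFieldFullC k M) (LaurentSeries k)).injective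
    rw [map_ev2, map_zero]
    show ev2 Φ (jd k (p ^ (a' + 1))) (jd k (p ^ a')) = 0
    have := ev2_jd_down (k := k) hΦ (p ^ a')
    rwa [jd_congr k (show p ^ a' * p = p ^ (a' + 1) from (pow_succ p a').symm)] at this
  have hfac : (Polynomial.X - Polynomial.C z') * (spec Φ y' /ₘ (Polynomial.X - Polynomial.C z')) = spec Φ y' :=
    Polynomial.mul_divByMonic_eq_iff_isRoot.mpr hroot
  have hmonic0 : (spec Φ y').Monic := spec_monic hΦ.monic _
  have hmonic : (spec Φ y' /ₘ (Polynomial.X - Polynomial.C z')).Monic := by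
    refine Polynomial.Monic.of_mul_monic_left (Polynomial.monic_X_sub_C z') ?_
    rw [hfac]
    exact hmonic0
  have hdeg : (spec Φ y' /ₘ (Polynomial.X - Polynomial.C z')).natDegree = p := by
    rw [Polynomial.natDegree_divByMonic _ (Polynomial.monic_X_sub_C z'),
      spec_natDegree hΦ.monic, hΦ.natDegree_eq, Polynomial.natDegree_X_sub_C]
    rfl
  have hx0 : Polynomial.aeval x (spec Φ y') = 0 := by
    rw [Polynomial.aeval_def, Polynomial.eval₂_eq_eval_map, map_spec, eval_spec]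
    show ev2 Φ (jd k (p ^ (a' + 1))) (jd k (p ^ (a' + 1 + 1))) = 0
    have := ev2_jd_up (k := k) hΦ (p ^ (a' + 1))
    rwa [jd_congr k (show p ^ (a' + 1) * p = p ^ (a' + 1 + 1) from (pow_succ p (a' + 1)).symm)]
      at this
  have hxz : x - jd k (p ^ a') ≠ 0 := by
    rw [sub_ne_zero]
    refine jd_ne_of_ne ?_
    intro h
    have := Nat.pow_right_injective hp.two_le h
    omega
  have hx1 : Polynomial.aeval x (spec Φ y' /ₘ (Polynomial.X - Polynomial.C z')) = 0 := by
    have h := hx0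
    rw [← hfac, map_mul, map_sub, Polynomial.aeval_X, Polynomial.aeval_C] at h
    rcases mul_eq_zero.mp h with h | h
    · exact absurd h hxz
    · exact h
  have key := relrank_le_natDegree (modularFunctionFieldFullC k M)
    (modularFunctionFieldFullC k (M * p)) hAB x
    (spec Φ y' /ₘ (Polynomial.X - Polynomial.C z')) hmonic hx1
    (full_mul_le_adjoin hp H ha ha') ?_
  · rwa [hdeg] at key
  · refine jd_mem_full (M * p) _ ?_
    rw [pow_succ]
    exact mul_dvd_mul_right ha p

end Steps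

end Fermat.Agent.S28.H626

end

end
-- ===== PACK-END S28/H626/Tower.lean

-- ===== PACK-BEGIN S28/H626/Upper.lean
section
/-
S28 helper (helper626): the upper bound `[k(j(q^d) : d ∣ N) : k(j)] ≤ ψ(N)` for every field `k`
in which `N` is invertible, from the prime-level modular polynomials; and its
linear-independence / spanning forms.
-/




set_option autoImplicit false

noncomputable section

open ModularCurve HahnSeries Polynomial IntermediateField

namespace Fermat.Agent.S28.H626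

/-! ### Arithmetic of `dedekindPsi` -/

section Psi

theorem psi_mul_prime_of_dvd {N p : ℕ} (hN : N ≠ 0) (hp : p.Prime) (hpN : p ∣ N) :
    dedekindPsi (N * p) = p * dedekindPsi N := by
  unfold dedekindPsi
  have hset : (N * p).divisors.filter Squarefree = N.divisors.filter Squarefree := by
    ext d
    simp only [Finset.mem_filter, Nat.mem_divisors]
    constructor
    · rintro ⟨⟨hd, _⟩, hsq⟩
      refine ⟨⟨?_, hN⟩, hsq⟩
      have h2 : d ∣ N ^ 2 := by
        rw [pow_two]
        exact hd.trans (mul_dvd_mul_left N hpN)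
      exact (hsq.dvd_pow_iff_dvd two_ne_zero).1 h2
    · rintro ⟨⟨hd, _⟩, hsq⟩
      exact ⟨⟨hd.mul_right p, mul_ne_zero hN hp.ne_zero⟩, hsq⟩
  rw [hset, Finset.mul_sum]
  refine Finset.sum_congr rfl fun d hd => ?_
  have hdN : d ∣ N := (Nat.mem_divisors.1 (Finset.mem_filter.1 hd).1).1
  obtain ⟨e, rfl⟩ := hdN
  have hd0 : 0 < d := Nat.pos_of_ne_zero (by rintro rfl; simp at hN)
  rw [mul_assoc, Nat.mul_div_cancel_left _ hd0, Nat.mul_div_cancel_left _ hd0, mul_comm]

theorem psi_mul_prime_of_not_dvd {N p : ℕ} (hN : N ≠ 0) (hp : p.Prime) (hpN : ¬ p ∣ N) :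
    dedekindPsi (N * p) = (p + 1) * dedekindPsi N := by
  unfold dedekindPsi
  have hcop : ∀ d, d ∣ N → Nat.Coprime d p := fun d hd =>
    (Nat.Coprime.symm ((Nat.Prime.coprime_iff_not_dvd hp).2 fun h => hpN (h.trans hd)))
  have hset : (N * p).divisors.filter Squarefree
      = (N.divisors.filter Squarefree) ∪ (N.divisors.filter Squarefree).image (· * p) := by
    ext d
    simp only [Finset.mem_filter, Nat.mem_divisors, Finset.mem_union, Finset.mem_image]
    constructor
    · rintro ⟨⟨hd, _⟩, hsq⟩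
      by_cases hpd : p ∣ d
      · right
        obtain ⟨e, rfl⟩ := hpd
        refine ⟨e, ⟨⟨?_, hN⟩, hsq.squarefree_of_dvd (Dvd.intro_left p rfl)⟩, mul_comm e p⟩
        rw [mul_comm p e] at hd
        exact Nat.dvd_of_mul_dvd_mul_right hp.pos hd
      · left
        refine ⟨⟨?_, hN⟩, hsq⟩
        have : Nat.Coprime d p := (Nat.Coprime.symm ((Nat.Prime.coprime_iff_not_dvd hp).2 hpd))
        exact this.dvd_of_dvd_mul_right hd
    · rintro (⟨⟨hd, _⟩, hsq⟩ | ⟨e, ⟨⟨he, _⟩, hsq⟩, rfl⟩)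
      · exact ⟨⟨hd.mul_right p, mul_ne_zero hN hp.ne_zero⟩, hsq⟩
      · refine ⟨⟨mul_dvd_mul_right he p, mul_ne_zero hN hp.ne_zero⟩, ?_⟩
        exact (Nat.squarefree_mul (hcop e he)).2 ⟨hsq, hp.squarefree⟩
  have hdisj : Disjoint (N.divisors.filter Squarefree)
      ((N.divisors.filter Squarefree).image (· * p)) := by
    rw [Finset.disjoint_left]
    intro d hd hd'
    simp only [Finset.mem_filter, Nat.mem_divisors, Finset.mem_image] at hd hd'
    obtain ⟨e, _, rfl⟩ := hd'
    exact hpN ((Dvd.intro_left e rfl).trans hd.1.1)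
  rw [hset, Finset.sum_union hdisj, Finset.sum_image, add_mul, one_mul, Finset.mul_sum]
  · congr 1
    · refine Finset.sum_congr rfl fun d hd => ?_
      have hdN : d ∣ N := (Nat.mem_divisors.1 (Finset.mem_filter.1 hd).1).1
      obtain ⟨e, rfl⟩ := hdN
      have hd0 : 0 < d := Nat.pos_of_ne_zero (by rintro rfl; simp at hN)
      rw [mul_assoc, Nat.mul_div_cancel_left _ hd0, Nat.mul_div_cancel_left _ hd0, mul_comm]
    · refine Finset.sum_congr rfl fun d hd => ?_
      exact Nat.mul_div_mul_right N d hp.pos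
  · intro a _ b _ hab
    exact Nat.eq_of_mul_eq_mul_right hp.pos hab

end Psi

/-! ### The upper bound -/

section Upper

variable {k : Type*} [Field k]

theorem full_one_eq : modularFunctionFieldFullC k 1 = IntermediateField.adjoin k {jqModC k} := by
  apply le_antisymm
  · refine full_le_of_forall_mem 1 _ ?_
    intro d _ hd
    have hd1 : d = 1 := Nat.dvd_one.mp hd
    rw [jd_congr k hd1, jd_one]
    exact IntermediateField.subset_adjoin _ _ (Set.mem_singleton _)
  · rw [IntermediateField.adjoin_le_iff]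
    intro y hy
    rw [Set.mem_singleton_iff] at hy
    rw [hy]
    exact jqModC_mem_full k 1

/-- **Upper bound**, `relrank` form (a `Cardinal` inequality, so it includes finiteness). -/
theorem relrank_full_le (N : ℕ) [NeZero N] (H : HasModPolys k N) :
    IntermediateField.relrank (modularFunctionFieldFullC k 1) (modularFunctionFieldFullC k N) ≤
      ((dedekindPsi N : ℕ) : Cardinal) := by
  revert H
  have main : ∀ n : ℕ, ∀ (N : ℕ) [NeZero N], N = n → HasModPolys k N →
      IntermediateField.relrank (modularFunctionFieldFullC k 1) (modularFunctionFieldFullC k N) ≤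
        ((dedekindPsi N : ℕ) : Cardinal) := by
    intro n
    induction n using Nat.strong_induction_on with
    | _ n ih =>
      intro N instN hNn H
      by_cases hN1 : N = 1
      · subst hN1
        rw [IntermediateField.relrank_self, dedekindPsi_one, Nat.cast_one]
      obtain ⟨p, hp, hpN⟩ := Nat.exists_prime_and_dvd hN1
      obtain ⟨M, hM⟩ := hpN
      have hNM : N = M * p := by rw [hM, mul_comm]
      subst hNM
      have hM0 : M ≠ 0 := by
        rintro rfl
        exact (NeZero.ne (0 * p)) (zero_mul p)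
      have instM : NeZero M := ⟨hM0⟩
      have hlt : M < n := by
        rw [← hNn]
        have := hp.one_lt
        have hMpos : 0 < M := Nat.pos_of_ne_zero hM0
        nlinarith
      have IH := ih M hlt M rfl (H.mono (Dvd.intro p rfl))
      have h1 : modularFunctionFieldFullC k 1 ≤ modularFunctionFieldFullC k M :=
        full_degeneracyC_le k (one_dvd M)
      have h2 : modularFunctionFieldFullC k M ≤ modularFunctionFieldFullC k (M * p) :=
        full_degeneracyC_le k (Dvd.intro p rfl)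
      rw [← IntermediateField.relrank_mul_relrank h1 h2]
      by_cases hpM : p ∣ M
      · rw [psi_mul_prime_of_dvd hM0 hp hpM, mul_comm p, Nat.cast_mul]
        exact mul_le_mul' IH (relrank_full_step_of_dvd hp H hpM)
      · rw [psi_mul_prime_of_not_dvd hM0 hp hpM, mul_comm (p + 1), Nat.cast_mul]
        exact mul_le_mul' IH (relrank_full_step_of_not_dvd hp H hpM)
  exact main N N rfl

/-- `k(j) ≤ k(j(q^d) : d ∣ N)`. -/
theorem adjoin_j_le_full (N : ℕ) [NeZero N] :
    IntermediateField.adjoin k {jqModC k} ≤ modularFunctionFieldFullC k N := by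
  rw [IntermediateField.adjoin_le_iff]
  intro y hy
  rw [Set.mem_singleton_iff] at hy
  rw [hy]
  exact jqModC_mem_full k N

/-- **Upper bound** over `k(j) = IntermediateField.adjoin k {j}`. -/
theorem relrank_adjoin_j_full_le (N : ℕ) [NeZero N] (H : HasModPolys k N) :
    IntermediateField.relrank (IntermediateField.adjoin k {jqModC k})
      (modularFunctionFieldFullC k N) ≤ ((dedekindPsi N : ℕ) : Cardinal) := by
  rw [← full_one_eq]
  exact relrank_full_le N H

/-- The function field as a finite-dimensional `k(j)`-vector space: rank bound. -/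
theorem rank_extendScalars_le (N : ℕ) [NeZero N] (H : HasModPolys k N) :
    Module.rank (IntermediateField.adjoin k {jqModC k})
      (IntermediateField.extendScalars (adjoin_j_le_full (k := k) N)) ≤
        ((dedekindPsi N : ℕ) : Cardinal) := by
  rw [← IntermediateField.relrank_eq_rank_of_le]
  exact relrank_adjoin_j_full_le N H

theorem finiteDimensional_extendScalars (N : ℕ) [NeZero N] (H : HasModPolys k N) :
    FiniteDimensional (IntermediateField.adjoin k {jqModC k})
      (IntermediateField.extendScalars (adjoin_j_le_full (k := k) N)) := by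
  rw [FiniteDimensional, ← Module.rank_lt_aleph0_iff]
  exact lt_of_le_of_lt (rank_extendScalars_le N H) (Cardinal.nat_lt_aleph0 _)

theorem finrank_extendScalars_le (N : ℕ) [NeZero N] (H : HasModPolys k N) :
    Module.finrank (IntermediateField.adjoin k {jqModC k})
      (IntermediateField.extendScalars (adjoin_j_le_full (k := k) N)) ≤ dedekindPsi N := by
  have := finiteDimensional_extendScalars N H
  have h := rank_extendScalars_le N H
  rw [← Module.finrank_eq_rank, Nat.cast_le] at h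
  exact h

/-- **Upper bound, linear-independence form.** A family of elements of `k(j(q^d) : d ∣ N)` which
is linearly independent over `k(j)` has at most `ψ(N)` members. -/
theorem card_le_of_linearIndependent (N : ℕ) [NeZero N] (H : HasModPolys k N)
    {ι : Type*} [Fintype ι] (v : ι → LaurentSeries k)
    (hv : ∀ i, v i ∈ modularFunctionFieldFullC k N)
    (hli : LinearIndependent (IntermediateField.adjoin k {jqModC k}) v) :
    Fintype.card ι ≤ dedekindPsi N := by
  have := finiteDimensional_extendScalars N H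
  set B := IntermediateField.extendScalars (adjoin_j_le_full (k := k) N) with hB
  let w : ι → B := fun i => ⟨v i, hv i⟩
  have hw : LinearIndependent (IntermediateField.adjoin k {jqModC k}) w := by
    refine LinearIndependent.of_comp (B.val.toLinearMap) ?_
    exact hli
  exact (hw.fintype_card_le_finrank).trans (finrank_extendScalars_le N H)

/-- **Upper bound, spanning form.** A family of at least `ψ(N)` elements of
`k(j(q^d) : d ∣ N)` which is linearly independent over `k(j)` spans `k(j(q^d) : d ∣ N)`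
over `k(j)`. -/
theorem mem_span_of_linearIndependent (N : ℕ) [NeZero N] (H : HasModPolys k N)
    {ι : Type*} [Fintype ι] (v : ι → LaurentSeries k)
    (hv : ∀ i, v i ∈ modularFunctionFieldFullC k N)
    (hli : LinearIndependent (IntermediateField.adjoin k {jqModC k}) v)
    (hcard : dedekindPsi N ≤ Fintype.card ι)
    {x : LaurentSeries k} (hx : x ∈ modularFunctionFieldFullC k N) :
    x ∈ Submodule.span (IntermediateField.adjoin k {jqModC k}) (Set.range v) := by
  classical
  have := finiteDimensional_extendScalars N H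
  set B := IntermediateField.extendScalars (adjoin_j_le_full (k := k) N) with hB
  let w : ι → B := fun i => ⟨v i, hv i⟩
  have hw : LinearIndependent (IntermediateField.adjoin k {jqModC k}) w := by
    refine LinearIndependent.of_comp (B.val.toLinearMap) ?_
    exact hli
  have hcard' : Fintype.card ι = Module.finrank (IntermediateField.adjoin k {jqModC k}) B :=
    le_antisymm hw.fintype_card_le_finrank ((finrank_extendScalars_le N H).trans hcard)
  have htop : Submodule.span (IntermediateField.adjoin k {jqModC k}) (Set.range w) = ⊤ :=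
    hw.span_eq_top_of_card_eq_finrank' hcard'
  have hxB : (⟨x, hx⟩ : B) ∈ Submodule.span (IntermediateField.adjoin k {jqModC k})
      (Set.range w) := by
    rw [htop]; exact Submodule.mem_top
  have := Submodule.apply_mem_span_image_of_mem_span (B.val.toLinearMap) hxB
  have himg : (B.val.toLinearMap) '' (Set.range w) = Set.range v := by
    ext y
    constructor
    · rintro ⟨_, ⟨i, rfl⟩, rfl⟩
      exact ⟨i, rfl⟩
    · rintro ⟨i, rfl⟩
      exact ⟨w i, ⟨i, rfl⟩, rfl⟩
  rw [himg] at this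
  exact this

end Upper

end Fermat.Agent.S28.H626

end

end
-- ===== PACK-END S28/H626/Upper.lean

-- ===== PACK-BEGIN S18/H333/Sturm.lean
section






/-!
# S18 / c3 (helper333): the formal level-2 / level-3 identities via the Sturm bound
-/

set_option autoImplicit false
set_option linter.unusedSectionVars false

noncomputable section

namespace Fermat.Agent.S18.H333

open UpperHalfPlane ModularForm CongruenceSubgroup MatrixGroups EisensteinSeries

/-- coefficient map `ℤ⟦X⟧ → ℂ⟦X⟧` -/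
abbrev toCs : PowerSeries ℤ →+* PowerSeries ℂ := PowerSeries.map (Int.castRingHom ℂ)

theorem toCs_injective : Function.Injective toCs := by
  intro f g h
  ext n
  have := congrArg (PowerSeries.coeff n) h
  simpa using this

theorem toCs_zsmul (c : ℤ) (f : PowerSeries ℤ) : toCs (c • f) = (c : ℂ) • toCs f := by
  ext n
  rw [PowerSeries.coeff_map, map_zsmul, PowerSeries.coeff_smul, PowerSeries.coeff_map]
  simp

theorem toCs_Vser (p : ℕ) (f : PowerSeries ℤ) : toCs (Vser p f) = Vser p (toCs f) :=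
  Vser_map _ _ _

/-- `Δ` as a level-one modular form -/
def DeltaMF : ModularForm 𝒮ℒ 12 := CuspForm.toModularFormₗ CuspForm.discriminant

theorem qExpansion_E4 : qExpansion 1 E₄ = toCs Ez :=
  Fermat.Agent.S28.H505.qExpansion_E₄_eq_e4C

theorem qExpansion_DeltaMF : qExpansion 1 DeltaMF = toCs Dz := by
  have h : qExpansion 1 DeltaMF = Fermat.Agent.S28.H505.deltaC :=
    Fermat.Agent.S28.H505.qExpansion_discriminant_eq_deltaC
  rw [h, Fermat.Agent.S28.H505.deltaC, Dz, map_mul, map_pow, PowerSeries.map_X]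

variable (p : ℕ) [NeZero p]

local notation "Γp" => (Gamma0 p : Subgroup (GL (Fin 2) ℝ))

theorem qExp_restr {k : ℤ} (H : ModularForm 𝒮ℒ k) :
    qExpansion 1 (restr p H) = qExpansion 1 H := rfl

theorem qExp_mul {a b : ℤ} (f : ModularForm Γp a) (g : ModularForm Γp b) :
    qExpansion 1 (f.mul g) = qExpansion 1 f * qExpansion 1 g :=
  ModularForm.qExpansion_mul one_pos (_root_.Fermat.Agent.S18.H333.one_mem_strictPeriods_Gamma0 p) f g

theorem qExp_add {a : ℤ} (f g : ModularForm Γp a) :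
    qExpansion 1 (⇑(f + g)) = qExpansion 1 f + qExpansion 1 g := by
  rw [FunLike.coe_add]
  exact ModularForm.qExpansion_add one_pos (_root_.Fermat.Agent.S18.H333.one_mem_strictPeriods_Gamma0 p) f g

theorem qExp_sub {a : ℤ} (f g : ModularForm Γp a) :
    qExpansion 1 (⇑(f - g)) = qExpansion 1 f - qExpansion 1 g := by
  rw [FunLike.coe_sub]
  exact ModularForm.qExpansion_sub one_pos (_root_.Fermat.Agent.S18.H333.one_mem_strictPeriods_Gamma0 p) f g

theorem qExp_smul {a : ℤ} (c : ℂ) (f : ModularForm Γp a) :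
    qExpansion 1 (⇑(c • f)) = c • qExpansion 1 f := by
  rw [FunLike.coe_smul]
  exact ModularForm.qExpansion_smul one_pos (_root_.Fermat.Agent.S18.H333.one_mem_strictPeriods_Gamma0 p) c f

theorem qExp_pow {a : ℤ} (f : ModularForm Γp a) (n : ℕ) :
    qExpansion 1 (f.pow n) = qExpansion 1 f ^ n :=
  ModularForm.qExpansion_pow one_pos (_root_.Fermat.Agent.S18.H333.one_mem_strictPeriods_Gamma0 p) f n

/-- the Sturm bound in the form we use: vanishing of `q`-expansion coefficients below `n`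
with `k * ψ(p) / 12 < n` forces a form whose `q`-expansion comes from `ℤ⟦X⟧` to vanish. -/
theorem series_eq_zero_of_sturm {k : ℤ} (F : ModularForm Γp k) (Φ : PowerSeries ℤ)
    (hF : qExpansion 1 F = toCs Φ) (n : ℕ)
    (hn : (k * ((Gamma0 p).index : ℤ)).toNat / 12 < n) (hΦ : tl n Φ = tzero n) : Φ = 0 := by
  have hzero : F = 0 := by
    refine ModularForm.sturm_bound_Gamma0 p F fun m hm => ?_
    rw [hF, PowerSeries.coeff_map, (tl_eq_tzero_iff n Φ).mp hΦ m (lt_of_le_of_lt hm hn), map_zero]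
  apply toCs_injective
  rw [map_zero, ← hF, hzero]
  exact qExpansion_zero 1

/-! ### level 2 -/

theorem index_Gamma0_two : (Gamma0 2).index = 3 := by
  rw [Fermat.Agent.S20.Comb.index_Gamma0]
  decide +kernel

theorem index_Gamma0_three : (Gamma0 3).index = 4 := by
  rw [Fermat.Agent.S20.Comb.index_Gamma0]
  decide +kernel

/-- `E₄³` on `Γ₀(p)`, weight 12 -/
def EcubeF : ModularForm Γp 12 := ((restr p E₄).pow 3).mcast (by norm_num)

/-- `E₄(p·)³` on `Γ₀(p)`, weight 12 -/
def EpcubeF : ModularForm Γp 12 := ((raise p E₄).pow 3).mcast (by norm_num)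

/-- `Δ` on `Γ₀(p)` -/
def XF : ModularForm Γp 12 := restr p DeltaMF

/-- `Δ(p·)` on `Γ₀(p)` -/
def YF : ModularForm Γp 12 := raise p DeltaMF

theorem qExp_EcubeF : qExpansion 1 (EcubeF p) = toCs (Ez ^ 3) := by
  rw [EcubeF, ModularForm.qExpansion_mcast, qExp_pow, qExp_restr, qExpansion_E4, map_pow]

theorem qExp_EpcubeF : qExpansion 1 (EpcubeF p) = toCs (Vser p Ez ^ 3) := by
  rw [EpcubeF, ModularForm.qExpansion_mcast, qExp_pow, qExpansion_raise, qExpansion_E4, map_pow,
    toCs_Vser]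

theorem qExp_XF : qExpansion 1 (XF p) = toCs Dz := by
  rw [XF, qExp_restr, qExpansion_DeltaMF]

theorem qExp_YF : qExpansion 1 (YF p) = toCs (Vser p Dz) := by
  rw [YF, qExpansion_raise, qExpansion_DeltaMF, toCs_Vser]

/-- the weight-36 form `E³ X Y - (X + c Y)³` -/
def cubicF (E : ModularForm Γp 12) (c : ℤ) : ModularForm Γp ((12 + 12) + 12) :=
  ((E.mul (XF p)).mul (YF p)) -
    (((XF p + (c : ℂ) • YF p).mul (XF p + (c : ℂ) • YF p)).mul (XF p + (c : ℂ) • YF p))

theorem qExp_cubicF (E : ModularForm Γp 12) (c : ℤ) (e : PowerSeries ℤ)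
    (hE : qExpansion 1 E = toCs e) :
    qExpansion 1 (cubicF p E c) =
      toCs (e * Dz * Vser p Dz - (Dz + c • Vser p Dz) ^ 3) := by
  rw [cubicF, qExp_sub, qExp_mul, qExp_mul, qExp_mul, qExp_mul, qExp_add, qExp_smul, hE, qExp_XF,
    qExp_YF, map_sub, map_mul, map_mul, map_pow, map_add, toCs_zsmul]
  ring

theorem Phi2a_eq_zero : Phi2a = 0 := by
  refine series_eq_zero_of_sturm 2 (cubicF 2 (EcubeF 2) 256) Phi2a ?_ 10 ?_ tl_Phi2a
  · rw [qExp_cubicF 2 _ 256 _ (qExp_EcubeF 2)]; rfl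
  · rw [index_Gamma0_two]; decide

theorem Phi2b_eq_zero : Phi2b = 0 := by
  refine series_eq_zero_of_sturm 2 (cubicF 2 (EpcubeF 2) 16) Phi2b ?_ 10 ?_ tl_Phi2b
  · rw [qExp_cubicF 2 _ 16 _ (qExp_EpcubeF 2)]; rfl
  · rw [index_Gamma0_two]; decide

/-! ### level 3 -/

/-- the weight-48 form `A² - X Y (E - B)²`, `A = X² + c₂ X Y + c₄ Y²`, `B = c₁ X + c₃ Y` -/
def quarticF (E : ModularForm Γp 12) (c₁ c₂ c₃ c₄ : ℤ) :
    ModularForm Γp ((12 + 12) + (12 + 12)) :=
  (((XF p).mul (XF p) + (c₂ : ℂ) • (XF p).mul (YF p) + (c₄ : ℂ) • (YF p).mul (YF p)).mul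
    ((XF p).mul (XF p) + (c₂ : ℂ) • (XF p).mul (YF p) + (c₄ : ℂ) • (YF p).mul (YF p))) -
  ((XF p).mul (YF p)).mul
    ((E - ((c₁ : ℂ) • XF p + (c₃ : ℂ) • YF p)).mul (E - ((c₁ : ℂ) • XF p + (c₃ : ℂ) • YF p)))

theorem qExp_quarticF (E : ModularForm Γp 12) (c₁ c₂ c₃ c₄ : ℤ) (e : PowerSeries ℤ)
    (hE : qExpansion 1 E = toCs e) :
    qExpansion 1 (quarticF p E c₁ c₂ c₃ c₄) =
      toCs ((Dz * Dz + c₂ • (Dz * Vser p Dz) + c₄ • (Vser p Dz * Vser p Dz)) *
          (Dz * Dz + c₂ • (Dz * Vser p Dz) + c₄ • (Vser p Dz * Vser p Dz)) -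
        (Dz * Vser p Dz) * ((e - (c₁ • Dz + c₃ • Vser p Dz)) * (e - (c₁ • Dz + c₃ • Vser p Dz)))) := by
  simp only [quarticF, qExp_sub, qExp_mul, qExp_add, qExp_smul, hE, qExp_XF, qExp_YF, map_sub,
    map_mul, map_add, toCs_zsmul]

theorem Phi3a_eq_zero : Phi3a = 0 := by
  refine series_eq_zero_of_sturm 3 (quarticF 3 (EcubeF 3) 756 196830 19131876 387420489) Phi3a
    ?_ 17 ?_ tl_Phi3a
  · rw [qExp_quarticF 3 _ _ _ _ _ _ (qExp_EcubeF 3)]; rfl
  · rw [index_Gamma0_three]; decide

theorem Phi3b_eq_zero : Phi3b = 0 := by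
  refine series_eq_zero_of_sturm 3 (quarticF 3 (EpcubeF 3) 36 270 756 729) Phi3b
    ?_ 17 ?_ tl_Phi3b
  · rw [qExp_quarticF 3 _ _ _ _ _ _ (qExp_EpcubeF 3)]; rfl
  · rw [index_Gamma0_three]; decide

end Fermat.Agent.S18.H333

end
end
-- ===== PACK-END S18/H333/Sturm.lean

-- ===== PACK-BEGIN S18/H333/HauptPS.lean
section



/-!
# S18 / c3 (helper333): power-series preliminaries for the Hauptmoduln

* `Vser p` is the ring homomorphism `PowerSeries.expand p`;
* `Zz = X² η₁¹² η₃¹²` with `Zz² = Δ Δ₃`, and the LINEAR level-3 identities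
  `A3a = Zz (E₄³ - B3a)`, `A3b = Zz (E₄(q³)³ - B3b)` (sign fixed by the `q²`-coefficient).
-/

set_option autoImplicit false

noncomputable section

namespace Fermat.Agent.S18.H333

open PowerSeries ModularCurve

theorem Vser_eq_expand (p : ℕ) (hp : p ≠ 0) (f : PowerSeries ℤ) :
    Vser p f = PowerSeries.expand p hp f := by
  ext n
  rw [coeff_Vser, PowerSeries.coeff_expand]

theorem Vser_mul (p : ℕ) (hp : p ≠ 0) (f g : PowerSeries ℤ) :
    Vser p (f * g) = Vser p f * Vser p g := by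
  simp only [Vser_eq_expand p hp, map_mul]

theorem Vser_pow (p : ℕ) (hp : p ≠ 0) (f : PowerSeries ℤ) (n : ℕ) :
    Vser p (f ^ n) = Vser p f ^ n := by
  simp only [Vser_eq_expand p hp, map_pow]

theorem Vser_one (p : ℕ) (hp : p ≠ 0) : Vser p (1 : PowerSeries ℤ) = 1 := by
  simp only [Vser_eq_expand p hp, map_one]

theorem Vser_X (p : ℕ) (hp : p ≠ 0) : Vser p (X : PowerSeries ℤ) = X ^ p := by
  rw [Vser_eq_expand p hp, PowerSeries.expand_X]

/-- `η¹²` -/
def eta12 : PowerSeries ℤ := etaProd ^ 12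

/-- `η⁻¹²` -/
def eta12Inv : PowerSeries ℤ := eta12.invOfUnit 1

theorem constantCoeff_eta12 : PowerSeries.constantCoeff eta12 = 1 := by
  rw [eta12, map_pow, constantCoeff_etaProd, one_pow]

theorem eta12_mul_inv : eta12 * eta12Inv = 1 :=
  PowerSeries.mul_invOfUnit _ _ (by rw [constantCoeff_eta12]; rfl)

theorem eta12_sq : eta12 * eta12 = dedekindEtaUnit := by
  rw [eta12, dedekindEtaUnit]; ring

theorem Dz_eq : Dz = X * dedekindEtaUnit := rfl

theorem Vser_Dz (p : ℕ) (hp : p ≠ 0) : Vser p Dz = X ^ p * Vser p dedekindEtaUnit := by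
  rw [Dz_eq, Vser_mul p hp, Vser_X p hp]

/-- `q² η₁¹² η₃¹²` -/
def Zz : PowerSeries ℤ := X ^ 2 * eta12 * Vser 3 eta12

theorem Zz_sq : Zz * Zz = Dz * Vser 3 Dz := by
  rw [Vser_Dz 3 (by norm_num), Dz_eq, ← eta12_sq, Vser_mul 3 (by norm_num), Zz]
  ring

theorem tl_eta12 (n : ℕ) : tl n eta12 = tpow n (etaLrec n n) 12 := by
  rw [eta12, tl_pow, tl_etaProd]

theorem tl_Zz (n : ℕ) : tl n Zz =
    tmul n (tmul n (tpow n (tX n) 2) (tpow n (etaLrec n n) 12))
      (tV n 3 (tpow n (etaLrec n n) 12)) := by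
  rw [Zz, tl_mul, tl_mul, tl_pow, tl_X, tl_Vser _ _ (by norm_num), tl_eta12]

theorem tl_Ez_3 : tl 3 Ez = [1, 240, 2160] := by
  rw [tl_Ez]; decide +kernel

theorem tl_Dz_3 : tl 3 Dz = [0, 1, -24] := by
  rw [tl_Dz]; decide +kernel

theorem coeff_two_ne_of_tl {f : PowerSeries ℤ} {a b c : ℤ} (h : tl 3 f = [a, b, c]) (hc : c ≠ 0) :
    f ≠ 0 := by
  intro h0
  have h2 := tl_getD 3 f (i := 2) (by norm_num)
  rw [h, h0] at h2
  simp at h2
  exact hc h2

/-- linear form of `(t₃+27)(t₃+243)³ = j t₃³` -/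
theorem A3a_eq : A3a = Zz * (Ez ^ 3 - B3a) := by
  have h := Phi3a_eq_zero
  rw [Phi3a, ← Zz_sq] at h
  have hprod : (A3a - Zz * (Ez ^ 3 - B3a)) * (A3a + Zz * (Ez ^ 3 - B3a)) = 0 := by
    linear_combination h
  rcases mul_eq_zero.mp hprod with h1 | h1
  · exact sub_eq_zero.mp h1
  · exfalso
    have htl : tl 3 (A3a + Zz * (Ez ^ 3 - B3a)) = [0, 0, 2] := by
      rw [A3a, B3a]
      simp only [tl_sub, tl_mul, tl_pow, tl_add, tl_smul, tl_Vser _ _ (show 0 < 3 by norm_num),
        tl_Dz_3, tl_Ez_3, tl_Zz]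
      decide +kernel
    exact coeff_two_ne_of_tl htl (by norm_num) h1

/-- linear form of `(t₃+27)(t₃+3)³ = j(q³) t₃` -/
theorem A3b_eq : A3b = Zz * (Vser 3 Ez ^ 3 - B3b) := by
  have h := Phi3b_eq_zero
  rw [Phi3b, ← Zz_sq] at h
  have hprod : (A3b - Zz * (Vser 3 Ez ^ 3 - B3b)) * (A3b + Zz * (Vser 3 Ez ^ 3 - B3b)) = 0 := by
    linear_combination h
  rcases mul_eq_zero.mp hprod with h1 | h1
  · exact sub_eq_zero.mp h1
  · exfalso
    have htl : tl 3 (A3b + Zz * (Vser 3 Ez ^ 3 - B3b)) = [0, 0, 2] := by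
      rw [A3b, B3b]
      simp only [tl_sub, tl_mul, tl_pow, tl_add, tl_smul, tl_Vser _ _ (show 0 < 3 by norm_num),
        tl_Dz_3, tl_Ez_3, tl_Zz]
      decide +kernel
    exact coeff_two_ne_of_tl htl (by norm_num) h1

end Fermat.Agent.S18.H333

end
end
-- ===== PACK-END S18/H333/HauptPS.lean

-- ===== PACK-BEGIN S18/H107/T3Qep.lean
section






/-!
# helper107 — S18 / M3-T : QEP for the Hauptmodul `t = t₃` of `X₀(3)` (case `ℓ = 2`)

Input: the relation `j * t ^ 3 = (t + 27) * (t + 243) ^ 3`, `3⁻¹ ∈ R`, QEP for the charts of `j`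
and `j⁻¹`.  Output: QEP for the charts of `t` and `t⁻¹`.
-/

set_option autoImplicit false

namespace Fermat.Agent.S18.H107

open Polynomial Fermat.Agent.S18.Alg

variable {Ω : Type*} [Field Ω]

/-- The Hauptmodul relation for `X₀(3)` together with the needed side conditions. -/
structure HauptT3107 (Fc : Subfield Ω) (R V : Subring Ω) (j t : Ω) : Prop where
  rel : j * t ^ 3 = (t + 27) * (t + 243) ^ 3
  three_inv : (3 : Ω)⁻¹ ∈ R
  three_ne : (3 : Ω) ≠ 0
  j_ne : j ≠ 0
  t_mem_Fc : t ∈ Fc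
  t_mem_V : t ∈ V
  t27_inv_mem_V : (t + 27)⁻¹ ∈ V

namespace HauptT3107

variable {Fc : Subfield Ω} {R V : Subring Ω} {j t : Ω}

theorem c27_ne (h : HauptT3107 Fc R V j t) : (27 : Ω) ≠ 0 := by
  have : (27 : Ω) = 3 ^ 3 := by norm_num
  rw [this]
  exact pow_ne_zero _ h.three_ne

theorem c243_ne (h : HauptT3107 Fc R V j t) : (243 : Ω) ≠ 0 := by
  have : (243 : Ω) = 3 ^ 5 := by norm_num
  rw [this]
  exact pow_ne_zero _ h.three_ne

theorem c6561_ne (h : HauptT3107 Fc R V j t) : (6561 : Ω) ≠ 0 := by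
  have : (6561 : Ω) = 3 ^ 8 := by norm_num
  rw [this]
  exact pow_ne_zero _ h.three_ne

theorem cBig_ne (h : HauptT3107 Fc R V j t) : (387420489 : Ω) ≠ 0 := by
  have : (387420489 : Ω) = 3 ^ 18 := by norm_num
  rw [this]
  exact pow_ne_zero _ h.three_ne

theorem inv27_mem (h : HauptT3107 Fc R V j t) : (27 : Ω)⁻¹ ∈ R := by
  have := R.pow_mem h.three_inv 3
  have e : ((3 : Ω)⁻¹) ^ 3 = (27 : Ω)⁻¹ := by norm_num
  rwa [e] at this

theorem inv6561_mem (h : HauptT3107 Fc R V j t) : (6561 : Ω)⁻¹ ∈ R := by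
  have := R.pow_mem h.three_inv 8
  have e : ((3 : Ω)⁻¹) ^ 8 = (6561 : Ω)⁻¹ := by norm_num
  rwa [e] at this

theorem invBig_mem (h : HauptT3107 Fc R V j t) : (387420489 : Ω)⁻¹ ∈ R := by
  have := R.pow_mem h.three_inv 18
  have e : ((3 : Ω)⁻¹) ^ 18 = (387420489 : Ω)⁻¹ := by norm_num
  rwa [e] at this

theorem t_ne (h : HauptT3107 Fc R V j t) : t ≠ 0 := by
  intro ht
  have := h.rel
  rw [ht] at this
  have h0 : (27 : Ω) * 243 ^ 3 = 0 := by
    have e : ((0 : Ω) + 27) * (0 + 243) ^ 3 = 27 * 243 ^ 3 := by ring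
    rw [← e, ← this]
    ring
  rcases mul_eq_zero.1 h0 with h1 | h1
  · exact h.c27_ne h1
  · exact h.c243_ne (pow_eq_zero_iff (by norm_num) |>.1 h1)

theorem t27_ne (h : HauptT3107 Fc R V j t) : t + 27 ≠ 0 := by
  intro ht
  have := h.rel
  rw [ht] at this
  have h0 : j * t ^ 3 = 0 := by rw [this]; ring
  rcases mul_eq_zero.1 h0 with hj | ht0
  · exact h.j_ne hj
  · exact h.t_ne (pow_eq_zero_iff (by norm_num) |>.1 ht0)

theorem t243_ne (h : HauptT3107 Fc R V j t) : t + 243 ≠ 0 := by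
  intro ht
  have := h.rel
  rw [ht] at this
  have h0 : j * t ^ 3 = 0 := by rw [this]; ring
  rcases mul_eq_zero.1 h0 with hj | ht0
  · exact h.j_ne hj
  · exact h.t_ne (pow_eq_zero_iff (by norm_num) |>.1 ht0)

/-- `t` is integral over `R[j]`. -/
theorem t_int (h : HauptT3107 Fc R V j t) : t ∈ intCl107 (polyRing R j) := by
  refine mem_intCl_of_quartic107 _ t (756 - j) 196830 19131876 387420489 ?_ (ofNat_mem _ _)
    (ofNat_mem _ _) (ofNat_mem _ _) ?_
  · exact Subring.sub_mem _ (ofNat_mem _ _) (self_mem_polyRing107 R j)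
  · linear_combination -h.rel

/-- `h₁ = t / (t + 27)` is integral over `R[j⁻¹]`. -/
theorem h_int (h : HauptT3107 Fc R V j t) : t * (t + 27)⁻¹ ∈ intCl107 (polyRing R j⁻¹) := by
  have hj' := self_mem_polyRing107 R j⁻¹
  refine mem_intCl_of_quartic107 _ _ (-1 - 13824 * j⁻¹) (46656 * j⁻¹) (-(52488 * j⁻¹))
    (19683 * j⁻¹) ?_ ?_ ?_ ?_ ?_
  · exact Subring.sub_mem _ (Subring.neg_mem _ (Subring.one_mem _))
      (Subring.mul_mem _ (ofNat_mem _ _) hj')
  · exact Subring.mul_mem _ (ofNat_mem _ _) hj'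
  · exact Subring.neg_mem _ (Subring.mul_mem _ (ofNat_mem _ _) hj')
  · exact Subring.mul_mem _ (ofNat_mem _ _) hj'
  · have hj := h.j_ne
    have ht := h.t27_ne
    field_simp
    linear_combination (-27 : Ω) * h.rel

/-- `t⁻¹` is integral over `R[j]` (uses `3⁻¹ ∈ R`). -/
theorem tinv_int (h : HauptT3107 Fc R V j t) : t⁻¹ ∈ intCl107 (polyRing R j) := by
  have hB := le_polyRing107 R j h.invBig_mem
  refine mem_intCl_of_quartic107 _ _ (19131876 * (387420489 : Ω)⁻¹) (196830 * (387420489 : Ω)⁻¹)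
    ((756 - j) * (387420489 : Ω)⁻¹) ((387420489 : Ω)⁻¹) ?_ ?_ ?_ hB ?_
  · exact Subring.mul_mem _ (ofNat_mem _ _) hB
  · exact Subring.mul_mem _ (ofNat_mem _ _) hB
  · exact Subring.mul_mem _ (Subring.sub_mem _ (ofNat_mem _ _) (self_mem_polyRing107 R j)) hB
  · have ht := h.t_ne
    have hc := h.cBig_ne
    field_simp
    linear_combination -h.rel

theorem open1_fin (h : HauptT3107 Fc R V j t) : OpenData107 Fc R V t j t 1 where
  g_mem := self_mem_polyRing107 R t
  e_mem_Fc := Fc.one_mem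
  e_mem_V := V.one_mem
  e_int := Subring.one_mem _
  xe_int := by rw [mul_one]; exact h.t_int
  y_loc := ⟨3, by
    rw [h.rel]
    have ht := self_mem_polyRing107 R t
    exact le_intCl107 _ (Subring.mul_mem _ (Subring.add_mem _ ht (ofNat_mem _ _))
      (Subring.pow_mem _ (Subring.add_mem _ ht (ofNat_mem _ _)) 3))⟩
  e_inv := ⟨1, Subring.one_mem _, 0, by simp⟩

theorem open2_fin (h : HauptT3107 Fc R V j t) :
    OpenData107 Fc R V t j⁻¹ ((t + 27) * (t + 243)) (27 * (t + 27)⁻¹) where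
  g_mem := by
    have ht := self_mem_polyRing107 R t
    exact Subring.mul_mem _ (Subring.add_mem _ ht (ofNat_mem _ _))
      (Subring.add_mem _ ht (ofNat_mem _ _))
  e_mem_Fc := Fc.mul_mem (ofNat_mem _ _)
    (Fc.inv_mem (Fc.add_mem h.t_mem_Fc (ofNat_mem _ _)))
  e_mem_V := V.mul_mem (ofNat_mem _ _) h.t27_inv_mem_V
  e_int := by
    have e : 27 * (t + 27)⁻¹ = 1 - t * (t + 27)⁻¹ := by
      have ht := h.t27_ne
      field_simp
      ring
    rw [e]
    exact Subring.sub_mem _ (Subring.one_mem _) h.h_int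
  xe_int := by
    have e : t * (27 * (t + 27)⁻¹) = 27 * (t * (t + 27)⁻¹) := by ring
    rw [e]
    exact Subring.mul_mem _ (ofNat_mem _ _) h.h_int
  y_loc := ⟨3, by
    have e : j⁻¹ * ((t + 27) * (t + 243)) ^ 3 = t ^ 3 * (t + 27) ^ 2 := by
      have hj := h.j_ne
      field_simp
      linear_combination (-(t + 27) ^ 2) * h.rel
    rw [e]
    have ht := self_mem_polyRing107 R t
    exact le_intCl107 _ (Subring.mul_mem _ (Subring.pow_mem _ ht 3)
      (Subring.pow_mem _ (Subring.add_mem _ ht (ofNat_mem _ _)) 2))⟩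
  e_inv := ⟨(t + 27) * (27 : Ω)⁻¹,
    le_intCl107 _ (Subring.mul_mem _ (Subring.add_mem _ (self_mem_polyRing107 R t) (ofNat_mem _ _))
      (le_polyRing107 R t h.inv27_mem)), 0, by
    have ht := h.t27_ne
    have hc := h.c27_ne
    field_simp⟩

theorem open1_inf (h : HauptT3107 Fc R V j t) : OpenData107 Fc R V t⁻¹ j t⁻¹ 1 where
  g_mem := self_mem_polyRing107 R t⁻¹
  e_mem_Fc := Fc.one_mem
  e_mem_V := V.one_mem
  e_int := Subring.one_mem _
  xe_int := by rw [mul_one]; exact h.tinv_int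
  y_loc := ⟨1, by
    have e : j * t⁻¹ ^ 1 = (1 + 27 * t⁻¹) * (1 + 243 * t⁻¹) ^ 3 := by
      have ht := h.t_ne
      field_simp
      linear_combination h.rel
    rw [e]
    have hs := self_mem_polyRing107 R t⁻¹
    exact le_intCl107 _ (Subring.mul_mem _
      (Subring.add_mem _ (Subring.one_mem _) (Subring.mul_mem _ (ofNat_mem _ _) hs))
      (Subring.pow_mem _ (Subring.add_mem _ (Subring.one_mem _)
        (Subring.mul_mem _ (ofNat_mem _ _) hs)) 3))⟩
  e_inv := ⟨1, Subring.one_mem _, 0, by simp⟩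

theorem open2_inf (h : HauptT3107 Fc R V j t) :
    OpenData107 Fc R V t⁻¹ j⁻¹ ((1 + 27 * t⁻¹) * (1 + 243 * t⁻¹)) (t * (t + 27)⁻¹) where
  g_mem := by
    have hs := self_mem_polyRing107 R t⁻¹
    exact Subring.mul_mem _
      (Subring.add_mem _ (Subring.one_mem _) (Subring.mul_mem _ (ofNat_mem _ _) hs))
      (Subring.add_mem _ (Subring.one_mem _) (Subring.mul_mem _ (ofNat_mem _ _) hs))
  e_mem_Fc := Fc.mul_mem h.t_mem_Fc (Fc.inv_mem (Fc.add_mem h.t_mem_Fc (ofNat_mem _ _)))
  e_mem_V := V.mul_mem h.t_mem_V h.t27_inv_mem_V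
  e_int := h.h_int
  xe_int := by
    have e : t⁻¹ * (t * (t + 27)⁻¹) = (1 - t * (t + 27)⁻¹) * (27 : Ω)⁻¹ := by
      have ht := h.t_ne
      have ht' := h.t27_ne
      have hc := h.c27_ne
      field_simp
      ring
    rw [e]
    exact Subring.mul_mem _ (Subring.sub_mem _ (Subring.one_mem _) h.h_int)
      (le_intCl107 _ (le_polyRing107 R j⁻¹ h.inv27_mem))
  y_loc := ⟨3, by
    have e : j⁻¹ * ((1 + 27 * t⁻¹) * (1 + 243 * t⁻¹)) ^ 3 = t⁻¹ * (1 + 27 * t⁻¹) ^ 2 := by
      have hj := h.j_ne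
      have ht := h.t_ne
      field_simp
      linear_combination (-(t + 27) ^ 2) * h.rel
    rw [e]
    have hs := self_mem_polyRing107 R t⁻¹
    exact le_intCl107 _ (Subring.mul_mem _ hs (Subring.pow_mem _
      (Subring.add_mem _ (Subring.one_mem _) (Subring.mul_mem _ (ofNat_mem _ _) hs)) 2))⟩
  e_inv := ⟨1 + 27 * t⁻¹, le_intCl107 _ (Subring.add_mem _ (Subring.one_mem _)
      (Subring.mul_mem _ (ofNat_mem _ _) (self_mem_polyRing107 R t⁻¹))), 0, by
    have ht := h.t_ne
    have ht' := h.t27_ne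
    field_simp⟩

/-- **QEP for the chart of `t₃`.** -/
theorem qep_fin (h : HauptT3107 Fc R V j t) {w : Ω} (hw : w ∈ Fc)
    (q₁ : Qep107 Fc R V w j) (q₂ : Qep107 Fc R V w j⁻¹) : Qep107 Fc R V w t := by
  have h6 := le_polyRing107 R t h.inv6561_mem
  refine qep_transfer107 (a := -((t + 270) * (6561 : Ω)⁻¹)) (b := (6561 : Ω)⁻¹) hw q₁ q₂
    h.open1_fin h.open2_fin
    (Subring.neg_mem _ (Subring.mul_mem _
      (Subring.add_mem _ (self_mem_polyRing107 R t) (ofNat_mem _ _)) h6)) h6 ?_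
  have hc := h.c6561_ne
  field_simp
  ring

/-- **QEP for the chart of `t₃⁻¹`.** -/
theorem qep_inf (h : HauptT3107 Fc R V j t) {w : Ω} (hw : w ∈ Fc)
    (q₁ : Qep107 Fc R V w j) (q₂ : Qep107 Fc R V w j⁻¹) : Qep107 Fc R V w t⁻¹ := by
  refine qep_transfer107 (a := -(270 + 6561 * t⁻¹)) (b := 1) hw q₁ q₂ h.open1_inf h.open2_inf
    (Subring.neg_mem _ (Subring.add_mem _ (ofNat_mem _ _)
      (Subring.mul_mem _ (ofNat_mem _ _) (self_mem_polyRing107 R t⁻¹)))) (Subring.one_mem _) ?_
  ring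

end HauptT3107

end Fermat.Agent.S18.H107

end
-- ===== PACK-END S18/H107/T3Qep.lean

-- ===== PACK-BEGIN S18/H438/Front/Divisor.lean
section





/-!
# S18 / ALG-FRONT (helper438), part 8: `H754.DivisibleDivisor` for a chart

* `divisibleDivisor_of_places` (generic, Mathlib + `H754/KummerSpec`): `B` a Noetherian
  integrally closed domain with fraction field `F`, `ϖ ∈ B` prime, `u ≡ 1 mod ϖ`
  (`H754.OneModPi ϖ u`), and at every discrete valuation subring `W ⊇ B[1/ϖ]` of `F` the element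
  `u` is a unit times an `m`-th power.  Then `H754.DivisibleDivisor B m u`.
* `GoodModelFront.exists_pow_unit_of_dvr` : the place hypothesis from the divisor hypothesis of
  `Alg.AlgMainStatement` (over valuation subrings of `Ω` containing `Lc`), via
  `H845.exists_pow_unit_of_forall_over`.
* `GoodModelFront.divisibleDivisor` : `H754.DivisibleDivisor B m u` for ANY realisation `B` of a
  chart of a good model (`B ⊇ R`, `ϖ ↦ w`).
-/

set_option autoImplicit false
set_option linter.style.haveILetI false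
set_option linter.unusedSectionVars false

noncomputable section

namespace Fermat.Agent.S18.H438

/-- **`DivisibleDivisor` from the places over `B[1/ϖ]`.** -/
theorem divisibleDivisor_of_places {B : Type*} [CommRing B] [IsDomain B] [IsNoetherianRing B]
    [IsIntegrallyClosed B] {F : Type*} [Field F] [Algebra B F] [IsFractionRing B F]
    (ϖ : B) (hϖ : Prime ϖ) (u : F) (hu1 : H754.OneModPi ϖ u) (m : ℕ)
    (hplace : ∀ W : ValuationSubring F, IsDiscreteValuationRing W →
      (∀ b : B, algebraMap B F b ∈ W) → (algebraMap B F ϖ)⁻¹ ∈ W →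
      ∃ s : F, s ≠ 0 ∧ u * s ^ m ∈ W ∧ (u * s ^ m)⁻¹ ∈ W) :
    H754.DivisibleDivisor B m u := by
  have hinj : Function.Injective (algebraMap B F) := IsFractionRing.injective B F
  obtain ⟨a₀, s₀, hs₀, has₀, hu₀⟩ := hu1
  have ha₀ : a₀ ∉ Ideal.span {ϖ} := by
    intro ha
    apply hs₀
    have := Ideal.sub_mem _ ha has₀
    simpa using this
  have hu0 : u ≠ 0 := by
    rintro rfl
    rw [zero_mul] at hu₀
    have : a₀ = 0 := hinj (by rw [← hu₀, map_zero])
    exact ha₀ (this ▸ Ideal.zero_mem _)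
  intro 𝔭 h𝔭 hht
  haveI := h𝔭
  by_cases hϖ𝔭 : ϖ ∈ 𝔭
  · -- `𝔭 = (ϖ)`
    have hP : (Ideal.span {ϖ} : Ideal B).IsPrime :=
      (Ideal.span_singleton_prime hϖ.ne_zero).2 hϖ
    have hle : Ideal.span {ϖ} ≤ 𝔭 := (Ideal.span_singleton_le_iff_mem _).2 hϖ𝔭
    have hne : (Ideal.span {ϖ} : Ideal B) ≠ ⊥ := by
      rw [Ne, Ideal.span_singleton_eq_bot]; exact hϖ.ne_zero
    have h1 : 𝔭.height ≤ (Ideal.span {ϖ} : Ideal B).height := by
      rw [hht, Order.one_le_iff_pos, pos_iff_ne_zero, Ne, Ideal.height_eq_zero_iff_eq_bot]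
      exact hne
    have heq : Ideal.span {ϖ} = 𝔭 := Ideal.eq_of_le_of_height_le (h := hle) (h_height := h1)
    refine ⟨1, a₀, s₀, ?_, ?_, ?_⟩
    · rw [← heq]; exact ha₀
    · rw [← heq]; exact hs₀
    · rw [one_pow, mul_one]; exact hu₀
  · -- a horizontal prime: `B_𝔭` is a DVR containing `B[1/ϖ]`
    obtain ⟨W, hW, hmem⟩ := exists_dvr_of_height_one (F := F) 𝔭 hht
    have h1𝔭 : (1 : B) ∉ 𝔭 := fun h => h𝔭.ne_top ((Ideal.eq_top_iff_one _).2 h)
    have hBW : ∀ b : B, algebraMap B F b ∈ W := fun b =>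
      (hmem _).2 ⟨b, 1, h1𝔭, by rw [map_one, mul_one]⟩
    have hϖ0 : algebraMap B F ϖ ≠ 0 := fun h => hϖ.ne_zero (hinj (by rw [h, map_zero]))
    have hϖW : (algebraMap B F ϖ)⁻¹ ∈ W :=
      (hmem _).2 ⟨1, ϖ, hϖ𝔭, by rw [inv_mul_cancel₀ hϖ0, map_one]⟩
    obtain ⟨t, ht0, h1, h2⟩ := hplace W hW hBW hϖW
    obtain ⟨a, s, hs, has⟩ := (hmem _).1 h1
    obtain ⟨a', s', hs', has'⟩ := (hmem _).1 h2
    refine ⟨t, a, s, ?_, hs, has⟩
    intro ha
    have hut : u * t ^ m ≠ 0 := mul_ne_zero hu0 (pow_ne_zero _ ht0)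
    have h3 : algebraMap B F (a * a') = algebraMap B F (s * s') := by
      rw [map_mul, map_mul, ← has, ← has']
      field_simp
    have h4 : a * a' = s * s' := hinj h3
    have h5 : s * s' ∈ 𝔭 := h4 ▸ 𝔭.mul_mem_right _ ha
    rcases h𝔭.mem_or_mem h5 with h | h
    · exact hs h
    · exact hs' h

open Alg

variable {Ω : Type*} [Field Ω] {Lc Ec Fc : Subfield Ω} {R V : Subring Ω} {w x : Ω}
  {S : Finset Ω}

namespace GoodModelFront

variable (G : GoodModel Lc Ec Fc R V w x S)

include G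

/-- A valuation subring of `Fc` containing `R` and `w⁻¹` contains `Ec`. -/
theorem ec_mem_of_inv_mem (W : ValuationSubring Fc) (hRW : ∀ r ∈ Rf Fc R, r ∈ W)
    (hwW : (wf G)⁻¹ ∈ W) : ∀ e : Fc, (e : Ω) ∈ Ec → e ∈ W := by
  intro e he
  rcases G.R_total e he with h1 | h1
  · exact hRW e h1
  · by_cases he0 : e = 0
    · rw [he0]; exact W.zero_mem
    have he0' : (e : Ω) ≠ 0 := fun h => he0 (Subtype.ext h)
    obtain ⟨n, -, hn⟩ := G.w_discrete (e : Ω)⁻¹ h1 (inv_ne_zero he0')
    have hmem : (e⁻¹ * (wf G)⁻¹ ^ n)⁻¹ ∈ W := hRW _ hn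
    have hw0 : wf G ≠ 0 := wf_ne_zero G
    have : e = (e⁻¹ * (wf G)⁻¹ ^ n)⁻¹ * (wf G)⁻¹ ^ n := by
      field_simp
    rw [this]
    exact mul_mem hmem (pow_mem hwW n)

/-- **The place hypothesis** of `divisibleDivisor_of_places` from the divisor hypothesis of
`Alg.AlgMainStatement`. -/
theorem exists_pow_unit_of_dvr {u : Fc} (hu : u ≠ 0) {m : ℕ}
    (hdiv : ∀ O : ValuationSubring Ω, (∀ a ∈ Lc, a ∈ O) →
      ∃ t : Ω, t ≠ 0 ∧ (u : Ω) * t ^ m ∈ O ∧ ((u : Ω) * t ^ m)⁻¹ ∈ O)
    (W : ValuationSubring Fc) (hW : IsDiscreteValuationRing W)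
    (hRW : ∀ r ∈ Rf Fc R, r ∈ W) (hwW : (wf G)⁻¹ ∈ W) :
    ∃ s : Fc, s ≠ 0 ∧ u * s ^ m ∈ W ∧ (u * s ^ m)⁻¹ ∈ W := by
  haveI := G.charZero
  exact H845.exists_pow_unit_of_forall_over Lc Ec Fc G.E_le_F G.L_algebraic G.compositum hu hdiv W
    (ec_mem_of_inv_mem G W hRW hwW)

/-- **`DivisibleDivisor` for any realisation `B` of a chart of a good model.** -/
theorem divisibleDivisor {B : Type*} [CommRing B] [IsDomain B] [IsNoetherianRing B]
    [IsIntegrallyClosed B] [Algebra B Fc] [IsFractionRing B Fc]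
    (hRB : ∀ r ∈ Rf Fc R, ∃ b : B, algebraMap B Fc b = r)
    (ϖ : B) (hϖ : Prime ϖ) (hϖw : algebraMap B Fc ϖ = wf G)
    {u : Fc} (hu1 : H754.OneModPi ϖ u) {m : ℕ}
    (hdiv : ∀ O : ValuationSubring Ω, (∀ a ∈ Lc, a ∈ O) →
      ∃ t : Ω, t ≠ 0 ∧ (u : Ω) * t ^ m ∈ O ∧ ((u : Ω) * t ^ m)⁻¹ ∈ O) :
    H754.DivisibleDivisor B m u := by
  have hinj : Function.Injective (algebraMap B Fc) := IsFractionRing.injective B Fc
  have hu0 : u ≠ 0 := by
    obtain ⟨a₀, s₀, hs₀, has₀, hu₀⟩ := hu1
    rintro rfl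
    rw [zero_mul] at hu₀
    have : a₀ = 0 := hinj (by rw [← hu₀, map_zero])
    apply hs₀
    have := Ideal.sub_mem _ (this ▸ Ideal.zero_mem (Ideal.span {ϖ}) : a₀ ∈ Ideal.span {ϖ}) has₀
    simpa using this
  refine divisibleDivisor_of_places ϖ hϖ u hu1 m fun W hW hBW hϖW => ?_
  refine exists_pow_unit_of_dvr G hu0 hdiv W hW (fun r hr => ?_) (by rwa [hϖw] at hϖW)
  obtain ⟨b, hb⟩ := hRB r hr
  rw [← hb]
  exact hBW b

end GoodModelFront

end Fermat.Agent.S18.H438

end
end
-- ===== PACK-END S18/H438/Front/Divisor.lean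

-- ===== PACK-BEGIN S18/B12/H278/SF.lean
section


/-!
# b2-SF and b2-SF' (helper278): proofs of the frozen statements `SFIdemStatement` and
`SFLatticeStatement` of `Fermat/Agent/S18/B12/Spec.lean`.

Both are instances of `exists_smul_mem_range_of_isIntegral` (`Transfer.lean`), which is the
localisation at `(t)` of the DVR normality criterion `mem_range_of_isIntegral`
(`Fermat/Agent/S37/H278/Normal.lean`).
-/

set_option autoImplicit false
set_option linter.style.haveILetI false
set_option linter.unusedSectionVars false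

namespace Fermat.Agent.S18.B12.H278

open Module Polynomial Fermat.Agent.S37.H278

universe u v

/-- An idempotent is integral. -/
theorem isIntegral_of_mul_self_eq {Λ : Type*} [CommRing Λ] [Nontrivial Λ] {L : Type*} [CommRing L] [Algebra Λ L]
    {ε : L} (hε : ε * ε = ε) : IsIntegral Λ ε := by
  refine ⟨X ^ 2 - X, ?_, ?_⟩
  · apply monic_X_pow_sub
    rw [degree_X]
    norm_num
  · simp [pow_two, hε]

/-- **b2-SF'** (= frozen statement `SFIdemStatement` of `B12/Spec.lean`, unfolded). -/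
theorem sfIdem :
  ∀ (Λ : Type u) [CommRing Λ] [IsDomain Λ] [IsPrincipalIdealRing Λ] (t : Λ) (_ : Prime t)
    (L : Type v) [CommRing L] [Algebra Λ L] [Module.IsTorsionFree Λ L] (C : Subalgebra Λ L)
    (n : ℕ) (b : Module.Basis (Fin n) Λ C)
    (s : ℕ) (y : Fin s → C)
    (_ : ∀ x : C, ∃ a : Fin s → Λ,
        x - ∑ i, a i • y i ∈ (Ideal.span {algebraMap Λ C t}).radical),
    Algebra.discr Λ b ≠ 0 → ¬ t ^ (n - s + 1) ∣ Algebra.discr Λ b →
    ∀ ε : L, ε * ε = ε → (∃ g₀ : Λ, g₀ ≠ 0 ∧ g₀ • ε ∈ C) → ∃ g : Λ, ¬ t ∣ g ∧ g • ε ∈ C := by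
  intro Λ _ _ _ t ht L _ _ _ C n b s y hy _ hd ε hε hε0
  have hL : ∀ (g : Λ) (l : L), g ≠ 0 → g • l = 0 → l = 0 := by
    intro g l hg h
    have hreg : IsSMulRegular L g := Module.IsTorsionFree.isSMulRegular (IsRegular.of_ne_zero hg)
    exact hreg (by simpa using h)
  have hx0 : ∃ g₀ : Λ, g₀ ≠ 0 ∧ g₀ • ε ∈ (C.val : C →ₐ[Λ] L).range := by
    obtain ⟨g₀, h0, h1⟩ := hε0
    exact ⟨g₀, h0, ⟨⟨_, h1⟩, rfl⟩⟩
  obtain ⟨g, hg, c, hc⟩ := exists_smul_mem_range_of_isIntegral ht hL C.val
    Subtype.val_injective b s y hy (by simpa using hd) ε (isIntegral_of_mul_self_eq hε) hx0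
  refine ⟨g, hg, ?_⟩
  have hc' : (c : L) = g • ε := hc
  rw [← hc']
  exact c.2

/-- An injective linear map between free modules of the same finite rank over a domain has
torsion cokernel: `d • N ⊆ range f` for some `d ≠ 0` (`d` = determinant). -/
theorem exists_smul_mem_range_of_injective {Λ : Type*} [CommRing Λ] [IsDomain Λ]
    {M N : Type*} [AddCommGroup M] [AddCommGroup N] [Module Λ M] [Module Λ N]
    {ι : Type*} [Fintype ι] [DecidableEq ι] (b : Basis ι Λ M) (bt : Basis ι Λ N)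
    (f : M →ₗ[Λ] N) (hf : Function.Injective f) :
    ∃ d : Λ, d ≠ 0 ∧ ∀ z : N, d • z ∈ LinearMap.range f := by
  classical
  set A := LinearMap.toMatrix b bt f with hA
  have hdet : A.det ≠ 0 := by
    intro h0
    obtain ⟨v, hv, hAv⟩ := Matrix.exists_mulVec_eq_zero_iff.mpr h0
    have h1 : f (b.equivFun.symm v) = 0 := by
      apply bt.equivFun.injective
      rw [map_zero]
      have := LinearMap.toMatrix_mulVec_repr b bt f (b.equivFun.symm v)
      rw [← hA] at this
      have hv' : ⇑(b.repr (b.equivFun.symm v)) = v := by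
        rw [← Basis.equivFun_apply, LinearEquiv.apply_symm_apply]
      rw [hv', hAv] at this
      funext i
      have := congrFun this i
      simpa using this.symm
    have h2 : b.equivFun.symm v = 0 := hf (by rw [h1, map_zero])
    apply hv
    have := congrArg b.equivFun h2
    rw [LinearEquiv.apply_symm_apply, map_zero] at this
    exact this
  refine ⟨A.det, hdet, fun z => ⟨Matrix.toLin bt b A.adjugate z, ?_⟩⟩
  have h3 : f ∘ₗ Matrix.toLin bt b A.adjugate = A.det • LinearMap.id := by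
    conv_lhs => rw [← Matrix.toLin_toMatrix b bt f, ← hA]
    rw [← Matrix.toLin_mul, Matrix.mul_adjugate, map_smul, Matrix.toLin_one]
  have := LinearMap.congr_fun h3 z
  simpa using this

/-- **b2-SF** (= frozen statement `SFLatticeStatement` of `B12/Spec.lean`, unfolded). -/
theorem sfLattice :
  ∀ (Λ : Type u) [CommRing Λ] [IsDomain Λ] [IsPrincipalIdealRing Λ] (t : Λ) (_ : Prime t)
    (L : Type v) [CommRing L] [Algebra Λ L] (C Ct : Subalgebra Λ L) (_ : C ≤ Ct)
    (n : ℕ) (b : Module.Basis (Fin n) Λ C) (_ : Module.Basis (Fin n) Λ Ct)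
    (s : ℕ) (y : Fin s → C)
    (_ : ∀ x : C, ∃ a : Fin s → Λ,
        x - ∑ i, a i • y i ∈ (Ideal.span {algebraMap Λ C t}).radical),
    Algebra.discr Λ b ≠ 0 → ¬ t ^ (n - s + 1) ∣ Algebra.discr Λ b →
    ∀ x ∈ Ct, ∃ g : Λ, ¬ t ∣ g ∧ g • x ∈ C := by
  intro Λ _ _ _ t ht L _ _ C Ct hle n b bt s y hy _ hd x hx
  haveI : Module.Free Λ Ct := Module.Free.of_basis bt
  have hL : ∀ (g : Λ) (l : Ct), g ≠ 0 → g • l = 0 → l = 0 := by
    intro g l hg h
    exact smul_eq_zero_imp hg h
  have hf : Function.Injective (Subalgebra.inclusion hle) := Subalgebra.inclusion_injective hle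
  haveI : Module.Finite Λ Ct := Module.Finite.of_basis bt
  have hxint : IsIntegral Λ (⟨x, hx⟩ : Ct) := Algebra.IsIntegral.isIntegral _
  obtain ⟨d, hd0, hdr⟩ := exists_smul_mem_range_of_injective b bt
    (Subalgebra.inclusion hle).toLinearMap hf
  have hx0 : ∃ g₀ : Λ, g₀ ≠ 0 ∧ g₀ • (⟨x, hx⟩ : Ct) ∈ (Subalgebra.inclusion hle).range := by
    obtain ⟨c, hc⟩ := hdr ⟨x, hx⟩
    exact ⟨d, hd0, c, hc⟩
  obtain ⟨g, hg, c, hc⟩ := exists_smul_mem_range_of_isIntegral ht hL (Subalgebra.inclusion hle)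
    hf b s y hy (by simpa using hd) ⟨x, hx⟩ hxint hx0
  refine ⟨g, hg, ?_⟩
  have hc' : ((Subalgebra.inclusion hle c : Ct) : L) = g • x := congrArg Subtype.val hc
  rw [← hc']
  exact c.2

end Fermat.Agent.S18.B12.H278

end
-- ===== PACK-END S18/B12/H278/SF.lean

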