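import Mathlib
import Fermat.Prelude.Def_ModularCurve_X0ModL
import Fermat.Prelude.Def_ModularCurve_JqCoeff
import Fermat.Prelude.Def_ModularForm_HeckeOperatorForms
import Fermat.Prelude.Thm_ModularFormClass_qCoeff_heckeT
import Fermat.Agent.Pack.S3234.G0E4L0
import Fermat.Agent.Pack.S3234.G0E4L3
import Fermat.Agent.Pack.S3234.G0E0L2
import Fermat.Agent.Pack.S3234.G0E4L2
import Fermat.Agent.Pack.S3234.G0E0L0
import Fermat.Agent.Pack.S3234.G0E2L1
import Fermat.Agent.Pack.S3234.G0E3L1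
import Fermat.Agent.Pack.S3234.G0E4L1
import Fermat.Agent.Pack.S3234.G0E1L3
import Fermat.Agent.Pack.S3234.G0E1L2
import Fermat.Agent.Pack.S3234.G0E2L3
import Fermat.Agent.Pack.S3234.G0E3L2
import Fermat.Agent.Pack.S3234.G0E1L0

-- ===== PACK-BEGIN S24/Mod/H997Core.lean
section


/-!
# S24 / MOD — the analytic interface `AnalyticCore N` and the assembly of the modular package

`AnalyticCore N` is the complete list of analytic facts needed (besides the degree bound
`[FF N : ℚ̄(j)] ≤ |SL₂(ℤ)/Γ₀(N)|`) to produce all the `LocalData` of helper984's interface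
`ModularPackage N`.
-/

set_option autoImplicit false

noncomputable section

open ModularCurve HahnSeries UpperHalfPlane
open scoped MatrixGroups

namespace Fermat.Agent.S24.H997

variable {N : ℕ} [NeZero N]

/-- Local data at a point of `ℍ` lying over `a = J(τ₀)`: an expansion (Taylor expansion at `τ₀`),
rotation data for the stabilising element `ε`, and the order of vanishing of `J - a`. -/
structure PointData (B : HolBase N) (a : ℂ) (ε : SL(2, ℤ)) where
  X : Expansion B
  R : RotData B X ε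
  order_J : (X.E (B.JH 1 (one_dvd N) - B.constH a)).order = (R.m : ℤ)

/-- **The analytic interface.** -/
structure AnalyticCore (N : ℕ) [NeZero N] extends HolBase N where
  /-- generic points: `J - a` has a simple zero at some `τ₀` -/
  generic : ∀ a : ℂ, a ≠ 0 → a ≠ 1728 → PointData toHolBase a 1

  /-- the point `i` over `1728`, rotation by `S` -/
  at1728 : PointData toHolBase 1728 ModularGroup.S
  /-- the point `ρ` over `0`, rotation by `S * T` -/
  at0 : PointData toHolBase 0 (ModularGroup.S * ModularGroup.T)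
  /-- the cusp `∞`: `qexp (h ∘ T)` is `qexp h` with `z` replaced by `ζ z` -/
  infζ : ℂ
  inf_hζ : IsPrimitiveRoot infζ N
  inf_shift : ∀ (h : Hol) (n : ℤ),
    (qexp (toHolBase.compH ModularGroup.T h)).coeff n = infζ ^ n * (qexp h).coeff n

namespace HolBase

variable (B : HolBase N)

/-- the expansion at `∞` -/
def qexpExpansion : Expansion B := ⟨B.qexp, B.qexp_injective, B.qexp_const⟩

theorem qexp_J_one_coeff (k : ℤ) :
    (B.qexp (B.JH 1 (one_dvd N))).coeff k
      = if (N : ℤ) ∣ k then ((jq.coeff (k / (N : ℤ)) : ℚ) : ℂ) else 0 := by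
  have := B.qexp_J 1 (one_dvd N) k
  simpa [JH] using this

theorem qexp_J_one_ne_zero : B.qexp (B.JH 1 (one_dvd N)) ≠ 0 := by
  apply ne_zero_of_coeff_ne_zero (g := -(N : ℤ))
  rw [qexp_J_one_coeff, if_pos (dvd_neg.mpr dvd_rfl)]
  have hN : (N : ℤ) ≠ 0 := by exact_mod_cast NeZero.ne N
  rw [Int.neg_ediv_of_dvd dvd_rfl, Int.ediv_self hN, coeff_jq_neg_one]
  simp

theorem order_qexp_J_one : (B.qexp (B.JH 1 (one_dvd N))).order = -(N : ℤ) := by
  have hN : (N : ℤ) ≠ 0 := by exact_mod_cast NeZero.ne N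
  have hNpos : (0 : ℤ) < N := by exact_mod_cast Nat.pos_of_ne_zero (NeZero.ne N)
  apply le_antisymm
  · apply order_le_of_coeff_ne_zero
    rw [qexp_J_one_coeff, if_pos (dvd_neg.mpr dvd_rfl)]
    rw [Int.neg_ediv_of_dvd dvd_rfl, Int.ediv_self hN, coeff_jq_neg_one]
    simp
  · by_contra hlt
    replace hlt := lt_of_not_ge hlt
    have h0 := coeff_order_eq_zero.not.mpr B.qexp_J_one_ne_zero
    apply h0
    rw [qexp_J_one_coeff]
    split_ifs with hdvd
    · obtain ⟨m, hm⟩ := hdvd
      rw [hm, Int.mul_ediv_cancel_left _ hN]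
      have : m < -1 := by
        rw [hm] at hlt
        by_contra hge
        replace hge := le_of_not_gt hge
        have : (N : ℤ) * m ≥ N * (-1) := mul_le_mul_of_nonneg_left hge hNpos.le
        linarith
      rw [coeff_jq_of_lt this]
      simp
    · rfl

end HolBase

/-- Rotation data from a coefficientwise statement `coeff_n (E (h ∘ ε)) = ζ^n coeff_n (E h)`. -/
def RotData.ofCoeff (B : HolBase N) (X : Expansion B) (ε : SL(2, ℤ)) (m : ℕ) (m_pos : 0 < m)
    (ζ : ℂ) (hζ : IsPrimitiveRoot ζ m)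
    (h : ∀ (f : B.Hol) (n : ℤ), (X.E (B.compH ε f)).coeff n = ζ ^ n * (X.E f).coeff n) :
    RotData B X ε where
  m := m
  m_pos := m_pos
  ζ := ζ
  hζ := hζ
  rot f := by
    have hζ0 : ζ ≠ 0 := hζ.ne_zero m_pos.ne'
    by_cases hf : X.E f = 0
    · have : X.E (B.compH ε f) = 0 := by
        ext n; rw [h, hf]; simp
      rw [hf, this]; exact RotRel.zero
    · have hf' : X.E (B.compH ε f) ≠ 0 := by
        intro h0
        apply hf
        ext n
        have := congrArg (fun s => s.coeff n) h0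
        simp only [h, coeff_zero, mul_eq_zero, zpow_ne_zero n hζ0, false_or] at this
        simpa using this
      have hord : (X.E (B.compH ε f)).order = (X.E f).order := by
        apply le_antisymm
        · apply order_le_of_coeff_ne_zero
          rw [h]
          exact mul_ne_zero (zpow_ne_zero _ hζ0) (coeff_order_eq_zero.not.mpr hf)
        · apply order_le_of_coeff_ne_zero
          have := coeff_order_eq_zero.not.mpr hf'
          rw [h] at this
          exact right_ne_zero_of_mul this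
      refine ⟨hord, ?_⟩
      rw [leadingCoeff_eq, leadingCoeff_eq, hord, h]

theorem numOrbits_inv {X : Type*} (π : Equiv.Perm X) : numOrbits π⁻¹ = numOrbits π := by
  unfold numOrbits
  rw [Subgroup.zpowers_inv]

theorem permOf_inv (N : ℕ) [NeZero N] (g : SL(2, ℤ)) : permOf N g⁻¹ = (permOf N g)⁻¹ := by
  ext x
  simp [permOf]

theorem permOf_one (N : ℕ) [NeZero N] : permOf N 1 = 1 := by
  ext x
  simp [permOf]

namespace AnalyticCore

variable (A : AnalyticCore N)

/-- rotation data at the cusp -/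
def infRot : RotData A.toHolBase A.toHolBase.qexpExpansion ModularGroup.T :=
  RotData.ofCoeff A.toHolBase A.toHolBase.qexpExpansion ModularGroup.T N
    (Nat.pos_of_ne_zero (NeZero.ne N)) A.infζ A.inf_hζ A.inf_shift

/-- the local data at `∞` -/
def dataInf : LocalData Kbar (FF N) ℂ (XX N) (jF N)⁻¹ :=
  A.toHolBase.mkLocalData A.toHolBase.qexpExpansion ModularGroup.T A.infRot (jF N)⁻¹
    (A.qexp (A.toHolBase.JH 1 (one_dvd N)))⁻¹
    (fun g => by rw [map_inv₀, HolBase.sigmaG_jF]; rfl)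
    (by
      rw [RotRel.order_inv' A.toHolBase.qexp_J_one_ne_zero, A.toHolBase.order_qexp_J_one, neg_neg]
      rfl)

theorem sigmaG_sub {a : Kbar} {ε : SL(2, ℤ)} (P : PointData A.toHolBase (ιK a) ε)
    (g : SL(2, ℤ)) :
    A.toHolBase.sigmaG P.X g (jF N - algebraMap Kbar (FF N) a)
      = P.X.E (A.toHolBase.JH 1 (one_dvd N) - A.toHolBase.constH (ιK a)) := by
  rw [map_sub, HolBase.sigmaG_jF, HolBase.sigmaG_algebraMap, map_sub, P.X.const]

/-- the local data attached to point data over `a` -/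
def dataOfPoint {a : Kbar} {ε : SL(2, ℤ)} (P : PointData A.toHolBase (ιK a) ε) :
    LocalData Kbar (FF N) ℂ (XX N) (jF N - algebraMap Kbar (FF N) a) :=
  A.toHolBase.mkLocalData P.X ε P.R _ _ (fun g => A.sigmaG_sub P g) P.order_J

/-- all the embeddings `σ_x` agree on `ℚ̄(j)` -/
theorem sigmaX_eq_on_adjoin (X : Expansion A.toHolBase) (x y : XX N) {f : FF N}
    (hf : f ∈ IntermediateField.adjoin Kbar {jF N}) :
    A.toHolBase.sigmaX X x f = A.toHolBase.sigmaX X y f := by
  induction hf using IntermediateField.adjoin_induction with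
  | mem z hz =>
      rw [Set.mem_singleton_iff] at hz
      subst hz
      show A.toHolBase.sigmaG X _ (jF N) = A.toHolBase.sigmaG X _ (jF N)
      rw [HolBase.sigmaG_jF, HolBase.sigmaG_jF]
  | algebraMap c =>
      show A.toHolBase.sigmaG X _ _ = A.toHolBase.sigmaG X _ _
      rw [HolBase.sigmaG_algebraMap, HolBase.sigmaG_algebraMap]
  | add z w _ _ hz hw => rw [map_add, map_add, hz, hw]
  | inv z _ hz => rw [map_inv₀, map_inv₀, hz]
  | mul z w _ _ hz hw => rw [map_mul, map_mul, hz, hw]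

/-- lower bound for the degree: `|SL₂(ℤ)/Γ₀(N)| ≤ [FF N : ℚ̄(j)]`. -/
theorem card_le_finrank (A : AnalyticCore N)
    [FiniteDimensional ↥(IntermediateField.adjoin Kbar {jF N}) (FF N)] :
    Nat.card (XX N) ≤ Module.finrank ↥(IntermediateField.adjoin Kbar {jF N}) (FF N) := by
  classical
  set E := IntermediateField.adjoin Kbar {jF N} with hE
  let X := A.toHolBase.qexpExpansion
  let x0 : XX N := ((1 : SL(2, ℤ)) : XX N)
  let ψ : ↥E →+* LaurentSeries ℂ := (A.toHolBase.sigmaX X x0).comp (algebraMap ↥E (FF N))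
  letI : Algebra ↥E (LaurentSeries ℂ) := ψ.toAlgebra
  let a : XX N → (FF N →ₐ[↥E] LaurentSeries ℂ) := fun x =>
    { A.toHolBase.sigmaX X x with
      commutes' := fun y => A.sigmaX_eq_on_adjoin X x x0 y.2 }
  have ha : Function.Injective a := by
    intro x y hxy
    apply A.toHolBase.sigmaX_injective X
    refine RingHom.ext fun f => ?_
    exact congrArg (fun φ : FF N →ₐ[↥E] LaurentSeries ℂ => φ f) hxy
  haveI : Module.Free ↥E (FF N) := Module.Free.of_divisionRing ↥E (FF N)
  haveI : Module.Finite ↥E (FF N) := ‹FiniteDimensional ↥E (FF N)›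
  haveI : Finite (FF N →ₐ[↥E] LaurentSeries ℂ) := Finite.algHom ↥E (FF N) (LaurentSeries ℂ)
  calc Nat.card (XX N) ≤ Nat.card (FF N →ₐ[↥E] LaurentSeries ℂ) :=
        Nat.card_le_card_of_injective a ha
    _ ≤ Module.finrank ↥E (FF N) := card_algHom_le_finrank ↥E (FF N) (LaurentSeries ℂ)

/-- the local data over a finite point `a : ℚ̄` -/
def dataFin (a : Kbar) : LocalData Kbar (FF N) ℂ (XX N) (jF N - algebraMap Kbar (FF N) a) :=
  letI := Classical.propDecidable
  if h0 : a = 0 then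
    A.dataOfPoint (a := a) (ε := ModularGroup.S * ModularGroup.T)
      (by rw [h0, map_zero]; exact A.at0)
  else if h1 : a = 1728 then
    A.dataOfPoint (a := a) (ε := ModularGroup.S)
      (by
        have : ιK a = 1728 := by rw [h1]; exact map_ofNat ιK 1728
        rw [this]; exact A.at1728)
  else
    A.dataOfPoint (a := a) (ε := 1)
      (A.generic (ιK a)
        (fun h => h0 (ιK_injective (by rw [h, map_zero])))
        (fun h => h1 (ιK_injective (by rw [h]; exact (map_ofNat ιK 1728).symm))))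

theorem dataFin_perm_generic (a : Kbar) (h0 : a ≠ 0) (h1 : a ≠ 1728) :
    (A.dataFin a).perm = 1 := by
  unfold dataFin
  rw [dif_neg h0, dif_neg h1]
  show permOf N 1⁻¹ = 1
  rw [inv_one, permOf_one]

theorem dataFin_zero_perm :
    numOrbits (A.dataFin 0).perm = numOrbits (permOf N (ModularGroup.S * ModularGroup.T)) := by
  unfold dataFin
  rw [dif_pos rfl]
  show numOrbits (permOf N (ModularGroup.S * ModularGroup.T)⁻¹) = _
  rw [permOf_inv, numOrbits_inv]

theorem dataFin_1728_perm :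
    numOrbits (A.dataFin 1728).perm = numOrbits (permOf N ModularGroup.S) := by
  have h0 : (1728 : Kbar) ≠ 0 := by norm_num
  unfold dataFin
  rw [dif_neg h0, dif_pos rfl]
  show numOrbits (permOf N ModularGroup.S⁻¹) = _
  rw [permOf_inv, numOrbits_inv]

theorem dataInf_perm :
    numOrbits A.dataInf.perm = numOrbits (permOf N ModularGroup.T) := by
  show numOrbits (permOf N ModularGroup.T⁻¹) = _
  rw [permOf_inv, numOrbits_inv]

/-- **Assembly.**  All fields of helper984's `ModularPackage N` from the analytic core and the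
degree bound. -/
theorem modularPackage_fields (A : AnalyticCore N)
    (hfd : FiniteDimensional ↥(IntermediateField.adjoin Kbar {jF N}) (FF N))
    (hle : Module.finrank ↥(IntermediateField.adjoin Kbar {jF N}) (FF N) ≤ Nat.card (XX N)) :
    ∃ (dataFin : ∀ a : Kbar, LocalData Kbar (FF N) ℂ (XX N) (jF N - algebraMap Kbar (FF N) a))
      (dataInf : LocalData Kbar (FF N) ℂ (XX N) (jF N)⁻¹),
      Module.finrank ↥(IntermediateField.adjoin Kbar {jF N}) (FF N) = Nat.card (XX N) ∧
      (∀ a : Kbar, a ≠ 0 → a ≠ 1728 → (dataFin a).perm = 1) ∧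
      numOrbits (dataFin 0).perm = numOrbits (permOf N (ModularGroup.S * ModularGroup.T)) ∧
      numOrbits (dataFin 1728).perm = numOrbits (permOf N ModularGroup.S) ∧
      numOrbits dataInf.perm = numOrbits (permOf N ModularGroup.T) :=
  ⟨A.dataFin, A.dataInf, le_antisymm hle A.card_le_finrank, A.dataFin_perm_generic,
    A.dataFin_zero_perm, A.dataFin_1728_perm, A.dataInf_perm⟩

end AnalyticCore

end Fermat.Agent.S24.H997

end
end
-- ===== PACK-END S24/Mod/H997Core.lean

-- ===== PACK-BEGIN S24/H624/Germ.lean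
section


/-!
# Taylor coefficients of germs; leading coefficient under Möbius transformations
-/

set_option autoImplicit false

namespace Fermat.Agent.S24.H624

open UpperHalfPlane Complex
open scoped Manifold Topology MatrixGroups

/-- `n`-th Taylor coefficient at `z₀` of a function `ℂ → ℂ`. -/
noncomputable def germCoeff (z₀ : ℂ) (F : ℂ → ℂ) (n : ℕ) : ℂ :=
  iteratedDeriv n F z₀ / (n.factorial : ℂ)

theorem taylorCoeff_eq_germCoeff (τ : ℍ) (f : ℍ → ℂ) (n : ℕ) :
    taylorCoeff τ f n = germCoeff (τ : ℂ) (f ∘ ofComplex) n := rfl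

theorem germCoeff_congr {F G : ℂ → ℂ} {z₀ : ℂ} (h : F =ᶠ[𝓝 z₀] G) (n : ℕ) :
    germCoeff z₀ F n = germCoeff z₀ G n := by
  unfold germCoeff
  rw [h.iteratedDeriv_eq]

theorem germCoeff_zero_idx (z₀ : ℂ) (F : ℂ → ℂ) : germCoeff z₀ F 0 = F z₀ := by
  simp [germCoeff]

theorem germCoeff_mul {F G : ℂ → ℂ} {z₀ : ℂ} (hF : AnalyticAt ℂ F z₀) (hG : AnalyticAt ℂ G z₀)
    (n : ℕ) :
    germCoeff z₀ (F * G) n
      = ∑ p ∈ Finset.HasAntidiagonal.antidiagonal n, germCoeff z₀ F p.1 * germCoeff z₀ G p.2 := by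
  unfold germCoeff
  have hF' : ContDiffAt ℂ n F z₀ := hF.contDiffAt.of_le (by exact_mod_cast le_top)
  have hG' : ContDiffAt ℂ n G z₀ := hG.contDiffAt.of_le (by exact_mod_cast le_top)
  rw [iteratedDeriv_mul hF' hG',
    Finset.Nat.sum_antidiagonal_eq_sum_range_succ
      (fun i j => iteratedDeriv i F z₀ / (i.factorial : ℂ)
        * (iteratedDeriv j G z₀ / (j.factorial : ℂ))) n,
    Finset.sum_div]
  refine Finset.sum_congr rfl fun i hi => ?_
  have hi' : i ≤ n := Nat.lt_succ_iff.mp (Finset.mem_range.mp hi)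
  have h1 : (n.choose i : ℂ)
      = (n.factorial : ℂ) / ((i.factorial : ℂ) * ((n - i).factorial : ℂ)) := by
    rw [Nat.choose_eq_factorial_div_factorial hi']
    rw [Nat.cast_div (Nat.factorial_mul_factorial_dvd_factorial hi')
      (by exact_mod_cast (Nat.mul_pos (Nat.factorial_pos _) (Nat.factorial_pos _)).ne')]
    push_cast
    rfl
  rw [h1]
  have hn : (n.factorial : ℂ) ≠ 0 := by exact_mod_cast (Nat.factorial_pos n).ne'
  have hi0 : (i.factorial : ℂ) ≠ 0 := by exact_mod_cast (Nat.factorial_pos i).ne'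
  have hni : ((n - i).factorial : ℂ) ≠ 0 := by exact_mod_cast (Nat.factorial_pos (n - i)).ne'
  field_simp

theorem germCoeff_sub_id (z₀ : ℂ) (n : ℕ) :
    germCoeff z₀ (fun z => z - z₀) n = if n = 1 then 1 else 0 := by
  unfold germCoeff
  rcases n with _ | _ | n
  · simp
  · have h : deriv (fun z : ℂ => z - z₀) = fun _ => (1 : ℂ) := by
      funext z
      simp
    rw [iteratedDeriv_succ', h]
    simp
  · have h : deriv (fun z : ℂ => z - z₀) = fun _ => (1 : ℂ) := by
      funext z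
      simp
    rw [iteratedDeriv_succ', h, iteratedDeriv_succ']
    simp

theorem germCoeff_sub_mul {G : ℂ → ℂ} {z₀ : ℂ} (hG : AnalyticAt ℂ G z₀) (n : ℕ) :
    germCoeff z₀ (fun z => (z - z₀) * G z) (n + 1) = germCoeff z₀ G n := by
  have hF : AnalyticAt ℂ (fun z : ℂ => z - z₀) z₀ := by fun_prop
  have := germCoeff_mul hF hG (n + 1)
  rw [show (fun z => (z - z₀) * G z) = (fun z : ℂ => z - z₀) * G from rfl, this]
  rw [Finset.sum_eq_single (1, n)]
  · rw [germCoeff_sub_id]
    simp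
  · rintro ⟨i, j⟩ hij hne
    rw [germCoeff_sub_id]
    have hsum : i + j = n + 1 := by simpa using hij
    have hi : i ≠ 1 := by
      rintro rfl
      apply hne
      have : j = n := by omega
      rw [this]
    simp [hi]
  · intro h
    exfalso
    apply h
    simp
    omega

theorem germCoeff_pow_mul {G : ℂ → ℂ} {z₀ : ℂ} (hG : AnalyticAt ℂ G z₀) (n : ℕ) :
    germCoeff z₀ (fun z => (z - z₀) ^ n * G z) n = G z₀ := by
  induction n generalizing G with
  | zero => simp [germCoeff_zero_idx]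
  | succ n ih =>
    have hG' : AnalyticAt ℂ (fun z => (z - z₀) ^ n * G z) z₀ := by fun_prop
    have h1 : (fun z => (z - z₀) ^ (n + 1) * G z)
        = fun z => (z - z₀) * ((z - z₀) ^ n * G z) := by
      funext z
      ring
    rw [h1, germCoeff_sub_mul hG', ih hG]

/-- Leading Taylor coefficient via a local factorisation. -/
theorem germCoeff_of_eventuallyEq {F u : ℂ → ℂ} {z₀ : ℂ} (hu : AnalyticAt ℂ u z₀) {n : ℕ}
    (h : ∀ᶠ z in 𝓝 z₀, F z = (z - z₀) ^ n * u z) : germCoeff z₀ F n = u z₀ := by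
  rw [germCoeff_congr (G := fun z => (z - z₀) ^ n * u z) h, germCoeff_pow_mul hu]

/-- **Leading coefficient form of the rotation lemma.**  If `f` has order `n` at `g • τ`, the
`n`-th Taylor coefficient of `f ∘ g` at `τ` is `(g'(τ)) ^ n` times that of `f` at `g • τ`. -/
theorem taylorCoeff_comp_smul {g : GL (Fin 2) ℝ} (hg : 0 < g.det.val) {f : ℍ → ℂ} (hf : MDiff f)
    (τ : ℍ) {n : ℕ} (hn : ordAt (g • τ) f = n) :
    taylorCoeff τ (fun z : ℍ => f (g • z)) n
      = (((g.det.val : ℝ) : ℂ) / denom g (τ : ℂ) ^ 2) ^ n * taylorCoeff (g • τ) f n := by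
  have hord : analyticOrderAt (f ∘ ofComplex) ((g • τ : ℍ) : ℂ) = (n : ℕ∞) := by
    rw [← ordAt_def, hn]
  obtain ⟨u, hu, -, hfu⟩ :=
    ((analyticAt_of_mdiff hf (g • τ)).analyticOrderAt_eq_natCast).mp hord
  have hd : denom g (τ : ℂ) ≠ 0 := denom_ne_zero g τ
  have hmτ : moeb g (τ : ℂ) = ((g • τ : ℍ) : ℂ) := moeb_coe hg τ
  have hman : AnalyticAt ℂ (moeb g) (τ : ℂ) := analyticAt_moeb g hd
  have hmcont : ContinuousAt (moeb g) (τ : ℂ) := hman.continuousAt
  set c : ℂ := ((g.det.val : ℝ) : ℂ) with hc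
  -- right-hand side: value of u at g τ
  have hR : taylorCoeff (g • τ) f n = u ((g • τ : ℍ) : ℂ) := by
    rw [taylorCoeff_eq_germCoeff]
    refine germCoeff_of_eventuallyEq hu ?_
    filter_upwards [hfu] with z hz
    rw [hz, smul_eq_mul]
  -- left-hand side
  have h2 : ∀ᶠ z in 𝓝 (τ : ℂ), (f ∘ ofComplex) (moeb g z)
      = (moeb g z - ((g • τ : ℍ) : ℂ)) ^ n • u (moeb g z) := by
    have : Filter.Tendsto (moeb g) (𝓝 (τ : ℂ)) (𝓝 ((g • τ : ℍ) : ℂ)) := by
      have := hmcont.tendsto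
      rwa [hmτ] at this
    exact this.eventually hfu
  have h3 : ∀ᶠ z in 𝓝 (τ : ℂ), denom g z ≠ 0 :=
    (hasDerivAt_denom g _).continuousAt.eventually_ne hd
  have hden_an : AnalyticAt ℂ (fun z => denom g z * denom g (τ : ℂ)) (τ : ℂ) := by
    have : (fun z => denom g z * denom g (τ : ℂ))
        = fun w : ℂ => (((g 1 0 : ℝ) : ℂ) * w + ((g 1 1 : ℝ) : ℂ)) * denom g (τ : ℂ) := by
      funext w; simp [denom]
    rw [this]
    fun_prop
  have hU : AnalyticAt ℂ (fun z => (c / (denom g z * denom g (τ : ℂ))) ^ n * u (moeb g z))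
      (τ : ℂ) := by
    have h1 : AnalyticAt ℂ (fun z => c / (denom g z * denom g (τ : ℂ))) (τ : ℂ) :=
      analyticAt_const.div hden_an (mul_ne_zero hd hd)
    have h2' : AnalyticAt ℂ (fun z => u (moeb g z)) (τ : ℂ) := by
      have : AnalyticAt ℂ u (moeb g (τ : ℂ)) := by rw [hmτ]; exact hu
      exact AnalyticAt.fun_comp this hman
    exact (h1.pow n).mul h2'
  have hL : taylorCoeff τ (fun z : ℍ => f (g • z)) n
      = (c / (denom g (τ : ℂ) * denom g (τ : ℂ))) ^ n * u (moeb g (τ : ℂ)) := by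
    rw [taylorCoeff_eq_germCoeff]
    refine germCoeff_of_eventuallyEq (u := fun z => (c / (denom g z * denom g (τ : ℂ))) ^ n
      * u (moeb g z)) hU ?_
    filter_upwards [eventuallyEq_comp_smul hg f τ, h2, h3] with z e1 e2 e3
    rw [e1]
    simp only [Function.comp_apply] at e2 ⊢
    rw [e2, ← hmτ, moeb_sub_moeb g e3 hd, smul_eq_mul, ← mul_assoc, ← mul_pow]
    congr 2
    ring
  rw [hL, hR, hmτ, sq]

/-- `SL(2, ℤ)` version for the left action `(γ • f) τ = f (γ⁻¹ • τ)`. -/
theorem taylorCoeff_smul_holoRing (γ : SL(2, ℤ)) (f : holoRing) (τ : ℍ) {n : ℕ}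
    (hn : ordAt (γ⁻¹ • τ) (f : ℍ → ℂ) = n) :
    taylorCoeff τ ((γ • f : holoRing) : ℍ → ℂ) n
      = (1 / denom ((γ⁻¹ : SL(2, ℤ)) : GL (Fin 2) ℝ) (τ : ℂ) ^ 2) ^ n
        * taylorCoeff (γ⁻¹ • τ) (f : ℍ → ℂ) n := by
  have h := taylorCoeff_comp_smul (g := ((γ⁻¹ : SL(2, ℤ)) : GL (Fin 2) ℝ))
    (det_coe_SL_pos γ⁻¹) f.2 τ (n := n) hn
  rw [det_coe_SL, Complex.ofReal_one] at h
  exact h

end Fermat.Agent.S24.H624

end
-- ===== PACK-END S24/H624/Germ.lean

-- ===== PACK-BEGIN S37/Core/Weak.lean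
section


/-!
# S37 row (helper37): weak reduction data suffice

`IsWeakRed` drops the field `frob_ker` of `Fermat.Agent.S37.H99.IsRed` and asks for the
Eichler-Shimura relation at ONE Frobenius element `σ₀` only.  From a weak reduction map `red`
we build `red' x = (n ↦ red (σ₀ ^ n • x))`, which satisfies all four fields of `IsRed`.
Consequently the geometric part of S37 never has to talk about a Frobenius action on the
special fibre.
-/

set_option autoImplicit false

noncomputable section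

namespace Fermat.Agent.S37.Core

open ModularCurve ValuationSubring Fermat.Agent.S37.H99

section Abstract

variable {K L : Type*} [Field K] [Field L] [Algebra K L]
variable (p : ℕ) (J : Type) [AddCommGroup J] [Module HeckeAlg J]
  [DistribMulAction (L ≃ₐ[K] L) J] [SMulCommClass (L ≃ₐ[K] L) HeckeAlg J]

/-- Weak reduction data at `(A, ℓ)` relative to ONE Frobenius element `σ₀`. -/
structure IsWeakRed (A : ValuationSubring L) (ℓ : ℕ) (hℓ : ℓ.Prime) (σ₀ : L ≃ₐ[K] L)
    {Y : Type*} [AddCommGroup Y] (red : J →+ Y) : Prop where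
  frob : A.IsFrobeniusAt σ₀ ℓ
  inertia : ∀ τ ∈ A.inertiaSubgroupIn K, ∀ x : J, red (τ • x) = red x
  inj_torsion : ∀ x : J, (∃ n : ℕ, p ^ n • x = 0) → red x = 0 → x = 0
  relation : ∀ x : J, red (σ₀ • σ₀ • x - heckeGen ⟨ℓ, hℓ⟩ • (σ₀ • x) + ℓ • x) = 0

variable {p J}

/-- the inertia subgroup is stable under conjugation by the decomposition group -/
theorem conj_mem_inertiaSubgroupIn {A : ValuationSubring L} {g τ : L ≃ₐ[K] L}
    (hg : g ∈ A.decompositionSubgroup K) (hτ : τ ∈ A.inertiaSubgroupIn K) :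
    g * τ * g⁻¹ ∈ A.inertiaSubgroupIn K := by
  obtain ⟨t, ht, rfl⟩ := hτ
  let d : A.decompositionSubgroup K := ⟨g, hg⟩
  haveI : (A.inertiaSubgroup K).Normal := MonoidHom.normal_ker _
  refine ⟨d * t * d⁻¹, Subgroup.Normal.conj_mem ‹_› t ht d, rfl⟩

/-- `red' x = (n ↦ red (σ₀ ^ n • x))` -/
def iterRed (σ₀ : L ≃ₐ[K] L) {Y : Type*} [AddCommGroup Y] (red : J →+ Y) : J →+ (ℕ → Y) where
  toFun x n := red (σ₀ ^ n • x)
  map_zero' := by
    funext n
    simp
  map_add' x y := by
    funext n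
    simp [smul_add]

@[simp] theorem iterRed_apply (σ₀ : L ≃ₐ[K] L) {Y : Type*} [AddCommGroup Y] (red : J →+ Y)
    (x : J) (n : ℕ) : iterRed σ₀ red x n = red (σ₀ ^ n • x) := rfl

theorem IsWeakRed.red_pow_smul_inertia {A : ValuationSubring L} {ℓ : ℕ} {hℓ : ℓ.Prime}
    {σ₀ : L ≃ₐ[K] L} {Y : Type*} [AddCommGroup Y] {red : J →+ Y}
    (h : IsWeakRed (K := K) p J A ℓ hℓ σ₀ red) (n : ℕ) {τ : L ≃ₐ[K] L}
    (hτ : τ ∈ A.inertiaSubgroupIn K) (x : J) :
    red (σ₀ ^ n • τ • x) = red (σ₀ ^ n • x) := by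
  have hg : σ₀ ^ n ∈ A.decompositionSubgroup K :=
    pow_mem h.frob.mem_decompositionSubgroup n
  have hconj := conj_mem_inertiaSubgroupIn hg hτ
  have e : σ₀ ^ n • τ • x = (σ₀ ^ n * τ * (σ₀ ^ n)⁻¹) • (σ₀ ^ n • x) := by
    rw [← mul_smul, ← mul_smul, inv_mul_cancel_right]
  rw [e, h.inertia _ hconj]

theorem IsWeakRed.red_pow_smul_frob {A : ValuationSubring L} {ℓ : ℕ} {hℓ : ℓ.Prime}
    {σ₀ : L ≃ₐ[K] L} {Y : Type*} [AddCommGroup Y] {red : J →+ Y}
    (h : IsWeakRed (K := K) p J A ℓ hℓ σ₀ red) (n : ℕ) {σ : L ≃ₐ[K] L}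
    (hσ : A.IsFrobeniusAt σ ℓ) (x : J) :
    red (σ₀ ^ n • σ • x) = red (σ₀ ^ (n + 1) • x) := by
  have hτ := inv_mul_mem_inertiaSubgroupIn h.frob hσ
  have e : σ₀ ^ n • σ • x = σ₀ ^ (n + 1) • (σ₀⁻¹ * σ) • x := by
    rw [← mul_smul, ← mul_smul, pow_succ, mul_assoc, mul_inv_cancel_left]
  rw [e, h.red_pow_smul_inertia (n + 1) hτ]

/-- **Weak reduction data suffice.** -/
theorem IsWeakRed.isRed_iterRed {A : ValuationSubring L} {ℓ : ℕ} {hℓ : ℓ.Prime}
    {σ₀ : L ≃ₐ[K] L} {Y : Type*} [AddCommGroup Y] {red : J →+ Y}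
    (h : IsWeakRed (K := K) p J A ℓ hℓ σ₀ red) :
    IsRed (K := K) p J A ℓ hℓ (iterRed σ₀ red) where
  inertia τ hτ x := by
    funext n
    exact h.red_pow_smul_inertia n hτ x
  frob_ker σ hσ x hx := by
    funext n
    rw [iterRed_apply, h.red_pow_smul_frob n hσ]
    exact congrFun hx (n + 1)
  inj_torsion x hx hx0 := by
    refine h.inj_torsion x hx ?_
    have := congrFun hx0 0
    simpa using this
  relation σ hσ x := by
    funext n
    have hgal : ∀ (g : L ≃ₐ[K] L) (t : HeckeAlg) (y : J), t • (g • y) = g • (t • y) :=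
      fun g t y => (smul_comm g t y).symm
    have e2 : σ₀ • σ₀ • (σ₀ ^ n • x) = σ₀ ^ (n + 1 + 1) • x := by
      rw [smul_smul, smul_smul, pow_succ' σ₀ (n + 1), pow_succ' σ₀ n, mul_assoc]
    have e1 : σ₀ • (σ₀ ^ n • x) = σ₀ ^ (n + 1) • x := by
      rw [smul_smul, pow_succ' σ₀ n]
    have h1 : red (σ₀ ^ n • σ • σ • x) = red (σ₀ • σ₀ • (σ₀ ^ n • x)) := by
      rw [e2, h.red_pow_smul_frob n hσ (σ • x), h.red_pow_smul_frob (n + 1) hσ x]
    have h2 : red (σ₀ ^ n • (heckeGen ⟨ℓ, hℓ⟩ • (σ • x))) =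
        red (heckeGen ⟨ℓ, hℓ⟩ • (σ₀ • (σ₀ ^ n • x))) := by
      rw [e1, hgal σ (heckeGen ⟨ℓ, hℓ⟩) x, h.red_pow_smul_frob n hσ (heckeGen ⟨ℓ, hℓ⟩ • x),
        hgal (σ₀ ^ (n + 1)) (heckeGen ⟨ℓ, hℓ⟩) x]
    have h3 : red (σ₀ ^ n • ((ℓ : ℕ) • x)) = red ((ℓ : ℕ) • (σ₀ ^ n • x)) := by
      rw [smul_comm]
    have := h.relation (σ₀ ^ n • x)
    rw [map_add, map_sub] at this
    show red (σ₀ ^ n • (σ • σ • x - heckeGen ⟨ℓ, hℓ⟩ • (σ • x) + ℓ • x)) = 0
    rw [smul_add, smul_sub, map_add, map_sub, h1, h2, h3]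
    exact this

variable (p) in
/-- **R1 at one place, weak form.** -/
theorem exists_specialization_of_isWeakRed (A : ValuationSubring L) (ℓ : ℕ) (hℓ : ℓ.Prime)
    (σ₀ : L ≃ₐ[K] L) {Y : Type*} [AddCommGroup Y] (red : J →+ Y)
    (hred : IsWeakRed (K := K) p J A ℓ hℓ σ₀ red) :
    ∃ (J' : Type) (_ : AddCommGroup J') (_ : Module HeckeAlg J') (sp : J →+ J')
      (F : J' →+ J'),
      IsSpecialization (K := K) p J J' A ℓ sp F ∧ SpecialFibreRelation J' ℓ hℓ F :=
  exists_specialization_of_isRed p A ℓ hℓ ⟨σ₀, hred.frob⟩ (iterRed σ₀ red) hred.isRed_iterRed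

end Abstract

end Fermat.Agent.S37.Core

end
end
-- ===== PACK-END S37/Core/Weak.lean

-- ===== PACK-BEGIN S29/H395/Strip.lean
section
/-
S29 / layer M / bridge BR, piece NORM — helper395.

Growth lemma: a continuous, `M`-periodic function on `ℍ` of at most exponential growth on
`im τ ≥ 1` has at most exponential growth on every half plane `im τ ≥ c`, `c > 0`.
Consequence: composition with `τ ↦ (a τ + b) / d` preserves exponential growth.
-/



set_option autoImplicit false
set_option linter.style.haveILetI false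

noncomputable section

open UpperHalfPlane
open scoped Real

namespace Fermat.Agent.S29.H395

open Fermat.Agent.S24 Fermat.Agent.S24.H648

theorem periodic_int_of_periodic {F : ℍ → ℂ} {M : ℝ} (hper : ∀ τ : ℍ, F (M +ᵥ τ) = F τ)
    (k : ℤ) (τ : ℍ) : F ((k * M : ℝ) +ᵥ τ) = F τ := by
  induction k using Int.induction_on generalizing τ with
  | zero => simp
  | succ n ih =>
    have : (((n : ℤ) + 1 : ℤ) * M : ℝ) +ᵥ τ = M +ᵥ (((n : ℤ) * M : ℝ) +ᵥ τ) := by
      rw [vadd_vadd]; congr 1; push_cast; ring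
    rw [this, hper, ih]
  | pred n ih =>
    have h1 := hper ((((-(n : ℤ) - 1 : ℤ)) * M : ℝ) +ᵥ τ)
    have : M +ᵥ ((((-(n : ℤ) - 1 : ℤ)) * M : ℝ) +ᵥ τ) = (((-(n : ℤ) : ℤ)) * M : ℝ) +ᵥ τ := by
      rw [vadd_vadd]; congr 1; push_cast; ring
    rw [this] at h1
    rw [← h1, ih]

/-- Boundedness on a horizontal strip `c ≤ im τ ≤ 1` of a continuous periodic function. -/
theorem exists_bound_strip {F : ℍ → ℂ} (hF : Continuous F) {M : ℝ} (hM : 0 < M)
    (hper : ∀ τ : ℍ, F (M +ᵥ τ) = F τ) {c : ℝ} (hc : 0 < c) :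
    ∃ B : ℝ, 0 ≤ B ∧ ∀ τ : ℍ, c ≤ τ.im → τ.im ≤ 1 → ‖F τ‖ ≤ B := by
  -- the compact rectangle
  let K : Set ℂ := Set.Icc (0 : ℝ) M ×ℂ Set.Icc c 1
  have hK : IsCompact K := isCompact_Icc.reProdIm isCompact_Icc
  have hpos : ∀ z ∈ K, 0 < z.im := fun z hz => lt_of_lt_of_le hc hz.2.1
  haveI : CompactSpace K := isCompact_iff_compactSpace.mp hK
  let g : K → ℍ := fun z => ⟨z.1, hpos z.1 z.2⟩
  have hg : Continuous g := by
    rw [UpperHalfPlane.isEmbedding_coe.continuous_iff]
    exact continuous_subtype_val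
  obtain ⟨B, hB⟩ := (isCompact_range (hF.comp hg)).exists_bound_of_continuousOn
    (f := fun w : ℂ => w) continuousOn_id
  refine ⟨max B 0, le_max_right _ _, fun τ h1 h2 => ?_⟩
  -- translate the real part into `[0, M)`
  set k : ℤ := -⌊τ.re / M⌋ with hk
  have hτ' := periodic_int_of_periodic hper k τ
  set τ' : ℍ := ((k * M : ℝ) +ᵥ τ) with hτ'def
  have hre : τ'.re = k * M + τ.re := by rw [hτ'def, UpperHalfPlane.vadd_re]
  have him : τ'.im = τ.im := by rw [hτ'def, UpperHalfPlane.vadd_im]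
  have hfl := Int.floor_le (τ.re / M)
  have hfl' := Int.lt_floor_add_one (τ.re / M)
  have hkc : (k : ℝ) = -(⌊τ.re / M⌋ : ℝ) := by rw [hk]; push_cast; ring
  have h0 : 0 ≤ τ'.re := by
    rw [hre, hkc]
    have : (⌊τ.re / M⌋ : ℝ) * M ≤ τ.re := by
      have := mul_le_mul_of_nonneg_right hfl hM.le
      rwa [div_mul_cancel₀ _ hM.ne'] at this
    linarith
  have h1' : τ'.re ≤ M := by
    rw [hre, hkc]
    have : τ.re < ((⌊τ.re / M⌋ : ℝ) + 1) * M := by
      have := mul_lt_mul_of_pos_right hfl' hM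
      rwa [div_mul_cancel₀ _ hM.ne'] at this
    linarith
  have hmem : (τ' : ℂ) ∈ K := by
    refine ⟨⟨?_, ?_⟩, ⟨?_, ?_⟩⟩
    · simpa using h0
    · simpa using h1'
    · simpa [him] using h1
    · simpa [him] using h2
  have hb := hB (F τ') ⟨⟨(τ' : ℂ), hmem⟩, by
    show F (g ⟨(τ' : ℂ), hmem⟩) = F τ'
    congr 1⟩
  rw [← hτ']
  exact le_trans hb (le_max_left _ _)

/-- Exponential growth on `im τ ≥ c` for every `c > 0`. -/
theorem expGrowth_halfPlane {F : ℍ → ℂ} (hF : Continuous F) {M : ℝ} (hM : 0 < M)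
    (hper : ∀ τ : ℍ, F (M +ᵥ τ) = F τ) (hgr : ExpGrowth F) {c : ℝ} (hc : 0 < c) :
    ∃ (C : ℝ) (m : ℕ), 0 ≤ C ∧
      ∀ τ : ℍ, c ≤ τ.im → ‖F τ‖ ≤ C * Real.exp (2 * π * m * τ.im) := by
  obtain ⟨C0, m, h0⟩ := hgr
  obtain ⟨B, hB0, hB⟩ := exists_bound_strip hF hM hper hc
  refine ⟨max |C0| B, m, le_trans (abs_nonneg _) (le_max_left _ _), fun τ hτ => ?_⟩
  have hexp : 1 ≤ Real.exp (2 * π * m * τ.im) := by
    apply Real.one_le_exp
    have := τ.im_pos
    positivity
  by_cases h1 : 1 ≤ τ.im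
  · calc ‖F τ‖ ≤ C0 * Real.exp (2 * π * m * τ.im) := h0 τ h1
      _ ≤ |C0| * Real.exp (2 * π * m * τ.im) := by
          gcongr; exact le_abs_self _
      _ ≤ max |C0| B * Real.exp (2 * π * m * τ.im) := by
          gcongr; exact le_max_left _ _
  · have := hB τ hτ (le_of_not_ge h1)
    calc ‖F τ‖ ≤ B := this
      _ ≤ max |C0| B := le_max_right _ _
      _ = max |C0| B * 1 := (mul_one _).symm
      _ ≤ max |C0| B * Real.exp (2 * π * m * τ.im) :=
          mul_le_mul_of_nonneg_left hexp (le_trans (abs_nonneg _) (le_max_left _ _))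

theorem infAff_im {a d : ℕ} (ha : 0 < a) (hd : 0 < d) (b : ℤ) (τ : ℍ) :
    (infAff a b d τ).im = a * τ.im / d := by
  have h := congrArg Complex.im (infAff_coe ha hd b τ)
  rw [UpperHalfPlane.coe_im] at h
  rw [h]
  have : ((a : ℂ) * τ + b) / d = (((a : ℝ) : ℂ) * τ + ((b : ℝ) : ℂ)) / ((d : ℝ) : ℂ) := by
    push_cast; rfl
  rw [this, Complex.div_ofReal_im]
  simp

/-- Composition with `τ ↦ (a τ + b) / d` preserves exponential growth (for continuous periodic
functions). -/
theorem expGrowth_comp_infAff {F : ℍ → ℂ} (hF : Continuous F) {M : ℝ} (hM : 0 < M)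
    (hper : ∀ τ : ℍ, F (M +ᵥ τ) = F τ) (hgr : ExpGrowth F) {a d : ℕ} (ha : 0 < a) (hd : 0 < d)
    (b : ℤ) : ExpGrowth (fun τ => F (infAff a b d τ)) := by
  have hc : (0 : ℝ) < (a : ℝ) / d := by positivity
  obtain ⟨C, m, hC, h⟩ := expGrowth_halfPlane hF hM hper hgr hc
  refine ⟨C, m * a, fun τ hτ => ?_⟩
  have him := infAff_im ha hd b τ
  have h1 : (a : ℝ) / d ≤ (infAff a b d τ).im := by
    rw [him]
    have : (a : ℝ) * 1 / d ≤ a * τ.im / d := by gcongr
    simpa using this
  have h2 : (infAff a b d τ).im ≤ a * τ.im := by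
    rw [him]
    have hd1 : (1 : ℝ) ≤ d := by exact_mod_cast hd
    have := τ.im_pos
    exact div_le_self (by positivity) hd1
  calc ‖F (infAff a b d τ)‖ ≤ C * Real.exp (2 * π * m * (infAff a b d τ).im) := h _ h1
    _ ≤ C * Real.exp (2 * π * (m * a : ℕ) * τ.im) := by
        refine mul_le_mul_of_nonneg_left (Real.exp_le_exp.mpr ?_) hC
        push_cast
        have hpi := Real.pi_pos
        have : (2 * π * m) * (infAff a b d τ).im ≤ (2 * π * m) * (a * τ.im) :=
          mul_le_mul_of_nonneg_left h2 (by positivity)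
        linarith

end Fermat.Agent.S29.H395

end

end
-- ===== PACK-END S29/H395/Strip.lean

-- ===== PACK-BEGIN S29/H942/MeroRoot.lean
section


/-!
# `p`-th roots of meromorphic functions on the upper half plane

Main result: `exists_meromorphic_root_upperHalfPlane`. If `f` is meromorphic on the upper half
plane `{z | 0 < z.im}`, nowhere locally zero, and all its orders are divisible by `p ≠ 0`, then
there is a function `h`, meromorphic (in normal form) on the upper half plane, with `h ^ p = f`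
away from a discrete set.  The root is unique up to a `p`-th root of unity
(`IsNFRootOn.exists_eq_mul`).
-/

set_option autoImplicit false

noncomputable section

open Filter Topology Set Complex MeromorphicOn Function Metric

namespace Fermat.Agent.S29.H942

/-- The upper half plane as a subset of `ℂ`. -/
def uhpSet : Set ℂ := {z : ℂ | 0 < z.im}

lemma mem_uhpSet {z : ℂ} : z ∈ uhpSet ↔ 0 < z.im := Iff.rfl

lemma isOpen_uhpSet : IsOpen uhpSet := isOpen_lt continuous_const Complex.continuous_im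

/-- The centres of the exhausting balls. -/
def exhCenter (n : ℕ) : ℂ := ((n : ℝ) + 1 : ℝ) * I

/-- The radii of the exhausting balls. -/
def exhRadius (n : ℕ) : ℝ := (n : ℝ) + 1 - 1 / ((n : ℝ) + 2)

lemma exhRadius_pos (n : ℕ) : 0 < exhRadius n := by
  unfold exhRadius
  have h1 : (0 : ℝ) ≤ n := Nat.cast_nonneg n
  have h2 : 1 / ((n : ℝ) + 2) < 1 := by
    rw [div_lt_one (by linarith)]
    linarith
  linarith

lemma exhRadius_lt (n : ℕ) : exhRadius n < (n : ℝ) + 1 := by
  unfold exhRadius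
  have h1 : (0 : ℝ) ≤ n := Nat.cast_nonneg n
  have h2 : 0 < 1 / ((n : ℝ) + 2) := by positivity
  linarith

lemma exhCenter_im (n : ℕ) : (exhCenter n).im = (n : ℝ) + 1 := by
  simp [exhCenter]

lemma exhCenter_re (n : ℕ) : (exhCenter n).re = 0 := by
  simp [exhCenter]

lemma closedBall_exh_subset (n : ℕ) : closedBall (exhCenter n) (exhRadius n) ⊆ uhpSet := by
  intro z hz
  rw [mem_closedBall, dist_eq_norm] at hz
  have h1 : |(z - exhCenter n).im| ≤ ‖z - exhCenter n‖ := Complex.abs_im_le_norm _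
  have h2 : (z - exhCenter n).im = z.im - ((n : ℝ) + 1) := by
    rw [Complex.sub_im, exhCenter_im]
  have h3 := (abs_le.1 (h1.trans hz)).1
  rw [h2] at h3
  have h4 := exhRadius_lt n
  rw [mem_uhpSet]
  linarith

lemma ball_exh_subset (n : ℕ) : ball (exhCenter n) (exhRadius n) ⊆ uhpSet :=
  ball_subset_closedBall.trans (closedBall_exh_subset n)

lemma ball_exh_mono : Monotone fun n => ball (exhCenter n) (exhRadius n) := by
  refine monotone_nat_of_le_succ fun n => ?_
  apply ball_subset_ball'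
  have hd : dist (exhCenter n) (exhCenter (n + 1)) = 1 := by
    rw [dist_eq_norm]
    have : exhCenter n - exhCenter (n + 1) = -I := by
      simp only [exhCenter]
      push_cast
      ring
    rw [this, norm_neg, Complex.norm_I]
  rw [hd]
  unfold exhRadius
  have h1 : (0 : ℝ) ≤ n := Nat.cast_nonneg n
  have h2 : 1 / (((n + 1 : ℕ) : ℝ) + 2) ≤ 1 / ((n : ℝ) + 2) := by
    apply one_div_le_one_div_of_le (by linarith)
    push_cast
    linarith
  push_cast at h2 ⊢
  linarith

lemma iUnion_ball_exh : (⋃ n, ball (exhCenter n) (exhRadius n)) = uhpSet := by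
  apply Subset.antisymm
  · exact iUnion_subset fun n => ball_exh_subset n
  · intro z hz
    rw [mem_uhpSet] at hz
    obtain ⟨n, hn⟩ := exists_nat_gt ((z.re ^ 2 + z.im ^ 2 + 2) / (2 * z.im))
    refine mem_iUnion.2 ⟨n, ?_⟩
    rw [mem_ball, dist_eq_norm]
    have hR : (0 : ℝ) < (n : ℝ) + 1 := by positivity
    have hr := exhRadius_pos n
    have hlt : (z.re ^ 2 + z.im ^ 2 + 2) < 2 * z.im * ((n : ℝ) + 1) := by
      have := (div_lt_iff₀ (by linarith : (0 : ℝ) < 2 * z.im)).1 hn
      nlinarith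
    have hsq : ‖z - exhCenter n‖ ^ 2 < exhRadius n ^ 2 := by
      have h1 : ‖z - exhCenter n‖ ^ 2 = z.re ^ 2 + (z.im - ((n : ℝ) + 1)) ^ 2 := by
        rw [Complex.sq_norm, Complex.normSq_apply, Complex.sub_re, Complex.sub_im,
          exhCenter_re, exhCenter_im]
        ring
      rw [h1]
      have h2 : exhRadius n ^ 2 ≥ ((n : ℝ) + 1) ^ 2 - 2 := by
        unfold exhRadius
        have h0 : (0 : ℝ) ≤ n := Nat.cast_nonneg n
        have h3 : 0 < 1 / ((n : ℝ) + 2) := by positivity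
        have h4 : ((n : ℝ) + 1) * (1 / ((n : ℝ) + 2)) ≤ 1 := by
          rw [mul_one_div, div_le_one (by linarith)]
          linarith
        nlinarith [sq_nonneg (1 / ((n : ℝ) + 2))]
      nlinarith
    exact lt_of_pow_lt_pow_left₀ 2 hr.le hsq

/-- **Meromorphic `p`-th roots on the upper half plane** (normal form version). -/
theorem exists_isNFRootOn_upperHalfPlane {f : ℂ → ℂ} (hf : MeromorphicOn f uhpSet)
    (hford : ∀ z ∈ uhpSet, meromorphicOrderAt f z ≠ ⊤) {p : ℕ} (hp : p ≠ 0)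
    (hdiv : ∀ z ∈ uhpSet, (p : ℤ) ∣ (meromorphicOrderAt f z).untop₀) :
    ∃ h : ℂ → ℂ, IsNFRootOn h f uhpSet p := by
  have := exists_isNFRootOn_iUnion (f := f) hp (fun n => ball (exhCenter n) (exhRadius n))
    (fun n => isOpen_ball)
    (fun n => isSimplyConnected_of_convex (convex_ball _ _)
      ⟨exhCenter n, mem_ball_self (exhRadius_pos n)⟩)
    ball_exh_mono
    (fun n => hf.mono_set (ball_exh_subset n))
    (fun n x hx => hford x (ball_exh_subset n hx))
    (fun n => divisor_support_finite_of_subset (hf.mono_set (closedBall_exh_subset n))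
      (isCompact_closedBall _ _) ball_subset_closedBall)
    (fun n x hx => hdiv x (ball_exh_subset n hx))
  rwa [iUnion_ball_exh] at this

/-- Roots in normal form are roots modulo equality on codiscrete sets. -/
lemma IsNFRootOn.eventuallyEq_codiscreteWithin {h f : ℂ → ℂ} {V : Set ℂ} {p : ℕ}
    (hh : IsNFRootOn h f V p) : (h ^ p) =ᶠ[codiscreteWithin V] f := by
  rw [EventuallyEq, eventually_iff, mem_codiscreteWithin_iff_forall_mem_nhdsNE]
  intro x hx
  filter_upwards [hh.2 x hx] with y hy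
  exact Or.inl hy

/-- **Meromorphic `p`-th roots on the upper half plane.** -/
theorem exists_meromorphic_root_upperHalfPlane {f : ℂ → ℂ}
    (hf : MeromorphicOn f {z : ℂ | 0 < z.im})
    (hford : ∀ z : ℂ, 0 < z.im → meromorphicOrderAt f z ≠ ⊤) {p : ℕ} (hp : p ≠ 0)
    (hdiv : ∀ z : ℂ, 0 < z.im → (p : ℤ) ∣ (meromorphicOrderAt f z).untop₀) :
    ∃ h : ℂ → ℂ, MeromorphicNFOn h {z : ℂ | 0 < z.im} ∧
      (∀ z : ℂ, 0 < z.im → (h ^ p) =ᶠ[𝓝[≠] z] f) ∧
      (h ^ p) =ᶠ[codiscreteWithin {z : ℂ | 0 < z.im}] f := by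
  obtain ⟨h, hh⟩ := exists_isNFRootOn_upperHalfPlane (f := f) hf hford hp hdiv
  exact ⟨h, hh.1, hh.2, hh.eventuallyEq_codiscreteWithin⟩

/-- **Uniqueness of meromorphic `p`-th roots on the upper half plane** up to a root of unity. -/
theorem meromorphic_root_upperHalfPlane_unique {f h₁ h₂ : ℂ → ℂ}
    (hford : ∀ z : ℂ, 0 < z.im → meromorphicOrderAt f z ≠ ⊤) {p : ℕ} (hp : p ≠ 0)
    (h₁NF : MeromorphicNFOn h₁ {z : ℂ | 0 < z.im})
    (h₁pow : ∀ z : ℂ, 0 < z.im → (h₁ ^ p) =ᶠ[𝓝[≠] z] f)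
    (h₂NF : MeromorphicNFOn h₂ {z : ℂ | 0 < z.im})
    (h₂pow : ∀ z : ℂ, 0 < z.im → (h₂ ^ p) =ᶠ[𝓝[≠] z] f) :
    ∃ ζ : ℂ, ζ ^ p = 1 ∧ ∀ z : ℂ, 0 < z.im → h₂ z = ζ * h₁ z := by
  have hconv : Convex ℝ uhpSet := by
    have : uhpSet = Complex.im ⁻¹' (Ioi 0) := rfl
    rw [this]
    exact (convex_Ioi (0 : ℝ)).is_linear_preimage Complex.imLm.isLinear
  exact IsNFRootOn.exists_eq_mul hp isOpen_uhpSet hconv.isPreconnected hford
    ⟨h₁NF, h₁pow⟩ ⟨h₂NF, h₂pow⟩

end Fermat.Agent.S29.H942

end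
end
-- ===== PACK-END S29/H942/MeroRoot.lean

-- ===== PACK-BEGIN S28/H565/PolyPrinciple.lean
section






/-!
# S28 analytic bridge, part 4: the polynomial principle (helper565)

A holomorphic function on `ℍ` which is invariant under `SL(2, ℤ)` and has a convergent Laurent
expansion at `∞` (finitely many negative exponents) is a polynomial in `j`; consequently its
expansion is the same polynomial in the formal series `jqModC ℂ`.
-/

set_option autoImplicit false

noncomputable section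

open UpperHalfPlane Complex Function Filter Topology ModularForm
open scoped Real MatrixGroups Manifold

namespace Fermat.Agent.S28.H565

local notation "𝕢" => Periodic.qParam
local notation "Δ" => ModularForm.discriminant

theorem discriminant_slash (γ : SL(2, ℤ)) : (Δ ∣[(12 : ℤ)] γ) = Δ :=
  SlashInvariantForm.slash_action_generators_SL2Z discriminant_S_invariant
    discriminant_T_invariant γ

theorem discriminant_smul (γ : SL(2, ℤ)) (τ : ℍ) :
    Δ (γ • τ) = ((γ 1 0 : ℂ) * τ + (γ 1 1 : ℂ)) ^ (12 : ℤ) * Δ τ :=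
  (slash_action_eq'_iff 12 Δ γ τ).mp (congrFun (discriminant_slash γ) τ)

theorem E₄_smul (γ : SL(2, ℤ)) (τ : ℍ) :
    E₄ (γ • τ) = ((γ 1 0 : ℂ) * τ + (γ 1 1 : ℂ)) ^ (4 : ℤ) * E₄ τ := by
  have h : (⇑E₄ ∣[(4 : ℤ)] γ) = ⇑E₄ :=
    SlashInvariantForm.slash_action_eqn E₄ _ ⟨γ, rfl⟩
  exact (slash_action_eq'_iff 4 E₄ γ τ).mp (congrFun h τ)

theorem denom_ne_zero' (γ : SL(2, ℤ)) (τ : ℍ) : ((γ 1 0 : ℂ) * τ + (γ 1 1 : ℂ)) ≠ 0 := by
  have := UpperHalfPlane.denom_ne_zero (γ : GL (Fin 2) ℝ) τ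
  simpa [UpperHalfPlane.denom] using this

/-- `j` is invariant under `SL(2, ℤ)`. -/
theorem jFun_smul (γ : SL(2, ℤ)) (τ : ℍ) : jFun (γ • τ) = jFun τ := by
  have hd := denom_ne_zero' γ τ
  have hΔ := discriminant_ne_zero τ
  simp only [jFun]
  rw [discriminant_smul, E₄_smul]
  rw [mul_pow, ← zpow_natCast (((γ 1 0 : ℂ) * τ + (γ 1 1 : ℂ)) ^ (4 : ℤ)) 3, ← zpow_mul]
  norm_num
  field_simp

theorem mdifferentiable_discriminant : MDiff Δ := CuspForm.discriminant.holo'

theorem mdifferentiable_jFun : MDiff jFun := by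
  have h1 : MDiff (fun τ => E₄ τ ^ 3) := (ModularFormClass.holo E₄).pow 3
  exact h1.div mdifferentiable_discriminant discriminant_ne_zero

theorem E₄_pow_three (τ : ℍ) : E₄ τ ^ 3 = jFun τ * Δ τ := by
  rw [jFun, div_mul_cancel₀ _ (discriminant_ne_zero τ)]

theorem hasPExp_modularForm {k : ℤ} (G : ModularForm 𝒮ℒ k) :
    HasPExp 1 G (qExpansion 1 G) :=
  fun τ => ModularForm.hasSum_qExpansion G one_pos one_mem_strictPeriods_SL τ

theorem constantCoeff_e4C : PowerSeries.constantCoeff e4C = 1 := by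
  rw [e4C, ← PowerSeries.coeff_zero_eq_constantCoeff, PowerSeries.coeff_map,
    PowerSeries.coeff_zero_eq_constantCoeff, ModularCurve.constantCoeff_eisenstein4]
  simp

/-- Level one modular forms of weight `12 m` are of the form `Q(j) Δ^m` with `deg Q ≤ m`. -/
theorem exists_polynomial_of_modularForm (m : ℕ) : ∀ (k : ℤ), k = 12 * m →
    ∀ G : ModularForm 𝒮ℒ k,
      ∃ Q : Polynomial ℂ, Q.natDegree ≤ m ∧ ∀ τ, G τ = Q.eval (jFun τ) * Δ τ ^ m := by
  induction m with
  | zero =>
    intro k hk G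
    have hk0 : k = 0 := by simpa using hk
    obtain ⟨c, hc⟩ := ModularFormClass.levelOne_weight_zero_const (ModularForm.mcast hk0 G)
    refine ⟨Polynomial.C c, by simp, fun τ => ?_⟩
    have := congrFun hc τ
    simpa using this
  | succ m ih =>
    intro k hk G
    set c : ℂ := PowerSeries.coeff 0 (qExpansion 1 G) with hc
    have hw : ((3 * (m + 1) : ℕ) : ℤ) * 4 = k := by rw [hk]; push_cast; ring
    set E4pow : ModularForm 𝒮ℒ k := ModularForm.mcast hw (E₄.pow (3 * (m + 1))) with hE4pow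
    have hE4pow_apply : ∀ τ, E4pow τ = E₄ τ ^ (3 * (m + 1)) := by
      intro τ
      rw [hE4pow, ModularForm.coe_mcast, ModularForm.coe_pow]
      rfl
    set G₁ : ModularForm 𝒮ℒ k := G - c • E4pow with hG₁
    have hG₁_apply : ∀ τ, G₁ τ = G τ - c * E₄ τ ^ (3 * (m + 1)) := by
      intro τ
      simp [hG₁, hE4pow_apply]
    have hexp1 : HasPExp 1 G₁ (qExpansion 1 G - c • e4C ^ (3 * (m + 1))) := by
      refine ((hasPExp_modularForm G).sub ((hasPExp_E₄.pow (3 * (m + 1))).smul c)).congr ?_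
      intro τ
      simp [hG₁_apply]
    have hq : qExpansion 1 G₁ = qExpansion 1 G - c • e4C ^ (3 * (m + 1)) :=
      (hasPExp_modularForm G₁).unique one_pos hexp1
    have hcusp : PowerSeries.coeff 0 (qExpansion 1 G₁) = 0 := by
      rw [hq, map_sub, PowerSeries.coeff_smul, ← hc]
      simp [constantCoeff_e4C]
    have hw' : k - 12 = 12 * (m : ℤ) := by rw [hk]; push_cast; ring
    obtain ⟨Q', hQ'deg, hQ'⟩ := ih (k - 12) hw' (CuspForm.discriminantEquiv (G₁.toCuspForm hcusp))
    refine ⟨Polynomial.C c * Polynomial.X ^ (m + 1) + Q', ?_, fun τ => ?_⟩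
    · refine (Polynomial.natDegree_add_le _ _).trans (max_le ?_ (hQ'deg.trans (Nat.le_succ m)))
      exact Polynomial.natDegree_C_mul_X_pow_le c (m + 1)
    · have h1 := hQ' τ
      rw [CuspForm.discriminantEquiv_apply, ModularForm.toCuspForm_apply, hG₁_apply] at h1
      have hΔ := discriminant_ne_zero τ
      have h2 : G τ - c * E₄ τ ^ (3 * (m + 1)) = Q'.eval (jFun τ) * Δ τ ^ m * Δ τ := by
        rw [← h1, div_mul_cancel₀ _ hΔ]
      have h3 : E₄ τ ^ (3 * (m + 1)) = (jFun τ * Δ τ) ^ (m + 1) := by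
        rw [pow_mul, E₄_pow_three]
      rw [h3] at h2
      simp only [Polynomial.eval_add, Polynomial.eval_mul, Polynomial.eval_C, Polynomial.eval_pow,
        Polynomial.eval_X]
      linear_combination h2

/-- `q = t^N` for the parameters `q = exp (2πiτ)` and `t = exp (2πiτ/N)`. -/
theorem qParam_one_eq_pow (N : ℕ) (hN : N ≠ 0) (z : ℂ) : 𝕢 1 z = 𝕢 N z ^ N := by
  have h := qParam_mul_pow 1 N hN z 1
  rw [one_mul, mul_one, zpow_one, zpow_natCast] at h
  exact h.symm

theorem isBoundedAtImInfty_mul_discriminant_pow {N : ℕ} [NeZero N] {f : ℍ → ℂ}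
    {φ : LaurentSeries ℂ} (hexp : HasTExp N f φ) (m : ℕ) (hm : 0 ≤ φ.order + N * m) :
    IsBoundedAtImInfty (fun τ => f τ * Δ τ ^ m) := by
  have hN : (0 : ℝ) < N := by exact_mod_cast Nat.pos_of_ne_zero (NeZero.ne N)
  obtain ⟨k, hk⟩ := Int.eq_ofNat_of_zero_le hm
  have b1 := hexp.hasPExp.isBoundedAtImInfty hN
  have b2 := ((HasPExp.X (h := N)).pow k).isBoundedAtImInfty hN
  have b3 := ((hasPExp_eulerFun one_pos).pow (24 * m)).isBoundedAtImInfty one_pos
  have b := (b1.mul b2).mul b3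
  have hfun : (fun τ : ℍ => f τ * Δ τ ^ m) =
      ((fun τ : ℍ => f τ * 𝕢 N τ ^ (-φ.order)) * ((fun τ : ℍ => 𝕢 N τ) ^ k)) *
        ((fun τ : ℍ => eulerFun (𝕢 1 τ)) ^ (24 * m)) := by
    funext τ
    have ht : 𝕢 N (τ : ℂ) ≠ 0 := Periodic.qParam_ne_zero _
    simp only [Pi.mul_apply, Pi.pow_apply]
    rw [discriminant_eq_eulerFun, qParam_one_eq_pow N (NeZero.ne N)]
    have e1 : 𝕢 N (τ : ℂ) ^ (-φ.order) * 𝕢 N (τ : ℂ) ^ k = 𝕢 N (τ : ℂ) ^ (N * m) := by
      rw [← zpow_natCast (𝕢 N (τ : ℂ)) k, ← zpow_add₀ ht, ← hk, ← zpow_natCast]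
      congr 1
      push_cast
      ring
    rw [mul_pow, ← pow_mul]
    linear_combination (-(f τ * eulerFun (𝕢 N (τ : ℂ) ^ N) ^ (24 * m))) * e1
  rw [hfun]
  exact b

/-- **Polynomial principle.** A holomorphic `SL(2, ℤ)`-invariant function on `ℍ` with a
convergent Laurent expansion `φ` in `t = exp (2πiτ/N)` is a polynomial `Q` in `j`, and
`φ = Q (j(t^N))` as formal Laurent series. -/
theorem exists_polynomial_of_invariant {N : ℕ} [NeZero N] {f : ℍ → ℂ} {φ : LaurentSeries ℂ}
    (hf : MDiff f) (hinv : ∀ (γ : SL(2, ℤ)) (τ : ℍ), f (γ • τ) = f τ)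
    (hexp : HasTExp N f φ) :
    ∃ Q : Polynomial ℂ, (∀ τ, f τ = Q.eval (jFun τ)) ∧
      φ = Polynomial.aeval (ModularCurve.qExpand ℂ N (ModularCurve.jqModC ℂ)) Q := by
  have hN : (0 : ℝ) < N := by exact_mod_cast Nat.pos_of_ne_zero (NeZero.ne N)
  set m : ℕ := (-φ.order).toNat with hm
  have hm0 : 0 ≤ φ.order + N * m := by
    have h1 : -φ.order ≤ (m : ℤ) := Int.self_le_toNat _
    have h2 : (1 : ℤ) ≤ N := by exact_mod_cast Nat.pos_of_ne_zero (NeZero.ne N)
    nlinarith [Int.natCast_nonneg m]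
  have hbdd := isBoundedAtImInfty_mul_discriminant_pow hexp m hm0
  have hslash : ∀ γ : SL(2, ℤ),
      ((fun τ => f τ * Δ τ ^ m) ∣[(12 * m : ℤ)] γ) = fun τ => f τ * Δ τ ^ m := by
    intro γ
    funext τ
    rw [slash_action_eq'_iff, hinv, discriminant_smul, mul_pow, ← zpow_natCast
      (((γ 1 0 : ℂ) * τ + (γ 1 1 : ℂ)) ^ (12 : ℤ)) m, ← zpow_mul]
    ring
  let G : ModularForm 𝒮ℒ (12 * m) :=
    { toFun := fun τ => f τ * Δ τ ^ m
      slash_action_eq' := fun _ ⟨γ, hγ⟩ => hγ ▸ hslash γ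
      holo' := hf.mul (mdifferentiable_discriminant.pow m)
      bdd_at_cusps' := fun {c} hc => by
        rw [Subgroup.IsArithmetic.isCusp_iff_isCusp_SL2Z] at hc
        rw [OnePoint.isBoundedAt_iff_forall_SL2Z hc]
        intro γ _
        rw [hslash γ]
        exact hbdd }
  obtain ⟨Q, -, hQ⟩ := exists_polynomial_of_modularForm m _ rfl G
  have hfQ : ∀ τ, f τ = Q.eval (jFun τ) := by
    intro τ
    have h1 : f τ * Δ τ ^ m = Q.eval (jFun τ) * Δ τ ^ m := hQ τ
    exact mul_right_cancel₀ (pow_ne_zero m (discriminant_ne_zero τ)) h1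
  refine ⟨Q, hfQ, ?_⟩
  have h1 : HasTExp N jFun (ModularCurve.qExpand ℂ N (ModularCurve.jqModC ℂ)) :=
    hasTExp_jFun.qExpand_one N
  have h2 := h1.polynomial_aeval Q
  have h3 : HasTExp N f (Polynomial.aeval (ModularCurve.qExpand ℂ N (ModularCurve.jqModC ℂ)) Q) :=
    h2.congr fun τ => (hfQ τ).symm
  exact hexp.unique hN h3

end Fermat.Agent.S28.H565

end
end
-- ===== PACK-END S28/H565/PolyPrinciple.lean

-- ===== PACK-BEGIN S28/H685/JFun.lean
section





/-!
# S28 helper (helper685): the analytic `j`-function and its formal `q`-expansion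

* `jFun τ = E₄ τ ^ 3 / Δ τ`, holomorphic on `ℍ`, invariant under `SL(2, ℤ)`.
* `hasQLaurent_jFun` : `jFun` is the sum of the Prelude's formal series `ModularCurve.jqModC ℂ`
  (the image of `ModularCurve.jq` in `ℂ((q))`).
* `exists_polynomial_of_S_invariant` : **the `j`-polynomial principle**.
* `exists_polynomial_of_S_invariant_of_mem` : integrality of the polynomial.
-/

set_option autoImplicit false

namespace Fermat.Agent.S28.H685

open UpperHalfPlane Function Complex Filter HahnSeries ModularForm SlashInvariantForm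
  ModularFormClass EisensteinSeries
open scoped Topology Manifold MatrixGroups

noncomputable section

local notation "𝕢" => Periodic.qParam

/-- The analytic `j`-function (normalised as `q⁻¹ + 744 + ⋯`). -/
def jFun (τ : ℍ) : ℂ := E₄ τ ^ 3 / ModularForm.discriminant τ

/-- The formal `q`-expansion of `E₄`, with complex coefficients. -/
def eisenstein4C : PowerSeries ℂ := ModularCurve.eisenstein4.map (Int.castRingHom ℂ)

theorem qExpansion_E4_eq : qExpansion 1 E₄ = eisenstein4C := by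
  ext m
  rw [E_qExpansion_coeff _ ⟨2, rfl⟩]
  simp only [eisenstein4C, ModularCurve.eisenstein4, PowerSeries.coeff_map, PowerSeries.coeff_mk]
  split_ifs with h
  · simp
  · rw [show bernoulli 4 = -1 / 30 by decide +kernel, ArithmeticFunction.sigma_apply]
    simp only [eq_intCast]
    push_cast
    norm_num

theorem hasQExp_E4 : HasQExp 1 E₄ eisenstein4C := by
  intro τ
  have := ModularForm.hasSum_qExpansion E₄ one_pos one_mem_strictPeriods_SL τ
  rwa [qExpansion_E4_eq] at this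

theorem discriminant_eq_etaC (τ : ℍ) :
    ModularForm.discriminant τ = 𝕢 1 τ * etaC (𝕢 1 τ) ^ 24 := by
  rw [discriminant_eq_q_prod]
  congr 1
  have hq : ‖𝕢 1 (τ : ℂ)‖ < 1 := Periodic.norm_qParam_lt_one one_pos τ.im_pos
  rw [etaC, ← (multipliable_one_sub_pow hq).tprod_pow]

theorem etaC_qParam_ne_zero (τ : ℍ) : etaC (𝕢 1 τ) ≠ 0 := by
  intro h0
  have := discriminant_ne_zero τ
  rw [discriminant_eq_etaC, h0] at this
  simp at this

/-- The formal series `η^24 / q`, with complex coefficients. -/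
def dedekindEtaUnitC : PowerSeries ℂ := ModularCurve.dedekindEtaUnit.map (Int.castRingHom ℂ)

theorem dedekindEtaUnitC_eq : dedekindEtaUnitC = etaProdC ^ 24 := by
  rw [dedekindEtaUnitC, ModularCurve.dedekindEtaUnit, map_pow, etaProdC]

theorem hasQExp_dedekindEtaUnitC : HasQExp 1 (fun τ => etaC (𝕢 1 τ) ^ 24) dedekindEtaUnitC := by
  rw [dedekindEtaUnitC_eq]
  exact hasQExp_etaC.pow 24

theorem dedekindEtaUnitC_inv :
    dedekindEtaUnitC⁻¹ = ModularCurve.dedekindEtaUnitInv.map (Int.castRingHom ℂ) := by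
  have h0 : PowerSeries.constantCoeff dedekindEtaUnitC ≠ 0 := by
    rw [dedekindEtaUnitC, ← PowerSeries.coeff_zero_eq_constantCoeff, PowerSeries.coeff_map,
      PowerSeries.coeff_zero_eq_constantCoeff, ModularCurve.constantCoeff_dedekindEtaUnit]
    simp
  symm
  rw [PowerSeries.eq_inv_iff_mul_eq_one h0, dedekindEtaUnitC, ← map_mul, mul_comm,
    ModularCurve.dedekindEtaUnit_mul_inv, map_one]

/-- The formal numerator of `j`, with complex coefficients. -/
def jNumC : PowerSeries ℂ := ModularCurve.jNum.map (Int.castRingHom ℂ)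

theorem jNumC_eq : jNumC = eisenstein4C ^ 3 * dedekindEtaUnitC⁻¹ := by
  rw [jNumC, ModularCurve.jNum, map_mul, map_pow, dedekindEtaUnitC_inv, eisenstein4C]

theorem constantCoeff_jNumC : PowerSeries.constantCoeff jNumC = 1 := by
  rw [jNumC, ← PowerSeries.coeff_zero_eq_constantCoeff, PowerSeries.coeff_map,
    PowerSeries.coeff_zero_eq_constantCoeff, ModularCurve.constantCoeff_jNum]
  simp

theorem hasQExp_jNumC : HasQExp 1 (fun τ => E₄ τ ^ 3 * (etaC (𝕢 1 τ) ^ 24)⁻¹) jNumC := by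
  rw [jNumC_eq]
  refine (hasQExp_E4.pow 3).mul (hasQExp_dedekindEtaUnitC.inv one_pos
    (fun τ => pow_ne_zero _ (etaC_qParam_ne_zero τ)) ?_)
  rw [dedekindEtaUnitC, PowerSeries.coeff_map, PowerSeries.coeff_zero_eq_constantCoeff,
    ModularCurve.constantCoeff_dedekindEtaUnit]
  simp

theorem jqModC_eq : ModularCurve.jqModC ℂ =
    HahnSeries.single (-1 : ℤ) (1 : ℂ) * HahnSeries.ofPowerSeries ℤ ℂ jNumC := rfl

/-- **Bridge**: the analytic `j`-function is the sum of the Prelude's formal series `jq`. -/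
theorem hasQLaurent_jFun : HasQLaurent 1 jFun (ModularCurve.jqModC ℂ) := by
  rw [jqModC_eq, hasQLaurent_single_mul_iff]
  refine hasQExp_jNumC.congr_fun fun τ => ?_
  have hq : 𝕢 1 (τ : ℂ) ≠ 0 := Periodic.qParam_ne_zero _
  have hη := etaC_qParam_ne_zero τ
  rw [jFun, discriminant_eq_etaC]
  simp only [neg_neg, zpow_one]
  field_simp

/-- `jFun` in the explicit `HasSum` form, in terms of `ModularCurve.jq`. -/
theorem hasSum_jq (τ : ℍ) :
    HasSum (fun n : ℤ => ((ModularCurve.jq.coeff n : ℚ) : ℂ) * 𝕢 1 τ ^ n) (jFun τ) := by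
  have := hasQLaurent_jFun τ
  have hc : ∀ n : ℤ, (ModularCurve.jqModC ℂ).coeff n = ((ModularCurve.jq.coeff n : ℚ) : ℂ) := by
    intro n
    rw [← ModularCurve.jqModC_rat, ← ModularCurve.map_jqModC (algebraMap ℚ ℂ),
      HahnSeries.map_coeff]
    rfl
  simpa only [hc] using this

theorem jFun_S (τ : ℍ) : jFun (ModularGroup.S • τ) = jFun τ := by
  have hS : ((ModularGroup.S : SL(2, ℤ)) : GL (Fin 2) ℝ) ∈ 𝒮ℒ := ⟨ModularGroup.S, rfl⟩
  have h1 : E₄ (ModularGroup.S • τ) = _ := slash_action_eqn'' E₄ hS τ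
  have h2 : CuspForm.discriminant (ModularGroup.S • τ) = _ :=
    slash_action_eqn'' CuspForm.discriminant hS τ
  have hd : denom ((ModularGroup.S : SL(2, ℤ)) : GL (Fin 2) ℝ) τ ≠ 0 := denom_ne_zero _ _
  have hΔ := discriminant_ne_zero τ
  rw [CuspForm.coe_discriminant] at h2
  rw [jFun, jFun]
  rw [h1, h2]
  rw [div_eq_div_iff (mul_ne_zero (zpow_ne_zero _ hd) hΔ) hΔ]
  rw [mul_pow, ← zpow_natCast, ← zpow_mul]
  norm_num
  ring

theorem jFun_T (τ : ℍ) : jFun (ModularGroup.T • τ) = jFun τ :=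
  hasQLaurent_jFun.T_invariant τ

theorem mdifferentiable_jFun : MDiff jFun :=
  hasQLaurent_jFun.mdifferentiable one_pos

/-- **The `j`-polynomial principle.**  A function on `ℍ` which is the sum of a convergent
Laurent series `φ` in `q = exp (2 π i τ)` with exponents `≥ -m` and which is invariant under
`τ ↦ -1/τ` is a polynomial of degree `≤ m` in `j`; the same identity holds formally. -/
theorem exists_polynomial_of_S_invariant (m : ℕ) (F : ℍ → ℂ) (φ : LaurentSeries ℂ)
    (hφ : ∀ n : ℤ, n < -(m : ℤ) → φ.coeff n = 0) (hF : HasQLaurent 1 F φ)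
    (hS : ∀ τ, F (ModularGroup.S • τ) = F τ) :
    ∃ P : Polynomial ℂ, P.natDegree ≤ m ∧ φ = Polynomial.aeval (ModularCurve.jqModC ℂ) P ∧
      ∀ τ, F τ = P.eval (jFun τ) :=
  exists_polynomial_of_S_invariant_aux jFun jNumC constantCoeff_jNumC hasQLaurent_jFun jFun_S
    m F φ hφ hF hS

/-- Version without an a priori bound on the pole order. -/
theorem exists_polynomial_of_S_invariant' (F : ℍ → ℂ) (φ : LaurentSeries ℂ)
    (hF : HasQLaurent 1 F φ) (hS : ∀ τ, F (ModularGroup.S • τ) = F τ) :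
    ∃ P : Polynomial ℂ, φ = Polynomial.aeval (ModularCurve.jqModC ℂ) P ∧
      ∀ τ, F τ = P.eval (jFun τ) := by
  obtain ⟨P, -, h1, h2⟩ := exists_polynomial_of_S_invariant (-φ.order).toNat F φ
    (fun n hn => HahnSeries.coeff_eq_zero_of_lt_order (by omega)) hF hS
  exact ⟨P, h1, h2⟩

end

end Fermat.Agent.S28.H685

end
-- ===== PACK-END S28/H685/JFun.lean

-- ===== PACK-BEGIN S28/H25/ThetaLaurent.lean
section




/-!
# The `θ`-identity for `j` in `ℤ((q))` (helper25, S28 piece [A-θ])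

`(θ j)⁶ = Δ · j⁴ · (j - 1728)³` for `j = jqModC ℤ`, `Δ = q ∏ (1 - qⁿ)²⁴`, `θ = q d/dq`,
under the bridge hypothesis `DeltaBridge`.
-/

set_option autoImplicit false

open ModularCurve HahnSeries

noncomputable section

namespace Fermat.Agent.S28.H25

/-- `θ = q d/dq` on Laurent series: multiplies the coefficient of `qⁿ` by `n`.
(Same definition as `thetaL` in helper28's skeleton.) -/
def thetaLaurent (R : Type*) [CommRing R] (f : LaurentSeries R) : LaurentSeries R where
  coeff n := (n : R) * f.coeff n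
  isPWO_support' := f.isPWO_support.mono fun n hn => by
    simp only [Function.mem_support, ne_eq] at hn ⊢
    intro h
    exact hn (by rw [h, mul_zero])

@[simp] theorem thetaLaurent_coeff (R : Type*) [CommRing R] (f : LaurentSeries R) (n : ℤ) :
    (thetaLaurent R f).coeff n = (n : R) * f.coeff n := rfl

theorem thetaLaurent_single_neg_one_mul {R : Type*} [CommRing R] (u : PowerSeries R) :
    thetaLaurent R (single (-1 : ℤ) 1 * ofPowerSeries ℤ R u) =
      single (-1 : ℤ) 1 * ofPowerSeries ℤ R (thetaP u - u) := by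
  ext n
  rw [thetaLaurent_coeff, coeff_single_mul, coeff_single_mul, one_mul, one_mul, sub_neg_eq_add]
  rcases le_or_gt 0 (n + 1) with hn | hn
  · obtain ⟨m, hm⟩ := Int.eq_ofNat_of_zero_le hn
    rw [hm, ofPowerSeries_apply_coeff, ofPowerSeries_apply_coeff, map_sub, coeff_thetaP]
    have hn' : (n : R) = (m : R) - 1 := by
      have : n = (m : ℤ) - 1 := by omega
      rw [this]
      push_cast
      ring
    rw [hn']
    ring
  · rw [ofPowerSeries_coeff_of_neg _ hn, ofPowerSeries_coeff_of_neg _ hn, mul_zero]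

theorem jNum_map_int : jNum.map (Int.castRingHom ℤ) = jNum := by
  ext n
  simp

theorem jqModC_int_eq : jqModC ℤ = single (-1 : ℤ) 1 * ofPowerSeries ℤ ℤ jNum := by
  rw [jqModC, jNum_map_int]

/-- The formal discriminant `Δ = q ∏ (1 - qⁿ)²⁴` in `ℤ((q))`. -/
def deltaLaurentInt : LaurentSeries ℤ :=
  single (1 : ℤ) 1 * ofPowerSeries ℤ ℤ dedekindEtaUnit

/-- **θ-identity**: `(θ j)⁶ = Δ · j⁴ · (j - 1728)³` in `ℤ((q))`. -/
theorem theta_identity_laurent (hΔ : DeltaBridge) :
    (thetaLaurent ℤ (jqModC ℤ)) ^ 6 =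
      deltaLaurentInt * (jqModC ℤ) ^ 4 * (jqModC ℤ - 1728) ^ 3 := by
  have hP := theta_identity_powerSeries hΔ
  have hst : (single (-1 : ℤ) (1 : ℤ) : LaurentSeries ℤ) * single (1 : ℤ) (1 : ℤ) = 1 := by
    rw [single_mul_single]
    simp
  have hj' : jqModC ℤ - 1728 =
      single (-1 : ℤ) 1 * ofPowerSeries ℤ ℤ (jNum - 1728 * PowerSeries.X) := by
    rw [jqModC_int_eq, map_sub, map_mul, ofPowerSeries_X, map_ofNat (ofPowerSeries ℤ ℤ) 1728]
    linear_combination (1728 : LaurentSeries ℤ) * hst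
  have hP' : (ofPowerSeries ℤ ℤ (thetaP jNum - jNum)) ^ 6 =
      ofPowerSeries ℤ ℤ dedekindEtaUnit * (ofPowerSeries ℤ ℤ jNum) ^ 4 *
        (ofPowerSeries ℤ ℤ (jNum - 1728 * PowerSeries.X)) ^ 3 := by
    rw [← map_pow, hP]
    simp only [map_mul, map_pow]
  rw [hj', jqModC_int_eq, thetaLaurent_single_neg_one_mul, deltaLaurentInt]
  linear_combination (single (-1 : ℤ) (1 : ℤ) : LaurentSeries ℤ) ^ 6 * hP' -
    (single (-1 : ℤ) (1 : ℤ) : LaurentSeries ℤ) ^ 6 * ofPowerSeries ℤ ℤ dedekindEtaUnit *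
      (ofPowerSeries ℤ ℤ jNum) ^ 4 * (ofPowerSeries ℤ ℤ (jNum - 1728 * PowerSeries.X)) ^ 3 * hst

end Fermat.Agent.S28.H25

end
end
-- ===== PACK-END S28/H25/ThetaLaurent.lean

-- ===== PACK-BEGIN S28/H25/Theta.lean
section





/-!
# [A-θ] The `θ`-identity `(θ j)⁶ = Δ · j⁴ · (j - 1728)³` in `ℤ((q))` (helper25)

Unconditional, in the exact shape of the captain skeleton
(`Fermat.Agent.S28.thetaL`, `Fermat.Agent.S28.deltaL`, Prelude `jqModC`).
-/

set_option autoImplicit false

open UpperHalfPlane hiding I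
open ModularCurve HahnSeries

noncomputable section

namespace Fermat.Agent.S28.H25

/-- Bridge B2: `qExpansion 1 Δ = q ∏ (1 - qⁿ)²⁴` (from helper685's eta bridge). -/
theorem deltaBridge : DeltaBridge := by
  have h1 : Fermat.Agent.S28.H685.HasQExp 1 (fun τ => ModularForm.discriminant τ)
      (PowerSeries.X * Fermat.Agent.S28.H685.dedekindEtaUnitC) :=
    (Fermat.Agent.S28.H685.HasQExp.X.mul
      Fermat.Agent.S28.H685.hasQExp_dedekindEtaUnitC).congr_fun
      (fun τ => (Fermat.Agent.S28.H685.discriminant_eq_etaC τ).symm)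
  have h2 : Fermat.Agent.S28.H685.HasQExp 1 (fun τ => ModularForm.discriminant τ)
      (qExpansion 1 ModularForm.discriminant) := by
    intro τ
    exact ModularForm.hasSum_qExpansion (discForm) one_pos
      one_mem_strictPeriods_SL τ
  exact h2.unique one_pos h1

theorem thetaL_eq_thetaLaurent (R : Type*) [CommRing R] (f : LaurentSeries R) :
    Fermat.Agent.S28.thetaL R f = thetaLaurent R f := rfl

theorem deltaL_int_eq : Fermat.Agent.S28.deltaL ℤ = deltaLaurentInt := by
  have h : dedekindEtaUnit.map (Int.castRingHom ℤ) = dedekindEtaUnit := by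
    ext n
    simp
  rw [Fermat.Agent.S28.deltaL, deltaLaurentInt, h]

/-- **[A-θ]** `(θ j)⁶ = Δ · j⁴ · (j - 1728)³` in `ℤ((q))`. -/
theorem theta_identity :
    (Fermat.Agent.S28.thetaL ℤ (jqModC ℤ)) ^ 6 =
      Fermat.Agent.S28.deltaL ℤ * (jqModC ℤ) ^ 4 * (jqModC ℤ - 1728) ^ 3 := by
  rw [thetaL_eq_thetaLaurent, deltaL_int_eq]
  exact theta_identity_laurent deltaBridge

end Fermat.Agent.S28.H25

end
end
-- ===== PACK-END S28/H25/Theta.lean

-- ===== PACK-BEGIN S28/H326/Polys.lean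
section
/-
S28 / helper326: from the Hecke input to the polynomials
`W = ∏ (X - w i)` and `Φ = ∏ (X - y i)` with coefficients in `ℤ[j(t^p)]`.
-/




set_option autoImplicit false
set_option linter.unusedSectionVars false

noncomputable section

namespace Fermat.Agent.S28.H326

open ModularCurve HahnSeries

/-! ### Series without negative part -/

/-- Laurent series over `ℂ` without terms of negative degree. -/
def NonNeg : Subring (LaurentSeries ℂ) where
  carrier := {x | ∀ n : ℤ, n < 0 → x.coeff n = 0}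
  mul_mem' {x y} hx hy n hn := by
    rw [HahnSeries.coeff_mul]
    refine Finset.sum_eq_zero fun ij hij => ?_
    rw [Finset.mem_antidiagonal] at hij
    rcases lt_or_ge ij.1 0 with h1 | h1
    · rw [hx _ h1, zero_mul]
    · have h2 : ij.2 < 0 := by
        have := hij.2.2
        omega
      rw [hy _ h2, mul_zero]
  one_mem' n hn := by
    rw [HahnSeries.coeff_one, if_neg hn.ne]
  add_mem' {x y} hx hy n hn := by
    rw [HahnSeries.coeff_add, hx n hn, hy n hn, add_zero]
  zero_mem' n _ := HahnSeries.coeff_zero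
  neg_mem' {x} hx n hn := by
    rw [HahnSeries.coeff_neg, hx n hn, neg_zero]

theorem C_mem_NonNeg (c : ℂ) : HahnSeries.C c ∈ NonNeg := fun n hn => by
  show (HahnSeries.single 0 c).coeff n = 0
  exact HahnSeries.coeff_single_of_ne hn.ne

variable (p : ℕ) [NeZero p]

theorem qExpand_mem_NonNeg {x : LaurentSeries ℂ} (hx : x ∈ NonNeg) :
    qExpand ℂ p x ∈ NonNeg := fun n hn => by
  by_cases h : (p : ℤ) ∣ n
  · obtain ⟨m, rfl⟩ := h
    rw [qExpand_coeff_mul]
    refine hx m ?_
    have hp : (0 : ℤ) < p := by exact_mod_cast Nat.pos_of_ne_zero (NeZero.ne p)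
    by_contra hm
    rw [not_lt] at hm
    have := mul_nonneg hp.le hm
    omega
  · exact qExpand_coeff_of_not_dvd p _ h

theorem ofPS_mem_NonNeg (g : PowerSeries ℂ) : ofPS g ∈ NonNeg := fun _ hn => ofPS_coeff_neg g hn

theorem conj_mem_NonNeg (i : Option (Fin p)) (g : PowerSeries ℂ) : conj p i g ∈ NonNeg := by
  cases i with
  | none => exact qExpand_mem_NonNeg p (qExpand_mem_NonNeg p (ofPS_mem_NonNeg g))
  | some b => exact ofPS_mem_NonNeg _

theorem cBase_mem_NonNeg (g : PowerSeries ℂ) : cBase p g ∈ NonNeg :=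
  qExpand_mem_NonNeg p (ofPS_mem_NonNeg g)

/-- An element of `ℚ[j(t^p)]` without negative part is a constant. -/
theorem exists_const_of_mem_Bsub_of_mem_NonNeg {x : LaurentSeries ℂ} (hB : x ∈ Bsub p)
    (hN : x ∈ NonNeg) : ∃ c : ℚ, x = algebraMap ℚ (LaurentSeries ℂ) c := by
  obtain ⟨Q, rfl⟩ := hB
  rcases Nat.eq_zero_or_pos Q.natDegree with h0 | hpos
  · refine ⟨Q.coeff 0, ?_⟩
    rw [Polynomial.eq_C_of_natDegree_eq_zero h0]
    simp
  · exfalso
    have h1 := aeval_jP_coeff p Q le_rfl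
    have hneg : -((p : ℤ) * (Q.natDegree : ℤ)) < 0 := by
      have hp : (0 : ℤ) < p := by exact_mod_cast Nat.pos_of_ne_zero (NeZero.ne p)
      have hd : (0 : ℤ) < Q.natDegree := by exact_mod_cast hpos
      have := mul_pos hp hd
      omega
    have h2 : (Polynomial.aeval (jP p) Q).coeff (-((p : ℤ) * (Q.natDegree : ℤ))) = 0 :=
      hN _ hneg
    rw [h1] at h2
    have h3 : Q.coeff Q.natDegree = 0 := by exact_mod_cast h2
    have h4 : Q = 0 := Polynomial.leadingCoeff_eq_zero.mp h3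
    rw [h4] at hpos
    simp at hpos

/-! ### The unit part of the `w i` -/

/-- the unit `∏ (1 - qⁿ)²⁴` over `ℂ` -/
def UC : PowerSeries ℂ := toC dedekindEtaUnit
/-- its inverse -/
def UinvC : PowerSeries ℂ := toC dedekindEtaUnitInv

theorem DC_eq : DC = PowerSeries.X * UC := by
  rw [DC, DZ, map_mul, PowerSeries.map_X, UC]

theorem UC_mul_UinvC : UC * UinvC = 1 := by
  rw [UC, UinvC, ← map_mul, dedekindEtaUnit_mul_inv, map_one]

theorem delInv_eq : delInv p = HahnSeries.single (-(p : ℤ)) 1 * cBase p UinvC := by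
  rw [delInv, deltaInvZ, map_mul, map_mul, coeffMap_single, qExpand_single, kap_ofPS, cBase,
    RingHom.comp_apply, UinvC, map_one, mul_neg, mul_one]

/-- exponent of the monomial part of `w i` -/
def wExp : Option (Fin p) → ℤ
  | none => (p : ℤ) * p - p
  | some _ => 1 - p

/-- leading constant of `conj i X` -/
def wConst : Option (Fin p) → ℂ
  | none => 1
  | some b => zeta p ^ (b : ℕ)

/-- degree of `conj i X` -/
def xExp : Option (Fin p) → ℤ
  | none => (p : ℤ) * p
  | some _ => 1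

theorem conj_X (i : Option (Fin p)) :
    conj p i PowerSeries.X = HahnSeries.C (wConst p i) * HahnSeries.single (xExp p i) 1 := by
  cases i with
  | none =>
    simp only [conj, cInf, cBase, RingHom.comp_apply, wConst, xExp, map_one, one_mul]
    rw [HahnSeries.ofPowerSeries_X, qExpand_single, qExpand_single, mul_one]
  | some b =>
    simp only [conj, cB, RingHom.comp_apply, wConst, xExp]
    rw [PowerSeries.rescale_X, map_mul, HahnSeries.ofPowerSeries_C, HahnSeries.ofPowerSeries_X]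

theorem wExp_eq (i : Option (Fin p)) : wExp p i = xExp p i - p := by
  cases i <;> simp [wExp, xExp]

/-- the power series part of `w i` -/
def wUnit (i : Option (Fin p)) : LaurentSeries ℂ :=
  scal p i * HahnSeries.C (wConst p i) * conj p i UC * cBase p UinvC

theorem w_eq (i : Option (Fin p)) : w p i = HahnSeries.single (wExp p i) 1 * wUnit p i := by
  have h : HahnSeries.single (wExp p i) (1 : ℂ) =
      HahnSeries.single (xExp p i) 1 * HahnSeries.single (-(p : ℤ)) 1 := by
    rw [HahnSeries.single_mul_single, wExp_eq, mul_one, sub_eq_add_neg]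
  rw [w, wUnit, DC_eq, map_mul, conj_X, delInv_eq, h]
  ring

theorem scal_mem_NonNeg (i : Option (Fin p)) : scal p i ∈ NonNeg := by
  cases i with
  | none => exact Subring.pow_mem _ (natCast_mem _ p) 12
  | some b => exact Subring.one_mem _

theorem wUnit_mem_NonNeg (i : Option (Fin p)) : wUnit p i ∈ NonNeg :=
  Subring.mul_mem _ (Subring.mul_mem _ (Subring.mul_mem _ (scal_mem_NonNeg p i)
    (C_mem_NonNeg _)) (conj_mem_NonNeg p i UC)) (cBase_mem_NonNeg p UinvC)

theorem prod_single {ι : Type*} (s : Finset ι) (e : ι → ℤ) :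
    ∏ i ∈ s, HahnSeries.single (e i) (1 : ℂ) = HahnSeries.single (∑ i ∈ s, e i) 1 := by
  classical
  induction s using Finset.induction_on with
  | empty => simp
  | insert a s ha ih =>
    rw [Finset.prod_insert ha, Finset.sum_insert ha, ih, HahnSeries.single_mul_single, mul_one]

theorem sum_wExp : ∑ i, wExp p i = 0 := by
  rw [Fintype.sum_option]
  simp only [wExp, Finset.sum_const, Finset.card_univ, Fintype.card_fin, nsmul_eq_mul]
  ring

theorem prod_w_mem_NonNeg : ∏ i, w p i ∈ NonNeg := by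
  simp only [w_eq]
  rw [Finset.prod_mul_distrib, prod_single, sum_wExp]
  have : HahnSeries.single (0 : ℤ) (1 : ℂ) = 1 := rfl
  rw [this, one_mul]
  exact Subring.prod_mem _ fun i _ => wUnit_mem_NonNeg p i

/-! ### Nonvanishing -/

theorem toC_injective : Function.Injective toC := by
  intro x y h
  ext n
  have := congrArg (fun z => PowerSeries.coeff n z) h
  simpa using this

theorem conj_injective (i : Option (Fin p)) : Function.Injective (conj p i) := by
  cases i with
  | none =>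
    exact (qExpand_injective p).comp ((qExpand_injective p).comp
      HahnSeries.ofPowerSeries_injective)
  | some b =>
    exact HahnSeries.ofPowerSeries_injective.comp
      (PowerSeries.rescale_injective (pow_ne_zero _ (zeta_ne_zero p)))

theorem DZ_ne_zero : DZ ≠ 0 := by
  intro h
  have h1 : DZ.coeff 1 = 1 := by
    rw [DZ, show (1 : ℕ) = 0 + 1 from rfl, PowerSeries.coeff_succ_X_mul,
      PowerSeries.coeff_zero_eq_constantCoeff, constantCoeff_dedekindEtaUnit]
  rw [h] at h1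
  simp at h1

theorem DC_ne_zero : DC ≠ 0 := fun h => DZ_ne_zero (toC_injective (by rw [← DC, h, map_zero]))

theorem delInv_ne_zero : delInv p ≠ 0 := fun h => by
  have := del_mul_delInv p
  rw [h, mul_zero] at this
  exact zero_ne_one this

theorem scal_ne_zero (i : Option (Fin p)) : scal p i ≠ 0 := by
  cases i with
  | none =>
    refine pow_ne_zero _ fun h => ?_
    have h1 := natCast_mul_coeff p 1 0
    rw [mul_one, h, HahnSeries.coeff_zero, HahnSeries.coeff_one, if_pos rfl, mul_one] at h1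
    exact NeZero.ne p (by exact_mod_cast h1.symm)
  | some b => exact one_ne_zero

theorem w_ne_zero (i : Option (Fin p)) : w p i ≠ 0 := by
  rw [w]
  refine mul_ne_zero (mul_ne_zero (scal_ne_zero p i) ?_) (delInv_ne_zero p)
  rw [Ne, map_eq_zero_iff _ (conj_injective p i)]
  exact DC_ne_zero

/-! ### The polynomial `W` -/

/-- `W = ∏ (X - w i)` over `ℂ((t))` -/
def WPoly : Polynomial (LaurentSeries ℂ) := ∏ i, (Polynomial.X - Polynomial.C (w p i))

theorem WPoly_monic : (WPoly p).Monic :=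
  Polynomial.monic_prod_of_monic _ _ fun _ _ => Polynomial.monic_X_sub_C _

theorem WPoly_natDegree : (WPoly p).natDegree = p + 1 := by
  rw [WPoly, Polynomial.natDegree_prod_of_monic _ _ fun i _ => Polynomial.monic_X_sub_C _]
  simp

theorem WPoly_coeff_mem (h : HeckeInput p) (n : ℕ) : (WPoly p).coeff n ∈ Bsub p :=
  prod_X_sub_C_mem_of_psum_mem (Bsub p) (w p) (fun m _ => sum_w_pow_mem p h m) n

theorem WPoly_eval (i : Option (Fin p)) : (WPoly p).eval (w p i) = 0 := by
  rw [WPoly, Polynomial.eval_prod]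
  exact Finset.prod_eq_zero (Finset.mem_univ i) (by simp)

theorem WPoly_coeff_zero : (WPoly p).coeff 0 = ∏ i, (-(w p i)) := by
  rw [Polynomial.coeff_zero_eq_eval_zero, WPoly, Polynomial.eval_prod]
  simp

theorem exists_WPoly_coeff_zero (h : HeckeInput p) :
    ∃ c : ℚ, c ≠ 0 ∧ (WPoly p).coeff 0 = algebraMap ℚ (LaurentSeries ℂ) c := by
  have hN : (WPoly p).coeff 0 ∈ NonNeg := by
    rw [WPoly_coeff_zero]
    have : ∏ i, (-(w p i)) = (∏ _i : Option (Fin p), (-1 : LaurentSeries ℂ)) * ∏ i, w p i := by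
      rw [← Finset.prod_mul_distrib]
      refine Finset.prod_congr rfl fun i _ => ?_
      ring
    rw [this]
    exact Subring.mul_mem _ (Subring.prod_mem _ fun _ _ => Subring.neg_mem _ (Subring.one_mem _))
      (prod_w_mem_NonNeg p)
  obtain ⟨c, hc⟩ := exists_const_of_mem_Bsub_of_mem_NonNeg p (WPoly_coeff_mem p h 0) hN
  refine ⟨c, ?_, hc⟩
  rintro rfl
  rw [map_zero, WPoly_coeff_zero] at hc
  rw [Finset.prod_eq_zero_iff] at hc
  obtain ⟨i, -, hi⟩ := hc
  exact w_ne_zero p i (neg_eq_zero.mp hi)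

end Fermat.Agent.S28.H326

end
end
-- ===== PACK-END S28/H326/Polys.lean

-- ===== PACK-BEGIN S28/H326/Conj.lean
section
/-
S28 / helper326: the conjugates `y i` of `j(t^(p²))`; power sums; lifting to `ℤ[Y][X]`.
-/



set_option autoImplicit false
set_option linter.unusedSectionVars false

noncomputable section

namespace Fermat.Agent.S28.H326

open ModularCurve HahnSeries

variable (p : ℕ) [NeZero p]

/-! ### The conjugates of `j` -/

/-- `j(t^(p²))` and `j(ζ^b t)` -/
def y : Option (Fin p) → LaurentSeries ℂ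
  | none => qExpand ℂ p (jP p)
  | some b => HahnSeries.C ((zeta p ^ (b : ℕ))⁻¹) * HahnSeries.single (-1 : ℤ) 1 *
      cB p b (toC jNum)

theorem jC_mul_ofPS_DC : jqModC ℂ * ofPS DC = ofPS EC := by
  have := congrArg kap jq_mul_deltaZ
  rwa [map_mul, coeffMap_jqModC, deltaZ, kap_ofPS, kap_ofPS] at this

theorem y_mul_conj (i : Option (Fin p)) : y p i * conj p i DC = conj p i EC := by
  cases i with
  | none =>
    simp only [y, conj, cInf, cBase, RingHom.comp_apply, jP]
    rw [← map_mul, ← map_mul, jC_mul_ofPS_DC]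
  | some b =>
    simp only [y, conj]
    have hE : EC = toC jNum * UC := by
      rw [EC, UC, ← map_mul, jNum_mul_unit]
    rw [DC_eq, hE, map_mul, map_mul]
    have hX : cB p b PowerSeries.X =
        HahnSeries.C (zeta p ^ (b : ℕ)) * HahnSeries.single (1 : ℤ) 1 := by
      rw [cB, RingHom.comp_apply, PowerSeries.rescale_X, map_mul, HahnSeries.ofPowerSeries_C,
        HahnSeries.ofPowerSeries_X]
    rw [hX]
    have h1 : HahnSeries.C ((zeta p ^ (b : ℕ))⁻¹) * HahnSeries.C (zeta p ^ (b : ℕ)) =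
        (1 : LaurentSeries ℂ) := by
      rw [← map_mul, inv_mul_cancel₀ (pow_ne_zero _ (zeta_ne_zero p)), map_one]
    have h2 : HahnSeries.single (-1 : ℤ) (1 : ℂ) * HahnSeries.single (1 : ℤ) 1 = 1 := by
      rw [HahnSeries.single_mul_single]
      simp
    calc HahnSeries.C ((zeta p ^ (b : ℕ))⁻¹) * HahnSeries.single (-1 : ℤ) 1 *
          cB p b (toC jNum) * (HahnSeries.C (zeta p ^ (b : ℕ)) * HahnSeries.single (1 : ℤ) 1 *
            cB p b UC)
        = (HahnSeries.C ((zeta p ^ (b : ℕ))⁻¹) * HahnSeries.C (zeta p ^ (b : ℕ))) *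
            (HahnSeries.single (-1 : ℤ) (1 : ℂ) * HahnSeries.single (1 : ℤ) 1) *
            (cB p b (toC jNum) * cB p b UC) := by ring
      _ = _ := by rw [h1, h2, one_mul, one_mul]

theorem y_mul_w (i : Option (Fin p)) : y p i * w p i = Y p i := by
  rw [w, Y, ← y_mul_conj p i]
  ring

/-! ### Power sums of the `y i` -/

/-- polynomials over `ℂ((t))` with coefficients in `ℚ[j(t^p)]` -/
abbrev BPoly : Subsemiring (Polynomial (LaurentSeries ℂ)) :=
  Polynomial.lifts ((Bsub p).val : (Bsub p) →+* LaurentSeries ℂ)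

theorem mem_BPoly_iff (F : Polynomial (LaurentSeries ℂ)) :
    F ∈ BPoly p ↔ ∀ n, F.coeff n ∈ Bsub p := by
  rw [Polynomial.lifts_iff_coeff_lifts]
  constructor
  · intro h n
    obtain ⟨x, hx⟩ := h n
    rw [← hx]
    exact x.2
  · intro h n
    exact ⟨⟨F.coeff n, h n⟩, rfl⟩

theorem sum_Y_pow_mul_eval_mem (h : HeckeInput p) (a : ℕ) {F : Polynomial (LaurentSeries ℂ)}
    (hF : F ∈ BPoly p) : ∑ i, Y p i ^ a * F.eval (w p i) ∈ Bsub p := by
  have h1 : ∀ i, Y p i ^ a * F.eval (w p i) =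
      ∑ r ∈ Finset.range (F.natDegree + 1), F.coeff r * (Y p i ^ a * w p i ^ r) := by
    intro i
    rw [Polynomial.eval_eq_sum_range, Finset.mul_sum]
    exact Finset.sum_congr rfl fun r _ => by ring
  simp only [h1]
  rw [Finset.sum_comm]
  refine Subalgebra.sum_mem _ fun r _ => ?_
  rw [← Finset.mul_sum]
  obtain ⟨P, hP⟩ := sum_Y_pow_mul_w_pow p h a r
  rw [hP]
  exact Subalgebra.mul_mem _ ((mem_BPoly_iff p F).mp hF r) (theta_mem_Bsub p P)

/-- the polynomial `G` with `w i * G(w i) = 1` -/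
theorem exists_inv_poly (h : HeckeInput p) :
    ∃ G : Polynomial (LaurentSeries ℂ), G ∈ BPoly p ∧ ∀ i, w p i * G.eval (w p i) = 1 := by
  obtain ⟨c, hc0, hc⟩ := exists_WPoly_coeff_zero p h
  refine ⟨Polynomial.C (algebraMap ℚ (LaurentSeries ℂ) (-c⁻¹)) * (WPoly p).divX, ?_, ?_⟩
  · rw [mem_BPoly_iff]
    intro n
    rw [Polynomial.coeff_C_mul, Polynomial.coeff_divX]
    exact Subalgebra.mul_mem _ (Subalgebra.algebraMap_mem _ _) (WPoly_coeff_mem p h _)
  · intro i
    have h1 := WPoly_eval p i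
    rw [← Polynomial.divX_mul_X_add (WPoly p), Polynomial.eval_add, Polynomial.eval_mul,
      Polynomial.eval_X, Polynomial.eval_C, hc] at h1
    rw [Polynomial.eval_mul, Polynomial.eval_C]
    have h2 : (WPoly p).divX.eval (w p i) * w p i = -algebraMap ℚ (LaurentSeries ℂ) c :=
      eq_neg_of_add_eq_zero_left h1
    calc w p i * (algebraMap ℚ (LaurentSeries ℂ) (-c⁻¹) * (WPoly p).divX.eval (w p i))
        = algebraMap ℚ (LaurentSeries ℂ) (-c⁻¹) * ((WPoly p).divX.eval (w p i) * w p i) := by ring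
      _ = algebraMap ℚ (LaurentSeries ℂ) (-c⁻¹) * (-algebraMap ℚ (LaurentSeries ℂ) c) := by rw [h2]
      _ = algebraMap ℚ (LaurentSeries ℂ) (-c⁻¹ * -c) := by
        rw [map_mul, map_neg (algebraMap ℚ (LaurentSeries ℂ)) c]
      _ = 1 := by
        rw [neg_mul_neg, inv_mul_cancel₀ hc0, map_one]

theorem sum_y_pow_mem (h : HeckeInput p) (m : ℕ) : ∑ i, y p i ^ m ∈ Bsub p := by
  obtain ⟨G, hG, hGw⟩ := exists_inv_poly p h
  have h1 : ∀ i, y p i ^ m = Y p i ^ m * (G ^ m).eval (w p i) := by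
    intro i
    rw [Polynomial.eval_pow, ← mul_pow, ← y_mul_w, mul_assoc, hGw, mul_one]
  simp only [h1]
  exact sum_Y_pow_mul_eval_mem p h m (Subsemiring.pow_mem _ hG m)

/-! ### The polynomial `Φ` -/

/-- `Φ = ∏ (X - y i)` over `ℂ((t))` -/
def PhiPoly : Polynomial (LaurentSeries ℂ) := ∏ i, (Polynomial.X - Polynomial.C (y p i))

theorem PhiPoly_monic : (PhiPoly p).Monic :=
  Polynomial.monic_prod_of_monic _ _ fun _ _ => Polynomial.monic_X_sub_C _

theorem PhiPoly_natDegree : (PhiPoly p).natDegree = p + 1 := by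
  rw [PhiPoly, Polynomial.natDegree_prod_of_monic _ _ fun i _ => Polynomial.monic_X_sub_C _]
  simp

theorem PhiPoly_coeff_mem (h : HeckeInput p) (n : ℕ) : (PhiPoly p).coeff n ∈ Bsub p :=
  prod_X_sub_C_mem_of_psum_mem (Bsub p) (y p) (fun m _ => sum_y_pow_mem p h m) n

theorem PhiPoly_eval (i : Option (Fin p)) : (PhiPoly p).eval (y p i) = 0 := by
  rw [PhiPoly, Polynomial.eval_prod]
  exact Finset.prod_eq_zero (Finset.mem_univ i) (by simp)

/-! ### Integrality -/

theorem prod_X_sub_C_coeff_mem_subring (S : Subring (LaurentSeries ℂ)) {ι : Type*} [Fintype ι]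
    (z : ι → LaurentSeries ℂ) (hz : ∀ i, z i ∈ S) (n : ℕ) :
    (∏ i, (Polynomial.X - Polynomial.C (z i))).coeff n ∈ S := by
  have : (∏ i, (Polynomial.X - Polynomial.C (z i))) =
      (∏ i, (Polynomial.X - Polynomial.C (⟨z i, hz i⟩ : S))).map S.subtype := by
    rw [Polynomial.map_prod]
    refine Finset.prod_congr rfl fun i _ => ?_
    simp
  rw [this, Polynomial.coeff_map]
  exact Subtype.property _

theorem C_mem_IntCoeff {c : ℂ} (hc : IsIntegral ℤ c) : HahnSeries.C c ∈ IntCoeff := fun n => by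
  show IsIntegral ℤ ((HahnSeries.single 0 c).coeff n)
  rcases eq_or_ne n 0 with rfl | hn
  · rw [HahnSeries.coeff_single_same]; exact hc
  · rw [HahnSeries.coeff_single_of_ne hn]; exact isIntegral_zero

theorem single_one_mem_IntCoeff (e : ℤ) : HahnSeries.single e (1 : ℂ) ∈ IntCoeff := fun n => by
  rcases eq_or_ne n e with rfl | hn
  · rw [HahnSeries.coeff_single_same]; exact isIntegral_one
  · rw [HahnSeries.coeff_single_of_ne hn]; exact isIntegral_zero

theorem conj_mem_IntCoeff (i : Option (Fin p)) (g : PowerSeries ℤ) :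
    conj p i (toC g) ∈ IntCoeff := by
  cases i with
  | none =>
    simp only [conj, cInf, cBase, RingHom.comp_apply]
    rw [← kap_ofPS]
    exact qExpand_mem_IntCoeff p (qExpand_mem_IntCoeff p (kap_mem_IntCoeff _))
  | some b => exact cB_mem_IntCoeff p b g

theorem scal_mem_IntCoeff (i : Option (Fin p)) : scal p i ∈ IntCoeff := by
  cases i with
  | none => exact Subring.pow_mem _ (natCast_mem _ p) 12
  | some b => exact Subring.one_mem _

theorem w_mem_IntCoeff (i : Option (Fin p)) : w p i ∈ IntCoeff :=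
  Subring.mul_mem _ (Subring.mul_mem _ (scal_mem_IntCoeff p i) (conj_mem_IntCoeff p i DZ))
    (delInv_mem_IntCoeff p)

theorem zeta_pow_inv_isIntegral (b : ℕ) : IsIntegral ℤ ((zeta p ^ b)⁻¹) := by
  have h0 : zeta p ^ (p - 1) * zeta p = 1 := by
    rw [← pow_succ, Nat.sub_add_cancel (Nat.pos_of_ne_zero (NeZero.ne p)), zeta_pow_self]
  have h : (zeta p ^ b)⁻¹ = (zeta p ^ (p - 1)) ^ b := by
    rw [← inv_pow]
    congr 1
    exact (eq_inv_of_mul_eq_one_left h0).symm
  rw [h]
  exact ((zeta_isIntegral p).pow _).pow _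

theorem y_mem_IntCoeff (i : Option (Fin p)) : y p i ∈ IntCoeff := by
  cases i with
  | none =>
    simp only [y]
    have := jP_pow_mem_IntCoeff p 1
    rw [pow_one] at this
    exact qExpand_mem_IntCoeff p this
  | some b =>
    simp only [y]
    exact Subring.mul_mem _ (Subring.mul_mem _ (C_mem_IntCoeff (zeta_pow_inv_isIntegral p b))
      (single_one_mem_IntCoeff _)) (cB_mem_IntCoeff p b jNum)

/-! ### Lifting to `ℤ[Y][X]` -/

theorem exists_lift (F : Polynomial (LaurentSeries ℂ)) (hmonic : F.Monic)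
    (hB : ∀ n, F.coeff n ∈ Bsub p) (hI : ∀ n, F.coeff n ∈ IntCoeff) :
    ∃ Φ : Polynomial (Polynomial ℤ), Φ.Monic ∧ Φ.natDegree = F.natDegree ∧
      Φ.map (theta p) = F := by
  have hl : F ∈ Polynomial.lifts (theta p) := by
    rw [Polynomial.lifts_iff_coeff_lifts]
    intro n
    obtain ⟨Q, hQ⟩ := hB n
    have hQ' : Polynomial.aeval (jP p) Q = F.coeff n := hQ
    obtain ⟨Q', hQ''⟩ := exists_int_poly_of_integral p Q (hQ' ▸ hI n)
    exact ⟨Q', by rw [theta_eq_aeval, hQ'', hQ']⟩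
  obtain ⟨Φ, h1, h2, h3⟩ := Polynomial.lifts_and_natDegree_eq_and_monic hl hmonic
  exact ⟨Φ, h3, h2, h1⟩

/-- **The unit polynomial over `ℤ[j]`**. -/
theorem exists_W (h : HeckeInput p) :
    ∃ W : Polynomial (Polynomial ℤ), W.Monic ∧ W.natDegree = p + 1 ∧
      W.map (theta p) = WPoly p := by
  obtain ⟨W, h1, h2, h3⟩ := exists_lift p (WPoly p) (WPoly_monic p) (WPoly_coeff_mem p h)
    (fun n => prod_X_sub_C_coeff_mem_subring IntCoeff _ (w_mem_IntCoeff p) n)
  exact ⟨W, h1, h2.trans (WPoly_natDegree p), h3⟩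

/-- **The modular polynomial over `ℤ[j]`**. -/
theorem exists_Phi (h : HeckeInput p) :
    ∃ Φ : Polynomial (Polynomial ℤ), Φ.Monic ∧ Φ.natDegree = p + 1 ∧
      Φ.map (theta p) = PhiPoly p := by
  obtain ⟨Φ, h1, h2, h3⟩ := exists_lift p (PhiPoly p) (PhiPoly_monic p) (PhiPoly_coeff_mem p h)
    (fun n => prod_X_sub_C_coeff_mem_subring IntCoeff _ (y_mem_IntCoeff p) n)
  exact ⟨Φ, h1, h2.trans (PhiPoly_natDegree p), h3⟩

end Fermat.Agent.S28.H326

end
end
-- ===== PACK-END S28/H326/Conj.lean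

-- ===== PACK-BEGIN S28/H326/Hecke.lean
section
/-
S28 / helper326: the analytic input `HeckeInput p` from the Prelude Hecke operator `T_p`
on level-one modular forms and the level-one structure theorem (helper505).
-/






set_option autoImplicit false
set_option linter.unusedSectionVars false

noncomputable section

namespace Fermat.Agent.S28.H326

open ModularCurve HahnSeries UpperHalfPlane ModularForm MatrixGroups

/-! ### `T_p` on level one forms -/

theorem gamma0_one_coe :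
    ((CongruenceSubgroup.Gamma0 1 : Subgroup SL(2, ℤ)) : Subgroup (GL (Fin 2) ℝ)) = 𝒮ℒ := by
  have h : CongruenceSubgroup.Gamma0 1 = ⊤ := by
    ext g
    simp [CongruenceSubgroup.Gamma0_mem, Subsingleton.elim (_ : ZMod 1) 0]
  rw [h, MonoidHom.range_eq_map]

/-- `T_p f` as a level one modular form. -/
def heckeForm (k : ℤ) {p : ℕ} (hp : p.Prime) (f : ModularForm 𝒮ℒ k) : ModularForm 𝒮ℒ k where
  toFun := ModularForm.heckeT k p ⇑f
  slash_action_eq' := fun γ hγ =>
    ModularForm.heckeT_slash_eq_self_of_mem_Gamma0 (N := 1) k hp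
      (by rw [Nat.dvd_one]; exact hp.one_lt.ne')
      (fun γ' hγ' => SlashInvariantFormClass.slash_action_eq f γ' (gamma0_one_coe ▸ hγ'))
      γ (gamma0_one_coe.symm ▸ hγ)
  holo' := ModularForm.mdifferentiable_heckeT (ModularFormClass.holo f) k p
  bdd_at_cusps' := fun hc => ModularFormClass.isBoundedAt_heckeT f p hc

theorem coe_heckeForm (k : ℤ) {p : ℕ} (hp : p.Prime) (f : ModularForm 𝒮ℒ k) :
    ⇑(heckeForm k hp f) = ModularForm.heckeT k p ⇑f := rfl

theorem qExpansion_heckeForm_coeff (k : ℤ) {p : ℕ} (hp : p.Prime) (f : ModularForm 𝒮ℒ k)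
    (n : ℕ) :
    (qExpansion 1 (heckeForm k hp f)).coeff n =
      (qExpansion 1 f).coeff (n * p) +
        if p ∣ n then (p : ℂ) ^ (k - 1) * (qExpansion 1 f).coeff (n / p) else 0 := by
  have := ModularFormClass.qCoeff_heckeT f one_mem_strictPeriods_SL hp.ne_zero n
  simpa [ModularFormClass.qCoeff, coe_heckeForm, ModularForm.coeffHeckeT] using this

/-! ### The forms `E₄^{3a} Δ^r` -/

/-- `Δ` as a modular form -/
def deltaForm : ModularForm 𝒮ℒ 12 := CuspForm.toModularFormₗ CuspForm.discriminant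

theorem qExpansion_deltaForm : qExpansion 1 deltaForm = H505.deltaC :=
  H505.qExpansion_discriminant_eq_deltaC

/-- `E₄^{3a} Δ^r` -/
def monoE4Delta (a r : ℕ) (k : ℤ) (hk : ((3 * a : ℕ) : ℤ) * 4 + ((r : ℕ) : ℤ) * 12 = k) :
    ModularForm 𝒮ℒ k :=
  ModularForm.mcast hk ((E₄.pow (3 * a)).mul (deltaForm.pow r))

theorem toC_EZ : toC EZ = H505.e4C ^ 3 := by
  rw [EZ, map_pow, H505.e4C]

theorem toC_DZ : toC DZ = H505.deltaC := by
  rw [DZ, map_mul, PowerSeries.map_X, H505.deltaC, dedekindEtaUnit, map_pow]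

theorem qExpansion_monoE4Delta (a r : ℕ) (k : ℤ)
    (hk : ((3 * a : ℕ) : ℤ) * 4 + ((r : ℕ) : ℤ) * 12 = k) :
    qExpansion 1 (monoE4Delta a r k hk) = toC (EZ ^ a * DZ ^ r) := by
  rw [monoE4Delta, ModularForm.qExpansion_mcast,
    ModularForm.qExpansion_mul one_pos one_mem_strictPeriods_SL,
    ModularForm.qExpansion_pow one_pos one_mem_strictPeriods_SL,
    ModularForm.qExpansion_pow one_pos one_mem_strictPeriods_SL,
    H505.qExpansion_E₄_eq_e4C, qExpansion_deltaForm, map_mul, map_pow, map_pow, toC_EZ, toC_DZ,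
    ← pow_mul]

/-! ### Integrality by leading terms, over `ℂ` -/

theorem C_mul_coeff (c : ℂ) (x : LaurentSeries ℂ) (n : ℤ) :
    (HahnSeries.C c * x).coeff n = c * x.coeff n := by
  rw [HahnSeries.C_mul_eq_smul, HahnSeries.coeff_smul, smul_eq_mul]

theorem aeval_jC_coeff (Q : Polynomial ℂ) {n : ℕ} (hn : Q.natDegree ≤ n) :
    (Polynomial.aeval (jqModC ℂ) Q).coeff (-(n : ℤ)) = Q.coeff n := by
  rw [H505.aeval_laurent_eq_eval₂, Polynomial.eval₂_eq_sum_range' _ (Nat.lt_succ_of_le hn),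
    HahnSeries.coeff_sum, Finset.sum_range_succ]
  rw [Finset.sum_eq_zero, zero_add, C_mul_coeff, coeff_jqModC_pow_self, mul_one]
  intro i hi
  rw [C_mul_coeff, coeff_jqModC_pow_of_lt ℂ (by have := Finset.mem_range.mp hi; omega),
    mul_zero]

theorem exists_int_poly_of_kap (Q : Polynomial ℂ) (x : LaurentSeries ℤ)
    (h : Polynomial.aeval (jqModC ℂ) Q = kap x) :
    ∃ Q' : Polynomial ℤ, Polynomial.aeval (jqModC ℤ) Q' = x := by
  suffices H : ∀ d : ℕ, ∀ (Q : Polynomial ℂ) (x : LaurentSeries ℤ), Q.natDegree < d →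
      Polynomial.aeval (jqModC ℂ) Q = kap x →
        ∃ Q' : Polynomial ℤ, Polynomial.aeval (jqModC ℤ) Q' = x from
    H (Q.natDegree + 1) Q x (Nat.lt_succ_self _) h
  intro d
  induction d with
  | zero => intro Q x hQ; omega
  | succ d ih =>
    intro Q x hQ hx
    have hle : Q.natDegree ≤ d := Nat.lt_succ_iff.mp hQ
    have hlead := aeval_jC_coeff Q hle
    rw [hx, coeffMap_coeff] at hlead
    set m : ℤ := x.coeff (-(d : ℤ)) with hm
    set Q1 : Polynomial ℂ := Q - Polynomial.C (Q.coeff d) * Polynomial.X ^ d with hQ1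
    have hx1 : Polynomial.aeval (jqModC ℂ) Q1 = kap (x - (m : LaurentSeries ℤ) * jqModC ℤ ^ d) := by
      rw [hQ1, map_sub, map_mul, Polynomial.aeval_C, map_pow, Polynomial.aeval_X, hx, map_sub,
        map_mul, map_pow, coeffMap_jqModC, ← hlead]
      congr 2
      rw [H505.algebraMap_laurent_eq_C, map_intCast]
      simp
    by_cases h0 : Q1 = 0
    · refine ⟨Polynomial.C m * Polynomial.X ^ d, ?_⟩
      rw [h0, map_zero] at hx1
      have h1 : x - (m : LaurentSeries ℤ) * jqModC ℤ ^ d = 0 :=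
        kap_injective (by rw [← hx1, map_zero])
      rw [map_mul, Polynomial.aeval_C, map_pow, Polynomial.aeval_X]
      rw [sub_eq_zero] at h1
      rw [h1]
      simp
    · have hdeg : Q1.natDegree < d := by
        have h1 : Q1.natDegree ≤ d := by
          refine (Polynomial.natDegree_sub_le _ _).trans (max_le hle ?_)
          exact Polynomial.natDegree_C_mul_X_pow_le _ _
        rcases Nat.lt_or_ge Q1.natDegree d with h2 | h2
        · exact h2
        · have h3 : Q1.natDegree = d := le_antisymm h1 h2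
          have h4 : Q1.coeff d = 0 := by simp [hQ1]
          have h5 : Q1.leadingCoeff = 0 := by rw [Polynomial.leadingCoeff, h3, h4]
          exact absurd (Polynomial.leadingCoeff_eq_zero.mp h5) h0
      obtain ⟨Q', hQ'⟩ := ih Q1 _ hdeg hx1
      refine ⟨Q' + Polynomial.C m * Polynomial.X ^ d, ?_⟩
      rw [map_add, hQ', map_mul, Polynomial.aeval_C, map_pow, Polynomial.aeval_X]
      simp

/-! ### The Hecke input -/

theorem kap_heckeL_eq_gen (p : ℕ) [NeZero p] (hp : p.Prime) (φ : PowerSeries ℤ) (k' : ℕ) (k : ℤ)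
    (hk' : k = (k' : ℤ)) (F : ModularForm 𝒮ℒ k) (hF : qExpansion 1 F = toC φ) :
    kap (heckeL p k' φ) =
      (p : LaurentSeries ℂ) * ofPS (qExpansion 1 (heckeForm k hp F)) := by
  have hp0 : (p : ℂ) ≠ 0 := Nat.cast_ne_zero.mpr hp.ne_zero
  ext n
  rw [heckeL]
  simp only [map_add, map_mul, map_pow, map_natCast, coeffMap_qExpand, kap_ofPS, toC_UpZ]
  rw [HahnSeries.coeff_add, ← Nat.cast_pow, natCast_mul_coeff, natCast_mul_coeff,
    natCast_mul_coeff]
  rcases lt_or_ge n 0 with hn | hn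
  · rw [ofPS_coeff_neg _ hn, ofPS_coeff_neg _ hn, mul_zero, add_zero]
    have := cBase_coeff_neg p (toC φ) hn
    rw [cBase, RingHom.comp_apply] at this
    rw [this, mul_zero]
  · lift n to ℕ using hn
    rw [ofPS_coeff_nat, ofPS_coeff_nat, qExpansion_heckeForm_coeff, hF, coeff_Up]
    by_cases hdvd : p ∣ n
    · obtain ⟨m, rfl⟩ := hdvd
      rw [if_pos (dvd_mul_right p m)]
      have h1 : ((p * m : ℕ) : ℤ) = (p : ℤ) * m := by push_cast; ring
      rw [h1, qExpand_coeff_mul, ofPS_coeff_nat, Nat.mul_div_cancel_left m hp.pos]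
      have h2 : (p : ℂ) * (p : ℂ) ^ (k - 1) = ((p ^ k' : ℕ) : ℂ) := by
        rw [hk', ← zpow_one_add₀ hp0]
        push_cast
        rw [show (1 : ℤ) + ((k' : ℤ) - 1) = (k' : ℤ) by ring, zpow_natCast]
      rw [mul_add, ← mul_assoc, h2]
      ring
    · rw [if_neg hdvd, add_zero]
      have h1 : ¬ (p : ℤ) ∣ (n : ℤ) := by exact_mod_cast hdvd
      rw [qExpand_coeff_of_not_dvd p _ h1, mul_zero, zero_add]

theorem kap_heckeL_eq (p : ℕ) [NeZero p] (hp : p.Prime) (a r : ℕ) (k : ℤ)
    (hk : ((3 * a : ℕ) : ℤ) * 4 + ((r : ℕ) : ℤ) * 12 = k) :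
    kap (heckeL p (12 * (a + r)) (EZ ^ a * DZ ^ r)) =
      (p : LaurentSeries ℂ) *
        ofPS (qExpansion 1 (heckeForm k hp (monoE4Delta a r k hk))) :=
  kap_heckeL_eq_gen p hp _ _ k (by rw [← hk]; push_cast; ring) _ (qExpansion_monoE4Delta a r k hk)

/-- **The Hecke input holds.** -/
theorem heckeInput (p : ℕ) [NeZero p] (hp : p.Prime) : HeckeInput p := by
  intro a r
  have hk : ((3 * a : ℕ) : ℤ) * 4 + ((r : ℕ) : ℤ) * 12 = (12 * ((a + r : ℕ) : ℤ)) := by
    push_cast; ring
  obtain ⟨P, -, -, hP⟩ := H505.levelOne_structure (a + r) _ rfl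
    (heckeForm _ hp (monoE4Delta a r _ hk))
  have h1 := kap_heckeL_eq p hp a r _ hk
  rw [hP] at h1
  have hD : HahnSeries.ofPowerSeries ℤ ℂ H505.deltaC = kap deltaZ := by
    rw [deltaZ, kap_ofPS, toC_DZ]
  have h2 : Polynomial.aeval (jqModC ℂ) (Polynomial.C (p : ℂ) * P) =
      kap (heckeL p (12 * (a + r)) (EZ ^ a * DZ ^ r) * deltaInvZ ^ (a + r)) := by
    have h3 : kap deltaZ * kap deltaInvZ = 1 := by
      rw [← map_mul, deltaZ_mul_deltaInvZ, map_one]
    have h4 : (p : LaurentSeries ℂ) = HahnSeries.C (p : ℂ) := by simp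
    have h5 : kap (heckeL p (12 * (a + r)) (EZ ^ a * DZ ^ r) * deltaInvZ ^ (a + r)) =
        kap (heckeL p (12 * (a + r)) (EZ ^ a * DZ ^ r)) * kap deltaInvZ ^ (a + r) := by
      rw [map_mul, map_pow]
    have h6 : Polynomial.aeval (jqModC ℂ) (Polynomial.C (p : ℂ) * P) =
        HahnSeries.C (p : ℂ) * Polynomial.aeval (jqModC ℂ) P := by
      rw [map_mul, Polynomial.aeval_C, H505.algebraMap_laurent_eq_C]
    rw [h5, h6, h1, hD, h4]
    calc HahnSeries.C (p : ℂ) * Polynomial.aeval (jqModC ℂ) P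
        = HahnSeries.C (p : ℂ) * Polynomial.aeval (jqModC ℂ) P *
            (kap deltaZ * kap deltaInvZ) ^ (a + r) := by rw [h3, one_pow, mul_one]
      _ = _ := by rw [mul_pow]; ring
  obtain ⟨Q', hQ'⟩ := exists_int_poly_of_kap _ _ h2
  refine ⟨Q', ?_⟩
  rw [hQ', mul_assoc, ← mul_pow, mul_comm deltaInvZ, deltaZ_mul_deltaInvZ, one_pow, mul_one]

end Fermat.Agent.S28.H326

end
end
-- ===== PACK-END S28/H326/Hecke.lean

-- ===== PACK-BEGIN S18/Mod/H216/Asm.lean
section




/-!
# S18 / MOD-ASM (helper216): node_mod from the six PARTS at the concrete objects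

Targets for the MOD owners (exact statements; `E` ranges over ALL number fields `E ⊆ Q̄`):

| part | statement to prove | content |
|---|---|---|
| G-R   | `PartRStatement M A`         | `A ∩ E` is a DVR of `E`, finite residue field (needs `A.LiesOverPrime ℓ`) |
| G-FLD | `PartFldStatement M x`       | constants, `x` transcendental, `[Fc : Ec(x)] < ∞` |
| G-V   | `PartVStatement M A x`       | `Vc M A E` is the Gauss valuation ring (needs S28 `CoreData`, i.e. `ℓ ∤ M`) |
| G-QEP | `PartQepStatement M A x`     | q-expansion principle on the charts `R[x]`, `R[x⁻¹]` |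
| G-SEP | `PartSepStatement M A x`     | separability of the residue field of `Vc` over `κ(x̄)` |
| G-BR  | `PartBrStatement M A x S`    | branch values |

`goodAt_of_parts` : the six statements give `GoodAt M A x S`.
`goodModelStatement_of_parts` : the frozen node `Mod.GoodModelStatement M ℓ A` from the six
statements for `x = j` (`ℓ ≥ 5`) and `GoodAt` for the Hauptmodul coordinates (`ℓ = 2, 3`; M3-T).
-/

set_option autoImplicit false

noncomputable section

namespace Fermat.Agent.S18.Mod.H216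

open ModularCurve AlgebraicCurve HahnSeries Fermat.Agent.S18 Fermat.Agent.S18.Mod
open Fermat.Agent.S18.Alg

/-- **G-R** at the concrete objects. -/
def PartRStatement (M : ℕ) (A : ValuationSubring Qb) : Prop :=
  ∀ E : IntermediateField ℚ Qb, FiniteDimensional ℚ E →
    ∃ w : Om M, PartR (Ec M E) (Rc M A E) w

/-- **G-FLD** at the concrete objects. -/
def PartFldStatement (M : ℕ) (x : Om M) : Prop :=
  ∀ E : IntermediateField ℚ Qb, FiniteDimensional ℚ E →
    PartFld (Lc M) (Ec M E) (Fc M E) x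

/-- **G-V** at the concrete objects, for every uniformiser `w`. -/
def PartVStatement (M : ℕ) (A : ValuationSubring Qb) (x : Om M) : Prop :=
  ∀ E : IntermediateField ℚ Qb, FiniteDimensional ℚ E →
    ∀ w : Om M, PartR (Ec M E) (Rc M A E) w →
      PartV (Fc M E) (Rc M A E) (Vc M A E) w x

/-- **G-QEP** at the concrete objects, for every uniformiser `w`. -/
def PartQepStatement (M : ℕ) (A : ValuationSubring Qb) (x : Om M) : Prop :=
  ∀ E : IntermediateField ℚ Qb, FiniteDimensional ℚ E →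
    ∀ w : Om M, PartR (Ec M E) (Rc M A E) w →
      PartQep (Fc M E) (Rc M A E) (Vc M A E) w x

/-- **G-SEP** at the concrete objects, for every uniformiser `w`. -/
def PartSepStatement (M : ℕ) (A : ValuationSubring Qb) (x : Om M) : Prop :=
  ∀ E : IntermediateField ℚ Qb, FiniteDimensional ℚ E →
    ∀ w : Om M, PartR (Ec M E) (Rc M A E) w →
      PartSep (Rc M A E) (Vc M A E) w x

/-- **G-BR** at the concrete objects. -/
def PartBrStatement (M : ℕ) (A : ValuationSubring Qb) (x : Om M) (S : Finset (Om M)) : Prop :=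
  ∀ E : IntermediateField ℚ Qb, FiniteDimensional ℚ E →
    PartBr (Lc M) (Rc M A E) x S

theorem charZero_Om (M : ℕ) : CharZero (Om M) :=
  charZero_of_injective_algebraMap (algebraMap Qb (Om M)).injective

/-- The six parts give `GoodAt`. -/
theorem goodAt_of_parts {M : ℕ} {A : ValuationSubring Qb} {x : Om M} {S : Finset (Om M)}
    (hR : PartRStatement M A) (hF : PartFldStatement M x) (hV : PartVStatement M A x)
    (hQ : PartQepStatement M A x) (hS : PartSepStatement M A x)
    (hB : PartBrStatement M A x S) : GoodAt M A x S := by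
  intro E hE
  obtain ⟨w, hw⟩ := hR E hE
  exact ⟨Vc M A E, w, coe_Vc M A E,
    goodModel_of_parts (charZero_Om M) hw (hF E hE) (hV E hE w hw) (hQ E hE w hw)
      (hS E hE w hw) (hB E hE)⟩

/-- **MOD assembly**: the frozen node `Mod.GoodModelStatement M ℓ A` from the parts for the
coordinate `j` (used when `ℓ ≥ 5`) and `GoodAt` for the Hauptmodul coordinates (`ℓ = 2, 3`). -/
theorem goodModelStatement_of_parts (M ℓ : ℕ) (A : ValuationSubring Qb)
    (hR : 5 ≤ ℓ → PartRStatement M A)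
    (hF : 5 ≤ ℓ → PartFldStatement M (jOm M))
    (hV : 5 ≤ ℓ → PartVStatement M A (jOm M))
    (hQ : 5 ≤ ℓ → PartQepStatement M A (jOm M))
    (hS : 5 ≤ ℓ → PartSepStatement M A (jOm M))
    (hB : 5 ≤ ℓ → ∀ S : Finset (Om M), (∀ s, s ∈ S ↔ s = 0 ∨ s = 1728) →
      PartBrStatement M A (jOm M) S)
    (ht : ¬ 5 ≤ ℓ → ∀ (x : Om M) (S : Finset (Om M)), IsCoordinate M ℓ x S → GoodAt M A x S) :
    GoodModelStatement M ℓ A := by
  refine goodModelStatement_of_goodAt M ℓ A fun x S hxS => ?_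
  by_cases h5 : 5 ≤ ℓ
  · rcases hxS with ⟨-, rfl, hS'⟩ | ⟨h | h, -⟩
    · exact goodAt_of_parts (hR h5) (hF h5) (hV h5) (hQ h5) (hS h5) (hB h5 S hS')
    · omega
    · omega
  · exact ht h5 x S hxS

end Fermat.Agent.S18.Mod.H216

end
end
-- ===== PACK-END S18/Mod/H216/Asm.lean

-- ===== PACK-BEGIN S18/H394/KummerMain.lean
section




/-!
# S18, Route K, pieces b3+b4 (helper394): the Kummer endgame, user-facing form

`kummer_endgame`: two charts `B₀ ∋ x`, `B₁ ∋ x⁻¹` of a "curve over `R`" inside a field `F`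
(`M = B₀[1/x] = B₁[x]`, `B₀ ∩ B₁ = R`, `B₀` finite over `R[x]`, all three `m`-root closed), `m`
invertible in `R`, `m ≥ 2`.  Then there is NO `u ∈ Fˣ` such that
* `u` has exact order `m` modulo constants and `m`-th powers (`hord`), and
* `u` is "congruent to an `m`-th power modulo `w`" on both charts, compatibly
  (`σ₀ ^ m * u ≡ 1 mod w B₀`, `σ₁ ^ m * u ≡ 1 mod w B₁`, `σ₀ ≡ σ₁ mod w`, in the graded sense),
where `w ∈ R` is not a unit of `B₀`.

No Kummer field, no integral closure, no discriminant: the proof applies the two-chart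
connectedness theorem (b5) to the graded algebra `⨁ᵢ {f | f ^ m * u ^ i ∈ B} Tⁱ ⊆ F[T]/(T^m - u)`.
-/

set_option autoImplicit false

namespace Fermat.Agent.S18.H394

open Polynomial

variable {R F : Type*} [CommRing R] [IsLocalRing R] [IsNoetherianRing R] [Field F] [Algebra R F]

/-- **Kummer endgame** (pieces b3+b4+b5 of Route K in one statement). -/
theorem kummer_endgame
    (m : ℕ) (hm : 2 ≤ m) (ν : R) (hν : ν * (m : R) = 1)
    (w : R) (u : F) (hu : u ≠ 0)
    (B₀ B₁ M : Subalgebra R F)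
    (hrc0 : RootClosed m B₀) (hrc1 : RootClosed m B₁) (hrcM : RootClosed m M)
    (x : F) (hx0 : x ≠ 0) (hx : x ∈ B₀) (hx' : x⁻¹ ∈ B₁)
    (h0M : B₀ ≤ M) (h1M : B₁ ≤ M)
    (hloc0 : ∀ y ∈ M, ∃ n : ℕ, x ^ n * y ∈ B₀)
    (hloc1 : ∀ y ∈ M, ∃ n : ℕ, x⁻¹ ^ n * y ∈ B₁)
    (hint : ∀ y : F, y ∈ B₀ → y ∈ B₁ → ∃ r : R, algebraMap R F r = y)
    (hfin : ∃ s : Finset F, ∀ b ∈ B₀, ∃ P : F → Polynomial R,
      b = ∑ β ∈ s, Polynomial.aeval x (P β) * β)
    (hden : ∃ d ∈ B₀, d ≠ 0 ∧ d * u⁻¹ ∈ B₀)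
    (hw1 : ∀ b ∈ B₀, algebraMap R F w * b ≠ 1)
    (hord : ∀ i : ℕ, 0 < i → i < m → ∀ f : F, f ≠ 0 → ∀ r : R,
        f ^ m * u ^ i ≠ algebraMap R F r)
    (σ₀ σ₁ : F)
    (h₀ : ∃ b ∈ B₀, σ₀ ^ m * u - 1 = algebraMap R F w * b)
    (h₁ : ∃ b ∈ B₁, σ₁ ^ m * u - 1 = algebraMap R F w * b)
    (h₀₁ : ∃ γ : F, σ₀ - σ₁ = algebraMap R F w * γ ∧ γ ^ m * u ∈ M) : False := by
  classical
  have hm0 : m ≠ 0 := by omega
  have hp : (X ^ m - C u : F[X]).Monic := monic_X_pow_sub_C u hm0
  set pb := AdjoinRoot.powerBasis' hp with hpb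
  have hdim : pb.dim = m := by
    rw [hpb, AdjoinRoot.powerBasis'_dim]
    exact natDegree_X_pow_sub_C
  have hT : pb.gen ^ pb.dim = algebraMap F (AdjoinRoot (X ^ m - C u : F[X])) u := by
    rw [hdim, hpb, AdjoinRoot.powerBasis'_gen]
    have := AdjoinRoot.eval₂_root (X ^ m - C u : F[X])
    simp only [eval₂_sub, eval₂_pow, eval₂_X, eval₂_C] at this
    rw [sub_eq_zero] at this
    rw [this]
    rfl
  have hd0 : 0 < pb.dim := by omega
  have hd1 : 1 < pb.dim := by omega
  have hrc0' : RootClosed pb.dim B₀ := by rw [hdim]; exact hrc0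
  have hrc1' : RootClosed pb.dim B₁ := by rw [hdim]; exact hrc1
  have hrcM' : RootClosed pb.dim M := by rw [hdim]; exact hrcM
  obtain ⟨S, hS, hgen⟩ := kummerSub_fg pb u hu hT hd0 B₀ hrc0' x hx hfin hden
  refine kummer_endgame_aux pb u hT hd0 hd1 ν (by rw [hdim]; exact hν) w B₀ B₁ M hrc0' hrc1' hrcM'
    x hx0 hx hx' h0M h1M hloc0 hloc1 hint (↥S) (fun c => (c : AdjoinRoot (X ^ m - C u : F[X])))
    (fun c => hS c c.2) ?_ hw1 (by rw [hdim]; exact hord) σ₀ σ₁ (by rw [hdim]; exact h₀)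
    (by rw [hdim]; exact h₁) (by rw [hdim]; exact h₀₁)
  intro b hb
  obtain ⟨P, hP⟩ := hgen b hb
  refine ⟨fun c => P c, ?_⟩
  rw [finsum_eq_sum_of_fintype, hP]
  exact (Finset.sum_coe_sort S (fun c => Polynomial.aeval (algebraMap F _ x) (P c) * c)).symm

end Fermat.Agent.S18.H394

end
-- ===== PACK-END S18/H394/KummerMain.lean

-- ===== PACK-BEGIN S55/Bridge/H594/PrimeBelow.lean
section



/-!
# S55 bridge (helper594): valuation subrings of `ℚ̄` versus primes of `ℤ̄`

For a valuation subring `A` of `ℚ̄` lying over a prime number `q`, the decomposition group of `A`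
is the stabiliser of the prime `primeBelow A` of the ring `ℤ̄` of all algebraic integers, and the
inertia group of `A` is the inertia group of `primeBelow A`.
-/

set_option autoImplicit false

namespace Fermat.Agent.S55.Bridge.H594

open Fermat.Agent.S54 Fermat.Agent.S55.Bridge
open scoped Pointwise

attribute [local instance] isAlgebraic_Qbar isGalois_Qbar

section basic

variable (A : ValuationSubring (AlgebraicClosure ℚ))

/-- Algebraic integers lie in every valuation subring. -/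
theorem coe_mem (b : integralClosure ℤ (AlgebraicClosure ℚ)) : (b : AlgebraicClosure ℚ) ∈ A :=
  isIntegral_mem_valuationSubring A b.2

theorem coe_smul (σ : AlgebraicClosure ℚ ≃ₐ[ℚ] AlgebraicClosure ℚ)
    (b : integralClosure ℤ (AlgebraicClosure ℚ)) :
    ((σ • b : integralClosure ℤ (AlgebraicClosure ℚ)) : AlgebraicClosure ℚ) = σ b := rfl

/-- `σ` stabilises `primeBelow A` iff it preserves membership. -/
theorem smul_primeBelow_eq_iff (σ : AlgebraicClosure ℚ ≃ₐ[ℚ] AlgebraicClosure ℚ) :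
    σ • primeBelow A = primeBelow A ↔
      ∀ b : integralClosure ℤ (AlgebraicClosure ℚ), σ • b ∈ primeBelow A ↔ b ∈ primeBelow A := by
  constructor
  · intro h b
    conv_lhs => rw [← h]
    exact Ideal.smul_mem_pointwise_smul_iff
  · intro h
    ext b
    rw [Ideal.mem_pointwise_smul_iff_inv_smul_mem]
    rw [← h (σ⁻¹ • b), smul_inv_smul]

/-- If `σ` preserves the prime below `A`, it maps `A` into `A`. -/
theorem map_mem_of_smul_primeBelow {q : ℕ} (hq : q.Prime) (hA : A.LiesOverPrime q)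
    (τ : AlgebraicClosure ℚ ≃ₐ[ℚ] AlgebraicClosure ℚ)
    (hτ : ∀ b : integralClosure ℤ (AlgebraicClosure ℚ), τ • b ∈ primeBelow A ↔ b ∈ primeBelow A)
    (x : AlgebraicClosure ℚ) (hx : x ∈ A) : τ x ∈ A := by
  obtain ⟨b, s, hb, hs, hsA, hxs⟩ := (mem_valuationSubring_iff A q hq hA x).mp hx
  refine (mem_valuationSubring_iff A q hq hA (τ x)).mpr
    ⟨τ b, τ s, hb.map τ, hs.map τ, ?_, ?_⟩
  · exact (hτ ⟨s, hs⟩).not.mpr hsA
  · rw [← map_mul, hxs]

/-- The decomposition group of `A` is the stabiliser of the prime of `ℤ̄` below `A`. -/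
theorem mem_decompositionSubgroup_iff_smul_primeBelow {q : ℕ} (hq : q.Prime)
    (hA : A.LiesOverPrime q) (σ : AlgebraicClosure ℚ ≃ₐ[ℚ] AlgebraicClosure ℚ) :
    σ ∈ A.decompositionSubgroup ℚ ↔ σ • primeBelow A = primeBelow A := by
  rw [smul_primeBelow_eq_iff]
  constructor
  · intro hσ b
    have h1 := (mem_decompositionSubgroup_iff A σ).mp hσ
    rw [mem_primeBelow, mem_primeBelow, coe_smul, ValuationSubring.mem_nonunits_iff_or,
      ValuationSubring.mem_nonunits_iff_or, ← map_inv₀, h1, map_eq_zero_iff σ σ.injective]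
  · intro hσ
    rw [mem_decompositionSubgroup_iff]
    intro x
    constructor
    · intro hx
      have h2 : ∀ b : integralClosure ℤ (AlgebraicClosure ℚ),
          σ⁻¹ • b ∈ primeBelow A ↔ b ∈ primeBelow A := by
        intro b
        rw [← hσ (σ⁻¹ • b), smul_inv_smul]
      have := map_mem_of_smul_primeBelow A hq hA σ⁻¹ h2 (σ x) hx
      simpa using this
    · exact map_mem_of_smul_primeBelow A hq hA σ hσ x

/-- An integral element outside the prime below `A` has valuation `1`. -/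
theorem valuation_eq_one_of_not_mem_nonunits {s : AlgebraicClosure ℚ} (hs : IsIntegral ℤ s)
    (hsA : s ∉ A.nonunits) : A.valuation s = 1 := by
  have h1 : A.valuation s ≤ 1 :=
    (A.valuation_le_one_iff _).mpr (isIntegral_mem_valuationSubring A hs)
  rw [ValuationSubring.mem_nonunits_iff, not_lt] at hsA
  exact le_antisymm h1 hsA

/-- The inertia group of `A` is the inertia group of the prime of `ℤ̄` below `A`. -/
theorem mem_inertiaSubgroupIn_iff_primeBelow {q : ℕ} (hq : q.Prime)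
    (hA : A.LiesOverPrime q) (σ : AlgebraicClosure ℚ ≃ₐ[ℚ] AlgebraicClosure ℚ) :
    σ ∈ A.inertiaSubgroupIn ℚ ↔
      ∀ b : integralClosure ℤ (AlgebraicClosure ℚ), σ • b - b ∈ primeBelow A := by
  constructor
  · intro hσ b
    exact ((mem_inertiaSubgroupIn_iff A σ).mp hσ).2 b (coe_mem A b)
  · intro hσ
    have hstab : ∀ b : integralClosure ℤ (AlgebraicClosure ℚ),
        σ • b ∈ primeBelow A ↔ b ∈ primeBelow A := by
      intro b
      constructor
      · intro h
        have := (primeBelow A).sub_mem h (hσ b)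
        simpa using this
      · intro h
        have := (primeBelow A).add_mem (hσ b) h
        simpa using this
    have hD : σ ∈ A.decompositionSubgroup ℚ :=
      (mem_decompositionSubgroup_iff_smul_primeBelow A hq hA σ).mpr
        ((smul_primeBelow_eq_iff A σ).mpr hstab)
    rw [mem_inertiaSubgroupIn_iff]
    refine ⟨hD, fun z hz => ?_⟩
    obtain ⟨b, s, hb, hs, hsA, hzs⟩ := (mem_valuationSubring_iff A q hq hA z).mp hz
    have hs0 : s ≠ 0 := fun h => hsA (h ▸ A.nonunits.zero_mem)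
    have hσs0 : σ s ≠ 0 := (map_ne_zero_iff σ σ.injective).mpr hs0
    have hσsA : σ s ∉ A.nonunits := (hstab ⟨s, hs⟩).not.mpr hsA
    have hvs : A.valuation s = 1 := valuation_eq_one_of_not_mem_nonunits A hs hsA
    have hvσs : A.valuation (σ s) = 1 :=
      valuation_eq_one_of_not_mem_nonunits A (hs.map σ) hσsA
    have hz' : z = b / s := by rw [← hzs]; field_simp
    have hnum : (σ b - b) * s - b * (σ s - s) ∈ A.nonunits := by
      rw [ValuationSubring.mem_nonunits_iff]
      have h1 : A.valuation ((σ b - b) * s) < 1 := by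
        rw [map_mul, hvs, mul_one]
        exact (ValuationSubring.mem_nonunits_iff A).mp (hσ ⟨b, hb⟩)
      have h2 : A.valuation (b * (σ s - s)) < 1 := by
        rw [map_mul]
        have hb1 : A.valuation b ≤ 1 :=
          (A.valuation_le_one_iff _).mpr (isIntegral_mem_valuationSubring A hb)
        have hs1 : A.valuation (σ s - s) < 1 :=
          (ValuationSubring.mem_nonunits_iff A).mp (hσ ⟨s, hs⟩)
        exact mul_lt_one_of_nonneg_of_lt_one_right hb1 zero_le hs1
      exact lt_of_le_of_lt (Valuation.map_sub _ _ _) (max_lt h1 h2)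
    have hval : σ z - z = ((σ b - b) * s - b * (σ s - s)) / (s * σ s) := by
      rw [hz', map_div₀]
      field_simp
      ring
    rw [hval, ValuationSubring.mem_nonunits_iff, map_div₀, map_mul, hvs, hvσs, mul_one,
      div_one]
    exact (ValuationSubring.mem_nonunits_iff A).mp hnum

end basic

end Fermat.Agent.S55.Bridge.H594

end
-- ===== PACK-END S55/Bridge/H594/PrimeBelow.lean

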