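import Mathlib.Analysis.Complex.UpperHalfPlane.MoebiusAction
import Mathlib.NumberTheory.ModularForms.CongruenceSubgroups
import Mathlib
import Fermat.Prelude.Def_AlgebraicCurve_DivisorClassGroup
import Fermat.Agent.Pack.S3234.G0E4L1
import Fermat.Agent.Pack.S3234.G0E4L2
import Fermat.Agent.Pack.S3234.G0E2L3
import Fermat.Agent.Pack.S3234.G0E0L1
import Fermat.Agent.Pack.S3234.G0E3L1
import Fermat.Agent.Pack.S3234.G0E4L3
import Fermat.Agent.Pack.S3234.G0E0L0
import Fermat.Agent.Pack.S3234.G0E0L2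
import Fermat.Agent.Pack.S3234.G0E4L0
import Fermat.Agent.Pack.S3234.G0E1L0

-- ===== PACK-BEGIN S30/H990/TwoDim1.lean
section
/-
S30 top glue (helper990): pure algebra, part 6: the rank one case and the conclusion of the
extraction.
-/


set_option autoImplicit false

namespace Fermat.Agent.S30.H990

open Module Polynomial

section PiCong

variable {𝒪 : Type} [CommRing 𝒪]

/-- A vector with all coordinates in `I` lies in `I • ⊤`. -/
theorem pi_mem_smul_top (I : Ideal 𝒪) (y : Fin 2 → 𝒪) (hy : ∀ i, y i ∈ I) :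
    y ∈ I • (⊤ : Submodule 𝒪 (Fin 2 → 𝒪)) := by
  classical
  rw [pi_eq_sum_univ' y]
  refine Submodule.sum_mem _ (fun i _ => ?_)
  exact Submodule.smul_mem_smul (hy i) Submodule.mem_top

end PiCong

section Constructions

variable {𝒪 M G : Type} [CommRing 𝒪] [IsDomain 𝒪] [IsPrincipalIdealRing 𝒪]
  [AddCommGroup M] [Module 𝒪 M] [Module.Free 𝒪 M] [Module.Finite 𝒪 M] [Group G]
  (ρ : G →* Module.End 𝒪 M) (d : G →* 𝒪ˣ)

/-- The rank one case. -/
theorem twoDim_of_rank_one (v : M) (hv0 : v ≠ 0)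
    (hsv : ∀ g, ∃ r : 𝒪, r ≠ 0 ∧ r • ρ g v ∈ Submodule.span 𝒪 {v}) :
    Nonempty (TwoDimOut ρ d) := by
  classical
  have hli : LinearIndependent 𝒪 (fun _ : Fin 1 => v) := by
    rw [linearIndependent_unique_iff]
    exact hv0
  have hrange : Set.range (fun _ : Fin 1 => v) = ({v} : Set M) := Set.range_const
  set Λ : Submodule 𝒪 M := sat (Submodule.span 𝒪 ({v} : Set M)) with hΛ
  have hfr : Module.finrank 𝒪 Λ = 1 := by
    have := finrank_sat_span (fun _ : Fin 1 => v) hli
    rwa [hrange] at this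
  have hstab : ∀ g, ∀ x ∈ Λ, ρ g x ∈ Λ := by
    apply sat_span_stable
    intro g x hx
    rw [Set.mem_singleton_iff] at hx
    subst hx
    exact hsv g
  have hvΛ : v ∈ Λ := le_sat _ (Submodule.subset_span (by simp))
  set ρΛ := restrictRep ρ Λ hstab with hρΛ
  -- the character
  let ψ : G →* 𝒪ˣ := (LinearMap.det.comp ρΛ).toHomUnits
  have hψ : ∀ g (x : Λ), ρΛ g x = ((ψ g : 𝒪ˣ) : 𝒪) • x := fun g x =>
    apply_eq_det_smul hfr (ρΛ g) x
  have hψrel : ∀ g a, Rel ρ d g a →
      ((ψ g : 𝒪ˣ) : 𝒪) * ((ψ g : 𝒪ˣ) : 𝒪) - a * ((ψ g : 𝒪ˣ) : 𝒪) + ((d g : 𝒪ˣ) : 𝒪) = 0 := by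
    intro g a hr
    have h1 := rel_apply ρΛ d (rel_restrictRep ρ d Λ hstab hr) ⟨v, hvΛ⟩
    rw [hψ g ⟨v, hvΛ⟩, map_smul, hψ g ⟨v, hvΛ⟩] at h1
    have h2 : (((ψ g : 𝒪ˣ) : 𝒪) * ((ψ g : 𝒪ˣ) : 𝒪) - a * ((ψ g : 𝒪ˣ) : 𝒪) + ((d g : 𝒪ˣ) : 𝒪))
        • (⟨v, hvΛ⟩ : Λ) = 0 := by
      rw [← h1]
      module
    have hne : (⟨v, hvΛ⟩ : Λ) ≠ 0 := fun h => hv0 (congrArg Subtype.val h)
    exact (smul_eq_zero.mp h2).resolve_right hne
  -- the diagonal representation
  let δ : G →* (Fin 2 → 𝒪) :=
    { toFun := fun g => ![((ψ g : 𝒪ˣ) : 𝒪), ((d g * (ψ g)⁻¹ : 𝒪ˣ) : 𝒪)]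
      map_one' := by
        ext i
        fin_cases i <;> simp
      map_mul' := fun g h => by
        ext i
        fin_cases i
        · simp
        · simp only [map_mul, mul_inv_rev, Units.val_mul, Fin.mk_one, Fin.isValue, Pi.mul_apply,
            Matrix.cons_val_one, Matrix.cons_val_zero]
          ring }
  let A : G →* Matrix (Fin 2) (Fin 2) 𝒪 :=
    ((Matrix.diagonalRingHom (Fin 2) 𝒪 : (Fin 2 → 𝒪) →+* Matrix (Fin 2) (Fin 2) 𝒪) :
      (Fin 2 → 𝒪) →* Matrix (Fin 2) (Fin 2) 𝒪).comp δ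
  let ρ₂ : G →* Module.End 𝒪 (Fin 2 → 𝒪) :=
    ((Matrix.toLinAlgEquiv' : Matrix (Fin 2) (Fin 2) 𝒪 ≃ₐ[𝒪] Module.End 𝒪 (Fin 2 → 𝒪)) :
      Matrix (Fin 2) (Fin 2) 𝒪 →* Module.End 𝒪 (Fin 2 → 𝒪)).comp A
  have hρ₂ : ∀ g, ρ₂ g = Matrix.toLin' (Matrix.diagonal (δ g)) := fun g => rfl
  have hδ0 : ∀ g, δ g 0 = ((ψ g : 𝒪ˣ) : 𝒪) := fun g => rfl
  have hδ1 : ∀ g, δ g 1 = ((d g * (ψ g)⁻¹ : 𝒪ˣ) : 𝒪) := fun g => rfl
  refine ⟨{ V := Fin 2 → 𝒪
            finrank_eq := by simp
            ρ₂ := ρ₂
            charpoly_eq := ?_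
            cong := ?_ }⟩
  · intro g a hr
    rw [hρ₂, Matrix.charpoly_toLin', Matrix.charpoly_fin_two, Matrix.trace_diagonal,
      Matrix.det_diagonal, Fin.sum_univ_two, Fin.prod_univ_two, hδ0, hδ1]
    have h := hψrel g a hr
    have hinv : ((ψ g : 𝒪ˣ) : 𝒪) * (((ψ g)⁻¹ : 𝒪ˣ) : 𝒪) = 1 := by
      rw [← Units.val_mul, mul_inv_cancel, Units.val_one]
    have ha : ((ψ g : 𝒪ˣ) : 𝒪) + ((d g * (ψ g)⁻¹ : 𝒪ˣ) : 𝒪) = a := by
      rw [Units.val_mul]
      linear_combination (((ψ g)⁻¹ : 𝒪ˣ) : 𝒪) * h + (a - ((ψ g : 𝒪ˣ) : 𝒪)) * hinv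
    have hd : ((ψ g : 𝒪ˣ) : 𝒪) * ((d g * (ψ g)⁻¹ : 𝒪ˣ) : 𝒪) = ((d g : 𝒪ˣ) : 𝒪) := by
      rw [Units.val_mul]
      linear_combination ((d g : 𝒪ˣ) : 𝒪) * hinv
    rw [ha, hd]
  · intro I g hg hdg x
    -- `ψ g - 1 ∈ I`
    have hψI : ((ψ g : 𝒪ˣ) : 𝒪) - 1 ∈ I := by
      apply mem_of_smul_basis_mem hfr I
      intro y
      have hmem : ((ρΛ g y - y : Λ) : M) ∈ I • (⊤ : Submodule 𝒪 M) := hg (y : M)
      have := mem_smul_top_sat _ I _ hmem
      rwa [hψ g y, ← one_smul 𝒪 y, smul_smul, mul_one, ← sub_smul] at this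
    have hinv : ((ψ g : 𝒪ˣ) : 𝒪) * (((ψ g)⁻¹ : 𝒪ˣ) : 𝒪) = 1 := by
      rw [← Units.val_mul, mul_inv_cancel, Units.val_one]
    have hδI : ((d g * (ψ g)⁻¹ : 𝒪ˣ) : 𝒪) - 1 ∈ I := by
      have : ((d g * (ψ g)⁻¹ : 𝒪ˣ) : 𝒪) - 1
          = (((ψ g)⁻¹ : 𝒪ˣ) : 𝒪) * ((((d g : 𝒪ˣ) : 𝒪) - 1) - (((ψ g : 𝒪ˣ) : 𝒪) - 1)) := by
        rw [Units.val_mul]
        linear_combination hinv
      rw [this]
      exact I.mul_mem_left _ (I.sub_mem hdg hψI)
    apply pi_mem_smul_top
    intro i
    rw [hρ₂, Matrix.toLin'_apply, Pi.sub_apply, Matrix.mulVec_diagonal]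
    have : δ g i * x i - x i = (δ g i - 1) * x i := by ring
    rw [this]
    apply I.mul_mem_right
    fin_cases i
    · exact hψI
    · exact hδI

/-- Conclusion of the extraction: from a nonzero finite free module on which every group element
satisfies a quadratic relation with constant term `d g`, and an involution `c` with `d c = -1`,
one gets a rank two representation with the expected characteristic polynomials. -/
theorem exists_twoDim [Nontrivial M] (h2 : (2 : 𝒪) ≠ 0) (hrel : ∀ g, ∃ a, Rel ρ d g a)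
    (c : G) (hc : c * c = 1) (hdc : d c = -1) : Nonempty (TwoDimOut ρ d) := by
  rcases exists_stable ρ d h2 hrel c hc hdc with ⟨v, hv0, hsv⟩ |
    ⟨u, w, ε, hε, hu0, hw0, hu, hw, hsu, hsw⟩
  · exact twoDim_of_rank_one ρ d v hv0 hsv
  · exact twoDim_of_rank_two ρ d hrel h2 c hdc u w ε hε hu0 hw0 hu hw hsu hsw

end Constructions

end Fermat.Agent.S30.H990

end
-- ===== PACK-END S30/H990/TwoDim1.lean

-- ===== PACK-BEGIN S24/Deg/H457_Bridge.lean
section





/-!
# S24 / DEG (helper457), bridge: the formal interface hypothesis `Hyp ℂ N n` from function level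

Inputs: helper648 (conjugate product, `exists_charPoly_eval_eq_zero`), helper708 (`HasQExp`),
helper264 (`hasSum_jFun`).  Remaining explicit hypotheses: the polynomiality principle `D5` for
`jFun` and the growth bound of `jFun` on the fundamental domain.
-/

set_option autoImplicit false

noncomputable section

open UpperHalfPlane ModularGroup CongruenceSubgroup Polynomial ModularCurve
open scoped MatrixGroups Manifold Modular Real

namespace Fermat.Agent.S24.Deg457

open Fermat.Agent.S24.H648 Fermat.Agent.S24.H708 Fermat.Agent.S24.JFun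

/-- `τ ↦ d τ` on the upper half plane -/
def scaleH (d : ℕ) [NeZero d] (τ : ℍ) : ℍ :=
  UpperHalfPlane.mk ((d : ℂ) * τ) (by
    have hd : (0 : ℝ) < d := by exact_mod_cast Nat.pos_of_ne_zero (NeZero.ne d)
    have : ((d : ℂ) * (τ : ℂ)).im = d * τ.im := by simp
    rw [this]
    exact mul_pos hd τ.im_pos)

theorem coe_scaleH (d : ℕ) [NeZero d] (τ : ℍ) : ((scaleH d τ : ℍ) : ℂ) = (d : ℂ) * τ := rfl

theorem coeff_JK_complex (n : ℤ) : (jqModC ℂ).coeff n = algebraMap ℚ ℂ (jq.coeff n) := by
  rw [← JK_eq, JK, coeffEmb_coeff]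

/-- the `q`-expansion of `τ ↦ j(dτ)` is `j(q^d)`. -/
theorem hasQExp_jFun_scale (d : ℕ) [NeZero d] :
    HasQExp 1 (fun τ => _root_.Fermat.Agent.S24.JFun.jFun (scaleH d τ)) (coeffEmb ℂ (qExpand ℚ d jq)) := by
  have hd : 0 < d := Nat.pos_of_ne_zero (NeZero.ne d)
  refine HasQExp.of_hasSum
    (mdifferentiable_J_scale jFun_mdifferentiable d hd (scaleH d) (coe_scaleH d)) ?_
  intro τ
  have h := hasSum_jFun (scaleH d τ)
  have hinj : Function.Injective (fun n : ℤ => (d : ℤ) * n) := by
    intro a b hab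
    have hd' : (d : ℤ) ≠ 0 := by exact_mod_cast hd.ne'
    exact mul_left_cancel₀ hd' hab
  have hsupp : ∀ m : ℤ, m ∉ Set.range (fun n : ℤ => (d : ℤ) * n) →
      (coeffEmb ℂ (qExpand ℚ d jq)).coeff m * qh 1 τ ^ m = 0 := by
    intro m hm
    have hndvd : ¬ (d : ℤ) ∣ m := by
      rintro ⟨k, rfl⟩
      exact hm ⟨k, rfl⟩
    rw [coeffEmb_coeff, qExpand_coeff_of_not_dvd d jq hndvd, map_zero, zero_mul]
  rw [← hinj.hasSum_iff hsupp]
  have hq : Function.Periodic.qParam 1 ((scaleH d τ : ℍ) : ℂ) = qh 1 τ ^ d := by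
    rw [qh_apply, coe_scaleH]
    simp only [Function.Periodic.qParam, Nat.cast_one, Complex.ofReal_one, div_one]
    rw [← Complex.exp_nat_mul]
    congr 1
    ring
  have hfun : ((fun m : ℤ => (coeffEmb ℂ (qExpand ℚ d jq)).coeff m * qh 1 τ ^ m) ∘
      fun n : ℤ => (d : ℤ) * n)
      = fun n : ℤ => (jqModC ℂ).coeff n *
          Function.Periodic.qParam 1 ((scaleH d τ : ℍ) : ℂ) ^ n := by
    funext n
    simp only [Function.comp_apply]
    rw [coeffEmb_coeff, qExpand_coeff_mul, coeff_JK_complex, hq, ← zpow_natCast, ← zpow_mul]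
  rw [hfun]
  exact h

variable (N : ℕ) [NeZero N]

/-- every element of `A_ℂ` is the `q`-expansion of a good function. -/
theorem exists_goodRing_hasQExp
    (hJfd : ∃ C : ℝ, ∀ τ : ℍ, τ ∈ 𝒟 → ‖_root_.Fermat.Agent.S24.JFun.jFun τ‖ ≤ C * Real.exp (2 * π * τ.im))
    {b : LaurentSeries ℂ} (hb : b ∈ AK ℂ N) :
    ∃ f : ℍ → ℂ, f ∈ goodRing N ∧ HasQExp 1 f b := by
  unfold AK at hb
  induction hb using Algebra.adjoin_induction with
  | mem x hx =>
    obtain ⟨y, ⟨d, hd, hdN, rfl⟩, rfl⟩ := hx
    haveI := hd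
    refine ⟨fun τ => _root_.Fermat.Agent.S24.JFun.jFun (scaleH d τ), ?_, hasQExp_jFun_scale d⟩
    exact J_scale_mem_goodRing N jFun_mdifferentiable _root_.Fermat.Agent.S24.JFun.jFun_smul hJfd d
      (Nat.pos_of_ne_zero (NeZero.ne d)) hdN (scaleH d) (coe_scaleH d)
  | algebraMap c =>
    refine ⟨fun _ => c, (goodRing N).algebraMap_mem c, ?_⟩
    have : algebraMap ℂ (LaurentSeries ℂ) c = HahnSeries.C c := by
      rw [algebraMap_laurentSeries_eq_single]; rfl
    rw [this]
    exact HasQExp.const 1 c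
  | add x y _ _ hx hy =>
    obtain ⟨f, hf, hfx⟩ := hx
    obtain ⟨g, hg, hgy⟩ := hy
    exact ⟨f + g, (goodRing N).add_mem hf hg, hfx.add hgy⟩
  | mul x y _ _ hx hy =>
    obtain ⟨f, hf, hfx⟩ := hx
    obtain ⟨g, hg, hgy⟩ := hy
    exact ⟨f * g, (goodRing N).mul_mem hf hg, hfx.mul hgy⟩

theorem hasQExp_jFun : HasQExp 1 _root_.Fermat.Agent.S24.JFun.jFun (JK ℂ) := by
  have h := hasQExp_jFun_scale 1
  rw [qExpand_one_apply] at h
  have hfun : (fun τ => _root_.Fermat.Agent.S24.JFun.jFun (scaleH 1 τ)) = _root_.Fermat.Agent.S24.JFun.jFun := by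
    funext τ
    congr 1
    apply UpperHalfPlane.ext
    rw [coe_scaleH]
    simp
  rw [hfun] at h
  exact h

/-- transfer of univariate polynomial expressions in `j` -/
theorem hasQExp_aeval (p : ℂ[X]) :
    HasQExp 1 (fun τ => p.eval (_root_.Fermat.Agent.S24.JFun.jFun τ)) (aeval (JK ℂ) p) := by
  induction p using Polynomial.induction_on' with
  | add p q hp hq =>
    have := hp.add hq
    rw [map_add]
    convert this using 1
    funext τ
    simp
  | monomial n c =>
    have h1 := (HasQExp.const 1 c).mul (hasQExp_jFun.pow n)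
    rw [aeval_monomial]
    have : algebraMap ℂ (LaurentSeries ℂ) c = HahnSeries.C c := by
      rw [algebraMap_laurentSeries_eq_single]; rfl
    rw [this]
    convert h1 using 1
    funext τ
    simp

/-- transfer of bivariate polynomial expressions -/
theorem hasQExp_eval₂ (P : ℂ[X][X]) {f : ℍ → ℂ} {b : LaurentSeries ℂ} (hf : HasQExp 1 f b) :
    HasQExp 1 (fun τ => (P.map (Polynomial.evalRingHom (_root_.Fermat.Agent.S24.JFun.jFun τ))).eval (f τ))
      (P.eval₂ (evJ (JK ℂ)) b) := by
  induction P using Polynomial.induction_on' with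
  | add p q hp hq =>
    have := hp.add hq
    rw [eval₂_add]
    convert this using 1
    funext τ
    simp
  | monomial n p =>
    have h1 := (hasQExp_aeval p).mul (hf.pow n)
    rw [eval₂_monomial, evJ_apply]
    convert h1 using 1
    funext τ
    simp

/-- **The interface hypothesis over `ℂ`**, from D5 and the growth bound of `j`. -/
theorem hyp_complex
    (hD5 : ∀ F : ℍ → ℂ, MDifferentiable 𝓘(ℂ) 𝓘(ℂ) F →
      (∀ (γ : SL(2, ℤ)) (τ : ℍ), F (γ • τ) = F τ) → ExpGrowth F →
      ∃ p : ℂ[X], ∀ τ, F τ = p.eval (_root_.Fermat.Agent.S24.JFun.jFun τ))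
    (hJfd : ∃ C : ℝ, ∀ τ : ℍ, τ ∈ 𝒟 → ‖_root_.Fermat.Agent.S24.JFun.jFun τ‖ ≤ C * Real.exp (2 * π * τ.im)) :
    Hyp ℂ N (Nat.card (XX N)) := by
  intro b hb
  obtain ⟨f, hf, hfb⟩ := exists_goodRing_hasQExp N hJfd hb
  haveI : Finite (SL(2, ℤ) ⧸ Gamma0 N) := inferInstanceAs (Finite (XX N))
  letI : Fintype (SL(2, ℤ) ⧸ Gamma0 N) := Fintype.ofFinite _
  obtain ⟨P, hPm, hPn, hP⟩ := exists_charPoly_eval_eq_zero (N := N) _root_.Fermat.Agent.S24.JFun.jFun hD5 hf
  refine ⟨P, hPm, ?_, ?_⟩
  · rw [hPn, Nat.card_eq_fintype_card]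
  · have h1 := hasQExp_eval₂ P hfb
    rw [h1.eq_zero_iff]
    funext τ
    exact hP τ

end Fermat.Agent.S24.Deg457

end
end
-- ===== PACK-END S24/Deg/H457_Bridge.lean

-- ===== PACK-BEGIN S24/Inf/HNF.lean
section




/-!
# S24 / MOD-INF — Hermite normal form of `diag(d,1)·γ` and its action on `ℍ`
-/

set_option autoImplicit false

noncomputable section

open UpperHalfPlane Complex Matrix
open scoped MatrixGroups

namespace Fermat.Agent.S24

theorem inf_sl_det (γ : SL(2, ℤ)) : γ 0 0 * γ 1 1 - γ 0 1 * γ 1 0 = 1 := by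
  have := γ.det_coe
  rw [Matrix.det_fin_two] at this
  exact this

/-- **Hermite normal form.** For `γ ∈ SL₂(ℤ)` and `d > 0` there are `γ' ∈ SL₂(ℤ)` and an upper
triangular matrix `[[a,b],[0,d']]`, `a d' = d`, with `diag(d,1)·γ = γ'·[[a,b],[0,d']]`
(written entrywise). -/
theorem inf_exists_hnf (d : ℕ) (hd : 0 < d) (γ : SL(2, ℤ)) :
    ∃ (γ' : SL(2, ℤ)) (a d' : ℕ) (b : ℤ), 0 < a ∧ 0 < d' ∧ a * d' = d ∧
      (d : ℤ) * γ 0 0 = γ' 0 0 * a ∧ (d : ℤ) * γ 0 1 = γ' 0 0 * b + γ' 0 1 * d' ∧
      γ 1 0 = γ' 1 0 * a ∧ γ 1 1 = γ' 1 0 * b + γ' 1 1 * d' := by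
  have hdet := inf_sl_det γ
  generalize γ 0 0 = p at hdet ⊢
  generalize γ 0 1 = q at hdet ⊢
  generalize γ 1 0 = r at hdet ⊢
  generalize γ 1 1 = s at hdet ⊢
  have hgpos : 0 < Int.gcd (d : ℤ) r := Int.gcd_pos_of_ne_zero_left _ (by exact_mod_cast hd.ne')
  obtain ⟨d₁, r₁, hcop, hd₁, hr₁⟩ := Int.exists_gcd_one hgpos
  generalize Int.gcd (d : ℤ) r = a at hgpos hd₁ hr₁
  have ha0 : (0 : ℤ) < a := by exact_mod_cast hgpos
  have hd0 : (0 : ℤ) < d := by exact_mod_cast hd
  have hd₁pos : 0 < d₁ := by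
    by_contra h
    rw [not_lt] at h
    have : d₁ * (a : ℤ) ≤ 0 := mul_nonpos_of_nonpos_of_nonneg h ha0.le
    omega
  -- coprimality of the first column
  have hc1 : IsCoprime d₁ r₁ := Int.isCoprime_iff_gcd_eq_one.mpr hcop
  have hc2 : IsCoprime p r₁ := by
    refine ⟨s, -(q * a), ?_⟩
    rw [hr₁] at hdet
    linear_combination hdet
  have hc3 : IsCoprime (d₁ * p) r₁ := hc1.mul_left hc2
  obtain ⟨v, u', hbez⟩ := hc3
  -- `v * (d₁ p) + u' * r₁ = 1`; the new matrix is `[[d₁ p, -u'], [r₁, v]]`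
  refine ⟨⟨!![d₁ * p, -u'; r₁, v], by rw [Matrix.det_fin_two_of]; linear_combination hbez⟩,
    a, d₁.toNat, v * (d : ℤ) * q + u' * s, hgpos, by omega, ?_, ?_, ?_, ?_, ?_⟩
  · have : ((a * d₁.toNat : ℕ) : ℤ) = (d : ℤ) := by
      push_cast
      rw [Int.toNat_of_nonneg hd₁pos.le, hd₁]
      ring
    exact_mod_cast this
  · simp only [Matrix.of_apply, Matrix.cons_val', Matrix.cons_val_zero, Matrix.cons_val_fin_one]
    rw [hd₁]; ring
  · simp only [Matrix.of_apply, Matrix.cons_val', Matrix.cons_val_zero, Matrix.cons_val_one,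
      Matrix.cons_val_fin_one, Int.toNat_of_nonneg hd₁pos.le]
    rw [hr₁] at hdet
    rw [hd₁]
    linear_combination (-(a * d₁ * q) : ℤ) * hbez + (-(d₁ * u') : ℤ) * hdet
  · simp only [Matrix.of_apply, Matrix.cons_val', Matrix.cons_val_zero, Matrix.cons_val_one,
      Matrix.cons_val_fin_one]
    exact hr₁
  · simp only [Matrix.of_apply, Matrix.cons_val', Matrix.cons_val_zero, Matrix.cons_val_one,
      Matrix.cons_val_fin_one, Int.toNat_of_nonneg hd₁pos.le]
    rw [hr₁] at hdet
    rw [hd₁]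
    linear_combination (-s : ℤ) * hbez + (v * d₁ : ℤ) * hdet

theorem inf_sl_denom_ne_zero (γ : SL(2, ℤ)) (τ : ℍ) :
    ((γ 1 0 : ℤ) : ℂ) * τ + ((γ 1 1 : ℤ) : ℂ) ≠ 0 := by
  have h := UpperHalfPlane.denom_ne_zero (γ : GL (Fin 2) ℝ) τ
  simpa [UpperHalfPlane.denom] using h

theorem inf_sl_smul_coe (γ : SL(2, ℤ)) (τ : ℍ) :
    ((γ • τ : ℍ) : ℂ) = (((γ 0 0 : ℤ) : ℂ) * τ + ((γ 0 1 : ℤ) : ℂ)) /
      (((γ 1 0 : ℤ) : ℂ) * τ + ((γ 1 1 : ℤ) : ℂ)) := by
  rw [UpperHalfPlane.coe_specialLinearGroup_apply]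
  simp

/-- The matrix identity `diag(d,1)·γ = γ'·[[a,b],[0,d']]` on the level of `ℍ`. -/
theorem inf_aff_smul_eq {d a d' : ℕ} {b : ℤ} (hd : 0 < d) (ha : 0 < a) (hd' : 0 < d')
    (γ γ' : SL(2, ℤ))
    (h00 : (d : ℤ) * γ 0 0 = γ' 0 0 * a) (h01 : (d : ℤ) * γ 0 1 = γ' 0 0 * b + γ' 0 1 * d')
    (h10 : γ 1 0 = γ' 1 0 * a) (h11 : γ 1 1 = γ' 1 0 * b + γ' 1 1 * d') (τ : ℍ) :
    infAff d 0 1 (γ • τ) = γ' • infAff a b d' τ := by
  apply UpperHalfPlane.ext
  rw [infAff_coe hd one_pos, inf_sl_smul_coe γ' (infAff a b d' τ), infAff_coe ha hd',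
    inf_sl_smul_coe γ τ]
  have hden := inf_sl_denom_ne_zero γ τ
  have hden' := inf_sl_denom_ne_zero γ' (infAff a b d' τ)
  rw [infAff_coe ha hd'] at hden'
  have hd'0 : (d' : ℂ) ≠ 0 := by exact_mod_cast hd'.ne'
  have e00 : (d : ℂ) * ((γ 0 0 : ℤ) : ℂ) = ((γ' 0 0 : ℤ) : ℂ) * a := by exact_mod_cast h00
  have e01 : (d : ℂ) * ((γ 0 1 : ℤ) : ℂ) = ((γ' 0 0 : ℤ) : ℂ) * b + ((γ' 0 1 : ℤ) : ℂ) * d' := by
    exact_mod_cast h01
  have e10 : ((γ 1 0 : ℤ) : ℂ) = ((γ' 1 0 : ℤ) : ℂ) * a := by exact_mod_cast h10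
  have e11 : ((γ 1 1 : ℤ) : ℂ) = ((γ' 1 0 : ℤ) : ℂ) * b + ((γ' 1 1 : ℤ) : ℂ) * d' := by
    exact_mod_cast h11
  have hden'' : ((γ' 1 0 : ℤ) : ℂ) * (((a : ℂ) * τ + b) / d') + ((γ' 1 1 : ℤ) : ℂ) =
      (((γ 1 0 : ℤ) : ℂ) * τ + ((γ 1 1 : ℤ) : ℂ)) / d' := by
    rw [e10, e11]
    field_simp
    ring
  have hnum : ((γ' 0 0 : ℤ) : ℂ) * (((a : ℂ) * τ + b) / d') + ((γ' 0 1 : ℤ) : ℂ) =
      ((d : ℂ) * (((γ 0 0 : ℤ) : ℂ) * τ + ((γ 0 1 : ℤ) : ℂ))) / d' := by
    rw [mul_add, ← mul_assoc, e00, e01]
    field_simp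
    ring
  rw [hnum, hden'']
  field_simp
  simp

end Fermat.Agent.S24

end
end
-- ===== PACK-END S24/Inf/HNF.lean

-- ===== PACK-BEGIN S30/H709/Occ.lean
section



/-!
# S30-OCC: every eigensystem of the Hecke algebra occurs in the period lattice

Main result `exists_adic_eigen_lattice`.  Input: the Hecke-equivariance of the period map
(`PeriodHecke N fac`, a hypothesis) and a ring homomorphism `χ : heckeAlgebra N 2 S →+* A` to an
arbitrary domain `A` (for S30: `A = 𝒪'`; for S29: `A = F` a field of characteristic `p`).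
Output: a lattice of integer-valued parabolic characters `c j : Γ₀(N) → ℤ` (`j : Fin r`), stable
under the cohomological Hecke operators with integer matrices `τ ℓ`, saturated and linearly
independent, and a nonzero vector `w : Fin r → A` such that `v = ∑ j, w j • c j` is an eigenvector
with eigenvalues `χ (T_ℓ)`.
-/

set_option autoImplicit false

noncomputable section

namespace Fermat.Agent.S30.H709

open CongruenceSubgroup ModularCurve ModularCurve.Period
open scoped MatrixGroups

variable {N : ℕ} [NeZero N]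

/-- The class of the period functional `λ_γ` in the period lattice. -/
def perCls (N : ℕ) [NeZero N] (γ : Gamma0 N) : perLattice N :=
  ⟨perFun N γ, perFun_mem_perLattice N γ⟩

theorem perCls_mul (γ δ : Gamma0 N) : perCls N (γ * δ) = perCls N γ + perCls N δ :=
  Subtype.ext (perFun_mul N γ δ)

theorem perCls_one : perCls N 1 = 0 := Subtype.ext (perFun_one N)

theorem perCls_eq_zero_of_trace (γ : Gamma0 N)
    (hγ : ((γ : SL(2, ℤ)) : Matrix (Fin 2) (Fin 2) ℤ).trace ^ 2 = 4) : perCls N γ = 0 :=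
  Subtype.ext (perFun_eq_zero_of_trace N γ hγ)

/-- The classes `perCls γ` generate the period lattice. -/
theorem perCls_induction {P : perLattice N → Prop} (h0 : P 0)
    (hadd : ∀ x y, P x → P y → P (x + y)) (hneg : ∀ x, P x → P (-x))
    (hcls : ∀ γ, P (perCls N γ)) (x : perLattice N) : P x := by
  obtain ⟨x, hx⟩ := x
  induction hx using Submodule.span_induction with
  | mem y hy =>
    obtain ⟨γ, rfl⟩ := hy
    exact hcls γ
  | zero => exact h0
  | add y z hy hz ihy ihz => exact hadd ⟨y, hy⟩ ⟨z, hz⟩ ihy ihz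
  | smul n y hy ihy =>
    have hsm : ∀ (k : ℕ), P (k • (⟨y, hy⟩ : perLattice N)) := by
      intro k
      induction k with
      | zero => rw [zero_smul]; exact h0
      | succ k ih => rw [succ_nsmul]; exact hadd _ _ ih ihy
    have key : P (n • (⟨y, hy⟩ : perLattice N)) := by
      rcases Int.eq_nat_or_neg n with ⟨k, rfl | rfl⟩
      · rw [natCast_zsmul]; exact hsm k
      · rw [neg_smul, natCast_zsmul]; exact hneg _ (hsm k)
    exact key

theorem perRho_perCls {fac : ℕ → Gamma0 N → Multiset (Gamma0 N)}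
    (hPH : PeriodHecke N fac) {S : Set ℕ} (hNS : ∀ q : ℕ, q.Prime → q ∣ N → q ∈ S)
    {ℓ : ℕ} (hℓ : ℓ.Prime) (hℓN : ¬ ℓ ∣ N) (hℓS : ℓ ∉ S) (γ : Gamma0 N) :
    perRho hPH hNS (CuspForm.heckeAlgebra.T hℓ hℓN hℓS) (perCls N γ)
      = ((fac ℓ γ).map (perCls N)).sum := by
  apply Subtype.ext
  have h1 : ((perRho hPH hNS (CuspForm.heckeAlgebra.T hℓ hℓN hℓS) (perCls N γ) : perLattice N) :
      Module.Dual ℂ (CuspForm (Gamma0 N) 2))
      = Module.Dual.transpose (CuspForm.heckeTLin 2 hℓ hℓN) (perFun N γ) := rfl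
  rw [h1, hPH.transpose_perFun hℓ hℓN γ]
  have h2 : ∀ m : Multiset (Gamma0 N),
      (((m.map (perCls N)).sum : perLattice N) : Module.Dual ℂ (CuspForm (Gamma0 N) 2))
        = (m.map (perFun N)).sum := by
    intro m
    induction m using Multiset.induction_on with
    | empty => simp
    | cons a m ih =>
      rw [Multiset.map_cons, Multiset.sum_cons, Submodule.coe_add, ih, Multiset.map_cons,
        Multiset.sum_cons]
      rfl
  rw [h2]

/-- **S30-OCC** (adic `M4a`).  Every ring homomorphism `χ` from the Hecke algebra (away from a set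
`S` containing the primes dividing `N`) to a domain `A` occurs in the lattice of integral parabolic
characters spanned by the period functionals. -/
theorem exists_adic_eigen_lattice {fac : ℕ → Gamma0 N → Multiset (Gamma0 N)}
    (hPH : PeriodHecke N fac) {S : Set ℕ} (hNS : ∀ q : ℕ, q.Prime → q ∣ N → q ∈ S)
    {A : Type*} [CommRing A] [IsDomain A] (χ : CuspForm.heckeAlgebra N 2 S →+* A) :
    ∃ (r : ℕ) (c : Fin r → (Additive (Gamma0 N) →+ ℤ)) (τ : ℕ → Matrix (Fin r) (Fin r) ℤ)
      (w : Fin r → A),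
      (∀ j, IsParabolicHom (Gamma0 N) (c j)) ∧
      (∀ (m : ℤ) (a : Fin r → ℤ),
        (∀ γ : Gamma0 N, m ∣ ∑ j, a j * c j (Additive.ofMul γ)) → ∀ j, m ∣ a j) ∧
      (∀ (ℓ : ℕ) (_ : ℓ.Prime) (_ : ¬ ℓ ∣ N) (_ : ℓ ∉ S) (j : Fin r) (γ : Gamma0 N),
        ((fac ℓ γ).map fun δ => c j (Additive.ofMul δ)).sum
          = ∑ k, τ ℓ j k * c k (Additive.ofMul γ)) ∧
      w ≠ 0 ∧
      ∀ (ℓ : ℕ) (hℓ : ℓ.Prime) (hℓN : ¬ ℓ ∣ N) (hℓS : ℓ ∉ S) (k : Fin r),
        ∑ j, w j * ((τ ℓ j k : ℤ) : A) = χ (CuspForm.heckeAlgebra.T hℓ hℓN hℓS) * w k := by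
  classical
  let b := Module.finBasis ℤ (perLattice N)
  let c : Fin (Module.finrank ℤ (perLattice N)) → (Additive (Gamma0 N) →+ ℤ) := fun j =>
    { toFun := fun γ => b.repr (perCls N (Additive.toMul γ)) j
      map_zero' := by
        rw [toMul_zero, perCls_one, map_zero]
        rfl
      map_add' := fun γ δ => by
        rw [toMul_add, perCls_mul, map_add]
        rfl }
  have hc : ∀ j (γ : Gamma0 N), c j (Additive.ofMul γ) = b.repr (perCls N γ) j := fun _ _ => rfl
  let τ : ℕ → Matrix (Fin (Module.finrank ℤ (perLattice N)))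
      (Fin (Module.finrank ℤ (perLattice N))) ℤ := fun ℓ =>
    if h : ℓ.Prime ∧ ¬ ℓ ∣ N ∧ ℓ ∉ S then
      Matrix.of fun j k => b.repr (perRho hPH hNS (CuspForm.heckeAlgebra.T h.1 h.2.1 h.2.2) (b k)) j
    else 0
  have hτ : ∀ (ℓ : ℕ) (hℓ : ℓ.Prime) (hℓN : ¬ ℓ ∣ N) (hℓS : ℓ ∉ S) (j k),
      τ ℓ j k = b.repr (perRho hPH hNS (CuspForm.heckeAlgebra.T hℓ hℓN hℓS) (b k)) j := by
    intro ℓ hℓ hℓN hℓS j k
    simp only [τ, dif_pos (show ℓ.Prime ∧ ¬ ℓ ∣ N ∧ ℓ ∉ S from ⟨hℓ, hℓN, hℓS⟩), Matrix.of_apply]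
  obtain ⟨w, hw0, hw⟩ := exists_eigen_coeffs (perRho hPH hNS) (perRho_injective hPH hNS) b χ
  refine ⟨Module.finrank ℤ (perLattice N), c, τ, w, ?_, ?_, ?_, hw0, ?_⟩
  · intro j γ hγ
    rw [hc, perCls_eq_zero_of_trace γ hγ, map_zero]
    rfl
  · intro m a ha k
    let Λ : perLattice N →ₗ[ℤ] ℤ := ∑ j, a j • b.coord j
    have hΛ : ∀ x, Λ x = ∑ j, a j * b.repr x j := by
      intro x
      simp only [Λ, LinearMap.sum_apply, LinearMap.smul_apply, Module.Basis.coord_apply,
        smul_eq_mul]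
    have hall : ∀ x : perLattice N, m ∣ Λ x := by
      intro x
      induction x using perCls_induction with
      | h0 => rw [map_zero]; exact dvd_zero m
      | hadd x y hx hy => rw [map_add]; exact dvd_add hx hy
      | hneg x hx => rw [map_neg]; exact (dvd_neg).mpr hx
      | hcls γ => rw [hΛ]; exact ha γ
    have hk : Λ (b k) = a k := by
      rw [hΛ]
      simp [Module.Basis.repr_self, Finsupp.single_apply]
    rw [← hk]
    exact hall (b k)
  · intro ℓ hℓ hℓN hℓS j γ
    have h1 : ((fac ℓ γ).map fun δ => c j (Additive.ofMul δ)).sum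
        = b.coord j (((fac ℓ γ).map (perCls N)).sum) := by
      rw [map_multiset_sum, Multiset.map_map]
      rfl
    rw [h1, ← perRho_perCls hPH hNS hℓ hℓN hℓS γ]
    conv_lhs => rw [← b.sum_repr (perCls N γ)]
    rw [map_sum, map_sum]
    refine Finset.sum_congr rfl fun k _ => ?_
    rw [map_zsmul, map_zsmul, hτ ℓ hℓ hℓN hℓS, hc, smul_eq_mul, Module.Basis.coord_apply, mul_comm]
  · intro ℓ hℓ hℓN hℓS k
    rw [← hw (CuspForm.heckeAlgebra.T hℓ hℓN hℓS) k]
    refine Finset.sum_congr rfl fun j _ => ?_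
    rw [hτ ℓ hℓ hℓN hℓS]

end Fermat.Agent.S30.H709

end
end
-- ===== PACK-END S30/H709/Occ.lean

-- ===== PACK-BEGIN S24/H864/FF3d.lean
section



/-!
# S24 / ALG / FF1+FF3 (part d): the fundamental identity `∑_{v(t)>0} v(t) = [F : K(t)]`
-/

set_option autoImplicit false

noncomputable section

open AlgebraicCurve IntermediateField IsDedekindDomain
open scoped IntermediateField.algebraAdjoinAdjoin

namespace Fermat.Agent.S24.H864

variable {K F : Type*} [Field K] [Field F] [Algebra K F]

section Inst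

variable (K) (t : F)

theorem polyRing_isPrincipalIdealRing (ht : Transcendental K t) :
    IsPrincipalIdealRing (polyRing K t) :=
  IsPrincipalIdealRing.of_surjective (polyEquiv K t ht).toAlgHom.toRingHom
    (polyEquiv K t ht).surjective

theorem tR_ne_zero (ht : Transcendental K t) : tR K t ≠ 0 := by
  intro h
  have h1 : t = 0 := congrArg Subtype.val h
  rw [h1] at ht
  exact ht (isAlgebraic_zero)

theorem tR_prime (ht : Transcendental K t) : Prime (tR K t) := by
  rw [← polyEquiv_X K t ht]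
  exact (MulEquiv.prime_iff (polyEquiv K t ht).toMulEquiv).mpr Polynomial.prime_X

theorem exists_sub_mem_span_tR (ht : Transcendental K t) (r : polyRing K t) :
    ∃ c : K, r - algebraMap K (polyRing K t) c ∈ Ideal.span {tR K t} := by
  obtain ⟨P, rfl⟩ := (polyEquiv K t ht).surjective r
  refine ⟨P.coeff 0, ?_⟩
  rw [Ideal.mem_span_singleton']
  refine ⟨polyEquiv K t ht P.divX, ?_⟩
  rw [← polyEquiv_X K t ht, ← map_mul, ← AlgEquiv.commutes (polyEquiv K t ht), ← map_sub]
  congr 1
  conv_rhs => rw [← Polynomial.divX_mul_X_add P]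
  simp [Polynomial.algebraMap_eq]

theorem coe_mem_valuationSubring_of_ord_nonneg (v : Place K F) (hv : 0 ≤ v.ord t)
    (r : polyRing K t) : (r : F) ∈ v.toValuationSubring := by
  obtain ⟨r, hr⟩ := r
  show r ∈ v.toValuationSubring
  induction hr using Algebra.adjoin_induction with
  | mem x hx =>
      rw [Set.mem_singleton_iff] at hx
      rw [hx]
      exact (FF.mem_iff_ord_nonneg v).mpr hv
  | algebraMap c => exact v.algebraMap_mem' c
  | add x y _ _ hx hy => exact add_mem hx hy
  | mul x y _ _ hx hy => exact mul_mem hx hy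

end Inst

section Main

variable [IsAlgClosed K] [CharZero K]

/-- **Fundamental identity (FF1).**  For `t` transcendental over `K` with `F / K(t)` finite,
the zeros of `t`, counted with multiplicity, are `[F : K(t)]` in number. -/
theorem fundamental_identity (t : F) (ht : Transcendental K t)
    [FiniteDimensional ↥(IntermediateField.adjoin K {t}) F]
    (s : Finset (Place K F)) (hs : ∀ v : Place K F, v ∈ s ↔ 0 < v.ord t) :
    ∑ v ∈ s, v.ord t = (Module.finrank ↥(IntermediateField.adjoin K {t}) F : ℤ) := by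
  haveI : IsPrincipalIdealRing (polyRing K t) := polyRing_isPrincipalIdealRing K t ht
  haveI : IsScalarTower (polyRing K t) (integralClosure (polyRing K t) F) F :=
    Subalgebra.isScalarTower_mid _
  haveI : IsFractionRing (integralClosure (polyRing K t) F) F :=
    integralClosure.isFractionRing_of_finite_extension K⟮t⟯ F
  haveI : IsDedekindDomain (integralClosure (polyRing K t) F) :=
    IsIntegralClosure.isDedekindDomain (polyRing K t) K⟮t⟯ F (integralClosure (polyRing K t) F)
  haveI : Module.Finite (polyRing K t) (integralClosure (polyRing K t) F) :=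
    IsIntegralClosure.finite (polyRing K t) K⟮t⟯ F (integralClosure (polyRing K t) F)
  have hfin : Module.finrank K⟮t⟯ F
      = Module.finrank (polyRing K t) (integralClosure (polyRing K t) F) :=
    IsFractionRing.finrank_eq (polyRing K t) K⟮t⟯ (integralClosure (polyRing K t) F) F
  have hprime : (Ideal.span {tR K t}).IsPrime :=
    (Ideal.span_singleton_prime (tR_ne_zero K t ht)).mpr (tR_prime K t ht)
  have hne : Ideal.span {tR K t} ≠ ⊥ := by
    rw [Ne, Ideal.span_singleton_eq_bot]
    exact tR_ne_zero K t ht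
  haveI hmax : (Ideal.span {tR K t}).IsMaximal := hprime.isMaximal hne
  have hinj : Function.Injective
      (algebraMap (polyRing K t) (integralClosure (polyRing K t) F)) := by
    intro a b hab
    have := congrArg (algebraMap (integralClosure (polyRing K t) F) F) hab
    rw [← IsScalarTower.algebraMap_apply, ← IsScalarTower.algebraMap_apply] at this
    exact Subtype.ext this
  rw [hfin]
  exact fundamental_identity_abstract (K := K) (F := F)
    (S := integralClosure (polyRing K t) F) (R := polyRing K t)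
    (Ideal.span {tR K t}) (tR K t) rfl (tR_ne_zero K t ht) hinj
    (exists_sub_mem_span_tR K t ht)
    (fun v hv r => coe_mem_valuationSubring_of_ord_nonneg K t v hv.le r) s hs

end Main

end Fermat.Agent.S24.H864

end
end
-- ===== PACK-END S24/H864/FF3d.lean

-- ===== PACK-BEGIN S37/H700/GaussMain.lean
section


/-!
# S37 / piece GAUSS (helper700): consequences of `S28.CoreData N k`

`A ⊆ Q̄` a valuation subring, `k = A/𝔪`, `F̄_N = Q̄(j(q^d) : d ∣ N) ⊆ Q̄((q))`,
`F_k = k(j(q^d) : d ∣ N) ⊆ k((q))`.  From `CoreData N k` (output of row S28):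

* `normal_form`     : for `u ∈ A((q)) ∩ F̄_N` there are `Q, Pᵢ ∈ A[X]` with
  `Q(j)·u = ∑ Pᵢ(j)·yᵢ` in `A((q))` and `Q mod 𝔪 ≠ 0`;
* `reduction_mem`   : (G1) the coefficientwise reduction of `u` lies in `F_k`;
* `pgi`             : (G2) `PrincipalGeneratedByIntegral A (residue A) N`.
-/

set_option autoImplicit false

noncomputable section

namespace Fermat.Agent.S37.H700

open ModularCurve HahnSeries Polynomial AlgebraicCurve
open Fermat.Agent.S28 (jField intDivisorExpansions CoreData)

/-- The field `Q̄`. -/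
abbrev Qb : Type := AlgebraicClosure ℚ

section Main

variable (N : ℕ) [NeZero N] (A : ValuationSubring Qb)

/-- Reductions of the integral monomials are linearly independent over `k(j)`: pointwise form. -/
theorem eq_zero_of_sum_evalJ_eq_zero {K : Type*} [Field K] {n : ℕ} (yK : Fin n → LaurentSeries K)
    (hind : LinearIndependent (jField K) yK) (P : Fin n → K[X])
    (h : ∑ i, evalJ K (P i) * yK i = 0) : ∀ i, P i = 0 := by
  intro i
  have h' : ∑ i, (⟨evalJ K (P i), evalJ_mem_jField K (P i)⟩ : jField K) • yK i = 0 := by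
    simpa only [smul_jField_def] using h
  have := Fintype.linearIndependent_iff.mp hind _ h' i
  exact (evalJ_eq_zero_iff K).mp (congrArg Subtype.val this)

theorem evalJ_C {R : Type*} [CommRing R] (c : R) :
    evalJ R (Polynomial.C c) = HahnSeries.C c := by
  unfold evalJ
  rw [Polynomial.eval₂_C]

variable {N A}

omit [NeZero N] in
/-- **Normal form** of a Gauss-integral element of `F̄_N`. -/
theorem normal_form {n : ℕ} (y : Fin n → LaurentSeries ℤ)
    (hy_mem : ∀ i, y i ∈ Subring.closure (intDivisorExpansions N))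
    (hy_span : ∀ x ∈ modularFunctionFieldFull N,
      x ∈ Submodule.span (jField ℚ) (Set.range fun i => coeffMap (Int.castRingHom ℚ) (y i)))
    (hy_ind : LinearIndependent (jField (IsLocalRing.ResidueField A))
      (fun i => coeffMap (Int.castRingHom (IsLocalRing.ResidueField A)) (y i)))
    (u : LaurentSeries A) (hu : coeffMap A.subtype u ∈ modularFunctionFieldBar N) :
    ∃ (Q : Polynomial A) (P : Fin n → Polynomial A),
      evalJ A Q * u = ∑ i, evalJ A (P i) * coeffMap (Int.castRingHom A) (y i) ∧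
      Q.map (IsLocalRing.residue A) ≠ 0 := by
  classical
  obtain ⟨Q₀, P₀, hQ₀, h₀⟩ := exists_denominator Qb y
    (mem_spanL_of_mem_baseChange Qb y N hy_mem hy_span hu)
  -- normalise the family `Q₀, P₀ i`
  obtain ⟨c, hc, P', hP', i₀, hi₀⟩ := normalize_family A
    (fun o : Option (Fin n) => o.elim Q₀ P₀) ⟨none, hQ₀⟩
  have hQ' : (P' none).map A.subtype = Polynomial.C c * Q₀ := hP' none
  have hPi : ∀ i, (P' (some i)).map A.subtype = Polynomial.C c * P₀ i := fun i => hP' (some i)
  have hid : evalJ A (P' none) * u =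
      ∑ i, evalJ A (P' (some i)) * coeffMap (Int.castRingHom A) (y i) := by
    apply coeffMap_injective A.subtype_injective
    rw [map_mul, map_sum, coeffMap_evalJ, hQ', evalJ_mul, mul_assoc, h₀, Finset.mul_sum]
    refine Finset.sum_congr rfl fun i _ => ?_
    rw [map_mul, coeffMap_evalJ, hPi, evalJ_mul, coeffMap_coeffMap, mul_assoc]
    congr 2
  refine ⟨P' none, fun i => P' (some i), hid, fun hzero => ?_⟩
  -- if `Q` reduces to zero, linear independence kills all `P i`, contradiction
  have hred := congrArg (coeffMap (IsLocalRing.residue A)) hid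
  rw [map_mul, map_sum, coeffMap_evalJ, hzero, evalJ_zero, zero_mul] at hred
  have hred' : ∑ i, evalJ (IsLocalRing.ResidueField A) ((P' (some i)).map (IsLocalRing.residue A)) *
      coeffMap (Int.castRingHom (IsLocalRing.ResidueField A)) (y i) = 0 := by
    rw [hred]
    refine Finset.sum_congr rfl fun i _ => ?_
    rw [map_mul, coeffMap_evalJ, coeffMap_coeffMap]
    congr 1
  have hall := eq_zero_of_sum_evalJ_eq_zero _ hy_ind _ hred'
  rcases i₀ with _ | i
  · exact hi₀ hzero
  · exact hi₀ (hall i)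

/-- **(G1)** The coefficientwise reduction of a Gauss-integral element of `F̄_N` lies in
`F_k = k(j(q^d) : d ∣ N)`. -/
theorem reduction_mem (hcore : CoreData N (IsLocalRing.ResidueField A))
    (u : LaurentSeries A) (hu : coeffMap A.subtype u ∈ modularFunctionFieldBar N) :
    coeffMap (IsLocalRing.residue A) u ∈
      modularFunctionFieldFullC (IsLocalRing.ResidueField A) N := by
  obtain ⟨n, y, hy_mem, hy_span, hy_ind⟩ := hcore.exists_basis
  obtain ⟨Q, P, hid, hQ⟩ := normal_form y hy_mem hy_span hy_ind u hu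
  have hred := congrArg (coeffMap (IsLocalRing.residue A)) hid
  rw [map_mul, map_sum, coeffMap_evalJ] at hred
  have hQ0 : evalJ (IsLocalRing.ResidueField A) (Q.map (IsLocalRing.residue A)) ≠ 0 :=
    fun h => hQ ((evalJ_eq_zero_iff _).mp h)
  have hjF : jField (IsLocalRing.ResidueField A) ≤
      modularFunctionFieldFullC (IsLocalRing.ResidueField A) N := by
    rw [jField, IntermediateField.adjoin_le_iff]
    rintro x rfl
    exact jqModC_mem_full _ N
  have hmem : ∀ R : Polynomial (IsLocalRing.ResidueField A),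
      evalJ (IsLocalRing.ResidueField A) R ∈
        modularFunctionFieldFullC (IsLocalRing.ResidueField A) N :=
    fun R => hjF (evalJ_mem_jField _ R)
  have : coeffMap (IsLocalRing.residue A) u =
      (evalJ (IsLocalRing.ResidueField A) (Q.map (IsLocalRing.residue A)))⁻¹ *
        ∑ i, coeffMap (IsLocalRing.residue A)
          (evalJ A (P i) * coeffMap (Int.castRingHom A) (y i)) := by
    rw [← hred, ← mul_assoc, inv_mul_cancel₀ hQ0, one_mul]
  rw [this]
  refine mul_mem (inv_mem (hmem _)) (sum_mem fun i _ => ?_)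
  rw [map_mul, coeffMap_evalJ, coeffMap_coeffMap]
  refine mul_mem (hmem _) ?_
  have := coeffMap_intCast_mem_fullC (IsLocalRing.ResidueField A) N (hy_mem i)
  rwa [coeffMap_congr (RingHom.ext_int _ (Int.castRingHom (IsLocalRing.ResidueField A))) (y i)]


/-- Constants have order zero at every place. -/
theorem ord_algebraMap_eq_zero {K F : Type*} [Field K] [Field F] [Algebra K F]
    (v : Place K F) {c : K} (hc : c ≠ 0) : v.ord (algebraMap K F c) = 0 := by
  have h1 : (⟨algebraMap K F c, v.algebraMap_mem' c⟩ : v.toValuationSubring) *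
      ⟨algebraMap K F c⁻¹, v.algebraMap_mem' c⁻¹⟩ = 1 := by
    apply Subtype.ext
    show algebraMap K F c * algebraMap K F c⁻¹ = 1
    rw [← map_mul, mul_inv_cancel₀ hc, map_one]
  have h2 : (⟨algebraMap K F c⁻¹, v.algebraMap_mem' c⁻¹⟩ : v.toValuationSubring) *
      ⟨algebraMap K F c, v.algebraMap_mem' c⟩ = 1 := by
    rw [mul_comm]; exact h1
  exact v.ord_coe_unit ⟨_, _, h1, h2⟩

omit [NeZero N] in
theorem jField_le_bar : jField Qb ≤ modularFunctionFieldBar N := by
  rw [jField, IntermediateField.adjoin_le_iff]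
  rintro x rfl
  have h1 : jqModC ℚ ∈ modularFunctionFieldFull N := by
    rw [← modularFunctionFieldFullC_rat]; exact jqModC_mem_full ℚ N
  have := coeffEmb_mem_laurentBaseChange Qb h1
  rwa [coeffEmb, coeffMap_jqModC] at this

omit [NeZero N] in
theorem C_mem_bar (c : Qb) : (HahnSeries.C c : LaurentSeries Qb) ∈ modularFunctionFieldBar N := by
  have := (modularFunctionFieldBar N).algebraMap_mem c
  rwa [algebraMap_laurentSeries_eq_single] at this

/-- **(G2)** PGI: every principal divisor of `F̄_N` is a difference of two divisors of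
Gauss-integral functions with nonzero reduction in `F_k`. -/
theorem pgi (hcore : CoreData N (IsLocalRing.ResidueField A))
    [HasPrincipalDivisors Qb (modularFunctionFieldBar N)] :
    PrincipalGeneratedByIntegral A (IsLocalRing.residue A) N := by
  classical
  obtain ⟨n, y, hy_mem, hy_span, hy_ind⟩ := hcore.exists_basis
  intro D hD
  obtain ⟨f, hf0, hDf⟩ := hD
  have hfU : (f : LaurentSeries Qb) ≠ 0 := fun h => hf0 (Subtype.ext h)
  obtain ⟨Q₀, P₀, hQ₀, h₀⟩ := exists_denominator Qb y
    (mem_spanL_of_mem_baseChange Qb y N hy_mem hy_span f.2)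
  have hQ₀e : evalJ Qb Q₀ ≠ 0 := fun h => hQ₀ ((evalJ_eq_zero_iff Qb).mp h)
  have hP₀ : ∃ i, P₀ i ≠ 0 := by
    by_contra hcon
    push Not at hcon
    have : evalJ Qb Q₀ * (f : LaurentSeries Qb) = 0 := by
      rw [h₀]
      exact Finset.sum_eq_zero fun i _ => by rw [hcon i, evalJ_zero, zero_mul]
    exact (mul_ne_zero hQ₀e hfU) this
  -- normalise `Q₀` and the `P₀ i` separately
  obtain ⟨cQ, hcQ, Q', hQ', u₀, hQ'red⟩ := normalize_family A (fun _ : Unit => Q₀) ⟨(), hQ₀⟩
  obtain ⟨cP, hcP, P', hP', i₀, hi₀⟩ := normalize_family A P₀ hP₀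
  set b : LaurentSeries A := evalJ A (Q' ()) with hb
  set a : LaurentSeries A := ∑ i, evalJ A (P' i) * coeffMap (Int.castRingHom A) (y i) with ha
  have hbL : coeffMap A.subtype b = HahnSeries.C cQ * evalJ Qb Q₀ := by
    rw [hb, coeffMap_evalJ, hQ' (), evalJ_mul, evalJ_C]
  have haL : coeffMap A.subtype a = HahnSeries.C cP * (evalJ Qb Q₀ * (f : LaurentSeries Qb)) := by
    rw [ha, map_sum, h₀, Finset.mul_sum]
    refine Finset.sum_congr rfl fun i _ => ?_
    rw [map_mul, coeffMap_evalJ, hP' i, evalJ_mul, evalJ_C, coeffMap_coeffMap, mul_assoc]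
    congr 2
  have hQmem : evalJ Qb Q₀ ∈ modularFunctionFieldBar N := jField_le_bar (evalJ_mem_jField Qb Q₀)
  have hbmem : coeffMap A.subtype b ∈ modularFunctionFieldBar N := by
    rw [hbL]; exact mul_mem (C_mem_bar cQ) hQmem
  have hamem : coeffMap A.subtype a ∈ modularFunctionFieldBar N := by
    rw [haL]; exact mul_mem (C_mem_bar cP) (mul_mem hQmem f.2)
  -- reductions
  have hbred : coeffMap (IsLocalRing.residue A) b ≠ 0 := by
    rw [hb, coeffMap_evalJ]
    exact fun h => hQ'red ((evalJ_eq_zero_iff _).mp h)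
  have hared : coeffMap (IsLocalRing.residue A) a ≠ 0 := by
    intro h
    rw [ha, map_sum] at h
    have h' : ∑ i, evalJ (IsLocalRing.ResidueField A) ((P' i).map (IsLocalRing.residue A)) *
        coeffMap (Int.castRingHom (IsLocalRing.ResidueField A)) (y i) = 0 := by
      rw [← h]
      refine Finset.sum_congr rfl fun i _ => ?_
      rw [map_mul, coeffMap_evalJ, coeffMap_coeffMap]
      congr 1
    exact hi₀ (eq_zero_of_sum_evalJ_eq_zero _ hy_ind _ h' i₀)
  -- the elements of `F̄_N`
  set aF : modularFunctionFieldBar N := ⟨coeffMap A.subtype a, hamem⟩ with haF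
  set bF : modularFunctionFieldBar N := ⟨coeffMap A.subtype b, hbmem⟩ with hbF
  set qF : modularFunctionFieldBar N := ⟨evalJ Qb Q₀, hQmem⟩ with hqF
  have hqF0 : qF ≠ 0 := fun h => hQ₀e (congrArg Subtype.val h)
  have haF_eq : aF = algebraMap Qb (modularFunctionFieldBar N) cP * (qF * f) := by
    apply Subtype.ext
    show coeffMap A.subtype a = algebraMap Qb (LaurentSeries Qb) cP * (evalJ Qb Q₀ * f)
    rw [haL, algebraMap_laurentSeries_eq_single]; rfl
  have hbF_eq : bF = algebraMap Qb (modularFunctionFieldBar N) cQ * qF := by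
    apply Subtype.ext
    show coeffMap A.subtype b = algebraMap Qb (LaurentSeries Qb) cQ * evalJ Qb Q₀
    rw [hbL, algebraMap_laurentSeries_eq_single]; rfl
  have hord : ∀ v : Place Qb (modularFunctionFieldBar N), v.ord f = v.ord aF - v.ord bF := by
    intro v
    have hcP' : algebraMap Qb (modularFunctionFieldBar N) cP ≠ 0 :=
      (_root_.map_ne_zero _).mpr hcP
    have hcQ' : algebraMap Qb (modularFunctionFieldBar N) cQ ≠ 0 :=
      (_root_.map_ne_zero _).mpr hcQ
    rw [haF_eq, hbF_eq, v.ord_mul hcP' (mul_ne_zero hqF0 hf0), v.ord_mul hqF0 hf0,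
      v.ord_mul hcQ' hqF0, ord_algebraMap_eq_zero v hcP, ord_algebraMap_eq_zero v hcQ]
    ring
  obtain ⟨Ea, hEa, -⟩ := HasPrincipalDivisors.exists_divisor (K := Qb) aF
    (fun h => hared (by
      have : coeffMap A.subtype a = 0 := congrArg Subtype.val h
      rw [(coeffMap_injective A.subtype_injective) (this.trans (map_zero _).symm), map_zero]))
  obtain ⟨Eb, hEb, -⟩ := HasPrincipalDivisors.exists_divisor (K := Qb) bF
    (fun h => hbred (by
      have : coeffMap A.subtype b = 0 := congrArg Subtype.val h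
      rw [(coeffMap_injective A.subtype_injective) (this.trans (map_zero _).symm), map_zero]))
  have hDeq : D = Ea - Eb := by
    ext v
    rw [Finsupp.sub_apply, hDf v, hEa v, hEb v, hord v]
  rw [hDeq]
  refine AddSubgroup.sub_mem _ (AddSubgroup.subset_closure ?_) (AddSubgroup.subset_closure ?_)
  · exact ⟨a, hamem, reduction_mem hcore a hamem, hared, hEa⟩
  · exact ⟨b, hbmem, reduction_mem hcore b hbmem, hbred, hEb⟩

end Main

end Fermat.Agent.S37.H700

end
end
-- ===== PACK-END S37/H700/GaussMain.lean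

-- ===== PACK-BEGIN Lib/RR/H443/Discrete.lean
section




/-!
# RR bridge (helper443), part 1: valuation rings of a function field are discrete

Characteristic-free.  Let `F / K` be a field extension such that `F` is finite over `K(x)` for
every transcendental `x`.  Then every valuation subring `O ≠ ⊤` of `F` containing `K` is a
principal ideal ring (Stichtenoth, Thm. 1.1.6), hence defines a `Place K F`.
-/

set_option autoImplicit false

noncomputable section

open AlgebraicCurve Polynomial IntermediateField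

namespace Fermat.Agent.Lib.RR.H443

variable {K F : Type*} [Field K] [Field F] [Algebra K F]

section Valuation

variable {Γ : Type*} [LinearOrderedCommGroupWithZero Γ] (v : Valuation F Γ)

/-- A finite sum whose nonzero terms have pairwise distinct valuations vanishes only if all
terms vanish. -/
theorem eq_zero_of_sum_eq_zero {ι : Type*} (s : Finset ι) (f : ι → F)
    (hinj : ∀ i ∈ s, ∀ j ∈ s, f i ≠ 0 → f j ≠ 0 → v (f i) = v (f j) → i = j)
    (hsum : ∑ i ∈ s, f i = 0) : ∀ i ∈ s, f i = 0 := by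
  classical
  by_contra hcon
  push Not at hcon
  obtain ⟨i₁, hi₁, hfi₁⟩ := hcon
  have hne : (s.filter fun i => f i ≠ 0).Nonempty := ⟨i₁, Finset.mem_filter.mpr ⟨hi₁, hfi₁⟩⟩
  obtain ⟨i₀, hi₀, hmax⟩ := Finset.exists_max_image _ (fun i => v (f i)) hne
  rw [Finset.mem_filter] at hi₀
  have hv0 : v (f i₀) ≠ 0 := (Valuation.ne_zero_iff v).mpr hi₀.2
  have hrest : v (∑ j ∈ s.erase i₀, f j) < v (f i₀) := by
    refine Valuation.map_sum_lt v hv0 fun j hj => ?_
    rw [Finset.mem_erase] at hj
    by_cases hfj : f j = 0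
    · rw [hfj, map_zero]
      exact zero_lt_iff.mpr hv0
    · have hle := hmax j (Finset.mem_filter.mpr ⟨hj.2, hfj⟩)
      refine lt_of_le_of_ne hle fun heq => hj.1 ?_
      exact hinj j hj.2 i₀ hi₀.1 hfj hi₀.2 heq
  have htot : v (∑ j ∈ s, f j) = v (f i₀) := by
    rw [← Finset.add_sum_erase s f hi₀.1]
    exact Valuation.map_add_eq_of_lt_left v hrest
  rw [hsum, map_zero] at htot
  exact hv0 htot.symm

variable (hK : ∀ a : K, a ≠ 0 → v (algebraMap K F a) = 1)

include hK in
theorem v_algebraMap_le_one (a : K) : v (algebraMap K F a) ≤ 1 := by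
  rcases eq_or_ne a 0 with rfl | ha
  · simp
  · exact (hK a ha).le

include hK in
theorem v_aeval_le_one {x : F} (hx : v x ≤ 1) (p : K[X]) : v (aeval x p) ≤ 1 := by
  rw [aeval_eq_sum_range]
  refine Valuation.map_sum_le v fun i _ => ?_
  rw [Algebra.smul_def, map_mul, map_pow]
  exact mul_le_one' (v_algebraMap_le_one v hK _) (pow_le_one' hx i)

include hK in
/-- `v (p(x)) = 1` when `p(0) ≠ 0` and `v x < 1`. -/
theorem v_aeval_eq_one {x : F} (hx : v x < 1) (p : K[X]) (hp : p.coeff 0 ≠ 0) :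
    v (aeval x p) = 1 := by
  have hdecomp : aeval x p = algebraMap K F (p.coeff 0) + x * aeval x p.divX := by
    have := congrArg (aeval x) (Polynomial.divX_mul_X_add p)
    simp only [map_add, map_mul, aeval_X, aeval_C] at this
    rw [← this]
    ring
  rw [hdecomp]
  have h1 : v (x * aeval x p.divX) < v (algebraMap K F (p.coeff 0)) := by
    rw [hK _ hp, map_mul]
    calc v x * v (aeval x p.divX) ≤ v x * 1 :=
          mul_le_mul' le_rfl (v_aeval_le_one v hK hx.le _)
      _ = v x := mul_one _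
      _ < 1 := hx
  rw [Valuation.map_add_eq_of_lt_left v h1, hK _ hp]

include hK in
/-- `v (p(x)) = v(x) ^ ord₀ p` for `p ≠ 0`, when `v x < 1`. -/
theorem v_aeval {x : F} (hx : v x < 1) (p : K[X]) (hp : p ≠ 0) :
    v (aeval x p) = v x ^ p.rootMultiplicity 0 := by
  obtain ⟨q, hq, hndvd⟩ := Polynomial.exists_eq_pow_rootMultiplicity_mul_and_not_dvd p hp 0
  have hq0 : q.coeff 0 ≠ 0 := by
    intro h0
    apply hndvd
    rw [map_zero, sub_zero]
    exact Polynomial.X_dvd_iff.mpr h0
  conv_lhs => rw [hq]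
  rw [map_zero, sub_zero, map_mul, map_pow, aeval_X, map_mul, map_pow,
    v_aeval_eq_one v hK hx q hq0, mul_one]

include hK in
/-- **Chain lemma** (Stichtenoth 1.1.6 (a)). -/
theorem chain_le_finrank {x : F} (hx0 : x ≠ 0) (hx : v x < 1) [FiniteDimensional K⟮x⟯ F]
    {m : ℕ} (y : Fin m → F) (hy1 : ∀ i, v (y i) < 1) (hyx : ∀ i, v x ≤ v (y i))
    (hmono : StrictMono fun i => v (y i)) :
    m ≤ Module.finrank K⟮x⟯ F := by
  classical
  have hvx0 : v x ≠ 0 := (Valuation.ne_zero_iff v).mpr hx0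
  have hy0 : ∀ i, y i ≠ 0 := fun i h => by
    have := hyx i
    rw [h, map_zero] at this
    exact hvx0 (le_antisymm this zero_le)
  open scoped IntermediateField.algebraAdjoinAdjoin in
  have hli : LinearIndependent K⟮x⟯ y := by
    rw [← LinearIndependent.iff_fractionRing (R := Algebra.adjoin K {x}) (K := K⟮x⟯)]
    rw [Fintype.linearIndependent_iff]
    intro c hc i
    -- choose polynomials
    have hex : ∀ j, ∃ p : K[X], aeval x p = (c j : F) := fun j => by
      have : (c j : F) ∈ (aeval x : K[X] →ₐ[K] F).range := by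
        rw [← Algebra.adjoin_singleton_eq_range_aeval]
        exact (c j).2
      exact this
    choose p hp using hex
    have hsum : ∑ j ∈ Finset.univ, aeval x (p j) * y j = 0 := by
      rw [← hc]
      refine Finset.sum_congr rfl fun j _ => ?_
      rw [hp j]
      rfl
    have hval : ∀ j, aeval x (p j) * y j ≠ 0 →
        v (aeval x (p j) * y j) = v x ^ (p j).rootMultiplicity 0 * v (y j) := by
      intro j hj
      have hpj : p j ≠ 0 := by
        rintro h
        rw [h, map_zero, zero_mul] at hj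
        exact hj rfl
      rw [map_mul, v_aeval v hK hx (p j) hpj]
    have key := eq_zero_of_sum_eq_zero v Finset.univ (fun j => aeval x (p j) * y j) (by
      intro i _ j _ hi hj heq
      rw [hval i hi, hval j hj] at heq
      -- wlog on the multiplicities
      have aux : ∀ (a b : ℕ) (i j : Fin m), a ≤ b →
          v x ^ a * v (y i) = v x ^ b * v (y j) → i = j := by
        intro a b i j hab h
        obtain ⟨d, rfl⟩ := Nat.exists_eq_add_of_le hab
        rw [pow_add, mul_assoc] at h
        have hpa : v x ^ a ≠ 0 := pow_ne_zero _ hvx0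
        have h' : v (y i) = v x ^ d * v (y j) := mul_left_cancel₀ hpa h
        rcases Nat.eq_zero_or_pos d with rfl | hd
        · rw [pow_zero, one_mul] at h'
          exact hmono.injective h'
        · exfalso
          have h1 : v x ^ d ≤ v x := by
            calc v x ^ d = v x ^ (d - 1 + 1) := by rw [Nat.sub_add_cancel hd]
              _ = v x ^ (d - 1) * v x := pow_succ _ _
              _ ≤ 1 * v x := mul_le_mul' (pow_le_one' hx.le _) le_rfl
              _ = v x := one_mul _
          have h2 : v x ^ d * v (y j) < v x := by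
            calc v x ^ d * v (y j) ≤ v x * v (y j) := mul_le_mul' h1 le_rfl
              _ < v x * 1 := by
                  exact mul_lt_mul_of_pos_left (hy1 j) (zero_lt_iff.mpr hvx0)
              _ = v x := mul_one _
          have h3 := hyx i
          rw [h'] at h3
          exact absurd h2 (not_lt.mpr h3)
      rcases le_total ((p i).rootMultiplicity 0) ((p j).rootMultiplicity 0) with h | h
      · exact aux _ _ i j h heq
      · exact (aux _ _ j i h heq.symm).symm) hsum
    have hi := key i (Finset.mem_univ i)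
    have : aeval x (p i) = 0 := (mul_eq_zero.mp hi).resolve_right (hy0 i)
    apply Subtype.ext
    rw [← hp i, this]
    rfl
  simpa using hli.fintype_card_le_finrank

end Valuation

section ValuationSubring

variable (O : ValuationSubring F)

/-- The valuation of a valuation subring containing `K` is trivial on `Kˣ`. -/
theorem valuation_algebraMap_eq_one (hK : ∀ a : K, algebraMap K F a ∈ O) (a : K) (ha : a ≠ 0) :
    O.valuation (algebraMap K F a) = 1 := by
  have h1 : O.valuation (algebraMap K F a) ≤ 1 := (O.valuation_le_one_iff _).mpr (hK a)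
  have h2 : O.valuation (algebraMap K F a⁻¹) ≤ 1 := (O.valuation_le_one_iff _).mpr (hK a⁻¹)
  have hne : algebraMap K F a ≠ 0 := (map_ne_zero (algebraMap K F)).mpr ha
  have hv0 : O.valuation (algebraMap K F a) ≠ 0 := (Valuation.ne_zero_iff _).mpr hne
  have hprod : O.valuation (algebraMap K F a) * O.valuation (algebraMap K F a⁻¹) = 1 := by
    rw [← map_mul, ← map_mul, mul_inv_cancel₀ ha, map_one, map_one]
  have h3 : 1 ≤ O.valuation (algebraMap K F a) := by
    by_contra hlt
    rw [not_le] at hlt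
    have h4 : O.valuation (algebraMap K F a) * O.valuation (algebraMap K F a⁻¹) < 1 := by
      calc O.valuation (algebraMap K F a) * O.valuation (algebraMap K F a⁻¹)
          ≤ O.valuation (algebraMap K F a) * 1 := mul_le_mul' le_rfl h2
        _ = O.valuation (algebraMap K F a) := mul_one _
        _ < 1 := hlt
    rw [hprod] at h4
    exact lt_irrefl _ h4
  exact le_antisymm h1 h3

/-- A nonzero nonunit of a valuation subring containing `K` is transcendental over `K`. -/
theorem transcendental_of_valuation_lt_one (hK : ∀ a : K, algebraMap K F a ∈ O) {x : F}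
    (hx : O.valuation x < 1) (hx0 : x ≠ 0) : Transcendental K x := by
  intro halg
  have hint : IsIntegral K x := halg.isIntegral
  have hinv : x⁻¹ ∈ Algebra.adjoin K {x} := by
    have h := IntermediateField.adjoin_simple_toSubalgebra_of_isAlgebraic halg
    have hmem' : x⁻¹ ∈ K⟮x⟯ := inv_mem (mem_adjoin_simple_self K x)
    have hmem : x⁻¹ ∈ (K⟮x⟯).toSubalgebra := hmem'
    rwa [h] at hmem
  have hxO : x ∈ O := (O.valuation_le_one_iff _).mp hx.le
  let S : Subalgebra K F := { O.toSubring with algebraMap_mem' := hK }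
  have hle : Algebra.adjoin K {x} ≤ S :=
    Algebra.adjoin_le (Set.singleton_subset_iff.mpr (show x ∈ S from hxO))
  have hinvO : x⁻¹ ∈ O := hle hinv
  have h1 : O.valuation x⁻¹ ≤ 1 := (O.valuation_le_one_iff _).mpr hinvO
  have hv0 : O.valuation x ≠ 0 := (Valuation.ne_zero_iff _).mpr hx0
  have h2 : O.valuation x * O.valuation x⁻¹ = 1 := by
    rw [← map_mul, mul_inv_cancel₀ hx0, map_one]
  have h3 : O.valuation x * O.valuation x⁻¹ < 1 := by
    calc O.valuation x * O.valuation x⁻¹ ≤ O.valuation x * 1 := mul_le_mul' le_rfl h1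
      _ = O.valuation x := mul_one _
      _ < 1 := hx
  rw [h2] at h3
  exact lt_irrefl _ h3

/-- **Stichtenoth 1.1.6**: divisibility is well-founded in a valuation ring of a function
field. -/
theorem wfDvdMonoid_of_finite (hK : ∀ a : K, algebraMap K F a ∈ O)
    (hfin : ∀ x : F, Transcendental K x → FiniteDimensional K⟮x⟯ F) : WfDvdMonoid O := by
  constructor
  rw [wellFounded_iff_isEmpty_descending_chain]
  refine ⟨fun ⟨f, hf⟩ => ?_⟩
  set v := O.valuation with hv
  have hne : ∀ n, ((f (n + 1) : O) : F) ≠ 0 := fun n h => by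
    have := (hf n).1
    exact this (Subtype.ext h)
  have hle1 : ∀ n, v (f n : F) ≤ 1 := fun n => (O.valuation_le_one_iff _).mpr (f n).2
  have hstep : ∀ n, v (f (n + 1) : F) < v (f (n + 2) : F) := by
    intro n
    obtain ⟨-, c, hc, hfc⟩ := hf (n + 1)
    have hcv : v (c : F) < 1 := by
      have : c ∈ IsLocalRing.maximalIdeal O := by
        rw [IsLocalRing.mem_maximalIdeal, mem_nonunits_iff]
        exact hc
      exact (O.valuation_lt_one_iff c).mp this
    have h0 : v (f (n + 2) : F) ≠ 0 := (Valuation.ne_zero_iff _).mpr (hne (n + 1))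
    have : (f (n + 1) : F) = (f (n + 1 + 1) : F) * (c : F) := by
      rw [hfc]; rfl
    rw [this, map_mul]
    calc v (f (n + 1 + 1) : F) * v (c : F) < v (f (n + 1 + 1) : F) * 1 :=
          mul_lt_mul_of_pos_left hcv (zero_lt_iff.mpr h0)
      _ = v (f (n + 2) : F) := mul_one _
  have hmono : StrictMono fun n : ℕ => v (f (n + 1) : F) := strictMono_nat_of_lt_succ hstep
  have hlt1 : ∀ n, v (f (n + 1) : F) < 1 := fun n => lt_of_lt_of_le (hstep n) (hle1 _)
  set x : F := (f 1 : F) with hx
  have hx0 : x ≠ 0 := hne 0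
  have hxt : Transcendental K x := transcendental_of_valuation_lt_one O hK (hlt1 0) hx0
  have := hfin x hxt
  have key := chain_le_finrank v (valuation_algebraMap_eq_one O hK) hx0 (hlt1 0)
    (m := Module.finrank K⟮x⟯ F + 1) (fun i => (f (i.1 + 1) : F)) (fun i => hlt1 _)
    (fun i => hmono.monotone (Nat.zero_le _)) (fun i j hij => hmono hij)
  omega

/-- A valuation subring `≠ ⊤` of a function field, containing the constants, is a place. -/
def placeOfValuationSubring (hK : ∀ a : K, algebraMap K F a ∈ O) (hO : O ≠ ⊤)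
    (hfin : ∀ x : F, Transcendental K x → FiniteDimensional K⟮x⟯ F) : Place K F where
  toValuationSubring := O
  algebraMap_mem' := hK
  ne_top' := hO
  isPrincipalIdealRing' := by
    have h := wfDvdMonoid_of_finite O hK hfin
    exact ((IsBezout.TFAE (R := O)).out 3 1).mp h

@[simp]
theorem placeOfValuationSubring_toValuationSubring (hK : ∀ a : K, algebraMap K F a ∈ O)
    (hO : O ≠ ⊤) (hfin : ∀ x : F, Transcendental K x → FiniteDimensional K⟮x⟯ F) :
    (placeOfValuationSubring O hK hO hfin).toValuationSubring = O := rfl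

end ValuationSubring

section Existence

variable (hfin : ∀ x : F, Transcendental K x → FiniteDimensional K⟮x⟯ F)

include hfin in
/-- Every transcendental element has a zero. -/
theorem exists_place_ord_pos {t : F} (ht : Transcendental K t) :
    ∃ v : Place K F, 0 < v.ord t := by
  have ht0 : t ≠ 0 := fun h => ht (h ▸ isAlgebraic_zero)
  let A : Subring F := (Algebra.adjoin K {t}).toSubring
  have htA : t ∈ A := Algebra.self_mem_adjoin_singleton K t
  let I : Ideal A := Ideal.span {⟨t, htA⟩}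
  have hI : I ≠ ⊤ := by
    intro h
    rw [Ideal.eq_top_iff_one, Ideal.mem_span_singleton'] at h
    obtain ⟨g, hg⟩ := h
    have hgF : (g : F) * t = 1 := congrArg Subtype.val hg
    have hgmem : (g : F) ∈ (aeval t : K[X] →ₐ[K] F).range := by
      rw [← Algebra.adjoin_singleton_eq_range_aeval]
      exact g.2
    obtain ⟨p, hp⟩ := hgmem
    have hp' : aeval t p = (g : F) := hp
    apply ht
    refine ⟨p * X - 1, ?_, ?_⟩
    · intro h0
      have := congrArg (fun q => Polynomial.coeff q 0) h0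
      simp at this
    · simp [hp', hgF]
  obtain ⟨B, hAB, hIB⟩ := Ideal.image_subset_nonunits_valuationSubring I hI
  have hK : ∀ a : K, algebraMap K F a ∈ B := fun a =>
    hAB ((Algebra.adjoin K {t}).algebraMap_mem a)
  have htB : t ∈ B.nonunits := hIB ⟨⟨t, htA⟩, Ideal.subset_span rfl, rfl⟩
  have htv : B.valuation t < 1 := (B.mem_nonunits_iff).mp htB
  have hB : B ≠ ⊤ := by
    intro h
    have h1 : t⁻¹ ∈ B := h ▸ ValuationSubring.mem_top _
    have h2 : B.valuation t⁻¹ ≤ 1 := (B.valuation_le_one_iff _).mpr h1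
    have h3 : B.valuation t * B.valuation t⁻¹ = 1 := by
      rw [← map_mul, mul_inv_cancel₀ ht0, map_one]
    have h4 : B.valuation t * B.valuation t⁻¹ < 1 := by
      calc B.valuation t * B.valuation t⁻¹ ≤ B.valuation t * 1 := mul_le_mul' le_rfl h2
        _ = B.valuation t := mul_one _
        _ < 1 := htv
    rw [h3] at h4
    exact lt_irrefl _ h4
  refine ⟨placeOfValuationSubring B hK hB hfin, ?_⟩
  set v := placeOfValuationSubring B hK hB hfin with hv
  have hmem : (⟨t, (B.valuation_le_one_iff _).mp htv.le⟩ : v.toValuationSubring) ∈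
      IsLocalRing.maximalIdeal v.toValuationSubring :=
    (B.valuation_lt_one_iff _).mpr htv
  rcases (mem_maximalIdeal_iff v _).mp hmem with h | h
  · exact absurd h ht0
  · exact h

include hfin in
/-- Every transcendental element has a pole. -/
theorem exists_place_ord_neg {t : F} (ht : Transcendental K t) :
    ∃ v : Place K F, v.ord t < 0 := by
  have ht' : Transcendental K t⁻¹ := fun h => ht (by simpa using h.inv)
  obtain ⟨v, hv⟩ := exists_place_ord_pos hfin ht'
  refine ⟨v, ?_⟩
  rw [v.ord_inv] at hv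
  omega

end Existence

end Fermat.Agent.Lib.RR.H443

end
end
-- ===== PACK-END Lib/RR/H443/Discrete.lean

-- ===== PACK-BEGIN Lib/RR/H443/LSpace.lean
section


/-!
# RR bridge (helper443), part 2: the spaces `L(D)` without `HasPrincipalDivisors`

Characteristic-free.  Under the hypotheses `Hyp K F` (all places have degree one, `F` is finite
over `K(x)` for every transcendental `x`, `K` is algebraically closed in `F`) we prove
`L(0) = K`, finite-dimensionality of `L(D)` and `ℓ(D) ≤ deg D + 1` for `D ≥ 0`, *without*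
assuming that principal divisors have degree zero.
-/

set_option autoImplicit false

noncomputable section

open AlgebraicCurve Polynomial IntermediateField
open Fermat.Agent.Lib.RR

namespace Fermat.Agent.Lib.RR.H443

variable {K F : Type*} [Field K] [Field F] [Algebra K F]

variable (K F) in
/-- Hypotheses of the bridge: a function field of one variable with constant field `K`, all of
whose places have degree one. -/
structure Hyp : Prop where
  deg_eq_one : ∀ v : Place K F, v.deg = 1
  finite : ∀ x : F, Transcendental K x → FiniteDimensional K⟮x⟯ F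
  const : ∀ f : F, IsAlgebraic K f → f ∈ (algebraMap K F).range

/-- Functions without poles are constant (no `HasPrincipalDivisors` needed). -/
theorem L_zero_eq (h : Hyp K F) :
    riemannRochSpace (0 : Divisor K F) = LinearMap.range (Algebra.linearMap K F) := by
  apply le_antisymm
  · intro f hf
    by_contra hcon
    have htr : Transcendental K f := fun halg => hcon (by
      obtain ⟨c, hc⟩ := h.const f halg
      exact ⟨c, hc⟩)
    obtain ⟨v, hv⟩ := exists_place_ord_neg h.finite htr
    rcases mem_L_iff.mp hf v with h0 | h0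
    · rw [h0, v.ord_zero] at hv
      exact lt_irrefl _ hv
    · simp only [Finsupp.coe_zero, Pi.zero_apply, neg_zero] at h0
      omega
  · rintro _ ⟨c, rfl⟩
    rw [mem_L_iff]
    intro v
    right
    simp [ord_algebraMap]

theorem finite_L_zero (h : Hyp K F) : Module.Finite K (riemannRochSpace (0 : Divisor K F)) := by
  rw [L_zero_eq h]
  infer_instance

theorem ell_zero_eq (h : Hyp K F) : ell (0 : Divisor K F) = 1 := by
  unfold ell
  rw [L_zero_eq h]
  have hinj : Function.Injective (Algebra.linearMap K F) := (algebraMap K F).injective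
  rw [LinearMap.finrank_range_of_inj hinj]
  exact Module.finrank_self K

theorem prim_le_of_pos {D : Divisor K F} (hD : 0 ≤ D) {v : Place K F} (hv : D v ≠ 0) :
    prim v ≤ D := by
  rw [Finsupp.le_def]
  intro w
  have hw0 : 0 ≤ D w := by simpa using Finsupp.le_def.mp hD w
  by_cases hw : w = v
  · subst hw
    rw [prim_apply_self]
    omega
  · rw [prim_apply_of_ne hw]
    exact hw0

/-- `L(D)` is finite-dimensional of dimension `≤ deg D + 1` for effective `D`. -/
theorem finite_and_ell_le_of_nonneg (h : Hyp K F) :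
    ∀ (n : ℕ) (D : Divisor K F), 0 ≤ D → Divisor.degree D ≤ n →
      Module.Finite K (riemannRochSpace D) ∧ (ell D : ℤ) ≤ Divisor.degree D + 1 := by
  intro n
  induction n with
  | zero =>
    intro D hD hdeg
    have hD0 : D = 0 := by
      by_contra hne
      obtain ⟨v, hv⟩ := Finsupp.support_nonempty_iff.mpr hne
      rw [Finsupp.mem_support_iff] at hv
      have := degree_mono (prim_le_of_pos hD hv)
      rw [degree_prim v (h.deg_eq_one v)] at this
      push_cast at hdeg
      omega
    subst hD0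
    refine ⟨finite_L_zero h, ?_⟩
    rw [ell_zero_eq h, map_zero]
    norm_num
  | succ n ih =>
    intro D hD hdeg
    by_cases hD0 : D = 0
    · subst hD0
      refine ⟨finite_L_zero h, ?_⟩
      rw [ell_zero_eq h, map_zero]
      norm_num
    obtain ⟨v, hv⟩ := Finsupp.support_nonempty_iff.mpr hD0
    rw [Finsupp.mem_support_iff] at hv
    have hle := prim_le_of_pos hD hv
    have hD' : 0 ≤ D - prim v := sub_nonneg.mpr hle
    have hdeg' : Divisor.degree (D - prim v) ≤ n := by
      rw [map_sub, degree_prim v (h.deg_eq_one v)]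
      push_cast at hdeg
      omega
    obtain ⟨hfin, hell⟩ := ih (D - prim v) hD' hdeg'
    have := L_add_prim_finite v (h.deg_eq_one v) (D - prim v)
    rw [sub_add_cancel] at this
    refine ⟨this.1, ?_⟩
    have h2 := this.2
    rw [map_sub, degree_prim v (h.deg_eq_one v)] at hell
    have h3 : (ell D : ℤ) ≤ (ell (D - prim v) : ℤ) + 1 := by exact_mod_cast h2
    omega

theorem finite_L_of_nonneg (h : Hyp K F) {D : Divisor K F} (hD : 0 ≤ D) :
    Module.Finite K (riemannRochSpace D) :=
  (finite_and_ell_le_of_nonneg h (Divisor.degree D).toNat D hD (Int.self_le_toNat _)).1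

theorem ell_le_of_nonneg (h : Hyp K F) {D : Divisor K F} (hD : 0 ≤ D) :
    (ell D : ℤ) ≤ Divisor.degree D + 1 :=
  (finite_and_ell_le_of_nonneg h (Divisor.degree D).toNat D hD (Int.self_le_toNat _)).2

/-- `L(D)` is finite-dimensional for every divisor `D`. -/
theorem finite_L (h : Hyp K F) (D : Divisor K F) : Module.Finite K (riemannRochSpace D) := by
  have hle : D ≤ D ⊔ 0 := le_sup_left
  have hfin := finite_L_of_nonneg h (D := D ⊔ 0) le_sup_right
  exact Submodule.finiteDimensional_of_le (L_mono hle)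

end Fermat.Agent.Lib.RR.H443

end
end
-- ===== PACK-END Lib/RR/H443/LSpace.lean

-- ===== PACK-BEGIN S18/Mod/H216/IntE.lean
section



/-!
# S18 / MOD (helper216): the ring `intE` of `E`-rational integral series and its two homs

* `toOm : intE M A E →+* Om M`   (injective, image in `Fc M E`),
* `redE : intE M A E →+* κ((q))` (`κ` = residue field of `A`),
* `mem_Vc_iff'` : `f ∈ Vc ↔ ∃ U₁ U₂ : intE, redE U₂ ≠ 0 ∧ f * toOm U₂ = toOm U₁`,
* constants `cInt`, the coordinate `jInt`, and division of a series by a constant (`divC`).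
-/

set_option autoImplicit false
set_option linter.unusedSectionVars false

noncomputable section

namespace Fermat.Agent.S18.Mod.H216

open ModularCurve AlgebraicCurve HahnSeries Fermat.Agent.S18 Fermat.Agent.S18.Mod

variable (M : ℕ) (A : ValuationSubring Qb) (E : IntermediateField ℚ Qb)

/-- `A((q)) → Q̄((q))`. -/
abbrev inclA : LaurentSeries ↥A →+* LaurentSeries Qb := coeffMap A.subtype

/-- `A((q)) → κ((q))`. -/
abbrev redA : LaurentSeries ↥A →+* LaurentSeries (IsLocalRing.ResidueField ↥A) :=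
  coeffMap (IsLocalRing.residue ↥A)

theorem inclA_injective : Function.Injective (inclA A) := H516.incl_injective A

theorem inclA_mem_bar (U : ↥(intE M A E)) :
    inclA A (U : LaurentSeries ↥A) ∈ modularFunctionFieldBar M := by
  obtain ⟨f, -, hfU⟩ := U.2.2
  rw [← hfU]
  exact f.2

/-- The element of `Ω` defined by an integral series. -/
def toOm : ↥(intE M A E) →+* Om M where
  toFun U := ⟨inclA A (U : LaurentSeries ↥A), inclA_mem_bar M A E U⟩
  map_one' := Subtype.ext (by simp)
  map_mul' U W := Subtype.ext (by simp)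
  map_zero' := Subtype.ext (by simp)
  map_add' U W := Subtype.ext (by simp)

@[simp] theorem coe_toOm (U : ↥(intE M A E)) :
    ((toOm M A E U : Om M) : LaurentSeries Qb) = inclA A (U : LaurentSeries ↥A) := rfl

theorem toOm_injective : Function.Injective (toOm M A E) := by
  intro U W h
  apply Subtype.ext
  apply inclA_injective A
  exact congrArg Subtype.val h

theorem toOm_mem_Fc (U : ↥(intE M A E)) : toOm M A E U ∈ Fc M E := by
  obtain ⟨f, hf, hfU⟩ := U.2.2
  have : toOm M A E U = f := Subtype.ext hfU.symm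
  rw [this]
  exact hf

/-- The reduction of an integral series. -/
def redE : ↥(intE M A E) →+* LaurentSeries (IsLocalRing.ResidueField ↥A) :=
  (redA A).comp (intE M A E).subtype

@[simp] theorem redE_apply (U : ↥(intE M A E)) :
    redE M A E U = redA A (U : LaurentSeries ↥A) := rfl

theorem toOm_ne_zero_of_redE {U : ↥(intE M A E)} (h : redE M A E U ≠ 0) :
    toOm M A E U ≠ 0 := by
  intro h0
  apply h
  have : U = 0 := toOm_injective M A E (by rw [h0, map_zero])
  rw [this, map_zero]

theorem mem_Vc_iff' {f : Om M} :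
    f ∈ Vc M A E ↔ ∃ U₁ U₂ : ↥(intE M A E), redE M A E U₂ ≠ 0 ∧
      f * toOm M A E U₂ = toOm M A E U₁ := by
  constructor
  · rintro ⟨-, U₁, U₂, h₁, h₂, hne, heq⟩
    exact ⟨⟨U₁, (mem_intE M A E).mpr h₁⟩, ⟨U₂, (mem_intE M A E).mpr h₂⟩, hne, Subtype.ext heq⟩
  · rintro ⟨U₁, U₂, hne, heq⟩
    have h2 := toOm_ne_zero_of_redE M A E hne
    have hf : f = toOm M A E U₁ * (toOm M A E U₂)⁻¹ := by
      rw [← heq, mul_assoc, mul_inv_cancel₀ h2, mul_one]
    refine ⟨?_, U₁, U₂, (mem_intE M A E).mp U₁.2, (mem_intE M A E).mp U₂.2, hne, ?_⟩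
    · rw [hf]
      exact mul_mem (toOm_mem_Fc M A E U₁) (inv_mem (toOm_mem_Fc M A E U₂))
    · exact congrArg Subtype.val heq

theorem toOm_mem_Vc (U : ↥(intE M A E)) : toOm M A E U ∈ Vc M A E :=
  (mem_Vc_iff' M A E).mpr ⟨U, 1, by rw [map_one]; exact one_ne_zero, by rw [map_one, mul_one]⟩

theorem inv_toOm_mem_Vc {U : ↥(intE M A E)} (h : redE M A E U ≠ 0) :
    (toOm M A E U)⁻¹ ∈ Vc M A E :=
  (mem_Vc_iff' M A E).mpr ⟨1, U, h, by
    rw [map_one, inv_mul_cancel₀ (toOm_ne_zero_of_redE M A E h)]⟩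

/-! ### Constants -/

theorem mem_Ec_iff {r : Om M} : r ∈ Ec M E ↔ ∃ c : Qb, c ∈ E ∧ algebraMap Qb (Om M) c = r := by
  constructor
  · rintro ⟨c, hc, rfl⟩
    exact ⟨c, hc, rfl⟩
  · rintro ⟨c, hc, rfl⟩
    exact ⟨c, hc, rfl⟩

theorem mem_Rc_iff {r : Om M} :
    r ∈ Rc M A E ↔ ∃ c : Qb, c ∈ A ∧ c ∈ E ∧ algebraMap Qb (Om M) c = r := by
  constructor
  · rintro ⟨c, ⟨hcA, hcE⟩, rfl⟩
    exact ⟨c, hcA, hcE, rfl⟩
  · rintro ⟨c, hcA, hcE, rfl⟩
    exact ⟨c, ⟨hcA, hcE⟩, rfl⟩

theorem coe_algebraMap_Om (c : Qb) :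
    ((algebraMap Qb (Om M) c : Om M) : LaurentSeries Qb) = HahnSeries.C c := by
  show algebraMap Qb (LaurentSeries Qb) c = _
  rw [algebraMap_laurentSeries_eq_single, ← HahnSeries.C_apply]

theorem Ec_le_Fc : Ec M E ≤ Fc M E := fun _ h => Subfield.subset_closure (Or.inl h)

theorem Rc_le_Ec : (Rc M A E : Set (Om M)) ⊆ Ec M E := by
  intro r hr
  obtain ⟨c, -, hcE, rfl⟩ := (mem_Rc_iff M A E).mp hr
  exact (mem_Ec_iff M E).mpr ⟨c, hcE, rfl⟩

theorem C_mem_intE {c : Qb} (hcA : c ∈ A) (hcE : c ∈ E) :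
    (HahnSeries.C (⟨c, hcA⟩ : ↥A) : LaurentSeries ↥A) ∈ intE M A E := by
  rw [mem_intE]
  refine ⟨fun n => ?_, algebraMap Qb (Om M) c, Ec_le_Fc M E ((mem_Ec_iff M E).mpr ⟨c, hcE, rfl⟩), ?_⟩
  · rw [HahnSeries.C_apply, HahnSeries.coeff_single]
    split_ifs
    · exact hcE
    · exact zero_mem _
  · rw [coe_algebraMap_Om, H516.coeffMap_C]
    rfl

/-- The constant series of `c ∈ A ∩ E`. -/
def cInt {c : Qb} (hcA : c ∈ A) (hcE : c ∈ E) : ↥(intE M A E) :=
  ⟨HahnSeries.C (⟨c, hcA⟩ : ↥A), C_mem_intE M A E hcA hcE⟩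

theorem toOm_cInt {c : Qb} (hcA : c ∈ A) (hcE : c ∈ E) :
    toOm M A E (cInt M A E hcA hcE) = algebraMap Qb (Om M) c := by
  apply Subtype.ext
  rw [coe_toOm, coe_algebraMap_Om]
  show coeffMap A.subtype (HahnSeries.C (⟨c, hcA⟩ : ↥A)) = _
  rw [H516.coeffMap_C]
  rfl

theorem redE_cInt {c : Qb} (hcA : c ∈ A) (hcE : c ∈ E) :
    redE M A E (cInt M A E hcA hcE) = HahnSeries.C (IsLocalRing.residue ↥A ⟨c, hcA⟩) := by
  show coeffMap (IsLocalRing.residue ↥A) (HahnSeries.C (⟨c, hcA⟩ : ↥A)) = _
  rw [H516.coeffMap_C]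

/-! ### The coordinate `j` -/

theorem coe_jOm : ((jOm M : Om M) : LaurentSeries Qb) = jqModC Qb := by
  show coeffEmb Qb (qExpand ℚ 1 jq) = _
  rw [qExpand_one_apply, H516.coeffEmb_jq]

theorem jOm_mem_Fc : jOm M ∈ Fc M E :=
  Subfield.subset_closure (Or.inr ⟨1, inferInstance, one_dvd M, rfl⟩)

theorem jqModC_mem_intE : (jqModC ↥A : LaurentSeries ↥A) ∈ intE M A E := by
  rw [mem_intE]
  refine ⟨fun n => ?_, jOm M, jOm_mem_Fc M E, ?_⟩
  · have h : ((jqModC ↥A).coeff n : Qb) = (((jqModC ℤ).coeff n : ℤ) : Qb) := by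
      have h1 : jqModC ↥A = coeffMap (Int.castRingHom ↥A) (jqModC ℤ) := (coeffMap_jqModC (Int.castRingHom ↥A)).symm
      rw [h1, coeffMap_coeff]
      simp
    rw [h]
    exact intCast_mem E _
  · rw [coe_jOm, coeffMap_jqModC]

/-- `j` as an integral series. -/
def jInt : ↥(intE M A E) := ⟨jqModC ↥A, jqModC_mem_intE M A E⟩

theorem toOm_jInt : toOm M A E (jInt M A E) = jOm M := by
  apply Subtype.ext
  rw [coe_toOm, coe_jOm]
  show coeffMap A.subtype (jqModC ↥A) = _
  rw [coeffMap_jqModC]

theorem redE_jInt : redE M A E (jInt M A E) = jqModC (IsLocalRing.ResidueField ↥A) := by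
  show coeffMap (IsLocalRing.residue ↥A) (jqModC ↥A) = _
  rw [coeffMap_jqModC]

theorem jOm_mem_Vc : jOm M ∈ Vc M A E := by
  rw [← toOm_jInt M A E]
  exact toOm_mem_Vc M A E _

end Fermat.Agent.S18.Mod.H216

end
end
-- ===== PACK-END S18/Mod/H216/IntE.lean

-- ===== PACK-BEGIN S18/Mod/H216/Eval.lean
section



/-!
# S18 / MOD (helper216): polynomials in `j` over `A ∩ E` — the evaluation dictionary

`S0 A E = A ∩ E ⊆ Q̄`,  `eRc : S0 ≃+* Rc M A E`,  `resS : S0 →+* κ`,
`Uev : (S0)[X] →+* intE M A E`, `X ↦ j`, with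

* `toOm_Uev` : `toOm (Uev p) = evR (Rc M A E) (jOm M) (p.map eRc)`   (value in `Ω`),
* `redE_Uev` : `redE (Uev p) = evJ (p.map resS)`                      (reduction),
* `redE_Uev_ne_zero_iff` : `redE (Uev p) ≠ 0 ↔ p.map resS ≠ 0`.
-/

set_option autoImplicit false
set_option linter.unusedSectionVars false

noncomputable section

namespace Fermat.Agent.S18.Mod.H216

open ModularCurve AlgebraicCurve HahnSeries Polynomial Fermat.Agent.S18 Fermat.Agent.S18.Mod

variable (M : ℕ) (A : ValuationSubring Qb) (E : IntermediateField ℚ Qb)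

/-- `A ∩ E` as a subring of `Q̄`. -/
abbrev S0 : Subring Qb := A.toSubring ⊓ E.toSubfield.toSubring

theorem Rc_eq_map : Rc M A E = (S0 A E).map (algebraMap Qb (Om M)) := rfl

/-- `A ∩ E ≃ Rc`. -/
def eRc : ↥(S0 A E) ≃+* ↥(Rc M A E) :=
  Subring.equivMapOfInjective (S0 A E) (algebraMap Qb (Om M)) (algebraMap Qb (Om M)).injective

@[simp] theorem coe_eRc (c : ↥(S0 A E)) :
    ((eRc M A E c : ↥(Rc M A E)) : Om M) = algebraMap Qb (Om M) (c : Qb) := rfl

/-- `A ∩ E → A`. -/
def s0ToA : ↥(S0 A E) →+* ↥A := Subring.inclusion (inf_le_left : S0 A E ≤ A.toSubring)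

@[simp] theorem coe_s0ToA (c : ↥(S0 A E)) : ((s0ToA A E c : ↥A) : Qb) = (c : Qb) := rfl

/-- The residue map on `A ∩ E`. -/
def resS : ↥(S0 A E) →+* IsLocalRing.ResidueField ↥A :=
  (IsLocalRing.residue ↥A).comp (s0ToA A E)

/-- Constant series. -/
def cS : ↥(S0 A E) →+* ↥(intE M A E) where
  toFun c := cInt M A E c.2.1 c.2.2
  map_one' := Subtype.ext (by simp [cInt]; rfl)
  map_mul' a b := Subtype.ext (by
    show HahnSeries.C (⟨(a : Qb) * (b : Qb), _⟩ : ↥A) = HahnSeries.C _ * HahnSeries.C _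
    rw [← map_mul]
    rfl)
  map_zero' := Subtype.ext (by simp [cInt]; rfl)
  map_add' a b := Subtype.ext (by
    show HahnSeries.C (⟨(a : Qb) + (b : Qb), _⟩ : ↥A) = HahnSeries.C _ + HahnSeries.C _
    rw [← map_add]
    rfl)

theorem toOm_cS (c : ↥(S0 A E)) : toOm M A E (cS M A E c) = algebraMap Qb (Om M) (c : Qb) :=
  toOm_cInt M A E c.2.1 c.2.2

theorem redE_cS (c : ↥(S0 A E)) : redE M A E (cS M A E c) = HahnSeries.C (resS A E c) :=
  redE_cInt M A E c.2.1 c.2.2

/-- Evaluation at `j` of polynomials over `A ∩ E`, as integral series. -/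
def Uev : (↥(S0 A E))[X] →+* ↥(intE M A E) := Polynomial.eval₂RingHom (cS M A E) (jInt M A E)

theorem toOm_Uev (p : (↥(S0 A E))[X]) :
    toOm M A E (Uev M A E p) =
      evR (Rc M A E) (jOm M) (p.map (eRc M A E : ↥(S0 A E) →+* ↥(Rc M A E))) := by
  have h : (toOm M A E).comp (Uev M A E) =
      (evR (Rc M A E) (jOm M)).comp
        (Polynomial.mapRingHom (eRc M A E : ↥(S0 A E) →+* ↥(Rc M A E))) := by
    apply Polynomial.ringHom_ext
    · intro c
      simp only [RingHom.comp_apply, Uev, Polynomial.coe_eval₂RingHom, Polynomial.eval₂_C,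
        Polynomial.coe_mapRingHom, Polynomial.map_C, evR_C]
      rw [toOm_cS]
      rfl
    · simp only [RingHom.comp_apply, Uev, Polynomial.coe_eval₂RingHom, Polynomial.eval₂_X,
        Polynomial.coe_mapRingHom, Polynomial.map_X, evR_X]
      exact toOm_jInt M A E
  exact RingHom.congr_fun h p

theorem redE_Uev (p : (↥(S0 A E))[X]) :
    redE M A E (Uev M A E p) = H516.evJ (p.map (resS A E)) := by
  have h : (redE M A E).comp (Uev M A E) =
      (Polynomial.eval₂RingHom (HahnSeries.C (Γ := ℤ) (R := IsLocalRing.ResidueField ↥A))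
        (jqModC (IsLocalRing.ResidueField ↥A))).comp (Polynomial.mapRingHom (resS A E)) := by
    apply Polynomial.ringHom_ext
    · intro c
      simp only [RingHom.comp_apply, Uev, Polynomial.coe_eval₂RingHom, Polynomial.eval₂_C,
        Polynomial.coe_mapRingHom, Polynomial.map_C]
      exact redE_cS M A E c
    · simp only [RingHom.comp_apply, Uev, Polynomial.coe_eval₂RingHom, Polynomial.eval₂_X,
        Polynomial.coe_mapRingHom, Polynomial.map_X]
      exact redE_jInt M A E
  exact RingHom.congr_fun h p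

theorem redE_Uev_eq_zero_iff (p : (↥(S0 A E))[X]) :
    redE M A E (Uev M A E p) = 0 ↔ p.map (resS A E) = 0 := by
  rw [redE_Uev, H516.evJ_eq_zero_iff]

/-- Every polynomial over `Rc` comes from a polynomial over `A ∩ E`. -/
theorem evR_eq_toOm_Uev (p : (↥(Rc M A E))[X]) :
    evR (Rc M A E) (jOm M) p =
      toOm M A E (Uev M A E (p.map ((eRc M A E).symm : ↥(Rc M A E) →+* ↥(S0 A E)))) := by
  rw [toOm_Uev, Polynomial.map_map]
  have : ((eRc M A E : ↥(S0 A E) →+* ↥(Rc M A E)).comp
      ((eRc M A E).symm : ↥(Rc M A E) →+* ↥(S0 A E))) = RingHom.id _ := by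
    ext c
    simp
  rw [this, Polynomial.map_id]

end Fermat.Agent.S18.Mod.H216

end
end
-- ===== PACK-END S18/Mod/H216/Eval.lean

-- ===== PACK-BEGIN S18/H456/ModFields.lean
section


/-!
# S18 / MOD assembly (helper456): the fields `compositum`, `E_closed_in_F`, `x_mem`,
`x_transcendental` of `Alg.GoodModel` for the concrete objects
-/

set_option autoImplicit false

noncomputable section

namespace Fermat.Agent.S18.H456

open ModularCurve AlgebraicCurve HahnSeries Fermat.Agent.S18 Fermat.Agent.S18.Mod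

/-! ### Algebraic Laurent series are constant -/

section LaurentConst

variable {K : Type*} [Field K]

/-- A Laurent series over a field `K` which is algebraic over `K` is constant. -/
theorem laurent_const_of_isAlgebraic (f : LaurentSeries K) (hf : IsAlgebraic K f) :
    ∃ c : K, f = algebraMap K (LaurentSeries K) c := by
  have key : ∀ g : LaurentSeries K, IsAlgebraic K g →
      ∃ y : PowerSeries K, algebraMap (PowerSeries K) (LaurentSeries K) y = g := by
    intro g hg
    obtain ⟨p, hpm, hp⟩ := hg.isIntegral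
    have h2 : IsIntegral (PowerSeries K) g := by
      refine ⟨p.map (PowerSeries.C (R := K)), hpm.map _, ?_⟩
      rw [Polynomial.eval₂_map]
      exact hp
    exact IsIntegrallyClosed.isIntegral_iff.mp h2
  obtain ⟨y, hy⟩ := key f hf
  set c₀ := PowerSeries.constantCoeff y with hc₀
  by_cases hg : y - PowerSeries.C c₀ = 0
  · refine ⟨c₀, ?_⟩
    rw [← hy, sub_eq_zero.mp hg]
    rfl
  · exfalso
    have hg' : algebraMap (PowerSeries K) (LaurentSeries K) (y - PowerSeries.C c₀) ≠ 0 := by
      intro h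
      exact hg ((injective_iff_map_eq_zero _).1
        (IsFractionRing.injective (PowerSeries K) (LaurentSeries K)) _ h)
    have halg : IsAlgebraic K (algebraMap (PowerSeries K) (LaurentSeries K)
        (y - PowerSeries.C c₀)) := by
      rw [map_sub, hy]
      refine hf.sub ?_
      have : algebraMap (PowerSeries K) (LaurentSeries K) (PowerSeries.C c₀) =
          algebraMap K (LaurentSeries K) c₀ := rfl
      rw [this]
      exact isAlgebraic_algebraMap c₀
    obtain ⟨z, hz⟩ := key _ halg.inv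
    have h1 : algebraMap (PowerSeries K) (LaurentSeries K) ((y - PowerSeries.C c₀) * z) =
        algebraMap (PowerSeries K) (LaurentSeries K) 1 := by
      rw [map_mul, hz, map_one, mul_inv_cancel₀ hg']
    have h2 := IsFractionRing.injective (PowerSeries K) (LaurentSeries K) h1
    have h3 := congrArg (PowerSeries.constantCoeff (R := K)) h2
    rw [map_mul, map_sub, PowerSeries.constantCoeff_C, ← hc₀, sub_self, zero_mul, map_one] at h3
    exact zero_ne_one h3

end LaurentConst

variable (M : ℕ) (A : ValuationSubring Qb) (E : IntermediateField ℚ Qb)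

/-! ### Coefficients of elements of `Fc` lie in `E` -/

/-- The subfield of `Q̄((q))` of series with coefficients in `E`. -/
def coeffField : Subfield (LaurentSeries Qb) :=
  (coeffMap (algebraMap E Qb)).fieldRange

theorem mem_coeffField_iff {g : LaurentSeries Qb} :
    g ∈ coeffField E ↔ ∃ h : LaurentSeries E, coeffMap (algebraMap E Qb) h = g := Iff.rfl

theorem coeff_mem_of_mem_coeffField {g : LaurentSeries Qb} (hg : g ∈ coeffField E) (n : ℤ) :
    g.coeff n ∈ E := by
  obtain ⟨h, rfl⟩ := hg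
  rw [coeffMap_coeff]
  exact (h.coeff n).2

theorem val_cst (c : Qb) : ((cst M c : Om M) : LaurentSeries Qb) =
    HahnSeries.single 0 c := by
  show algebraMap Qb (LaurentSeries Qb) c = _
  exact algebraMap_laurentSeries_eq_single Qb c

theorem coeffEmb_mem_coeffField (z : LaurentSeries ℚ) : coeffEmb Qb z ∈ coeffField E := by
  refine ⟨coeffMap (algebraMap ℚ E) z, ?_⟩
  rw [coeffMap_coeffMap, coeffEmb]
  exact coeffMap_congr (RingHom.ext_rat _ _) z

theorem val_mem_coeffField {f : Om M} (hf : f ∈ Fc M E) :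
    (f : LaurentSeries Qb) ∈ coeffField E := by
  unfold Fc at hf
  induction hf using Subfield.closure_induction with
  | mem y hy =>
      rcases hy with hy | hy
      · obtain ⟨c, hc, rfl⟩ := (mem_Ec_iff M E).1 hy
        rw [val_cst]
        exact ⟨HahnSeries.single 0 ⟨c, hc⟩, by rw [coeffMap_single]; rfl⟩
      · obtain ⟨d, hd, hdM, rfl⟩ := hy
        exact coeffEmb_mem_coeffField E _
  | one => exact one_mem _
  | add x y _ _ hx hy => exact add_mem hx hy
  | neg x _ hx => exact neg_mem hx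
  | inv x _ hx =>
      show ((x⁻¹ : Om M) : LaurentSeries Qb) ∈ _
      rw [show ((x⁻¹ : Om M) : LaurentSeries Qb) = (x : LaurentSeries Qb)⁻¹ from rfl]
      exact inv_mem hx
  | mul x y _ _ hx hy => exact mul_mem hx hy

theorem coeff_mem_of_mem_Fc {f : Om M} (hf : f ∈ Fc M E) (n : ℤ) :
    (f : LaurentSeries Qb).coeff n ∈ E :=
  coeff_mem_of_mem_coeffField E (val_mem_coeffField M E hf) n

/-! ### Elements of `ℚ(j_d)` lie in `Fc` -/

theorem ratCast_mem_Fc (c : ℚ) : cst M (algebraMap ℚ Qb c) ∈ Fc M E :=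
  field_E_le_F M E (cst_mem_Ec M E (E.algebraMap_mem c))

/-- The image of `z ∈ ℚ(j_d : d ∣ M)` in `Ω`. -/
def ofFull [NeZero M] (z : LaurentSeries ℚ) (hz : z ∈ modularFunctionFieldFull M) : Om M :=
  ⟨coeffEmb Qb z, coeffEmb_mem_laurentBaseChange Qb hz⟩

theorem ofFull_mem_Fc [NeZero M] (z : LaurentSeries ℚ) (hz : z ∈ modularFunctionFieldFull M) :
    ofFull M z hz ∈ Fc M E := by
  have hz' := hz
  unfold modularFunctionFieldFull at hz'
  -- induction over the adjoin, keeping track of membership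
  have key : ∀ y (hy : y ∈ IntermediateField.adjoin ℚ (divisorExpansions M)),
      ∃ h : y ∈ modularFunctionFieldFull M, ofFull M y h ∈ Fc M E := by
    intro y hy
    induction hy using IntermediateField.adjoin_induction with
    | mem y hy =>
        obtain ⟨d, hd, hdM, rfl⟩ := hy
        refine ⟨jqd_mem_full M hdM, ?_⟩
        exact Subfield.subset_closure (Or.inr ⟨d, hd, hdM, rfl⟩)
    | algebraMap c =>
        refine ⟨(modularFunctionFieldFull M).algebraMap_mem c, ?_⟩
        have : ofFull M (algebraMap ℚ (LaurentSeries ℚ) c)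
            ((modularFunctionFieldFull M).algebraMap_mem c) = cst M (algebraMap ℚ Qb c) := by
          apply Subtype.ext
          show coeffEmb Qb (algebraMap ℚ (LaurentSeries ℚ) c) = _
          rw [val_cst, coeffEmb, algebraMap_laurentSeries_eq_single, coeffMap_single]
        rw [this]
        exact ratCast_mem_Fc M E c
    | add x y _ _ hx hy =>
        obtain ⟨hx1, hx2⟩ := hx
        obtain ⟨hy1, hy2⟩ := hy
        refine ⟨add_mem hx1 hy1, ?_⟩
        have : ofFull M (x + y) (add_mem hx1 hy1) = ofFull M x hx1 + ofFull M y hy1 :=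
          Subtype.ext (map_add (coeffEmb Qb) x y)
        rw [this]
        exact add_mem hx2 hy2
    | inv x _ hx =>
        obtain ⟨hx1, hx2⟩ := hx
        refine ⟨inv_mem hx1, ?_⟩
        have : ofFull M x⁻¹ (inv_mem hx1) = (ofFull M x hx1)⁻¹ :=
          Subtype.ext (map_inv₀ (coeffEmb Qb) x)
        rw [this]
        exact inv_mem hx2
    | mul x y _ _ hx hy =>
        obtain ⟨hx1, hx2⟩ := hx
        obtain ⟨hy1, hy2⟩ := hy
        refine ⟨mul_mem hx1 hy1, ?_⟩
        have : ofFull M (x * y) (mul_mem hx1 hy1) = ofFull M x hx1 * ofFull M y hy1 :=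
          Subtype.ext (map_mul (coeffEmb Qb) x y)
        rw [this]
        exact mul_mem hx2 hy2
  obtain ⟨_, h⟩ := key z hz'
  exact h

/-! ### `compositum` -/

theorem field_compositum [NeZero M] :
    Subfield.closure ((Fc M E : Set (Om M)) ∪ Lc M) = ⊤ := by
  rw [eq_top_iff]
  rintro ⟨f, hf⟩ -
  set T : Subfield (Om M) := Subfield.closure ((Fc M E : Set (Om M)) ∪ Lc M) with hT
  let val : Om M →+* LaurentSeries Qb := (modularFunctionFieldBar M).val.toRingHom
  have hle : Subfield.closure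
        (Set.range (algebraMap Qb (LaurentSeries Qb)) ∪
          (⇑(coeffEmb Qb) '' (modularFunctionFieldFull M : Set (LaurentSeries ℚ)))) ≤
      T.map val := by
    rw [Subfield.closure_le]
    rintro y (⟨c, rfl⟩ | ⟨z, hz, rfl⟩)
    · exact ⟨cst M c, Subfield.subset_closure (Or.inr (cst_mem_Lc M c)), rfl⟩
    · exact ⟨ofFull M z hz, Subfield.subset_closure (Or.inl (ofFull_mem_Fc M E z hz)), rfl⟩
  obtain ⟨t, ht, htf⟩ := hle (mem_laurentBaseChange_iff.1 hf)
  have : t = ⟨f, hf⟩ := Subtype.ext htf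
  rw [← this]
  exact ht

end Fermat.Agent.S18.H456

end
end
-- ===== PACK-END S18/H456/ModFields.lean

-- ===== PACK-BEGIN S20/Comb/OrbitCounts.lean
section




/-!
# Orbit counts of `S` and `S * T` on `SL(2,ℤ) ⧸ Gamma0 N`, and the genus identity

* `two_mul_card_orbits_S : 2 * #(Q / ⟨S⟩) = ψ(N) + ν₂(N)`
* `three_mul_card_orbits_ST : 3 * #(Q / ⟨S * T⟩) = ψ(N) + 2 * ν₃(N)`
* `genusFormula_eq_of_card_orbits_T` : the Euler-characteristic identity
  `genusFormula N = 1 + (μ - o₂ - o₃ - o∞) / 2`.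
-/

set_option autoImplicit false

namespace Fermat.Agent.S20.Comb

open Matrix MatrixGroups CongruenceSubgroup MulAction Subgroup

/-- `-1` acts trivially on `SL(2,ℤ) ⧸ Γ₀(N)`. -/
lemma neg_one_smul_quotient (N : ℕ) (q : SL(2, ℤ) ⧸ Gamma0 N) : (-1 : SL(2, ℤ)) • q = q := by
  obtain ⟨g, rfl⟩ := QuotientGroup.mk_surjective q
  rw [smul_mk_eq_mk_iff]
  have h : ∀ i j, ((-1 : SL(2, ℤ)) * g) i j = - g i j := by
    intro i j
    rw [neg_mul, one_mul, Matrix.SpecialLinearGroup.coe_neg, Matrix.neg_apply]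
  rw [h, h]
  push_cast
  ring

lemma S_pow_two : ModularGroup.S ^ 2 = (-1 : SL(2, ℤ)) := by
  apply Subtype.ext
  rw [pow_two, Matrix.SpecialLinearGroup.coe_mul, ModularGroup.coe_S,
    Matrix.SpecialLinearGroup.coe_neg, Matrix.SpecialLinearGroup.coe_one]
  ext i j
  fin_cases i <;> fin_cases j <;> simp [Matrix.mul_apply, Fin.sum_univ_two]

lemma ST_pow_three : (ModularGroup.S * ModularGroup.T) ^ 3 = (-1 : SL(2, ℤ)) := by
  apply Subtype.ext
  rw [pow_succ, pow_two, Matrix.SpecialLinearGroup.coe_mul, Matrix.SpecialLinearGroup.coe_mul,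
    coe_S_mul_T, Matrix.SpecialLinearGroup.coe_neg, Matrix.SpecialLinearGroup.coe_one]
  ext i j
  fin_cases i <;> fin_cases j <;> simp [Matrix.mul_apply, Fin.sum_univ_two]

/-- `2 * #(S-orbits) = ψ(N) + ν₂(N)`. -/
theorem two_mul_card_orbits_S (N : ℕ) [NeZero N] :
    2 * Nat.card (orbitRel.Quotient (zpowers ModularGroup.S) (SL(2, ℤ) ⧸ Gamma0 N))
      = ModularCurve.dedekindPsi N + ModularCurve.nuTwo N := by
  have h := prime_mul_card_orbits (X := SL(2, ℤ) ⧸ Gamma0 N) ModularGroup.S 2 Nat.prime_two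
    (fun x => by rw [S_pow_two]; exact neg_one_smul_quotient N x)
  rw [card_quotient_Gamma0, card_fixedBy_S] at h
  exact h.trans (by norm_num)

/-- `3 * #(ST-orbits) = ψ(N) + 2 * ν₃(N)`. -/
theorem three_mul_card_orbits_ST (N : ℕ) [NeZero N] :
    3 * Nat.card (orbitRel.Quotient (zpowers (ModularGroup.S * ModularGroup.T))
        (SL(2, ℤ) ⧸ Gamma0 N))
      = ModularCurve.dedekindPsi N + 2 * ModularCurve.nuThree N := by
  have h := prime_mul_card_orbits (X := SL(2, ℤ) ⧸ Gamma0 N)
    (ModularGroup.S * ModularGroup.T) 3 Nat.prime_three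
    (fun x => by rw [ST_pow_three]; exact neg_one_smul_quotient N x)
  rw [card_quotient_Gamma0, card_fixedBy_ST] at h
  exact h.trans (by norm_num)

/-- The Euler-characteristic identity: with `μ = #Q`, `o₂`, `o₃`, `o∞` the numbers of orbits of
`S`, `S * T`, `T` on `Q = SL(2,ℤ) ⧸ Γ₀(N)`, one has `genusFormula N = 1 + (μ - o₂ - o₃ - o∞) / 2`,
provided `o∞ = cuspCount N`. -/
theorem genusFormula_eq_of_card_orbits_T (N : ℕ) [NeZero N]
    (hT : Nat.card (orbitRel.Quotient (zpowers ModularGroup.T) (SL(2, ℤ) ⧸ Gamma0 N))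
      = ModularCurve.cuspCount N) :
    ModularCurve.genusFormula N
      = 1 + ((Nat.card (SL(2, ℤ) ⧸ Gamma0 N) : ℚ)
          - (Nat.card (orbitRel.Quotient (zpowers ModularGroup.S) (SL(2, ℤ) ⧸ Gamma0 N)) : ℚ)
          - (Nat.card (orbitRel.Quotient (zpowers (ModularGroup.S * ModularGroup.T))
              (SL(2, ℤ) ⧸ Gamma0 N)) : ℚ)
          - (Nat.card (orbitRel.Quotient (zpowers ModularGroup.T)
              (SL(2, ℤ) ⧸ Gamma0 N)) : ℚ)) / 2 := by
  have h2 := two_mul_card_orbits_S N
  have h3 := three_mul_card_orbits_ST N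
  have h2' := congrArg (Nat.cast : ℕ → ℚ) h2
  have h3' := congrArg (Nat.cast : ℕ → ℚ) h3
  push_cast at h2' h3'
  rw [hT, card_quotient_Gamma0, ModularCurve.genusFormula]
  linear_combination (1 / 4 : ℚ) * h2' + (1 / 6 : ℚ) * h3'

/-- Orbit-count form used by dimension bounds: `μ + 2 - o₂ - o₃ - o∞ = 2 * genusFormula N`. -/
theorem two_mul_genusFormula_of_card_orbits_T (N : ℕ) [NeZero N]
    (hT : Nat.card (orbitRel.Quotient (zpowers ModularGroup.T) (SL(2, ℤ) ⧸ Gamma0 N))
      = ModularCurve.cuspCount N) :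
    2 * ModularCurve.genusFormula N
      + (Nat.card (orbitRel.Quotient (zpowers ModularGroup.S) (SL(2, ℤ) ⧸ Gamma0 N)) : ℚ)
      + (Nat.card (orbitRel.Quotient (zpowers (ModularGroup.S * ModularGroup.T))
          (SL(2, ℤ) ⧸ Gamma0 N)) : ℚ)
      + (Nat.card (orbitRel.Quotient (zpowers ModularGroup.T) (SL(2, ℤ) ⧸ Gamma0 N)) : ℚ)
      = (Nat.card (SL(2, ℤ) ⧸ Gamma0 N) : ℚ) + 2 := by
  rw [genusFormula_eq_of_card_orbits_T N hT]
  ring

end Fermat.Agent.S20.Comb

end
-- ===== PACK-END S20/Comb/OrbitCounts.lean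

-- ===== PACK-BEGIN S18/H203/LiftBasis.lean
section


/-!
# S18 / b1 (helper203): lifting a basis of the special fibre — local freeness along `w = 0`

`S` a Noetherian integrally closed domain, `w ∈ S` prime, `S̄ = S ⧸ (w)`, `B` the integral
closure of `S` in a finite extension `F` of `K = Frac S`, finite over `S`, `B̄ = B ⧸ (w) B`.
Let `b : ι → B` be a finite family whose reduction is an `S̄`-basis of `B̄`.  Then

* `exists_smul_mem_span` : there is `r ∈ S`, `r ≡ 1 mod w`, with `r • B ⊆ span_S b`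
  (Nakayama), i.e. `b` generates `B` over the localisation `S[1/r]`;
* `linearIndependent_lift` : `b` is linearly independent over `S`;
* `basisOfLift` : the image of `b` in `F` is a `K`-basis of `F`; in particular
  `card ι = [F : K]` (`card_eq_finrank`).

So `B` is free with basis `b` over the semi-local ring `(1 + w S)⁻¹ S`, in particular over the
local rings of `S` at all primes containing `w`: "B is locally free of rank `[F : K]` along the
special fibre".
-/

set_option autoImplicit false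

namespace Fermat.Agent.S18.H203

open Ideal

section

variable {S B : Type*} [CommRing S] [CommRing B] [Algebra S B]

/-- The reduction map `B → B ⧸ (w) B`. -/
abbrev redB (w : S) : B →+* B ⧸ (Ideal.span {w}).map (algebraMap S B) :=
  Ideal.Quotient.mk _

/-- The reduction map `S → S ⧸ (w)`. -/
abbrev redS (w : S) : S →+* S ⧸ Ideal.span {w} :=
  Ideal.Quotient.mk _

theorem redB_smul (w : S) (s : S) (β : B) :
    redB w (s • β) = redS w s • redB (S := S) w β := by
  rw [Ideal.Quotient.mk_smul_mk_quotient_map_quotient, Algebra.smul_def]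

theorem redB_eq_zero_iff (w : S) (β : B) :
    redB (S := S) w β = 0 ↔ algebraMap S B w ∣ β := by
  rw [Ideal.Quotient.eq_zero_iff_mem, mem_map_span_singleton_iff]

theorem redS_eq_zero_iff (w : S) (s : S) : redS w s = 0 ↔ w ∣ s := by
  rw [Ideal.Quotient.eq_zero_iff_mem, Ideal.mem_span_singleton]

variable {ι : Type*} [Fintype ι]

/-- Every element of `B` is congruent mod `w` to an `S`-combination of the lifts. -/
theorem exists_sum_add_mul (w : S) (b : ι → B)
    (hspan : Submodule.span (S ⧸ Ideal.span {w}) (Set.range fun i => redB (S := S) w (b i)) = ⊤)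
    (β : B) : ∃ (c : ι → S) (β' : B), β = ∑ i, c i • b i + algebraMap S B w * β' := by
  have hβ : redB (S := S) w β ∈
      Submodule.span (S ⧸ Ideal.span {w}) (Set.range fun i => redB (S := S) w (b i)) := by
    rw [hspan]; exact Submodule.mem_top
  obtain ⟨cb, hcb⟩ := (Submodule.mem_span_range_iff_exists_fun _).mp hβ
  choose c hc using fun i => Ideal.Quotient.mk_surjective (cb i)
  have h1 : redB (S := S) w (β - ∑ i, c i • b i) = 0 := by
    rw [map_sub, map_sum, ← hcb, sub_eq_zero]
    refine Finset.sum_congr rfl fun i _ => ?_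
    rw [redB_smul, hc i]
  rw [redB_eq_zero_iff] at h1
  obtain ⟨β', hβ'⟩ := h1
  exact ⟨c, β', by rw [← hβ']; ring⟩

/-- **Nakayama**: a single `r ≡ 1 mod w` with `r • B ⊆ span_S b`. -/
theorem exists_smul_mem_span [Module.Finite S B] (w : S) (b : ι → B)
    (hspan : Submodule.span (S ⧸ Ideal.span {w}) (Set.range fun i => redB (S := S) w (b i)) = ⊤) :
    ∃ r : S, r - 1 ∈ Ideal.span {w} ∧
      ∀ β : B, r • β ∈ Submodule.span S (Set.range b) := by
  set N : Submodule S B := Submodule.span S (Set.range b) with hN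
  have hfg : (⊤ : Submodule S (B ⧸ N)).FG := Module.finite_def.mp inferInstance
  have hle : (⊤ : Submodule S (B ⧸ N)) ≤ Ideal.span {w} • ⊤ := by
    intro x _
    obtain ⟨β, rfl⟩ := N.mkQ_surjective x
    obtain ⟨c, β', hβ⟩ := exists_sum_add_mul w b hspan β
    have h1 : N.mkQ β = w • N.mkQ β' := by
      rw [hβ, map_add, ← map_smul, Algebra.smul_def]
      have h2 : N.mkQ (∑ i, c i • b i) = 0 := by
        rw [Submodule.mkQ_apply, Submodule.Quotient.mk_eq_zero]
        exact Submodule.sum_mem _ fun i _ =>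
          Submodule.smul_mem _ _ (Submodule.subset_span ⟨i, rfl⟩)
      rw [h2, zero_add]
    rw [h1]
    exact Submodule.smul_mem_smul (Ideal.mem_span_singleton_self w) Submodule.mem_top
  obtain ⟨r, hr1, hr⟩ :=
    Submodule.exists_sub_one_mem_and_smul_eq_zero_of_fg_of_le_smul (Ideal.span {w}) ⊤ hfg hle
  refine ⟨r, hr1, fun β => ?_⟩
  have h3 := hr (N.mkQ β) Submodule.mem_top
  rw [← map_smul, Submodule.mkQ_apply, Submodule.Quotient.mk_eq_zero] at h3
  exact h3

end

section Indep

variable {S B : Type*} [CommRing S] [IsDomain S] [IsNoetherianRing S]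
  [CommRing B] [Algebra S B] [Module.IsTorsionFree S B]
  {ι : Type*} [Fintype ι]

/-- In a Noetherian domain, an element divisible by all powers of a prime element is zero. -/
theorem eq_zero_of_forall_pow_dvd {w : S} (hw : Prime w) {a : S} (h : ∀ k : ℕ, w ^ k ∣ a) :
    a = 0 := by
  by_contra ha
  have hfin : FiniteMultiplicity w a := FiniteMultiplicity.of_not_isUnit hw.not_isUnit ha
  obtain ⟨n, hn⟩ := hfin
  exact hn (h (n + 1))

/-- **Linear independence of the lifts.** -/
theorem linearIndependent_lift {w : S} (hw : Prime w) (b : ι → B)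
    (hli : LinearIndependent (S ⧸ Ideal.span {w}) fun i => redB (S := S) w (b i)) :
    LinearIndependent S b := by
  rw [Fintype.linearIndependent_iff]
  intro a ha
  -- all coefficients are divisible by all powers of `w`
  have key : ∀ k : ℕ, ∀ a : ι → S, ∑ i, a i • b i = 0 → ∀ i, w ^ k ∣ a i := by
    intro k
    induction k with
    | zero => intro a _ i; simp
    | succ k ih =>
      intro a ha i
      have h1 := ih a ha
      choose a' ha' using h1
      have h2 : ∑ i, a' i • b i = 0 := by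
        have h3 : w ^ k • ∑ i, a' i • b i = 0 := by
          rw [Finset.smul_sum, ← ha]
          refine Finset.sum_congr rfl fun i _ => ?_
          rw [smul_smul, ← ha' i]
        exact (smul_eq_zero_iff_right (pow_ne_zero k hw.ne_zero)).mp h3
      have h4 : ∑ i, redS w (a' i) • redB (S := S) w (b i) = 0 := by
        have := congrArg (redB (S := S) w) h2
        rw [map_sum, map_zero] at this
        rw [← this]
        refine Finset.sum_congr rfl fun i _ => ?_
        rw [redB_smul]
      have h5 := Fintype.linearIndependent_iff.mp hli _ h4 i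
      rw [redS_eq_zero_iff] at h5
      obtain ⟨c, hc⟩ := h5
      exact ⟨c, by rw [ha' i, hc, pow_succ]; ring⟩
  intro i
  exact eq_zero_of_forall_pow_dvd hw fun k => key k a ha i

end Indep

end Fermat.Agent.S18.H203

end
-- ===== PACK-END S18/H203/LiftBasis.lean

-- ===== PACK-BEGIN S18/H754/HncTyped.lean
section


/-!
# S18 / ALG-FRONT / hNC adapter, typed form

The hypothesis `hNC` of `B12.B2RegularStatement`, from the `unramified` field of `Alg.GoodModel`:

    hNC_typed : ∀ π : R[X], Prime π → ¬ Associated π (C w) → (∀ c ∈ S, ¬ Associated π (X - C c)) →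
        (Ideal.span {algebraMap R[X] B π}).IsRadical

for `R` a DVR of characteristic `0`, `B` a finite torsion-free integrally closed `R[X]`-algebra,
domain, with `C w` prime in `B`, embedded in a field `Ω` with an algebraically closed subfield of
constants `Lc ⊇ R`, algebraic over `R`.
-/

set_option autoImplicit false

noncomputable section

namespace Fermat.Agent.S18.H754

open Polynomial

section Dvd

variable {A B : Type*} [CommRing A] [IsDomain A] [IsIntegrallyClosed A]
  [CommRing B] [IsDomain B] [Algebra A B] [Module.IsTorsionFree A B] [Algebra.IsIntegral A B]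

/-- Divisibility in an integral torsion-free extension domain of an integrally closed domain
descends. -/
theorem dvd_of_algebraMap_dvd {a q : A} (ha : a ≠ 0)
    (h : algebraMap A B a ∣ algebraMap A B q) : a ∣ q := by
  have hinj : Function.Injective (algebraMap A B) := FaithfulSMul.algebraMap_injective A B
  obtain ⟨b, hb⟩ := h
  have hbint : IsIntegral A b := Algebra.IsIntegral.isIntegral b
  set p : A[X] := C a * X - C q with hp
  have hpb : aeval b p = 0 := by
    rw [hp, map_sub, map_mul, aeval_C, aeval_C, aeval_X, hb, sub_self]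
  have hdvd : minpoly A b ∣ p := minpoly.isIntegrallyClosed_dvd hbint hpb
  have hp1 : p.coeff 1 = a := by
    rw [hp]
    simp
  have hp0 : p ≠ 0 := by
    intro h0
    rw [h0, coeff_zero] at hp1
    exact ha hp1.symm
  have hpdeg : p.natDegree ≤ 1 := by
    rw [hp]
    refine (natDegree_sub_le _ _).trans (max_le ?_ ?_)
    · exact (natDegree_C_mul_X a ha).le
    · rw [natDegree_C]; exact Nat.zero_le _
  have hmdeg : (minpoly A b).natDegree ≤ 1 := (natDegree_le_of_dvd hdvd hp0).trans hpdeg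
  have hmpos : 0 < (minpoly A b).natDegree := minpoly.natDegree_pos hbint
  have hm1 : (minpoly A b).natDegree = 1 := le_antisymm hmdeg hmpos
  have hmonic : (minpoly A b).Monic := minpoly.monic hbint
  have hmeq := eq_X_add_C_of_natDegree_le_one hmdeg
  have hlead : (minpoly A b).coeff 1 = 1 := by
    have := hmonic.coeff_natDegree
    rwa [hm1] at this
  rw [hlead, C_1, one_mul] at hmeq
  have hmb : aeval b (minpoly A b) = 0 := minpoly.aeval A b
  rw [hmeq, map_add, aeval_X, aeval_C] at hmb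
  have hb' : b = algebraMap A B (-(minpoly A b).coeff 0) := by
    rw [map_neg]
    exact eq_neg_of_add_eq_zero_left hmb
  refine ⟨-(minpoly A b).coeff 0, ?_⟩
  apply hinj
  rw [map_mul, ← hb', hb]

end Dvd

section Constants

variable {R : Type*} [CommRing R] [IsDomain R] [IsDiscreteValuationRing R]
  {Ω : Type*} [Field Ω]

/-- An element algebraic over a DVR `R` becomes integral after multiplication by a power of the
uniformiser. -/
theorem exists_pow_mul_isIntegralElem (ι : R →+* Ω) (w : R) (hw : Irreducible w)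
    (a : Ω) (ha : ∃ p : R[X], p ≠ 0 ∧ eval₂ ι a p = 0) :
    ∃ n : ℕ, ι.IsIntegralElem (ι w ^ n * a) := by
  letI : Algebra R Ω := ι.toAlgebra
  have halg : IsAlgebraic R a := by
    obtain ⟨p, hp0, hp⟩ := ha
    exact ⟨p, hp0, by rw [aeval_def]; exact hp⟩
  obtain ⟨y, hy0, hy⟩ := halg.exists_integral_multiple
  obtain ⟨n, u, rfl⟩ := IsDiscreteValuationRing.eq_unit_mul_pow_irreducible hy0 hw
  refine ⟨n, ?_⟩
  have h1 : IsIntegral R ((((u⁻¹ : Rˣ) : R)) • ((u : R) * w ^ n) • a) :=
    IsIntegral.smul _ hy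
  have h2 : (((u⁻¹ : Rˣ) : R)) • ((u : R) * w ^ n) • a = ι w ^ n * a := by
    rw [smul_smul, ← mul_assoc, Units.inv_mul, one_mul, Algebra.smul_def, map_pow]
    rfl
  rw [h2] at h1
  exact h1

variable [CharZero R]

/-- Factorisation over the constants of a nonconstant irreducible polynomial over `R`: pairwise
distinct roots. -/
theorem exists_factorization_of_irreducible (ι : R →+* Ω) (hι : Function.Injective ι)
    (Lc : Subfield Ω) (hLcl : IsAlgClosed Lc) (hRL : ∀ r, ι r ∈ Lc)
    (π : R[X]) (hπ : Irreducible π) (hdeg : π.natDegree ≠ 0) :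
    ∃ (roots : Finset Ω) (lc : Ω), lc ∈ Lc ∧ lc ≠ 0 ∧
      (∀ c ∈ roots, c ∈ Lc ∧ eval₂ ι c π = 0) ∧
      ∀ x : Ω, eval₂ ι x π = lc * ∏ c ∈ roots, (x - c) := by
  classical
  haveI := hLcl
  let K := FractionRing R
  have hprim : π.IsPrimitive := hπ.isPrimitive hdeg
  have hK : Irreducible (π.map (algebraMap R K)) :=
    (hprim.irreducible_iff_irreducible_map_fraction_map).1 hπ
  haveI : CharZero K := charZero_of_injective_algebraMap (IsFractionRing.injective R K)
  have hsepK : (π.map (algebraMap R K)).Separable := hK.separable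
  let ιL : R →+* Lc := ι.codRestrict Lc hRL
  have hιL : Function.Injective ιL := by
    intro a b hab
    apply hι
    exact congrArg Subtype.val hab
  let φ : K →+* Lc := IsFractionRing.lift hιL
  have hφ : φ.comp (algebraMap R K) = ιL := by
    ext r
    exact congrArg Subtype.val (IsFractionRing.lift_algebraMap hιL r)
  set Q : Lc[X] := π.map ιL with hQ
  have hQ' : Q = (π.map (algebraMap R K)).map φ := by
    rw [Polynomial.map_map, hφ]
  have hsepQ : Q.Separable := by
    rw [hQ']
    exact hsepK.map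
  have hsplit : Q.Splits := IsAlgClosed.splits Q
  have hQfac := hsplit.eq_prod_roots
  have hnodup : Q.roots.Nodup := nodup_roots hsepQ
  have hQ0 : Q ≠ 0 := by
    rw [hQ]
    exact (Polynomial.map_ne_zero_iff hιL).2 hπ.ne_zero
  have hsub : (Lc.subtype).comp ιL = ι := by
    ext r
    rfl
  have heval : ∀ x : Ω, eval₂ ι x π = eval₂ Lc.subtype x Q := by
    intro x
    rw [hQ, eval₂_map, hsub]
  refine ⟨Q.roots.toFinset.map ⟨Subtype.val, Subtype.val_injective⟩, (Q.leadingCoeff : Ω),
    Q.leadingCoeff.2, ?_, ?_, ?_⟩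
  · intro h0
    have : Q.leadingCoeff = 0 := Subtype.ext h0
    exact hQ0 (leadingCoeff_eq_zero.1 this)
  · intro c hc
    rw [Finset.mem_map] at hc
    obtain ⟨a, ha, rfl⟩ := hc
    rw [Multiset.mem_toFinset] at ha
    refine ⟨a.2, ?_⟩
    have hroot : Q.eval a = 0 := (mem_roots hQ0).1 ha
    rw [heval]
    change eval₂ Lc.subtype (Lc.subtype a) Q = 0
    rw [eval₂_at_apply, hroot, map_zero]
  · intro x
    rw [heval]
    conv_lhs => rw [hQfac]
    rw [eval₂_mul, eval₂_C, eval₂_multiset_prod, Multiset.map_map, Finset.prod_map,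
      Finset.prod_eq_multiset_prod, Multiset.toFinset_val, Multiset.dedup_eq_self.2 hnodup]
    congr 2
    refine Multiset.map_congr rfl fun a _ => ?_
    simp [eval₂_sub, eval₂_X, eval₂_C]

end Constants

section Typed

variable (R : Type*) [CommRing R] [IsDomain R] [IsDiscreteValuationRing R] [CharZero R]
  (B : Type*) [CommRing B] [IsDomain B] [IsIntegrallyClosed B] [Algebra R[X] B]
  [Module.Finite R[X] B] [Module.IsTorsionFree R[X] B]
  {Ω : Type*} [Field Ω] [Algebra B Ω] [FaithfulSMul B Ω]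

/-- **hNC, typed form** = the hypothesis `hNC` of `B12.B2RegularStatement`, from the `unramified`
field of `Alg.GoodModel` (with `x = algebraMap B Ω (algebraMap R[X] B X)`). -/
theorem hNC_typed (w : R) (hw : Irreducible w)
    (hwB : Prime (algebraMap R[X] B (C w)))
    (Lc : Subfield Ω) (hLcl : IsAlgClosed Lc)
    (hRL : ∀ r : R, algebraMap B Ω (algebraMap R[X] B (C r)) ∈ Lc)
    (hLalg : ∀ a ∈ Lc, ∃ p : R[X], p ≠ 0 ∧
      eval₂ ((algebraMap B Ω).comp ((algebraMap R[X] B).comp C)) a p = 0)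
    (S : Finset R) (SΩ : Finset Ω)
    (hS : ∀ c ∈ SΩ, ∃ s ∈ S, algebraMap B Ω (algebraMap R[X] B (C s)) = c)
    (hunr : ∀ O : ValuationSubring Ω, (∀ a ∈ Lc, a ∈ O) → ∀ c ∈ Lc, c ∉ SΩ →
        algebraMap B Ω (algebraMap R[X] B X) - c ∈ O →
        (algebraMap B Ω (algebraMap R[X] B X) - c)⁻¹ ∉ O →
        ∀ t ∈ O, t⁻¹ ∉ O → t * (algebraMap B Ω (algebraMap R[X] B X) - c)⁻¹ ∈ O) :
    ∀ π : R[X], Prime π → ¬ Associated π (C w) → (∀ c ∈ S, ¬ Associated π (X - C c)) →
        (Ideal.span {algebraMap R[X] B π}).IsRadical := by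
  classical
  intro π hπ hπw hπS
  haveI : IsNoetherianRing B := IsNoetherianRing.of_finite R[X] B
  haveI : Algebra.IsIntegral R[X] B := Algebra.IsIntegral.of_finite R[X] B
  have hinjRB : Function.Injective (algebraMap R[X] B) :=
    FaithfulSMul.algebraMap_injective R[X] B
  have hinjBΩ : Function.Injective (algebraMap B Ω) := FaithfulSMul.algebraMap_injective B Ω
  set ι : R →+* Ω := (algebraMap B Ω).comp ((algebraMap R[X] B).comp C) with hιdef
  have hι : Function.Injective ι := by
    intro a b hab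
    exact C_injective (hinjRB (hinjBΩ hab))
  have hwprime : Prime w := hw.prime
  have hCw : Irreducible (C w : R[X]) := (prime_C_iff.2 hwprime).irreducible
  -- `π` is not constant
  have hdeg : π.natDegree ≠ 0 := by
    intro h0
    obtain ⟨r, hr⟩ : ∃ r : R, π = C r := ⟨π.coeff 0, eq_C_of_natDegree_eq_zero h0⟩
    have hrp : Prime r := by
      rw [hr] at hπ
      exact prime_C_iff.1 hπ
    have hass : Associated r w :=
      IsDiscreteValuationRing.associated_of_irreducible R hrp.irreducible hw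
    apply hπw
    rw [hr]
    obtain ⟨u, hu⟩ := hass
    refine ⟨Units.map (C : R →+* R[X]).toMonoidHom u, ?_⟩
    simp only [Units.coe_map, RingHom.toMonoidHom_eq_coe, MonoidHom.coe_coe]
    rw [← map_mul, hu]
  have hπ'0 : algebraMap R[X] B π ≠ 0 := by
    intro h0
    exact hπ.ne_zero (hinjRB (by rw [h0, map_zero]))
  -- `w` lies in no height-one prime containing `π`
  have hwP : ∀ 𝔓 : Ideal B, 𝔓.IsPrime → 𝔓.height = 1 → algebraMap R[X] B π ∈ 𝔓 →
      algebraMap R[X] B (C w) ∉ 𝔓 := by
    intro 𝔓 h𝔓 hht hπ𝔓 hw𝔓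
    haveI := h𝔓
    haveI hwI : (Ideal.span {algebraMap R[X] B (C w)}).IsPrime :=
      (Ideal.span_singleton_prime hwB.ne_zero).2 hwB
    have hle : Ideal.span {algebraMap R[X] B (C w)} ≤ 𝔓 :=
      (Ideal.span_singleton_le_iff_mem _).2 hw𝔓
    by_cases heq : Ideal.span {algebraMap R[X] B (C w)} = 𝔓
    · rw [← heq, Ideal.mem_span_singleton] at hπ𝔓
      have hCw0 : (C w : R[X]) ≠ 0 := hCw.ne_zero
      have hdvd : (C w : R[X]) ∣ π := dvd_of_algebraMap_dvd (B := B) hCw0 hπ𝔓
      exact hπw (hCw.associated_of_dvd hπ.irreducible hdvd).symm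
    · have hlt : Ideal.span {algebraMap R[X] B (C w)} < 𝔓 := lt_of_le_of_ne hle heq
      have hfin : (Ideal.span {algebraMap R[X] B (C w)}).FiniteHeight := by
        refine ⟨Or.inr ?_⟩
        intro htop
        have h2 := Ideal.height_mono hle
        rw [htop, hht, top_le_iff] at h2
        exact ENat.one_ne_top h2
      have h3 := Ideal.height_strict_mono_of_isPrime hlt
      rw [hht, ENat.lt_one_iff_eq_zero] at h3
      rw [Ideal.height_eq_zero_iff, IsDomain.minimalPrimes_eq_singleton_bot,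
        Set.mem_singleton_iff, Ideal.span_singleton_eq_bot] at h3
      exact hwB.ne_zero h3
  -- constants become integral after multiplication by a power of `w`
  have hLc' : ∀ a ∈ Lc, ∃ n : ℕ,
      IsIntegral B (algebraMap B Ω (algebraMap R[X] B (C w)) ^ n * a) := by
    intro a ha
    obtain ⟨n, P, hP, hPa⟩ := exists_pow_mul_isIntegralElem ι w hw a (hLalg a ha)
    refine ⟨n, P.map ((algebraMap R[X] B).comp C), hP.map _, ?_⟩
    rw [eval₂_map]
    exact hPa
  -- factorisation of `π` over the constants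
  obtain ⟨roots, lc, hlc, hlc0, hroots, hfac⟩ :=
    exists_factorization_of_irreducible ι hι Lc hLcl hRL π hπ.irreducible hdeg
  have hcomp : (algebraMap B Ω).comp (algebraMap R[X] B) =
      eval₂RingHom ι (algebraMap B Ω (algebraMap R[X] B X)) := by
    apply Polynomial.ringHom_ext
    · intro r
      simp [hιdef]
    · simp
  have hfac' : algebraMap B Ω (algebraMap R[X] B π) =
      lc * ∏ c ∈ roots, (algebraMap B Ω (algebraMap R[X] B X) - c) := by
    rw [← hfac]
    have := congrArg (fun f : R[X] →+* Ω => f π) hcomp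
    simpa using this
  have hroots' : ∀ c ∈ roots, c ∈ Lc ∧ c ∉ SΩ := by
    intro c hc
    refine ⟨(hroots c hc).1, fun hcS => ?_⟩
    obtain ⟨s, hs, rfl⟩ := hS c hcS
    have h1 := (hroots _ hc).2
    change eval₂ ι (ι s) π = 0 at h1
    rw [eval₂_at_apply] at h1
    have h2 : π.eval s = 0 := hι (by rw [h1, map_zero])
    have h3 : (X - C s : R[X]) ∣ π := dvd_iff_isRoot.2 h2
    exact hπS s hs ((prime_X_sub_C s).irreducible.associated_of_dvd hπ.irreducible h3).symm
  exact isRadical_span_of_unramified Lc (algebraMap R[X] B π) hπ'0 (algebraMap R[X] B (C w))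
    hwP hLc' (algebraMap B Ω (algebraMap R[X] B X)) SΩ roots hroots' lc hlc hlc0 hfac' hunr

end Typed

end Fermat.Agent.S18.H754

end

end
-- ===== PACK-END S18/H754/HncTyped.lean

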