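import Mathlib
import Fermat.Agent.Pack.S3234.G0E4L2
import Fermat.Agent.Pack.S3234.G0E1L2
import Fermat.Agent.Pack.S3234.G0E2L3
import Fermat.Agent.Pack.S3234.G0E3L2
import Fermat.Agent.Pack.S3234.G0E4L3
import Fermat.Agent.Pack.S3234.G0E3L1
import Fermat.Agent.Pack.S3234.G0E0L1
import Fermat.Agent.Pack.S3234.G0E4L0
import Fermat.Agent.Pack.S3234.G0E4L1
import Fermat.Agent.Pack.S3234.G0E1L0
import Fermat.Agent.Pack.S3234.G0E3L0
import Fermat.Agent.Pack.S3234.G0E3L3

-- ===== PACK-BEGIN Lib/Cheb/FrobFinite.lean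
section





/-!
# CHEB, Tier 1, finite level: the qualitative Frobenius density theorem for Galois number fields

Assembly of the pieces `Z`, `B0` (helper761), `A` (helper764), `D` (helper943), `M` (helper993).
-/

set_option autoImplicit false

namespace Fermat.Agent.Lib.Cheb

/-- **Frobenius density theorem (qualitative), finite level.**  For a Galois number field `L`,
`σ ∈ Gal(L/ℚ)` and a finite set `S` of primes there are a prime `p ∉ S`, a prime `P` of `𝓞 L`
above `p` with trivial inertia and an arithmetic Frobenius `τ` at `P` with `⟨τ⟩ = ⟨σ⟩`. -/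
theorem frobFinite : Spec.FrobFiniteStatement :=
  H993.frobFinite H761.primeSum_statement H761.primeCountBound_statement H764.count
    H943.frobStatement

end Fermat.Agent.Lib.Cheb

end
-- ===== PACK-END Lib/Cheb/FrobFinite.lean

-- ===== PACK-BEGIN S24/H117/LocalThm.lean
section




/-!
# S24 / H117 — the local theorem (LT2, LT3)

For `L : LocalData K F C X t` with `[F : E] = #X` (`E ⊆ K(t)`):

* `exists_placeOf_eq` (LT2): every place `v` of `F/K` with `0 < v.ord t` is induced by one of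
  the embeddings `L.σ x`;
* `localThm` (LT3): if moreover `#X ≤ ∑_{v | t} v.ord t`, then the places over `t = 0`
  correspond bijectively to the cycles of `L.perm`, and `v.ord t` is the length of the cycle.
-/

set_option autoImplicit false
set_option linter.style.haveILetI false

noncomputable section

open AlgebraicCurve IntermediateField

namespace Fermat.Agent.S24.H117

variable {K F : Type*} [Field K] [Field F] [Algebra K F] [CharZero K]
variable {C : Type*} [Field C] {X : Type*} [Finite X]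
variable {t : F} (L : LocalData K F C X t)

omit [CharZero K] [Finite X] in
theorem order_leadingCoeff_iterate (x : X) (f : F) (i : ℕ) :
    (L.σ ((L.perm ^ i) x) f).order = (L.σ x f).order ∧
      (L.σ ((L.perm ^ i) x) f).leadingCoeff
        = (L.ζ ^ (L.σ x f).order) ^ i * (L.σ x f).leadingCoeff := by
  induction i with
  | zero => simp
  | succ n ih =>
    rw [pow_succ', Equiv.Perm.mul_apply]
    refine ⟨by rw [L.σ_perm_order, ih.1], ?_⟩
    rw [L.σ_perm_leadingCoeff, ih.1, ih.2, pow_succ]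
    ring

omit [CharZero K] [Finite X] in
/-- The ramification index `e = ord_v t` divides every period of `x` under `perm`. -/
theorem ord_t_dvd_of_pow_apply_eq (x : X) (i : ℕ) (hi : (L.perm ^ i) x = x) :
    (placeOf L x).ord t ∣ (i : ℤ) := by
  obtain ⟨π, hπ0, hπ⟩ := exists_ord_eq_one (placeOf L x)
  have hord : (L.σ x π).order = mult L x := by rw [order_eq, hπ, mul_one]
  have hlc : (L.σ x π).leadingCoeff ≠ 0 :=
    HahnSeries.leadingCoeff_ne_zero.mpr ((map_ne_zero (L.σ x)).mpr hπ0)
  have h := (order_leadingCoeff_iterate L x π i).2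
  rw [hi, hord, zpow_natCast] at h
  have h1 : (L.ζ ^ mult L x) ^ i = 1 := by
    have : (L.ζ ^ mult L x) ^ i * (L.σ x π).leadingCoeff = 1 * (L.σ x π).leadingCoeff := by
      rw [one_mul]; exact h.symm
    exact mul_right_cancel₀ hlc this
  rw [← pow_mul] at h1
  have h2 : L.m ∣ mult L x * i := (L.hζ.pow_eq_one_iff_dvd _).mp h1
  have h3 : ((mult L x : ℤ) * (placeOf L x).ord t) ∣ (mult L x : ℤ) * i := by
    rw [mult_mul_ord_t]
    exact_mod_cast h2
  have hk : (mult L x : ℤ) ≠ 0 := by exact_mod_cast (mult_pos L x).ne'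
  exact (mul_dvd_mul_iff_left hk).mp h3

variable (E : IntermediateField K F) (hE : E ≤ K⟮t⟯) [FiniteDimensional E F]
  (hrank : Module.finrank E F = Nat.card X)

include hE hrank in
/-- **LT2.** Every place over `t = 0` is induced by one of the embeddings. -/
theorem exists_placeOf_eq (v : Place K F) (hv : 0 < v.ord t) : ∃ x, placeOf L x = v := by
  classical
  by_contra hcon
  push Not at hcon
  haveI : Fintype X := Fintype.ofFinite X
  have hvs : v ∉ Finset.univ.image (placeOf L) := by
    intro h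
    obtain ⟨x, -, hx⟩ := Finset.mem_image.mp h
    exact hcon x hx
  obtain ⟨f, hf1, hf2⟩ := exists_ord_neg_forall_pos v _ hvs
  have hf3 : ∀ x, 0 ≤ ((L.σ x) f).order := fun x =>
    (ord_placeOf_nonneg_iff L x f).mp
      (hf2 _ (Finset.mem_image_of_mem _ (Finset.mem_univ x))).le
  have := ord_nonneg_of_forall_order_nonneg L E hE hrank f hf3 v hv
  omega

include hE hrank in
theorem mem_image_placeOf_iff [Fintype X] [DecidableEq (Place K F)] (v : Place K F) :
    v ∈ Finset.univ.image (placeOf L) ↔ 0 < v.ord t := by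
  constructor
  · intro h
    obtain ⟨x, -, rfl⟩ := Finset.mem_image.mp h
    exact ord_t_pos L x
  · intro h
    obtain ⟨x, rfl⟩ := exists_placeOf_eq L E hE hrank v h
    exact Finset.mem_image_of_mem _ (Finset.mem_univ x)

include L hE hrank in
/-- The set of places over `t = 0` is finite. -/
theorem finite_places_over : {v : Place K F | 0 < v.ord t}.Finite := by
  classical
  haveI : Fintype X := Fintype.ofFinite X
  refine (Finset.univ.image (placeOf L)).finite_toSet.subset ?_
  intro v hv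
  exact (mem_image_placeOf_iff L E hE hrank v).mpr hv

include hE hrank in
/-- **LT3 (local theorem).**  Assume the fundamental inequality `#X ≤ ∑_{v | t} ord_v t`.
Then the places over `t = 0` are in bijection with the cycles of `perm`, the ramification index
of the place induced by `x` is the length of the cycle through `x`, and
`∑_{v | t} ord_v t = #X`. -/
theorem localThm (s : Finset (Place K F)) (hs : ∀ v, v ∈ s ↔ 0 < v.ord t)
    (hsum : (Nat.card X : ℤ) ≤ ∑ v ∈ s, v.ord t) :
    s.card = numOrbits L.perm ∧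
      (∀ x, (Nat.card (MulAction.orbit (Subgroup.zpowers L.perm) x) : ℤ) = (placeOf L x).ord t) ∧
      (∑ v ∈ s, v.ord t = Nat.card X) := by
  classical
  haveI : Fintype X := Fintype.ofFinite X
  have hs' : s = Finset.univ.image (placeOf L) := by
    ext v
    rw [hs, mem_image_placeOf_iff L E hE hrank]
  subst hs'
  have hcast : ∀ v ∈ Finset.univ.image (placeOf L), (((v.ord t).toNat : ℕ) : ℤ) = v.ord t := by
    intro v hv
    exact Int.toNat_of_nonneg ((hs v).mp hv).le
  have hsumNat : Fintype.card X ≤ ∑ v ∈ Finset.univ.image (placeOf L), (v.ord t).toNat := by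
    have : (Nat.card X : ℤ) ≤ ((∑ v ∈ Finset.univ.image (placeOf L), (v.ord t).toNat : ℕ) : ℤ) := by
      rw [Nat.cast_sum, Finset.sum_congr rfl hcast]
      exact hsum
    rw [Nat.card_eq_fintype_card] at this
    exact_mod_cast this
  obtain ⟨h1, h2, h3⟩ := orbit_count_squeeze L.perm (placeOf L) (fun v => (v.ord t).toNat)
    (placeOf_perm L)
    (fun x i hi => by
      have := ord_t_dvd_of_pow_apply_eq L x i hi
      have hpos := ord_t_pos L x
      exact Int.natCast_dvd_natCast.mp (by rwa [Int.toNat_of_nonneg hpos.le]))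
    hsumNat
  refine ⟨by rw [numOrbits, h1], fun x => ?_, ?_⟩
  · rw [h2 x]
    exact Int.toNat_of_nonneg (ord_t_pos L x).le
  · have : ((∑ v ∈ Finset.univ.image (placeOf L), (v.ord t).toNat : ℕ) : ℤ) = Fintype.card X := by
      exact_mod_cast h3
    rw [Nat.cast_sum, Finset.sum_congr rfl hcast] at this
    rw [this, Nat.card_eq_fintype_card]

end Fermat.Agent.S24.H117

end
end
-- ===== PACK-END S24/H117/LocalThm.lean

-- ===== PACK-BEGIN S29/H812/Fiber.lean
section


/-!
# S29 / H812 — the fibre of a place in a finite extension of function fields: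
adapted families, the coordinate lemma, linear independence and the fundamental inequality.
-/

set_option autoImplicit false

noncomputable section

open AlgebraicCurve

namespace Fermat.Agent.S29.H812

open Fermat.Agent.S24

section Single

variable {K F : Type*} [Field K] [Field F] [Algebra K F]

/-- An element with prescribed order `i` at `w` and order at least `B` at the places of `s`. -/
theorem exists_ord_eq_and_ge (w : Place K F) (s : Finset (Place K F)) (hw : w ∉ s) (i B : ℕ) :
    ∃ u : F, u ≠ 0 ∧ w.ord u = i ∧ (∀ w' ∈ s, (B : ℤ) ≤ w'.ord u) := by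
  obtain ⟨ε, hε0, -, hε1, -, hε2⟩ := exists_indicator w s hw
  obtain ⟨π, hπ0, hπ1⟩ := H117.exists_ord_eq_one w
  set T : ℕ := ∑ w' ∈ s, (w'.ord π).natAbs with hT
  set M : ℕ := B + i * T with hM
  have hπi : π ^ i ≠ 0 := pow_ne_zero _ hπ0
  have hεM : ε ^ M ≠ 0 := pow_ne_zero _ hε0
  refine ⟨π ^ i * ε ^ M, mul_ne_zero hπi hεM, ?_, ?_⟩
  · rw [w.ord_mul hπi hεM, H117.ord_pow, H117.ord_pow, hπ1, hε1]; ring
  · intro w' hw'
    rw [w'.ord_mul hπi hεM, H117.ord_pow, H117.ord_pow]
    have h1 : (1 : ℤ) ≤ w'.ord ε := (hε2 w' hw').1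
    have h2 : ((w'.ord π).natAbs : ℤ) ≤ (T : ℤ) := by
      have : (w'.ord π).natAbs ≤ T := Finset.single_le_sum (f := fun w' : Place K F =>
        (w'.ord π).natAbs) (fun _ _ => Nat.zero_le _) hw'
      exact_mod_cast this
    have h3 : -((w'.ord π).natAbs : ℤ) ≤ w'.ord π := by
      omega
    have h4 : (M : ℤ) ≤ (M : ℤ) * w'.ord ε := by
      have hM0 : (0 : ℤ) ≤ (M : ℤ) := Int.natCast_nonneg _
      nlinarith
    have h5 : -((i : ℤ) * (T : ℤ)) ≤ (i : ℤ) * w'.ord π := by
      have hi0 : (0 : ℤ) ≤ (i : ℤ) := Int.natCast_nonneg _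
      nlinarith
    have h6 : (M : ℤ) = B + i * T := by rw [hM]; push_cast; ring
    linarith

/-- A uniformiser at `w` which is a unit at all places of `s`. -/
theorem exists_ord_eq_one_and_zero (w : Place K F) (s : Finset (Place K F)) (hw : w ∉ s) :
    ∃ ϖ : F, ϖ ≠ 0 ∧ w.ord ϖ = 1 ∧ (∀ w' ∈ s, w'.ord ϖ = 0) := by
  obtain ⟨ε, hε0, hε0', hε1, hε1', hε2⟩ := exists_indicator w s hw
  obtain ⟨u, hu0, hu1, hu2⟩ := exists_ord_eq_and_ge w s hw 1 1
  have hsq : (1 - ε) ^ 2 ≠ 0 := pow_ne_zero _ hε0'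
  have hlt : w.ord u < w.ord ((1 - ε) ^ 2) := by
    rw [H117.ord_pow, hu1]; push_cast; omega
  have h1 : w.ord (u + (1 - ε) ^ 2) = w.ord u := H117.ord_add_eq_of_lt w hlt hu0
  have hne : u + (1 - ε) ^ 2 ≠ 0 := by
    intro h0
    rw [h0, w.ord_zero, hu1] at h1
    simp at h1
  refine ⟨u + (1 - ε) ^ 2, hne, by rw [h1, hu1]; rfl, ?_⟩
  intro w' hw'
  have hlt' : w'.ord ((1 - ε) ^ 2) < w'.ord u := by
    rw [H117.ord_pow, (hε2 w' hw').2]
    have := hu2 w' hw'
    push_cast at this ⊢
    omega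
  rw [add_comm, H117.ord_add_eq_of_lt w' hlt' hsq, H117.ord_pow, (hε2 w' hw').2]
  ring

end Single

section Relative

variable {K F F' : Type*} [Field K] [Field F] [Field F']
  [Algebra K F] [Algebra K F'] [Algebra F F'] [IsScalarTower K F F']
  [Algebra.IsIntegral F F']

/-- Order of a scalar multiple at a place above `v`. -/
theorem ord_smul_of_restrict {v : Place K F} {w : Place K F'} (hw : w.restrict F = v)
    {c : F} (hc : c ≠ 0) {u : F'} (hu : u ≠ 0) :
    w.ord (c • u) = (w.ramificationIndex F : ℤ) * v.ord c + w.ord u := by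
  rw [Algebra.smul_def, w.ord_mul (by simpa using hc) hu, w.ord_restrict, hw]

/-- **Coordinate lemma.**  Let `u a` (`a : ι`) be a family adapted to the places `wt a` above `v`:
`ord_{wt a} (u a) = idx a < e(wt a)` and `ord_{w'} (u a) ≥ e(w')` at the other places `w' = wt b`.
For a nonzero coefficient vector `c`, the combination `∑ c a • u a` is nonzero and, at a suitable
place `wt a₀`, has order `e · m + idx a₀` where `m = ord_v (c a₀)` is the minimum of the orders of
the nonzero coefficients. -/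
theorem coord_lemma (v : Place K F) {ι : Type*} [Fintype ι] (wt : ι → Place K F') (idx : ι → ℕ)
    (u : ι → F') (hfib : ∀ a, (wt a).restrict F = v)
    (hidx : ∀ a, idx a < (wt a).ramificationIndex F)
    (hu0 : ∀ a, u a ≠ 0) (hu1 : ∀ a, (wt a).ord (u a) = idx a)
    (hu2 : ∀ a b, wt b ≠ wt a → (((wt b).ramificationIndex F : ℕ) : ℤ) ≤ (wt b).ord (u a))
    (hinj : ∀ a b, wt a = wt b → idx a = idx b → a = b)
    (c : ι → F) (hc : ∃ a, c a ≠ 0) :
    ∃ a₀, c a₀ ≠ 0 ∧ (∀ a, c a ≠ 0 → v.ord (c a₀) ≤ v.ord (c a)) ∧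
      (∑ a, c a • u a) ≠ 0 ∧
      (wt a₀).ord (∑ a, c a • u a)
        = ((wt a₀).ramificationIndex F : ℤ) * v.ord (c a₀) + idx a₀ := by
  classical
  -- first minimisation: the order of the coefficient
  set S : Finset ι := Finset.univ.filter fun a => c a ≠ 0 with hS
  have hSne : S.Nonempty := by
    obtain ⟨a, ha⟩ := hc
    exact ⟨a, by simp [hS, ha]⟩
  obtain ⟨a₁, ha₁S, ha₁min⟩ := Finset.exists_min_image S (fun a => v.ord (c a)) hSne
  -- second minimisation: the index, among the minimal coefficients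
  set S' : Finset ι := S.filter fun a => v.ord (c a) = v.ord (c a₁) with hS'
  have hS'ne : S'.Nonempty := ⟨a₁, by simp [hS', ha₁S]⟩
  obtain ⟨a₀, ha₀S', ha₀min⟩ := Finset.exists_min_image S' idx hS'ne
  have ha₀S : a₀ ∈ S := (Finset.mem_filter.mp ha₀S').1
  have hc₀ : c a₀ ≠ 0 := (Finset.mem_filter.mp ha₀S).2
  have hm₀ : v.ord (c a₀) = v.ord (c a₁) := (Finset.mem_filter.mp ha₀S').2
  have hmin : ∀ a, c a ≠ 0 → v.ord (c a₀) ≤ v.ord (c a) := by
    intro a ha
    rw [hm₀]
    exact ha₁min a (by simp [hS, ha])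
  have hepos : 0 < (wt a₀).ramificationIndex F := (wt a₀).ramificationIndex_pos (F := F)
  have hterm₀ : c a₀ • u a₀ ≠ 0 := smul_ne_zero hc₀ (hu0 a₀)
  have hord₀ : (wt a₀).ord (c a₀ • u a₀)
      = ((wt a₀).ramificationIndex F : ℤ) * v.ord (c a₀) + idx a₀ := by
    rw [ord_smul_of_restrict (hfib a₀) hc₀ (hu0 a₀), hu1]
  have key := ord_sum_eq_of_lt (wt a₀) Finset.univ (fun a => c a • u a) a₀ (Finset.mem_univ _)
    hterm₀ (by
      intro a _ hne
      by_cases hca : c a = 0
      · left; simp [hca]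
      right
      rw [hord₀, ord_smul_of_restrict (hfib a₀) hca (hu0 a)]
      have hle := hmin a hca
      have hi₀ := hidx a₀
      have he : (0 : ℤ) < ((wt a₀).ramificationIndex F : ℤ) := by exact_mod_cast hepos
      by_cases hw : wt a = wt a₀
      · -- same place
        have hua : (wt a₀).ord (u a) = idx a := by rw [← hw, hu1]
        rw [hua]
        rcases eq_or_lt_of_le hle with heq | hlt
        · have haS' : a ∈ S' := by
            simp only [hS', hS, Finset.mem_filter, Finset.mem_univ, true_and]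
            exact ⟨hca, by rw [← heq, hm₀]⟩
          have h1 := ha₀min a haS'
          have h2 : idx a ≠ idx a₀ := fun h => hne (hinj a a₀ hw h)
          have h3 : idx a₀ < idx a := lt_of_le_of_ne h1 (Ne.symm h2)
          rw [← heq]
          have : ((idx a₀ : ℕ) : ℤ) < (idx a : ℤ) := by exact_mod_cast h3
          linarith
        · have h1 : ((wt a₀).ramificationIndex F : ℤ) * (v.ord (c a₀) + 1)
              ≤ ((wt a₀).ramificationIndex F : ℤ) * v.ord (c a) :=
            mul_le_mul_of_nonneg_left (by omega) he.le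
          have h2 : ((idx a₀ : ℕ) : ℤ) < ((wt a₀).ramificationIndex F : ℤ) := by
            exact_mod_cast hi₀
          have h3 : (0 : ℤ) ≤ (idx a : ℤ) := Int.natCast_nonneg _
          nlinarith
      · -- different place
        have hua := hu2 a a₀ (fun h => hw h.symm)
        have h1 : ((wt a₀).ramificationIndex F : ℤ) * v.ord (c a₀)
              ≤ ((wt a₀).ramificationIndex F : ℤ) * v.ord (c a) :=
            mul_le_mul_of_nonneg_left hle he.le
        have h2 : ((idx a₀ : ℕ) : ℤ) < ((wt a₀).ramificationIndex F : ℤ) := by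
            exact_mod_cast hi₀
        linarith)
  exact ⟨a₀, hc₀, hmin, key.1, by rw [key.2, hord₀]⟩

end Relative

end Fermat.Agent.S29.H812

end
end
-- ===== PACK-END S29/H812/Fiber.lean

-- ===== PACK-BEGIN S28/H867/Prime.lean
section



set_option autoImplicit false
noncomputable section
open ModularCurve HahnSeries IntermediateField Polynomial

namespace Fermat.Agent.S28.H867

section Prime

variable (k : Type*) [Field k]

theorem jq_mem_jField : jqModC k ∈ jField k := mem_adjoin_simple_self k _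

theorem jp_mem_jpField (p : ℕ) [NeZero p] : jp k p ∈ jpField k p := mem_adjoin_simple_self k _

theorem jpField_le_fieldRange (p : ℕ) [NeZero p] :
    jpField k p ≤ (qExpandAlgHomC k p).fieldRange := by
  rw [jpField, adjoin_simple_le_iff]
  exact ⟨jqModC k, rfl⟩

theorem qExpand_injective' (p : ℕ) [NeZero p] : Function.Injective (qExpand k p) :=
  (qExpand k p).injective

/-- natDegree of the minimal polynomial of `j` over a subfield of `range V_p` is `≥ p`. -/
theorem le_natDegree_minpoly {p : ℕ} [NeZero p] (hI : LeafI k p)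
    (B : IntermediateField k (LaurentSeries k)) (hB : B ≤ (qExpandAlgHomC k p).fieldRange)
    (hint : IsIntegral B (jqModC k)) : p ≤ (minpoly B (jqModC k)).natDegree := by
  rw [← relfinrank_sup_adjoin_simple B hint]
  refine le_relfinrank_of_linearIndependent le_sup_left ?_ _ ?_ (hI B hB)
  · rw [relfinrank_sup_adjoin_simple B hint]
    exact (minpoly.natDegree_pos hint).ne'
  · intro i
    exact pow_mem ((le_sup_right : adjoin k {jqModC k} ≤ _) (mem_adjoin_simple_self k _)) _

theorem primeLevel_of_leaves {p : ℕ} [NeZero p] (hp : p.Prime) (D : ModPolyData p)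
    (hI : LeafI k p) (hB1 : LeafB1 k p) : PrimeLevel k p := by
  set j := jqModC k with hj
  set A := jpField k p with hA
  set R := (qExpandAlgHomC k p).fieldRange with hR
  have hAR : A ≤ R := jpField_le_fieldRange k p
  let y : A := ⟨jp k p, jp_mem_jpField k p⟩
  set ΦA := polyOver A y D.Φ with hΦA
  have hΦmonic : ΦA.Monic := polyOver_monic A y D.monic
  have hΦdeg : ΦA.natDegree = p + 1 := by
    rw [hΦA, polyOver_natDegree A y D.monic, D.natDegree_eq]
  have hΦj : Polynomial.aeval j ΦA = 0 := by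
    rw [hΦA, aeval_polyOver]; exact modPoly_eval_j_field k D
  have hΦjpp : Polynomial.aeval (qExpand k p (jp k p)) ΦA = 0 := by
    rw [hΦA, aeval_polyOver]
    exact eval₂_evalAt_qExpand p D.Φ _ _ (modPoly_eval_jp_field k D)
  have hint : IsIntegral A j := ⟨ΦA, hΦmonic, by rwa [Polynomial.aeval_def] at hΦj⟩
  set m := minpoly A j with hm
  have hmdvd : m ∣ ΦA := minpoly.dvd A j hΦj
  have hmmonic : m.Monic := minpoly.monic hint
  have hmle : m.natDegree ≤ p + 1 := by
    rw [← hΦdeg]
    exact Polynomial.natDegree_le_of_dvd hmdvd hΦmonic.ne_zero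
  have hmge : p ≤ m.natDegree := le_natDegree_minpoly k hI A hAR hint
  -- the key step: the degree is not `p`
  have hmne : m.natDegree ≠ p := by
    intro hmp
    obtain ⟨c, hc⟩ := hmdvd
    have hcmonic : c.Monic := hmmonic.of_mul_monic_left (hc ▸ hΦmonic)
    have hcdeg : c.natDegree = 1 := by
      have := congrArg Polynomial.natDegree hc
      rw [hmmonic.natDegree_mul hcmonic, hΦdeg, hmp] at this
      omega
    have hroot : Polynomial.aeval (qExpand k p (jp k p)) m *
        Polynomial.aeval (qExpand k p (jp k p)) c = 0 := by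
      rw [← map_mul, ← hc, hΦjpp]
    rcases mul_eq_zero.mp hroot with h0 | h0
    · -- `j_{p²}` is a root of `m`, but `m` is irreducible of degree `p ≥ 2` over `R`
      set incl : A →+* R := (IntermediateField.inclusion hAR).toRingHom with hincl
      have hcomp : (algebraMap R (LaurentSeries k)).comp incl = algebraMap A (LaurentSeries k) :=
        rfl
      set m' := m.map incl with hm'
      have hm'monic : m'.Monic := hmmonic.map _
      have hm'deg : m'.natDegree = p := by rw [hm', hmmonic.natDegree_map, hmp]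
      have hm'eval : ∀ x : LaurentSeries k, Polynomial.aeval x m' = Polynomial.aeval x m := by
        intro x
        rw [hm', Polynomial.aeval_def, Polynomial.eval₂_map, hcomp, ← Polynomial.aeval_def]
      have hintR : IsIntegral R j := by
        refine ⟨m', hm'monic, ?_⟩
        rw [← Polynomial.aeval_def, hm'eval]
        exact minpoly.aeval A j
      have hdvd : minpoly R j ∣ m' := minpoly.dvd R j (by rw [hm'eval]; exact minpoly.aeval A j)
      have hge : p ≤ (minpoly R j).natDegree := le_natDegree_minpoly k hI R le_rfl hintR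
      have heq : m' = minpoly R j :=
        Polynomial.eq_of_monic_of_dvd_of_natDegree_le (minpoly.monic hintR) hm'monic hdvd
          (by rw [hm'deg]; exact hge)
      have hirr : Irreducible m' := heq ▸ minpoly.irreducible hintR
      let r : R := ⟨qExpand k p (jp k p), ⟨jp k p, rfl⟩⟩
      have hr : m'.IsRoot r := by
        have h1 : Polynomial.aeval (algebraMap R (LaurentSeries k) r) m' = 0 := by
          rw [hm'eval]; exact h0
        rw [Polynomial.aeval_algebraMap_apply] at h1
        have h3 : Polynomial.aeval r m' = 0 :=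
          (algebraMap R (LaurentSeries k)).injective (by rw [h1, map_zero])
        simpa [Polynomial.IsRoot] using h3
      have hdeg1 := Polynomial.degree_eq_one_of_irreducible_of_root hirr hr
      have : m'.natDegree = 1 := Polynomial.natDegree_eq_of_degree_eq_some hdeg1
      have h2 := hp.two_le
      omega
    · -- `j_{p²} ∈ A`, hence `j_p ∈ k(j)`
      have hc' : c = Polynomial.X + Polynomial.C (c.coeff 0) :=
        hcmonic.eq_X_add_C hcdeg
      rw [hc'] at h0
      simp only [map_add, Polynomial.aeval_X, Polynomial.aeval_C] at h0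
      have hmem : qExpand k p (jp k p) ∈ A := by
        have : qExpand k p (jp k p) = -(algebraMap A (LaurentSeries k) (c.coeff 0)) :=
          eq_neg_of_add_eq_zero_left h0
        rw [this]
        exact neg_mem (c.coeff 0).2
      rw [hA, jpField_eq_map] at hmem
      obtain ⟨x, hx, hxe⟩ := hmem
      have : x = jp k p := qExpand_injective' k p hxe
      exact hB1 (this ▸ hx)
  have hmdeg : m.natDegree = p + 1 := by omega
  have hmΦ : ΦA = m :=
    Polynomial.eq_of_monic_of_dvd_of_natDegree_le hmmonic hΦmonic hmdvd (by rw [hΦdeg, hmdeg])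
  have hdeg_jp : A.relfinrank (jField k ⊔ A) = p + 1 := by
    rw [sup_comm, jField, relfinrank_sup_adjoin_simple A hint, ← hm, hmdeg]
  refine ⟨?_, hdeg_jp⟩
  -- transport along `V_p`
  set x := qExpand k p (jp k p) with hx
  have hintx : IsIntegral A x := ⟨ΦA, hΦmonic, by rwa [Polynomial.aeval_def] at hΦjpp⟩
  have hirr : Irreducible ΦA := hmΦ ▸ minpoly.irreducible hint
  have hminx : ΦA = minpoly A x := minpoly.eq_of_irreducible_of_monic hirr hΦjpp hΦmonic
  have h1 : A.relfinrank (A ⊔ adjoin k {x}) = p + 1 := by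
    rw [relfinrank_sup_adjoin_simple A hintx, ← hminx, hΦdeg]
  have h2 : A ⊔ adjoin k {x} = (jField k ⊔ jpField k p).map (qExpandAlgHomC k p) := by
    rw [IntermediateField.map_sup, ← jpField_eq_map, jpField, adjoin_map, Set.image_singleton]
    rfl
  rw [h2, hA, jpField_eq_map, relfinrank_map_map] at h1
  rw [jpField_eq_map]
  exact h1

end Prime

end Fermat.Agent.S28.H867

end
end
-- ===== PACK-END S28/H867/Prime.lean

-- ===== PACK-BEGIN S28/H807/Points.lean
section
/-
S28 / helper807 — the points `(τ+b)/p` and `pτ` of the upper half plane, the nome `q(τ)`,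
and `q`-expansions of functions on `ℍ`.
-/



set_option autoImplicit false
set_option maxHeartbeats 400000

noncomputable section

open ModularCurve Polynomial Matrix UpperHalfPlane Complex

namespace Fermat.Agent.S28.H807

/-- The nome `q(τ) = exp(2πiτ)`. -/
def nome (τ : ℍ) : ℂ := Complex.exp (2 * Real.pi * Complex.I * (τ : ℂ))

theorem nome_ne_zero (τ : ℍ) : nome τ ≠ 0 := Complex.exp_ne_zero _

theorem nome_eq_qParam (τ : ℍ) : nome τ = Function.Periodic.qParam 1 (τ : ℂ) := by
  simp [nome, Function.Periodic.qParam]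

/-- `f` has the (everywhere convergent) `q`-expansion `c`. -/
def HasQExp (c : LaurentSeries ℂ) (F : ℍ → ℂ) : Prop :=
  ∀ τ : ℍ, HasLSum c (nome τ) (F τ)

theorem hasQExp_iff (c : LaurentSeries ℂ) (F : ℍ → ℂ) :
    HasQExp c F ↔ ∀ τ : ℍ, HasSum (fun n : ℤ => c.coeff n *
      (Function.Periodic.qParam 1 (τ : ℂ)) ^ n) (F τ) := by
  unfold HasQExp HasLSum
  simp only [nome_eq_qParam]

/-- The point `(τ + b)/p`. -/
def divShift (p : ℕ) [NeZero p] (b : ℤ) (τ : ℍ) : ℍ :=
  ⟨((τ : ℂ) + (b : ℂ)) / (p : ℂ), by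
    have hp : (0 : ℝ) < (p : ℝ) := by exact_mod_cast Nat.pos_of_ne_zero (NeZero.ne p)
    have h1 : (((τ : ℂ) + (b : ℂ)) / (p : ℂ)).im = (τ : ℂ).im / (p : ℝ) := by
      rw [show ((p : ℂ)) = ((p : ℝ) : ℂ) by push_cast; rfl, Complex.div_ofReal_im]
      simp
    rw [h1]
    exact div_pos τ.im_pos hp⟩

/-- The point `pτ`. -/
def mulNat (p : ℕ) [NeZero p] (τ : ℍ) : ℍ :=
  ⟨(p : ℂ) * (τ : ℂ), by
    have hp : (0 : ℝ) < (p : ℝ) := by exact_mod_cast Nat.pos_of_ne_zero (NeZero.ne p)
    have h1 : ((p : ℂ) * (τ : ℂ)).im = (p : ℝ) * (τ : ℂ).im := by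
      rw [show ((p : ℂ)) = ((p : ℝ) : ℂ) by push_cast; rfl, Complex.im_ofReal_mul]
    rw [h1]
    exact mul_pos hp τ.im_pos⟩

@[simp] theorem coe_divShift (p : ℕ) [NeZero p] (b : ℤ) (τ : ℍ) :
    ((divShift p b τ : ℍ) : ℂ) = ((τ : ℂ) + (b : ℂ)) / (p : ℂ) := rfl

@[simp] theorem coe_mulNat (p : ℕ) [NeZero p] (τ : ℍ) :
    ((mulNat p τ : ℍ) : ℂ) = (p : ℂ) * (τ : ℂ) := rfl

theorem nome_mulNat (p : ℕ) [NeZero p] (τ : ℍ) : nome (mulNat p τ) = nome τ ^ p := by
  unfold nome
  rw [← Complex.exp_nat_mul, coe_mulNat]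
  congr 1; ring

theorem nome_divShift_pow (p : ℕ) [NeZero p] (b : ℤ) (τ : ℍ) :
    nome (divShift p b τ) ^ p = nome τ := by
  have hp : (p : ℂ) ≠ 0 := by exact_mod_cast NeZero.ne p
  unfold nome
  rw [← Complex.exp_nat_mul, coe_divShift]
  have : (p : ℂ) * (2 * Real.pi * Complex.I * (((τ : ℂ) + (b : ℂ)) / (p : ℂ)))
      = 2 * Real.pi * Complex.I * (τ : ℂ) + (b : ℂ) * (2 * Real.pi * Complex.I) := by
    field_simp
  rw [this, Complex.exp_add, Complex.exp_int_mul_two_pi_mul_I, mul_one]

theorem nome_divShift_injective (p : ℕ) [NeZero p] (τ : ℍ) :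
    Function.Injective (fun b : Fin p => nome (divShift p ((b : ℕ) : ℤ) τ)) := by
  have hp : (p : ℂ) ≠ 0 := by exact_mod_cast NeZero.ne p
  intro b b' h
  simp only [nome] at h
  rw [Complex.exp_eq_exp_iff_exists_int] at h
  obtain ⟨n, hn⟩ := h
  simp only [coe_divShift] at hn
  have hpi : (2 * Real.pi * Complex.I : ℂ) ≠ 0 := by
    simp [Real.pi_ne_zero]
  have h1 : ((τ : ℂ) + ((b : ℕ) : ℤ)) / (p : ℂ) = ((τ : ℂ) + ((b' : ℕ) : ℤ)) / (p : ℂ) + n := by
    have := hn
    have h2 : 2 * Real.pi * Complex.I * (((τ : ℂ) + ((b : ℕ) : ℤ)) / (p : ℂ))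
        = 2 * Real.pi * Complex.I * (((τ : ℂ) + ((b' : ℕ) : ℤ)) / (p : ℂ) + n) := by
      rw [this]; ring
    exact mul_left_cancel₀ hpi h2
  have h3 : (((b : ℕ) : ℤ) : ℂ) = (((b' : ℕ) : ℤ) : ℂ) + (n : ℂ) * (p : ℂ) := by
    field_simp at h1
    linear_combination h1
  have h4 : ((b : ℕ) : ℤ) = ((b' : ℕ) : ℤ) + n * (p : ℤ) := by exact_mod_cast h3
  have hb := b.2
  have hb' := b'.2
  have hn0 : n = 0 := by
    by_contra hne
    rcases lt_or_gt_of_ne hne with hlt | hgt
    · have : n ≤ -1 := by omega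
      have : n * (p : ℤ) ≤ -1 * (p : ℤ) := by
        apply mul_le_mul_of_nonneg_right this; positivity
      omega
    · have : 1 ≤ n := by omega
      have : 1 * (p : ℤ) ≤ n * (p : ℤ) := by
        apply mul_le_mul_of_nonneg_right this; positivity
      omega
  rw [hn0] at h4
  apply Fin.ext
  omega

/-- **Generic analytic theorem**: the coefficients of `(X - e)·charpoly(secMat p g)` have
convergent `q`-expansions, with values the coefficients of
`(X - E(τ)) ∏_b (X - G((τ+b)/p))`. -/
theorem hasQExp_coeff_mul_charpoly (p : ℕ) [NeZero p] (g e : LaurentSeries ℂ) (G E : ℍ → ℂ)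
    (hG : HasQExp g G) (hE : HasQExp e E) (k : ℕ) :
    HasQExp (((X - C e) * (secMat p g).charpoly).coeff k)
      (fun τ => ((X - C (E τ)) *
        ∏ b : Fin p, (X - C (G (divShift p ((b : ℕ) : ℤ) τ)))).coeff k) := by
  intro τ
  exact hasLSum_coeff_mul_charpoly g e (nome τ)
    (fun b : Fin p => nome (divShift p ((b : ℕ) : ℤ) τ))
    (fun b => nome_ne_zero _) (fun b => nome_divShift_pow p _ τ)
    (nome_divShift_injective p τ)
    (fun b => G (divShift p ((b : ℕ) : ℤ) τ)) (fun b => hG _) (E τ) (hE τ) k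

/-- `q`-expansion of `τ ↦ F(pτ)`. -/
theorem HasQExp.mulNat {c : LaurentSeries ℂ} {F : ℍ → ℂ} (h : HasQExp c F) (p : ℕ) [NeZero p] :
    HasQExp (ModularCurve.qExpand ℂ p c) (fun τ => F (mulNat p τ)) := by
  intro τ
  apply HasLSum.expand
  rw [← nome_mulNat]
  exact h _

theorem HasQExp.mul {c d : LaurentSeries ℂ} {F G : ℍ → ℂ} (h1 : HasQExp c F)
    (h2 : HasQExp d G) : HasQExp (c * d) (fun τ => F τ * G τ) :=
  fun τ => (h1 τ).mul (nome_ne_zero τ) (h2 τ)

theorem HasQExp.add {c d : LaurentSeries ℂ} {F G : ℍ → ℂ} (h1 : HasQExp c F)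
    (h2 : HasQExp d G) : HasQExp (c + d) (fun τ => F τ + G τ) :=
  fun τ => (h1 τ).add (h2 τ)

theorem hasQExp_C (a : ℂ) : HasQExp (HahnSeries.C a) (fun _ => a) :=
  fun _ => hasLSum_C _ a

theorem HasQExp.unique {c : LaurentSeries ℂ} {F G : ℍ → ℂ} (h1 : HasQExp c F)
    (h2 : HasQExp c G) : F = G :=
  funext fun τ => (h1 τ).unique (h2 τ)

end Fermat.Agent.S28.H807

end

end
-- ===== PACK-END S28/H807/Points.lean

-- ===== PACK-BEGIN S28/H807/SAction.lean
section
/-
S28 / helper807 — the action of `S : τ ↦ -1/τ` on the `p+1` conjugates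
`{E(τ)} ∪ {G((τ+b)/p) : b < p}`: abstract permutation lemma + the point identities in `ℍ`.
-/



set_option autoImplicit false
set_option maxHeartbeats 400000

noncomputable section

open ModularCurve Polynomial Matrix UpperHalfPlane Complex
open scoped MatrixGroups

namespace Fermat.Agent.S28.H807

section Perm

variable (p : ℕ) [Fact p.Prime]

/-- `b ↦ -1/b` on nonzero residues, on representatives in `Fin p`. -/
def negInvFin (b : Fin p) : Fin p :=
  ⟨(-((b : ℕ) : ZMod p)⁻¹).val, ZMod.val_lt _⟩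

theorem negInvFin_cast (b : Fin p) :
    (((negInvFin p b : Fin p) : ℕ) : ZMod p) = -((b : ℕ) : ZMod p)⁻¹ := by
  simp [negInvFin]

theorem cast_ne_zero_of_ne_zero {b : Fin p} (hb : (b : ℕ) ≠ 0) : (((b : ℕ) : ZMod p)) ≠ 0 := by
  intro h
  rw [ZMod.natCast_eq_zero_iff] at h
  have := Nat.le_of_dvd (Nat.pos_of_ne_zero hb) h
  exact absurd b.2 (not_lt.mpr this)

theorem negInvFin_ne_zero {b : Fin p} (hb : (b : ℕ) ≠ 0) : ((negInvFin p b : Fin p) : ℕ) ≠ 0 := by
  intro h
  have h1 := negInvFin_cast p b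
  rw [h] at h1
  simp only [Nat.cast_zero] at h1
  have h2 : (((b : ℕ) : ZMod p))⁻¹ = 0 := by
    have := h1.symm
    rwa [neg_eq_zero] at this
  rw [inv_eq_zero] at h2
  exact cast_ne_zero_of_ne_zero p hb h2

theorem negInvFin_negInvFin {b : Fin p} (_hb : (b : ℕ) ≠ 0) :
    negInvFin p (negInvFin p b) = b := by
  apply Fin.ext
  show (-(((negInvFin p b : Fin p) : ℕ) : ZMod p)⁻¹).val = (b : ℕ)
  rw [negInvFin_cast, inv_neg, neg_neg, inv_inv, ZMod.val_natCast_of_lt b.2]

theorem dvd_mul_negInvFin_add_one {b : Fin p} (hb : (b : ℕ) ≠ 0) :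
    (p : ℤ) ∣ ((b : ℕ) : ℤ) * (((negInvFin p b : Fin p) : ℕ) : ℤ) + 1 := by
  have h1 : ((((b : ℕ) : ℤ) * (((negInvFin p b : Fin p) : ℕ) : ℤ) + 1 : ℤ) : ZMod p) = 0 := by
    push_cast
    rw [negInvFin_cast, mul_neg, mul_inv_cancel₀ (cast_ne_zero_of_ne_zero p hb)]
    ring
  exact (ZMod.intCast_zmod_eq_zero_iff_dvd _ p).mp h1

/-- The permutation of `P¹(𝔽_p) = Option (Fin p)` induced by `S`. -/
def sPermFun : Option (Fin p) → Option (Fin p)
  | none => some ⟨0, (Fact.out : p.Prime).pos⟩
  | some b => if (b : ℕ) = 0 then none else some (negInvFin p b)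

theorem sPermFun_involutive : Function.Involutive (sPermFun p) := by
  intro i
  cases i with
  | none => simp [sPermFun]
  | some b =>
    by_cases hb : (b : ℕ) = 0
    · simp only [sPermFun, hb, if_true]
      congr 1
      exact Fin.ext hb.symm
    · simp only [sPermFun, hb, if_false, negInvFin_ne_zero p hb]
      rw [negInvFin_negInvFin p hb]

/-- **Abstract `S`-invariance**: if the conjugates at `τ'` are obtained from those at `τ` by
the permutation `sPermFun`, the two products agree. -/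
theorem prod_conj_eq_of_perm (E E' : ℂ) (G G' : Fin p → ℂ)
    (ha : E' = G ⟨0, (Fact.out : p.Prime).pos⟩)
    (hb : G' ⟨0, (Fact.out : p.Prime).pos⟩ = E)
    (hc : ∀ b : Fin p, (b : ℕ) ≠ 0 → G' b = G (negInvFin p b)) :
    (X - C E') * ∏ b : Fin p, (X - C (G' b)) = (X - C E) * ∏ b : Fin p, (X - C (G b)) := by
  set f : Option (Fin p) → ℂ := fun i => Option.elim i E G with hf
  set f' : Option (Fin p) → ℂ := fun i => Option.elim i E' G' with hf'
  have h1 : (X - C E) * ∏ b : Fin p, (X - C (G b)) = ∏ i : Option (Fin p), (X - C (f i)) := by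
    rw [Fintype.prod_option]; rfl
  have h2 : (X - C E') * ∏ b : Fin p, (X - C (G' b)) = ∏ i : Option (Fin p), (X - C (f' i)) := by
    rw [Fintype.prod_option]; rfl
  have h3 : ∀ i, f' i = f (sPermFun p i) := by
    intro i
    cases i with
    | none => simp [hf, hf', sPermFun, ha]
    | some b =>
      by_cases hb0 : (b : ℕ) = 0
      · have hb1 : b = ⟨0, (Fact.out : p.Prime).pos⟩ := Fin.ext hb0
        subst hb1
        show G' ⟨0, (Fact.out : p.Prime).pos⟩ = f (sPermFun p (some ⟨0, (Fact.out : p.Prime).pos⟩))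
        rw [hb]
        simp [hf, sPermFun]
      · simp [hf, hf', sPermFun, hb0, hc b hb0]
  rw [h1, h2]
  rw [← Equiv.prod_comp ((sPermFun_involutive p).toPerm _) (fun i => (X - C (f i)))]
  apply Finset.prod_congr rfl
  intro i _
  rw [h3 i]
  rfl

end Perm

section PointIdentities

variable (p : ℕ) [NeZero p]

theorem mulNat_S_smul (τ : ℍ) :
    mulNat p (ModularGroup.S • τ) = ModularGroup.S • divShift p 0 τ := by
  have hp : (p : ℂ) ≠ 0 := by exact_mod_cast NeZero.ne p
  have hτ : (τ : ℂ) ≠ 0 := ne_zero τ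
  apply UpperHalfPlane.ext
  rw [modular_S_smul, modular_S_smul]
  simp only [coe_mulNat, coe_divShift, Int.cast_zero, add_zero]
  field_simp

theorem divShift_zero_S_smul (τ : ℍ) :
    divShift p 0 (ModularGroup.S • τ) = ModularGroup.S • mulNat p τ := by
  have hp : (p : ℂ) ≠ 0 := by exact_mod_cast NeZero.ne p
  have hτ : (τ : ℂ) ≠ 0 := ne_zero τ
  apply UpperHalfPlane.ext
  rw [modular_S_smul, modular_S_smul]
  simp only [coe_mulNat, coe_divShift, Int.cast_zero, add_zero]
  field_simp

theorem mulNat_divShift (b : ℤ) (τ : ℍ) :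
    mulNat p (divShift p b τ) = ModularGroup.T ^ b • τ := by
  have hp : (p : ℂ) ≠ 0 := by exact_mod_cast NeZero.ne p
  apply UpperHalfPlane.ext
  rw [modular_T_zpow_smul]
  simp only [coe_mulNat, coe_divShift, UpperHalfPlane.coe_vadd]
  field_simp
  push_cast
  ring

/-- The matrix `[[B, -k], [p, -B']]` with `B B' + 1 = p k`. -/
def conjMat (B B' k : ℤ) (h : B * B' + 1 = (p : ℤ) * k) : SL(2, ℤ) :=
  ⟨!![B, -k; (p : ℤ), -B'], by
    rw [Matrix.det_fin_two_of]
    linarith⟩

theorem conjMat_smul (B B' k : ℤ) (h : B * B' + 1 = (p : ℤ) * k) (τ : ℍ) :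
    conjMat p B B' k h • divShift p B' τ = divShift p B (ModularGroup.S • τ) := by
  have hp : (p : ℂ) ≠ 0 := by exact_mod_cast NeZero.ne p
  have hτ : (τ : ℂ) ≠ 0 := ne_zero τ
  have hk : (B : ℂ) * (B' : ℂ) + 1 = (p : ℂ) * (k : ℂ) := by exact_mod_cast h
  apply UpperHalfPlane.ext
  rw [coe_specialLinearGroup_apply, modular_S_smul]
  simp only [coe_divShift, conjMat]
  simp only [Matrix.of_apply, Matrix.cons_val',
    Matrix.cons_val_zero, Matrix.cons_val_one, Matrix.cons_val_fin_one, algebraMap_int_eq,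
    eq_intCast, Int.cast_neg, Int.cast_natCast, Complex.ofReal_intCast, Complex.ofReal_neg,
    Complex.ofReal_natCast]
  have hden : (p : ℂ) * (((τ : ℂ) + (B' : ℂ)) / (p : ℂ)) + -(B' : ℂ) = (τ : ℂ) := by
    field_simp; ring
  rw [hden]
  field_simp
  linear_combination hk

theorem denom_conjMat (B B' k : ℤ) (h : B * B' + 1 = (p : ℤ) * k) (τ : ℍ) :
    denom (conjMat p B B' k h) (divShift p B' τ) = (τ : ℂ) := by
  have hp : (p : ℂ) ≠ 0 := by exact_mod_cast NeZero.ne p
  rw [ModularGroup.denom_apply]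
  simp only [coe_divShift, conjMat]
  simp only [Matrix.of_apply, Matrix.cons_val',
    Matrix.cons_val_zero, Matrix.cons_val_one, Matrix.cons_val_fin_one]
  push_cast
  field_simp
  ring

end PointIdentities

end Fermat.Agent.S28.H807

end

end
-- ===== PACK-END S28/H807/SAction.lean

-- ===== PACK-BEGIN Lib/RR/Zeros.lean
section



/-!
# RR library, layer L2: the zeros of `x` number at most `[F : K(x)]`  (Stichtenoth 1.3.3)

Proof.  Let `P_1, …, P_r` be distinct zeros of `x`, `e_i = ord_{P_i} x`.  Choose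
uniformizers `t_i` at `P_i` and (approximation) `s_i` with `ord_{P_i} s_i = 0` and
`ord_{P_k} s_i ≥ M` for `k ≠ i`, `M` large.  The `∑ e_i` elements `t_i ^ a * s_i`
(`0 ≤ a < e_i`) are linearly independent over `K(x)`: the order of a nonzero element of `K(x)`
at `P_i` is `n * e_i` with `n` independent of `i`; in a nontrivial relation pick the term with
lexicographically least `(n, a)`; at its place it has strictly smaller order than all others.
-/

set_option autoImplicit false

noncomputable section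

open AlgebraicCurve Polynomial

namespace Fermat.Agent.Lib.RR

variable {K F : Type*} [Field K] [Field F] [Algebra K F]

theorem add_ne_zero_of_ord_lt (v : Place K F) {f g : F}
    (h : v.ord f < v.ord g) : f + g ≠ 0 := by
  intro h0
  have : g = -f := by rw [← sub_eq_zero, sub_neg_eq_add, add_comm]; exact h0
  rw [this, ord_neg] at h
  exact lt_irrefl _ h

theorem aeval_mem (v : Place K F) {x : F} (hx : 0 ≤ v.ord x) (p : K[X]) :
    aeval x p ∈ v.toValuationSubring := by
  induction p using Polynomial.induction_on' with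
  | add p q hp hq => rw [map_add]; exact add_mem hp hq
  | monomial n c =>
    rw [aeval_monomial]
    exact mul_mem (v.algebraMap_mem' c) (pow_mem (mem_of_ord_nonneg v hx) n)

/-- A polynomial in `x` with nonzero constant term is a unit at every zero of `x`. -/
theorem aeval_of_coeff_zero_ne (v : Place K F) {x : F} (hx : 0 < v.ord x) {p : K[X]}
    (hp : p.coeff 0 ≠ 0) : aeval x p ≠ 0 ∧ v.ord (aeval x p) = 0 := by
  have hdecomp : aeval x p = algebraMap K F (p.coeff 0) + aeval x p.divX * x := by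
    conv_lhs => rw [← Polynomial.divX_mul_X_add p]
    simp [add_comm]
  have hc0 : algebraMap K F (p.coeff 0) ≠ 0 := by
    simpa using hp
  have hc : v.ord (algebraMap K F (p.coeff 0)) = 0 := ord_algebraMap v _
  rcases eq_or_ne (aeval x p.divX * x) 0 with h0 | h0
  · rw [hdecomp, h0, add_zero]; exact ⟨hc0, hc⟩
  · have hx0 : x ≠ 0 := right_ne_zero_of_mul h0
    have hr0 : aeval x p.divX ≠ 0 := left_ne_zero_of_mul h0
    have hr : 0 ≤ v.ord (aeval x p.divX) := ord_nonneg_of_mem v (aeval_mem v hx.le _)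
    have hlt : v.ord (algebraMap K F (p.coeff 0)) < v.ord (aeval x p.divX * x) := by
      rw [hc, v.ord_mul hr0 hx0]; omega
    rw [hdecomp]
    exact ⟨add_ne_zero_of_ord_lt v hlt, by rw [ord_add_eq_of_lt v hc0 h0 hlt, hc]⟩

/-- The order of a nonzero polynomial in `x` at a zero of `x`. -/
theorem aeval_ord (v : Place K F) {x : F} (hx : 0 < v.ord x) {p : K[X]} (hp : p ≠ 0) :
    aeval x p ≠ 0 ∧ v.ord (aeval x p) = (p.rootMultiplicity 0 : ℤ) * v.ord x := by
  obtain ⟨q, hq, hq'⟩ := Polynomial.exists_eq_pow_rootMultiplicity_mul_and_not_dvd p hp 0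
  have hq0 : q.coeff 0 ≠ 0 := by
    intro h; apply hq'
    rw [C_0, sub_zero]; exact Polynomial.X_dvd_iff.mpr h
  obtain ⟨h1, h2⟩ := aeval_of_coeff_zero_ne v hx hq0
  have hx0 : x ≠ 0 := ne_zero_of_ord_ne_zero v hx.ne'
  have hval : aeval x p = x ^ (p.rootMultiplicity 0) * aeval x q := by
    conv_lhs => rw [hq]
    simp
  rw [hval]
  refine ⟨mul_ne_zero (pow_ne_zero _ hx0) h1, ?_⟩
  rw [v.ord_mul (pow_ne_zero _ hx0) h1, ord_pow, h2, add_zero]

/-- **Lemma A**: the order of a nonzero element of `K(x)` at a zero `v` of `x` is a multiple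
`n * ord_v x`, with `n` independent of `v`. -/
theorem exists_ord_eq_mul {x : F} (c : IntermediateField.adjoin K {x}) (hc : c ≠ 0) :
    ∃ n : ℤ, ∀ v : Place K F, 0 < v.ord x → v.ord (c : F) = n * v.ord x := by
  obtain ⟨r, s, hrs⟩ := (IntermediateField.mem_adjoin_simple_iff K (c : F)).mp c.2
  have hcF : (c : F) ≠ 0 := by simpa using hc
  have hr : r ≠ 0 := by
    rintro rfl; apply hcF; rw [hrs]; simp
  have hs : s ≠ 0 := by
    rintro rfl; apply hcF; rw [hrs]; simp
  refine ⟨(r.rootMultiplicity 0 : ℤ) - (s.rootMultiplicity 0 : ℤ), fun v hv => ?_⟩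
  obtain ⟨hr1, hr2⟩ := aeval_ord v hv hr
  obtain ⟨hs1, hs2⟩ := aeval_ord v hv hs
  rw [hrs, div_eq_mul_inv, v.ord_mul hr1 (inv_ne_zero hs1), v.ord_inv, hr2, hs2]
  ring


/-- **L2** (zeros): the zeros of `x`, counted with multiplicity, number at most `[F : K(x)]`. -/
theorem sum_ord_le_finrank (hdeg : ∀ v : Place K F, v.deg = 1) (x : F)
    [FiniteDimensional (IntermediateField.adjoin K {x}) F]
    (S : Finset (Place K F)) (hS : ∀ v ∈ S, 0 < v.ord x) :
    ∑ v ∈ S, v.ord x ≤ (Module.finrank (IntermediateField.adjoin K {x}) F : ℤ) := by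
  classical
  have _ := hdeg
  -- multiplicities
  set e : Place K F → ℕ := fun v => (v.ord x).toNat with he
  have he_cast : ∀ v ∈ S, (e v : ℤ) = v.ord x := fun v hv =>
    Int.toNat_of_nonneg (hS v hv).le
  -- uniformizers
  choose t ht using fun v : Place K F => exists_ord_eq_one v
  have ht0 : ∀ v, t v ≠ 0 := fun v => ne_zero_of_ord_ne_zero v (by rw [ht v]; omega)
  -- the bound `M`
  set M : ℕ := ∑ v ∈ S, e v + ∑ v ∈ S, ∑ w ∈ S, e w * (v.ord (t w)).natAbs with hM
  have hMbound : ∀ v ∈ S, ∀ w ∈ S, e v + e w * (v.ord (t w)).natAbs ≤ M := by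
    intro v hv w hw
    have h1 : e v ≤ ∑ v ∈ S, e v := Finset.single_le_sum (fun _ _ => Nat.zero_le _) hv
    have h2 : e w * (v.ord (t w)).natAbs ≤ ∑ w ∈ S, e w * (v.ord (t w)).natAbs :=
      Finset.single_le_sum (f := fun w => e w * (v.ord (t w)).natAbs)
        (fun _ _ => Nat.zero_le _) hw
    have h3 : ∑ w ∈ S, e w * (v.ord (t w)).natAbs
        ≤ ∑ v ∈ S, ∑ w ∈ S, e w * (v.ord (t w)).natAbs :=
      Finset.single_le_sum (f := fun v => ∑ w ∈ S, e w * (v.ord (t w)).natAbs)
        (fun _ _ => Nat.zero_le _) hv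
    omega
  -- approximating units
  choose s hs0 hsv hsw using fun w : Place K F =>
    exists_unit_zeros w (S.erase w) (Finset.notMem_erase w S) M
  -- the family
  let I := Σ v : S, Fin (e v)
  let b : I → F := fun i => t i.1 ^ (i.2 : ℕ) * s i.1
  have hb0 : ∀ i, b i ≠ 0 := fun i => mul_ne_zero (pow_ne_zero _ (ht0 _)) (hs0 _)
  -- orders of the family
  have hb_self : ∀ (i : I) (v : Place K F), v = i.1 → v.ord (b i) = ((i.2 : ℕ) : ℤ) := by
    rintro i v rfl
    show (i.1 : Place K F).ord (t i.1 ^ (i.2 : ℕ) * s i.1) = _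
    rw [Place.ord_mul _ (pow_ne_zero _ (ht0 _)) (hs0 _), ord_pow, ht, hsv]
    simp
  have hb_other : ∀ (i : I) (v : Place K F), v ∈ S → v ≠ i.1 → (e v : ℤ) ≤ v.ord (b i) := by
    intro i v hv hne
    show (e v : ℤ) ≤ v.ord (t i.1 ^ (i.2 : ℕ) * s i.1)
    rw [Place.ord_mul _ (pow_ne_zero _ (ht0 _)) (hs0 _), ord_pow]
    have h1 : (M : ℤ) ≤ v.ord (s i.1) :=
      hsw i.1 v (Finset.mem_erase.mpr ⟨hne, hv⟩)
    have h2 := hMbound v hv i.1 i.1.2
    have h3 : ((i.2 : ℕ) : ℤ) < e i.1 := by exact_mod_cast i.2.2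
    have h4 : -(((v.ord (t i.1)).natAbs : ℕ) : ℤ) ≤ v.ord (t i.1) := by
      rw [Int.natCast_natAbs]; exact neg_abs_le _
    have h5 : -((e i.1 : ℤ) * ((v.ord (t i.1)).natAbs : ℤ)) ≤ ((i.2 : ℕ) : ℤ) * v.ord (t i.1) := by
      have h6 : (0 : ℤ) ≤ ((i.2 : ℕ) : ℤ) := Int.natCast_nonneg _
      have h7 : (0 : ℤ) ≤ ((v.ord (t i.1)).natAbs : ℤ) := Int.natCast_nonneg _
      nlinarith
    have h2' : (e v : ℤ) + (e i.1 : ℤ) * ((v.ord (t i.1)).natAbs : ℤ) ≤ M := by
      exact_mod_cast h2
    omega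
  -- linear independence over `K(x)`
  have hli : LinearIndependent (IntermediateField.adjoin K {x}) b := by
    rw [Fintype.linearIndependent_iff]
    intro g hg
    by_contra hcon
    simp only [not_forall] at hcon
    obtain ⟨j, hj⟩ := hcon
    -- orders of the coefficients
    have hn : ∀ i : I, ∃ n : ℤ, g i ≠ 0 →
        ∀ v : Place K F, 0 < v.ord x → v.ord ((g i : F)) = n * v.ord x := by
      intro i
      by_cases hgi : g i = 0
      · exact ⟨0, fun h => absurd hgi h⟩
      · obtain ⟨n, hn⟩ := exists_ord_eq_mul (g i) hgi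
        exact ⟨n, fun _ => hn⟩
    choose n hn using hn
    set E : ℤ := ∑ v ∈ S, (e v : ℤ) with hE
    have hE_ge : ∀ v ∈ S, (e v : ℤ) ≤ E := fun v hv =>
      Finset.single_le_sum (f := fun v => (e v : ℤ)) (fun _ _ => Int.natCast_nonneg _) hv
    let T : Finset I := Finset.univ.filter fun i => g i ≠ 0
    have hT : T.Nonempty := ⟨j, by simp [T, hj]⟩
    obtain ⟨i₀, hi₀T, hmin⟩ := T.exists_min_image (fun i => n i * E + ((i.2 : ℕ) : ℤ)) hT
    have hgi₀ : g i₀ ≠ 0 := by simpa [T] using hi₀T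
    set v₀ : Place K F := i₀.1.1 with hv₀
    have hv₀S : v₀ ∈ S := i₀.1.2
    have hv₀x : 0 < v₀.ord x := hS v₀ hv₀S
    have ha₀ : ((i₀.2 : ℕ) : ℤ) < e v₀ := by exact_mod_cast i₀.2.2
    have he₀ : (e v₀ : ℤ) = v₀.ord x := he_cast v₀ hv₀S
    let y : I → F := fun i => (g i : F) * b i
    have hy : ∀ i, g i • b i = y i := fun i => by
      show g i • b i = (g i : F) * b i
      rw [Algebra.smul_def]; rfl
    have hgF : ∀ i, g i ≠ 0 → (g i : F) ≠ 0 := fun i h => by simpa using h
    have hy₀ : y i₀ ≠ 0 := mul_ne_zero (hgF i₀ hgi₀) (hb0 i₀)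
    have hord₀ : v₀.ord (y i₀) = n i₀ * v₀.ord x + ((i₀.2 : ℕ) : ℤ) := by
      show v₀.ord ((g i₀ : F) * b i₀) = _
      rw [v₀.ord_mul (hgF i₀ hgi₀) (hb0 i₀), hn i₀ hgi₀ v₀ hv₀x, hb_self i₀ v₀ rfl]
    have hothers : ∀ i ∈ Finset.univ.erase i₀, y i = 0 ∨ v₀.ord (y i₀) < v₀.ord (y i) := by
      intro i hi
      have hne : i ≠ i₀ := Finset.ne_of_mem_erase hi
      by_cases hgi : g i = 0
      · left; show (g i : F) * b i = 0; rw [hgi]; simp
      right
      have hiT : i ∈ T := by simp [T, hgi]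
      have hmin_i := hmin i hiT
      have hai : ((i.2 : ℕ) : ℤ) < e i.1 := by exact_mod_cast i.2.2
      have hai0 : (0 : ℤ) ≤ ((i.2 : ℕ) : ℤ) := Int.natCast_nonneg _
      have ha₀0 : (0 : ℤ) ≤ ((i₀.2 : ℕ) : ℤ) := Int.natCast_nonneg _
      have hEi : (e i.1 : ℤ) ≤ E := hE_ge i.1 i.1.2
      have hE₀ : (e v₀ : ℤ) ≤ E := hE_ge v₀ hv₀S
      -- `n i ≥ n i₀`
      have hnge : n i₀ ≤ n i := by
        by_contra hlt
        have hlt' : n i + 1 ≤ n i₀ := by omega
        have : (n i + 1) * E ≤ n i₀ * E :=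
          mul_le_mul_of_nonneg_right hlt' (by linarith)
        nlinarith
      have hordi : v₀.ord (y i) = n i * v₀.ord x + v₀.ord (b i) := by
        show v₀.ord ((g i : F) * b i) = _
        rw [v₀.ord_mul (hgF i hgi) (hb0 i), hn i hgi v₀ hv₀x]
      rw [hord₀, hordi]
      by_cases hvi : (i.1 : Place K F) = v₀
      · -- same place
        have hbi : v₀.ord (b i) = ((i.2 : ℕ) : ℤ) := hb_self i v₀ hvi.symm
        rw [hbi]
        rcases hnge.lt_or_eq with hlt | heq
        · have hlt' : n i₀ + 1 ≤ n i := by omega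
          have : (n i₀ + 1) * v₀.ord x ≤ n i * v₀.ord x :=
            mul_le_mul_of_nonneg_right hlt' hv₀x.le
          nlinarith
        · have h1 : ((i₀.2 : ℕ) : ℤ) ≤ ((i.2 : ℕ) : ℤ) := by
            rw [heq] at hmin_i; linarith
          have h2 : ((i₀.2 : ℕ) : ℤ) ≠ ((i.2 : ℕ) : ℤ) := by
            intro h
            apply hne
            have h3 : (i.2 : ℕ) = (i₀.2 : ℕ) := by exact_mod_cast h.symm
            have h4 : i.1 = i₀.1 := Subtype.ext hvi
            obtain ⟨iv, ia⟩ := i
            obtain ⟨jv, ja⟩ := i₀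
            simp only at h4 h3
            subst h4
            congr 1
            exact Fin.ext h3
          rw [heq]
          omega
      · -- different place
        have hbi : (e v₀ : ℤ) ≤ v₀.ord (b i) := hb_other i v₀ hv₀S (fun h => hvi h.symm)
        have : n i₀ * v₀.ord x ≤ n i * v₀.ord x :=
          mul_le_mul_of_nonneg_right hnge hv₀x.le
        omega
    have hsum : y i₀ + ∑ i ∈ Finset.univ.erase i₀, y i = 0 := by
      rw [Finset.add_sum_erase _ _ (Finset.mem_univ i₀)]
      simpa [hy] using hg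
    rcases ord_sum_gt v₀ (Finset.univ.erase i₀) y (v₀.ord (y i₀)) hothers with h0 | hgt
    · rw [h0, add_zero] at hsum; exact hy₀ hsum
    · have : ∑ i ∈ Finset.univ.erase i₀, y i = -y i₀ := by
        rw [← sub_eq_zero, sub_neg_eq_add, add_comm]; exact hsum
      rw [this, ord_neg] at hgt
      exact lt_irrefl _ hgt
  have hcard := hli.fintype_card_le_finrank
  have hcardI : Fintype.card I = ∑ v ∈ S, e v := by
    simp only [I, Fintype.card_sigma, Fintype.card_fin]
    exact Finset.sum_coe_sort S e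
  rw [hcardI] at hcard
  have hsum : ∑ v ∈ S, v.ord x = ((∑ v ∈ S, e v : ℕ) : ℤ) := by
    push_cast
    exact Finset.sum_congr rfl fun v hv => (he_cast v hv).symm
  rw [hsum]
  exact_mod_cast hcard


theorem sum_ord_le_finrank_of_eq (hdeg : ∀ v : Place K F, v.deg = 1) (x : F)
    (L : IntermediateField K F) (hL : L = IntermediateField.adjoin K {x})
    [FiniteDimensional L F]
    (S : Finset (Place K F)) (hS : ∀ v ∈ S, 0 < v.ord x) :
    ∑ v ∈ S, v.ord x ≤ (Module.finrank L F : ℤ) := by
  subst hL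
  exact sum_ord_le_finrank hdeg x S hS

theorem adjoin_inv_eq (x : F) :
    IntermediateField.adjoin K {x} = IntermediateField.adjoin K {x⁻¹} := by
  apply le_antisymm
  · rw [IntermediateField.adjoin_simple_le_iff]
    have := inv_mem (IntermediateField.mem_adjoin_simple_self K x⁻¹)
    rwa [inv_inv] at this
  · rw [IntermediateField.adjoin_simple_le_iff]
    exact inv_mem (IntermediateField.mem_adjoin_simple_self K x)

/-- **L2** (poles): the poles of `x`, counted with multiplicity, number at most `[F : K(x)]`. -/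
theorem sum_neg_ord_le_finrank (hdeg : ∀ v : Place K F, v.deg = 1) (x : F)
    [FiniteDimensional (IntermediateField.adjoin K {x}) F]
    (S : Finset (Place K F)) (hS : ∀ v ∈ S, v.ord x < 0) :
    ∑ v ∈ S, -v.ord x ≤ (Module.finrank (IntermediateField.adjoin K {x}) F : ℤ) := by
  have h := sum_ord_le_finrank_of_eq hdeg x⁻¹ (IntermediateField.adjoin K {x})
    (adjoin_inv_eq x) S (fun v hv => by rw [v.ord_inv]; have := hS v hv; omega)
  simpa [Place.ord_inv] using h

end Fermat.Agent.Lib.RR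

end
end
-- ===== PACK-END Lib/RR/Zeros.lean

-- ===== PACK-BEGIN S20/Comb694/OrbitCounts.lean
section




/-!
# Orbit counts of `S` and `S * T` on `SL(2,ℤ) ⧸ Gamma0 N`, and the genus identity

* `two_mul_card_orbits_S : 2 * #(Q / ⟨S⟩) = ψ(N) + ν₂(N)`
* `three_mul_card_orbits_ST : 3 * #(Q / ⟨S * T⟩) = ψ(N) + 2 * ν₃(N)`
* `genusFormula_eq_of_card_orbits_T` : the Euler-characteristic identity
  `genusFormula N = 1 + (μ - o₂ - o₃ - o∞) / 2`.
-/

set_option autoImplicit false

namespace Fermat.Agent.S20.Comb694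

open Matrix MatrixGroups CongruenceSubgroup MulAction Subgroup

/-- `-1` acts trivially on `SL(2,ℤ) ⧸ Γ₀(N)`. -/
lemma neg_one_smul_quotient (N : ℕ) (q : SL(2, ℤ) ⧸ Gamma0 N) : (-1 : SL(2, ℤ)) • q = q := by
  obtain ⟨g, rfl⟩ := QuotientGroup.mk_surjective q
  rw [smul_mk_eq_mk_iff]
  have h : ∀ i j, ((-1 : SL(2, ℤ)) * g) i j = - g i j := by
    intro i j
    rw [neg_mul, one_mul, Matrix.SpecialLinearGroup.coe_neg, Matrix.neg_apply]
  rw [h, h]
  push_cast
  ring

lemma S_pow_two : ModularGroup.S ^ 2 = (-1 : SL(2, ℤ)) := by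
  apply Subtype.ext
  rw [pow_two, Matrix.SpecialLinearGroup.coe_mul, ModularGroup.coe_S,
    Matrix.SpecialLinearGroup.coe_neg, Matrix.SpecialLinearGroup.coe_one]
  ext i j
  fin_cases i <;> fin_cases j <;> simp [Matrix.mul_apply, Fin.sum_univ_two]

lemma ST_pow_three : (ModularGroup.S * ModularGroup.T) ^ 3 = (-1 : SL(2, ℤ)) := by
  apply Subtype.ext
  rw [pow_succ, pow_two, Matrix.SpecialLinearGroup.coe_mul, Matrix.SpecialLinearGroup.coe_mul,
    coe_S_mul_T, Matrix.SpecialLinearGroup.coe_neg, Matrix.SpecialLinearGroup.coe_one]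
  ext i j
  fin_cases i <;> fin_cases j <;> simp [Matrix.mul_apply, Fin.sum_univ_two]

/-- `2 * #(S-orbits) = ψ(N) + ν₂(N)`. -/
theorem two_mul_card_orbits_S (N : ℕ) [NeZero N] :
    2 * Nat.card (orbitRel.Quotient (zpowers ModularGroup.S) (SL(2, ℤ) ⧸ Gamma0 N))
      = ModularCurve.dedekindPsi N + ModularCurve.nuTwo N := by
  have h := prime_mul_card_orbits (X := SL(2, ℤ) ⧸ Gamma0 N) ModularGroup.S 2 Nat.prime_two
    (fun x => by rw [S_pow_two]; exact neg_one_smul_quotient N x)
  rw [card_quotient_Gamma0, card_fixedBy_S] at h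
  exact h.trans (by norm_num)

/-- `3 * #(ST-orbits) = ψ(N) + 2 * ν₃(N)`. -/
theorem three_mul_card_orbits_ST (N : ℕ) [NeZero N] :
    3 * Nat.card (orbitRel.Quotient (zpowers (ModularGroup.S * ModularGroup.T))
        (SL(2, ℤ) ⧸ Gamma0 N))
      = ModularCurve.dedekindPsi N + 2 * ModularCurve.nuThree N := by
  have h := prime_mul_card_orbits (X := SL(2, ℤ) ⧸ Gamma0 N)
    (ModularGroup.S * ModularGroup.T) 3 Nat.prime_three
    (fun x => by rw [ST_pow_three]; exact neg_one_smul_quotient N x)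
  rw [card_quotient_Gamma0, card_fixedBy_ST] at h
  exact h.trans (by norm_num)

/-- The Euler-characteristic identity: with `μ = #Q`, `o₂`, `o₃`, `o∞` the numbers of orbits of
`S`, `S * T`, `T` on `Q = SL(2,ℤ) ⧸ Γ₀(N)`, one has `genusFormula N = 1 + (μ - o₂ - o₃ - o∞) / 2`,
provided `o∞ = cuspCount N`. -/
theorem genusFormula_eq_of_card_orbits_T (N : ℕ) [NeZero N]
    (hT : Nat.card (orbitRel.Quotient (zpowers ModularGroup.T) (SL(2, ℤ) ⧸ Gamma0 N))
      = ModularCurve.cuspCount N) :
    ModularCurve.genusFormula N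
      = 1 + ((Nat.card (SL(2, ℤ) ⧸ Gamma0 N) : ℚ)
          - (Nat.card (orbitRel.Quotient (zpowers ModularGroup.S) (SL(2, ℤ) ⧸ Gamma0 N)) : ℚ)
          - (Nat.card (orbitRel.Quotient (zpowers (ModularGroup.S * ModularGroup.T))
              (SL(2, ℤ) ⧸ Gamma0 N)) : ℚ)
          - (Nat.card (orbitRel.Quotient (zpowers ModularGroup.T)
              (SL(2, ℤ) ⧸ Gamma0 N)) : ℚ)) / 2 := by
  have h2 := two_mul_card_orbits_S N
  have h3 := three_mul_card_orbits_ST N
  have h2' := congrArg (Nat.cast : ℕ → ℚ) h2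
  have h3' := congrArg (Nat.cast : ℕ → ℚ) h3
  push_cast at h2' h3'
  rw [hT, card_quotient_Gamma0, ModularCurve.genusFormula]
  linear_combination (1 / 4 : ℚ) * h2' + (1 / 6 : ℚ) * h3'

/-- Orbit-count form used by dimension bounds: `μ + 2 - o₂ - o₃ - o∞ = 2 * genusFormula N`. -/
theorem two_mul_genusFormula_of_card_orbits_T (N : ℕ) [NeZero N]
    (hT : Nat.card (orbitRel.Quotient (zpowers ModularGroup.T) (SL(2, ℤ) ⧸ Gamma0 N))
      = ModularCurve.cuspCount N) :
    2 * ModularCurve.genusFormula N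
      + (Nat.card (orbitRel.Quotient (zpowers ModularGroup.S) (SL(2, ℤ) ⧸ Gamma0 N)) : ℚ)
      + (Nat.card (orbitRel.Quotient (zpowers (ModularGroup.S * ModularGroup.T))
          (SL(2, ℤ) ⧸ Gamma0 N)) : ℚ)
      + (Nat.card (orbitRel.Quotient (zpowers ModularGroup.T) (SL(2, ℤ) ⧸ Gamma0 N)) : ℚ)
      = (Nat.card (SL(2, ℤ) ⧸ Gamma0 N) : ℚ) + 2 := by
  rw [genusFormula_eq_of_card_orbits_T N hT]
  ring

end Fermat.Agent.S20.Comb694

end
-- ===== PACK-END S20/Comb694/OrbitCounts.lean

-- ===== PACK-BEGIN S18/H107/Base.lean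
section






/-!
# helper107 — S18 / M3-T : `BaseModel107` = `GoodModel` without the branch-set fields

`BaseModel107 Lc Ec Fc R V w x` consists of all fields of the frozen `Alg.GoodModel` (v4) except
`S_mem`, `S_distinct`, `S_unit`, `unramified`.  For `x = j` it holds for every `ℓ ∤ M`
(including `ℓ = 2, 3`, where `GoodModel … j {0, 1728}` is FALSE because `0 ≡ 1728`).

Generic transfer lemmas `j ↦ t` for the easy fields: `transcendental`, `finite`, `separable`,
`t ∈ V` (integral closedness of `V` in `Fc`).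
-/

set_option autoImplicit false

namespace Fermat.Agent.S18.H107

open Polynomial Fermat.Agent.S18.Alg

variable {Ω : Type*} [Field Ω]

/-- All fields of `Alg.GoodModel` that do not mention the branch set `S`. -/
structure BaseModel107 (Lc Ec Fc : Subfield Ω) (R V : Subring Ω) (w x : Ω) : Prop where
  charZero : CharZero Ω
  R_le : (R : Set Ω) ⊆ Ec
  R_total : ∀ e ∈ Ec, e ∈ R ∨ e⁻¹ ∈ R
  w_mem : w ∈ R
  w_ne_zero : w ≠ 0
  w_inv_not_mem : w⁻¹ ∉ R
  w_gen : ∀ r ∈ R, r⁻¹ ∉ R → r * w⁻¹ ∈ R
  w_discrete : ∀ r ∈ R, r ≠ 0 → ∃ n : ℕ, r * (w⁻¹) ^ n ∈ R ∧ (r * (w⁻¹) ^ n)⁻¹ ∈ R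
  residue_perfect : ∃ p : ℕ, p.Prime ∧ (p : Ω) * w⁻¹ ∈ R ∧
    ∀ r ∈ R, ∃ s ∈ R, (r - s ^ p) * w⁻¹ ∈ R
  E_le_L : Ec ≤ Lc
  E_le_F : Ec ≤ Fc
  L_algebraic : ∀ a ∈ Lc, IsAlgebraic Ec a
  L_algClosed : IsAlgClosed Lc
  E_closed_in_F : ∀ f ∈ Fc, IsAlgebraic Ec f → f ∈ Ec
  compositum : Subfield.closure ((Fc : Set Ω) ∪ Lc) = ⊤
  x_mem : x ∈ Fc
  x_transcendental : Transcendental Lc x
  finite : ∃ s : Finset Ω, (s : Set Ω) ⊆ Fc ∧
    ∀ f ∈ Fc, f ∈ Submodule.span (ratField Ec x) (s : Set Ω)
  V_le : (V : Set Ω) ⊆ Fc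
  V_total : ∀ f ∈ Fc, f ∈ V ∨ f⁻¹ ∈ V
  R_le_V : R ≤ V
  w_inv_not_mem_V : w⁻¹ ∉ V
  V_gen : ∀ f ∈ V, f⁻¹ ∉ V → f * w⁻¹ ∈ V
  x_mem_V : x ∈ V
  gauss : ∀ P : Polynomial Ω, (∀ i, P.coeff i ∈ R) → (∃ i, P.coeff i ≠ 0 ∧ (P.coeff i)⁻¹ ∈ R) →
    (P.eval x)⁻¹ ∈ V
  qep_fin : ∀ b ∈ chart Fc R x, b * w⁻¹ ∈ V → b * w⁻¹ ∈ chart Fc R x
  qep_inf : ∀ b ∈ chart Fc R x⁻¹, b * w⁻¹ ∈ V → b * w⁻¹ ∈ chart Fc R x⁻¹
  separable : ∀ f ∈ V, ∃ P : Polynomial Ω, (∀ i, P.coeff i ∈ polyRing R x) ∧
    P.eval f * w⁻¹ ∈ V ∧ (Polynomial.derivative P).eval f ≠ 0 ∧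
    ((Polynomial.derivative P).eval f)⁻¹ ∈ V

theorem baseModel_of_goodModel107 {Lc Ec Fc : Subfield Ω} {R V : Subring Ω} {w x : Ω}
    {S : Finset Ω} (h : GoodModel Lc Ec Fc R V w x S) : BaseModel107 Lc Ec Fc R V w x where
  charZero := h.charZero
  R_le := h.R_le
  R_total := h.R_total
  w_mem := h.w_mem
  w_ne_zero := h.w_ne_zero
  w_inv_not_mem := h.w_inv_not_mem
  w_gen := h.w_gen
  w_discrete := h.w_discrete
  residue_perfect := h.residue_perfect
  E_le_L := h.E_le_L
  E_le_F := h.E_le_F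
  L_algebraic := h.L_algebraic
  L_algClosed := h.L_algClosed
  E_closed_in_F := h.E_closed_in_F
  compositum := h.compositum
  x_mem := h.x_mem
  x_transcendental := h.x_transcendental
  finite := h.finite
  V_le := h.V_le
  V_total := h.V_total
  R_le_V := h.R_le_V
  w_inv_not_mem_V := h.w_inv_not_mem_V
  V_gen := h.V_gen
  x_mem_V := h.x_mem_V
  gauss := h.gauss
  qep_fin := h.qep_fin
  qep_inf := h.qep_inf
  separable := h.separable

theorem BaseModel107.toGoodModel {Lc Ec Fc : Subfield Ω} {R V : Subring Ω} {w x : Ω}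
    (h : BaseModel107 Lc Ec Fc R V w x) (S : Finset Ω) (S_mem : ∀ s ∈ S, s ∈ R)
    (S_distinct : ∀ s ∈ S, ∀ t ∈ S, s ≠ t → (s - t)⁻¹ ∈ R)
    (S_unit : ∀ s ∈ S, s ≠ 0 → s⁻¹ ∈ R)
    (unramified : ∀ O : ValuationSubring Ω, (∀ a ∈ Lc, a ∈ O) → ∀ c ∈ Lc, c ∉ S →
      x - c ∈ O → (x - c)⁻¹ ∉ O → ∀ t ∈ O, t⁻¹ ∉ O → t * (x - c)⁻¹ ∈ O) :
    GoodModel Lc Ec Fc R V w x S where
  charZero := h.charZero
  R_le := h.R_le
  R_total := h.R_total
  w_mem := h.w_mem
  w_ne_zero := h.w_ne_zero
  w_inv_not_mem := h.w_inv_not_mem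
  w_gen := h.w_gen
  w_discrete := h.w_discrete
  residue_perfect := h.residue_perfect
  E_le_L := h.E_le_L
  E_le_F := h.E_le_F
  L_algebraic := h.L_algebraic
  L_algClosed := h.L_algClosed
  E_closed_in_F := h.E_closed_in_F
  compositum := h.compositum
  x_mem := h.x_mem
  x_transcendental := h.x_transcendental
  finite := h.finite
  V_le := h.V_le
  V_total := h.V_total
  R_le_V := h.R_le_V
  w_inv_not_mem_V := h.w_inv_not_mem_V
  V_gen := h.V_gen
  x_mem_V := h.x_mem_V
  gauss := h.gauss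
  qep_fin := h.qep_fin
  qep_inf := h.qep_inf
  separable := h.separable
  S_mem := S_mem
  S_distinct := S_distinct
  S_unit := S_unit
  unramified := unramified

/-- A subring `V` that is "total at `b`" contains `b` as soon as `b` is integral over a subring
of `V` (valuation rings are integrally closed). -/
theorem mem_of_isIntegral_of_total107 (V T : Subring Ω) (hT : T ≤ V) {b : Ω}
    (hb : b ∈ V ∨ b⁻¹ ∈ V) (hint : IsIntegral T b) : b ∈ V := by
  rcases hb with h | h
  · exact h
  obtain ⟨P, hP, hc, hPb⟩ := (isIntegral_iff_exists_poly107 T b).1 hint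
  rcases eq_or_ne b 0 with rfl | hb0
  · exact V.zero_mem
  have hn : P.natDegree ≠ 0 := by
    intro h0
    have h1 : P = 1 := by
      have := Polynomial.eq_C_of_natDegree_eq_zero h0
      rw [this, ← h0]
      have hl : P.coeff P.natDegree = 1 := hP
      rw [hl, map_one]
    rw [h1, eval_one] at hPb
    exact one_ne_zero hPb
  obtain ⟨n, hn'⟩ := Nat.exists_eq_succ_of_ne_zero hn
  rw [eval_eq_sum_range, hn', Finset.sum_range_succ] at hPb
  have hlead : P.coeff (n + 1) = 1 := by
    have : P.coeff P.natDegree = 1 := hP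
    rwa [hn'] at this
  rw [hlead, one_mul] at hPb
  -- `b = - ∑ i < n+1, a_i * (b⁻¹) ^ (n - i)`
  have key : b = -∑ i ∈ Finset.range (n + 1), P.coeff i * (b⁻¹) ^ (n - i) := by
    have h1 : b ^ (n + 1) = -∑ i ∈ Finset.range (n + 1), P.coeff i * b ^ i := by
      linear_combination hPb
    calc b = b ^ (n + 1) * (b⁻¹) ^ n := by
          rw [pow_succ, inv_pow]
          field_simp
      _ = (-∑ i ∈ Finset.range (n + 1), P.coeff i * b ^ i) * (b⁻¹) ^ n := by rw [h1]
      _ = -∑ i ∈ Finset.range (n + 1), P.coeff i * (b⁻¹) ^ (n - i) := by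
          rw [neg_mul, Finset.sum_mul]
          congr 1
          refine Finset.sum_congr rfl fun i hi => ?_
          have hi' : i ≤ n := Nat.lt_succ_iff.1 (Finset.mem_range.1 hi)
          have e : (b⁻¹) ^ n = (b⁻¹) ^ i * (b⁻¹) ^ (n - i) := by
            rw [← pow_add, Nat.add_sub_cancel' hi']
          rw [e, mul_assoc, ← mul_assoc (b ^ i), inv_pow b i,
            mul_inv_cancel₀ (pow_ne_zero _ hb0), one_mul]
  rw [key]
  refine V.neg_mem (V.sum_mem fun i _ => V.mul_mem (hT (hc i)) (V.pow_mem h _))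

theorem ratField_le107 {Ec : Subfield Ω} {x y : Ω} (h : x ∈ ratField Ec y) :
    ratField Ec x ≤ ratField Ec y := by
  refine Subfield.closure_le.2 ?_
  rintro c (hc | hc)
  · exact Subfield.subset_closure (Or.inl hc)
  · rw [Set.mem_singleton_iff] at hc
    rw [hc]
    exact h

theorem self_mem_ratField107 (Ec : Subfield Ω) (x : Ω) : x ∈ ratField Ec x :=
  Subfield.subset_closure (Or.inr rfl)

theorem natCast_mem_ratField107 (Ec : Subfield Ω) (x : Ω) (n : ℕ) [n.AtLeastTwo] :
    (OfNat.ofNat n : Ω) ∈ ratField Ec x := ofNat_mem _ n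

/-- Spans over a bigger subfield are bigger. -/
theorem span_mono_subfield107 {K₁ K₂ : Subfield Ω} (h : K₁ ≤ K₂) (s : Set Ω) {f : Ω}
    (hf : f ∈ Submodule.span K₁ s) : f ∈ Submodule.span K₂ s := by
  induction hf using Submodule.span_induction with
  | mem x hx => exact Submodule.subset_span hx
  | zero => exact Submodule.zero_mem _
  | add x y _ _ hx hy => exact Submodule.add_mem _ hx hy
  | smul a x _ hx =>
    have : a • x = (⟨(a : Ω), h a.2⟩ : K₂) • x := rfl
    rw [this]
    exact Submodule.smul_mem _ _ hx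

theorem finite_transfer107 {Ec Fc : Subfield Ω} {j t : Ω} (hj : j ∈ ratField Ec t)
    (h : ∃ s : Finset Ω, (s : Set Ω) ⊆ Fc ∧
      ∀ f ∈ Fc, f ∈ Submodule.span (ratField Ec j) (s : Set Ω)) :
    ∃ s : Finset Ω, (s : Set Ω) ⊆ Fc ∧
      ∀ f ∈ Fc, f ∈ Submodule.span (ratField Ec t) (s : Set Ω) := by
  obtain ⟨s, hs, hspan⟩ := h
  exact ⟨s, hs, fun f hf => span_mono_subfield107 (ratField_le107 hj) _ (hspan f hf)⟩

/-- `separable` passes from `j` to `t` when `j * e ∈ R[t]` for some `e ∈ R[t]` that is a unit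
of `V`. -/
theorem separable_transfer107 {R V : Subring Ω} {w j t e : Ω} (he : e ∈ polyRing R t)
    (hje : j * e ∈ polyRing R t) (heV : e ∈ V) (heV' : e⁻¹ ∈ V) (he0 : e ≠ 0)
    (h : ∀ f ∈ V, ∃ P : Polynomial Ω, (∀ i, P.coeff i ∈ polyRing R j) ∧
      P.eval f * w⁻¹ ∈ V ∧ (Polynomial.derivative P).eval f ≠ 0 ∧
      ((Polynomial.derivative P).eval f)⁻¹ ∈ V) :
    ∀ f ∈ V, ∃ P : Polynomial Ω, (∀ i, P.coeff i ∈ polyRing R t) ∧
      P.eval f * w⁻¹ ∈ V ∧ (Polynomial.derivative P).eval f ≠ 0 ∧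
      ((Polynomial.derivative P).eval f)⁻¹ ∈ V := by
  intro f hf
  obtain ⟨P, hc, hPf, hd0, hdV⟩ := h f hf
  have hex : ∀ i, ∃ d : ℕ, ∀ d', d ≤ d' → P.coeff i * e ^ d' ∈ polyRing R t := fun i =>
    exists_pow_mul_mem107 (le_polyRing107 R t) he hje (hc i)
  choose d hd using hex
  set D := (Finset.range (P.natDegree + 1)).sup d with hD
  have hDi : ∀ i, P.coeff i * e ^ D ∈ polyRing R t := by
    intro i
    by_cases hi : i ∈ Finset.range (P.natDegree + 1)
    · exact hd i D (Finset.le_sup hi)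
    · rw [Finset.mem_range, not_lt] at hi
      rw [coeff_eq_zero_of_natDegree_lt (by omega), zero_mul]
      exact Subring.zero_mem _
  refine ⟨C (e ^ D) * P, fun i => ?_, ?_, ?_, ?_⟩
  · rw [coeff_C_mul, mul_comm]
    exact hDi i
  · rw [eval_mul, eval_C, mul_assoc]
    exact V.mul_mem (V.pow_mem heV D) hPf
  · rw [derivative_C_mul, eval_mul, eval_C]
    exact mul_ne_zero (pow_ne_zero _ he0) hd0
  · rw [derivative_C_mul, eval_mul, eval_C, mul_inv, ← inv_pow]
    exact V.mul_mem (V.pow_mem heV' D) hdV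

end Fermat.Agent.S18.H107

end
-- ===== PACK-END S18/H107/Base.lean

-- ===== PACK-BEGIN S18/H107/T2Qep.lean
section






/-!
# helper107 — S18 / M3-T : QEP for the Hauptmodul `t = t₂` of `X₀(2)` (case `ℓ = 3`)

Input: the relation `j * t ^ 2 = (t + 256) ^ 3`, `2⁻¹ ∈ R`, QEP for the charts of `j` and `j⁻¹`.
Output: QEP for the charts of `t` and `t⁻¹` (`qep_t2_fin107`, `qep_t2_inf107`).
-/

set_option autoImplicit false

namespace Fermat.Agent.S18.H107

open Polynomial Fermat.Agent.S18.Alg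

variable {Ω : Type*} [Field Ω]

/-- The Hauptmodul relation for `X₀(2)` together with the needed side conditions. -/
structure HauptT2107 (Fc : Subfield Ω) (R V : Subring Ω) (j t : Ω) : Prop where
  rel : j * t ^ 2 = (t + 256) ^ 3
  two_inv : (2 : Ω)⁻¹ ∈ R
  two_ne : (2 : Ω) ≠ 0
  j_ne : j ≠ 0
  t_mem_Fc : t ∈ Fc
  t_mem_V : t ∈ V
  t256_inv_mem_V : (t + 256)⁻¹ ∈ V

namespace HauptT2107

variable {Fc : Subfield Ω} {R V : Subring Ω} {j t : Ω}

theorem c256_ne (h : HauptT2107 Fc R V j t) : (256 : Ω) ≠ 0 := by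
  have : (256 : Ω) = 2 ^ 8 := by norm_num
  rw [this]
  exact pow_ne_zero _ h.two_ne

theorem inv256_mem (h : HauptT2107 Fc R V j t) : (256 : Ω)⁻¹ ∈ R := by
  have := R.pow_mem h.two_inv 8
  have e : ((2 : Ω)⁻¹) ^ 8 = (256 : Ω)⁻¹ := by norm_num
  rwa [e] at this

theorem t_ne (h : HauptT2107 Fc R V j t) : t ≠ 0 := by
  intro ht
  have := h.rel
  rw [ht] at this
  have h256 := h.c256_ne
  have h3 : (256 : Ω) ^ 3 = 0 := by
    have e : ((0 : Ω) + 256) ^ 3 = 256 ^ 3 := by ring
    rw [← e, ← this]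
    ring
  exact h256 (pow_eq_zero_iff (by norm_num) |>.1 h3)

theorem t256_ne (h : HauptT2107 Fc R V j t) : t + 256 ≠ 0 := by
  intro ht
  have := h.rel
  rw [ht] at this
  have h0 : j * t ^ 2 = 0 := by rw [this]; ring
  rcases mul_eq_zero.1 h0 with hj | ht0
  · exact h.j_ne hj
  · exact h.t_ne (pow_eq_zero_iff (by norm_num) |>.1 ht0)

/-- `t` is integral over `R[j]`. -/
theorem t_int (h : HauptT2107 Fc R V j t) : t ∈ intCl107 (polyRing R j) := by
  refine mem_intCl_of_cubic107 _ t (768 - j) 196608 16777216 ?_ (ofNat_mem _ _) (ofNat_mem _ _) ?_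
  · exact Subring.sub_mem _ (ofNat_mem _ _) (self_mem_polyRing107 R j)
  · linear_combination -h.rel

/-- `h = t / (t + 256)` is integral over `R[j⁻¹]`. -/
theorem h_int (h : HauptT2107 Fc R V j t) : t * (t + 256)⁻¹ ∈ intCl107 (polyRing R j⁻¹) := by
  refine mem_intCl_of_cubic107 _ _ (-1) 0 (256 * j⁻¹) ?_ (Subring.zero_mem _) ?_ ?_
  · exact Subring.neg_mem _ (Subring.one_mem _)
  · exact Subring.mul_mem _ (ofNat_mem _ _) (self_mem_polyRing107 R j⁻¹)
  · have hj := h.j_ne
    have ht := h.t256_ne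
    field_simp
    linear_combination (-256 : Ω) * h.rel

/-- `t⁻¹` is integral over `R[j]` (uses `2⁻¹ ∈ R`). -/
theorem tinv_int (h : HauptT2107 Fc R V j t) : t⁻¹ ∈ intCl107 (polyRing R j) := by
  have h256 := h.inv256_mem
  have hR := le_polyRing107 R j
  refine mem_intCl_of_cubic107 _ _ (3 * (256 : Ω)⁻¹) ((768 - j) * ((256 : Ω)⁻¹) ^ 3)
    (((256 : Ω)⁻¹) ^ 3) ?_ ?_ ?_ ?_
  · exact Subring.mul_mem _ (ofNat_mem _ _) (hR h256)
  · exact Subring.mul_mem _ (Subring.sub_mem _ (ofNat_mem _ _) (self_mem_polyRing107 R j))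
      (Subring.pow_mem _ (hR h256) 3)
  · exact Subring.pow_mem _ (hR h256) 3
  · have ht := h.t_ne
    have hc := h.c256_ne
    field_simp
    linear_combination -h.rel

theorem open1_fin (h : HauptT2107 Fc R V j t) : OpenData107 Fc R V t j t 1 where
  g_mem := self_mem_polyRing107 R t
  e_mem_Fc := Fc.one_mem
  e_mem_V := V.one_mem
  e_int := Subring.one_mem _
  xe_int := by rw [mul_one]; exact h.t_int
  y_loc := ⟨2, by
    rw [h.rel]
    exact le_intCl107 _ (Subring.pow_mem _
      (Subring.add_mem _ (self_mem_polyRing107 R t) (ofNat_mem _ _)) 3)⟩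
  e_inv := ⟨1, Subring.one_mem _, 0, by simp⟩

theorem open2_fin (h : HauptT2107 Fc R V j t) :
    OpenData107 Fc R V t j⁻¹ (t + 256) (256 * (t + 256)⁻¹) where
  g_mem := Subring.add_mem _ (self_mem_polyRing107 R t) (ofNat_mem _ _)
  e_mem_Fc := Fc.mul_mem (ofNat_mem _ _)
    (Fc.inv_mem (Fc.add_mem h.t_mem_Fc (ofNat_mem _ _)))
  e_mem_V := V.mul_mem (ofNat_mem _ _) h.t256_inv_mem_V
  e_int := by
    have e : 256 * (t + 256)⁻¹ = 1 - t * (t + 256)⁻¹ := by
      have ht := h.t256_ne
      field_simp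
      ring
    rw [e]
    exact Subring.sub_mem _ (Subring.one_mem _) h.h_int
  xe_int := by
    have e : t * (256 * (t + 256)⁻¹) = 256 * (t * (t + 256)⁻¹) := by ring
    rw [e]
    exact Subring.mul_mem _ (ofNat_mem _ _) h.h_int
  y_loc := ⟨3, by
    have e : j⁻¹ * (t + 256) ^ 3 = t ^ 2 := by
      have hj := h.j_ne
      field_simp
      linear_combination -h.rel
    rw [e]
    exact le_intCl107 _ (Subring.pow_mem _ (self_mem_polyRing107 R t) 2)⟩
  e_inv := ⟨(t + 256) * (256 : Ω)⁻¹,
    le_intCl107 _ (Subring.mul_mem _ (Subring.add_mem _ (self_mem_polyRing107 R t) (ofNat_mem _ _))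
      (le_polyRing107 R t h.inv256_mem)), 0, by
    have ht := h.t256_ne
    have hc := h.c256_ne
    field_simp⟩

theorem open1_inf (h : HauptT2107 Fc R V j t) : OpenData107 Fc R V t⁻¹ j t⁻¹ 1 where
  g_mem := self_mem_polyRing107 R t⁻¹
  e_mem_Fc := Fc.one_mem
  e_mem_V := V.one_mem
  e_int := Subring.one_mem _
  xe_int := by rw [mul_one]; exact h.tinv_int
  y_loc := ⟨1, by
    have e : j * t⁻¹ ^ 1 = (1 + 256 * t⁻¹) ^ 3 := by
      have ht := h.t_ne
      field_simp
      linear_combination h.rel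
    rw [e]
    exact le_intCl107 _ (Subring.pow_mem _ (Subring.add_mem _ (Subring.one_mem _)
      (Subring.mul_mem _ (ofNat_mem _ _) (self_mem_polyRing107 R t⁻¹))) 3)⟩
  e_inv := ⟨1, Subring.one_mem _, 0, by simp⟩

theorem open2_inf (h : HauptT2107 Fc R V j t) :
    OpenData107 Fc R V t⁻¹ j⁻¹ (1 + 256 * t⁻¹) (t * (t + 256)⁻¹) where
  g_mem := Subring.add_mem _ (Subring.one_mem _)
    (Subring.mul_mem _ (ofNat_mem _ _) (self_mem_polyRing107 R t⁻¹))
  e_mem_Fc := Fc.mul_mem h.t_mem_Fc (Fc.inv_mem (Fc.add_mem h.t_mem_Fc (ofNat_mem _ _)))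
  e_mem_V := V.mul_mem h.t_mem_V h.t256_inv_mem_V
  e_int := h.h_int
  xe_int := by
    have e : t⁻¹ * (t * (t + 256)⁻¹) = (1 - t * (t + 256)⁻¹) * (256 : Ω)⁻¹ := by
      have ht := h.t_ne
      have ht' := h.t256_ne
      have hc := h.c256_ne
      field_simp
      ring
    rw [e]
    exact Subring.mul_mem _ (Subring.sub_mem _ (Subring.one_mem _) h.h_int)
      (le_intCl107 _ (le_polyRing107 R j⁻¹ h.inv256_mem))
  y_loc := ⟨3, by
    have e : j⁻¹ * (1 + 256 * t⁻¹) ^ 3 = t⁻¹ := by
      have hj := h.j_ne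
      have ht := h.t_ne
      field_simp
      linear_combination -h.rel
    rw [e]
    exact le_intCl107 _ (self_mem_polyRing107 R t⁻¹)⟩
  e_inv := ⟨1 + 256 * t⁻¹, le_intCl107 _ (Subring.add_mem _ (Subring.one_mem _)
      (Subring.mul_mem _ (ofNat_mem _ _) (self_mem_polyRing107 R t⁻¹))), 0, by
    have ht := h.t_ne
    have ht' := h.t256_ne
    field_simp⟩

/-- **QEP for the chart of `t₂`.** -/
theorem qep_fin (h : HauptT2107 Fc R V j t) {w : Ω} (hw : w ∈ Fc)
    (q₁ : Qep107 Fc R V w j) (q₂ : Qep107 Fc R V w j⁻¹) : Qep107 Fc R V w t := by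
  refine qep_transfer107 (a := -(256 : Ω)⁻¹) (b := (256 : Ω)⁻¹) hw q₁ q₂ h.open1_fin h.open2_fin
    (Subring.neg_mem _ (le_polyRing107 R t h.inv256_mem)) (le_polyRing107 R t h.inv256_mem) ?_
  have hc := h.c256_ne
  field_simp
  ring

/-- **QEP for the chart of `t₂⁻¹`.** -/
theorem qep_inf (h : HauptT2107 Fc R V j t) {w : Ω} (hw : w ∈ Fc)
    (q₁ : Qep107 Fc R V w j) (q₂ : Qep107 Fc R V w j⁻¹) : Qep107 Fc R V w t⁻¹ := by
  refine qep_transfer107 (a := -256) (b := 1) hw q₁ q₂ h.open1_inf h.open2_inf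
    (Subring.neg_mem _ (ofNat_mem _ _)) (Subring.one_mem _) ?_
  ring

end HauptT2107

end Fermat.Agent.S18.H107

end
-- ===== PACK-END S18/H107/T2Qep.lean

-- ===== PACK-BEGIN S18/H438/Front/Transport2.lean
section


/-!
# S18 / ALG-FRONT (helper438), part 5: transport of charts and of the `q`-expansion principle

* `mem_baseRing_iff`  : `a ∈ R[z] ⊆ Fc`  ↔  `(a : Ω) ∈ Alg.polyRing R z`;
* `mem_chartRing_iff` : `b ∈ chartRing (Rf Fc R) z`  ↔  `(b : Ω) ∈ Alg.chart Fc R z`;
* `transcendental_xf`, `transcendental_xf_inv`;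
* `qep_fin`, `qep_inf` in the form used by `Front/Gauss.lean`.
-/

set_option autoImplicit false
set_option linter.style.haveILetI false
set_option linter.unusedSectionVars false

noncomputable section

namespace Fermat.Agent.S18.H438

open Alg Polynomial

variable {Ω : Type*} [Field Ω] {Lc Ec Fc : Subfield Ω} {R V : Subring Ω} {w x : Ω}
  {S : Finset Ω}

section Generic

variable (Fc R) (z : Fc)

/-- `R[z] ⊆ Fc` maps into `polyRing R z ⊆ Ω`. -/
theorem coe_mem_polyRing_of_mem_baseRing {a : Fc} (ha : a ∈ baseRing (Rf Fc R) z) :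
    (a : Ω) ∈ polyRing R (z : Ω) := by
  unfold baseRing at ha
  induction ha using Algebra.adjoin_induction with
  | mem y hy =>
    rw [Set.mem_singleton_iff] at hy
    subst hy
    exact Subring.subset_closure (Or.inr rfl)
  | algebraMap r => exact Subring.subset_closure (Or.inl r.2)
  | add y y' _ _ hy hy' => exact (polyRing R (z : Ω)).add_mem hy hy'
  | mul y y' _ _ hy hy' => exact (polyRing R (z : Ω)).mul_mem hy hy'

/-- `polyRing R z ⊆ Ω` comes from `R[z] ⊆ Fc`, provided `R ⊆ Fc`. -/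
theorem exists_mem_baseRing_of_mem_polyRing (hR : ∀ r ∈ R, r ∈ Fc) {c : Ω}
    (hc : c ∈ polyRing R (z : Ω)) : ∃ a ∈ baseRing (Rf Fc R) z, (a : Ω) = c := by
  have hle : polyRing R (z : Ω) ≤ (baseRing (Rf Fc R) z).toSubring.map Fc.subtype := by
    unfold polyRing
    rw [Subring.closure_le]
    rintro y (hy | hy)
    · refine ⟨⟨y, hR y hy⟩, ?_, rfl⟩
      exact (baseRing (Rf Fc R) z).algebraMap_mem (⟨⟨y, hR y hy⟩, hy⟩ : Rf Fc R)
    · rw [Set.mem_singleton_iff] at hy
      subst hy
      exact ⟨z, self_mem_baseRing (Rf Fc R) z, rfl⟩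
  obtain ⟨a, ha, rfl⟩ := hle hc
  exact ⟨a, ha, rfl⟩

theorem mem_baseRing_iff (hR : ∀ r ∈ R, r ∈ Fc) {a : Fc} :
    a ∈ baseRing (Rf Fc R) z ↔ (a : Ω) ∈ polyRing R (z : Ω) := by
  refine ⟨coe_mem_polyRing_of_mem_baseRing Fc R z, fun h => ?_⟩
  obtain ⟨a', ha', h'⟩ := exists_mem_baseRing_of_mem_polyRing Fc R z hR h
  rwa [← Subtype.ext h']

/-- the comparison map `R[z] → polyRing R z` -/
def baseToPoly : baseRing (Rf Fc R) z →+* polyRing R (z : Ω) :=
  (Fc.subtype.comp (baseRing (Rf Fc R) z).toSubring.subtype).codRestrict (polyRing R (z : Ω))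
    (fun a => coe_mem_polyRing_of_mem_baseRing Fc R z a.2)

theorem coe_baseToPoly (a : baseRing (Rf Fc R) z) :
    ((baseToPoly Fc R z a : polyRing R (z : Ω)) : Ω) = ((a : Fc) : Ω) := rfl

theorem algebraMap_comp_baseToPoly :
    (algebraMap (polyRing R (z : Ω)) Ω).comp (baseToPoly Fc R z) =
      Fc.subtype.comp (algebraMap (baseRing (Rf Fc R) z) Fc) := rfl

theorem baseToPoly_surjective (hR : ∀ r ∈ R, r ∈ Fc) :
    Function.Surjective (baseToPoly Fc R z) := by
  rintro ⟨c, hc⟩
  obtain ⟨a, ha, h⟩ := exists_mem_baseRing_of_mem_polyRing Fc R z hR hc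
  exact ⟨⟨a, ha⟩, Subtype.ext h⟩

/-- integrality over `R[z]` (inside `Fc`) is integrality over `polyRing R z` (inside `Ω`) -/
theorem isIntegral_baseRing_iff (hR : ∀ r ∈ R, r ∈ Fc) {b : Fc} :
    IsIntegral (baseRing (Rf Fc R) z) b ↔ IsIntegral (polyRing R (z : Ω)) (b : Ω) := by
  constructor
  · intro h
    exact IsIntegral.map_of_comp_eq (baseToPoly Fc R z) Fc.subtype
      (algebraMap_comp_baseToPoly Fc R z) h
  · rintro ⟨q, hq, hqb⟩
    -- lift the monic polynomial along the surjection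
    obtain ⟨p, hpq, hpdeg, hpmonic⟩ :=
      Polynomial.lifts_and_degree_eq_and_monic
        ((Polynomial.mem_lifts q).2 (by
          have hsurj := Polynomial.map_surjective (baseToPoly Fc R z)
            (baseToPoly_surjective Fc R z hR)
          exact hsurj q)) hq
    refine ⟨p, hpmonic, ?_⟩
    have h1 : Fc.subtype (Polynomial.eval₂ (algebraMap (baseRing (Rf Fc R) z) Fc) b p) = 0 := by
      rw [Polynomial.hom_eval₂, ← algebraMap_comp_baseToPoly, ← Polynomial.eval₂_map, hpq]
      exact hqb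
    exact Fc.subtype_injective (by rw [h1, map_zero])

theorem mem_chartRing_iff (hR : ∀ r ∈ R, r ∈ Fc) {b : Fc} :
    b ∈ chartRing (Rf Fc R) z ↔ (b : Ω) ∈ chart Fc R (z : Ω) := by
  show IsIntegral (baseRing (Rf Fc R) z) b ↔ _
  rw [isIntegral_baseRing_iff Fc R z hR]
  exact ⟨fun h => ⟨b.2, h⟩, fun h => h.2⟩

end Generic

namespace GoodModelFront

variable (G : GoodModel Lc Ec Fc R V w x S)

include G

/-- `x` is transcendental over `R`. -/
theorem transcendental_xf : Transcendental (Rf Fc R) (xf G) := by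
  rintro ⟨p, hp0, hp⟩
  let i : Rf Fc R →+* Lc :=
    (Fc.subtype.comp (Rf Fc R).subtype).codRestrict Lc.toSubring
      (fun r => G.E_le_L (G.R_le r.2))
  have hi : Function.Injective i := by
    intro a b hab
    apply Subtype.ext
    apply Subtype.ext
    exact congrArg (fun t : Lc => (t : Ω)) hab
  have hcomp : (algebraMap Lc Ω).comp i = Fc.subtype.comp (algebraMap (Rf Fc R) Fc) := rfl
  apply G.x_transcendental
  refine ⟨p.map i, (Polynomial.map_ne_zero_iff hi).2 hp0, ?_⟩
  rw [Polynomial.aeval_def, Polynomial.eval₂_map, hcomp]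
  have h1 := Polynomial.hom_eval₂ p (algebraMap (Rf Fc R) Fc) Fc.subtype (xf G)
  rw [Polynomial.aeval_def] at hp
  rw [hp, map_zero] at h1
  exact h1.symm

theorem transcendental_xf_inv : Transcendental (Rf Fc R) (xf G)⁻¹ :=
  fun h => transcendental_xf G (IsAlgebraic.inv_iff.1 h)

/-- `qep` on the finite chart, in `Fc`. -/
theorem qep_fin' : ∀ b ∈ chartRing (Rf Fc R) (xf G), b * (wf G)⁻¹ ∈ Vf G →
    b * (wf G)⁻¹ ∈ chartRing (Rf Fc R) (xf G) := by
  intro b hb hbV
  rw [mem_chartRing_iff Fc R _ (fun r hr => R_le_Fc G hr)] at hb ⊢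
  exact G.qep_fin _ hb hbV

/-- `qep` on the chart at infinity, in `Fc`. -/
theorem qep_inf' : ∀ b ∈ chartRing (Rf Fc R) (xf G)⁻¹, b * (wf G)⁻¹ ∈ Vf G →
    b * (wf G)⁻¹ ∈ chartRing (Rf Fc R) (xf G)⁻¹ := by
  intro b hb hbV
  rw [mem_chartRing_iff Fc R _ (fun r hr => R_le_Fc G hr)] at hb ⊢
  exact G.qep_inf _ hb hbV

end GoodModelFront

end Fermat.Agent.S18.H438

end
end
-- ===== PACK-END S18/H438/Front/Transport2.lean

-- ===== PACK-BEGIN S18/H138/Connected.lean
section



/-!
# S18, Route K, ASM (helper138): the special fibre of the `x`-line model is connected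

Setting: `R` a noetherian domain with `R[X]` integrally closed (e.g. a DVR), `w ∈ R` a prime
element, `F` a field of characteristic `0` containing `R`, `x ∈ F` transcendental over `R`,
`F` finite over the subfield `baseField R x` generated by `R` and `x`, and `R` integrally closed
in `F` (i.e. `Frac R` is algebraically closed in `F` and `R` is normal).

`B_fin = chart R {x}`, `B_inf = chart R {x⁻¹}`, `B_mid = chart R {x, x⁻¹}` are the integral
closures of `R[x]`, `R[x⁻¹]`, `R[x, x⁻¹]` in `F`.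

**Theorem** (`connected_special_fibre`).  If `e₁ ∈ B_fin`, `e₂ ∈ B_inf` are idempotent modulo
`w` (in their charts) and `e₁ ≡ e₂ mod w B_mid`, then `(e₁, e₂) ≡ (0, 0)` or `(1, 1)` modulo `w`.

This is the statement "`H⁰(X_k, O) = k`" for the normal model `X = Spec B_fin ∪ Spec B_inf`,
proved by the two-chart Čech argument of `H558.cech_connected` (`H¹(X, O)` is a finitely
generated `R`-module).
-/

set_option autoImplicit false
set_option linter.style.haveILetI false

namespace Fermat.Agent.S18.H138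

open Polynomial

variable {R : Type*} [CommRing R] {F : Type*} [Field F] [Algebra R F]

/-- Elements of the base field integral over an integrally closed subalgebra with that
fraction field lie in the subalgebra. -/
theorem mem_of_isIntegral_of_mem (A : Subalgebra R F) [IsIntegrallyClosed A] (K : Subfield F)
    (hAK : ∀ a ∈ A, a ∈ K) (hfrac : ∀ z ∈ K, ∃ a ∈ A, ∃ b ∈ A, z = a / b)
    {z : F} (hzK : z ∈ K) (hz : IsIntegral A z) : z ∈ A := by
  have h := minpoly_coeff_mem A K hAK hfrac hz 0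
  have h2 : minpoly K z = X - C (⟨z, hzK⟩ : K) :=
    minpoly.eq_X_sub_C_of_algebraMap_inj (⟨z, hzK⟩ : K) (algebraMap K F).injective
  rw [h2] at h
  simp only [coeff_sub, coeff_X_zero, coeff_C_zero, zero_sub] at h
  have : -(-z) ∈ A := A.neg_mem h
  simpa using this

/-- `R / w → B_fin / w` is injective. -/
theorem dvd_of_algebraMap_eq_mul [IsIntegrallyClosed R[X]]
    (hinjR : Function.Injective (algebraMap R F)) {x : F} (hx : Transcendental R x)
    (w a : R) {t : F} (ht : t ∈ chart R ({x} : Set F))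
    (h : algebraMap R F a = algebraMap R F w * t) : w ∣ a := by
  by_cases hw : w = 0
  · subst hw
    rw [map_zero, zero_mul] at h
    have : a = 0 := hinjR (by rw [h, map_zero])
    rw [this]
  have hwF : algebraMap R F w ≠ 0 := fun h0 => hw (hinjR (by rw [h0, map_zero]))
  haveI := isIntegrallyClosed_adjoin_singleton (R := R) hx
  have htK : t ∈ baseField R x := by
    have : t = algebraMap R F a / algebraMap R F w := by
      rw [h, mul_div_cancel_left₀ _ hwF]
    rw [this]
    exact (baseField R x).div_mem (Subfield.subset_closure (Or.inl ⟨a, rfl⟩))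
      (Subfield.subset_closure (Or.inl ⟨w, rfl⟩))
  have htA : t ∈ Algebra.adjoin R ({x} : Set F) :=
    mem_of_isIntegral_of_mem _ (baseField R x) (fun a ha => adjoin_le_baseField x ha)
      (fun z hz => exists_div_of_mem_baseField x hz) htK ht
  obtain ⟨P, rfl⟩ := mem_adjoin_singleton_iff.1 htA
  have h3 : aeval x (C a - C w * P) = 0 := by
    rw [map_sub, map_mul, aeval_C, aeval_C, h, sub_self]
  have h4 := (transcendental_iff.1 hx) _ h3
  have h5 : C a = C w * P := sub_eq_zero.1 h4
  refine ⟨P.coeff 0, ?_⟩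
  have := congrArg (fun p : R[X] => p.coeff 0) h5
  simpa using this

section Finite

variable [IsNoetherianRing R] [IsIntegrallyClosed R[X]] [CharZero F]

/-- `B_fin` is generated as an `R`-module by finitely many families `x ^ j * bs i`. -/
theorem exists_finite_gens {x : F} (hx : Transcendental R x)
    [FiniteDimensional (baseField R x) F] :
    ∃ (n : ℕ) (bs : Fin n → F), (∀ i, bs i ∈ chart R ({x} : Set F)) ∧
      ∀ b ∈ chart R ({x} : Set F),
        b ∈ Submodule.span R {z : F | ∃ (j : ℕ) (i : Fin n), z = x ^ j * bs i} := by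
  classical
  set A : Subalgebra R F := Algebra.adjoin R ({x} : Set F) with hA
  set K : Subfield F := baseField R x with hK
  haveI := isIntegrallyClosed_adjoin_singleton (R := R) hx
  haveI := isNoetherianRing_adjoin_singleton (R := R) hx
  let φ : A →+* K :=
    { toFun := fun a => ⟨a, adjoin_le_baseField x a.2⟩
      map_one' := rfl
      map_mul' := fun _ _ => rfl
      map_zero' := rfl
      map_add' := fun _ _ => rfl }
  letI : Algebra A K := φ.toAlgebra
  haveI : IsScalarTower A K F := IsScalarTower.of_algebraMap_eq (fun _ => rfl)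
  have hinj : Function.Injective (algebraMap A K) := by
    intro a b hab
    have : (a : F) = b := congrArg (fun t : K => (t : F)) hab
    exact Subtype.ext this
  haveI : FaithfulSMul A K := (faithfulSMul_iff_algebraMap_injective A K).2 hinj
  haveI : IsFractionRing A K := by
    refine IsFractionRing.of_field A K (fun z => ?_)
    obtain ⟨a, ha, b, hb, h⟩ := exists_div_of_mem_baseField (R := R) x z.2
    exact ⟨⟨a, ha⟩, ⟨b, hb⟩, Subtype.ext h⟩
  haveI : CharZero K := (algebraMap K F).charZero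
  haveI : Module.Finite A (integralClosure A F) :=
    IsIntegralClosure.finite A K F (integralClosure A F)
  obtain ⟨n, s, hs⟩ := Module.Finite.exists_fin (R := A) (M := integralClosure A F)
  refine ⟨n, fun i => (s i : F), fun i => (s i).2, ?_⟩
  intro b hb
  set T : Submodule R F :=
    Submodule.span R {z : F | ∃ (j : ℕ) (i : Fin n), z = x ^ j * (s i : F)} with hT
  -- `T` is stable under multiplication by `x`, hence by `A`
  have hxT : ∀ z ∈ T, x * z ∈ T := by
    intro z hz
    induction hz using Submodule.span_induction with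
    | mem z hz =>
      obtain ⟨j, i, rfl⟩ := hz
      exact Submodule.subset_span ⟨j + 1, i, by ring⟩
    | zero => simp
    | add y z _ _ hy hz => rw [mul_add]; exact T.add_mem hy hz
    | smul r z _ hz => rw [mul_smul_comm]; exact T.smul_mem r hz
  have hAT : ∀ a ∈ A, ∀ z ∈ T, a * z ∈ T := by
    intro a ha
    induction ha using Algebra.adjoin_induction with
    | mem y hy =>
      rw [Set.mem_singleton_iff] at hy
      subst hy
      exact hxT
    | algebraMap r =>
      intro z hz
      rw [← Algebra.smul_def]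
      exact T.smul_mem r hz
    | add y z _ _ hy hz =>
      intro u hu
      rw [add_mul]
      exact T.add_mem (hy u hu) (hz u hu)
    | mul y z _ _ hy hz =>
      intro u hu
      rw [mul_assoc]
      exact hy _ (hz u hu)
  have hb' : (⟨b, hb⟩ : integralClosure A F) ∈ Submodule.span A (Set.range s) := by
    rw [hs]; trivial
  have key : ∀ c : integralClosure A F, c ∈ Submodule.span A (Set.range s) → (c : F) ∈ T := by
    intro c hc
    induction hc using Submodule.span_induction with
    | mem c hc =>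
      obtain ⟨i, rfl⟩ := hc
      exact Submodule.subset_span ⟨0, i, by simp⟩
    | zero => simp
    | add y z _ _ hy hz => exact T.add_mem hy hz
    | smul a z _ hz => exact hAT a a.2 _ hz
  exact key _ hb'

/-- **Connectedness of the special fibre of the normal `x`-line model.** -/
theorem connected_special_fibre
    (hinjR : Function.Injective (algebraMap R F))
    (hRF : ∀ y : F, IsIntegral R y → y ∈ Set.range (algebraMap R F))
    {x : F} (hx : Transcendental R x) [FiniteDimensional (baseField R x) F]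
    (w : R) (hw : Prime w)
    (e₁ e₂ : F) (he₁ : e₁ ∈ chart R ({x} : Set F)) (he₂ : e₂ ∈ chart R ({x⁻¹} : Set F))
    (hi₁ : ∃ t ∈ chart R ({x} : Set F), e₁ ^ 2 - e₁ = algebraMap R F w * t)
    (hi₂ : ∃ t ∈ chart R ({x⁻¹} : Set F), e₂ ^ 2 - e₂ = algebraMap R F w * t)
    (h₁₂ : ∃ t ∈ chart R ({x, x⁻¹} : Set F), e₁ - e₂ = algebraMap R F w * t) :
    ((∃ t ∈ chart R ({x} : Set F), e₁ = algebraMap R F w * t) ∧
      (∃ t ∈ chart R ({x⁻¹} : Set F), e₂ = algebraMap R F w * t)) ∨
    ((∃ t ∈ chart R ({x} : Set F), 1 - e₁ = algebraMap R F w * t) ∧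
      (∃ t ∈ chart R ({x⁻¹} : Set F), 1 - e₂ = algebraMap R F w * t)) := by
  have hx0 : x ≠ 0 := ne_zero_of_transcendental hx
  obtain ⟨n, bs, hbs, hgen⟩ := exists_finite_gens (R := R) hx
  exact cech_connected_sub (ι := Fin n) w x x⁻¹ (mul_inv_cancel₀ hx0)
    (chart R {x}) (chart R {x⁻¹}) (chart R {x, x⁻¹})
    (chart_mono (by simp)) (chart_mono (by simp))
    (mem_chart_of_mem rfl) (mem_chart_of_mem rfl) bs hbs hgen
    (fun b hb => exists_pow_mul_mem_chart hx0 hb)
    (fun i => exists_inv_pow_mul_mem_chart hx0 (hbs i))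
    (fun b hbf hbi => by
      obtain ⟨a, ha⟩ := hRF b (isIntegral_of_mem_chart_inter hx hbf hbi)
      exact ⟨a, ha⟩)
    (fun a ⟨t, ht, h⟩ => dvd_of_algebraMap_eq_mul hinjR hx w a ht h)
    (fun a b h => hw.dvd_or_dvd h)
    e₁ e₂ he₁ he₂ hi₁ hi₂ h₁₂

end Finite

end Fermat.Agent.S18.H138

end
-- ===== PACK-END S18/H138/Connected.lean

-- ===== PACK-BEGIN S18/B12/H33/CoreAux.lean
section



/-!
# S18 b2.5 (helper33): auxiliary lemmas for the assembly of `B2CoreAbsStatement`
-/

set_option autoImplicit false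

noncomputable section

namespace Fermat.Agent.S18.B12.H33

open Polynomial

universe u v

section Quot

variable {P : Type u} [CommRing P] (w : P)

/-- `a ∈ (w, p)` iff `mk p ∣ mk a` in `P/(w)`. -/
theorem mem_span_pair_iff_mk_dvd (p a : P) :
    a ∈ Ideal.span {w, p} ↔
      Ideal.Quotient.mk (Ideal.span {w}) p ∣ Ideal.Quotient.mk (Ideal.span {w}) a := by
  constructor
  · intro h
    rw [Ideal.mem_span_pair] at h
    obtain ⟨c, d, rfl⟩ := h
    refine ⟨Ideal.Quotient.mk _ d, ?_⟩
    have hw0 : Ideal.Quotient.mk (Ideal.span {w}) w = 0 :=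
      Ideal.Quotient.eq_zero_iff_mem.mpr (Ideal.mem_span_singleton_self w)
    simp [map_add, map_mul, hw0, mul_comm]
  · rintro ⟨c, hc⟩
    obtain ⟨d, rfl⟩ := Ideal.Quotient.mk_surjective c
    rw [← map_mul, Ideal.Quotient.eq, Ideal.mem_span_singleton] at hc
    obtain ⟨e, he⟩ := hc
    rw [Ideal.mem_span_pair]
    refine ⟨e, d, ?_⟩
    have : a = w * e + p * d := by linear_combination he
    rw [this]; ring

theorem span_pair_eq_comap (p : P) :
    Ideal.span {w, p} = Ideal.comap (Ideal.Quotient.mk (Ideal.span {w}))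
      (Ideal.span {Ideal.Quotient.mk (Ideal.span {w}) p}) := by
  ext a
  rw [mem_span_pair_iff_mk_dvd, Ideal.mem_comap, Ideal.mem_span_singleton]

end Quot

end Fermat.Agent.S18.B12.H33

end
end
-- ===== PACK-END S18/B12/H33/CoreAux.lean

-- ===== PACK-BEGIN S18/B12/H444/GenericDiscr.lean
section




/-!
# S18 / b2.5 / A5 (helper444): the generic-fibre discriminant bound

Frozen statement: `GenericDiscrStatement` of `Fermat/Agent/S18/B12/Spec2.lean` (helper33);
exact-shape theorem `genericDiscr : GenericDiscrStatement` in `GenericDiscrSpec.lean`.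

Main theorem here (abstract over the localisations `Λ = P[1/w]`, `C₀ = B[1/w]`):

    theorem genericDiscr_abs  -- P int. closed noetherian domain, B normal finite torsion-free / P,
        (w : P) (hw0 : w ≠ 0) Λ C₀ [IsLocalization (powers w) Λ]
        [IsLocalization (algebraMapSubmonoid B (powers w)) C₀] [IsPrincipalIdealRing Λ] [Algebra ℚ Λ]
        (π : P) (hπ : Prime π) (hπw : ¬ π ∣ w) (n) (x : Fin n → B) (hli : LinearIndependent P x)
        (g : P) (hgπ : ¬ π ∣ g) (hg : ∀ b, g • b ∈ span P (range x)) (r) (y : Fin r → B)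
        (hy : ∀ a, ∑ i, a i • y i ∈ (span {algebraMap P B π}).radical → ∀ i, π ∣ a i) :
        ¬ π ^ (n - r + 1) ∣ (Matrix.of fun i j => Algebra.intTrace P B (x i * x j)).det

Proof: `C₀` is a Dedekind domain, free of rank `n` over the PID `Λ`; the integral trace localises
(`Algebra.intTrace_eq_of_isLocalization`); the base-change matrix `U` from a `Λ`-basis `β` of `C₀`
to `x` has `t ∤ det U` (`t` = image of `π`), so `t^k ∣ disc(x) = det U² · disc β` forces
`t^k ∣ disc β`, contradicting helper274's tame bound `H274.tameDiscr`.  The independence of `y`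
modulo `rad(t C₀)` descends from `B` by clearing denominators and the regular-sequence lemma
`dvd_of_mul_eq_mul` (A0-type, via helper203's `isIntegral_of_isIntegral_mul`).
-/

set_option autoImplicit false

noncomputable section

namespace Fermat.Agent.S18.B12.H444

open Polynomial Module Matrix

universe u v

section RegSeq

variable {P : Type u} [CommRing P] [IsDomain P] [IsIntegrallyClosed P]
  {B : Type v} [CommRing B] [IsDomain B] [IsIntegrallyClosed B] [Algebra P B]
  [Algebra.IsIntegral P B] [Module.IsTorsionFree P B]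

/-- Regular sequence (A0-type): `π` prime in `P`, `π ∤ u`, `u z ∈ π B` implies `z ∈ π B`. -/
theorem dvd_of_mul_eq_mul {π u : P} (hπ : Prime π) (hu : ¬ π ∣ u) {z b : B}
    (h : algebraMap P B u * z = algebraMap P B π * b) :
    ∃ b'' : B, z = algebraMap P B π * b'' := by
  let K := FractionRing P
  let F := FractionRing B
  letI : Algebra K F := FractionRing.liftAlgebra P F
  haveI : IsScalarTower P K F := FractionRing.isScalarTower_liftAlgebra P F
  have hinjPB : Function.Injective (algebraMap P B) := FaithfulSMul.algebraMap_injective P B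
  have hπB : algebraMap P B π ≠ 0 := (map_ne_zero_iff _ hinjPB).mpr hπ.ne_zero
  have hπF : algebraMap P F π ≠ 0 := by
    rw [IsScalarTower.algebraMap_apply P B F]
    exact (map_ne_zero_iff _ (IsFractionRing.injective B F)).mpr hπB
  set ζ : F := (algebraMap P F π)⁻¹ * algebraMap B F z with hζ
  have h1 : algebraMap P F π * ζ = algebraMap B F z := by
    rw [hζ, mul_inv_cancel_left₀ hπF]
  have h2 : algebraMap P F u * ζ = algebraMap B F b := by
    have h' := congrArg (algebraMap B F) h
    rw [map_mul, map_mul, ← IsScalarTower.algebraMap_apply P B F,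
      ← IsScalarTower.algebraMap_apply P B F] at h'
    rw [hζ, mul_left_comm, h', inv_mul_cancel_left₀ hπF]
  have hint : IsIntegral P ζ := by
    refine Fermat.Agent.S18.H203.isIntegral_of_isIntegral_mul K hπ hu ?_ ?_
    · rw [h1]
      exact (Algebra.IsIntegral.isIntegral (R := P) z).map (IsScalarTower.toAlgHom P B F)
    · rw [h2]
      exact (Algebra.IsIntegral.isIntegral (R := P) b).map (IsScalarTower.toAlgHom P B F)
  have hintB : IsIntegral B ζ := hint.tower_top
  obtain ⟨b'', hb''⟩ := (IsIntegrallyClosed.isIntegral_iff (R := B) (K := F)).mp hintB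
  refine ⟨b'', ?_⟩
  apply IsFractionRing.injective B F
  rw [map_mul, hb'', ← h1, IsScalarTower.algebraMap_apply P B F]

end RegSeq

section Loc

theorem powers_le_nonZeroDivisors' {P : Type u} [CommRing P] [IsDomain P] (w : P) (hw0 : w ≠ 0) :
    Submonoid.powers w ≤ nonZeroDivisors P := by
  rintro a ⟨k, rfl⟩
  exact mem_nonZeroDivisors_of_ne_zero (pow_ne_zero k hw0)

theorem map_powers_le_nonZeroDivisors' {P : Type u} [CommRing P] [IsDomain P]
    (B : Type v) [CommRing B] [IsDomain B] [Algebra P B] [Module.IsTorsionFree P B]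
    (w : P) (hw0 : w ≠ 0) :
    Algebra.algebraMapSubmonoid B (Submonoid.powers w) ≤ nonZeroDivisors B := by
  rintro a ⟨b, ⟨k, rfl⟩, rfl⟩
  refine mem_nonZeroDivisors_of_ne_zero ?_
  exact (map_ne_zero_iff _ (FaithfulSMul.algebraMap_injective P B)).mpr (pow_ne_zero k hw0)

theorem isDomain_loc {P : Type u} [CommRing P] [IsDomain P]
    (B : Type v) [CommRing B] [IsDomain B] [Algebra P B] [Module.IsTorsionFree P B]
    (w : P) (C₀ : Type v) [CommRing C₀] [Algebra B C₀]
    [IsLocalization (Algebra.algebraMapSubmonoid B (Submonoid.powers w)) C₀]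
    (hw0 : w ≠ 0) : IsDomain C₀ :=
  IsLocalization.isDomain_of_le_nonZeroDivisors _ (map_powers_le_nonZeroDivisors' B w hw0)

theorem injective_algebraMap_loc {P : Type u} [CommRing P] [IsDomain P]
    (B : Type v) [CommRing B] [IsDomain B] [Algebra P B] [Module.IsTorsionFree P B]
    (w : P)
    (Λ : Type u) [CommRing Λ] [Algebra P Λ] [IsLocalization (Submonoid.powers w) Λ]
    (C₀ : Type v) [CommRing C₀] [Algebra B C₀] [Algebra Λ C₀] [Algebra P C₀]
    [IsScalarTower P Λ C₀] [IsScalarTower P B C₀]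
    [IsLocalization (Algebra.algebraMapSubmonoid B (Submonoid.powers w)) C₀]
    (hw0 : w ≠ 0) : Function.Injective (algebraMap Λ C₀) := by
  have hBC : Function.Injective (algebraMap B C₀) :=
    IsLocalization.injective C₀ (map_powers_le_nonZeroDivisors' B w hw0)
  have hPB : Function.Injective (algebraMap P B) := FaithfulSMul.algebraMap_injective P B
  rw [injective_iff_map_eq_zero]
  intro a ha
  obtain ⟨⟨p, s⟩, hps⟩ := IsLocalization.surj (Submonoid.powers w) a
  simp only at hps
  have h1 : algebraMap Λ C₀ (algebraMap P Λ p) = 0 := by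
    rw [← hps, map_mul, ha, zero_mul]
  rw [← IsScalarTower.algebraMap_apply, IsScalarTower.algebraMap_apply P B C₀] at h1
  have h2 : p = 0 := by
    have := (map_eq_zero_iff _ hBC).mp h1
    exact (map_eq_zero_iff _ hPB).mp this
  rw [h2, map_zero] at hps
  have hu : IsUnit (algebraMap P Λ s) := IsLocalization.map_units Λ s
  exact (hu.mul_left_eq_zero).mp hps

theorem isDedekindDomain_loc {P : Type u} [CommRing P] [IsDomain P] [IsNoetherianRing P]
    (B : Type v) [CommRing B] [IsDomain B] [IsIntegrallyClosed B] [Algebra P B]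
    [Module.Finite P B] [Module.IsTorsionFree P B]
    (w : P)
    (Λ : Type u) [CommRing Λ] [Algebra P Λ] [IsLocalization (Submonoid.powers w) Λ]
    (C₀ : Type v) [CommRing C₀] [Algebra B C₀] [Algebra Λ C₀] [Algebra P C₀]
    [IsScalarTower P Λ C₀] [IsScalarTower P B C₀]
    [IsLocalization (Algebra.algebraMapSubmonoid B (Submonoid.powers w)) C₀]
    [IsDomain Λ] [IsPrincipalIdealRing Λ] (hw0 : w ≠ 0) :
    IsDedekindDomain C₀ := by
  have : IsDomain C₀ := isDomain_loc B w C₀ hw0
  have : IsNoetherianRing B := IsNoetherianRing.of_finite P B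
  have : IsNoetherianRing C₀ :=
    IsLocalization.isNoetherianRing (Algebra.algebraMapSubmonoid B (Submonoid.powers w)) C₀
      inferInstance
  have : IsIntegrallyClosed C₀ :=
    isIntegrallyClosed_of_isLocalization C₀ _ (map_powers_le_nonZeroDivisors' B w hw0)
  have : Module.Finite Λ C₀ := Module.Finite.of_isLocalization P B (Submonoid.powers w)
  have : Algebra.IsIntegral Λ C₀ := Algebra.IsIntegral.of_finite Λ C₀
  have : Ring.DimensionLEOne C₀ := Ring.DimensionLEOne.of_isIntegral Λ C₀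
  exact { }

end Loc

section Abstract

variable {P : Type u} [CommRing P] [IsDomain P]
  (w : P)
  (Λ : Type u) [CommRing Λ] [Algebra P Λ] [IsLocalization (Submonoid.powers w) Λ]

include w in
omit [IsDomain P] in
theorem not_dvd_pow_of_not_dvd {π : P} (hπ : Prime π) (hπw : ¬ π ∣ w) (k : ℕ) : ¬ π ∣ w ^ k :=
  fun h => hπw (hπ.dvd_of_dvd_pow h)

omit [IsDomain P] in
theorem disjoint_powers {π : P} (hπ : Prime π) (hπw : ¬ π ∣ w) :
    Disjoint (Submonoid.powers w : Set P) (Ideal.span {π} : Ideal P) := by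
  rw [Set.disjoint_left]
  rintro a ⟨k, rfl⟩ ha
  exact not_dvd_pow_of_not_dvd w hπ hπw k (Ideal.mem_span_singleton.mp ha)

theorem prime_map {π : P} (hπ : Prime π) (hπw : ¬ π ∣ w) (hw0 : w ≠ 0) :
    Prime (algebraMap P Λ π) := by
  have hinj : Function.Injective (algebraMap P Λ) :=
    IsLocalization.injective Λ (powers_le_nonZeroDivisors' w hw0)
  have h0 : algebraMap P Λ π ≠ 0 := (map_ne_zero_iff _ hinj).mpr hπ.ne_zero
  rw [← Ideal.span_singleton_prime h0]
  have := IsLocalization.isPrime_of_isPrime_disjoint (Submonoid.powers w) Λ (Ideal.span {π})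
    ((Ideal.span_singleton_prime hπ.ne_zero).mpr hπ) (disjoint_powers w hπ hπw)
  rwa [Ideal.map_span, Set.image_singleton] at this

omit [IsDomain P] in
theorem dvd_of_map_dvd {π : P} (hπ : Prime π) (hπw : ¬ π ∣ w) {a : P}
    (h : algebraMap P Λ π ∣ algebraMap P Λ a) : π ∣ a := by
  have h1 := IsLocalization.under_map_of_isPrime_disjoint (Submonoid.powers w) Λ
    ((Ideal.span_singleton_prime hπ.ne_zero).mpr hπ) (disjoint_powers w hπ hπw)
  have h2 : a ∈ (Ideal.map (algebraMap P Λ) (Ideal.span {π})).under P := by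
    rw [Ideal.under_def, Ideal.mem_comap, Ideal.map_span, Set.image_singleton]
    exact Ideal.mem_span_singleton.mpr h
  rw [h1] at h2
  exact Ideal.mem_span_singleton.mp h2

end Abstract
section Loc2

/-- The trace of `B[1/w]` over `P[1/w]` restricts to the integral trace of `B` over `P`. -/
theorem map_intTrace_eq_trace {P : Type u} [CommRing P] [IsDomain P] [IsIntegrallyClosed P]
    (B : Type v) [CommRing B] [IsDomain B] [IsIntegrallyClosed B] [Algebra P B]
    [Module.Finite P B] [Module.IsTorsionFree P B]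
    (w : P)
    (Λ : Type u) [CommRing Λ] [Algebra P Λ] [IsLocalization (Submonoid.powers w) Λ]
    (C₀ : Type v) [CommRing C₀] [Algebra B C₀] [Algebra Λ C₀] [Algebra P C₀]
    [IsScalarTower P Λ C₀] [IsScalarTower P B C₀]
    [IsLocalization (Algebra.algebraMapSubmonoid B (Submonoid.powers w)) C₀]
    [IsDomain Λ] [IsPrincipalIdealRing Λ] (hw0 : w ≠ 0) (b : B) :
    algebraMap P Λ (Algebra.intTrace P B b) = Algebra.trace Λ C₀ (algebraMap B C₀ b) := by
  have : IsDomain C₀ := isDomain_loc B w C₀ hw0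
  have : IsIntegrallyClosed C₀ :=
    isIntegrallyClosed_of_isLocalization C₀ _ (map_powers_le_nonZeroDivisors' B w hw0)
  have : Module.Finite Λ C₀ := Module.Finite.of_isLocalization P B (Submonoid.powers w)
  have : Module.IsTorsionFree Λ C₀ :=
    isTorsionFree_iff_algebraMap_injective.mpr (injective_algebraMap_loc B w Λ C₀ hw0)
  have : Module.Free Λ C₀ := Module.free_of_finite_type_torsion_free'
  rw [Algebra.intTrace_eq_of_isLocalization P B (Submonoid.powers w) (Aₘ := Λ) (Bₘ := C₀) b,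
    Algebra.intTrace_eq_trace]

/-- Radical membership descends from `B[1/w]` to `B` (regular sequence `π, w`). -/
theorem mem_radical_of_map_mem_radical {P : Type u} [CommRing P] [IsDomain P]
    [IsIntegrallyClosed P]
    (B : Type v) [CommRing B] [IsDomain B] [IsIntegrallyClosed B] [Algebra P B]
    [Module.Finite P B] [Module.IsTorsionFree P B]
    (w : P)
    (Λ : Type u) [CommRing Λ] [Algebra P Λ]
    (C₀ : Type v) [CommRing C₀] [Algebra B C₀] [Algebra Λ C₀] [Algebra P C₀]
    [IsScalarTower P Λ C₀] [IsScalarTower P B C₀]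
    [IsLocalization (Algebra.algebraMapSubmonoid B (Submonoid.powers w)) C₀]
    (hw0 : w ≠ 0) {π : P} (hπ : Prime π) (hπw : ¬ π ∣ w) {z : B}
    (h : algebraMap B C₀ z ∈ (Ideal.span {algebraMap Λ C₀ (algebraMap P Λ π)}).radical) :
    z ∈ (Ideal.span {algebraMap P B π}).radical := by
  have hBC : Function.Injective (algebraMap B C₀) :=
    IsLocalization.injective C₀ (map_powers_le_nonZeroDivisors' B w hw0)
  obtain ⟨N, hN⟩ := h
  obtain ⟨c, hc⟩ := Ideal.mem_span_singleton'.mp hN
  obtain ⟨⟨b, s⟩, hbs⟩ :=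
    IsLocalization.surj (Algebra.algebraMapSubmonoid B (Submonoid.powers w)) c
  simp only at hbs
  obtain ⟨s', ⟨k, rfl⟩, hs'⟩ := s.2
  have hs'' : (s : B) = algebraMap P B (w ^ k) := hs'.symm
  have e1 : algebraMap Λ C₀ (algebraMap P Λ π) = algebraMap B C₀ (algebraMap P B π) := by
    rw [← IsScalarTower.algebraMap_apply, ← IsScalarTower.algebraMap_apply]
  have key : algebraMap P B (w ^ k) * z ^ N = algebraMap P B π * b := by
    apply hBC
    rw [map_mul, map_mul, map_pow (algebraMap B C₀) z N, ← hc, e1, ← hbs, hs'']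
    ring
  have hnd : ¬ π ∣ w ^ k := fun h => hπw (hπ.dvd_of_dvd_pow h)
  obtain ⟨b'', hb''⟩ := dvd_of_mul_eq_mul hπ hnd key
  refine ⟨N, Ideal.mem_span_singleton'.mpr ⟨b'', ?_⟩⟩
  rw [hb'', mul_comm]

/-- A local spanning family stays spanning (up to `g`) after inverting `w`. -/
theorem smul_mem_span_loc {P : Type u} [CommRing P]
    (B : Type v) [CommRing B] [Algebra P B]
    (w : P)
    (Λ : Type u) [CommRing Λ] [Algebra P Λ] [IsLocalization (Submonoid.powers w) Λ]
    (C₀ : Type v) [CommRing C₀] [Algebra B C₀] [Algebra Λ C₀] [Algebra P C₀]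
    [IsScalarTower P Λ C₀] [IsScalarTower P B C₀]
    [IsLocalization (Algebra.algebraMapSubmonoid B (Submonoid.powers w)) C₀]
    {n : ℕ} (x : Fin n → B) (g : P)
    (hg : ∀ b : B, g • b ∈ Submodule.span P (Set.range x)) (c : C₀) :
    algebraMap P Λ g • c ∈ Submodule.span Λ (Set.range (algebraMap B C₀ ∘ x)) := by
  obtain ⟨⟨b, s⟩, hbs⟩ :=
    IsLocalization.surj (Algebra.algebraMapSubmonoid B (Submonoid.powers w)) c
  simp only at hbs
  obtain ⟨s', ⟨k, rfl⟩, hs'⟩ := s.2
  have hs'' : (s : B) = algebraMap P B (w ^ k) := hs'.symm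
  have hu : IsUnit (algebraMap P Λ (w ^ k)) :=
    IsLocalization.map_units Λ (⟨w ^ k, k, rfl⟩ : Submonoid.powers w)
  obtain ⟨v, hv⟩ := hu.exists_left_inv
  -- `c = v • ι b`
  have hc : c = v • algebraMap B C₀ b := by
    rw [← hbs, hs'', ← IsScalarTower.algebraMap_apply P B C₀,
      IsScalarTower.algebraMap_apply P Λ C₀, Algebra.smul_def, ← mul_assoc, mul_comm _ c,
      mul_assoc, ← map_mul, hv, map_one, mul_one]
  -- `ι (g • b)` lies in the span
  have h1 : algebraMap B C₀ (g • b) ∈ Submodule.span Λ (Set.range (algebraMap B C₀ ∘ x)) := by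
    have h2 := hg b
    have h3 : (IsScalarTower.toAlgHom P B C₀).toLinearMap (g • b) ∈
        Submodule.map (IsScalarTower.toAlgHom P B C₀).toLinearMap
          (Submodule.span P (Set.range x)) := Submodule.mem_map_of_mem h2
    rw [Submodule.map_span, ← Set.range_comp] at h3
    have h4 : Submodule.span P (Set.range ((IsScalarTower.toAlgHom P B C₀).toLinearMap ∘ x)) ≤
        (Submodule.span Λ (Set.range (algebraMap B C₀ ∘ x))).restrictScalars P :=
      Submodule.span_le_restrictScalars P Λ _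
    exact h4 h3
  have h5 : algebraMap P Λ g • c = v • algebraMap B C₀ (g • b) := by
    rw [hc, Algebra.smul_def g b, map_mul, ← IsScalarTower.algebraMap_apply P B C₀,
      IsScalarTower.algebraMap_apply P Λ C₀, ← Algebra.smul_def, smul_comm]
  rw [h5]
  exact Submodule.smul_mem _ _ h1

end Loc2

section Main

/-- **A5, abstract form.**  `Λ = P[1/w]` a PID containing `ℚ`, `C₀ = B[1/w]`. -/
theorem genericDiscr_abs {P : Type u} [CommRing P] [IsDomain P] [IsIntegrallyClosed P]
    [IsNoetherianRing P]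
    (B : Type v) [CommRing B] [IsDomain B] [IsIntegrallyClosed B] [Algebra P B]
    [Module.Finite P B] [Module.IsTorsionFree P B]
    (w : P) (hw0 : w ≠ 0)
    (Λ : Type u) [CommRing Λ] [Algebra P Λ] [IsLocalization (Submonoid.powers w) Λ]
    (C₀ : Type v) [CommRing C₀] [Algebra B C₀] [Algebra Λ C₀] [Algebra P C₀]
    [IsScalarTower P Λ C₀] [IsScalarTower P B C₀]
    [IsLocalization (Algebra.algebraMapSubmonoid B (Submonoid.powers w)) C₀]
    [IsDomain Λ] [IsPrincipalIdealRing Λ] [Algebra ℚ Λ]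
    (π : P) (hπ : Prime π) (hπw : ¬ π ∣ w)
    (n : ℕ) (x : Fin n → B) (hli : LinearIndependent P x)
    (g : P) (hgπ : ¬ π ∣ g) (hg : ∀ b : B, g • b ∈ Submodule.span P (Set.range x))
    (r : ℕ) (y : Fin r → B)
    (hy : ∀ a : Fin r → P,
      (∑ i, a i • y i) ∈ (Ideal.span {algebraMap P B π}).radical → ∀ i, π ∣ a i) :
    ¬ π ^ (n - r + 1) ∣ (Matrix.of fun i j => Algebra.intTrace P B (x i * x j)).det := by
  classical
  have hD : IsDedekindDomain C₀ := isDedekindDomain_loc B w Λ C₀ hw0
  have : Module.Finite Λ C₀ := Module.Finite.of_isLocalization P B (Submonoid.powers w)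
  have hinjΛ := injective_algebraMap_loc B w Λ C₀ hw0
  have : Module.IsTorsionFree Λ C₀ := isTorsionFree_iff_algebraMap_injective.mpr hinjΛ
  have : Module.Free Λ C₀ := Module.free_of_finite_type_torsion_free'
  have hinjP : Function.Injective (algebraMap P Λ) :=
    IsLocalization.injective Λ (powers_le_nonZeroDivisors' w hw0)
  set t := algebraMap P Λ π with ht_def
  have ht : Prime t := prime_map w Λ hπ hπw hw0
  set x' : Fin n → C₀ := algebraMap B C₀ ∘ x with hx'
  have hli' : LinearIndependent Λ x' :=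
    hli.localization_localization (Rₛ := Λ) (Submonoid.powers w) C₀
  have hg0 : algebraMap P Λ g ≠ 0 := by
    intro h
    apply hgπ
    have : g = 0 := hinjP (by rw [h, map_zero])
    rw [this]
    exact dvd_zero π
  have hspan : ∀ c : C₀, algebraMap P Λ g • c ∈ Submodule.span Λ (Set.range x') :=
    fun c => smul_mem_span_loc B w Λ C₀ x g hg c
  -- rank
  have hn : Module.finrank Λ C₀ = n := by
    apply le_antisymm
    · let φ : C₀ →ₗ[Λ] Submodule.span Λ (Set.range x') :=
        LinearMap.codRestrict _ (algebraMap P Λ g • LinearMap.id) hspan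
      have hφ : Function.Injective φ := by
        intro c c' hcc
        have h1 : algebraMap P Λ g • c = algebraMap P Λ g • c' := congrArg Subtype.val hcc
        exact smul_right_injective C₀ hg0 h1
      calc Module.finrank Λ C₀
          ≤ Module.finrank Λ (Submodule.span Λ (Set.range x')) :=
            LinearMap.finrank_le_finrank_of_injective hφ
        _ ≤ Fintype.card (Fin n) := finrank_range_le_card x'
        _ = n := Fintype.card_fin n
    · have := hli'.fintype_card_le_finrank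
      simpa using this
  let β : Module.Basis (Fin n) Λ C₀ := Module.finBasisOfFinrankEq Λ C₀ hn
  let U : Matrix (Fin n) (Fin n) Λ := fun i j => β.repr (x' i) j
  have hU : x' = (U.map (algebraMap Λ C₀)) *ᵥ β := by
    ext i
    simp only [Matrix.mulVec, dotProduct]
    calc x' i = ∑ j, β.repr (x' i) j • β j := (β.sum_repr (x' i)).symm
      _ = _ := Finset.sum_congr rfl (fun j _ => by rw [Matrix.map_apply, Algebra.smul_def])
  have hV : ∀ j, ∃ c : Fin n → Λ, ∑ i, c i • x' i = algebraMap P Λ g • β j := fun j =>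
    (Submodule.mem_span_range_iff_exists_fun Λ).mp (hspan (β j))
  choose V hVeq using hV
  have hVU : (Matrix.of V) * U = algebraMap P Λ g • (1 : Matrix (Fin n) (Fin n) Λ) := by
    ext j l
    have h1 := congrArg (fun z => β.repr z l) (hVeq j)
    simp only [map_sum, map_smul, Finsupp.coe_finsetSum, Finsupp.coe_smul, Finset.sum_apply,
      Pi.smul_apply, smul_eq_mul, Module.Basis.repr_self] at h1
    rw [Matrix.mul_apply, Matrix.smul_apply, Matrix.one_apply, smul_eq_mul]
    simp only [Matrix.of_apply, U]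
    rw [h1, Finsupp.single_apply]
  have hdetU : ¬ t ∣ U.det := by
    intro hdvd
    have h1 : (Matrix.of V).det * U.det = (algebraMap P Λ g) ^ n := by
      rw [← Matrix.det_mul, hVU, Matrix.det_smul, Matrix.det_one, mul_one, Fintype.card_fin]
    have h2 : t ∣ algebraMap P Λ g ^ n := h1 ▸ Dvd.dvd.mul_left hdvd _
    have h3 : t ∣ algebraMap P Λ g := ht.dvd_of_dvd_pow h2
    exact hgπ (dvd_of_map_dvd w Λ hπ hπw h3)
  have hdisc : algebraMap P Λ ((Matrix.of fun i j => Algebra.intTrace P B (x i * x j)).det)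
      = U.det ^ 2 * Algebra.discr Λ β := by
    rw [← Algebra.discr_of_matrix_mulVec, ← hU, Algebra.discr_def, RingHom.map_det]
    congr 1
    ext i j
    simp only [RingHom.mapMatrix_apply, Matrix.map_apply, Matrix.of_apply,
      Algebra.traceMatrix_apply, Algebra.traceForm_apply, hx', Function.comp_apply]
    rw [map_intTrace_eq_trace B w Λ C₀ hw0, map_mul]
  have hy' : ∀ a : Fin r → Λ,
      (∑ i, a i • (algebraMap B C₀ ∘ y) i) ∈ (Ideal.span {algebraMap Λ C₀ t}).radical →
        ∀ i, t ∣ a i := by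
    intro a ha i
    obtain ⟨s, hs⟩ := IsLocalization.exist_integer_multiples_of_finite (Submonoid.powers w) a
    choose a' ha' using hs
    have hz : algebraMap B C₀ (∑ i, a' i • y i) =
        algebraMap Λ C₀ (algebraMap P Λ (s : P)) * ∑ i, a i • (algebraMap B C₀ ∘ y) i := by
      rw [map_sum, Finset.mul_sum]
      refine Finset.sum_congr rfl fun i _ => ?_
      rw [Algebra.smul_def (a' i) (y i), map_mul, ← IsScalarTower.algebraMap_apply P B C₀,
        IsScalarTower.algebraMap_apply P Λ C₀, ha' i, Algebra.smul_def, map_mul,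
        Algebra.smul_def, Function.comp_apply]
      ring
    have hmem : algebraMap B C₀ (∑ i, a' i • y i) ∈
        (Ideal.span {algebraMap Λ C₀ (algebraMap P Λ π)}).radical := by
      rw [hz]
      exact Ideal.mul_mem_left _ _ ha
    have h1 : π ∣ a' i :=
      hy a' (mem_radical_of_map_mem_radical B w Λ C₀ hw0 hπ hπw hmem) i
    have h2 : t ∣ algebraMap P Λ (a' i) := map_dvd (algebraMap P Λ) h1
    rw [ha' i, Algebra.smul_def] at h2
    exact ((IsLocalization.map_units Λ s).dvd_mul_left).mp h2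
  have htame := Fermat.Agent.S18.H274.tameDiscr Λ t ht C₀ n β r (algebraMap B C₀ ∘ y) hy'
  intro hdvd
  apply htame
  have h4 : t ^ (n - r + 1) ∣ U.det ^ 2 * Algebra.discr Λ β := by
    rw [← hdisc, ht_def, ← map_pow]
    exact map_dvd (algebraMap P Λ) hdvd
  exact ht.pow_dvd_of_dvd_mul_left _ (fun h => hdetU (ht.dvd_of_dvd_pow h)) h4

end Main

end Fermat.Agent.S18.B12.H444

end
end
-- ===== PACK-END S18/B12/H444/GenericDiscr.lean

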