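import Fermat.Prelude.Def_ModularCurve_X0ModL
import Fermat.Prelude.Thm_ModularCurve_coeffMap_qExpand
import Fermat.Prelude.Def_FLTPrelim_Ramification
import Mathlib
import Fermat.Agent.Pack.S3234.G0E5L2
import Fermat.Agent.Pack.S3234.G0E3L2
import Fermat.Agent.Pack.S3234.G0E5L0
import Fermat.Agent.Pack.S3234.G0E5L3
import Fermat.Agent.Pack.S3234.G0E1L1
import Fermat.Agent.Pack.S3234.G0E3L1
import Fermat.Agent.Pack.S3234.G0E5L1
import Fermat.Agent.Pack.S3234.G0E1L2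
import Fermat.Agent.Pack.S3234.G0E2L3
import Fermat.Agent.Pack.S3234.G0E1L0
import Fermat.Agent.Pack.S3234.G0E4L2
import Fermat.Agent.Pack.S3234.G0E4L3

-- ===== PACK-BEGIN S30/H990/Glue.lean
section
/-
S30 top glue (helper990): assembly.
`result_of : ChebWeak → HasAdicEigenModules → <frozen statement S30>` (with `𝒪'' := 𝒪'`).
-/




set_option autoImplicit false

namespace Fermat.Agent.S30.H990

open Polynomial Fermat.Agent.S55.H414

section Assembly

variable {p N : ℕ} [Fact p.Prime] [NeZero N] {S : Finset ℕ}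
  {𝒪 : Type} [CommRing 𝒪] [IsDomain 𝒪] [IsDiscreteValuationRing 𝒪]
  [IsAdicComplete (IsLocalRing.maximalIdeal 𝒪) 𝒪] [Finite (IsLocalRing.ResidueField 𝒪)]
  {χ : CuspForm.heckeAlgebra N 2 (↑S : Set ℕ) →+* 𝒪}

/-- The quadratic relation modulo `𝔪 ^ n` for every element of `G_ℚ`. -/
theorem exists_rel_mod (hcheb : ChebWeak) (hpS : p ∈ S)
    (hNS : ∀ q : ℕ, q.Prime → q ∣ N → q ∈ S) (E : AdicEigenModule p N S 𝒪 χ)
    (d : GQ →* 𝒪ˣ)
    (hdfrob : ∀ ℓ : ℕ, ℓ.Prime → ℓ ≠ p → ∀ A : ValuationSubring (AlgebraicClosure ℚ),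
      A.LiesOverPrime ℓ → ∀ σ : GQ, A.IsFrobeniusAt σ ℓ → ((d σ : 𝒪ˣ) : 𝒪) = (ℓ : 𝒪))
    (hdcont : ∀ (n : ℕ) (σ : GQ), (∀ x ∈ cycloLevel (p ^ n), σ x = x) →
      ((d σ : 𝒪ˣ) : 𝒪) - 1 ∈ IsLocalRing.maximalIdeal 𝒪 ^ n)
    (g : GQ) (n : ℕ) :
    ∃ a : 𝒪, ∀ v : E.M, E.ρ g (E.ρ g v) - a • E.ρ g v + ((d g : 𝒪ˣ) : 𝒪) • v
      ∈ (IsLocalRing.maximalIdeal 𝒪 ^ n) • (⊤ : Submodule 𝒪 E.M) := by
  obtain ⟨L₁, hL₁fin, hL₁⟩ := E.cont n
  have : FiniteDimensional ℚ L₁ := hL₁fin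
  have hLfin : FiniteDimensional ℚ ↥(L₁ ⊔ cycloLevel (p ^ n)) :=
    IntermediateField.finiteDimensional_sup L₁ (cycloLevel (p ^ n))
  obtain ⟨ℓ, hℓ, hℓS, A, hA, τ, hτ, j, hj⟩ := hcheb (L₁ ⊔ cycloLevel (p ^ n)) hLfin g S
  have hℓp : ℓ ≠ p := fun h => hℓS (h ▸ hpS)
  have hℓN : ¬ ℓ ∣ N := fun h => hℓS (hNS ℓ hℓ h)
  have hℓS' : ℓ ∉ (↑S : Set ℕ) := fun h => hℓS (Finset.mem_coe.mp h)
  -- `g = τ ^ j * σ` with `σ` fixing `L`
  set σ : GQ := (τ ^ j)⁻¹ * g with hσ
  have hg : g = τ ^ j * σ := by rw [hσ, mul_inv_cancel_left]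
  have hσfix : ∀ x ∈ L₁ ⊔ cycloLevel (p ^ n), σ x = x := by
    intro x hx
    have h1 : σ x = (τ ^ j)⁻¹ (g x) := rfl
    rw [h1, hj x hx]
    exact (τ ^ j).symm_apply_apply x
  have hs : ∀ v : E.M, E.ρ σ v - v
      ∈ (IsLocalRing.maximalIdeal 𝒪 ^ n) • (⊤ : Submodule 𝒪 E.M) :=
    hL₁ σ (fun x hx => hσfix x ((le_sup_left : L₁ ≤ L₁ ⊔ cycloLevel (p ^ n)) hx))
  have hu : ((d σ : 𝒪ˣ) : 𝒪) - 1 ∈ IsLocalRing.maximalIdeal 𝒪 ^ n :=
    hdcont n σ (fun x hx =>
      hσfix x ((le_sup_right : cycloLevel (p ^ n) ≤ L₁ ⊔ cycloLevel (p ^ n)) hx))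
  have hfrob := E.frob ℓ hℓ hℓN hℓS' A hA τ hτ
  obtain ⟨t, ht⟩ := lucas (E.ρ τ) (χ (CuspForm.heckeAlgebra.T hℓ hℓN hℓS')) (ℓ : 𝒪) hfrob j
  refine ⟨t, fun v => ?_⟩
  have key := rel_mod_of_mul (IsLocalRing.maximalIdeal 𝒪 ^ n) (E.ρ τ ^ j) (E.ρ σ) t
    ((ℓ : 𝒪) ^ j) ((d σ : 𝒪ˣ) : 𝒪) ht hs hu v
  have hρg : E.ρ g = E.ρ τ ^ j * E.ρ σ := by rw [hg, map_mul, map_pow]
  have hdg : ((d g : 𝒪ˣ) : 𝒪) = (ℓ : 𝒪) ^ j * ((d σ : 𝒪ˣ) : 𝒪) := by
    rw [hg, map_mul, map_pow, Units.val_mul, Units.val_pow_eq_pow_val,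
      hdfrob ℓ hℓ hℓp A hA τ hτ]
  rw [hρg, hdg]
  exact key

/-- From an adic eigenmodule to a two-dimensional adic Galois representation. -/
theorem exists_galoisRepAdic [CharZero 𝒪] (hcheb : ChebWeak) (hpS : p ∈ S)
    (hNS : ∀ q : ℕ, q.Prime → q ∣ N → q ∈ S)
    (hp𝒪 : (p : 𝒪) ∈ IsLocalRing.maximalIdeal 𝒪) (E : AdicEigenModule p N S 𝒪 χ) :
    ∃ ρ : GaloisRepAdic 𝒪,
      (∀ (ℓ : ℕ) (hℓ : ℓ.Prime) (hℓN : ¬ ℓ ∣ N) (hℓS : ℓ ∉ (↑S : Set ℕ)),
        ∀ A : ValuationSubring (AlgebraicClosure ℚ), A.LiesOverPrime ℓ →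
          ∀ σ : AlgebraicClosure ℚ ≃ₐ[ℚ] AlgebraicClosure ℚ, A.IsFrobeniusAt σ ℓ →
            LinearMap.charpoly (ρ.ρ σ) =
              X ^ 2 - C (χ (CuspForm.heckeAlgebra.T hℓ hℓN hℓS)) * X + C ((ℓ : 𝒪))) ∧
      (∀ q : ℕ, q.Prime → ¬ q ∣ N → q ≠ p → ρ.IsUnramifiedAt q) := by
  obtain ⟨d, hdfrob, hdinert, hdc, hdcont⟩ := exists_cyclo p 𝒪 hp𝒪
  have hrel : ∀ g : GQ, ∃ a, Rel E.ρ d g a := fun g =>
    exists_rel_of_mod E.ρ d g (fun n => exists_rel_mod hcheb hpS hNS E d hdfrob hdcont g n)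
  have h2 : (2 : 𝒪) ≠ 0 := two_ne_zero
  obtain ⟨T⟩ := exists_twoDim E.ρ d h2 hrel complexConjugation complexConjugation_mul_self hdc
  refine ⟨{ V := T.V
            finrank_eq := T.finrank_eq
            ρ := T.ρ₂
            isAdicContinuous := ?_ }, ?_, ?_⟩
  · intro n
    obtain ⟨L₁, hL₁fin, hL₁⟩ := E.cont n
    have : FiniteDimensional ℚ L₁ := hL₁fin
    refine ⟨L₁ ⊔ cycloLevel (p ^ n),
      IntermediateField.finiteDimensional_sup L₁ (cycloLevel (p ^ n)), fun σ hσ v => ?_⟩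
    refine T.cong (IsLocalRing.maximalIdeal 𝒪 ^ n) σ ?_ ?_ v
    · exact hL₁ σ (fun x hx => hσ x ((le_sup_left : L₁ ≤ L₁ ⊔ cycloLevel (p ^ n)) hx))
    · exact hdcont n σ (fun x hx =>
        hσ x ((le_sup_right : cycloLevel (p ^ n) ≤ L₁ ⊔ cycloLevel (p ^ n)) hx))
  · intro ℓ hℓ hℓN hℓS A hA σ hσ
    have hℓp : ℓ ≠ p := fun h => hℓS (Finset.mem_coe.mpr (h ▸ hpS))
    have hr : Rel E.ρ d σ (χ (CuspForm.heckeAlgebra.T hℓ hℓN hℓS)) := by
      unfold Rel
      rw [hdfrob ℓ hℓ hℓp A hA σ hσ]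
      exact E.frob ℓ hℓ hℓN hℓS A hA σ hσ
    have := T.charpoly_eq σ _ hr
    rw [hdfrob ℓ hℓ hℓp A hA σ hσ] at this
    exact this
  · intro q hq hqN hqp P hP σ hσ
    have h1 : E.ρ σ = 1 := E.unram q hq hqN hqp P hP σ hσ
    have h2 : d σ = 1 := hdinert q hq hqp P hP σ hσ
    have h3 := T.cong ⊥ σ (fun v => by rw [h1]; simp) (by rw [h2]; simp)
    ext v
    have h4 := h3 v
    rw [Submodule.bot_smul, Submodule.mem_bot, sub_eq_zero] at h4
    simpa using h4

end Assembly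

/-- **S30 from the Chebotarev hypothesis and the adic eigenmodules.** -/
theorem result_of (hcheb : ChebWeak) (hmod : HasAdicEigenModules) :
    ∀ (p : ℕ) [Fact p.Prime] (N : ℕ) [NeZero N] (S : Finset ℕ)
      (_hpS : p ∈ S) (_hNS : ∀ q : ℕ, q.Prime → q ∣ N → q ∈ S)
      (𝒪' : Type) [CommRing 𝒪'] [IsDomain 𝒪'] [IsDiscreteValuationRing 𝒪']
      [IsAdicComplete (IsLocalRing.maximalIdeal 𝒪') 𝒪'] [Finite (IsLocalRing.ResidueField 𝒪')]
      [CharZero 𝒪'] (_hp𝒪' : (p : 𝒪') ∈ IsLocalRing.maximalIdeal 𝒪')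
      (χ : CuspForm.heckeAlgebra N 2 (↑S : Set ℕ) →+* 𝒪'),
      ∃ (𝒪'' : Type) (_ : CommRing 𝒪'') (_ : IsDomain 𝒪'') (_ : IsDiscreteValuationRing 𝒪'')
        (_ : IsAdicComplete (IsLocalRing.maximalIdeal 𝒪'') 𝒪'')
        (_ : Finite (IsLocalRing.ResidueField 𝒪'')) (_ : CharZero 𝒪'')
        (_ : Algebra 𝒪' 𝒪'') (_ : Module.Finite 𝒪' 𝒪'') (_ : IsLocalHom (algebraMap 𝒪' 𝒪'')),
      Function.Injective (algebraMap 𝒪' 𝒪'') ∧
      ∃ ρ : GaloisRepAdic 𝒪'',
        (∀ (ℓ : ℕ) (hℓ : ℓ.Prime) (hℓN : ¬ ℓ ∣ N) (hℓS : ℓ ∉ (↑S : Set ℕ)),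
          ∀ A : ValuationSubring (AlgebraicClosure ℚ), A.LiesOverPrime ℓ →
            ∀ σ : AlgebraicClosure ℚ ≃ₐ[ℚ] AlgebraicClosure ℚ, A.IsFrobeniusAt σ ℓ →
              LinearMap.charpoly (ρ.ρ σ) =
                X ^ 2 - C (algebraMap 𝒪' 𝒪'' (χ (CuspForm.heckeAlgebra.T hℓ hℓN hℓS))) * X
                  + C ((ℓ : 𝒪''))) ∧
        (∀ q : ℕ, q.Prime → ¬ q ∣ N → q ≠ p → ρ.IsUnramifiedAt q) := by
  intro p _ N _ S hpS hNS 𝒪' _ _ _ _ _ _ hp𝒪' χ
  obtain ⟨E⟩ := hmod p N S hpS hNS 𝒪' hp𝒪' χ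
  obtain ⟨ρ, hρ1, hρ2⟩ := exists_galoisRepAdic hcheb hpS hNS hp𝒪' E
  exact ⟨𝒪', inferInstance, inferInstance, inferInstance, inferInstance, inferInstance,
    inferInstance, Algebra.id 𝒪', Module.Finite.self 𝒪', isLocalHom_id 𝒪',
    Function.injective_id, ρ, hρ1, hρ2⟩

end Fermat.Agent.S30.H990

end
-- ===== PACK-END S30/H990/Glue.lean

-- ===== PACK-BEGIN Lib/Cheb/FrobeniusDivision.lean
section



/-!
# CHEB, Tier 1 END: the Frobenius division theorem over `ℚ̄`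

`Fermat.Agent.Lib.Cheb.frobeniusDivision : Spec.FrobeniusDivisionStatement`

For every finite extension `E ⊆ ℚ̄` of `ℚ`, every `σ ∈ Gal(ℚ̄/ℚ)` and every finite set `S` of
numbers there are a prime `ℓ ∉ S`, a valuation subring `A` of `ℚ̄` over `ℓ`, a Frobenius `τ` at `A`
(Prelude's `IsFrobeniusAt`) and exponents `k`, `j` such that the inertia group of `A` acts
trivially on `E`, `τ = σ ^ k` on `E` and `τ ^ j = σ` on `E`
(i.e. `τ|_E` and `σ|_E` generate the same cyclic subgroup: "Frobenius density, qualitative").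

Assembled from
* `frobFinite` (finite level, Galois number fields; pieces Z, B0, A, D, M), and
* `H476.bridgeDivision` (bridge F6 from the finite level to valuation subrings of `ℚ̄`).
-/

set_option autoImplicit false

namespace Fermat.Agent.Lib.Cheb

/-- **Frobenius division theorem** (qualitative Frobenius density theorem over `ℚ̄`). -/
theorem frobeniusDivision : Spec.FrobeniusDivisionStatement :=
  H476.bridgeDivision frobFinite

end Fermat.Agent.Lib.Cheb

end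
-- ===== PACK-END Lib/Cheb/FrobeniusDivision.lean

-- ===== PACK-BEGIN S30/H990/Final.lean
section
/-
S30 top glue (helper990): the frozen statement S30 from the adic eigenmodules alone
(the Chebotarev input is Tier 1 of the shared CHEB library).
-/




set_option autoImplicit false

namespace Fermat.Agent.S30.H990

open Polynomial

/-- **S30 from the adic eigenmodules.** -/
theorem result_of_hasAdicEigenModules (hmod : HasAdicEigenModules) :
    ∀ (p : ℕ) [Fact p.Prime] (N : ℕ) [NeZero N] (S : Finset ℕ)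
      (_hpS : p ∈ S) (_hNS : ∀ q : ℕ, q.Prime → q ∣ N → q ∈ S)
      (𝒪' : Type) [CommRing 𝒪'] [IsDomain 𝒪'] [IsDiscreteValuationRing 𝒪']
      [IsAdicComplete (IsLocalRing.maximalIdeal 𝒪') 𝒪'] [Finite (IsLocalRing.ResidueField 𝒪')]
      [CharZero 𝒪'] (_hp𝒪' : (p : 𝒪') ∈ IsLocalRing.maximalIdeal 𝒪')
      (χ : CuspForm.heckeAlgebra N 2 (↑S : Set ℕ) →+* 𝒪'),
      ∃ (𝒪'' : Type) (_ : CommRing 𝒪'') (_ : IsDomain 𝒪'') (_ : IsDiscreteValuationRing 𝒪'')
        (_ : IsAdicComplete (IsLocalRing.maximalIdeal 𝒪'') 𝒪'')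
        (_ : Finite (IsLocalRing.ResidueField 𝒪'')) (_ : CharZero 𝒪'')
        (_ : Algebra 𝒪' 𝒪'') (_ : Module.Finite 𝒪' 𝒪'') (_ : IsLocalHom (algebraMap 𝒪' 𝒪'')),
      Function.Injective (algebraMap 𝒪' 𝒪'') ∧
      ∃ ρ : GaloisRepAdic 𝒪'',
        (∀ (ℓ : ℕ) (hℓ : ℓ.Prime) (hℓN : ¬ ℓ ∣ N) (hℓS : ℓ ∉ (↑S : Set ℕ)),
          ∀ A : ValuationSubring (AlgebraicClosure ℚ), A.LiesOverPrime ℓ →
            ∀ σ : AlgebraicClosure ℚ ≃ₐ[ℚ] AlgebraicClosure ℚ, A.IsFrobeniusAt σ ℓ →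
              LinearMap.charpoly (ρ.ρ σ) =
                X ^ 2 - C (algebraMap 𝒪' 𝒪'' (χ (CuspForm.heckeAlgebra.T hℓ hℓN hℓS))) * X
                  + C ((ℓ : 𝒪''))) ∧
        (∀ q : ℕ, q.Prime → ¬ q ∣ N → q ≠ p → ρ.IsUnramifiedAt q) :=
  result_of (chebWeak_of_frobeniusDivision Fermat.Agent.Lib.Cheb.frobeniusDivision) hmod

end Fermat.Agent.S30.H990

end
-- ===== PACK-END S30/H990/Final.lean

-- ===== PACK-BEGIN S24/Inf/Gen.lean
section


/-!
# S24 / MOD-INF — expansions at `∞` of the functions `J((aτ+b)/d)` and distinctness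

Everything is stated for an abstract function `J : ℍ → ℂ` satisfying
* `hinv : ∀ γ : SL(2, ℤ), ∀ τ, J (γ • τ) = J τ`,
* `hexp : InfExp 1 J infJq` (the `q`-expansion of `J` is the Prelude series `jq`).
-/

set_option autoImplicit false

noncomputable section

open HahnSeries ModularCurve UpperHalfPlane Complex Matrix
open scoped Real MatrixGroups

namespace Fermat.Agent.S24

/-- The Prelude series `jq` with complex coefficients. -/
def infJq : LaurentSeries ℂ := coeffEmb ℂ jq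

theorem infJq_coeff (n : ℤ) : infJq.coeff n = ((jq.coeff n : ℚ) : ℂ) := rfl

theorem infJq_coeff_neg_one : infJq.coeff (-1) = 1 := by
  rw [infJq_coeff, coeff_jq_neg_one]; simp

theorem infJq_coeff_of_lt {k : ℤ} (hk : k < -1) : infJq.coeff k = 0 := by
  rw [infJq_coeff, coeff_jq_of_lt hk]; simp

theorem infJq_order : infJq.order = -1 :=
  inf_order_eq_of_coeff (by rw [infJq_coeff_neg_one]; exact one_ne_zero)
    (fun _ hm => infJq_coeff_of_lt hm)

theorem infJq_leadingCoeff : infJq.leadingCoeff = 1 := by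
  rw [leadingCoeff_eq, infJq_order, infJq_coeff_neg_one]

theorem infJq_ne_zero : infJq ≠ 0 := by
  intro h
  have := infJq_coeff_neg_one
  rw [h] at this
  simp at this

/-- The expansion of `J((aτ+b)/d)` in `z = exp(2πiτ/N)`, where `e = aN/d`. -/
def infGenExp (e : ℕ) [NeZero e] (b : ℤ) (d : ℕ) : LaurentSeries ℂ :=
  qExpand ℂ e (infTwist (infRoot b d) infJq)

theorem infGenExp_order (e : ℕ) [NeZero e] (b : ℤ) (d : ℕ) :
    (infGenExp e b d).order = -(e : ℤ) := by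
  rw [infGenExp, inf_qExpand_order, infTwist_order, infJq_order]
  ring

theorem infGenExp_leadingCoeff (e : ℕ) [NeZero e] (b : ℤ) (d : ℕ) :
    (infGenExp e b d).leadingCoeff = (((infRoot b d)⁻¹ : ℂˣ) : ℂ) := by
  rw [infGenExp, inf_qExpand_leadingCoeff, infTwist_leadingCoeff, infJq_leadingCoeff, infJq_order,
    one_mul, _root_.zpow_neg_one]

theorem infGenExp_ne_zero (e : ℕ) [NeZero e] (b : ℤ) (d : ℕ) : infGenExp e b d ≠ 0 := by
  rw [infGenExp, Ne, inf_qExpand_eq_zero_iff, infTwist_eq_zero_iff]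
  exact infJq_ne_zero

section Abstract

variable {J : ℍ → ℂ}

/-- Expansion of `J((aτ+b)/d)` in `z = exp(2πiτ/N)` when `e·d = a·N`. -/
theorem inf_J_infAff_exp (hexp : InfExp 1 J infJq) {N a d e : ℕ} [NeZero e] (b : ℤ)
    (ha : 0 < a) (hd : 0 < d) (hN : 0 < N) (he : e * d = a * N) :
    InfExp N (fun τ => J (infAff a b d τ)) (infGenExp e b d) := by
  have h := hexp.comp_infAff (e := e) b ha hd one_pos hN (by rw [mul_one]; exact he)
  rw [mul_one] at h
  exact h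

/-- The function `τ ↦ J(dτ)` has the expansion `jq(z^{dN})` in `z = exp(2πiτ/N)`. -/
theorem inf_J_mul_exp (hexp : InfExp 1 J infJq) {N d : ℕ} (hd : 0 < d) (hN : 0 < N) :
    haveI : NeZero (d * N) := ⟨(Nat.mul_pos hd hN).ne'⟩
    InfExp N (fun τ => J (infAff d 0 1 τ)) (qExpand ℂ (d * N) infJq) := by
  have : NeZero (d * N) := ⟨(Nat.mul_pos hd hN).ne'⟩
  have h := inf_J_infAff_exp hexp (e := d * N) 0 hd one_pos hN (by ring)
  rw [infGenExp, infRoot_zero, infTwist_one] at h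
  exact h

/-- For `d ∣ N` and `γ ∈ SL₂(ℤ)`, the function `τ ↦ J(d·γτ)` has a convergent expansion in
`z = exp(2πiτ/N)`. -/
theorem inf_J_mul_smul_mem_expRing (hinv : ∀ (γ : SL(2, ℤ)) (τ : ℍ), J (γ • τ) = J τ)
    (hexp : InfExp 1 J infJq) {N d : ℕ} [NeZero N] (hdN : d ∣ N) (γ : SL(2, ℤ)) :
    (fun τ => J (infAff d 0 1 (γ • τ))) ∈ expRing N := by
  have hN : 0 < N := Nat.pos_of_ne_zero (NeZero.ne N)
  have hd : 0 < d := Nat.pos_of_dvd_of_pos hdN hN
  obtain ⟨γ', a, d', b, ha, hd', had, h00, h01, h10, h11⟩ := inf_exists_hnf d hd γ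
  have hd'N : d' ∣ N := (Dvd.intro_left a had).trans hdN
  obtain ⟨c, hc⟩ := hd'N
  have hc0 : 0 < c := by
    rcases Nat.eq_zero_or_pos c with h | h
    · rw [h, mul_zero] at hc; omega
    · exact h
  have : NeZero (a * c) := ⟨(Nat.mul_pos ha hc0).ne'⟩
  have h := inf_J_infAff_exp hexp (e := a * c) (N := N) b ha hd' hN (by rw [hc]; ring)
  refine ⟨_, h.congr fun τ => ?_⟩
  rw [inf_aff_smul_eq hd ha hd' γ γ' h00 h01 h10 h11 τ, hinv]

end Abstract

end Fermat.Agent.S24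

namespace Fermat.Agent.S24

open HahnSeries ModularCurve UpperHalfPlane Complex Matrix
open scoped Real MatrixGroups

theorem inf_SL2_mul_inv_10 (γ γ' : SL(2, ℤ)) :
    (γ * γ'⁻¹) 1 0 = γ 1 0 * γ' 1 1 - γ 1 1 * γ' 1 0 := by
  rw [Matrix.SpecialLinearGroup.SL2_inv_expl γ']
  simp [Matrix.SpecialLinearGroup.coe_mul, Matrix.mul_apply, Fin.sum_univ_two]
  ring

theorem infRoot_eq_iff {b b₁ : ℤ} {d : ℕ} (hd : 0 < d) :
    infRoot b d = infRoot b₁ d ↔ (d : ℤ) ∣ b - b₁ := by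
  have hd0 : (d : ℂ) ≠ 0 := by exact_mod_cast hd.ne'
  have hpi : (2 * π * Complex.I : ℂ) ≠ 0 := Complex.two_pi_I_ne_zero
  rw [← Units.val_inj, infRoot_coe, infRoot_coe, Complex.exp_eq_exp_iff_exists_int]
  constructor
  · rintro ⟨n, hn⟩
    refine ⟨n, ?_⟩
    field_simp at hn
    have h4 : b = b₁ + d * n := by exact_mod_cast hn
    linarith
  · rintro ⟨n, hn⟩
    refine ⟨n, ?_⟩
    have h1 : (b : ℂ) = b₁ + d * n := by
      have : b = b₁ + d * n := by linarith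
      exact_mod_cast this
    rw [h1]
    field_simp

section Distinct

variable {J : ℍ → ℂ}

/-- **Distinctness.**  If `J(N·γτ) = J(N·γ'τ)` for all `τ`, then `γ γ'⁻¹ ∈ Γ₀(N)`. -/
theorem inf_distinct (hinv : ∀ (γ : SL(2, ℤ)) (τ : ℍ), J (γ • τ) = J τ)
    (hexp : InfExp 1 J infJq) {N : ℕ} [NeZero N] (γ γ' : SL(2, ℤ))
    (h : ∀ τ, J (infAff N 0 1 (γ • τ)) = J (infAff N 0 1 (γ' • τ))) :
    γ * γ'⁻¹ ∈ CongruenceSubgroup.Gamma0 N := by
  have hN : 0 < N := Nat.pos_of_ne_zero (NeZero.ne N)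
  obtain ⟨g, a, d, b, ha, hd, had, h00, h01, h10, h11⟩ := inf_exists_hnf N hN γ
  obtain ⟨g', a', d', b', ha', hd', had', h00', h01', h10', h11'⟩ := inf_exists_hnf N hN γ'
  have : NeZero (a * a) := ⟨(Nat.mul_pos ha ha).ne'⟩
  have : NeZero (a' * a') := ⟨(Nat.mul_pos ha' ha').ne'⟩
  have e1 := inf_J_infAff_exp hexp (e := a * a) (N := N) b ha hd hN (by rw [← had]; ring)
  have e2 := inf_J_infAff_exp hexp (e := a' * a') (N := N) b' ha' hd' hN (by rw [← had']; ring)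
  have hfun : ∀ τ, J (infAff a b d τ) = J (infAff a' b' d' τ) := by
    intro τ
    have := h τ
    rwa [inf_aff_smul_eq hN ha hd γ g h00 h01 h10 h11 τ, hinv,
      inf_aff_smul_eq hN ha' hd' γ' g' h00' h01' h10' h11' τ, hinv] at this
  have heq : infGenExp (a * a) b d = infGenExp (a' * a') b' d' := e1.unique' e2 hfun
  -- compare orders
  have hord := congrArg HahnSeries.order heq
  rw [infGenExp_order, infGenExp_order] at hord
  have haa : a * a = a' * a' := by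
    have : ((a * a : ℕ) : ℤ) = ((a' * a' : ℕ) : ℤ) := by linarith
    exact_mod_cast this
  have haeq : a = a' := Nat.mul_self_inj.mp haa
  subst haeq
  have hdeq : d = d' := by
    have : a * d = a * d' := by rw [had, had']
    exact Nat.eq_of_mul_eq_mul_left ha this
  subst hdeq
  -- compare leading coefficients
  have hlc := congrArg HahnSeries.leadingCoeff heq
  rw [infGenExp_leadingCoeff, infGenExp_leadingCoeff] at hlc
  have hroot : infRoot b d = infRoot b' d := by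
    have := Units.val_inj.mp hlc
    exact inv_injective this
  obtain ⟨k, hk⟩ := (infRoot_eq_iff hd).mp hroot
  -- conclude
  rw [CongruenceSubgroup.Gamma0_mem, ZMod.intCast_zmod_eq_zero_iff_dvd, inf_SL2_mul_inv_10]
  have hNad : (N : ℤ) = a * d := by exact_mod_cast had.symm
  refine ⟨g 1 0 * g' 1 1 - g 1 1 * g' 1 0 - k * g 1 0 * g' 1 0, ?_⟩
  have hb : b = b' + d * k := by linarith
  rw [h10, h11, h10', h11', hNad, hb]
  ring

end Distinct

end Fermat.Agent.S24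

end
end
-- ===== PACK-END S24/Inf/Gen.lean

-- ===== PACK-BEGIN S28/H568/Series.lean
section



/-!
# S28 / H568 — formal preliminaries on `LaurentSeries ℂ`

* order / leading coefficient of integer powers and finite products;
* the subring of Laurent series with coefficients in a subring `C ⊆ ℂ`;
* `InfExp` for integer powers and finite products.
-/

set_option autoImplicit false

noncomputable section

open HahnSeries ModularCurve UpperHalfPlane Complex
open scoped Real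

namespace Fermat.Agent.S28.H568

open Fermat.Agent.S24

/-! ### order and leading coefficient -/

section Order

variable {K : Type*} [Field K]

theorem order_inv' {x : LaurentSeries K} (hx : x ≠ 0) : (x⁻¹).order = -x.order := by
  have h := HahnSeries.order_mul hx (inv_ne_zero hx)
  rw [mul_inv_cancel₀ hx, HahnSeries.order_one] at h
  linarith

theorem leadingCoeff_inv' (x : LaurentSeries K) : (x⁻¹).leadingCoeff = x.leadingCoeff⁻¹ := by
  rcases eq_or_ne x 0 with rfl | hx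
  · simp
  · have h := HahnSeries.leadingCoeff_mul x x⁻¹
    rw [mul_inv_cancel₀ hx, HahnSeries.leadingCoeff_one] at h
    exact eq_inv_of_mul_eq_one_right h.symm

theorem order_pow' {x : LaurentSeries K} (hx : x ≠ 0) (n : ℕ) :
    (x ^ n).order = n * x.order := by
  induction n with
  | zero => simp
  | succ n ih =>
    rw [pow_succ, HahnSeries.order_mul (pow_ne_zero n hx) hx, ih]
    push_cast
    ring

theorem leadingCoeff_pow' (x : LaurentSeries K) (n : ℕ) :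
    (x ^ n).leadingCoeff = x.leadingCoeff ^ n := by
  induction n with
  | zero => simp
  | succ n ih => rw [pow_succ, HahnSeries.leadingCoeff_mul, ih, pow_succ]

theorem order_zpow' {x : LaurentSeries K} (hx : x ≠ 0) (r : ℤ) :
    (x ^ r).order = r * x.order := by
  obtain ⟨n, rfl | rfl⟩ := r.eq_nat_or_neg
  · rw [zpow_natCast, order_pow' hx]
  · rw [zpow_neg, zpow_natCast, order_inv' (pow_ne_zero n hx), order_pow' hx]
    ring

theorem leadingCoeff_zpow' (x : LaurentSeries K) (r : ℤ) :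
    (x ^ r).leadingCoeff = x.leadingCoeff ^ r := by
  obtain ⟨n, rfl | rfl⟩ := r.eq_nat_or_neg
  · rw [zpow_natCast, zpow_natCast, leadingCoeff_pow']
  · rw [zpow_neg, zpow_natCast, zpow_neg, zpow_natCast, leadingCoeff_inv', leadingCoeff_pow']

theorem order_prod' {ι : Type*} (s : Finset ι) (f : ι → LaurentSeries K)
    (hf : ∀ i ∈ s, f i ≠ 0) : (∏ i ∈ s, f i).order = ∑ i ∈ s, (f i).order := by
  classical
  induction s using Finset.induction_on with
  | empty => simp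
  | insert a s ha ih =>
    rw [Finset.prod_insert ha, Finset.sum_insert ha,
      HahnSeries.order_mul (hf a (Finset.mem_insert_self a s))
        (Finset.prod_ne_zero_iff.mpr fun i hi => hf i (Finset.mem_insert_of_mem hi)),
      ih fun i hi => hf i (Finset.mem_insert_of_mem hi)]

theorem leadingCoeff_prod' {ι : Type*} (s : Finset ι) (f : ι → LaurentSeries K) :
    (∏ i ∈ s, f i).leadingCoeff = ∏ i ∈ s, (f i).leadingCoeff := by
  classical
  induction s using Finset.induction_on with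
  | empty => simp
  | insert a s ha ih =>
    rw [Finset.prod_insert ha, Finset.prod_insert ha, HahnSeries.leadingCoeff_mul, ih]

end Order

/-! ### series with coefficients in a subring -/

section Coeff

variable (C : Subring ℂ)

/-- Laurent series over `ℂ` all of whose coefficients lie in the subring `C`. -/
def coeffSubring : Subring (LaurentSeries ℂ) := (coeffMap C.subtype).range

variable {C}

theorem mem_coeffSubring_iff {φ : LaurentSeries ℂ} :
    φ ∈ coeffSubring C ↔ ∀ n, φ.coeff n ∈ C := by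
  constructor
  · rintro ⟨ψ, rfl⟩ n
    rw [coeffMap_coeff]
    exact (ψ.coeff n).2
  · intro h
    refine ⟨⟨fun n => ⟨φ.coeff n, h n⟩, φ.isPWO_support.mono fun n hn => ?_⟩, ?_⟩
    · simp only [Function.mem_support, ne_eq] at hn
      rw [mem_support]
      intro h0
      exact hn (Subtype.ext h0)
    · ext n
      rw [coeffMap_coeff]
      rfl

theorem C_mem_coeffSubring {c : ℂ} (hc : c ∈ C) : (HahnSeries.C c : LaurentSeries ℂ) ∈
    coeffSubring C := by
  rw [mem_coeffSubring_iff]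
  intro n
  rw [C_apply]
  by_cases hn : n = 0
  · subst hn; simpa using hc
  · rw [coeff_single_of_ne hn]; exact C.zero_mem

theorem qExpand_mem_coeffSubring (e : ℕ) [NeZero e] {φ : LaurentSeries ℂ}
    (hφ : φ ∈ coeffSubring C) : qExpand ℂ e φ ∈ coeffSubring C := by
  rw [mem_coeffSubring_iff] at hφ ⊢
  intro n
  by_cases hn : (e : ℤ) ∣ n
  · obtain ⟨k, rfl⟩ := hn
    rw [qExpand_coeff_mul]
    exact hφ k
  · rw [qExpand_coeff_of_not_dvd e _ hn]
    exact C.zero_mem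

theorem infTwist_mem_coeffSubring (u : ℂˣ) (hu : (u : ℂ) ∈ C) (hu' : ((u⁻¹ : ℂˣ) : ℂ) ∈ C)
    {φ : LaurentSeries ℂ} (hφ : φ ∈ coeffSubring C) : infTwist u φ ∈ coeffSubring C := by
  rw [mem_coeffSubring_iff] at hφ ⊢
  intro n
  rw [infTwist_coeff]
  refine C.mul_mem (hφ n) ?_
  obtain ⟨m, rfl | rfl⟩ := n.eq_nat_or_neg
  · rw [zpow_natCast, Units.val_pow_eq_pow_val]
    exact C.pow_mem hu m
  · rw [zpow_neg, zpow_natCast, ← inv_pow, Units.val_pow_eq_pow_val]
    exact C.pow_mem hu' m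

theorem coeffMap_int_mem_coeffSubring (ψ : LaurentSeries ℤ) :
    coeffMap (Int.castRingHom ℂ) ψ ∈ coeffSubring C := by
  rw [mem_coeffSubring_iff]
  intro n
  rw [coeffMap_coeff]
  exact intCast_mem C _

theorem leadingCoeff_mem_of_mem_coeffSubring {φ : LaurentSeries ℂ} (hφ : φ ∈ coeffSubring C) :
    φ.leadingCoeff ∈ C := by
  rw [leadingCoeff_eq]
  exact mem_coeffSubring_iff.mp hφ _

end Coeff

/-! ### `InfExp` for powers and products -/

section Exp

variable {N : ℕ}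

theorem InfExp.pow' {f : ℍ → ℂ} {φ : LaurentSeries ℂ} (hf : InfExp N f φ) (n : ℕ) :
    InfExp N (fun τ => f τ ^ n) (φ ^ n) := by
  induction n with
  | zero => simpa using (InfExp.one (N := N))
  | succ n ih =>
    have := ih.mul hf
    simpa [pow_succ] using this

theorem InfExp.zpow' {f : ℍ → ℂ} {φ ψ : LaurentSeries ℂ} (hf : InfExp N f φ)
    (hg : InfExp N (fun τ => (f τ)⁻¹) ψ) (hφψ : φ * ψ = 1) (r : ℤ) :
    InfExp N (fun τ => f τ ^ r) (φ ^ r) := by
  have hψ : ψ = φ⁻¹ := eq_inv_of_mul_eq_one_right hφψ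
  obtain ⟨n, rfl | rfl⟩ := r.eq_nat_or_neg
  · simpa using InfExp.pow' hf n
  · have := InfExp.pow' hg n
    rw [hψ] at this
    simpa [zpow_neg, inv_pow] using this

theorem InfExp.prod' {ι : Type*} (s : Finset ι) {f : ι → ℍ → ℂ} {φ : ι → LaurentSeries ℂ}
    (hf : ∀ i ∈ s, InfExp N (f i) (φ i)) :
    InfExp N (fun τ => ∏ i ∈ s, f i τ) (∏ i ∈ s, φ i) := by
  classical
  induction s using Finset.induction_on with
  | empty => simpa using (InfExp.one (N := N))
  | insert a s ha ih =>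
    have h1 := hf a (Finset.mem_insert_self a s)
    have h2 := ih fun i hi => hf i (Finset.mem_insert_of_mem hi)
    have := h1.mul h2
    simpa [Finset.prod_insert ha] using this

end Exp

end Fermat.Agent.S28.H568

end
end
-- ===== PACK-END S28/H568/Series.lean

-- ===== PACK-BEGIN S29/H395/GoodProd.lean
section
/-
S29 / layer M / bridge BR, piece NORM — helper395.

`heckeProd ℓ` preserves the landed ring `S24.H648.goodRing N` (holomorphic, `Γ₀(N)`-invariant, all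
`SL₂(ℤ)`-translates of at most exponential growth), for a prime `ℓ ∤ N`.
-/



set_option autoImplicit false
set_option linter.style.haveILetI false

noncomputable section

open CongruenceSubgroup Matrix.SpecialLinearGroup UpperHalfPlane
open scoped MatrixGroups Real Manifold OnePoint
open P2MW.S_ModularForm_heckeT_slash_eq_self_of_mem_Gamma0.ModularForm.HeckeSlashInvariance

namespace Fermat.Agent.S29.H395

open Fermat.Agent.S24 Fermat.Agent.S24.H648 Fermat.Agent.S29.H201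

/-! ### Finite products -/

theorem mdiff_finset_prod {ι : Type*} (s : Finset ι) (f : ι → ℍ → ℂ)
    (h : ∀ i ∈ s, MDifferentiable 𝓘(ℂ) 𝓘(ℂ) (f i)) :
    MDifferentiable 𝓘(ℂ) 𝓘(ℂ) (fun τ => ∏ i ∈ s, f i τ) := by
  classical
  induction s using Finset.induction_on with
  | empty => simpa using (mdifferentiable_const : MDifferentiable 𝓘(ℂ) 𝓘(ℂ) (fun _ : ℍ => (1 : ℂ)))
  | insert i s hi ih =>
    have h1 := h i (Finset.mem_insert_self i s)
    have h2 := ih fun j hj => h j (Finset.mem_insert_of_mem hj)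
    have := h1.mul h2
    have e : (fun τ => ∏ j ∈ insert i s, f j τ) = f i * fun τ => ∏ j ∈ s, f j τ := by
      funext τ
      simp [Finset.prod_insert hi]
    rw [e]
    exact this

theorem expGrowth_finset_prod {ι : Type*} (s : Finset ι) (f : ι → ℍ → ℂ)
    (h : ∀ i ∈ s, ExpGrowth (f i)) : ExpGrowth (fun τ => ∏ i ∈ s, f i τ) := by
  classical
  induction s using Finset.induction_on with
  | empty => simpa using expGrowth_const 1
  | insert i s hi ih =>
    have h1 := h i (Finset.mem_insert_self i s)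
    have h2 := ih fun j hj => h j (Finset.mem_insert_of_mem hj)
    have := h1.mul h2
    have e : (fun τ => ∏ j ∈ insert i s, f j τ) = f i * fun τ => ∏ j ∈ s, f j τ := by
      funext τ
      simp [Finset.prod_insert hi]
    rw [e]
    exact this

/-! ### Holomorphy -/

section Hol

variable {ℓ : ℕ} [Fact ℓ.Prime]

omit [Fact ℓ.Prime] in
theorem heckeRep_det_pos (x : OnePoint (ZMod ℓ)) : 0 < ((_root_.P2MW.S_ModularForm_heckeT_slash_eq_self_of_mem_Gamma0.ModularForm.HeckeSlashInvariance.heckeRep ℓ x).det : ℝ) := by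
  induction x using OnePoint.rec with
  | infty => exact ModularForm.det_heckeDiagMatrix_pos ℓ
  | coe j => exact ModularForm.det_heckeMatrix_pos ℓ j.val

theorem mdiff_heckeProd {U : ℍ → ℂ} (hU : MDifferentiable 𝓘(ℂ) 𝓘(ℂ) U) :
    MDifferentiable 𝓘(ℂ) 𝓘(ℂ) (heckeProd ℓ U) := by
  refine mdiff_finset_prod Finset.univ (fun x τ => U (_root_.P2MW.S_ModularForm_heckeT_slash_eq_self_of_mem_Gamma0.ModularForm.HeckeSlashInvariance.heckeRep ℓ x • τ)) fun x _ => ?_
  exact hU.comp (UpperHalfPlane.mdifferentiable_smul (heckeRep_det_pos x))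

end Hol

/-! ### Periodicity of the translates of an invariant function -/

theorem conj_T_pow_mem_Gamma0 (N : ℕ) (g : SL(2, ℤ)) :
    g * ModularGroup.T ^ (N : ℤ) * g⁻¹ ∈ Gamma0 N := by
  have h1 : ModularGroup.T ^ (N : ℤ) ∈ Gamma N := by
    have := ModularGroup_T_pow_mem_Gamma (N : ℤ) (N : ℤ) dvd_rfl
    simpa using this
  have h2 : g * ModularGroup.T ^ (N : ℤ) * g⁻¹ ∈ Gamma N := (Gamma_normal N).conj_mem _ h1 g
  rw [Gamma0_mem]
  exact (Gamma_mem.mp h2).2.2.1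

theorem translate_periodic {N : ℕ} {G : ℍ → ℂ}
    (hG : ∀ γ ∈ Gamma0 N, ∀ τ : ℍ, G (γ • τ) = G τ) (g : SL(2, ℤ)) (τ : ℍ) :
    G (g • ((N : ℝ) +ᵥ τ)) = G (g • τ) := by
  have h1 : ((N : ℝ) +ᵥ τ) = ModularGroup.T ^ (N : ℤ) • τ := by
    rw [UpperHalfPlane.modular_T_zpow_smul]; simp
  have h2 : g • (ModularGroup.T ^ (N : ℤ) • τ)
      = (g * ModularGroup.T ^ (N : ℤ) * g⁻¹) • (g • τ) := by
    rw [← mul_smul, ← mul_smul, inv_mul_cancel_right]
  rw [h1, h2, hG _ (conj_T_pow_mem_Gamma0 N g)]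

theorem continuous_translate {G : ℍ → ℂ} (hG : MDifferentiable 𝓘(ℂ) 𝓘(ℂ) G) (g : SL(2, ℤ)) :
    Continuous (fun τ : ℍ => G (g • τ)) := by
  have h : MDifferentiable 𝓘(ℂ) 𝓘(ℂ) (fun τ : ℍ => G (g • τ)) :=
    hG.comp (UpperHalfPlane.mdifferentiable_smul (g := (g : GL (Fin 2) ℝ)) (by simp))
  exact h.continuous

/-! ### The main statement -/

section Main

variable {N : ℕ} [NeZero N] {ℓ : ℕ} [Fact ℓ.Prime]

/-- Growth of a single factor `τ ↦ G (heckeRep x • g • τ)`. -/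
theorem expGrowth_factor {G : ℍ → ℂ} (hG : G ∈ goodRing N) (g : SL(2, ℤ))
    (x : OnePoint (ZMod ℓ)) : ExpGrowth (fun τ => G (_root_.P2MW.S_ModularForm_heckeT_slash_eq_self_of_mem_Gamma0.ModularForm.HeckeSlashInvariance.heckeRep ℓ x • (g • τ))) := by
  obtain ⟨hmd, hinv, hgr⟩ := hG
  have hℓ1 : ¬ ℓ ∣ 1 := (Fact.out : ℓ.Prime).one_lt.ne' ∘ Nat.dvd_one.mp
  have hℓ : 0 < ℓ := (Fact.out : ℓ.Prime).pos
  obtain ⟨g', -, hg'⟩ := heckeRep_mul hℓ1 g (one_dvd _) x
  have hNpos : (0 : ℝ) < (N : ℝ) := by exact_mod_cast Nat.pos_of_ne_zero (NeZero.ne N)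
  have key : ∀ τ : ℍ, G (_root_.P2MW.S_ModularForm_heckeT_slash_eq_self_of_mem_Gamma0.ModularForm.HeckeSlashInvariance.heckeRep ℓ x • (g • τ))
      = G (g' • (_root_.P2MW.S_ModularForm_heckeT_slash_eq_self_of_mem_Gamma0.ModularForm.HeckeSlashInvariance.heckeRep ℓ (redMatrix ℓ g • x) • τ)) := by
    intro τ
    show G (_root_.P2MW.S_ModularForm_heckeT_slash_eq_self_of_mem_Gamma0.ModularForm.HeckeSlashInvariance.heckeRep ℓ x • (mapGL ℝ g • τ)) = G (mapGL ℝ g' • (_root_.P2MW.S_ModularForm_heckeT_slash_eq_self_of_mem_Gamma0.ModularForm.HeckeSlashInvariance.heckeRep ℓ (redMatrix ℓ g • x) • τ))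
    rw [← mul_smul, ← mul_smul, hg']
  have hF := continuous_translate hmd g'
  have hper := translate_periodic hinv g'
  generalize redMatrix ℓ g • x = y at key
  induction y using OnePoint.rec with
  | infty =>
    have := expGrowth_comp_infAff hF hNpos hper (hgr g') hℓ one_pos 0
    have e : (fun τ => G (_root_.P2MW.S_ModularForm_heckeT_slash_eq_self_of_mem_Gamma0.ModularForm.HeckeSlashInvariance.heckeRep ℓ x • (g • τ))) = fun τ => G (g' • infAff ℓ 0 1 τ) := by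
      funext τ
      rw [key τ, heckeRep_infty_smul]
    rw [e]
    exact this
  | coe j =>
    have := expGrowth_comp_infAff hF hNpos hper (hgr g') one_pos hℓ (j.val : ℤ)
    have e : (fun τ => G (_root_.P2MW.S_ModularForm_heckeT_slash_eq_self_of_mem_Gamma0.ModularForm.HeckeSlashInvariance.heckeRep ℓ x • (g • τ)))
        = fun τ => G (g' • infAff 1 (j.val : ℤ) ℓ τ) := by
      funext τ
      rw [key τ, heckeRep_coe_smul]
    rw [e]
    exact this

/-- **`heckeProd ℓ` preserves good functions** (`ℓ ∤ N` prime). -/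
theorem heckeProd_mem_goodRing (hℓN : ¬ ℓ ∣ N) {G : ℍ → ℂ} (hG : G ∈ goodRing N) :
    heckeProd ℓ G ∈ goodRing N := by
  refine ⟨mdiff_heckeProd hG.1, fun γ hγ τ => ?_, fun g => ?_⟩
  · have h := heckeProd_smul hℓN (h := G) (c := fun _ => 1)
      (fun γ τ => by rw [one_mul]; exact hG.2.1 _ γ.2 τ) ⟨γ, hγ⟩ τ
    simpa using h
  · exact expGrowth_finset_prod Finset.univ
      (fun x τ => G (_root_.P2MW.S_ModularForm_heckeT_slash_eq_self_of_mem_Gamma0.ModularForm.HeckeSlashInvariance.heckeRep ℓ x • (g • τ))) fun x _ => expGrowth_factor hG g x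

end Main

end Fermat.Agent.S29.H395

end

end
-- ===== PACK-END S29/H395/GoodProd.lean

-- ===== PACK-BEGIN S18/H333/HauptLaurent.lean
section




/-!
# S18 / c3 (helper333): the Hauptmoduln `t₂`, `t₃` as Laurent series over `ℤ`

* `t2Z = q⁻¹ (η(q)/η(q²))²⁴`, `t3Z = q⁻¹ (η(q)/η(q³))¹²  : LaurentSeries ℤ`;
* `t2Z_rel_a : jqModC ℤ * t2Z ^ 2 = (t2Z + 256) ^ 3`
* `t2Z_rel_b : qExpand ℤ 2 (jqModC ℤ) * t2Z = (t2Z + 16) ^ 3`
* `t3Z_rel_a : jqModC ℤ * t3Z ^ 3 = (t3Z + 27) * (t3Z + 243) ^ 3`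
* `t3Z_rel_b : qExpand ℤ 3 (jqModC ℤ) * t3Z = (t3Z + 27) * (t3Z + 3) ^ 3`
-/

set_option autoImplicit false

noncomputable section

namespace Fermat.Agent.S18.H333

open PowerSeries ModularCurve HahnSeries

/-- power series to Laurent series over `ℤ` -/
abbrev ιZ : PowerSeries ℤ →+* LaurentSeries ℤ := HahnSeries.ofPowerSeries ℤ ℤ

theorem ιZ_injective : Function.Injective ιZ := HahnSeries.ofPowerSeries_injective

theorem ιZ_coeff_neg (f : PowerSeries ℤ) {k : ℤ} (hk : k < 0) : (ιZ f).coeff k = 0 :=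
  ofPowerSeries_coeff_of_neg f hk

theorem ιZ_coeff_nat (f : PowerSeries ℤ) (n : ℕ) : (ιZ f).coeff (n : ℤ) = PowerSeries.coeff n f :=
  HahnSeries.ofPowerSeries_apply_coeff f n

theorem qExpand_ιZ (p : ℕ) [NeZero p] (f : PowerSeries ℤ) :
    qExpand ℤ p (ιZ f) = ιZ (Vser p f) := by
  have hp : 0 < p := Nat.pos_of_ne_zero (NeZero.ne p)
  ext k
  by_cases hk : (p : ℤ) ∣ k
  · obtain ⟨m, rfl⟩ := hk
    rw [qExpand_coeff_mul]
    rcases le_or_gt 0 m with hm | hm
    · lift m to ℕ using hm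
      rw [ιZ_coeff_nat, show ((p : ℤ) * (m : ℤ)) = ((p * m : ℕ) : ℤ) by push_cast; rfl,
        ιZ_coeff_nat, coeff_Vser, if_pos (Dvd.intro m rfl), Nat.mul_div_cancel_left m hp]
    · rw [ιZ_coeff_neg _ hm, ιZ_coeff_neg _ (mul_neg_of_pos_of_neg (by exact_mod_cast hp) hm)]
  · rw [qExpand_coeff_of_not_dvd _ _ hk]
    rcases le_or_gt 0 k with hk0 | hk0
    · lift k to ℕ using hk0
      rw [ιZ_coeff_nat, coeff_Vser, if_neg]
      intro h
      exact hk (by exact_mod_cast h)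
    · rw [ιZ_coeff_neg _ hk0]

theorem ιZ_X : ιZ X = single 1 1 := HahnSeries.ofPowerSeries_X

theorem single_neg_one_mul_single_one :
    (single (-1 : ℤ) (1 : ℤ) : LaurentSeries ℤ) * single 1 1 = 1 := by
  rw [single_mul_single]
  simp

theorem jNum_map_int : jNum.map (Int.castRingHom ℤ) = jNum := by
  ext n
  simp

/-- `Δ` as a Laurent series -/
def DL : LaurentSeries ℤ := ιZ Dz

theorem DL_ne_zero : DL ≠ 0 := by
  intro h
  have h1 : (ιZ Dz).coeff ((1 : ℕ) : ℤ) = 0 := by rw [show ιZ Dz = DL from rfl, h]; rfl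
  rw [ιZ_coeff_nat] at h1
  have h2 := tl_getD 3 Dz (i := 1) (by norm_num)
  rw [tl_Dz_3, h1] at h2
  simp at h2

theorem qExpand_DL_ne_zero (p : ℕ) [NeZero p] : qExpand ℤ p DL ≠ 0 := by
  intro h
  exact DL_ne_zero (qExpand_injective p (by rw [h, map_zero]))

theorem jZ_mul_DL : jqModC ℤ * DL = ιZ (Ez ^ 3) := by
  have h1 : jNum * dedekindEtaUnit = Ez ^ 3 := by
    rw [jNum, mul_assoc, mul_comm dedekindEtaUnitInv, dedekindEtaUnit_mul_inv, mul_one]; rfl
  rw [jqModC, jNum_map_int, DL, Dz_eq, map_mul, ιZ_X, ← h1, map_mul]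
  calc single (-1 : ℤ) (1 : ℤ) * ιZ jNum * (single 1 1 * ιZ dedekindEtaUnit)
      = (single (-1 : ℤ) (1 : ℤ) * single 1 1) * (ιZ jNum * ιZ dedekindEtaUnit) := by ring
    _ = ιZ jNum * ιZ dedekindEtaUnit := by rw [single_neg_one_mul_single_one, one_mul]

theorem qExpand_jZ_mul (p : ℕ) [NeZero p] :
    qExpand ℤ p (jqModC ℤ) * qExpand ℤ p DL = ιZ (Vser p Ez ^ 3) := by
  rw [← map_mul, jZ_mul_DL, qExpand_ιZ, Vser_pow p (NeZero.ne p)]

/-- `t₂ = q⁻¹ (η(q)/η(q²))²⁴` -/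
def t2Z : LaurentSeries ℤ :=
  single (-1 : ℤ) 1 * ιZ (dedekindEtaUnit * Vser 2 dedekindEtaUnitInv)

/-- `t₃ = q⁻¹ (η(q)/η(q³))¹²` -/
def t3Z : LaurentSeries ℤ :=
  single (-1 : ℤ) 1 * ιZ (eta12 * Vser 3 eta12Inv)

theorem t2Z_mul : t2Z * qExpand ℤ 2 DL = DL := by
  have h1 : Vser 2 dedekindEtaUnitInv * Vser 2 dedekindEtaUnit = 1 := by
    rw [← Vser_mul 2 (by norm_num), mul_comm, dedekindEtaUnit_mul_inv, Vser_one 2 (by norm_num)]
  have h2 : ιZ (Vser 2 dedekindEtaUnitInv) * ιZ (Vser 2 dedekindEtaUnit) = 1 := by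
    rw [← map_mul, h1, map_one]
  rw [t2Z, DL, qExpand_ιZ, Vser_Dz 2 (by norm_num), Dz_eq]
  simp only [map_mul, map_pow, ιZ_X]
  have h3 := single_neg_one_mul_single_one
  linear_combination (single (1 : ℤ) (1 : ℤ) * ιZ dedekindEtaUnit * ιZ (Vser 2 dedekindEtaUnitInv)
    * ιZ (Vser 2 dedekindEtaUnit)) * h3 + single (1 : ℤ) (1 : ℤ) * ιZ dedekindEtaUnit * h2

theorem t3Z_mul : t3Z * qExpand ℤ 3 DL = ιZ Zz := by
  have h1 : Vser 3 eta12Inv * Vser 3 eta12 = 1 := by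
    rw [← Vser_mul 3 (by norm_num), mul_comm, eta12_mul_inv, Vser_one 3 (by norm_num)]
  have h2 : ιZ (Vser 3 eta12Inv) * ιZ (Vser 3 eta12) = 1 := by
    rw [← map_mul, h1, map_one]
  rw [t3Z, DL, qExpand_ιZ, Vser_Dz 3 (by norm_num), Zz, ← eta12_sq, Vser_mul 3 (by norm_num)]
  simp only [map_mul, map_pow, ιZ_X]
  have h3 := single_neg_one_mul_single_one
  linear_combination (single (1 : ℤ) (1 : ℤ) ^ 2 * ιZ eta12 * ιZ (Vser 3 eta12Inv)
    * ιZ (Vser 3 eta12) * ιZ (Vser 3 eta12)) * h3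
    + single (1 : ℤ) (1 : ℤ) ^ 2 * ιZ eta12 * ιZ (Vser 3 eta12) * h2

theorem ιZ_zsmul (c : ℤ) (f : PowerSeries ℤ) : ιZ (c • f) = (c : LaurentSeries ℤ) * ιZ f := by
  rw [zsmul_eq_mul, map_mul, map_intCast]

/-- `j t₂² = (t₂ + 256)³` over `ℤ` -/
theorem t2Z_rel_a : jqModC ℤ * t2Z ^ 2 = (t2Z + 256) ^ 3 := by
  have hne := pow_ne_zero 3 (qExpand_DL_ne_zero 2)
  refine mul_right_cancel₀ hne ?_
  have hP := congrArg ιZ Phi2a_eq_zero
  simp only [Phi2a, map_zero, map_sub, map_mul, map_pow, map_add, ιZ_zsmul] at hP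
  have hE : ιZ Ez ^ 3 = jqModC ℤ * DL := by rw [jZ_mul_DL, map_pow]
  have hV : ιZ (Vser 2 Dz) = qExpand ℤ 2 DL := (qExpand_ιZ 2 Dz).symm
  rw [hE, hV, show ιZ Dz = DL from rfl] at hP
  push_cast at hP
  have ht := t2Z_mul
  linear_combination hP + (jqModC ℤ * qExpand ℤ 2 DL * (t2Z * qExpand ℤ 2 DL + DL)
    - ((t2Z + 256) * qExpand ℤ 2 DL) ^ 2
    - (t2Z + 256) * qExpand ℤ 2 DL * (DL + 256 * qExpand ℤ 2 DL)
    - (DL + 256 * qExpand ℤ 2 DL) ^ 2) * ht

/-- `j(q²) t₂ = (t₂ + 16)³` over `ℤ` -/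
theorem t2Z_rel_b : qExpand ℤ 2 (jqModC ℤ) * t2Z = (t2Z + 16) ^ 3 := by
  have hne := pow_ne_zero 3 (qExpand_DL_ne_zero 2)
  refine mul_right_cancel₀ hne ?_
  have hP := congrArg ιZ Phi2b_eq_zero
  simp only [Phi2b, map_zero, map_sub, map_mul, map_pow, map_add, ιZ_zsmul] at hP
  have hE : ιZ (Vser 2 Ez) ^ 3 = qExpand ℤ 2 (jqModC ℤ) * qExpand ℤ 2 DL := by
    rw [qExpand_jZ_mul, map_pow]
  have hV : ιZ (Vser 2 Dz) = qExpand ℤ 2 DL := (qExpand_ιZ 2 Dz).symm
  rw [hE, hV, show ιZ Dz = DL from rfl] at hP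
  push_cast at hP
  have ht := t2Z_mul
  linear_combination hP + (qExpand ℤ 2 (jqModC ℤ) * qExpand ℤ 2 DL * qExpand ℤ 2 DL
    - ((t2Z + 16) * qExpand ℤ 2 DL) ^ 2
    - (t2Z + 16) * qExpand ℤ 2 DL * (DL + 16 * qExpand ℤ 2 DL)
    - (DL + 16 * qExpand ℤ 2 DL) ^ 2) * ht

theorem ιZ_Zz_sq : ιZ Zz * ιZ Zz = DL * qExpand ℤ 3 DL := by
  rw [← map_mul, Zz_sq, map_mul, ← qExpand_ιZ]
  rfl

/-- `j t₃³ = (t₃ + 27)(t₃ + 243)³` over `ℤ` -/
theorem t3Z_rel_a : jqModC ℤ * t3Z ^ 3 = (t3Z + 27) * (t3Z + 243) ^ 3 := by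
  have hne := pow_ne_zero 4 (qExpand_DL_ne_zero 3)
  refine mul_right_cancel₀ hne ?_
  have hA := congrArg ιZ A3a_eq
  simp only [A3a, B3a, map_sub, map_mul, map_pow, map_add, ιZ_zsmul] at hA
  have hE : ιZ Ez ^ 3 = jqModC ℤ * DL := by rw [jZ_mul_DL, map_pow]
  have hV : ιZ (Vser 3 Dz) = qExpand ℤ 3 DL := (qExpand_ιZ 3 Dz).symm
  rw [hE, hV, show ιZ Dz = DL from rfl] at hA
  push_cast at hA
  have ht := t3Z_mul
  have hZ := ιZ_Zz_sq
  generalize ιZ Zz = Z at *
  generalize qExpand ℤ 3 DL = Q at *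
  generalize jqModC ℤ = j at *
  generalize DL = D at *
  have hG : j * Z ^ 3 * Q = (Z + 27 * Q) * (Z + 243 * Q) ^ 3 := by
    linear_combination (j * Q * Z - Z ^ 2 - D * Q - 756 * Q * Z - 196830 * Q ^ 2) * hZ
      - Q ^ 2 * hA
  calc j * t3Z ^ 3 * Q ^ 4 = j * (t3Z * Q) ^ 3 * Q := by ring
    _ = (t3Z * Q + 27 * Q) * (t3Z * Q + 243 * Q) ^ 3 := by rw [ht, hG]
    _ = (t3Z + 27) * (t3Z + 243) ^ 3 * Q ^ 4 := by ring

/-- `j(q³) t₃ = (t₃ + 27)(t₃ + 3)³` over `ℤ` -/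
theorem t3Z_rel_b : qExpand ℤ 3 (jqModC ℤ) * t3Z = (t3Z + 27) * (t3Z + 3) ^ 3 := by
  have hne := pow_ne_zero 4 (qExpand_DL_ne_zero 3)
  refine mul_right_cancel₀ hne ?_
  have hA := congrArg ιZ A3b_eq
  simp only [A3b, B3b, map_sub, map_mul, map_pow, map_add, ιZ_zsmul] at hA
  have hE : ιZ (Vser 3 Ez) ^ 3 = qExpand ℤ 3 (jqModC ℤ) * qExpand ℤ 3 DL := by
    rw [qExpand_jZ_mul, map_pow]
  have hV : ιZ (Vser 3 Dz) = qExpand ℤ 3 DL := (qExpand_ιZ 3 Dz).symm
  rw [hE, hV, show ιZ Dz = DL from rfl] at hA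
  push_cast at hA
  have ht := t3Z_mul
  have hZ := ιZ_Zz_sq
  generalize ιZ Zz = Z at *
  generalize qExpand ℤ 3 (jqModC ℤ) = J at *
  generalize qExpand ℤ 3 DL = Q at *
  generalize DL = D at *
  have hG : J * Q * Z * Q ^ 2 = (Z + 27 * Q) * (Z + 3 * Q) ^ 3 := by
    linear_combination (-(Z ^ 2 + D * Q + 36 * Q * Z + 270 * Q ^ 2)) * hZ - Q ^ 2 * hA
  calc J * t3Z * Q ^ 4 = J * Q * (t3Z * Q) * Q ^ 2 := by ring
    _ = (t3Z * Q + 27 * Q) * (t3Z * Q + 3 * Q) ^ 3 := by rw [ht, hG]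
    _ = (t3Z + 27) * (t3Z + 3) ^ 3 * Q ^ 4 := by ring

/-! ### leading terms -/

theorem constantCoeff_Vser (p : ℕ) (hp : p ≠ 0) (f : PowerSeries ℤ) :
    PowerSeries.constantCoeff (Vser p f) = PowerSeries.constantCoeff f := by
  rw [Vser_eq_expand p hp, PowerSeries.constantCoeff_expand]

theorem single_neg_one_mul_coeff (f : PowerSeries ℤ) (k : ℤ) :
    (single (-1 : ℤ) (1 : ℤ) * ιZ f).coeff k = (ιZ f).coeff (k + 1) := by
  have := HahnSeries.coeff_single_mul_add (r := (1 : ℤ)) (x := ιZ f) (a := k + 1) (b := (-1 : ℤ))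
  rw [one_mul] at this
  rw [← this]
  congr 1
  ring

theorem t2Z_coeff_neg_one : t2Z.coeff (-1) = 1 := by
  rw [t2Z, single_neg_one_mul_coeff]
  have : ((-1 : ℤ) + 1) = ((0 : ℕ) : ℤ) := by norm_num
  rw [this, ιZ_coeff_nat, PowerSeries.coeff_zero_eq_constantCoeff, map_mul,
    constantCoeff_dedekindEtaUnit, one_mul]
  have h := congrArg (PowerSeries.constantCoeff (R := ℤ))
    (show Vser 2 dedekindEtaUnit * Vser 2 dedekindEtaUnitInv = 1 by
      rw [← Vser_mul 2 (by norm_num), dedekindEtaUnit_mul_inv, Vser_one 2 (by norm_num)])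
  rw [map_mul, map_one, constantCoeff_Vser 2 (by norm_num), constantCoeff_dedekindEtaUnit,
    one_mul] at h
  exact h

theorem t2Z_coeff_of_lt {k : ℤ} (hk : k < -1) : t2Z.coeff k = 0 := by
  rw [t2Z, single_neg_one_mul_coeff]
  exact ιZ_coeff_neg _ (by omega)

theorem t3Z_coeff_neg_one : t3Z.coeff (-1) = 1 := by
  rw [t3Z, single_neg_one_mul_coeff]
  have : ((-1 : ℤ) + 1) = ((0 : ℕ) : ℤ) := by norm_num
  rw [this, ιZ_coeff_nat, PowerSeries.coeff_zero_eq_constantCoeff, map_mul,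
    constantCoeff_eta12, one_mul]
  have h := congrArg (PowerSeries.constantCoeff (R := ℤ))
    (show Vser 3 eta12 * Vser 3 eta12Inv = 1 by
      rw [← Vser_mul 3 (by norm_num), eta12_mul_inv, Vser_one 3 (by norm_num)])
  rw [map_mul, map_one, constantCoeff_Vser 3 (by norm_num), constantCoeff_eta12,
    one_mul] at h
  exact h

theorem t3Z_coeff_of_lt {k : ℤ} (hk : k < -1) : t3Z.coeff k = 0 := by
  rw [t3Z, single_neg_one_mul_coeff]
  exact ιZ_coeff_neg _ (by omega)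

end Fermat.Agent.S18.H333

end
end
-- ===== PACK-END S18/H333/HauptLaurent.lean

-- ===== PACK-BEGIN S18/H333/HauptMem.lean
section



/-!
# S18 / c3 (helper333): `t₂ ∈ K(j, j(q²))`, `t₃ ∈ K(j, j(q³))`

For every field `K`:
* `t2 K, t3 K : LaurentSeries K` (images of `t2Z`, `t3Z`), with the four relations
  `t2_rel_a`, `t2_rel_b`, `t3_rel_a`, `t3_rel_b`;
* `t2_mem_full : (2 : K) ≠ 0 → 2 ∣ M → t2 K ∈ modularFunctionFieldFullC K M`;
* `t3_mem_full : (3 : K) ≠ 0 → 3 ∣ M → t3 K ∈ modularFunctionFieldFullC K M`.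
Proof: explicit elimination `D t + N = 0` (HauptElim) and `D ≠ 0`, because
`D Δ² Δ₂² = -2²⁴ q⁵ + …`  resp.  `D Δ⁵ Δ₃³ = -3¹⁸ q⁷ + …`  (kernel computation).
-/

set_option autoImplicit false

noncomputable section

namespace Fermat.Agent.S18.H333

open PowerSeries ModularCurve HahnSeries

/-! ### two more truncation rules -/

theorem tl_ofNat (n : ℕ) (c : ℕ) [c.AtLeastTwo] :
    tl n (ofNat(c) : PowerSeries ℤ) = tsmul n (ofNat(c)) (tone n) := by
  rw [← tl_one, ← tl_smul]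
  congr 1
  rw [zsmul_eq_mul, mul_one, Int.cast_ofNat]

theorem tl_neg (n : ℕ) (f : PowerSeries ℤ) : tl n (-f) = tsmul n (-1) (tl n f) := by
  rw [← tl_smul]
  congr 1
  simp

/-! ### the numerators of `D` -/

/-- `D₂ Δ² Δ₂²` -/
def P2 : PowerSeries ℤ := elimDh2 (Ez ^ 3) Dz (Vser 2 Ez ^ 3) (Vser 2 Dz)

/-- `D₃ Δ⁵ Δ₃³` -/
def P3 : PowerSeries ℤ := elimDh3 (Ez ^ 3) Dz (Vser 3 Ez ^ 3) (Vser 3 Dz)

theorem tl_Ez_8 : tl 8 Ez = [1, 240, 2160, 6720, 17520, 30240, 60480, 82560] := by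
  rw [tl_Ez]; decide +kernel

theorem tl_Dz_8 : tl 8 Dz = [0, 1, -24, 252, -1472, 4830, -6048, -16744] := by
  rw [tl_Dz]; decide +kernel

theorem tl_Ez_6 : tl 6 Ez = [1, 240, 2160, 6720, 17520, 30240] := by
  rw [tl_Ez]; decide +kernel

theorem tl_Dz_6 : tl 6 Dz = [0, 1, -24, 252, -1472, 4830] := by
  rw [tl_Dz]; decide +kernel

theorem tl_P2 : tl 6 P2 = [0, 0, 0, 0, 0, -16777216] := by
  rw [P2, elimDh2]
  simp only [tl_sub, tl_mul, tl_pow, tl_add, tl_neg, tl_ofNat,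
    tl_Vser _ _ (show 0 < 2 by norm_num), tl_Dz_6, tl_Ez_6]
  decide +kernel

theorem tl_P3 : tl 8 P3 = [0, 0, 0, 0, 0, 0, 0, -387420489] := by
  rw [P3, elimDh3]
  simp only [tl_sub, tl_mul, tl_pow, tl_add, tl_neg, tl_ofNat,
    tl_Vser _ _ (show 0 < 3 by norm_num), tl_Dz_8, tl_Ez_8]
  decide +kernel

theorem coeff_P2 : PowerSeries.coeff 5 P2 = -16777216 := by
  have h := tl_getD 6 P2 (i := 5) (by norm_num)
  rw [tl_P2] at h
  simpa using h.symm

theorem coeff_P3 : PowerSeries.coeff 7 P3 = -387420489 := by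
  have h := tl_getD 8 P3 (i := 7) (by norm_num)
  rw [tl_P3] at h
  simpa using h.symm

theorem elimD2_mul : elimD2 (jqModC ℤ) (qExpand ℤ 2 (jqModC ℤ)) * DL ^ 2 * qExpand ℤ 2 DL ^ 2
    = ιZ P2 := by
  rw [elimD2_hom, jZ_mul_DL, qExpand_jZ_mul, P2, map_elimDh2, ← qExpand_ιZ 2 Dz]
  rfl

theorem elimD3_mul : elimD3 (jqModC ℤ) (qExpand ℤ 3 (jqModC ℤ)) * DL ^ 5 * qExpand ℤ 3 DL ^ 3
    = ιZ P3 := by
  rw [elimD3_hom, jZ_mul_DL, qExpand_jZ_mul, P3, map_elimDh3, ← qExpand_ιZ 3 Dz]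
  rfl

/-! ### over a field -/

section Field

variable (K : Type*) [Field K]

/-- `t₂` over `K` -/
def t2 : LaurentSeries K := coeffMap (Int.castRingHom K) t2Z

/-- `t₃` over `K` -/
def t3 : LaurentSeries K := coeffMap (Int.castRingHom K) t3Z

theorem t2_rel_a : jqModC K * t2 K ^ 2 = (t2 K + 256) ^ 3 := by
  have h := congrArg (coeffMap (Int.castRingHom K)) t2Z_rel_a
  simpa only [t2, map_mul, map_pow, map_add, map_ofNat, coeffMap_jqModC] using h

theorem t2_rel_b : qExpand K 2 (jqModC K) * t2 K = (t2 K + 16) ^ 3 := by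
  have h := congrArg (coeffMap (Int.castRingHom K)) t2Z_rel_b
  simpa only [t2, map_mul, map_pow, map_add, map_ofNat, coeffMap_jqModC, coeffMap_qExpand] using h

theorem t3_rel_a : jqModC K * t3 K ^ 3 = (t3 K + 27) * (t3 K + 243) ^ 3 := by
  have h := congrArg (coeffMap (Int.castRingHom K)) t3Z_rel_a
  simpa only [t3, map_mul, map_pow, map_add, map_ofNat, coeffMap_jqModC] using h

theorem t3_rel_b : qExpand K 3 (jqModC K) * t3 K = (t3 K + 27) * (t3 K + 3) ^ 3 := by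
  have h := congrArg (coeffMap (Int.castRingHom K)) t3Z_rel_b
  simpa only [t3, map_mul, map_pow, map_add, map_ofNat, coeffMap_jqModC, coeffMap_qExpand] using h

theorem coeffMap_ιZ_coeff (P : PowerSeries ℤ) (n : ℕ) :
    (coeffMap (Int.castRingHom K) (ιZ P)).coeff (n : ℤ) = ((PowerSeries.coeff n P : ℤ) : K) := by
  rw [coeffMap_coeff, ιZ_coeff_nat]
  rfl

theorem elimD2_ne_zero (h2 : (2 : K) ≠ 0) :
    elimD2 (jqModC K) (qExpand K 2 (jqModC K)) ≠ 0 := by
  intro h0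
  have h := congrArg (coeffMap (Int.castRingHom K)) elimD2_mul
  rw [map_mul, map_mul, map_elimD2, coeffMap_jqModC, coeffMap_qExpand, coeffMap_jqModC, h0,
    zero_mul, zero_mul] at h
  have h5 := congrArg (fun x : LaurentSeries K => x.coeff ((5 : ℕ) : ℤ)) h
  simp only [coeffMap_ιZ_coeff, coeff_P2] at h5
  have : ((-16777216 : ℤ) : K) = -(2 : K) ^ 24 := by push_cast; norm_num
  rw [this] at h5
  exact neg_ne_zero.mpr (pow_ne_zero 24 h2) h5.symm

theorem elimD3_ne_zero (h3 : (3 : K) ≠ 0) :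
    elimD3 (jqModC K) (qExpand K 3 (jqModC K)) ≠ 0 := by
  intro h0
  have h := congrArg (coeffMap (Int.castRingHom K)) elimD3_mul
  rw [map_mul, map_mul, map_elimD3, coeffMap_jqModC, coeffMap_qExpand, coeffMap_jqModC, h0,
    zero_mul, zero_mul] at h
  have h5 := congrArg (fun x : LaurentSeries K => x.coeff ((7 : ℕ) : ℤ)) h
  simp only [coeffMap_ιZ_coeff, coeff_P3] at h5
  have : ((-387420489 : ℤ) : K) = -(3 : K) ^ 18 := by push_cast; norm_num
  rw [this] at h5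
  exact neg_ne_zero.mpr (pow_ne_zero 18 h3) h5.symm

/-- explicit formula: `t₂ = -N₂(j, j₂) / D₂(j, j₂)` -/
theorem t2_eq (h2 : (2 : K) ≠ 0) :
    t2 K = -elimN2 (jqModC K) (qExpand K 2 (jqModC K))
      / elimD2 (jqModC K) (qExpand K 2 (jqModC K)) := by
  have h := elim2 (t2 K) _ _ (t2_rel_a K) (t2_rel_b K)
  rw [eq_div_iff (elimD2_ne_zero K h2)]
  linear_combination h

/-- explicit formula: `t₃ = -N₃(j, j₃) / D₃(j, j₃)` -/
theorem t3_eq (h3 : (3 : K) ≠ 0) :
    t3 K = -elimN3 (jqModC K) (qExpand K 3 (jqModC K))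
      / elimD3 (jqModC K) (qExpand K 3 (jqModC K)) := by
  have h := elim3 (t3 K) _ _ (t3_rel_a K) (t3_rel_b K)
  rw [eq_div_iff (elimD3_ne_zero K h3)]
  linear_combination h

variable {K} in
theorem elimD2_mem (F : IntermediateField K (LaurentSeries K)) {j J : LaurentSeries K}
    (hj : j ∈ F) (hJ : J ∈ F) : elimD2 j J ∈ F := by
  have := map_elimD2 (algebraMap F (LaurentSeries K)) ⟨j, hj⟩ ⟨J, hJ⟩
  exact this ▸ (elimD2 (⟨j, hj⟩ : F) ⟨J, hJ⟩).2

variable {K} in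
theorem elimN2_mem (F : IntermediateField K (LaurentSeries K)) {j J : LaurentSeries K}
    (hj : j ∈ F) (hJ : J ∈ F) : elimN2 j J ∈ F := by
  have := map_elimN2 (algebraMap F (LaurentSeries K)) ⟨j, hj⟩ ⟨J, hJ⟩
  exact this ▸ (elimN2 (⟨j, hj⟩ : F) ⟨J, hJ⟩).2

variable {K} in
theorem elimD3_mem (F : IntermediateField K (LaurentSeries K)) {j J : LaurentSeries K}
    (hj : j ∈ F) (hJ : J ∈ F) : elimD3 j J ∈ F := by
  have := map_elimD3 (algebraMap F (LaurentSeries K)) ⟨j, hj⟩ ⟨J, hJ⟩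
  exact this ▸ (elimD3 (⟨j, hj⟩ : F) ⟨J, hJ⟩).2

variable {K} in
theorem elimN3_mem (F : IntermediateField K (LaurentSeries K)) {j J : LaurentSeries K}
    (hj : j ∈ F) (hJ : J ∈ F) : elimN3 j J ∈ F := by
  have := map_elimN3 (algebraMap F (LaurentSeries K)) ⟨j, hj⟩ ⟨J, hJ⟩
  exact this ▸ (elimN3 (⟨j, hj⟩ : F) ⟨J, hJ⟩).2

/-- **`t₂` is a modular function of level `M`** (`2 ∣ M`, `char K ≠ 2`). -/
theorem t2_mem_full (h2 : (2 : K) ≠ 0) (M : ℕ) (hM : 2 ∣ M) :
    t2 K ∈ modularFunctionFieldFullC K M := by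
  have hj : jqModC K ∈ modularFunctionFieldFullC K M := jqModC_mem_full K M
  have hJ : qExpand K 2 (jqModC K) ∈ modularFunctionFieldFullC K M := jqModCd_mem_full K M hM
  rw [t2_eq K h2]
  exact div_mem (neg_mem (elimN2_mem _ hj hJ)) (elimD2_mem _ hj hJ)

/-- **`t₃` is a modular function of level `M`** (`3 ∣ M`, `char K ≠ 3`). -/
theorem t3_mem_full (h3 : (3 : K) ≠ 0) (M : ℕ) (hM : 3 ∣ M) :
    t3 K ∈ modularFunctionFieldFullC K M := by
  have hj : jqModC K ∈ modularFunctionFieldFullC K M := jqModC_mem_full K M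
  have hJ : qExpand K 3 (jqModC K) ∈ modularFunctionFieldFullC K M := jqModCd_mem_full K M hM
  rw [t3_eq K h3]
  exact div_mem (neg_mem (elimN3_mem _ hj hJ)) (elimD3_mem _ hj hJ)

end Field

end Fermat.Agent.S18.H333

end
end
-- ===== PACK-END S18/H333/HauptMem.lean

-- ===== PACK-BEGIN S18/H456/ModCoord.lean
section


/-!
# S18 / MOD assembly (helper456): `E_closed_in_F`, `x_mem`, `x_transcendental`
-/

set_option autoImplicit false

noncomputable section

namespace Fermat.Agent.S18.H456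

open ModularCurve AlgebraicCurve HahnSeries Fermat.Agent.S18 Fermat.Agent.S18.Mod

variable (M : ℕ) (A : ValuationSubring Qb) (E : IntermediateField ℚ Qb)

/-- `Q̄ ≃ Lc`. -/
def LcEquiv : Qb ≃+* Lc M :=
  RingEquiv.ofBijective (algebraMap Qb (Om M)).rangeRestrictField
    ⟨(algebraMap Qb (Om M)).rangeRestrictField.injective, fun ⟨_, c, hc⟩ => ⟨c, Subtype.ext hc⟩⟩

theorem cst_LcEquiv_symm (y : Lc M) : cst M ((LcEquiv M).symm y) = (y : Om M) := by
  have h := (LcEquiv M).apply_symm_apply y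
  exact congrArg Subtype.val h

/-- An element of `Ω` which is algebraic over a field of constants is constant. -/
theorem exists_cst_of_isAlgebraic (K₀ : Subfield (Om M)) (hK : K₀ ≤ Lc M) (f : Om M)
    (hf : IsAlgebraic K₀ f) : ∃ c : Qb, f = cst M c := by
  obtain ⟨p, hp0, hp⟩ := hf
  let ψ : K₀ →+* Qb := ((LcEquiv M).symm : Lc M →+* Qb).comp (Subfield.inclusion hK)
  have hψ : ∀ y : K₀, cst M (ψ y) = (y : Om M) := fun y =>
    cst_LcEquiv_symm M (Subfield.inclusion hK y)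
  let val : Om M →+* LaurentSeries Qb := (modularFunctionFieldBar M).val.toRingHom
  have hcomp : val.comp (algebraMap K₀ (Om M)) =
      (algebraMap Qb (LaurentSeries Qb)).comp ψ := by
    ext1 y
    show ((algebraMap K₀ (Om M) y : Om M) : LaurentSeries Qb) =
      algebraMap Qb (LaurentSeries Qb) (ψ y)
    have : (algebraMap K₀ (Om M) y : Om M) = cst M (ψ y) := (hψ y).symm
    rw [this]
    rfl
  have halg : IsAlgebraic Qb (f : LaurentSeries Qb) := by
    refine ⟨p.map ψ, (Polynomial.map_ne_zero_iff ψ.injective).2 hp0, ?_⟩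
    rw [Polynomial.aeval_def, Polynomial.eval₂_map, ← hcomp]
    have h := Polynomial.hom_eval₂ p (algebraMap K₀ (Om M)) val f
    rw [Polynomial.aeval_def] at hp
    rw [hp, map_zero] at h
    exact h.symm
  obtain ⟨c, hc⟩ := laurent_const_of_isAlgebraic _ halg
  exact ⟨c, Subtype.ext hc⟩

theorem field_E_closed_in_F : ∀ f ∈ Fc M E, IsAlgebraic (Ec M E) f → f ∈ Ec M E := by
  intro f hf halg
  obtain ⟨c, rfl⟩ := exists_cst_of_isAlgebraic M (Ec M E) (field_E_le_L M E) f halg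
  have h := coeff_mem_of_mem_Fc M E hf 0
  rw [val_cst, HahnSeries.coeff_single_same] at h
  exact cst_mem_Ec M E h

/-! ### The coordinate -/

/-- The data of an integral `q`-expansion `q⁻¹ + …` of the coordinate. -/
def HasIntExp [NeZero M] (x : Om M) : Prop :=
  ∃ X : LaurentSeries ℤ, X.coeff (-1) = 1 ∧ (∀ k : ℤ, k < -1 → X.coeff k = 0) ∧
     (x : LaurentSeries Qb) = coeffMap (Int.castRingHom Qb) X ∧
     coeffMap (Int.castRingHom ℚ) X ∈ modularFunctionFieldFull M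

theorem val_jOm [NeZero M] : ((jOm M : Om M) : LaurentSeries Qb) = jqModC Qb := by
  show coeffEmb Qb (qExpand ℚ 1 jq) = _
  rw [qExpand_one_apply]
  exact coeffMap_jqModC (algebraMap ℚ Qb)

theorem hasIntExp_jOm [NeZero M] : HasIntExp M (jOm M) := by
  refine ⟨jqModC ℤ, coeff_jqModC_neg_one ℤ, fun k hk => coeff_jqModC_of_lt ℤ hk, ?_, ?_⟩
  · rw [val_jOm, coeffMap_jqModC]
  · rw [coeffMap_jqModC]
    exact modularFunctionField_le_full M (jq_mem M)

theorem hasIntExp_of_isCoordinate [NeZero M] {ℓ : ℕ} {x : Om M} {S : Finset (Om M)}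
    (hx : IsCoordinate M ℓ x S) : HasIntExp M x := by
  rcases hx with ⟨-, rfl, -⟩ | ⟨-, h⟩
  · exact hasIntExp_jOm M
  · exact h

theorem coeff_neg_one_of_hasIntExp [NeZero M] {x : Om M} (hx : HasIntExp M x) :
    (x : LaurentSeries Qb).coeff (-1) = 1 := by
  obtain ⟨X, h1, -, h3, -⟩ := hx
  rw [h3, coeffMap_coeff, h1, map_one]

theorem coeff_of_lt_of_hasIntExp [NeZero M] {x : Om M} (hx : HasIntExp M x) {k : ℤ}
    (hk : k < -1) : (x : LaurentSeries Qb).coeff k = 0 := by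
  obtain ⟨X, -, h2, h3, -⟩ := hx
  rw [h3, coeffMap_coeff, h2 k hk, map_zero]

theorem mem_Fc_of_hasIntExp [NeZero M] {x : Om M} (hx : HasIntExp M x) : x ∈ Fc M E := by
  obtain ⟨X, -, -, h3, h4⟩ := hx
  have : x = ofFull M _ h4 := by
    apply Subtype.ext
    rw [h3]
    show _ = coeffEmb Qb (coeffMap (Int.castRingHom ℚ) X)
    rw [coeffEmb, coeffMap_coeffMap]
    exact coeffMap_congr (RingHom.ext_int _ _) X
  rw [this]
  exact ofFull_mem_Fc M E _ h4

theorem transcendental_of_hasIntExp [NeZero M] {x : Om M} (hx : HasIntExp M x) :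
    Transcendental (Lc M) x := by
  intro halg
  obtain ⟨c, hc⟩ := exists_cst_of_isAlgebraic M (Lc M) le_rfl x halg
  have h := coeff_neg_one_of_hasIntExp M hx
  rw [hc, val_cst, HahnSeries.coeff_single_of_ne (by decide)] at h
  exact zero_ne_one h

theorem field_x_mem [NeZero M] {ℓ : ℕ} {x : Om M} {S : Finset (Om M)}
    (hx : IsCoordinate M ℓ x S) : x ∈ Fc M E :=
  mem_Fc_of_hasIntExp M E (hasIntExp_of_isCoordinate M hx)

theorem field_x_transcendental [NeZero M] {ℓ : ℕ} {x : Om M} {S : Finset (Om M)}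
    (hx : IsCoordinate M ℓ x S) : Transcendental (Lc M) x :=
  transcendental_of_hasIntExp M (hasIntExp_of_isCoordinate M hx)

end Fermat.Agent.S18.H456

end
end
-- ===== PACK-END S18/H456/ModCoord.lean

-- ===== PACK-BEGIN S18/H456/ModS.lean
section



/-!
# S18 / MOD assembly (helper456): the fields `S_mem`, `S_distinct`, `S_unit` of `Alg.GoodModel`
-/

set_option autoImplicit false

noncomputable section

namespace Fermat.Agent.S18.H456

open ModularCurve AlgebraicCurve HahnSeries Fermat.Agent.S18 Fermat.Agent.S18.Mod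

variable (M : ℕ) (A : ValuationSubring Qb) (E : IntermediateField ℚ Qb)

/-- An integer prime to `ℓ` is a unit of `A`. -/
theorem inv_intCast_mem_A {ℓ : ℕ} (hA : A.LiesOverPrime ℓ) (n : ℤ)
    (hn : IsCoprime n (ℓ : ℤ)) : ((n : Qb))⁻¹ ∈ A := by
  obtain ⟨a, b, hab⟩ := hn
  have hℓ : A.valuation (ℓ : Qb) < 1 := (ValuationSubring.mem_nonunits_iff A).1 hA
  have hle : ∀ k : ℤ, A.valuation (k : Qb) ≤ 1 := fun k =>
    (A.valuation_le_one_iff _).2 (intCast_mem A k)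
  rw [← A.valuation_le_one_iff, map_inv₀]
  by_contra hcon
  have hlt : A.valuation (n : Qb) < 1 := by
    by_contra h
    push Not at h
    have h1 : A.valuation (n : Qb) = 1 := le_antisymm (hle n) h
    rw [h1, inv_one] at hcon
    exact hcon le_rfl
  have h1 : A.valuation ((a : Qb) * n + b * ℓ) < 1 := by
    refine lt_of_le_of_lt (A.valuation.map_add _ _) (max_lt ?_ ?_)
    · rw [map_mul]
      calc A.valuation (a : Qb) * A.valuation (n : Qb) ≤ 1 * A.valuation (n : Qb) :=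
            mul_le_mul_left (hle a) _
        _ = A.valuation (n : Qb) := one_mul _
        _ < 1 := hlt
    · rw [map_mul]
      calc A.valuation (b : Qb) * A.valuation (ℓ : Qb) ≤ 1 * A.valuation (ℓ : Qb) :=
            mul_le_mul_left (hle b) _
        _ = A.valuation (ℓ : Qb) := one_mul _
        _ < 1 := hℓ
  have h2 : ((a : Qb) * n + b * ℓ) = 1 := by
    have := congrArg (Int.cast : ℤ → Qb) hab
    push_cast at this
    exact this
  rw [h2, map_one] at h1
  exact lt_irrefl _ h1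

theorem cst_intCast (n : ℤ) : cst M (n : Qb) = (n : Om M) := map_intCast _ n

theorem intCast_mem_Rc (n : ℤ) : (n : Om M) ∈ Rc M A E := by
  rw [← cst_intCast]
  exact cst_mem_Rc M A E (intCast_mem A n) (intCast_mem E n)

theorem inv_intCast_mem_Rc {ℓ : ℕ} (hA : A.LiesOverPrime ℓ) (n : ℤ)
    (hn : IsCoprime n (ℓ : ℤ)) : ((n : Om M))⁻¹ ∈ Rc M A E := by
  rw [← cst_intCast, ← map_inv₀]
  exact cst_mem_Rc M A E (inv_intCast_mem_A A hA n hn) (inv_mem (intCast_mem E n))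

/-- The three fields `S_mem`, `S_distinct`, `S_unit` for `S = {0, b}`, `b` an integer prime
to `ℓ`. -/
theorem S_fields_of_int {ℓ : ℕ} (hA : A.LiesOverPrime ℓ) (b : ℤ) (hb : IsCoprime b (ℓ : ℤ))
    (S : Finset (Om M)) (hS : ∀ s, s ∈ S ↔ s = 0 ∨ s = (b : Om M)) :
    (∀ s ∈ S, s ∈ Rc M A E) ∧
    (∀ s ∈ S, ∀ t ∈ S, s ≠ t → (s - t)⁻¹ ∈ Rc M A E) ∧
    (∀ s ∈ S, s ≠ 0 → s⁻¹ ∈ Rc M A E) := by
  have hb' : IsCoprime (-b) (ℓ : ℤ) := hb.neg_left
  refine ⟨?_, ?_, ?_⟩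
  · intro s hs
    rcases (hS s).1 hs with rfl | rfl
    · exact zero_mem _
    · exact intCast_mem_Rc M A E b
  · intro s hs t ht hst
    rcases (hS s).1 hs with rfl | rfl <;> rcases (hS t).1 ht with rfl | rfl
    · exact absurd rfl hst
    · rw [zero_sub]
      have := inv_intCast_mem_Rc M A E hA (-b) hb'
      rwa [Int.cast_neg] at this
    · rw [sub_zero]
      exact inv_intCast_mem_Rc M A E hA b hb
    · exact absurd rfl hst
  · intro s hs hs0
    rcases (hS s).1 hs with rfl | rfl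
    · exact absurd rfl hs0
    · exact inv_intCast_mem_Rc M A E hA b hb

/-- **S-fields** for an admissible coordinate (`ℓ` prime). -/
theorem field_S [NeZero M] {ℓ : ℕ} (hℓ : ℓ.Prime) (hA : A.LiesOverPrime ℓ) {x : Om M}
    {S : Finset (Om M)} (hx : IsCoordinate M ℓ x S) :
    (∀ s ∈ S, s ∈ Rc M A E) ∧
    (∀ s ∈ S, ∀ t ∈ S, s ≠ t → (s - t)⁻¹ ∈ Rc M A E) ∧
    (∀ s ∈ S, s ≠ 0 → s⁻¹ ∈ Rc M A E) := by
  rcases hx with ⟨h5, -, hS⟩ | ⟨⟨h3, -, hS⟩ | ⟨h2, -, hS⟩, -⟩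
  · refine S_fields_of_int M A E hA 1728 ?_ S (fun s => by rw [hS s]; norm_num)
    have h1728 : (1728 : ℤ) = 2 ^ 6 * 3 ^ 3 := by norm_num
    rw [h1728]
    have h2 : IsCoprime (2 : ℤ) (ℓ : ℤ) := by
      rw [Int.isCoprime_iff_gcd_eq_one]
      exact (Nat.coprime_primes Nat.prime_two hℓ).2 (by omega)
    have h3 : IsCoprime (3 : ℤ) (ℓ : ℤ) := by
      rw [Int.isCoprime_iff_gcd_eq_one]
      exact (Nat.coprime_primes Nat.prime_three hℓ).2 (by omega)
    exact (h2.pow_left).mul_left (h3.pow_left)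
  · subst h3
    refine S_fields_of_int M A E hA (-64) ?_ S (fun s => by rw [hS s]; norm_num)
    have h64 : (-64 : ℤ) = -(2 ^ 6) := by norm_num
    rw [h64]
    have h2 : IsCoprime (2 : ℤ) ((3 : ℕ) : ℤ) := by
      rw [Int.isCoprime_iff_gcd_eq_one]; decide
    exact (h2.pow_left).neg_left
  · subst h2
    refine S_fields_of_int M A E hA (-27) ?_ S (fun s => by rw [hS s]; norm_num)
    have h27 : (-27 : ℤ) = -(3 ^ 3) := by norm_num
    rw [h27]
    have h3 : IsCoprime (3 : ℤ) ((2 : ℕ) : ℤ) := by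
      rw [Int.isCoprime_iff_gcd_eq_one]; decide
    exact (h3.pow_left).neg_left

end Fermat.Agent.S18.H456

end
end
-- ===== PACK-END S18/H456/ModS.lean

-- ===== PACK-BEGIN S18/H456/ModR.lean
section



/-!
# S18 / MOD assembly (helper456): G-R — the fields `w_mem`, `w_ne_zero`, `w_inv_not_mem`, `w_gen`,
`w_discrete`, `residue_perfect` of `Alg.GoodModel` for `R = Rc M A E` (`E/ℚ` finite)

Input: `H602.isDiscreteValuationRing_RE` (helper602, on main).
-/

set_option autoImplicit false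

noncomputable section

namespace Fermat.Agent.S18.H456

open ModularCurve AlgebraicCurve HahnSeries Fermat.Agent.S18 Fermat.Agent.S18.Mod
open scoped NumberField

variable (M : ℕ) (A : ValuationSubring Qb) (E : IntermediateField ℚ Qb)

/-- The constant in `Ω` attached to an element of `R_E = A ∩ E`. -/
def cstR (r : H602.RE A E) : Om M := cst M ((r : E) : Qb)

theorem cstR_mem_Rc (r : H602.RE A E) : cstR M A E r ∈ Rc M A E :=
  cst_mem_Rc M A E (H602.mem_RE.1 r.2) (r : E).2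

theorem mem_Rc_iff_cstR {f : Om M} : f ∈ Rc M A E ↔ ∃ r : H602.RE A E, cstR M A E r = f := by
  constructor
  · intro hf
    obtain ⟨c, hA, hE, rfl⟩ := (mem_Rc_iff M A E).1 hf
    exact ⟨⟨⟨c, hE⟩, H602.mem_RE.2 hA⟩, rfl⟩
  · rintro ⟨r, rfl⟩
    exact cstR_mem_Rc M A E r

theorem cstR_injective : Function.Injective (cstR M A E) := by
  intro r s h
  have h1 : ((r : E) : Qb) = ((s : E) : Qb) := cst_injective M h
  exact Subtype.ext (Subtype.ext h1)

theorem cstR_mul (r s : H602.RE A E) : cstR M A E (r * s) = cstR M A E r * cstR M A E s := by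
  unfold cstR
  rw [← map_mul]
  rfl

theorem cstR_pow (r : H602.RE A E) (n : ℕ) : cstR M A E (r ^ n) = cstR M A E r ^ n := by
  unfold cstR
  rw [← map_pow]
  rfl

theorem cstR_sub (r s : H602.RE A E) : cstR M A E (r - s) = cstR M A E r - cstR M A E s := by
  unfold cstR
  rw [← map_sub]
  rfl

theorem cstR_one : cstR M A E 1 = 1 := by
  unfold cstR
  exact map_one _

theorem cstR_zero : cstR M A E 0 = 0 := by
  unfold cstR
  exact map_zero _

theorem cstR_natCast (n : ℕ) : cstR M A E (n : H602.RE A E) = (n : Om M) := by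
  unfold cstR
  show cst M (((n : H602.RE A E) : E) : Qb) = _
  have : (((n : H602.RE A E) : E) : Qb) = (n : Qb) := by simp
  rw [this]
  exact map_natCast _ n

theorem cstR_eq_zero_iff {r : H602.RE A E} : cstR M A E r = 0 ↔ r = 0 := by
  rw [← cstR_zero M A E]
  exact (cstR_injective M A E).eq_iff

/-- `cstR r` is invertible in `Rc` iff `r` is a unit. -/
theorem inv_cstR_mem_Rc_iff {r : H602.RE A E} (hr : r ≠ 0) :
    (cstR M A E r)⁻¹ ∈ Rc M A E ↔ IsUnit r := by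
  constructor
  · intro h
    obtain ⟨s, hs⟩ := (mem_Rc_iff_cstR M A E).1 h
    refine isUnit_iff_exists_inv.2 ⟨s, ?_⟩
    apply cstR_injective M A E
    rw [cstR_mul, hs, cstR_one]
    exact mul_inv_cancel₀ (fun h0 => hr ((cstR_eq_zero_iff M A E).1 h0))
  · intro h
    obtain ⟨s, hs⟩ := isUnit_iff_exists_inv.1 h
    have : (cstR M A E r)⁻¹ = cstR M A E s := by
      apply inv_eq_of_mul_eq_one_right
      rw [← cstR_mul, hs, cstR_one]
    rw [this]
    exact cstR_mem_Rc M A E s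

/-- `w` is (the image of) a uniformiser of `R_E`. -/
def IsUnif (w : Om M) : Prop := ∃ ϖ : H602.RE A E, Irreducible ϖ ∧ w = cstR M A E ϖ

variable {M A E}

theorem IsUnif.mem {w : Om M} (hw : IsUnif M A E w) : w ∈ Rc M A E := by
  obtain ⟨ϖ, -, rfl⟩ := hw
  exact cstR_mem_Rc M A E ϖ

theorem IsUnif.ne_zero {w : Om M} (hw : IsUnif M A E w) : w ≠ 0 := by
  obtain ⟨ϖ, hϖ, rfl⟩ := hw
  exact fun h => hϖ.ne_zero ((cstR_eq_zero_iff M A E).1 h)

theorem IsUnif.inv_not_mem {w : Om M} (hw : IsUnif M A E w) : w⁻¹ ∉ Rc M A E := by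
  obtain ⟨ϖ, hϖ, rfl⟩ := hw
  exact fun h => hϖ.not_isUnit ((inv_cstR_mem_Rc_iff M A E hϖ.ne_zero).1 h)

section DVR

variable [IsDiscreteValuationRing (H602.RE A E)]

theorem IsUnif.gen {w : Om M} (hw : IsUnif M A E w) :
    ∀ r ∈ Rc M A E, r⁻¹ ∉ Rc M A E → r * w⁻¹ ∈ Rc M A E := by
  obtain ⟨ϖ, hϖ, rfl⟩ := hw
  intro r hr hrinv
  obtain ⟨r₀, rfl⟩ := (mem_Rc_iff_cstR M A E).1 hr
  have hr0 : r₀ ≠ 0 := by
    rintro rfl
    rw [cstR_zero, inv_zero] at hrinv
    exact hrinv (zero_mem _)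
  have hnu : ¬ IsUnit r₀ := fun h => hrinv ((inv_cstR_mem_Rc_iff M A E hr0).2 h)
  have hmem : r₀ ∈ IsLocalRing.maximalIdeal (H602.RE A E) :=
    (IsLocalRing.mem_maximalIdeal _).2 hnu
  rw [hϖ.maximalIdeal_eq, Ideal.mem_span_singleton] at hmem
  obtain ⟨s, rfl⟩ := hmem
  rw [cstR_mul, mul_comm (cstR M A E ϖ), mul_assoc,
    mul_inv_cancel₀ (fun h => hϖ.ne_zero ((cstR_eq_zero_iff M A E).1 h)), mul_one]
  exact cstR_mem_Rc M A E s

theorem IsUnif.discrete {w : Om M} (hw : IsUnif M A E w) :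
    ∀ r ∈ Rc M A E, r ≠ 0 →
      ∃ n : ℕ, r * (w⁻¹) ^ n ∈ Rc M A E ∧ (r * (w⁻¹) ^ n)⁻¹ ∈ Rc M A E := by
  obtain ⟨ϖ, hϖ, rfl⟩ := hw
  intro r hr hr0
  obtain ⟨r₀, rfl⟩ := (mem_Rc_iff_cstR M A E).1 hr
  have hr0' : r₀ ≠ 0 := fun h => hr0 (by rw [h, cstR_zero])
  obtain ⟨n, u, hu⟩ := IsDiscreteValuationRing.eq_unit_mul_pow_irreducible hr0' hϖ
  have hw0 : cstR M A E ϖ ≠ 0 := fun h => hϖ.ne_zero ((cstR_eq_zero_iff M A E).1 h)
  have key : cstR M A E r₀ * ((cstR M A E ϖ)⁻¹) ^ n = cstR M A E (u : H602.RE A E) := by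
    rw [hu, cstR_mul, cstR_pow, mul_assoc, inv_pow, mul_inv_cancel₀ (pow_ne_zero n hw0), mul_one]
  refine ⟨n, ?_, ?_⟩
  · rw [key]
    exact cstR_mem_Rc M A E _
  · rw [key]
    exact (inv_cstR_mem_Rc_iff M A E u.ne_zero).2 u.isUnit

/-- Membership in the maximal ideal, in terms of `w`. -/
theorem IsUnif.mul_inv_mem_iff {w : Om M} (hw : IsUnif M A E w) (r : H602.RE A E) :
    cstR M A E r * w⁻¹ ∈ Rc M A E ↔ r ∈ IsLocalRing.maximalIdeal (H602.RE A E) := by
  obtain ⟨ϖ, hϖ, rfl⟩ := hw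
  have hw0 : cstR M A E ϖ ≠ 0 := fun h => hϖ.ne_zero ((cstR_eq_zero_iff M A E).1 h)
  rw [hϖ.maximalIdeal_eq, Ideal.mem_span_singleton]
  constructor
  · intro h
    obtain ⟨s, hs⟩ := (mem_Rc_iff_cstR M A E).1 h
    refine ⟨s, ?_⟩
    apply cstR_injective M A E
    rw [cstR_mul, hs, mul_comm, mul_assoc, inv_mul_cancel₀ hw0, mul_one]
  · rintro ⟨s, rfl⟩
    rw [cstR_mul, mul_comm (cstR M A E ϖ), mul_assoc, mul_inv_cancel₀ hw0, mul_one]
    exact cstR_mem_Rc M A E s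

end DVR

variable (M A E)

theorem exists_isUnif [IsDiscreteValuationRing (H602.RE A E)] : ∃ w : Om M, IsUnif M A E w := by
  obtain ⟨ϖ, hϖ⟩ := IsDiscreteValuationRing.exists_irreducible (H602.RE A E)
  exact ⟨cstR M A E ϖ, ϖ, hϖ, rfl⟩

end Fermat.Agent.S18.H456

end
end
-- ===== PACK-END S18/H456/ModR.lean

-- ===== PACK-BEGIN S18/H24/GaussA.lean
section


/-!
# S18 / MOD-ASM, piece G-V (helper24) — part A: integral series and the Gauss valuation ring

Concrete objects of `S18/Mod/Defs.lean`.  `inc = coeffMap A.subtype : A((q)) → Q̄((q))`,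
`red = coeffMap (residue A) : A((q)) → κ((q))`.

* `isIntE_iff`                 : `IsIntE M A E U ↔ ∃ f ∈ Fc M E, f = inc U`;
* `IsIntE.add/mul/neg/...`     : integral series form a ring;
* `Vc M A E : Subring (Om M)`  : the Gauss valuation ring, with carrier `VcSet M A E`
  (`coe_Vc`);
* fields `V_le`, `R_le_V`, `w_inv_not_mem_V` of `Alg.GoodModel`.
-/

set_option autoImplicit false

noncomputable section

namespace Fermat.Agent.S18.H24

open ModularCurve AlgebraicCurve HahnSeries Fermat.Agent.S18 Fermat.Agent.S18.Mod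
open Fermat.Agent.S18.H456

variable (M : ℕ) (A : ValuationSubring Qb) (E : IntermediateField ℚ Qb)

/-- `A((q)) → Q̄((q))`. -/
abbrev inc : LaurentSeries A →+* LaurentSeries Qb := coeffMap A.subtype

/-- `A((q)) → κ((q))`. -/
abbrev red : LaurentSeries A →+* LaurentSeries (IsLocalRing.ResidueField A) :=
  coeffMap (IsLocalRing.residue A)

variable {A} in
theorem inc_injective : Function.Injective (inc A) := by
  intro x y hxy
  ext k
  have := congrArg (fun z => z.coeff k) hxy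
  simpa using this

variable {A} in
theorem inc_coeff (U : LaurentSeries A) (n : ℤ) : (inc A U).coeff n = (U.coeff n : Qb) := by
  rw [coeffMap_coeff]; rfl

variable {A} in
theorem red_coeff (U : LaurentSeries A) (n : ℤ) :
    (red A U).coeff n = IsLocalRing.residue A (U.coeff n) := by
  rw [coeffMap_coeff]

variable {A} in
/-- A series over `Q̄` with coefficients in `A` comes from `A((q))`. -/
theorem exists_inc_eq {g : LaurentSeries Qb} (hg : ∀ n, g.coeff n ∈ A) :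
    ∃ U : LaurentSeries A, inc A U = g := by
  have hsupp : (Function.support fun n => (⟨g.coeff n, hg n⟩ : A)) = g.support := by
    ext n
    simp only [Function.mem_support, HahnSeries.mem_support, ne_eq]
    constructor
    · intro h h0
      exact h (Subtype.ext h0)
    · intro h h0
      exact h (congrArg Subtype.val h0)
  refine ⟨⟨fun n => ⟨g.coeff n, hg n⟩, ?_⟩, ?_⟩
  · rw [hsupp]; exact g.isPWO_support
  · ext n
    rw [inc_coeff]

variable {A} in
theorem red_eq_zero_iff (U : LaurentSeries A) :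
    red A U = 0 ↔ ∀ n, U.coeff n ∈ IsLocalRing.maximalIdeal A := by
  constructor
  · intro h n
    have := congrArg (fun z => z.coeff n) h
    simp only [red_coeff, HahnSeries.coeff_zero] at this
    exact (IsLocalRing.residue_eq_zero_iff _).mp this
  · intro h
    ext n
    rw [red_coeff, HahnSeries.coeff_zero]
    exact (IsLocalRing.residue_eq_zero_iff _).mpr (h n)

variable {A} in
/-- an element of `A` is in the maximal ideal iff it is `0` or its inverse is not in `A`. -/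
theorem mem_maximalIdeal_iff (c : A) :
    c ∈ IsLocalRing.maximalIdeal A ↔ (c : Qb) = 0 ∨ (c : Qb)⁻¹ ∉ A := by
  rw [IsLocalRing.mem_maximalIdeal, mem_nonunits_iff]
  constructor
  · intro h
    by_contra hcon
    rw [not_or, not_not] at hcon
    apply h
    exact isUnit_iff_exists_inv.mpr ⟨⟨(c : Qb)⁻¹, hcon.2⟩, Subtype.ext (by
      show (c : Qb) * (c : Qb)⁻¹ = 1
      exact mul_inv_cancel₀ hcon.1)⟩
  · rintro (h | h) hu
    · have : c = 0 := Subtype.ext h
      rw [this] at hu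
      exact not_isUnit_zero hu
    · obtain ⟨d, hd⟩ := isUnit_iff_exists_inv.mp hu
      apply h
      have h1 : (c : Qb) * (d : Qb) = 1 := congrArg Subtype.val hd
      have : (c : Qb)⁻¹ = d := inv_eq_of_mul_eq_one_right h1
      rw [this]; exact d.2

/-! ### Integral series -/

theorem isIntE_iff {U : LaurentSeries A} :
    IsIntE M A E U ↔ ∃ f ∈ Fc M E, (f : LaurentSeries Qb) = inc A U := by
  constructor
  · exact fun h => h.2
  · rintro ⟨f, hf, hfU⟩
    refine ⟨fun n => ?_, f, hf, hfU⟩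
    have := coeff_mem_of_mem_Fc M E hf n
    rw [hfU, inc_coeff] at this
    exact this

variable {M A E}

theorem isIntE_zero : IsIntE M A E 0 :=
  (isIntE_iff M A E).mpr ⟨0, zero_mem _, by simp⟩

theorem isIntE_one : IsIntE M A E 1 :=
  (isIntE_iff M A E).mpr ⟨1, one_mem _, by simp⟩

theorem IsIntE.add {U U' : LaurentSeries A} (h : IsIntE M A E U) (h' : IsIntE M A E U') :
    IsIntE M A E (U + U') := by
  obtain ⟨f, hf, hfU⟩ := (isIntE_iff M A E).mp h
  obtain ⟨f', hf', hfU'⟩ := (isIntE_iff M A E).mp h'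
  exact (isIntE_iff M A E).mpr ⟨f + f', add_mem hf hf', by
    rw [map_add, ← hfU, ← hfU']; rfl⟩

theorem IsIntE.mul {U U' : LaurentSeries A} (h : IsIntE M A E U) (h' : IsIntE M A E U') :
    IsIntE M A E (U * U') := by
  obtain ⟨f, hf, hfU⟩ := (isIntE_iff M A E).mp h
  obtain ⟨f', hf', hfU'⟩ := (isIntE_iff M A E).mp h'
  exact (isIntE_iff M A E).mpr ⟨f * f', mul_mem hf hf', by
    rw [map_mul, ← hfU, ← hfU']; rfl⟩

theorem IsIntE.neg {U : LaurentSeries A} (h : IsIntE M A E U) : IsIntE M A E (-U) := by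
  obtain ⟨f, hf, hfU⟩ := (isIntE_iff M A E).mp h
  exact (isIntE_iff M A E).mpr ⟨-f, neg_mem hf, by
    rw [map_neg, ← hfU]; rfl⟩

theorem IsIntE.pow {U : LaurentSeries A} (h : IsIntE M A E U) (n : ℕ) : IsIntE M A E (U ^ n) := by
  induction n with
  | zero => rw [pow_zero]; exact isIntE_one
  | succ n ih => rw [pow_succ]; exact IsIntE.mul ih h

/-- A constant `c ∈ A ∩ E` as an integral series. -/
theorem isIntE_C {c : A} (hc : (c : Qb) ∈ E) : IsIntE M A E (HahnSeries.C c) := by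
  refine (isIntE_iff M A E).mpr ⟨cst M (c : Qb), field_E_le_F M E (cst_mem_Ec M E hc), ?_⟩
  rw [val_cst]
  ext n
  rw [inc_coeff]
  by_cases hn : n = 0
  · subst hn
    simp [HahnSeries.C_apply]
  · rw [HahnSeries.coeff_single_of_ne hn]
    have : (HahnSeries.C c : LaurentSeries A).coeff n = 0 := by
      rw [HahnSeries.C_apply, HahnSeries.coeff_single_of_ne hn]
    rw [this]; rfl

theorem inc_C (c : A) : inc A (HahnSeries.C c) = HahnSeries.C (c : Qb) := by
  ext n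
  rw [inc_coeff]
  by_cases hn : n = 0
  · subst hn
    simp [HahnSeries.C_apply]
  · rw [HahnSeries.C_apply, HahnSeries.C_apply, HahnSeries.coeff_single_of_ne hn,
      HahnSeries.coeff_single_of_ne hn]
    rfl

theorem red_C (c : A) : red A (HahnSeries.C c) = HahnSeries.C (IsLocalRing.residue A c) := by
  ext n
  rw [red_coeff]
  by_cases hn : n = 0
  · subst hn
    simp [HahnSeries.C_apply]
  · rw [HahnSeries.C_apply, HahnSeries.C_apply, HahnSeries.coeff_single_of_ne hn,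
      HahnSeries.coeff_single_of_ne hn, map_zero]

/-! ### The Gauss valuation ring -/

theorem mem_VcSet_iff {f : Om M} :
    f ∈ VcSet M A E ↔ f ∈ Fc M E ∧ ∃ U₁ U₂ : LaurentSeries A, IsIntE M A E U₁ ∧ IsIntE M A E U₂ ∧
      red A U₂ ≠ 0 ∧ (f : LaurentSeries Qb) * inc A U₂ = inc A U₁ := Iff.rfl

/-- An integral series defines an element of `V`. -/
theorem mem_VcSet_of_isIntE {f : Om M} {U : LaurentSeries A} (hU : IsIntE M A E U)
    (hf : (f : LaurentSeries Qb) = inc A U) : f ∈ VcSet M A E := by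
  obtain ⟨g, hg, hgU⟩ := (isIntE_iff M A E).mp hU
  have hfg : f = g := Subtype.ext (by rw [hf, hgU])
  refine ⟨hfg ▸ hg, U, 1, hU, isIntE_one, ?_, ?_⟩
  · rw [map_one]; exact one_ne_zero
  · rw [map_one, mul_one, hf]

variable (M A E) in
/-- The Gauss valuation ring `V` of `Fc`, as a subring of `Ω`. -/
def Vc : Subring (Om M) where
  carrier := VcSet M A E
  zero_mem' := mem_VcSet_of_isIntE isIntE_zero (by simp)
  one_mem' := mem_VcSet_of_isIntE isIntE_one (by simp)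
  add_mem' := by
    rintro f g ⟨hf, U₁, U₂, h₁, h₂, hr, hfU⟩ ⟨hg, W₁, W₂, k₁, k₂, kr, hgW⟩
    refine ⟨add_mem hf hg, U₁ * W₂ + W₁ * U₂, U₂ * W₂, IsIntE.add (IsIntE.mul h₁ k₂) (IsIntE.mul k₁ h₂), IsIntE.mul h₂ k₂,
      ?_, ?_⟩
    · rw [map_mul]; exact mul_ne_zero hr kr
    · show ((f : LaurentSeries Qb) + (g : LaurentSeries Qb)) * inc A (U₂ * W₂) = _
      rw [map_mul, map_add, map_mul, map_mul, ← hfU, ← hgW]
      ring
  mul_mem' := by
    rintro f g ⟨hf, U₁, U₂, h₁, h₂, hr, hfU⟩ ⟨hg, W₁, W₂, k₁, k₂, kr, hgW⟩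
    refine ⟨mul_mem hf hg, U₁ * W₁, U₂ * W₂, IsIntE.mul h₁ k₁, IsIntE.mul h₂ k₂, ?_, ?_⟩
    · rw [map_mul]; exact mul_ne_zero hr kr
    · show ((f : LaurentSeries Qb) * (g : LaurentSeries Qb)) * inc A (U₂ * W₂) = _
      rw [map_mul, map_mul, ← hfU, ← hgW]
      ring
  neg_mem' := by
    rintro f ⟨hf, U₁, U₂, h₁, h₂, hr, hfU⟩
    refine ⟨neg_mem hf, -U₁, U₂, IsIntE.neg h₁, h₂, hr, ?_⟩
    show (-(f : LaurentSeries Qb)) * inc A U₂ = _
    rw [map_neg, ← hfU]
    ring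

variable (M A E) in
theorem coe_Vc : (Vc M A E : Set (Om M)) = VcSet M A E := rfl

theorem mem_Vc_iff {f : Om M} : f ∈ Vc M A E ↔ f ∈ VcSet M A E := Iff.rfl

variable (M A E) in
/-- field `V_le`. -/
theorem field_V_le : (Vc M A E : Set (Om M)) ⊆ Fc M E := fun _ hf => hf.1

variable (M A E) in
/-- field `R_le_V`. -/
theorem field_R_le_V : Rc M A E ≤ Vc M A E := by
  intro r hr
  obtain ⟨c, hcA, hcE, rfl⟩ := (mem_Rc_iff M A E).mp hr
  refine mem_VcSet_of_isIntE (U := HahnSeries.C (⟨c, hcA⟩ : A)) (isIntE_C hcE) ?_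
  rw [val_cst, inc_C]
  rfl

/-- field `w_inv_not_mem_V`: a non-unit `w₀ ≠ 0` of `A` is not invertible in `V`. -/
theorem field_w_inv_not_mem_V {w₀ : Qb} (hw0 : w₀ ≠ 0) (hwn : w₀⁻¹ ∉ A) :
    (cst M w₀)⁻¹ ∉ Vc M A E := by
  rintro ⟨-, U₁, U₂, -, -, hr, hU⟩
  apply hr
  rw [red_eq_zero_iff]
  intro n
  rw [mem_maximalIdeal_iff]
  have hval : (((cst M w₀)⁻¹ : Om M) : LaurentSeries Qb) = HahnSeries.C (w₀⁻¹) := by
    rw [← map_inv₀]
    exact val_cst M _
  rw [hval] at hU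
  have hn := congrArg (fun z => z.coeff n) hU
  simp only [HahnSeries.C_mul_eq_smul, HahnSeries.coeff_smul, inc_coeff, smul_eq_mul] at hn
  by_cases h0 : ((U₂.coeff n : A) : Qb) = 0
  · exact Or.inl h0
  · right
    intro hinv
    apply hwn
    have : w₀⁻¹ = (U₁.coeff n : Qb) * ((U₂.coeff n : A) : Qb)⁻¹ := by
      rw [← hn]; field_simp
    rw [this]
    exact A.mul_mem _ _ (U₁.coeff n).2 hinv

end Fermat.Agent.S18.H24

end
end
-- ===== PACK-END S18/H24/GaussA.lean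

-- ===== PACK-BEGIN S18/H24/GaussB.lean
section


/-!
# S18 / MOD-ASM, piece G-V (helper24) — part B: `V_gen`, primitive parts, `V_total`

`IsUnif A E w₀` : `w₀` is a uniformiser of the discrete valuation ring `A ∩ E` (element-wise form,
to be supplied by G-R).  With `w = cst M w₀`:

* `field_V_gen`          : `f ∈ V`, `f⁻¹ ∉ V` ⟹ `f/w ∈ V`;
* `exists_primitive`     : a nonzero integral series is `w₀^a ·` (integral series with nonzero
                           reduction);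
* `exists_gauss_form`    : every `f ≠ 0` in `Fc` is `w^n · U₁/U₂` with `U₁, U₂` integral of nonzero
                           reduction;
* `field_V_total`        : `f ∈ V ∨ f⁻¹ ∈ V` for `f ∈ Fc`.
-/

set_option autoImplicit false

noncomputable section

namespace Fermat.Agent.S18.H24

open ModularCurve AlgebraicCurve HahnSeries Fermat.Agent.S18 Fermat.Agent.S18.Mod
open Fermat.Agent.S18.H456

/-- `w₀` is a uniformiser of the discrete valuation ring `A ∩ E`. -/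
structure IsUnif (A : ValuationSubring Qb) (E : IntermediateField ℚ Qb) (w₀ : Qb) : Prop where
  mem_A : w₀ ∈ A
  mem_E : w₀ ∈ E
  ne_zero : w₀ ≠ 0
  inv_not_mem : w₀⁻¹ ∉ A
  gen : ∀ c, c ∈ A → c ∈ E → c⁻¹ ∉ A → c * w₀⁻¹ ∈ A
  discrete : ∀ c, c ∈ A → c ∈ E → c ≠ 0 →
    ∃ n : ℕ, c * (w₀⁻¹) ^ n ∈ A ∧ (c * (w₀⁻¹) ^ n)⁻¹ ∈ A

variable {M : ℕ} {A : ValuationSubring Qb} {E : IntermediateField ℚ Qb}

theorem val_inv (f : Om M) : ((f⁻¹ : Om M) : LaurentSeries Qb) = (f : LaurentSeries Qb)⁻¹ := rfl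

theorem val_mul (f g : Om M) :
    ((f * g : Om M) : LaurentSeries Qb) = (f : LaurentSeries Qb) * (g : LaurentSeries Qb) := rfl

theorem val_cst' (c : Qb) : ((cst M c : Om M) : LaurentSeries Qb) = HahnSeries.C c := by
  rw [val_cst]; rfl

theorem val_eq_zero_iff {f : Om M} : (f : LaurentSeries Qb) = 0 ↔ f = 0 :=
  ⟨fun h => Subtype.ext h, fun h => by rw [h]; rfl⟩

theorem red_ne_zero_imp_inc_ne_zero {U : LaurentSeries A} (h : red A U ≠ 0) : inc A U ≠ 0 := by
  intro h0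
  apply h
  have : U = 0 := inc_injective (by rw [h0, map_zero])
  rw [this, map_zero]

/-- Dividing an integral series with zero reduction by the uniformiser. -/
theorem exists_div_unif {w₀ : Qb} (hw : _root_.Fermat.Agent.S18.H24.IsUnif A E w₀) {U : LaurentSeries A}
    (hU : IsIntE M A E U) (hred : red A U = 0) :
    ∃ U' : LaurentSeries A, IsIntE M A E U' ∧ inc A U' = HahnSeries.C (w₀⁻¹) * inc A U := by
  have hcoef : ∀ n, (HahnSeries.C (w₀⁻¹) * inc A U).coeff n ∈ A := by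
    intro n
    rw [HahnSeries.C_mul_eq_smul, HahnSeries.coeff_smul, inc_coeff, smul_eq_mul, mul_comm]
    have hm := (red_eq_zero_iff U).mp hred n
    rcases (mem_maximalIdeal_iff _).mp hm with h0 | hni
    · rw [h0, zero_mul]; exact A.zero_mem
    · exact hw.gen _ (U.coeff n).2 (hU.1 n) hni
  obtain ⟨U', hU'⟩ := exists_inc_eq hcoef
  refine ⟨U', ?_, hU'⟩
  obtain ⟨f, hf, hfU⟩ := hU.2
  refine (isIntE_iff M A E).mpr ⟨(cst M w₀)⁻¹ * f, ?_, ?_⟩
  · exact mul_mem (inv_mem (field_E_le_F M E (cst_mem_Ec M E hw.mem_E))) hf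
  · rw [hU', val_mul, val_inv, val_cst', hfU, ← map_inv₀]

variable (M) in
/-- field `V_gen`. -/
theorem field_V_gen {w₀ : Qb} (hw : _root_.Fermat.Agent.S18.H24.IsUnif A E w₀) :
    ∀ f ∈ Vc M A E, f⁻¹ ∉ Vc M A E → f * (cst M w₀)⁻¹ ∈ Vc M A E := by
  rintro f ⟨hfF, U₁, U₂, h₁, h₂, hr, hfU⟩ hfinv
  have hf0 : f ≠ 0 := by
    rintro rfl
    rw [inv_zero] at hfinv
    exact hfinv (zero_mem _)
  have hfv0 : (f : LaurentSeries Qb) ≠ 0 := fun h => hf0 (val_eq_zero_iff.mp h)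
  have hred : red A U₁ = 0 := by
    by_contra hne
    apply hfinv
    refine ⟨inv_mem hfF, U₂, U₁, h₂, h₁, hne, ?_⟩
    rw [val_inv, ← hfU]
    field_simp
  obtain ⟨U', hU', hU'eq⟩ := exists_div_unif hw h₁ hred
  refine ⟨mul_mem hfF (inv_mem (field_E_le_F M E (cst_mem_Ec M E hw.mem_E))), U', U₂, hU', h₂, hr,
    ?_⟩
  rw [hU'eq, val_mul, val_inv, val_cst', ← hfU, ← map_inv₀]
  ring

/-! ### Primitive parts -/

theorem unit_mul_pow_mem {w₀ : Qb} (hw : _root_.Fermat.Agent.S18.H24.IsUnif A E w₀) {c : Qb} {k a : ℕ} (hak : a ≤ k)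
    (hc : c * (w₀⁻¹) ^ k ∈ A) : c * (w₀⁻¹) ^ a ∈ A := by
  obtain ⟨d, rfl⟩ := Nat.exists_eq_add_of_le hak
  have : c * (w₀⁻¹) ^ a = c * (w₀⁻¹) ^ (a + d) * w₀ ^ d := by
    rw [_root_.pow_add, inv_pow, inv_pow]
    have := hw.ne_zero
    field_simp
  rw [this]
  exact A.mul_mem _ _ hc (pow_mem hw.mem_A d)

/-- A nonzero integral series is a power of the uniformiser times an integral series with
nonzero reduction. -/
theorem exists_primitive {w₀ : Qb} (hw : _root_.Fermat.Agent.S18.H24.IsUnif A E w₀) {U : LaurentSeries A}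
    (hU : IsIntE M A E U) (hU0 : U ≠ 0) :
    ∃ (a : ℕ) (U₀ : LaurentSeries A), IsIntE M A E U₀ ∧ red A U₀ ≠ 0 ∧
      inc A U = HahnSeries.C (w₀ ^ a) * inc A U₀ := by
  classical
  -- the set of valuations of nonzero coefficients
  have hex : ∃ k : ℕ, ∃ n : ℤ, U.coeff n ≠ 0 ∧ (U.coeff n : Qb) * (w₀⁻¹) ^ k ∈ A ∧
      ((U.coeff n : Qb) * (w₀⁻¹) ^ k)⁻¹ ∈ A := by
    obtain ⟨n, hn⟩ : ∃ n, U.coeff n ≠ 0 := by
      by_contra h
      push Not at h
      exact hU0 (HahnSeries.ext (funext h))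
    have hn' : (U.coeff n : Qb) ≠ 0 := fun h => hn (Subtype.ext h)
    obtain ⟨k, hk1, hk2⟩ := hw.discrete _ (U.coeff n).2 (hU.1 n) hn'
    exact ⟨k, n, hn, hk1, hk2⟩
  set a := Nat.find hex with ha
  obtain ⟨n₀, hn₀, hn₀1, hn₀2⟩ := Nat.find_spec hex
  have hmin : ∀ k, (∃ n : ℤ, U.coeff n ≠ 0 ∧ (U.coeff n : Qb) * (w₀⁻¹) ^ k ∈ A ∧
      ((U.coeff n : Qb) * (w₀⁻¹) ^ k)⁻¹ ∈ A) → a ≤ k := fun k hk => Nat.find_min' hex hk
  have hcoef : ∀ n, (HahnSeries.C ((w₀⁻¹) ^ a) * inc A U).coeff n ∈ A := by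
    intro n
    rw [HahnSeries.C_mul_eq_smul, HahnSeries.coeff_smul, inc_coeff, smul_eq_mul, mul_comm]
    by_cases hn : U.coeff n = 0
    · rw [hn]; simp
    · have hn' : (U.coeff n : Qb) ≠ 0 := fun h => hn (Subtype.ext h)
      obtain ⟨k, hk1, hk2⟩ := hw.discrete _ (U.coeff n).2 (hU.1 n) hn'
      exact unit_mul_pow_mem hw (hmin k ⟨n, hn, hk1, hk2⟩) hk1
  obtain ⟨U₀, hU₀⟩ := exists_inc_eq hcoef
  have hw0 := hw.ne_zero
  refine ⟨a, U₀, ?_, ?_, ?_⟩
  · obtain ⟨f, hf, hfU⟩ := hU.2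
    refine (isIntE_iff M A E).mpr ⟨((cst M w₀)⁻¹) ^ a * f, ?_, ?_⟩
    · exact mul_mem (pow_mem (inv_mem (field_E_le_F M E (cst_mem_Ec M E hw.mem_E))) _) hf
    · rw [hU₀, val_mul, hfU]
      congr 1
      show (((cst M w₀)⁻¹ ^ a : Om M) : LaurentSeries Qb) = _
      rw [← map_inv₀, ← map_pow]
      exact val_cst' _
  · intro hred
    have hm := (red_eq_zero_iff U₀).mp hred n₀
    rcases (mem_maximalIdeal_iff _).mp hm with h0 | hni
    · have h1 : ((U₀.coeff n₀ : A) : Qb) = (U.coeff n₀ : Qb) * (w₀⁻¹) ^ a := by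
        rw [← inc_coeff, hU₀, HahnSeries.C_mul_eq_smul, HahnSeries.coeff_smul, inc_coeff,
          smul_eq_mul, mul_comm]
      rw [h1] at h0
      have hn₀' : (U.coeff n₀ : Qb) ≠ 0 := fun h => hn₀ (Subtype.ext h)
      exact mul_ne_zero hn₀' (pow_ne_zero _ (inv_ne_zero hw0)) h0
    · apply hni
      have h1 : ((U₀.coeff n₀ : A) : Qb) = (U.coeff n₀ : Qb) * (w₀⁻¹) ^ a := by
        rw [← inc_coeff, hU₀, HahnSeries.C_mul_eq_smul, HahnSeries.coeff_smul, inc_coeff,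
          smul_eq_mul, mul_comm]
      rw [h1]
      exact hn₀2
  · rw [hU₀, ← mul_assoc, ← map_mul, inv_pow, mul_inv_cancel₀ (pow_ne_zero _ hw0), map_one,
      one_mul]

/-! ### The Gauss normal form -/

/-- `f = w^n · U₁ / U₂` with integral `U₁, U₂` of nonzero reduction. -/
def GaussForm (M : ℕ) (A : ValuationSubring Qb) (E : IntermediateField ℚ Qb) (w₀ : Qb)
    (f : Om M) : Prop :=
  ∃ (n : ℤ) (U₁ U₂ : LaurentSeries A), IsIntE M A E U₁ ∧ IsIntE M A E U₂ ∧
    red A U₁ ≠ 0 ∧ red A U₂ ≠ 0 ∧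
    (f : LaurentSeries Qb) * inc A U₂ = HahnSeries.C w₀ ^ n * inc A U₁

theorem GaussForm.ne_zero {w₀ : Qb} (hw0 : w₀ ≠ 0) {f : Om M} (h : GaussForm M A E w₀ f) :
    f ≠ 0 := by
  rintro rfl
  obtain ⟨n, U₁, U₂, -, -, hr₁, -, heq⟩ := h
  have h1 : (HahnSeries.C w₀ : LaurentSeries Qb) ≠ 0 := by
    intro h
    exact hw0 (HahnSeries.C_injective (by rw [h, map_zero]))
  have : HahnSeries.C w₀ ^ n * inc A U₁ = 0 := by
    rw [← heq]
    show (0 : LaurentSeries Qb) * _ = 0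
    rw [zero_mul]
  rcases mul_eq_zero.mp this with h | h
  · exact zpow_ne_zero n h1 h
  · exact red_ne_zero_imp_inc_ne_zero hr₁ h

theorem C_ne_zero' {w₀ : Qb} (hw0 : w₀ ≠ 0) : (HahnSeries.C w₀ : LaurentSeries Qb) ≠ 0 := by
  intro h
  exact hw0 (HahnSeries.C_injective (by rw [h, map_zero]))

theorem GaussForm.inv {w₀ : Qb} (hw0 : w₀ ≠ 0) {f : Om M} (h : GaussForm M A E w₀ f) :
    GaussForm M A E w₀ f⁻¹ := by
  have hf0 := h.ne_zero hw0
  obtain ⟨n, U₁, U₂, h₁, h₂, hr₁, hr₂, heq⟩ := h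
  refine ⟨-n, U₂, U₁, h₂, h₁, hr₂, hr₁, ?_⟩
  have hfv0 : (f : LaurentSeries Qb) ≠ 0 := fun h => hf0 (val_eq_zero_iff.mp h)
  have hC := C_ne_zero' hw0
  have hCn : (HahnSeries.C w₀ : LaurentSeries Qb) ^ n ≠ 0 := zpow_ne_zero n hC
  rw [val_inv, zpow_neg]
  have h1 : inc A U₁ = (HahnSeries.C w₀ ^ n)⁻¹ * ((f : LaurentSeries Qb) * inc A U₂) := by
    rw [heq, ← mul_assoc, inv_mul_cancel₀ hCn, one_mul]
  rw [h1]
  field_simp

theorem GaussForm.mul {w₀ : Qb} (hw0 : w₀ ≠ 0) {f g : Om M} (hf : GaussForm M A E w₀ f)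
    (hg : GaussForm M A E w₀ g) : GaussForm M A E w₀ (f * g) := by
  obtain ⟨n, U₁, U₂, h₁, h₂, hr₁, hr₂, heq⟩ := hf
  obtain ⟨n', W₁, W₂, k₁, k₂, kr₁, kr₂, heq'⟩ := hg
  refine ⟨n + n', U₁ * W₁, U₂ * W₂, IsIntE.mul h₁ k₁, IsIntE.mul h₂ k₂, ?_, ?_, ?_⟩
  · rw [map_mul]; exact mul_ne_zero hr₁ kr₁
  · rw [map_mul]; exact mul_ne_zero hr₂ kr₂
  · rw [val_mul, map_mul, map_mul, zpow_add₀ (C_ne_zero' hw0)]
    calc (f : LaurentSeries Qb) * (g : LaurentSeries Qb) * (inc A U₂ * inc A W₂)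
        = ((f : LaurentSeries Qb) * inc A U₂) * ((g : LaurentSeries Qb) * inc A W₂) := by ring
      _ = _ := by rw [heq, heq']; ring

theorem GaussForm.neg {w₀ : Qb} {f : Om M} (hf : GaussForm M A E w₀ f) :
    GaussForm M A E w₀ (-f) := by
  obtain ⟨n, U₁, U₂, h₁, h₂, hr₁, hr₂, heq⟩ := hf
  refine ⟨n, -U₁, U₂, IsIntE.neg h₁, h₂, ?_, hr₂, ?_⟩
  · rw [map_neg]; exact neg_ne_zero.mpr hr₁
  · show (-(f : LaurentSeries Qb)) * inc A U₂ = _
    rw [map_neg, neg_mul, heq, mul_neg]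

/-- The sum of two Gauss forms (with `n ≤ n'`) is `0` or a Gauss form. -/
theorem GaussForm.add_aux {w₀ : Qb} (hw : _root_.Fermat.Agent.S18.H24.IsUnif A E w₀) {f g : Om M} {n : ℤ} {d : ℕ}
    {U₁ U₂ W₁ W₂ : LaurentSeries A}
    (h₁ : IsIntE M A E U₁) (h₂ : IsIntE M A E U₂) (hr₂ : red A U₂ ≠ 0)
    (heq : (f : LaurentSeries Qb) * inc A U₂ = HahnSeries.C w₀ ^ n * inc A U₁)
    (k₁ : IsIntE M A E W₁) (k₂ : IsIntE M A E W₂) (kr₂ : red A W₂ ≠ 0)
    (heq' : (g : LaurentSeries Qb) * inc A W₂ = HahnSeries.C w₀ ^ (n + d) * inc A W₁) :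
    f + g = 0 ∨ GaussForm M A E w₀ (f + g) := by
  have hw0 := hw.ne_zero
  have hC := C_ne_zero' hw0
  -- the numerator
  set Nn : LaurentSeries A := U₁ * W₂ + HahnSeries.C (⟨w₀, hw.mem_A⟩ ^ d : A) * W₁ * U₂ with hNn
  have hNint : IsIntE M A E Nn := by
    refine IsIntE.add (IsIntE.mul h₁ k₂) (IsIntE.mul (IsIntE.mul ?_ k₁) h₂)
    refine isIntE_C ?_
    show ((⟨w₀, hw.mem_A⟩ ^ d : A) : Qb) ∈ E
    rw [SubmonoidClass.coe_pow]
    exact pow_mem hw.mem_E d
  have hincN : inc A Nn = inc A U₁ * inc A W₂ + HahnSeries.C w₀ ^ d * inc A W₁ * inc A U₂ := by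
    rw [hNn, map_add, map_mul, map_mul, map_mul, inc_C, SubmonoidClass.coe_pow, map_pow]
  have hden : red A (U₂ * W₂) ≠ 0 := by rw [map_mul]; exact mul_ne_zero hr₂ kr₂
  have hmain : ((f + g : Om M) : LaurentSeries Qb) * inc A (U₂ * W₂) =
      HahnSeries.C w₀ ^ n * inc A Nn := by
    show ((f : LaurentSeries Qb) + (g : LaurentSeries Qb)) * inc A (U₂ * W₂) = _
    rw [map_mul, hincN]
    calc ((f : LaurentSeries Qb) + (g : LaurentSeries Qb)) * (inc A U₂ * inc A W₂)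
        = ((f : LaurentSeries Qb) * inc A U₂) * inc A W₂ +
            ((g : LaurentSeries Qb) * inc A W₂) * inc A U₂ := by ring
      _ = _ := by
        rw [heq, heq', zpow_add₀ hC, zpow_natCast]; ring
  by_cases hN0 : Nn = 0
  · left
    rw [hN0, map_zero, mul_zero] at hmain
    rcases mul_eq_zero.mp hmain with h | h
    · exact val_eq_zero_iff.mp h
    · exact absurd h (red_ne_zero_imp_inc_ne_zero hden)
  · right
    obtain ⟨a, N₀, hN₀, hrN₀, hNeq⟩ := exists_primitive hw hNint hN0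
    refine ⟨n + a, N₀, U₂ * W₂, hN₀, IsIntE.mul h₂ k₂, hrN₀, hden, ?_⟩
    rw [hmain, hNeq, zpow_add₀ hC, zpow_natCast, map_pow]
    ring

theorem GaussForm.add {w₀ : Qb} (hw : _root_.Fermat.Agent.S18.H24.IsUnif A E w₀) {f g : Om M}
    (hf : GaussForm M A E w₀ f) (hg : GaussForm M A E w₀ g) :
    f + g = 0 ∨ GaussForm M A E w₀ (f + g) := by
  obtain ⟨n, U₁, U₂, h₁, h₂, -, hr₂, heq⟩ := hf
  obtain ⟨n', W₁, W₂, k₁, k₂, -, kr₂, heq'⟩ := hg
  rcases le_total n n' with h | h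
  · obtain ⟨d, hd⟩ := Int.le.dest h
    rw [← hd] at heq'
    exact GaussForm.add_aux hw h₁ h₂ hr₂ heq k₁ k₂ kr₂ heq'
  · obtain ⟨d, hd⟩ := Int.le.dest h
    rw [← hd] at heq
    rw [add_comm]
    exact GaussForm.add_aux hw k₁ k₂ kr₂ heq' h₁ h₂ hr₂ heq

end Fermat.Agent.S18.H24

end
end
-- ===== PACK-END S18/H24/GaussB.lean

-- ===== PACK-BEGIN S18/H107/T2Model.lean
section






/-!
# helper107 — S18 / M3-T : the good model for the coordinate `t₂` (case `ℓ = 3`)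

`goodModel_t2_107` : from the `j`-model WITHOUT branch-set fields (`BaseModel107 … j`, true for
every `ℓ ∤ M`), the branch data of the `j`-line in characteristic `0` (`BranchJ107`), the identity
`j t² = (t + 256)³`, `2⁻¹ ∈ R`, `t ∈ Fc ∩ V` and the Gauss property of `t`, we get the frozen
`Alg.GoodModel Lc Ec Fc R V w t S` with `S = {0, -64}`.
-/

set_option autoImplicit false

namespace Fermat.Agent.S18.H107

open Polynomial Fermat.Agent.S18.Alg

variable {Ω : Type*} [Field Ω]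

theorem ne_zero_of_transcendental107 {Lc : Subfield Ω} {j : Ω} (h : Transcendental Lc j) :
    j ≠ 0 := by
  rintro rfl
  exact h isAlgebraic_zero

/-- `gauss` applied to `X + C a`. -/
theorem gauss_X_add_C107 {R V : Subring Ω} {t : Ω}
    (hgauss : ∀ P : Polynomial Ω, (∀ i, P.coeff i ∈ R) →
      (∃ i, P.coeff i ≠ 0 ∧ (P.coeff i)⁻¹ ∈ R) → (P.eval t)⁻¹ ∈ V)
    {a : Ω} (ha : a ∈ R) : (t + a)⁻¹ ∈ V := by
  have := hgauss (X + C a) (fun i => ?_) ⟨1, ?_, ?_⟩
  · simpa using this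
  · rw [coeff_add, coeff_X, coeff_C]
    split_ifs
    · exact R.add_mem R.one_mem ha
    · exact R.add_mem R.one_mem R.zero_mem
    · exact R.add_mem R.zero_mem ha
    · exact R.add_mem R.zero_mem R.zero_mem
  · simp [coeff_X]
  · simp [coeff_X, R.one_mem]

theorem gauss_X107 {R V : Subring Ω} {t : Ω}
    (hgauss : ∀ P : Polynomial Ω, (∀ i, P.coeff i ∈ R) →
      (∃ i, P.coeff i ≠ 0 ∧ (P.coeff i)⁻¹ ∈ R) → (P.eval t)⁻¹ ∈ V) : t⁻¹ ∈ V := by
  have := gauss_X_add_C107 hgauss R.zero_mem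
  rwa [add_zero] at this

theorem goodModel_t2_107 {Lc Ec Fc : Subfield Ω} {R V : Subring Ω} {w j t : Ω} {S : Finset Ω}
    (hb : BaseModel107 Lc Ec Fc R V w j) (hB : BranchJ107 Lc j)
    (hrel : j * t ^ 2 = (t + 256) ^ 3) (htF : t ∈ Fc) (htV : t ∈ V) (h2 : (2 : Ω)⁻¹ ∈ R)
    (hgauss : ∀ P : Polynomial Ω, (∀ i, P.coeff i ∈ R) →
      (∃ i, P.coeff i ≠ 0 ∧ (P.coeff i)⁻¹ ∈ R) → (P.eval t)⁻¹ ∈ V)
    (hS : ∀ s, s ∈ S ↔ s = 0 ∨ s = -64) :
    GoodModel Lc Ec Fc R V w t S := by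
  have := hb.charZero
  have hj0 : j ≠ 0 := ne_zero_of_transcendental107 hb.x_transcendental
  have hH : HauptT2107 Fc R V j t :=
    { rel := hrel
      two_inv := h2
      two_ne := two_ne_zero
      j_ne := hj0
      t_mem_Fc := htF
      t_mem_V := htV
      t256_inv_mem_V := gauss_X_add_C107 hgauss (ofNat_mem R 256) }
  have ht0 : t ≠ 0 := hH.t_ne
  have hwF : w ∈ Fc := hb.E_le_F (hb.R_le hb.w_mem)
  have htinvV : t⁻¹ ∈ V := gauss_X107 hgauss
  have h64 : (64 : Ω)⁻¹ ∈ R := by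
    have := R.pow_mem h2 6
    have e : ((2 : Ω)⁻¹) ^ 6 = (64 : Ω)⁻¹ := by norm_num
    rwa [e] at this
  -- `j ∈ Ec(t)`
  have hjrat : j ∈ ratField Ec t := by
    have e : j = (t + 256) ^ 3 * (t ^ 2)⁻¹ := by
      field_simp
      linear_combination hrel
    rw [e]
    have ht := self_mem_ratField107 Ec t
    exact mul_mem (pow_mem (add_mem ht (ofNat_mem _ 256)) 3) (inv_mem (pow_mem ht 2))
  -- transcendence of `t`
  have htr : Transcendental Lc t := by
    intro halg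
    apply hb.x_transcendental
    have e : j = (t + 256) ^ 3 * (t ^ 2)⁻¹ := by
      field_simp
      linear_combination hrel
    rw [e]
    have h256 : IsAlgebraic Lc (256 : Ω) := by
      have : (256 : Ω) = algebraMap Lc Ω (256 : Lc) := by
        rw [map_ofNat]
      rw [this]
      exact isAlgebraic_algebraMap _
    exact ((halg.add h256).pow 3).mul (halg.pow 2).inv
  refine (show BaseModel107 Lc Ec Fc R V w t from
    { charZero := hb.charZero
      R_le := hb.R_le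
      R_total := hb.R_total
      w_mem := hb.w_mem
      w_ne_zero := hb.w_ne_zero
      w_inv_not_mem := hb.w_inv_not_mem
      w_gen := hb.w_gen
      w_discrete := hb.w_discrete
      residue_perfect := hb.residue_perfect
      E_le_L := hb.E_le_L
      E_le_F := hb.E_le_F
      L_algebraic := hb.L_algebraic
      L_algClosed := hb.L_algClosed
      E_closed_in_F := hb.E_closed_in_F
      compositum := hb.compositum
      x_mem := htF
      x_transcendental := htr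
      finite := finite_transfer107 hjrat hb.finite
      V_le := hb.V_le
      V_total := hb.V_total
      R_le_V := hb.R_le_V
      w_inv_not_mem_V := hb.w_inv_not_mem_V
      V_gen := hb.V_gen
      x_mem_V := htV
      gauss := hgauss
      qep_fin := hH.qep_fin hwF hb.qep_fin hb.qep_inf
      qep_inf := hH.qep_inf hwF hb.qep_fin hb.qep_inf
      separable := separable_transfer107 (e := t ^ 2)
        (Subring.pow_mem _ (self_mem_polyRing107 R t) 2)
        (by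
          rw [hrel]
          exact Subring.pow_mem _
            (Subring.add_mem _ (self_mem_polyRing107 R t) (ofNat_mem _ 256)) 3)
        (V.pow_mem htV 2) (by rw [← inv_pow]; exact V.pow_mem htinvV 2) (pow_ne_zero _ ht0)
        hb.separable }).toGoodModel S ?_ ?_ ?_ ?_
  · intro s hs
    rcases (hS s).1 hs with rfl | rfl
    · exact R.zero_mem
    · exact R.neg_mem (ofNat_mem R 64)
  · intro s hs s' hs' hne
    rcases (hS s).1 hs with rfl | rfl <;> rcases (hS s').1 hs' with rfl | rfl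
    · exact absurd rfl hne
    · have e : ((0 : Ω) - -64)⁻¹ = (64 : Ω)⁻¹ := by norm_num
      rw [e]
      exact h64
    · have e : ((-64 : Ω) - 0)⁻¹ = -(64 : Ω)⁻¹ := by
        rw [sub_zero, inv_neg]
      rw [e]
      exact R.neg_mem h64
    · exact absurd rfl hne
  · intro s hs hs0
    rcases (hS s).1 hs with rfl | rfl
    · exact absurd rfl hs0
    · rw [inv_neg]
      exact R.neg_mem h64
  · intro O hL c hc hcS hz hz'
    have hc0 : c ≠ 0 := fun h => hcS ((hS c).2 (Or.inl h))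
    have hc64 : c ≠ -64 := fun h => hcS ((hS c).2 (Or.inr h))
    exact unramified_t2_107 Lc j t hrel hB O hL c hc hc64 hc0 hz hz'

end Fermat.Agent.S18.H107

end
-- ===== PACK-END S18/H107/T2Model.lean

-- ===== PACK-BEGIN S18/H107/T3Model.lean
section







/-!
# helper107 — S18 / M3-T : the good model for the coordinate `t₃` (case `ℓ = 2`)

`goodModel_t3_107` : from the `j`-model WITHOUT branch-set fields (`BaseModel107 … j`, true for
every `ℓ ∤ M`), the branch data of the `j`-line in characteristic `0` (`BranchJ107`), the identity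
`j t³ = (t + 27)(t + 243)³`, `3⁻¹ ∈ R`, `t ∈ Fc ∩ V` and the Gauss property of `t`, we get the
frozen `Alg.GoodModel Lc Ec Fc R V w t S` with `S = {0, -27}`.
-/

set_option autoImplicit false

namespace Fermat.Agent.S18.H107

open Polynomial Fermat.Agent.S18.Alg

variable {Ω : Type*} [Field Ω]

theorem goodModel_t3_107 {Lc Ec Fc : Subfield Ω} {R V : Subring Ω} {w j t : Ω} {S : Finset Ω}
    (hb : BaseModel107 Lc Ec Fc R V w j) (hB : BranchJ107 Lc j)
    (hrel : j * t ^ 3 = (t + 27) * (t + 243) ^ 3) (htF : t ∈ Fc) (htV : t ∈ V)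
    (h3 : (3 : Ω)⁻¹ ∈ R)
    (hgauss : ∀ P : Polynomial Ω, (∀ i, P.coeff i ∈ R) →
      (∃ i, P.coeff i ≠ 0 ∧ (P.coeff i)⁻¹ ∈ R) → (P.eval t)⁻¹ ∈ V)
    (hS : ∀ s, s ∈ S ↔ s = 0 ∨ s = -27) :
    GoodModel Lc Ec Fc R V w t S := by
  have := hb.charZero
  have hj0 : j ≠ 0 := ne_zero_of_transcendental107 hb.x_transcendental
  have hH : HauptT3107 Fc R V j t :=
    { rel := hrel
      three_inv := h3
      three_ne := three_ne_zero
      j_ne := hj0
      t_mem_Fc := htF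
      t_mem_V := htV
      t27_inv_mem_V := gauss_X_add_C107 hgauss (ofNat_mem R 27) }
  have ht0 : t ≠ 0 := hH.t_ne
  have hwF : w ∈ Fc := hb.E_le_F (hb.R_le hb.w_mem)
  have htinvV : t⁻¹ ∈ V := gauss_X107 hgauss
  have h64 : (27 : Ω)⁻¹ ∈ R := hH.inv27_mem
  -- `j ∈ Ec(t)`
  have hjrat : j ∈ ratField Ec t := by
    have e : j = (t + 27) * (t + 243) ^ 3 * (t ^ 3)⁻¹ := by
      field_simp
      linear_combination hrel
    rw [e]
    have ht := self_mem_ratField107 Ec t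
    exact mul_mem (mul_mem (add_mem ht (ofNat_mem _ 27)) (pow_mem (add_mem ht (ofNat_mem _ 243)) 3))
      (inv_mem (pow_mem ht 3))
  -- transcendence of `t`
  have htr : Transcendental Lc t := by
    intro halg
    apply hb.x_transcendental
    have e : j = (t + 27) * (t + 243) ^ 3 * (t ^ 3)⁻¹ := by
      field_simp
      linear_combination hrel
    rw [e]
    have h27 : IsAlgebraic Lc (27 : Ω) := by
      have : (27 : Ω) = algebraMap Lc Ω (27 : Lc) := by
        rw [map_ofNat]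
      rw [this]
      exact isAlgebraic_algebraMap _
    have h243 : IsAlgebraic Lc (243 : Ω) := by
      have : (243 : Ω) = algebraMap Lc Ω (243 : Lc) := by
        rw [map_ofNat]
      rw [this]
      exact isAlgebraic_algebraMap _
    exact ((halg.add h27).mul ((halg.add h243).pow 3)).mul (halg.pow 3).inv
  refine (show BaseModel107 Lc Ec Fc R V w t from
    { charZero := hb.charZero
      R_le := hb.R_le
      R_total := hb.R_total
      w_mem := hb.w_mem
      w_ne_zero := hb.w_ne_zero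
      w_inv_not_mem := hb.w_inv_not_mem
      w_gen := hb.w_gen
      w_discrete := hb.w_discrete
      residue_perfect := hb.residue_perfect
      E_le_L := hb.E_le_L
      E_le_F := hb.E_le_F
      L_algebraic := hb.L_algebraic
      L_algClosed := hb.L_algClosed
      E_closed_in_F := hb.E_closed_in_F
      compositum := hb.compositum
      x_mem := htF
      x_transcendental := htr
      finite := finite_transfer107 hjrat hb.finite
      V_le := hb.V_le
      V_total := hb.V_total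
      R_le_V := hb.R_le_V
      w_inv_not_mem_V := hb.w_inv_not_mem_V
      V_gen := hb.V_gen
      x_mem_V := htV
      gauss := hgauss
      qep_fin := hH.qep_fin hwF hb.qep_fin hb.qep_inf
      qep_inf := hH.qep_inf hwF hb.qep_fin hb.qep_inf
      separable := separable_transfer107 (e := t ^ 3)
        (Subring.pow_mem _ (self_mem_polyRing107 R t) 3)
        (by
          rw [hrel]
          exact Subring.mul_mem _ (Subring.add_mem _ (self_mem_polyRing107 R t) (ofNat_mem _ 27))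
            (Subring.pow_mem _
              (Subring.add_mem _ (self_mem_polyRing107 R t) (ofNat_mem _ 243)) 3))
        (V.pow_mem htV 3) (by rw [← inv_pow]; exact V.pow_mem htinvV 3) (pow_ne_zero _ ht0)
        hb.separable }).toGoodModel S ?_ ?_ ?_ ?_
  · intro s hs
    rcases (hS s).1 hs with rfl | rfl
    · exact R.zero_mem
    · exact R.neg_mem (ofNat_mem R 27)
  · intro s hs s' hs' hne
    rcases (hS s).1 hs with rfl | rfl <;> rcases (hS s').1 hs' with rfl | rfl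
    · exact absurd rfl hne
    · have e : ((0 : Ω) - -27)⁻¹ = (27 : Ω)⁻¹ := by norm_num
      rw [e]
      exact h64
    · have e : ((-27 : Ω) - 0)⁻¹ = -(27 : Ω)⁻¹ := by
        rw [sub_zero, inv_neg]
      rw [e]
      exact R.neg_mem h64
    · exact absurd rfl hne
  · intro s hs hs0
    rcases (hS s).1 hs with rfl | rfl
    · exact absurd rfl hs0
    · rw [inv_neg]
      exact R.neg_mem h64
  · intro O hL c hc hcS hz hz'
    have hc0 : c ≠ 0 := fun h => hcS ((hS c).2 (Or.inl h))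
    have hc64 : c ≠ -27 := fun h => hcS ((hS c).2 (Or.inr h))
    exact unramified_t3_107 Lc j t hrel hB O hL c hc hc64 hc0 hz hz'

end Fermat.Agent.S18.H107

end
-- ===== PACK-END S18/H107/T3Model.lean

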