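import Mathlib
import Fermat.Prelude.Def_AlgebraicCurve_DivisorClassGroup
import Fermat.Prelude.Def_AlgebraicCurve_DivisorPushPull
import Fermat.Prelude.Def_ModularCurve_X0ModL
import Fermat.Agent.Pack.S3234.G0E5L0
import Fermat.Agent.Pack.S3234.G0E0L3
import Fermat.Agent.Pack.S3234.G0E0L2
import Fermat.Agent.Pack.S3234.G0E2L2
import Fermat.Agent.Pack.S3234.G0E2L0
import Fermat.Agent.Pack.S3234.G0E5L2
import Fermat.Agent.Pack.S3234.G0E3L2
import Fermat.Agent.Pack.S3234.G0E0L0
import Fermat.Agent.Pack.S3234.G0E5L3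
import Fermat.Agent.Pack.S3234.G0E1L0
import Fermat.Agent.Pack.S3234.G0E1L3
import Fermat.Agent.Pack.S3234.G0E5L1
import Fermat.Agent.Pack.S3234.G0E3L1

-- ===== PACK-BEGIN S24/FFIdentity.lean
section




/-!
# S24 / FF layer: the fundamental identity `∑_{v(t) > 0} ord_v(t) = [F : K(t)]`
(helper804)
-/

set_option autoImplicit false
set_option linter.unusedSectionVars false

namespace Fermat.Agent.S24.FF

open AlgebraicCurve Polynomial IntermediateField IsDedekindDomain

open scoped IntermediateField.algebraAdjoinAdjoin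

/-- Abstract criterion: if every element of `S` is congruent mod `q` to an element of `R`,
the inertia degree of `q` is one. -/
theorem inertiaDeg_eq_one_of_forall_exists {R S : Type*} [CommRing R] [CommRing S] [Algebra R S]
    (p : Ideal R) (q : Ideal S) [q.LiesOver p] [p.IsMaximal] [q.IsMaximal]
    (h : ∀ s : S, ∃ r : R, s - algebraMap R S r ∈ q) : q.inertiaDeg R = 1 := by
  rw [Ideal.inertiaDeg_eq_of_isMaximal p q]
  let _ : Field (R ⧸ p) := Ideal.Quotient.field _
  rw [finrank_eq_one_iff_of_nonzero' (1 : S ⧸ q) one_ne_zero]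
  intro w
  obtain ⟨s, rfl⟩ := Ideal.Quotient.mk_surjective w
  obtain ⟨r, hr⟩ := h s
  refine ⟨Ideal.Quotient.mk _ r, ?_⟩
  rw [Algebra.smul_def, mul_one, Ideal.Quotient.algebraMap_mk_of_liesOver, eq_comm,
    Ideal.Quotient.eq]
  exact hr

variable {K F : Type*} [Field K] [Field F] [Algebra K F] {t : F}

instance instTowerCoordIntRing : IsScalarTower (coordRing K t) (intRing K t) F :=
  IsScalarTower.of_algebraMap_eq (fun _ => rfl)

section

variable [CharZero K] [IsCoord K t]

theorem t_ne_zero (ht : Transcendental K t) : t ≠ 0 := by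
  rintro rfl
  exact ht isAlgebraic_zero

theorem tS_ne_zero : tS K t ≠ 0 := by
  intro h
  apply t_ne_zero (IsCoord.transcendental (K := K) (t := t))
  have := congrArg (fun s : intRing K t => (s : F)) h
  simpa using this

theorem irreducible_tR : Irreducible (tR K t) := by
  have h := Polynomial.irreducible_X (R := K)
  have e := algEquivOfTranscendental K t (IsCoord.transcendental (K := K) (t := t))
  rw [tR, ← algEquivOfTranscendental_apply_X K t (IsCoord.transcendental (K := K) (t := t))]
  exact (MulEquiv.irreducible_iff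
    (algEquivOfTranscendental K t (IsCoord.transcendental (K := K) (t := t)))).mpr h

variable (K t) in
/-- The maximal ideal `(t)` of `K[t]`. -/
def tIdeal : Ideal (coordRing K t) := Ideal.span {tR K t}

instance tIdeal_isMaximal : (tIdeal K t).IsMaximal :=
  PrincipalIdealRing.isMaximal_of_irreducible irreducible_tR

theorem map_tIdeal :
    (tIdeal K t).map (algebraMap (coordRing K t) (intRing K t)) = Ideal.span {tS K t} := by
  rw [tIdeal, Ideal.map_span, Set.image_singleton]
  rfl

theorem map_tIdeal_ne_bot :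
    (tIdeal K t).map (algebraMap (coordRing K t) (intRing K t)) ≠ ⊥ := by
  rw [map_tIdeal, Ne, Ideal.span_singleton_eq_bot]
  exact tS_ne_zero

theorem liesOver_iff (q : Ideal (intRing K t)) [hq : q.IsPrime] :
    q.LiesOver (tIdeal K t) ↔ tS K t ∈ q := by
  constructor
  · intro h
    have : tR K t ∈ q.under (coordRing K t) := by
      rw [← h.over]
      exact Ideal.subset_span rfl
    exact this
  · intro h
    refine ⟨?_⟩
    apply (tIdeal_isMaximal (K := K) (t := t)).eq_of_le (Ideal.IsPrime.under _ q).ne_top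
    rw [tIdeal, Ideal.span_le, Set.singleton_subset_iff]
    exact h

/-- `ord_v(t)` at the place of a prime `q` over `(t)` is the ramification index of `q`. -/
theorem ord_t_eq_ramificationIdx (q : HeightOneSpectrum (intRing K t))
    [hq : q.asIdeal.LiesOver (tIdeal K t)] :
    (placeOfPrime K t q).ord t = (q.asIdeal.ramificationIdx (coordRing K t) : ℤ) := by
  have := q.isPrime
  rw [Ideal.IsDedekindDomain.ramificationIdx_eq_multiplicity (tIdeal K t) q.asIdeal
    map_tIdeal_ne_bot, map_tIdeal, ord_placeOfPrime]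
  have h1 : q.valuation F t = q.intValuation (tS K t) := q.valuation_of_algebraMap (tS K t)
  rw [h1, q.intValuation_eq_exp_neg_multiplicity tS_ne_zero]
  simp

/-- The residue degree of every prime over `(t)` is one. -/
theorem inertiaDeg_eq_one [IsAlgClosed K] (q : HeightOneSpectrum (intRing K t))
    [hq : q.asIdeal.LiesOver (tIdeal K t)] :
    q.asIdeal.inertiaDeg (coordRing K t) = 1 := by
  have : q.asIdeal.IsMaximal := q.isPrime.isMaximal q.ne_bot
  refine inertiaDeg_eq_one_of_forall_exists (tIdeal K t) q.asIdeal fun s => ?_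
  have hsO : (s : F) ∈ (placeOfPrime K t q).toValuationSubring :=
    mem_of_mem_intRing _ (ord_t_placeOfPrime_nonneg q) s.2
  obtain ⟨a, ha⟩ := exists_const_sub_mem_nonunits (placeOfPrime K t q)
    (IsCoord.transcendental (K := K) (t := t)) hsO
  refine ⟨algebraMap K (coordRing K t) a, ?_⟩
  rw [← center_placeOfPrime q, mem_center_iff]
  exact ha

/-- The height-one prime attached to a prime over `(t)`. -/
def primeOfOver (q : (tIdeal K t).primesOver (intRing K t)) :
    HeightOneSpectrum (intRing K t) :=
  ⟨q.1, q.2.1, fun h => tS_ne_zero (K := K) (t := t) (by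
    have h1 := (liesOver_iff q.1 (hq := q.2.1)).mp q.2.2
    rw [h] at h1
    exact h1)⟩

@[simp] theorem primeOfOver_asIdeal (q : (tIdeal K t).primesOver (intRing K t)) :
    (primeOfOver q).asIdeal = q.1 := rfl

instance primeOfOver_liesOver (q : (tIdeal K t).primesOver (intRing K t)) :
    (primeOfOver q).asIdeal.LiesOver (tIdeal K t) := q.2.2

/-- The place attached to a prime over `(t)`. -/
noncomputable def placeOfOver (q : (tIdeal K t).primesOver (intRing K t)) : Place K F :=
  placeOfPrime K t (primeOfOver q)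

theorem placeOfOver_injective :
    Function.Injective (placeOfOver : (tIdeal K t).primesOver (intRing K t) → Place K F) := by
  intro q q' h
  have := placeOfPrime_injective h
  apply Subtype.ext
  exact congrArg HeightOneSpectrum.asIdeal this

theorem ord_t_placeOfOver_pos (q : (tIdeal K t).primesOver (intRing K t)) :
    0 < (placeOfOver q).ord t := by
  rw [placeOfOver, ord_t_placeOfPrime_pos_iff (t_ne_zero (IsCoord.transcendental (K := K)))]
  exact (liesOver_iff q.1 (hq := q.2.1)).mp q.2.2

theorem exists_placeOfOver_eq (v : Place K F) (ht : 0 < v.ord t) :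
    ∃ q : (tIdeal K t).primesOver (intRing K t), placeOfOver q = v := by
  have ht0 : t ≠ 0 := t_ne_zero (IsCoord.transcendental (K := K))
  have hmem : tS K t ∈ center v ht.le :=
    (mem_center_iff v ht.le _).mpr ((ord_pos_iff_mem_nonunits v ht0).mp ht)
  refine ⟨⟨center v ht.le, center_isPrime v ht.le, (liesOver_iff _).mpr hmem⟩, ?_⟩
  exact placeOfPrime_centerPrime v ht

theorem range_placeOfOver :
    Set.range (placeOfOver : (tIdeal K t).primesOver (intRing K t) → Place K F) =
      {v : Place K F | 0 < v.ord t} := by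
  ext v
  constructor
  · rintro ⟨q, rfl⟩
    exact ord_t_placeOfOver_pos q
  · intro hv
    exact exists_placeOfOver_eq v hv

theorem sum_placeOfOver [IsAlgClosed K] :
    ∑ q : (tIdeal K t).primesOver (intRing K t), (placeOfOver q).ord t =
      (Module.finrank K⟮t⟯ F : ℤ) := by
  have h := Ideal.sum_ramification_inertia_eq_finrank (tIdeal K t) (intRing K t)
  rw [IsFractionRing.finrank_eq (coordRing K t) K⟮t⟯ (intRing K t) F, ← h]
  push_cast
  refine Finset.sum_congr rfl fun q _ => ?_
  have h1 := inertiaDeg_eq_one (primeOfOver q)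
  rw [primeOfOver_asIdeal] at h1
  rw [placeOfOver, ord_t_eq_ramificationIdx (primeOfOver q), h1]
  simp

end

section final

/-- **Fundamental identity, finiteness**: a coordinate function has finitely many zeros. -/
theorem finite_setOf_ord_pos [CharZero K] (ht : Transcendental K t)
    [FiniteDimensional K⟮t⟯ F] : {v : Place K F | 0 < v.ord t}.Finite := by
  have : IsCoord K t := ⟨ht, inferInstance⟩
  rw [← range_placeOfOver]
  exact Set.finite_range _

/-- **Fundamental identity**: `∑_{v(t) > 0} ord_v(t) = [F : K(t)]`. -/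
theorem sum_ord_eq_finrank [IsAlgClosed K] [CharZero K] (ht : Transcendental K t)
    [FiniteDimensional K⟮t⟯ F] (s : Finset (Place K F)) (hs : ∀ v, v ∈ s ↔ 0 < v.ord t) :
    ∑ v ∈ s, v.ord t = (Module.finrank K⟮t⟯ F : ℤ) := by
  have : IsCoord K t := ⟨ht, inferInstance⟩
  rw [← sum_placeOfOver]
  symm
  refine Finset.sum_bij (fun q _ => placeOfOver q) ?_ ?_ ?_ ?_
  · intro q _
    exact (hs _).mpr (ord_t_placeOfOver_pos q)
  · intro q _ q' _ h
    exact placeOfOver_injective h
  · intro v hv
    obtain ⟨q, hq⟩ := exists_placeOfOver_eq v ((hs v).mp hv)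
    exact ⟨q, Finset.mem_univ _, hq⟩
  · intro q _
    rfl

/-- Skeleton form of the fundamental identity (helper864 FF3b). -/
theorem sum_ord_pos_eq_finrank [IsAlgClosed K] [CharZero K] (ht : Transcendental K t)
    [FiniteDimensional K⟮t⟯ F] :
    ∑ v ∈ (finite_setOf_ord_pos ht).toFinset, v.ord t = (Module.finrank K⟮t⟯ F : ℤ) :=
  sum_ord_eq_finrank ht _ (fun v => by simp)

end final

end Fermat.Agent.S24.FF

end
-- ===== PACK-END S24/FFIdentity.lean

-- ===== PACK-BEGIN S24/FFDegree.lean
section




/-!
# S24 / FF layer: poles of a coordinate function and `deg (div f) = 0`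
(helper804)
-/

set_option autoImplicit false
set_option linter.unusedSectionVars false

namespace Fermat.Agent.S24.FF

open AlgebraicCurve Polynomial IntermediateField

variable {K F : Type*} [Field K] [Field F] [Algebra K F]

theorem adjoin_inv_eq (f : F) : K⟮f⁻¹⟯ = K⟮f⟯ := by
  apply le_antisymm
  · rw [adjoin_simple_le_iff]
    exact inv_mem (mem_adjoin_simple_self K f)
  · rw [adjoin_simple_le_iff]
    have := inv_mem (mem_adjoin_simple_self K f⁻¹)
    rwa [inv_inv] at this

theorem finrank_adjoin_inv (f : F) : Module.finrank K⟮f⁻¹⟯ F = Module.finrank K⟮f⟯ F := by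
  rw [adjoin_inv_eq]

theorem transcendental_inv {f : F} (hf : Transcendental K f) : Transcendental K f⁻¹ := by
  intro h
  apply hf
  have := h.inv
  rwa [inv_inv] at this

theorem finiteDimensional_adjoin_inv (f : F) [h : FiniteDimensional K⟮f⟯ F] :
    FiniteDimensional K⟮f⁻¹⟯ F := by
  rw [adjoin_inv_eq]
  exact h

theorem adjoin_sub_const_eq (f : F) (a : K) : K⟮f - algebraMap K F a⟯ = K⟮f⟯ := by
  apply le_antisymm
  · rw [adjoin_simple_le_iff]
    exact sub_mem (mem_adjoin_simple_self K f) (IntermediateField.algebraMap_mem _ a)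
  · rw [adjoin_simple_le_iff]
    have := add_mem (mem_adjoin_simple_self K (f - algebraMap K F a))
      (IntermediateField.algebraMap_mem K⟮f - algebraMap K F a⟯ a)
    rwa [sub_add_cancel] at this

theorem finrank_adjoin_sub_const (f : F) (a : K) :
    Module.finrank K⟮f - algebraMap K F a⟯ F = Module.finrank K⟮f⟯ F := by
  rw [adjoin_sub_const_eq]

theorem finiteDimensional_adjoin_sub_const (f : F) (a : K) [h : FiniteDimensional K⟮f⟯ F] :
    FiniteDimensional K⟮f - algebraMap K F a⟯ F := by
  rw [adjoin_sub_const_eq]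
  exact h

theorem transcendental_sub_const {f : F} (hf : Transcendental K f) (a : K) :
    Transcendental K (f - algebraMap K F a) := by
  intro h
  apply hf
  have := h.add (isAlgebraic_algebraMap (R := K) (A := F) a)
  rwa [sub_add_cancel] at this

section

variable [CharZero K]

/-- A coordinate function has finitely many poles. -/
theorem finite_setOf_ord_neg {t : F} (ht : Transcendental K t) [FiniteDimensional K⟮t⟯ F] :
    {v : Place K F | v.ord t < 0}.Finite := by
  have := finiteDimensional_adjoin_inv (K := K) t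
  have h := finite_setOf_ord_pos (transcendental_inv ht)
  refine h.subset ?_
  intro v hv
  change 0 < v.ord t⁻¹
  have hv' : v.ord t < 0 := hv
  rw [v.ord_inv]
  omega

/-- A nonconstant function has finitely many zeros and poles. -/
theorem finite_setOf_ord_ne_zero {t : F} (ht : Transcendental K t) [FiniteDimensional K⟮t⟯ F] :
    {v : Place K F | v.ord t ≠ 0}.Finite := by
  refine ((finite_setOf_ord_pos ht).union (finite_setOf_ord_neg ht)).subset ?_
  intro v hv
  have hv' : v.ord t ≠ 0 := hv
  rcases lt_or_gt_of_ne hv' with h | h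
  · exact Or.inr h
  · exact Or.inl h

variable [IsAlgClosed K]

/-- **Fundamental identity at the poles**: `∑_{v(t) < 0} ord_v(t) = -[F : K(t)]`. -/
theorem sum_ord_neg_eq_neg_finrank {t : F} (ht : Transcendental K t) [FiniteDimensional K⟮t⟯ F]
    (s : Finset (Place K F)) (hs : ∀ v, v ∈ s ↔ v.ord t < 0) :
    ∑ v ∈ s, v.ord t = -(Module.finrank K⟮t⟯ F : ℤ) := by
  have := finiteDimensional_adjoin_inv (K := K) t
  have h := sum_ord_eq_finrank (transcendental_inv ht) s (fun v => by
    rw [hs, v.ord_inv]
    omega)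
  rw [finrank_adjoin_inv] at h
  rw [← h, ← Finset.sum_neg_distrib]
  refine Finset.sum_congr rfl fun v _ => ?_
  rw [v.ord_inv, neg_neg]

/-- **Fundamental identity over the point `a`**: `∑_{v(t - a) > 0} ord_v(t - a) = [F : K(t)]`. -/
theorem sum_ord_sub_const_eq_finrank {t : F} (ht : Transcendental K t)
    [FiniteDimensional K⟮t⟯ F] (a : K)
    (s : Finset (Place K F)) (hs : ∀ v, v ∈ s ↔ 0 < v.ord (t - algebraMap K F a)) :
    ∑ v ∈ s, v.ord (t - algebraMap K F a) = (Module.finrank K⟮t⟯ F : ℤ) := by
  have := finiteDimensional_adjoin_sub_const (K := K) t a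
  have h := sum_ord_eq_finrank (transcendental_sub_const ht a) s hs
  rwa [finrank_adjoin_sub_const] at h

theorem degree_eq_sum (D : Divisor K F) :
    Divisor.degree D = ∑ v ∈ D.support, D v * (v.deg : ℤ) := by
  simp [Divisor.degree, Finsupp.sum]

/-- **FF3: a principal divisor has degree zero.** -/
theorem degree_principal (j : F) (hj : Transcendental K j) [FiniteDimensional K⟮j⟯ F]
    (f : F) (D : Divisor K F) (hD : ∀ v : Place K F, D v = v.ord f) :
    Divisor.degree D = 0 := by
  by_cases hfr : f ∈ (algebraMap K F).range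
  · obtain ⟨a, rfl⟩ := hfr
    have : D = 0 := by
      ext v
      rw [hD, _root_.Fermat.Agent.S24.FF.ord_algebraMap]
      rfl
    rw [this, map_zero]
  have hft : Transcendental K f := transcendental_of_not_mem_range hfr
  have hfin : FiniteDimensional K⟮f⟯ F := finiteDimensional_adjoin_of_transcendental hj hft
  classical
  rw [degree_eq_sum]
  have hsupp : ∀ v, v ∈ D.support ↔ v.ord f ≠ 0 := fun v => by
    rw [Finsupp.mem_support_iff, hD]
  have h1 : ∑ v ∈ D.support, D v * (v.deg : ℤ) = ∑ v ∈ D.support, v.ord f := by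
    refine Finset.sum_congr rfl fun v _ => ?_
    rw [hD, deg_eq_one v hj]
    simp
  rw [h1, ← Finset.sum_filter_add_sum_filter_not D.support (fun v => 0 < v.ord f)]
  have hP := sum_ord_eq_finrank hft (D.support.filter fun v => 0 < v.ord f) (fun v => by
    rw [Finset.mem_filter, hsupp]
    constructor
    · exact fun h => h.2
    · exact fun h => ⟨h.ne', h⟩)
  have hN := sum_ord_neg_eq_neg_finrank hft (D.support.filter fun v => ¬ 0 < v.ord f)
    (fun v => by
      rw [Finset.mem_filter, hsupp]
      constructor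
      · rintro ⟨h1, h2⟩
        omega
      · intro h
        exact ⟨h.ne, by omega⟩)
  rw [hP, hN]
  ring

end

end Fermat.Agent.S24.FF

namespace Fermat.Agent.S24.FF

open AlgebraicCurve

variable {K F : Type*} [Field K] [Field F] [Algebra K F] [IsAlgClosed K] [CharZero K]

/-- Exact shape of helper984's `open_fundamental_le` (`Alg/Open.lean`). -/
theorem fundamental_le (t : F) (ht : Transcendental K t)
    [FiniteDimensional ↥(IntermediateField.adjoin K {t}) F]
    (s : Finset (Place K F)) (hs : ∀ v : Place K F, v ∈ s ↔ 0 < v.ord t) :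
    (Module.finrank ↥(IntermediateField.adjoin K {t}) F : ℤ) ≤ ∑ v ∈ s, v.ord t :=
  (sum_ord_eq_finrank ht s hs).ge

/-- Exact shape of helper984's `open_degree_principal` (`Alg/Open.lean`). -/
theorem degree_principal' (j : F) (hj : Transcendental K j)
    [FiniteDimensional ↥(IntermediateField.adjoin K {j}) F] (f : F) (_hf : f ≠ 0)
    (D : Divisor K F) (hD : ∀ v : Place K F, D v = v.ord f) : Divisor.degree D = 0 :=
  _root_.Fermat.Agent.S24.FF.degree_principal j hj f D hD

end Fermat.Agent.S24.FF

end
-- ===== PACK-END S24/FFDegree.lean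

-- ===== PACK-BEGIN S24/Alg/Open.lean
section



/-!
# S24 / ALG — the fundamental equality (FF1)

INTERFACE FILE (statement by helper984).  Proof: helper804's Dedekind dictionary
(`Fermat.Agent.S24.FF.finite_setOf_ord_pos`, `Fermat.Agent.S24.FF.sum_ord_eq_finrank`).
-/

set_option autoImplicit false

noncomputable section

open AlgebraicCurve

namespace Fermat.Agent.S24

variable {K F : Type*} [Field K] [Field F] [Algebra K F] [IsAlgClosed K] [CharZero K]

/-- FF1 (fundamental equality): the zeros of a transcendental `t` are finite in number and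
`∑_{v | t} ord_v t = [F : K(t)]`. -/
theorem open_fundamental_eq (t : F) (ht : Transcendental K t)
    [FiniteDimensional ↥(IntermediateField.adjoin K {t}) F] :
    ∃ s : Finset (Place K F), (∀ v : Place K F, v ∈ s ↔ 0 < v.ord t) ∧
      ∑ v ∈ s, v.ord t = (Module.finrank ↥(IntermediateField.adjoin K {t}) F : ℤ) :=
  ⟨(FF.finite_setOf_ord_pos ht).toFinset, fun v => by simp,
    FF.sum_ord_eq_finrank ht _ (fun v => by simp)⟩

end Fermat.Agent.S24

end
end
-- ===== PACK-END S24/Alg/Open.lean

-- ===== PACK-BEGIN Lib/FF398/Local.lean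
section







/-!
# Lib/FF398 — relative theory of places for a finite extension `F'/F` of function fields

For a place `v` of `F` and a finite extension `F'/F` (characteristic zero) we use the integral
closure `S` of `O_v` in `F'` (a semi-local Dedekind domain) as a dictionary:
places of `F'` over `v`  ↔  height-one primes of `S`.

Main results of this file (helper398):
* `placeOf v q` : the place of `F'` attached to a height one prime `q` of `S`;
* `restrict_placeOf`, `exists_placeOf_eq`, `placeOf_injective` : the dictionary;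
* `ord_placeOf` : `ord` of `placeOf v q` is the `q`-adic valuation.
-/

set_option autoImplicit false
set_option linter.unusedSectionVars false

open AlgebraicCurve IsDedekindDomain

namespace Fermat.Agent.Lib.FF398

section Max

variable {K F : Type*} [Field K] [Field F] [Algebra K F]

/-- Discrete valuation rings are maximal subrings: comparable places are equal. -/
theorem place_eq_of_le {v w : Place K F} (h : v.toValuationSubring ≤ w.toValuationSubring) :
    v = w :=
  Place.ext (ValuationSubring.eq_of_le_of_ne_top _ h w.ne_top')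

end Max

section Local

variable {K F F' : Type*} [Field K] [Field F] [Field F'] [Algebra K F] [Algebra K F']
  [Algebra F F'] [IsScalarTower K F F'] [FiniteDimensional F F'] [CharZero F]
variable (v : Place K F)

variable (F') in
/-- The integral closure of `O_v` in `F'`. -/
abbrev intCl : Subalgebra v.toValuationSubring F' := integralClosure v.toValuationSubring F'

omit [Algebra K F'] [IsScalarTower K F F'] [FiniteDimensional F F'] [CharZero F] in
theorem algebraMap_OF'_injective :
    Function.Injective (algebraMap v.toValuationSubring F') := by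
  intro a b h
  apply Subtype.ext
  exact (algebraMap F F').injective h

instance (priority := 2000) instFaithfulOF' : FaithfulSMul v.toValuationSubring F' :=
  (faithfulSMul_iff_algebraMap_injective _ _).mpr (algebraMap_OF'_injective v)

instance (priority := 2000) instTorsionFreeOF' :
    Module.IsTorsionFree v.toValuationSubring F' :=
  FaithfulSMul.to_isTorsionFree _ _

instance (priority := 2000) instTorsionFreeIntCl :
    Module.IsTorsionFree v.toValuationSubring (intCl F' v) :=
  Subalgebra.instIsTorsionFree (intCl F' v)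

instance instTowerKOF' : IsScalarTower K v.toValuationSubring F' :=
  IsScalarTower.of_algebraMap_eq fun a => by
    show algebraMap K F' a = algebraMap F F' (algebraMap K F a)
    rw [← IsScalarTower.algebraMap_apply]

instance instDedekindIntCl : IsDedekindDomain (intCl F' v) :=
  integralClosure.isDedekindDomain v.toValuationSubring F F'

instance instFracIntCl : IsFractionRing (intCl F' v) F' :=
  IsIntegralClosure.isFractionRing_of_finite_extension v.toValuationSubring F F' (intCl F' v)

instance instFiniteIntCl : Module.Finite v.toValuationSubring (intCl F' v) :=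
  IsIntegralClosure.finite v.toValuationSubring F F' (intCl F' v)

instance instFreeIntCl : Module.Free v.toValuationSubring (intCl F' v) :=
  Module.free_of_finite_type_torsion_free'

/-- The place of `F'` attached to a height-one prime of the integral closure of `O_v`. -/
noncomputable def placeOf (q : HeightOneSpectrum (intCl F' v)) : Place K F' :=
  Place.ofHeightOneSpectrum (K := K) q

theorem placeOf_toValuationSubring (q : HeightOneSpectrum (intCl F' v)) :
    (placeOf v q).toValuationSubring = (q.valuation F').valuationSubring := rfl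

theorem mem_placeOf_iff (q : HeightOneSpectrum (intCl F' v)) (g : F') :
    g ∈ (placeOf v q).toValuationSubring ↔ q.valuation F' g ≤ 1 := Iff.rfl

/-- `placeOf v q` lies over `v`. -/
theorem restrict_placeOf (q : HeightOneSpectrum (intCl F' v)) :
    (placeOf v q).restrict F = v := by
  symm
  apply place_eq_of_le
  intro a ha
  rw [Place.restrict_toValuationSubring, ValuationSubring.mem_comap, mem_placeOf_iff]
  have : algebraMap F F' a = algebraMap (intCl F' v) F'
      (algebraMap v.toValuationSubring (intCl F' v) ⟨a, ha⟩) := rfl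
  rw [this]
  exact q.valuation_le_one _

/-- The order function of `placeOf v q` is the `q`-adic valuation. -/
theorem ord_placeOf (q : HeightOneSpectrum (intCl F' v)) (g : F') :
    (placeOf v q).ord g = -(WithZero.log (q.valuation F' g)) := by
  rcases eq_or_ne g 0 with rfl | hg
  · simp
  symm
  obtain ⟨π, hπ⟩ := q.valuation_exists_uniformizer F'
  have hπ0 : π ≠ 0 := by
    rintro rfl
    rw [map_zero] at hπ
    exact WithZero.exp_ne_zero hπ.symm
  refine Fermat.Agent.S24.FF.ordLike_eq_ord (fun g => -(WithZero.log (q.valuation F' g)))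
    (fun f g hf hg => ?_) (placeOf v q) (fun f hf => ?_) hπ0 ?_ hg
  · rw [map_mul, WithZero.log_mul ((Valuation.ne_zero_iff _).mpr hf)
      ((Valuation.ne_zero_iff _).mpr hg)]
    ring
  · rw [mem_placeOf_iff, neg_nonneg,
      WithZero.log_le_iff_le_exp ((Valuation.ne_zero_iff _).mpr hf)]
    rfl
  · rw [hπ, WithZero.log_exp]
    ring

/-- Membership in a height-one prime, read off from the valuation subring. -/
theorem mem_asIdeal_iff (q : HeightOneSpectrum (intCl F' v)) (s : intCl F' v) :
    s ∈ q.asIdeal ↔ s = 0 ∨ ((s : F'))⁻¹ ∉ (placeOf v q).toValuationSubring := by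
  rw [mem_placeOf_iff, ← q.valuation_lt_one_iff_mem (K := F')]
  show q.valuation F' (s : F') < 1 ↔ s = 0 ∨ ¬ q.valuation F' ((s : F'))⁻¹ ≤ 1
  rcases eq_or_ne s 0 with rfl | hs
  · simp
  have hs' : (s : F') ≠ 0 := fun h => hs (Subtype.ext h)
  have hv0 : q.valuation F' (s : F') ≠ 0 := (Valuation.ne_zero_iff _).mpr hs'
  rw [map_inv₀, not_le, one_lt_inv₀ (zero_lt_iff.mpr hv0)]
  simp [hs]

theorem placeOf_injective : Function.Injective (placeOf (F' := F') v) := by
  intro q q' h
  apply HeightOneSpectrum.ext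
  ext s
  rw [mem_asIdeal_iff, mem_asIdeal_iff, h]

omit [CharZero F] in
/-- The integral closure of `O_{w|F}` is contained in `O_w`. -/
theorem coe_intCl_mem (w : Place K F') (s : intCl F' (w.restrict F)) :
    (s : F') ∈ w.toValuationSubring := by
  obtain ⟨p, hp, hps⟩ := s.2
  have hint : IsIntegral w.toValuationSubring (s : F') := by
    refine ⟨p.map (Place.restrictInclusion F w), hp.map _, ?_⟩
    rw [Polynomial.eval₂_map]
    exact hps
  obtain ⟨y, hy⟩ := IsIntegrallyClosed.isIntegral_iff.mp hint
  rw [← hy]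
  exact y.2

/-- The inclusion of the integral closure of `O_{w|F}` into `O_w`. -/
def intClInclusion (w : Place K F') : intCl F' (w.restrict F) →+* w.toValuationSubring where
  toFun s := ⟨(s : F'), coe_intCl_mem w s⟩
  map_one' := rfl
  map_mul' _ _ := rfl
  map_zero' := rfl
  map_add' _ _ := rfl

@[simp]
theorem coe_intClInclusion (w : Place K F') (s : intCl F' (w.restrict F)) :
    ((intClInclusion w s : w.toValuationSubring) : F') = (s : F') := rfl

/-- The centre of `w` on the integral closure of `O_{w|F}`. -/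
def centre (w : Place K F') : Ideal (intCl F' (w.restrict F)) :=
  Ideal.comap (intClInclusion w) (IsLocalRing.maximalIdeal w.toValuationSubring)

instance centre_isPrime (w : Place K F') : (centre (F := F) w).IsPrime :=
  Ideal.comap_isPrime _ _

theorem centre_ne_bot (w : Place K F') : centre (F := F) w ≠ ⊥ := by
  obtain ⟨π, hπ⟩ := IsDiscreteValuationRing.exists_irreducible (w.restrict F).toValuationSubring
  intro h
  have hmem : algebraMap (w.restrict F).toValuationSubring (intCl F' (w.restrict F)) π
      ∈ centre (F := F) w := by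
    rw [centre, Ideal.mem_comap, IsLocalRing.mem_maximalIdeal, mem_nonunits_iff]
    intro hu
    have hu' : IsUnit (Place.restrictInclusion F w π) := hu
    exact hπ.not_isUnit (isUnit_of_map_unit (Place.restrictInclusion F w) π hu')
  rw [h, Ideal.mem_bot] at hmem
  have hinj : Function.Injective
      (algebraMap (w.restrict F).toValuationSubring (intCl F' (w.restrict F))) :=
    FaithfulSMul.algebraMap_injective _ _
  exact hπ.ne_zero (hinj (by rw [hmem, map_zero]))

/-- The centre of `w` as a height-one prime. -/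
def centrePrime (w : Place K F') : HeightOneSpectrum (intCl F' (w.restrict F)) :=
  ⟨centre w, centre_isPrime w, centre_ne_bot w⟩

theorem placeOf_centrePrime (w : Place K F') : placeOf (w.restrict F) (centrePrime w) = w := by
  apply place_eq_of_le
  intro g hg
  rw [mem_placeOf_iff] at hg
  obtain ⟨n, d, hnd⟩ := (centrePrime w).exists_primeCompl_mul_eq_of_integer g hg
  have hd : (d : intCl F' (w.restrict F)) ∉ centre (F := F) w := d.2
  rw [centre, Ideal.mem_comap, IsLocalRing.mem_maximalIdeal, mem_nonunits_iff, not_not] at hd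
  obtain ⟨b, hb⟩ := isUnit_iff_exists_inv.mp hd
  have hb' : ((d : intCl F' (w.restrict F)) : F') * (b : F') = 1 := congrArg Subtype.val hb
  have hd0 : ((d : intCl F' (w.restrict F)) : F') ≠ 0 := left_ne_zero_of_mul_eq_one hb'
  have hg' : g = ((n : F')) * (b : F') := by
    have h1 : g * ((d : intCl F' (w.restrict F)) : F') = (n : F') := hnd
    calc g = g * (((d : intCl F' (w.restrict F)) : F') * (b : F')) := by rw [hb', mul_one]
      _ = (n : F') * (b : F') := by rw [← mul_assoc, h1]
  rw [hg']
  exact mul_mem (coe_intCl_mem w n) b.2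

/-- Every place of `F'` over `v` comes from a height-one prime of the integral closure. -/
theorem exists_placeOf_eq (w : Place K F') (hw : w.restrict F = v) :
    ∃ q : HeightOneSpectrum (intCl F' v), placeOf v q = w := by
  subst hw
  exact ⟨centrePrime w, placeOf_centrePrime w⟩

theorem range_placeOf : Set.range (placeOf (F' := F') v) = {w : Place K F' | w.restrict F = v} := by
  ext w
  constructor
  · rintro ⟨q, rfl⟩
    exact restrict_placeOf v q
  · intro hw
    exact exists_placeOf_eq v w hw

/-! ### Primes over the maximal ideal of `O_v` -/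

/-- The maximal ideal of `O_v`. -/
abbrev pv : Ideal v.toValuationSubring := IsLocalRing.maximalIdeal v.toValuationSubring

theorem pv_ne_bot : pv v ≠ ⊥ := IsDiscreteValuationRing.not_a_field _

theorem algebraMap_O_intCl_injective :
    Function.Injective (algebraMap v.toValuationSubring (intCl F' v)) :=
  FaithfulSMul.algebraMap_injective _ _

theorem map_pv_ne_bot : (pv v).map (algebraMap v.toValuationSubring (intCl F' v)) ≠ ⊥ := by
  rw [Ne, Ideal.map_eq_bot_iff_of_injective (algebraMap_O_intCl_injective v)]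
  exact pv_ne_bot v

instance liesOver_pv (q : HeightOneSpectrum (intCl F' v)) : q.asIdeal.LiesOver (pv v) := by
  constructor
  have hprime : (q.asIdeal.under v.toValuationSubring).IsPrime := Ideal.IsPrime.under _ _
  have hne : q.asIdeal.under v.toValuationSubring ≠ ⊥ :=
    Ideal.under_ne_bot v.toValuationSubring q.ne_bot
  have hmax : (q.asIdeal.under v.toValuationSubring).IsMaximal := hprime.isMaximal hne
  exact (IsLocalRing.eq_maximalIdeal hmax).symm

instance isMaximal_asIdeal (q : HeightOneSpectrum (intCl F' v)) : q.asIdeal.IsMaximal :=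
  q.isPrime.isMaximal q.ne_bot

/-- The height-one prime attached to a prime over `𝔪_v`. -/
def primeOfOver (q : (pv v).primesOver (intCl F' v)) : HeightOneSpectrum (intCl F' v) :=
  ⟨q.1, q.2.1, by
    have := q.2.2
    exact Ideal.ne_bot_of_liesOver_of_ne_bot (pv_ne_bot v) q.1⟩

@[simp]
theorem primeOfOver_asIdeal (q : (pv v).primesOver (intCl F' v)) :
    (primeOfOver v q).asIdeal = q.1 := rfl

theorem primeOfOver_injective : Function.Injective (primeOfOver (F' := F') v) := by
  intro q q' h
  apply Subtype.ext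
  exact congrArg HeightOneSpectrum.asIdeal h

theorem primeOfOver_surjective : Function.Surjective (primeOfOver (F' := F') v) := by
  intro q
  exact ⟨⟨q.asIdeal, q.isPrime, liesOver_pv v q⟩, rfl⟩

instance finite_primesOver : Finite ((pv v).primesOver (intCl F' v)) :=
  (Algebra.QuasiFinite.finite_primesOver (pv v)).to_subtype

instance finite_heightOneSpectrum : Finite (HeightOneSpectrum (intCl F' v)) :=
  Finite.of_surjective _ (primeOfOver_surjective v)

/-- The fibre over `v` is finite (no `HasPrincipalDivisors` needed). -/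
theorem finite_fibre : {w : Place K F' | w.restrict F = v}.Finite := by
  rw [← range_placeOf]
  exact Set.finite_range _

/-! ### Ramification index and residue degree -/

theorem mem_asIdeal_iff_ord (q : HeightOneSpectrum (intCl F' v)) (s : intCl F' v) :
    s ∈ q.asIdeal ↔ s = 0 ∨ 0 < (placeOf v q).ord (s : F') := by
  rcases eq_or_ne s 0 with rfl | hs
  · simp
  have hs' : (s : F') ≠ 0 := fun h => hs (Subtype.ext h)
  have hv0 : q.valuation F' (s : F') ≠ 0 := (Valuation.ne_zero_iff _).mpr hs'
  rw [ord_placeOf, neg_pos, WithZero.log_lt_iff_lt_exp hv0, ← q.valuation_lt_one_iff_mem (K := F')]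
  simp only [hs, false_or]
  rfl

theorem ord_placeOf_coe_nonneg (q : HeightOneSpectrum (intCl F' v)) (s : intCl F' v) :
    0 ≤ (placeOf v q).ord (s : F') :=
  (Fermat.Agent.S24.FF.mem_iff_ord_nonneg _).mp
    ((mem_placeOf_iff v q _).mpr (q.valuation_le_one s))

/-- The ramification index of `placeOf v q` (in the sense of the Prelude) is Mathlib's
ramification index of `q` over `O_v`. -/
theorem ramificationIndex_placeOf (q : HeightOneSpectrum (intCl F' v)) :
    ((placeOf v q).ramificationIndex F : ℤ)
      = (q.asIdeal.ramificationIdx v.toValuationSubring : ℤ) := by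
  obtain ⟨π, hπ, hπ1⟩ := Fermat.Agent.S24.FF.exists_irreducible_coe v
  have h1 := (placeOf v q).ord_restrict (F := F) (π : F)
  rw [restrict_placeOf, hπ1, mul_one] at h1
  rw [← h1, ord_placeOf]
  have hπS : algebraMap v.toValuationSubring (intCl F' v) π ≠ 0 := fun h =>
    hπ.ne_zero (algebraMap_O_intCl_injective v (by rw [h, map_zero]))
  have h2 : q.valuation F' (algebraMap F F' (π : F))
      = q.intValuation (algebraMap v.toValuationSubring (intCl F' v) π) :=
    q.valuation_of_algebraMap (algebraMap v.toValuationSubring (intCl F' v) π)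
  rw [h2, q.intValuation_eq_exp_neg_multiplicity hπS, WithZero.log_exp, neg_neg,
    Ideal.IsDedekindDomain.ramificationIdx_eq_multiplicity (pv v) q.asIdeal (map_pv_ne_bot v)]
  have h3 : (pv v).map (algebraMap v.toValuationSubring (intCl F' v))
      = Ideal.span {algebraMap v.toValuationSubring (intCl F' v) π} := by
    rw [pv, hπ.maximalIdeal_eq, Ideal.map_span, Set.image_singleton]
  rw [h3]

/-- If all places of `F'` have degree one, residue degrees over `O_v` are one. -/
theorem inertiaDeg_intCl_eq_one (hdeg' : ∀ w : Place K F', w.deg = 1)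
    (q : HeightOneSpectrum (intCl F' v)) :
    q.asIdeal.inertiaDeg v.toValuationSubring = 1 := by
  refine Fermat.Agent.S24.FF.inertiaDeg_eq_one_of_forall_exists (pv v) q.asIdeal fun s => ?_
  obtain ⟨c, hc⟩ := Fermat.Agent.Lib.RR.exists_const_sub (placeOf v q) (hdeg' _)
    (ord_placeOf_coe_nonneg v q s)
  refine ⟨algebraMap K v.toValuationSubring c, ?_⟩
  rw [mem_asIdeal_iff_ord]
  have hcoe : ((s - algebraMap v.toValuationSubring (intCl F' v)
      (algebraMap K v.toValuationSubring c) : intCl F' v) : F') = (s : F') - algebraMap K F' c := by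
    rw [IsScalarTower.algebraMap_apply K F F']
    rfl
  rcases hc with hc | hc
  · left
    apply Subtype.ext
    rw [hcoe]
    exact hc
  · right
    rw [hcoe]
    exact hc

omit [CharZero F] [FiniteDimensional F F'] in
/-- If all places of `F'` have degree one, the Prelude's residue degrees are one. -/
theorem inertiaDeg_eq_one [Algebra.IsIntegral F F'] (hdeg' : ∀ w : Place K F', w.deg = 1)
    (w : Place K F') : w.inertiaDeg F = 1 := by
  have h := w.deg_restrict_mul_inertiaDeg (F := F)
  rw [hdeg' w] at h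
  exact (mul_eq_one.mp h).2

omit [CharZero F] [FiniteDimensional F F'] in
theorem deg_restrict_eq_one [Algebra.IsIntegral F F'] (hdeg' : ∀ w : Place K F', w.deg = 1)
    (w : Place K F') : (w.restrict F).deg = 1 := by
  have h := w.deg_restrict_mul_inertiaDeg (F := F)
  rw [hdeg' w] at h
  exact (mul_eq_one.mp h).1

/-- **Local fundamental identity** `∑_{w | v} e(w|v) = [F' : F]`. -/
theorem sum_ramificationIndex (hdeg' : ∀ w : Place K F', w.deg = 1)
    (s : Finset (Place K F')) (hs : ∀ w, w ∈ s ↔ w.restrict F = v) :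
    ∑ w ∈ s, (w.ramificationIndex F : ℤ) = (Module.finrank F F' : ℤ) := by
  let _ : Fintype ((pv v).primesOver (intCl F' v)) := Fintype.ofFinite _
  have h := Ideal.sum_ramification_inertia_eq_finrank (pv v) (intCl F' v)
  rw [IsFractionRing.finrank_eq v.toValuationSubring F (intCl F' v) F', ← h]
  push_cast
  symm
  refine Finset.sum_bij (fun q _ => placeOf v (primeOfOver v q)) ?_ ?_ ?_ ?_
  · intro q _
    exact (hs _).mpr (restrict_placeOf v _)
  · intro q _ q' _ h
    exact primeOfOver_injective v (placeOf_injective v h)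
  · intro w hw
    obtain ⟨q, hq⟩ := exists_placeOf_eq v w ((hs w).mp hw)
    obtain ⟨q', rfl⟩ := primeOfOver_surjective v q
    exact ⟨q', Finset.mem_univ _, hq⟩
  · intro q _
    have h1 := inertiaDeg_intCl_eq_one v hdeg' (primeOfOver v q)
    rw [primeOfOver_asIdeal] at h1
    rw [ramificationIndex_placeOf, primeOfOver_asIdeal, h1]
    simp

/-! ### Norm formula -/

open UniqueFactorizationMonoid

theorem ord_coe_eq_multiplicity (a : v.toValuationSubring) (ha : a ≠ 0) :
    v.ord (a : F) = (multiplicity (pv v) (Ideal.span {a}) : ℤ) := by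
  rw [Place.ord, v.adicValuation_coe, v.heightOneSpectrum.intValuation_eq_exp_neg_multiplicity ha,
    WithZero.log_exp, neg_neg]
  rfl

theorem ord_placeOf_coe_eq_multiplicity (q : HeightOneSpectrum (intCl F' v)) (x : intCl F' v)
    (hx : x ≠ 0) :
    (placeOf v q).ord (x : F') = (multiplicity q.asIdeal (Ideal.span {x}) : ℤ) := by
  rw [ord_placeOf]
  have h2 : q.valuation F' (x : F') = q.intValuation x := q.valuation_of_algebraMap x
  rw [h2, q.intValuation_eq_exp_neg_multiplicity hx, WithZero.log_exp, neg_neg]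

theorem multiplicity_eq_count (q : HeightOneSpectrum (intCl F' v)) (I : Ideal (intCl F' v))
    (hI : I ≠ ⊥) :
    multiplicity q.asIdeal I = (normalizedFactors I).count q.asIdeal := by
  have hq : Prime q.asIdeal := Ideal.prime_of_isPrime q.ne_bot q.isPrime
  rw [multiplicity_eq_of_emultiplicity_eq_some
    (emultiplicity_eq_count_normalizedFactors hq.irreducible hI), normalize_eq]

theorem sum_count_eq_card [Fintype (HeightOneSpectrum (intCl F' v))] (I : Ideal (intCl F' v))
    (hI : I ≠ ⊥) :
    ∑ q : HeightOneSpectrum (intCl F' v), (normalizedFactors I).count q.asIdeal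
      = Multiset.card (normalizedFactors I) := by
  classical
  rw [← Multiset.toFinset_sum_count_eq]
  have hinj : Function.Injective
      (fun q : HeightOneSpectrum (intCl F' v) => q.asIdeal) := fun q q' h =>
    HeightOneSpectrum.ext h
  rw [← Finset.sum_image (s := Finset.univ)
    (f := fun P : Ideal (intCl F' v) => (normalizedFactors I).count P)
    (g := fun q : HeightOneSpectrum (intCl F' v) => q.asIdeal) (fun q _ q' _ h => hinj h)]
  symm
  refine Finset.sum_subset ?_ ?_
  · intro P hP
    rw [Multiset.mem_toFinset, Ideal.mem_normalizedFactors_iff hI] at hP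
    have hPne : P ≠ ⊥ := fun h => hI (le_bot_iff.mp (h ▸ hP.2))
    exact Finset.mem_image.mpr ⟨⟨P, hP.1, hPne⟩, Finset.mem_univ _, rfl⟩
  · intro P _ hP
    rw [Multiset.mem_toFinset] at hP
    exact Multiset.count_eq_zero_of_notMem hP

theorem relNorm_eq_pow (hdeg' : ∀ w : Place K F', w.deg = 1) (I : Ideal (intCl F' v))
    (hI : I ≠ ⊥) :
    Ideal.relNorm v.toValuationSubring I = (pv v) ^ Multiset.card (normalizedFactors I) := by
  conv_lhs => rw [← Ideal.prod_normalizedFactors_eq_self hI]
  rw [map_multiset_prod]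
  have hconst : (normalizedFactors I).map (Ideal.relNorm v.toValuationSubring)
      = (normalizedFactors I).map (fun _ => pv v) := by
    refine Multiset.map_congr rfl fun P hP => ?_
    rw [Ideal.mem_normalizedFactors_iff hI] at hP
    have hPne : P ≠ ⊥ := fun h => hI (le_bot_iff.mp (h ▸ hP.2))
    have key : ∀ q : HeightOneSpectrum (intCl F' v),
        Ideal.relNorm v.toValuationSubring q.asIdeal = pv v := fun q => by
      have h1 := Ideal.relNorm_eq_pow_of_isMaximal q.asIdeal (pv v)
      rw [inertiaDeg_intCl_eq_one v hdeg' q, pow_one] at h1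
      exact h1
    exact key ⟨P, hP.1, hPne⟩
  rw [hconst, Multiset.map_const', Multiset.prod_replicate]

theorem sum_ord_coe_eq_ord_intNorm [Fintype (HeightOneSpectrum (intCl F' v))]
    (hdeg' : ∀ w : Place K F', w.deg = 1) (x : intCl F' v) (hx : x ≠ 0) :
    ∑ q : HeightOneSpectrum (intCl F' v), (placeOf v q).ord (x : F')
      = v.ord ((Algebra.intNorm v.toValuationSubring (intCl F' v) x : v.toValuationSubring) : F) := by
  have hI : Ideal.span {x} ≠ (⊥ : Ideal (intCl F' v)) := by
    rw [Ne, Ideal.span_singleton_eq_bot]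
    exact hx
  have hN : Algebra.intNorm v.toValuationSubring (intCl F' v) x ≠ 0 :=
    Algebra.intNorm_ne_zero.mpr hx
  rw [ord_coe_eq_multiplicity v _ hN, ← Ideal.relNorm_singleton, relNorm_eq_pow v hdeg' _ hI,
    multiplicity_pow_self_of_prime
      (Ideal.prime_of_isPrime (pv_ne_bot v) (IsLocalRing.maximalIdeal.isMaximal _).isPrime),
    ← sum_count_eq_card v _ hI]
  push_cast
  refine Finset.sum_congr rfl fun q _ => ?_
  rw [ord_placeOf_coe_eq_multiplicity v q x hx, multiplicity_eq_count v q _ hI]

omit [FiniteDimensional F F'] [CharZero F] [Algebra K F'] [IsScalarTower K F F'] [Algebra F F'] in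
theorem ord_div' (u : Place K F) {f g : F} (hf : f ≠ 0) (hg : g ≠ 0) :
    u.ord (f / g) = u.ord f - u.ord g := by
  rw [div_eq_mul_inv, u.ord_mul hf (inv_ne_zero hg), u.ord_inv]
  ring

theorem sum_ord_eq_ord_norm_of_mem (hdeg' : ∀ w : Place K F', w.deg = 1)
    (s : Finset (Place K F')) (hs : ∀ w, w ∈ s ↔ w.restrict F = v)
    (x : intCl F' v) (hx : x ≠ 0) :
    ∑ w ∈ s, w.ord (x : F') = v.ord (Algebra.norm F (x : F')) := by
  let _ : Fintype (HeightOneSpectrum (intCl F' v)) := Fintype.ofFinite _
  have h1 := sum_ord_coe_eq_ord_intNorm v hdeg' x hx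
  have h2 : ((Algebra.intNorm v.toValuationSubring (intCl F' v) x : v.toValuationSubring) : F)
      = Algebra.norm F (x : F') :=
    Algebra.algebraMap_intNorm (A := v.toValuationSubring) (K := F) (L := F')
      (B := intCl F' v) x
  rw [← h2, ← h1]
  symm
  refine Finset.sum_bij (fun q _ => placeOf v q) ?_ ?_ ?_ ?_
  · intro q _
    exact (hs _).mpr (restrict_placeOf v _)
  · intro q _ q' _ h
    exact placeOf_injective v h
  · intro w hw
    obtain ⟨q, hq⟩ := exists_placeOf_eq v w ((hs w).mp hw)
    exact ⟨q, Finset.mem_univ _, hq⟩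
  · intro q _
    rfl

/-- **Local norm formula** `∑_{w | v} ord_w(g) = ord_v(N_{F'/F} g)`. -/
theorem sum_ord_eq_ord_norm (hdeg' : ∀ w : Place K F', w.deg = 1)
    (s : Finset (Place K F')) (hs : ∀ w, w ∈ s ↔ w.restrict F = v)
    (g : F') (hg : g ≠ 0) :
    ∑ w ∈ s, w.ord g = v.ord (Algebra.norm F g) := by
  obtain ⟨a, b, hb, rfl⟩ := IsFractionRing.div_surjective (A := intCl F' v) g
  have hb0 : b ≠ 0 := nonZeroDivisors.ne_zero hb
  have ha0 : a ≠ 0 := by
    rintro rfl
    simp at hg
  have ha' : (a : F') ≠ 0 := fun h => ha0 (Subtype.ext h)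
  have hb' : (b : F') ≠ 0 := fun h => hb0 (Subtype.ext h)
  have hcoea : algebraMap (intCl F' v) F' a = (a : F') := rfl
  have hcoeb : algebraMap (intCl F' v) F' b = (b : F') := rfl
  have hnorm : Algebra.norm F ((a : F') / (b : F'))
      = Algebra.norm F (a : F') / Algebra.norm F (b : F') := by
    rw [eq_div_iff (Algebra.norm_ne_zero_iff.mpr hb'), ← map_mul, div_mul_cancel₀ _ hb']
  rw [hcoea, hcoeb, hnorm,
    ord_div' v (Algebra.norm_ne_zero_iff.mpr ha') (Algebra.norm_ne_zero_iff.mpr hb'),
    ← sum_ord_eq_ord_norm_of_mem v hdeg' s hs a ha0,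
    ← sum_ord_eq_ord_norm_of_mem v hdeg' s hs b hb0, ← Finset.sum_sub_distrib]
  refine Finset.sum_congr rfl fun w _ => ?_
  exact ord_div' w ha' hb'

end Local

end Fermat.Agent.Lib.FF398

end
-- ===== PACK-END Lib/FF398/Local.lean

-- ===== PACK-BEGIN S24/H864/FF3e.lean
section



/-!
# S24 / ALG / FF3: a principal divisor has degree zero
-/

set_option autoImplicit false

noncomputable section

open AlgebraicCurve IntermediateField

namespace Fermat.Agent.S24.H864

variable {K F : Type*} [Field K] [Field F] [Algebra K F]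

theorem adjoin_simple_inv_eq (f : F) : K⟮f⁻¹⟯ = K⟮f⟯ := by
  apply le_antisymm
  · rw [IntermediateField.adjoin_simple_le_iff]
    exact inv_mem (IntermediateField.mem_adjoin_simple_self K f)
  · rw [IntermediateField.adjoin_simple_le_iff]
    have h := inv_mem (IntermediateField.mem_adjoin_simple_self K f⁻¹)
    rwa [inv_inv] at h

theorem transcendental_inv {f : F} (hf : Transcendental K f) : Transcendental K f⁻¹ := by
  intro h
  apply hf
  have := h.inv
  rwa [inv_inv] at this

variable [IsAlgClosed K] [CharZero K]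

/-- the number of zeros equals the number of poles -/
theorem sum_ord_pos_eq_sum_ord_neg (f : F) (hf : Transcendental K f)
    [FiniteDimensional ↥(IntermediateField.adjoin K {f}) F]
    (sp sn : Finset (Place K F)) (hsp : ∀ v : Place K F, v ∈ sp ↔ 0 < v.ord f)
    (hsn : ∀ v : Place K F, v ∈ sn ↔ v.ord f < 0) :
    ∑ v ∈ sp, v.ord f + ∑ v ∈ sn, v.ord f = 0 := by
  have h1 := fundamental_identity f hf sp hsp
  have hfi : Transcendental K f⁻¹ := transcendental_inv hf
  haveI : FiniteDimensional ↥(IntermediateField.adjoin K {f⁻¹}) F := by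
    rw [adjoin_simple_inv_eq]; infer_instance
  have hsn' : ∀ v : Place K F, v ∈ sn ↔ 0 < v.ord f⁻¹ := by
    intro v
    rw [hsn, Place.ord_inv]
    omega
  have h2 := fundamental_identity f⁻¹ hfi sn hsn'
  have h3 : Module.finrank ↥(IntermediateField.adjoin K {f⁻¹}) F
      = Module.finrank ↥(IntermediateField.adjoin K {f}) F := by
    rw [adjoin_simple_inv_eq]
  have h4 : ∑ v ∈ sn, v.ord f = -∑ v ∈ sn, v.ord f⁻¹ := by
    rw [← Finset.sum_neg_distrib]
    refine Finset.sum_congr rfl fun v _ => ?_
    rw [Place.ord_inv, neg_neg]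
  rw [h1, h4, h2, h3]
  ring

/-- **FF3.**  A principal divisor has degree zero. -/
theorem degree_principal (j : F) (hj : Transcendental K j)
    [FiniteDimensional ↥(IntermediateField.adjoin K {j}) F] (f : F) (hf : f ≠ 0)
    (D : Divisor K F) (hD : ∀ v : Place K F, D v = v.ord f) : Divisor.degree D = 0 := by
  classical
  have hdeg : Divisor.degree D = ∑ v ∈ D.support, v.ord f := by
    show Finsupp.liftAddHom (fun v : Place K F => AddMonoidHom.mulRight (v.deg : ℤ)) D = _
    rw [Finsupp.liftAddHom_apply, Finsupp.sum]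
    refine Finset.sum_congr rfl fun v _ => ?_
    rw [AddMonoidHom.coe_mulRight, hD v, FF.deg_eq_one v hj]
    simp
  rw [hdeg]
  by_cases hfK : f ∈ (algebraMap K F).range
  · obtain ⟨c, rfl⟩ := hfK
    refine Finset.sum_eq_zero fun v _ => FF.ord_algebraMap v c
  · have hft : Transcendental K f := FF.transcendental_of_not_mem_range hfK
    haveI : FiniteDimensional ↥(IntermediateField.adjoin K {f}) F :=
      FF.finiteDimensional_adjoin_of_transcendental hj hft
    have hsupp : ∀ v : Place K F, v ∈ D.support ↔ v.ord f ≠ 0 := by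
      intro v
      rw [Finsupp.mem_support_iff, hD v]
    set sp := D.support.filter (fun v => 0 < v.ord f) with hsp
    set sn := D.support.filter (fun v => v.ord f < 0) with hsn
    have hsp' : ∀ v : Place K F, v ∈ sp ↔ 0 < v.ord f := by
      intro v
      rw [hsp, Finset.mem_filter, hsupp]
      constructor
      · exact fun h => h.2
      · exact fun h => ⟨by omega, h⟩
    have hsn' : ∀ v : Place K F, v ∈ sn ↔ v.ord f < 0 := by
      intro v
      rw [hsn, Finset.mem_filter, hsupp]
      constructor
      · exact fun h => h.2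
      · exact fun h => ⟨by omega, h⟩
    have hkey := sum_ord_pos_eq_sum_ord_neg f hft sp sn hsp' hsn'
    have hunion : D.support = sp ∪ sn := by
      ext v
      rw [Finset.mem_union, hsp', hsn', hsupp]
      omega
    have hdisj : Disjoint sp sn := by
      rw [Finset.disjoint_left]
      intro v h1 h2
      rw [hsp'] at h1
      rw [hsn'] at h2
      omega
    rw [hunion, Finset.sum_union hdisj]
    exact hkey

end Fermat.Agent.S24.H864

end
end
-- ===== PACK-END S24/H864/FF3e.lean

-- ===== PACK-BEGIN S24/H864/FF3f.lean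
section


/-!
# S24 / ALG / FF1, existence form: the zeros of a transcendental `t` form a finite set `s` and
`∑_{v ∈ s} v(t) = [F : K(t)]`  (exact shape of `Alg/Open.lean` `open_fundamental_eq`).
-/

set_option autoImplicit false

noncomputable section

open AlgebraicCurve IntermediateField IsDedekindDomain
open scoped IntermediateField.algebraAdjoinAdjoin

namespace Fermat.Agent.S24.H864

section Rel

variable {K F : Type*} [Field K] [Field F] [Algebra K F]
variable {S : Type*} [CommRing S] [IsDedekindDomain S] [Algebra S F] [IsFractionRing S F]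
  [Algebra K S] [IsScalarTower K S F]
variable {R : Type*} [CommRing R] [IsDomain R] [Algebra R S] [Algebra R F] [IsScalarTower R S F]
  [Module.Finite R S]
variable (p : Ideal R) [hpmax : p.IsMaximal] (τ : R)

/-- the set of zeros of `τ` is finite -/
theorem exists_finset_zeros_abstract
    (hp : p = Ideal.span {τ}) (hτ : τ ≠ 0) (hinj : Function.Injective (algebraMap R S))
    (hR : ∀ v : Place K F, 0 < v.ord (algebraMap R F τ) →
      ∀ r : R, algebraMap R F r ∈ v.toValuationSubring) :
    ∃ s : Finset (Place K F), ∀ v, v ∈ s ↔ 0 < v.ord (algebraMap R F τ) := by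
  classical
  haveI : Fintype (p.primesOver S) := (Algebra.QuasiFinite.finite_primesOver p).fintype
  have hτ' : algebraMap R S τ ≠ 0 := fun h => hτ (hinj (by rw [h, map_zero]))
  set g : p.primesOver S → Place K F :=
    fun q => Place.ofHeightOneSpectrum (K := K) (wOf p τ hp hτ hinj q) with hg
  have hg_ord : ∀ q, (g q).ord (algebraMap R F τ) = (q.1.ramificationIdx R : ℤ) :=
    fun q => ord_wOf p τ hp hτ hinj q
  refine ⟨Finset.univ.image g, fun v => ?_⟩
  rw [Finset.mem_image]
  constructor
  · rintro ⟨q, -, rfl⟩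
    rw [hg_ord]
    exact_mod_cast Ideal.ramificationIdx_pos q.1 R
  · intro hv
    have hS := algebraMap_mem_of_base (S := S) v (hR v hv)
    have hv' : 0 < v.ord (algebraMap S F (algebraMap R S τ)) := by
      rwa [← IsScalarTower.algebraMap_apply R S F]
    obtain ⟨w, hw, hwq⟩ := exists_heightOneSpectrum_of_place v hS hτ' hv'
    have hle : p ≤ w.asIdeal.under R := by
      rw [hp, Ideal.span_singleton_le_iff_mem, Ideal.under_def, Ideal.mem_comap, hwq]
      exact (mem_primeOfPlace v hS hτ').mpr hv'
    have hne : w.asIdeal.under R ≠ ⊤ := (Ideal.IsPrime.under R w.asIdeal).ne_top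
    have hq : w.asIdeal ∈ p.primesOver S := ⟨w.isPrime, ⟨hpmax.eq_of_le hne hle⟩⟩
    refine ⟨⟨w.asIdeal, hq⟩, Finset.mem_univ _, ?_⟩
    rw [← hw]
    show Place.ofHeightOneSpectrum (K := K) (wOf p τ hp hτ hinj ⟨w.asIdeal, hq⟩) = _
    congr 1

end Rel

section Main

variable {K F : Type*} [Field K] [Field F] [Algebra K F] [IsAlgClosed K] [CharZero K]

/-- the zeros of a transcendental `t` are finite in number -/
theorem exists_finset_zeros (t : F) (ht : Transcendental K t)
    [FiniteDimensional ↥(IntermediateField.adjoin K {t}) F] :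
    ∃ s : Finset (Place K F), ∀ v : Place K F, v ∈ s ↔ 0 < v.ord t := by
  haveI : IsPrincipalIdealRing (polyRing K t) := polyRing_isPrincipalIdealRing K t ht
  haveI : IsScalarTower (polyRing K t) (integralClosure (polyRing K t) F) F :=
    Subalgebra.isScalarTower_mid _
  haveI : IsFractionRing (integralClosure (polyRing K t) F) F :=
    integralClosure.isFractionRing_of_finite_extension K⟮t⟯ F
  haveI : IsDedekindDomain (integralClosure (polyRing K t) F) :=
    IsIntegralClosure.isDedekindDomain (polyRing K t) K⟮t⟯ F (integralClosure (polyRing K t) F)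
  haveI : Module.Finite (polyRing K t) (integralClosure (polyRing K t) F) :=
    IsIntegralClosure.finite (polyRing K t) K⟮t⟯ F (integralClosure (polyRing K t) F)
  have hprime : (Ideal.span {tR K t}).IsPrime :=
    (Ideal.span_singleton_prime (tR_ne_zero K t ht)).mpr (tR_prime K t ht)
  have hne : Ideal.span {tR K t} ≠ ⊥ := by
    rw [Ne, Ideal.span_singleton_eq_bot]
    exact tR_ne_zero K t ht
  haveI hmax : (Ideal.span {tR K t}).IsMaximal := hprime.isMaximal hne
  have hinj : Function.Injective
      (algebraMap (polyRing K t) (integralClosure (polyRing K t) F)) := by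
    intro a b hab
    have := congrArg (algebraMap (integralClosure (polyRing K t) F) F) hab
    rw [← IsScalarTower.algebraMap_apply, ← IsScalarTower.algebraMap_apply] at this
    exact Subtype.ext this
  exact exists_finset_zeros_abstract (K := K) (F := F)
    (S := integralClosure (polyRing K t) F) (R := polyRing K t)
    (Ideal.span {tR K t}) (tR K t) rfl (tR_ne_zero K t ht) hinj
    (fun v hv r => coe_mem_valuationSubring_of_ord_nonneg K t v hv.le r)

/-- **FF1 (fundamental equality)**, exact shape of `Alg/Open.lean` `open_fundamental_eq`. -/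
theorem fundamental_eq (t : F) (ht : Transcendental K t)
    [FiniteDimensional ↥(IntermediateField.adjoin K {t}) F] :
    ∃ s : Finset (Place K F), (∀ v : Place K F, v ∈ s ↔ 0 < v.ord t) ∧
      ∑ v ∈ s, v.ord t = (Module.finrank ↥(IntermediateField.adjoin K {t}) F : ℤ) := by
  obtain ⟨s, hs⟩ := exists_finset_zeros t ht
  exact ⟨s, hs, fundamental_identity t ht s hs⟩

end Main

end Fermat.Agent.S24.H864

end
end
-- ===== PACK-END S24/H864/FF3f.lean

-- ===== PACK-BEGIN Lib/RR/H864/FF1Bridge.lean
section




/-!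
# RR library, bridge: `FF1 K F` in characteristic zero

For `K` algebraically closed of characteristic `0` and `F` finite over `K(x)`, `x` transcendental:
`HasPrincipalDivisors K F` (divisors of functions exist and have degree `0`), every place has
degree one, and there is a place.  Hence `FF1 K F`.
-/

set_option autoImplicit false

noncomputable section

open AlgebraicCurve IntermediateField

namespace Fermat.Agent.Lib.RR.H864

variable {K F : Type*} [Field K] [Field F] [Algebra K F] [IsAlgClosed K] [CharZero K]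

/-- divisors of functions exist (finitely many zeros and poles) -/
theorem exists_divisor (x : F) (hx : Transcendental K x)
    [FiniteDimensional ↥(IntermediateField.adjoin K {x}) F] (f : F) (hf : f ≠ 0) :
    ∃ D : Divisor K F, (∀ v : Place K F, D v = v.ord f) ∧ Divisor.degree D = 0 := by
  classical
  suffices h : ∃ D : Divisor K F, ∀ v : Place K F, D v = v.ord f by
    obtain ⟨D, hD⟩ := h
    exact ⟨D, hD, S24.H864.degree_principal x hx f hf D hD⟩
  by_cases hfK : f ∈ (algebraMap K F).range
  · obtain ⟨c, rfl⟩ := hfK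
    exact ⟨0, fun v => by rw [S24.FF.ord_algebraMap v c]; rfl⟩
  · have hft : Transcendental K f := S24.FF.transcendental_of_not_mem_range hfK
    haveI : FiniteDimensional ↥(IntermediateField.adjoin K {f}) F :=
      S24.FF.finiteDimensional_adjoin_of_transcendental hx hft
    haveI : FiniteDimensional ↥(IntermediateField.adjoin K {f⁻¹}) F := by
      rw [S24.H864.adjoin_simple_inv_eq]; infer_instance
    obtain ⟨sp, hsp⟩ := S24.H864.exists_finset_zeros f hft
    obtain ⟨sn, hsn⟩ := S24.H864.exists_finset_zeros f⁻¹ (S24.H864.transcendental_inv hft)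
    refine ⟨Finsupp.onFinset (sp ∪ sn) (fun v => v.ord f) ?_, fun v => rfl⟩
    intro v hv
    rw [Finset.mem_union, hsp, hsn, Place.ord_inv]
    omega

theorem hasPrincipalDivisors (x : F) (hx : Transcendental K x)
    [FiniteDimensional ↥(IntermediateField.adjoin K {x}) F] : HasPrincipalDivisors K F :=
  ⟨fun f hf => exists_divisor x hx f hf⟩

/-- there is a place (a zero of `x`) -/
theorem nonempty_place (x : F) (hx : Transcendental K x)
    [FiniteDimensional ↥(IntermediateField.adjoin K {x}) F] : Nonempty (Place K F) := by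
  obtain ⟨s, _, hsum⟩ := S24.H864.fundamental_eq x hx
  by_contra hne
  rw [not_nonempty_iff] at hne
  have h0 : ∑ v ∈ s, v.ord x = 0 := Finset.sum_eq_zero fun v _ => (hne.false v).elim
  rw [h0] at hsum
  have hpos : 0 < Module.finrank ↥(IntermediateField.adjoin K {x}) F := Module.finrank_pos
  omega

/-- **Bridge.**  `FF1 K F` for function fields of one variable over an algebraically closed field
of characteristic zero. -/
theorem ff1 (x : F) (hx : Transcendental K x)
    [hfin : FiniteDimensional ↥(IntermediateField.adjoin K {x}) F] : FF1 K F where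
  hpd := hasPrincipalDivisors x hx
  deg_eq_one := fun v => S24.FF.deg_eq_one v hx
  nonempty_place := nonempty_place x hx
  exists_finite := ⟨x, hx, hfin⟩

end Fermat.Agent.Lib.RR.H864

end
end
-- ===== PACK-END Lib/RR/H864/FF1Bridge.lean

-- ===== PACK-BEGIN S28/H807/Families.lean
section
/-
S28 / helper807 — `S`-invariance of the two families of conjugates:
* `j`-family: `{J(pτ)} ∪ {J((τ+b)/p)}` for an `SL(2,ℤ)`-invariant `J`;
* unit family: `{p¹² D(pτ)/D(τ)} ∪ {D((τ+b)/p)/D(τ)}` for a weight-12 form `D`.
-/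



set_option autoImplicit false
set_option maxHeartbeats 400000

noncomputable section

open ModularCurve Polynomial Matrix UpperHalfPlane Complex
open scoped MatrixGroups

namespace Fermat.Agent.S28.H807

variable (p : ℕ) [NeZero p]

/-- The polynomial `(X - E(τ)) ∏_b (X - G((τ+b)/p))`. -/
def conjPoly (E G : ℍ → ℂ) (τ : ℍ) : Polynomial ℂ :=
  (X - C (E τ)) * ∏ b : Fin p, (X - C (G (divShift p ((b : ℕ) : ℤ) τ)))

theorem conjPoly_S_of (hp : p.Prime) (E G : ℍ → ℂ)
    (ha : ∀ τ : ℍ, E (ModularGroup.S • τ) = G (divShift p 0 τ))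
    (hb : ∀ τ : ℍ, G (divShift p 0 (ModularGroup.S • τ)) = E τ)
    (hc : ∀ (B B' k : ℤ) (_ : B * B' + 1 = (p : ℤ) * k) (τ : ℍ),
      G (divShift p B (ModularGroup.S • τ)) = G (divShift p B' τ))
    (τ : ℍ) : conjPoly p E G (ModularGroup.S • τ) = conjPoly p E G τ := by
  have : Fact p.Prime := ⟨hp⟩
  unfold conjPoly
  apply prod_conj_eq_of_perm p (E τ) (E (ModularGroup.S • τ))
    (fun b => G (divShift p ((b : ℕ) : ℤ) τ))
    (fun b => G (divShift p ((b : ℕ) : ℤ) (ModularGroup.S • τ)))
  · simpa using ha τ
  · simpa using hb τ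
  · intro b hb0
    obtain ⟨k, hk⟩ := dvd_mul_negInvFin_add_one p hb0
    exact hc _ _ k hk τ

/-- `S`-invariance for the `j`-family. -/
theorem conjPoly_J_S (hp : p.Prime) (J : ℍ → ℂ)
    (hJ : ∀ (γ : SL(2, ℤ)) (τ : ℍ), J (γ • τ) = J τ) (τ : ℍ) :
    conjPoly p (fun τ => J (mulNat p τ)) J (ModularGroup.S • τ)
      = conjPoly p (fun τ => J (mulNat p τ)) J τ := by
  apply conjPoly_S_of p hp
  · intro τ
    rw [mulNat_S_smul, hJ]
  · intro τ
    rw [divShift_zero_S_smul, hJ]
  · intro B B' k h τ
    rw [← conjMat_smul p B B' k h, hJ]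

/-- The function `τ' ↦ D(τ')/D(pτ')`, whose values at `(τ+b)/p` are `D((τ+b)/p)/D(τ)`. -/
def unitG (D : ℍ → ℂ) (τ : ℍ) : ℂ := D τ / D (mulNat p τ)

/-- The function `τ ↦ p¹² D(pτ)/D(τ)`. -/
def unitE (D : ℍ → ℂ) (τ : ℍ) : ℂ := (p : ℂ) ^ 12 * D (mulNat p τ) / D τ

/-- `S`-invariance for the unit family. -/
theorem conjPoly_unit_S (hp : p.Prime) (D : ℍ → ℂ) (hD0 : ∀ τ, D τ ≠ 0)
    (hD : ∀ (γ : SL(2, ℤ)) (τ : ℍ), D (γ • τ) = (denom γ τ) ^ 12 * D τ) (τ : ℍ) :
    conjPoly p (unitE p D) (unitG p D) (ModularGroup.S • τ)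
      = conjPoly p (unitE p D) (unitG p D) τ := by
  have hpc : (p : ℂ) ≠ 0 := by exact_mod_cast NeZero.ne p
  have hS : ∀ z : ℍ, D (ModularGroup.S • z) = (z : ℂ) ^ 12 * D z := by
    intro z
    rw [hD, ModularGroup.denom_S]
  have hT : ∀ (n : ℤ) (z : ℍ), D (ModularGroup.T ^ n • z) = D z := by
    intro n z
    rw [hD]
    have : denom ((ModularGroup.T ^ n : SL(2, ℤ)) : GL (Fin 2) ℝ) z = 1 := by
      rw [ModularGroup.denom_apply]
      simp [ModularGroup.coe_T_zpow]
    rw [this, one_pow, one_mul]
  apply conjPoly_S_of p hp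
  · intro τ
    have hτ : (τ : ℂ) ≠ 0 := ne_zero τ
    unfold unitE unitG
    rw [mulNat_S_smul, hS, hS, mulNat_divShift, hT]
    have h1 : ((divShift p 0 τ : ℍ) : ℂ) = (τ : ℂ) / (p : ℂ) := by simp
    rw [h1]
    have := hD0 τ
    field_simp
  · intro τ
    have hτ : (τ : ℂ) ≠ 0 := ne_zero τ
    unfold unitE unitG
    rw [mulNat_divShift, hT, divShift_zero_S_smul, hS, hS]
    have h1 : ((mulNat p τ : ℍ) : ℂ) = (p : ℂ) * (τ : ℂ) := by simp
    rw [h1]
    have := hD0 τ
    field_simp
  · intro B B' k h τ
    have hτ : (τ : ℂ) ≠ 0 := ne_zero τ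
    unfold unitG
    rw [mulNat_divShift, hT, mulNat_divShift, hT, ← conjMat_smul p B B' k h, hD,
      denom_conjMat, hS]
    have := hD0 τ
    field_simp

end Fermat.Agent.S28.H807

end

end
-- ===== PACK-END S28/H807/Families.lean

-- ===== PACK-BEGIN S28/H807/Core.lean
section
/-
S28 / helper807 — generic construction: from two convergent `q`-series `g, e ∈ ℤ((q))` whose
families of conjugates are `S`-stable, the polynomial `(X - e)·charpoly(secMat p g)` has
coefficients in `ℤ[j]`.
-/





set_option autoImplicit false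
set_option maxHeartbeats 400000

noncomputable section

open ModularCurve Polynomial Matrix UpperHalfPlane
open scoped MatrixGroups

namespace Fermat.Agent.S28.H807

/-- The level-one polynomial principle (analytic input, provided by the bridge seats):
an `S`-invariant function on `ℍ` with a convergent Laurent `q`-expansion is a polynomial in `j`. -/
def PolyPrinciple : Prop :=
  ∀ (c : LaurentSeries ℂ) (F : ℍ → ℂ), HasQExp c F →
    (∀ τ : ℍ, F (ModularGroup.S • τ) = F τ) → ∃ P : Polynomial ℂ, c = evalJ ℂ P

section Formal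

variable {R : Type*} [CommRing R] (p : ℕ) [NeZero p]

/-- The formal polynomial `(X - e) · charpoly (secMat p g)`. -/
def formalPoly (g e : LaurentSeries R) : Polynomial (LaurentSeries R) :=
  (X - C e) * (secMat p g).charpoly

theorem formalPoly_monic (g e : LaurentSeries R) : (formalPoly p g e).Monic :=
  (monic_X_sub_C e).mul (Matrix.charpoly_monic _)

theorem formalPoly_natDegree [Nontrivial R] (g e : LaurentSeries R) :
    (formalPoly p g e).natDegree = p + 1 := by
  unfold formalPoly
  rw [Polynomial.Monic.natDegree_mul (monic_X_sub_C e) (Matrix.charpoly_monic _),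
    natDegree_X_sub_C, Matrix.charpoly_natDegree_eq_dim, Fintype.card_fin, add_comm]

theorem formalPoly_eval_self (g e : LaurentSeries R) : (formalPoly p g e).eval e = 0 := by
  simp [formalPoly]

theorem formalPoly_map_qExpand_eval (g e : LaurentSeries R) :
    ((formalPoly p g e).map (qExpand R p)).eval g = 0 := by
  unfold formalPoly
  rw [Polynomial.map_mul, Polynomial.eval_mul, secMat_charpoly_eval, mul_zero]

theorem formalPoly_map_coeffMap {S : Type*} [CommRing S] (φ : R →+* S) (g e : LaurentSeries R) :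
    (formalPoly p g e).map (coeffMap φ) = formalPoly p (coeffMap φ g) (coeffMap φ e) := by
  unfold formalPoly
  rw [Polynomial.map_mul, Polynomial.map_sub, Polynomial.map_X, Polynomial.map_C,
    ← Matrix.charpoly_map, secMat_coeffMap]

end Formal

/-- Evaluation at `j` as a ring hom `ℤ[Y] → ℤ((q))`. -/
def evalJZHom : Polynomial ℤ →+* LaurentSeries ℤ :=
  Polynomial.eval₂RingHom (Int.castRingHom _) (jqModC ℤ)

theorem evalJZHom_apply (Q : Polynomial ℤ) : evalJZHom Q = evalJZ Q := rfl

variable (p : ℕ) [NeZero p]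

/-- The coefficients of the formal polynomial lie in `ℤ[j]`. -/
theorem formalPoly_coeff_mem_range (hPP : PolyPrinciple) (gZ eZ : LaurentSeries ℤ)
    (G E : ℍ → ℂ)
    (hG : HasQExp (coeffMap (Int.castRingHom ℂ) gZ) G)
    (hE : HasQExp (coeffMap (Int.castRingHom ℂ) eZ) E)
    (hS : ∀ τ : ℍ, conjPoly p E G (ModularGroup.S • τ) = conjPoly p E G τ) (k : ℕ) :
    (formalPoly p gZ eZ).coeff k ∈ Set.range evalJZHom := by
  have h1 : HasQExp ((formalPoly p (coeffMap (Int.castRingHom ℂ) gZ)
      (coeffMap (Int.castRingHom ℂ) eZ)).coeff k) (fun τ => (conjPoly p E G τ).coeff k) :=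
    hasQExp_coeff_mul_charpoly p _ _ G E hG hE k
  have h2 : ∀ τ : ℍ, (conjPoly p E G (ModularGroup.S • τ)).coeff k = (conjPoly p E G τ).coeff k :=
    fun τ => by rw [hS τ]
  obtain ⟨P, hP⟩ := hPP _ _ h1 h2
  have h3 : evalJ ℂ P = coeffMap (Int.castRingHom ℂ) ((formalPoly p gZ eZ).coeff k) := by
    rw [← hP, ← formalPoly_map_coeffMap, Polynomial.coeff_map]
  obtain ⟨Q, hQ⟩ := exists_int_poly_of_evalJ_eq P _ h3
  exact ⟨Q, hQ⟩

/-- **Main generic theorem**: a monic lift of the formal polynomial to `ℤ[Y][X]`. -/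
theorem exists_lift_formalPoly (hPP : PolyPrinciple) (gZ eZ : LaurentSeries ℤ)
    (G E : ℍ → ℂ)
    (hG : HasQExp (coeffMap (Int.castRingHom ℂ) gZ) G)
    (hE : HasQExp (coeffMap (Int.castRingHom ℂ) eZ) E)
    (hS : ∀ τ : ℍ, conjPoly p E G (ModularGroup.S • τ) = conjPoly p E G τ) :
    ∃ Φ : Polynomial (Polynomial ℤ), Φ.Monic ∧ Φ.natDegree = p + 1 ∧
      Φ.map evalJZHom = formalPoly p gZ eZ := by
  have hl : formalPoly p gZ eZ ∈ Polynomial.lifts evalJZHom := by
    rw [Polynomial.lifts_iff_coeff_lifts]
    intro k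
    exact formalPoly_coeff_mem_range p hPP gZ eZ G E hG hE hS k
  obtain ⟨Φ, h1, h2, h3⟩ :=
    Polynomial.lifts_and_natDegree_eq_and_monic hl (formalPoly_monic p gZ eZ)
  exact ⟨Φ, h3, by rw [h2, formalPoly_natDegree], h1⟩

end Fermat.Agent.S28.H807

end

end
-- ===== PACK-END S28/H807/Core.lean

-- ===== PACK-BEGIN S28/H326/Final.lean
section
/-
S28 / helper326: the prime-level analytic stubs of the captain skeleton
(`ModPolyData p`, `UnitPolyData p` of `Fermat.Agent.S28.Defs`).
-/





set_option autoImplicit false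
set_option linter.unusedSectionVars false

noncomputable section

namespace Fermat.Agent.S28.H326

open ModularCurve HahnSeries

variable (p : ℕ) [NeZero p]

/-- the base embedding `ℤ((q)) → ℂ((t))`, `q ↦ t^p` -/
def iotaP : LaurentSeries ℤ →+* LaurentSeries ℂ := (qExpand ℂ p).comp kap

theorem iotaP_injective : Function.Injective (iotaP p) :=
  (qExpand_injective p).comp kap_injective

theorem theta_eq_comp :
    theta p = (iotaP p).comp (Polynomial.aeval (jqModC ℤ)).toRingHom := rfl

theorem theta_eq_comp' :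
    theta p = kap.comp (Polynomial.aeval (qExpand ℤ p (jqModC ℤ))).toRingHom := by
  refine Polynomial.ringHom_ext (fun a => ?_) ?_
  · simp
  · rw [theta_X]
    simp only [RingHom.comp_apply, AlgHom.toRingHom_eq_coe, RingHom.coe_coe, Polynomial.aeval_X]
    rw [coeffMap_qExpand, coeffMap_jqModC, jP]

theorem iotaP_qExpand_jq : iotaP p (qExpand ℤ p (jqModC ℤ)) = y p none := by
  rw [iotaP, RingHom.comp_apply, coeffMap_qExpand, coeffMap_jqModC]
  rfl

theorem kap_jq : kap (jqModC ℤ) = y p (some ⟨0, Nat.pos_of_ne_zero (NeZero.ne p)⟩) := by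
  rw [coeffMap_jqModC]
  simp only [y, pow_zero, inv_one, map_one, one_mul, cB_zero]
  rfl

theorem deltaL_eq : deltaL ℤ = deltaZ := by
  rw [deltaL, deltaZ, DZ, map_mul, HahnSeries.ofPowerSeries_X]
  congr 2

theorem deltaInvL_eq : deltaInvL ℤ = deltaInvZ := by
  rw [deltaInvL, deltaInvZ]
  congr 2

theorem iotaP_unit :
    iotaP p ((p : LaurentSeries ℤ) ^ 12 * unitL ℤ p) = w p none := by
  rw [unitL, deltaL_eq, deltaInvL_eq, w, scal, conj, cInf, cBase, delInv, iotaP]
  simp only [RingHom.comp_apply, map_mul, map_pow, map_natCast, coeffMap_qExpand]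
  rw [deltaZ, kap_ofPS, DC]
  ring

/-- **[A-Φ]** existence of the modular polynomial of prime level `p`. -/
theorem nonempty_modPolyData (hp : p.Prime) : Nonempty (ModPolyData p) := by
  obtain ⟨Φ, hmonic, hdeg, hmap⟩ := exists_Phi p (heckeInput p hp)
  refine ⟨⟨Φ, hmonic, hdeg, ?_, ?_⟩⟩
  · apply iotaP_injective p
    rw [map_zero, Polynomial.hom_eval₂, ← theta_eq_comp, ← Polynomial.eval_map, hmap,
      iotaP_qExpand_jq]
    exact PhiPoly_eval p none
  · apply kap_injective
    rw [map_zero, Polynomial.hom_eval₂, ← theta_eq_comp', ← Polynomial.eval_map, hmap, kap_jq p]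
    exact PhiPoly_eval p _

/-- **[A-W]** `p¹² Δ(q^p)/Δ(q)` is integral over `ℤ[j]`. -/
theorem nonempty_unitPolyData (hp : p.Prime) : Nonempty (UnitPolyData p) := by
  obtain ⟨W, hmonic, -, hmap⟩ := exists_W p (heckeInput p hp)
  refine ⟨⟨W, hmonic, ?_⟩⟩
  apply iotaP_injective p
  rw [map_zero, Polynomial.hom_eval₂, ← theta_eq_comp, ← Polynomial.eval_map, hmap, iotaP_unit]
  exact WPoly_eval p none

end Fermat.Agent.S28.H326

end
end
-- ===== PACK-END S28/H326/Final.lean

-- ===== PACK-BEGIN Lib/RR/H443/Degree.lean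
section


/-!
# RR bridge (helper443), part 3: `deg (x)_∞ = [F : K(x)]` and `HasPrincipalDivisors`

Characteristic-free.  From `Hyp K F` and the bound `ZerosBound K F` (layer L2 of the RR library:
zeros of `x` counted with multiplicity are at most `[F : K(x)]`) we deduce

* finiteness of the zeros and poles of every function;
* `[F : K(x)] ≤ deg (x)_∞` (Stichtenoth 1.4.11), hence equality;
* every principal divisor has degree `0`, i.e. `HasPrincipalDivisors K F`, and `FF1 K F`.
-/

set_option autoImplicit false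

noncomputable section

open AlgebraicCurve Polynomial IntermediateField
open Fermat.Agent.Lib.RR

namespace Fermat.Agent.Lib.RR.H443

variable {K F : Type*} [Field K] [Field F] [Algebra K F]

variable (K F) in
/-- The statement of layer L2 of the RR library. -/
def ZerosBound : Prop :=
  ∀ (x : F) [FiniteDimensional K⟮x⟯ F] (S : Finset (Place K F)), (∀ v ∈ S, 0 < v.ord x) →
    ∑ v ∈ S, v.ord x ≤ (Module.finrank K⟮x⟯ F : ℤ)

/-! ### Finiteness of zeros and poles -/

theorem finite_zeros_of_finite (hZ : ZerosBound K F) (x : F) [FiniteDimensional K⟮x⟯ F] :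
    {v : Place K F | 0 < v.ord x}.Finite := by
  by_contra hinf
  have hinf' : {v : Place K F | 0 < v.ord x}.Infinite := hinf
  obtain ⟨S, hS, hcard⟩ := hinf'.exists_subset_card_eq (Module.finrank K⟮x⟯ F + 1)
  have h1 := hZ x S (fun v hv => hS hv)
  have h2 : (S.card : ℤ) ≤ ∑ v ∈ S, v.ord x := by
    have : ∑ _v ∈ S, (1 : ℤ) ≤ ∑ v ∈ S, v.ord x :=
      Finset.sum_le_sum fun v hv => by
        have : 0 < v.ord x := hS hv
        omega
    simpa using this
  rw [hcard] at h2
  push_cast at h2
  omega

theorem transcendental_inv {f : F} (hf : Transcendental K f) : Transcendental K f⁻¹ :=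
  fun h => hf (by simpa using h.inv)

theorem adjoin_inv_eq (f : F) : K⟮f⁻¹⟯ = K⟮f⟯ := by
  apply le_antisymm
  · rw [adjoin_simple_le_iff]
    exact inv_mem (mem_adjoin_simple_self K f)
  · rw [adjoin_simple_le_iff]
    have h2 : (f⁻¹)⁻¹ ∈ K⟮f⁻¹⟯ := inv_mem (mem_adjoin_simple_self K f⁻¹)
    rwa [inv_inv] at h2

theorem finrank_adjoin_inv (f : F) : Module.finrank K⟮f⁻¹⟯ F = Module.finrank K⟮f⟯ F :=
  congrArg (fun E : IntermediateField K F => Module.finrank E F) (_root_.Fermat.Agent.Lib.RR.H443.adjoin_inv_eq f)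

theorem ord_eq_zero_of_isAlgebraic (h : Hyp K F) {f : F} (hf : IsAlgebraic K f)
    (v : Place K F) : v.ord f = 0 := by
  obtain ⟨c, rfl⟩ := h.const f hf
  exact ord_algebraMap v c

theorem finite_zeros (h : Hyp K F) (hZ : ZerosBound K F) (f : F) :
    {v : Place K F | 0 < v.ord f}.Finite := by
  by_cases hf : Transcendental K f
  · have := h.finite f hf
    exact finite_zeros_of_finite hZ f
  · have hf' : IsAlgebraic K f := by
      by_contra hna
      exact hf hna
    have : {v : Place K F | 0 < v.ord f} = ∅ := by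
      ext v
      simp [ord_eq_zero_of_isAlgebraic h hf' v]
    rw [this]
    exact Set.finite_empty

theorem finite_poles (h : Hyp K F) (hZ : ZerosBound K F) (f : F) :
    {v : Place K F | v.ord f < 0}.Finite := by
  refine (finite_zeros h hZ f⁻¹).subset fun v hv => ?_
  have hv' : v.ord f < 0 := hv
  show 0 < v.ord f⁻¹
  rw [v.ord_inv]
  omega

/-! ### The pole divisor -/

/-- The pole divisor `(f)_∞`. -/
def poleDiv (h : Hyp K F) (hZ : ZerosBound K F) (f : F) : Divisor K F :=
  Finsupp.ofSupportFinite (fun v => max 0 (-v.ord f)) <| by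
    refine (finite_poles h hZ f).subset fun v hv => ?_
    have hv' : max 0 (-v.ord f) ≠ 0 := hv
    show v.ord f < 0
    by_contra hcon
    apply hv'
    rw [max_eq_left]
    omega

@[simp]
theorem poleDiv_apply (h : Hyp K F) (hZ : ZerosBound K F) (f : F) (v : Place K F) :
    poleDiv h hZ f v = max 0 (-v.ord f) := rfl

theorem poleDiv_nonneg (h : Hyp K F) (hZ : ZerosBound K F) (f : F) : 0 ≤ poleDiv h hZ f := by
  rw [Finsupp.le_def]
  intro v
  simp

theorem mem_support_poleDiv (h : Hyp K F) (hZ : ZerosBound K F) (f : F) (v : Place K F) :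
    v ∈ (poleDiv h hZ f).support ↔ v.ord f < 0 := by
  rw [Finsupp.mem_support_iff, poleDiv_apply]
  constructor
  · intro hne
    by_contra hcon
    apply hne
    rw [max_eq_left]
    omega
  · intro hlt
    rw [max_eq_right (by omega)]
    omega

theorem degree_poleDiv (h : Hyp K F) (hZ : ZerosBound K F) (f : F) :
    Divisor.degree (poleDiv h hZ f) = ∑ v ∈ (poleDiv h hZ f).support, v.ord f⁻¹ := by
  rw [degree_eq_sum]
  refine Finset.sum_congr rfl fun v hv => ?_
  rw [mem_support_poleDiv] at hv
  rw [h.deg_eq_one v, poleDiv_apply, v.ord_inv, max_eq_right (by omega)]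
  simp

/-- `deg (x)_∞ ≤ [F : K(x)]`, from the zeros bound applied to `x⁻¹`. -/
theorem degree_poleDiv_le (h : Hyp K F) (hZ : ZerosBound K F) {x : F}
    (hx : Transcendental K x) :
    Divisor.degree (poleDiv h hZ x) ≤ (@Module.finrank K⟮x⟯ F _ _ _ : ℤ) := by
  have := h.finite x⁻¹ (transcendental_inv hx)
  rw [degree_poleDiv, ← finrank_adjoin_inv x]
  refine hZ x⁻¹ _ fun v hv => ?_
  rw [mem_support_poleDiv] at hv
  rw [v.ord_inv]
  omega

/-! ### The lower bound -/

theorem linearIndependent_pow_of_transcendental {A : Type*} [Ring A] [Algebra K A] {a : A}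
    (ha : Transcendental K a) (l : ℕ) :
    LinearIndependent K fun i : Fin (l + 1) => a ^ (i : ℕ) := by
  rw [Fintype.linearIndependent_iff]
  intro g hg i
  have hinj := transcendental_iff_injective.mp ha
  have hp : aeval a (∑ i : Fin (l + 1), Polynomial.monomial (i : ℕ) (g i)) = 0 := by
    rw [map_sum]
    simp_rw [aeval_monomial, ← Algebra.smul_def]
    exact hg
  have hp0 : (∑ i : Fin (l + 1), Polynomial.monomial (i : ℕ) (g i)) = 0 :=
    hinj (by rw [hp, map_zero])
  have := congrArg (fun q : K[X] => q.coeff (i : ℕ)) hp0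
  simp only [Polynomial.finsetSum_coeff, Polynomial.coeff_monomial, Polynomial.coeff_zero] at this
  rw [Finset.sum_eq_single i] at this
  · simpa using this
  · intro j _ hji
    rw [if_neg]
    exact fun h => hji (Fin.ext h)
  · intro hi
    exact absurd (Finset.mem_univ i) hi

set_option maxHeartbeats 800000 in
/-- The products `x ^ i * b j` (`i ≤ l`, `b` a `K(x)`-basis of `F`) are `K`-linearly
independent. -/
theorem linearIndependent_pow_mul_basis {x : F} (hx : Transcendental K x)
    [FiniteDimensional K⟮x⟯ F] (l : ℕ) :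
    LinearIndependent K fun p : Fin (l + 1) × Fin (Module.finrank K⟮x⟯ F) =>
      x ^ (p.1 : ℕ) * (Module.finBasis K⟮x⟯ F p.2 : F) := by
  have hgen : Transcendental K (AdjoinSimple.gen K x) := by
    rw [← transcendental_algebraMap_iff (algebraMap K⟮x⟯ F).injective]
    exact hx
  have h1 := linearIndependent_pow_of_transcendental hgen l
  have h2 := (Module.finBasis K⟮x⟯ F).linearIndependent
  have h3 := linearIndependent_smul h1 h2
  convert h3 using 2 with p
  rw [Algebra.smul_def]
  simp

/-- `[F : K(x)] ≤ deg (x)_∞` (Stichtenoth, Thm. 1.4.11). -/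
theorem finrank_le_degree_poleDiv (h : Hyp K F) (hZ : ZerosBound K F) {x : F}
    (hx : Transcendental K x) :
    (@Module.finrank K⟮x⟯ F _ _ _ : ℤ) ≤ Divisor.degree (poleDiv h hZ x) := by
  classical
  have hfinx := h.finite x hx
  set n := Module.finrank K⟮x⟯ F with hn
  set B := poleDiv h hZ x with hB
  set C : Divisor K F := ∑ j : Fin n, poleDiv h hZ (Module.finBasis K⟮x⟯ F j : F) with hC
  have hB0 : 0 ≤ B := poleDiv_nonneg h hZ x
  have hC0 : 0 ≤ C := Finset.sum_nonneg fun j _ => poleDiv_nonneg h hZ _
  have hx0 : x ≠ 0 := fun h0 => hx (h0 ▸ isAlgebraic_zero)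
  -- the key inequality for every `l`
  have key : ∀ l : ℕ, ((l + 1) * n : ℤ) ≤ l * Divisor.degree B + Divisor.degree C + 1 := by
    intro l
    have hD0 : 0 ≤ l • B + C := add_nonneg (nsmul_nonneg hB0 l) hC0
    have hfin := finite_L_of_nonneg h hD0
    have hell := ell_le_of_nonneg h hD0
    have hli := linearIndependent_pow_mul_basis hx l
    have hmem : ∀ p : Fin (l + 1) × Fin n,
        x ^ (p.1 : ℕ) * (Module.finBasis K⟮x⟯ F p.2 : F) ∈ riemannRochSpace (l • B + C) := by
      rintro ⟨i, j⟩
      rw [mem_L_iff]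
      intro v
      right
      have hbj : (Module.finBasis K⟮x⟯ F j : F) ≠ 0 := (Module.finBasis K⟮x⟯ F).ne_zero j
      rw [v.ord_mul (pow_ne_zero _ hx0) hbj, ord_pow]
      have hBv : B v = max 0 (-v.ord x) := rfl
      have hCv : max 0 (-v.ord (Module.finBasis K⟮x⟯ F j : F)) ≤ C v := by
        rw [hC, Finsupp.finsetSum_apply]
        have : poleDiv h hZ (Module.finBasis K⟮x⟯ F j : F) v ≤
            ∑ j' : Fin n, poleDiv h hZ (Module.finBasis K⟮x⟯ F j' : F) v :=
          Finset.single_le_sum
            (f := fun j' => poleDiv h hZ (Module.finBasis K⟮x⟯ F j' : F) v)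
            (fun j' _ => by simp) (Finset.mem_univ j)
        simpa using this
      have hi : (i : ℕ) ≤ l := Nat.lt_succ_iff.mp i.2
      have hval : (l • B + C) v = (l : ℤ) * B v + C v := by
        rw [Finsupp.add_apply, Finsupp.smul_apply, nsmul_eq_mul]
      rw [hval, hBv]
      have h1 : ((i : ℕ) : ℤ) * max 0 (-v.ord x) ≤ (l : ℤ) * max 0 (-v.ord x) :=
        mul_le_mul_of_nonneg_right (by exact_mod_cast hi) (le_max_left _ _)
      have h2 : -(((i : ℕ) : ℤ) * max 0 (-v.ord x)) ≤ ((i : ℕ) : ℤ) * v.ord x := by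
        have h3 : -v.ord x ≤ max 0 (-v.ord x) := le_max_right _ _
        have h4 : (0 : ℤ) ≤ ((i : ℕ) : ℤ) := Int.natCast_nonneg _
        nlinarith
      have h5 : -v.ord (Module.finBasis K⟮x⟯ F j : F) ≤
          max 0 (-v.ord (Module.finBasis K⟮x⟯ F j : F)) := le_max_right _ _
      push_cast
      linarith
    -- count
    let g : Fin (l + 1) × Fin n → riemannRochSpace (l • B + C) := fun p => ⟨_, hmem p⟩
    have hli' : LinearIndependent K g := by
      apply LinearIndependent.of_comp (riemannRochSpace (l • B + C)).subtype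
      exact hli
    have hcard := hli'.fintype_card_le_finrank
    rw [Fintype.card_prod, Fintype.card_fin, Fintype.card_fin] at hcard
    have hdeg : Divisor.degree (l • B + C) = l * Divisor.degree B + Divisor.degree C := by
      rw [map_add, map_nsmul, nsmul_eq_mul]
    have hcard' : (((l + 1) * n : ℕ) : ℤ) ≤ (ell (l • B + C) : ℤ) := by exact_mod_cast hcard
    rw [hdeg] at hell
    push_cast at hcard'
    linarith
  -- conclude
  by_contra hcon
  rw [not_le] at hcon
  have hdC : 0 ≤ Divisor.degree C := degree_nonneg hC0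
  have hdB : 0 ≤ Divisor.degree B := degree_nonneg hB0
  have hk := key ((Divisor.degree C).toNat + 1)
  have hl : ((Divisor.degree C).toNat : ℤ) = Divisor.degree C := Int.toNat_of_nonneg hdC
  push_cast at hk
  rw [hl] at hk
  have hn1 : 0 ≤ (n : ℤ) - Divisor.degree B - 1 := by omega
  have hC2 : 0 ≤ Divisor.degree C + 2 := by omega
  nlinarith [mul_nonneg hC2 hn1]

/-- **The degree of the pole divisor** of a transcendental `x` is `[F : K(x)]`. -/
theorem degree_poleDiv_eq (h : Hyp K F) (hZ : ZerosBound K F) {x : F}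
    (hx : Transcendental K x) :
    Divisor.degree (poleDiv h hZ x) = (@Module.finrank K⟮x⟯ F _ _ _ : ℤ) :=
  le_antisymm (degree_poleDiv_le h hZ hx) (finrank_le_degree_poleDiv h hZ hx)

/-! ### Principal divisors -/

/-- The divisor of a function. -/
def divFun (h : Hyp K F) (hZ : ZerosBound K F) (f : F) : Divisor K F :=
  poleDiv h hZ f⁻¹ - poleDiv h hZ f

theorem divFun_apply (h : Hyp K F) (hZ : ZerosBound K F) (f : F) (v : Place K F) :
    divFun h hZ f v = v.ord f := by
  simp only [divFun, Finsupp.coe_sub, Pi.sub_apply, poleDiv_apply, v.ord_inv, neg_neg]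
  rcases le_total 0 (v.ord f) with h0 | h0
  · rw [max_eq_right h0, max_eq_left (by omega)]
    ring
  · rw [max_eq_left h0, max_eq_right (by omega)]
    ring

theorem degree_divFun (h : Hyp K F) (hZ : ZerosBound K F) (f : F) :
    Divisor.degree (divFun h hZ f) = 0 := by
  by_cases hf : Transcendental K f
  · rw [divFun, map_sub, degree_poleDiv_eq h hZ hf,
      degree_poleDiv_eq h hZ (transcendental_inv hf), finrank_adjoin_inv]
    ring
  · have hf' : IsAlgebraic K f := by
      by_contra hna
      exact hf hna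
    have : divFun h hZ f = 0 := by
      ext v
      rw [divFun_apply, ord_eq_zero_of_isAlgebraic h hf' v]
      rfl
    rw [this, map_zero]

/-- **Principal divisors have degree zero** — in any characteristic. -/
theorem hasPrincipalDivisors (h : Hyp K F) (hZ : ZerosBound K F) : HasPrincipalDivisors K F :=
  ⟨fun f _ => ⟨divFun h hZ f, divFun_apply h hZ f, degree_divFun h hZ f⟩⟩

/-- The bridge: the standing hypotheses `FF1` of the RR library. -/
theorem ff1_of_hyp (h : Hyp K F) (hZ : ZerosBound K F) {x : F} (hx : Transcendental K x) :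
    FF1 K F where
  hpd := hasPrincipalDivisors h hZ
  deg_eq_one := h.deg_eq_one
  nonempty_place := by
    obtain ⟨v, -⟩ := exists_place_ord_pos h.finite hx
    exact ⟨v⟩
  exists_finite := ⟨x, hx, h.finite x hx⟩

/-- **Fundamental identity at the zeros**: `∑_{v(x) > 0} ord_v x = [F : K(x)]`. -/
theorem sum_ord_zeros_eq_finrank (h : Hyp K F) (hZ : ZerosBound K F) {x : F}
    (hx : Transcendental K x) (S : Finset (Place K F)) (hS : ∀ v, v ∈ S ↔ 0 < v.ord x) :
    ∑ v ∈ S, v.ord x = (@Module.finrank K⟮x⟯ F _ _ _ : ℤ) := by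
  have h1 := degree_poleDiv_eq h hZ (transcendental_inv hx)
  rw [finrank_adjoin_inv, degree_poleDiv, inv_inv] at h1
  rw [← h1]
  refine Finset.sum_congr ?_ fun _ _ => rfl
  ext v
  rw [hS, mem_support_poleDiv, v.ord_inv]
  omega

/-- **Fundamental identity at the poles**: `∑_{v(x) < 0} -ord_v x = [F : K(x)]`. -/
theorem sum_ord_poles_eq_finrank (h : Hyp K F) (hZ : ZerosBound K F) {x : F}
    (hx : Transcendental K x) (S : Finset (Place K F)) (hS : ∀ v, v ∈ S ↔ v.ord x < 0) :
    ∑ v ∈ S, -v.ord x = (@Module.finrank K⟮x⟯ F _ _ _ : ℤ) := by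
  have h1 := degree_poleDiv_eq h hZ hx
  rw [degree_poleDiv] at h1
  rw [← h1]
  refine Finset.sum_congr ?_ fun v _ => ?_
  · ext v
    rw [hS, mem_support_poleDiv]
  · rw [v.ord_inv]

end Fermat.Agent.Lib.RR.H443

end
end
-- ===== PACK-END Lib/RR/H443/Degree.lean

-- ===== PACK-BEGIN Lib/RR/H443/Bridge.lean
section




/-!
# RR bridge (helper443), part 4: `FF1 K F` in ANY characteristic

For `K` algebraically closed (of any characteristic) and `F` a finite extension of `K(x)`, `x`
transcendental over `K`:

* `hasPrincipalDivisors_of_isAlgClosed` : `HasPrincipalDivisors K F`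
  (finitely many zeros and poles, principal divisors have degree `0`);
* `ff1_of_isAlgClosed` : the standing hypotheses `FF1 K F` of the RR library;
* `sum_ord_zeros_eq_finrank'`, `sum_ord_poles_eq_finrank'` : the fundamental identity
  `∑_{v(x) > 0} ord_v x = [F : K(x)] = ∑_{v(x) < 0} -ord_v x`;
* `exists_place_ord_pos'`, `exists_place_ord_neg'` : existence of zeros and poles.

No separability, no Dedekind domains: only valuation theory (Stichtenoth, Ch. 1).
-/

set_option autoImplicit false

noncomputable section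

open AlgebraicCurve Polynomial IntermediateField
open Fermat.Agent.Lib.RR

namespace Fermat.Agent.Lib.RR.H443

variable {K F : Type*} [Field K] [Field F] [Algebra K F]

/-- Layer L2 of the RR library gives the zeros bound. -/
theorem zerosBound (hdeg : ∀ v : Place K F, v.deg = 1) : ZerosBound K F :=
  fun x _ S hS => sum_ord_le_finrank hdeg x S hS

variable [IsAlgClosed K]

/-- The hypotheses of the bridge hold over an algebraically closed constant field. -/
theorem hyp_of_isAlgClosed {x : F} (hx : Transcendental K x) [FiniteDimensional K⟮x⟯ F] :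
    Hyp K F where
  deg_eq_one := fun v => S24.FF.deg_eq_one v hx
  finite := fun _ hy => S24.FF.finiteDimensional_adjoin_of_transcendental hx hy
  const := fun _ hf => S24.FF.mem_range_of_isAlgebraic hf

/-- **`FF1 K F` in any characteristic.** -/
theorem ff1_of_isAlgClosed {x : F} (hx : Transcendental K x) [FiniteDimensional K⟮x⟯ F] :
    FF1 K F :=
  ff1_of_hyp (hyp_of_isAlgClosed hx) (zerosBound (hyp_of_isAlgClosed hx).deg_eq_one) hx

/-- **`HasPrincipalDivisors K F` in any characteristic.** -/
theorem hasPrincipalDivisors_of_isAlgClosed {x : F} (hx : Transcendental K x)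
    [FiniteDimensional K⟮x⟯ F] : HasPrincipalDivisors K F :=
  hasPrincipalDivisors (hyp_of_isAlgClosed hx) (zerosBound (hyp_of_isAlgClosed hx).deg_eq_one)

/-- Every place has degree one. -/
theorem deg_eq_one_of_isAlgClosed {x : F} (hx : Transcendental K x) [FiniteDimensional K⟮x⟯ F]
    (v : Place K F) : v.deg = 1 :=
  S24.FF.deg_eq_one v hx

/-- Every nonconstant function has a zero. -/
theorem exists_place_ord_pos' {x : F} (hx : Transcendental K x) [FiniteDimensional K⟮x⟯ F]
    {t : F} (ht : Transcendental K t) : ∃ v : Place K F, 0 < v.ord t :=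
  exists_place_ord_pos (hyp_of_isAlgClosed hx).finite ht

/-- Every nonconstant function has a pole. -/
theorem exists_place_ord_neg' {x : F} (hx : Transcendental K x) [FiniteDimensional K⟮x⟯ F]
    {t : F} (ht : Transcendental K t) : ∃ v : Place K F, v.ord t < 0 :=
  exists_place_ord_neg (hyp_of_isAlgClosed hx).finite ht

/-- Finitely many zeros and poles. -/
theorem finite_setOf_ord_ne_zero {x : F} (hx : Transcendental K x) [FiniteDimensional K⟮x⟯ F]
    (f : F) : {v : Place K F | v.ord f ≠ 0}.Finite := by
  have h := hyp_of_isAlgClosed hx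
  have hZ := zerosBound h.deg_eq_one
  refine ((finite_zeros h hZ f).union (finite_poles h hZ f)).subset fun v hv => ?_
  have hv' : v.ord f ≠ 0 := hv
  rcases lt_or_gt_of_ne hv' with h1 | h1
  · exact Or.inr h1
  · exact Or.inl h1

/-- **Fundamental identity at the zeros** (any characteristic). -/
theorem sum_ord_zeros_eq_finrank' {x : F} (hx : Transcendental K x) [FiniteDimensional K⟮x⟯ F]
    (S : Finset (Place K F)) (hS : ∀ v, v ∈ S ↔ 0 < v.ord x) :
    ∑ v ∈ S, v.ord x = (Module.finrank K⟮x⟯ F : ℤ) :=
  sum_ord_zeros_eq_finrank (hyp_of_isAlgClosed hx)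
    (zerosBound (hyp_of_isAlgClosed hx).deg_eq_one) hx S hS

/-- **Fundamental identity at the poles** (any characteristic). -/
theorem sum_ord_poles_eq_finrank' {x : F} (hx : Transcendental K x) [FiniteDimensional K⟮x⟯ F]
    (S : Finset (Place K F)) (hS : ∀ v, v ∈ S ↔ v.ord x < 0) :
    ∑ v ∈ S, -v.ord x = (Module.finrank K⟮x⟯ F : ℤ) :=
  sum_ord_poles_eq_finrank (hyp_of_isAlgClosed hx)
    (zerosBound (hyp_of_isAlgClosed hx).deg_eq_one) hx S hS

/-- Every valuation subring `≠ ⊤` of `F` containing `K` is (the ring of) a place. -/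
theorem exists_place_eq (O : ValuationSubring F) (hK : ∀ a : K, algebraMap K F a ∈ O)
    (hO : O ≠ ⊤) {x : F} (hx : Transcendental K x) [FiniteDimensional K⟮x⟯ F] :
    ∃ v : Place K F, v.toValuationSubring = O :=
  ⟨placeOfValuationSubring O hK hO (hyp_of_isAlgClosed hx).finite, rfl⟩

end Fermat.Agent.Lib.RR.H443

end
end
-- ===== PACK-END Lib/RR/H443/Bridge.lean

-- ===== PACK-BEGIN S18/B12/H33/Core.lean
section



/-!
# S18 b2.5 (helper33): `B2CoreAbsStatement` from the assembly pieces A0, A2, A2', A3, A4, A5, A5'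
-/

set_option autoImplicit false

noncomputable section

namespace Fermat.Agent.S18.B12.H33

open Polynomial

universe u v

section Setup

variable {P : Type u} [CommRing P] [IsDomain P] [UniqueFactorizationMonoid P] [IsNoetherianRing P]
  {B : Type v} [CommRing B] [IsDomain B] [IsIntegrallyClosed B] [Algebra P B]
  [Module.Finite P B] [Module.IsTorsionFree P B]

/-- Local bases restrict to smaller ideals. -/
theorem IsLocalBasis.mono {𝔪 𝔫 : Ideal P} (h𝔫 : 𝔫 ≤ 𝔪) {n : ℕ} {x : Fin n → B}
    (hx : IsLocalBasis P B 𝔪 n x) : IsLocalBasis P B 𝔫 n x := by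
  obtain ⟨hli, g, hg, hsp⟩ := hx
  exact ⟨hli, g, fun h => hg (h𝔫 h), hsp⟩

/-- For a local basis at `𝔪 ∋ π` (prime), `π ∣ ∑ aᵢ xᵢ` in `B` forces `π ∣ aᵢ`. -/
theorem IsLocalBasis.dvd_coeff {𝔪 : Ideal P} {n : ℕ} {x : Fin n → B}
    (hx : IsLocalBasis P B 𝔪 n x) {π : P} (hπ : Prime π) (hπ𝔪 : π ∈ 𝔪)
    (a : Fin n → P) (h : (∑ i, a i • x i) ∈ Ideal.span {algebraMap P B π}) (i : Fin n) :
    π ∣ a i := by
  obtain ⟨hli, g, hg, hsp⟩ := hx
  rw [Ideal.mem_span_singleton] at h
  obtain ⟨b, hb⟩ := h
  have hgb := hsp b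
  rw [Submodule.mem_span_range_iff_exists_fun] at hgb
  obtain ⟨c, hc⟩ := hgb
  -- ∑ (g aᵢ - π cᵢ) xᵢ = 0
  have hrel : ∑ j, (g * a j - π * c j) • x j = 0 := by
    have h1 : ∑ j, (g * a j - π * c j) • x j
        = g • (∑ j, a j • x j) - π • (∑ j, c j • x j) := by
      rw [Finset.smul_sum, Finset.smul_sum, ← Finset.sum_sub_distrib]
      refine Finset.sum_congr rfl fun j _ => ?_
      rw [sub_smul, mul_smul, mul_smul]
    rw [h1, hc, hb, Algebra.smul_def, Algebra.smul_def, Algebra.smul_def]
    ring
  have hz := Fintype.linearIndependent_iff.mp hli _ hrel i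
  have hdvd : π ∣ g * a i := ⟨c i, by linear_combination hz⟩
  rcases hπ.dvd_or_dvd hdvd with h | h
  · exact absurd (Ideal.mem_of_dvd 𝔪 h hπ𝔪) hg
  · exact h

end Setup

end Fermat.Agent.S18.B12.H33

namespace Fermat.Agent.S18.B12.H33

open Polynomial

universe u v

set_option linter.unusedSectionVars false
set_option linter.unusedVariables false

section Main

variable {P : Type u} [CommRing P] [IsDomain P] (w : P)
  {B : Type v} [CommRing B] [Algebra P B]


/-- Reduction of a radical-membership from `B` to `B/wB`. -/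
theorem mk_sub_sum_mem_radical {r : ℕ} (y : Fin r → B) (q : P) (t : (P ⧸ Ideal.span {w}))
    (hqt : Associated (Ideal.Quotient.mk (Ideal.span {w}) q) t)
    (c : B) (a : Fin r → P)
    (h : c - ∑ i, a i • y i ∈ (Ideal.span {algebraMap P B w, algebraMap P B q}).radical) :
    (Ideal.Quotient.mk ((Ideal.span {w}).map (algebraMap P B)) c : (B ⧸ (Ideal.span {w}).map (algebraMap P B)))
      - ∑ i, (Ideal.Quotient.mk (Ideal.span {w}) (a i)) •
          (Ideal.Quotient.mk ((Ideal.span {w}).map (algebraMap P B)) (y i) : (B ⧸ (Ideal.span {w}).map (algebraMap P B))) ∈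
      (Ideal.span {algebraMap (P ⧸ Ideal.span {w}) (B ⧸ (Ideal.span {w}).map (algebraMap P B)) t}).radical := by
  obtain ⟨k, hk⟩ := h
  refine ⟨k, ?_⟩
  have e1 : (Ideal.Quotient.mk ((Ideal.span {w}).map (algebraMap P B)) c : (B ⧸ (Ideal.span {w}).map (algebraMap P B)))
      - ∑ i, (Ideal.Quotient.mk (Ideal.span {w}) (a i)) •
          (Ideal.Quotient.mk ((Ideal.span {w}).map (algebraMap P B)) (y i) : (B ⧸ (Ideal.span {w}).map (algebraMap P B)))
      = Ideal.Quotient.mk ((Ideal.span {w}).map (algebraMap P B)) (c - ∑ i, a i • y i) := by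
    rw [map_sub, map_sum]
    congr 1
  rw [e1, ← map_pow]
  rw [Ideal.mem_span_pair] at hk
  obtain ⟨c₁, c₂, hc⟩ := hk
  rw [← hc, map_add, map_mul, map_mul]
  have hw0 : Ideal.Quotient.mk ((Ideal.span {w}).map (algebraMap P B)) (algebraMap P B w) = 0 :=
    Ideal.Quotient.eq_zero_iff_mem.mpr
      (Ideal.mem_map_of_mem _ (Ideal.mem_span_singleton_self w))
  rw [hw0, mul_zero, zero_add]
  have hq' : Ideal.Quotient.mk ((Ideal.span {w}).map (algebraMap P B)) (algebraMap P B q)
      = algebraMap (P ⧸ Ideal.span {w}) (B ⧸ (Ideal.span {w}).map (algebraMap P B)) (Ideal.Quotient.mk (Ideal.span {w}) q) := rfl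
  rw [hq']
  obtain ⟨v, hv⟩ := hqt
  rw [Ideal.mem_span_singleton]
  refine Dvd.dvd.mul_left ?_ _
  rw [← hv, map_mul]
  exact ⟨algebraMap (P ⧸ Ideal.span {w}) (B ⧸ (Ideal.span {w}).map (algebraMap P B)) ((v⁻¹ : (P ⧸ Ideal.span {w})ˣ) : (P ⧸ Ideal.span {w})), by
    rw [mul_assoc, ← map_mul, Units.mul_inv, map_one, mul_one]⟩

end Main

end Fermat.Agent.S18.B12.H33

end
end
-- ===== PACK-END S18/B12/H33/Core.lean

-- ===== PACK-BEGIN S18/B12/H33/CoreMain.lean
section



/-!
# S18 b2.5 (helper33): `B2CoreAbsStatement` from the assembly pieces A0, A2, A2', A3, A4, A5, A5'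
-/

set_option autoImplicit false

noncomputable section

namespace Fermat.Agent.S18.B12.H33

open Polynomial

universe u v

theorem b2CoreAbs_of_pieces
    (hA0 : RegSeqAbsStatement.{u, v}) (hA2 : LocalBasisStatement.{u, v})
    (hA2' : LocalBasisRankStatement.{u, v}) (hA3 : DiscrRedStatement.{u, v})
    (hA4 : UFDStepStatement.{u}) (hA5 : GenericDiscrStatement.{u, v})
    (hA5' : RedBasisAbsStatement.{u, v}) : B2CoreAbsStatement.{u, v} := by
  intro P _ _ _ _ w hw hΛ hΛ₀ hℚ B _ _ _ _ _ _ hsep S hS1 hS2 hNC t ht n bb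
  haveI := hΛ
  haveI hdomΛ : IsDomain (P ⧸ Ideal.span {w}) := by
    rw [Ideal.Quotient.isDomain_iff_prime]
    exact (Ideal.span_singleton_prime hw.ne_zero).mpr hw
  have hmkw : Ideal.Quotient.mk (Ideal.span {w}) w = 0 :=
    Ideal.Quotient.eq_zero_iff_mem.mpr (Ideal.mem_span_singleton_self w)
  obtain ⟨p, hp⟩ := Ideal.Quotient.mk_surjective t
  -- the closed point
  have htmax : (Ideal.span {t}).IsMaximal :=
    PrincipalIdealRing.isMaximal_of_irreducible ht.irreducible
  have h𝔪p : (Ideal.span {w, p}).IsMaximal := by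
    rw [span_pair_eq_comap, hp]
    exact Ideal.comap_isMaximal_of_surjective _ Ideal.Quotient.mk_surjective
  -- choice of the second generator `q`
  obtain ⟨q, hq𝔪, hqcase⟩ : ∃ q, Ideal.span {w, q} = Ideal.span {w, p} ∧
      (q ∈ S ∨ ∀ s ∈ S, s ∉ Ideal.span {w, p}) := by
    by_cases h : ∃ s ∈ S, s ∈ Ideal.span {w, p}
    · obtain ⟨s, hs, hs𝔪⟩ := h
      refine ⟨s, ?_, Or.inl hs⟩
      have hmax := (hS1 s hs).2.2.1
      refine hmax.eq_of_le h𝔪p.ne_top ?_
      rw [Ideal.span_le]
      intro z hz
      rcases hz with rfl | hz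
      · exact Ideal.subset_span (by simp)
      · rw [Set.mem_singleton_iff] at hz; subst hz; exact hs𝔪
    · push_neg at h
      exact ⟨p, rfl, Or.inr h⟩
  have h𝔪max : (Ideal.span {w, q}).IsMaximal := hq𝔪 ▸ h𝔪p
  haveI h𝔪prime : (Ideal.span {w, q}).IsPrime := h𝔪max.isPrime
  have hw𝔪 : w ∈ Ideal.span {w, q} := Ideal.subset_span (by simp)
  -- `mk q` is associated to `t`
  have hqt : Associated (Ideal.Quotient.mk (Ideal.span {w}) q) t := by
    rw [← Ideal.span_singleton_eq_span_singleton]
    ext b
    obtain ⟨a, rfl⟩ := Ideal.Quotient.mk_surjective b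
    rw [Ideal.mem_span_singleton, Ideal.mem_span_singleton, ← mem_span_pair_iff_mk_dvd, hq𝔪,
      mem_span_pair_iff_mk_dvd, hp]
  have hmkq_prime : Prime (Ideal.Quotient.mk (Ideal.span {w}) q) := hqt.symm.prime ht
  have hwq : ¬ w ∣ q := by
    intro h
    apply hmkq_prime.ne_zero
    exact Ideal.Quotient.eq_zero_iff_mem.mpr (Ideal.mem_span_singleton.mpr h)
  -- local basis
  haveI : Algebra.IsIntegral P B := inferInstance
  have hreg := hA0 P B q w hw hwq
  obtain ⟨n₀, x, hx⟩ := hA2 P B w q h𝔪max hreg
  obtain ⟨hn₀, hgram⟩ := hA2' P B (Ideal.span {w, q}) n₀ x hx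
  obtain ⟨hn, u, hu, hD⟩ := hA3 P B w hw (Ideal.span {w, q}) hw𝔪 n₀ x hx n bb
  subst hn
  -- `w ∤ D`
  have hwD : ¬ w ∣ intDiscr P B x := by
    obtain ⟨x', hx'⟩ := hsep
    subst hn₀
    obtain ⟨g, v, hg, hgv⟩ := hgram x'
    intro hdvd
    have h1 : w ∣ g ^ 2 * intDiscr P B x' := by
      rw [hgv]; exact Dvd.dvd.mul_left hdvd _
    rcases hw.dvd_or_dvd h1 with h2 | h2
    · exact hg (Ideal.mem_of_dvd _ (hw.dvd_of_dvd_pow h2) hw𝔪)
    · exact hx' h2
  have hD0 : intDiscr P B x ≠ 0 := fun h => hwD (h ▸ dvd_zero w)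
  have hmkD0 : Ideal.Quotient.mk (Ideal.span {w}) (intDiscr P B x) ≠ 0 := by
    intro h
    exact hwD (Ideal.mem_span_singleton.mp (Ideal.Quotient.eq_zero_iff_mem.mp h))
  have hdisc0 : Algebra.discr (P ⧸ Ideal.span {w}) bb ≠ 0 := by
    intro h
    rw [h, mul_zero] at hD
    exact hmkD0 hD
  refine ⟨hdisc0, ?_⟩
  have hmku : ¬ t ∣ Ideal.Quotient.mk (Ideal.span {w}) u := by
    intro h
    apply hu
    rw [mem_span_pair_iff_mk_dvd]
    exact hqt.dvd.trans h
  -- unramified primes through the closed point do not divide `D`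
  have hunram : ∀ π : P, Prime π → π ∈ Ideal.span {w, q} → ¬ Associated π w →
      (∀ s ∈ S, ¬ Associated π s) → ¬ π ∣ intDiscr P B x := by
    intro π hπ hπ𝔪 hπw hπS
    have hrad := hNC π hπ hπw hπS
    have hxπ : IsLocalBasis P B (Ideal.span {π}) n x :=
      IsLocalBasis.mono ((Ideal.span_singleton_le_iff_mem _).mpr hπ𝔪) hx
    have := hA5 P w hw hΛ₀ hℚ B π hπ hπw n x hxπ n x
      (fun a ha i => IsLocalBasis.dvd_coeff hx hπ hπ𝔪 a (hrad.radical ▸ ha) i)
    simpa using this
  rcases hqcase with hqS | hnoS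
  · -- Case 1: the closed point is a branch point `q ∈ S`
    obtain ⟨hqprime, hqw, -, hqPID⟩ := hS1 q hqS
    obtain ⟨a, D₁, hDeq, hD₁⟩ := hA4 P (Ideal.span {w, q}) q hqprime (intDiscr P B x) hD0 (by
      intro π hπ hπD hπ𝔪
      by_contra hne
      refine hunram π hπ hπ𝔪 ?_ ?_ hπD
      · intro hπw
        exact hwD (hπw.symm.dvd.trans hπD)
      · intro s hs hπs
        have hs𝔪 : s ∈ Ideal.span {w, q} := Ideal.mem_of_dvd _ hπs.dvd hπ𝔪
        by_cases hsq : q = s
        · subst hsq; exact hne hπs
        · exact hS2 q hqS s hs hsq hs𝔪)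
    obtain ⟨r, y, hyi, hys⟩ := hA5' P B q hqprime hqPID
    have hxq : IsLocalBasis P B (Ideal.span {q}) n x :=
      IsLocalBasis.mono ((Ideal.span_singleton_le_iff_mem _).mpr (Ideal.subset_span (by simp))) hx
    have hnd := hA5 P w hw hΛ₀ hℚ B q hqprime hqw n x hxq r y hyi
    have ha : a < n - r + 1 := by
      by_contra hcon
      push_neg at hcon
      apply hnd
      rw [hDeq]
      exact Dvd.dvd.mul_right (pow_dvd_pow q hcon) _
    refine ⟨r, fun i => Ideal.Quotient.mk _ (y i), ?_, ?_⟩
    · intro c
      obtain ⟨c, rfl⟩ := Ideal.Quotient.mk_surjective c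
      obtain ⟨a', ha'⟩ := hys c
      refine ⟨fun i => Ideal.Quotient.mk _ (a' i), ?_⟩
      refine mk_sub_sum_mem_radical w y q t hqt c a' ?_
      refine Ideal.radical_mono ?_ ha'
      rw [Ideal.span_le]
      intro z hz
      rw [Set.mem_singleton_iff] at hz; subst hz
      exact Ideal.subset_span (by simp)
    · intro hdvd
      have h1 : Ideal.Quotient.mk (Ideal.span {w}) q ^ (n - r + 1) ∣
          Ideal.Quotient.mk (Ideal.span {w}) (intDiscr P B x) := by
        rw [hD]
        exact Dvd.dvd.mul_left ((hqt.pow_pow.dvd).trans hdvd) _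
      rw [hDeq, map_mul, map_pow] at h1
      have h2 : Ideal.Quotient.mk (Ideal.span {w}) q ^ (a + 1) ∣
          Ideal.Quotient.mk (Ideal.span {w}) q ^ a * Ideal.Quotient.mk (Ideal.span {w}) D₁ :=
        (pow_dvd_pow _ (by omega)).trans h1
      rw [pow_succ, mul_dvd_mul_iff_left (pow_ne_zero _ hmkq_prime.ne_zero)] at h2
      exact hD₁ ((mem_span_pair_iff_mk_dvd w q D₁).mpr h2)
  · -- Case 2: no branch point at this closed point
    have hnoS' : ∀ s ∈ S, s ∉ Ideal.span {w, q} := hq𝔪 ▸ hnoS
    obtain ⟨a, D₁, hDeq, hD₁⟩ := hA4 P (Ideal.span {w, q}) w hw (intDiscr P B x) hD0 (by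
      intro π hπ hπD hπ𝔪
      by_contra hne
      refine hunram π hπ hπ𝔪 hne ?_ hπD
      intro s hs hπs
      exact hnoS' s hs (Ideal.mem_of_dvd _ hπs.dvd hπ𝔪))
    have ha0 : a = 0 := by
      by_contra h
      apply hwD
      rw [hDeq]
      exact Dvd.dvd.mul_right (dvd_pow_self w h) _
    subst ha0
    rw [pow_zero, one_mul] at hDeq
    obtain ⟨hli, g, hg, hsp⟩ := hx
    -- inverse of `g` modulo the maximal ideal
    obtain ⟨g', hg'⟩ : ∃ g', g * g' - 1 ∈ Ideal.span {w, q} := by
      have := h𝔪max.exists_inv hg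
      obtain ⟨g', m, hm, hgm⟩ := this
      refine ⟨g', ?_⟩
      have : g * g' - 1 = -m := by linear_combination hgm
      rw [this]; exact neg_mem hm
    refine ⟨n, fun i => Ideal.Quotient.mk _ (x i), ?_, ?_⟩
    · intro c
      obtain ⟨c, rfl⟩ := Ideal.Quotient.mk_surjective c
      have hgc := hsp c
      rw [Submodule.mem_span_range_iff_exists_fun] at hgc
      obtain ⟨cf, hcf⟩ := hgc
      refine ⟨fun i => Ideal.Quotient.mk _ (g' * cf i), ?_⟩
      refine mk_sub_sum_mem_radical w x q t hqt c (fun i => g' * cf i) ?_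
      apply Ideal.le_radical
      have e : c - ∑ i, (g' * cf i) • x i = algebraMap P B (-(g * g' - 1)) * c := by
        have : ∑ i, (g' * cf i) • x i = g' • (g • c) := by
          rw [← hcf, Finset.smul_sum]
          exact Finset.sum_congr rfl fun i _ => by rw [mul_smul]
        rw [this, Algebra.smul_def, Algebra.smul_def, map_neg, map_sub, map_mul, map_one]
        ring
      rw [e]
      refine Ideal.mul_mem_right _ _ ?_
      have hmap : Ideal.map (algebraMap P B) (Ideal.span {w, q})
          = Ideal.span {algebraMap P B w, algebraMap P B q} := by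
        rw [Ideal.map_span]; congr 1; simp [Set.image_pair]
      rw [← hmap]
      exact Ideal.mem_map_of_mem _ (neg_mem hg')
    · intro hdvd
      have hnn : n - n + 1 = 1 := by omega
      rw [hnn, pow_one] at hdvd
      have h1 : t ∣ Ideal.Quotient.mk (Ideal.span {w}) (intDiscr P B x) := by
        rw [hD]; exact Dvd.dvd.mul_left hdvd _
      apply hD₁
      rw [← hDeq, mem_span_pair_iff_mk_dvd]
      exact hqt.dvd.trans h1

end Fermat.Agent.S18.B12.H33

end
end
-- ===== PACK-END S18/B12/H33/CoreMain.lean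

-- ===== PACK-BEGIN S18/B12/H33/Regular.lean
section



/-!
# S18 b2.5 (helper33): OUTPUT O1 — `B2RegularStatement` from the pieces

`B2RegularStatement` (special fibre of the normal model is regular = `H754.RegularAlong (C w)`)
from `B2CoreAbsStatement` (heart), A0 (regular sequence), A8 (normality from discriminant bounds),
A9 (regular along a Dedekind fibre) and A1 (instantiation `P = R[X]`).
-/

set_option autoImplicit false

noncomputable section

namespace Fermat.Agent.S18.B12.H33

open Polynomial

universe u v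

section Abs

variable {P : Type u} [CommRing P] [IsDomain P] [IsIntegrallyClosed P]
  {B : Type v} [CommRing B] [IsDomain B] [IsIntegrallyClosed B] [Algebra P B]
  [Module.Finite P B] [Module.IsTorsionFree P B]

/-- `B/wB` is torsion-free over `P/(w)` (from A0). -/
theorem isTorsionFree_quotient (hA0 : RegSeqAbsStatement.{u, v}) (w : P) (hw : Prime w) :
    Module.IsTorsionFree (P ⧸ Ideal.span {w}) (B ⧸ (Ideal.span {w}).map (algebraMap P B)) := by
  haveI : IsDomain (P ⧸ Ideal.span {w}) := by
    rw [Ideal.Quotient.isDomain_iff_prime]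
    exact (Ideal.span_singleton_prime hw.ne_zero).mpr hw
  haveI : Algebra.IsIntegral P B := inferInstance
  have hJ : (Ideal.span {w}).map (algebraMap P B) = Ideal.span {algebraMap P B w} := by
    rw [Ideal.map_span, Set.image_singleton]
  refine Module.IsTorsionFree.of_smul_eq_zero fun a b hab => ?_
  obtain ⟨a, rfl⟩ := Ideal.Quotient.mk_surjective a
  obtain ⟨b, rfl⟩ := Ideal.Quotient.mk_surjective b
  by_cases ha : w ∣ a
  · left
    exact Ideal.Quotient.eq_zero_iff_mem.mpr (Ideal.mem_span_singleton.mpr ha)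
  · right
    rw [Ideal.Quotient.mk_smul_mk_quotient_map_quotient, Ideal.Quotient.eq_zero_iff_mem, hJ,
      Ideal.mem_span_singleton] at hab
    obtain ⟨c, hc⟩ := hab
    obtain ⟨b'', hb, -⟩ := hA0 P B a w hw ha b c hc
    rw [Ideal.Quotient.eq_zero_iff_mem, hJ, Ideal.mem_span_singleton]
    exact ⟨b'', hb⟩

end Abs

end Fermat.Agent.S18.B12.H33

namespace Fermat.Agent.S18.B12.H33

open Polynomial

universe u v

/-- In `P/(w)`, the image of `p` is prime if `(w, p)` is maximal and `w ∤ p`. -/
theorem prime_mk_of_isMaximal {P : Type u} [CommRing P] [IsDomain P] (w p : P) (hw : Prime w)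
    (hmax : (Ideal.span {w, p}).IsMaximal) (hwp : ¬ w ∣ p) :
    Prime (Ideal.Quotient.mk (Ideal.span {w}) p) := by
  haveI : IsDomain (P ⧸ Ideal.span {w}) := by
    rw [Ideal.Quotient.isDomain_iff_prime]
    exact (Ideal.span_singleton_prime hw.ne_zero).mpr hw
  have hne : Ideal.Quotient.mk (Ideal.span {w}) p ≠ 0 := by
    intro h
    exact hwp (Ideal.mem_span_singleton.mp (Ideal.Quotient.eq_zero_iff_mem.mp h))
  rw [← Ideal.span_singleton_prime hne]
  have hcomap : Ideal.comap (Ideal.Quotient.mk (Ideal.span {w}))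
      (Ideal.span {Ideal.Quotient.mk (Ideal.span {w}) p}) = Ideal.span {w, p} :=
    (span_pair_eq_comap w p).symm
  have hmap : Ideal.span {Ideal.Quotient.mk (Ideal.span {w}) p}
      = Ideal.map (Ideal.Quotient.mk (Ideal.span {w})) (Ideal.span {w, p}) := by
    rw [← hcomap, Ideal.map_comap_of_surjective _ Ideal.Quotient.mk_surjective]
  rw [hmap]
  rcases Ideal.map_eq_top_or_isMaximal_of_surjective (Ideal.Quotient.mk (Ideal.span {w}))
    Ideal.Quotient.mk_surjective hmax with h | h
  · exfalso
    rw [← hmap] at h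
    have : Ideal.span {w, p} = ⊤ := by
      rw [← hcomap, h, Ideal.comap_top]
    exact hmax.ne_top this
  · exact h.isPrime

theorem b2Regular_of_pieces
    (hcore : B2CoreAbsStatement.{u, v}) (hA0 : RegSeqAbsStatement.{u, v})
    (hA8 : IntClosedOfDiscrStatement.{u, v}) (hA9 : RegularAlongOfDedekindStatement.{v})
    (hA1 : PolyInstStatement.{u}) : B2RegularStatement.{u, v} := by
  intro R _ _ _ _ w hw B _ _ _ _ _ _ hdom hsep S hS hNC 𝔪 h𝔪 hw𝔪
  obtain ⟨hCw, hΛ, hΛ₀, hℚ, hc⟩ := hA1 R w hw
  refine hA9 B (algebraMap R[X] B (C w)) ?_ 𝔪 h𝔪 hw𝔪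
  have hJ : (Ideal.span {(C w : R[X])}).map (algebraMap R[X] B)
      = Ideal.span {algebraMap R[X] B (C w)} := by
    rw [Ideal.map_span, Set.image_singleton]
  rw [← hJ]
  -- instances on the special fibre
  haveI hJprime : ((Ideal.span {(C w : R[X])}).map (algebraMap R[X] B)).IsPrime := by
    rw [hJ]; exact (Ideal.span_singleton_prime hdom.ne_zero).mpr hdom
  haveI := hΛ
  haveI : IsDomain (R[X] ⧸ Ideal.span {(C w : R[X])}) := by
    rw [Ideal.Quotient.isDomain_iff_prime]
    exact (Ideal.span_singleton_prime hCw.ne_zero).mpr hCw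
  haveI tf := isTorsionFree_quotient (B := B) hA0 (C w : R[X]) hCw
  haveI : Module.Finite (R[X] ⧸ Ideal.span {(C w : R[X])})
      (B ⧸ (Ideal.span {(C w : R[X])}).map (algebraMap R[X] B)) :=
    Module.Finite.of_restrictScalars_finite R[X] _ _
  haveI : Module.Free (R[X] ⧸ Ideal.span {(C w : R[X])})
      (B ⧸ (Ideal.span {(C w : R[X])}).map (algebraMap R[X] B)) :=
    Module.free_of_finite_type_torsion_free'
  let bb := Module.finBasis (R[X] ⧸ Ideal.span {(C w : R[X])})
      (B ⧸ (Ideal.span {(C w : R[X])}).map (algebraMap R[X] B))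
  -- translate the hypotheses
  classical
  have hS1' : ∀ s ∈ S.image (fun c => (X - C c : R[X])), Prime s ∧ ¬ Associated s (C w) ∧
      (Ideal.span {(C w : R[X]), s}).IsMaximal ∧
      IsPrincipalIdealRing (R[X] ⧸ Ideal.span {s}) := by
    intro s hs
    obtain ⟨c, -, rfl⟩ := Finset.mem_image.mp hs
    obtain ⟨h1, h2, h3, h4, -⟩ := hc c
    exact ⟨h1, h2, h3, h4⟩
  have hS2' : ∀ s ∈ S.image (fun c => (X - C c : R[X])),
      ∀ s' ∈ S.image (fun c => (X - C c : R[X])), s ≠ s' →
      s' ∉ Ideal.span {(C w : R[X]), s} := by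
    intro s hs s' hs' hne hmem
    obtain ⟨c, hcS, rfl⟩ := Finset.mem_image.mp hs
    obtain ⟨c', hcS', rfl⟩ := Finset.mem_image.mp hs'
    have hcc : c ≠ c' := fun h => hne (by rw [h])
    exact (hc c).2.2.2.2 c' hmem (hS c hcS c' hcS' hcc)
  have hNC' : ∀ π : R[X], Prime π → ¬ Associated π (C w) →
      (∀ s ∈ S.image (fun c => (X - C c : R[X])), ¬ Associated π s) →
      (Ideal.span {algebraMap R[X] B π}).IsRadical := by
    intro π hπ hπw hπS
    exact hNC π hπ hπw (fun c hcS => hπS _ (Finset.mem_image_of_mem _ hcS))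
  have hcore' := hcore R[X] (C w) hCw hΛ hΛ₀ hℚ B hsep (S.image (fun c => (X - C c : R[X])))
    hS1' hS2' hNC'
  -- a prime of `Λ`
  obtain ⟨h01, h02, h03, -, -⟩ := hc 0
  have hw0 : ¬ (C w : R[X]) ∣ X - C 0 := by
    intro hdvd
    obtain ⟨r, hr⟩ := hdvd
    rcases h01.irreducible.isUnit_or_isUnit hr with h | h
    · exact hCw.not_unit h
    · exact h02 ⟨h.unit⁻¹, by rw [hr, mul_assoc, IsUnit.mul_val_inv, mul_one]⟩
  have ht₀ := prime_mk_of_isMaximal (C w : R[X]) (X - C 0) hCw h03 hw0
  have hdisc := (hcore' _ ht₀ _ bb).1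
  haveI : IsIntegrallyClosed (B ⧸ (Ideal.span {(C w : R[X])}).map (algebraMap R[X] B)) :=
    hA8 _ _ _ bb hdisc (fun t ht => (hcore' t ht _ bb).2)
  haveI : IsNoetherianRing B :=
    isNoetherian_of_tower R[X] (isNoetherian_of_isNoetherianRing_of_finite R[X] B)
  haveI : Ring.DimensionLEOne (B ⧸ (Ideal.span {(C w : R[X])}).map (algebraMap R[X] B)) :=
    Ring.DimensionLEOne.of_isIntegral (R[X] ⧸ Ideal.span {(C w : R[X])}) _
  exact { }

end Fermat.Agent.S18.B12.H33

end
end
-- ===== PACK-END S18/B12/H33/Regular.lean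

-- ===== PACK-BEGIN S18/B12/H444/GenericDiscrSpec.lean
section




/-!
# S18 / b2.5 / A5 (helper444): `GenericDiscrStatement` in the exact frozen shape

`theorem genericDiscr : GenericDiscrStatement` (frozen in `B12/Spec2.lean`, squad-lead helper33),
from `genericDiscr_abs` (`GenericDiscr.lean`) with `Λ := Localization.Away w`,
`C₀ := Localization (algebraMapSubmonoid B (powers w))` and helper274's tame discriminant bound
(`H274.tameDiscr`, on main).
-/

set_option autoImplicit false

noncomputable section

namespace Fermat.Agent.S18.B12.H444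

open Polynomial Module

universe u v

/-- A commutative ring in which all positive integers are units is a `ℚ`-algebra. -/
def ratAlgebraOfUnits (Λ : Type u) [CommRing Λ] (h : ∀ m : ℕ, m ≠ 0 → IsUnit ((m : ℕ) : Λ)) :
    Algebra ℚ Λ :=
  RingHom.toAlgebra
    (IsLocalization.lift (M := nonZeroDivisors ℤ) (S := ℚ) (g := Int.castRingHom Λ)
      (fun y => by
        have hy : (y : ℤ) ≠ 0 := nonZeroDivisors.coe_ne_zero y
        have hn : (y : ℤ).natAbs ≠ 0 := Int.natAbs_ne_zero.mpr hy
        have hu := h _ hn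
        rcases Int.natAbs_eq (y : ℤ) with h1 | h1
        · have : Int.castRingHom Λ (y : ℤ) = (((y : ℤ).natAbs : ℕ) : Λ) := by
            conv_lhs => rw [h1]
            simp
          rw [this]; exact hu
        · have : Int.castRingHom Λ (y : ℤ) = -(((y : ℤ).natAbs : ℕ) : Λ) := by
            conv_lhs => rw [h1]
            simp
          rw [this]; exact hu.neg))

theorem not_dvd_of_not_associated {P : Type u} [CommRing P] [IsDomain P] {π w : P}
    (hπ : Prime π) (hw : Prime w) (h : ¬ Associated π w) : ¬ π ∣ w := by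
  rintro ⟨c, hc⟩
  rcases hw.irreducible.isUnit_or_isUnit hc with h1 | h1
  · exact hπ.not_isUnit h1
  · exact h ⟨h1.unit, by simp [hc]⟩

/-- **A5** in the exact frozen shape of `B12/Spec2.lean`. -/
theorem genericDiscr : GenericDiscrStatement.{u, v} := by
  intro P _ _ _ _ w hw hPID hunits B _ _ _ _ _ _ π hπ hπw n x hx r y hy
  obtain ⟨hli, g, hgπ, hg⟩ := hx
  have hw0 : w ≠ 0 := hw.ne_zero
  let Λ := Localization.Away w
  let C₀ := Localization (Algebra.algebraMapSubmonoid B (Submonoid.powers w))
  letI : Algebra Λ C₀ := localizationAlgebra (Submonoid.powers w) B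
  haveI : IsScalarTower P Λ C₀ := IsScalarTower.of_algebraMap_eq'
    (by rw [RingHom.algebraMap_toAlgebra, IsLocalization.map_comp, ← IsScalarTower.algebraMap_eq])
  haveI : IsDomain Λ := IsLocalization.isDomain_localization (powers_le_nonZeroDivisors' w hw0)
  haveI : IsPrincipalIdealRing Λ := hPID
  letI : Algebra ℚ Λ := ratAlgebraOfUnits Λ (fun m hm => by
    have := hunits m hm
    rwa [map_natCast] at this)
  unfold intDiscr
  exact genericDiscr_abs B w hw0 Λ C₀ π hπ (not_dvd_of_not_associated hπ hw hπw) n x hli g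
    (fun h => hgπ (Ideal.mem_span_singleton.mpr h)) hg r y hy

end Fermat.Agent.S18.B12.H444

end
end
-- ===== PACK-END S18/B12/H444/GenericDiscrSpec.lean

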