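import Fermat.Statements.S22
import Mathlib
import Fermat.Agent.Pack.S3234.G0E5L0
import Fermat.Agent.Pack.S3234.G0E0L1
import Fermat.Agent.Pack.S3234.G0E0L2
import Fermat.Agent.Pack.S3234.G0E0L0
import Fermat.Agent.Pack.S3234.G0E5L2
import Fermat.Agent.Pack.S3234.G0E3L0
import Fermat.Agent.Pack.S3234.G0E3L2
import Fermat.Agent.Pack.S3234.G0E5L3
import Fermat.Agent.Pack.S3234.G0E3L3
import Fermat.Agent.Pack.S3234.G0E3L1
import Fermat.Agent.Pack.S3234.G0E1L3
import Fermat.Agent.Pack.S3234.G0E4L1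
import Fermat.Agent.Pack.S3234.G0E1L0
import Fermat.Agent.Pack.S3234.G0E5L1
import Fermat.Agent.Pack.S3234.G0E1L2

-- ===== PACK-BEGIN S22/H262/FG.lean
section


set_option autoImplicit false

/-!
# The period lattice is finitely generated
-/

open Complex Filter Function Metric Set
open UpperHalfPlane hiding I
open scoped Real Topology Manifold ModularForm MatrixGroups

namespace Fermat.Agent.S22.H262

open Matrix.SpecialLinearGroup CuspForm

variable {N : ℕ} [NeZero N] {n : ℕ}

/-- An element of `SL₂(ℤ)` as an element of the submonoid `posInt`. -/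
noncomputable def sl (g : SL(2, ℤ)) : posInt := ⟨mapGL ℝ g, mapGL_mem_posInt g⟩

@[simp] theorem coe_sl (g : SL(2, ℤ)) : ((sl g : posInt) : GL (Fin 2) ℝ) = mapGL ℝ g := rfl

theorem sl_mul (g h : SL(2, ℤ)) : sl (g * h) = sl g * sl h :=
  Subtype.ext (by simp)

theorem sl_one : sl 1 = 1 := Subtype.ext (by simp)

/-- The functional `f ↦ (tower (f|B) r)(i)`. -/
noncomputable def mu (N : ℕ) [NeZero N] (n : ℕ) (B : posInt) (r : ℕ) :
    Module.Dual ℂ (CuspForm (CongruenceSubgroup.Gamma0 N) ((n : ℤ) + 2)) where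
  toFun f := tower (⇑f ∣[(n : ℤ) + 2] (B : GL (Fin 2) ℝ)) r UpperHalfPlane.I
  map_add' f g := by
    rw [FunLike.coe_add, SlashAction.add_slash,
      tower_add (hasTower_slash_posInt f B.2) (hasTower_slash_posInt g B.2)]
    rfl
  map_smul' c f := by
    rw [FunLike.coe_smul, smul_slash_pos _ B.2.2, tower_smul (hasTower_slash_posInt f B.2)]
    rfl

theorem mu_apply (B : posInt) (r : ℕ)
    (f : CuspForm (CongruenceSubgroup.Gamma0 N) ((n : ℤ) + 2)) :
    mu N n B r f = tower (⇑f ∣[(n : ℤ) + 2] (B : GL (Fin 2) ℝ)) r UpperHalfPlane.I := rfl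

theorem mu_sl_mul_of_mem {γ : SL(2, ℤ)} (hγ : γ ∈ CongruenceSubgroup.Gamma0 N) (g : SL(2, ℤ))
    (r : ℕ) : mu N n (sl (γ * g)) r = mu N n (sl g) r := by
  ext f
  rw [mu_apply, mu_apply, coe_sl, coe_sl, map_mul, SlashAction.slash_mul]
  have h2 : ⇑f ∣[(n : ℤ) + 2] (mapGL ℝ γ) = ⇑f :=
    SlashInvariantFormClass.slash_action_eq f _ ⟨γ, hγ, rfl⟩
  rw [h2]

theorem finite_range_mu (r : ℕ) :
    (Set.range fun g : SL(2, ℤ) => mu N n (sl g) r).Finite := by
  let Ψ : SL(2, ℤ) ⧸ CongruenceSubgroup.Gamma0 N →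
      Module.Dual ℂ (CuspForm (CongruenceSubgroup.Gamma0 N) ((n : ℤ) + 2)) :=
    fun q => Quotient.liftOn' q (fun g => mu N n (sl g⁻¹) r) (by
      intro a b hab
      rw [QuotientGroup.leftRel_apply] at hab
      have : a⁻¹ = (a⁻¹ * b) * b⁻¹ := by group
      show mu N n (sl a⁻¹) r = mu N n (sl b⁻¹) r
      rw [this, mu_sl_mul_of_mem hab])
  refine (Set.finite_range Ψ).subset ?_
  rintro _ ⟨g, rfl⟩
  refine ⟨QuotientGroup.mk g⁻¹, ?_⟩
  show mu N n (sl g⁻¹⁻¹) r = _
  rw [inv_inv]

/-- The finite generating set of the container lattice. -/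
def muSet (N : ℕ) [NeZero N] (n : ℕ) :
    Set (Module.Dual ℂ (CuspForm (CongruenceSubgroup.Gamma0 N) ((n : ℤ) + 2))) :=
  ⋃ r ∈ Finset.range (n + 2),
    ((Set.range fun g : SL(2, ℤ) => mu N n (sl g) r) ∪
      (fun l => Complex.I • l) '' (Set.range fun g : SL(2, ℤ) => mu N n (sl g) r))

theorem muSet_finite : (muSet N n).Finite := by
  unfold muSet
  refine Set.Finite.biUnion (Finset.finite_toSet _) fun r _ => ?_
  exact (finite_range_mu r).union ((finite_range_mu r).image _)

/-- The container lattice. -/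
noncomputable def container (N : ℕ) [NeZero N] (n : ℕ) :
    Submodule ℤ (Module.Dual ℂ (CuspForm (CongruenceSubgroup.Gamma0 N) ((n : ℤ) + 2))) :=
  Submodule.span ℤ (muSet N n)

theorem container_fg : (container N n).FG := Submodule.fg_span muSet_finite

theorem mu_mem_container (g : SL(2, ℤ)) {r : ℕ} (hr : r < n + 2) :
    mu N n (sl g) r ∈ container N n := by
  apply Submodule.subset_span
  simp only [muSet, Set.mem_iUnion]
  exact ⟨r, Finset.mem_range.mpr hr, Or.inl ⟨g, rfl⟩⟩

theorem I_smul_mu_mem_container (g : SL(2, ℤ)) {r : ℕ} (hr : r < n + 2) :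
    Complex.I • mu N n (sl g) r ∈ container N n := by
  apply Submodule.subset_span
  simp only [muSet, Set.mem_iUnion]
  exact ⟨r, Finset.mem_range.mpr hr, Or.inr ⟨_, ⟨g, rfl⟩, rfl⟩⟩

/-- Gaussian integers inside `ℂ`. -/
def IsGauss (z : ℂ) : Prop := ∃ a b : ℤ, z = a + b * Complex.I

theorem IsGauss.mul {z w : ℂ} (hz : IsGauss z) (hw : IsGauss w) : IsGauss (z * w) := by
  obtain ⟨a, b, rfl⟩ := hz
  obtain ⟨c, d, rfl⟩ := hw
  refine ⟨a * c - b * d, a * d + b * c, ?_⟩
  push_cast
  linear_combination (b : ℂ) * d * Complex.I_sq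

theorem isGauss_one : IsGauss 1 := ⟨1, 0, by simp⟩

theorem IsGauss.pow {z : ℂ} (hz : IsGauss z) (m : ℕ) : IsGauss (z ^ m) := by
  induction m with
  | zero => simpa using isGauss_one
  | succ m ih => rw [pow_succ]; exact ih.mul hz

theorem isGauss_int (x : ℤ) : IsGauss x := ⟨x, 0, by simp⟩

theorem isGauss_nat (x : ℕ) : IsGauss x := ⟨x, 0, by simp⟩

theorem isGauss_sub_I_mul (x y : ℤ) : IsGauss ((x : ℂ) - Complex.I * y) :=
  ⟨x, -y, by push_cast; ring⟩

/-- `bigG n E i v` for an integer vector `v` is a Gaussian-integer combination of the tower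
values at `i`, with coefficients independent of the tower. -/
theorem bigG_I_eq (n : ℕ) {v : ℂ × ℂ} (hv : v ∈ Vint) :
    ∃ a b : ℕ → ℤ, ∀ E : ℕ → ℍ → ℂ, bigG n E UpperHalfPlane.I v =
      ∑ j ∈ Finset.range (n + 1), ((a j : ℂ) * E (j + 1) UpperHalfPlane.I +
        (b j : ℂ) * (Complex.I * E (j + 1) UpperHalfPlane.I)) := by
  obtain ⟨x, y, rfl⟩ := hv
  have key : ∀ j : ℕ, IsGauss ((n.descFactorial j : ℂ) *
      (((x : ℂ) - Complex.I * y) ^ (n - j) * (y : ℂ) ^ j)) := fun j =>
    (isGauss_nat _).mul (((isGauss_sub_I_mul x y).pow _).mul ((isGauss_int y).pow _))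
  choose a b hab using key
  refine ⟨a, b, fun E => ?_⟩
  unfold bigG
  refine Finset.sum_congr rfl fun j _ => ?_
  have := hab j
  simp only [UpperHalfPlane.coe_I] at *
  linear_combination E (j + 1) UpperHalfPlane.I * this

/-- The functional `f ↦ bigG n (tower (f|g)) i v` lies in the container lattice. -/
theorem exists_mem_container_bigG (g : SL(2, ℤ)) {v : ℂ × ℂ} (hv : v ∈ Vint) :
    ∃ l ∈ container N n, ∀ f : CuspForm (CongruenceSubgroup.Gamma0 N) ((n : ℤ) + 2),
      l f = bigG n (tower (⇑f ∣[(n : ℤ) + 2] (mapGL ℝ g))) UpperHalfPlane.I v := by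
  obtain ⟨a, b, hab⟩ := bigG_I_eq n hv
  refine ⟨∑ j ∈ Finset.range (n + 1),
    (a j • mu N n (sl g) (j + 1) + b j • (Complex.I • mu N n (sl g) (j + 1))), ?_, fun f => ?_⟩
  · refine Submodule.sum_mem _ fun j hj => ?_
    have hj' : j + 1 < n + 2 := by
      have := Finset.mem_range.mp hj
      omega
    exact Submodule.add_mem _ (Submodule.smul_mem _ _ (mu_mem_container g hj'))
      (Submodule.smul_mem _ _ (I_smul_mu_mem_container g hj'))
  · rw [hab]
    simp only [LinearMap.sum_apply, LinearMap.add_apply, LinearMap.smul_apply, mu_apply, coe_sl,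
      smul_eq_mul, zsmul_eq_mul]

theorem mapGL_apply_entry (g : SL(2, ℤ)) (i j : Fin 2) :
    (mapGL ℝ g : GL (Fin 2) ℝ) i j = ((g.1 i j : ℤ) : ℝ) := by
  simp

theorem mapGL_S_smul_I : (mapGL ℝ ModularGroup.S : GL (Fin 2) ℝ) • UpperHalfPlane.I =
    UpperHalfPlane.I := by
  apply UpperHalfPlane.ext
  rw [coe_smul_of_det_pos (mapGL_mem_posInt _).2]
  have h00 : (mapGL ℝ ModularGroup.S : GL (Fin 2) ℝ) 0 0 = 0 := by
    rw [mapGL_apply_entry, ModularGroup.coe_S]; simp
  have h01 : (mapGL ℝ ModularGroup.S : GL (Fin 2) ℝ) 0 1 = -1 := by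
    rw [mapGL_apply_entry, ModularGroup.coe_S]; simp
  have h10 : (mapGL ℝ ModularGroup.S : GL (Fin 2) ℝ) 1 0 = 1 := by
    rw [mapGL_apply_entry, ModularGroup.coe_S]; simp
  have h11 : (mapGL ℝ ModularGroup.S : GL (Fin 2) ℝ) 1 1 = 0 := by
    rw [mapGL_apply_entry, ModularGroup.coe_S]; simp
  simp only [num, denom, h00, h01, h10, h11, UpperHalfPlane.coe_I]
  push_cast
  rw [zero_mul, zero_add, one_mul, add_zero, neg_div, one_div, Complex.inv_I, neg_neg]

theorem mapGL_T_one_zero : (mapGL ℝ ModularGroup.T : GL (Fin 2) ℝ) 1 0 = 0 := by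
  rw [mapGL_apply_entry, ModularGroup.coe_T]; simp

/-- Slashing by a product in `SL₂(ℤ)`. -/
theorem slash_sl_mul (h : ℍ → ℂ) (k : ℤ) (x y : SL(2, ℤ)) :
    h ∣[k] (mapGL ℝ (x * y) : GL (Fin 2) ℝ) =
      (h ∣[k] (mapGL ℝ x : GL (Fin 2) ℝ)) ∣[k] (mapGL ℝ y : GL (Fin 2) ℝ) := by
  rw [map_mul, SlashAction.slash_mul]

theorem lamG_sl_mem_container (g : SL(2, ℤ)) :
    ∀ (g₀ : SL(2, ℤ)) (w : ℂ × ℂ), w ∈ Vint → lamG N n (sl g₀) (sl g) w ∈ container N n := by
  have hg : g ∈ Subgroup.closure ({ModularGroup.S, ModularGroup.T} : Set SL(2, ℤ)) := by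
    rw [SpecialLinearGroup.SL2Z_generators]
    exact Subgroup.mem_top g
  induction hg using Subgroup.closure_induction with
  | mem x hx =>
    intro g₀ w hw
    rcases hx with rfl | rfl
    · -- `S`
      obtain ⟨l₁, hl₁, h₁⟩ := exists_mem_container_bigG (N := N) (n := n) g₀
        (actV_mem_Vint (mapGL_mem_posInt ModularGroup.S) hw)
      obtain ⟨l₂, hl₂, h₂⟩ := exists_mem_container_bigG (N := N) (n := n)
        (g₀ * ModularGroup.S) hw
      have : lamG N n (sl g₀) (sl ModularGroup.S) w = l₁ - l₂ := by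
        ext f
        rw [lamG_apply, LinearMap.sub_apply, h₁, h₂, cocyc, coe_sl, coe_sl, mapGL_S_smul_I,
          slash_sl_mul]
      rw [this]
      exact Submodule.sub_mem _ hl₁ hl₂
    · -- `T`
      have : lamG N n (sl g₀) (sl ModularGroup.T) w = 0 := by
        ext f
        rw [lamG_apply, LinearMap.zero_apply]
        exact cocyc_upper n (hasTower_slash_posInt f (sl g₀).2) _
          (mapGL_mem_posInt ModularGroup.T).2 mapGL_T_one_zero w
      rw [this]
      exact Submodule.zero_mem _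
  | one =>
    intro g₀ w _
    have : lamG N n (sl g₀) (sl 1) w = 0 := by
      ext f
      rw [lamG_apply, LinearMap.zero_apply]
      exact cocyc_upper n (hasTower_slash_posInt f (sl g₀).2) _
        (mapGL_mem_posInt 1).2 (by simp) w
    rw [this]
    exact Submodule.zero_mem _
  | mul x y _ _ hx hy =>
    intro g₀ w hw
    have : lamG N n (sl g₀) (sl (x * y)) w =
        lamG N n (sl g₀) (sl x) (actV (mapGL ℝ y) w) + lamG N n (sl (g₀ * x)) (sl y) w := by
      ext f
      rw [LinearMap.add_apply, lamG_apply, lamG_apply, lamG_apply, coe_sl, coe_sl, coe_sl,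
        coe_sl, coe_sl, map_mul, cocyc_mul n _ _ (mapGL_mem_posInt x).2 (mapGL_mem_posInt y).2
          (hasTower_slash_posInt f (mapGL_mem_posInt g₀))
          (hasTower_slash_slash f (mapGL_mem_posInt g₀) (mapGL_mem_posInt x))
          (hasTower_slash_slash f (mapGL_mem_posInt g₀)
            (mul_mem (mapGL_mem_posInt x) (mapGL_mem_posInt y))),
        map_mul, SlashAction.slash_mul]
    rw [this]
    exact Submodule.add_mem _ (hx g₀ _ (actV_mem_Vint (mapGL_mem_posInt y) hw))
      (hy (g₀ * x) w hw)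
  | inv x _ hx =>
    intro g₀ w hw
    have : lamG N n (sl g₀) (sl x⁻¹) w =
        - lamG N n (sl (g₀ * x⁻¹)) (sl x) (actV (mapGL ℝ x⁻¹) w) := by
      ext f
      rw [LinearMap.neg_apply, lamG_apply, lamG_apply, coe_sl, coe_sl, coe_sl, coe_sl]
      have hmul := cocyc_mul n (h := ⇑f ∣[(n : ℤ) + 2] (mapGL ℝ (g₀ * x⁻¹) : GL (Fin 2) ℝ))
        (mapGL ℝ x) (mapGL ℝ x⁻¹) (mapGL_mem_posInt x).2 (mapGL_mem_posInt x⁻¹).2
        (hasTower_slash_posInt f (mapGL_mem_posInt _))
        (hasTower_slash_slash f (mapGL_mem_posInt _) (mapGL_mem_posInt x))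
        (hasTower_slash_slash f (mapGL_mem_posInt _)
            (mul_mem (mapGL_mem_posInt x) (mapGL_mem_posInt x⁻¹))) w
      have h1 : (mapGL ℝ x : GL (Fin 2) ℝ) * mapGL ℝ x⁻¹ = 1 := by
        rw [← map_mul, mul_inv_cancel, map_one]
      have h2 : (⇑f ∣[(n : ℤ) + 2] (mapGL ℝ (g₀ * x⁻¹) : GL (Fin 2) ℝ)) ∣[(n : ℤ) + 2]
          (mapGL ℝ x : GL (Fin 2) ℝ) = ⇑f ∣[(n : ℤ) + 2] (mapGL ℝ g₀ : GL (Fin 2) ℝ) := by
        rw [← slash_sl_mul, inv_mul_cancel_right]
      rw [h1, h2, cocyc_upper n (hasTower_slash_posInt f (mapGL_mem_posInt _)) 1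
        (by simp) (by simp)] at hmul
      linear_combination -hmul
    rw [this]
    exact Submodule.neg_mem _ (hx (g₀ * x⁻¹) _ (actV_mem_Vint (mapGL_mem_posInt x⁻¹) hw))

theorem lam_mem_container (A : posInt) {v : ℂ × ℂ} (hv : v ∈ Vint) :
    lam N n A v ∈ container N n := by
  obtain ⟨g, δ, hδ, h10, hA⟩ := exists_mapGL_mul_upper A.2
  have : lam N n A v = lamG N n (sl 1) (sl g) (actV δ v) := by
    ext f
    rw [lam_apply, lamG_apply, coe_sl, coe_sl, map_one, SlashAction.slash_one, hA,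
      cocyc_mul n _ _ (mapGL_mem_posInt g).2 hδ.2 (hasTower_cuspForm f)
        (hasTower_slash_posInt f (mapGL_mem_posInt g))
        (hasTower_slash_posInt f (mul_mem (mapGL_mem_posInt g) hδ)),
      cocyc_upper n (hasTower_slash_posInt f (mapGL_mem_posInt g)) δ hδ.2 h10, add_zero]
  rw [this]
  exact lamG_sl_mem_container g 1 _ (actV_mem_Vint hδ hv)

theorem periodLattice_le_container : periodLattice N n ≤ container N n := by
  apply Submodule.span_le.mpr
  rintro _ ⟨A, v, hv, rfl⟩
  exact lam_mem_container A hv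

/-- The period lattice is finitely generated. -/
theorem periodLattice_fg : (periodLattice N n).FG := by
  have : IsNoetherian ℤ (container N n) := isNoetherian_of_fg_of_noetherian _ container_fg
  exact Submodule.FG.of_le_of_isNoetherian periodLattice_le_container

end Fermat.Agent.S22.H262

end
-- ===== PACK-END S22/H262/FG.lean

-- ===== PACK-BEGIN S22/H262/Sep.lean
section



set_option autoImplicit false

/-!
# The period lattice separates points
-/

open Complex Filter Function Metric Set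
open UpperHalfPlane hiding I
open scoped Real Topology Manifold ModularForm MatrixGroups

namespace Fermat.Agent.S22.H262

open Matrix.SpecialLinearGroup CuspForm

variable {N : ℕ} [NeZero N] {n : ℕ}

/-- `x ↦ bigG n E w (a x + b, c x + d)` is a polynomial function. -/
theorem bigG_polynomial (n : ℕ) (E : ℕ → ℍ → ℂ) (w : ℍ) (a b c d : ℂ) :
    ∃ P : Polynomial ℂ, ∀ x : ℂ, P.eval x = bigG n E w (a * x + b, c * x + d) := by
  refine ⟨∑ j ∈ Finset.range (n + 1), Polynomial.C ((n.descFactorial j : ℂ) * E (j + 1) w) *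
    (Polynomial.C a * Polynomial.X + Polynomial.C b -
      Polynomial.C (w : ℂ) * (Polynomial.C c * Polynomial.X + Polynomial.C d)) ^ (n - j) *
    (Polynomial.C c * Polynomial.X + Polynomial.C d) ^ j, fun x => ?_⟩
  simp [bigG, Polynomial.eval_finset_sum]

theorem infinite_int_cast_complex : Set.Infinite (Set.range (fun x : ℤ => (x : ℂ))) :=
  Set.infinite_range_of_injective Int.cast_injective

/-- If the tower at level `r + 1` vanishes then so does the level `r`. -/
theorem IsTower.eq_zero_of_succ {h : ℍ → ℂ} {E : ℕ → ℍ → ℂ} (hE : IsTower h E) (r : ℕ)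
    (h0 : E (r + 1) = 0) : E r = 0 := by
  funext z
  have h1 := hE.hasDeriv r z
  rw [h0] at h1
  have h2 : HasDerivAt ((0 : ℍ → ℂ) ∘ ofComplex) 0 (z : ℂ) := by
    have : ((0 : ℍ → ℂ) ∘ ofComplex) = fun _ => (0 : ℂ) := rfl
    rw [this]
    exact hasDerivAt_const _ _
  exact h1.unique h2

theorem IsTower.eq_zero_of_top {h : ℍ → ℂ} {E : ℕ → ℍ → ℂ} (hE : IsTower h E) (r : ℕ)
    (h0 : E r = 0) : h = 0 := by
  induction r with
  | zero => rw [← hE.zero, h0]
  | succ r ih => exact ih (hE.eq_zero_of_succ r h0)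

/-- If the cocycle of `f` at `g ∈ SL₂(ℤ)` vanishes on integer vectors then the top of the tower
transforms like a form of weight `-n`. -/
theorem tower_top_slash (f : CuspForm (CongruenceSubgroup.Gamma0 N) ((n : ℤ) + 2))
    (g : SL(2, ℤ))
    (h : ∀ v ∈ Vint, cocyc n (⇑f) (mapGL ℝ g) v = 0) :
    (tower (⇑f) (n + 1)) ∣[-(n : ℤ)] g = tower (⇑f ∣[(n : ℤ) + 2] (mapGL ℝ g)) (n + 1) := by
  funext z
  have hg : (mapGL ℝ g : GL (Fin 2) ℝ) ∈ posInt := mapGL_mem_posInt g
  have hT := hasTower_cuspForm f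
  have hTg := hasTower_slash_posInt f hg
  -- the polynomial identity
  obtain ⟨P₁, hP₁⟩ := bigG_polynomial n (tower (⇑f)) ((mapGL ℝ g : GL (Fin 2) ℝ) • z)
    (((mapGL ℝ g : GL (Fin 2) ℝ) 0 0 : ℝ) : ℂ) (((mapGL ℝ g : GL (Fin 2) ℝ) 0 1 : ℝ) : ℂ)
    (((mapGL ℝ g : GL (Fin 2) ℝ) 1 0 : ℝ) : ℂ) (((mapGL ℝ g : GL (Fin 2) ℝ) 1 1 : ℝ) : ℂ)
  obtain ⟨P₂, hP₂⟩ := bigG_polynomial n (tower (⇑f ∣[(n : ℤ) + 2] (mapGL ℝ g))) z 1 0 0 1
  have hroot : ∀ x : ℤ, (P₁ - P₂).IsRoot (x : ℂ) := by
    intro x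
    have hv : (((x : ℂ), (1 : ℂ)) : ℂ × ℂ) ∈ Vint := ⟨x, 1, by simp⟩
    have h1 := h _ hv
    rw [cocyc_eq n _ hg.2 hT hTg _ z] at h1
    rw [Polynomial.IsRoot, Polynomial.eval_sub, hP₁, hP₂]
    simpa [actV] using h1
  have hzero : P₁ - P₂ = 0 := by
    apply Polynomial.eq_zero_of_infinite_isRoot
    refine infinite_int_cast_complex.mono ?_
    rintro _ ⟨x, rfl⟩
    exact hroot x
  have hz : P₁.eval (z : ℂ) = P₂.eval (z : ℂ) := by
    have := congrArg (Polynomial.eval (z : ℂ)) hzero
    simpa [sub_eq_zero] using this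
  rw [hP₁, hP₂] at hz
  -- evaluate both sides on the diagonal
  have hnum : (((mapGL ℝ g : GL (Fin 2) ℝ) 0 0 : ℝ) : ℂ) * (z : ℂ) +
      (((mapGL ℝ g : GL (Fin 2) ℝ) 0 1 : ℝ) : ℂ) =
      (((mapGL ℝ g : GL (Fin 2) ℝ) • z : ℍ) : ℂ) * denom (mapGL ℝ g : GL (Fin 2) ℝ) z := by
    rw [coe_smul_of_det_pos hg.2, div_mul_cancel₀ _ (denom_ne_zero _ z)]
    rfl
  have hden : (((mapGL ℝ g : GL (Fin 2) ℝ) 1 0 : ℝ) : ℂ) * (z : ℂ) +
      (((mapGL ℝ g : GL (Fin 2) ℝ) 1 1 : ℝ) : ℂ) = denom (mapGL ℝ g : GL (Fin 2) ℝ) z := rfl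
  rw [hnum, hden, bigG_diag] at hz
  have h2 : ((1 : ℂ) * (z : ℂ) + 0, (0 : ℂ) * (z : ℂ) + 1) = ((z : ℂ) * 1, (1 : ℂ)) := by simp
  rw [h2, bigG_diag] at hz
  have hfact : (n.factorial : ℂ) ≠ 0 := by exact_mod_cast n.factorial_ne_zero
  rw [ModularForm.SL_slash_apply]
  have hz' : tower (⇑f) (n + 1) ((mapGL ℝ g : GL (Fin 2) ℝ) • z) *
      denom (mapGL ℝ g : GL (Fin 2) ℝ) z ^ n =
      tower (⇑f ∣[(n : ℤ) + 2] (mapGL ℝ g)) (n + 1) z := by
    apply mul_left_cancel₀ hfact
    rw [← mul_assoc, hz]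
    simp
  rw [neg_neg, zpow_natCast]
  exact hz'

/-- The period lattice separates points. -/
theorem periodLattice_separating (f : CuspForm (CongruenceSubgroup.Gamma0 N) ((n : ℤ) + 2))
    (h : ∀ l ∈ periodLattice N n, l f = 0) : f = 0 := by
  have hc : ∀ (g : SL(2, ℤ)), ∀ v ∈ Vint, cocyc n (⇑f) (mapGL ℝ g) v = 0 := by
    intro g v hv
    have := h _ (lam_mem_periodLattice ⟨mapGL ℝ g, mapGL_mem_posInt g⟩ hv)
    rwa [lam_apply] at this
  have hT := hasTower_cuspForm f
  have hF : tower (⇑f) (n + 1) = 0 := by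
    apply eq_zero_of_weight_nonpos N (k := -(n : ℤ)) (by omega)
    · exact hT.isTower.mdiff n
    · rintro γ ⟨g, hg, rfl⟩
      have h1 := tower_top_slash f g (hc g)
      have h2 : ⇑f ∣[(n : ℤ) + 2] (mapGL ℝ g) = ⇑f :=
        SlashInvariantFormClass.slash_action_eq f _ ⟨g, hg, rfl⟩
      rw [h2] at h1
      exact h1
    · intro g
      rw [tower_top_slash f g (hc g)]
      exact (hasTower_slash_posInt f (mapGL_mem_posInt g)).isTower.isZero n
  have : (⇑f : ℍ → ℂ) = 0 := hT.isTower.eq_zero_of_top (n + 1) hF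
  exact DFunLike.coe_injective this

end Fermat.Agent.S22.H262

end
-- ===== PACK-END S22/H262/Sep.lean

-- ===== PACK-BEGIN S22.lean
section
-- Template for statement S22 (row 21; see the milestone table for weights).
-- The statement below is byte-identical to the frozen
-- statement CuspForm.FermatFrozen.S22 (Fermat/Statements/S22.lean; the theorem CuspForm.moduleFinite_heckeAlgebra);
-- the grader kernel-checks Fermat.Agent.S22.result against that frozen type.






set_option autoImplicit false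
open CuspForm

namespace Fermat.Agent.S22

theorem result (N : ℕ) [NeZero N] (k : ℤ) (S : Set ℕ) :
    Module.Finite ℤ (CuspForm.heckeAlgebra N k S) := by
  by_cases hk : k ≤ 1
  · exact H262.moduleFinite_heckeAlgebra_of_subsingleton (H262.cuspForm_eq_zero_of_le_one hk)
  · obtain ⟨n, rfl⟩ : ∃ n : ℕ, k = (n : ℤ) + 2 := ⟨(k - 2).toNat, by omega⟩
    exact H262.moduleFinite_heckeAlgebra_of_lattice (H262.periodLattice N n)
      H262.periodLattice_fg (H262.periodLattice_stable S) H262.periodLattice_separating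

end Fermat.Agent.S22

end
-- ===== PACK-END S22.lean

-- ===== PACK-BEGIN S30/H709/OccJ.lean
section


/-!
# S30-OCC, transport to the Jacobian: occurrence of `χ` in `𝒪 ⊗ J` modulo every power of `p`

`KummerSystem` is the interface expected from the Kummer layer (`M4b` for all `pⁿ`): maps
`κ n : (Γ₀(N) → ℤ) → J` (the class attached to `c mod pⁿ`), additive on integral parabolic
characters, compatible (`p • κ (n+1) = κ n`, `κ 0 = 0`), Hecke-equivariant, and injective modulo `p`
at level `1`.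

`exists_occ_tensor`: from `PeriodHecke` and a `KummerSystem`, every `χ : heckeAlgebra N 2 S →+* 𝒪`
(`𝒪` a local principal ideal domain of characteristic `0` with `p ∈ 𝔪`) occurs in `𝒪 ⊗ J` with
exact order `pⁿ⁺¹` for every `n`: exactly the hypothesis `hocc` of
`Fermat.Agent.S30.H349.nonempty_adicEigenModule_of_tower`.
-/

set_option autoImplicit false

noncomputable section

namespace Fermat.Agent.S30.H709

open CongruenceSubgroup ModularCurve ModularCurve.Period TensorProduct IsLocalRing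
open scoped MatrixGroups

/-- Integral parabolic characters of `Γ₀(N)`, as plain functions. -/
def IsParZ {N : ℕ} (c : Gamma0 N → ℤ) : Prop :=
  (∀ γ δ : Gamma0 N, c (γ * δ) = c γ + c δ) ∧
    ∀ γ : Gamma0 N, ((γ : SL(2, ℤ)) : Matrix (Fin 2) (Fin 2) ℤ).trace ^ 2 = 4 → c γ = 0

theorem IsParZ.zero {N : ℕ} : IsParZ (0 : Gamma0 N → ℤ) :=
  ⟨fun _ _ => by simp, fun _ _ => rfl⟩

theorem IsParZ.add {N : ℕ} {c c' : Gamma0 N → ℤ} (h : IsParZ c) (h' : IsParZ c') :
    IsParZ (c + c') :=
  ⟨fun γ δ => by simp only [Pi.add_apply, h.1 γ δ, h'.1 γ δ]; ring,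
    fun γ hγ => by simp only [Pi.add_apply, h.2 γ hγ, h'.2 γ hγ, add_zero]⟩

theorem IsParZ.neg {N : ℕ} {c : Gamma0 N → ℤ} (h : IsParZ c) : IsParZ (-c) :=
  ⟨fun γ δ => by simp only [Pi.neg_apply, h.1 γ δ]; ring,
    fun γ hγ => by simp only [Pi.neg_apply, h.2 γ hγ, neg_zero]⟩

theorem IsParZ.smul {N : ℕ} {c : Gamma0 N → ℤ} (h : IsParZ c) (a : ℤ) : IsParZ (a • c) :=
  ⟨fun γ δ => by simp only [Pi.smul_apply, smul_eq_mul, h.1 γ δ]; ring,
    fun γ hγ => by simp only [Pi.smul_apply, smul_eq_mul, h.2 γ hγ, mul_zero]⟩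

theorem IsParZ.sum {N : ℕ} {ι : Type*} (s : Finset ι) (f : ι → Gamma0 N → ℤ)
    (h : ∀ i ∈ s, IsParZ (f i)) : IsParZ (∑ i ∈ s, f i) := by
  classical
  induction s using Finset.induction_on with
  | empty => rw [Finset.sum_empty]; exact IsParZ.zero
  | insert a s ha ih =>
    rw [Finset.sum_insert ha]
    exact (h a (Finset.mem_insert_self a s)).add
      (ih fun i hi => h i (Finset.mem_insert_of_mem hi))

/-- The cohomological Hecke operator on functions `Γ₀(N) → ℤ` attached to `fac`. -/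
def heckeFn {N : ℕ} (fac : ℕ → Gamma0 N → Multiset (Gamma0 N)) (ℓ : ℕ) (c : Gamma0 N → ℤ) :
    Gamma0 N → ℤ :=
  fun γ => ((fac ℓ γ).map c).sum

/-- **Interface of the Kummer layer for all powers of `p`.**  `κ n c` is the class in `J[pⁿ]`
attached to the character `c mod pⁿ` (for S30: `J = JZero N`, `T ℓ` the Hecke operator). -/
structure KummerSystem (N : ℕ) (fac : ℕ → Gamma0 N → Multiset (Gamma0 N)) (S : Set ℕ) (p : ℕ)
    (J : Type*) [AddCommGroup J] (T : Nat.Primes → J →+ J) where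
  /-- the Kummer maps -/
  κ : ℕ → (Gamma0 N → ℤ) → J
  map_add : ∀ n c c', IsParZ c → IsParZ c' → κ n (c + c') = κ n c + κ n c'
  map_zero_level : ∀ c, IsParZ c → κ 0 c = 0
  compat : ∀ n c, IsParZ c → p • κ (n + 1) c = κ n c
  inj : ∀ c, IsParZ c → κ 1 c = 0 → ∀ γ, (p : ℤ) ∣ c γ
  hecke : ∀ (n : ℕ) (ℓ : Nat.Primes), ¬ (ℓ : ℕ) ∣ N → (ℓ : ℕ) ∉ S → ∀ c, IsParZ c →
    T ℓ (κ n c) = κ n (heckeFn fac ℓ c)

namespace KummerSystem

variable {N : ℕ} {fac : ℕ → Gamma0 N → Multiset (Gamma0 N)} {S : Set ℕ} {p : ℕ}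
  {J : Type*} [AddCommGroup J] {T : Nat.Primes → J →+ J} (K : KummerSystem N fac S p J T)

theorem map_zero (n : ℕ) : K.κ n 0 = 0 := by
  have h := K.map_add n 0 0 IsParZ.zero IsParZ.zero
  rw [add_zero] at h
  exact left_eq_add.mp h

theorem map_neg (n : ℕ) {c : Gamma0 N → ℤ} (hc : IsParZ c) : K.κ n (-c) = - K.κ n c := by
  have h := K.map_add n c (-c) hc hc.neg
  rw [add_neg_cancel, K.map_zero] at h
  exact (neg_eq_of_add_eq_zero_right h.symm).symm

theorem map_nsmul (n : ℕ) {c : Gamma0 N → ℤ} (hc : IsParZ c) (k : ℕ) :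
    K.κ n (k • c) = k • K.κ n c := by
  induction k with
  | zero => rw [zero_smul, zero_smul, K.map_zero]
  | succ k ih =>
    rw [succ_nsmul, succ_nsmul, K.map_add n _ _ (by simpa using hc.smul (k : ℤ)) hc, ih]

theorem map_zsmul (n : ℕ) {c : Gamma0 N → ℤ} (hc : IsParZ c) (a : ℤ) :
    K.κ n (a • c) = a • K.κ n c := by
  rcases Int.eq_nat_or_neg a with ⟨k, rfl | rfl⟩
  · rw [natCast_zsmul, natCast_zsmul, K.map_nsmul n hc]
  · rw [neg_smul, neg_smul, natCast_zsmul, natCast_zsmul,
      K.map_neg n (by simpa using hc.smul (k : ℤ)), K.map_nsmul n hc]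

theorem map_sum (n : ℕ) {ι : Type*} (s : Finset ι) (f : ι → Gamma0 N → ℤ)
    (h : ∀ i ∈ s, IsParZ (f i)) : K.κ n (∑ i ∈ s, f i) = ∑ i ∈ s, K.κ n (f i) := by
  classical
  induction s using Finset.induction_on with
  | empty => rw [Finset.sum_empty, Finset.sum_empty, K.map_zero]
  | insert a s ha ih =>
    rw [Finset.sum_insert ha, Finset.sum_insert ha,
      K.map_add n _ _ (h a (Finset.mem_insert_self a s))
        (IsParZ.sum s f fun i hi => h i (Finset.mem_insert_of_mem hi)),
      ih fun i hi => h i (Finset.mem_insert_of_mem hi)]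

theorem pow_smul (n k : ℕ) {c : Gamma0 N → ℤ} (hc : IsParZ c) :
    p ^ k • K.κ (n + k) c = K.κ n c := by
  induction k with
  | zero => rw [pow_zero, one_smul, add_zero]
  | succ k ih =>
    rw [pow_succ, mul_smul, ← add_assoc, K.compat (n + k) c hc, ih]

end KummerSystem

/-- In a local principal ideal domain every nonzero vector is a nonzero multiple of a vector
with a unit coordinate. -/
theorem exists_primitive_vector {O : Type*} [CommRing O] [IsDomain O] [IsLocalRing O]
    [IsPrincipalIdealRing O] {r : ℕ} (w : Fin r → O) (hw : w ≠ 0) :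
    ∃ (g : O) (w' : Fin r → O), g ≠ 0 ∧ (∀ j, w j = g * w' j) ∧ ∃ j, IsUnit (w' j) := by
  classical
  obtain ⟨g, hg⟩ := (IsPrincipalIdealRing.principal (Ideal.span (Set.range w))).principal
  have hmem : ∀ j, w j ∈ Ideal.span ({g} : Set O) := by
    intro j
    have : w j ∈ Ideal.span (Set.range w) := Ideal.subset_span ⟨j, rfl⟩
    rw [hg] at this
    exact this
  have hdiv : ∀ j, ∃ a, w j = g * a := fun j => by
    obtain ⟨a, ha⟩ := Ideal.mem_span_singleton'.mp (hmem j)
    exact ⟨a, by rw [← ha, mul_comm]⟩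
  choose w' hw' using hdiv
  have hg0 : g ≠ 0 := by
    rintro rfl
    apply hw
    funext j
    rw [hw' j, zero_mul]
    rfl
  have hgmem : g ∈ Ideal.span (Set.range w) := by
    rw [hg]
    exact Ideal.subset_span rfl
  obtain ⟨a, ha⟩ := Ideal.mem_span_range_iff_exists_fun.mp hgmem
  have hone : ∑ j, a j * w' j = 1 := by
    have h1 : g * ∑ j, a j * w' j = g * 1 := by
      rw [mul_one, Finset.mul_sum]
      conv_rhs => rw [← ha]
      refine Finset.sum_congr rfl fun j _ => ?_
      rw [hw' j]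
      ring
    exact mul_left_cancel₀ hg0 h1
  refine ⟨g, w', hg0, hw', ?_⟩
  by_contra hcon
  rw [not_exists] at hcon
  have hmax : ∑ j, a j * w' j ∈ maximalIdeal O :=
    Ideal.sum_mem _ fun j _ => Ideal.mul_mem_left _ _ ((mem_maximalIdeal _).mpr (hcon j))
  rw [hone] at hmax
  exact (mem_maximalIdeal _).mp hmax isUnit_one

section Nonvanishing

variable {O : Type*} [CommRing O] [IsDomain O] [CharZero O] {J : Type*} [AddCommGroup J]

/-- The `j`-th coordinate `O ⊗ ℤʳ → O`. -/
def coordTensor (O : Type*) [CommRing O] {r : ℕ} (j : Fin r) : O ⊗[ℤ] (Fin r → ℤ) →+ O :=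
  (TensorProduct.lift (LinearMap.mk₂ ℤ (fun (o : O) (a : Fin r → ℤ) => a j • o)
    (fun o o' a => by simp only [smul_add])
    (fun t o a => smul_comm (a j) t o)
    (fun o a a' => by simp only [Pi.add_apply, add_smul])
    (fun t o a => by simp only [Pi.smul_apply, smul_eq_mul, mul_smul]))).toAddMonoidHom

omit [IsDomain O] [CharZero O] in
theorem coordTensor_tmul {r : ℕ} (j : Fin r) (o : O) (a : Fin r → ℤ) :
    coordTensor O j (o ⊗ₜ[ℤ] a) = a j • o := by
  simp only [coordTensor, LinearMap.toAddMonoidHom_coe, TensorProduct.lift.tmul,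
    LinearMap.mk₂_apply]

/-- Flatness: if `φ : ℤʳ → J` has kernel inside `p ℤʳ` and `∑ wⱼ ⊗ φ(eⱼ) = 0` in `O ⊗ J`,
then `p` divides every `wⱼ`. -/
theorem dvd_of_tensor_eq_zero {r : ℕ} (φ : (Fin r → ℤ) →ₗ[ℤ] J) (m : ℤ)
    (hker : ∀ a : Fin r → ℤ, φ a = 0 → ∀ j, m ∣ a j) (w : Fin r → O)
    (hz : ∑ j, w j ⊗ₜ[ℤ] φ (Pi.single j 1) = 0) (j : Fin r) : (m : O) ∣ w j := by
  classical
  let z : O ⊗[ℤ] (Fin r → ℤ) := ∑ k, w k ⊗ₜ[ℤ] (Pi.single k (1 : ℤ))
  have hzφ : LinearMap.lTensor O φ z = 0 := by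
    rw [map_sum, ← hz]
    refine Finset.sum_congr rfl fun k _ => ?_
    rw [LinearMap.lTensor_tmul]
  have hex := Module.Flat.lTensor_exact O (LinearMap.exact_subtype_ker_map φ)
  obtain ⟨t, ht⟩ := (hex z).mp hzφ
  have hzj : coordTensor O j z = w j := by
    rw [map_sum]
    simp only [coordTensor_tmul]
    rw [Finset.sum_eq_single j]
    · rw [Pi.single_eq_same, one_smul]
    · intro k _ hk
      rw [Pi.single_eq_of_ne (Ne.symm hk), zero_smul]
    · intro h
      exact absurd (Finset.mem_univ j) h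
  have hall : ∀ t : O ⊗[ℤ] LinearMap.ker φ,
      (m : O) ∣ coordTensor O j (LinearMap.lTensor O (LinearMap.ker φ).subtype t) := by
    intro t
    induction t using TensorProduct.induction_on with
    | zero => rw [map_zero, map_zero]; exact dvd_zero _
    | tmul o a =>
      rw [LinearMap.lTensor_tmul, coordTensor_tmul]
      obtain ⟨b, hb⟩ := hker a.1 (LinearMap.mem_ker.mp a.2) j
      rw [Submodule.subtype_apply, hb, mul_smul, zsmul_eq_mul]
      exact Dvd.intro _ rfl
    | add x y hx hy => rw [map_add, map_add]; exact dvd_add hx hy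
  rw [← hzj, ← ht]
  exact hall t

end Nonvanishing

section Main

variable {N : ℕ} [NeZero N]

/-- **Occurrence of `χ` in `𝒪 ⊗ J` modulo every power of `p`**: the hypothesis `hocc` of the
`p`-adic module layer, from `PeriodHecke` and a `KummerSystem`. -/
theorem exists_occ_tensor {fac : ℕ → Gamma0 N → Multiset (Gamma0 N)}
    (hPH : PeriodHecke N fac) {S : Set ℕ} (hNS : ∀ q : ℕ, q.Prime → q ∣ N → q ∈ S)
    {O : Type*} [CommRing O] [IsDomain O] [IsLocalRing O] [IsPrincipalIdealRing O] [CharZero O]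
    (χ : CuspForm.heckeAlgebra N 2 S →+* O)
    {p : ℕ} (hpO : (p : O) ∈ maximalIdeal O)
    {J : Type*} [AddCommGroup J] {T : Nat.Primes → J →+ J}
    (K : KummerSystem N fac S p J T) (n : ℕ) :
    ∃ x : O ⊗[ℤ] J, (p : O) ^ (n + 1) • x = 0 ∧ (p : O) ^ n • x ≠ 0 ∧
      ∀ (ℓ : ℕ) (hℓ : ℓ.Prime) (hℓN : ¬ ℓ ∣ N) (hℓS : ℓ ∉ S),
        (T ⟨ℓ, hℓ⟩).toIntLinearMap.baseChange O x
          = χ (CuspForm.heckeAlgebra.T hℓ hℓN hℓS) • x := by
  classical
  obtain ⟨r, c, τ, w₀, hpar, hsat, hτ, hw₀, heig₀⟩ := exists_adic_eigen_lattice hPH hNS χ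
  obtain ⟨g, w, hg0, hgw, j₀, hj₀⟩ := exists_primitive_vector w₀ hw₀
  -- the eigen-relation for the primitive vector
  have heig : ∀ (ℓ : ℕ) (hℓ : ℓ.Prime) (hℓN : ¬ ℓ ∣ N) (hℓS : ℓ ∉ S) (k : Fin r),
      ∑ j, w j * ((τ ℓ j k : ℤ) : O) = χ (CuspForm.heckeAlgebra.T hℓ hℓN hℓS) * w k := by
    intro ℓ hℓ hℓN hℓS k
    have h := heig₀ ℓ hℓ hℓN hℓS k
    apply mul_left_cancel₀ hg0
    rw [Finset.mul_sum]
    calc ∑ j, g * (w j * ((τ ℓ j k : ℤ) : O)) = ∑ j, w₀ j * ((τ ℓ j k : ℤ) : O) := by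
          refine Finset.sum_congr rfl fun j _ => ?_
          rw [hgw j]; ring
      _ = χ (CuspForm.heckeAlgebra.T hℓ hℓN hℓS) * w₀ k := h
      _ = g * (χ (CuspForm.heckeAlgebra.T hℓ hℓN hℓS) * w k) := by rw [hgw k]; ring
  -- the characters as functions
  let cf : Fin r → Gamma0 N → ℤ := fun j γ => c j (Additive.ofMul γ)
  have hcf : ∀ j, IsParZ (cf j) := fun j =>
    ⟨fun γ δ => by simp only [cf, ofMul_mul, map_add], fun γ hγ => hpar j γ hγ⟩
  have hheckeFn : ∀ (ℓ : ℕ) (hℓ : ℓ.Prime) (hℓN : ¬ ℓ ∣ N) (hℓS : ℓ ∉ S) (j : Fin r),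
      heckeFn fac ℓ (cf j) = ∑ k, τ ℓ j k • cf k := by
    intro ℓ hℓ hℓN hℓS j
    funext γ
    rw [heckeFn, hτ ℓ hℓ hℓN hℓS j γ, Finset.sum_apply]
    rfl
  -- the eigenclass at level `m`
  let x : ℕ → O ⊗[ℤ] J := fun m => ∑ j, w j ⊗ₜ[ℤ] K.κ m (cf j)
  have hx_pow : ∀ m k : ℕ, (p : O) ^ k • x (m + k) = x m := by
    intro m k
    simp only [x]
    rw [Finset.smul_sum]
    refine Finset.sum_congr rfl fun j _ => ?_
    rw [← K.pow_smul m k (hcf j), TensorProduct.tmul_smul, ← Nat.cast_pow,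
      Nat.cast_smul_eq_nsmul]
  have hx0 : x 0 = 0 := by
    simp only [x]
    refine Finset.sum_eq_zero fun j _ => ?_
    rw [K.map_zero_level _ (hcf j), TensorProduct.tmul_zero]
  refine ⟨x (n + 1), ?_, ?_, ?_⟩
  · have := hx_pow 0 (n + 1)
    rw [zero_add] at this
    rw [this, hx0]
  · have h1 := hx_pow 1 n
    rw [add_comm 1 n] at h1
    rw [h1]
    intro hzero
    -- `x 1 = 0` forces `p ∣ w j₀`, impossible for a unit
    let φ : (Fin r → ℤ) →ₗ[ℤ] J :=
      { toFun := fun a => ∑ j, a j • K.κ 1 (cf j)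
        map_add' := fun a b => by
          simp only [Pi.add_apply, add_smul, Finset.sum_add_distrib]
        map_smul' := fun t a => by
          simp only [Pi.smul_apply, smul_eq_mul, mul_smul, Finset.smul_sum, RingHom.id_apply] }
    have hφ : ∀ a : Fin r → ℤ, φ a = K.κ 1 (∑ j, a j • cf j) := by
      intro a
      rw [K.map_sum 1 Finset.univ (fun j => a j • cf j) fun j _ => (hcf j).smul (a j)]
      show ∑ j, a j • K.κ 1 (cf j) = _
      refine Finset.sum_congr rfl fun j _ => ?_
      rw [K.map_zsmul 1 (hcf j)]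
    have hker : ∀ a : Fin r → ℤ, φ a = 0 → ∀ j, (p : ℤ) ∣ a j := by
      intro a ha
      rw [hφ] at ha
      have hdiv := K.inj _ (IsParZ.sum Finset.univ (fun j => a j • cf j)
        fun j _ => (hcf j).smul (a j)) ha
      refine hsat (p : ℤ) a fun γ => ?_
      have := hdiv γ
      simpa [Finset.sum_apply, cf] using this
    have hsingle : ∀ j, φ (Pi.single j 1) = K.κ 1 (cf j) := by
      intro j
      show ∑ k, (Pi.single j (1 : ℤ) : Fin r → ℤ) k • K.κ 1 (cf k) = _
      rw [Finset.sum_eq_single j]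
      · rw [Pi.single_eq_same, one_smul]
      · intro k _ hk
        rw [Pi.single_eq_of_ne hk, zero_smul]
      · intro h
        exact absurd (Finset.mem_univ j) h
    have hz : ∑ j, w j ⊗ₜ[ℤ] φ (Pi.single j 1) = 0 := by
      rw [← hzero]
      refine Finset.sum_congr rfl fun j _ => ?_
      rw [hsingle]
    have hdvd := dvd_of_tensor_eq_zero φ (p : ℤ) hker w hz j₀
    rw [Int.cast_natCast] at hdvd
    have hmem : w j₀ ∈ maximalIdeal O := by
      obtain ⟨b, hb⟩ := hdvd
      rw [hb]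
      exact Ideal.mul_mem_right _ _ hpO
    exact (mem_maximalIdeal _).mp hmem hj₀
  · intro ℓ hℓ hℓN hℓS
    simp only [x]
    rw [map_sum, Finset.smul_sum]
    have h1 : ∀ j, (T ⟨ℓ, hℓ⟩).toIntLinearMap.baseChange O (w j ⊗ₜ[ℤ] K.κ (n + 1) (cf j))
        = ∑ k, (w j * ((τ ℓ j k : ℤ) : O)) ⊗ₜ[ℤ] K.κ (n + 1) (cf k) := by
      intro j
      rw [LinearMap.baseChange_tmul, AddMonoidHom.coe_toIntLinearMap,
        K.hecke (n + 1) ⟨ℓ, hℓ⟩ hℓN hℓS _ (hcf j), hheckeFn ℓ hℓ hℓN hℓS j,
        K.map_sum (n + 1) Finset.univ (fun k => τ ℓ j k • cf k)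
          fun k _ => (hcf k).smul (τ ℓ j k), TensorProduct.tmul_sum]
      refine Finset.sum_congr rfl fun k _ => ?_
      rw [K.map_zsmul (n + 1) (hcf k), TensorProduct.tmul_smul, TensorProduct.smul_tmul',
        zsmul_eq_mul, mul_comm]
    rw [Finset.sum_congr rfl fun j _ => h1 j, Finset.sum_comm]
    refine Finset.sum_congr rfl fun k _ => ?_
    rw [← TensorProduct.sum_tmul, heig ℓ hℓ hℓN hℓS k, TensorProduct.smul_tmul', smul_eq_mul]

end Main

end Fermat.Agent.S30.H709

end
end
-- ===== PACK-END S30/H709/OccJ.lean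

-- ===== PACK-BEGIN S30/H709/ParEigen.lean
section




/-!
# S30-OCC, unconditional: the eigensystem `χ` occurs in the parabolic cohomology `H¹_par(Γ₀(N), O)`

* `periodHecke_facCoh` : the hypothesis `PeriodHecke` holds for the factorisation of `DefsM.lean`
  (`heckeFac`), by helper201's E2a (`H201.periodMap_heckeTLin`) and helper391's bridge
  (`M4aTop_heckeCoh_eq_sum_trf`).
* `exists_parEigen` : for every domain `O` (any characteristic) and every ring homomorphism
  `χ : heckeAlgebra N 2 S →+* O` (`S` containing the primes dividing `N`) there is a nonzero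
  parabolic character `c : Γ₀(N) → O` (`S29.IsParHom`) with `heckeCoh N ℓ c = χ (T_ℓ) • c` for all
  primes `ℓ ∉ S`.  This is the statement `(P) ParEigenStatement` of the adic module layer
  (helper330 `AdicDefs.lean`), unfolded.
* `exists_adic_eigen_lattice_coh`, `exists_occ_tensor_coh` : the lattice form and the transport to
  `O ⊗ J`, with `PeriodHecke` discharged.
-/

set_option autoImplicit false

noncomputable section

namespace Fermat.Agent.S30.H709

open CongruenceSubgroup ModularCurve ModularCurve.Period TensorProduct IsLocalRing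
open Fermat.Agent.S29
open scoped MatrixGroups

variable (N : ℕ) [NeZero N]

/-- The multiset `{γ'ᵢ}` of `DefsM.heckeFac`: `αᵢ γ = γ'ᵢ α_{π i}`. -/
def facCoh (ℓ : ℕ) (γ : Gamma0 N) : Multiset (Gamma0 N) :=
  (Finset.univ : Finset (Option (Fin ℓ))).val.map fun i => (heckeFac N ℓ γ i).2

omit [NeZero N] in
theorem sum_map_facCoh {A : Type*} [AddCommMonoid A] (ℓ : ℕ) (c : Gamma0 N → A) (γ : Gamma0 N) :
    ((facCoh N ℓ γ).map c).sum = heckeCoh N ℓ c γ := by
  rw [facCoh, Multiset.map_map]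
  rfl

omit [NeZero N] in
/-- **`PeriodHecke` holds** for the factorisation `heckeFac` of `DefsM.lean`. -/
theorem periodHecke_facCoh : PeriodHecke N (facCoh N) := by
  intro ℓ hℓ hℓN f γ
  have : Fact ℓ.Prime := ⟨hℓ⟩
  rw [sum_map_facCoh N ℓ (fun δ => periodMap N f (Additive.ofMul δ)) γ,
    M4aTop_heckeCoh_eq_sum_trf hℓN, Fermat.Agent.S29.H201.periodMap_heckeTLin hℓ hℓN f,
    Fermat.Agent.S29.H201.heckeHom_apply]

variable {N}

/-- Period classes of elements of finite order vanish. -/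
theorem perCls_eq_zero_of_pow {γ : Gamma0 N} {n : ℕ} (hn : 0 < n) (hγ : γ ^ n = 1) :
    perCls N γ = 0 := by
  have hpow : ∀ k : ℕ, perCls N (γ ^ k) = k • perCls N γ := by
    intro k
    induction k with
    | zero => rw [pow_zero, perCls_one, zero_smul]
    | succ k ih => rw [pow_succ, perCls_mul, ih, succ_nsmul]
  have h := hpow n
  rw [hγ, perCls_one] at h
  have h2 : (n : ℤ) • perCls N γ = 0 := by rw [natCast_zsmul]; exact h.symm
  rcases smul_eq_zero.mp h2 with h3 | h3
  · exact absurd h3 (by exact_mod_cast hn.ne')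
  · exact h3

/-- **(P)** The eigensystem `χ` occurs in the parabolic cohomology of `Γ₀(N)` with coefficients
in `O` (any domain). -/
theorem exists_parEigen {S : Set ℕ} (hNS : ∀ q : ℕ, q.Prime → q ∣ N → q ∈ S)
    {O : Type*} [CommRing O] [IsDomain O] (χ : CuspForm.heckeAlgebra N 2 S →+* O) :
    ∃ c : G0 N → O, IsParHom c ∧ c ≠ 0 ∧
      ∀ (ℓ : ℕ) (hℓ : ℓ.Prime) (hℓN : ¬ ℓ ∣ N) (hℓS : ℓ ∉ S) (γ : G0 N),
        heckeCoh N ℓ c γ = χ (CuspForm.heckeAlgebra.T hℓ hℓN hℓS) * c γ := by
  classical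
  have hPH := periodHecke_facCoh N
  let b := Module.finBasis ℤ (perLattice N)
  obtain ⟨w, hw0, hw⟩ := exists_eigen_coeffs (perRho hPH hNS) (perRho_injective hPH hNS) b χ
  -- the `χ`-semilinear functional on the period lattice
  let u : perLattice N →+ O :=
    { toFun := fun x => ∑ j, w j * ((b.repr x j : ℤ) : O)
      map_zero' := by simp
      map_add' := fun x y => by
        simp only [map_add, Finsupp.coe_add, Pi.add_apply, Int.cast_add, mul_add,
          Finset.sum_add_distrib] }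
  have hu : ∀ x, u x = ∑ j, w j * ((b.repr x j : ℤ) : O) := fun _ => rfl
  have hub : ∀ k, u (b k) = w k := by
    intro k
    rw [hu, Finset.sum_eq_single k]
    · rw [Module.Basis.repr_self, Finsupp.single_eq_same, Int.cast_one, mul_one]
    · intro j _ hj
      rw [Module.Basis.repr_self, Finsupp.single_eq_of_ne hj, Int.cast_zero, mul_zero]
    · intro h
      exact absurd (Finset.mem_univ k) h
  have hsemi : ∀ (t : CuspForm.heckeAlgebra N 2 S) (x : perLattice N),
      u (perRho hPH hNS t x) = χ t * u x := by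
    intro t x
    conv_lhs => rw [← b.sum_repr x]
    conv_rhs => rw [← b.sum_repr x]
    rw [map_sum, map_sum, map_sum, Finset.mul_sum]
    refine Finset.sum_congr rfl fun k _ => ?_
    rw [map_zsmul, map_zsmul, map_zsmul, hub, zsmul_eq_mul, zsmul_eq_mul, hu, hw t k]
    ring
  refine ⟨fun γ => u (perCls N γ), ⟨?_, ?_, ?_⟩, ?_, ?_⟩
  · intro γ γ'
    show u (perCls N (γ * γ')) = _
    rw [perCls_mul, map_add]
  · intro γ hγ
    have htr : ((γ : SL(2, ℤ)) : Matrix (Fin 2) (Fin 2) ℤ).trace ^ 2 = 4 := by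
      rcases hγ with h | h
      · have : ((γ : SL(2, ℤ)) : Matrix (Fin 2) (Fin 2) ℤ).trace = 2 := h
        rw [this]; norm_num
      · have : ((γ : SL(2, ℤ)) : Matrix (Fin 2) (Fin 2) ℤ).trace = -2 := h
        rw [this]; norm_num
    show u (perCls N γ) = 0
    rw [perCls_eq_zero_of_trace γ htr, map_zero]
  · intro γ n hn hγ
    show u (perCls N γ) = 0
    rw [perCls_eq_zero_of_pow hn hγ, map_zero]
  · intro hc
    apply hw0
    have hvan : ∀ x : perLattice N, u x = 0 := by
      intro x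
      induction x using perCls_induction with
      | h0 => exact map_zero u
      | hadd x y hx hy => rw [map_add, hx, hy, add_zero]
      | hneg x hx => rw [map_neg, hx, neg_zero]
      | hcls γ => exact congrFun hc γ
    funext k
    rw [← hub k, hvan]
    rfl
  · intro ℓ hℓ hℓN hℓS γ
    rw [← sum_map_facCoh N ℓ (fun γ => u (perCls N γ)) γ]
    have h1 : ((facCoh N ℓ γ).map fun δ => u (perCls N δ)).sum
        = u (((facCoh N ℓ γ).map (perCls N)).sum) := by
      rw [map_multiset_sum, Multiset.map_map]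
      rfl
    rw [h1, ← perRho_perCls hPH hNS hℓ hℓN hℓS γ, hsemi]

end Fermat.Agent.S30.H709

end
end
-- ===== PACK-END S30/H709/ParEigen.lean

-- ===== PACK-BEGIN S29/H222/ESKDiv.lean
section
/-
S29 / helper222 — piece ESK, part 2: divisors of functions (`IsDivOf`), their behaviour under
products, powers and semilinear automorphisms, and the decomposition of a principal divisor as a
difference of divisors of INTEGRAL series (from the Prelude's `PrincipalGeneratedByIntegral`).
-/


set_option autoImplicit false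
set_option linter.style.haveILetI false

noncomputable section

namespace Fermat.Agent.S29.H222

open ModularCurve AlgebraicCurve HahnSeries IsLocalRing
open Fermat.Agent.S18 (Qb IsInt toF CoreStatement)

section Generic

variable {K F : Type*} [Field K] [Field F] [Algebra K F]

/-- `D` is the divisor of the function `f`. -/
def IsDivOf (f : F) (D : Divisor K F) : Prop := ∀ v : Place K F, D v = v.ord f

theorem IsDivOf.mul {f g : F} {D E : Divisor K F} (hf0 : f ≠ 0) (hg0 : g ≠ 0)
    (hf : IsDivOf f D) (hg : IsDivOf g E) : IsDivOf (f * g) (D + E) := fun v => by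
  rw [Finsupp.add_apply, hf v, hg v, v.ord_mul hf0 hg0]

theorem esk_ord_pow (v : Place K F) (f : F) (n : ℕ) : v.ord (f ^ n) = n * v.ord f := by
  have := v.ord_zpow f (n : ℤ)
  simpa using this

theorem IsDivOf.pow {f : F} {D : Divisor K F} (hf : IsDivOf f D) (n : ℕ) :
    IsDivOf (f ^ n) ((n : ℤ) • D) := fun v => by
  rw [Finsupp.smul_apply, hf v, esk_ord_pow, smul_eq_mul]

theorem IsDivOf.smul {f : F} {D : Divisor K F} (g : SemilinearAut K F) (hf : IsDivOf f D) :
    IsDivOf (g • f) (g • D) := fun w => by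
  rw [SemilinearAut.divisor_smul_apply, hf (g⁻¹ • w)]
  have h := SemilinearAut.ord_smul g (g⁻¹ • w) f
  rw [smul_inv_smul] at h
  exact h.symm

theorem esk_ord_algebraMap (v : Place K F) {c : K} (hc : c ≠ 0) :
    v.ord (algebraMap K F c) = 0 := by
  have h1 : algebraMap K F c ∈ v.toValuationSubring := v.algebraMap_mem' c
  have h2 : algebraMap K F c⁻¹ ∈ v.toValuationSubring := v.algebraMap_mem' c⁻¹
  let u : (v.toValuationSubring)ˣ :=
    { val := ⟨algebraMap K F c, h1⟩
      inv := ⟨algebraMap K F c⁻¹, h2⟩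
      val_inv := by
        apply Subtype.ext
        show algebraMap K F c * algebraMap K F c⁻¹ = 1
        rw [← map_mul, mul_inv_cancel₀ hc, map_one]
      inv_val := by
        apply Subtype.ext
        show algebraMap K F c⁻¹ * algebraMap K F c = 1
        rw [← map_mul, inv_mul_cancel₀ hc, map_one] }
  exact v.ord_coe_unit u

/-- **Kummer criterion**: if `V₁ = c · y ^ m · V₂` and `div V₁ - div V₂ = m • E` (`m ≠ 0`), then
`E` is the divisor of `y`; in particular `E` is principal. -/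
theorem isDivOf_of_eq_const_mul_pow {m : ℕ} (hm : m ≠ 0) {V₁ V₂ y : F} {c : K} (hc : c ≠ 0)
    (hy : y ≠ 0) (hV₂ : V₂ ≠ 0) (h : V₁ = algebraMap K F c * y ^ m * V₂)
    {E : Divisor K F} (hE : ∀ v : Place K F, (m : ℤ) * E v = v.ord V₁ - v.ord V₂) :
    IsDivOf y E := fun v => by
  have hc' : algebraMap K F c ≠ 0 := by
    simpa using hc
  have h1 : v.ord V₁ = (m : ℤ) * v.ord y + v.ord V₂ := by
    rw [h, v.ord_mul (mul_ne_zero hc' (pow_ne_zero m hy)) hV₂,
      v.ord_mul hc' (pow_ne_zero m hy), esk_ord_algebraMap v hc, esk_ord_pow, zero_add]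
  have h2 : (m : ℤ) * E v = (m : ℤ) * v.ord y := by rw [hE v, h1]; ring
  exact mul_left_cancel₀ (Int.natCast_ne_zero.mpr hm) h2

end Generic

variable {A : ValuationSubring Qb} {N : ℕ}

/-- A principal divisor is the difference of the divisors of two integral series. -/
theorem exists_isInt_of_principal
    (hpgi : PrincipalGeneratedByIntegral A (residue A) N)
    {D : Divisor Qb (modularFunctionFieldBar N)}
    (hD : D ∈ Divisor.principal (K := Qb) (F := modularFunctionFieldBar N)) :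
    ∃ (U₁ U₂ : LaurentSeries A) (h₁ : IsInt A N U₁) (h₂ : IsInt A N U₂)
      (D₁ D₂ : Divisor Qb (modularFunctionFieldBar N)),
      IsDivOf (toF h₁) D₁ ∧ IsDivOf (toF h₂) D₂ ∧ D = D₁ - D₂ := by
  have hD' := hpgi hD
  clear hD
  induction hD' using AddSubgroup.closure_induction with
  | mem E hE =>
      obtain ⟨y, hy, hyk, hne, hEy⟩ := hE
      refine ⟨y, 1, ⟨hy, hyk, hne⟩, isInt_one, E, 0, fun v => hEy v, fun v => ?_, by simp⟩
      have : toF (isInt_one (A := A) (N := N)) = 1 := Subtype.ext (map_one _)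
      rw [this]
      simp
  | zero =>
      refine ⟨1, 1, isInt_one, isInt_one, 0, 0, fun v => ?_, fun v => ?_, by simp⟩ <;>
      · have : toF (isInt_one (A := A) (N := N)) = 1 := Subtype.ext (map_one _)
        rw [this]
        simp
  | add E E' _ _ hE hE' =>
      obtain ⟨U₁, U₂, h₁, h₂, D₁, D₂, hd₁, hd₂, rfl⟩ := hE
      obtain ⟨U₁', U₂', h₁', h₂', D₁', D₂', hd₁', hd₂', rfl⟩ := hE'
      refine ⟨U₁ * U₁', U₂ * U₂', isInt_mul h₁ h₁', isInt_mul h₂ h₂', D₁ + D₁', D₂ + D₂',
        ?_, ?_, by abel⟩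
      · rw [toF_mul h₁ h₁']
        exact hd₁.mul (toF_ne_zero h₁) (toF_ne_zero h₁') hd₁'
      · rw [toF_mul h₂ h₂']
        exact hd₂.mul (toF_ne_zero h₂) (toF_ne_zero h₂') hd₂'
  | neg E _ hE =>
      obtain ⟨U₁, U₂, h₁, h₂, D₁, D₂, hd₁, hd₂, rfl⟩ := hE
      exact ⟨U₂, U₁, h₂, h₁, D₂, D₁, hd₂, hd₁, by abel⟩

end Fermat.Agent.S29.H222

end
end
-- ===== PACK-END S29/H222/ESKDiv.lean

-- ===== PACK-BEGIN S29/H222/ESKInertia.lean
section
/-
S29 / helper222 — piece ESK-U: inertia at `A` acts trivially on `J₀(N)(ℚ̄)[m]`, from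
`S18.CoreStatement N A m` and the Prelude's `PrincipalGeneratedByIntegral`.

Proof: `x = [D]`, `m D = div U₁ - div U₂` (`U₁, U₂` integral).  For `τ` in the inertia group put
`V₁ = τU₁ · U₂`, `V₂ = U₁ · τU₂`; they have the same reduction, and `div V₁ - div V₂ = m (τD - D)`.
CORE gives `V₁ = c y^m V₂`, hence `τD - D = div y`.
-/


set_option autoImplicit false
set_option linter.style.haveILetI false

noncomputable section

namespace Fermat.Agent.S29.H222

open ModularCurve AlgebraicCurve HahnSeries IsLocalRing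
open Fermat.Agent.S18 (Qb IsInt toF CoreStatement)

variable {A : ValuationSubring Qb} {N : ℕ}

/-- `m`-torsion classes: `m • D` is principal. -/
theorem smul_mem_principal_of_torsion {m : ℕ}
    (D : Divisor.degZero (K := Qb) (F := modularFunctionFieldBar N))
    (hx : (m : ℤ) • (Pic0.mk D : JZero N) = 0) :
    (m : ℤ) • (D : Divisor Qb (modularFunctionFieldBar N))
      ∈ Divisor.principal (K := Qb) (F := modularFunctionFieldBar N) := by
  have hx' : ((m : ℤ) • D : Divisor.degZero (K := Qb) (F := modularFunctionFieldBar N)) ∈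
      (Divisor.principal (K := Qb) (F := modularFunctionFieldBar N)).addSubgroupOf
        (Divisor.degZero (K := Qb) (F := modularFunctionFieldBar N)) := by
    have : Pic0.mk ((m : ℤ) • D) = 0 := hx
    exact (QuotientAddGroup.eq_zero_iff _).mp this
  rw [AddSubgroup.mem_addSubgroupOf] at hx'
  simpa using hx'

/-- Two classes are equal as soon as the difference of the divisors is the divisor of a
function. -/
theorem pic0_mk_eq_of_isDivOf
    (D D' : Divisor.degZero (K := Qb) (F := modularFunctionFieldBar N))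
    {y : modularFunctionFieldBar N} (hy : y ≠ 0)
    (h : IsDivOf (K := Qb) y ((D' : Divisor Qb (modularFunctionFieldBar N))
      - (D : Divisor Qb (modularFunctionFieldBar N)))) :
    (Pic0.mk D' : JZero N) = Pic0.mk D := by
  symm
  refine QuotientAddGroup.eq.mpr ?_
  rw [AddSubgroup.mem_addSubgroupOf]
  refine ⟨y, hy, fun v => ?_⟩
  have := h v
  rw [← this]
  simp [sub_eq_neg_add]

theorem decK_eq_self_of_mem_inertia {g : A.decompositionSubgroup ℚ}
    (hg : g ∈ A.inertiaSubgroup ℚ) (x : ResidueField A) : decK g x = x := by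
  have h1 := MonoidHom.mem_ker.mp hg
  exact congrArg (fun e : RingAut (ResidueField A) => e x) h1

theorem coeffMap_decK_of_mem_inertia {g : A.decompositionSubgroup ℚ}
    (hg : g ∈ A.inertiaSubgroup ℚ) (x : LaurentSeries (ResidueField A)) :
    coeffMap (decK g) x = x := by
  ext n
  rw [coeffMap_coeff, decK_eq_self_of_mem_inertia hg]

/-- **ESK-U.** -/
theorem esk_inertia : ESKInertiaStatement := by
  intro N _ m hm A hcore hpgi τ hτ x hx
  obtain ⟨g, hg, rfl⟩ := hτ
  obtain ⟨D, rfl⟩ := Pic0.mk_surjective x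
  obtain ⟨U₁, U₂, h₁, h₂, D₁, D₂, hd₁, hd₂, hDD⟩ :=
    exists_isInt_of_principal hpgi (smul_mem_principal_of_torsion D hx)
  set G := arithmeticGalois (modularFunctionFieldFull N)
    (((A.decompositionSubgroup ℚ).subtype g : Qb ≃ₐ[ℚ] Qb)) with hG
  have hV₁ : IsInt A N (galA g U₁ * U₂) := isInt_mul (isInt_galA g h₁) h₂
  have hV₂ : IsInt A N (U₁ * galA g U₂) := isInt_mul h₁ (isInt_galA g h₂)
  have hred : coeffMap (residue A) (galA g U₁ * U₂) = coeffMap (residue A) (U₁ * galA g U₂) := by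
    rw [map_mul, map_mul, coeffMap_residue_galA, coeffMap_residue_galA,
      coeffMap_decK_of_mem_inertia hg, coeffMap_decK_of_mem_inertia hg]
  have hgd₁ : IsDivOf (toF (isInt_galA g h₁)) (G • D₁) := by
    rw [toF_galA]; exact hd₁.smul G
  have hgd₂ : IsDivOf (toF (isInt_galA g h₂)) (G • D₂) := by
    rw [toF_galA]; exact hd₂.smul G
  have hdV₁ : IsDivOf (toF hV₁) (G • D₁ + D₂) := by
    rw [toF_mul (isInt_galA g h₁) h₂]
    exact hgd₁.mul (toF_ne_zero _) (toF_ne_zero _) hd₂
  have hdV₂ : IsDivOf (toF hV₂) (D₁ + G • D₂) := by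
    rw [toF_mul h₁ (isInt_galA g h₂)]
    exact hd₁.mul (toF_ne_zero _) (toF_ne_zero _) hgd₂
  have hkey : ∀ v : Place Qb (modularFunctionFieldBar N),
      (m : ℤ) * (G • (D : Divisor Qb (modularFunctionFieldBar N)) - D) v
        = v.ord (toF hV₁) - v.ord (toF hV₂) := by
    intro v
    rw [← hdV₁ v, ← hdV₂ v]
    have e1 : ((m : ℤ) • (D : Divisor Qb (modularFunctionFieldBar N))) v = D₁ v - D₂ v := by
      rw [hDD, Finsupp.sub_apply]
    have e2 : ((m : ℤ) • (D : Divisor Qb (modularFunctionFieldBar N))) (G⁻¹ • v)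
        = D₁ (G⁻¹ • v) - D₂ (G⁻¹ • v) := by
      rw [hDD, Finsupp.sub_apply]
    rw [Finsupp.smul_apply, smul_eq_mul] at e1 e2
    simp only [Finsupp.sub_apply, Finsupp.add_apply, SemilinearAut.divisor_smul_apply]
    linear_combination e2 - e1
  have hord : ∀ v : Place Qb (modularFunctionFieldBar N),
      (m : ℤ) ∣ v.ord (toF hV₁) - v.ord (toF hV₂) := fun v => ⟨_, (hkey v).symm⟩
  obtain ⟨c, y, hc, hy, hcy⟩ := hcore _ _ hV₁ hV₂ hred hord
  have hE := isDivOf_of_eq_const_mul_pow hm hc hy (toF_ne_zero hV₂) hcy hkey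
  show (((A.decompositionSubgroup ℚ).subtype g : Qb ≃ₐ[ℚ] Qb)) • (Pic0.mk D : JZero N) = Pic0.mk D
  rw [galois_smul_pic0_def, SemilinearAut.pic0_smul_mk]
  exact pic0_mk_eq_of_isDivOf D _ hy hE

end Fermat.Agent.S29.H222

end
end
-- ===== PACK-END S29/H222/ESKInertia.lean

-- ===== PACK-BEGIN S28/H867/Integral.lean
section



set_option autoImplicit false
noncomputable section
open ModularCurve HahnSeries IntermediateField Polynomial

namespace Fermat.Agent.S28.H867

section Integral

variable (k : Type*) [Field k]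

/-- `j(q^d)` for `d ≠ 0`, with junk value at `0` (total function in `d`). -/
def jd (d : ℕ) : LaurentSeries k :=
  if h : d = 0 then 0 else @qExpand k _ d ⟨h⟩ (jqModC k)

theorem jd_eq (d : ℕ) [hd : NeZero d] : jd k d = qExpand k d (jqModC k) := by
  rw [jd, dif_neg hd.out]

theorem jd_one : jd k 1 = jqModC k := by
  rw [jd_eq, qExpand_one_apply]

theorem qExpand_jd (a b : ℕ) [NeZero a] [NeZero b] : qExpand k a (jd k b) = jd k (a * b) := by
  rw [jd_eq, jd_eq, qExpand_qExpand]

/-- If `x` and `V_a j` are integral over `k(j)`, so is `V_a x`. -/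
theorem isIntegral_qExpand (a : ℕ) [NeZero a] {x : LaurentSeries k}
    (hx : IsIntegral (jField k) x) (ha : IsIntegral (jField k) (jd k a)) :
    IsIntegral (jField k) (qExpand k a x) := by
  set 𝔸 := algebraicClosure (jField k) (LaurentSeries k) with h𝔸
  have hmem : ∀ z ∈ jField k, qExpand k a z ∈ 𝔸.restrictScalars k := by
    have hle : (jField k).map (qExpandAlgHomC k a) ≤ 𝔸.restrictScalars k := by
      have h0 : (jField k).map (qExpandAlgHomC k a) = adjoin k {qExpand k a (jqModC k)} := by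
        rw [← jpField_eq_map]; rfl
      rw [h0, adjoin_simple_le_iff]
      show qExpand k a (jqModC k) ∈ 𝔸
      rw [h𝔸, mem_algebraicClosure_iff']
      rwa [jd_eq] at ha
    intro z hz
    exact hle ⟨z, hz, rfl⟩
  let φ : jField k →+* 𝔸 :=
    { toFun := fun z => ⟨qExpand k a z, hmem z z.2⟩
      map_one' := by ext; simp
      map_mul' := fun x y => by ext; simp
      map_zero' := by ext; simp
      map_add' := fun x y => by ext; simp }
  have h1 : IsIntegral 𝔸 (qExpand k a x) :=
    hx.map_of_comp_eq φ (qExpand k a) (by ext z; rfl)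
  have : Algebra.IsIntegral (jField k) 𝔸 :=
    (algebraicClosure.isAlgebraic (jField k) (LaurentSeries k)).isIntegral
  exact isIntegral_trans (R := jField k) (A := 𝔸) _ h1

theorem isIntegral_jd_prime {p : ℕ} [NeZero p] (D : ModPolyData p) :
    IsIntegral (jField k) (jd k p) := by
  let y : jField k := ⟨jqModC k, jq_mem_jField k⟩
  refine ⟨polyOver (jField k) y D.Φ, polyOver_monic _ y D.monic, ?_⟩
  rw [← Polynomial.aeval_def, aeval_polyOver, jd_eq]
  exact modPoly_eval_jp_field k D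

theorem isIntegral_jd (d : ℕ) (hd : d ≠ 0)
    (hΦ : ∀ p : ℕ, p.Prime → p ∣ d → ∀ [NeZero p], Nonempty (ModPolyData p)) :
    IsIntegral (jField k) (jd k d) := by
  induction d using Nat.recOnMul with
  | zero => exact absurd rfl hd
  | one =>
    rw [jd_one]
    exact isIntegral_algebraMap (x := (⟨jqModC k, jq_mem_jField k⟩ : jField k))
  | prime p hp =>
    have : NeZero p := ⟨hp.ne_zero⟩
    obtain ⟨D⟩ := hΦ p hp dvd_rfl
    exact isIntegral_jd_prime k D
  | mul a b iha ihb =>
    have ha0 : a ≠ 0 := fun h => hd (by rw [h, zero_mul])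
    have hb0 : b ≠ 0 := fun h => hd (by rw [h, mul_zero])
    have : NeZero a := ⟨ha0⟩
    have : NeZero b := ⟨hb0⟩
    rw [← qExpand_jd]
    exact isIntegral_qExpand k a
      (ihb hb0 fun p hp hpb => hΦ p hp (hpb.mul_left a))
      (iha ha0 fun p hp hpa => hΦ p hp (hpa.mul_right b))

theorem divisorExpansionsC_eq_image (M : ℕ) (hM : M ≠ 0) :
    divisorExpansionsC k M = (fun d => jd k d) '' (M.divisors : Set ℕ) := by
  ext x
  constructor
  · rintro ⟨d, hd, hdM, rfl⟩
    exact ⟨d, by simpa using ⟨hdM, hM⟩, jd_eq k d⟩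
  · rintro ⟨d, hd, rfl⟩
    have hd' : d ∣ M := Nat.dvd_of_mem_divisors hd
    have hd0 : d ≠ 0 := fun h => hM (by rw [h] at hd'; exact Nat.eq_zero_of_zero_dvd hd')
    have : NeZero d := ⟨hd0⟩
    exact ⟨d, ⟨hd0⟩, hd', jd_eq k d⟩

theorem degE_ne_zero (M : ℕ) (hM : M ≠ 0)
    (hΦ : ∀ p : ℕ, p.Prime → p ∣ M → ∀ [NeZero p], Nonempty (ModPolyData p)) :
    degE k M ≠ 0 := by
  have h1 : EF k M = jField k ⊔ adjoin k (divisorExpansionsC k M) :=
    (sup_eq_right.mpr (jField_le_EF k M)).symm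
  rw [degE, h1]
  refine relfinrank_sup_adjoin_ne_zero _ ?_ ?_
  · rw [divisorExpansionsC_eq_image k M hM]
    exact (Finset.finite_toSet _).image _
  · rw [divisorExpansionsC_eq_image k M hM]
    rintro x ⟨d, hd, rfl⟩
    have hd' : d ∣ M := Nat.dvd_of_mem_divisors hd
    have hd0 : d ≠ 0 := fun h => hM (by rw [h] at hd'; exact Nat.eq_zero_of_zero_dvd hd')
    exact isIntegral_jd k d hd0 fun p hp hpd => hΦ p hp (hpd.trans hd')

end Integral

end Fermat.Agent.S28.H867

end
end
-- ===== PACK-END S28/H867/Integral.lean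

-- ===== PACK-BEGIN S28/H867/Lower.lean
section




set_option autoImplicit false
noncomputable section
open ModularCurve HahnSeries IntermediateField Polynomial

namespace Fermat.Agent.S28.H867

section Lower

variable (k : Type*) [Field k]

/-- Everything the lower-bound induction needs at level `N`. -/
structure Good (N : ℕ) : Prop where
  ne_zero : N ≠ 0
  modPoly : ∀ p : ℕ, p.Prime → p ∣ N → ∀ [NeZero p], Nonempty (ModPolyData p)
  prime : ∀ p : ℕ, p.Prime → p ∣ N → ∀ [NeZero p], PrimeLevel k p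
  indep : ∀ p : ℕ, p.Prime → p ∣ N → ∀ [NeZero p], LeafI k p
  upper : ∀ M : ℕ, M ∣ N → degE k M ≤ gFun M

variable {k}

theorem Good.of_dvd {N M : ℕ} (h : Good k N) (hMN : M ∣ N) : Good k M where
  ne_zero := fun h0 => h.ne_zero (by rw [h0] at hMN; exact Nat.eq_zero_of_zero_dvd hMN)
  modPoly := fun p hp hpM => h.modPoly p hp (hpM.trans hMN)
  prime := fun p hp hpM => h.prime p hp (hpM.trans hMN)
  indep := fun p hp hpM => h.indep p hp (hpM.trans hMN)
  upper := fun M' hM' => h.upper M' (hM'.trans hMN)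

theorem Good.degE_ne_zero {N : ℕ} (h : Good k N) : degE k N ≠ 0 :=
  H867.degE_ne_zero k N h.ne_zero h.modPoly

variable (k) in
theorem degE_one : degE k 1 = 1 := by
  rw [degE, relfinrank_eq_one_iff]
  show adjoin k (divisorExpansionsC k 1) ≤ jField k
  rw [adjoin_le_iff]
  rintro x ⟨d, hd, hd1, rfl⟩
  have : d = 1 := Nat.dvd_one.mp hd1
  subst this
  rw [qExpand_one_apply]
  exact jq_mem_jField k

variable (k) in
theorem EF_prime_eq (p : ℕ) [NeZero p] (hp : p.Prime) : EF k p = jField k ⊔ jpField k p := by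
  apply le_antisymm
  · show adjoin k (divisorExpansionsC k p) ≤ _
    rw [adjoin_le_iff]
    rintro x ⟨d, hd, hdp, rfl⟩
    rcases (Nat.dvd_prime hp).mp hdp with h1 | h1
    · subst h1
      rw [qExpand_one_apply]
      exact (le_sup_left : jField k ≤ _) (jq_mem_jField k)
    · subst h1
      exact (le_sup_right : jpField k d ≤ _) (jp_mem_jpField k d)
  · refine sup_le (jField_le_EF k p) ?_
    rw [jpField, adjoin_simple_le_iff]
    exact jqModCd_mem_full k p dvd_rfl

theorem Good.degE_prime {p : ℕ} (hp : p.Prime) (h : Good k p) : degE k p = p + 1 := by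
  have : NeZero p := ⟨hp.ne_zero⟩
  rw [degE, EF_prime_eq k p hp]
  exact (h.prime p hp dvd_rfl).deg_j

/-- the (b)-step in `Good` form -/
theorem Good.mul_le {N p : ℕ} (h : Good k N) (hp : p.Prime) (hpN : p ∣ N) :
    p * degE k (N / p) ≤ degE k N := by
  have : NeZero p := ⟨hp.ne_zero⟩
  have hN : N / p * p = N := Nat.div_mul_cancel hpN
  have := degE_mul_ge k (N / p) p (h.prime p hp hpN) (h.indep p hp hpN)
    (by rw [hN]; exact h.degE_ne_zero)
  rwa [hN] at this

theorem Good.tower {N M : ℕ} (h : Good k N) (hMN : M ∣ N) :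
    degE k M * (EF k M).relfinrank (EF k N) = degE k N := by
  have : NeZero N := ⟨h.ne_zero⟩
  have : NeZero M := ⟨(h.of_dvd hMN).ne_zero⟩
  exact relfinrank_mul_relfinrank (jField_le_EF k M) (full_degeneracyC_le k hMN)

/-- For a prime `p ∣ N` with `p ∤ N / p`: if `[E_{N/p} : k(j)] = g(N/p)`, then `[E_N : k(j)]`
is `p · g(N/p)` or `(p+1) · g(N/p) = g(N)`. -/
theorem Good.dichotomy {N p : ℕ} (h : Good k N) (hp : p.Prime) (hpN : p ∣ N)
    (hpM : ¬ p ∣ N / p) (hM : degE k (N / p) = gFun (N / p)) :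
    degE k N = gFun N ∨ degE k N * (p + 1) = p * gFun N := by
  have hN : N / p * p = N := Nat.div_mul_cancel hpN
  have hM0 : N / p ≠ 0 := fun h0 => h.ne_zero (by rw [← hN, h0, zero_mul])
  have hg : gFun N = (p + 1) * gFun (N / p) := by
    conv_lhs => rw [← hN]
    exact gFun_mul_of_not_dvd hM0 hp hpM
  have htower := h.tower (Nat.div_dvd_of_dvd hpN)
  set a := (EF k (N / p)).relfinrank (EF k N) with ha
  have hup := h.upper N dvd_rfl
  have hlow := h.mul_le hp hpN
  rw [hM] at htower hlow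
  have hgpos := gFun_pos (N / p)
  rw [← htower] at hup hlow ⊢
  rw [hg] at hup ⊢
  have ha1 : p ≤ a := by
    rw [mul_comm] at hlow
    exact Nat.le_of_mul_le_mul_left hlow hgpos
  have ha2 : a ≤ p + 1 := by
    rw [mul_comm (p + 1)] at hup
    exact Nat.le_of_mul_le_mul_left hup hgpos
  rcases Nat.lt_or_ge a (p + 1) with h1 | h1
  · right
    have : a = p := by omega
    rw [this]; ring
  · left
    have : a = p + 1 := by omega
    rw [this]; ring

theorem Good.le_degE : ∀ {N : ℕ}, Good k N → gFun N ≤ degE k N := by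
  intro N
  induction N using Nat.strong_induction_on with
  | _ N ih =>
    intro h
    rcases Nat.lt_or_ge 1 N with hN1 | hN1
    swap
    · have : N = 1 := by have := h.ne_zero; omega
      subst this
      rw [gFun_one, degE_one]
    -- `N > 1`
    by_cases hsq : ∃ r : ℕ, r.Prime ∧ r ∣ N ∧ r ∣ N / r
    · obtain ⟨r, hr, hrN, hrM⟩ := hsq
      have hN : N / r * r = N := Nat.div_mul_cancel hrN
      have hM0 : N / r ≠ 0 := fun h0 => h.ne_zero (by rw [← hN, h0, zero_mul])
      have hlt : N / r < N := Nat.div_lt_self (by omega) hr.one_lt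
      have ihM := ih (N / r) hlt (h.of_dvd (Nat.div_dvd_of_dvd hrN))
      calc gFun N = gFun (N / r * r) := by rw [hN]
        _ = r * gFun (N / r) := gFun_mul_of_dvd hM0 hr hrM
        _ ≤ r * degE k (N / r) := Nat.mul_le_mul_left _ ihM
        _ ≤ degE k N := h.mul_le hr hrN
    · simp only [not_exists, not_and] at hsq
      -- first prime
      set p := N.minFac with hp
      have hpp : p.Prime := Nat.minFac_prime (by omega)
      have hpN : p ∣ N := Nat.minFac_dvd N
      have hN : N / p * p = N := Nat.div_mul_cancel hpN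
      rcases Nat.lt_or_ge 1 (N / p) with hM1 | hM1
      swap
      · -- `N = p` is prime
        have hM0 : N / p ≠ 0 := fun h0 => h.ne_zero (by rw [← hN, h0, zero_mul])
        have : N / p = 1 := Nat.le_antisymm hM1 (Nat.one_le_iff_ne_zero.mpr hM0)
        have hNp : N = p := by rw [← hN, this, one_mul]
        have h' : Good k p := hNp ▸ h
        rw [hNp, gFun_prime hpp, h'.degE_prime hpp]
      -- second prime
      set r := (N / p).minFac with hr
      have hrp : r.Prime := Nat.minFac_prime (by omega)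
      have hrM : r ∣ N / p := Nat.minFac_dvd _
      have hrN : r ∣ N := hrM.trans (Nat.div_dvd_of_dvd hpN)
      have hpM : ¬ p ∣ N / p := hsq p hpp hpN
      have hrM' : ¬ r ∣ N / r := hsq r hrp hrN
      have hne : r ≠ p := fun he => hpM (he ▸ hrM)
      have hltp : N / p < N := Nat.div_lt_self (by omega) hpp.one_lt
      have hltr : N / r < N := Nat.div_lt_self (by omega) hrp.one_lt
      have hMp : degE k (N / p) = gFun (N / p) :=
        le_antisymm (h.upper _ (Nat.div_dvd_of_dvd hpN))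
          (ih _ hltp (h.of_dvd (Nat.div_dvd_of_dvd hpN)))
      have hMr : degE k (N / r) = gFun (N / r) :=
        le_antisymm (h.upper _ (Nat.div_dvd_of_dvd hrN))
          (ih _ hltr (h.of_dvd (Nat.div_dvd_of_dvd hrN)))
      rcases h.dichotomy hpp hpN hpM hMp with h1 | h1
      · exact h1.ge
      rcases h.dichotomy hrp hrN hrM' hMr with h2 | h2
      · exact h2.ge
      exfalso
      have hD : degE k N ≠ 0 := h.degE_ne_zero
      have hD' : 0 < degE k N := Nat.pos_of_ne_zero hD
      have key : degE k N * ((p + 1) * r) = degE k N * ((r + 1) * p) := by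
        calc degE k N * ((p + 1) * r) = (degE k N * (p + 1)) * r := by ring
          _ = p * gFun N * r := by rw [h1]
          _ = (r * gFun N) * p := by ring
          _ = (degE k N * (r + 1)) * p := by rw [h2]
          _ = degE k N * ((r + 1) * p) := by ring
      have := Nat.eq_of_mul_eq_mul_left hD' key
      apply hne
      nlinarith

theorem Good.degE_eq {N : ℕ} (h : Good k N) : degE k N = gFun N :=
  le_antisymm (h.upper N dvd_rfl) h.le_degE

end Lower

end Fermat.Agent.S28.H867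

end
end
-- ===== PACK-END S28/H867/Lower.lean

-- ===== PACK-BEGIN S18/H438/Front/Finite.lean
section



/-!
# S18 / ALG-FRONT (helper438), part 6: finiteness and constants

For `G : Alg.GoodModel Lc Ec Fc R V w x S`, inside the field `Fc`:

* `GoodModelFront.isIntegral_Rf_mem_range` : `R` is integrally closed in `Fc`
  (hypothesis `hRF` of `H138.connected_special_fibre`);
* `GoodModelFront.finiteDimensional_baseField` : `Fc` is finite over `H138.baseField R x`;
* `GoodModelFront.finiteDimensional_fractionRing` / `_inv` : `Fc` is finite over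
  `FractionRing (baseRing R z)` for `z = x`, `z = x⁻¹` (hypothesis of `Front/Chart.lean`).
-/

set_option autoImplicit false
set_option linter.style.haveILetI false
set_option linter.unusedSectionVars false

noncomputable section

namespace Fermat.Agent.S18.H438

open Alg Polynomial

/-- Finite-dimensionality from a span statement inside an ambient field. -/
theorem finiteDimensional_of_span_subfield {K F Ω : Type*} [Field K] [Field F] [Field Ω]
    [Algebra K F] (ι : F →+* Ω) (E' : Subfield Ω)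
    (hE' : ∀ c ∈ E', ∃ k : K, ι (algebraMap K F k) = c)
    (s : Finset Ω) (hs : ∀ a ∈ s, ∃ f : F, ι f = a)
    (hspan : ∀ f : F, ι f ∈ Submodule.span E' (s : Set Ω)) :
    FiniteDimensional K F := by
  classical
  choose! g hg using hs
  refine (Module.finite_def (R := K) (M := F)).2 ⟨s.image g, ?_⟩
  rw [eq_top_iff]
  rintro f -
  obtain ⟨c, -, hc⟩ := Submodule.mem_span_finset.1 (hspan f)
  have hk : ∀ a : Ω, ∃ k : K, ι (algebraMap K F k) = (c a : Ω) := fun a => hE' _ (c a).2
  choose k hk using hk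
  have hf : f = ∑ a ∈ s, k a • g a := by
    apply ι.injective
    rw [← hc, map_sum]
    refine Finset.sum_congr rfl fun a ha => ?_
    have h1 : ι (k a • g a) = (c a : Ω) * a := by
      rw [Algebra.smul_def, map_mul, hk, hg a ha]
    rw [h1]
    rfl
  rw [hf]
  refine Submodule.sum_mem _ fun a ha => Submodule.smul_mem _ _ (Submodule.subset_span ?_)
  exact Finset.mem_coe.2 (Finset.mem_image_of_mem g ha)

variable {Ω : Type*} [Field Ω] {Lc Ec Fc : Subfield Ω} {R V : Subring Ω} {w x : Ω}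
  {S : Finset Ω}

namespace GoodModelFront

variable (G : GoodModel Lc Ec Fc R V w x S)

include G

/-- a subfield of `Ω` containing `R` and `x` contains `Ec(x)` -/
theorem ratField_le_of_mem (T : Subfield Ω) (hR : ∀ r ∈ R, r ∈ T) (hx : x ∈ T) :
    ratField Ec x ≤ T := by
  unfold ratField
  rw [Subfield.closure_le]
  rintro e (he | he)
  · rcases G.R_total e he with h | h
    · exact hR _ h
    · have := T.inv_mem (hR _ h)
      rwa [inv_inv] at this
  · rw [Set.mem_singleton_iff] at he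
    rw [he]
    exact hx

/-- **`Fc` is finite over any field `K → Fc` whose image contains `R` and `x`.** -/
theorem finiteDimensional_of_mem {K : Type*} [Field K] [Algebra K Fc]
    (hR : ∀ r : Rf Fc R, ∃ k : K, algebraMap K Fc k = (r : Fc))
    (hx : ∃ k : K, algebraMap K Fc k = xf G) : FiniteDimensional K Fc := by
  obtain ⟨s, hs, hspan⟩ := G.finite
  refine finiteDimensional_of_span_subfield Fc.subtype (ratField Ec x) ?_ s
    (fun a ha => ⟨⟨a, hs ha⟩, rfl⟩) (fun f => hspan f f.2)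
  have hle : ratField Ec x ≤ ((algebraMap K Fc).fieldRange).map Fc.subtype := by
    refine ratField_le_of_mem G _ (fun r hr => ?_) ?_
    · obtain ⟨k, hk⟩ := hR ⟨⟨r, R_le_Fc G hr⟩, hr⟩
      exact ⟨algebraMap K Fc k, ⟨k, rfl⟩, by rw [hk]; rfl⟩
    · obtain ⟨k, hk⟩ := hx
      exact ⟨algebraMap K Fc k, ⟨k, rfl⟩, by rw [hk]; rfl⟩
  intro c hc
  obtain ⟨f, ⟨k, rfl⟩, hf⟩ := hle hc
  exact ⟨k, hf⟩

/-- `Fc` is finite over `H138.baseField R x`. -/
theorem finiteDimensional_baseField :
    FiniteDimensional (H138.baseField (Rf Fc R) (xf G)) Fc :=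
  finiteDimensional_of_mem G
    (fun r => ⟨⟨(r : Fc), Subfield.subset_closure (Or.inl ⟨r, rfl⟩)⟩, rfl⟩)
    ⟨⟨xf G, Subfield.subset_closure (Or.inr rfl)⟩, rfl⟩

/-- `Fc` is finite over `H138.baseField R x⁻¹`. -/
theorem finiteDimensional_baseField_inv :
    FiniteDimensional (H138.baseField (Rf Fc R) (xf G)⁻¹) Fc := by
  rw [H138.baseField_inv]
  exact finiteDimensional_baseField G

section Frac

attribute [local instance] FractionRing.liftAlgebra

/-- `Fc` is finite over `Frac (R[x])`. -/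
theorem finiteDimensional_fractionRing :
    FiniteDimensional (FractionRing (baseRing (Rf Fc R) (xf G))) Fc :=
  finiteDimensional_of_mem G
    (fun r => ⟨algebraMap (baseRing (Rf Fc R) (xf G)) _
        (algebraMap (Rf Fc R) (baseRing (Rf Fc R) (xf G)) r), by
      rw [← IsScalarTower.algebraMap_apply]; rfl⟩)
    ⟨algebraMap (baseRing (Rf Fc R) (xf G)) _ ⟨xf G, self_mem_baseRing _ _⟩, by
      rw [← IsScalarTower.algebraMap_apply]; rfl⟩

/-- `Fc` is finite over `Frac (R[x⁻¹])`. -/
theorem finiteDimensional_fractionRing_inv :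
    FiniteDimensional (FractionRing (baseRing (Rf Fc R) (xf G)⁻¹)) Fc :=
  finiteDimensional_of_mem G
    (fun r => ⟨algebraMap (baseRing (Rf Fc R) (xf G)⁻¹) _
        (algebraMap (Rf Fc R) (baseRing (Rf Fc R) (xf G)⁻¹) r), by
      rw [← IsScalarTower.algebraMap_apply]; rfl⟩)
    ⟨(algebraMap (baseRing (Rf Fc R) (xf G)⁻¹) _ ⟨(xf G)⁻¹, self_mem_baseRing _ _⟩)⁻¹, by
      rw [map_inv₀, ← IsScalarTower.algebraMap_apply]
      show ((xf G)⁻¹)⁻¹ = xf G
      rw [inv_inv]⟩

end Frac

/-- the valuation ring `R` of the field `Ec` -/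
def Re : ValuationSubring Ec :=
  { R.comap Ec.subtype with
    mem_or_inv_mem' := fun e => by
      rcases G.R_total e e.2 with h | h
      · exact Or.inl h
      · exact Or.inr h }

theorem mem_Re {e : Ec} : e ∈ Re G ↔ (e : Ω) ∈ R := Iff.rfl

/-- **`R` is integrally closed in `Fc`.** -/
theorem isIntegral_Rf_mem_range (y : Fc) (hy : IsIntegral (Rf Fc R) y) :
    y ∈ Set.range (algebraMap (Rf Fc R) Fc) := by
  obtain ⟨p, hpm, hp⟩ := hy
  -- `y` is algebraic over `Ec`, hence lies in `Ec`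
  let φ : Rf Fc R →+* Ec :=
    (Fc.subtype.comp (Rf Fc R).subtype).codRestrict Ec.toSubring (fun r => G.R_le r.2)
  have hcomp : (algebraMap Ec Ω).comp φ = Fc.subtype.comp (algebraMap (Rf Fc R) Fc) := rfl
  have hφ : Function.Injective φ := by
    intro a b hab
    apply Subtype.ext
    apply Subtype.ext
    exact congrArg (fun t : Ec => (t : Ω)) hab
  have hyΩ : Polynomial.eval₂ ((algebraMap Ec Ω).comp φ) (y : Ω) p = 0 := by
    rw [hcomp]
    have h1 := Polynomial.hom_eval₂ p (algebraMap (Rf Fc R) Fc) Fc.subtype y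
    rw [hp, map_zero] at h1
    exact h1.symm
  have halg : IsAlgebraic Ec (y : Ω) := by
    refine ⟨p.map φ, (Polynomial.map_ne_zero_iff hφ).2 hpm.ne_zero, ?_⟩
    rw [Polynomial.aeval_def, Polynomial.eval₂_map]
    exact hyΩ
  have hyE : (y : Ω) ∈ Ec := G.E_closed_in_F y y.2 halg
  -- integrality over the valuation ring `Re`
  letI : Algebra (Rf Fc R) Ec := φ.toAlgebra
  have hint : IsIntegral (Rf Fc R) (⟨(y : Ω), hyE⟩ : Ec) := by
    refine ⟨p, hpm, ?_⟩
    apply Ec.subtype_injective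
    rw [Polynomial.hom_eval₂, map_zero]
    exact hyΩ
  have hmem : (⟨(y : Ω), hyE⟩ : Ec) ∈ Re G :=
    mem_valuationSubring_of_isIntegral (Re G) (fun a => a.2) hint
  exact ⟨⟨y, hmem⟩, rfl⟩

end GoodModelFront

end Fermat.Agent.S18.H438

end
end
-- ===== PACK-END S18/H438/Front/Finite.lean

-- ===== PACK-BEGIN S18/H394/ChartInst.lean
section



/-!
# S18, Route K (helper394): instances for the charts `H138.chart R {x}`

For `R` noetherian with `R[X]` integrally closed, `F` of characteristic `0`, `x ∈ F` transcendental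
over `R` and `F` finite over `baseField R x`: the chart `B = chart R {x}` (integral closure of
`R[x]` in `F`), as a type, is a noetherian integrally closed domain with fraction field `F`.
-/

set_option autoImplicit false
set_option linter.style.haveILetI false

namespace Fermat.Agent.S18.H394

open Polynomial
open Fermat.Agent.S18.H138 (chart baseField)

section ChartInst

variable {R : Type*} [CommRing R] {F : Type*} [Field F] [Algebra R F]
variable [IsNoetherianRing R] [IsIntegrallyClosed R[X]] [CharZero F]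

theorem chart_instances {x : F} (hx : Transcendental R x)
    [FiniteDimensional (baseField R x) F] :
    IsNoetherianRing (chart R ({x} : Set F)) ∧ IsIntegrallyClosed (chart R ({x} : Set F)) ∧
      IsFractionRing (chart R ({x} : Set F)) F := by
  classical
  set A : Subalgebra R F := Algebra.adjoin R ({x} : Set F) with hA
  set K : Subfield F := baseField R x with hK
  haveI := H138.isIntegrallyClosed_adjoin_singleton (R := R) hx
  haveI := H138.isNoetherianRing_adjoin_singleton (R := R) hx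
  let φ : A →+* K :=
    { toFun := fun a => ⟨a, H138.adjoin_le_baseField x a.2⟩
      map_one' := rfl
      map_mul' := fun _ _ => rfl
      map_zero' := rfl
      map_add' := fun _ _ => rfl }
  letI : Algebra A K := φ.toAlgebra
  haveI : IsScalarTower A K F := IsScalarTower.of_algebraMap_eq (fun _ => rfl)
  have hinj : Function.Injective (algebraMap A K) := by
    intro a b hab
    have : (a : F) = b := congrArg (fun t : K => (t : F)) hab
    exact Subtype.ext this
  haveI : FaithfulSMul A K := (faithfulSMul_iff_algebraMap_injective A K).2 hinj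
  haveI : IsFractionRing A K := by
    refine IsFractionRing.of_field A K (fun z => ?_)
    obtain ⟨a, ha, b, hb, h⟩ := H138.exists_div_of_mem_baseField (R := R) x z.2
    exact ⟨⟨a, ha⟩, ⟨b, hb⟩, Subtype.ext h⟩
  haveI : CharZero K := (algebraMap K F).charZero
  have h1 : IsNoetherianRing (integralClosure A F) := integralClosure.isNoetherianRing (K := K) F
  have h2 : IsIntegrallyClosed (integralClosure A F) :=
    integralClosure.isIntegrallyClosedOfFiniteExtension K
  have h3 : IsFractionRing (integralClosure A F) F :=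
    integralClosure.isFractionRing_of_finite_extension K F
  exact ⟨h1, h2, h3⟩

end ChartInst

end Fermat.Agent.S18.H394

end
-- ===== PACK-END S18/H394/ChartInst.lean

-- ===== PACK-BEGIN S18/H438/Front/H138Charts.lean
section




/-!
# S18 / ALG-FRONT (helper438), part 9: the hypotheses of `H394.kummer_charts_of_regular`
on the chart `H138.chart R {x}` of a good model

For `G : Alg.GoodModel Lc Ec Fc R V w x S`, with `R' := Rf Fc R` (a type), `x' := xf G : Fc`,
`w' := wR G : R'` and `B := H138.chart R' {x'}`: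

* `GoodModelFront.prime_chart`            : `Prime (algebraMap R' B w')`;
* `GoodModelFront.oneModPi_chart`         : `(u - 1) / w ∈ V` ⟹ `H754.OneModPi (algebraMap R' B w') u`;
* `GoodModelFront.divisibleDivisor_chart` : `H754.DivisibleDivisor B m u` from the divisor
  hypothesis of `Alg.AlgMainStatement`.

The chart at infinity is obtained by applying these to `H425.goodModel_inv G`.
-/

set_option autoImplicit false
set_option linter.style.haveILetI false
set_option linter.unusedSectionVars false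

noncomputable section

namespace Fermat.Agent.S18.H438

open Alg Polynomial

section Equiv

variable {F : Type*} [Field F] (R : Subring F) (z : F)

/-- The identity `chartRing R z ≃ H138.chart R {z}`. -/
def chartEquiv138 : chartRing R z ≃+* H138.chart R ({z} : Set F) where
  toFun c := ⟨c.1, c.2⟩
  invFun c := ⟨c.1, c.2⟩
  left_inv _ := rfl
  right_inv _ := rfl
  map_mul' _ _ := rfl
  map_add' _ _ := rfl

theorem chartEquiv138_chartUnif {w : F} (hwR : w ∈ R) :
    chartEquiv138 R z (chartUnif (z := z) hwR) =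
      algebraMap R (H138.chart R ({z} : Set F)) ⟨w, hwR⟩ := rfl

theorem prime_chart138 {w : F} (hwR : w ∈ R) (h : Prime (chartUnif (z := z) hwR)) :
    Prime (algebraMap R (H138.chart R ({z} : Set F)) ⟨w, hwR⟩) := by
  rw [← chartEquiv138_chartUnif]
  exact (MulEquiv.prime_iff (chartEquiv138 R z).toMulEquiv).2 h

theorem oneModPi_chart138 {w : F} (hwR : w ∈ R) {u : F}
    (h : H754.OneModPi (chartUnif (z := z) hwR) u) :
    H754.OneModPi (algebraMap R (H138.chart R ({z} : Set F)) ⟨w, hwR⟩) u := by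
  obtain ⟨a, s, hs, has, hu⟩ := h
  refine ⟨chartEquiv138 R z a, chartEquiv138 R z s, ?_, ?_, hu⟩
  · rw [Ideal.mem_span_singleton] at hs ⊢
    rw [← chartEquiv138_chartUnif]
    intro h
    exact hs ((map_dvd_iff (chartEquiv138 R z)).1 h)
  · rw [Ideal.mem_span_singleton] at has ⊢
    rw [← chartEquiv138_chartUnif, ← map_sub]
    exact (map_dvd_iff (chartEquiv138 R z)).2 has

end Equiv

variable {Ω : Type*} [Field Ω] {Lc Ec Fc : Subfield Ω} {R V : Subring Ω} {w x : Ω}
  {S : Finset Ω}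

namespace GoodModelFront

variable (G : GoodModel Lc Ec Fc R V w x S)

/-- the uniformiser as an element of the ring `R` -/
def wR : Rf Fc R := ⟨wf G, wf_mem_Rf G⟩

@[simp] theorem coe_wR : ((wR G : Rf Fc R) : Fc) = wf G := rfl

section

attribute [local instance] FractionRing.liftAlgebra

include G in
/-- instances on `chartRing R x` -/
theorem chartRing_instances :
    IsFractionRing (chartRing (Rf Fc R) (xf G)) Fc ∧
      IsNoetherianRing (chartRing (Rf Fc R) (xf G)) := by
  haveI := charZero_Fc G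
  haveI := isDiscreteValuationRing_Rf G
  haveI := finiteDimensional_fractionRing G
  exact ⟨chartRing_isFractionRing _ _, chartRing_isNoetherianRing _ _ (transcendental_xf G)⟩

end

/-- **`w` is prime in the chart.** -/
theorem prime_chart :
    Prime (algebraMap (Rf Fc R) (H138.chart (Rf Fc R) ({xf G} : Set Fc)) (wR G)) :=
  prime_chart138 (Rf Fc R) (xf G) (wf_mem_Rf G)
    (prime_chartUnif (V := Vf G) (wf_mem_Rf G) (wf_ne_zero G) (Rf_le_Vf G) (xf_mem_Vf G)
      (wf_inv_not_mem_Vf G) (Vf_gen G) (qep_fin' G))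

/-- **`u ≡ 1 mod w` on the chart.** -/
theorem oneModPi_chart {u : Fc} (hu : ((u : Ω) - 1) * w⁻¹ ∈ V) :
    H754.OneModPi (algebraMap (Rf Fc R) (H138.chart (Rf Fc R) ({xf G} : Set Fc)) (wR G)) u := by
  obtain ⟨i1, i2⟩ := chartRing_instances G
  refine oneModPi_chart138 (Rf Fc R) (xf G) (wf_mem_Rf G)
    (oneModPi_of_sub_one_mem (V := Vf G) (wf_mem_Rf G) (wf_ne_zero G) (Rf_le_Vf G) (xf_mem_Vf G)
      (wf_inv_not_mem_Vf G) (Vf_gen G) (qep_fin' G) ?_)
  exact hu

include G in
/-- instances on `H138.chart R {x}` -/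
theorem chart_instances138 :
    IsNoetherianRing (H138.chart (Rf Fc R) ({xf G} : Set Fc)) ∧
      IsIntegrallyClosed (H138.chart (Rf Fc R) ({xf G} : Set Fc)) ∧
      IsFractionRing (H138.chart (Rf Fc R) ({xf G} : Set Fc)) Fc := by
  haveI := charZero_Fc G
  haveI := isDiscreteValuationRing_Rf G
  haveI := finiteDimensional_baseField G
  exact H394.chart_instances (transcendental_xf G)

/-- **`m ∣ div u` on the chart**, from the divisor hypothesis of `Alg.AlgMainStatement`. -/
theorem divisibleDivisor_chart {u : Fc} (hu : ((u : Ω) - 1) * w⁻¹ ∈ V) {m : ℕ}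
    (hdiv : ∀ O : ValuationSubring Ω, (∀ a ∈ Lc, a ∈ O) →
      ∃ t : Ω, t ≠ 0 ∧ (u : Ω) * t ^ m ∈ O ∧ ((u : Ω) * t ^ m)⁻¹ ∈ O) :
    H754.DivisibleDivisor (H138.chart (Rf Fc R) ({xf G} : Set Fc)) m u := by
  obtain ⟨i1, i2, i3⟩ := chart_instances138 G
  exact divisibleDivisor G
    (fun r hr => ⟨algebraMap (Rf Fc R) (H138.chart (Rf Fc R) ({xf G} : Set Fc)) ⟨r, hr⟩, rfl⟩)
    _ (prime_chart G) rfl (oneModPi_chart G hu) hdiv

end GoodModelFront

end Fermat.Agent.S18.H438

end
end
-- ===== PACK-END S18/H438/Front/H138Charts.lean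

-- ===== PACK-BEGIN S18/B12/H203/RedBasisAbs.lean
section






/-!
# S18 / b2.5, piece A5': reduced basis at a prime `s` with `P/(s)` a PID (`RedBasisAbsStatement`)

Adapter: `H693.exists_redBasis` applied to `B/sB` over `P/(s)`, which is finite and torsion-free
(`H203.isTorsionFree_quotient`, `H203.finite_quotient`).
-/

set_option autoImplicit false

noncomputable section

namespace Fermat.Agent.S18.B12.H203

open Fermat.Agent.S18.H203

universe u v

/-- Nilpotency in `B/sB` is membership in `rad (sB)`. -/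
theorem isNilpotent_redB_iff {P : Type*} {B : Type*} [CommRing P] [CommRing B] [Algebra P B]
    (s : P) (b : B) :
    IsNilpotent (redB (S := P) s b) ↔ b ∈ (Ideal.span {algebraMap P B s}).radical := by
  rw [← map_span_singleton_eq]
  constructor
  · rintro ⟨k, hk⟩
    rw [← map_pow, Ideal.Quotient.eq_zero_iff_mem] at hk
    exact ⟨k, hk⟩
  · rintro ⟨k, hk⟩
    refine ⟨k, ?_⟩
    rw [← map_pow, Ideal.Quotient.eq_zero_iff_mem]
    exact hk

/-- **A5' (reduced basis at a prime `s` with `P/(s)` a PID).** -/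
theorem redBasisAbs.{u₁, v₁} : RedBasisAbsStatement.{u₁, v₁} := by
  intro P _ _ _ B _ _ _ _ _ _ s hs hpid
  let _ : Algebra (FractionRing P) (FractionRing B) := FractionRing.liftAlgebra P _
  have : IsScalarTower P (FractionRing P) (FractionRing B) :=
    FractionRing.isScalarTower_liftAlgebra P (FractionRing B)
  have : IsIntegralClosure B P (FractionRing B) :=
    IsIntegralClosure.of_isIntegrallyClosed _ _ _
  have hprime : (Ideal.span {s}).IsPrime := (Ideal.span_singleton_prime hs.ne_zero).mpr hs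
  have hdom : IsDomain (P ⧸ Ideal.span {s}) := Ideal.Quotient.isDomain _
  have htf : Module.IsTorsionFree (P ⧸ Ideal.span {s})
      (B ⧸ (Ideal.span {s}).map (algebraMap P B)) :=
    isTorsionFree_quotient (B := B) (FractionRing P) (FractionRing B) hs
  have hfin : Module.Finite (P ⧸ Ideal.span {s})
      (B ⧸ (Ideal.span {s}).map (algebraMap P B)) := finite_quotient (B := B) (Ideal.span {s})
  obtain ⟨r, yb, h1, h2⟩ := Fermat.Agent.S18.B12.H693.exists_redBasis (P ⧸ Ideal.span {s})
    (B ⧸ (Ideal.span {s}).map (algebraMap P B))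
  choose y hy using fun i => Ideal.Quotient.mk_surjective (yb i)
  have hsum : ∀ a : Fin r → P,
      redB (S := P) s (∑ i, a i • y i) = ∑ i, redS s (a i) • yb i := by
    intro a
    rw [map_sum]
    refine Finset.sum_congr rfl fun i _ => ?_
    rw [redB_smul, ← hy i]
  refine ⟨r, y, ?_, ?_⟩
  · intro a ha i
    have h3 : IsNilpotent (∑ i, redS s (a i) • yb i) := by
      rw [← hsum]
      exact (isNilpotent_redB_iff s _).mpr ha
    have h4 := congrFun (h1 _ h3) i
    exact (redS_eq_zero_iff s (a i)).mp h4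
  · intro b
    obtain ⟨ab, hab⟩ := h2 (redB (S := P) s b)
    choose a ha using fun i => Ideal.Quotient.mk_surjective (ab i)
    refine ⟨a, ?_⟩
    rw [← isNilpotent_redB_iff, map_sub, hsum]
    have : (fun i => redS s (a i)) = ab := funext ha
    simp only [this] at *
    have hfun : (∑ i, redS s (a i) • yb i) = ∑ i, ab i • yb i :=
      Finset.sum_congr rfl fun i _ => by rw [← ha i]
    rw [hfun]
    exact hab

end Fermat.Agent.S18.B12.H203

end
end
-- ===== PACK-END S18/B12/H203/RedBasisAbs.lean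

-- ===== PACK-BEGIN S18/B12/H84/Stmt.lean
section





/-!
# S18 / b2.5 / A8 + A9 (helper84): the `Spec3`-typed statements

* `a9 : RegularAlongOfDedekindStatement`
* `a8_of_sfLattice : SFLatticeStatement → IntClosedOfDiscrStatement`
* `a8 : IntClosedOfDiscrStatement` (unconditional, with Theorem L = `H278.sfLattice` on main)
-/

set_option autoImplicit false

namespace Fermat.Agent.S18.B12.H84

universe u v

/-- **A9**, exact frozen shape. -/
theorem a9 : B12.RegularAlongOfDedekindStatement.{u} :=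
  fun B _ ϖ hD 𝔪 h𝔪 hϖ => regularAlongOfDedekind B ϖ hD 𝔪 h𝔪 hϖ

/-- **A8** from Theorem L, exact frozen shapes. -/
theorem a8_of_sfLattice (hSF : B12.SFLatticeStatement.{u, v}) :
    B12.IntClosedOfDiscrStatement.{u, v} :=
  fun Λ _ _ _ C _ _ _ n b hdisc hbound =>
    intClosedOfDiscr_of_sfLattice hSF Λ C n b hdisc hbound

/-- **A8**, exact frozen shape, unconditional (Theorem L from `H278.sfLattice`). -/
theorem a8 : B12.IntClosedOfDiscrStatement.{u, v} :=
  a8_of_sfLattice H278.sfLattice.{u, v}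

end Fermat.Agent.S18.B12.H84

end
-- ===== PACK-END S18/B12/H84/Stmt.lean

-- ===== PACK-BEGIN S18/H394/KummerCharts.lean
section






/-!
# S18, Route K (helper394): the Kummer endgame on the charts of the `x`-line model

Typed core of `node_alg`.  Setting (as in `H138/Connected.lean`): `R` a noetherian local domain
with `R[X]` integrally closed (e.g. a DVR), `F` a field of characteristic `0` containing `R`,
`x ∈ F` transcendental over `R`, `F` finite over `baseField R x`, `R` integrally closed in `F`;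
charts `B₀ = chart R {x}`, `B₁ = chart R {x⁻¹}`, `M = chart R {x, x⁻¹}` (integral closures of
`R[x]`, `R[x⁻¹]`, `R[x, x⁻¹]` in `F`), `w ∈ R` a non-unit, `m` invertible in `R`.

* `kummer_charts`: the hypotheses `hrc`, `hloc`, `hint`, `hfin`, `hden`, `hw1` of
  `H394.kummer_endgame` are discharged for the charts; conclusion: `u` does NOT have exact order
  `m` modulo `Frac(R)ˣ (Fˣ)^m`.
* `kummer_charts_prime`: for `m` prime, `u = r ^ a * y ^ m` with `r ∈ R`, `a ∈ ℤ`, `y ∈ F`.
* `kummer_charts_of_regular`: the same from the chartwise hypotheses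
  `Prime w`, `H754.RegularAlong w` (b2), `H754.OneModPi w u`, `H754.DivisibleDivisor B m u`
  (via `H214.local_existence`; the saturation hypothesis `hsat` is proved here).
-/

set_option autoImplicit false
set_option linter.style.haveILetI false

namespace Fermat.Agent.S18.H394

open Polynomial
open Fermat.Agent.S18.H138 (chart baseField)

section Basic

variable {R : Type*} [CommRing R] {F : Type*} [Field F] [Algebra R F]

theorem rootClosed_chart (S : Set F) {m : ℕ} (hm : 0 < m) : RootClosed m (chart R S) := by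
  intro f hf
  rw [H138.mem_chart] at hf ⊢
  exact IsIntegral.of_pow hm hf

theorem chart_inv_pair (x : F) :
    chart R ({x⁻¹, x⁻¹⁻¹} : Set F) = chart R ({x, x⁻¹} : Set F) := by
  rw [inv_inv, Set.pair_comm]

theorem subalgebra_dvd_iff (B : Subalgebra R F) (w : R) (s : B) :
    algebraMap R B w ∣ s ↔ ∃ c ∈ B, (s : F) = algebraMap R F w * c := by
  constructor
  · rintro ⟨c, hc⟩
    exact ⟨c, c.2, by rw [hc]; rfl⟩
  · rintro ⟨c, hc, h⟩
    exact ⟨⟨c, hc⟩, Subtype.ext h⟩

/-- Elementary unmixedness inside the fraction field. -/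
theorem mem_of_mul_mem_of_prime (B : Subalgebra R F) (w : R)
    (hw : Prime (algebraMap R B w)) (s : B) (hs : ¬ algebraMap R B w ∣ s) (g : F)
    (h1 : algebraMap R F w * g ∈ B) (h2 : (s : F) * g ∈ B) : g ∈ B := by
  have hw0 : algebraMap R F w ≠ 0 := by
    intro h
    apply hw.ne_zero
    exact Subtype.ext h
  have hdvd : algebraMap R B w ∣ s * ⟨_, h1⟩ := by
    refine ⟨⟨_, h2⟩, Subtype.ext ?_⟩
    change (s : F) * (algebraMap R F w * g) = algebraMap R F w * ((s : F) * g)
    ring
  rcases hw.dvd_or_dvd hdvd with h | h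
  · exact absurd h hs
  · obtain ⟨c, hc, h3⟩ := (subalgebra_dvd_iff B w _).mp h
    have : g = c := mul_left_cancel₀ hw0 h3
    rw [this]; exact hc

end Basic

section Charts

variable {R : Type*} [CommRing R] {F : Type*} [Field F] [Algebra R F]
variable [IsNoetherianRing R] [IsIntegrallyClosed R[X]] [CharZero F]

/-- Finite generation of the chart in the form used by `kummer_endgame`. -/
theorem exists_finset_gens {x : F} (hx : Transcendental R x)
    [FiniteDimensional (baseField R x) F] :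
    ∃ s : Finset F, ∀ b ∈ chart R ({x} : Set F), ∃ P : F → R[X],
      b = ∑ β ∈ s, aeval x (P β) * β := by
  classical
  obtain ⟨n, bs, -, hgen⟩ := H138.exists_finite_gens (R := R) hx
  refine ⟨Finset.univ.image bs, fun b hb => ?_⟩
  have key : ∀ z ∈ Submodule.span R {z : F | ∃ (j : ℕ) (i : Fin n), z = x ^ j * bs i},
      ∃ P : F → R[X], z = ∑ β ∈ Finset.univ.image bs, aeval x (P β) * β := by
    intro z hz
    induction hz using Submodule.span_induction with
    | mem z hz =>
      obtain ⟨j, i, rfl⟩ := hz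
      refine ⟨fun β => if β = bs i then X ^ j else 0, ?_⟩
      rw [Finset.sum_eq_single (bs i)]
      · simp
      · intro β _ hβ
        simp [hβ]
      · intro h
        exact absurd (Finset.mem_image_of_mem bs (Finset.mem_univ i)) h
    | zero => exact ⟨fun _ => 0, by simp⟩
    | add y z _ _ hy hz =>
      obtain ⟨P, hP⟩ := hy
      obtain ⟨Q, hQ⟩ := hz
      refine ⟨fun β => P β + Q β, ?_⟩
      rw [hP, hQ, ← Finset.sum_add_distrib]
      refine Finset.sum_congr rfl fun β _ => ?_
      rw [map_add, add_mul]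
    | smul r z _ hz =>
      obtain ⟨P, hP⟩ := hz
      refine ⟨fun β => C r * P β, ?_⟩
      rw [hP, Finset.smul_sum]
      refine Finset.sum_congr rfl fun β _ => ?_
      rw [map_mul, aeval_C, Algebra.smul_def, mul_assoc]
  exact key b (hgen b hb)

/-- Every element of `F` has a denominator in the chart. -/
theorem exists_den {x : F} (hx : Transcendental R x) [FiniteDimensional (baseField R x) F]
    (z : F) : ∃ d ∈ chart R ({x} : Set F), d ≠ 0 ∧ d * z ∈ chart R ({x} : Set F) := by
  obtain ⟨-, -, hfr⟩ := chart_instances (R := R) hx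
  obtain ⟨a, b, hb, hab⟩ := IsFractionRing.div_surjective (A := chart R ({x} : Set F)) z
  have hb0 : (b : F) ≠ 0 := by
    intro h
    exact nonZeroDivisors.ne_zero hb (Subtype.ext h)
  refine ⟨b, b.2, hb0, ?_⟩
  have : (b : F) * z = a := by
    rw [← hab]
    change (b : F) * ((a : F) / (b : F)) = a
    field_simp
  rw [this]
  exact a.2

/-- `C w ∣ Q` if `Q(x) ∈ w B₀`. -/
theorem dvd_coeff_of_aeval_eq_mul {x : F} (hx : Transcendental R x)
    (hinjR : Function.Injective (algebraMap R F)) (w : R) (hw0 : w ≠ 0) (Q : R[X]) {t : F}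
    (ht : t ∈ chart R ({x} : Set F)) (h : aeval x Q = algebraMap R F w * t) (n : ℕ) :
    w ∣ Q.coeff n := by
  have hwF : algebraMap R F w ≠ 0 := fun h0 => hw0 (hinjR (by rw [h0, map_zero]))
  haveI := H138.isIntegrallyClosed_adjoin_singleton (R := R) hx
  have htK : t ∈ baseField R x := by
    have : t = aeval x Q / algebraMap R F w := by
      rw [h, mul_div_cancel_left₀ _ hwF]
    rw [this]
    refine (baseField R x).div_mem (H138.adjoin_le_baseField x ?_)
      (Subfield.subset_closure (Or.inl ⟨w, rfl⟩))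
    exact H138.mem_adjoin_singleton_iff.2 ⟨Q, rfl⟩
  have htA : t ∈ Algebra.adjoin R ({x} : Set F) :=
    H138.mem_of_isIntegral_of_mem _ (baseField R x) (fun a ha => H138.adjoin_le_baseField x ha)
      (fun z hz => H138.exists_div_of_mem_baseField x hz) htK ht
  obtain ⟨P, rfl⟩ := H138.mem_adjoin_singleton_iff.1 htA
  have h3 : aeval x (Q - C w * P) = 0 := by
    rw [map_sub, map_mul, aeval_C, h, sub_self]
  have h4 := (transcendental_iff.1 hx) _ h3
  have h5 : Q = C w * P := sub_eq_zero.1 h4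
  refine ⟨P.coeff n, ?_⟩
  rw [h5, coeff_C_mul]

variable [IsLocalRing R]

/-- **The Kummer endgame on the charts.** -/
theorem kummer_charts
    (hinjR : Function.Injective (algebraMap R F))
    (hRF : ∀ y : F, IsIntegral R y → y ∈ Set.range (algebraMap R F))
    {x : F} (hx : Transcendental R x) [FiniteDimensional (baseField R x) F]
    (w : R) (hw : ¬ IsUnit w)
    (m : ℕ) (hm : 2 ≤ m) (ν : R) (hν : ν * (m : R) = 1)
    (u : F) (hu : u ≠ 0) (σ₀ σ₁ : F)
    (h₀ : ∃ b ∈ chart R ({x} : Set F), σ₀ ^ m * u - 1 = algebraMap R F w * b)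
    (h₁ : ∃ b ∈ chart R ({x⁻¹} : Set F), σ₁ ^ m * u - 1 = algebraMap R F w * b)
    (h₀₁ : ∃ γ : F, σ₀ - σ₁ = algebraMap R F w * γ ∧ γ ^ m * u ∈ chart R ({x, x⁻¹} : Set F)) :
    ∃ i : ℕ, 0 < i ∧ i < m ∧ ∃ f : F, f ≠ 0 ∧ ∃ r : R, f ^ m * u ^ i = algebraMap R F r := by
  by_contra hcon
  push Not at hcon
  have hx0 : x ≠ 0 := H138.ne_zero_of_transcendental hx
  have hm0 : 0 < m := by omega
  refine kummer_endgame m hm ν hν w u hu (chart R ({x} : Set F)) (chart R ({x⁻¹} : Set F))
    (chart R ({x, x⁻¹} : Set F)) (rootClosed_chart _ hm0) (rootClosed_chart _ hm0)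
    (rootClosed_chart _ hm0) x hx0 (H138.mem_chart_of_mem rfl) (H138.mem_chart_of_mem rfl)
    (H138.chart_mono (by simp)) (H138.chart_mono (by simp)) ?_ ?_ ?_ (exists_finset_gens hx) ?_ ?_
    (fun i hi him f hf r => hcon i hi him f hf r) σ₀ σ₁ h₀ h₁ h₀₁
  · intro y hy
    exact H138.exists_pow_mul_mem_chart hx0 hy
  · intro y hy
    refine H138.exists_pow_mul_mem_chart (inv_ne_zero hx0) ?_
    rw [chart_inv_pair]
    exact hy
  · intro y hy0 hy1
    obtain ⟨r, hr⟩ := hRF y (H138.isIntegral_of_mem_chart_inter hx hy0 hy1)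
    exact ⟨r, hr⟩
  · obtain ⟨d, hd, hd0, hdu⟩ := exists_den (R := R) hx u⁻¹
    exact ⟨d, hd, hd0, hdu⟩
  · intro b hb h
    apply hw
    have := H138.dvd_of_algebraMap_eq_mul hinjR hx w 1 hb (by rw [map_one, h])
    exact isUnit_of_dvd_one this

/-- For prime `m`: `u` is a constant times an `m`-th power. -/
theorem kummer_charts_prime
    (hinjR : Function.Injective (algebraMap R F))
    (hRF : ∀ y : F, IsIntegral R y → y ∈ Set.range (algebraMap R F))
    {x : F} (hx : Transcendental R x) [FiniteDimensional (baseField R x) F]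
    (w : R) (hw : ¬ IsUnit w)
    (m : ℕ) (hm : m.Prime) (ν : R) (hν : ν * (m : R) = 1)
    (u : F) (hu : u ≠ 0) (σ₀ σ₁ : F)
    (h₀ : ∃ b ∈ chart R ({x} : Set F), σ₀ ^ m * u - 1 = algebraMap R F w * b)
    (h₁ : ∃ b ∈ chart R ({x⁻¹} : Set F), σ₁ ^ m * u - 1 = algebraMap R F w * b)
    (h₀₁ : ∃ γ : F, σ₀ - σ₁ = algebraMap R F w * γ ∧ γ ^ m * u ∈ chart R ({x, x⁻¹} : Set F)) :
    ∃ (r : R) (a : ℤ) (y : F), r ≠ 0 ∧ u = algebraMap R F r ^ a * y ^ m := by
  obtain ⟨i, hi0, him, f, hf, r, hr⟩ :=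
    kummer_charts hinjR hRF hx w hw m hm.two_le ν hν u hu σ₀ σ₁ h₀ h₁ h₀₁
  have hr0 : r ≠ 0 := by
    rintro rfl
    rw [map_zero] at hr
    exact mul_ne_zero (pow_ne_zero m hf) (pow_ne_zero i hu) hr
  have hrF : algebraMap R F r ≠ 0 := fun h => hr0 (hinjR (by rw [h, map_zero]))
  have hcop : Nat.Coprime i m :=
    ((Nat.Prime.coprime_iff_not_dvd hm).mpr (Nat.not_dvd_of_pos_of_lt hi0 him)).symm
  -- Bezout
  have hbez : (i : ℤ) * Nat.gcdA i m + (m : ℤ) * Nat.gcdB i m = 1 := by
    have := Nat.gcd_eq_gcd_ab i m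
    rw [hcop.gcd_eq_one] at this
    exact_mod_cast this.symm
  set a : ℤ := Nat.gcdA i m with ha
  set b : ℤ := Nat.gcdB i m with hb
  refine ⟨r, a, f⁻¹ ^ a * u ^ b, hr0, ?_⟩
  have e1 : (f ^ m * u ^ i) ^ a = f ^ ((m : ℤ) * a) * u ^ ((i : ℤ) * a) := by
    rw [mul_zpow, ← zpow_natCast f m, ← zpow_natCast u i, ← zpow_mul, ← zpow_mul]
  have e2 : (f⁻¹ ^ a * u ^ b) ^ m = f ^ (-((m : ℤ) * a)) * u ^ ((m : ℤ) * b) := by
    rw [mul_pow, ← zpow_natCast (f⁻¹ ^ a) m, ← zpow_natCast (u ^ b) m, ← zpow_mul, ← zpow_mul,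
      inv_zpow', mul_comm a (m : ℤ), mul_comm b (m : ℤ)]
  rw [← hr, e1, e2]
  have e3 : f ^ ((m : ℤ) * a) * u ^ ((i : ℤ) * a) * (f ^ (-((m : ℤ) * a)) * u ^ ((m : ℤ) * b))
      = (f ^ ((m : ℤ) * a) * f ^ (-((m : ℤ) * a))) * (u ^ ((i : ℤ) * a) * u ^ ((m : ℤ) * b)) := by
    ring
  rw [e3, ← zpow_add₀ hf, ← zpow_add₀ hu, add_neg_cancel, zpow_zero, one_mul, hbez, zpow_one]

end Charts

end Fermat.Agent.S18.H394

end
-- ===== PACK-END S18/H394/KummerCharts.lean

-- ===== PACK-BEGIN S18/H394/KummerRegular.lean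
section




/-!
# S18, Route K (helper394): typed core of `node_alg` (prime `m`)

Setting of `H394/KummerCharts.lean` (= `H138/Connected.lean`): `R` noetherian local with `R[X]`
integrally closed, `F ⊇ R` a field of characteristic `0`, `x` transcendental, `F` finite over
`baseField R x`, `R` integrally closed in `F`; charts `B₀ = chart R {x}`, `B₁ = chart R {x⁻¹}`.

**Theorem `kummer_charts_of_regular`.**  Let `m` be a prime invertible in `R`, `w ∈ R`, `u ∈ Fˣ`.
Assume on each chart `B ∈ {B₀, B₁}`: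
* `w` is prime in `B`                      (q-expansion principle),
* `H754.RegularAlong w`                    (b2: the special fibre is regular = `B12.H33.b2Regular`),
* `H754.OneModPi w u`                      (`u ≡ 1 mod w`),
* `H754.DivisibleDivisor B m u`            (`m ∣ div u`).
Then `u = r ^ a * y ^ m` with `r ∈ R ∖ {0}`, `a ∈ ℤ`, `y ∈ F`.

Proof: `H214.local_existence` (LE) + `H394.kummer_charts_prime` (graded Kummer algebra + b5).
No Kummer extension field, no roots of unity, no enlargement of constants.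
-/

set_option autoImplicit false
set_option linter.style.haveILetI false

namespace Fermat.Agent.S18.H394

open Polynomial
open Fermat.Agent.S18.H138 (chart baseField)

section Regular

variable {R : Type*} [CommRing R] {F : Type*} [Field F] [Algebra R F]
variable [IsNoetherianRing R] [IsIntegrallyClosed R[X]] [CharZero F]

/-- `w ∤ x` in the chart `B₀`. -/
theorem not_dvd_coord (hinjR : Function.Injective (algebraMap R F)) {x : F}
    (hx : Transcendental R x) (w : R) (hw : ¬ IsUnit w) (hw0 : w ≠ 0)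
    (X₀ : chart R ({x} : Set F)) (hX₀ : (X₀ : F) = x) :
    ¬ algebraMap R (chart R ({x} : Set F)) w ∣ X₀ := by
  intro h
  obtain ⟨c, hc, h⟩ := (subalgebra_dvd_iff _ w X₀).mp h
  rw [hX₀] at h
  have := dvd_coeff_of_aeval_eq_mul hx hinjR w hw0 X hc (by rw [aeval_X]; exact h) 1
  rw [coeff_X_one] at this
  exact hw (isUnit_of_dvd_one this)

/-- The saturation property of the overlap `M` (hypothesis `hsat` of `H214.local_existence`). -/
theorem chart_saturated (hinjR : Function.Injective (algebraMap R F)) {x : F}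
    (hx : Transcendental R x) (w : R)
    (hw₀ : Prime (algebraMap R (chart R ({x} : Set F)) w))
    (hw₁ : Prime (algebraMap R (chart R ({x⁻¹} : Set F)) w))
    (f : F) (s₀ : chart R ({x} : Set F)) (hs₀ : ¬ algebraMap R (chart R ({x} : Set F)) w ∣ s₀)
    (s₁ : chart R ({x⁻¹} : Set F)) (hs₁ : ¬ algebraMap R (chart R ({x⁻¹} : Set F)) w ∣ s₁)
    (h1 : (s₀ : F) * (s₁ : F) * f ∈ chart R ({x, x⁻¹} : Set F))
    (h2 : algebraMap R F w * f ∈ chart R ({x, x⁻¹} : Set F)) :
    f ∈ chart R ({x, x⁻¹} : Set F) := by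
  have hx0 : x ≠ 0 := H138.ne_zero_of_transcendental hx
  have h0M : (chart R ({x} : Set F)) ≤ (chart R ({x, x⁻¹} : Set F)) := H138.chart_mono (by simp)
  have h1M : (chart R ({x⁻¹} : Set F)) ≤ (chart R ({x, x⁻¹} : Set F)) := H138.chart_mono (by simp)
  have hxB0 : x ∈ (chart R ({x} : Set F)) := H138.mem_chart_of_mem rfl
  have hxB1 : x⁻¹ ∈ (chart R ({x⁻¹} : Set F)) := H138.mem_chart_of_mem rfl
  have hloc0 : ∀ y ∈ (chart R ({x, x⁻¹} : Set F)), ∃ n : ℕ, x ^ n * y ∈ (chart R ({x} : Set F)) := fun y hy =>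
    H138.exists_pow_mul_mem_chart hx0 hy
  have hloc1 : ∀ y ∈ (chart R ({x, x⁻¹} : Set F)), ∃ n : ℕ, x⁻¹ ^ n * y ∈ (chart R ({x⁻¹} : Set F)) := by
    intro y hy
    refine H138.exists_pow_mul_mem_chart (inv_ne_zero hx0) ?_
    rw [chart_inv_pair]
    exact hy
  have hwnu : ¬ IsUnit w := fun h => hw₀.not_isUnit (h.map _)
  have hw0 : w ≠ 0 := by
    rintro rfl
    exact hw₀.ne_zero (map_zero _)
  have hX₁ : ¬ algebraMap R (chart R ({x⁻¹} : Set F)) w ∣ (⟨x⁻¹, hxB1⟩ : (chart R ({x⁻¹} : Set F))) :=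
    not_dvd_coord hinjR (H138.transcendental_inv hx) w hwnu hw0 _ rfl
  -- `t₁ = x ^ j * s₁ ∈ (chart R ({x} : Set F)) ∖ w (chart R ({x} : Set F))`
  obtain ⟨j, hj⟩ := hloc0 (s₁ : F) (h1M s₁.2)
  have ht₁ : ¬ algebraMap R (chart R ({x} : Set F)) w ∣ (⟨x ^ j * s₁, hj⟩ : (chart R ({x} : Set F))) := by
    intro h
    obtain ⟨c, hc, h⟩ := (subalgebra_dvd_iff _ w _).mp h
    change x ^ j * (s₁ : F) = algebraMap R F w * c at h
    obtain ⟨n, hn⟩ := hloc1 c (h0M hc)
    have hs : (s₁ : F) = x⁻¹ ^ j * (algebraMap R F w * c) := by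
      rw [← h, ← mul_assoc, ← mul_pow, inv_mul_cancel₀ hx0, one_pow, one_mul]
    have hdvd : algebraMap R (chart R ({x⁻¹} : Set F)) w ∣ (⟨x⁻¹, hxB1⟩ : (chart R ({x⁻¹} : Set F))) ^ n * s₁ := by
      rw [subalgebra_dvd_iff]
      refine ⟨x⁻¹ ^ j * (x⁻¹ ^ n * c), (chart R ({x⁻¹} : Set F)).mul_mem ((chart R ({x⁻¹} : Set F)).pow_mem hxB1 _) hn, ?_⟩
      change (x⁻¹) ^ n * (s₁ : F) = algebraMap R F w * (x⁻¹ ^ j * (x⁻¹ ^ n * c))
      rw [hs]
      ring
    rcases hw₁.dvd_or_dvd hdvd with h' | h'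
    · exact hX₁ (hw₁.dvd_of_dvd_pow h')
    · exact hs₁ h'
  obtain ⟨N₁, hN₁⟩ := hloc0 _ h2
  obtain ⟨N₂, hN₂⟩ := hloc0 _ h1
  set g : F := x ^ (N₁ + N₂ + j) * f with hg
  have hg1 : algebraMap R F w * g ∈ (chart R ({x} : Set F)) := by
    have : algebraMap R F w * g = x ^ (N₂ + j) * (x ^ N₁ * (algebraMap R F w * f)) := by
      rw [hg]; ring
    rw [this]
    exact (chart R ({x} : Set F)).mul_mem ((chart R ({x} : Set F)).pow_mem hxB0 _) hN₁
  have hg2 : ((s₀ * ⟨x ^ j * s₁, hj⟩ : (chart R ({x} : Set F))) : F) * g ∈ (chart R ({x} : Set F)) := by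
    have : ((s₀ * ⟨x ^ j * s₁, hj⟩ : (chart R ({x} : Set F))) : F) * g
        = x ^ (N₁ + j + j) * (x ^ N₂ * ((s₀ : F) * (s₁ : F) * f)) := by
      change (s₀ : F) * (x ^ j * (s₁ : F)) * g = _
      rw [hg]; ring
    rw [this]
    exact (chart R ({x} : Set F)).mul_mem ((chart R ({x} : Set F)).pow_mem hxB0 _) hN₂
  have hst : ¬ algebraMap R (chart R ({x} : Set F)) w ∣ s₀ * ⟨x ^ j * s₁, hj⟩ := by
    intro h
    rcases hw₀.dvd_or_dvd h with h' | h'
    · exact hs₀ h'
    · exact ht₁ h'
  have hgB : g ∈ (chart R ({x} : Set F)) := mem_of_mul_mem_of_prime (chart R ({x} : Set F)) w hw₀ _ hst g hg1 hg2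
  have : f = x⁻¹ ^ (N₁ + N₂ + j) * g := by
    rw [hg, ← mul_assoc, ← mul_pow, inv_mul_cancel₀ hx0, one_pow, one_mul]
  rw [this]
  exact (chart R ({x, x⁻¹} : Set F)).mul_mem ((chart R ({x, x⁻¹} : Set F)).pow_mem (h1M hxB1) _) (h0M hgB)

variable [IsLocalRing R]

/-- **Typed core of `node_alg`** (prime `m`). -/
theorem kummer_charts_of_regular
    (hinjR : Function.Injective (algebraMap R F))
    (hRF : ∀ y : F, IsIntegral R y → y ∈ Set.range (algebraMap R F))
    {x : F} (hx : Transcendental R x) [FiniteDimensional (baseField R x) F]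
    (w : R) (m : ℕ) (hm : m.Prime) (ν : R) (hν : ν * (m : R) = 1)
    (u : F) (hu : u ≠ 0)
    (hw₀ : Prime (algebraMap R (chart R ({x} : Set F)) w))
    (hw₁ : Prime (algebraMap R (chart R ({x⁻¹} : Set F)) w))
    (hreg₀ : H754.RegularAlong (algebraMap R (chart R ({x} : Set F)) w))
    (hreg₁ : H754.RegularAlong (algebraMap R (chart R ({x⁻¹} : Set F)) w))
    (hu₀ : H754.OneModPi (algebraMap R (chart R ({x} : Set F)) w) u)
    (hu₁ : H754.OneModPi (algebraMap R (chart R ({x⁻¹} : Set F)) w) u)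
    (hdiv₀ : H754.DivisibleDivisor (chart R ({x} : Set F)) m u)
    (hdiv₁ : H754.DivisibleDivisor (chart R ({x⁻¹} : Set F)) m u) :
    ∃ (r : R) (a : ℤ) (y : F), r ≠ 0 ∧ u = algebraMap R F r ^ a * y ^ m := by
  have hwnu : ¬ IsUnit w := fun h => hw₀.not_isUnit (h.map _)
  haveI : FiniteDimensional (baseField R x⁻¹) F := by
    rw [H138.baseField_inv]; infer_instance
  obtain ⟨i1, i2, i3⟩ := chart_instances (R := R) hx
  obtain ⟨j1, j2, j3⟩ := chart_instances (R := R) (H138.transcendental_inv hx)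
  obtain ⟨σ₀, σ₁, h₀, h₁, h₀₁⟩ := H214.local_existence m hm.ne_zero w u
    (chart R ({x} : Set F)) (chart R ({x⁻¹} : Set F)) (chart R ({x, x⁻¹} : Set F))
    (H138.chart_mono (by simp)) (H138.chart_mono (by simp)) hw₀ hw₁ hreg₀ hreg₁ hu₀ hu₁
    hdiv₀ hdiv₁ (rootClosed_chart _ hm.pos)
    (fun f s₀ hs₀ s₁ hs₁ h1 h2 => chart_saturated hinjR hx w hw₀ hw₁ f s₀ hs₀ s₁ hs₁ h1 h2)
  exact kummer_charts_prime hinjR hRF hx w hwnu m hm ν hν u hu σ₀ σ₁ h₀ h₁ h₀₁

end Regular

end Fermat.Agent.S18.H394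

end
-- ===== PACK-END S18/H394/KummerRegular.lean

-- ===== PACK-BEGIN S55/Bridge/H594/Lift.lean
section



/-!
# S55 bridge (helper594), piece B14: lifting decomposition and inertia elements

`F ⊂ ℚ̄` a normal intermediate field, `A` a valuation subring of `ℚ̄` over a prime number `q`.

* `exists_decomposition_lift`: every `τ ∈ Gal(F/ℚ)` stabilising the prime of `𝓞_F` below `A`
  is the restriction of an element of the decomposition group of `A`;
* `exists_inertia_lift`: every `τ ∈ Gal(F/ℚ)` acting trivially on `𝓞_F` modulo the prime below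
  `A` is the restriction of an element of the inertia group of `A`.
-/

set_option autoImplicit false
set_option linter.style.haveILetI false

namespace Fermat.Agent.S55.Bridge.H594

open Fermat.Agent.S54 Fermat.Agent.S55.Bridge
open scoped Pointwise

attribute [local instance] isAlgebraic_Qbar isGalois_Qbar

section lift

variable (F : IntermediateField ℚ (AlgebraicClosure ℚ))

/-- An algebraic integer fixed by `Gal(ℚ̄/F)` lies in `F`. -/
theorem coe_mem_of_forall_fixingSubgroup_smul_eq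
    (b : integralClosure ℤ (AlgebraicClosure ℚ))
    (hb : ∀ h : F.fixingSubgroup, h • b = b) : (b : AlgebraicClosure ℚ) ∈ F := by
  have h1 : (b : AlgebraicClosure ℚ) ∈ IntermediateField.fixedField F.fixingSubgroup := by
    intro h
    exact congrArg Subtype.val (hb h)
  rwa [InfiniteGalois.fixedField_fixingSubgroup] at h1

variable [Normal ℚ F]

theorem restrictNormalHom_apply (σ : AlgebraicClosure ℚ ≃ₐ[ℚ] AlgebraicClosure ℚ) (x : F) :
    ((AlgEquiv.restrictNormalHom F σ x : F) : AlgebraicClosure ℚ) = σ (x : AlgebraicClosure ℚ) :=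
  AlgEquiv.restrictNormal_commutes σ F x

theorem restrictNormalHom_eq_one_of_mem_fixingSubgroup
    (h : AlgebraicClosure ℚ ≃ₐ[ℚ] AlgebraicClosure ℚ) (hh : h ∈ F.fixingSubgroup) :
    AlgEquiv.restrictNormalHom F h = 1 := by
  apply AlgEquiv.ext
  intro x
  apply Subtype.ext
  rw [restrictNormalHom_apply]
  exact (IntermediateField.mem_fixingSubgroup_iff F h).mp hh x x.2

variable (A : ValuationSubring (AlgebraicClosure ℚ))

/-- **B14, decomposition part.**  If `τ ∈ Gal(F/ℚ)` preserves the non-units of `A` among the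
integers of `F`, then `τ` lifts to the decomposition group of `A`. -/
theorem exists_decomposition_lift {q : ℕ} (hq : q.Prime) (hA : A.LiesOverPrime q)
    (τ : F ≃ₐ[ℚ] F)
    (hτ : ∀ x : F, IsIntegral ℤ x →
      (((τ x : F) : AlgebraicClosure ℚ) ∈ A.nonunits ↔ (x : AlgebraicClosure ℚ) ∈ A.nonunits)) :
    ∃ σ ∈ A.decompositionSubgroup ℚ, AlgEquiv.restrictNormalHom F σ = τ := by
  letI : TopologicalSpace (integralClosure ℤ (AlgebraicClosure ℚ)) := ⊥
  haveI : DiscreteTopology (integralClosure ℤ (AlgebraicClosure ℚ)) := ⟨rfl⟩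
  haveI := continuousSMul_integralClosure
  haveI := primeBelow_isPrime A
  obtain ⟨τ₀, hτ₀⟩ := AlgEquiv.restrictNormalHom_surjective (F := ℚ) (K₁ := F)
    (AlgebraicClosure ℚ) τ
  haveI : (τ₀ • primeBelow A).IsPrime := by
    rw [Ideal.pointwise_smul_eq_comap]
    exact Ideal.comap_isPrime _ _
  have hPQ : ∀ b : integralClosure ℤ (AlgebraicClosure ℚ),
      (∀ h : F.fixingSubgroup, h • b = b) → (b ∈ primeBelow A ↔ b ∈ τ₀ • primeBelow A) := by
    intro b hb
    have hbF : (b : AlgebraicClosure ℚ) ∈ F := coe_mem_of_forall_fixingSubgroup_smul_eq F b hb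
    rw [Ideal.mem_pointwise_smul_iff_inv_smul_mem, mem_primeBelow, mem_primeBelow, coe_smul]
    -- `x = τ⁻¹ b`
    have hx : IsIntegral ℤ (τ⁻¹ ⟨(b : AlgebraicClosure ℚ), hbF⟩ : F) := by
      have hbint : IsIntegral ℤ (⟨(b : AlgebraicClosure ℚ), hbF⟩ : F) := by
        have := b.2
        exact (isIntegral_algebraMap_iff
          (FaithfulSMul.algebraMap_injective F (AlgebraicClosure ℚ))).mp this
      exact hbint.map (τ⁻¹ : F ≃ₐ[ℚ] F)
    have h1 := hτ _ hx
    have h2 : τ (τ⁻¹ ⟨(b : AlgebraicClosure ℚ), hbF⟩ : F) = ⟨(b : AlgebraicClosure ℚ), hbF⟩ := by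
      show (τ * τ⁻¹) _ = _
      rw [mul_inv_cancel]; rfl
    rw [h2] at h1
    have h3 : ((τ⁻¹ ⟨(b : AlgebraicClosure ℚ), hbF⟩ : F) : AlgebraicClosure ℚ) =
        τ₀⁻¹ (b : AlgebraicClosure ℚ) := by
      rw [← hτ₀, ← map_inv, restrictNormalHom_apply]
    rw [h3] at h1
    exact h1
  obtain ⟨h, hh⟩ := exists_smul_eq_of_forall_fixed_mem_iff (B := integralClosure ℤ (AlgebraicClosure ℚ))
    F.fixingSubgroup (InfiniteGalois.fixingSubgroup_isClosed F) (τ₀ • primeBelow A)
    (primeBelow A) (fun b hb => (hPQ b hb).symm)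
  refine ⟨(h : AlgebraicClosure ℚ ≃ₐ[ℚ] AlgebraicClosure ℚ) * τ₀, ?_, ?_⟩
  · rw [mem_decompositionSubgroup_iff_smul_primeBelow A hq hA, mul_smul, ← hh]
  · rw [map_mul, restrictNormalHom_eq_one_of_mem_fixingSubgroup F h h.2, one_mul, hτ₀]

/-- **B14, inertia part.**  If `τ ∈ Gal(F/ℚ)` acts trivially modulo the non-units of `A` on the
integers of `F`, then `τ` lifts to the inertia group of `A`. -/
theorem exists_inertia_lift {q : ℕ} (hq : q.Prime) (hA : A.LiesOverPrime q)
    (τ : F ≃ₐ[ℚ] F)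
    (hτ : ∀ x : F, IsIntegral ℤ x →
      ((τ x : F) : AlgebraicClosure ℚ) - (x : AlgebraicClosure ℚ) ∈ A.nonunits) :
    ∃ σ ∈ A.inertiaSubgroupIn ℚ, AlgEquiv.restrictNormalHom F σ = τ := by
  letI : TopologicalSpace (integralClosure ℤ (AlgebraicClosure ℚ)) := ⊥
  haveI : DiscreteTopology (integralClosure ℤ (AlgebraicClosure ℚ)) := ⟨rfl⟩
  haveI := continuousSMul_integralClosure
  haveI := primeBelow_isPrime A
  have hτ' : ∀ x : F, IsIntegral ℤ x →
      (((τ x : F) : AlgebraicClosure ℚ) ∈ A.nonunits ↔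
        (x : AlgebraicClosure ℚ) ∈ A.nonunits) := by
    intro x hx
    constructor
    · intro h
      have := A.nonunits.sub_mem h (hτ x hx)
      simpa using this
    · intro h
      have := A.nonunits.add_mem (hτ x hx) h
      simpa using this
  obtain ⟨σ₁, hσ₁D, hσ₁⟩ := exists_decomposition_lift F A hq hA τ hτ'
  have hσ₁P : σ₁ • primeBelow A = primeBelow A :=
    (mem_decompositionSubgroup_iff_smul_primeBelow A hq hA σ₁).mp hσ₁D
  have hfix : ∀ b : integralClosure ℤ (AlgebraicClosure ℚ),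
      (∀ h : F.fixingSubgroup, h • b = b) → σ₁ • b - b ∈ primeBelow A := by
    intro b hb
    have hbF : (b : AlgebraicClosure ℚ) ∈ F := coe_mem_of_forall_fixingSubgroup_smul_eq F b hb
    have hbint : IsIntegral ℤ (⟨(b : AlgebraicClosure ℚ), hbF⟩ : F) :=
      (isIntegral_algebraMap_iff
        (FaithfulSMul.algebraMap_injective F (AlgebraicClosure ℚ))).mp b.2
    have h1 := hτ _ hbint
    rw [← hσ₁, restrictNormalHom_apply] at h1
    exact h1
  obtain ⟨h, hhP, hh⟩ := exists_stabilizer_congr_of_forall_fixed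
    (B := integralClosure ℤ (AlgebraicClosure ℚ)) F.fixingSubgroup
    (InfiniteGalois.fixingSubgroup_isClosed F) (primeBelow A) σ₁ hσ₁P hfix
  have hhP' : ∀ b : integralClosure ℤ (AlgebraicClosure ℚ),
      b ∈ primeBelow A → (h : AlgebraicClosure ℚ ≃ₐ[ℚ] AlgebraicClosure ℚ)⁻¹ • b ∈ primeBelow A := by
    intro b hb
    have := (smul_primeBelow_eq_iff A _).mp hhP
      ((h : AlgebraicClosure ℚ ≃ₐ[ℚ] AlgebraicClosure ℚ)⁻¹ • b)
    rw [smul_inv_smul] at this
    exact this.mp hb
  refine ⟨(h : AlgebraicClosure ℚ ≃ₐ[ℚ] AlgebraicClosure ℚ)⁻¹ * σ₁, ?_, ?_⟩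
  · rw [mem_inertiaSubgroupIn_iff_primeBelow A hq hA]
    intro b
    have h1 : σ₁ • b - (h : AlgebraicClosure ℚ ≃ₐ[ℚ] AlgebraicClosure ℚ) • b ∈ primeBelow A := by
      have := (primeBelow A).neg_mem (hh b)
      simpa using this
    have h2 := hhP' _ h1
    rw [smul_sub, inv_smul_smul] at h2
    rw [mul_smul]
    exact h2
  · rw [map_mul, map_inv, restrictNormalHom_eq_one_of_mem_fixingSubgroup F h h.2, inv_one,
      one_mul, hσ₁]

end lift

end Fermat.Agent.S55.Bridge.H594

end
-- ===== PACK-END S55/Bridge/H594/Lift.lean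

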