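import Fermat.Prelude.Def_ModularCurve_ReductionModL
import Mathlib.Analysis.Complex.UpperHalfPlane.Manifold
import Mathlib.Geometry.Manifold.Notation
import Mathlib.Geometry.Manifold.MFDeriv.SpecificFunctions
import Mathlib.NumberTheory.ModularForms.Basic
import Fermat.Agent.Pack.S3234.G0E5L2
import Fermat.Agent.Pack.S3234.G0E4L2
import Fermat.Agent.Pack.S3234.G0E5L1
import Fermat.Agent.Pack.S3234.G0E2L2
import Fermat.Agent.Pack.S3234.G0E5L3
import Fermat.Agent.Pack.S3234.G0E4L0
import Fermat.Agent.Pack.S3234.G0E0L3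
import Fermat.Agent.Pack.S3234.G0E1L1

-- ===== PACK-BEGIN S24/Deg/H457_Degree.lean
section



/-!
# S24 / DEG (helper457): the degree fields of `ModularPackage`, unconditionally

`degree_fields N : FiniteDimensional ℚ̄(j) (FF N) ∧ finrank ℚ̄(j) (FF N) ≤ |SL₂(ℤ)/Γ₀(N)|`.

Chain: helper648 (conjugate product + D5 + growth of `j`, function level)
→ `hyp_complex` (formal relations over `ℂ`, via helper708 `HasQExp` and helper264 `hasSum_jFun`)
→ `finiteDimensional_and_finrank_le` (descent `ℂ → ℚ̄` + primitive element).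
-/

set_option autoImplicit false

noncomputable section

open UpperHalfPlane ModularGroup CongruenceSubgroup Polynomial ModularCurve
open scoped MatrixGroups Manifold Modular Real

namespace Fermat.Agent.S24.Deg457

theorem jFun_eq_H648 : Fermat.Agent.S24.JFun.jFun = Fermat.Agent.S24.H648.jFun := rfl

/-- the interface hypothesis over `ℂ`, unconditionally -/
theorem hyp_complex_card (N : ℕ) [NeZero N] : Hyp ℂ N (Nat.card (XX N)) := by
  refine hyp_complex N ?_ ?_
  · rw [jFun_eq_H648]
    exact Fermat.Agent.S24.H648.exists_polynomial_of_expGrowth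
  · rw [jFun_eq_H648]
    exact Fermat.Agent.S24.H648.jFun_bound_fd

/-- **The degree fields of helper984's `ModularPackage N`** (upper bound half). -/
theorem degree_fields (N : ℕ) [NeZero N] :
    FiniteDimensional ↥(IntermediateField.adjoin Kbar {jF N}) (FF N) ∧
      Module.finrank ↥(IntermediateField.adjoin Kbar {jF N}) (FF N) ≤ Nat.card (XX N) :=
  finiteDimensional_and_finrank_le N _ (hyp_complex_card N)

end Fermat.Agent.S24.Deg457

end
end
-- ===== PACK-END S24/Deg/H457_Degree.lean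

-- ===== PACK-BEGIN S29/H882/GoodQ.lean
section


/-!
# S29 / MERO (helper882), part 1: `q`-expansions of good functions

`goodQ N` is the `ℂ`-subalgebra of `ℂ((q))` of `q`-expansions of the functions in the landed
`S24.H648.goodRing N` (holomorphic, `Γ₀(N)`-invariant, all `SL₂(ℤ)`-translates of at most
exponential growth at `i∞`).  Every element of `goodQ N` is a root of a monic polynomial of degree
`[SL₂(ℤ) : Γ₀(N)]` over `ℂ[j]`.
-/

set_option autoImplicit false

noncomputable section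

open UpperHalfPlane ModularGroup CongruenceSubgroup Polynomial ModularCurve
open scoped MatrixGroups Manifold Modular Real

namespace Fermat.Agent.S29.H882

open Fermat.Agent.S24 Fermat.Agent.S24.H648 Fermat.Agent.S24.H708 Fermat.Agent.S24.Deg457

variable (N : ℕ)

theorem T_mem_Gamma0 : ModularGroup.T ∈ Gamma0 N := by
  rw [Gamma0_mem]
  simp [ModularGroup.T]

variable {N}

/-- A `Γ₀(N)`-invariant function is `1`-periodic. -/
theorem periodic_of_invariant {f : ℍ → ℂ} (hf : ∀ γ ∈ Gamma0 N, ∀ τ : ℍ, f (γ • τ) = f τ) :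
    Function.Periodic (f ∘ ofComplex) (1 : ℝ) := by
  intro w
  by_cases hw : 0 < Complex.im w
  · have hw' : 0 < Complex.im (w + ((1 : ℝ) : ℂ)) := by simpa using hw
    simp only [Function.comp_apply, ofComplex_apply_of_im_pos hw', ofComplex_apply_of_im_pos hw]
    have h := hf _ (T_mem_Gamma0 N) ⟨w, hw⟩
    rw [← h]
    congr 1
    apply UpperHalfPlane.ext
    rw [UpperHalfPlane.modular_T_smul, UpperHalfPlane.coe_vadd]
    simp [add_comm]
  · have hw0 : Complex.im w ≤ 0 := not_lt.mp hw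
    have hw' : Complex.im (w + ((1 : ℝ) : ℂ)) ≤ 0 := by simpa using hw0
    simp only [Function.comp_apply]
    rw [ofComplex_apply_of_im_nonpos hw', ofComplex_apply_of_im_nonpos hw0]

/-- Exponential growth gives a pole of finite order at `i∞`. -/
theorem isBounded_mul_qh_pow_of_expGrowth {f : ℍ → ℂ} (hf : ExpGrowth f) :
    ∃ M : ℕ, IsBoundedAtImInfty (f * qh 1 ^ M) := by
  obtain ⟨C, m, h⟩ := hf
  refine ⟨m, ?_⟩
  rw [UpperHalfPlane.isBoundedAtImInfty_iff]
  refine ⟨C, 1, fun τ hτ => ?_⟩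
  have h1 := h τ hτ
  have hq : ‖qh 1 τ‖ = Real.exp (-2 * π * τ.im) := by
    rw [qh_apply, Function.Periodic.norm_qParam]
    simp
  rw [Pi.mul_apply, Pi.pow_apply, norm_mul, norm_pow, hq, ← Real.exp_nat_mul]
  calc ‖f τ‖ * Real.exp (m * (-2 * π * τ.im))
      ≤ C * Real.exp (2 * π * m * τ.im) * Real.exp (m * (-2 * π * τ.im)) :=
        mul_le_mul_of_nonneg_right h1 (Real.exp_pos _).le
    _ = C := by
        rw [mul_assoc, ← Real.exp_add]
        have : 2 * π * m * τ.im + m * (-2 * π * τ.im) = 0 := by ring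
        rw [this, Real.exp_zero, mul_one]

theorem isMerInf_of_mem_goodRing {f : ℍ → ℂ} (hf : f ∈ goodRing N) : IsMerInf 1 f := by
  obtain ⟨h1, h2, h3⟩ := hf
  refine ⟨h1, ?_, ?_⟩
  · have := periodic_of_invariant h2
    simpa using this
  · have h := h3 1
    simp only [one_smul] at h
    exact isBounded_mul_qh_pow_of_expGrowth h

theorem hasQExp_of_mem_goodRing {f : ℍ → ℂ} (hf : f ∈ goodRing N) :
    HasQExp 1 f (qexpFun 1 f) :=
  HasQExp.of_isMerInf (isMerInf_of_mem_goodRing hf)

variable (N)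

/-- The algebra of `q`-expansions of good functions of level `N`. -/
def goodQ : Subalgebra ℂ (LaurentSeries ℂ) where
  carrier := {b | ∃ f ∈ goodRing N, HasQExp 1 f b}
  mul_mem' := by
    rintro a b ⟨f, hf, hfa⟩ ⟨g, hg, hgb⟩
    exact ⟨f * g, (goodRing N).mul_mem hf hg, hfa.mul hgb⟩
  add_mem' := by
    rintro a b ⟨f, hf, hfa⟩ ⟨g, hg, hgb⟩
    exact ⟨f + g, (goodRing N).add_mem hf hg, hfa.add hgb⟩
  algebraMap_mem' := fun c => by
    refine ⟨fun _ => c, (goodRing N).algebraMap_mem c, ?_⟩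
    have : algebraMap ℂ (LaurentSeries ℂ) c = HahnSeries.C c := by
      rw [algebraMap_laurentSeries_eq_single]; rfl
    rw [this]
    exact HasQExp.const 1 c

variable {N}

theorem mem_goodQ {b : LaurentSeries ℂ} :
    b ∈ goodQ N ↔ ∃ f ∈ goodRing N, HasQExp 1 f b := Iff.rfl

theorem qexpFun_mem_goodQ {f : ℍ → ℂ} (hf : f ∈ goodRing N) : qexpFun 1 f ∈ goodQ N :=
  ⟨f, hf, hasQExp_of_mem_goodRing hf⟩

variable (N) in
theorem AK_le_goodQ [NeZero N] : AK ℂ N ≤ goodQ N := by
  intro b hb
  have hJ : ∃ C : ℝ, ∀ τ : ℍ, τ ∈ 𝒟 → ‖JFun.jFun τ‖ ≤ C * Real.exp (2 * π * τ.im) := by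
    rw [jFun_eq_H648]
    exact Fermat.Agent.S24.H648.jFun_bound_fd
  exact exists_goodRing_hasQExp N hJ hb

variable (N) in
theorem JK_mem_goodQ [NeZero N] : JK ℂ ∈ goodQ N := AK_le_goodQ N (JK_mem_AK ℂ N)

/-- Every `q`-expansion of a good function is a root of a monic polynomial of degree
`[SL₂(ℤ) : Γ₀(N)]` over `ℂ[j]`. -/
theorem exists_monic_of_mem_goodQ [NeZero N] {b : LaurentSeries ℂ} (hb : b ∈ goodQ N) :
    ∃ P : ℂ[X][X], P.Monic ∧ P.natDegree = Nat.card (XX N) ∧
      P.eval₂ (evJ (JK ℂ)) b = 0 := by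
  obtain ⟨f, hf, hfb⟩ := hb
  haveI : Finite (SL(2, ℤ) ⧸ Gamma0 N) := inferInstanceAs (Finite (XX N))
  letI : Fintype (SL(2, ℤ) ⧸ Gamma0 N) := Fintype.ofFinite _
  obtain ⟨P, hPm, hPn, hP⟩ := exists_charPoly_jFun_eval_eq_zero (N := N) hf
  refine ⟨P, hPm, ?_, ?_⟩
  · rw [hPn, Nat.card_eq_fintype_card]
  · have h1 := hasQExp_eval₂ P hfb
    rw [h1.eq_zero_iff]
    funext τ
    exact hP τ

theorem algDeg_of_mem_goodQ [NeZero N] {b : LaurentSeries ℂ} (hb : b ∈ goodQ N) :
    AlgDeg ℂ (Nat.card (XX N)) b := by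
  obtain ⟨P, hPm, hPn, hP⟩ := exists_monic_of_mem_goodQ hb
  exact ⟨P, hPm.ne_zero, hPn.le, hP⟩

end Fermat.Agent.S29.H882

end
end
-- ===== PACK-END S29/H882/GoodQ.lean

-- ===== PACK-BEGIN S29/H882/FieldDeg.lean
section


/-!
# S29 / MERO (helper882), part 2: generic algebra

* `exists_relation_of_coeffMap_ne_zero`: descent of a NONZERO bivariate relation along a coefficient
  embedding (generalises the monic case of the landed `S24.Deg457`).
* `exists_clear_denominators`: a polynomial over `K(j)` becomes, after multiplication by a nonzero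
  element of `K[j]`, the image of a bivariate polynomial.
* `algDeg_of_mem_adjoin`: if every element of a subalgebra `B ∋ j` of `K((q))` is algebraic of
  degree `≤ n` over `K[j]`, so is every element of the field generated by `B`.
-/

set_option autoImplicit false

noncomputable section

open Polynomial ModularCurve IntermediateField

namespace Fermat.Agent.S29.H882

open Fermat.Agent.S24 Fermat.Agent.S24.Deg457

section Descent

variable {K L : Type*} [Field K] [Field L]

/-- **Descent** of a nonzero relation of degree `≤ n` over `L[ι J]` for `ι a` to a nonzero relation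
of degree `≤ n` over `K[J]` for `a`. -/
theorem exists_relation_of_coeffMap_ne_zero (ι : K →+* L) (J a : LaurentSeries K) (n : ℕ)
    (P : L[X][X]) (hP : P ≠ 0) (hn : P.natDegree ≤ n)
    (h0 : P.eval₂ (evJ (coeffMap ι J)) (coeffMap ι a) = 0) :
    ∃ Q : K[X][X], Q ≠ 0 ∧ Q.natDegree ≤ n ∧ Q.eval₂ (evJ J) a = 0 := by
  classical
  set D : ℕ := P.support.sup fun k => (P.coeff k).natDegree with hD
  have hDle : ∀ k, (P.coeff k).natDegree ≤ D := by
    intro k
    by_cases hk : k ∈ P.support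
    · exact Finset.le_sup (f := fun k => (P.coeff k).natDegree) hk
    · rw [notMem_support_iff.mp hk]; simp
  let v : Fin (D + 1) × Fin (n + 1) → LaurentSeries K := fun p => J ^ (p.1 : ℕ) * a ^ (p.2 : ℕ)
  have hnot : ¬ LinearIndependent K v := by
    intro hv
    have hw := linearIndependent_coeffMap ι v hv
    rw [Fintype.linearIndependent_iff] at hw
    -- a nonzero coefficient of `P`
    have hlc : P.coeff P.natDegree ≠ 0 := by
      rw [coeff_natDegree]; exact leadingCoeff_ne_zero.mpr hP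
    have hlc2 : (P.coeff P.natDegree).coeff (P.coeff P.natDegree).natDegree ≠ 0 := by
      rw [coeff_natDegree]; exact leadingCoeff_ne_zero.mpr hlc
    have key := hw (fun p => (P.coeff p.2).coeff p.1) ?_
      (⟨(P.coeff P.natDegree).natDegree, Nat.lt_succ_of_le (hDle _)⟩,
        ⟨P.natDegree, Nat.lt_succ_of_le hn⟩)
    · exact hlc2 key
    · rw [Fintype.sum_prod_type_right]
      rw [eval₂_eq_sum_range' _ (n := n + 1) (Nat.lt_succ_of_le hn)] at h0
      rw [← h0, Finset.sum_range]
      refine Finset.sum_congr rfl fun k _ => ?_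
      rw [evJ_apply, aeval_eq_sum_range' (n := D + 1) (Nat.lt_succ_of_le (hDle _)),
        Finset.sum_range, Finset.sum_mul]
      refine Finset.sum_congr rfl fun i _ => ?_
      simp only [v, map_mul, map_pow]
      rw [hsmul_eq_algebraMap_mul, Algebra.smul_def, mul_assoc]
  rw [Fintype.not_linearIndependent_iff] at hnot
  obtain ⟨g, hg, p, hp⟩ := hnot
  refine ⟨tablePoly g, ?_, tablePoly_natDegree_le g, ?_⟩
  · intro h
    apply hp
    rw [← tablePoly_coeff_coeff g p.1 p.2, h]
    simp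
  · rw [tablePoly_eval₂]
    exact hg

end Descent

section Clear

variable {K M : Type*} [Field K] [Field M] [Algebra K M]

/-- Clearing denominators of a polynomial over `K(j)`. -/
theorem exists_clear_denominators (j : M) (p : Polynomial (IntermediateField.adjoin K {j})) :
    ∃ (t : K[X]) (Q : K[X][X]), aeval (AdjoinSimple.gen K j) t ≠ 0 ∧
      Q.map ((aeval (AdjoinSimple.gen K j) : K[X] →ₐ[K] K⟮j⟯).toRingHom)
        = C (aeval (AdjoinSimple.gen K j) t) * p := by
  set φ : K[X] →+* K⟮j⟯ := (aeval (AdjoinSimple.gen K j) : K[X] →ₐ[K] K⟮j⟯).toRingHom with hφ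
  have hφa : ∀ t : K[X], φ t = aeval (AdjoinSimple.gen K j) t := fun _ => rfl
  induction p using Polynomial.induction_on' with
  | add p q hp hq =>
    obtain ⟨t₁, Q₁, h1, h1'⟩ := hp
    obtain ⟨t₂, Q₂, h2, h2'⟩ := hq
    refine ⟨t₁ * t₂, C t₂ * Q₁ + C t₁ * Q₂, ?_, ?_⟩
    · rw [map_mul]; exact mul_ne_zero h1 h2
    · rw [Polynomial.map_add, Polynomial.map_mul, Polynomial.map_mul, Polynomial.map_C,
        Polynomial.map_C, h1', h2', hφa, hφa, map_mul, C_mul]
      ring
  | monomial k c =>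
    obtain ⟨r, s, hrs⟩ := (IntermediateField.mem_adjoin_simple_iff K (c : M)).mp c.2
    by_cases hs : aeval (AdjoinSimple.gen K j) s = 0
    · -- then `c = 0`
      have hs' : aeval j s = 0 := by
        have := congrArg (algebraMap K⟮j⟯ M) hs
        rwa [← aeval_algebraMap_apply, AdjoinSimple.algebraMap_gen, map_zero] at this
      have hc : c = 0 := by
        apply Subtype.ext
        rw [hrs, hs', div_zero]; rfl
      refine ⟨1, 0, ?_, ?_⟩
      · rw [map_one]; exact one_ne_zero
      · rw [hc]; simp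
    · refine ⟨s, monomial k r, hs, ?_⟩
      rw [Polynomial.map_monomial, C_mul_monomial]
      congr 1
      rw [hφa]
      apply Subtype.ext
      have h1 : ((aeval (AdjoinSimple.gen K j) r : K⟮j⟯) : M) = aeval j r := by
        have := (aeval_algebraMap_apply M (AdjoinSimple.gen K j) r).symm
        rwa [AdjoinSimple.algebraMap_gen] at this
      have h2 : ((aeval (AdjoinSimple.gen K j) s : K⟮j⟯) : M) = aeval j s := by
        have := (aeval_algebraMap_apply M (AdjoinSimple.gen K j) s).symm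
        rwa [AdjoinSimple.algebraMap_gen] at this
      have hs' : aeval j s ≠ 0 := by
        intro h
        apply hs
        apply Subtype.ext
        rw [h2, h]; rfl
      rw [h1]
      show aeval j r = ((aeval (AdjoinSimple.gen K j) s : K⟮j⟯) : M) * (c : M)
      rw [h2, hrs]
      field_simp

end Clear

section Alg

variable {K : Type*} [Field K] [Algebra ℚ K]

theorem aeval_JK_mem (B : Subalgebra K (LaurentSeries K)) (hJ : JK K ∈ B) (t : K[X]) :
    aeval (JK K) t ∈ B := by
  rw [aeval_def, eval₂_eq_sum_range]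
  refine Subalgebra.sum_mem _ fun i _ => ?_
  exact Subalgebra.mul_mem _ (Subalgebra.algebraMap_mem _ _) (Subalgebra.pow_mem _ hJ _)

theorem eval₂_mem_subalgebra (B : Subalgebra K (LaurentSeries K)) (hJ : JK K ∈ B)
    (Q : K[X][X]) {s : LaurentSeries K} (hs : s ∈ B) :
    Q.eval₂ (evJ (JK K)) s ∈ B := by
  rw [eval₂_eq_sum_range]
  refine Subalgebra.sum_mem _ fun i _ => ?_
  exact Subalgebra.mul_mem _ (aeval_JK_mem B hJ _) (Subalgebra.pow_mem _ hs _)

/-- a nonzero algebraic element of `B` has an "inverse up to a polynomial in `j`" in `B`. -/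
theorem exists_mul_eq_aeval_subalgebra (B : Subalgebra K (LaurentSeries K)) (hJ : JK K ∈ B)
    {n : ℕ} {s : LaurentSeries K} (hs : s ∈ B) (hs0 : s ≠ 0)
    (ha : AlgDeg K n s) : ∃ g ∈ B, ∃ t : K[X], t ≠ 0 ∧ s * g = aeval (JK K) t := by
  obtain ⟨Q, hQ0, -, hQ⟩ := ha
  have key : ∀ m : ℕ, ∀ Q : K[X][X], Q.natDegree ≤ m → Q ≠ 0 → Q.eval₂ (evJ (JK K)) s = 0 →
      ∃ Q₁ : K[X][X], Q₁.coeff 0 ≠ 0 ∧ Q₁.eval₂ (evJ (JK K)) s = 0 := by
    intro m
    induction m with
    | zero =>
      intro Q hdeg hQ0 hQ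
      refine ⟨Q, ?_, hQ⟩
      intro h0
      apply hQ0
      rw [eq_C_of_natDegree_le_zero hdeg, h0, map_zero]
    | succ m ih =>
      intro Q hdeg hQ0 hQ
      by_cases h0 : Q.coeff 0 = 0
      · have hdiv : Q = divX Q * X := by
          conv_lhs => rw [← divX_mul_X_add Q, h0, map_zero, add_zero]
        have hd0 : divX Q ≠ 0 := by
          intro h; apply hQ0; rw [hdiv, h, zero_mul]
        have hev : (divX Q).eval₂ (evJ (JK K)) s = 0 := by
          rw [hdiv, eval₂_mul, eval₂_X] at hQ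
          rcases mul_eq_zero.mp hQ with h | h
          · exact h
          · exact absurd h hs0
        refine ih (divX Q) ?_ hd0 hev
        rw [natDegree_divX_eq_natDegree_tsub_one]
        omega
      · exact ⟨Q, h0, hQ⟩
  obtain ⟨Q₁, h0, hQ₁⟩ := key Q.natDegree Q le_rfl hQ0 hQ
  refine ⟨-(divX Q₁).eval₂ (evJ (JK K)) s, Subalgebra.neg_mem _ (eval₂_mem_subalgebra B hJ _ hs),
    Q₁.coeff 0, h0, ?_⟩
  have hsplit : Q₁.eval₂ (evJ (JK K)) s
      = (divX Q₁).eval₂ (evJ (JK K)) s * s + aeval (JK K) (Q₁.coeff 0) := by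
    conv_lhs => rw [← divX_mul_X_add Q₁]
    rw [eval₂_add, eval₂_mul, eval₂_X, eval₂_C, evJ_apply]
  rw [hQ₁] at hsplit
  linear_combination hsplit

/-- If every element of the subalgebra `B ∋ j` is algebraic of degree `≤ n` over `K[j]`, so is
every element of the field generated by `B`. -/
theorem algDeg_of_mem_adjoin (B : Subalgebra K (LaurentSeries K)) (hJ : JK K ∈ B) {n : ℕ}
    (hB : ∀ b ∈ B, AlgDeg K n b) {x : LaurentSeries K}
    (hx : x ∈ IntermediateField.adjoin K (B : Set (LaurentSeries K))) : AlgDeg K n x := by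
  rw [IntermediateField.mem_adjoin_iff_div] at hx
  obtain ⟨r, hr, s, hs, rfl⟩ := hx
  rw [Algebra.adjoin_eq] at hr hs
  by_cases hs0 : s = 0
  · subst hs0
    rw [div_zero]
    exact hB 0 (Subalgebra.zero_mem _)
  · obtain ⟨g, hg, t, ht, hst⟩ := exists_mul_eq_aeval_subalgebra B hJ hs hs0 (hB s hs)
    refine AlgDeg.of_mul_eq (a := r * g) ht ?_ (hB _ (Subalgebra.mul_mem _ hr hg))
    rw [← hst]
    field_simp

end Alg

end Fermat.Agent.S29.H882

end
end
-- ===== PACK-END S29/H882/FieldDeg.lean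

-- ===== PACK-BEGIN S24/H624/Laurent.lean
section


/-!
# Laurent expansion of quotients of holomorphic functions; `SL(2, ℤ)`-action and the
leading-coefficient form of the rotation lemma

`MerH := FractionRing holoRing` is the field of quotients of holomorphic functions on `ℍ`.
`laurentAt τ : MerH →+* LaurentSeries ℂ` is the (injective) Laurent expansion at `τ` in the
coordinate `z - τ`.
-/

set_option autoImplicit false

namespace Fermat.Agent.S24.H624

open UpperHalfPlane Complex
open scoped Manifold Topology MatrixGroups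

/-! ### order and leading coefficient of a power series viewed as a Laurent series -/

section PowerSeriesCoe

variable {R : Type*} [CommRing R]

theorem coeff_ofPowerSeries_nat (φ : PowerSeries R) (n : ℕ) :
    (HahnSeries.ofPowerSeries ℤ R φ).coeff (n : ℤ) = PowerSeries.coeff n φ := by
  simp

theorem coeff_ofPowerSeries_neg (φ : PowerSeries R) {i : ℤ} (hi : i < 0) :
    (HahnSeries.ofPowerSeries ℤ R φ).coeff i = 0 := by
  have := PowerSeries.coeff_coe (R := R) (f := φ) i
  rw [if_pos hi] at this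
  exact this

theorem order_ofPowerSeries {φ : PowerSeries R} {n : ℕ} (hn : φ.order = n) :
    (HahnSeries.ofPowerSeries ℤ R φ).order = (n : ℤ) := by
  have hφn : PowerSeries.coeff n φ ≠ 0 := ((PowerSeries.order_eq_nat).mp hn).1
  have hlt : ∀ i < n, PowerSeries.coeff i φ = 0 := ((PowerSeries.order_eq_nat).mp hn).2
  set x := HahnSeries.ofPowerSeries ℤ R φ with hx
  have hxn : x.coeff (n : ℤ) ≠ 0 := by rw [hx, coeff_ofPowerSeries_nat]; exact hφn
  have hx0 : x ≠ 0 := fun h => hxn (by rw [h]; rfl)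
  have hle : x.order ≤ n := HahnSeries.order_le_of_coeff_ne_zero hxn
  have hco : x.coeff x.order ≠ 0 := fun h => hx0 (HahnSeries.coeff_order_eq_zero.mp h)
  have hnn : 0 ≤ x.order := by
    by_contra hneg
    exact hco (coeff_ofPowerSeries_neg φ (not_le.mp hneg))
  obtain ⟨k, hk⟩ := Int.eq_ofNat_of_zero_le hnn
  rw [hk, coeff_ofPowerSeries_nat] at hco
  have hkn : n ≤ k := by
    by_contra hlt'
    exact hco (hlt k (not_le.mp hlt'))
  rw [hk] at hle ⊢
  have : (k : ℤ) ≤ n := hle
  omega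

theorem leadingCoeff_ofPowerSeries {φ : PowerSeries R} {n : ℕ} (hn : φ.order = n) :
    (HahnSeries.ofPowerSeries ℤ R φ).leadingCoeff = PowerSeries.coeff n φ := by
  rw [HahnSeries.leadingCoeff_eq, order_ofPowerSeries hn, coeff_ofPowerSeries_nat]

end PowerSeriesCoe

/-! ### transfer of order / leading coefficient relations to the fraction field -/

section Transfer

variable {A : Type*} [CommRing A] [IsDomain A] {K : Type*} [Field K] [Algebra A K]
  [IsFractionRing A K] {C : Type*} [Field C]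

theorem order_div_of_ne_zero {x y : LaurentSeries C} (hx : x ≠ 0) (hy : y ≠ 0) :
    (x / y).order = x.order - y.order := by
  have hxy : x / y ≠ 0 := div_ne_zero hx hy
  have h := HahnSeries.order_mul hxy hy
  rw [div_mul_cancel₀ x hy] at h
  omega

theorem leadingCoeff_div_of_ne_zero {x y : LaurentSeries C} (hy : y ≠ 0) :
    (x / y).leadingCoeff = x.leadingCoeff / y.leadingCoeff := by
  have h := HahnSeries.leadingCoeff_mul (x / y) y
  rw [div_mul_cancel₀ x hy] at h
  rw [h, mul_div_assoc, div_self (HahnSeries.leadingCoeff_ne_zero.mpr hy), mul_one]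

/-- If two embeddings `φ ψ : K → C((z))` of a fraction field satisfy
`ord (φ a) = ord (ψ a)` and `lc (φ a) = ζ ^ ord (ψ a) * lc (ψ a)` on the ring `A`, they do so
on all of `K`. -/
theorem order_leadingCoeff_transfer (φ ψ : K →+* LaurentSeries C) (ζ : C) (hζ : ζ ≠ 0)
    (h : ∀ a : A, a ≠ 0 → (φ (algebraMap A K a)).order = (ψ (algebraMap A K a)).order ∧
      (φ (algebraMap A K a)).leadingCoeff
        = ζ ^ (ψ (algebraMap A K a)).order * (ψ (algebraMap A K a)).leadingCoeff)
    (x : K) :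
    (φ x).order = (ψ x).order ∧
      (φ x).leadingCoeff = ζ ^ (ψ x).order * (ψ x).leadingCoeff := by
  obtain ⟨a, b, hb, rfl⟩ := IsFractionRing.div_surjective (A := A) x
  have hb0 : b ≠ 0 := nonZeroDivisors.ne_zero hb
  have hbK : algebraMap A K b ≠ 0 := by
    intro h0
    exact hb0 ((IsFractionRing.injective A K) (by rw [h0, map_zero]))
  by_cases ha0 : a = 0
  · subst ha0
    simp
  have haK : algebraMap A K a ≠ 0 := by
    intro h0
    exact ha0 ((IsFractionRing.injective A K) (by rw [h0, map_zero]))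
  have hφa : φ (algebraMap A K a) ≠ 0 := (map_ne_zero φ).mpr haK
  have hφb : φ (algebraMap A K b) ≠ 0 := (map_ne_zero φ).mpr hbK
  have hψa : ψ (algebraMap A K a) ≠ 0 := (map_ne_zero ψ).mpr haK
  have hψb : ψ (algebraMap A K b) ≠ 0 := (map_ne_zero ψ).mpr hbK
  obtain ⟨ha1, ha2⟩ := h a ha0
  obtain ⟨hb1, hb2⟩ := h b hb0
  rw [map_div₀, map_div₀, order_div_of_ne_zero hφa hφb, order_div_of_ne_zero hψa hψb,
    leadingCoeff_div_of_ne_zero hφb, leadingCoeff_div_of_ne_zero hψb, ha1, hb1, ha2, hb2]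
  refine ⟨rfl, ?_⟩
  rw [zpow_sub₀ hζ]
  have h1 : ζ ^ (ψ (algebraMap A K b)).order ≠ 0 := zpow_ne_zero _ hζ
  have h2 : (ψ (algebraMap A K b)).leadingCoeff ≠ 0 := HahnSeries.leadingCoeff_ne_zero.mpr hψb
  field_simp

end Transfer

/-! ### the field `MerH` and its Laurent expansions -/

/-- The field of quotients of holomorphic functions on the upper half-plane. -/
abbrev MerH : Type := FractionRing holoRing

/-- Taylor expansion at `τ` as a ring hom into Laurent series. -/
noncomputable def taylorLaurent (τ : ℍ) : holoRing →+* LaurentSeries ℂ :=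
  (HahnSeries.ofPowerSeries ℤ ℂ).comp (taylorAt τ : holoRing →+* PowerSeries ℂ)

theorem taylorLaurent_apply (τ : ℍ) (f : holoRing) :
    taylorLaurent τ f = HahnSeries.ofPowerSeries ℤ ℂ (taylorAt τ f) := rfl

theorem taylorLaurent_injective (τ : ℍ) : Function.Injective (taylorLaurent τ) := by
  intro f g h
  exact taylorAt_injective τ (HahnSeries.ofPowerSeries_injective h)

/-- Laurent expansion at `τ` (coordinate `z - τ`) of a quotient of holomorphic functions. -/
noncomputable def laurentAt (τ : ℍ) : MerH →+* LaurentSeries ℂ :=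
  IsFractionRing.lift (taylorLaurent_injective τ)

@[simp]
theorem laurentAt_algebraMap (τ : ℍ) (f : holoRing) :
    laurentAt τ (algebraMap holoRing MerH f) = HahnSeries.ofPowerSeries ℤ ℂ (taylorAt τ f) :=
  IsFractionRing.lift_algebraMap (taylorLaurent_injective τ) f

theorem laurentAt_injective (τ : ℍ) : Function.Injective (laurentAt τ) :=
  (laurentAt τ).injective

theorem laurentAt_const (τ : ℍ) (c : ℂ) :
    laurentAt τ (algebraMap holoRing MerH (algebraMap ℂ holoRing c)) = HahnSeries.C c := by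
  rw [laurentAt_algebraMap, AlgHom.commutes, PowerSeries.algebraMap_apply,
    Algebra.algebraMap_self, RingHom.id_apply, HahnSeries.ofPowerSeries_C]

theorem order_laurentAt_algebraMap (τ : ℍ) {f : holoRing} (hf : f ≠ 0) :
    (laurentAt τ (algebraMap holoRing MerH f)).order = ((ordAt τ (f : ℍ → ℂ)).toNat : ℤ) := by
  rw [laurentAt_algebraMap]
  refine order_ofPowerSeries ?_
  rw [order_taylorAt, ENat.natCast_toNat (ordAt_ne_top f.2 (fun h => hf (Subtype.ext h)) τ)]

theorem leadingCoeff_laurentAt_algebraMap (τ : ℍ) {f : holoRing} (hf : f ≠ 0) :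
    (laurentAt τ (algebraMap holoRing MerH f)).leadingCoeff
      = taylorCoeff τ (f : ℍ → ℂ) (ordAt τ (f : ℍ → ℂ)).toNat := by
  rw [laurentAt_algebraMap, leadingCoeff_ofPowerSeries (n := (ordAt τ (f : ℍ → ℂ)).toNat),
    coeff_taylorAt]
  rw [order_taylorAt, ENat.natCast_toNat (ordAt_ne_top f.2 (fun h => hf (Subtype.ext h)) τ)]

/-! ### the `SL(2, ℤ)`-action on `MerH` -/

/-- The action of `SL(2, ℤ)` on `MerH` extending `(γ • f) τ = f (γ⁻¹ • τ)`. -/
noncomputable instance instMulSemiringActionMerH : MulSemiringAction SL(2, ℤ) MerH :=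
  IsFractionRing.mulSemiringAction SL(2, ℤ) holoRing MerH

theorem smul_algebraMap_MerH (γ : SL(2, ℤ)) (f : holoRing) :
    γ • algebraMap holoRing MerH f = algebraMap holoRing MerH (γ • f) :=
  IsFractionRing.ringEquivOfRingEquiv_algebraMap (MulSemiringAction.toRingEquiv SL(2, ℤ) holoRing γ) f

/-- The ring automorphism of `MerH` given by `γ`. -/
noncomputable def merSL (γ : SL(2, ℤ)) : MerH ≃+* MerH :=
  MulSemiringAction.toRingEquiv SL(2, ℤ) MerH γ

@[simp]
theorem merSL_apply (γ : SL(2, ℤ)) (F : MerH) : merSL γ F = γ • F := rfl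

/-- **Rotation lemma, order + leading coefficient form**, on `MerH`. -/
theorem laurentAt_smul (γ : SL(2, ℤ)) (τ : ℍ) (F : MerH) :
    (laurentAt τ (γ • F)).order = (laurentAt (γ⁻¹ • τ) F).order ∧
    (laurentAt τ (γ • F)).leadingCoeff
      = (1 / denom ((γ⁻¹ : SL(2, ℤ)) : GL (Fin 2) ℝ) (τ : ℂ) ^ 2) ^ (laurentAt (γ⁻¹ • τ) F).order
        * (laurentAt (γ⁻¹ • τ) F).leadingCoeff := by
  have hd : denom ((γ⁻¹ : SL(2, ℤ)) : GL (Fin 2) ℝ) (τ : ℂ) ≠ 0 := denom_ne_zero _ τ
  have hζ : (1 / denom ((γ⁻¹ : SL(2, ℤ)) : GL (Fin 2) ℝ) (τ : ℂ) ^ 2) ≠ 0 :=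
    one_div_ne_zero (pow_ne_zero _ hd)
  refine order_leadingCoeff_transfer (A := holoRing)
    ((laurentAt τ).comp (merSL γ : MerH →+* MerH)) (laurentAt (γ⁻¹ • τ)) _ hζ ?_ F
  intro f hf
  have hγf : γ • f ≠ 0 := by
    intro h
    apply hf
    have := congrArg (fun g => γ⁻¹ • g) h
    simpa using this
  have hord : ordAt τ ((γ • f : holoRing) : ℍ → ℂ) = ordAt (γ⁻¹ • τ) (f : ℍ → ℂ) := by
    have := ordAt_smul_holoRing γ f (γ⁻¹ • τ)
    rwa [smul_inv_smul] at this
  have hne := ordAt_ne_top f.2 (fun h => hf (Subtype.ext h)) (γ⁻¹ • τ)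
  simp only [RingHom.coe_comp, RingHom.coe_coe, Function.comp_apply, merSL_apply]
  rw [smul_algebraMap_MerH, order_laurentAt_algebraMap τ hγf,
    order_laurentAt_algebraMap _ hf, leadingCoeff_laurentAt_algebraMap τ hγf,
    leadingCoeff_laurentAt_algebraMap _ hf, hord]
  refine ⟨rfl, ?_⟩
  rw [zpow_natCast]
  exact taylorCoeff_smul_holoRing γ f τ (ENat.natCast_toNat hne).symm

theorem order_laurentAt_smul (γ : SL(2, ℤ)) (τ : ℍ) (F : MerH) :
    (laurentAt τ (γ • F)).order = (laurentAt (γ⁻¹ • τ) F).order :=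
  (laurentAt_smul γ τ F).1

theorem leadingCoeff_laurentAt_smul (γ : SL(2, ℤ)) (τ : ℍ) (F : MerH) :
    (laurentAt τ (γ • F)).leadingCoeff
      = (1 / denom ((γ⁻¹ : SL(2, ℤ)) : GL (Fin 2) ℝ) (τ : ℂ) ^ 2) ^ (laurentAt (γ⁻¹ • τ) F).order
        * (laurentAt (γ⁻¹ • τ) F).leadingCoeff :=
  (laurentAt_smul γ τ F).2

/-- Fixed-point version, in exactly the shape of the `LocalData` fields
`σ_perm_order` / `σ_perm_leadingCoeff`. -/
theorem laurentAt_smul_of_fixed {γ : SL(2, ℤ)} {τ : ℍ} (hτ : γ • τ = τ) (F : MerH) :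
    (laurentAt τ (γ • F)).order = (laurentAt τ F).order ∧
    (laurentAt τ (γ • F)).leadingCoeff
      = (1 / denom ((γ⁻¹ : SL(2, ℤ)) : GL (Fin 2) ℝ) (τ : ℂ) ^ 2) ^ (laurentAt τ F).order
        * (laurentAt τ F).leadingCoeff := by
  have h := laurentAt_smul γ τ F
  have hfix : γ⁻¹ • τ = τ := by
    rw [inv_smul_eq_iff, hτ]
  rwa [hfix] at h

end Fermat.Agent.S24.H624

end
-- ===== PACK-END S24/H624/Laurent.lean

-- ===== PACK-BEGIN S24/H624/Elliptic.lean
section


/-!
# Elliptic fixed points: the rotation factor is a primitive 2nd / 3rd root of unity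
-/

set_option autoImplicit false

namespace Fermat.Agent.S24.H624

open UpperHalfPlane Complex
open scoped Manifold Topology MatrixGroups

/-- The factor by which `γ` rotates leading coefficients at `τ`
(the derivative of `z ↦ γ⁻¹ • z` at `τ`). -/
noncomputable def rotFactor (γ : SL(2, ℤ)) (τ : ℍ) : ℂ :=
  1 / denom ((γ⁻¹ : SL(2, ℤ)) : GL (Fin 2) ℝ) (τ : ℂ) ^ 2

theorem rotFactor_def (γ : SL(2, ℤ)) (τ : ℍ) :
    rotFactor γ τ = 1 / denom ((γ⁻¹ : SL(2, ℤ)) : GL (Fin 2) ℝ) (τ : ℂ) ^ 2 := rfl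

theorem rotFactor_ne_zero (γ : SL(2, ℤ)) (τ : ℍ) : rotFactor γ τ ≠ 0 :=
  one_div_ne_zero (pow_ne_zero _ (denom_ne_zero _ τ))

/-- `LocalData`-shaped statement with `rotFactor`. -/
theorem laurentAt_smul_fixed_rotFactor {γ : SL(2, ℤ)} {τ : ℍ} (hτ : γ • τ = τ) (F : MerH) :
    (laurentAt τ (γ • F)).order = (laurentAt τ F).order ∧
    (laurentAt τ (γ • F)).leadingCoeff
      = rotFactor γ τ ^ (laurentAt τ F).order * (laurentAt τ F).leadingCoeff :=
  laurentAt_smul_of_fixed hτ F

theorem trace_inv_SL (γ : SL(2, ℤ)) : (γ⁻¹) 0 0 + (γ⁻¹) 1 1 = γ 0 0 + γ 1 1 := by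
  rw [Matrix.SpecialLinearGroup.coe_inv, Matrix.adjugate_fin_two]
  simp
  ring

theorem inv_smul_of_fixed {γ : SL(2, ℤ)} {τ : ℍ} (hτ : γ • τ = τ) : γ⁻¹ • τ = τ := by
  rw [inv_smul_eq_iff, hτ]

theorem rotFactor_eq_neg_one {γ : SL(2, ℤ)} {τ : ℍ} (hτ : γ • τ = τ)
    (htr : γ 0 0 + γ 1 1 = 0) : rotFactor γ τ = -1 := by
  have h2 := denom_sq_eq_of_fixed (inv_smul_of_fixed hτ)
  rw [trace_inv_SL, htr] at h2
  simp only [Int.cast_zero, zero_mul, zero_sub] at h2
  rw [rotFactor_def, h2]
  norm_num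

theorem isPrimitiveRoot_rotFactor_two {γ : SL(2, ℤ)} {τ : ℍ} (hτ : γ • τ = τ)
    (htr : γ 0 0 + γ 1 1 = 0) : IsPrimitiveRoot (rotFactor γ τ) 2 := by
  rw [rotFactor_eq_neg_one hτ htr]
  exact IsPrimitiveRoot.neg_one 0 (by norm_num)

theorem isPrimitiveRoot_three_of_root {μ : ℂ} (hμ : μ ^ 2 + μ + 1 = 0) : IsPrimitiveRoot μ 3 := by
  have h3 : μ ^ 3 = 1 := by linear_combination (μ - 1) * hμ
  refine IsPrimitiveRoot.mk_of_lt μ (by norm_num) h3 ?_
  intro l hl0 hl3 hl
  have : 3 ∣ l := three_dvd_of_root hμ hl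
  omega

theorem isPrimitiveRoot_rotFactor_three {γ : SL(2, ℤ)} {τ : ℍ} (hτ : γ • τ = τ)
    (htr : γ 0 0 + γ 1 1 = 1 ∨ γ 0 0 + γ 1 1 = -1) : IsPrimitiveRoot (rotFactor γ τ) 3 := by
  have h2 := denom_sq_eq_of_fixed (inv_smul_of_fixed hτ)
  rw [trace_inv_SL] at h2
  set lam := denom ((γ⁻¹ : SL(2, ℤ)) : GL (Fin 2) ℝ) (τ : ℂ) with hlam
  have hlam0 : lam ≠ 0 := denom_ne_zero _ τ
  have hμ : (lam ^ 2) ^ 2 + lam ^ 2 + 1 = 0 := by
    rcases htr with htr | htr
    · rw [htr] at h2
      simp only [Int.cast_one, one_mul] at h2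
      linear_combination (lam ^ 2 + lam + 1) * h2
    · rw [htr] at h2
      simp only [Int.cast_neg, Int.cast_one, neg_mul, one_mul] at h2
      linear_combination (lam ^ 2 - lam + 1) * h2
  apply isPrimitiveRoot_three_of_root
  rw [rotFactor_def, ← hlam]
  have h4 : (lam ^ 2) ≠ 0 := pow_ne_zero _ hlam0
  field_simp
  linear_combination hμ

theorem S_smul_I : ModularGroup.S • UpperHalfPlane.I = UpperHalfPlane.I := by
  rw [modular_S_smul]
  ext
  simp [UpperHalfPlane.coe_I, Complex.inv_I]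

theorem trace_S : (ModularGroup.S : SL(2, ℤ)) 0 0 + (ModularGroup.S : SL(2, ℤ)) 1 1 = 0 := by
  decide

theorem trace_ST :
    (ModularGroup.S * ModularGroup.T : SL(2, ℤ)) 0 0
      + (ModularGroup.S * ModularGroup.T : SL(2, ℤ)) 1 1 = 1 := by
  decide

/-- The point `ρ = -1/2 + (√3/2) i`. -/
noncomputable def rhoH : ℍ :=
  ⟨⟨-1 / 2, Real.sqrt 3 / 2⟩, by
    show (0 : ℝ) < Real.sqrt 3 / 2
    positivity⟩

theorem rhoH_coe : (rhoH : ℂ) = ⟨-1 / 2, Real.sqrt 3 / 2⟩ := rfl

theorem rhoH_sq : (rhoH : ℂ) ^ 2 + (rhoH : ℂ) + 1 = 0 := by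
  have h3 : Real.sqrt 3 * Real.sqrt 3 = 3 := Real.mul_self_sqrt (by norm_num)
  rw [rhoH_coe]
  apply Complex.ext
  · simp [pow_two]
    nlinarith
  · simp [pow_two]
    ring

theorem ST_smul_rhoH : (ModularGroup.S * ModularGroup.T) • rhoH = rhoH := by
  apply UpperHalfPlane.ext
  rw [coe_specialLinearGroup_apply]
  have h := rhoH_sq
  have hne : (rhoH : ℂ) + 1 ≠ 0 := by
    intro h0
    have : (rhoH : ℂ) = -1 := by linear_combination h0
    rw [this] at h
    norm_num at h
  have e00 : (ModularGroup.S * ModularGroup.T : SL(2, ℤ)) 0 0 = 0 := by decide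
  have e01 : (ModularGroup.S * ModularGroup.T : SL(2, ℤ)) 0 1 = -1 := by decide
  have e10 : (ModularGroup.S * ModularGroup.T : SL(2, ℤ)) 1 0 = 1 := by decide
  have e11 : (ModularGroup.S * ModularGroup.T : SL(2, ℤ)) 1 1 = 1 := by decide
  rw [e00, e01, e10, e11]
  simp only [algebraMap_int_eq, Int.coe_castRingHom, Int.cast_zero, Complex.ofReal_zero,
    zero_mul, Int.cast_neg, Int.cast_one, Complex.ofReal_neg, Complex.ofReal_one, zero_add,
    one_mul]
  rw [div_eq_iff hne]
  linear_combination -h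

theorem isPrimitiveRoot_rotFactor_S :
    IsPrimitiveRoot (rotFactor ModularGroup.S UpperHalfPlane.I) 2 :=
  isPrimitiveRoot_rotFactor_two S_smul_I trace_S

theorem isPrimitiveRoot_rotFactor_ST :
    IsPrimitiveRoot (rotFactor (ModularGroup.S * ModularGroup.T) rhoH) 3 :=
  isPrimitiveRoot_rotFactor_three ST_smul_rhoH (Or.inl trace_ST)

end Fermat.Agent.S24.H624

end
-- ===== PACK-END S24/H624/Elliptic.lean

-- ===== PACK-BEGIN S24/Mod/H997Taylor.lean
section




/-!
# S24 / MOD — the finite-point data of `AnalyticCore` from Taylor expansions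

For a `HolBase N` whose ring `Hol` consists of holomorphic functions and whose `J 1` is the
`j`-function, the three `PointData` fields of `AnalyticCore` are constructed from
helper624's Taylor/rotation package (`H624`) and helper47's local orders of `j` (`M7.H47`).
-/

set_option autoImplicit false

noncomputable section

open ModularCurve HahnSeries UpperHalfPlane ModularForm EisensteinSeries
open scoped MatrixGroups Manifold

namespace Fermat.Agent.S24.H997

open Fermat.Agent.S24.H624 Fermat.Agent.S20.L1 Fermat.Agent.S24.M7.H47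

variable {N : ℕ} [NeZero N]

/-- `Hol` consists of holomorphic functions and `J 1` is the `j`-function. -/
structure HolBase.IsHolo (B : HolBase N) : Prop where
  mdiff : ∀ f ∈ B.Hol, f ∈ holoRing
  J_one : B.J 1 = jFun

namespace HolBase

variable (B : HolBase N) (hB : B.IsHolo)

/-- the inclusion `Hol → holoRing` -/
def toHolo : B.Hol →+* holoRing where
  toFun h := ⟨h.1, hB.mdiff h.1 h.2⟩
  map_one' := rfl
  map_mul' _ _ := rfl
  map_zero' := rfl
  map_add' _ _ := rfl

theorem toHolo_injective : Function.Injective (B.toHolo hB) := by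
  intro x y h
  exact Subtype.ext (congrArg (fun f : holoRing => (f : ℍ → ℂ)) h)

theorem toHolo_compH (ε : SL(2, ℤ)) (h : B.Hol) :
    B.toHolo hB (B.compH ε h) = ε⁻¹ • B.toHolo hB h := by
  apply Subtype.ext
  funext τ
  rw [smul_holoRing_apply, inv_inv]
  rfl

/-- the Taylor expansion at `τ₀` as an `Expansion` -/
def taylorExpansion (τ₀ : ℍ) : Expansion B where
  E := (taylorLaurent τ₀).comp (B.toHolo hB)
  inj := (taylorLaurent_injective τ₀).comp (B.toHolo_injective hB)
  const c := by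
    show HahnSeries.ofPowerSeries ℤ ℂ (taylorAt τ₀ (B.toHolo hB (B.constH c))) = HahnSeries.C c
    have : B.toHolo hB (B.constH c) = algebraMap ℂ holoRing c := rfl
    rw [this, AlgHom.commutes, PowerSeries.algebraMap_apply, Algebra.algebraMap_self,
      RingHom.id_apply, HahnSeries.ofPowerSeries_C]

theorem taylorExpansion_E (τ₀ : ℍ) (h : B.Hol) :
    (B.taylorExpansion hB τ₀).E h
      = laurentAt τ₀ (algebraMap holoRing MerH (B.toHolo hB h)) :=
  (laurentAt_algebraMap τ₀ _).symm

/-- rotation data at a fixed point -/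
def taylorRot {τ₀ : ℍ} {ε : SL(2, ℤ)} (hε : ε • τ₀ = τ₀) (m : ℕ) (hm : 0 < m)
    (hζ : IsPrimitiveRoot (rotFactor ε⁻¹ τ₀) m) :
    RotData B (B.taylorExpansion hB τ₀) ε where
  m := m
  m_pos := hm
  ζ := rotFactor ε⁻¹ τ₀
  hζ := hζ
  rot h := by
    have hfix : ε⁻¹ • τ₀ = τ₀ := inv_smul_of_fixed hε
    rw [taylorExpansion_E, taylorExpansion_E, toHolo_compH, ← smul_algebraMap_MerH]
    exact laurentAt_smul_fixed_rotFactor hfix _

/-- trivial rotation data -/
def trivialRot (X : Expansion B) : RotData B X 1 where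
  m := 1
  m_pos := one_pos
  ζ := 1
  hζ := IsPrimitiveRoot.one
  rot h := by
    rw [B.compH_one]
    exact ⟨rfl, by simp⟩

theorem taylor_order_J (τ₀ : ℍ) (a : ℂ) (ha : jFun τ₀ = a) (m : ℕ)
    (hord : analyticOrderAt (fun w : ℂ => jFun (ofComplex w) - jFun τ₀) (τ₀ : ℂ) = m) :
    ((B.taylorExpansion hB τ₀).E (B.JH 1 (one_dvd N) - B.constH a)).order = (m : ℤ) := by
  show (HahnSeries.ofPowerSeries ℤ ℂ (taylorAt τ₀ (B.toHolo hB _))).order = _
  apply order_ofPowerSeries
  rw [order_taylorAt, ordAt_def, ← hord]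
  congr 1
  funext w
  show B.J 1 (ofComplex w) - a = _
  rw [hB.J_one, ha]

/-- the point data over a generic value -/
def genericPoint (a : ℂ) (h0 : a ≠ 0) (h1 : a ≠ 1728) : PointData B a 1 :=
  let τ₀ : ℍ := (jFun_surjective a).choose
  have hτ₀ : jFun τ₀ = a := (jFun_surjective a).choose_spec
  { X := B.taylorExpansion hB τ₀
    R := B.trivialRot _
    order_J := by
      have h4 : E₄ τ₀ ≠ 0 := fun h => h0 (hτ₀ ▸ (jFun_eq_zero_iff τ₀).mpr h)
      have h6 : E₆ τ₀ ≠ 0 := fun h => h1 (hτ₀ ▸ (jFun_eq_1728_iff τ₀).mpr h)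
      have := B.taylor_order_J hB τ₀ a hτ₀ 1
        (by exact_mod_cast analyticOrderAt_jFun_sub_generic h4 h6)
      exact this }

/-- the point data over `1728` (at `i`, rotation by `S`) -/
def point1728 : PointData B 1728 ModularGroup.S where
  X := B.taylorExpansion hB UpperHalfPlane.I
  R := B.taylorRot hB (τ₀ := UpperHalfPlane.I) (ε := ModularGroup.S)
    Fermat.Agent.S24.H624.S_smul_I 2 two_pos
    (isPrimitiveRoot_rotFactor_two (inv_smul_of_fixed Fermat.Agent.S24.H624.S_smul_I)
      (by rw [trace_inv_SL]; exact trace_S))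
  order_J := by
    have := B.taylor_order_J hB UpperHalfPlane.I 1728 jFun_I 2
      (by exact_mod_cast analyticOrderAt_jFun_sub_of_E₆ E₆_I)
    exact this

/-- the point data over `0` (at `ρ`, rotation by `S * T`) -/
def point0 : PointData B 0 (ModularGroup.S * ModularGroup.T) where
  X := B.taylorExpansion hB rho
  R := B.taylorRot hB (τ₀ := rho) (ε := ModularGroup.S * ModularGroup.T)
    ST_smul_rho 3 (by norm_num)
    (isPrimitiveRoot_rotFactor_three (inv_smul_of_fixed ST_smul_rho)
      (by rw [trace_inv_SL]; exact Or.inl trace_ST))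
  order_J := by
    have := B.taylor_order_J hB rho 0 jFun_rho 3
      (by exact_mod_cast analyticOrderAt_jFun_sub_of_E₄ E₄_rho)
    exact this

/-- **`AnalyticCore` from a holomorphic `HolBase` with `T`-shift.** -/
def toAnalyticCore (ζ : ℂ) (hζ : IsPrimitiveRoot ζ N)
    (hshift : ∀ (h : B.Hol) (n : ℤ),
      (B.qexp (B.compH ModularGroup.T h)).coeff n = ζ ^ n * (B.qexp h).coeff n) :
    AnalyticCore N where
  toHolBase := B
  generic := B.genericPoint hB
  at1728 := B.point1728 hB
  at0 := B.point0 hB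
  infζ := ζ
  inf_hζ := hζ
  inf_shift := hshift

end HolBase

end Fermat.Agent.S24.H997

end
end
-- ===== PACK-END S24/Mod/H997Taylor.lean

-- ===== PACK-BEGIN S37/Core/PlaceRed.lean
section



/-!
# S37 row (helper37): from a place reduction map to the frozen statement

`PlaceRed N A ℓ σ₀` is the geometric datum to be constructed by the row:
a map `r` from the places of `ℚ̄(X₀(N))` to the places of the function field of the special
fibre such that
* `isRed`, `gen` : `r` witnesses `ReductionInputsModL A N` (Prelude);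
* `inertia` : `r (τ • P) = r P` for `τ` in the inertia group at `A`;
* `es` : Eichler-Shimura on divisors, `r_* (T_ℓ P) = r (σ₀ P) + ℓ · r (σ₀⁻¹ P)`.

`specialization_of_placeRed` turns it (together with `HeckeInputsAlong` and the conclusion of
the frozen statement S18, both taken as hypotheses) into the conclusion of S37 at `(ℓ, A)`.
Everything here is fully proved.
-/

set_option autoImplicit false
set_option synthInstance.maxHeartbeats 400000

noncomputable section

namespace Fermat.Agent.S37.Core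

open ModularCurve ValuationSubring AlgebraicCurve HahnSeries

/-- the conclusion of the frozen statement S18 at `(N, ℓ, A)` -/
def InjTorsionModL (N : ℕ) [NeZero N] (ℓ : ℕ) (A : ValuationSubring (AlgebraicClosure ℚ)) :
    Prop :=
  ∀ (_ : ReductionInputsModL A N) (m : ℕ), ¬ ℓ ∣ m → ∀ z : JZero N, m • z = 0 →
    reductionModL A N z = 0 → z = 0

/-- The geometric datum: a place reduction map with inertia invariance and the
Eichler-Shimura congruence on divisors, relative to one Frobenius element `σ₀`. -/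
structure PlaceRed (N : ℕ) [NeZero N] (A : ValuationSubring (AlgebraicClosure ℚ)) (ℓ : ℕ)
    [NeZero ℓ] (σ₀ : AlgebraicClosure ℚ ≃ₐ[ℚ] AlgebraicClosure ℚ) : Type where
  /-- the reduction map on places -/
  r : Place (AlgebraicClosure ℚ) (modularFunctionFieldBar N) →
    Place (IsLocalRing.ResidueField A) (modularFunctionFieldFullC (IsLocalRing.ResidueField A) N)
  isRed : IsPlaceReductionModL A N r
  gen : PrincipalGeneratedByIntegral A (IsLocalRing.residue A) N
  inertia : ∀ τ ∈ A.inertiaSubgroupIn ℚ,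
    ∀ P : Place (AlgebraicClosure ℚ) (modularFunctionFieldBar N),
      r (arithmeticGalois (modularFunctionFieldFull N) τ • P) = r P
  es : ∀ (hα : HeckeAlphaBarIntegral (AlgebraicClosure ℚ) N ℓ)
    (hβ : HeckeBetaBarIntegral (AlgebraicClosure ℚ) N ℓ)
    [HasPrincipalDivisors (AlgebraicClosure ℚ) (modularFunctionFieldBar (N * ℓ))]
    (P : Place (AlgebraicClosure ℚ) (modularFunctionFieldBar N)),
    Finsupp.mapDomain r (heckeDivBar hα hβ (Finsupp.single P 1)) =
      Finsupp.single (r (arithmeticGalois (modularFunctionFieldFull N) σ₀ • P)) 1 +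
        Finsupp.single (r ((arithmeticGalois (modularFunctionFieldFull N) σ₀)⁻¹ • P)) (ℓ : ℤ)

section Torsion

variable {L : Type*} [Field L] [Algebra ℚ L] {A : ValuationSubring L}
variable {k : Type*} [Field k] {π : A →+* k} {N : ℕ}

/-- two place reductions agree on principal divisors -/
theorem mapDomain_eq_of_mem_principal
    {r₁ r₂ : Place L (laurentBaseChange L (modularFunctionFieldFull N)) →
      Place k (modularFunctionFieldFullC k N)}
    (h₁ : IsPlaceReductionAlong A π N r₁) (h₂ : IsPlaceReductionAlong A π N r₂)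
    (hgen : PrincipalGeneratedByIntegral A π N)
    {D : Divisor L (laurentBaseChange L (modularFunctionFieldFull N))}
    (hD : D ∈ Divisor.principal (K := L) (F := laurentBaseChange L (modularFunctionFieldFull N))) :
    Finsupp.mapDomain r₁ D = Finsupp.mapDomain r₂ D := by
  have hD' := hgen hD
  clear hD
  induction hD' using AddSubgroup.closure_induction with
  | mem E hE =>
    obtain ⟨y, hy, hyk, hne, hDy⟩ := hE
    ext Q
    rw [h₁.2 y hy hyk hne E hDy Q, h₂.2 y hy hyk hne E hDy Q]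
  | zero => rw [Finsupp.mapDomain_zero, Finsupp.mapDomain_zero]
  | add E E' _ _ hE hE' => rw [Finsupp.mapDomain_add, Finsupp.mapDomain_add, hE, hE']
  | neg E _ hE =>
    rw [← Finsupp.mapDomain.addMonoidHom_apply, ← Finsupp.mapDomain.addMonoidHom_apply, map_neg,
      map_neg, Finsupp.mapDomain.addMonoidHom_apply, Finsupp.mapDomain.addMonoidHom_apply, hE]

/-- two place reductions agree on divisors some nonzero multiple of which is principal -/
theorem mapDomain_eq_of_nsmul_mem_principal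
    {r₁ r₂ : Place L (laurentBaseChange L (modularFunctionFieldFull N)) →
      Place k (modularFunctionFieldFullC k N)}
    (h₁ : IsPlaceReductionAlong A π N r₁) (h₂ : IsPlaceReductionAlong A π N r₂)
    (hgen : PrincipalGeneratedByIntegral A π N)
    {D : Divisor L (laurentBaseChange L (modularFunctionFieldFull N))} {m : ℕ} (hm : m ≠ 0)
    (hD : m • D ∈
      Divisor.principal (K := L) (F := laurentBaseChange L (modularFunctionFieldFull N))) :
    Finsupp.mapDomain r₁ D = Finsupp.mapDomain r₂ D := by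
  have h := mapDomain_eq_of_mem_principal h₁ h₂ hgen hD
  rw [← Finsupp.mapDomain.addMonoidHom_apply, ← Finsupp.mapDomain.addMonoidHom_apply,
    map_nsmul, map_nsmul, Finsupp.mapDomain.addMonoidHom_apply,
    Finsupp.mapDomain.addMonoidHom_apply] at h
  ext Q
  have hQ := DFunLike.congr_fun h Q
  rw [Finsupp.smul_apply, Finsupp.smul_apply, nsmul_eq_mul, nsmul_eq_mul] at hQ
  exact mul_left_cancel₀ (Nat.cast_ne_zero.mpr hm) hQ

/-- on torsion classes the reduction map does not depend on the place reduction -/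
theorem reductionPic0Along_eq_of_nsmul_eq_zero
    {r₁ r₂ : Place L (laurentBaseChange L (modularFunctionFieldFull N)) →
      Place k (modularFunctionFieldFullC k N)}
    (h₁ : IsPlaceReductionAlong A π N r₁) (h₂ : IsPlaceReductionAlong A π N r₂)
    (hgen : PrincipalGeneratedByIntegral A π N) {m : ℕ} (hm : m ≠ 0)
    {x : Pic0 L (laurentBaseChange L (modularFunctionFieldFull N))} (hx : m • x = 0) :
    reductionPic0Along r₁ h₁ hgen x = reductionPic0Along r₂ h₂ hgen x := by
  obtain ⟨D, rfl⟩ := Pic0.mk_surjective x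
  rw [reductionPic0Along_mk, reductionPic0Along_mk]
  congr 1
  apply Subtype.ext
  rw [coe_reductionDegZeroAlong, coe_reductionDegZeroAlong]
  refine mapDomain_eq_of_nsmul_mem_principal h₁ h₂ hgen hm ?_
  have h0 : (m • D : Divisor.degZero (K := L)
      (F := laurentBaseChange L (modularFunctionFieldFull N))) ∈
      (Divisor.principal (K := L)
        (F := laurentBaseChange L (modularFunctionFieldFull N))).addSubgroupOf
        (Divisor.degZero (K := L) (F := laurentBaseChange L (modularFunctionFieldFull N))) := by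
    rw [← QuotientAddGroup.eq_zero_iff]
    exact hx
  rw [AddSubgroup.mem_addSubgroupOf, AddSubgroupClass.coe_nsmul] at h0
  exact h0

end Torsion

section Main

variable {N : ℕ} [NeZero N] {A : ValuationSubring (AlgebraicClosure ℚ)} {ℓ : ℕ} [NeZero ℓ]
  {σ₀ : AlgebraicClosure ℚ ≃ₐ[ℚ] AlgebraicClosure ℚ}

/-- the reduction map on `J₀(N)` attached to a `PlaceRed` -/
def PlaceRed.red (D : PlaceRed N A ℓ σ₀) : JZero N →+ JZeroC (IsLocalRing.ResidueField A) N :=
  reductionPic0Along D.r D.isRed D.gen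

theorem PlaceRed.red_mk (D : PlaceRed N A ℓ σ₀)
    (E : Divisor.degZero (K := AlgebraicClosure ℚ) (F := modularFunctionFieldBar N)) :
    D.red (Pic0.mk E) = Pic0.mk (reductionDegZeroAlong D.r D.isRed.1 E) := rfl

theorem PlaceRed.reductionInputs (D : PlaceRed N A ℓ σ₀) : ReductionInputsModL A N :=
  ⟨D.r, D.isRed, D.gen⟩

/-- on torsion classes `D.red` is the Prelude reduction map -/
theorem PlaceRed.red_eq_reductionModL (D : PlaceRed N A ℓ σ₀) {m : ℕ} (hm : m ≠ 0)
    {x : JZero N} (hx : m • x = 0) : D.red x = reductionModL A N x := by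
  have h := D.reductionInputs
  show reductionPic0Along D.r D.isRed D.gen x = reductionAlong A (IsLocalRing.residue A) N x
  rw [reductionAlong_eq h]
  exact reductionPic0Along_eq_of_nsmul_eq_zero D.isRed h.choose_spec.1 D.gen hm hx

/-- inertia acts trivially after reduction -/
theorem PlaceRed.red_inertia (D : PlaceRed N A ℓ σ₀)
    {τ : AlgebraicClosure ℚ ≃ₐ[ℚ] AlgebraicClosure ℚ} (hτ : τ ∈ A.inertiaSubgroupIn ℚ)
    (x : JZero N) : D.red (τ • x) = D.red x := by
  obtain ⟨E, rfl⟩ := Pic0.mk_surjective x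
  rw [galois_smul_pic0_def, SemilinearAut.pic0_smul_mk, D.red_mk, D.red_mk]
  congr 1
  apply Subtype.ext
  rw [coe_reductionDegZeroAlong, coe_reductionDegZeroAlong, SemilinearAut.coe_degZeroSMulHom,
    SemilinearAut.divisor_smul_def, ← Finsupp.mapDomain_comp]
  congr 1
  funext P
  exact D.inertia τ hτ P

/-- injectivity on prime-to-`ℓ` torsion, from the conclusion of S18 -/
theorem PlaceRed.red_inj_torsion (D : PlaceRed N A ℓ σ₀) (hS18 : InjTorsionModL N ℓ A)
    {m : ℕ} (hm : ¬ ℓ ∣ m) {x : JZero N} (hx : m • x = 0) (h0 : D.red x = 0) : x = 0 := by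
  have hm0 : m ≠ 0 := fun h => hm (h ▸ dvd_zero ℓ)
  refine hS18 D.reductionInputs m hm x hx ?_
  rw [← D.red_eq_reductionModL hm0 hx]
  exact h0

/-- the Eichler-Shimura relation on divisors -/
theorem PlaceRed.mapDomain_relation (D : PlaceRed N A ℓ σ₀)
    (hα : HeckeAlphaBarIntegral (AlgebraicClosure ℚ) N ℓ)
    (hβ : HeckeBetaBarIntegral (AlgebraicClosure ℚ) N ℓ)
    [HasPrincipalDivisors (AlgebraicClosure ℚ) (modularFunctionFieldBar (N * ℓ))]
    (E : Divisor (AlgebraicClosure ℚ) (modularFunctionFieldBar N)) :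
    Finsupp.mapDomain D.r
      (arithmeticGalois (modularFunctionFieldFull N) σ₀ •
          arithmeticGalois (modularFunctionFieldFull N) σ₀ • E -
        heckeDivBar hα hβ (arithmeticGalois (modularFunctionFieldFull N) σ₀ • E) +
        ℓ • E) = 0 := by
  set g := arithmeticGalois (modularFunctionFieldFull N) σ₀ with hg
  let Ψ : Divisor (AlgebraicClosure ℚ) (modularFunctionFieldBar N) →+
      Divisor (IsLocalRing.ResidueField A)
        (modularFunctionFieldFullC (IsLocalRing.ResidueField A) N) :=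
    (Finsupp.mapDomain.addMonoidHom D.r).comp
      ((DistribSMul.toAddMonoidHom _ g).comp (DistribSMul.toAddMonoidHom _ g) -
        (heckeDivBar hα hβ).comp (DistribSMul.toAddMonoidHom _ g) +
        ℓ • AddMonoidHom.id _)
  have hΨ : Ψ = 0 := by
    refine Finsupp.addHom_ext' fun P => ?_
    refine AddMonoidHom.ext_int ?_
    show Finsupp.mapDomain D.r (g • g • Finsupp.single P 1 -
      heckeDivBar hα hβ (g • Finsupp.single P 1) + ℓ • Finsupp.single P 1) = 0
    rw [SemilinearAut.smul_single, SemilinearAut.smul_single, Finsupp.mapDomain_add,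
      Finsupp.mapDomain_sub, D.es hα hβ (g • P), inv_smul_smul, Finsupp.mapDomain_single,
      Finsupp.smul_single, Finsupp.mapDomain_single, nsmul_eq_mul, mul_one]
    abel
  exact DFunLike.congr_fun hΨ E

end Main

end Fermat.Agent.S37.Core

end
end
-- ===== PACK-END S37/Core/PlaceRed.lean

-- ===== PACK-BEGIN S37/Core/Assemble.lean
section


/-!
# S37 row (helper37): assembly

`result_of_pieces` : the frozen statement S37 from the three top-level pieces
* `hHIA`  : `HeckeInputsAlong ℚ̄ N ℓ` (so that the Prelude `T_ℓ` is the honest correspondence),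
* `hS18`  : the conclusion of the frozen statement S18,
* `hPR`   : a `PlaceRed N A ℓ σ₀` for every Frobenius element `σ₀` at `A`.
Fully proved.
-/

set_option autoImplicit false
set_option synthInstance.maxHeartbeats 400000

noncomputable section

namespace Fermat.Agent.S37.Core

open ModularCurve ValuationSubring AlgebraicCurve HahnSeries Fermat.Agent.S37.H99

section Main

variable {N : ℕ} [NeZero N] {A : ValuationSubring (AlgebraicClosure ℚ)} {ℓ : ℕ} [NeZero ℓ]
  {σ₀ : AlgebraicClosure ℚ ≃ₐ[ℚ] AlgebraicClosure ℚ}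

/-- the Eichler-Shimura relation after reduction -/
theorem PlaceRed.red_relation (D : PlaceRed N A ℓ σ₀)
    (HIA : HeckeInputsAlong (AlgebraicClosure ℚ) N ℓ) (x : JZero N) :
    D.red (σ₀ • σ₀ • x - heckeOperatorAlong (AlgebraicClosure ℚ) N ℓ (σ₀ • x) + ℓ • x) = 0 := by
  obtain ⟨hα, hβ, hP, hfin, hFI, hN⟩ := HIA
  haveI := hP
  rw [heckeOperatorAlong_eq hα hβ hFI hfin hN]
  obtain ⟨E, rfl⟩ := Pic0.mk_surjective x
  set g := arithmeticGalois (modularFunctionFieldFull N) σ₀ with hg
  have e1 : σ₀ • σ₀ • Pic0.mk E - heckePic0Bar hα hβ hFI hfin hN (σ₀ • Pic0.mk E) + ℓ • Pic0.mk E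
      = Pic0.mk (SemilinearAut.degZeroSMulHom g (SemilinearAut.degZeroSMulHom g E) -
          Pic0.degZeroCorrespondence (heckeBetaBar (AlgebraicClosure ℚ) N ℓ)
            (heckeAlphaBar (AlgebraicClosure ℚ) N ℓ) hβ hα hFI (SemilinearAut.degZeroSMulHom g E) +
          ℓ • E) := rfl
  rw [e1, D.red_mk]
  have e2 : reductionDegZeroAlong D.r D.isRed.1
      (SemilinearAut.degZeroSMulHom g (SemilinearAut.degZeroSMulHom g E) -
          Pic0.degZeroCorrespondence (heckeBetaBar (AlgebraicClosure ℚ) N ℓ)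
            (heckeAlphaBar (AlgebraicClosure ℚ) N ℓ) hβ hα hFI (SemilinearAut.degZeroSMulHom g E) +
          ℓ • E) = 0 := by
    apply Subtype.ext
    rw [coe_reductionDegZeroAlong]
    exact D.mapDomain_relation hα hβ (E : Divisor (AlgebraicClosure ℚ) (modularFunctionFieldBar N))
  rw [e2]
  rfl

end Main

/-- **S37 at one place from the pieces.** -/
theorem isWeakRed_of_placeRed (N p : ℕ) [NeZero N] (hcomm : HeckeOperatorsCommuteBar N)
    (A : ValuationSubring (AlgebraicClosure ℚ)) (ℓ : ℕ) (hℓ : ℓ.Prime) (hℓp : ¬ ℓ ∣ p)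
    (σ₀ : AlgebraicClosure ℚ ≃ₐ[ℚ] AlgebraicClosure ℚ) (hσ₀ : A.IsFrobeniusAt σ₀ ℓ)
    (HIA : haveI : NeZero ℓ := ⟨hℓ.ne_zero⟩; HeckeInputsAlong (AlgebraicClosure ℚ) N ℓ)
    (hS18 : InjTorsionModL N ℓ A)
    (D : haveI : NeZero ℓ := ⟨hℓ.ne_zero⟩; PlaceRed N A ℓ σ₀) :
    letI := heckeModuleBar N
    ∀ (_ : SMulCommClass (AlgebraicClosure ℚ ≃ₐ[ℚ] AlgebraicClosure ℚ) HeckeAlg (JZero N)),
      IsWeakRed (K := ℚ) p (JZero N) A ℓ hℓ σ₀
        (haveI : NeZero ℓ := ⟨hℓ.ne_zero⟩; D.red) := by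
  letI := heckeModuleBar N
  haveI : NeZero ℓ := ⟨hℓ.ne_zero⟩
  intro _
  refine ⟨hσ₀, fun τ hτ x => D.red_inertia hτ x, ?_, ?_⟩
  · rintro x ⟨n, hn⟩ hx
    refine D.red_inj_torsion hS18 (m := p ^ n) ?_ hn hx
    exact fun h => hℓp (hℓ.dvd_of_dvd_pow h)
  · intro x
    have h := D.red_relation HIA x
    rw [heckeModuleBar_heckeGen_smul hcomm ⟨ℓ, hℓ⟩ (σ₀ • x)]
    exact h

/-- **S37 from the three top-level pieces.** -/
theorem result_of_pieces (N p : ℕ) [NeZero N]
    (hHIA : ∀ (ℓ : ℕ) (hℓ : ℓ.Prime), ¬ ℓ ∣ N →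
      haveI : NeZero ℓ := ⟨hℓ.ne_zero⟩; HeckeInputsAlong (AlgebraicClosure ℚ) N ℓ)
    (hS18 : ∀ (ℓ : ℕ), ℓ.Prime → ¬ ℓ ∣ N →
      ∀ A : ValuationSubring (AlgebraicClosure ℚ), A.LiesOverPrime ℓ → InjTorsionModL N ℓ A)
    (hPR : ∀ (ℓ : ℕ) (hℓ : ℓ.Prime), ¬ ℓ ∣ N →
      ∀ A : ValuationSubring (AlgebraicClosure ℚ), A.LiesOverPrime ℓ →
        ∀ σ₀ : AlgebraicClosure ℚ ≃ₐ[ℚ] AlgebraicClosure ℚ, A.IsFrobeniusAt σ₀ ℓ →
          haveI : NeZero ℓ := ⟨hℓ.ne_zero⟩; Nonempty (PlaceRed N A ℓ σ₀))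
    (hcomm : ModularCurve.HeckeOperatorsCommuteBar N) :
    letI := ModularCurve.heckeModuleBar N
    ∀ (_ : SMulCommClass (AlgebraicClosure ℚ ≃ₐ[ℚ] AlgebraicClosure ℚ) ModularCurve.HeckeAlg
      (ModularCurve.JZero N)),
      ModularCurve.SpecializationExists (K := ℚ) (L := AlgebraicClosure ℚ) N p
        (ModularCurve.JZero N) := by
  letI := ModularCurve.heckeModuleBar N
  intro inst
  intro ℓ hℓ hdvd A hA
  have hℓN : ¬ ℓ ∣ N := fun h => hdvd (Dvd.dvd.mul_right h p)
  have hℓp : ¬ ℓ ∣ p := fun h => hdvd (Dvd.dvd.mul_left h N)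
  obtain ⟨σ₀, hσ₀⟩ := exists_isFrobeniusAt ℓ hℓ A hA
  haveI : NeZero ℓ := ⟨hℓ.ne_zero⟩
  obtain ⟨D⟩ := hPR ℓ hℓ hℓN A hA σ₀ hσ₀
  exact exists_specialization_of_isWeakRed p A ℓ hℓ σ₀ D.red
    (isWeakRed_of_placeRed N p hcomm A ℓ hℓ hℓp σ₀ hσ₀ (hHIA ℓ hℓ hℓN) (hS18 ℓ hℓ hℓN A hA) D inst)

end Fermat.Agent.S37.Core

end
end
-- ===== PACK-END S37/Core/Assemble.lean

-- ===== PACK-BEGIN S29/H882/Inter.lean
section


/-!
# S29 / MERO (helper882), part (C): `F_L ∩ K((q)) = F_K`

For a field embedding `ι : K → L` and `F₀ ≤ ℚ((q))`: a Laurent series `y` over `K` whose base change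
`coeffMap ι y` lies in `laurentBaseChange L F₀` already lies in `laurentBaseChange K F₀`.
-/

set_option autoImplicit false

noncomputable section

open Polynomial ModularCurve IntermediateField

namespace Fermat.Agent.S29.H882

open Fermat.Agent.S24 Fermat.Agent.S24.Deg457

section Span

variable (L : Type*) [Field L] [Algebra ℚ L] (F₀ : IntermediateField ℚ (LaurentSeries ℚ))

/-- `coeffEmb` as a `ℚ`-linear map (for the `ℚ`-structure on `L((q))` induced by `L`). -/
theorem coeffEmb_smul_rat (c : ℚ) (u : LaurentSeries ℚ) :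
    coeffEmb L (c • u) = (algebraMap ℚ L c) • coeffEmb L u := by
  ext k
  simp only [coeffEmb_coeff, HahnSeries.coeff_smul, smul_eq_mul, map_mul]

/-- The `L`-span of the image of `F₀`. -/
def spanImage : Submodule L (LaurentSeries L) :=
  Submodule.span L (⇑(coeffEmb L) '' (F₀ : Set (LaurentSeries ℚ)))

variable {L F₀}

theorem coeffEmb_mem_spanImage {u : LaurentSeries ℚ} (hu : u ∈ F₀) :
    coeffEmb L u ∈ spanImage L F₀ :=
  Submodule.subset_span ⟨u, hu, rfl⟩

theorem spanImage_le : (spanImage L F₀ : Set (LaurentSeries L)) ⊆ laurentBaseChange L F₀ := by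
  intro x hx
  refine Submodule.span_induction (p := fun x _ => x ∈ laurentBaseChange L F₀) ?_ ?_ ?_ ?_ hx
  · rintro _ ⟨u, hu, rfl⟩
    exact coeffEmb_mem_laurentBaseChange L hu
  · exact zero_mem _
  · intro a b _ _ ha hb
    exact add_mem ha hb
  · intro c a _ ha
    rw [hsmul_eq_algebraMap_mul]
    exact mul_mem ((laurentBaseChange L F₀).algebraMap_mem c) ha

theorem mul_mem_spanImage {a b : LaurentSeries L} (ha : a ∈ spanImage L F₀)
    (hb : b ∈ spanImage L F₀) : a * b ∈ spanImage L F₀ := by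
  refine Submodule.span_induction (p := fun a _ => a * b ∈ spanImage L F₀) ?_ ?_ ?_ ?_ ha
  · rintro _ ⟨u, hu, rfl⟩
    refine Submodule.span_induction (p := fun b _ => coeffEmb L u * b ∈ spanImage L F₀)
      ?_ ?_ ?_ ?_ hb
    · rintro _ ⟨v, hv, rfl⟩
      rw [← map_mul]
      exact coeffEmb_mem_spanImage (mul_mem hu hv)
    · rw [mul_zero]; exact zero_mem _
    · intro x y _ _ hx hy
      rw [mul_add]; exact add_mem hx hy
    · intro c x _ hx
      have : coeffEmb L u * c • x = c • (coeffEmb L u * x) := by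
        rw [hsmul_eq_algebraMap_mul, hsmul_eq_algebraMap_mul]; ring
      rw [this]; exact Submodule.smul_mem _ c hx
  · rw [zero_mul]; exact zero_mem _
  · intro x y _ _ hx hy
    rw [add_mul]; exact add_mem hx hy
  · intro c x _ hx
    have : c • x * b = c • (x * b) := by
      rw [hsmul_eq_algebraMap_mul, hsmul_eq_algebraMap_mul]; ring
    rw [this]; exact Submodule.smul_mem _ c hx

theorem one_mem_spanImage : (1 : LaurentSeries L) ∈ spanImage L F₀ := by
  have := coeffEmb_mem_spanImage (L := L) (F₀ := F₀) (one_mem F₀)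
  rwa [map_one] at this

theorem algebraMap_mem_spanImage (c : L) :
    algebraMap L (LaurentSeries L) c ∈ spanImage L F₀ := by
  have h : algebraMap L (LaurentSeries L) c = c • (1 : LaurentSeries L) := by
    rw [hsmul_eq_algebraMap_mul, mul_one]
  rw [h]
  exact Submodule.smul_mem _ c one_mem_spanImage

variable (L F₀) in
/-- The span as a subalgebra. -/
def spanAlg : Subalgebra L (LaurentSeries L) where
  carrier := spanImage L F₀
  mul_mem' := mul_mem_spanImage
  add_mem' := fun ha hb => add_mem ha hb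
  algebraMap_mem' := algebraMap_mem_spanImage

/-- Every element of the function field is a quotient of two elements of the span. -/
theorem exists_div_of_mem_laurentBaseChange {x : LaurentSeries L}
    (hx : x ∈ laurentBaseChange L F₀) :
    ∃ r ∈ spanImage L F₀, ∃ s ∈ spanImage L F₀, x = r / s := by
  rw [laurentBaseChange, IntermediateField.mem_adjoin_iff_div] at hx
  obtain ⟨r, hr, s, hs, rfl⟩ := hx
  have hle : Algebra.adjoin L (⇑(coeffEmb L) '' (F₀ : Set (LaurentSeries ℚ))) ≤ spanAlg L F₀ :=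
    Algebra.adjoin_le (fun x hx => Submodule.subset_span hx)
  exact ⟨r, hle hr, s, hle hs, rfl⟩

end Span

section Main

variable {K L : Type*} [Field K] [Algebra ℚ K] [Field L] [Algebra ℚ L]

/-- A finite `ℚ`-independent family in `F₀` whose image spans two given elements of the span. -/
theorem exists_indep_family (F₀ : IntermediateField ℚ (LaurentSeries ℚ))
    {r s : LaurentSeries L} (hr : r ∈ spanImage L F₀) (hs : s ∈ spanImage L F₀) :
    ∃ (m : ℕ) (e : Fin m → LaurentSeries ℚ), (∀ i, e i ∈ F₀) ∧ LinearIndependent ℚ e ∧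
      ∃ a b : Fin m → L, r = ∑ i, a i • coeffEmb L (e i) ∧ s = ∑ i, b i • coeffEmb L (e i) := by
  classical
  -- finite supports
  obtain ⟨lr, hlr, rfl⟩ := (Finsupp.mem_span_image_iff_linearCombination L).mp hr
  obtain ⟨ls, hls, rfl⟩ := (Finsupp.mem_span_image_iff_linearCombination L).mp hs
  set S : Finset (LaurentSeries ℚ) := lr.support ∪ ls.support with hS
  have hSF : ∀ u ∈ S, u ∈ F₀ := by
    intro u hu
    rcases Finset.mem_union.mp hu with h | h
    · exact hlr h
    · exact hls h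
  obtain ⟨B, hBt, hspan, hind⟩ := exists_linearIndependent ℚ (S : Set (LaurentSeries ℚ))
  have hBfin : B.Finite := (Finset.finite_toSet S).subset hBt
  haveI : Fintype B := hBfin.fintype
  -- the image of every element of `S` lies in the `L`-span of the image of `B`
  let EL : LaurentSeries ℚ →ₗ[ℚ] LaurentSeries L :=
    { toFun := coeffEmb L
      map_add' := map_add _
      map_smul' := fun c u => by
        rw [coeffEmb_smul_rat, RingHom.id_apply, algebraMap_smul] }
  have hmem : ∀ u ∈ S, coeffEmb L u ∈ Submodule.span L (Set.range fun e : B => coeffEmb L (e : _)) := by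
    intro u hu
    have h1 : u ∈ Submodule.span ℚ B := by
      rw [hspan]; exact Submodule.subset_span hu
    have h2 := Submodule.apply_mem_span_image_of_mem_span EL h1
    have h3 : Submodule.span ℚ (EL '' B) ≤
        (Submodule.span L (EL '' B)).restrictScalars ℚ := Submodule.span_le_restrictScalars ℚ L _
    have h4 := h3 h2
    have h5 : (EL '' B) = Set.range fun e : B => coeffEmb L (e : _) := by
      ext x
      constructor
      · rintro ⟨u, hu, rfl⟩; exact ⟨⟨u, hu⟩, rfl⟩
      · rintro ⟨⟨u, hu⟩, rfl⟩; exact ⟨u, hu, rfl⟩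
    rw [h5] at h4
    exact h4
  have hlin : ∀ l : LaurentSeries ℚ →₀ L, (l.support ⊆ S) →
      Finsupp.linearCombination L (⇑(coeffEmb L)) l ∈
        Submodule.span L (Set.range fun e : B => coeffEmb L (e : _)) := by
    intro l hl
    rw [Finsupp.linearCombination_apply, Finsupp.sum]
    refine Submodule.sum_mem _ fun u hu => ?_
    exact Submodule.smul_mem _ _ (hmem u (hl hu))
  have hr' := hlin lr Finset.subset_union_left
  have hs' := hlin ls Finset.subset_union_right
  rw [Submodule.mem_span_range_iff_exists_fun] at hr' hs'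
  obtain ⟨a, ha⟩ := hr'
  obtain ⟨b, hb⟩ := hs'
  -- reindex by `Fin m`
  let eq := Fintype.equivFin B
  refine ⟨Fintype.card B, fun i => ((eq.symm i : B) : LaurentSeries ℚ), ?_, ?_,
    fun i => a (eq.symm i), fun i => b (eq.symm i), ?_, ?_⟩
  · intro i
    exact hSF _ (hBt (eq.symm i).2)
  · exact hind.comp _ eq.symm.injective
  · rw [← ha]
    exact (Equiv.sum_comp eq.symm (fun e : B => a e • coeffEmb L (e : LaurentSeries ℚ))).symm
  · rw [← hb]
    exact (Equiv.sum_comp eq.symm (fun e : B => b e • coeffEmb L (e : LaurentSeries ℚ))).symm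

/-- **(C)** `F_L ∩ K((q)) = F_K`. -/
theorem mem_laurentBaseChange_of_coeffMap_mem (ι : K →+* L)
    (F₀ : IntermediateField ℚ (LaurentSeries ℚ)) {y : LaurentSeries K}
    (hy : coeffMap ι y ∈ laurentBaseChange L F₀) : y ∈ laurentBaseChange K F₀ := by
  classical
  obtain ⟨r, hr, s, hs, hrs⟩ := exists_div_of_mem_laurentBaseChange hy
  by_cases hs0 : s = 0
  · -- then `coeffMap ι y = 0`, so `y = 0`
    rw [hs0, div_zero] at hrs
    have : y = 0 := by
      ext k
      have := congrArg (fun z : LaurentSeries L => z.coeff k) hrs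
      simp only [coeffMap_coeff, HahnSeries.coeff_zero] at this
      simpa using this
    rw [this]; exact zero_mem _
  obtain ⟨m, e, heF, hind, a, b, hra, hsb⟩ := exists_indep_family F₀ hr hs
  have hxs : coeffMap ι y * s = r := by
    rw [hrs]; field_simp
  -- the family over `K`
  let w : Fin m ⊕ Fin m → LaurentSeries K :=
    Sum.elim (fun i => y * coeffEmb K (e i)) (fun i => coeffEmb K (e i))
  have hindK : LinearIndependent K (fun i => coeffEmb K (e i)) := by
    have := linearIndependent_coeffMap (algebraMap ℚ K) e hind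
    exact this
  have hnot : ¬ LinearIndependent K w := by
    intro hw
    have hL := linearIndependent_coeffMap ι w hw
    rw [Fintype.linearIndependent_iff] at hL
    have key := hL (Sum.elim b (fun i => -a i)) ?_
    · apply hs0
      rw [hsb]
      refine Finset.sum_eq_zero fun i _ => ?_
      have := key (Sum.inl i)
      simp only [Sum.elim_inl] at this
      rw [this, zero_smul]
    · rw [Fintype.sum_sum_type]
      simp only [Sum.elim_inl, Sum.elim_inr, w, map_mul, coeffMap_coeffEmb']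
      have h1 : ∑ i, b i • (coeffMap ι y * coeffEmb L (e i)) = coeffMap ι y * s := by
        rw [hsb, Finset.mul_sum]
        refine Finset.sum_congr rfl fun i _ => ?_
        rw [hsmul_eq_algebraMap_mul, hsmul_eq_algebraMap_mul]; ring
      have h2 : ∑ i, (-a i) • coeffEmb L (e i) = -r := by
        rw [hra, ← Finset.sum_neg_distrib]
        refine Finset.sum_congr rfl fun i _ => ?_
        rw [neg_smul]
      rw [h1, h2, hxs, add_neg_cancel]
  rw [Fintype.not_linearIndependent_iff] at hnot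
  obtain ⟨g, hg, i₀, hi₀⟩ := hnot
  rw [Fintype.sum_sum_type] at hg
  simp only [Sum.elim_inl, Sum.elim_inr, w] at hg
  set s' : LaurentSeries K := ∑ i, g (Sum.inl i) • coeffEmb K (e i) with hs'
  set r' : LaurentSeries K := -∑ i, g (Sum.inr i) • coeffEmb K (e i) with hr'
  have hys : y * s' = r' := by
    have h1 : ∑ i, g (Sum.inl i) • (y * coeffEmb K (e i)) = y * s' := by
      rw [hs', Finset.mul_sum]
      refine Finset.sum_congr rfl fun i _ => ?_
      rw [hsmul_eq_algebraMap_mul, hsmul_eq_algebraMap_mul]; ring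
    rw [h1] at hg
    rw [hr']
    exact eq_neg_of_add_eq_zero_left hg
  have hs'mem : s' ∈ laurentBaseChange K F₀ := by
    refine sum_mem fun i _ => ?_
    rw [hsmul_eq_algebraMap_mul]
    exact mul_mem ((laurentBaseChange K F₀).algebraMap_mem _)
      (coeffEmb_mem_laurentBaseChange K (heF i))
  have hr'mem : r' ∈ laurentBaseChange K F₀ := by
    refine neg_mem (sum_mem fun i _ => ?_)
    rw [hsmul_eq_algebraMap_mul]
    exact mul_mem ((laurentBaseChange K F₀).algebraMap_mem _)
      (coeffEmb_mem_laurentBaseChange K (heF i))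
  have hs'0 : s' ≠ 0 := by
    intro h0
    rw [Fintype.linearIndependent_iff] at hindK
    have hb0 : ∀ i, g (Sum.inl i) = 0 := hindK _ h0
    have hr0 : r' = 0 := by rw [← hys, h0, mul_zero]
    have ha0 : ∀ i, g (Sum.inr i) = 0 := hindK _ (neg_eq_zero.mp hr0)
    rcases i₀ with i | i
    · exact hi₀ (hb0 i)
    · exact hi₀ (ha0 i)
  have : y = r' / s' := by
    rw [← hys]; field_simp
  rw [this]
  exact div_mem hr'mem hs'mem

end Main

end Fermat.Agent.S29.H882

end
end
-- ===== PACK-END S29/H882/Inter.lean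

-- ===== PACK-BEGIN S24/H504/FF3Local.lean
section



/-!
# Local norm formula: `∑_x ord_z (σ_x f) = m · ∑_{v | t} ord_v f`
-/

set_option autoImplicit false
set_option linter.style.haveILetI false
set_option linter.unusedSectionVars false

namespace Fermat.Agent.S24.H504

open AlgebraicCurve IntermediateField

variable {K F : Type*} [Field K] [Field F] [Algebra K F]
variable {C : Type*} [Field C] {X : Type*} {t : F}

/-- `F` is algebraic over `K(t)` as soon as it is finite over a subfield of `K(t)`. -/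
theorem isAlgebraic_adjoin_of_le (E : IntermediateField K F) (hE : E ≤ K⟮t⟯)
    [FiniteDimensional E F] : Algebra.IsAlgebraic K⟮t⟯ F := by
  letI : Algebra E K⟮t⟯ := (IntermediateField.inclusion hE).toRingHom.toAlgebra
  haveI : IsScalarTower E K⟮t⟯ F := IsScalarTower.of_algebraMap_eq (fun x => rfl)
  exact Algebra.IsAlgebraic.tower_top (K := E) K⟮t⟯

theorem induces_placeOf (L : LocalData K F C X t) (x : X) :
    Induces (L.σ x) (H117.placeOf L x) :=
  fun f => H117.mem_placeOf_iff L x f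

theorem placeOf_eq_iff_induces (L : LocalData K F C X t) (x : X) (v : Place K F) :
    H117.placeOf L x = v ↔ Induces (L.σ x) v :=
  ⟨fun h => h ▸ induces_placeOf L x, fun h => (induces_placeOf L x).unique h⟩

section

variable [IsAlgClosed K] [CharZero K] [CharZero C] [Finite X]
variable (L : LocalData K F C X t)
variable (E : IntermediateField K F) (hE : E ≤ K⟮t⟯) [FiniteDimensional E F]
  (hrank : Module.finrank E F = Nat.card X)

include L hE hrank in
/-- **FF1 (equality).** `∑_{v | t} v(t) = #X = [F : E]`. -/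
theorem sum_ord_eq_card (s : Finset (Place K F)) (hs : ∀ v, v ∈ s ↔ 0 < v.ord t) :
    ∑ v ∈ s, v.ord t = Nat.card X := by
  haveI := isAlgebraic_adjoin_of_le (t := t) E hE
  exact (H117.localThm L E hE hrank s hs (LocalData.card_le_sum_ord L s hs)).2.2

include hE hrank in
theorem card_places_eq_numOrbits (s : Finset (Place K F)) (hs : ∀ v, v ∈ s ↔ 0 < v.ord t) :
    s.card = numOrbits L.perm := by
  haveI := isAlgebraic_adjoin_of_le (t := t) E hE
  exact (H117.localThm L E hE hrank s hs (LocalData.card_le_sum_ord L s hs)).1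

omit [IsAlgClosed K] [CharZero K] [CharZero C] in
theorem sum_card_fibre [Fintype X] [DecidableEq (Place K F)] (s : Finset (Place K F))
    (hs : ∀ v, v ∈ s ↔ 0 < v.ord t) :
    ∑ v ∈ s, (Finset.univ.filter (fun x => H117.placeOf L x = v)).card = Fintype.card X := by
  have hmaps : ∀ x ∈ (Finset.univ : Finset X), H117.placeOf L x ∈ s :=
    fun x _ => (hs _).mpr (H117.ord_t_pos L x)
  rw [← Finset.card_univ, Finset.card_eq_sum_card_fiberwise hmaps]

include hE hrank in
/-- Exactly `v(t)` embeddings induce a place `v` over `t = 0`. -/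
theorem card_fibre_eq [Fintype X] [DecidableEq (Place K F)] (v : Place K F)
    (hv : 0 < v.ord t) :
    ((Finset.univ.filter (fun x => H117.placeOf L x = v)).card : ℤ) = v.ord t := by
  haveI := isAlgebraic_adjoin_of_le (t := t) E hE
  have hfin : {v : Place K F | 0 < v.ord t}.Finite := H117.finite_places_over L E hE hrank
  set s := hfin.toFinset with hsdef
  have hs : ∀ v, v ∈ s ↔ 0 < v.ord t := fun v => by simp [hsdef]
  have hle : ∀ w ∈ s, ((Finset.univ.filter (fun x => H117.placeOf L x = w)).card : ℤ)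
      ≤ w.ord t := by
    intro w hw
    have := LocalData.card_fibre_le L w ((hs w).mp hw)
    have hc : Nat.card {x : X // Induces (L.σ x) w}
        = (Finset.univ.filter (fun x => H117.placeOf L x = w)).card := by
      haveI : Fintype {x : X // Induces (L.σ x) w} := Fintype.ofFinite _
      rw [Nat.card_eq_fintype_card]
      exact Fintype.card_of_subtype _ (fun x => by
        simp only [Finset.mem_filter, Finset.mem_univ, true_and]
        exact placeOf_eq_iff_induces L x w)
    rw [← hc]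
    exact this
  have h1 := sum_ord_eq_card L E hE hrank s hs
  have h2 := sum_card_fibre L s hs
  have h3 : ∑ w ∈ s, (w.ord t
      - ((Finset.univ.filter (fun x => H117.placeOf L x = w)).card : ℤ)) = 0 := by
    rw [Finset.sum_sub_distrib, h1, ← Nat.cast_sum, h2, Nat.card_eq_fintype_card]
    ring
  have h4 := (Finset.sum_eq_zero_iff_of_nonneg (fun w hw => sub_nonneg.mpr (hle w hw))).mp h3
    v ((hs v).mpr hv)
  linarith

include hE hrank in
/-- **Local norm formula.** -/
theorem sum_order_eq [Fintype X] (s : Finset (Place K F))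
    (hs : ∀ v, v ∈ s ↔ 0 < v.ord t) (f : F) :
    ∑ x, (L.σ x f).order = L.m * ∑ v ∈ s, v.ord f := by
  classical
  have hmaps : ∀ x ∈ (Finset.univ : Finset X), H117.placeOf L x ∈ s :=
    fun x _ => (hs _).mpr (H117.ord_t_pos L x)
  rw [← Finset.sum_fiberwise_of_maps_to hmaps, Finset.mul_sum]
  apply Finset.sum_congr rfl
  intro v hv
  have hv' : 0 < v.ord t := (hs v).mp hv
  have hcard := card_fibre_eq L E hE hrank v hv'
  have hterm : ∀ x ∈ Finset.univ.filter (fun x => H117.placeOf L x = v),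
      v.ord t * (L.σ x f).order = L.m * v.ord f := by
    intro x hx
    have hx' : H117.placeOf L x = v := (Finset.mem_filter.mp hx).2
    have h1 := H117.order_eq L x f
    have h2 := H117.mult_mul_ord_t L x
    rw [hx'] at h1 h2
    rw [h1, ← h2]
    ring
  have hsum : v.ord t * ∑ x ∈ Finset.univ.filter (fun x => H117.placeOf L x = v),
      (L.σ x f).order = v.ord t * (L.m * v.ord f) := by
    rw [Finset.mul_sum, Finset.sum_congr rfl hterm, Finset.sum_const, nsmul_eq_mul, hcard]
  exact mul_left_cancel₀ hv'.ne' hsum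

end

end Fermat.Agent.S24.H504

end
-- ===== PACK-END S24/H504/FF3Local.lean

-- ===== PACK-BEGIN S29/H942/HoloRoot.lean
section





/-!
# Holomorphic `p`-th roots on the upper half plane

If `g : ℍ → ℂ` is holomorphic, not identically zero, and all its orders of vanishing are divisible
by `p`, then `g = c ^ p` for a holomorphic `c : ℍ → ℂ`.
-/

set_option autoImplicit false

noncomputable section

open Filter Topology Set Complex MeromorphicOn Function UpperHalfPlane
open scoped Manifold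

namespace Fermat.Agent.S29.H942

/-- A root in normal form of an analytic function is analytic. -/
lemma IsNFRootOn.analyticAt {h f : ℂ → ℂ} {V : Set ℂ} {p : ℕ} (hp : p ≠ 0)
    (hh : IsNFRootOn h f V p) {x : ℂ} (hx : x ∈ V) (hf : AnalyticAt ℂ f x) :
    AnalyticAt ℂ h x := by
  rw [← (hh.1 hx).meromorphicOrderAt_nonneg_iff_analyticAt]
  have h1 : meromorphicOrderAt (h ^ p) x = meromorphicOrderAt f x :=
    meromorphicOrderAt_congr (hh.2 x hx)
  rw [meromorphicOrderAt_pow (hh.1 hx).meromorphicAt] at h1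
  have h2 : 0 ≤ meromorphicOrderAt f x := hf.meromorphicOrderAt_nonneg
  rw [← h1] at h2
  by_cases htop : meromorphicOrderAt h x = ⊤
  · rw [htop]
    exact le_top
  · obtain ⟨n, hn⟩ := WithTop.ne_top_iff_exists.1 htop
    rw [← hn] at h2 ⊢
    have h4 : ((p : ℕ) : WithTop ℤ) * ((n : ℤ) : WithTop ℤ) = (((p : ℤ) * n : ℤ) : WithTop ℤ) := by
      push_cast
      rfl
    rw [h4] at h2
    have h5 : (0 : ℤ) ≤ (p : ℤ) * n := by exact_mod_cast h2
    have hp' : (0 : ℤ) < p := by exact_mod_cast Nat.pos_of_ne_zero hp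
    have h6 : (0 : ℤ) ≤ n := by
      by_contra hneg
      rw [not_le] at hneg
      nlinarith
    exact_mod_cast h6

/-- A root in normal form of an analytic function is a root everywhere. -/
lemma IsNFRootOn.pow_eq {h f : ℂ → ℂ} {V : Set ℂ} {p : ℕ} (hp : p ≠ 0)
    (hh : IsNFRootOn h f V p) {x : ℂ} (hx : x ∈ V) (hf : AnalyticAt ℂ f x) :
    h x ^ p = f x := by
  have hA := hh.analyticAt hp hx hf
  have hc : ContinuousAt (h ^ p) x := (hA.pow p).continuousAt
  have := (hc.eventuallyEq_nhds_iff_eventuallyEq_nhdsNE hf.continuousAt).1 (hh.2 x hx)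
  exact this.self_of_nhds

/-- **Holomorphic `p`-th roots on the upper half plane.** -/
theorem exists_holomorphic_root {g : ℍ → ℂ} (hg : MDiff g) {p : ℕ} (hp : p ≠ 0)
    (hdiv : ∀ τ : ℍ, ∃ k : ℕ, analyticOrderAt (g ∘ ofComplex) (τ : ℂ) = ((p * k : ℕ) : ℕ∞)) :
    ∃ c : ℍ → ℂ, MDiff c ∧ c ^ p = g := by
  set f : ℂ → ℂ := g ∘ ofComplex with hf
  have hAn : AnalyticOnNhd ℂ f uhpSet :=
    (UpperHalfPlane.mdifferentiable_iff.mp hg).analyticOnNhd isOpen_upperHalfPlaneSet
  have hord : ∀ z ∈ uhpSet, ∃ k : ℕ, meromorphicOrderAt f z = ((p * k : ℕ) : ℤ) := by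
    intro z hz
    obtain ⟨k, hk⟩ := hdiv ⟨z, hz⟩
    refine ⟨k, ?_⟩
    rw [(hAn z hz).meromorphicOrderAt_eq]
    have : analyticOrderAt f z = ((p * k : ℕ) : ℕ∞) := hk
    rw [this]
    rfl
  obtain ⟨h, hh⟩ := exists_isNFRootOn_upperHalfPlane (f := f) hAn.meromorphicOn
    (fun z hz => by
      obtain ⟨k, hk⟩ := hord z hz
      rw [hk]
      exact WithTop.coe_ne_top)
    hp
    (fun z hz => by
      obtain ⟨k, hk⟩ := hord z hz
      rw [hk]
      simp only [WithTop.untop₀_coe]
      exact ⟨k, by push_cast; ring⟩)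
  have hhA : AnalyticOnNhd ℂ h uhpSet := fun z hz => hh.analyticAt hp hz (hAn z hz)
  have hhp : ∀ z ∈ uhpSet, h z ^ p = f z := fun z hz => hh.pow_eq hp hz (hAn z hz)
  refine ⟨fun τ => h (τ : ℂ), ?_, ?_⟩
  · rw [UpperHalfPlane.mdifferentiable_iff]
    refine hhA.differentiableOn.congr fun z hz => ?_
    simp only [Function.comp_apply]
    rw [ofComplex_apply_of_im_pos hz]
  · funext τ
    have := hhp (τ : ℂ) τ.im_pos
    simp only [Pi.pow_apply]
    rw [this, hf, Function.comp_apply, ofComplex_apply]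

/-- Uniqueness of holomorphic `p`-th roots up to roots of unity. -/
theorem holomorphic_root_unique {c₁ c₂ : ℍ → ℂ} (h₁ : MDiff c₁) (h₂ : MDiff c₂)
    (h₁0 : c₁ ≠ 0) {p : ℕ} (hp : p ≠ 0) (hpow : c₁ ^ p = c₂ ^ p) :
    ∃ ζ : ℂ, ζ ^ p = 1 ∧ c₂ = fun τ => ζ * c₁ τ := by
  set f : ℂ → ℂ := (c₁ ^ p) ∘ ofComplex with hf
  have hA₁ : AnalyticOnNhd ℂ (c₁ ∘ ofComplex) uhpSet :=
    (UpperHalfPlane.mdifferentiable_iff.mp h₁).analyticOnNhd isOpen_upperHalfPlaneSet
  have hA₂ : AnalyticOnNhd ℂ (c₂ ∘ ofComplex) uhpSet :=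
    (UpperHalfPlane.mdifferentiable_iff.mp h₂).analyticOnNhd isOpen_upperHalfPlaneSet
  have hAf : AnalyticOnNhd ℂ f uhpSet :=
    (UpperHalfPlane.mdifferentiable_iff.mp (MDifferentiable.pow h₁ p)).analyticOnNhd isOpen_upperHalfPlaneSet
  have hR₁ : IsNFRootOn (c₁ ∘ ofComplex) f uhpSet p :=
    ⟨hA₁.meromorphicNFOn, fun x _ => Eventually.of_forall fun y => rfl⟩
  have hR₂ : IsNFRootOn (c₂ ∘ ofComplex) f uhpSet p :=
    ⟨hA₂.meromorphicNFOn, fun x _ => Eventually.of_forall fun y => by
      simp only [hf, hpow, Pi.pow_apply, Function.comp_apply]⟩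
  have hford : ∀ x ∈ uhpSet, meromorphicOrderAt f x ≠ ⊤ := by
    intro x hx htop
    rw [(hAf x hx).meromorphicOrderAt_eq] at htop
    have h3 : analyticOrderAt f x = ⊤ := by
      by_contra hne
      obtain ⟨n, hn⟩ := ENat.ne_top_iff_exists.1 hne
      rw [← hn] at htop
      exact absurd htop (by simp)
    have h5 : ∀ᶠ z in 𝓝 x, f z = 0 := analyticOrderAt_eq_top.mp h3
    have hpre : IsPreconnected uhpSet := by
      have hconv : Convex ℝ uhpSet := by
        have : uhpSet = Complex.im ⁻¹' (Ioi 0) := rfl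
        rw [this]
        exact (convex_Ioi (0 : ℝ)).is_linear_preimage Complex.imLm.isLinear
      exact hconv.isPreconnected
    have h6 := hAf.eqOn_zero_of_preconnected_of_eventuallyEq_zero hpre hx h5
    apply h₁0
    funext τ
    have h7 := h6 τ.im_pos
    simp only [hf, Function.comp_apply, ofComplex_apply, Pi.pow_apply, Pi.zero_apply] at h7 ⊢
    exact pow_eq_zero_iff hp |>.mp h7
  have hconv : Convex ℝ uhpSet := by
    have : uhpSet = Complex.im ⁻¹' (Ioi 0) := rfl
    rw [this]
    exact (convex_Ioi (0 : ℝ)).is_linear_preimage Complex.imLm.isLinear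
  obtain ⟨ζ, hζ, hζe⟩ := IsNFRootOn.exists_eq_mul hp isOpen_uhpSet hconv.isPreconnected hford
    hR₁ hR₂
  refine ⟨ζ, hζ, ?_⟩
  funext τ
  have := hζe (τ : ℂ) τ.im_pos
  simpa [Function.comp_apply, ofComplex_apply] using this

end Fermat.Agent.S29.H942

end
end
-- ===== PACK-END S29/H942/HoloRoot.lean

-- ===== PACK-BEGIN S29/H942/KummerChar.lean
section



/-!
# The Kummer character of a holomorphic function with invariant `p`-th power

If `c : ℍ → ℂ` is holomorphic, `c ≠ 0`, and `c ^ p` is invariant under a subgroup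
`Γ ≤ SL(2,ℤ)`, then `c (γ z) = κ γ * c z` for a unique character `κ : Γ →* ℂˣ` with `κ ^ p = 1`.
-/

set_option autoImplicit false

noncomputable section

open Filter Topology Set Complex Function UpperHalfPlane ModularForm
open scoped Manifold MatrixGroups

namespace Fermat.Agent.S29.H942

lemma mdiff_comp_smul {c : ℍ → ℂ} (hc : MDiff c) (γ : SL(2, ℤ)) :
    MDiff (fun z : ℍ => c (γ • z)) := by
  have h := MDifferentiable.slash hc 0 (γ : GL (Fin 2) ℝ)
  have h2 : (c ∣[(0 : ℤ)] (γ : GL (Fin 2) ℝ)) = fun z : ℍ => c (γ • z) := by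
    funext z
    rw [← SL_slash, SL_slash_apply]
    simp
  rwa [h2] at h

lemma exists_ne_zero_of_ne_zero {c : ℍ → ℂ} (hc0 : c ≠ 0) : ∃ z : ℍ, c z ≠ 0 := by
  by_contra h
  simp only [not_exists, not_not] at h
  exact hc0 (funext h)

/-- **Kummer character.** -/
theorem exists_kummerChar (Γ : Subgroup SL(2, ℤ)) {c : ℍ → ℂ} (hc : MDiff c) (hc0 : c ≠ 0)
    {p : ℕ} (hp : p ≠ 0)
    (hinv : ∀ γ ∈ Γ, ∀ z : ℍ, c (γ • z) ^ p = c z ^ p) :
    ∃ κ : Γ →* ℂˣ, (∀ γ, κ γ ^ p = 1) ∧
      ∀ (γ : Γ) (z : ℍ), c ((γ : SL(2, ℤ)) • z) = ((κ γ : ℂˣ) : ℂ) * c z := by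
  obtain ⟨z₀, hz₀⟩ := exists_ne_zero_of_ne_zero hc0
  have h1 : ∀ γ : Γ, ∃ ζ : ℂ, ζ ^ p = 1 ∧
      (fun z : ℍ => c ((γ : SL(2, ℤ)) • z)) = fun z => ζ * c z := by
    intro γ
    refine holomorphic_root_unique hc (mdiff_comp_smul hc γ) hc0 hp ?_
    funext z
    simp only [Pi.pow_apply]
    exact (hinv γ γ.2 z).symm
  choose ζ hζ hζc using h1
  have hζ0 : ∀ γ, ζ γ ≠ 0 := by
    intro γ h0
    have := hζ γ
    rw [h0, zero_pow hp] at this
    exact zero_ne_one this
  have hζapp : ∀ (γ : Γ) (z : ℍ), c ((γ : SL(2, ℤ)) • z) = ζ γ * c z := fun γ z =>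
    congrFun (hζc γ) z
  have hone : ζ 1 = 1 := by
    have := hζapp 1 z₀
    simp only [Subgroup.coe_one, one_smul] at this
    have h2 : (ζ 1 - 1) * c z₀ = 0 := by rw [sub_mul, one_mul, ← this, sub_self]
    rcases mul_eq_zero.1 h2 with h | h
    · exact sub_eq_zero.1 h
    · exact absurd h hz₀
  have hmul : ∀ γ δ : Γ, ζ (γ * δ) = ζ γ * ζ δ := by
    intro γ δ
    have h2 := hζapp (γ * δ) z₀
    rw [Subgroup.coe_mul, mul_smul, hζapp γ, hζapp δ] at h2
    have h3 : (ζ (γ * δ) - ζ γ * ζ δ) * c z₀ = 0 := by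
      rw [sub_mul, ← h2]
      ring
    rcases mul_eq_zero.1 h3 with h | h
    · exact sub_eq_zero.1 h
    · exact absurd h hz₀
  refine ⟨{ toFun := fun γ => Units.mk0 (ζ γ) (hζ0 γ)
            map_one' := by
              apply Units.ext
              simpa using hone
            map_mul' := fun γ δ => by
              apply Units.ext
              simpa using hmul γ δ }, fun γ => ?_, fun γ z => ?_⟩
  · apply Units.ext
    simpa using hζ γ
  · simpa using hζapp γ z

end Fermat.Agent.S29.H942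

end
end
-- ===== PACK-END S29/H942/KummerChar.lean

-- ===== PACK-BEGIN S18/Mod/H216/PartVj.lean
section


/-!
# S18 / MOD (helper216): G-V for the coordinate `j` — the fields that need no basis

For a uniformiser `w` (`PartR (Ec M E) (Rc M A E) w`):
`R_le_V`, `w_inv_not_mem_V`, `V_gen`, `gauss` for `V = Vc M A E`, `x = jOm M`.
(`V_total` needs the S28 basis: see `Basis.lean`.)
-/

set_option autoImplicit false
set_option linter.unusedSectionVars false

noncomputable section

namespace Fermat.Agent.S18.Mod.H216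

open ModularCurve AlgebraicCurve HahnSeries Polynomial Fermat.Agent.S18 Fermat.Agent.S18.Mod

variable (M : ℕ) (A : ValuationSubring Qb) (E : IntermediateField ℚ Qb)

/-! ### Units and non-units of `A` -/

theorem residue_eq_zero_of_inv_not_mem {c : Qb} (hc : c ∈ A) (hinv : c⁻¹ ∉ A) :
    IsLocalRing.residue ↥A ⟨c, hc⟩ = 0 := by
  rw [IsLocalRing.residue_eq_zero_iff, IsLocalRing.mem_maximalIdeal, mem_nonunits_iff]
  rintro ⟨u, hu⟩
  apply hinv
  have h1 : (⟨c, hc⟩ : ↥A) * ((u⁻¹ : (↥A)ˣ) : ↥A) = 1 := by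
    rw [← hu]
    exact u.mul_inv
  have h2 : c * ((((u⁻¹ : (↥A)ˣ) : ↥A) : Qb)) = 1 := congrArg Subtype.val h1
  have h3 : c⁻¹ = ((((u⁻¹ : (↥A)ˣ) : ↥A) : Qb)) := inv_eq_of_mul_eq_one_right h2
  rw [h3]
  exact SetLike.coe_mem _

theorem residue_ne_zero_of_inv_mem {c : Qb} (hc : c ∈ A) (hc0 : c ≠ 0) (hinv : c⁻¹ ∈ A) :
    IsLocalRing.residue ↥A ⟨c, hc⟩ ≠ 0 := by
  rw [Ne, IsLocalRing.residue_eq_zero_iff, IsLocalRing.mem_maximalIdeal, mem_nonunits_iff, not_not]
  exact IsUnit.of_mul_eq_one (⟨c⁻¹, hinv⟩ : ↥A) (Subtype.ext (mul_inv_cancel₀ hc0))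

theorem inv_not_mem_of_residue_eq_zero {c : Qb} (hc : c ∈ A) (hc0 : c ≠ 0)
    (h : IsLocalRing.residue ↥A ⟨c, hc⟩ = 0) : c⁻¹ ∉ A :=
  fun hinv => residue_ne_zero_of_inv_mem A hc hc0 hinv h

/-! ### Constants -/

theorem algebraMap_mem_Rc_iff {c : Qb} : algebraMap Qb (Om M) c ∈ Rc M A E ↔ c ∈ A ∧ c ∈ E := by
  constructor
  · intro h
    obtain ⟨c', hA, hE, hcc⟩ := (mem_Rc_iff M A E).mp h
    have : c' = c := (algebraMap Qb (Om M)).injective hcc
    exact this ▸ ⟨hA, hE⟩
  · rintro ⟨hA, hE⟩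
    exact (mem_Rc_iff M A E).mpr ⟨c, hA, hE, rfl⟩

/-- The uniformiser data extracted from `PartR`. -/
theorem exists_unif {w : Om M} (hR : PartR (Ec M E) (Rc M A E) w) :
    ∃ c : Qb, c ∈ A ∧ c ∈ E ∧ c ≠ 0 ∧ c⁻¹ ∉ A ∧ algebraMap Qb (Om M) c = w := by
  obtain ⟨c, hA, hE, rfl⟩ := (mem_Rc_iff M A E).mp hR.w_mem
  refine ⟨c, hA, hE, ?_, ?_, rfl⟩
  · intro h0
    apply hR.w_ne_zero
    rw [h0, map_zero]
  · intro hinv
    apply hR.w_inv_not_mem
    rw [← map_inv₀]
    exact (algebraMap_mem_Rc_iff M A E).mpr ⟨hinv, inv_mem hE⟩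

theorem R_le_V : Rc M A E ≤ Vc M A E := by
  intro r hr
  obtain ⟨c, hA, hE, rfl⟩ := (mem_Rc_iff M A E).mp hr
  rw [← toOm_cInt M A E hA hE]
  exact toOm_mem_Vc M A E _

theorem w_inv_not_mem_V {w : Om M} (hR : PartR (Ec M E) (Rc M A E) w) : w⁻¹ ∉ Vc M A E := by
  obtain ⟨c, hA, hE, hc0, hcinv, rfl⟩ := exists_unif M A E hR
  intro h
  obtain ⟨U₁, U₂, hne, heq⟩ := (mem_Vc_iff' M A E).mp h
  have hw0 : algebraMap Qb (Om M) c ≠ 0 := hR.w_ne_zero
  have h1 : toOm M A E U₂ = toOm M A E (cInt M A E hA hE * U₁) := by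
    rw [map_mul, toOm_cInt, ← heq, ← mul_assoc, mul_inv_cancel₀ hw0, one_mul]
  have h2 : U₂ = cInt M A E hA hE * U₁ := toOm_injective M A E h1
  apply hne
  rw [h2, map_mul, redE_cInt, residue_eq_zero_of_inv_not_mem A hA hcinv, map_zero, zero_mul]

/-! ### Division of a series by the uniformiser -/

open Classical in
/-- Coefficientwise division by `c` (junk value `0` when the quotient is not in `A`). -/
def divC (c : Qb) : ZeroHom ↥A ↥A where
  toFun a := if h : (a : Qb) * c⁻¹ ∈ A then ⟨(a : Qb) * c⁻¹, h⟩ else 0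
  map_zero' := by
    have h : ((0 : ↥A) : Qb) * c⁻¹ ∈ A := by simp
    rw [dif_pos h]
    apply Subtype.ext
    simp

open Classical in
theorem divC_apply {c : Qb} {a : ↥A} (h : (a : Qb) * c⁻¹ ∈ A) :
    ((divC A c a : ↥A) : Qb) = (a : Qb) * c⁻¹ := by
  show ((if h : (a : Qb) * c⁻¹ ∈ A then (⟨(a : Qb) * c⁻¹, h⟩ : ↥A) else 0 : ↥A) : Qb) = _
  rw [dif_pos h]

theorem algebraMap_LS_eq_C (c : Qb) :
    algebraMap Qb (LaurentSeries Qb) c = HahnSeries.C c := by
  rw [algebraMap_laurentSeries_eq_single, ← HahnSeries.C_apply]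

/-- A series with zero reduction is divisible by the uniformiser inside `intE`. -/
theorem exists_eq_unif_mul {w : Om M} (hR : PartR (Ec M E) (Rc M A E) w)
    {U : ↥(intE M A E)} (hU : redE M A E U = 0) :
    ∃ U' : ↥(intE M A E), toOm M A E U = w * toOm M A E U' := by
  obtain ⟨c, hA, hE, hc0, hcinv, rfl⟩ := exists_unif M A E hR
  have hUE : ∀ n, (((U : LaurentSeries ↥A).coeff n : ↥A) : Qb) ∈ E :=
    ((mem_intE M A E).mp U.2).1
  have hres : ∀ n, IsLocalRing.residue ↥A ((U : LaurentSeries ↥A).coeff n) = 0 := by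
    intro n
    have := congrArg (fun z : LaurentSeries (IsLocalRing.ResidueField ↥A) => z.coeff n) hU
    simpa using this
  have hdiv : ∀ n, (((U : LaurentSeries ↥A).coeff n : ↥A) : Qb) * c⁻¹ ∈ A := by
    intro n
    set a := (U : LaurentSeries ↥A).coeff n with ha
    by_cases ha0 : (a : Qb) = 0
    · rw [ha0, zero_mul]
      exact zero_mem _
    have hr : algebraMap Qb (Om M) (a : Qb) ∈ Rc M A E :=
      (algebraMap_mem_Rc_iff M A E).mpr ⟨a.2, hUE n⟩
    have hrinv : (algebraMap Qb (Om M) (a : Qb))⁻¹ ∉ Rc M A E := by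
      rw [← map_inv₀, algebraMap_mem_Rc_iff]
      rintro ⟨h, -⟩
      exact inv_not_mem_of_residue_eq_zero A a.2 ha0 (hres n) h
    have := hR.w_gen _ hr hrinv
    rw [← map_inv₀, ← map_mul, algebraMap_mem_Rc_iff] at this
    exact this.1
  set U' : LaurentSeries ↥A := (U : LaurentSeries ↥A).map (divC A c) with hU'
  have hcoeff : ∀ n, ((U'.coeff n : ↥A) : Qb) = (((U : LaurentSeries ↥A).coeff n : ↥A) : Qb) * c⁻¹ :=
    fun n => divC_apply A (hdiv n)
  have hmul : inclA A (U : LaurentSeries ↥A) = HahnSeries.C c * inclA A U' := by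
    ext n
    rw [HahnSeries.C_mul_eq_smul, HahnSeries.coeff_smul]
    show (((U : LaurentSeries ↥A).coeff n : ↥A) : Qb) = c • ((U'.coeff n : ↥A) : Qb)
    rw [hcoeff, smul_eq_mul]
    field_simp
  have hw0 : algebraMap Qb (Om M) c ≠ 0 := hR.w_ne_zero
  have hincl : inclA A U' =
      (((algebraMap Qb (Om M) c)⁻¹ * toOm M A E U : Om M) : LaurentSeries Qb) := by
    have hC0 : (HahnSeries.C c : LaurentSeries Qb) ≠ 0 := by
      rw [← coe_algebraMap_Om M c]
      exact fun h => hw0 (Subtype.ext h)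
    push_cast
    rw [algebraMap_LS_eq_C, coe_toOm, hmul, ← mul_assoc, inv_mul_cancel₀ hC0, one_mul]
  have hmem : U' ∈ intE M A E := by
    rw [mem_intE]
    refine ⟨fun n => ?_, (algebraMap Qb (Om M) c)⁻¹ * toOm M A E U, ?_, hincl.symm⟩
    · rw [hcoeff]
      exact mul_mem (hUE n) (inv_mem hE)
    · exact mul_mem (inv_mem (Ec_le_Fc M E ((mem_Ec_iff M E).mpr ⟨c, hE, rfl⟩)))
        (toOm_mem_Fc M A E U)
  refine ⟨⟨U', hmem⟩, ?_⟩
  apply Subtype.ext
  push_cast
  rw [algebraMap_LS_eq_C, coe_toOm, coe_toOm]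
  exact hmul

theorem V_gen {w : Om M} (hR : PartR (Ec M E) (Rc M A E) w) :
    ∀ f ∈ Vc M A E, f⁻¹ ∉ Vc M A E → f * w⁻¹ ∈ Vc M A E := by
  intro f hf hfinv
  obtain ⟨U₁, U₂, hne, heq⟩ := (mem_Vc_iff' M A E).mp hf
  have hw0 := hR.w_ne_zero
  have h1 : redE M A E U₁ = 0 := by
    by_contra h1
    apply hfinv
    have hU1 := toOm_ne_zero_of_redE M A E h1
    have hf0 : f ≠ 0 := by
      intro h0
      rw [h0, zero_mul] at heq
      exact hU1 heq.symm
    refine (mem_Vc_iff' M A E).mpr ⟨U₂, U₁, h1, ?_⟩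
    rw [← heq, ← mul_assoc, inv_mul_cancel₀ hf0, one_mul]
  obtain ⟨U', hU'⟩ := exists_eq_unif_mul M A E hR h1
  refine (mem_Vc_iff' M A E).mpr ⟨U', U₂, hne, ?_⟩
  rw [mul_right_comm, heq, hU', mul_comm w, mul_assoc, mul_inv_cancel₀ hw0, mul_one]

/-! ### The Gauss property -/

theorem gauss_j (P : Polynomial (Om M)) (hP : ∀ i, P.coeff i ∈ Rc M A E)
    (hu : ∃ i, P.coeff i ≠ 0 ∧ (P.coeff i)⁻¹ ∈ Rc M A E) :
    (P.eval (jOm M))⁻¹ ∈ Vc M A E := by
  have hlifts : P ∈ Polynomial.lifts (Rc M A E).subtype :=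
    (Polynomial.lifts_iff_coeff_lifts P).mpr fun i => ⟨⟨P.coeff i, hP i⟩, rfl⟩
  obtain ⟨p, hp⟩ := (Polynomial.mem_lifts P).mp hlifts
  have hev : P.eval (jOm M) = evR (Rc M A E) (jOm M) p := by
    rw [← hp, evR_apply, Polynomial.eval_map]
  rw [hev, evR_eq_toOm_Uev]
  apply inv_toOm_mem_Vc
  rw [Ne, redE_Uev_eq_zero_iff]
  obtain ⟨i, hi0, hiinv⟩ := hu
  intro h0
  have h1 := congrArg (fun q => q.coeff i) h0
  simp only [Polynomial.coeff_map, Polynomial.coeff_zero] at h1
  set c := (eRc M A E).symm (p.coeff i) with hc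
  have hcP : algebraMap Qb (Om M) (c : Qb) = P.coeff i := by
    have h2 : ((eRc M A E c : ↥(Rc M A E)) : Om M) = ((p.coeff i : ↥(Rc M A E)) : Om M) := by
      rw [hc, RingEquiv.apply_symm_apply]
    rw [coe_eRc] at h2
    rw [h2, ← hp, Polynomial.coeff_map]
    rfl
  have hc0 : (c : Qb) ≠ 0 := by
    intro h
    apply hi0
    rw [← hcP, h, map_zero]
  have hcinv : (c : Qb)⁻¹ ∈ A := by
    rw [← hcP, ← map_inv₀, algebraMap_mem_Rc_iff] at hiinv
    exact hiinv.1
  exact residue_ne_zero_of_inv_mem A c.2.1 hc0 hcinv h1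

end Fermat.Agent.S18.Mod.H216

end
end
-- ===== PACK-END S18/Mod/H216/PartVj.lean

-- ===== PACK-BEGIN S18/Mod/H216/Basis.lean
section


/-!
# S18 / MOD (helper216): the S28 basis inside `Fc M E`

* `exists_Fc_of_full` (T0): `coeffEmb Q̄ z`, `z ∈ F_ℚ`, is the value of an element of `Fc M E`.
* `exists_FE_of_Fc` (T1): every `f ∈ Fc M E` is the coefficientwise image of an element of
  `F_E := laurentBaseChange E (modularFunctionFieldFull M) ⊆ E((q))`.
* `yInt` : the S28 monomials as elements of `intE M A E`.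
* `exists_scaled_relation` (B2): `q(j) f = ∑ pᵢ(j) yᵢ` with `q, pᵢ ∈ (A ∩ E)[X]`, jointly primitive.
* `redE_sum_eq_zero` (B3): independence of the reductions over `κ[j̄]`.
-/

set_option autoImplicit false
set_option linter.unusedSectionVars false

noncomputable section

namespace Fermat.Agent.S18.Mod.H216

open ModularCurve AlgebraicCurve HahnSeries Polynomial Fermat.Agent.S18 Fermat.Agent.S18.Mod
open Fermat.Agent.S28

variable (M : ℕ) (A : ValuationSubring Qb) (E : IntermediateField ℚ Qb)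

/-! ### T0, T1 -/

theorem coe_jd (d : ℕ) [NeZero d] (hd : d ∣ M) :
    ((jd M d hd : Om M) : LaurentSeries Qb) = coeffEmb Qb (qExpand ℚ d jq) := rfl

theorem jd_mem_Fc (d : ℕ) [NeZero d] (hd : d ∣ M) : jd M d hd ∈ Fc M E :=
  Subfield.subset_closure (Or.inr ⟨d, inferInstance, hd, rfl⟩)

theorem coeffEmb_algebraMap (r : ℚ) :
    coeffEmb Qb (algebraMap ℚ (LaurentSeries ℚ) r) = HahnSeries.C (algebraMap ℚ Qb r) := by
  rw [algebraMap_laurentSeries_eq_single, coeffEmb, coeffMap_single, ← HahnSeries.C_apply]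

/-- **T0.** -/
theorem exists_Fc_of_full {z : LaurentSeries ℚ} (hz : z ∈ modularFunctionFieldFull M) :
    ∃ f ∈ Fc M E, (f : LaurentSeries Qb) = coeffEmb Qb z := by
  have hle : Subfield.closure (Set.range (algebraMap ℚ (LaurentSeries ℚ)) ∪ divisorExpansions M) ≤
      Subfield.comap (coeffEmb Qb) ((Fc M E).map (omVal M)) := by
    rw [Subfield.closure_le]
    rintro x (⟨r, rfl⟩ | ⟨d, hd, hdM, rfl⟩)
    · refine ⟨algebraMap Qb (Om M) (algebraMap ℚ Qb r), ?_, ?_⟩
      · exact Ec_le_Fc M E ((mem_Ec_iff M E).mpr ⟨_, E.algebraMap_mem r, rfl⟩)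
      · rw [omVal_apply, coe_algebraMap_Om, coeffEmb_algebraMap]
    · haveI := hd
      exact ⟨jd M d hdM, jd_mem_Fc M E d hdM, rfl⟩
  obtain ⟨f, hf, hfz⟩ := hle hz
  exact ⟨f, hf, hfz⟩

/-- `E((q)) → Q̄((q))`. -/
abbrev iotaE : LaurentSeries ↥E →+* LaurentSeries Qb := coeffMap (algebraMap ↥E Qb)

theorem iotaE_coeffEmb (z : LaurentSeries ℚ) : iotaE E (coeffEmb ↥E z) = coeffEmb Qb z := by
  rw [coeffEmb, coeffEmb, coeffMap_coeffMap]
  exact coeffMap_congr (RingHom.ext_rat _ _) z

theorem iotaE_algebraMap (c : ↥E) :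
    iotaE E (algebraMap ↥E (LaurentSeries ↥E) c) = HahnSeries.C (c : Qb) := by
  rw [algebraMap_laurentSeries_eq_single, coeffMap_single, ← HahnSeries.C_apply]
  rfl

/-- **T1.** -/
theorem exists_FE_of_Fc {f : Om M} (hf : f ∈ Fc M E) :
    ∃ g ∈ laurentBaseChange ↥E (modularFunctionFieldFull M), iotaE E g = (f : LaurentSeries Qb) := by
  have hle : Fc M E ≤ Subfield.comap (omVal M)
      ((laurentBaseChange ↥E (modularFunctionFieldFull M)).toSubfield.map (iotaE E)) := by
    rw [Fc, Subfield.closure_le]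
    rintro x (hx | ⟨d, hd, hdM, rfl⟩)
    · obtain ⟨c, hc, rfl⟩ := (mem_Ec_iff M E).mp hx
      refine ⟨algebraMap ↥E (LaurentSeries ↥E) ⟨c, hc⟩, ?_, ?_⟩
      · exact (laurentBaseChange ↥E (modularFunctionFieldFull M)).algebraMap_mem _
      · rw [omVal_apply, coe_algebraMap_Om]
        exact iotaE_algebraMap E ⟨c, hc⟩
    · haveI := hd
      refine ⟨coeffEmb ↥E (qExpand ℚ d jq), ?_, ?_⟩
      · exact coeffEmb_mem_laurentBaseChange ↥E (jqd_mem_full M hdM)
      · rw [omVal_apply, coe_jd]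
        exact iotaE_coeffEmb E _
  obtain ⟨g, hg, hgf⟩ := hle hf
  exact ⟨g, hg, hgf⟩

/-! ### The monomials -/

variable {M} {n : ℕ} {y : Fin n → LaurentSeries ℤ}

theorem coeffMap_intCast_mem_intE [NeZero M] (hS : H516.SpansQ M y) (i : Fin n) :
    coeffMap (Int.castRingHom ↥A) (y i) ∈ intE M A E := by
  rw [mem_intE]
  obtain ⟨f, hf, hfz⟩ := exists_Fc_of_full M E (H516.yQ_mem_full hS i)
  refine ⟨fun k => ?_, f, hf, ?_⟩
  · rw [coeffMap_coeff]
    simp only [eq_intCast, SubringClass.coe_intCast]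
    exact intCast_mem E _
  · rw [hfz, ← H516.coeffMap_intCast_eq_coeffEmb, coeffMap_coeffMap]
    exact coeffMap_congr (RingHom.ext_int _ _) _

/-- The S28 monomials as integral series. -/
def yInt [NeZero M] (hS : H516.SpansQ M y) (i : Fin n) : ↥(intE M A E) :=
  ⟨coeffMap (Int.castRingHom ↥A) (y i), coeffMap_intCast_mem_intE A E hS i⟩

theorem coe_toOm_yInt [NeZero M] (hS : H516.SpansQ M y) (i : Fin n) :
    ((toOm M A E (yInt A E hS i) : Om M) : LaurentSeries Qb) =
      coeffMap (Int.castRingHom Qb) (y i) := by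
  rw [coe_toOm]
  show coeffMap A.subtype (coeffMap (Int.castRingHom ↥A) (y i)) = _
  rw [coeffMap_coeffMap]
  exact coeffMap_congr (RingHom.ext_int _ _) _

theorem redE_yInt [NeZero M] (hS : H516.SpansQ M y) (i : Fin n) :
    redE M A E (yInt A E hS i) =
      coeffMap (Int.castRingHom (IsLocalRing.ResidueField ↥A)) (y i) := by
  show coeffMap (IsLocalRing.residue ↥A) (coeffMap (Int.castRingHom ↥A) (y i)) = _
  rw [coeffMap_coeffMap]
  exact coeffMap_congr (RingHom.ext_int _ _) _

/-- **(B3)** independence of the reductions over `κ[j̄]`. -/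
theorem redE_sum_eq_zero [NeZero M] (hS : H516.SpansQ M y)
    (hli : LinearIndependent (jField (IsLocalRing.ResidueField ↥A))
      (fun i => coeffMap (Int.castRingHom (IsLocalRing.ResidueField ↥A)) (y i)))
    (p : Fin n → (↥(S0 A E))[X])
    (h : redE M A E (∑ i, Uev M A E (p i) * yInt A E hS i) = 0) :
    ∀ i, (p i).map (resS A E) = 0 := by
  rw [map_sum] at h
  simp only [map_mul, redE_Uev, redE_yInt] at h
  have h2 := Fintype.linearIndependent_iff.mp hli
    (fun i => (⟨H516.evJ ((p i).map (resS A E)), H516.evJ_mem_jField _ _⟩ :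
      jField (IsLocalRing.ResidueField ↥A))) h
  intro i
  have h3 := congrArg Subtype.val (h2 i)
  exact (H516.evJ_eq_zero_iff _).mp h3

/-! ### (B2) the scaled relation -/

variable (M) in
theorem coe_toOm_Uev (p : (↥(S0 A E))[X]) :
    ((toOm M A E (Uev M A E p) : Om M) : LaurentSeries Qb) =
      H516.evJ (p.map (S0 A E).subtype) := by
  have h : (omVal M).comp ((toOm M A E).comp (Uev M A E)) =
      (Polynomial.eval₂RingHom (HahnSeries.C (Γ := ℤ) (R := Qb)) (jqModC Qb)).comp
        (Polynomial.mapRingHom (S0 A E).subtype) := by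
    apply Polynomial.ringHom_ext
    · intro c
      simp only [RingHom.comp_apply, Uev, Polynomial.coe_eval₂RingHom, Polynomial.eval₂_C,
        Polynomial.coe_mapRingHom, Polynomial.map_C, omVal_apply]
      rw [toOm_cS, coe_algebraMap_Om]
      rfl
    · simp only [RingHom.comp_apply, Uev, Polynomial.coe_eval₂RingHom, Polynomial.eval₂_X,
        Polynomial.coe_mapRingHom, Polynomial.map_X, omVal_apply]
      rw [toOm_jInt, coe_jOm]
  exact RingHom.congr_fun h p

/-- `A ∩ E` as a valuation subring of `E`. -/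
def RE : ValuationSubring ↥E := A.comap (algebraMap ↥E Qb)

/-- `RE → S0`. -/
def reToS0 : ↥(RE A E) →+* ↥(S0 A E) where
  toFun c := ⟨algebraMap ↥E Qb (c : ↥E), c.2, (c : ↥E).2⟩
  map_one' := Subtype.ext (by simp)
  map_mul' a b := Subtype.ext (by simp)
  map_zero' := Subtype.ext (by simp)
  map_add' a b := Subtype.ext (by simp)

theorem subtype_comp_reToS0 :
    (S0 A E).subtype.comp (reToS0 A E) = (algebraMap ↥E Qb).comp (RE A E).subtype := rfl

variable (M) in
theorem coe_toOm_Uev_map (P : (↥(RE A E))[X]) :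
    ((toOm M A E (Uev M A E (P.map (reToS0 A E))) : Om M) : LaurentSeries Qb) =
      iotaE E (H516.evJ (P.map (RE A E).subtype)) := by
  rw [coe_toOm_Uev, H516.coeffMap_evJ, Polynomial.map_map, Polynomial.map_map,
    subtype_comp_reToS0]

/-- **(B2)** every `f ∈ Fc M E` satisfies a jointly primitive relation
`q(j) f = ∑ pᵢ(j) yᵢ` over `A ∩ E`. -/
theorem exists_scaled_relation [NeZero M] (hS : H516.SpansQ M y) {f : Om M}
    (hf : f ∈ Fc M E) :
    ∃ (q : (↥(S0 A E))[X]) (p : Fin n → (↥(S0 A E))[X]),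
      (q.map (resS A E) ≠ 0 ∨ ∃ i, (p i).map (resS A E) ≠ 0) ∧
      toOm M A E (Uev M A E q) * f =
        toOm M A E (∑ i, Uev M A E (p i) * yInt A E hS i) := by
  classical
  obtain ⟨g, hg, hgf⟩ := exists_FE_of_Fc M E hf
  have hgs := (H516.mem_baseChange_iff_mem_spanL ↥E hS).mp hg
  obtain ⟨G, H, hG, hrel⟩ :=
    H516.exists_cleared ↥E (fun i => coeffMap (Int.castRingHom ↥E) (y i)) hgs
  obtain ⟨c, H', hc, hH', i0, m0, h1⟩ :=
    H516.exists_scale (RE A E) (Fin.cons G H : Fin (n + 1) → (↥E)[X]) ⟨0, by simpa using hG⟩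
  have hq : (H' 0).map (RE A E).subtype = C c⁻¹ * G := by
    rw [hH' 0, Fin.cons_zero]
  have hp : ∀ i : Fin n, (H' i.succ).map (RE A E).subtype = C c⁻¹ * H i := by
    intro i
    rw [hH' i.succ, Fin.cons_succ]
  refine ⟨(H' 0).map (reToS0 A E), fun i => (H' i.succ).map (reToS0 A E), ?_, ?_⟩
  · -- primitivity
    have hone : ∀ P : (↥(RE A E))[X], P.coeff m0 = 1 →
        (P.map (reToS0 A E)).map (resS A E) ≠ 0 := by
      intro P hP h0
      have := congrArg (fun q => q.coeff m0) h0
      simp only [Polynomial.coeff_map, hP, map_one, Polynomial.coeff_zero] at this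
      exact one_ne_zero this
    rcases Fin.eq_zero_or_eq_succ i0 with h0 | ⟨i, hi⟩
    · left
      exact hone _ (h0 ▸ h1)
    · right
      exact ⟨i, hone _ (hi ▸ h1)⟩
  · -- the relation
    have hE : H516.evJ ((H' 0).map (RE A E).subtype) * g =
        ∑ i, H516.evJ ((H' i.succ).map (RE A E).subtype) *
          coeffMap (Int.castRingHom ↥E) (y i) := by
      rw [hq, H516.evJ_mul, mul_assoc, hrel, Finset.mul_sum]
      refine Finset.sum_congr rfl fun i _ => ?_
      rw [hp i, H516.evJ_mul, mul_assoc]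
    apply Subtype.ext
    have hy : ∀ i, iotaE E (coeffMap (Int.castRingHom ↥E) (y i)) =
        ((toOm M A E (yInt A E hS i) : Om M) : LaurentSeries Qb) := by
      intro i
      rw [coe_toOm_yInt, coeffMap_coeffMap]
      exact coeffMap_congr (RingHom.ext_int _ _) _
    have h2 := congrArg (iotaE E) hE
    rw [map_mul, map_sum, hgf, ← coe_toOm_Uev_map M] at h2
    rw [map_sum]
    push_cast
    rw [h2]
    refine Finset.sum_congr rfl fun i _ => ?_
    rw [map_mul, hy, ← coe_toOm_Uev_map M, map_mul]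
    rfl

end Fermat.Agent.S18.Mod.H216

end
end
-- ===== PACK-END S18/Mod/H216/Basis.lean

-- ===== PACK-BEGIN S24/Count/H324Interface.lean
section




/-!
# S24 — COUNT interface, exact frozen shapes (helper324)

The four COUNT interface theorems of `Fermat/Agent/S24/Count.lean` (skeleton of helper984),
proved in the exact shapes `numOrbits (permOf N g)`, assembled from

* `Fermat.Agent.S20.Comb694` (helper694): index of `Γ₀(N)`, fixed points and orbit counts of
  `S` and `S * T`;
* `Fermat.Agent.S20.CuspCount360` (helper360): orbits of `T`.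

The only new ingredient is the bridge between orbits of the cyclic group generated by the
permutation `MulAction.toPerm g` and orbits of the cyclic group generated by `g`.
-/

set_option autoImplicit false

noncomputable section

open ModularCurve MulAction Subgroup
open scoped MatrixGroups

namespace Fermat.Agent.S24.H324

section Bridge

variable {G X : Type*} [Group G] [MulAction G X]

/-- The orbit relation of `⟨toPerm g⟩ ≤ Perm X` is the orbit relation of `⟨g⟩ ≤ G`. -/
theorem orbitRel_zpowers_toPerm (g : G) :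
    orbitRel (zpowers (MulAction.toPerm g : Equiv.Perm X)) X = orbitRel (zpowers g) X := by
  ext x y
  simp only [orbitRel_apply]
  constructor
  · rintro ⟨⟨π, hπ⟩, rfl⟩
    obtain ⟨k, rfl⟩ := Subgroup.mem_zpowers_iff.mp hπ
    refine ⟨⟨g ^ k, zpow_mem_zpowers g k⟩, ?_⟩
    have h : (MulAction.toPerm g : Equiv.Perm X) ^ k = MulAction.toPerm (g ^ k) :=
      (map_zpow (MulAction.toPermHom G X) g k).symm
    change g ^ k • y = ((MulAction.toPerm g : Equiv.Perm X) ^ k) y
    rw [h]
    rfl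
  · rintro ⟨⟨h, hh⟩, rfl⟩
    obtain ⟨k, rfl⟩ := Subgroup.mem_zpowers_iff.mp hh
    refine ⟨⟨(MulAction.toPerm g : Equiv.Perm X) ^ k, zpow_mem_zpowers _ k⟩, ?_⟩
    have h : (MulAction.toPerm g : Equiv.Perm X) ^ k = MulAction.toPerm (g ^ k) :=
      (map_zpow (MulAction.toPermHom G X) g k).symm
    change ((MulAction.toPerm g : Equiv.Perm X) ^ k) y = g ^ k • y
    rw [h]
    rfl

/-- `numOrbits (toPerm g)` is the number of orbits of the cyclic group generated by `g`. -/
theorem numOrbits_toPerm (g : G) :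
    numOrbits (MulAction.toPerm g : Equiv.Perm X)
      = Nat.card (orbitRel.Quotient (zpowers g) X) := by
  unfold numOrbits
  refine Nat.card_congr (Quotient.congr (Equiv.refl X) ?_)
  intro x y
  have h := orbitRel_zpowers_toPerm (X := X) g
  exact iff_of_eq (congrArg (fun s : Setoid X => s x y) h)

/-- `numOrbits` only depends on the cyclic group generated by the permutation. -/
theorem numOrbits_congr_zpowers {π π' : Equiv.Perm X} (h : zpowers π = zpowers π') :
    numOrbits π = numOrbits π' := by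
  unfold numOrbits
  rw [h]

/-- A permutation and its inverse have the same number of orbits. -/
theorem numOrbits_inv (π : Equiv.Perm X) : numOrbits π⁻¹ = numOrbits π :=
  numOrbits_congr_zpowers zpowers_inv

/-- `g⁻¹` and `g` have the same number of orbits. -/
theorem numOrbits_toPerm_inv (g : G) :
    numOrbits (MulAction.toPerm g⁻¹ : Equiv.Perm X)
      = numOrbits (MulAction.toPerm g : Equiv.Perm X) := by
  have h : (MulAction.toPerm g⁻¹ : Equiv.Perm X) = (MulAction.toPerm g : Equiv.Perm X)⁻¹ :=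
    map_inv (MulAction.toPermHom G X) g
  rw [h, numOrbits_inv]

/-- Conjugate elements have the same number of orbits. -/
theorem numOrbits_toPerm_conj (g h : G) :
    numOrbits (MulAction.toPerm (h * g * h⁻¹) : Equiv.Perm X)
      = numOrbits (MulAction.toPerm g : Equiv.Perm X) := by
  rw [numOrbits_toPerm, numOrbits_toPerm]
  refine Nat.card_congr (Quotient.congr (MulAction.toPerm h⁻¹) ?_)
  intro x y
  change x ∈ MulAction.orbit (zpowers (h * g * h⁻¹)) y ↔
    (h⁻¹ • x) ∈ MulAction.orbit (zpowers g) (h⁻¹ • y)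
  constructor
  · rintro ⟨⟨u, hu⟩, rfl⟩
    obtain ⟨k, rfl⟩ := Subgroup.mem_zpowers_iff.mp hu
    refine ⟨⟨g ^ k, zpow_mem_zpowers g k⟩, ?_⟩
    change g ^ k • h⁻¹ • y = h⁻¹ • ((h * g * h⁻¹) ^ k • y)
    have : (h * g * h⁻¹) ^ k = h * g ^ k * h⁻¹ := by
      rw [← conj_zpow]
    rw [this, smul_smul, smul_smul]
    congr 1
    group
  · rintro ⟨⟨u, hu⟩, hxy⟩
    obtain ⟨k, rfl⟩ := Subgroup.mem_zpowers_iff.mp hu
    refine ⟨⟨(h * g * h⁻¹) ^ k, zpow_mem_zpowers _ k⟩, ?_⟩
    change (h * g * h⁻¹) ^ k • y = x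
    have hxy' : g ^ k • h⁻¹ • y = h⁻¹ • x := hxy
    have : (h * g * h⁻¹) ^ k = h * g ^ k * h⁻¹ := by
      rw [← conj_zpow]
    rw [this, mul_smul, mul_smul, hxy', smul_inv_smul]

end Bridge

variable (N : ℕ)

theorem numOrbits_permOf (g : SL(2, ℤ)) :
    numOrbits (permOf N g)
      = Nat.card (orbitRel.Quotient (zpowers g) (SL(2, ℤ) ⧸ CongruenceSubgroup.Gamma0 N)) :=
  numOrbits_toPerm g

theorem card_XX : Nat.card (XX N) = dedekindPsi N :=
  Fermat.Agent.S20.Comb694.card_quotient_Gamma0 N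

theorem numOrbits_permOf_inv (g : SL(2, ℤ)) :
    numOrbits (permOf N g⁻¹) = numOrbits (permOf N g) :=
  numOrbits_toPerm_inv g

theorem numOrbits_permOf_conj (g h : SL(2, ℤ)) :
    numOrbits (permOf N (h * g * h⁻¹)) = numOrbits (permOf N g) :=
  numOrbits_toPerm_conj g h

variable [NeZero N]

theorem two_mul_numOrbits_S :
    2 * numOrbits (permOf N ModularGroup.S) = dedekindPsi N + nuTwo N := by
  rw [numOrbits_permOf]
  exact Fermat.Agent.S20.Comb694.two_mul_card_orbits_S N

theorem three_mul_numOrbits_ST :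
    3 * numOrbits (permOf N (ModularGroup.S * ModularGroup.T))
      = dedekindPsi N + 2 * nuThree N := by
  rw [numOrbits_permOf]
  exact Fermat.Agent.S20.Comb694.three_mul_card_orbits_ST N

theorem numOrbits_T : numOrbits (permOf N ModularGroup.T) = cuspCount N := by
  rw [numOrbits_permOf]
  exact Fermat.Agent.S20.CuspCount360.card_orbits_T N

end Fermat.Agent.S24.H324

end
end
-- ===== PACK-END S24/Count/H324Interface.lean

-- ===== PACK-BEGIN S24/Count.lean
section



/-!
# S24 — counting on `SL₂(ℤ)/Γ₀(N) ≅ ℙ¹(ℤ/N)`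

INTERFACE FILE (statements frozen by helper984 @4630f4b), proofs filled in by helper324 from
`Fermat.Agent.S24.H324` (which assembles helper694's `S20.Comb` and helper360's `CuspCount360`).
-/

set_option autoImplicit false

noncomputable section

open ModularCurve
open scoped MatrixGroups

namespace Fermat.Agent.S24

variable (N : ℕ) [NeZero N]

theorem card_XX : Nat.card (XX N) = dedekindPsi N :=
  H324.card_XX N

theorem two_mul_numOrbits_S :
    2 * numOrbits (permOf N ModularGroup.S) = dedekindPsi N + nuTwo N :=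
  H324.two_mul_numOrbits_S N

theorem three_mul_numOrbits_ST :
    3 * numOrbits (permOf N (ModularGroup.S * ModularGroup.T))
      = dedekindPsi N + 2 * nuThree N :=
  H324.three_mul_numOrbits_ST N

theorem numOrbits_T : numOrbits (permOf N ModularGroup.T) = cuspCount N :=
  H324.numOrbits_T N

end Fermat.Agent.S24

end
end
-- ===== PACK-END S24/Count.lean

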