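import Fermat.Agent.Pack.S3234.G0E6L3
import Fermat.Agent.Pack.S3234.G0E6L0
import Fermat.Agent.Pack.S3234.G0E3L1
import Fermat.Agent.Pack.S3234.G0E0L3
import Fermat.Agent.Pack.S3234.G0E0L0
import Fermat.Agent.Pack.S3234.G0E6L1
import Fermat.Agent.Pack.S3234.G0E3L2
import Fermat.Agent.Pack.S3234.G0E2L0
import Fermat.Agent.Pack.S3234.G0E5L3
import Fermat.Agent.Pack.S3234.G0E0L2
import Fermat.Agent.Pack.S3234.G0E0L1
import Fermat.Agent.Pack.S3234.G0E5L1
import Fermat.Agent.Pack.S3234.G0E5L2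

-- ===== PACK-BEGIN S24/Mod/H997HolBase.lean
section




/-!
# S24 / MOD — the concrete `HolBase N` and `Nonempty (AnalyticCore N)`

`Hol := {f holomorphic on ℍ | ∀ γ ∈ SL(2,ℤ), f ∘ γ has a convergent expansion in exp(2πiτ/N)}`,
`J d τ := j(dτ)`, `qexp :=` expansion at `i∞` (helper384's `expInf`).
-/

set_option autoImplicit false

noncomputable section

open ModularCurve HahnSeries UpperHalfPlane ModularForm EisensteinSeries
open scoped MatrixGroups Manifold Real

namespace Fermat.Agent.S24.H997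

open Fermat.Agent.S24.H624 Fermat.Agent.S20.L1

/-- the `j`-function has the Prelude `q`-expansion -/
theorem infExp_jFun : InfExp 1 jFun infJq := by
  intro τ
  have h := Fermat.Agent.S24.JFun.hasSum_jFun τ
  have h1 : infJq = jqModC ℂ := by
    rw [infJq, ← map_jqModC (algebraMap ℚ ℂ), jqModC_rat]
    rfl
  have h2 : infZ 1 τ = Function.Periodic.qParam 1 (τ : ℂ) := by
    simp [infZ]
  rw [h1]
  simp only [h2]
  exact h

theorem jFun_smul' (γ : SL(2, ℤ)) (τ : ℍ) : jFun (γ • τ) = jFun τ :=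
  Fermat.Agent.S24.M7.H47.jFun_smul γ τ

/-- `τ ↦ j(dτ)` -/
def Jd (d : ℕ) : ℍ → ℂ := fun τ => jFun (infAff d 0 1 τ)

theorem Jd_one : Jd 1 = jFun := by
  funext τ
  simp [Jd]

theorem mdiff_Jd {d : ℕ} (hd : 0 < d) : MDiff (Jd d) := by
  rw [UpperHalfPlane.mdifferentiable_iff]
  have hj : DifferentiableOn ℂ (jFun ∘ ofComplex) {z : ℂ | 0 < z.im} :=
    UpperHalfPlane.mdifferentiable_iff.mp mdiff_jFun
  have hmul : DifferentiableOn ℂ (fun z : ℂ => (d : ℂ) * z) {z : ℂ | 0 < z.im} :=
    (differentiable_id.const_mul (d : ℂ)).differentiableOn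
  have hmaps : Set.MapsTo (fun z : ℂ => (d : ℂ) * z) {z : ℂ | 0 < z.im} {z : ℂ | 0 < z.im} := by
    intro z hz
    simp only [Set.mem_ofPred_eq] at hz ⊢
    have : ((d : ℂ) * z).im = d * z.im := by simp
    rw [this]
    have hd' : (0 : ℝ) < d := by exact_mod_cast hd
    positivity
  refine (hj.comp hmul hmaps).congr ?_
  intro z hz
  simp only [Set.mem_ofPred_eq] at hz
  simp only [Function.comp_apply, Jd]
  congr 1
  apply UpperHalfPlane.ext
  rw [infAff_coe hd one_pos, ofComplex_apply_of_im_pos hz]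
  have hz' : 0 < ((d : ℂ) * z).im := hmaps hz
  rw [ofComplex_apply_of_im_pos hz']
  simp

variable (N : ℕ) [NeZero N]

/-- the ring `Hol` -/
def holN : Subring (ℍ → ℂ) where
  carrier := {f | f ∈ holoRing ∧ ∀ γ : SL(2, ℤ), compSL γ f ∈ expRing N}
  mul_mem' := by
    rintro f g ⟨hf, hf'⟩ ⟨hg, hg'⟩
    exact ⟨mul_mem hf hg, fun γ => mul_mem (hf' γ) (hg' γ)⟩
  one_mem' := ⟨one_mem _, fun _ => one_mem _⟩
  add_mem' := by
    rintro f g ⟨hf, hf'⟩ ⟨hg, hg'⟩
    exact ⟨add_mem hf hg, fun γ => add_mem (hf' γ) (hg' γ)⟩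
  zero_mem' := ⟨zero_mem _, fun _ => zero_mem _⟩
  neg_mem' := by
    rintro f ⟨hf, hf'⟩
    exact ⟨neg_mem hf, fun γ => neg_mem (hf' γ)⟩

theorem mem_holN {f : ℍ → ℂ} :
    f ∈ holN N ↔ f ∈ holoRing ∧ ∀ γ : SL(2, ℤ), compSL γ f ∈ expRing N := Iff.rfl

theorem const_mem_holN (c : ℂ) : (fun _ : ℍ => c) ∈ holN N :=
  ⟨(algebraMap ℂ holoRing c).2, fun _ => (InfExp.const c).mem_expRing⟩

theorem comp_mem_holN (g : SL(2, ℤ)) (f : ℍ → ℂ) (hf : f ∈ holN N) : compSL g f ∈ holN N := by
  refine ⟨(precompSL g ⟨f, hf.1⟩).2, fun γ => ?_⟩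
  rw [← compSL_mul]
  exact hf.2 _

theorem Jd_mem_holN (d : ℕ) (hd : d ∣ N) : Jd d ∈ holN N := by
  have hN : 0 < N := Nat.pos_of_ne_zero (NeZero.ne N)
  have hd0 : 0 < d := Nat.pos_of_dvd_of_pos hd hN
  exact ⟨mdiff_Jd hd0, fun γ => inf_J_mul_smul_mem_expRing jFun_smul' infExp_jFun hd γ⟩

theorem Jd_inv (d : ℕ) (hd : d ∣ N) (g : SL(2, ℤ)) (hg : g ∈ CongruenceSubgroup.Gamma0 N)
    (τ : ℍ) : Jd d (g • τ) = Jd d τ := by
  have hN : 0 < N := Nat.pos_of_ne_zero (NeZero.ne N)
  have hd0 : 0 < d := Nat.pos_of_dvd_of_pos hd hN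
  have hNg : (N : ℤ) ∣ g 1 0 := by
    rw [CongruenceSubgroup.Gamma0_mem] at hg
    exact (ZMod.intCast_zmod_eq_zero_iff_dvd _ _).mp hg
  have hdg : (d : ℤ) ∣ g 1 0 := dvd_trans (by exact_mod_cast hd) hNg
  obtain ⟨c, hc⟩ := hdg
  have hdet := inf_sl_det g
  let g' : SL(2, ℤ) := ⟨!![g 0 0, d * g 0 1; c, g 1 1], by
    rw [Matrix.det_fin_two_of]
    rw [hc] at hdet
    linear_combination hdet⟩
  have h := inf_aff_smul_eq (d := d) (a := d) (d' := 1) (b := 0) hd0 hd0 one_pos g g'
    (by simp [g']; ring) (by simp [g']) (by simp [g', hc]; ring) (by simp [g']) τ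
  show jFun (infAff d 0 1 (g • τ)) = jFun (infAff d 0 1 τ)
  rw [h, jFun_smul']

theorem Jd_distinct (g : SL(2, ℤ)) (h : ∀ τ : ℍ, Jd N (g • τ) = Jd N τ) :
    g ∈ CongruenceSubgroup.Gamma0 N := by
  have := inf_distinct (J := jFun) jFun_smul' infExp_jFun (N := N) g 1
    (fun τ => by simpa [Jd] using h τ)
  simpa using this

/-- the inclusion `Hol → expRing N` -/
def holToExp : holN N →+* expRing N where
  toFun h := ⟨h.1, by simpa [compSL_one] using h.2.2 1⟩
  map_one' := rfl
  map_mul' _ _ := rfl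
  map_zero' := rfl
  map_add' _ _ := rfl

theorem holToExp_injective : Function.Injective (holToExp N) := by
  intro x y h
  exact Subtype.ext (congrArg (fun f : expRing N => (f : ℍ → ℂ)) h)

theorem expInf_Jd (d : ℕ) (hd : d ∣ N) :
    haveI : NeZero (d * N) := ⟨Nat.mul_ne_zero
      (Nat.pos_of_dvd_of_pos hd (Nat.pos_of_ne_zero (NeZero.ne N))).ne' (NeZero.ne N)⟩
    expInf N (holToExp N ⟨Jd d, Jd_mem_holN N d hd⟩) = qExpand ℂ (d * N) infJq := by
  have hN : 0 < N := Nat.pos_of_ne_zero (NeZero.ne N)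
  have hd0 : 0 < d := Nat.pos_of_dvd_of_pos hd hN
  exact (inf_J_mul_exp infExp_jFun hd0 hN).expInf_eq

/-- **The concrete `HolBase N`.** -/
def holBase : HolBase N where
  Hol := holN N
  const_mem := const_mem_holN N
  comp_mem := comp_mem_holN N
  J := Jd
  J_mem := Jd_mem_holN N
  J_one_inv g τ := by rw [Jd_one]; exact jFun_smul' g τ
  J_inv := Jd_inv N
  J_distinct := Jd_distinct N
  qexp := (expInf N).comp (holToExp N)
  qexp_injective := expInf_injective.comp (holToExp_injective N)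
  qexp_const c := (InfExp.const c).expInf_eq
  qexp_J d hd k := by
    have hN : 0 < N := Nat.pos_of_ne_zero (NeZero.ne N)
    have hd0 : 0 < d := Nat.pos_of_dvd_of_pos hd hN
    haveI : NeZero (d * N) := ⟨Nat.mul_ne_zero hd0.ne' (NeZero.ne N)⟩
    show (expInf N (holToExp N ⟨Jd d, Jd_mem_holN N d hd⟩)).coeff k = _
    rw [expInf_Jd N d hd]
    have hcast : ((N * d : ℕ) : ℤ) = ((d * N : ℕ) : ℤ) := by rw [mul_comm]
    rw [hcast]
    split_ifs with hk
    · obtain ⟨m, rfl⟩ := hk
      rw [qExpand_coeff_mul, Int.mul_ediv_cancel_left _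
        (by exact_mod_cast (NeZero.ne (d * N)) : ((d * N : ℕ) : ℤ) ≠ 0)]
      rfl
    · exact qExpand_coeff_of_not_dvd (d * N) _ hk

theorem holBase_isHolo : (holBase N).IsHolo where
  mdiff f hf := hf.1
  J_one := Jd_one

theorem T_smul_eq_infAff (τ : ℍ) : ModularGroup.T • τ = infAff 1 1 1 τ := by
  apply UpperHalfPlane.ext
  rw [UpperHalfPlane.modular_T_smul, infAff_coe one_pos one_pos]
  simp [add_comm]

theorem holBase_shift (h : (holBase N).Hol) (n : ℤ) :
    ((holBase N).qexp ((holBase N).compH ModularGroup.T h)).coeff n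
      = ((infRoot 1 N : ℂˣ) : ℂ) ^ n * ((holBase N).qexp h).coeff n := by
  have hf : InfExp N (h : ℍ → ℂ) ((holBase N).qexp h) := expInf_spec (holToExp N h)
  have hT := hf.comp_translate 1
  have hT' : InfExp N (((holBase N).compH ModularGroup.T h : (holBase N).Hol) : ℍ → ℂ)
      (infTwist (infRoot 1 N) ((holBase N).qexp h)) := by
    refine hT.congr fun τ => ?_
    show (h : ℍ → ℂ) (infAff 1 1 1 τ) = (h : ℍ → ℂ) (ModularGroup.T • τ)
    rw [T_smul_eq_infAff]
  have heq : (holBase N).qexp ((holBase N).compH ModularGroup.T h)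
      = infTwist (infRoot 1 N) ((holBase N).qexp h) :=
    (expInf_spec (holToExp N ((holBase N).compH ModularGroup.T h))).unique hT'
  rw [heq, infTwist_coeff, Units.val_zpow_eq_zpow_val, mul_comm]

theorem isPrimitiveRoot_infRoot : IsPrimitiveRoot ((infRoot 1 N : ℂˣ) : ℂ) N := by
  have h := Complex.isPrimitiveRoot_exp N (NeZero.ne N)
  have : ((infRoot 1 N : ℂˣ) : ℂ) = Complex.exp (2 * π * Complex.I / N) := by
    rw [infRoot_coe]
    congr 1
    push_cast
    ring
  rw [this]
  exact h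

/-- **The analytic core exists.** -/
def analyticCore : AnalyticCore N :=
  (holBase N).toAnalyticCore (holBase_isHolo N) _ (isPrimitiveRoot_infRoot N) (holBase_shift N)

theorem nonempty_analyticCore : Nonempty (AnalyticCore N) := ⟨analyticCore N⟩

end Fermat.Agent.S24.H997

end
end
-- ===== PACK-END S24/Mod/H997HolBase.lean

-- ===== PACK-BEGIN S24/Mod.lean
section




/-!
# S24 — modular side: local embedding data for the function field of `X₀(N)`

INTERFACE FILE (statements frozen by helper984 @4630f4b).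

Proof: helper997's assembly `H997.AnalyticCore.modularPackage_fields` applied to
* the concrete analytic core `H997.analyticCore N` (`Mod/H997HolBase.lean`: helper384's
  expansions at `∞`, helper624's Taylor expansions, helper47's local orders of `j`, helper264's
  `q`-expansion of `j`), and
* the degree bound `Deg457.degree_fields N` (helper457 / helper648 / helper708).
-/

set_option autoImplicit false

noncomputable section

open AlgebraicCurve ModularCurve
open scoped MatrixGroups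

namespace Fermat.Agent.S24

/-- Everything the algebraic side needs to know about `F = ℚ̄(j(q^d) : d ∣ N)`. -/
structure ModularPackage (N : ℕ) [NeZero N] where
  finiteDimensional :
    FiniteDimensional ↥(IntermediateField.adjoin Kbar {jF N}) (FF N)
  finrank_eq :
    Module.finrank ↥(IntermediateField.adjoin Kbar {jF N}) (FF N) = Nat.card (XX N)
  dataFin : ∀ a : Kbar, LocalData Kbar (FF N) ℂ (XX N) (jF N - algebraMap Kbar (FF N) a)
  dataInf : LocalData Kbar (FF N) ℂ (XX N) (jF N)⁻¹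
  perm_generic : ∀ a : Kbar, a ≠ 0 → a ≠ 1728 → (dataFin a).perm = 1
  orbits_zero :
    numOrbits (dataFin 0).perm = numOrbits (permOf N (ModularGroup.S * ModularGroup.T))
  orbits_1728 : numOrbits (dataFin 1728).perm = numOrbits (permOf N ModularGroup.S)
  orbits_inf : numOrbits dataInf.perm = numOrbits (permOf N ModularGroup.T)

theorem nonempty_modularPackage (N : ℕ) [NeZero N] : Nonempty (ModularPackage N) := by
  obtain ⟨hfd, hle⟩ := Deg457.degree_fields N
  obtain ⟨dF, dI, h1, h2, h3, h4, h5⟩ := (H997.analyticCore N).modularPackage_fields hfd hle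
  exact ⟨⟨hfd, h1, dF, dI, h2, h3, h4, h5⟩⟩

end Fermat.Agent.S24

end
end
-- ===== PACK-END S24/Mod.lean

-- ===== PACK-BEGIN S29/H882/MeroMain.lean
section




/-!
# S29 / MERO (helper882), part 3: good functions have `q`-expansions in the function field

Main result `qexpFun_mem_FC`: for `f` holomorphic on `ℍ`, `Γ₀(N)`-invariant, with all
`SL₂(ℤ)`-translates of at most exponential growth at `i∞` (i.e. `f ∈ S24.H648.goodRing N`), the
`q`-expansion of `f` lies in `laurentBaseChange ℂ (modularFunctionFieldFull N)`, the function field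
of `X₀(N)` over `ℂ` of the Prelude.

Proof: the field `MC N` generated by all such `q`-expansions has degree `≤ [SL₂(ℤ):Γ₀(N)]` over
`ℂ(j)` (conjugate product, landed S24), and contains `FC N`, which has degree `≥ [SL₂(ℤ):Γ₀(N)]`
(landed S24 over `ℚ̄`, transported to `ℂ` by descent of relations).
-/

set_option autoImplicit false

noncomputable section

open UpperHalfPlane ModularGroup CongruenceSubgroup Polynomial ModularCurve IntermediateField
open scoped MatrixGroups Manifold Modular Real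

namespace Fermat.Agent.S29.H882

open Fermat.Agent.S24 Fermat.Agent.S24.H648 Fermat.Agent.S24.H708 Fermat.Agent.S24.Deg457

section BaseChange

variable {K L : Type*} [Field K] [Algebra ℚ K] [Field L] [Algebra ℚ L]

/-- `coeffMap ι` maps the function field over `K` into the function field over `L`. -/
theorem coeffMap_mem_laurentBaseChange_of_mem (ι : K →+* L)
    (F₀ : IntermediateField ℚ (LaurentSeries ℚ)) {x : LaurentSeries K}
    (hx : x ∈ laurentBaseChange K F₀) : coeffMap ι x ∈ laurentBaseChange L F₀ := by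
  rw [mem_laurentBaseChange_iff] at hx
  induction hx using Subfield.closure_induction with
  | mem y hy =>
      rcases hy with ⟨a, rfl⟩ | ⟨z, hz, rfl⟩
      · rw [coeffMap_algebraMap']
        exact (laurentBaseChange L F₀).algebraMap_mem _
      · rw [coeffMap_coeffEmb']
        exact coeffEmb_mem_laurentBaseChange L hz
  | one => simp
  | add x y _ _ hx hy => simpa using add_mem hx hy
  | neg x _ hx => simpa using neg_mem hx
  | inv x _ hx => simpa using inv_mem hx
  | mul x y _ _ hx hy => simpa using mul_mem hx hy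

end BaseChange

variable (N : ℕ) [NeZero N]

/-- The function field of `X₀(N)` over `ℂ` (Prelude object). -/
abbrev FC : IntermediateField ℂ (LaurentSeries ℂ) :=
  laurentBaseChange ℂ (modularFunctionFieldFull N)

/-- The field generated by the `q`-expansions of good functions. -/
def MC : IntermediateField ℂ (LaurentSeries ℂ) :=
  IntermediateField.adjoin ℂ (goodQ N : Set (LaurentSeries ℂ))

theorem goodQ_le_MC {b : LaurentSeries ℂ} (hb : b ∈ goodQ N) : b ∈ MC N :=
  IntermediateField.subset_adjoin ℂ _ hb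

theorem JK_mem_FC : JK ℂ ∈ FC N :=
  coeffEmb_mem_laurentBaseChange ℂ (modularFunctionField_le_full N (jq_mem N))

theorem FC_le_MC : FC N ≤ MC N := by
  refine (laurentBaseChange_full_le (K := ℂ) N).trans ?_
  refine IntermediateField.adjoin.mono ℂ _ _ ?_
  intro b hb
  exact AK_le_goodQ N (Algebra.subset_adjoin hb)

/-- `j` as an element of `MC N`. -/
def jM : MC N := ⟨JK ℂ, goodQ_le_MC N (JK_mem_goodQ N)⟩

theorem aeval_jM_ne_zero {t : ℂ[X]} (ht : t ≠ 0) :
    aeval (AdjoinSimple.gen ℂ (jM N)) t ≠ 0 := by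
  intro h0
  apply aeval_JK_ne_zero ℂ ht
  have h1 := congrArg (algebraMap ↥(IntermediateField.adjoin ℂ {jM N}) (MC N)) h0
  rw [← aeval_algebraMap_apply, map_zero, AdjoinSimple.algebraMap_gen] at h1
  have h2 := congrArg (algebraMap (MC N) (LaurentSeries ℂ)) h1
  rw [← aeval_algebraMap_apply, map_zero] at h2
  exact h2

theorem algebraMap_comp_aeval_jM :
    (algebraMap (MC N) (LaurentSeries ℂ)).comp
      ((aeval (jM N) : ℂ[X] →ₐ[ℂ] MC N).toRingHom) = evJ (JK ℂ) := by
  refine Polynomial.ringHom_ext ?_ ?_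
  · intro c
    simp [evJ, ← IsScalarTower.algebraMap_apply]
  · simp [evJ]
    rfl

/-- **Degree bound**: `[MC N : ℂ(j)] ≤ [SL₂(ℤ) : Γ₀(N)]`. -/
theorem finiteDimensional_and_finrank_le_MC :
    FiniteDimensional ↥(IntermediateField.adjoin ℂ {jM N}) (MC N) ∧
      Module.finrank ↥(IntermediateField.adjoin ℂ {jM N}) (MC N) ≤ Nat.card (XX N) := by
  refine finiteDimensional_and_finrank_le_of_forall_natDegree_minpoly_le _ fun x => ?_
  obtain ⟨Q, hQ0, hQn, hQ⟩ := algDeg_of_mem_adjoin (goodQ N) (JK_mem_goodQ N)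
    (fun b hb => algDeg_of_mem_goodQ hb) x.2
  have hinc : Function.Injective (algebraMap (MC N) (LaurentSeries ℂ)) :=
    (algebraMap (MC N) (LaurentSeries ℂ)).injective
  refine isIntegral_and_natDegree_le_of_relation (K := ℂ)
    (AdjoinSimple.gen ℂ (jM N)) (fun t ht => aeval_jM_ne_zero N ht) x Q hQ0 _ hQn ?_
  apply hinc
  rw [map_zero, Polynomial.hom_eval₂, AdjoinSimple.algebraMap_gen, algebraMap_comp_aeval_jM]
  exact hQ

end Fermat.Agent.S29.H882

end
end
-- ===== PACK-END S29/H882/MeroMain.lean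

-- ===== PACK-BEGIN Lib/RR/H804/CharZero.lean
section



/-!
# RR library, bridge: `FF1 K F` for function fields over an algebraically closed field of
characteristic zero  (helper804)

From the Dedekind dictionary of `Fermat.Agent.S24.FF`: if `K` is algebraically closed of
characteristic zero and `F` is finite over `K(x)` for a transcendental `x`, then `F/K` satisfies
the standing hypotheses `FF1 K F` of the RR library.
-/

set_option autoImplicit false

noncomputable section

open AlgebraicCurve IntermediateField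

namespace Fermat.Agent.Lib.RR.H804

open Fermat.Agent.S24

variable {K F : Type*} [Field K] [Field F] [Algebra K F] [IsAlgClosed K] [CharZero K]

/-- Every function has finitely many zeros and poles. -/
theorem finite_setOf_ord_ne_zero {x : F} (hx : Transcendental K x) [FiniteDimensional K⟮x⟯ F]
    (f : F) : {v : Place K F | v.ord f ≠ 0}.Finite := by
  by_cases hfr : f ∈ (algebraMap K F).range
  · obtain ⟨a, rfl⟩ := hfr
    convert Set.finite_empty
    ext v
    simp [FF.ord_algebraMap]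
  · have hft : Transcendental K f := FF.transcendental_of_not_mem_range hfr
    have : FiniteDimensional K⟮f⟯ F := FF.finiteDimensional_adjoin_of_transcendental hx hft
    exact FF.finite_setOf_ord_ne_zero hft

/-- The divisor of a function. -/
def divOf {x : F} (hx : Transcendental K x) [FiniteDimensional K⟮x⟯ F] (f : F) :
    Divisor K F :=
  Finsupp.ofSupportFinite (fun v => v.ord f) (finite_setOf_ord_ne_zero hx f)

@[simp] theorem divOf_apply {x : F} (hx : Transcendental K x) [FiniteDimensional K⟮x⟯ F]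
    (f : F) (v : Place K F) : _root_.Fermat.Agent.Lib.RR.H804.divOf hx f v = v.ord f := rfl

theorem degree_divOf {x : F} (hx : Transcendental K x) [FiniteDimensional K⟮x⟯ F] (f : F) :
    Divisor.degree (_root_.Fermat.Agent.Lib.RR.H804.divOf hx f) = 0 :=
  FF.degree_principal x hx f _ (fun _ => rfl)

/-- Principal divisors exist and have degree zero. -/
theorem hasPrincipalDivisors {x : F} (hx : Transcendental K x) [FiniteDimensional K⟮x⟯ F] :
    HasPrincipalDivisors K F :=
  ⟨fun f _ => ⟨_root_.Fermat.Agent.Lib.RR.H804.divOf hx f, fun _ => rfl, _root_.Fermat.Agent.Lib.RR.H804.degree_divOf hx f⟩⟩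

/-- There is at least one place (a zero of `x`). -/
theorem nonempty_place {x : F} (hx : Transcendental K x) [FiniteDimensional K⟮x⟯ F] :
    Nonempty (Place K F) := by
  by_contra hne
  rw [not_nonempty_iff] at hne
  have h := FF.sum_ord_eq_finrank hx (∅ : Finset (Place K F)) (fun v => (hne.false v).elim)
  rw [Finset.sum_empty] at h
  have hpos : 0 < Module.finrank K⟮x⟯ F := Module.finrank_pos
  omega

/-- There is a zero of `x - a` for every `a`. -/
theorem exists_place_ord_sub_pos {x : F} (hx : Transcendental K x) [FiniteDimensional K⟮x⟯ F]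
    (a : K) : ∃ v : Place K F, 0 < v.ord (x - algebraMap K F a) := by
  by_contra hne
  rw [not_exists] at hne
  have h := FF.sum_ord_sub_const_eq_finrank hx a (∅ : Finset (Place K F))
    (fun v => ⟨fun h => (Finset.notMem_empty v h).elim, fun h => (hne v h).elim⟩)
  rw [Finset.sum_empty] at h
  have hpos : 0 < Module.finrank K⟮x⟯ F := Module.finrank_pos
  omega

/-- There is a pole of `x`. -/
theorem exists_place_ord_neg {x : F} (hx : Transcendental K x) [FiniteDimensional K⟮x⟯ F] :
    ∃ v : Place K F, v.ord x < 0 := by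
  by_contra hne
  rw [not_exists] at hne
  have h := FF.sum_ord_neg_eq_neg_finrank hx (∅ : Finset (Place K F))
    (fun v => ⟨fun h => (Finset.notMem_empty v h).elim, fun h => (hne v h).elim⟩)
  rw [Finset.sum_empty] at h
  have hpos : 0 < Module.finrank K⟮x⟯ F := Module.finrank_pos
  omega

omit [CharZero K] in
/-- The residue field of every place is `K`. -/
theorem residue_bijective {x : F} (hx : Transcendental K x) [FiniteDimensional K⟮x⟯ F]
    (v : Place K F) : Function.Bijective (algebraMap K v.ResidueField) := by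
  refine ⟨(algebraMap K v.ResidueField).injective, fun r => ?_⟩
  obtain ⟨f, rfl⟩ := IsLocalRing.residue_surjective r
  obtain ⟨a, ha⟩ := FF.exists_const_sub_mem_nonunits v hx f.2
  refine ⟨a, ?_⟩
  rw [IsScalarTower.algebraMap_apply K v.toValuationSubring v.ResidueField]
  symm
  rw [IsLocalRing.ResidueField.algebraMap_eq, ← sub_eq_zero, ← map_sub,
    IsLocalRing.residue_eq_zero_iff]
  exact ValuationSubring.coe_mem_nonunits_iff.mp ha

omit [CharZero K] in
/-- Residue fields are finite over `K`. -/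
theorem finite_residueField {x : F} (hx : Transcendental K x) [FiniteDimensional K⟮x⟯ F]
    (v : Place K F) : Module.Finite K v.ResidueField :=
  Module.Finite.of_surjective (Algebra.linearMap K v.ResidueField)
    (residue_bijective hx v).2

/-- **Bridge**: `FF1 K F` for `K` algebraically closed of characteristic zero. -/
theorem ff1 {x : F} (hx : Transcendental K x) [FiniteDimensional K⟮x⟯ F] : FF1 K F where
  hpd := hasPrincipalDivisors hx
  deg_eq_one := fun v => FF.deg_eq_one v hx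
  nonempty_place := nonempty_place hx
  exists_finite := ⟨x, hx, inferInstance⟩

end Fermat.Agent.Lib.RR.H804

end
end
-- ===== PACK-END Lib/RR/H804/CharZero.lean

-- ===== PACK-BEGIN S24/Alg/Principal.lean
section





/-!
# S24 / ALG — principal divisors have degree zero (FF3), from the fundamental equality (FF1)

helper984.  `deg div f = ∑_{zeros} ord_v f - ∑_{poles} ord_v f⁻¹ = [F:K(f)] - [F:K(f⁻¹)] = 0`.
-/

set_option autoImplicit false

noncomputable section

open AlgebraicCurve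

namespace Fermat.Agent.S24

variable {K F : Type*} [Field K] [Field F] [Algebra K F]

theorem degree_eq_sum_of_deg_one' (hdeg : ∀ v : Place K F, v.deg = 1) (E : Divisor K F)
    (T : Finset (Place K F)) (hT : E.support ⊆ T) :
    Divisor.degree E = ∑ v ∈ T, E v := by
  have h1 : Divisor.degree E = E.sum fun v n => n * (v.deg : ℤ) := by
    simp [Divisor.degree, Finsupp.liftAddHom_apply]
  rw [h1, Finsupp.sum_of_support_subset E hT _ (fun v _ => by simp)]
  refine Finset.sum_congr rfl fun v _ => ?_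
  rw [hdeg v]; simp

variable [IsAlgClosed K] [CharZero K]

/-- FF1 in inequality form, for an arbitrary enumeration `s` of the zeros of `t`. -/
theorem fundamental_le (t : F) (ht : Transcendental K t)
    [FiniteDimensional ↥(IntermediateField.adjoin K {t}) F]
    (s : Finset (Place K F)) (hs : ∀ v : Place K F, v ∈ s ↔ 0 < v.ord t) :
    (Module.finrank ↥(IntermediateField.adjoin K {t}) F : ℤ) ≤ ∑ v ∈ s, v.ord t := by
  obtain ⟨s', hs', hsum⟩ := open_fundamental_eq t ht
  have : s = s' := by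
    ext v
    rw [hs, hs']
  rw [this, hsum]

/-- FF3: a principal divisor has degree zero. -/
theorem degree_principal (j : F) (hj : Transcendental K j)
    [FiniteDimensional ↥(IntermediateField.adjoin K {j}) F] (f : F) (hf : f ≠ 0)
    (D : Divisor K F) (hD : ∀ v : Place K F, D v = v.ord f) : Divisor.degree D = 0 := by
  classical
  by_cases hfK : f ∈ (algebraMap K F).range
  · -- constants have no zeros or poles
    obtain ⟨c, rfl⟩ := hfK
    have : D = 0 := by
      ext v
      rw [hD, ord_algebraMap]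
      rfl
    rw [this, map_zero]
  · have hft : Transcendental K f := FF.transcendental_of_not_mem_range hfK
    have hfit : Transcendental K f⁻¹ := by
      intro h
      exact hft (by simpa using h.inv)
    haveI : FiniteDimensional ↥(IntermediateField.adjoin K {f}) F :=
      FF.finiteDimensional_adjoin_of_transcendental hj hft
    obtain ⟨hfd, hfr⟩ := finiteDimensional_and_finrank_of_eq (adjoin_inv K f)
    obtain ⟨Z, hZ, hZsum⟩ := open_fundamental_eq f hft
    obtain ⟨P, hP, hPsum⟩ := open_fundamental_eq f⁻¹ hfit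
    have hdeg : ∀ v : Place K F, v.deg = 1 := fun v => FF.deg_eq_one v hj
    have hsupp : D.support ⊆ Z ∪ P := by
      intro v hv
      rw [Finsupp.mem_support_iff, hD] at hv
      rw [Finset.mem_union, hZ, hP, v.ord_inv]
      omega
    have hdisj : Disjoint Z P := by
      rw [Finset.disjoint_left]
      intro v hvZ hvP
      rw [hZ] at hvZ
      rw [hP, v.ord_inv] at hvP
      omega
    rw [degree_eq_sum_of_deg_one' hdeg D _ hsupp, Finset.sum_union hdisj]
    have h1 : ∑ v ∈ Z, D v = ∑ v ∈ Z, v.ord f := Finset.sum_congr rfl fun v _ => hD v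
    have h2 : ∑ v ∈ P, D v = -∑ v ∈ P, v.ord f⁻¹ := by
      rw [← Finset.sum_neg_distrib]
      refine Finset.sum_congr rfl fun v _ => ?_
      rw [hD, v.ord_inv, neg_neg]
    rw [h1, h2, hZsum, hPsum, hfr]
    ring

end Fermat.Agent.S24

end
end
-- ===== PACK-END S24/Alg/Principal.lean

-- ===== PACK-BEGIN S24/Alg/Sub.lean
section






/-!
# S24 / ALG — sub-interface (statements needed by the global assembly in `Alg.lean`)

Adapters (helper984) from the FF layer (helper804), the KD layer (helper84) and the local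
theorem (helper117) to the shapes used by the assembly.
-/

set_option autoImplicit false

noncomputable section

open AlgebraicCurve KaehlerDifferential

namespace Fermat.Agent.S24

variable {K F : Type*} [Field K] [Field F] [Algebra K F] [IsAlgClosed K] [CharZero K]
variable {C : Type*} [Field C] [CharZero C] {X : Type*} [Finite X]

/-- The places of `F/K` at which `t` vanishes. -/
def zeroPlaces (K : Type*) {F : Type*} [Field K] [Field F] [Algebra K F] (t : F) :
    Set (Place K F) := {v | 0 < v.ord t}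

/-! ### FF (function-field generalities) -/

omit [CharZero K] in
/-- FF2: all places have degree one. -/
theorem sub_deg_eq_one (j : F) (hj : Transcendental K j)
    [FiniteDimensional ↥(IntermediateField.adjoin K {j}) F] (v : Place K F) : v.deg = 1 :=
  FF.deg_eq_one v hj

/-- FF3: a principal divisor has degree zero. -/
theorem sub_degree_principal (j : F) (hj : Transcendental K j)
    [FiniteDimensional ↥(IntermediateField.adjoin K {j}) F] (f : F) (hf : f ≠ 0)
    (D : Divisor K F) (hD : ∀ v : Place K F, D v = v.ord f) : Divisor.degree D = 0 :=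
  degree_principal j hj f hf D hD

omit [CharZero K] in
/-- FF4: every place lies over a point of `ℙ¹_j`. -/
theorem sub_exists_point (j : F)
    [FiniteDimensional ↥(IntermediateField.adjoin K {j}) F] (v : Place K F) :
    v.ord j < 0 ∨ ∃ a : K, 0 < v.ord (j - algebraMap K F a) := by
  rcases lt_or_ge (v.ord j) 0 with h | h
  · exact Or.inl h
  · haveI : Algebra.IsAlgebraic ↥(IntermediateField.adjoin K {j}) F :=
      Algebra.IsAlgebraic.of_finite _ _
    exact Or.inr (FF.exists_ord_sub_pos v j h)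

/-! ### KD (Kähler differentials) -/

omit [IsAlgClosed K] in
/-- KD1: `Ω[F/K]` is spanned by `D j`. -/
theorem sub_exists_smul_D (j : F)
    [FiniteDimensional ↥(IntermediateField.adjoin K {j}) F] (ω : Ω[F⁄K]) :
    ∃ f : F, ω = f • D K F j := by
  haveI : Algebra.IsAlgebraic ↥(IntermediateField.adjoin K {j}) F :=
    Algebra.IsAlgebraic.of_finite _ _
  have h : ω ∈ Submodule.span F {D K F j} := by
    rw [H84.span_D_eq_top j]; exact Submodule.mem_top
  obtain ⟨f, hf⟩ := Submodule.mem_span_singleton.mp h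
  exact ⟨f, hf.symm⟩

/-- KD2: `ordDifferential` is additive in the coefficient. -/
theorem sub_ordDifferential_smul (j : F)
    [FiniteDimensional ↥(IntermediateField.adjoin K {j}) F] (v : Place K F)
    (f : F) (hf : f ≠ 0) (ω : Ω[F⁄K]) (hω : ω ≠ 0) :
    v.ordDifferential (f • ω) = v.ord f + v.ordDifferential ω := by
  haveI : v.DCoordGenerates := H84.place_dCoordGenerates j v
  haveI : Nontrivial Ω[F⁄K] := ⟨⟨ω, 0, hω⟩⟩
  refine v.ordDifferential_smul hf ?_
  intro h0
  apply hω
  rw [← v.differentialCoeff_smul_dCoord ω, h0, zero_smul]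

/-! ### LT (local theorem) -/

/-- LT: the places over the zero of `t` are finite in number, in bijection with the orbits of
`perm`, and the ramification indices add up to the degree. -/
theorem sub_local_count (t : F)
    [FiniteDimensional ↥(IntermediateField.adjoin K {t}) F]
    (hrank : Module.finrank ↥(IntermediateField.adjoin K {t}) F = Nat.card X)
    (d : LocalData K F C X t) :
    (zeroPlaces K t).Finite ∧ Nat.card ↥(zeroPlaces K t) = numOrbits d.perm ∧
      ∑ᶠ v ∈ zeroPlaces K t, v.ord t = (Nat.card X : ℤ) := by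
  classical
  have hfin : (zeroPlaces K t).Finite :=
    H117.finite_places_over d (IntermediateField.adjoin K {t}) le_rfl hrank
  have hs : ∀ v : Place K F, v ∈ hfin.toFinset ↔ 0 < v.ord t := fun v => by
    simp [zeroPlaces]
  have ht : Transcendental K t := by
    have hpos : 0 < Nat.card X := hrank ▸ Module.finrank_pos
    obtain ⟨x⟩ := (Nat.card_pos_iff.mp hpos).1
    refine FF.transcendental_of_not_mem_range ?_
    rintro ⟨c, hc⟩
    have h1 := d.σ_t_order x
    have h3 : d.σ x t = HahnSeries.C (d.ι c) := by rw [← d.σ_const x c, hc]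
    rw [h3] at h1
    have h2 : (HahnSeries.C (d.ι c) : LaurentSeries C).order = 0 := by
      rw [HahnSeries.C_apply]
      by_cases h0 : d.ι c = 0
      · simp [h0]
      · exact HahnSeries.order_single h0
    rw [h2] at h1
    have := d.m_pos
    omega
  have hle : (Nat.card X : ℤ) ≤ ∑ v ∈ hfin.toFinset, v.ord t := by
    rw [← hrank]
    exact fundamental_le t ht hfin.toFinset hs
  obtain ⟨h1, -, h3⟩ :=
    H117.localThm d (IntermediateField.adjoin K {t}) le_rfl hrank hfin.toFinset hs hle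
  refine ⟨hfin, ?_, ?_⟩
  · rw [Nat.card_coe_set_eq, Set.ncard_eq_toFinset_card _ hfin]
    exact h1
  · rw [finsum_mem_eq_finite_toFinset_sum _ hfin]
    exact h3

/-- LT + KD4: order of `dt` at a zero of `t`. -/
theorem sub_ordDifferential_D (t : F)
    [FiniteDimensional ↥(IntermediateField.adjoin K {t}) F]
    (hrank : Module.finrank ↥(IntermediateField.adjoin K {t}) F = Nat.card X)
    (d : LocalData K F C X t) (v : Place K F) (hv : 0 < v.ord t) :
    v.ordDifferential (D K F t) = v.ord t - 1 := by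
  obtain ⟨x, rfl⟩ :=
    H117.exists_placeOf_eq d (IntermediateField.adjoin K {t}) le_rfl hrank v hv
  haveI : (H117.placeOf d x).DCoordGenerates := H84.place_dCoordGenerates t _
  exact H84.place_ordDifferential_D_of_ord_ne_zero (H117.placeOf d x) (d.σ x) d.ι (d.σ_const x)
    (H117.mult d x) (H117.mult_pos d x) (fun f _ => H117.order_eq d x f) t hv.ne'

end Fermat.Agent.S24

end
end
-- ===== PACK-END S24/Alg/Sub.lean

-- ===== PACK-BEGIN S24/Alg.lean
section





/-!
# S24 — algebraic side (Riemann–Hurwitz for `F / K(j)` from local embedding data)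

Global assembly (helper984): the two frozen interface theorems
`exists_differential_ne_zero` and `degree_eq_of_localData`, proved from the sub-interface
in `Alg/Sub.lean`.
-/

set_option autoImplicit false

noncomputable section

open AlgebraicCurve KaehlerDifferential

namespace Fermat.Agent.S24

variable {K F : Type*} [Field K] [Field F] [Algebra K F] [IsAlgClosed K] [CharZero K]
variable {C : Type*} [Field C] [CharZero C] {X : Type*} [Finite X]

omit [CharZero K] in
theorem exists_algebraMap_eq_of_isAlgebraic {x : F} (hx : IsAlgebraic K x) :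
    ∃ c : K, algebraMap K F c = x := by
  have hint : IsIntegral K x := hx.isIntegral
  refine ⟨-(minpoly K x).coeff 0, ?_⟩
  have hq : (minpoly K x).leadingCoeff = 1 := minpoly.monic hint
  have h : (minpoly K x).degree = 1 :=
    IsAlgClosed.degree_eq_one_of_irreducible K (minpoly.irreducible hint)
  have : Polynomial.aeval x (minpoly K x) = 0 := minpoly.aeval K x
  rw [Polynomial.eq_X_add_C_of_degree_eq_one h, hq, Polynomial.C_1, one_mul,
    Polynomial.aeval_add, Polynomial.aeval_X, Polynomial.aeval_C,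
    add_eq_zero_iff_eq_neg] at this
  exact (map_neg (algebraMap K F) ((minpoly K x).coeff 0)).symm ▸ this.symm

omit [IsAlgClosed K] [CharZero K] [CharZero C] [Finite X] in
theorem not_mem_range_of_localData {t : F} [Nonempty X] (d : LocalData K F C X t) (c : K) :
    t ≠ algebraMap K F c := by
  intro h
  obtain ⟨x⟩ := ‹Nonempty X›
  have h1 := d.σ_t_order x
  have h3 : d.σ x t = HahnSeries.C (d.ι c) := (congrArg (d.σ x) h).trans (d.σ_const x c)
  rw [h3] at h1
  have h2 : (HahnSeries.C (d.ι c) : LaurentSeries C).order = 0 := by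
    rw [HahnSeries.C_apply]
    by_cases hc : d.ι c = 0
    · simp [hc]
    · exact HahnSeries.order_single hc
  rw [h2] at h1
  have := d.m_pos
  omega

omit [CharZero K] [CharZero C] [Finite X] in
theorem transcendental_of_localData_inv (j : F) [Nonempty X]
    (dataInf : LocalData K F C X j⁻¹) : Transcendental K j := by
  intro halg
  obtain ⟨c, hc⟩ := exists_algebraMap_eq_of_isAlgebraic halg
  refine not_mem_range_of_localData dataInf c⁻¹ ?_
  rw [map_inv₀, hc]

omit [Finite X] in
theorem numOrbits_one : numOrbits (1 : Equiv.Perm X) = Nat.card X := by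
  unfold numOrbits
  refine Nat.card_congr (Equiv.ofBijective (Quotient.mk'' (s₁ := MulAction.orbitRel _ X)) ?_).symm
  constructor
  · intro x y hxy
    have h := Quotient.exact' hxy
    change x ∈ MulAction.orbit _ y at h
    obtain ⟨⟨g, hg⟩, hgx⟩ := h
    rw [Subgroup.zpowers_one_eq_bot, Subgroup.mem_bot] at hg
    subst hg
    simpa using hgx.symm
  · exact Quotient.mk''_surjective

end Fermat.Agent.S24

namespace Fermat.Agent.S24

variable {K F : Type*} [Field K] [Field F] [Algebra K F] [IsAlgClosed K] [CharZero K]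
variable {C : Type*} [Field C] [CharZero C] {X : Type*} [Finite X]

omit [IsAlgClosed K] [CharZero K] [Finite X] in
/-- `dt ≠ 0` if there is local data at `t` (helper240). -/
theorem D_ne_zero_of_localData {t : F} [Nonempty X] (d : LocalData K F C X t) :
    D K F t ≠ 0 := by
  obtain ⟨x⟩ := ‹Nonempty X›
  apply H240.exists_embDerivation (d.σ x) d.ι (d.σ_const x)
  apply H240.lsD_ne_zero_of_order_ne_zero
  rw [d.σ_t_order x]
  exact_mod_cast d.m_pos.ne'

omit [IsAlgClosed K] [CharZero K] [Finite X] in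
/-- If `F` admits local data at `j⁻¹`, then `Ω[F/K] ≠ 0` (helper240). -/
theorem exists_differential_ne_zero (j : F) [Nonempty X]
    (dataInf : LocalData K F C X j⁻¹) :
    ∃ ω : Ω[F⁄K], ω ≠ 0 :=
  ⟨D K F j⁻¹, D_ne_zero_of_localData dataInf⟩

section LocalConsequences

variable (t : F) [FiniteDimensional ↥(IntermediateField.adjoin K {t}) F]
  (hrank : Module.finrank ↥(IntermediateField.adjoin K {t}) F = Nat.card X)
  (d : LocalData K F C X t)

include hrank d in
theorem zeroPlaces_finite : (zeroPlaces K t).Finite := (sub_local_count t hrank d).1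

include hrank in
theorem card_zeroPlaces_toFinset :
    ((zeroPlaces_finite t hrank d).toFinset.card : ℤ) = numOrbits d.perm := by
  have h := (sub_local_count t hrank d).2.1
  rw [Nat.card_coe_set_eq, Set.ncard_eq_toFinset_card _ (zeroPlaces_finite t hrank d)] at h
  exact_mod_cast h

include hrank in
theorem sum_ord_zeroPlaces :
    ∑ v ∈ (zeroPlaces_finite t hrank d).toFinset, v.ord t = (Nat.card X : ℤ) := by
  have h := (sub_local_count t hrank d).2.2
  rwa [finsum_mem_eq_finite_toFinset_sum _ (zeroPlaces_finite t hrank d)] at h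

include hrank in
theorem sum_ord_sub_one_zeroPlaces :
    ∑ v ∈ (zeroPlaces_finite t hrank d).toFinset, (v.ord t - 1)
      = (Nat.card X : ℤ) - numOrbits d.perm := by
  rw [Finset.sum_sub_distrib, sum_ord_zeroPlaces t hrank d, Finset.sum_const,
    ← card_zeroPlaces_toFinset t hrank d]
  simp

include hrank in
theorem sum_neg_ord_sub_one_zeroPlaces :
    ∑ v ∈ (zeroPlaces_finite t hrank d).toFinset, (-(v.ord t) - 1)
      = -(Nat.card X : ℤ) - numOrbits d.perm := by
  rw [Finset.sum_sub_distrib, Finset.sum_neg_distrib, sum_ord_zeroPlaces t hrank d,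
    Finset.sum_const, ← card_zeroPlaces_toFinset t hrank d]
  simp

include hrank in
/-- If the monodromy is trivial, `t` is unramified: every zero of `t` is simple. -/
theorem ord_eq_one_of_perm_eq_one (hperm : d.perm = 1) (v : Place K F) (hv : 0 < v.ord t) :
    v.ord t = 1 := by
  have hsum := sum_ord_sub_one_zeroPlaces t hrank d
  rw [hperm, numOrbits_one, sub_self] at hsum
  have hnonneg : ∀ w ∈ (zeroPlaces_finite t hrank d).toFinset, 0 ≤ w.ord t - 1 := by
    intro w hw
    have : 0 < w.ord t := by simpa [zeroPlaces] using hw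
    omega
  have hz := (Finset.sum_eq_zero_iff_of_nonneg hnonneg).mp hsum v
    (by simpa [zeroPlaces] using hv)
  omega

end LocalConsequences

section Global

variable (j : F) [FiniteDimensional ↥(IntermediateField.adjoin K {j}) F]
  (hrank : Module.finrank ↥(IntermediateField.adjoin K {j}) F = Nat.card X)

include hrank in
/-- Local package at a finite point, with all instance transport done. -/
theorem local_fin (a : K) (d : LocalData K F C X (j - algebraMap K F a)) :
    ∃ Z : Finset (Place K F), (∀ v : Place K F, v ∈ Z ↔ 0 < v.ord (j - algebraMap K F a)) ∧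
      ∑ v ∈ Z, (v.ord (j - algebraMap K F a) - 1) = (Nat.card X : ℤ) - numOrbits d.perm ∧
      (∀ v : Place K F, 0 < v.ord (j - algebraMap K F a) →
        v.ordDifferential (D K F (j - algebraMap K F a)) = v.ord (j - algebraMap K F a) - 1) ∧
      (d.perm = 1 → ∀ v : Place K F, 0 < v.ord (j - algebraMap K F a) →
        v.ord (j - algebraMap K F a) = 1) := by
  obtain ⟨hfd, hfr⟩ := finiteDimensional_and_finrank_of_eq (adjoin_sub_algebraMap K j a)
  have hr := hfr.trans hrank
  refine ⟨(zeroPlaces_finite _ hr d).toFinset, fun v => by simp [zeroPlaces],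
    sum_ord_sub_one_zeroPlaces _ hr d, fun v hv => sub_ordDifferential_D _ hr d v hv,
    fun h v hv => ord_eq_one_of_perm_eq_one _ hr d h v hv⟩

include hrank in
/-- Local package at infinity, with all instance transport done. -/
theorem local_inf (d : LocalData K F C X j⁻¹) :
    ∃ Z : Finset (Place K F), (∀ v : Place K F, v ∈ Z ↔ 0 < v.ord j⁻¹) ∧
      ∑ v ∈ Z, (-(v.ord j⁻¹) - 1) = -(Nat.card X : ℤ) - numOrbits d.perm ∧
      (∀ v : Place K F, 0 < v.ord j⁻¹ → v.ordDifferential (D K F j⁻¹) = v.ord j⁻¹ - 1) := by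
  obtain ⟨hfd, hfr⟩ := finiteDimensional_and_finrank_of_eq (adjoin_inv K j)
  have hr := hfr.trans hrank
  exact ⟨(zeroPlaces_finite _ hr d).toFinset, fun v => by simp [zeroPlaces],
    sum_neg_ord_sub_one_zeroPlaces _ hr d, fun v hv => sub_ordDifferential_D _ hr d v hv⟩

omit [IsAlgClosed K] [CharZero K] in
theorem degree_eq_sum_of_deg_one (hdeg : ∀ v : Place K F, v.deg = 1) (E : Divisor K F)
    (T : Finset (Place K F)) (hT : E.support ⊆ T) :
    Divisor.degree E = ∑ v ∈ T, E v := by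
  have h1 : Divisor.degree E = E.sum fun v n => n * (v.deg : ℤ) := by
    simp [Divisor.degree, Finsupp.liftAddHom_apply]
  rw [h1, Finsupp.sum_of_support_subset E hT _ (fun v _ => by simp)]
  refine Finset.sum_congr rfl fun v _ => ?_
  rw [hdeg v]; simp

include hrank in
/-- **Riemann–Hurwitz from embeddings.**  Degree of the divisor of any nonzero differential. -/
theorem degree_eq_of_localData
    (dataFin : ∀ a : K, LocalData K F C X (j - algebraMap K F a))
    (dataInf : LocalData K F C X j⁻¹)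
    (S₀ : Finset K) (hgen : ∀ a : K, a ∉ S₀ → (dataFin a).perm = 1)
    (ω : Ω[F⁄K]) (hω : ω ≠ 0) (E : Divisor K F)
    (hE : ∀ v : Place K F, E v = v.ordDifferential ω) :
    Divisor.degree E =
      (∑ a ∈ S₀, ((Nat.card X : ℤ) - numOrbits (dataFin a).perm))
        - Nat.card X - numOrbits dataInf.perm := by
  classical
  have hpos : 0 < Nat.card X := hrank ▸ Module.finrank_pos
  have hne : Nonempty X := (Nat.card_pos_iff.mp hpos).1
  have hj : Transcendental K j := transcendental_of_localData_inv j dataInf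
  have hj0 : j ≠ 0 := fun h => hj (h ▸ isAlgebraic_zero)
  have hdeg : ∀ v : Place K F, v.deg = 1 := sub_deg_eq_one j hj
  -- `ω = f • dj`
  obtain ⟨f, rfl⟩ := sub_exists_smul_D j ω
  have hf : f ≠ 0 := by rintro rfl; simp at hω
  have hDinv : D K F j = (-(j ^ 2)) • D K F j⁻¹ := by
    have h := Derivation.leibniz_inv (D K F) (j⁻¹)
    rw [inv_inv] at h
    exact h
  have hDjinv : D K F j⁻¹ ≠ 0 := D_ne_zero_of_localData dataInf
  have hc : (-(j ^ 2)) ≠ 0 := neg_ne_zero.mpr (pow_ne_zero 2 hj0)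
  have hDj : D K F j ≠ 0 := by
    rw [hDinv]
    exact smul_ne_zero hc hDjinv
  -- local packages
  choose Zf hZf_mem hZf_sum hZf_ord hZf_unr using fun a => local_fin j hrank a (dataFin a)
  obtain ⟨Zi, hZi_mem, hZi_sum, hZi_ord⟩ := local_inf j hrank dataInf
  -- the ramification function
  set R : Place K F → ℤ := fun v => v.ordDifferential (D K F j) with hR
  have hDv : ∀ v : Place K F, E v = v.ord f + R v := fun v => by
    rw [hE, sub_ordDifferential_smul j v f hf _ hDj]
  have hRfin : ∀ (a : K) (v : Place K F), 0 < v.ord (j - algebraMap K F a) →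
      R v = v.ord (j - algebraMap K F a) - 1 := by
    intro a v hv
    have : D K F (j - algebraMap K F a) = D K F j := by simp
    rw [← hZf_ord a v hv, this]
  have hRinf : ∀ v : Place K F, 0 < v.ord j⁻¹ → R v = -(v.ord j⁻¹) - 1 := by
    intro v hv
    show v.ordDifferential (D K F j) = _
    rw [hDinv, sub_ordDifferential_smul j v _ hc _ hDjinv, hZi_ord v hv, ord_neg, pow_two,
      v.ord_mul hj0 hj0]
    have := v.ord_inv j
    omega
  -- the finite set of special places
  set T : Finset (Place K F) := S₀.biUnion Zf ∪ Zi with hT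
  have hRT : ∀ v : Place K F, R v ≠ 0 → v ∈ T := by
    intro v hv
    rcases sub_exists_point j v with h | ⟨a, ha⟩
    · refine Finset.mem_union_right _ ((hZi_mem v).mpr ?_)
      have := v.ord_inv j
      omega
    · by_cases haS : a ∈ S₀
      · exact Finset.mem_union_left _ (Finset.mem_biUnion.mpr ⟨a, haS, (hZf_mem a v).mpr ha⟩)
      · exfalso
        apply hv
        rw [hRfin a v ha, hZf_unr a (hgen a haS) v ha]
        simp
  let Rfs : Divisor K F := Finsupp.onFinset T R hRT
  have hRfs : ∀ v : Place K F, Rfs v = R v := fun v => rfl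
  have hprinc : Divisor.degree (E - Rfs) = 0 :=
    sub_degree_principal j hj f hf (E - Rfs) fun v => by
      rw [Finsupp.sub_apply, hRfs, hDv]; ring
  have hsplit : Divisor.degree E = Divisor.degree Rfs := by
    have := map_sub (Divisor.degree (K := K) (F := F)) E Rfs
    rw [hprinc] at this
    linarith
  rw [hsplit, degree_eq_sum_of_deg_one hdeg Rfs T Finsupp.support_onFinset_subset]
  simp only [hRfs]
  -- split the sum
  have hdisj1 : Disjoint (S₀.biUnion Zf) Zi := by
    rw [Finset.disjoint_left]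
    intro v hv hvi
    obtain ⟨a, -, hva⟩ := Finset.mem_biUnion.mp hv
    exact not_pos_ord_sub_of_pos_ord_inv v j a ((hZi_mem v).mp hvi) ((hZf_mem a v).mp hva)
  have hdisj2 : (S₀ : Set K).PairwiseDisjoint Zf := by
    intro a _ b _ hab
    rw [Function.onFun, Finset.disjoint_left]
    intro v hva hvb
    exact hab (point_unique v j ((hZf_mem a v).mp hva) ((hZf_mem b v).mp hvb))
  rw [hT, Finset.sum_union hdisj1, Finset.sum_biUnion hdisj2]
  have h1 : ∀ a ∈ S₀, ∑ v ∈ Zf a, R v = (Nat.card X : ℤ) - numOrbits (dataFin a).perm := by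
    intro a _
    rw [← hZf_sum a]
    exact Finset.sum_congr rfl fun v hv => hRfin a v ((hZf_mem a v).mp hv)
  have h2 : ∑ v ∈ Zi, R v = -(Nat.card X : ℤ) - numOrbits dataInf.perm := by
    rw [← hZi_sum]
    exact Finset.sum_congr rfl fun v hv => hRinf v ((hZi_mem v).mp hv)
  rw [Finset.sum_congr rfl h1, h2]
  ring

end Global

end Fermat.Agent.S24

end
end
-- ===== PACK-END S24/Alg.lean

-- ===== PACK-BEGIN Lib/RR/H804/Modular.lean
section




/-!
# RR library, bridge: `FF1` for the function field of `X₀(N)` over `ℚ̄`  (helper804)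

Inputs: the modular package of S24 (`j` is transcendental and `F` is finite over `ℚ̄(j)`).
-/

set_option autoImplicit false

noncomputable section

open AlgebraicCurve IntermediateField ModularCurve

namespace Fermat.Agent.Lib.RR.H804

open Fermat.Agent.S24

variable (N : ℕ) [NeZero N]

/-- `j` is transcendental over `ℚ̄` in the function field of `X₀(N)`. -/
theorem transcendental_jF : Transcendental Kbar (jF N) := by
  obtain ⟨P⟩ := nonempty_modularPackage N
  exact transcendental_of_localData_inv (jF N) P.dataInf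

/-- The function field of `X₀(N)` is finite over `ℚ̄(j)`. -/
theorem finiteDimensional_jF : FiniteDimensional Kbar⟮jF N⟯ (FF N) :=
  (nonempty_modularPackage N).some.finiteDimensional

/-- `[ℚ̄(X₀(N)) : ℚ̄(j)] = [SL₂(ℤ) : Γ₀(N)]`. -/
theorem finrank_jF : Module.finrank Kbar⟮jF N⟯ (FF N) = Nat.card (XX N) :=
  (nonempty_modularPackage N).some.finrank_eq

/-- **Bridge**: the standing hypotheses of the RR library hold for `ℚ̄(X₀(N))`. -/
instance ff1_modular : FF1 (AlgebraicClosure ℚ) ↥(modularFunctionFieldBar N) :=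
  haveI := finiteDimensional_jF N
  ff1 (transcendental_jF N)

/-- Principal divisors of `ℚ̄(X₀(N))` exist and have degree zero. -/
instance hasPrincipalDivisors_modular :
    HasPrincipalDivisors (AlgebraicClosure ℚ) ↥(modularFunctionFieldBar N) :=
  haveI := finiteDimensional_jF N
  hasPrincipalDivisors (transcendental_jF N)

/-- Every place of `ℚ̄(X₀(N))` has degree one. -/
theorem deg_eq_one_modular (v : Place (AlgebraicClosure ℚ) ↥(modularFunctionFieldBar N)) :
    v.deg = 1 :=
  haveI := finiteDimensional_jF N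
  FF.deg_eq_one v (transcendental_jF N)

/-- Residue fields of places of `ℚ̄(X₀(N))` are finite over `ℚ̄`. -/
instance finite_residueField_modular
    (v : Place (AlgebraicClosure ℚ) ↥(modularFunctionFieldBar N)) :
    Module.Finite (AlgebraicClosure ℚ) v.ResidueField :=
  haveI := finiteDimensional_jF N
  finite_residueField (transcendental_jF N) v

end Fermat.Agent.Lib.RR.H804

end
end
-- ===== PACK-END Lib/RR/H804/Modular.lean

-- ===== PACK-BEGIN S28/H568/DeltaSeries.lean
section


/-!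
# S28 / H568 — the formal discriminant over `ℤ` and `ℂ`, and its expansions along `τ ↦ (aτ+b)/d`
-/

set_option autoImplicit false

noncomputable section

open HahnSeries ModularCurve UpperHalfPlane Complex Matrix
open scoped Real MatrixGroups

namespace Fermat.Agent.S28.H568

open Fermat.Agent.S24

/-! ### the integral series -/

/-- The formal discriminant `Δ = q ∏ (1 - qⁿ)²⁴` over `ℤ`. -/
def deltaZ : LaurentSeries ℤ :=
  HahnSeries.single (1 : ℤ) (1 : ℤ) * HahnSeries.ofPowerSeries ℤ ℤ dedekindEtaUnit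

/-- The formal inverse of `Δ` over `ℤ`. -/
def deltaInvZ : LaurentSeries ℤ :=
  HahnSeries.single (-1 : ℤ) (1 : ℤ) * HahnSeries.ofPowerSeries ℤ ℤ dedekindEtaUnitInv

theorem deltaZ_mul_deltaInvZ : deltaZ * deltaInvZ = 1 := by
  rw [deltaZ, deltaInvZ]
  have h1 : HahnSeries.single (1 : ℤ) (1 : ℤ) * HahnSeries.single (-1 : ℤ) (1 : ℤ) = 1 := by
    rw [HahnSeries.single_mul_single]
    simp
  have h2 : HahnSeries.ofPowerSeries ℤ ℤ dedekindEtaUnit *
      HahnSeries.ofPowerSeries ℤ ℤ dedekindEtaUnitInv = 1 := by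
    rw [← map_mul, dedekindEtaUnit_mul_inv, map_one]
  calc _ = (HahnSeries.single (1 : ℤ) (1 : ℤ) * HahnSeries.single (-1 : ℤ) (1 : ℤ)) *
      (HahnSeries.ofPowerSeries ℤ ℤ dedekindEtaUnit *
        HahnSeries.ofPowerSeries ℤ ℤ dedekindEtaUnitInv) := by ring
    _ = 1 := by rw [h1, h2, one_mul]

/-- `Δ` as a unit of `ℤ((q))`. -/
def deltaU : (LaurentSeries ℤ)ˣ :=
  ⟨deltaZ, deltaInvZ, deltaZ_mul_deltaInvZ, by rw [mul_comm]; exact deltaZ_mul_deltaInvZ⟩

@[simp] theorem deltaU_val : (deltaU : LaurentSeries ℤ) = deltaZ := rfl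

/-- Coefficient extension `ℤ((q)) → ℂ((q))`. -/
abbrev castC : LaurentSeries ℤ →+* LaurentSeries ℂ := coeffMap (Int.castRingHom ℂ)

theorem castC_injective : Function.Injective castC :=
  inf_coeffMap_injective (RingHom.injective_int (Int.castRingHom ℂ))

/-- The formal discriminant over `ℂ`. -/
abbrev dS : LaurentSeries ℂ := H565.deltaSeriesC

/-- The formal inverse discriminant over `ℂ`. -/
abbrev dInvS : LaurentSeries ℂ := H565.deltaInvSeriesC

theorem castC_deltaZ : castC deltaZ = dS := by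
  rw [deltaZ, map_mul, coeffMap_single, coeffMap_ofPowerSeries, H565.map_dedekindEtaUnit]
  simp [H565.deltaSeriesC]

theorem castC_deltaInvZ : castC deltaInvZ = dInvS := by
  rw [deltaInvZ, map_mul, coeffMap_single, coeffMap_ofPowerSeries]
  simp [H565.deltaInvSeriesC, H565.etaInvC]

theorem dS_mul_dInvS : dS * dInvS = 1 := H565.deltaSeriesC_mul_inv

theorem dS_ne_zero : dS ≠ 0 := left_ne_zero_of_mul_eq_one dS_mul_dInvS

theorem dInvS_ne_zero : dInvS ≠ 0 := right_ne_zero_of_mul_eq_one dS_mul_dInvS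

theorem dInvS_eq_inv : dInvS = dS⁻¹ := eq_inv_of_mul_eq_one_right dS_mul_dInvS

theorem dS_coeff_one : dS.coeff 1 = 1 := by
  have h := inf_coeff_single_mul_ofPowerSeries (1 : ℤ) (H565.etaProdC ^ 24) 0
  simp only [Nat.cast_zero, zero_add] at h
  rw [show dS = single (1 : ℤ) (1 : ℂ) * ofPowerSeries ℤ ℂ (H565.etaProdC ^ 24) from rfl, h,
    ← H565.map_dedekindEtaUnit, PowerSeries.coeff_map, PowerSeries.coeff_zero_eq_constantCoeff,
    constantCoeff_dedekindEtaUnit]
  simp

theorem dS_coeff_of_lt {m : ℤ} (hm : m < 1) : dS.coeff m = 0 :=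
  inf_coeff_single_mul_ofPowerSeries_of_lt (1 : ℤ) (H565.etaProdC ^ 24) hm

theorem dS_order : dS.order = 1 :=
  inf_order_eq_of_coeff (by rw [dS_coeff_one]; exact one_ne_zero) fun _ hm => dS_coeff_of_lt hm

theorem dS_leadingCoeff : dS.leadingCoeff = 1 := by
  rw [leadingCoeff_eq, dS_order, dS_coeff_one]

theorem dInvS_order : dInvS.order = -1 := by
  rw [dInvS_eq_inv, order_inv' dS_ne_zero, dS_order]

theorem dInvS_leadingCoeff : dInvS.leadingCoeff = 1 := by
  rw [dInvS_eq_inv, leadingCoeff_inv', dS_leadingCoeff, inv_one]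

theorem dS_mem_coeffSubring (C : Subring ℂ) : dS ∈ coeffSubring C := by
  rw [← castC_deltaZ]; exact coeffMap_int_mem_coeffSubring _

theorem dInvS_mem_coeffSubring (C : Subring ℂ) : dInvS ∈ coeffSubring C := by
  rw [← castC_deltaInvZ]; exact coeffMap_int_mem_coeffSubring _

/-! ### analytic expansions -/

local notation "Δ" => ModularForm.discriminant

theorem infExp_of_hasTExp_one {f : ℍ → ℂ} {φ : LaurentSeries ℂ} (h : H565.HasTExp 1 f φ) :
    InfExp 1 f φ := by
  intro τ
  have := h τ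
  simpa [infZ] using this

theorem infExp_delta : InfExp 1 Δ dS := infExp_of_hasTExp_one H565.hasTExp_discriminant

theorem infExp_delta_inv : InfExp 1 (fun τ => (Δ τ)⁻¹) dInvS :=
  infExp_of_hasTExp_one H565.hasTExp_discriminant_inv

/-- Expansion of `Δ((aτ+b)/d)` in `z = exp(2πiτ/N)` when `e·d = a·N`. -/
theorem infExp_delta_aff {N a d e : ℕ} [NeZero e] (b : ℤ)
    (ha : 0 < a) (hd : 0 < d) (hN : 0 < N) (he : e * d = a * N) :
    InfExp N (fun τ => Δ (infAff a b d τ)) (qExpand ℂ e (infTwist (infRoot b d) dS)) := by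
  have h := infExp_delta.comp_infAff (e := e) b ha hd one_pos hN (by rw [mul_one]; exact he)
  rw [mul_one] at h
  exact h

/-- Expansion of `Δ((aτ+b)/d)⁻¹` in `z = exp(2πiτ/N)` when `e·d = a·N`. -/
theorem infExp_delta_inv_aff {N a d e : ℕ} [NeZero e] (b : ℤ)
    (ha : 0 < a) (hd : 0 < d) (hN : 0 < N) (he : e * d = a * N) :
    InfExp N (fun τ => (Δ (infAff a b d τ))⁻¹) (qExpand ℂ e (infTwist (infRoot b d) dInvS)) := by
  have h := infExp_delta_inv.comp_infAff (e := e) b ha hd one_pos hN (by rw [mul_one]; exact he)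
  rw [mul_one] at h
  exact h

/-- Expansion of `Δ(τ)` in `z = exp(2πiτ/N)`. -/
theorem infExp_delta_N {N : ℕ} [NeZero N] : InfExp N Δ (qExpand ℂ N dS) := by
  have hN : 0 < N := Nat.pos_of_ne_zero (NeZero.ne N)
  have h := infExp_delta_aff (N := N) (e := N) 0 one_pos one_pos hN (by ring)
  rw [infRoot_zero, infTwist_one] at h
  exact h.congr fun τ => by rw [infAff_one_zero_one]

/-- Expansion of `Δ(τ)⁻¹` in `z = exp(2πiτ/N)`. -/
theorem infExp_delta_inv_N {N : ℕ} [NeZero N] :
    InfExp N (fun τ => (Δ τ)⁻¹) (qExpand ℂ N dInvS) := by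
  have hN : 0 < N := Nat.pos_of_ne_zero (NeZero.ne N)
  have h := infExp_delta_inv_aff (N := N) (e := N) 0 one_pos one_pos hN (by ring)
  rw [infRoot_zero, infTwist_one] at h
  exact h.congr fun τ => by rw [infAff_one_zero_one]

/-! ### transformation of `Δ` -/

theorem discriminant_smul (γ : SL(2, ℤ)) (τ : ℍ) :
    Δ (γ • τ) = (((γ 1 0 : ℤ) : ℂ) * τ + ((γ 1 1 : ℤ) : ℂ)) ^ 12 * Δ τ := by
  have := SlashInvariantForm.slash_action_eqn' (Γ := 𝒮ℒ) CuspForm.discriminant
    (γ := (Matrix.SpecialLinearGroup.mapGL ℝ γ)) ⟨γ, rfl⟩ τ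
  have h2 : (Matrix.SpecialLinearGroup.mapGL ℝ γ) • τ = γ • τ := rfl
  rw [h2] at this
  simpa using this

end Fermat.Agent.S28.H568

end
end
-- ===== PACK-END S28/H568/DeltaSeries.lean

-- ===== PACK-BEGIN S29/H332/KummerFun.lean
section




/-!
# S29 / M4b / K1 — the Kummer function `h = E^χ₁₂ / (2Δ)`

For a character `χ : Γ₀(N) →* ℂˣ`, unitary and trivial on all elements of trace `±2`, the function
`kummerFun N χ = E^χ₁₂ / (2Δ)` is holomorphic on `ℍ`, satisfies `h(γτ) = χ(γ) h(τ)`, belongs to the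
S24 ring `holN N` (expansions in `exp(2πiτ/N)` at all cusps) and has a simple pole with leading
coefficient `1` at `i∞` (in `q = exp(2πiτ)`).

The first part is abstract: any holomorphic function with a parabolic character and moderate growth
belongs to `holN N`.
-/

set_option autoImplicit false

noncomputable section

open UpperHalfPlane EisensteinSeries ModularForm Filter Topology HahnSeries ModularCurve
open scoped Matrix MatrixGroups Manifold

namespace Fermat.Agent.S29.H332

open Fermat.Agent.S24 Fermat.Agent.S24.H997 Fermat.Agent.S24.H624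

local notation "Δ" => ModularForm.discriminant

/-! ### Conjugates of translations -/

/-- `g T^w g⁻¹` has trace `2`. -/
theorem trace_conj_T_zpow (g : SL(2, ℤ)) (w : ℤ) :
    (g * ModularGroup.T ^ w * g⁻¹ : SL(2, ℤ)).1.trace = 2 := by
  rw [Matrix.SpecialLinearGroup.coe_mul, Matrix.SpecialLinearGroup.coe_mul, Matrix.trace_mul_comm,
    ← Matrix.mul_assoc, ← Matrix.SpecialLinearGroup.coe_mul, inv_mul_cancel,
    Matrix.SpecialLinearGroup.coe_one, Matrix.one_mul, ModularGroup.coe_T_zpow]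
  simp [Matrix.trace_fin_two]

/-- `g T^N g⁻¹ ∈ Γ₀(N)` for every `g ∈ SL(2,ℤ)`. -/
theorem conj_T_zpow_mem_Gamma0 (N : ℕ) (g : SL(2, ℤ)) (m : ℤ) :
    g * ModularGroup.T ^ ((N : ℤ) * m) * g⁻¹ ∈ CongruenceSubgroup.Gamma0 N := by
  rw [CongruenceSubgroup.Gamma0_mem]
  have h : (g * ModularGroup.T ^ ((N : ℤ) * m) * g⁻¹ : SL(2, ℤ)).1 1 0
      = -((N : ℤ) * m * (g.1 1 0) ^ 2) := by
    rw [Matrix.SpecialLinearGroup.coe_mul, Matrix.SpecialLinearGroup.coe_mul,
      ModularGroup.coe_T_zpow, Matrix.SpecialLinearGroup.coe_inv, Matrix.adjugate_fin_two]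
    simp [Matrix.mul_apply, Fin.sum_univ_two]
    ring
  rw [h]
  push_cast
  simp

/-! ### The discriminant -/

theorem mdiff_delta : MDiff Δ := CuspForm.discriminant.holo'

theorem mdiff_delta_pow (m : ℕ) : MDiff (fun τ : ℍ => Δ τ ^ m) := by
  induction m with
  | zero => simpa using (mdifferentiable_const : MDiff (fun _ : ℍ => (1 : ℂ)))
  | succ m ih =>
    have := ih.mul mdiff_delta
    have e : (fun τ : ℍ => Δ τ ^ (m + 1)) = (fun τ => Δ τ ^ m) * Δ := by
      funext τ
      simp [pow_succ]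
    rw [e]
    exact this

theorem delta_slash (γ : SL(2, ℤ)) : Δ ∣[(12 : ℤ)] γ = Δ := by
  have := SlashInvariantFormClass.slash_action_eq CuspForm.discriminant
    (Matrix.SpecialLinearGroup.mapGL ℝ γ) ⟨γ, rfl⟩
  rw [CuspForm.coe_discriminant] at this
  rw [ModularForm.SL_slash]
  exact this

theorem delta_smul (γ : SL(2, ℤ)) (τ : ℍ) : Δ (γ • τ) = denom γ τ ^ (12 : ℤ) * Δ τ := by
  have h := congrFun (delta_slash γ) τ
  rw [SL_slash_apply] at h
  have hd : denom γ τ ≠ 0 := denom_ne_zero γ τ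
  rw [← h, mul_comm, mul_assoc, ← zpow_add₀ hd]
  simp

theorem delta_vadd (n : ℤ) (τ : ℍ) : Δ ((n : ℝ) +ᵥ τ) = Δ τ := by
  have h := delta_smul (ModularGroup.T ^ n) τ
  rw [denom_T_zpow, one_zpow, one_mul, UpperHalfPlane.modular_T_zpow_smul] at h
  exact h

/-- A function on `ℍ` invariant under `τ ↦ τ + N` gives an `N`-periodic function on `ℂ`. -/
theorem periodic_comp_ofComplex_of_vadd {f : ℍ → ℂ} {N : ℕ}
    (h : ∀ τ : ℍ, f (((N : ℤ) : ℝ) +ᵥ τ) = f τ) :
    Function.Periodic (f ∘ ofComplex) (N : ℝ) := by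
  intro z
  simp only [Function.comp_apply]
  by_cases hz : 0 < z.im
  · have hz' : 0 < (z + (N : ℝ)).im := by simpa using hz
    rw [ofComplex_apply_of_im_pos hz, ofComplex_apply_of_im_pos hz']
    rw [← h ⟨z, hz⟩]
    congr 1
    apply UpperHalfPlane.ext
    simp [add_comm]
  · have hz' : ¬ 0 < (z + (N : ℝ)).im := by simpa using hz
    rw [ofComplex_apply_eq_of_im_nonpos (not_lt.mp hz') (not_lt.mp hz)]

theorem infExp_deltaInv (N : ℕ) [NeZero N] :
    InfExp N (fun τ : ℍ => (Δ τ)⁻¹) (qExpand ℂ N Fermat.Agent.S28.H568.dInvS) := by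
  have hN : 0 < N := Nat.pos_of_ne_zero (NeZero.ne N)
  have h := Fermat.Agent.S28.H568.infExp_delta_inv_aff (N := N) (e := N) 0 one_pos one_pos hN
    (by ring)
  rw [infRoot_zero, infTwist_one] at h
  exact h.congr fun τ => by rw [infAff_one_zero_one]

/-! ### Functions with a parabolic character -/

section Character

variable {N : ℕ} [NeZero N]

/-- `χ` is trivial on all elements of `Γ₀(N)` of trace `±2` (cusp stabilisers and `-1`). -/
def ParTrivial (χ : CongruenceSubgroup.Gamma0 N →* ℂˣ) : Prop :=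
  ∀ γ : CongruenceSubgroup.Gamma0 N,
    ((γ : SL(2, ℤ)).1.trace = 2 ∨ (γ : SL(2, ℤ)).1.trace = -2) → χ γ = 1

/-- `h(γ τ) = χ(γ) h(τ)` for all `γ ∈ Γ₀(N)`. -/
def HasCharacter (χ : CongruenceSubgroup.Gamma0 N →* ℂˣ) (h : ℍ → ℂ) : Prop :=
  ∀ (γ : CongruenceSubgroup.Gamma0 N) (τ : ℍ), h ((γ : SL(2, ℤ)) • τ) = (χ γ : ℂ) * h τ

variable {χ : CongruenceSubgroup.Gamma0 N →* ℂˣ} {h : ℍ → ℂ}

omit [NeZero N] in
/-- If `g T^w g⁻¹ ∈ Γ₀(N)`, then `h ∘ g` is invariant under `τ ↦ τ + w` (local parameter of width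
`w` at the cusp `g∞`). -/
theorem HasCharacter.compSL_T_zpow (hh : HasCharacter χ h) (hχ : ParTrivial χ) (g : SL(2, ℤ))
    (w : ℤ) (hw : g * ModularGroup.T ^ w * g⁻¹ ∈ CongruenceSubgroup.Gamma0 N) (τ : ℍ) :
    compSL g h (ModularGroup.T ^ w • τ) = compSL g h τ := by
  have h1 : g • (ModularGroup.T ^ w • τ) = (g * ModularGroup.T ^ w * g⁻¹) • (g • τ) := by
    rw [← mul_smul, ← mul_smul, mul_assoc, mul_assoc, inv_mul_cancel, mul_one]
  have h2 := hh ⟨_, hw⟩ (g • τ)
  rw [hχ ⟨_, hw⟩ (Or.inl (trace_conj_T_zpow g w))] at h2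
  simp only [compSL_apply]
  rw [h1, h2, Units.val_one, one_mul]

omit [NeZero N] in
/-- `h ∘ g` is `w`-periodic if `g T^w g⁻¹ ∈ Γ₀(N)`. -/
theorem HasCharacter.compSL_vadd (hh : HasCharacter χ h) (hχ : ParTrivial χ) (g : SL(2, ℤ))
    (w : ℕ) (hw : g * ModularGroup.T ^ (w : ℤ) * g⁻¹ ∈ CongruenceSubgroup.Gamma0 N)
    (τ : ℍ) : compSL g h (((w : ℤ) : ℝ) +ᵥ τ) = compSL g h τ := by
  have := hh.compSL_T_zpow hχ g (w : ℤ) hw τ
  rwa [UpperHalfPlane.modular_T_zpow_smul] at this

omit [NeZero N] in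
theorem HasCharacter.periodic (hh : HasCharacter χ h) (hχ : ParTrivial χ) (g : SL(2, ℤ))
    (w : ℕ) (hw : g * ModularGroup.T ^ (w : ℤ) * g⁻¹ ∈ CongruenceSubgroup.Gamma0 N) :
    Function.Periodic (compSL g h ∘ ofComplex) (w : ℝ) :=
  periodic_comp_ofComplex_of_vadd (hh.compSL_vadd hχ g w hw)

/-- The expansion of `h ∘ g` in the local parameter of width `w`, as an explicit Laurent series
(`m` = a bound for the pole order in units of `Δ⁻¹`). -/
def cuspExp (h : ℍ → ℂ) (m : ℕ) (g : SL(2, ℤ)) (w : ℕ) [NeZero w] : LaurentSeries ℂ :=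
  qExpand ℂ w Fermat.Agent.S28.H568.dInvS ^ m *
    HahnSeries.ofPowerSeries ℤ ℂ
      (UpperHalfPlane.qExpansion (w : ℝ) (fun τ => Δ τ ^ m * compSL g h τ))

omit [NeZero N] in
/-- Expansion at the cusp `g∞` in the local parameter of width `w` (any `w` with
`g T^w g⁻¹ ∈ Γ₀(N)`): a holomorphic function with a parabolic character such that
`Δ^m · (h ∘ g)` is bounded at `i∞` has a Laurent expansion in `exp(2πiτ/w)`. -/
theorem HasCharacter.infExp_cuspExp (hh : HasCharacter χ h) (hχ : ParTrivial χ)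
    (hhol : MDiff h) (m : ℕ) (g : SL(2, ℤ)) (w : ℕ) [NeZero w]
    (hw : g * ModularGroup.T ^ (w : ℤ) * g⁻¹ ∈ CongruenceSubgroup.Gamma0 N)
    (hbd : IsBoundedAtImInfty (fun τ => Δ τ ^ m * compSL g h τ)) :
    InfExp w (compSL g h) (cuspExp h m g w) := by
  have hN : (0 : ℝ) < w := by exact_mod_cast Nat.pos_of_ne_zero (NeZero.ne w)
  set F : ℍ → ℂ := fun τ => Δ τ ^ m * compSL g h τ with hF
  have hcomp : MDiff (compSL g h) := (precompSL g ⟨h, hhol⟩).2
  have hFhol : MDiff F := (mdiff_delta_pow m).mul hcomp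
  have hFper : Function.Periodic (F ∘ ofComplex) (w : ℝ) := by
    intro z
    have h1 := hh.periodic hχ g w hw z
    have h2 := periodic_comp_ofComplex_of_vadd (f := Δ) (N := w) (fun τ => delta_vadd w τ) z
    simp only [Function.comp_apply, hF] at h1 h2 ⊢
    rw [h1, h2]
  have hsum := fun τ => UpperHalfPlane.hasSum_qExpansion hN hFper hFhol hbd τ
  have hP : InfPExp w F (UpperHalfPlane.qExpansion (w : ℝ) F) := by
    intro τ
    simpa [infZ, smul_eq_mul] using hsum τ
  have hE : InfExp w F (HahnSeries.ofPowerSeries ℤ ℂ (UpperHalfPlane.qExpansion (w : ℝ) F)) := by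
    have := hP.infExp 0
    simp only [zpow_zero, one_mul] at this
    have e : (HahnSeries.single (0 : ℤ) (1 : ℂ)) = 1 := rfl
    rwa [e, one_mul] at this
  have hDinv : InfExp w (fun τ => (Δ τ)⁻¹ ^ m)
      (qExpand ℂ w Fermat.Agent.S28.H568.dInvS ^ m) :=
    Fermat.Agent.S28.H568.InfExp.pow' (infExp_deltaInv w) m
  have : compSL g h = fun τ => (Δ τ)⁻¹ ^ m * F τ := by
    funext τ
    simp only [hF]
    have hΔ : Δ τ ≠ 0 := ModularForm.discriminant_ne_zero τ
    rw [← mul_assoc, ← mul_pow, inv_mul_cancel₀ hΔ, one_pow, one_mul]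
  rw [this]
  exact hDinv.mul hE

/-- Abstract membership criterion at one cusp. -/
theorem HasCharacter.compSL_mem_expRing (hh : HasCharacter χ h) (hχ : ParTrivial χ)
    (hhol : MDiff h) (m : ℕ) (g : SL(2, ℤ))
    (hbd : IsBoundedAtImInfty (fun τ => Δ τ ^ m * compSL g h τ)) :
    compSL g h ∈ expRing N :=
  (hh.infExp_cuspExp hχ hhol m g N (by simpa using conj_T_zpow_mem_Gamma0 N g 1) hbd).mem_expRing

/-- Abstract membership criterion: a holomorphic function with a parabolic character such that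
`Δ^m · (h ∘ g)` is bounded at `i∞` for every `g ∈ SL(2,ℤ)` lies in the S24 ring `holN N`. -/
theorem HasCharacter.mem_holN (hh : HasCharacter χ h) (hχ : ParTrivial χ)
    (hhol : MDiff h) (m : ℕ)
    (hbd : ∀ g : SL(2, ℤ), IsBoundedAtImInfty (fun τ => Δ τ ^ m * compSL g h τ)) :
    h ∈ holN N :=
  ⟨hhol, fun g => hh.compSL_mem_expRing hχ hhol m g (hbd g)⟩

omit [NeZero N] in
/-- Powers: `h ^ p` has character `χ ^ p`; in particular it is `Γ₀(N)`-invariant if `χ ^ p = 1`. -/
theorem HasCharacter.pow_invariant (hh : HasCharacter χ h) {p : ℕ}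
    (hp : ∀ γ, χ γ ^ p = 1) (γ : CongruenceSubgroup.Gamma0 N) (τ : ℍ) :
    h ((γ : SL(2, ℤ)) • τ) ^ p = h τ ^ p := by
  rw [hh γ τ, mul_pow, ← Units.val_pow_eq_pow_val, hp γ, Units.val_one, one_mul]

end Character

/-! ### The Kummer function -/

section Kummer

variable (N : ℕ) [NeZero N] (χ : CongruenceSubgroup.Gamma0 N →* ℂˣ)

/-- The Kummer function `E^χ₁₂ / (2Δ)`. -/
def kummerFun : ℍ → ℂ :=
  fun τ => twistedEis (CongruenceSubgroup.Gamma0 N) χ 12 τ / (2 * Δ τ)

variable {N χ}

omit [NeZero N] in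
theorem ParTrivial.trivialOnUnipotent (hχ : ParTrivial χ) : TrivialOnUnipotent χ := by
  intro γ hγ
  apply hχ γ
  left
  have h10 : (γ : SL(2, ℤ)).1 1 0 = 0 := by
    have := congrFun hγ 0
    simpa [botRow] using this
  have h11 : (γ : SL(2, ℤ)).1 1 1 = 1 := by
    have := congrFun hγ 1
    simpa [botRow] using this
  have hdet := (γ : SL(2, ℤ)).det_coe
  rw [Matrix.det_fin_two, h10, h11, mul_zero, sub_zero, mul_one] at hdet
  rw [Matrix.trace_fin_two, hdet, h11]
  rfl

omit [NeZero N] in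
theorem ParTrivial.neg_one (hχ : ParTrivial χ)
    (hneg : (-1 : SL(2, ℤ)) ∈ CongruenceSubgroup.Gamma0 N) : χ ⟨-1, hneg⟩ = 1 := by
  apply hχ
  right
  simp [Matrix.trace_fin_two]

omit [NeZero N] in
theorem neg_one_mem_Gamma0 : (-1 : SL(2, ℤ)) ∈ CongruenceSubgroup.Gamma0 N := by
  rw [CongruenceSubgroup.Gamma0_mem]
  simp

omit [NeZero N] in
theorem compSL_kummerFun (g : SL(2, ℤ)) :
    compSL g (kummerFun N χ)
      = fun τ => (twistedEis (CongruenceSubgroup.Gamma0 N) χ 12 ∣[(12 : ℤ)] g) τ / (2 * Δ τ) := by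
  funext τ
  have hd : denom g τ ≠ 0 := denom_ne_zero g τ
  have hΔ : Δ τ ≠ 0 := ModularForm.discriminant_ne_zero τ
  simp only [compSL_apply, kummerFun]
  rw [SL_slash_apply, delta_smul, zpow_neg]
  field_simp

omit [NeZero N] in
theorem hasCharacter_kummerFun (hχ : ParTrivial χ) : HasCharacter χ (kummerFun N χ) := by
  intro γ τ
  have h := congrFun (compSL_kummerFun (N := N) (χ := χ) (γ : SL(2, ℤ))) τ
  rw [compSL_apply] at h
  rw [h, twistedEis_slash hχ.trivialOnUnipotent]
  simp only [Pi.smul_apply, smul_eq_mul, kummerFun]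
  ring

omit [NeZero N] in
theorem mdiff_kummerFun (hχ : ParTrivial χ) (hnorm : ∀ γ, ‖(χ γ : ℂ)‖ = 1) :
    MDiff (kummerFun N χ) := by
  have hE : MDiff (twistedEis (CongruenceSubgroup.Gamma0 N) χ 12) :=
    twistedEis_mdifferentiable hχ.trivialOnUnipotent hnorm (by norm_num)
  rw [UpperHalfPlane.mdifferentiable_iff] at hE ⊢
  have hΔ := UpperHalfPlane.mdifferentiable_iff.mp mdiff_delta
  have h2 : DifferentiableOn ℂ (fun z => 2 * (Δ ∘ ofComplex) z) {z : ℂ | 0 < z.im} :=
    hΔ.const_mul 2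
  refine (hE.div h2 ?_).congr ?_
  · intro z hz
    exact mul_ne_zero two_ne_zero (ModularForm.discriminant_ne_zero _)
  · intro z hz
    simp [kummerFun]

omit [NeZero N] in
theorem isBoundedAtImInfty_delta_mul_kummerFun (hχ : ParTrivial χ)
    (hnorm : ∀ γ, ‖(χ γ : ℂ)‖ = 1) (g : SL(2, ℤ)) :
    IsBoundedAtImInfty (fun τ => Δ τ ^ 1 * compSL g (kummerFun N χ) τ) := by
  have hE := twistedEis_slash_isBoundedAtImInfty hχ.trivialOnUnipotent hnorm
    (k := 12) (by norm_num) g
  have : (fun τ => Δ τ ^ 1 * compSL g (kummerFun N χ) τ)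
      = (fun _ : ℍ => (1 / 2 : ℂ)) * (twistedEis (CongruenceSubgroup.Gamma0 N) χ 12 ∣[(12 : ℤ)] g) := by
    funext τ
    have hΔ : Δ τ ≠ 0 := ModularForm.discriminant_ne_zero τ
    rw [compSL_kummerFun]
    simp only [Pi.mul_apply, pow_one]
    field_simp
  rw [this]
  exact (Filter.const_boundedAtFilter _ _).mul hE

/-- **K1**: the Kummer function lies in the S24 ring `holN N`. -/
theorem kummerFun_mem_holN (hχ : ParTrivial χ) (hnorm : ∀ γ, ‖(χ γ : ℂ)‖ = 1) :
    kummerFun N χ ∈ holN N :=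
  (hasCharacter_kummerFun hχ).mem_holN hχ (mdiff_kummerFun hχ hnorm) 1
    (isBoundedAtImInfty_delta_mul_kummerFun hχ hnorm)

/-! ### The expansion of the Kummer function at `i∞` -/

omit [NeZero N] in
theorem T_mem_Gamma0 :
    (1 : SL(2, ℤ)) * ModularGroup.T ^ ((1 : ℕ) : ℤ) * (1 : SL(2, ℤ))⁻¹
      ∈ CongruenceSubgroup.Gamma0 N := by
  rw [CongruenceSubgroup.Gamma0_mem]
  simp [ModularGroup.T]

omit [NeZero N] in
theorem delta_mul_kummerFun (τ : ℍ) :
    Δ τ ^ 1 * compSL 1 (kummerFun N χ) τ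
      = twistedEis (CongruenceSubgroup.Gamma0 N) χ 12 τ / 2 := by
  have hΔ : Δ τ ≠ 0 := ModularForm.discriminant_ne_zero τ
  rw [compSL_one]
  simp only [kummerFun, pow_one]
  field_simp

omit [NeZero N] in
theorem tendsto_delta_mul_kummerFun (hχ : ParTrivial χ) (hnorm : ∀ γ, ‖(χ γ : ℂ)‖ = 1) :
    Tendsto (fun τ => Δ τ ^ 1 * compSL 1 (kummerFun N χ) τ) atImInfty (𝓝 1) := by
  have h := tendsto_twistedEis_two hχ.trivialOnUnipotent hnorm (k := 12) (by norm_num)
    (by decide) neg_one_mem_Gamma0 (hχ.neg_one _)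
  have h2 := h.div_const 2
  rw [div_self (two_ne_zero)] at h2
  refine h2.congr fun τ => ?_
  rw [delta_mul_kummerFun]

variable (N χ) in
/-- The expansion of the Kummer function at `i∞` in `q = exp(2πiτ)`. -/
def kummerExp : LaurentSeries ℂ := cuspExp (kummerFun N χ) 1 1 1

omit [NeZero N] in
theorem infExp_kummerFun (hχ : ParTrivial χ) (hnorm : ∀ γ, ‖(χ γ : ℂ)‖ = 1) :
    InfExp 1 (kummerFun N χ) (kummerExp N χ) := by
  have h := (hasCharacter_kummerFun hχ).infExp_cuspExp hχ (mdiff_kummerFun hχ hnorm) 1 1 1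
    T_mem_Gamma0 (isBoundedAtImInfty_delta_mul_kummerFun hχ hnorm 1)
  rwa [compSL_one] at h

omit [NeZero N] in
theorem coeff_zero_qExpansion_kummer (hχ : ParTrivial χ) (hnorm : ∀ γ, ‖(χ γ : ℂ)‖ = 1) :
    (UpperHalfPlane.qExpansion ((1 : ℕ) : ℝ)
      (fun τ => Δ τ ^ 1 * compSL 1 (kummerFun N χ) τ)).coeff 0 = 1 := by
  have hper : Function.Periodic ((fun τ => Δ τ ^ 1 * compSL 1 (kummerFun N χ) τ) ∘ ofComplex)
      ((1 : ℕ) : ℝ) := by
    intro z
    have h1 := (hasCharacter_kummerFun hχ).periodic hχ 1 1 T_mem_Gamma0 z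
    have h2 := periodic_comp_ofComplex_of_vadd (f := Δ) (N := 1) (fun τ => delta_vadd (1 : ℕ) τ) z
    simp only [Function.comp_apply] at h1 h2 ⊢
    rw [h1, h2]
  have hhol : MDiff (fun τ => Δ τ ^ 1 * compSL 1 (kummerFun N χ) τ) :=
    (mdiff_delta_pow 1).mul (precompSL 1 ⟨_, mdiff_kummerFun hχ hnorm⟩).2
  have han := UpperHalfPlane.analyticAt_cuspFunction_zero (h := ((1 : ℕ) : ℝ)) (by norm_num)
    hper hhol (isBoundedAtImInfty_delta_mul_kummerFun hχ hnorm 1)
  rw [UpperHalfPlane.qExpansion_coeff_zero (by norm_num) han hper]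
  exact (tendsto_delta_mul_kummerFun hχ hnorm).limUnder_eq

omit [NeZero N] in
theorem kummerExp_eq (hχ : ParTrivial χ) (hnorm : ∀ γ, ‖(χ γ : ℂ)‖ = 1) :
    (kummerExp N χ).order = -1 ∧ (kummerExp N χ).leadingCoeff = 1 := by
  set ψ := UpperHalfPlane.qExpansion ((1 : ℕ) : ℝ)
      (fun τ => Δ τ ^ 1 * compSL 1 (kummerFun N χ) τ) with hψ
  have hc : PowerSeries.coeff 0 ψ = 1 := coeff_zero_qExpansion_kummer hχ hnorm
  have hord : ψ.order = ((0 : ℕ) : ℕ∞) := by
    rw [PowerSeries.order_eq_nat]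
    exact ⟨by rw [hc]; exact one_ne_zero, fun i hi => absurd hi (Nat.not_lt_zero i)⟩
  have h1 : (HahnSeries.ofPowerSeries ℤ ℂ ψ).order = 0 := by
    simpa using order_ofPowerSeries hord
  have h2 : (HahnSeries.ofPowerSeries ℤ ℂ ψ).leadingCoeff = 1 := by
    rw [leadingCoeff_ofPowerSeries hord, hc]
  have h3 : (qExpand ℂ 1 Fermat.Agent.S28.H568.dInvS ^ 1).order = -1 := by
    rw [pow_one, inf_qExpand_order, Fermat.Agent.S28.H568.dInvS_order]
    simp
  have h4 : (qExpand ℂ 1 Fermat.Agent.S28.H568.dInvS ^ 1).leadingCoeff = 1 := by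
    rw [pow_one, inf_qExpand_leadingCoeff, Fermat.Agent.S28.H568.dInvS_leadingCoeff]
  have hx : (qExpand ℂ 1 Fermat.Agent.S28.H568.dInvS ^ 1) ≠ 0 := by
    intro h0
    rw [h0] at h4
    simp at h4
  have hy : (HahnSeries.ofPowerSeries ℤ ℂ ψ) ≠ 0 := by
    intro h0
    rw [h0] at h2
    simp at h2
  refine ⟨?_, ?_⟩
  · show (_ * _ : LaurentSeries ℂ).order = -1
    rw [HahnSeries.order_mul hx hy, h3, h1, add_zero]
  · show (_ * _ : LaurentSeries ℂ).leadingCoeff = 1
    rw [HahnSeries.leadingCoeff_mul, h4, h2, one_mul]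

omit [NeZero N] in
theorem kummerExp_ne_zero (hχ : ParTrivial χ) (hnorm : ∀ γ, ‖(χ γ : ℂ)‖ = 1) :
    kummerExp N χ ≠ 0 := by
  intro h0
  have := (kummerExp_eq hχ hnorm).2
  rw [h0] at this
  simp at this

omit [NeZero N] in
theorem kummerFun_ne_zero (hχ : ParTrivial χ) (hnorm : ∀ γ, ‖(χ γ : ℂ)‖ = 1) :
    kummerFun N χ ≠ 0 := by
  intro h0
  have h := infExp_kummerFun hχ hnorm
  rw [h0] at h
  exact kummerExp_ne_zero hχ hnorm (InfExp.eq_zero h)

/-- The expansion in `exp(2πiτ/N)` (the S24 `qexp`). -/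
theorem infExp_kummerFun_level (hχ : ParTrivial χ) (hnorm : ∀ γ, ‖(χ γ : ℂ)‖ = 1) :
    InfExp N (kummerFun N χ) (qExpand ℂ N (kummerExp N χ)) := by
  have hN : (N : ℂ) ≠ 0 := by exact_mod_cast NeZero.ne N
  have h := (infExp_kummerFun hχ hnorm).subst (N := N) (fun τ => τ) 1 N (fun τ => by
    rw [infZ_def, infZ_def, Units.val_one, one_mul, ← Complex.exp_nat_mul]
    congr 1
    push_cast
    field_simp)
  rwa [infTwist_one] at h

theorem expInf_kummerFun (hχ : ParTrivial χ) (hnorm : ∀ γ, ‖(χ γ : ℂ)‖ = 1) :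
    expInf N (holToExp N ⟨kummerFun N χ, kummerFun_mem_holN hχ hnorm⟩)
      = qExpand ℂ N (kummerExp N χ) :=
  (infExp_kummerFun_level hχ hnorm).expInf_eq

end Kummer


end Fermat.Agent.S29.H332

end
end
-- ===== PACK-END S29/H332/KummerFun.lean

-- ===== PACK-BEGIN S29/H332/Growth.lean
section




/-!
# S29 / M4b / K1 → K2 bridge: `holN N` ⊆ exponential growth, and `h ^ p ∈ goodRing N`

* `expGrowth_of_infExp` : a convergent Laurent expansion in `exp(2πiτ/N)` gives the S24 `ExpGrowth`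
  bound on all of `im τ ≥ 1`;
* `mem_goodRing_of_mem_holN` : a `Γ₀(N)`-invariant element of the S24 ring `holN N` lies in the S24
  ring `goodRing N` (the input of helper882's MERO);
* `kummerFun_pow_mem_goodRing`, `hasQExp_kummerFun_pow`.
-/

set_option autoImplicit false

noncomputable section

open UpperHalfPlane HahnSeries ModularCurve Complex
open scoped Real MatrixGroups Manifold

namespace Fermat.Agent.S29.H332

open Fermat.Agent.S24 Fermat.Agent.S24.H997 Fermat.Agent.S24.H624 Fermat.Agent.S24.H648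

variable {N : ℕ} [NeZero N]

omit [NeZero N] in
theorem norm_infZ_eq (τ : ℍ) : ‖infZ N τ‖ = Real.exp (-2 * π * τ.im / N) := by
  rw [infZ, Function.Periodic.norm_qParam]
  rfl

/-- A convergent power series in `z = exp (2πiτ/N)` is bounded on `‖z‖ ≤ r` for every `r < 1`. -/
theorem exists_bound_of_infPExp_of_lt {g : ℍ → ℂ} {ψ : PowerSeries ℂ} (h : InfPExp N g ψ)
    {r : ℝ} (hr0 : 0 < r) (hr1 : r < 1) :
    ∃ C : ℝ, ∀ τ : ℍ, ‖infZ N τ‖ ≤ r → ‖g τ‖ ≤ C := by
  obtain ⟨ρ, hrρ, hρ1⟩ : ∃ ρ, r < ρ ∧ ρ < 1 := exists_between hr1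
  have hρ0 : 0 < ρ := hr0.trans hrρ
  obtain ⟨τ₀, hτ₀⟩ := exists_infZ_eq N (z := ((ρ : ℝ) : ℂ))
    (by exact_mod_cast hρ0.ne')
    (by rw [Complex.norm_real, Real.norm_eq_abs, abs_of_pos hρ0]; exact hρ1)
  have h0 := h τ₀
  rw [hτ₀] at h0
  have hterm := h0.summable.tendsto_atTop_zero
  obtain ⟨B, hB⟩ := (Metric.isBounded_range_of_tendsto _ hterm).exists_norm_le
  have hB' : ∀ n : ℕ, ‖PowerSeries.coeff n ψ‖ * ρ ^ n ≤ B := by
    intro n
    have := hB _ ⟨n, rfl⟩
    rwa [norm_mul, norm_pow, Complex.norm_real, Real.norm_eq_abs, abs_of_pos hρ0] at this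
  have hB0 : 0 ≤ B := le_trans (by positivity) (hB' 0)
  have hq0 : 0 ≤ r / ρ := by positivity
  have hq1 : r / ρ < 1 := (div_lt_one hρ0).mpr hrρ
  refine ⟨B * (1 - r / ρ)⁻¹, fun τ hτ => ?_⟩
  have hgeo : HasSum (fun n : ℕ => B * (r / ρ) ^ n) (B * (1 - r / ρ)⁻¹) :=
    (hasSum_geometric_of_lt_one hq0 hq1).mul_left B
  rw [← (h τ).tsum_eq]
  refine tsum_of_norm_bounded hgeo fun n => ?_
  rw [norm_mul, norm_pow]
  have h1 : ‖infZ N τ‖ ^ n ≤ r ^ n := pow_le_pow_left₀ (norm_nonneg _) hτ n
  calc ‖PowerSeries.coeff n ψ‖ * ‖infZ N τ‖ ^ n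
      ≤ ‖PowerSeries.coeff n ψ‖ * r ^ n :=
        mul_le_mul_of_nonneg_left h1 (norm_nonneg _)
    _ = (‖PowerSeries.coeff n ψ‖ * ρ ^ n) * (r / ρ) ^ n := by
        have e : ρ * (r / ρ) = r := by field_simp
        rw [mul_assoc, ← mul_pow, e]
    _ ≤ B * (r / ρ) ^ n := mul_le_mul_of_nonneg_right (hB' n) (by positivity)

/-- A function with a convergent Laurent expansion in `exp (2πiτ/N)` satisfies the S24
`ExpGrowth` bound (on all of `im τ ≥ 1`). -/
theorem expGrowth_of_infExp {f : ℍ → ℂ} {φ : LaurentSeries ℂ} (h : InfExp N f φ) :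
    ExpGrowth f := by
  have hN : (0 : ℝ) < N := by exact_mod_cast Nat.pos_of_ne_zero (NeZero.ne N)
  have hN1 : (1 : ℝ) ≤ N := by exact_mod_cast Nat.one_le_iff_ne_zero.mpr (NeZero.ne N)
  set r : ℝ := Real.exp (-2 * π / N) with hr
  have hr0 : 0 < r := Real.exp_pos _
  have hr1 : r < 1 := by
    rw [hr, Real.exp_lt_one_iff]
    have : 0 < 2 * π / N := by positivity
    have e : -2 * π / N = -(2 * π / N) := by ring
    rw [e]
    linarith
  obtain ⟨C, hC⟩ := exists_bound_of_infPExp_of_lt h.powerSeriesPart hr0 hr1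
  refine ⟨C, (-φ.order).toNat, fun τ hτ => ?_⟩
  have hz0 : infZ N τ ≠ 0 := infZ_ne_zero N τ
  have hzpos : 0 < ‖infZ N τ‖ := norm_pos_iff.mpr hz0
  have hzle : ‖infZ N τ‖ ≤ r := by
    rw [norm_infZ_eq, hr]
    apply Real.exp_le_exp.mpr
    have hpi := Real.pi_pos
    rw [div_le_div_iff_of_pos_right hN]
    nlinarith
  have hg := hC τ hzle
  rw [norm_mul, norm_zpow] at hg
  have hf : ‖f τ‖ = ‖infZ N τ‖ ^ φ.order * (‖infZ N τ‖ ^ (-φ.order) * ‖f τ‖) := by
    rw [← mul_assoc, ← zpow_add₀ hzpos.ne', add_neg_cancel, zpow_zero, one_mul]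
  have hC0 : 0 ≤ C := le_trans (by positivity) hg
  have hpow : ‖infZ N τ‖ ^ φ.order ≤ Real.exp (2 * π * ((-φ.order).toNat : ℕ) * τ.im) := by
    have hz1 : ‖infZ N τ‖ ≤ 1 := hzle.trans hr1.le
    have hle : -(((-φ.order).toNat : ℕ) : ℤ) ≤ φ.order := by
      have := Int.self_le_toNat (-φ.order)
      omega
    have h1 : ‖infZ N τ‖ ^ φ.order ≤ ‖infZ N τ‖ ^ (-(((-φ.order).toNat : ℕ) : ℤ)) :=
      zpow_le_zpow_right_of_le_one₀ hzpos hz1 hle
    refine h1.trans ?_
    rw [zpow_neg, zpow_natCast, ← inv_pow, norm_infZ_eq, ← Real.exp_neg, ← Real.exp_nat_mul]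
    apply Real.exp_le_exp.mpr
    have him : 0 < τ.im := τ.im_pos
    have hm0 : (0 : ℝ) ≤ ((-φ.order).toNat : ℕ) := Nat.cast_nonneg _
    have hq : 2 * π * τ.im / N ≤ 2 * π * τ.im := by
      rw [div_le_iff₀ hN]
      have : 0 < 2 * π * τ.im := by positivity
      nlinarith
    have : -(-2 * π * τ.im / N) = 2 * π * τ.im / N := by ring
    rw [this]
    calc (((-φ.order).toNat : ℕ) : ℝ) * (2 * π * τ.im / N)
        ≤ (((-φ.order).toNat : ℕ) : ℝ) * (2 * π * τ.im) :=
          mul_le_mul_of_nonneg_left hq hm0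
      _ = 2 * π * ((-φ.order).toNat : ℕ) * τ.im := by ring
  rw [hf]
  calc ‖infZ N τ‖ ^ φ.order * (‖infZ N τ‖ ^ (-φ.order) * ‖f τ‖)
      ≤ Real.exp (2 * π * ((-φ.order).toNat : ℕ) * τ.im) * C :=
        mul_le_mul hpow hg (by positivity) (Real.exp_pos _).le
    _ = C * Real.exp (2 * π * ((-φ.order).toNat : ℕ) * τ.im) := mul_comm _ _

/-- A `Γ₀(N)`-invariant element of `holN N` lies in `goodRing N`. -/
theorem mem_goodRing_of_mem_holN {f : ℍ → ℂ} (hf : f ∈ holN N)
    (hinv : ∀ γ ∈ CongruenceSubgroup.Gamma0 N, ∀ τ : ℍ, f (γ • τ) = f τ) :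
    f ∈ goodRing N := by
  refine ⟨hf.1, hinv, fun g => ?_⟩
  obtain ⟨φ, hφ⟩ := hf.2 g
  exact expGrowth_of_infExp hφ

/-- **K1 → MERO**: the `p`-th power of the Kummer function is a good function of level `N`. -/
theorem kummerFun_pow_mem_goodRing {χ : CongruenceSubgroup.Gamma0 N →* ℂˣ} (hχ : ParTrivial χ)
    (hnorm : ∀ γ, ‖(χ γ : ℂ)‖ = 1) {p : ℕ} (hp : ∀ γ, χ γ ^ p = 1) :
    kummerFun N χ ^ p ∈ goodRing N := by
  refine mem_goodRing_of_mem_holN (pow_mem (kummerFun_mem_holN hχ hnorm) p) ?_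
  intro γ hγ τ
  exact (hasCharacter_kummerFun hχ).pow_invariant hp ⟨γ, hγ⟩ τ

/-- `InfExp` (S24 `Inf`) implies `HasQExp` (S24 `H708`) for holomorphic functions. -/
theorem hasQExp_of_infExp {f : ℍ → ℂ} {φ : LaurentSeries ℂ} (hol : MDiff f)
    (h : InfExp N f φ) : Fermat.Agent.S24.H708.HasQExp N f φ :=
  Fermat.Agent.S24.H708.HasQExp.of_hasSum hol h

omit [NeZero N] in
/-- The `q`-expansion of the Kummer function (S24 `H708` form). -/
theorem hasQExp_kummerFun {χ : CongruenceSubgroup.Gamma0 N →* ℂˣ} (hχ : ParTrivial χ)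
    (hnorm : ∀ γ, ‖(χ γ : ℂ)‖ = 1) :
    Fermat.Agent.S24.H708.HasQExp 1 (kummerFun N χ) (kummerExp N χ) :=
  hasQExp_of_infExp (mdiff_kummerFun hχ hnorm) (infExp_kummerFun hχ hnorm)

omit [NeZero N] in
/-- The `q`-expansion of the `p`-th power of the Kummer function. -/
theorem hasQExp_kummerFun_pow {χ : CongruenceSubgroup.Gamma0 N →* ℂˣ} (hχ : ParTrivial χ)
    (hnorm : ∀ γ, ‖(χ γ : ℂ)‖ = 1) (p : ℕ) :
    Fermat.Agent.S24.H708.HasQExp 1 (kummerFun N χ ^ p) (kummerExp N χ ^ p) :=
  (hasQExp_kummerFun hχ hnorm).pow p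

end Fermat.Agent.S29.H332

end
end
-- ===== PACK-END S29/H332/Growth.lean

-- ===== PACK-BEGIN S29/H332/Rot.lean
section



/-!
# S29 / M4b / K2 (analytic part): local orders of a function with character

In the S24 framework (`HolBase`, `Expansion`, `RotData`): if `f ∈ Hol` is invariant under `ε ^ k`
then `R.m ∣ k * ord (X.E f)`.  For a function `h` with a character `χ` of `Γ₀(N)` and the coset
`x = g Γ₀(N)`, `h ∘ g⁻¹` is invariant under `ε ^ k` as soon as `ε ^ k x = x` and `χ` is trivial on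
`g⁻¹ ε ^ k g` (automatic if `χ` kills parabolic and finite-order elements).  Hence the order of
the expansion `σ_x` of `h ^ p` is divisible by `p * (m / k)`: the divisor of `h ^ p` is divisible
by `p` at every place.
-/

set_option autoImplicit false
set_option linter.unusedSectionVars false

noncomputable section

open UpperHalfPlane HahnSeries ModularCurve
open scoped MatrixGroups

namespace Fermat.Agent.S29.H332

open Fermat.Agent.S24 Fermat.Agent.S24.H997

variable {N : ℕ} [NeZero N]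

section Abstract

variable (B : HolBase N) (X : Expansion B) {ε : SL(2, ℤ)} (R : RotData B X ε)

/-- Iterating the rotation relation. -/
theorem rotRel_pow (k : ℕ) (f : B.Hol) :
    RotRel (R.ζ ^ k) (X.E f) (X.E (B.compH (ε ^ k) f)) := by
  induction k with
  | zero =>
    rw [pow_zero, pow_zero, HolBase.compH_one]
    exact ⟨rfl, by simp⟩
  | succ k ih =>
    have h1 := R.rot (B.compH (ε ^ k) f)
    rw [← HolBase.compH_mul, ← pow_succ] at h1
    refine ⟨h1.1.trans ih.1, ?_⟩
    rw [h1.2, ih.1, ih.2, ← mul_assoc, pow_succ, mul_zpow, mul_comm (R.ζ ^ (X.E f).order)]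

/-- If `f ≠ 0` is invariant under `ε ^ k`, then `m ∣ k * ord (E f)`. -/
theorem dvd_mul_order_of_compH_pow_eq (k : ℕ) {f : B.Hol} (hf : f ≠ 0)
    (hinv : B.compH (ε ^ k) f = f) : (R.m : ℤ) ∣ (k : ℤ) * (X.E f).order := by
  have h := rotRel_pow B X R k f
  rw [hinv] at h
  have hE : X.E f ≠ 0 := fun h0 => hf (X.inj (by rw [h0, map_zero]))
  have hlc : (X.E f).leadingCoeff ≠ 0 := leadingCoeff_ne_zero.mpr hE
  have h2 := h.2
  have h3 : (R.ζ ^ k) ^ (X.E f).order = 1 := by
    have : (R.ζ ^ k) ^ (X.E f).order * (X.E f).leadingCoeff = 1 * (X.E f).leadingCoeff := by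
      rw [one_mul]
      exact h2.symm
    exact mul_right_cancel₀ hlc this
  rw [← zpow_natCast, ← zpow_mul] at h3
  exact (R.hζ.zpow_eq_one_iff_dvd _).mp h3

end Abstract

section Character

variable {χ : CongruenceSubgroup.Gamma0 N →* ℂˣ} {h : ℍ → ℂ}

omit [NeZero N] in
/-- `h ∘ g` is invariant under `δ` if `g δ g⁻¹ ∈ Γ₀(N)` and `χ (g δ g⁻¹) = 1`. -/
theorem HasCharacter.compSL_compSL (hh : HasCharacter χ h) (g δ : SL(2, ℤ))
    (hδ : g * δ * g⁻¹ ∈ CongruenceSubgroup.Gamma0 N) (hχ : χ ⟨_, hδ⟩ = 1) :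
    compSL δ (compSL g h) = compSL g h := by
  funext τ
  simp only [compSL_apply]
  have h1 : g • (δ • τ) = (g * δ * g⁻¹) • (g • τ) := by
    rw [← mul_smul, ← mul_smul, mul_assoc, mul_assoc, inv_mul_cancel, mul_one]
  have h2 := hh ⟨_, hδ⟩ (g • τ)
  rw [hχ, Units.val_one, one_mul] at h2
  rw [h1, h2]

/-- `χ` is trivial on the elements of finite order. -/
def EllTrivial (χ : CongruenceSubgroup.Gamma0 N →* ℂˣ) : Prop :=
  ∀ (γ : CongruenceSubgroup.Gamma0 N) (n : ℕ), 0 < n → γ ^ n = 1 → χ γ = 1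

/-- **Local divisibility.**  Let `h ∈ holN N` be nonzero with character `χ`, `X` an expansion with
rotation data for `ε`, `g ∈ SL(2,ℤ)` and `k` with `g ε^k g⁻¹ ∈ Γ₀(N)`, `χ(g ε^k g⁻¹) = 1`.  Then
`m ∣ k * ord (E (h ∘ g))`. -/
theorem HasCharacter.dvd_mul_order (hh : HasCharacter χ h) (hmem : h ∈ holN N) (h0 : h ≠ 0)
    (X : Expansion (holBase N)) {ε : SL(2, ℤ)} (R : RotData (holBase N) X ε)
    (g : SL(2, ℤ)) (k : ℕ) (hk : g * ε ^ k * g⁻¹ ∈ CongruenceSubgroup.Gamma0 N)
    (hχ : χ ⟨_, hk⟩ = 1) :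
    (R.m : ℤ) ∣ (k : ℤ) * (X.E ((holBase N).compH g ⟨h, hmem⟩)).order := by
  refine dvd_mul_order_of_compH_pow_eq (holBase N) X R k ?_ ?_
  · intro hz
    apply h0
    have := (holBase N).compH_injective g (hz.trans (map_zero _).symm)
    exact congrArg Subtype.val this
  · apply Subtype.ext
    exact hh.compSL_compSL g (ε ^ k) hk hχ

omit [NeZero N] in
/-- Conjugates of elements of finite order have finite order. -/
theorem EllTrivial.conj (hχ : EllTrivial χ) {ε : SL(2, ℤ)} {n : ℕ} (hn : 0 < n) (hε : ε ^ n = 1)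
    (g : SL(2, ℤ)) (k : ℕ) (hk : g * ε ^ k * g⁻¹ ∈ CongruenceSubgroup.Gamma0 N) :
    χ ⟨_, hk⟩ = 1 := by
  refine hχ _ n hn ?_
  apply Subtype.ext
  rw [SubgroupClass.coe_pow, Subgroup.coe_mk, OneMemClass.coe_one]
  have : (g * ε ^ k * g⁻¹) ^ n = g * (ε ^ k) ^ n * g⁻¹ := conj_pow
  rw [this, ← pow_mul, mul_comm, pow_mul, hε, one_pow, mul_one, mul_inv_cancel]

omit [NeZero N] in
/-- Conjugates of powers of `T` are parabolic. -/
theorem ParTrivial.conj_T (hχ : ParTrivial χ) (g : SL(2, ℤ)) (k : ℕ)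
    (hk : g * ModularGroup.T ^ k * g⁻¹ ∈ CongruenceSubgroup.Gamma0 N) :
    χ ⟨_, hk⟩ = 1 := by
  apply hχ
  left
  have := trace_conj_T_zpow g (k : ℤ)
  rwa [zpow_natCast] at this

/-- Local divisibility at a point with finite-order rotation `ε` (elliptic points: `ε = S`,
`ε = S * T`; generic points: `ε = 1`). -/
theorem HasCharacter.dvd_mul_order_of_finite_order (hh : HasCharacter χ h) (hmem : h ∈ holN N)
    (h0 : h ≠ 0) (hχ : EllTrivial χ)
    (X : Expansion (holBase N)) {ε : SL(2, ℤ)} (R : RotData (holBase N) X ε)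
    {n : ℕ} (hn : 0 < n) (hε : ε ^ n = 1)
    (g : SL(2, ℤ)) (k : ℕ) (hk : g * ε ^ k * g⁻¹ ∈ CongruenceSubgroup.Gamma0 N) :
    (R.m : ℤ) ∣ (k : ℤ) * (X.E ((holBase N).compH g ⟨h, hmem⟩)).order :=
  hh.dvd_mul_order hmem h0 X R g k hk (hχ.conj hn hε g k hk)

/-- Local divisibility at the cusps (`ε = T`). -/
theorem HasCharacter.dvd_mul_order_T (hh : HasCharacter χ h) (hmem : h ∈ holN N)
    (h0 : h ≠ 0) (hχ : ParTrivial χ)
    (X : Expansion (holBase N)) (R : RotData (holBase N) X ModularGroup.T)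
    (g : SL(2, ℤ)) (k : ℕ)
    (hk : g * ModularGroup.T ^ k * g⁻¹ ∈ CongruenceSubgroup.Gamma0 N) :
    (R.m : ℤ) ∣ (k : ℤ) * (X.E ((holBase N).compH g ⟨h, hmem⟩)).order :=
  hh.dvd_mul_order hmem h0 X R g k hk (hχ.conj_T g k hk)

end Character

end Fermat.Agent.S29.H332

end
end
-- ===== PACK-END S29/H332/Rot.lean

-- ===== PACK-BEGIN Lib/RR/H864/FF1Modular.lean
section



/-!
# RR library, bridge: `FF1` for the function field of `X₀(N)` over `ℚ̄`
-/

set_option autoImplicit false

noncomputable section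

open AlgebraicCurve ModularCurve IntermediateField

namespace Fermat.Agent.Lib.RR.H864

open Fermat.Agent.S24 in
theorem jF_not_mem_range (N : ℕ) [NeZero N] :
    jF N ∉ (algebraMap Kbar (FF N)).range := by
  rintro ⟨c, hc⟩
  have h1 : ((algebraMap Kbar (FF N) c : FF N) : LaurentSeries Kbar).coeff (-1)
      = ((jF N : FF N) : LaurentSeries Kbar).coeff (-1) := by rw [hc]
  have h2 : ((algebraMap Kbar (FF N) c : FF N) : LaurentSeries Kbar)
      = algebraMap Kbar (LaurentSeries Kbar) c := rfl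
  rw [h2, algebraMap_laurentSeries_eq_single] at h1
  have h3 : ((jF N : FF N) : LaurentSeries Kbar) = coeffEmb Kbar jq := rfl
  rw [h3, coeffEmb_coeff, coeff_jq_neg_one, map_one,
    HahnSeries.coeff_single_of_ne (by norm_num)] at h1
  exact zero_ne_one h1

open Fermat.Agent.S24 in
theorem transcendental_jF (N : ℕ) [NeZero N] : Transcendental Kbar (jF N) :=
  FF.transcendental_of_not_mem_range (jF_not_mem_range N)

open Fermat.Agent.S24 in
/-- **`FF1` for the modular function field** `ℚ̄(j(q^d) : d ∣ N)`. -/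
theorem ff1_modularFunctionFieldBar (N : ℕ) [NeZero N] :
    FF1 (AlgebraicClosure ℚ) ↥(modularFunctionFieldBar N) := by
  obtain ⟨P⟩ := nonempty_modularPackage N
  haveI := P.finiteDimensional
  exact ff1 (jF N) (transcendental_jF N)

/-- The modular function field has principal divisors. -/
theorem hasPrincipalDivisors_modularFunctionFieldBar (N : ℕ) [NeZero N] :
    HasPrincipalDivisors (AlgebraicClosure ℚ) ↥(modularFunctionFieldBar N) :=
  (ff1_modularFunctionFieldBar N).hpd

end Fermat.Agent.Lib.RR.H864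

end
end
-- ===== PACK-END Lib/RR/H864/FF1Modular.lean

-- ===== PACK-BEGIN S18/H564/ConstF.lean
section




/-!
# S18 / T2 (helper564): `CONST_F` — a function without zeros is constant (char 0)

* `exists_const_of_forall_ord_eq_zero` : generic form, for any function field `F/K`
  (`K` algebraically closed of characteristic `0`) having a coordinate `t`
  (`t` transcendental, `F/K(t)` finite): `u ≠ const ⇒ u` has a zero.  From the fundamental
  identity `∑_{v(u) > 0} ord_v u = [F : K(u)]` (S24, `FF.sum_ord_pos_eq_finrank`, on main).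
* `constOfOrdZero_modularFunctionFieldBar N` : the instance `F = ℚ̄(j(q^d) : d ∣ N)`; its
  statement is (defeq to) helper94's `ConstOfOrdZero (AlgebraicClosure ℚ) (modularFunctionFieldBar N)`.
-/

set_option autoImplicit false

noncomputable section

open AlgebraicCurve ModularCurve IntermediateField

namespace Fermat.Agent.S18.H564

section Generic

variable {K F : Type*} [Field K] [Field F] [Algebra K F] [IsAlgClosed K] [CharZero K]

/-- A non-constant function has a zero. -/
theorem exists_ord_pos_of_transcendental (t : F) (ht : Transcendental K t)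
    [FiniteDimensional K⟮t⟯ F] {u : F} (hu : Transcendental K u) :
    ∃ v : Place K F, 0 < v.ord u := by
  have hcoord0 : Fermat.Agent.S24.FF.IsCoord K t := ⟨ht, inferInstance⟩
  have hcoord : Fermat.Agent.S24.FF.IsCoord K u :=
    Fermat.Agent.S24.FF.IsCoord.of_transcendental (x := t) hu
  have : FiniteDimensional K⟮u⟯ F := hcoord.finite
  have hsum := Fermat.Agent.S24.FF.sum_ord_pos_eq_finrank (K := K) (F := F) hu
  by_contra hne
  have hempty : (Fermat.Agent.S24.FF.finite_setOf_ord_pos (K := K) (F := F) hu).toFinset = ∅ := by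
    rw [Finset.eq_empty_iff_forall_notMem]
    intro v hv
    rw [Set.Finite.mem_toFinset] at hv
    exact hne ⟨v, hv⟩
  rw [hempty, Finset.sum_empty] at hsum
  have hpos : 0 < Module.finrank K⟮u⟯ F := Module.finrank_pos
  omega

/-- **CONST_F, generic form.** -/
theorem exists_const_of_forall_ord_eq_zero (t : F) (ht : Transcendental K t)
    [FiniteDimensional K⟮t⟯ F] (u : F) (hu : ∀ v : Place K F, v.ord u = 0) :
    ∃ c : K, u = algebraMap K F c := by
  by_contra hne
  have hu_tr : Transcendental K u := by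
    intro halg
    obtain ⟨c, hc⟩ := Fermat.Agent.S24.exists_algebraMap_eq_of_isAlgebraic halg
    exact hne ⟨c, hc.symm⟩
  obtain ⟨v, hv⟩ := exists_ord_pos_of_transcendental t ht hu_tr
  rw [hu v] at hv
  exact lt_irrefl _ hv

end Generic

/-- `j` is a coordinate of the function field of `X₀(N)` over `ℚ̄`. -/
theorem transcendental_jF (N : ℕ) [NeZero N] :
    Transcendental (AlgebraicClosure ℚ) (Fermat.Agent.S24.jF N) := by
  obtain ⟨P⟩ := Fermat.Agent.S24.nonempty_modularPackage N
  have : Nonempty (Fermat.Agent.S24.XX N) := ⟨((1 : Matrix.SpecialLinearGroup (Fin 2) ℤ) :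
    Fermat.Agent.S24.XX N)⟩
  exact Fermat.Agent.S24.transcendental_of_localData_inv (Fermat.Agent.S24.jF N) P.dataInf

theorem finiteDimensional_jF (N : ℕ) [NeZero N] :
    FiniteDimensional (AlgebraicClosure ℚ)⟮Fermat.Agent.S24.jF N⟯
      ↥(modularFunctionFieldBar N) := by
  obtain ⟨P⟩ := Fermat.Agent.S24.nonempty_modularPackage N
  exact P.finiteDimensional

/-- **T2 = CONST_F** for `F = modularFunctionFieldBar N`
(= helper94's `ConstOfOrdZero (AlgebraicClosure ℚ) (modularFunctionFieldBar N)`, unfolded). -/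
theorem constOfOrdZero_modularFunctionFieldBar (N : ℕ) [NeZero N] :
    ∀ u : ↥(modularFunctionFieldBar N), u ≠ 0 →
      (∀ v : Place (AlgebraicClosure ℚ) ↥(modularFunctionFieldBar N), v.ord u = 0) →
      ∃ c : AlgebraicClosure ℚ,
        u = algebraMap (AlgebraicClosure ℚ) ↥(modularFunctionFieldBar N) c := by
  intro u _ hu
  have := finiteDimensional_jF N
  exact exists_const_of_forall_ord_eq_zero (Fermat.Agent.S24.jF N) (transcendental_jF N) u hu

/-- A non-constant modular function has a zero (and, applied to `u⁻¹`, a pole). -/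
theorem exists_ord_pos_modularFunctionFieldBar (N : ℕ) [NeZero N]
    {u : ↥(modularFunctionFieldBar N)} (hu : Transcendental (AlgebraicClosure ℚ) u) :
    ∃ v : Place (AlgebraicClosure ℚ) ↥(modularFunctionFieldBar N), 0 < v.ord u := by
  have := finiteDimensional_jF N
  exact exists_ord_pos_of_transcendental (Fermat.Agent.S24.jF N) (transcendental_jF N) hu

end Fermat.Agent.S18.H564

end
end
-- ===== PACK-END S18/H564/ConstF.lean

-- ===== PACK-BEGIN S37/H819/Gamma.lean
section


/-!
# S37 / NORM (helper819) — matrix lemmas for the cosets of `Γ₀(Nℓ)` in `Γ₀(N)`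

For a prime `ℓ ∤ N` and `h ∈ Γ₀(N)`:
* either `ℓ ∣ h₁₀` (then `h ∈ Γ₀(Nℓ)`), or there is `b` with `ℓ ∣ h₁₁ - b h₁₀`;
* in the second case `diag(dℓ,1)·h = γ'·[[d, d b],[0, ℓ]]` for every `d ∣ N`, i.e.
  `j(dℓ·hτ) = j(d(τ+b)/ℓ)`;
* every residue `b` occurs.
-/

set_option autoImplicit false

noncomputable section

open UpperHalfPlane
open scoped MatrixGroups

namespace Fermat.Agent.S37.H819

open Fermat.Agent.S24 Fermat.Agent.S24.H997

theorem gamma0_mem_iff_dvd (N : ℕ) (g : SL(2, ℤ)) :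
    g ∈ CongruenceSubgroup.Gamma0 N ↔ (N : ℤ) ∣ g 1 0 := by
  rw [CongruenceSubgroup.Gamma0_mem, ZMod.intCast_zmod_eq_zero_iff_dvd]

/-- If `ℓ ∣ h₁₀` and `h ∈ Γ₀(N)` with `gcd(N,ℓ) = 1`, then `h ∈ Γ₀(Nℓ)`. -/
theorem mem_gamma0_mul {N ℓ : ℕ} (hcop : Nat.Coprime N ℓ) {h : SL(2, ℤ)}
    (hN : h ∈ CongruenceSubgroup.Gamma0 N) (hℓ : (ℓ : ℤ) ∣ h 1 0) :
    h ∈ CongruenceSubgroup.Gamma0 (N * ℓ) := by
  rw [gamma0_mem_iff_dvd] at hN ⊢
  have hc : IsCoprime (N : ℤ) (ℓ : ℤ) := Nat.isCoprime_iff_coprime.mpr hcop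
  push_cast
  exact hc.mul_dvd hN hℓ

/-- For `ℓ` prime, either `ℓ ∣ h₁₀` or `h₁₁ ≡ b h₁₀ mod ℓ` for some `b`. -/
theorem dvd_or_exists_b {ℓ : ℕ} (hℓ : ℓ.Prime) (h : SL(2, ℤ)) :
    (ℓ : ℤ) ∣ h 1 0 ∨ ∃ b : ℤ, (ℓ : ℤ) ∣ h 1 1 - b * h 1 0 := by
  by_cases hd : (ℓ : ℤ) ∣ h 1 0
  · exact Or.inl hd
  · right
    have hp : Prime (ℓ : ℤ) := Nat.prime_iff_prime_int.mp hℓ
    have hc : IsCoprime (ℓ : ℤ) (h 1 0) := (Prime.coprime_iff_not_dvd hp).mpr hd
    obtain ⟨s, t, hst⟩ := hc
    refine ⟨h 1 1 * t, ⟨h 1 1 * s, ?_⟩⟩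
    linear_combination (-(h 1 1)) * hst

/-- `ℓ ∣ h₁₁ - b h₁₀` excludes `ℓ ∣ h₁₀`. -/
theorem not_dvd_of_twist {ℓ : ℕ} (hℓ : ℓ.Prime) {h : SL(2, ℤ)} {b : ℤ}
    (hb : (ℓ : ℤ) ∣ h 1 1 - b * h 1 0) : ¬ (ℓ : ℤ) ∣ h 1 0 := by
  intro hd
  have h11 : (ℓ : ℤ) ∣ h 1 1 := by
    have := dvd_add hb (Dvd.dvd.mul_left hd b)
    simpa using this
  have hdet := inf_sl_det h
  have h1 : (ℓ : ℤ) ∣ 1 := by
    rw [← hdet]
    exact dvd_sub (Dvd.dvd.mul_left h11 _) (Dvd.dvd.mul_left hd _)
  have hp : Prime (ℓ : ℤ) := Nat.prime_iff_prime_int.mp hℓ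
  exact hp.not_dvd_one h1

/-- The Hermite normal form `diag(dℓ,1)·h = γ'·[[d, d b],[0, ℓ]]`. -/
theorem exists_hnf_twist (d ℓ : ℕ) (b : ℤ) (h : SL(2, ℤ)) (hd : (d : ℤ) ∣ h 1 0)
    (hb : (ℓ : ℤ) ∣ h 1 1 - b * h 1 0) :
    ∃ γ' : SL(2, ℤ), ((d * ℓ : ℕ) : ℤ) * h 0 0 = γ' 0 0 * (d : ℕ) ∧
      ((d * ℓ : ℕ) : ℤ) * h 0 1 = γ' 0 0 * ((d : ℤ) * b) + γ' 0 1 * (ℓ : ℕ) ∧
      h 1 0 = γ' 1 0 * (d : ℕ) ∧ h 1 1 = γ' 1 0 * ((d : ℤ) * b) + γ' 1 1 * (ℓ : ℕ) := by
  obtain ⟨c, hc⟩ := hd
  obtain ⟨e, he⟩ := hb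
  have hdet := inf_sl_det h
  refine ⟨⟨!![(ℓ : ℤ) * h 0 0, (d : ℤ) * h 0 1 - (d : ℤ) * b * h 0 0; c, e], ?_⟩, ?_, ?_, ?_, ?_⟩
  · rw [Matrix.det_fin_two_of]
    have h11 : h 1 1 = (ℓ : ℤ) * e + b * h 1 0 := by linarith
    rw [h11, hc] at hdet
    linear_combination hdet
  · simp; ring
  · simp; ring
  · simp [hc]; ring
  · simp
    have h11 : h 1 1 = (ℓ : ℤ) * e + b * h 1 0 := by linarith
    rw [h11, hc]; ring

/-- Every residue class `b` is realised by some `h ∈ Γ₀(N)`. -/
theorem exists_rep {N ℓ : ℕ} (hcop : Nat.Coprime N ℓ) (b : ℤ) :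
    ∃ h : SL(2, ℤ), h ∈ CongruenceSubgroup.Gamma0 N ∧ (ℓ : ℤ) ∣ h 1 1 - b * h 1 0 := by
  have hc : IsCoprime (b * N + ℓ : ℤ) (N : ℤ) := by
    have h0 : IsCoprime (ℓ : ℤ) (N : ℤ) := (Nat.isCoprime_iff_coprime.mpr hcop).symm
    have := h0.add_mul_right_left b
    simpa [add_comm] using this
  obtain ⟨s, t, hst⟩ := hc
  have hdet : (!![s, -t; (N : ℤ), b * N + ℓ] : Matrix (Fin 2) (Fin 2) ℤ).det = 1 := by
    rw [Matrix.det_fin_two_of]
    linear_combination hst
  let g : SL(2, ℤ) := ⟨!![s, -t; (N : ℤ), b * N + ℓ], hdet⟩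
  have g10 : g 1 0 = (N : ℤ) := by simp [g]
  have g11 : g 1 1 = b * N + ℓ := by simp [g]
  refine ⟨g, ?_, ?_⟩
  · rw [gamma0_mem_iff_dvd, g10]
  · rw [g10, g11]
    exact ⟨1, by ring⟩

end Fermat.Agent.S37.H819

end
end
-- ===== PACK-END S37/H819/Gamma.lean

-- ===== PACK-BEGIN S18/H24/Branch.lean
section






/-!
# S18 / MOD (M2) — ramification of `F_N / ℚ̄(j)` in `Place` language  (helper24)

`F_N = modularFunctionFieldBar N = ℚ̄(j(q^d) : d ∣ N)`, `j = jF N`.  For a place `v` of `F_N/ℚ̄`: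

* `ord_sub_eq_one`     : `a ≠ 0, 1728`, `0 < v.ord (j - a)`  ⟹  `v.ord (j - a) = 1`   (unramified);
* `ord_zero_dvd`       : `0 < v.ord j`                      ⟹  `v.ord j ∣ 3`;
* `ord_1728_dvd`       : `0 < v.ord (j - 1728)`             ⟹  `v.ord (j - 1728) ∣ 2`;
* `ord_inv_dvd`        : `0 < v.ord j⁻¹`                    ⟹  `v.ord j⁻¹ ∣ N`;
* `finrank_eq_psi`     : `[F_N : ℚ̄(j)] = ψ(N)`.

So `F_N/ℚ̄(j)` is tamely ramified, with branch values in `{0, 1728, ∞}` and ramification indices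
dividing `3`, `2`, `N` respectively.  Source: the `LocalData` of the S24 modular package
(`H997.analyticCore`), helper117's local theorem and the relations `S² = (ST)³ = -1`,
`T^N ∈ Γ(N)`.
-/

set_option autoImplicit false

noncomputable section

open AlgebraicCurve ModularCurve IntermediateField
open scoped MatrixGroups

namespace Fermat.Agent.S18.H24

open Fermat.Agent.S24

variable (N : ℕ) [NeZero N]

/-- `[F_N : ℚ̄(j)]` is finite. -/
instance finiteDimensional_FF :
    FiniteDimensional ↥(IntermediateField.adjoin Kbar {jF N}) (FF N) :=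
  (Deg457.degree_fields N).1

theorem finrank_eq_card :
    Module.finrank ↥(IntermediateField.adjoin Kbar {jF N}) (FF N) = Nat.card (XX N) := by
  obtain ⟨hfd, hle⟩ := Deg457.degree_fields N
  obtain ⟨_, _, h1, -⟩ := (H997.analyticCore N).modularPackage_fields hfd hle
  exact h1

/-- `[F_N : ℚ̄(j)] = ψ(N)`. -/
theorem finrank_eq_psi :
    Module.finrank ↥(IntermediateField.adjoin Kbar {jF N}) (FF N) = dedekindPsi N := by
  rw [finrank_eq_card, card_XX]

instance finite_XX : Finite (XX N) := by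
  apply Nat.finite_of_card_ne_zero
  rw [← finrank_eq_card]
  exact Module.finrank_pos.ne'

section Generic

variable {N}
variable {t : FF N} (L : LocalData Kbar (FF N) ℂ (XX N) t)

/-- General principle: if `perm ^ k = 1` then every ramification index over `t = 0`
divides `k`. -/
theorem ord_dvd_of_perm_pow (hE : IntermediateField.adjoin Kbar {jF N} ≤ Kbar⟮t⟯) (k : ℕ)
    (hk : L.perm ^ k = 1) (v : Place Kbar (FF N)) (hv : 0 < v.ord t) : v.ord t ∣ (k : ℤ) := by
  obtain ⟨x, rfl⟩ := H117.exists_placeOf_eq L (IntermediateField.adjoin Kbar {jF N}) hE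
    (finrank_eq_card N) v hv
  exact H117.ord_t_dvd_of_pow_apply_eq L x k (by rw [hk]; rfl)

end Generic

theorem adjoin_le_sub (a : Kbar) :
    IntermediateField.adjoin Kbar {jF N} ≤ Kbar⟮jF N - algebraMap Kbar (FF N) a⟯ := by
  rw [IntermediateField.adjoin_simple_le_iff]
  have h1 : jF N - algebraMap Kbar (FF N) a ∈ Kbar⟮jF N - algebraMap Kbar (FF N) a⟯ :=
    IntermediateField.mem_adjoin_simple_self _ _
  have h2 : algebraMap Kbar (FF N) a ∈ Kbar⟮jF N - algebraMap Kbar (FF N) a⟯ :=
    IntermediateField.algebraMap_mem _ a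
  have := add_mem h1 h2
  rwa [sub_add_cancel] at this

theorem adjoin_le_inv : IntermediateField.adjoin Kbar {jF N} ≤ Kbar⟮(jF N)⁻¹⟯ := by
  rw [IntermediateField.adjoin_simple_le_iff]
  have h1 : (jF N)⁻¹ ∈ Kbar⟮(jF N)⁻¹⟯ := IntermediateField.mem_adjoin_simple_self _ _
  have := inv_mem h1
  rwa [inv_inv] at this

/-! ### the permutations of the concrete local data -/

theorem permOf_pow (g : SL(2, ℤ)) (k : ℕ) : (permOf N g) ^ k = permOf N (g ^ k) :=
  (map_pow (MulAction.toPermHom SL(2, ℤ) (XX N)) g k).symm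

theorem permOf_neg_one : permOf N (-1) = 1 := by
  ext x
  exact Fermat.Agent.S20.Comb.neg_one_smul_quotient N x

theorem permOf_one' : permOf N 1 = 1 := by
  ext x
  simp [permOf]

theorem dataFin_perm_zero :
    ((H997.analyticCore N).dataFin 0).perm = permOf N (ModularGroup.S * ModularGroup.T)⁻¹ := by
  unfold H997.AnalyticCore.dataFin
  rw [dif_pos rfl]
  rfl

theorem dataFin_perm_1728 :
    ((H997.analyticCore N).dataFin 1728).perm = permOf N ModularGroup.S⁻¹ := by
  have h0 : (1728 : Kbar) ≠ 0 := by norm_num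
  unfold H997.AnalyticCore.dataFin
  rw [dif_neg h0, dif_pos rfl]
  rfl

theorem dataInf_perm : (H997.analyticCore N).dataInf.perm = permOf N ModularGroup.T⁻¹ := rfl

theorem perm_zero_pow : ((H997.analyticCore N).dataFin 0).perm ^ 3 = 1 := by
  rw [dataFin_perm_zero, permOf_pow, inv_pow, Fermat.Agent.S20.Comb.ST_pow_three]
  have : ((-1 : SL(2, ℤ)))⁻¹ = -1 := by
    rw [inv_eq_iff_eq_inv, eq_inv_iff_mul_eq_one]
    simp
  rw [this, permOf_neg_one]

theorem perm_1728_pow : ((H997.analyticCore N).dataFin 1728).perm ^ 2 = 1 := by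
  rw [dataFin_perm_1728, permOf_pow, inv_pow, Fermat.Agent.S20.Comb.S_pow_two]
  have : ((-1 : SL(2, ℤ)))⁻¹ = -1 := by
    rw [inv_eq_iff_eq_inv, eq_inv_iff_mul_eq_one]
    simp
  rw [this, permOf_neg_one]

/-- `T ^ N` acts trivially on `SL₂(ℤ)/Γ₀(N)`. -/
theorem permOf_T_pow : permOf N (ModularGroup.T ^ N) = 1 := by
  ext x
  obtain ⟨g, rfl⟩ := QuotientGroup.mk_surjective x
  show (ModularGroup.T ^ N) • (QuotientGroup.mk g : SL(2, ℤ) ⧸ CongruenceSubgroup.Gamma0 N) = _
  rw [Equiv.Perm.one_apply, Fermat.Agent.S20.Comb.smul_mk_eq_mk_iff]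
  have hT : ((ModularGroup.T ^ N : SL(2, ℤ)) : Matrix (Fin 2) (Fin 2) ℤ) = !![1, (N : ℤ); 0, 1] := by
    have := ModularGroup.coe_T_zpow (N : ℤ)
    rw [zpow_natCast] at this
    exact this
  have h00 : ((ModularGroup.T ^ N * g : SL(2, ℤ)) 0 0 : ℤ) = g 0 0 + N * g 1 0 := by
    rw [Matrix.SpecialLinearGroup.coe_mul, hT, Matrix.mul_apply, Fin.sum_univ_two]
    simp
  have h10 : ((ModularGroup.T ^ N * g : SL(2, ℤ)) 1 0 : ℤ) = g 1 0 := by
    rw [Matrix.SpecialLinearGroup.coe_mul, hT, Matrix.mul_apply, Fin.sum_univ_two]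
    simp
  rw [h00, h10]
  push_cast
  simp
  ring

theorem perm_inf_pow : (H997.analyticCore N).dataInf.perm ^ N = 1 := by
  rw [dataInf_perm, permOf_pow, inv_pow, ← permOf_one' N]
  have h : permOf N ((ModularGroup.T ^ N)⁻¹) = (permOf N (ModularGroup.T ^ N))⁻¹ := by
    ext x
    simp [permOf]
  rw [h, permOf_T_pow, inv_one, permOf_one']

/-! ### the ramification statements -/

/-- **Unramified outside `0, 1728, ∞`.** -/
theorem ord_sub_eq_one (a : Kbar) (h0 : a ≠ 0) (h1 : a ≠ 1728) (v : Place Kbar (FF N))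
    (hv : 0 < v.ord (jF N - algebraMap Kbar (FF N) a)) :
    v.ord (jF N - algebraMap Kbar (FF N) a) = 1 := by
  have hperm : ((H997.analyticCore N).dataFin a).perm ^ 1 = 1 := by
    rw [pow_one]
    exact (H997.analyticCore N).dataFin_perm_generic a h0 h1
  have h := ord_dvd_of_perm_pow ((H997.analyticCore N).dataFin a) (adjoin_le_sub N a) 1 hperm v hv
  have h2 : v.ord (jF N - algebraMap Kbar (FF N) a) ≤ 1 := Int.le_of_dvd one_pos (by simpa using h)
  omega

/-- Over `j = 0` the ramification indices divide `3`. -/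
theorem ord_zero_dvd (v : Place Kbar (FF N)) (hv : 0 < v.ord (jF N)) : v.ord (jF N) ∣ 3 := by
  have hv' : 0 < v.ord (jF N - algebraMap Kbar (FF N) 0) := by rwa [map_zero, sub_zero]
  have h := ord_dvd_of_perm_pow ((H997.analyticCore N).dataFin 0) (adjoin_le_sub N 0) 3
    (perm_zero_pow N) v hv'
  rw [map_zero, sub_zero] at h
  exact_mod_cast h

/-- Over `j = 1728` the ramification indices divide `2`. -/
theorem ord_1728_dvd (v : Place Kbar (FF N))
    (hv : 0 < v.ord (jF N - algebraMap Kbar (FF N) 1728)) :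
    v.ord (jF N - algebraMap Kbar (FF N) 1728) ∣ 2 := by
  have h := ord_dvd_of_perm_pow ((H997.analyticCore N).dataFin 1728) (adjoin_le_sub N 1728) 2
    (perm_1728_pow N) v hv
  exact_mod_cast h

/-- Over `j = ∞` the ramification indices divide `N`. -/
theorem ord_inv_dvd (v : Place Kbar (FF N)) (hv : 0 < v.ord (jF N)⁻¹) :
    v.ord (jF N)⁻¹ ∣ (N : ℤ) :=
  ord_dvd_of_perm_pow (H997.analyticCore N).dataInf (adjoin_le_inv N) N (perm_inf_pow N) v hv

end Fermat.Agent.S18.H24

end
end
-- ===== PACK-END S18/H24/Branch.lean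

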