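import Mathlib
import Fermat.Prelude.Def_ModularCurve_ReductionModL
import Fermat.Prelude.Def_FLTPrelim_Ramification
import Fermat.Prelude.Def_ModularCurve_ArithmeticGalois
import Fermat.Agent.Pack.S3234.G0E6L2
import Fermat.Agent.Pack.S3234.G0E2L1
import Fermat.Agent.Pack.S3234.G0E2L0
import Fermat.Agent.Pack.S3234.G0E4L3
import Fermat.Agent.Pack.S3234.G0E5L0
import Fermat.Agent.Pack.S3234.G0E4L2
import Fermat.Agent.Pack.S3234.G0E1L3
import Fermat.Agent.Pack.S3234.G0E6L1
import Fermat.Agent.Pack.S3234.G0E5L1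
import Fermat.Agent.Pack.S3234.G0E1L2
import Fermat.Agent.Pack.S3234.G0E2L3
import Fermat.Agent.Pack.S3234.G0E6L3
import Fermat.Agent.Pack.S3234.G0E6L0
import Fermat.Agent.Pack.S3234.G0E3L2
import Fermat.Agent.Pack.S3234.G0E3L3

-- ===== PACK-BEGIN S28/H867/Core.lean
section








set_option autoImplicit false
noncomputable section
open ModularCurve HahnSeries IntermediateField Polynomial

namespace Fermat.Agent.S28.H867

section Psi

theorem gFun_eq_dedekindPsi : ∀ {N : ℕ}, N ≠ 0 → gFun N = dedekindPsi N := by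
  intro N
  induction N using Nat.strong_induction_on with
  | _ N ih =>
    intro hN
    rcases Nat.lt_or_ge 1 N with hN1 | hN1
    swap
    · have : N = 1 := by omega
      subst this
      rw [gFun_one, dedekindPsi_one]
    have hpp : N.minFac.Prime := Nat.minFac_prime (by omega)
    have hpN : N.minFac ∣ N := Nat.minFac_dvd N
    have hNe : N / N.minFac * N.minFac = N := Nat.div_mul_cancel hpN
    have hM0 : N / N.minFac ≠ 0 := fun h0 => hN (by rw [← hNe, h0, zero_mul])
    have hlt : N / N.minFac < N := Nat.div_lt_self (by omega) hpp.one_lt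
    have ihM := ih _ hlt hM0
    by_cases hd : N.minFac ∣ N / N.minFac
    · calc gFun N = gFun (N / N.minFac * N.minFac) := by rw [hNe]
        _ = N.minFac * gFun (N / N.minFac) := gFun_mul_of_dvd hM0 hpp hd
        _ = N.minFac * dedekindPsi (N / N.minFac) := by rw [ihM]
        _ = dedekindPsi (N / N.minFac * N.minFac) := (H626.psi_mul_prime_of_dvd hM0 hpp hd).symm
        _ = dedekindPsi N := by rw [hNe]
    · calc gFun N = gFun (N / N.minFac * N.minFac) := by rw [hNe]
        _ = (N.minFac + 1) * gFun (N / N.minFac) := gFun_mul_of_not_dvd hM0 hpp hd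
        _ = (N.minFac + 1) * dedekindPsi (N / N.minFac) := by rw [ihM]
        _ = dedekindPsi (N / N.minFac * N.minFac) :=
            (H626.psi_mul_prime_of_not_dvd hM0 hpp hd).symm
        _ = dedekindPsi N := by rw [hNe]

end Psi

section Adapters

variable (k : Type*) [Field k]

/-- Leaf [L.I] from helper145's `eq_zero_of_sum_qExpand_mul_pow_eq_zero`. -/
theorem leafI (p : ℕ) [NeZero p] : LeafI k p := by
  intro B hB
  rw [Fintype.linearIndependent_iff]
  intro g hg i
  have hc : ∀ i, ∃ c : LaurentSeries k, qExpand k p c = (g i : LaurentSeries k) := by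
    intro i
    obtain ⟨c, hc⟩ := hB (g i).2
    exact ⟨c, hc⟩
  choose c hc using hc
  have h : ∑ i : Fin p, qExpand k p (c i) * (jqModC k) ^ (i : ℕ) = 0 := by
    rw [← hg]
    refine Finset.sum_congr rfl fun i _ => ?_
    rw [hc i]
    rfl
  have := H145.eq_zero_of_sum_qExpand_mul_pow_eq_zero p (jqModC k) (H145.jqModC_ne_zero' k)
    (H145.isCoprime_order_jqModC k p) c h i
  apply Subtype.ext
  rw [← hc i, this, map_zero]
  rfl

/-- Leaf [L.B1] from helper88's `h88_jp_not_mem_jField`. -/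
theorem leafB1 (p : ℕ) [NeZero p] (hp : p.Prime) (hpk : (p : k) ≠ 0) (W : UnitPolyData p)
    (hθ : (thetaL ℤ (jqModC ℤ)) ^ 6 = deltaL ℤ * (jqModC ℤ) ^ 4 * (jqModC ℤ - 1728) ^ 3) :
    LeafB1 k p :=
  h88_jp_not_mem_jField k p hpk hp.one_lt W hθ

/-- `ModPolyData` in helper626's hypothesis form. -/
theorem isModPoly_of_modPolyData {p : ℕ} [NeZero p] (D : ModPolyData p) :
    H626.IsModPoly p D.Φ := by
  have hev : ∀ y x : LaurentSeries ℤ, H626.ev2 D.Φ y x = D.Φ.eval₂ (evalAt y) x := by
    intro y x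
    unfold H626.ev2
    congr 1
    apply Polynomial.ringHom_ext
    · intro a; simp [evalAt]
    · simp [evalAt]
  refine ⟨D.monic, D.natDegree_eq, ?_, ?_⟩
  · rw [hev]; exact D.eval_jp
  · rw [hev]; exact D.eval_j

end Adapters

end Fermat.Agent.S28.H867

namespace Fermat.Agent.S28.H867

section Assembly

variable (k : Type*) [Field k]

theorem hasModPolys (N : ℕ)
    (hΦ : ∀ p : ℕ, p.Prime → p ∣ N → ∀ [NeZero p], Nonempty (ModPolyData p))
    (hchar : ∀ p : ℕ, p.Prime → p ∣ N → (p : k) ≠ 0) : H626.HasModPolys k N := by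
  intro p hp hpN
  have : NeZero p := ⟨hp.ne_zero⟩
  obtain ⟨D⟩ := hΦ p hp hpN
  exact ⟨hchar p hp hpN, D.Φ, isModPoly_of_modPolyData D⟩

/-- The upper bound in `relfinrank` form. -/
theorem degE_le_gFun (M : ℕ) (hM : M ≠ 0) (H : H626.HasModPolys k M) : degE k M ≤ gFun M := by
  have : NeZero M := ⟨hM⟩
  rw [gFun_eq_dedekindPsi hM, degE, relfinrank_eq_finrank_of_le (jField_le_EF k M)]
  exact H626.finrank_extendScalars_le M H

theorem good_of_inputs (N : ℕ) (hN : N ≠ 0)
    (hΦ : ∀ p : ℕ, p.Prime → p ∣ N → ∀ [NeZero p], Nonempty (ModPolyData p))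
    (hW : ∀ p : ℕ, p.Prime → p ∣ N → ∀ [NeZero p], Nonempty (UnitPolyData p))
    (hθ : (thetaL ℤ (jqModC ℤ)) ^ 6 = deltaL ℤ * (jqModC ℤ) ^ 4 * (jqModC ℤ - 1728) ^ 3)
    (hchar : ∀ p : ℕ, p.Prime → p ∣ N → (p : k) ≠ 0) : Good k N where
  ne_zero := hN
  modPoly := hΦ
  prime := by
    intro p hp hpN _
    obtain ⟨D⟩ := hΦ p hp hpN
    obtain ⟨W⟩ := hW p hp hpN
    exact primeLevel_of_leaves k hp D (leafI k p) (leafB1 k p hp (hchar p hp hpN) W hθ)
  indep := fun p _ _ _ => leafI k p
  upper := by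
    intro M hMN
    have hM : M ≠ 0 := fun h0 => hN (by rw [h0] at hMN; exact Nat.eq_zero_of_zero_dvd hMN)
    exact degE_le_gFun k M hM ((hasModPolys k N hΦ hchar).mono hMN)

variable {k} in
/-- Extraction of `ψ(N)` independent elements. -/
theorem Good.exists_linearIndependent {N : ℕ} (h : Good k N) :
    ∃ x : Fin (dedekindPsi N) → LaurentSeries k,
      (∀ i, x i ∈ modularFunctionFieldFullC k N) ∧ LinearIndependent (jField k) x := by
  have hdeg : degE k N = dedekindPsi N := by rw [h.degE_eq, gFun_eq_dedekindPsi h.ne_zero]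
  have hle := jField_le_EF k N
  rw [degE, relfinrank_eq_finrank_of_le hle] at hdeg
  obtain ⟨x, hx⟩ : ∃ x : Fin (dedekindPsi N) → extendScalars hle,
      LinearIndependent (jField k) x :=
    exists_linearIndependent_of_le_finrank hdeg.ge
  refine ⟨fun i => (x i : LaurentSeries k), fun i => (x i).2, ?_⟩
  have := hx.map' (extendScalars hle).val.toLinearMap
    (LinearMap.ker_eq_bot.mpr (extendScalars hle).val.injective)
  exact this

end Assembly

section Final

/-- **[L]** `CoreData` from the three analytic inputs. -/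
theorem coreData_of_inputs (N : ℕ) [NeZero N] (ℓ : ℕ) [Fact ℓ.Prime] (hℓN : ¬ ℓ ∣ N)
    (K : Type) [Field K] [CharP K ℓ]
    (hΦ : ∀ p : ℕ, p.Prime → p ∣ N → ∀ [NeZero p], Nonempty (ModPolyData p))
    (hW : ∀ p : ℕ, p.Prime → p ∣ N → ∀ [NeZero p], Nonempty (UnitPolyData p))
    (hθ : (thetaL ℤ (jqModC ℤ)) ^ 6 = deltaL ℤ * (jqModC ℤ) ^ 4 * (jqModC ℤ - 1728) ^ 3) :
    CoreData N K := by
  have hN : N ≠ 0 := NeZero.ne N
  have hcharK : ∀ p : ℕ, p.Prime → p ∣ N → (p : K) ≠ 0 := by
    intro p hp hpN h0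
    have hdvd : ℓ ∣ p := (CharP.cast_eq_zero_iff K ℓ p).mp h0
    have hℓ : ℓ.Prime := Fact.out
    have : ℓ = p := (Nat.prime_dvd_prime_iff_eq hℓ hp).mp hdvd
    exact hℓN (this ▸ hpN)
  have hcharQ : ∀ p : ℕ, p.Prime → p ∣ N → (p : ℚ) ≠ 0 := by
    intro p hp _
    exact_mod_cast hp.ne_zero
  have hgood : Good K N := good_of_inputs K N hN hΦ hW hθ hcharK
  refine H325.coreData_of_bounds N K (RingHom.id K) (dedekindPsi N)
    (coreData_integral N hΦ) ?_ hgood.exists_linearIndependent
  intro m x hx hli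
  have := H626.card_le_of_linearIndependent (k := ℚ) N (hasModPolys ℚ N hΦ hcharQ) x hx hli
  simpa using this

end Final

end Fermat.Agent.S28.H867

end
end
-- ===== PACK-END S28/H867/Core.lean

-- ===== PACK-BEGIN S28/H807/ModPoly.lean
section
/-
S28 / helper807 — the prime-level analytic inputs `ModPolyData p` and `UnitPolyData p`
of the captain skeleton (`Fermat/Agent/S28/Defs.lean`), from three explicit analytic
hypotheses (level-one polynomial principle, `q`-expansion of `j`, `q`-expansion of `Δ^{±1}`).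
-/




set_option autoImplicit false
set_option maxHeartbeats 400000

noncomputable section

open ModularCurve Polynomial Matrix UpperHalfPlane
open scoped MatrixGroups

namespace Fermat.Agent.S28.H807

open Fermat.Agent.S28

theorem evalAt_jqModC_eq : evalAt (jqModC ℤ) = evalJZHom := by
  apply Polynomial.ringHom_ext
  · intro a
    simp [evalAt, evalJZHom]
  · simp [evalAt, evalJZHom]

theorem evalAt_comp_qExpand (p : ℕ) [NeZero p] :
    evalAt (qExpand ℤ p (jqModC ℤ)) = (qExpand ℤ p).comp evalJZHom := by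
  apply Polynomial.ringHom_ext
  · intro a
    simp [evalAt, evalJZHom]
  · simp [evalAt, evalJZHom]

variable (p : ℕ) [NeZero p]

/-- **[A-Φ]** The modular polynomial of prime level `p`, from the analytic hypotheses. -/
theorem nonempty_modPolyData_of (hp : p.Prime) (hPP : PolyPrinciple) (J : ℍ → ℂ)
    (hJinv : ∀ (γ : SL(2, ℤ)) (τ : ℍ), J (γ • τ) = J τ)
    (hJexp : HasQExp (jqModC ℂ) J) : Nonempty (ModPolyData p) := by
  have hG : HasQExp (coeffMap (Int.castRingHom ℂ) (jqModC ℤ)) J := by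
    rw [coeffMap_jqModC]; exact hJexp
  have hE : HasQExp (coeffMap (Int.castRingHom ℂ) (qExpand ℤ p (jqModC ℤ)))
      (fun τ => J (mulNat p τ)) := by
    rw [coeffMap_qExpand, coeffMap_jqModC]; exact hJexp.mulNat p
  obtain ⟨Φ, hmonic, hdeg, hmap⟩ := exists_lift_formalPoly p hPP (jqModC ℤ)
    (qExpand ℤ p (jqModC ℤ)) J (fun τ => J (mulNat p τ)) hG hE (conjPoly_J_S p hp J hJinv)
  refine ⟨⟨Φ, hmonic, hdeg, ?_, ?_⟩⟩
  · rw [evalAt_jqModC_eq, Polynomial.eval₂_eq_eval_map, hmap]
    exact formalPoly_eval_self p _ _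
  · rw [evalAt_comp_qExpand, Polynomial.eval₂_eq_eval_map, ← Polynomial.map_map, hmap]
    exact formalPoly_map_qExpand_eval p _ _

/-- **[A-W]** `p¹² Δ(q^p)/Δ(q)` is integral over `ℤ[j]`, from the analytic hypotheses. -/
theorem nonempty_unitPolyData_of (hp : p.Prime) (hPP : PolyPrinciple) (D : ℍ → ℂ)
    (hD0 : ∀ τ, D τ ≠ 0)
    (hD : ∀ (γ : SL(2, ℤ)) (τ : ℍ), D (γ • τ) = (denom γ τ) ^ 12 * D τ)
    (hDexp : HasQExp (coeffMap (Int.castRingHom ℂ) (deltaL ℤ)) D)
    (hDinvexp : HasQExp (coeffMap (Int.castRingHom ℂ) (deltaInvL ℤ)) (fun τ => (D τ)⁻¹)) :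
    Nonempty (UnitPolyData p) := by
  have hG : HasQExp (coeffMap (Int.castRingHom ℂ) (deltaL ℤ * qExpand ℤ p (deltaInvL ℤ)))
      (unitG p D) := by
    rw [map_mul, coeffMap_qExpand]
    intro τ
    have := (hDexp.mul (hDinvexp.mulNat p)) τ
    simpa [unitG, div_eq_mul_inv] using this
  have hE : HasQExp (coeffMap (Int.castRingHom ℂ) ((p : LaurentSeries ℤ) ^ 12 * unitL ℤ p))
      (unitE p D) := by
    rw [map_mul, map_pow, map_natCast, unitL, map_mul, coeffMap_qExpand]
    have hc : HasQExp ((p : LaurentSeries ℂ) ^ 12) (fun _ => (p : ℂ) ^ 12) := by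
      have h1 : ((p : LaurentSeries ℂ) ^ 12) = HahnSeries.C ((p : ℂ) ^ 12) := by
        rw [map_pow, map_natCast]
      rw [h1]
      exact hasQExp_C _
    intro τ
    have := (hc.mul ((hDexp.mulNat p).mul hDinvexp)) τ
    simpa [unitE, div_eq_mul_inv, mul_assoc] using this
  obtain ⟨Φ, hmonic, _, hmap⟩ := exists_lift_formalPoly p hPP
    (deltaL ℤ * qExpand ℤ p (deltaInvL ℤ)) ((p : LaurentSeries ℤ) ^ 12 * unitL ℤ p)
    (unitG p D) (unitE p D) hG hE (conjPoly_unit_S p hp D hD0 hD)
  refine ⟨⟨Φ, hmonic, ?_⟩⟩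
  rw [evalAt_jqModC_eq, Polynomial.eval₂_eq_eval_map, hmap]
  exact formalPoly_eval_self p _ _

end Fermat.Agent.S28.H807

end

end
-- ===== PACK-END S28/H807/ModPoly.lean

-- ===== PACK-BEGIN S28/H807/Analytic.lean
section
/-
S28 / helper807 — UNCONDITIONAL prime-level analytic inputs `[A-Φ]`, `[A-W]` of the captain
skeleton: `Nonempty (ModPolyData p)` and `Nonempty (UnitPolyData p)` for every prime `p`.

Bridge facts used (already on main): helper565 (`q`-expansions of `j`, `Δ`, `Δ⁻¹`,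
`SL(2,ℤ)`-invariance of `j`) and helper685 (level-one polynomial principle, `S`-invariant form).
-/





set_option autoImplicit false
set_option maxHeartbeats 400000

noncomputable section

open ModularCurve Polynomial Matrix UpperHalfPlane
open scoped MatrixGroups

namespace Fermat.Agent.S28.H807

open Fermat.Agent.S28

theorem hasQExp_iff_hasTExp (c : LaurentSeries ℂ) (F : ℍ → ℂ) :
    HasQExp c F ↔ H565.HasTExp 1 F c := by
  rw [hasQExp_iff]
  rfl

theorem hasQExp_iff_hasQLaurent (c : LaurentSeries ℂ) (F : ℍ → ℂ) :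
    HasQExp c F ↔ H685.HasQLaurent 1 F c := by
  rw [hasQExp_iff]
  rfl

theorem evalJ_eq_aeval (P : Polynomial ℂ) :
    evalJ ℂ P = Polynomial.aeval (jqModC ℂ) P := by
  unfold evalJ
  rw [Polynomial.aeval_def]
  congr 1
  ext c : 1
  exact (H685.algebraMap_eq_C c).symm

/-- The polynomial principle holds (helper685). -/
theorem polyPrinciple : PolyPrinciple := by
  intro c F hF hS
  obtain ⟨P, hP, -⟩ := H685.exists_polynomial_of_S_invariant' F c
    ((hasQExp_iff_hasQLaurent c F).mp hF) hS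
  exact ⟨P, by rw [evalJ_eq_aeval]; exact hP⟩

theorem hasQExp_jFun : HasQExp (jqModC ℂ) H565.jFun :=
  (hasQExp_iff_hasTExp _ _).mpr H565.hasTExp_jFun

theorem coeffMap_deltaL : coeffMap (Int.castRingHom ℂ) (deltaL ℤ) = H565.deltaSeriesC := by
  unfold deltaL H565.deltaSeriesC
  rw [map_mul, coeffMap_single, coeffMap_ofPowerSeries, map_one]
  congr 2
  rw [← H565.map_dedekindEtaUnit]
  ext n
  simp

theorem coeffMap_deltaInvL :
    coeffMap (Int.castRingHom ℂ) (deltaInvL ℤ) = H565.deltaInvSeriesC := by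
  unfold deltaInvL H565.deltaInvSeriesC H565.etaInvC
  rw [map_mul, coeffMap_single, coeffMap_ofPowerSeries, map_one]
  congr 2

theorem discriminant_smul_denom (γ : SL(2, ℤ)) (τ : ℍ) :
    ModularForm.discriminant (γ • τ) = (denom γ τ) ^ 12 * ModularForm.discriminant τ := by
  rw [H565.discriminant_smul, ModularGroup.denom_apply]
  norm_cast

variable (p : ℕ) [NeZero p]

/-- **[A-Φ]** (captain stub `nonempty_modPolyData`): the modular polynomial of prime level. -/
theorem nonempty_modPolyData (hp : p.Prime) : Nonempty (ModPolyData p) :=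
  nonempty_modPolyData_of p hp polyPrinciple H565.jFun H565.jFun_smul hasQExp_jFun

/-- **[A-W]** (captain stub `nonempty_unitPolyData`): `p¹² Δ(q^p)/Δ(q)` is integral over
`ℤ[j]`. -/
theorem nonempty_unitPolyData (hp : p.Prime) : Nonempty (UnitPolyData p) :=
  nonempty_unitPolyData_of p hp polyPrinciple ModularForm.discriminant
    ModularForm.discriminant_ne_zero discriminant_smul_denom
    (by rw [coeffMap_deltaL]; exact (hasQExp_iff_hasTExp _ _).mpr H565.hasTExp_discriminant)
    (by rw [coeffMap_deltaInvL]; exact (hasQExp_iff_hasTExp _ _).mpr H565.hasTExp_discriminant_inv)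

end Fermat.Agent.S28.H807

end

end
-- ===== PACK-END S28/H807/Analytic.lean

-- ===== PACK-BEGIN S18/H516/CoreRes.lean
section







/-!
# S18 / MOD (helper516): the S28 core data for the residue field of a place over `ℓ`

`coreData_residue` : for `A ⊆ L` a valuation subring with `(ℓ : L) ∈ 𝔪_A` (`A.LiesOverPrime ℓ`),
`ℓ ∤ N`: `CoreData N (IsLocalRing.ResidueField A)` (S28 H867 + H326 + H25, all on main).
`coreData_of_charP` : the same for any field `k : Type` of characteristic `ℓ`.
-/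

set_option autoImplicit false

noncomputable section

namespace Fermat.Agent.S18.H516

open ModularCurve Fermat.Agent.S28

/-- S28 core data for every field of characteristic `ℓ ∤ N`. -/
theorem coreData_of_charP (N : ℕ) [NeZero N] (ℓ : ℕ) [Fact ℓ.Prime] (hℓN : ¬ ℓ ∣ N)
    (k : Type) [Field k] [CharP k ℓ] : CoreData N k :=
  H867.coreData_of_inputs N ℓ hℓN k
    (fun p hp _ _ => H326.nonempty_modPolyData p hp)
    (fun p hp _ _ => H326.nonempty_unitPolyData p hp)
    H25.theta_identity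

theorem charP_residue {L : Type*} [Field L] (A : ValuationSubring L) {ℓ : ℕ} [Fact ℓ.Prime]
    (hA : A.LiesOverPrime ℓ) : CharP (IsLocalRing.ResidueField A) ℓ := by
  have hℓ : ℓ.Prime := Fact.out
  have h0 : ((ℓ : ℕ) : IsLocalRing.ResidueField A) = 0 := by
    have h1 : IsLocalRing.residue A ((ℓ : ℕ) : ↥A) = 0 := by
      rw [IsLocalRing.residue_eq_zero_iff, IsLocalRing.mem_maximalIdeal, mem_nonunits_iff]
      intro hu
      have h2 : (ℓ : L) ∈ A.nonunits := hA
      rw [ValuationSubring.mem_nonunits_iff] at h2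
      have h3 : A.valuation (ℓ : L) = 1 := by
        have := (A.valuation_eq_one_iff ((ℓ : ℕ) : ↥A)).mp hu
        simpa using this
      exact absurd h3 h2.ne
    simpa using h1
  exact (CharP.charP_iff_prime_eq_zero hℓ).mpr h0

/-- **S28 core data for the residue field of a place over `ℓ ∤ N`.** -/
theorem coreData_residue (N : ℕ) [NeZero N] {ℓ : ℕ} [Fact ℓ.Prime] (hℓN : ¬ ℓ ∣ N)
    (A : ValuationSubring (AlgebraicClosure ℚ)) (hA : A.LiesOverPrime ℓ) :
    CoreData N (IsLocalRing.ResidueField A) := by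
  have := charP_residue A hA
  exact coreData_of_charP N ℓ hℓN _

end Fermat.Agent.S18.H516

end
end
-- ===== PACK-END S18/H516/CoreRes.lean

-- ===== PACK-BEGIN S18/H694/CoreMul.lean
section






/-!
# S18 / helper694 — the hub `CoreStatement N A m` is multiplicative in `m`

The S18 interfaces (v4) prove `CoreStatement N A p` only for PRIME `p ≠ ℓ`.  Row S29 (ES-KUM,
`S29/H222/ESKFamily.lean`, `CoreFamily`) consumes `CoreStatement N A (p ^ n)`.  This file is the
bridge:

* `laurent_const_of_pow_eq_C` : in `k((q))`, `z ^ a = C γ`, `γ ≠ 0`, `(a : k) ≠ 0` ⟹ `z = C δ`.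
* `gauss_unit`      : `incl W₁ = C γ * incl W₂` with `W̄₁ ≠ 0 ≠ W̄₂` ⟹ `γ` is a unit of `A`.
* `core_mul`        : `CoreStatement N A a → CoreStatement N A b → CoreStatement N A (a * b)`
                      (given `CoreData N k` for the residue field `k` and `(a : k) ≠ 0`).
* `coreStatement_one`, `coreStatement_of_prime`, `coreFamily_of_prime` (exact body of
  `S29.H222.CoreFamily`).
-/

set_option autoImplicit false

noncomputable section

namespace Fermat.Agent.S18.H694

open ModularCurve AlgebraicCurve HahnSeries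

/-! ## 1. Constants of `k((q))` -/

section Const

variable {k : Type*} [Field k]

/-- In a power series ring over a field: `p ^ a = C γ` with `(a : k) ≠ 0`, `γ ≠ 0` forces `p`
to be constant. -/
theorem powerSeries_const_of_pow_eq_C {a : ℕ} (ha : (a : k) ≠ 0) {p : PowerSeries k} {γ : k}
    (hγ : γ ≠ 0) (h : p ^ a = PowerSeries.C γ) :
    p = PowerSeries.C (PowerSeries.constantCoeff p) := by
  set p₀ : k := PowerSeries.constantCoeff p with hp₀
  have h0 : p₀ ^ a = γ := by
    have := congrArg PowerSeries.constantCoeff h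
    rwa [map_pow, PowerSeries.constantCoeff_C] at this
  have hp₀ne : p₀ ≠ 0 := by
    intro h'
    rw [h'] at h0
    have ha0 : a ≠ 0 := by
      rintro rfl
      exact ha (by simp)
    rw [zero_pow ha0] at h0
    exact hγ h0.symm
  have hgeom := geom_sum₂_mul p (PowerSeries.C p₀) a
  have hrhs : p ^ a - (PowerSeries.C p₀) ^ a = 0 := by
    rw [h, ← map_pow, h0, sub_self]
  rw [hrhs] at hgeom
  have hsum : (∑ i ∈ Finset.range a, p ^ i * (PowerSeries.C p₀) ^ (a - 1 - i)) ≠ 0 := by
    intro hs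
    have := congrArg PowerSeries.constantCoeff hs
    rw [map_sum, map_zero] at this
    have h2 : ∀ i ∈ Finset.range a,
        PowerSeries.constantCoeff (p ^ i * (PowerSeries.C p₀) ^ (a - 1 - i)) = p₀ ^ (a - 1) := by
      intro i hi
      rw [map_mul, map_pow, map_pow, PowerSeries.constantCoeff_C, ← hp₀, ← _root_.pow_add]
      congr 1
      have := Finset.mem_range.mp hi
      omega
    rw [Finset.sum_congr rfl h2, Finset.sum_const, Finset.card_range, nsmul_eq_mul] at this
    rcases mul_eq_zero.mp this with h3 | h3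
    · exact ha h3
    · exact hp₀ne (pow_eq_zero_iff (n := a - 1) (by
        intro h4
        rw [h4, pow_zero] at h3
        exact one_ne_zero h3) |>.mp h3)
  rcases mul_eq_zero.mp hgeom with h1 | h1
  · exact absurd h1 hsum
  · exact sub_eq_zero.mp h1

/-- In `k((q))`: `z ^ a = C γ` with `(a : k) ≠ 0`, `γ ≠ 0` forces `z` to be a nonzero constant. -/
theorem laurent_const_of_pow_eq_C {a : ℕ} (ha : (a : k) ≠ 0) {z : LaurentSeries k} {γ : k}
    (hγ : γ ≠ 0) (h : z ^ a = HahnSeries.C γ) :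
    ∃ δ : k, δ ≠ 0 ∧ z = HahnSeries.C δ := by
  have ha0 : a ≠ 0 := by
    rintro rfl
    exact ha (by simp)
  have hz : z ≠ 0 := by
    rintro rfl
    rw [zero_pow ha0] at h
    exact hγ (HahnSeries.C_injective (by rw [← h, map_zero]))
  have hord : z.order = 0 := by
    have h1 := congrArg HahnSeries.order h
    rw [HahnSeries.order_pow, HahnSeries.order_C, nsmul_eq_mul] at h1
    rcases mul_eq_zero.mp h1 with h2 | h2
    · exact absurd (by exact_mod_cast h2) ha0
    · exact h2
  have hp : HahnSeries.ofPowerSeries ℤ k z.powerSeriesPart = z := by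
    rw [LaurentSeries.ofPowerSeries_powerSeriesPart, hord, neg_zero]
    show (1 : LaurentSeries k) * z = z
    rw [one_mul]
  have hpa : z.powerSeriesPart ^ a = PowerSeries.C γ := by
    apply HahnSeries.ofPowerSeries_injective (Γ := ℤ)
    rw [map_pow, hp, h, HahnSeries.ofPowerSeries_C]
  have hconst := powerSeries_const_of_pow_eq_C ha hγ hpa
  refine ⟨PowerSeries.constantCoeff z.powerSeriesPart, ?_, ?_⟩
  · intro h0
    rw [h0, map_zero] at hconst
    rw [hconst, map_zero] at hp
    exact hz hp.symm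
  · rw [← HahnSeries.ofPowerSeries_C, ← hconst, hp]

end Const

/-! ## 2. The Gauss unit lemma -/

section Gauss

variable {L : Type*} [Field L] (A : ValuationSubring L)

/-- If two series over `A` with nonzero reductions differ by a constant `γ` of `L`, then `γ` is
(the image of) a unit of `A`. -/
theorem gauss_unit {W₁ W₂ : LaurentSeries A} {γ : L}
    (h1 : coeffMap (IsLocalRing.residue A) W₁ ≠ 0)
    (h2 : coeffMap (IsLocalRing.residue A) W₂ ≠ 0)
    (h : coeffMap A.subtype W₁ = HahnSeries.C γ * coeffMap A.subtype W₂) :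
    ∃ g : A, (g : L) = γ ∧ IsLocalRing.residue A g ≠ 0 ∧ W₁ = HahnSeries.C g * W₂ := by
  have key : ∀ hγ : γ ∈ A, ∃ g : A, (g : L) = γ ∧ IsLocalRing.residue A g ≠ 0 ∧
      W₁ = HahnSeries.C g * W₂ := by
    intro hγ
    have hW : W₁ = HahnSeries.C (⟨γ, hγ⟩ : A) * W₂ := by
      apply H516.incl_injective A
      rw [map_mul, H516.coeffMap_C, h]
      rfl
    refine ⟨⟨γ, hγ⟩, rfl, ?_, hW⟩
    intro h0
    apply h1
    rw [hW, map_mul, H516.coeffMap_C, h0, map_zero, zero_mul]
  rcases A.mem_or_inv_mem γ with hγ | hγ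
  · exact key hγ
  · have hγ0 : γ ≠ 0 := by
      rintro rfl
      apply h1
      have : W₁ = 0 := by
        apply H516.incl_injective A
        rw [h, map_zero, zero_mul, map_zero]
      rw [this, map_zero]
    have hW : HahnSeries.C (⟨γ⁻¹, hγ⟩ : A) * W₁ = W₂ := by
      apply H516.incl_injective A
      rw [map_mul, H516.coeffMap_C, h]
      show HahnSeries.C γ⁻¹ * (HahnSeries.C γ * _) = _
      rw [← mul_assoc, ← map_mul, inv_mul_cancel₀ hγ0, map_one, one_mul]
    have hres : IsLocalRing.residue A (⟨γ⁻¹, hγ⟩ : A) ≠ 0 := by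
      intro h0
      apply h2
      rw [← hW, map_mul, H516.coeffMap_C, h0, map_zero, zero_mul]
    have hu : IsUnit (⟨γ⁻¹, hγ⟩ : A) := by
      by_contra hnu
      exact hres ((IsLocalRing.residue_eq_zero_iff _).mpr
        ((IsLocalRing.mem_maximalIdeal _).mpr (mem_nonunits_iff.mpr hnu)))
    obtain ⟨u, hu⟩ := hu
    have hmem : γ ∈ A := by
      have h3 : ((u⁻¹ : Aˣ) : A) * (⟨γ⁻¹, hγ⟩ : A) = 1 := by
        rw [← hu]
        exact u.inv_mul
      have h4 : (((u⁻¹ : Aˣ) : A) : L) * γ⁻¹ = 1 := by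
        have := congrArg (Subtype.val) h3
        simpa using this
      have h5 : (((u⁻¹ : Aˣ) : A) : L) = γ := by
        field_simp at h4
        exact h4
      rw [← h5]
      exact ((u⁻¹ : Aˣ) : A).2
    exact key hmem

end Gauss

/-! ## 3. Multiplicativity of the hub -/

section Core

variable (N : ℕ) [NeZero N] (A : ValuationSubring Qb)

omit [NeZero N] in
theorem coe_algebraMap_bar (c : Qb) :
    ((algebraMap Qb (modularFunctionFieldBar N) c : modularFunctionFieldBar N) :
      LaurentSeries Qb) = HahnSeries.C c := by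
  show algebraMap Qb (LaurentSeries Qb) c = HahnSeries.C c
  rw [algebraMap_laurentSeries_eq_single, ← HahnSeries.C_apply]

variable {N A}

omit [NeZero N] in
theorem toF_ne_zero {U : LaurentSeries A} (h : IsInt A N U) : toF h ≠ 0 := by
  intro h0
  have h1 : coeffMap A.subtype U = 0 := congrArg Subtype.val h0
  have h2 : U = 0 := H516.incl_injective A (by rw [h1, map_zero])
  exact h.2.2 (by rw [h2, map_zero])

theorem isInt_C_mul {U : LaurentSeries A} (h : IsInt A N U) {g : A}
    (hg : IsLocalRing.residue A g ≠ 0) : IsInt A N (HahnSeries.C g * U) := by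
  refine ⟨?_, ?_, ?_⟩
  · rw [map_mul, H516.coeffMap_C]
    exact mul_mem (H516.C_mem_baseChange N _) h.1
  · rw [map_mul, H516.coeffMap_C]
    exact mul_mem (H516.C_mem_fullC N _ _) h.2.1
  · rw [map_mul, H516.coeffMap_C]
    refine mul_ne_zero ?_ h.2.2
    intro h0
    exact hg (HahnSeries.C_injective (by rw [h0, map_zero]))

omit [NeZero N] in
theorem toF_C_mul {U : LaurentSeries A} (h : IsInt A N U) {g : A}
    (hg : IsInt A N (HahnSeries.C g * U)) :
    toF hg = algebraMap Qb (modularFunctionFieldBar N) (g : Qb) * toF h := by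
  apply Subtype.ext
  show coeffMap A.subtype (HahnSeries.C g * U) = _
  rw [map_mul, H516.coeffMap_C]
  show _ = ((algebraMap Qb (modularFunctionFieldBar N) (g : Qb) : modularFunctionFieldBar N) :
      LaurentSeries Qb) * coeffMap A.subtype U
  rw [coe_algebraMap_bar]
  rfl

/-- **Multiplicativity of the hub.**  `CORE(a)` and `CORE(b)` imply `CORE(a * b)`, provided `a` is
invertible in the residue field of `A` (and the S28 core data for the residue field). -/
theorem core_mul (core : Fermat.Agent.S28.CoreData N (IsLocalRing.ResidueField A)) {a b : ℕ}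
    (ha : ((a : ℕ) : IsLocalRing.ResidueField A) ≠ 0)
    (hCa : CoreStatement N A a) (hCb : CoreStatement N A b) : CoreStatement N A (a * b) := by
  intro U₁ U₂ h₁ h₂ hred hdiv
  have ha0 : a ≠ 0 := by
    rintro rfl
    exact ha (by simp)
  have hdiv_a : ∀ v : Place Qb (modularFunctionFieldBar N),
      (a : ℤ) ∣ v.ord (toF h₁) - v.ord (toF h₂) := by
    intro v
    refine dvd_trans ?_ (hdiv v)
    push_cast
    exact dvd_mul_right _ _
  obtain ⟨c, y, hc, hy, hcy⟩ := hCa U₁ U₂ h₁ h₂ hred hdiv_a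
  have h₂ne := toF_ne_zero h₂
  have hcne : ∀ {c : Qb}, c ≠ 0 → algebraMap Qb (modularFunctionFieldBar N) c ≠ 0 := by
    intro c hc
    exact (map_ne_zero _).mpr hc
  have hord : ∀ v : Place Qb (modularFunctionFieldBar N),
      v.ord (toF h₁) - v.ord (toF h₂) = a * v.ord y := by
    intro v
    rw [hcy, v.ord_mul (mul_ne_zero (hcne hc) (pow_ne_zero _ hy)) h₂ne,
      v.ord_mul (hcne hc) (pow_ne_zero _ hy), Lib.RR.ord_algebraMap, Lib.RR.ord_pow]
    ring
  have hb : ∀ v : Place Qb (modularFunctionFieldBar N), (b : ℤ) ∣ v.ord y := by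
    intro v
    have := hdiv v
    rw [hord v] at this
    push_cast at this
    exact (mul_dvd_mul_iff_left (by exact_mod_cast ha0)).mp this
  -- Gauss decomposition of `y`
  have hyL : (y : LaurentSeries Qb) ≠ 0 := fun h => hy (Subtype.ext h)
  obtain ⟨c', Y₁, Y₂, hc', hY₁, hY₂, hdec⟩ :=
    H516.exists_gauss_decomp A (IsLocalRing.residue A) N core y.2 hyL
  have hY₁' : IsInt A N Y₁ := hY₁
  have hY₂' : IsInt A N Y₂ := hY₂
  -- the identity of series
  have hcyL : coeffMap A.subtype U₁ =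
      HahnSeries.C c * (y : LaurentSeries Qb) ^ a * coeffMap A.subtype U₂ := by
    have h := congrArg (Subtype.val) hcy
    rw [← coe_algebraMap_bar N c]
    exact h
  have hW : coeffMap A.subtype (U₁ * Y₂ ^ a) =
      HahnSeries.C (c * c' ^ a) * coeffMap A.subtype (Y₁ ^ a * U₂) := by
    rw [map_mul, map_pow, map_mul, map_pow, hcyL, map_mul, map_pow]
    calc HahnSeries.C c * (y : LaurentSeries Qb) ^ a * coeffMap A.subtype U₂ *
          coeffMap A.subtype Y₂ ^ a
        = HahnSeries.C c * ((y : LaurentSeries Qb) * coeffMap A.subtype Y₂) ^ a *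
          coeffMap A.subtype U₂ := by ring
      _ = HahnSeries.C c * (HahnSeries.C c' * coeffMap A.subtype Y₁) ^ a *
          coeffMap A.subtype U₂ := by rw [hdec]
      _ = _ := by ring
  have hW₁ : coeffMap (IsLocalRing.residue A) (U₁ * Y₂ ^ a) ≠ 0 := by
    rw [map_mul, map_pow]
    exact mul_ne_zero h₁.2.2 (pow_ne_zero _ hY₂'.2.2)
  have hW₂ : coeffMap (IsLocalRing.residue A) (Y₁ ^ a * U₂) ≠ 0 := by
    rw [map_mul, map_pow]
    exact mul_ne_zero (pow_ne_zero _ hY₁'.2.2) h₂.2.2
  obtain ⟨g, -, hgres, hWA⟩ := gauss_unit A hW₁ hW₂ hW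
  -- reduce mod the maximal ideal
  have hWk := congrArg (coeffMap (IsLocalRing.residue A)) hWA
  rw [map_mul, map_pow, map_mul, map_mul, map_pow, H516.coeffMap_C, ← hred] at hWk
  have hY₁ne := hY₁'.2.2
  have hz : (coeffMap (IsLocalRing.residue A) Y₂ * (coeffMap (IsLocalRing.residue A) Y₁)⁻¹) ^ a =
      HahnSeries.C (IsLocalRing.residue A g) := by
    have h3 : coeffMap (IsLocalRing.residue A) Y₂ ^ a =
        HahnSeries.C (IsLocalRing.residue A g) * coeffMap (IsLocalRing.residue A) Y₁ ^ a := by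
      apply mul_left_cancel₀ h₁.2.2
      rw [hWk]
      ring
    rw [mul_pow, h3, inv_pow, mul_assoc, mul_inv_cancel₀ (pow_ne_zero _ hY₁ne), mul_one]
  obtain ⟨δ', hδ', hzδ⟩ := laurent_const_of_pow_eq_C ha hgres hz
  obtain ⟨δ, rfl⟩ := IsLocalRing.residue_surjective δ'
  have hY₁'' : IsInt A N (HahnSeries.C δ * Y₁) := isInt_C_mul hY₁' hδ'
  have hredY : coeffMap (IsLocalRing.residue A) (HahnSeries.C δ * Y₁) =
      coeffMap (IsLocalRing.residue A) Y₂ := by
    rw [map_mul, H516.coeffMap_C, ← hzδ, mul_assoc, inv_mul_cancel₀ hY₁ne, mul_one]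
  have hδne : (δ : Qb) ≠ 0 := by
    intro h0
    apply hδ'
    have : δ = 0 := Subtype.ext h0
    rw [this, map_zero]
  have hF1 := toF_C_mul hY₁' hY₁''
  have hF2 : y * toF hY₂' = algebraMap Qb (modularFunctionFieldBar N) c' * toF hY₁' := by
    apply Subtype.ext
    show (y : LaurentSeries Qb) * coeffMap A.subtype Y₂ =
      ((algebraMap Qb (modularFunctionFieldBar N) c' : modularFunctionFieldBar N) :
        LaurentSeries Qb) * coeffMap A.subtype Y₁
    rw [coe_algebraMap_bar, hdec]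
  have hY₁F := toF_ne_zero hY₁'
  have hY₂F := toF_ne_zero hY₂'
  have hdivb : ∀ v : Place Qb (modularFunctionFieldBar N),
      (b : ℤ) ∣ v.ord (toF hY₁'') - v.ord (toF hY₂') := by
    intro v
    have e1 : v.ord (toF hY₁'') = v.ord (toF hY₁') := by
      rw [hF1, v.ord_mul (hcne hδne) hY₁F, Lib.RR.ord_algebraMap, zero_add]
    have e2 : v.ord y + v.ord (toF hY₂') = v.ord (toF hY₁') := by
      have := congrArg v.ord hF2
      rw [v.ord_mul hy hY₂F, v.ord_mul (hcne hc') hY₁F, Lib.RR.ord_algebraMap, zero_add] at this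
      exact this
    have e3 : v.ord (toF hY₁'') - v.ord (toF hY₂') = v.ord y := by
      rw [e1, ← e2]
      ring
    rw [e3]
    exact hb v
  obtain ⟨c'', t, hc'', ht, hct⟩ := hCb (HahnSeries.C δ * Y₁) Y₂ hY₁'' hY₂' hredY hdivb
  have hyt : y = algebraMap Qb (modularFunctionFieldBar N) (c' * (δ : Qb)⁻¹ * c'') * t ^ b := by
    apply mul_right_cancel₀ hY₂F
    rw [hF2]
    have h4 : toF hY₁' = algebraMap Qb (modularFunctionFieldBar N) (δ : Qb)⁻¹ * toF hY₁'' := by
      rw [hF1, ← mul_assoc, ← map_mul, inv_mul_cancel₀ hδne, map_one, one_mul]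
    rw [h4, hct]
    simp only [map_mul]
    ring
  refine ⟨c * (c' * (δ : Qb)⁻¹ * c'') ^ a, t, ?_, ht, ?_⟩
  · exact mul_ne_zero hc
      (pow_ne_zero _ (mul_ne_zero (mul_ne_zero hc' (inv_ne_zero hδne)) hc''))
  · rw [hcy, hyt]
    simp only [map_mul, map_pow]
    rw [mul_comm a b, pow_mul]
    ring

omit [NeZero N] in
/-- `CORE(1)` is trivial. -/
theorem coreStatement_one : CoreStatement N A 1 := by
  intro U₁ U₂ h₁ h₂ _ _
  have h₁ne := toF_ne_zero h₁
  have h₂ne := toF_ne_zero h₂
  refine ⟨1, toF h₁ * (toF h₂)⁻¹, one_ne_zero, mul_ne_zero h₁ne (inv_ne_zero h₂ne), ?_⟩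
  rw [map_one, one_mul, pow_one, mul_assoc, inv_mul_cancel₀ h₂ne, mul_one]

/-- **From prime `m` to all `m`.**  If the hub holds for all primes `p ≠ ℓ`, it holds for all `m`
prime to `ℓ` (`A` over `ℓ ∤ N`). -/
theorem coreStatement_of_prime {ℓ : ℕ} [Fact ℓ.Prime] (hℓN : ¬ ℓ ∣ N)
    (hA : A.LiesOverPrime ℓ)
    (h : ∀ p : ℕ, p.Prime → ¬ ℓ ∣ p → CoreStatement N A p) :
    ∀ m : ℕ, ¬ ℓ ∣ m → CoreStatement N A m := by
  have core := H516.coreData_residue N hℓN A hA
  have := H516.charP_residue A hA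
  intro m
  induction m using Nat.recOnMul with
  | zero => intro h0; exact absurd (dvd_zero ℓ) h0
  | one => intro _; exact coreStatement_one
  | prime p hp => intro hp'; exact h p hp hp'
  | mul a b iha ihb =>
    intro hab
    have ha' : ¬ ℓ ∣ a := fun h' => hab (Dvd.dvd.mul_right h' b)
    have hb' : ¬ ℓ ∣ b := fun h' => hab (Dvd.dvd.mul_left h' a)
    refine core_mul core ?_ (iha ha') (ihb hb')
    rw [Ne, CharP.cast_eq_zero_iff (IsLocalRing.ResidueField A) ℓ]
    exact ha'

end Core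

/-- The bridge S18 → S29 in the exact shape of `Fermat.Agent.S29.H222.CoreFamily`: the hub for
all primes `p ≠ ℓ` gives the hub for all `m` prime to `ℓ`. -/
theorem coreFamily_of_prime
    (h : ∀ (N : ℕ) [NeZero N] (ℓ : ℕ), ℓ.Prime → ¬ ℓ ∣ N → ∀ p : ℕ, p.Prime → ¬ ℓ ∣ p →
      ∀ A : ValuationSubring Qb, A.LiesOverPrime ℓ → CoreStatement N A p) :
    ∀ (N : ℕ) [NeZero N] (ℓ : ℕ), ℓ.Prime → ¬ ℓ ∣ N → ∀ m : ℕ, ¬ ℓ ∣ m →
      ∀ A : ValuationSubring Qb, A.LiesOverPrime ℓ → CoreStatement N A m := by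
  intro N _ ℓ hℓ hℓN m hm A hA
  have : Fact ℓ.Prime := ⟨hℓ⟩
  exact coreStatement_of_prime hℓN hA (fun p hp hp' => h N ℓ hℓ hℓN p hp hp' A hA) m hm

end Fermat.Agent.S18.H694

end
end
-- ===== PACK-END S18/H694/CoreMul.lean

-- ===== PACK-BEGIN S28/H988/Degree.lean
section
/-
S28 degree API (helper988), UNCONDITIONAL, for consumers in rows S18 / S37 / A2.
`E_N(k) := modularFunctionFieldFullC k N = k(j(q^d) : d ∣ N) ⊂ k((q))`.

* `relfinrank_jField_full_eq`  : `[E_N(k) : k(j)] = ψ(N)`            (all primes `p ∣ N` invertible in `k`)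
* `relfinrank_full_mul_prime`  : `[E_{Np}(k) : E_N(k)] = p + 1` (`p ∤ N`), `= p` (`p ∣ N`)
* `modularFunctionFieldBar_eq_fullC` : the Prelude's `ℚ̄`-function field of `X₀(N)` is `E_N(ℚ̄)`
* `relfinrank_bar_mul_prime`, `relfinrank_jField_bar_eq` : the same for `modularFunctionFieldBar`.
-/







set_option autoImplicit false

noncomputable section

open ModularCurve IntermediateField

namespace Fermat.Agent.S28.H988

section AnyField

variable (k : Type*) [Field k]

/-- All hypotheses of helper867's degree theory hold as soon as the primes dividing `N` are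
invertible in `k`. -/
theorem good_of_char (N : ℕ) (hN : N ≠ 0) (hchar : ∀ p : ℕ, p.Prime → p ∣ N → (p : k) ≠ 0) :
    H867.Good k N :=
  H867.good_of_inputs k N hN (fun p hp _ _ => H807.nonempty_modPolyData p hp)
    (fun p hp _ _ => H807.nonempty_unitPolyData p hp) H25.theta_identity hchar

/-- **Degree formula.** `[k(j(q^d) : d ∣ N) : k(j)] = ψ(N)`. -/
theorem relfinrank_jField_full_eq (N : ℕ) (hN : N ≠ 0)
    (hchar : ∀ p : ℕ, p.Prime → p ∣ N → (p : k) ≠ 0) :
    (jField k).relfinrank (modularFunctionFieldFullC k N) = dedekindPsi N := by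
  have h := (good_of_char k N hN hchar).degE_eq
  rw [H867.gFun_eq_dedekindPsi hN] at h
  exact h

theorem dedekindPsi_pos (N : ℕ) (hN : N ≠ 0) : 0 < dedekindPsi N := by
  rw [← H867.gFun_eq_dedekindPsi hN]
  exact H867.gFun_pos N

/-- **Degree of the tower step.** `[E_{Np} : E_N] = p + 1` if `p ∤ N`, `= p` if `p ∣ N`. -/
theorem relfinrank_full_mul_prime (N p : ℕ) (hN : N ≠ 0) (hp : p.Prime)
    (hchar : ∀ r : ℕ, r.Prime → r ∣ N * p → (r : k) ≠ 0) :
    (modularFunctionFieldFullC k N).relfinrank (modularFunctionFieldFullC k (N * p)) =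
      if p ∣ N then p else p + 1 := by
  have hNp : N * p ≠ 0 := Nat.mul_ne_zero hN hp.ne_zero
  have hdvd : N ∣ N * p := Dvd.intro p rfl
  have hG := good_of_char k (N * p) hNp hchar
  have htower := hG.tower hdvd
  have h1 : H867.degE k N = dedekindPsi N :=
    relfinrank_jField_full_eq k N hN (fun r hr hrN => hchar r hr (hrN.trans hdvd))
  have h2 : H867.degE k (N * p) = dedekindPsi (N * p) :=
    relfinrank_jField_full_eq k (N * p) hNp hchar
  rw [h1, h2] at htower
  have hpos := dedekindPsi_pos N hN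
  by_cases hpN : p ∣ N
  · rw [if_pos hpN]
    rw [H626.psi_mul_prime_of_dvd hN hp hpN, mul_comm p] at htower
    exact Nat.eq_of_mul_eq_mul_left hpos htower
  · rw [if_neg hpN]
    rw [H626.psi_mul_prime_of_not_dvd hN hp hpN, mul_comm (p + 1)] at htower
    exact Nat.eq_of_mul_eq_mul_left hpos htower

end AnyField

section Bar

variable (L : Type*) [Field L] [Algebra ℚ L]

theorem image_divisorExpansions_eq (N : ℕ) :
    ⇑(coeffEmb L) '' divisorExpansions N = divisorExpansionsC L N := by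
  ext x
  constructor
  · rintro ⟨y, ⟨d, hne, hd, rfl⟩, rfl⟩
    refine ⟨d, hne, hd, ?_⟩
    rw [coeffEmb, ← jqModC_rat, coeffMap_qExpand, coeffMap_jqModC]
  · rintro ⟨d, hne, hd, rfl⟩
    refine ⟨qExpand ℚ d jq, ⟨d, hne, hd, rfl⟩, ?_⟩
    rw [coeffEmb, ← jqModC_rat, coeffMap_qExpand, coeffMap_jqModC]

/-- The base change of the Prelude's `ℚ`-function field is `L(j(q^d) : d ∣ N)`. -/
theorem laurentBaseChange_full_eq_fullC (N : ℕ) :
    laurentBaseChange L (modularFunctionFieldFull N) = modularFunctionFieldFullC L N := by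
  rw [modularFunctionFieldFull, Fermat.Agent.S24.H368.laurentBaseChange_adjoin,
    image_divisorExpansions_eq]
  rfl

end Bar

/-- The Prelude's function field of `X₀(N)` over `ℚ̄` is `ℚ̄(j(q^d) : d ∣ N)`. -/
theorem modularFunctionFieldBar_eq_fullC (N : ℕ) :
    modularFunctionFieldBar N = modularFunctionFieldFullC (AlgebraicClosure ℚ) N :=
  laurentBaseChange_full_eq_fullC _ N

theorem natCast_ne_zero_bar {p : ℕ} (hp : p ≠ 0) : ((p : ℕ) : AlgebraicClosure ℚ) ≠ 0 :=
  Nat.cast_ne_zero.mpr hp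

/-- `[ℚ̄(X₀(N)) : ℚ̄(j)] = ψ(N)`. -/
theorem relfinrank_jField_bar_eq (N : ℕ) (hN : N ≠ 0) :
    (jField (AlgebraicClosure ℚ)).relfinrank (modularFunctionFieldBar N) = dedekindPsi N := by
  rw [modularFunctionFieldBar_eq_fullC]
  exact relfinrank_jField_full_eq _ N hN (fun p hp _ => natCast_ne_zero_bar hp.ne_zero)

/-- `[ℚ̄(X₀(Np)) : ℚ̄(X₀(N))] = p + 1` if `p ∤ N`, `= p` if `p ∣ N`. -/
theorem relfinrank_bar_mul_prime (N p : ℕ) (hN : N ≠ 0) (hp : p.Prime) :
    (modularFunctionFieldBar N).relfinrank (modularFunctionFieldBar (N * p)) =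
      if p ∣ N then p else p + 1 := by
  rw [modularFunctionFieldBar_eq_fullC, modularFunctionFieldBar_eq_fullC]
  exact relfinrank_full_mul_prime _ N p hN hp (fun r hr _ => natCast_ne_zero_bar hr.ne_zero)

end Fermat.Agent.S28.H988

end

end
-- ===== PACK-END S28/H988/Degree.lean

-- ===== PACK-BEGIN S18/Mod/H216/DenJ.lean
section


/-!
# S18 / MOD (helper216): `V_total`, denominators and integrality for the coordinate `j`

From the S28 basis (`SpansQ M y`, independence of the reductions over `κ(j̄)`, integrality of the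
`j(q^d)` over `ℤ[j]`):

* `V_total_j`     : `Vc M A E` is a valuation ring of `Fc M E`;
* `injective_evR_j` : `j` is transcendental over `Rc M A E`;
* `isIntegral_toOm_yInt` : the monomials are integral over `Rc[j]`;
* `denAt_j`       : the denominator statement `DenAt` on the chart `Rc[j]`.
-/

set_option autoImplicit false
set_option linter.unusedSectionVars false

noncomputable section

namespace Fermat.Agent.S18.Mod.H216

open ModularCurve AlgebraicCurve HahnSeries Polynomial Fermat.Agent.S18 Fermat.Agent.S18.Mod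
open Fermat.Agent.S28 Fermat.Agent.S18.Alg

variable {M : ℕ} [NeZero M] (A : ValuationSubring Qb) (E : IntermediateField ℚ Qb)
variable {n : ℕ} {y : Fin n → LaurentSeries ℤ}

theorem redE_sum_ne_zero (hS : H516.SpansQ M y)
    (hli : LinearIndependent (jField (IsLocalRing.ResidueField ↥A))
      (fun i => coeffMap (Int.castRingHom (IsLocalRing.ResidueField ↥A)) (y i)))
    {q : (↥(S0 A E))[X]} {p : Fin n → (↥(S0 A E))[X]}
    (hprim : q.map (resS A E) ≠ 0 ∨ ∃ i, (p i).map (resS A E) ≠ 0)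
    (hq : q.map (resS A E) = 0) :
    redE M A E (∑ i, Uev M A E (p i) * yInt A E hS i) ≠ 0 := by
  intro h
  have h1 := redE_sum_eq_zero A E hS hli p h
  rcases hprim with h2 | ⟨i, hi⟩
  · exact h2 hq
  · exact hi (h1 i)

/-- **`V_total`** for `x = j`. -/
theorem V_total_j (hS : H516.SpansQ M y)
    (hli : LinearIndependent (jField (IsLocalRing.ResidueField ↥A))
      (fun i => coeffMap (Int.castRingHom (IsLocalRing.ResidueField ↥A)) (y i))) :
    ∀ f ∈ Fc M E, f ∈ Vc M A E ∨ f⁻¹ ∈ Vc M A E := by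
  intro f hf
  obtain ⟨q, p, hprim, hrel⟩ := exists_scaled_relation A E hS hf
  by_cases hq : q.map (resS A E) = 0
  · right
    have hN := redE_sum_ne_zero A E hS hli hprim hq
    have hf0 : f ≠ 0 := by
      intro h0
      rw [h0, mul_zero] at hrel
      exact toOm_ne_zero_of_redE M A E hN hrel.symm
    refine (mem_Vc_iff' M A E).mpr
      ⟨Uev M A E q, ∑ i, Uev M A E (p i) * yInt A E hS i, hN, ?_⟩
    rw [← hrel, mul_comm (toOm M A E (Uev M A E q)), ← mul_assoc, inv_mul_cancel₀ hf0, one_mul]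
  · left
    have hD : redE M A E (Uev M A E q) ≠ 0 := by rwa [Ne, redE_Uev_eq_zero_iff]
    refine (mem_Vc_iff' M A E).mpr
      ⟨∑ i, Uev M A E (p i) * yInt A E hS i, Uev M A E q, hD, ?_⟩
    rw [mul_comm]
    exact hrel

/-- `j` is transcendental over `Rc`. -/
theorem injective_evR_j : Function.Injective (evR (Rc M A E) (jOm M)) := by
  rw [injective_iff_map_eq_zero]
  intro p hp
  rw [evR_eq_toOm_Uev] at hp
  have h1 := congrArg (fun z : Om M => (z : LaurentSeries Qb)) hp
  simp only [coe_toOm_Uev, ZeroMemClass.coe_zero] at h1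
  have h2 := (H516.evJ_eq_zero_iff Qb).mp h1
  rw [Polynomial.map_map] at h2
  have hinj : Function.Injective
      (((S0 A E).subtype).comp ((eRc M A E).symm : ↥(Rc M A E) →+* ↥(S0 A E))) :=
    (Subtype.val_injective).comp (eRc M A E).symm.injective
  exact Polynomial.map_injective _ hinj (by rw [h2, Polynomial.map_zero])

theorem toOm_Uev_mem_polyRing (p : (↥(S0 A E))[X]) :
    toOm M A E (Uev M A E p) ∈ polyRing (Rc M A E) (jOm M) := by
  rw [toOm_Uev]
  exact (mem_polyRing_iff _ _).mpr ⟨_, rfl⟩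

theorem isIntegral_toOm_Uev (p : (↥(S0 A E))[X]) :
    IsIntegral (polyRing (Rc M A E) (jOm M)) (toOm M A E (Uev M A E p)) :=
  isIntegral_algebraMap (R := polyRing (Rc M A E) (jOm M)) (A := Om M)
    (x := ⟨_, toOm_Uev_mem_polyRing A E p⟩)

/-- **Denominators** on the chart `Rc[j]`. -/
theorem denAt_j {w : Om M} (hR : PartR (Ec M E) (Rc M A E) w) (hS : H516.SpansQ M y)
    (hli : LinearIndependent (jField (IsLocalRing.ResidueField ↥A))
      (fun i => coeffMap (Int.castRingHom (IsLocalRing.ResidueField ↥A)) (y i)))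
    (hint : ∀ i, IsIntegral (polyRing (Rc M A E) (jOm M)) (toOm M A E (yInt A E hS i))) :
    DenAt (Fc M E) (Rc M A E) (Vc M A E) w (jOm M) := by
  intro f hf hfV
  obtain ⟨q, p, hprim, hrel⟩ := exists_scaled_relation A E hS hf
  have hq : q.map (resS A E) ≠ 0 := by
    intro hq0
    have hN := redE_sum_ne_zero A E hS hli hprim hq0
    obtain ⟨U₁, U₂, hne, heq⟩ := (mem_Vc_iff' M A E).mp hfV
    have h1 : toOm M A E (Uev M A E q * U₁) =
        toOm M A E ((∑ i, Uev M A E (p i) * yInt A E hS i) * U₂) := by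
      rw [map_mul, map_mul, ← heq, ← hrel]
      ring
    have h3 := congrArg (redE M A E) (toOm_injective M A E h1)
    rw [map_mul, map_mul, (redE_Uev_eq_zero_iff M A E q).mpr hq0, zero_mul] at h3
    exact mul_ne_zero hN hne h3.symm
  have hD : redE M A E (Uev M A E q) ≠ 0 := by rwa [Ne, redE_Uev_eq_zero_iff]
  refine ⟨toOm M A E (Uev M A E q), toOm_Uev_mem_polyRing A E q, ?_, ?_⟩
  · intro h
    obtain ⟨c, hA, hE, hc0, hcinv, rfl⟩ := exists_unif M A E hR
    have hw0 : algebraMap Qb (Om M) c ≠ 0 := hR.w_ne_zero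
    obtain ⟨U₁, U₂, hne, heq⟩ := (mem_Vc_iff' M A E).mp h
    have h1 : toOm M A E (Uev M A E q * U₂) = toOm M A E (cInt M A E hA hE * U₁) := by
      rw [map_mul, map_mul, toOm_cInt, ← heq]
      field_simp
    have h3 := congrArg (redE M A E) (toOm_injective M A E h1)
    rw [map_mul, map_mul, redE_cInt, residue_eq_zero_of_inv_not_mem A hA hcinv, map_zero,
      zero_mul] at h3
    exact mul_ne_zero hD hne h3
  · rw [hrel, map_sum]
    refine IsIntegral.sum _ fun i _ => ?_
    rw [map_mul]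
    exact (isIntegral_toOm_Uev A E (p i)).mul (hint i)

end Fermat.Agent.S18.Mod.H216

end
end
-- ===== PACK-END S18/Mod/H216/DenJ.lean

-- ===== PACK-BEGIN S18/Mod/H216/IntegJ.lean
section


/-!
# S18 / MOD (helper216): integrality of the S28 monomials over `Rc[j]`, and G-V, G-QEP for `x = j`

* `isIntegral_jd` : `j(q^d)` is integral over `Rc[j]` (from `CoreData.integral`).
* `isIntegral_toOm_yInt` : the monomials `yᵢ ∈ ℤ[j_d : d ∣ M]` are integral over `Rc[j]`.
* `partV_j`, `partQep_j` : `PartV`, `PartQep` for `(Fc M E, Rc M A E, Vc M A E, w, jOm M)` from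
  `CoreData M κ`, `κ` the residue field of `A`.
-/

set_option autoImplicit false
set_option linter.unusedSectionVars false

noncomputable section

namespace Fermat.Agent.S18.Mod.H216

open ModularCurve AlgebraicCurve HahnSeries Polynomial Fermat.Agent.S18 Fermat.Agent.S18.Mod
open Fermat.Agent.S28 Fermat.Agent.S18.Alg

variable {M : ℕ} [NeZero M] (A : ValuationSubring Qb) (E : IntermediateField ℚ Qb)

/-- `ℤ((q)) → Q̄((q))`. -/
abbrev phiZ : LaurentSeries ℤ →+* LaurentSeries Qb := coeffMap (Int.castRingHom Qb)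

theorem coe_jd_eq_phiZ (d : ℕ) [NeZero d] (hd : d ∣ M) :
    ((jd M d hd : Om M) : LaurentSeries Qb) = phiZ (qExpand ℤ d (jqModC ℤ)) := by
  rw [coe_jd, coeffEmb, coeffMap_qExpand, coeffMap_qExpand, ← jqModC_rat, coeffMap_jqModC,
    coeffMap_jqModC]

theorem intCast_mem_Rc (k : ℤ) : (k : Om M) ∈ Rc M A E := intCast_mem _ k

theorem aeval_jOm_mem_polyRing (g : Polynomial ℤ) :
    Polynomial.aeval (jOm M) g ∈ polyRing (Rc M A E) (jOm M) := by
  rw [Polynomial.aeval_eq_sum_range]
  refine sum_mem fun i _ => ?_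
  rw [zsmul_eq_mul]
  exact mul_mem (le_polyRing _ _ (intCast_mem_Rc A E _)) (pow_mem (self_mem_polyRing _ _) i)

/-- `ℤ[X] → Rc[j]`. -/
def psiZ : Polynomial ℤ →+* ↥(polyRing (Rc M A E) (jOm M)) :=
  (Polynomial.aeval (R := ℤ) (jOm M)).toRingHom.codRestrict (polyRing (Rc M A E) (jOm M))
    (aeval_jOm_mem_polyRing A E)

theorem omVal_comp_aeval :
    (omVal M).comp (Polynomial.aeval (R := ℤ) (jOm M)).toRingHom =
      phiZ.comp (evalAt (jqModC ℤ)) := by
  apply Polynomial.ringHom_ext
  · intro k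
    simp
  · simp only [RingHom.comp_apply, AlgHom.toRingHom_eq_coe, RingHom.coe_coe, Polynomial.aeval_X,
      omVal_apply]
    rw [coe_jOm, coeffMap_jqModC]

theorem isIntegral_jd
    (hint : ∀ (d : ℕ) [NeZero d], d ∣ M → ∃ P : Polynomial (Polynomial ℤ), P.Monic ∧
      P.eval₂ (evalAt (jqModC ℤ)) (qExpand ℤ d (jqModC ℤ)) = 0)
    (d : ℕ) [NeZero d] (hd : d ∣ M) :
    IsIntegral (polyRing (Rc M A E) (jOm M)) (jd M d hd) := by
  obtain ⟨P, hmonic, hroot⟩ := hint d hd
  refine ⟨P.map (psiZ A E), hmonic.map _, ?_⟩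
  rw [Polynomial.eval₂_map]
  have hcomp : (algebraMap ↥(polyRing (Rc M A E) (jOm M)) (Om M)).comp (psiZ A E) =
      (Polynomial.aeval (R := ℤ) (jOm M)).toRingHom := rfl
  rw [hcomp]
  apply omVal_injective M
  rw [map_zero, Polynomial.hom_eval₂, omVal_comp_aeval, omVal_apply, coe_jd_eq_phiZ,
    ← Polynomial.hom_eval₂, hroot, map_zero]

variable {n : ℕ} {y : Fin n → LaurentSeries ℤ}

theorem isIntegral_toOm_yInt (hS : H516.SpansQ M y)
    (hint : ∀ (d : ℕ) [NeZero d], d ∣ M → ∃ P : Polynomial (Polynomial ℤ), P.Monic ∧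
      P.eval₂ (evalAt (jqModC ℤ)) (qExpand ℤ d (jqModC ℤ)) = 0)
    (i : Fin n) :
    IsIntegral (polyRing (Rc M A E) (jOm M)) (toOm M A E (yInt A E hS i)) := by
  have hle : Subring.closure (intDivisorExpansions M) ≤
      Subring.comap phiZ
        ((integralClosure ↥(polyRing (Rc M A E) (jOm M)) (Om M)).toSubring.map (omVal M)) := by
    rw [Subring.closure_le]
    rintro z ⟨d, hd, hdM, rfl⟩
    haveI := hd
    exact ⟨jd M d hdM, isIntegral_jd A E hint d hdM, coe_jd_eq_phiZ d hdM⟩
  obtain ⟨f, hf, hfy⟩ := hle (hS.1 i)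
  have : f = toOm M A E (yInt A E hS i) := by
    apply Subtype.ext
    rw [coe_toOm_yInt]
    exact hfy
  rw [← this]
  exact hf

/-! ### G-V and G-QEP for `x = j` -/

/-- **G-V** for the coordinate `j`. -/
theorem partV_j (core : CoreData M (IsLocalRing.ResidueField ↥A)) {w : Om M}
    (hR : PartR (Ec M E) (Rc M A E) w) :
    PartV (Fc M E) (Rc M A E) (Vc M A E) w (jOm M) := by
  obtain ⟨n, y, hy, hspan, hli⟩ := core.exists_basis
  have hS : H516.SpansQ M y := ⟨hy, hspan⟩
  exact
    { V_le := Vc_le_Fc M A E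
      V_total := V_total_j A E hS hli
      R_le_V := R_le_V M A E
      w_inv_not_mem_V := w_inv_not_mem_V M A E hR
      V_gen := V_gen M A E hR
      x_mem_V := jOm_mem_Vc M A E
      gauss := gauss_j M A E }

/-- **G-QEP** for the coordinate `j`. -/
theorem partQep_j (core : CoreData M (IsLocalRing.ResidueField ↥A)) {w : Om M}
    (hR : PartR (Ec M E) (Rc M A E) w) :
    PartQep (Fc M E) (Rc M A E) (Vc M A E) w (jOm M) := by
  obtain ⟨n, y, hy, hspan, hli⟩ := core.exists_basis
  have hS : H516.SpansQ M y := ⟨hy, hspan⟩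
  exact partQep_of_den hR (partV_j A E core hR) (Ec_le_Fc M E) (jOm_mem_Vc M A E)
    (injective_evR_j A E)
    (denAt_j A E hR hS hli (isIntegral_toOm_yInt A E hS (fun d _ hd => core.integral d hd)))

end Fermat.Agent.S18.Mod.H216

end
end
-- ===== PACK-END S18/Mod/H216/IntegJ.lean

-- ===== PACK-BEGIN S18/Mod/H216/NodeJ.lean
section






/-!
# S18 / MOD (helper216): G-V and G-QEP for the coordinate `j` — UNCONDITIONAL

For `ℓ ∤ M` and `A` over `ℓ`:
* `coreData_residue` : S28 `CoreData M κ` for the residue field `κ` of `A`;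
* `partVStatement_j`   : `PartVStatement M A (jOm M)`;
* `partQepStatement_j` : `PartQepStatement M A (jOm M)`.
-/

set_option autoImplicit false
set_option linter.unusedSectionVars false

noncomputable section

namespace Fermat.Agent.S18.Mod.H216

open ModularCurve AlgebraicCurve HahnSeries Polynomial Fermat.Agent.S18 Fermat.Agent.S18.Mod
open Fermat.Agent.S28 Fermat.Agent.S18.Alg

variable {M : ℕ} [NeZero M] {ℓ : ℕ} [Fact ℓ.Prime] (A : ValuationSubring Qb)

theorem charP_residue (hA : A.LiesOverPrime ℓ) : CharP (IsLocalRing.ResidueField ↥A) ℓ := by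
  have hp : ℓ.Prime := Fact.out
  rw [CharP.charP_iff_prime_eq_zero hp]
  obtain ⟨ha, hmem⟩ := (ValuationSubring.mem_nonunits_iff_exists_mem_maximalIdeal).mp hA
  have h1 : IsLocalRing.residue ↥A ⟨(ℓ : Qb), ha⟩ = 0 :=
    (IsLocalRing.residue_eq_zero_iff _).mpr hmem
  have h2 : (⟨(ℓ : Qb), ha⟩ : ↥A) = ((ℓ : ℕ) : ↥A) := Subtype.ext (by simp)
  rw [h2, map_natCast] at h1
  exact h1

/-- S28 `CoreData` over the residue field of `A`. -/
theorem coreData_residue (hℓM : ¬ ℓ ∣ M) (hA : A.LiesOverPrime ℓ) :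
    CoreData M (IsLocalRing.ResidueField ↥A) := by
  haveI := charP_residue A hA
  exact H867.coreData_of_inputs M ℓ hℓM (IsLocalRing.ResidueField ↥A)
    (fun p hp _ _ => H807.nonempty_modPolyData p hp)
    (fun p hp _ _ => H807.nonempty_unitPolyData p hp)
    H25.theta_identity

/-- **G-V for `x = j`** (exact target `PartVStatement M A (jOm M)`). -/
theorem partVStatement_j (hℓM : ¬ ℓ ∣ M) (hA : A.LiesOverPrime ℓ) :
    PartVStatement M A (jOm M) :=
  fun E _ _ hR => partV_j A E (coreData_residue A hℓM hA) hR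

/-- **G-QEP for `x = j`** (exact target `PartQepStatement M A (jOm M)`). -/
theorem partQepStatement_j (hℓM : ¬ ℓ ∣ M) (hA : A.LiesOverPrime ℓ) :
    PartQepStatement M A (jOm M) :=
  fun E _ _ hR => partQep_j A E (coreData_residue A hℓM hA) hR

end Fermat.Agent.S18.Mod.H216

end
end
-- ===== PACK-END S18/Mod/H216/NodeJ.lean

-- ===== PACK-BEGIN S18/H24/Finite.lean
section




/-!
# S18 / node_mod, part G-FLD (helper24) — the field `finite` for `x = j`

`field_finite_j` : for every intermediate field `E` of `Q̄/ℚ` and every level `M ≥ 1`,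

    ∃ s : Finset (Om M), ↑s ⊆ Fc M E ∧ ∀ f ∈ Fc M E, f ∈ Submodule.span (ratField (Ec M E) (jOm M)) ↑s

(exact type of the field `finite` of `Alg.GoodModel` at the concrete objects, `x = jOm M`).

Proof: `Fc = Ec(j)(j_d : d ∣ M)`, finitely many generators, each integral over `ℤ[j]`
(modular polynomials, S28 `H867.coreData_integral` + `H807.nonempty_modPolyData`).
`field_finite_of_mem` : the same for any coordinate `x ∈ Fc` with `j ∈ Ec(x)` (e.g. `t₂`, `t₃`).
-/

set_option autoImplicit false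

noncomputable section

namespace Fermat.Agent.S18.H24

open ModularCurve AlgebraicCurve HahnSeries Fermat.Agent.S18 Fermat.Agent.S18.Mod
open Fermat.Agent.S18.Alg Fermat.Agent.S18.H456 Fermat.Agent.S28 Polynomial

variable (M : ℕ) [NeZero M] (E : IntermediateField ℚ Qb)

/-- `ℤ[Y] → Ω`, `Y ↦ j`. -/
def evJOm : Polynomial ℤ →+* Om M := (Polynomial.aeval (R := ℤ) (jOm M)).toRingHom

/-- The subtype map `Ω → Q̄((q))` as a ring hom. -/
abbrev valHom : Om M →+* LaurentSeries Qb := (modularFunctionFieldBar M).val.toRingHom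

theorem valHom_injective : Function.Injective (valHom M) := Subtype.val_injective

theorem val_jd' (d : ℕ) [NeZero d] (hd : d ∣ M) :
    valHom M (jd M d hd) = coeffMap (Int.castRingHom Qb) (qExpand ℤ d (jqModC ℤ)) := by
  show coeffEmb Qb (qExpand ℚ d jq) = _
  have h1 : coeffEmb Qb (qExpand ℚ d jq) = jqNModC Qb d := coeffMap_jqNModC (algebraMap ℚ Qb) d
  have h2 : coeffMap (Int.castRingHom Qb) (jqNModC ℤ d) = jqNModC Qb d :=
    coeffMap_jqNModC (Int.castRingHom Qb) d
  exact h1.trans h2.symm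

theorem val_jOm' : valHom M (jOm M) = coeffMap (Int.castRingHom Qb) (jqModC ℤ) := by
  show ((jOm M : Om M) : LaurentSeries Qb) = _
  rw [val_jOm, coeffMap_jqModC]

/-- compatibility of the two evaluations `ℤ[Y] → Q̄((q))`. -/
theorem valHom_comp_evJOm :
    (valHom M).comp (evJOm M) =
      (coeffMap (Int.castRingHom Qb)).comp (evalAt (jqModC ℤ)) := by
  apply Polynomial.ringHom_ext
  · intro a
    simp [evJOm, evalAt]
  · show valHom M (Polynomial.aeval (jOm M) (X : Polynomial ℤ)) =
      coeffMap (Int.castRingHom Qb) (Polynomial.aeval (jqModC ℤ) (X : Polynomial ℤ))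
    rw [Polynomial.aeval_X, Polynomial.aeval_X]
    exact val_jOm' M

/-- `j_d` is a root of a monic polynomial with coefficients in `ℤ[j] ⊆ Ω`. -/
theorem exists_monic_root_jd (d : ℕ) [NeZero d] (hd : d ∣ M) :
    ∃ P : Polynomial (Polynomial ℤ), P.Monic ∧ (P.map (evJOm M)).eval (jd M d hd) = 0 := by
  obtain ⟨P, hP, hPe⟩ := H867.coreData_integral M
    (fun p hp _ _ => H807.nonempty_modPolyData p hp) d hd
  refine ⟨P, hP, ?_⟩
  apply valHom_injective M
  rw [map_zero, Polynomial.eval_map, Polynomial.hom_eval₂, valHom_comp_evJOm, val_jd',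
    ← Polynomial.hom_eval₂, hPe, map_zero]

theorem jOm_mem_ratField : jOm M ∈ ratField (Ec M E) (jOm M) :=
  Subfield.subset_closure (Or.inr rfl)

theorem Ec_le_ratField (x : Om M) : Ec M E ≤ ratField (Ec M E) x :=
  fun _ h => Subfield.subset_closure (Or.inl h)

theorem evJOm_mem_ratField (p : Polynomial ℤ) : evJOm M p ∈ ratField (Ec M E) (jOm M) := by
  show Polynomial.aeval (jOm M) p ∈ _
  rw [Polynomial.aeval_def, Polynomial.eval₂_eq_sum_range]
  refine Subfield.sum_mem _ fun i _ => ?_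
  refine mul_mem ?_ (pow_mem (jOm_mem_ratField M E) i)
  rw [eq_intCast]
  exact intCast_mem _ _

/-- `j_d` is integral over `Ec(j)`. -/
theorem isIntegral_jd (d : ℕ) [NeZero d] (hd : d ∣ M) :
    IsIntegral (ratField (Ec M E) (jOm M)) (jd M d hd) := by
  obtain ⟨P, hP, hroot⟩ := exists_monic_root_jd M d hd
  have hl : P.map (evJOm M) ∈ Polynomial.lifts (ratField (Ec M E) (jOm M)).subtype := by
    rw [Polynomial.lifts_iff_coeff_lifts]
    intro i
    rw [Polynomial.coeff_map]
    exact ⟨⟨_, evJOm_mem_ratField M E (P.coeff i)⟩, rfl⟩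
  obtain ⟨q, hq, -, hqm⟩ := Polynomial.lifts_and_natDegree_eq_and_monic hl (hP.map _)
  refine ⟨q, hqm, ?_⟩
  have : eval₂ (ratField (Ec M E) (jOm M)).subtype (jd M d hd) q =
      eval (jd M d hd) (q.map (ratField (Ec M E) (jOm M)).subtype) := (eval_map _ _).symm
  rw [show (algebraMap (ratField (Ec M E) (jOm M)) (Om M)) =
    (ratField (Ec M E) (jOm M)).subtype from rfl, this, hq, hroot]

theorem gens_finite : (gens M).Finite := by
  classical
  have : gens M ⊆ Set.range (fun d : {d : ℕ // d ∣ M ∧ d ≠ 0} =>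
      haveI : NeZero d.1 := ⟨d.2.2⟩
      jd M d.1 d.2.1) := by
    rintro y ⟨d, hd, hdM, rfl⟩
    exact ⟨⟨d, hdM, hd.out⟩, rfl⟩
  refine Set.Finite.subset ?_ this
  have hfin : Finite {d : ℕ // d ∣ M ∧ d ≠ 0} := by
    have : {d : ℕ | d ∣ M ∧ d ≠ 0} ⊆ (M.divisors : Set ℕ) := by
      intro d hd
      exact Nat.mem_divisors.mpr ⟨hd.1, NeZero.ne M⟩
    exact Set.Finite.subset (Finset.finite_toSet _) this
  exact Set.finite_range _

/-- `Fc` as an intermediate field over `Ec(j)`. -/
theorem Fc_eq_adjoin :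
    (Fc M E : Set (Om M)) =
      (IntermediateField.adjoin (ratField (Ec M E) (jOm M)) (gens M) : Set (Om M)) := by
  have hjF : jOm M ∈ Fc M E :=
    Subfield.subset_closure (Or.inr ⟨1, inferInstance, one_dvd M, rfl⟩)
  have hK : ratField (Ec M E) (jOm M) ≤ Fc M E := by
    refine Subfield.closure_le.mpr ?_
    rintro y (hy | hy)
    · exact field_E_le_F M E hy
    · rw [Set.mem_singleton_iff] at hy
      rw [hy]; exact hjF
  apply Set.Subset.antisymm
  · -- `Fc ⊆ adjoin`
    have : Fc M E ≤ (IntermediateField.adjoin (ratField (Ec M E) (jOm M)) (gens M)).toSubfield := by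
      refine Subfield.closure_le.mpr ?_
      rintro y (hy | hy)
      · exact IntermediateField.algebraMap_mem
          (IntermediateField.adjoin (ratField (Ec M E) (jOm M)) (gens M))
          (⟨y, Ec_le_ratField M E _ hy⟩ : ratField (Ec M E) (jOm M))
      · exact IntermediateField.subset_adjoin _ _ hy
    exact this
  · -- `adjoin ⊆ Fc`
    intro y hy
    have h : IntermediateField.adjoin (ratField (Ec M E) (jOm M)) (gens M) ≤
        Subfield.toIntermediateField (Fc M E) (fun x => hK x.2) := by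
      rw [IntermediateField.adjoin_le_iff]
      intro z hz
      exact Subfield.subset_closure (Or.inr hz)
    exact h hy

/-- **field `finite` for `x = j`.** -/
theorem field_finite_j :
    ∃ s : Finset (Om M), (s : Set (Om M)) ⊆ Fc M E ∧
      ∀ f ∈ Fc M E, f ∈ Submodule.span (ratField (Ec M E) (jOm M)) (s : Set (Om M)) := by
  classical
  set K := ratField (Ec M E) (jOm M) with hKdef
  set L := IntermediateField.adjoin K (gens M) with hLdef
  have hint : ∀ y ∈ gens M, IsIntegral K y := by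
    rintro y ⟨d, hd, hdM, rfl⟩
    exact isIntegral_jd M E d hdM
  haveI : Finite (gens M) := (gens_finite M).to_subtype
  haveI hfd : FiniteDimensional K L := IntermediateField.finiteDimensional_adjoin hint
  -- a finite spanning set of `L` over `K`
  obtain ⟨s, hs⟩ := (Module.finite_def (R := K) (M := L)).mp hfd
  refine ⟨s.image (fun y : L => (y : Om M)), ?_, ?_⟩
  · intro y hy
    rw [Finset.coe_image] at hy
    obtain ⟨z, -, rfl⟩ := hy
    have h0 : (z : Om M) ∈
        (IntermediateField.adjoin (ratField (Ec M E) (jOm M)) (gens M) : Set (Om M)) := z.2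
    rw [← Fc_eq_adjoin M E] at h0
    exact h0
  · intro f hf
    have hfL : f ∈ L := by
      have h0 : f ∈
          (IntermediateField.adjoin (ratField (Ec M E) (jOm M)) (gens M) : Set (Om M)) := by
        rw [← Fc_eq_adjoin M E]; exact hf
      exact h0
    have h1 : (⟨f, hfL⟩ : L) ∈ Submodule.span K (s : Set L) := by
      rw [hs]; exact Submodule.mem_top
    have h2 := Submodule.mem_map_of_mem (f := (L.val.toLinearMap : L →ₗ[K] Om M)) h1
    rw [Submodule.map_span] at h2
    rw [Finset.coe_image]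
    exact h2

omit [NeZero M] in
theorem span_mono_subfield {K₁ K₂ : Subfield (Om M)} (h : K₁ ≤ K₂) (s : Set (Om M)) {f : Om M}
    (hf : f ∈ Submodule.span K₁ s) : f ∈ Submodule.span K₂ s := by
  induction hf using Submodule.span_induction with
  | mem x hx => exact Submodule.subset_span hx
  | zero => exact Submodule.zero_mem _
  | add x y _ _ hx hy => exact Submodule.add_mem _ hx hy
  | smul c x _ hx =>
    have : c • x = (⟨(c : Om M), h c.2⟩ : K₂) • x := rfl
    rw [this]
    exact Submodule.smul_mem _ _ hx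

/-- **field `finite`** for every admissible coordinate. -/
theorem field_finite {ℓ : ℕ} {x : Om M} {S : Finset (Om M)} (hx : IsCoordinate M ℓ x S) :
    ∃ s : Finset (Om M), (s : Set (Om M)) ⊆ Fc M E ∧
      ∀ f ∈ Fc M E, f ∈ Submodule.span (ratField (Ec M E) x) (s : Set (Om M)) := by
  have hx0 : x ≠ 0 := by
    rintro rfl
    exact field_x_transcendental M hx isAlgebraic_zero
  have hxK : x ∈ ratField (Ec M E) x := Subfield.subset_closure (Or.inr rfl)
  have hnat : ∀ n : ℕ, (n : Om M) ∈ ratField (Ec M E) x := fun n => natCast_mem _ n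
  -- `j ∈ Ec(x)`
  have hj : jOm M ∈ ratField (Ec M E) x := by
    rcases hx with ⟨-, rfl, -⟩ | ⟨h | h, -⟩
    · exact hxK
    · obtain ⟨-, hid, -⟩ := h
      have : jOm M = (x + 256) ^ 3 * (x ^ 2)⁻¹ := by
        rw [← hid]; field_simp
      rw [this]
      exact mul_mem (pow_mem (add_mem hxK (by exact_mod_cast hnat 256)) 3)
        (inv_mem (pow_mem hxK 2))
    · obtain ⟨-, hid, -⟩ := h
      have : jOm M = (x + 27) * (x + 243) ^ 3 * (x ^ 3)⁻¹ := by
        rw [← hid]; field_simp
      rw [this]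
      exact mul_mem (mul_mem (add_mem hxK (by exact_mod_cast hnat 27))
        (pow_mem (add_mem hxK (by exact_mod_cast hnat 243)) 3)) (inv_mem (pow_mem hxK 3))
  have hle : ratField (Ec M E) (jOm M) ≤ ratField (Ec M E) x := by
    refine Subfield.closure_le.mpr ?_
    rintro y (hy | hy)
    · exact Ec_le_ratField M E x hy
    · rw [Set.mem_singleton_iff] at hy
      rw [hy]; exact hj
  obtain ⟨s, hs, hspan⟩ := field_finite_j M E
  exact ⟨s, hs, fun f hf => span_mono_subfield M hle _ (hspan f hf)⟩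

end Fermat.Agent.S18.H24

end
end
-- ===== PACK-END S18/H24/Finite.lean

-- ===== PACK-BEGIN S18/H264/SepConcrete.lean
section






/-!
# S18 / G-SEP at the concrete objects (helper264)

The field `separable` of `Alg.GoodModel` for the concrete objects of `Mod/Defs.lean`
(`Rc M A E`, `VcSet M A E`, coordinate `jOm M`), for every subring `V` with underlying set
`VcSet M A E` and every uniformiser `w` of `Rc M A E`.
-/

set_option autoImplicit false

noncomputable section

namespace Fermat.Agent.S18.H264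

open ModularCurve AlgebraicCurve Polynomial Fermat.Agent.S18 Fermat.Agent.S18.Mod
open Fermat.Agent.S28

/-! ### (C1) the residue field of a valuation ring of `Q̄` over `ℓ` is algebraic over `𝔽_ℓ` -/

section ResAlg

variable (A : ValuationSubring Qb) (ℓ : ℕ) [hℓ : Fact ℓ.Prime]
  [Algebra (ZMod ℓ) (IsLocalRing.ResidueField A)]

theorem isAlgebraic_residue_zmod (c : IsLocalRing.ResidueField A) : IsAlgebraic (ZMod ℓ) c := by
  obtain ⟨a, rfl⟩ := IsLocalRing.residue_surjective c
  have halgQ : IsAlgebraic ℚ (a : Qb) := (AlgebraicClosure.isAlgebraic ℚ).isAlgebraic _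
  have halgZ : IsAlgebraic ℤ (a : Qb) := (IsFractionRing.isAlgebraic_iff ℤ ℚ Qb).mpr halgQ
  obtain ⟨p, hp0, hpa⟩ := halgZ
  have hq0 : p.primPart ≠ 0 := primPart_ne_zero p
  have hqa : aeval (a : Qb) p.primPart = 0 := aeval_primPart_eq_zero hp0 hpa
  have hqA : Polynomial.eval₂ (Int.castRingHom A) a p.primPart = 0 := by
    apply Subtype.ext
    have h := Polynomial.hom_eval₂ p.primPart (Int.castRingHom A) A.subtype a
    rw [ZeroMemClass.coe_zero, ← hqa, aeval_def]
    have hc : (A.subtype).comp (Int.castRingHom A) = algebraMap ℤ Qb := RingHom.ext_int _ _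
    rw [← hc]
    exact h
  refine ⟨p.primPart.map (Int.castRingHom (ZMod ℓ)), ?_, ?_⟩
  · intro h0
    have hdvd : Polynomial.C (ℓ : ℤ) ∣ p.primPart := by
      rw [C_dvd_iff_dvd_coeff]
      intro i
      have := congrArg (fun r => r.coeff i) h0
      simp only [coeff_map, coeff_zero, eq_intCast] at this
      exact (ZMod.intCast_zmod_eq_zero_iff_dvd _ _).mp this
    have hu := (isPrimitive_iff_isUnit_of_C_dvd.mp (isPrimitive_primPart p)) _ hdvd
    have := Int.isUnit_iff.mp hu
    have h2 := hℓ.out.two_le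
    omega
  · rw [aeval_def, Polynomial.eval₂_map]
    have hc : (algebraMap (ZMod ℓ) (IsLocalRing.ResidueField A)).comp (Int.castRingHom (ZMod ℓ)) =
        (IsLocalRing.residue A).comp (Int.castRingHom A) := RingHom.ext_int _ _
    rw [hc, ← Polynomial.hom_eval₂, hqA, map_zero]

instance algebra_isAlgebraic_residue_zmod :
    Algebra.IsAlgebraic (ZMod ℓ) (IsLocalRing.ResidueField A) :=
  ⟨isAlgebraic_residue_zmod A ℓ⟩

end ResAlg

/-! ### (C2), (C3) the function field `F_k` is algebraic over `𝔽_ℓ(j̄)` -/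

section FullAlg

variable {k : Type} [Field k] (ℓ : ℕ) [hℓ : Fact ℓ.Prime]

theorem evalAt_eq_eval₂RingHom {B : Type*} [CommRing B] (y : LaurentSeries B) :
    evalAt y = Polynomial.eval₂RingHom (Int.castRingHom (LaurentSeries B)) y := by
  refine Polynomial.ringHom_ext (fun n => ?_) ?_
  · simp [evalAt]
  · simp [evalAt]

/-- Base change of the integrality equation of `j(q^d)` to `k((q))`. -/
theorem evalZZ_jd_eq_zero {N : ℕ} [NeZero N] (core : CoreData N k) (d : ℕ) [NeZero d]
    (hd : d ∣ N) :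
    ∃ P : Polynomial (Polynomial ℤ), P.Monic ∧
      evalZZ (jqModC k) (qExpand k d (jqModC k)) P = 0 := by
  obtain ⟨P, hP, h0⟩ := core.integral d hd
  refine ⟨P, hP, ?_⟩
  rw [evalAt_eq_eval₂RingHom, ← evalZZ_apply] at h0
  have h := map_evalZZ (coeffMap (Int.castRingHom k)) (jqModC ℤ) (qExpand ℤ d (jqModC ℤ)) P
  rw [h0, map_zero, coeffMap_qExpand, coeffMap_jqModC] at h
  exact h.symm

/-- `j(q^d)` is integral over `𝔽_ℓ(j̄)`. -/
theorem isIntegral_jd [Algebra (ZMod ℓ) (LaurentSeries k)] {N : ℕ} [NeZero N]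
    (core : CoreData N k) (d : ℕ) [NeZero d] (hd : d ∣ N) :
    IsIntegral (IntermediateField.adjoin (ZMod ℓ) {jqModC k}) (qExpand k d (jqModC k)) := by
  obtain ⟨P, hP, h0⟩ := evalZZ_jd_eq_zero core d hd
  set J := IntermediateField.adjoin (ZMod ℓ) {jqModC k} with hJ
  set ψ : Polynomial ℤ →+* J := Polynomial.eval₂RingHom (Int.castRingHom J)
    ⟨jqModC k, IntermediateField.mem_adjoin_simple_self _ _⟩ with hψ
  have hcomp : (algebraMap J (LaurentSeries k)).comp ψ =
      Polynomial.eval₂RingHom (Int.castRingHom (LaurentSeries k)) (jqModC k) := by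
    refine Polynomial.ringHom_ext (fun n => ?_) ?_
    · simp [hψ]
    · simp [hψ]
  refine ⟨P.map ψ, hP.map _, ?_⟩
  rw [Polynomial.eval₂_map, hcomp, ← evalZZ_apply]
  exact h0

/-- Every element of `F_k = k(j(q^d) : d ∣ N)` is algebraic over `𝔽_ℓ(j̄)`. -/
theorem isAlgebraic_of_mem_fullC [Algebra (ZMod ℓ) k] [Algebra.IsAlgebraic (ZMod ℓ) k]
    {N : ℕ} [NeZero N] (core : CoreData N k)
    {a : LaurentSeries k} (ha : a ∈ modularFunctionFieldFullC k N) :
    IsAlgebraic (IntermediateField.adjoin (ZMod ℓ) {jqModC k}) a := by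
  set J := IntermediateField.adjoin (ZMod ℓ) {jqModC k} with hJ
  rw [← mem_algebraicClosure_iff]
  have hle : (modularFunctionFieldFullC k N).toSubfield ≤ (algebraicClosure J (LaurentSeries k)).toSubfield := by
    rw [modularFunctionFieldFullC, IntermediateField.adjoin_toSubfield, Subfield.closure_le]
    rintro y (⟨c, rfl⟩ | ⟨d, hd0, hd, rfl⟩)
    · show algebraMap k (LaurentSeries k) c ∈ algebraicClosure J (LaurentSeries k)
      rw [mem_algebraicClosure_iff]
      obtain ⟨p, hp0, hpc⟩ := (Algebra.IsAlgebraic.isAlgebraic c : IsAlgebraic (ZMod ℓ) c)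
      refine ⟨p.map (algebraMap (ZMod ℓ) J), (Polynomial.map_ne_zero_iff
        (algebraMap (ZMod ℓ) J).injective).mpr hp0, ?_⟩
      rw [aeval_def, Polynomial.eval₂_map]
      have hc : (algebraMap J (LaurentSeries k)).comp (algebraMap (ZMod ℓ) J) =
          (algebraMap k (LaurentSeries k)).comp (algebraMap (ZMod ℓ) k) := RingHom.ext_zmod _ _
      rw [hc, ← Polynomial.hom_eval₂, ← aeval_def, hpc, map_zero]
    · show qExpand k d (jqModC k) ∈ algebraicClosure J (LaurentSeries k)
      rw [mem_algebraicClosure_iff']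
      have := hd0
      exact isIntegral_jd ℓ core d hd
  exact hle ha

end FullAlg

/-! ### (C4) the reduction relation on the Gauss valuation ring -/

section RedRel

variable (M : ℕ) (A : ValuationSubring Qb) (E : IntermediateField ℚ Qb)

/-- Reduction of series modulo the maximal ideal of `A`. -/
abbrev redS : LaurentSeries A →+* LaurentSeries (IsLocalRing.ResidueField A) :=
  coeffMap (IsLocalRing.residue A)

/-- Inclusion `A((q)) → Q̄((q))`. -/
abbrev inclS : LaurentSeries A →+* LaurentSeries Qb := coeffMap A.subtype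

/-- The coercion `Ω = F_M → Q̄((q))` as a ring homomorphism. -/
def omValH : Om M →+* LaurentSeries Qb := (modularFunctionFieldBar M).val.toRingHom

@[simp] theorem omValH_apply (f : Om M) : omValH M f = (f : LaurentSeries Qb) := rfl

/-- Series over `Q̄` all of whose coefficients lie in `E`. -/
def coeffsInE : Subring (LaurentSeries Qb) where
  carrier := {U | ∀ n : ℤ, U.coeff n ∈ E}
  zero_mem' := fun n => by simp
  one_mem' := fun n => by
    rw [HahnSeries.coeff_one]
    split_ifs
    · exact one_mem _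
    · exact zero_mem _
  add_mem' := fun {a b} ha hb n => by
    rw [HahnSeries.coeff_add]
    exact add_mem (ha n) (hb n)
  neg_mem' := fun {a} ha n => by
    rw [HahnSeries.coeff_neg]
    exact neg_mem (ha n)
  mul_mem' := fun {a b} ha hb n => by
    rw [HahnSeries.coeff_mul]
    exact sum_mem fun ij _ => mul_mem (ha _) (hb _)

/-- The subring of `A((q))` cut out by `IsIntE`. -/
def intESub : Subring (LaurentSeries A) :=
  (coeffsInE E).comap (inclS A) ⊓ ((Fc M E).toSubring.map (omValH M)).comap (inclS A)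

theorem mem_intESub {U : LaurentSeries A} : U ∈ intESub M A E ↔ IsIntE M A E U := by
  constructor
  · rintro ⟨h1, f, hf, hfU⟩
    exact ⟨fun n => h1 n, f, hf, hfU⟩
  · rintro ⟨h1, f, hf, hfU⟩
    exact ⟨fun n => h1 n, f, hf, hfU⟩

/-- The reduction relation: `(g, ḡ) ∈ redRel` iff `g = U₁/U₂` and `ḡ = Ū₁/Ū₂` for `E`-rational
integral series `U₁, U₂` in `Fc` with `Ū₂ ≠ 0`. -/
def redRel : Subring (Om M × LaurentSeries (IsLocalRing.ResidueField A)) where
  carrier := {z | z.1 ∈ Fc M E ∧ ∃ U₁ U₂ : LaurentSeries A, U₁ ∈ intESub M A E ∧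
    U₂ ∈ intESub M A E ∧ redS A U₂ ≠ 0 ∧
    (z.1 : LaurentSeries Qb) * inclS A U₂ = inclS A U₁ ∧ z.2 * redS A U₂ = redS A U₁}
  zero_mem' := by
    refine ⟨zero_mem _, 0, 1, zero_mem _, one_mem _, ?_, ?_, ?_⟩
    · rw [map_one]; exact one_ne_zero
    · simp
    · simp
  one_mem' := by
    refine ⟨one_mem _, 1, 1, one_mem _, one_mem _, ?_, ?_, ?_⟩
    · rw [map_one]; exact one_ne_zero
    · simp
    · simp
  add_mem' := by
    rintro ⟨f, a⟩ ⟨g, b⟩ ⟨hf, U₁, U₂, h₁, h₂, hne, heq, hred⟩ ⟨hg, W₁, W₂, k₁, k₂, kne, keq, kred⟩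
    refine ⟨add_mem hf hg, U₁ * W₂ + W₁ * U₂, U₂ * W₂, add_mem (mul_mem h₁ k₂) (mul_mem k₁ h₂),
      mul_mem h₂ k₂, ?_, ?_, ?_⟩
    · rw [map_mul]; exact mul_ne_zero hne kne
    · simp only [Prod.fst_add] at heq keq ⊢
      push_cast
      rw [map_add, map_mul, map_mul, map_mul, ← heq, ← keq]
      ring
    · simp only [Prod.snd_add] at hred kred ⊢
      rw [map_add, map_mul, map_mul, map_mul, ← hred, ← kred]
      ring
  neg_mem' := by
    rintro ⟨f, a⟩ ⟨hf, U₁, U₂, h₁, h₂, hne, heq, hred⟩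
    refine ⟨neg_mem hf, -U₁, U₂, neg_mem h₁, h₂, hne, ?_, ?_⟩
    · simp only [Prod.fst_neg] at heq ⊢
      push_cast
      rw [map_neg, ← heq]
      ring
    · simp only [Prod.snd_neg] at hred ⊢
      rw [map_neg, ← hred]
      ring
  mul_mem' := by
    rintro ⟨f, a⟩ ⟨g, b⟩ ⟨hf, U₁, U₂, h₁, h₂, hne, heq, hred⟩ ⟨hg, W₁, W₂, k₁, k₂, kne, keq, kred⟩
    refine ⟨mul_mem hf hg, U₁ * W₁, U₂ * W₂, mul_mem h₁ k₁, mul_mem h₂ k₂, ?_, ?_, ?_⟩
    · rw [map_mul]; exact mul_ne_zero hne kne
    · simp only [Prod.fst_mul] at heq keq ⊢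
      push_cast
      rw [map_mul, map_mul, ← heq, ← keq]
      ring
    · simp only [Prod.snd_mul] at hred kred ⊢
      rw [map_mul, map_mul, ← hred, ← kred]
      ring

theorem mem_redRel {g : Om M} {a : LaurentSeries (IsLocalRing.ResidueField A)} :
    (g, a) ∈ redRel M A E ↔ g ∈ Fc M E ∧ ∃ U₁ U₂ : LaurentSeries A, U₁ ∈ intESub M A E ∧
      U₂ ∈ intESub M A E ∧ redS A U₂ ≠ 0 ∧
      (g : LaurentSeries Qb) * inclS A U₂ = inclS A U₁ ∧ a * redS A U₂ = redS A U₁ := Iff.rfl

/-- (R2) every element of the Gauss valuation ring has a reduction. -/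
theorem exists_red_of_mem_VcSet {f : Om M} (hf : f ∈ VcSet M A E) :
    ∃ a, (f, a) ∈ redRel M A E := by
  obtain ⟨hfF, U₁, U₂, h₁, h₂, hne, heq⟩ := hf
  refine ⟨redS A U₁ * (redS A U₂)⁻¹, hfF, U₁, U₂, (mem_intESub M A E).mpr h₁,
    (mem_intESub M A E).mpr h₂, hne, heq, ?_⟩
  rw [mul_assoc, inv_mul_cancel₀ hne, mul_one]

theorem mem_VcSet_of_mem_redRel {g : Om M} {a : LaurentSeries (IsLocalRing.ResidueField A)}
    (h : (g, a) ∈ redRel M A E) : g ∈ VcSet M A E := by
  obtain ⟨hgF, U₁, U₂, h₁, h₂, hne, heq, -⟩ := h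
  exact ⟨hgF, U₁, U₂, (mem_intESub M A E).mp h₁, (mem_intESub M A E).mp h₂, hne, heq⟩

/-- (R4) an element with nonzero reduction is a unit of the Gauss valuation ring. -/
theorem inv_mem_VcSet_of_red_ne_zero {g : Om M}
    {a : LaurentSeries (IsLocalRing.ResidueField A)} (h : (g, a) ∈ redRel M A E) (ha : a ≠ 0) :
    g ≠ 0 ∧ g⁻¹ ∈ VcSet M A E := by
  obtain ⟨hgF, U₁, U₂, h₁, h₂, hne, heq, hred⟩ := h
  have hne₁ : redS A U₁ ≠ 0 := by
    rw [← hred]
    exact mul_ne_zero ha hne
  have hg0 : g ≠ 0 := by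
    rintro rfl
    apply hne₁
    have h0 : inclS A U₁ = 0 := by
      rw [← heq]
      simp
    have hU : U₁ = 0 := H516.incl_injective A (by rw [h0, map_zero])
    rw [hU, map_zero]
  refine ⟨hg0, inv_mem hgF, U₂, U₁, (mem_intESub M A E).mp h₂, (mem_intESub M A E).mp h₁,
    hne₁, ?_⟩
  have hg0' : (g : LaurentSeries Qb) ≠ 0 := fun h => hg0 (Subtype.ext h)
  push_cast
  rw [← heq, ← mul_assoc, inv_mul_cancel₀ hg0', one_mul]

/-- (C5) reductions lie in the function field `F_k`. -/
theorem red_mem_fullC [NeZero M] (core : CoreData M (IsLocalRing.ResidueField A)) {g : Om M}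
    {a : LaurentSeries (IsLocalRing.ResidueField A)} (h : (g, a) ∈ redRel M A E) :
    a ∈ modularFunctionFieldFullC (IsLocalRing.ResidueField A) M := by
  obtain ⟨-, U₁, U₂, h₁, h₂, hne, -, hred⟩ := h
  have key : ∀ U : LaurentSeries A, U ∈ intESub M A E →
      redS A U ∈ modularFunctionFieldFullC (IsLocalRing.ResidueField A) M := by
    intro U hU
    obtain ⟨-, f, -, hfU⟩ := (mem_intESub M A E).mp hU
    refine H516.red_mem_of_incl_mem A (IsLocalRing.residue A) M core ?_
    rw [← hfU]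
    exact f.2
  have ha : a = redS A U₁ * (redS A U₂)⁻¹ := by
    rw [← hred, mul_assoc, mul_inv_cancel₀ hne, mul_one]
  rw [ha]
  exact mul_mem (key U₁ h₁) (inv_mem (key U₂ h₂))

/-- (R5) the reduction of `j` is `j̄`. -/
theorem jOm_mem_redRel : (jOm M, jqModC (IsLocalRing.ResidueField A)) ∈ redRel M A E := by
  have hjF : jOm M ∈ Fc M E :=
    Subfield.subset_closure (Set.mem_union_right _ ⟨1, inferInstance, one_dvd M, rfl⟩)
  have hjval : (jOm M : LaurentSeries Qb) = inclS A (jqModC A) := by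
    show coeffEmb Qb (qExpand ℚ 1 jq) = coeffMap A.subtype (jqModC A)
    rw [qExpand_one_apply, H516.coeffEmb_jq, coeffMap_jqModC]
  have hjint : jqModC A ∈ intESub M A E := by
    refine ⟨fun n => ?_, jOm M, hjF, hjval⟩
    show ((coeffMap A.subtype (jqModC A)).coeff n) ∈ E
    rw [coeffMap_jqModC, coeff_jqModC_eq_intCast]
    exact intCast_mem E _
  refine ⟨hjF, jqModC A, 1, hjint, one_mem _, ?_, ?_, ?_⟩
  · rw [map_one]; exact one_ne_zero
  · rw [map_one, mul_one, hjval]
  · rw [map_one, mul_one]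
    exact (coeffMap_jqModC (IsLocalRing.residue A)).symm

/-- (R3) an element with zero reduction is divisible by the uniformiser `w`. -/
theorem mul_inv_mem_VcSet_of_red_eq_zero {w : Om M} (hw : w ∈ Rc M A E) (hw0 : w ≠ 0)
    (hgen : ∀ r ∈ Rc M A E, r⁻¹ ∉ Rc M A E → r * w⁻¹ ∈ Rc M A E) {g : Om M}
    (h : (g, (0 : LaurentSeries (IsLocalRing.ResidueField A))) ∈ redRel M A E) :
    g * w⁻¹ ∈ VcSet M A E := by
  obtain ⟨hgF, U₁, U₂, h₁, h₂, hne, heq, hred⟩ := h
  simp only [zero_mul] at hred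
  obtain ⟨aw, ⟨hawA, hawE⟩, rfl⟩ := hw
  have haw0 : aw ≠ 0 := by
    rintro rfl
    exact hw0 (map_zero _)
  obtain ⟨hU₁E, f₁, hf₁F, hf₁U⟩ := (mem_intESub M A E).mp h₁
  have hinj : Function.Injective (algebraMap Qb (Om M)) := (algebraMap Qb (Om M)).injective
  -- every coefficient of `U₁` is divisible by `aw` in `A`
  have hdiv : ∀ n : ℤ, ((U₁.coeff n : A) : Qb) * aw⁻¹ ∈ A := by
    intro n
    by_cases hc0 : ((U₁.coeff n : A) : Qb) = 0
    · rw [hc0, zero_mul]
      exact zero_mem _
    have hcres : IsLocalRing.residue A (U₁.coeff n) = 0 := by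
      have := congrArg (fun S : LaurentSeries (IsLocalRing.ResidueField A) => S.coeff n) hred
      simpa using this.symm
    have hr : algebraMap Qb (Om M) ((U₁.coeff n : A) : Qb) ∈ Rc M A E :=
      ⟨_, ⟨(U₁.coeff n).2, hU₁E n⟩, rfl⟩
    have hrinv : (algebraMap Qb (Om M) ((U₁.coeff n : A) : Qb))⁻¹ ∉ Rc M A E := by
      rintro ⟨b, ⟨hbA, -⟩, hb⟩
      have hb' : b = ((U₁.coeff n : A) : Qb)⁻¹ := hinj (by rw [hb, map_inv₀])
      have hunit : IsUnit (U₁.coeff n) := by
        refine isUnit_iff_exists_inv.mpr ⟨⟨b, hbA⟩, Subtype.ext ?_⟩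
        show ((U₁.coeff n : A) : Qb) * b = 1
        rw [hb', mul_inv_cancel₀ hc0]
      have hmem : U₁.coeff n ∈ IsLocalRing.maximalIdeal A :=
        (IsLocalRing.residue_eq_zero_iff _).mp hcres
      exact (IsLocalRing.mem_maximalIdeal _).mp hmem hunit
    obtain ⟨b, ⟨hbA, -⟩, hb⟩ := hgen _ hr hrinv
    have hb' : b = ((U₁.coeff n : A) : Qb) * aw⁻¹ := hinj (by rw [hb, map_mul, map_inv₀])
    rw [← hb']
    exact hbA
  -- the divided series
  let U₁' : LaurentSeries A :=
    ⟨fun n => ⟨((U₁.coeff n : A) : Qb) * aw⁻¹, hdiv n⟩,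
      U₁.isPWO_support.mono (fun n hn => by
        intro h0
        apply hn
        apply Subtype.ext
        show ((U₁.coeff n : A) : Qb) * aw⁻¹ = 0
        rw [h0]
        simp)⟩
  have hwval : algebraMap Qb (LaurentSeries Qb) aw = HahnSeries.single 0 aw :=
    algebraMap_laurentSeries_eq_single Qb aw
  have hwcoe : ((algebraMap Qb (Om M) aw : Om M) : LaurentSeries Qb) =
      algebraMap Qb (LaurentSeries Qb) aw := rfl
  have hwne : algebraMap Qb (LaurentSeries Qb) aw ≠ 0 := by
    rw [← hwcoe]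
    exact fun h => hw0 (Subtype.ext h)
  have hU' : inclS A U₁' * algebraMap Qb (LaurentSeries Qb) aw = inclS A U₁ := by
    rw [hwval]
    ext n
    rw [HahnSeries.coeff_mul_single_zero]
    show ((U₁.coeff n : A) : Qb) * aw⁻¹ * aw = ((U₁.coeff n : A) : Qb)
    rw [mul_assoc, inv_mul_cancel₀ haw0, mul_one]
  have hU'' : inclS A U₁' = inclS A U₁ * (algebraMap Qb (LaurentSeries Qb) aw)⁻¹ := by
    rw [← hU', mul_assoc, mul_inv_cancel₀ hwne, mul_one]
  have hwF : algebraMap Qb (Om M) aw ∈ Fc M E :=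
    Subfield.subset_closure (Set.mem_union_left _ ⟨aw, hawE, rfl⟩)
  have hU₁' : IsIntE M A E U₁' := by
    refine ⟨fun n => ?_, f₁ * (algebraMap Qb (Om M) aw)⁻¹, mul_mem hf₁F (inv_mem hwF), ?_⟩
    · show ((U₁.coeff n : A) : Qb) * aw⁻¹ ∈ E
      exact mul_mem (hU₁E n) (inv_mem hawE)
    · show (f₁ : LaurentSeries Qb) *
        (((algebraMap Qb (Om M) aw : Om M) : LaurentSeries Qb))⁻¹ = inclS A U₁'
      rw [hwcoe, hf₁U, hU'']
  refine ⟨mul_mem hgF (inv_mem hwF), U₁', U₂, hU₁', (mem_intESub M A E).mp h₂, hne, ?_⟩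
  show (g : LaurentSeries Qb) * (((algebraMap Qb (Om M) aw : Om M) : LaurentSeries Qb))⁻¹ *
    inclS A U₂ = inclS A U₁'
  rw [hwcoe, hU'', ← heq]
  ring

end RedRel

/-! ### (C6) the field `separable` at the concrete objects -/

section Main

variable (M : ℕ) [NeZero M] {ℓ : ℕ} [hℓ : Fact ℓ.Prime]

/-- **G-SEP at the concrete objects, coordinate `j`.**  For every subring `V` with underlying
set `VcSet M A E` and every `w ∈ Rc M A E`, `w ≠ 0`, generating the maximal ideal of `Rc M A E`
(fields `w_mem`, `w_ne_zero`, `w_gen` of `PartR`): the field `separable` of `Alg.GoodModel`.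
No hypothesis on `E`.  The polynomial even has coefficients in `ℤ[j]`. -/
theorem separable_jOm (hℓM : ¬ ℓ ∣ M) (A : ValuationSubring Qb) (hA : A.LiesOverPrime ℓ)
    (E : IntermediateField ℚ Qb) (V : Subring (Om M)) (hV : (V : Set (Om M)) = VcSet M A E)
    (w : Om M) (hw : w ∈ Rc M A E) (hw0 : w ≠ 0)
    (hgen : ∀ r ∈ Rc M A E, r⁻¹ ∉ Rc M A E → r * w⁻¹ ∈ Rc M A E) :
    ∀ f ∈ V, ∃ P : Polynomial (Om M), (∀ i, P.coeff i ∈ Alg.polyRing (Rc M A E) (jOm M)) ∧
      P.eval f * w⁻¹ ∈ V ∧ (Polynomial.derivative P).eval f ≠ 0 ∧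
      ((Polynomial.derivative P).eval f)⁻¹ ∈ V := by
  intro f hf
  have hmemV : ∀ g : Om M, g ∈ V ↔ g ∈ VcSet M A E := fun g => by
    rw [← hV]
    rfl
  have hchar : CharP (IsLocalRing.ResidueField A) ℓ := H516.charP_residue A hA
  let _ : Algebra (ZMod ℓ) (IsLocalRing.ResidueField A) := ZMod.algebra _ ℓ
  have core := H516.coreData_residue M hℓM A hA
  obtain ⟨a, ha⟩ := exists_red_of_mem_VcSet M A E ((hmemV f).mp hf)
  have halg := isAlgebraic_of_mem_fullC ℓ core (red_mem_fullC M A E core ha)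
  have hv : HahnSeries.addVal ℤ (IsLocalRing.ResidueField A)
      (jqModC (IsLocalRing.ResidueField A)) = ((-1 : ℤ) : WithTop ℤ) := by
    rw [HahnSeries.addVal_apply_of_ne (jqModC_ne_zero_of_nontrivial _), order_jqModC]
  exact exists_poly_of_graph_sep ℓ (HahnSeries.addVal ℤ _) (redRel M A E) V (Rc M A E) w
    (jOm M) f (jqModC _) a (jOm_mem_redRel M A E) ha
    (fun g hg => (hmemV _).mpr (mul_inv_mem_VcSet_of_red_eq_zero M A E hw hw0 hgen hg))
    (fun g b hg hb => ⟨(inv_mem_VcSet_of_red_ne_zero M A E hg hb).1,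
      (hmemV _).mpr (inv_mem_VcSet_of_red_ne_zero M A E hg hb).2⟩)
    (-1) hv (not_prime_dvd_neg_one ℓ hℓ.out) halg

end Main

end Fermat.Agent.S18.H264

end
end
-- ===== PACK-END S18/H264/SepConcrete.lean

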