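import Fermat.Prelude.Def_AlgebraicCurve_Correspondence
import Fermat.Prelude.Def_ModularCurve_HeckeModule
import Mathlib
import Fermat.Prelude.Def_AlgebraicCurve_DivisorClassGroup
import Fermat.Agent.Pack.S3234.G0E3L2
import Fermat.Agent.Pack.S3234.G0E6L0
import Fermat.Agent.Pack.S3234.G0E6L1
import Fermat.Agent.Pack.S3234.G0E6L3
import Fermat.Agent.Pack.S3234.G0E3L0
import Fermat.Agent.Pack.S3234.G0E5L0
import Fermat.Agent.Pack.S3234.G0E1L1

-- ===== PACK-BEGIN S30/H990/FromH330.lean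
section
/-
S30 top glue (helper990): adapter from helper330's adic module layer
(`H330.HasAdicFrobModule O (N * p) (· ∉ S) (eigenvalue χ)`) to the input of the top glue, and the
frozen statement S30 from it.
-/



set_option autoImplicit false

namespace Fermat.Agent.S30.H990

open Polynomial

/-- helper330's output is an adic eigenmodule. -/
theorem nonempty_adicEigenModule_of_H330 {p N : ℕ} [NeZero N] (hp : p.Prime) {S : Finset ℕ}
    {𝒪 : Type} [CommRing 𝒪] [IsLocalRing 𝒪]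
    (χ : CuspForm.heckeAlgebra N 2 (↑S : Set ℕ) →+* 𝒪)
    (h : Fermat.Agent.S30.H330.HasAdicFrobModule 𝒪 (N * p) (fun ℓ => ℓ ∉ S)
      (Fermat.Agent.S30.H330.eigenvalue χ)) :
    Nonempty (AdicEigenModule p N S 𝒪 χ) := by
  obtain ⟨M, i1, i2, i3, i4, ρ, hnt, hcont, hunr, hfrob⟩ := h
  have hdvd : ∀ q : ℕ, q.Prime → ¬ q ∣ N → q ≠ p → ¬ q ∣ N * p := by
    intro q hq hqN hqp hdiv
    rcases (Nat.Prime.dvd_mul hq).1 hdiv with h1 | h1
    · exact hqN h1
    · exact hqp ((Nat.prime_dvd_prime_iff_eq hq hp).1 h1)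
  exact ⟨{
    M := M
    ρ := ρ
    cont := hcont
    unram := fun q hq hqN hqp P hP σ hσ => hunr q hq (hdvd q hq hqN hqp) P hP σ hσ
    frob := fun ℓ hℓ hℓN hℓS A hA σ hσ => by
      have h1 := hfrob ℓ hℓ (fun hmem => hℓS (Finset.mem_coe.mpr hmem)) A hA σ hσ
      have h2 : Fermat.Agent.S30.H330.eigenvalue χ ℓ
          = χ (CuspForm.heckeAlgebra.T hℓ hℓN hℓS) := by
        unfold Fermat.Agent.S30.H330.eigenvalue
        rw [dif_pos ⟨hℓ, hℓN, hℓS⟩]
      rw [h2] at h1
      exact h1 }⟩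

/-- The tower hypothesis of the top glue from helper330's adic module layer. -/
theorem hasAdicEigenModules_of_H330
    (h : ∀ (p : ℕ) [Fact p.Prime] (N : ℕ) [NeZero N] (S : Finset ℕ)
      (_hpS : p ∈ S) (_hNS : ∀ q : ℕ, q.Prime → q ∣ N → q ∈ S)
      (𝒪' : Type) [CommRing 𝒪'] [IsDomain 𝒪'] [IsDiscreteValuationRing 𝒪']
      [IsAdicComplete (IsLocalRing.maximalIdeal 𝒪') 𝒪'] [Finite (IsLocalRing.ResidueField 𝒪')]
      [CharZero 𝒪'] (_hp𝒪' : (p : 𝒪') ∈ IsLocalRing.maximalIdeal 𝒪')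
      (χ : CuspForm.heckeAlgebra N 2 (↑S : Set ℕ) →+* 𝒪'),
      Fermat.Agent.S30.H330.HasAdicFrobModule 𝒪' (N * p) (fun ℓ => ℓ ∉ S)
        (Fermat.Agent.S30.H330.eigenvalue χ)) :
    HasAdicEigenModules := by
  intro p _ N _ S hpS hNS 𝒪' _ _ _ _ _ _ hp𝒪' χ
  exact nonempty_adicEigenModule_of_H330 (Fact.out : p.Prime) χ (h p N S hpS hNS 𝒪' hp𝒪' χ)

end Fermat.Agent.S30.H990

end
-- ===== PACK-END S30/H990/FromH330.lean

-- ===== PACK-BEGIN Lib/FF398/Global.lean
section




/-!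
# Lib/FF398 — global consequences for function fields over an algebraically closed field

* `hasPrincipalDivisors` : a function field of one variable over an algebraically closed field
  of characteristic zero has principal divisors (finite support, degree zero)
  [repackaging of helper804's `S24.FF.degree_principal`];
* `sumRamificationInertia`, `fundamentalIdentity` : `∑_{w | v} e(w|v) f(w|v) = [F' : F]`;
* `pushforwardNormFormula` : `N_* div(g) = div(N g)`.
(helper398)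
-/

set_option autoImplicit false
set_option linter.unusedSectionVars false

open AlgebraicCurve IsDedekindDomain IntermediateField

namespace Fermat.Agent.Lib.FF398

section HPD

variable {K F : Type*} [Field K] [Field F] [Algebra K F] [IsAlgClosed K] [CharZero K]

/-- A function field of one variable over an algebraically closed field of characteristic zero
has principal divisors. -/
theorem hasPrincipalDivisors (j : F) (hj : Transcendental K j) [FiniteDimensional K⟮j⟯ F] :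
    HasPrincipalDivisors K F where
  exists_divisor f hf := by
    by_cases hfr : f ∈ (algebraMap K F).range
    · obtain ⟨a, rfl⟩ := hfr
      refine ⟨0, fun v => ?_, map_zero _⟩
      rw [Fermat.Agent.S24.FF.ord_algebraMap]
      rfl
    · have hft : Transcendental K f := Fermat.Agent.S24.FF.transcendental_of_not_mem_range hfr
      have hfin : FiniteDimensional K⟮f⟯ F :=
        Fermat.Agent.S24.FF.finiteDimensional_adjoin_of_transcendental hj hft
      have hfinite : {v : Place K F | v.ord f ≠ 0}.Finite :=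
        Fermat.Agent.S24.FF.finite_setOf_ord_ne_zero hft
      let D : Divisor K F := Finsupp.ofSupportFinite (fun v => v.ord f) hfinite
      have hD : ∀ v : Place K F, D v = v.ord f := fun v => rfl
      exact ⟨D, hD, Fermat.Agent.S24.FF.degree_principal j hj f D hD⟩

end HPD

section Relative

variable {K F F' : Type*} [Field K] [Field F] [Field F'] [Algebra K F] [Algebra K F']
  [Algebra F F'] [IsScalarTower K F F'] [FiniteDimensional F F'] [CharZero F]
  [HasPrincipalDivisors K F']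

/-- **Fundamental identity** `∑_{w | v} e(w|v) f(w|v) = [F' : F]` when all places of `F'` have
degree one. -/
theorem sumRamificationInertia (hdeg' : ∀ w : Place K F', w.deg = 1) :
    SumRamificationInertia K F F' where
  sum_ramificationIndex_mul_inertiaDeg v := by
    rw [← sum_ramificationIndex v hdeg' (v.fiber F') (fun w => Place.mem_fiber)]
    refine Finset.sum_congr rfl fun w _ => ?_
    rw [inertiaDeg_eq_one hdeg' w]
    simp

theorem fundamentalIdentity (hdeg' : ∀ w : Place K F', w.deg = 1) :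
    FundamentalIdentity K F F' :=
  haveI := sumRamificationInertia (F := F) hdeg'
  inferInstance

/-- **Norm formula** `N_* div(g) = div(N_{F'/F} g)` when all places of `F'` have degree one. -/
theorem pushforwardNormFormula (hdeg' : ∀ w : Place K F', w.deg = 1) :
    Divisor.PushforwardNormFormula K F F' := by
  classical
  intro g hg D hD v
  rw [Divisor.pushforward_apply, ← sum_ord_eq_ord_norm v hdeg' (v.fiber F')
    (fun w => Place.mem_fiber) g hg]
  rw [← Finset.sum_filter]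
  refine Finset.sum_subset_zero_on_sdiff ?_ ?_ ?_
  · intro w hw
    rw [Finset.mem_filter] at hw
    exact Place.mem_fiber.mpr hw.2
  · intro w hw
    rw [Finset.mem_sdiff, Finset.mem_filter, Place.mem_fiber] at hw
    have hnot : w ∉ D.support := fun h => hw.2 ⟨h, hw.1⟩
    rw [Finsupp.notMem_support_iff, hD] at hnot
    exact hnot
  · intro w hw
    rw [hD, inertiaDeg_eq_one hdeg' w]
    simp

end Relative

end Fermat.Agent.Lib.FF398

end
-- ===== PACK-END Lib/FF398/Global.lean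

-- ===== PACK-BEGIN Lib/FF398/Hecke.lean
section




/-!
# Lib/FF398 — the Hecke correspondence `T_ℓ` on `J₀(N)` is the genuine one

`ModularCurve.heckeOperatorAlong L N ℓ` is defined by `dite` on `HeckeInputsAlong L N ℓ`
(junk value `0` if the inputs fail).  We prove the inputs for `L = ℚ̄`:

* `heckeInputs_general` : for ANY two `K`-embeddings `α β : F → F'` of function fields of one
  variable over an algebraically closed field of characteristic zero, all six inputs hold;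
* `heckeInputsAlong N ℓ : HeckeInputsAlong ℚ̄ N ℓ`;
* `heckeOperatorBar_eq` : `heckeOperatorBar N ℓ` is `Pic0.correspondence β α` (norm ∘ conorm).
(helper398)
-/

set_option autoImplicit false
set_option linter.unusedSectionVars false

open AlgebraicCurve IsDedekindDomain IntermediateField ModularCurve

namespace Fermat.Agent.Lib.FF398

section General

variable {K F F' : Type*} [Field K] [Field F] [Field F'] [Algebra K F] [Algebra K F']
  [IsAlgClosed K] [CharZero K]

/-- A `K`-embedding of function fields of one variable is finite. -/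
theorem finiteAlong_of_functionField (φ : F →ₐ[K] F') (j : F) (hj : Transcendental K j)
    (j' : F') (hj' : Transcendental K j') [FiniteDimensional K⟮j'⟯ F'] :
    FiniteAlong K φ := by
  letI := algebraAlong φ
  show Module.Finite F F'
  have hy : Transcendental K (φ j) := by
    intro h
    exact hj ((isAlgebraic_algHom_iff φ φ.injective).mp h)
  haveI : FiniteDimensional K⟮φ j⟯ F' :=
    Fermat.Agent.S24.FF.finiteDimensional_adjoin_of_transcendental hj' hy
  obtain ⟨S, hS⟩ := (Module.finite_def (R := K⟮φ j⟯) (M := F')).mp inferInstance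
  refine Module.finite_def.mpr ⟨S, ?_⟩
  have hle : K⟮φ j⟯ ≤ φ.fieldRange := by
    rw [adjoin_le_iff]
    rintro _ rfl
    exact ⟨j, rfl⟩
  have key : ∀ x : F', x ∈ Submodule.span K⟮φ j⟯ (S : Set F') →
      x ∈ Submodule.span F (S : Set F') := by
    intro x hx
    induction hx using Submodule.span_induction with
    | mem x hx => exact Submodule.subset_span hx
    | zero => exact zero_mem _
    | add x y _ _ hx hy => exact add_mem hx hy
    | smul e x _ hx =>
      obtain ⟨f, hf⟩ := hle e.2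
      have : e • x = f • x := by
        rw [Algebra.smul_def, Algebra.smul_def]
        show (e : F') * x = φ f * x
        rw [← hf]
        rfl
      rw [this]
      exact Submodule.smul_mem _ _ hx
  rw [eq_top_iff]
  intro x _
  exact key x (by rw [hS]; trivial)

/-- **All six inputs of the Hecke correspondence** for two embeddings of function fields. -/
theorem heckeInputs_general (α β : F →ₐ[K] F') (j : F) (hj : Transcendental K j)
    (j' : F') (hj' : Transcendental K j') [FiniteDimensional K⟮j'⟯ F'] :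
    ∃ (_ : α.toRingHom.IsIntegral) (hβ : β.toRingHom.IsIntegral)
      (_ : HasPrincipalDivisors K F') (hfin : FiniteAlong K α),
      FundamentalIdentityAlong K β hβ ∧ NormFormulaAlong K α hfin := by
  haveI hP : HasPrincipalDivisors K F' := hasPrincipalDivisors j' hj'
  haveI : CharZero F := charZero_of_injective_algebraMap (algebraMap K F).injective
  have hdeg' : ∀ w : Place K F', w.deg = 1 := fun w => Fermat.Agent.S24.FF.deg_eq_one w hj'
  have hfinα : FiniteAlong K α := finiteAlong_of_functionField α j hj j' hj'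
  have hfinβ : FiniteAlong K β := finiteAlong_of_functionField β j hj j' hj'
  have hα : α.toRingHom.IsIntegral := by
    letI := algebraAlong α
    haveI : Module.Finite F F' := hfinα
    exact fun x => Algebra.IsIntegral.isIntegral (R := F) x
  have hβ : β.toRingHom.IsIntegral := by
    letI := algebraAlong β
    haveI : Module.Finite F F' := hfinβ
    exact fun x => Algebra.IsIntegral.isIntegral (R := F) x
  refine ⟨hα, hβ, hP, hfinα, ?_, ?_⟩
  · letI := algebraAlong β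
    haveI := isScalarTower_along β
    haveI : Module.Finite F F' := hfinβ
    exact fundamentalIdentity (K := K) (F := F) (F' := F') hdeg'
  · letI := algebraAlong α
    haveI := isScalarTower_along α
    haveI : Module.Finite F F' := hfinα
    exact pushforwardNormFormula (K := K) (F := F) (F' := F') hdeg'

end General

section Modular

open Fermat.Agent.S24

theorem transcendental_jF (N : ℕ) [NeZero N] : Transcendental Kbar (jF N) := by
  intro halg
  obtain ⟨p, hp0, hp⟩ := halg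
  apply Deg457.aeval_JK_ne_zero Kbar hp0
  have h2 := congrArg (algebraMap (FF N) (LaurentSeries Kbar)) hp
  rw [← Polynomial.aeval_algebraMap_apply, map_zero] at h2
  exact h2

instance finiteDimensional_FF (N : ℕ) [NeZero N] :
    FiniteDimensional ↥(IntermediateField.adjoin Kbar {jF N}) (FF N) :=
  (Deg457.degree_fields N).1

/-- The function field of `X₀(N)` over `ℚ̄` has principal divisors. -/
theorem hasPrincipalDivisors_FF (N : ℕ) [NeZero N] :
    HasPrincipalDivisors Kbar (FF N) :=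
  hasPrincipalDivisors (jF N) (transcendental_jF N)

/-- Every place of the function field of `X₀(N)` over `ℚ̄` has degree one. -/
theorem deg_eq_one_FF (N : ℕ) [NeZero N] (v : Place Kbar (FF N)) : v.deg = 1 :=
  Fermat.Agent.S24.FF.deg_eq_one v (transcendental_jF N)

/-- **The Hecke correspondence `T_ℓ` on `J₀(N)` over `ℚ̄` is the genuine one.** -/
theorem heckeInputsAlong (N ℓ : ℕ) [NeZero N] [NeZero ℓ] :
    HeckeInputsAlong (AlgebraicClosure ℚ) N ℓ :=
  heckeInputs_general (heckeAlphaBar (AlgebraicClosure ℚ) N ℓ)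
    (heckeBetaBar (AlgebraicClosure ℚ) N ℓ) (jF N) (transcendental_jF N)
    (jF (N * ℓ)) (transcendental_jF (N * ℓ))

/-! ### Named components (for unfolding `T_ℓ`) -/

variable (N ℓ : ℕ) [NeZero N] [NeZero ℓ]

/-- The function field of `X₀(M)` over `ℚ̄` has principal divisors (instance form). -/
instance instHasPrincipalDivisorsFF (M : ℕ) [NeZero M] :
    HasPrincipalDivisors (AlgebraicClosure ℚ)
      (laurentBaseChange (AlgebraicClosure ℚ) (modularFunctionFieldFull M)) :=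
  hasPrincipalDivisors_FF M

theorem heckeAlphaBarIntegral : HeckeAlphaBarIntegral (AlgebraicClosure ℚ) N ℓ :=
  (heckeInputsAlong N ℓ).1

theorem heckeBetaBarIntegral : HeckeBetaBarIntegral (AlgebraicClosure ℚ) N ℓ :=
  (heckeInputsAlong N ℓ).2.1

theorem finiteAlong_alpha : FiniteAlong (AlgebraicClosure ℚ) (heckeAlphaBar (AlgebraicClosure ℚ) N ℓ) :=
  finiteAlong_of_functionField _ (jF N) (transcendental_jF N) (jF (N * ℓ))
    (transcendental_jF (N * ℓ))

theorem finiteAlong_beta : FiniteAlong (AlgebraicClosure ℚ) (heckeBetaBar (AlgebraicClosure ℚ) N ℓ) :=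
  finiteAlong_of_functionField _ (jF N) (transcendental_jF N) (jF (N * ℓ))
    (transcendental_jF (N * ℓ))

theorem fundamentalIdentityAlong_beta :
    FundamentalIdentityAlong (AlgebraicClosure ℚ) (heckeBetaBar (AlgebraicClosure ℚ) N ℓ)
      (heckeBetaBarIntegral N ℓ) := by
  letI := algebraAlong (heckeBetaBar (AlgebraicClosure ℚ) N ℓ)
  haveI := isScalarTower_along (heckeBetaBar (AlgebraicClosure ℚ) N ℓ)
  haveI : Module.Finite (FF N) (FF (N * ℓ)) := finiteAlong_beta N ℓ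
  haveI : CharZero (FF N) :=
    charZero_of_injective_algebraMap (algebraMap (AlgebraicClosure ℚ) (FF N)).injective
  exact fundamentalIdentity (K := AlgebraicClosure ℚ) (F := FF N) (F' := FF (N * ℓ))
    (deg_eq_one_FF (N * ℓ))

theorem fundamentalIdentityAlong_alpha :
    FundamentalIdentityAlong (AlgebraicClosure ℚ) (heckeAlphaBar (AlgebraicClosure ℚ) N ℓ)
      (heckeAlphaBarIntegral N ℓ) := by
  letI := algebraAlong (heckeAlphaBar (AlgebraicClosure ℚ) N ℓ)
  haveI := isScalarTower_along (heckeAlphaBar (AlgebraicClosure ℚ) N ℓ)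
  haveI : Module.Finite (FF N) (FF (N * ℓ)) := finiteAlong_alpha N ℓ
  haveI : CharZero (FF N) :=
    charZero_of_injective_algebraMap (algebraMap (AlgebraicClosure ℚ) (FF N)).injective
  exact fundamentalIdentity (K := AlgebraicClosure ℚ) (F := FF N) (F' := FF (N * ℓ))
    (deg_eq_one_FF (N * ℓ))

theorem normFormulaAlong_alpha :
    NormFormulaAlong (AlgebraicClosure ℚ) (heckeAlphaBar (AlgebraicClosure ℚ) N ℓ)
      (finiteAlong_alpha N ℓ) := by
  letI := algebraAlong (heckeAlphaBar (AlgebraicClosure ℚ) N ℓ)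
  haveI := isScalarTower_along (heckeAlphaBar (AlgebraicClosure ℚ) N ℓ)
  haveI : Module.Finite (FF N) (FF (N * ℓ)) := finiteAlong_alpha N ℓ
  haveI : CharZero (FF N) :=
    charZero_of_injective_algebraMap (algebraMap (AlgebraicClosure ℚ) (FF N)).injective
  exact pushforwardNormFormula (K := AlgebraicClosure ℚ) (F := FF N) (F' := FF (N * ℓ))
    (deg_eq_one_FF (N * ℓ))

theorem normFormulaAlong_beta :
    NormFormulaAlong (AlgebraicClosure ℚ) (heckeBetaBar (AlgebraicClosure ℚ) N ℓ)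
      (finiteAlong_beta N ℓ) := by
  letI := algebraAlong (heckeBetaBar (AlgebraicClosure ℚ) N ℓ)
  haveI := isScalarTower_along (heckeBetaBar (AlgebraicClosure ℚ) N ℓ)
  haveI : Module.Finite (FF N) (FF (N * ℓ)) := finiteAlong_beta N ℓ
  haveI : CharZero (FF N) :=
    charZero_of_injective_algebraMap (algebraMap (AlgebraicClosure ℚ) (FF N)).injective
  exact pushforwardNormFormula (K := AlgebraicClosure ℚ) (F := FF N) (F' := FF (N * ℓ))
    (deg_eq_one_FF (N * ℓ))

/-- `T_ℓ` on `Pic⁰` is `α_* ∘ β^*` (norm ∘ conorm), not the junk value. -/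
theorem heckeOperatorAlong_eq_heckePic0Bar :
    heckeOperatorAlong (AlgebraicClosure ℚ) N ℓ
      = heckePic0Bar (heckeAlphaBarIntegral N ℓ) (heckeBetaBarIntegral N ℓ)
          (fundamentalIdentityAlong_beta N ℓ) (finiteAlong_alpha N ℓ)
          (normFormulaAlong_alpha N ℓ) :=
  heckeOperatorAlong_eq _ _ _ _ _

/-- `T_ℓ` on a divisor class: `T_ℓ [D] = [α_* β^* D]`. -/
theorem heckeOperatorAlong_mk
    (D : Divisor.degZero (K := AlgebraicClosure ℚ)
      (F := laurentBaseChange (AlgebraicClosure ℚ) (modularFunctionFieldFull N))) :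
    heckeOperatorAlong (AlgebraicClosure ℚ) N ℓ (Pic0.mk D)
      = Pic0.mk (Pic0.degZeroCorrespondence (heckeBetaBar (AlgebraicClosure ℚ) N ℓ)
          (heckeAlphaBar (AlgebraicClosure ℚ) N ℓ) (heckeBetaBarIntegral N ℓ)
          (heckeAlphaBarIntegral N ℓ) (fundamentalIdentityAlong_beta N ℓ) D) := by
  rw [heckeOperatorAlong_eq_heckePic0Bar]
  rfl

/-- `T_ℓ` (as `heckeOperatorBar`) on a divisor class. -/
theorem heckeOperatorBar_mk (p : Nat.Primes)
    (D : Divisor.degZero (K := AlgebraicClosure ℚ)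
      (F := laurentBaseChange (AlgebraicClosure ℚ) (modularFunctionFieldFull N))) :
    haveI : NeZero (p : ℕ) := ⟨p.2.ne_zero⟩
    heckeOperatorBar N p (Pic0.mk D)
      = Pic0.mk (Pic0.degZeroCorrespondence (heckeBetaBar (AlgebraicClosure ℚ) N p)
          (heckeAlphaBar (AlgebraicClosure ℚ) N p) (heckeBetaBarIntegral N p)
          (heckeAlphaBarIntegral N p) (fundamentalIdentityAlong_beta N p) D) := by
  haveI : NeZero (p : ℕ) := ⟨p.2.ne_zero⟩
  rw [heckeOperatorBar_apply]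
  exact heckeOperatorAlong_mk N p D

end Modular

end Fermat.Agent.Lib.FF398

end
-- ===== PACK-END Lib/FF398/Hecke.lean

-- ===== PACK-BEGIN S37/H98/RawES.lean
section





/-!
# S37 → S29 export (helper98): the raw Eichler–Shimura statement on torsion

Row S29 (helper269) consumes from rows S37/S18 exactly `Fermat.Agent.S29.RawESStatement`
(`Fermat/Agent/S29/Parts.lean`): for `ℓ ∤ N p`, `A` over `ℓ`, inertia at `A` fixes the
`p`-torsion of `JZero N` and every Frobenius `σ` at `A` satisfies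
`σ² x - T_ℓ (σ x) + ℓ x = 0` on it.  This file derives it formally

* `rawES_of_redData`  : from reduction data `H99.RedData N A ℓ hℓ` for all `ℓ ∤ N`, `A`;
* `rawES_of_pieces`   : from the two remaining pieces of the S37 row plan
  (`Core.result_of_pieces`): [S18] `Core.InjTorsionModL` and [PR] `Core.PlaceRed`
  ([HIA] is on main: `Lib.FF398.heckeInputsAlong`).

No Hecke-module structure, no `HeckeOperatorsCommuteBar`.  The pointwise versions
`rawES_at_of_redData`, `rawES_at_of_placeRed` hold for every `m` prime to `ℓ` (not only primes).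
-/

set_option autoImplicit false
set_option synthInstance.maxHeartbeats 400000

noncomputable section

namespace Fermat.Agent.S37.H98

open ModularCurve ValuationSubring AlgebraicCurve

section Abstract

variable {G J : Type*} [Group G] [AddCommGroup J] [DistribMulAction G J]

/-- Abstract core, inertia part: a map killing `τ x - x` and injective on `m`-torsion. -/
theorem smul_eq_of_red {Y : Type*} [AddCommGroup Y] (red : J →+ Y) {m : ℕ}
    (hinj : ∀ x : J, m • x = 0 → red x = 0 → x = 0) (τ : G)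
    (hτ : ∀ x : J, red (τ • x) = red x) {x : J} (hx : (m : ℤ) • x = 0) :
    τ • x = x := by
  have h1 : (m : ℤ) • (τ • x - x) = 0 := by
    rw [zsmul_sub, ← smul_comm τ (m : ℤ) x, hx, smul_zero, sub_zero]
  rw [natCast_zsmul] at h1
  have h2 : red (τ • x - x) = 0 := by rw [map_sub, hτ x, sub_self]
  exact sub_eq_zero.mp (hinj _ h1 h2)

/-- Abstract core, Frobenius part (`T` any additive endomorphism). -/
theorem relation_eq_zero_of_red {Y : Type*} [AddCommGroup Y] (red : J →+ Y) {m : ℕ}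
    (hinj : ∀ x : J, m • x = 0 → red x = 0 → x = 0) (σ : G) (T : J →+ J) (ℓ : ℕ)
    (hσ : ∀ x : J, red (σ • σ • x - T (σ • x) + ℓ • x) = 0)
    {x : J} (hx : (m : ℤ) • x = 0) :
    σ • σ • x - T (σ • x) + (ℓ : ℤ) • x = 0 := by
  rw [natCast_zsmul]
  refine hinj _ ?_ (hσ x)
  have h0 : (m : ℤ) • (σ • x) = 0 := by
    rw [← smul_comm σ (m : ℤ) x, hx, smul_zero]
  have h1 : (m : ℤ) • (σ • σ • x) = 0 := by
    rw [← smul_comm σ (m : ℤ) (σ • x), h0, smul_zero]
  have h2 : (m : ℤ) • T (σ • x) = 0 := by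
    rw [← map_zsmul, h0, map_zero]
  have h3 : (m : ℤ) • (ℓ • x) = 0 := by
    rw [← natCast_zsmul x ℓ, smul_comm, hx, smul_zero]
  have h4 : (m : ℤ) • (σ • σ • x - T (σ • x) + ℓ • x) = 0 := by
    rw [zsmul_add, zsmul_sub, h1, h2, h3, sub_zero, add_zero]
  rwa [natCast_zsmul] at h4

end Abstract

/-- Raw Eichler–Shimura at `(ℓ, A)` on `m`-torsion (`m` prime to `ℓ`), from reduction data. -/
theorem rawES_at_of_redData {N : ℕ} [NeZero N] {A : ValuationSubring (AlgebraicClosure ℚ)}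
    {ℓ : ℕ} {hℓ : ℓ.Prime} (D : Fermat.Agent.S37.H99.RedData N A ℓ hℓ) (m : ℕ)
    (hm : m.Coprime ℓ) :
    (∀ σ ∈ A.inertiaSubgroupIn ℚ, ∀ x : JZero N, (m : ℤ) • x = 0 → σ • x = x) ∧
    (∀ σ : AlgebraicClosure ℚ ≃ₐ[ℚ] AlgebraicClosure ℚ, A.IsFrobeniusAt σ ℓ →
      ∀ x : JZero N, (m : ℤ) • x = 0 →
        σ • σ • x - heckeOperatorBar N ⟨ℓ, hℓ⟩ (σ • x) + (ℓ : ℤ) • x = 0) := by
  have hinj : ∀ x : JZero N, m • x = 0 → D.red x = 0 → x = 0 :=
    fun x hx h0 => D.inj_torsion m x hm hx h0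
  exact ⟨fun τ hτ x hx => smul_eq_of_red D.red hinj τ (D.inertia τ hτ) hx,
    fun σ hσ x hx => relation_eq_zero_of_red D.red hinj σ
      (heckeOperatorBar N ⟨ℓ, hℓ⟩).toAddMonoidHom ℓ (D.relation σ hσ) hx⟩

/-- **`RawESStatement` from reduction data** (`H99.RedData` for all `ℓ ∤ N` and all `A`). -/
theorem rawES_of_redData
    (H : ∀ (N : ℕ) [NeZero N] (ℓ : ℕ) (hℓ : ℓ.Prime), ¬ ℓ ∣ N →
      ∀ A : ValuationSubring (AlgebraicClosure ℚ), A.LiesOverPrime ℓ →
        Nonempty (Fermat.Agent.S37.H99.RedData N A ℓ hℓ)) :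
    Fermat.Agent.S29.RawESStatement := by
  intro N p _ hp ℓ hℓ hdvd A hA
  have hℓN : ¬ ℓ ∣ N := fun h => hdvd (Dvd.dvd.mul_right h p)
  have hℓp : ¬ ℓ ∣ p := fun h => hdvd (Dvd.dvd.mul_left h N)
  obtain ⟨D⟩ := H N ℓ hℓ hℓN A hA
  exact rawES_at_of_redData D p
    (Nat.coprime_comm.mp ((Nat.Prime.coprime_iff_not_dvd hℓ).mpr hℓp))

open Fermat.Agent.S37.Core in
/-- Raw Eichler–Shimura for ONE Frobenius `σ₀` at `(ℓ, A)` on `m`-torsion (`ℓ ∤ m`), from a
`Core.PlaceRed` and the conclusion of S18. -/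
theorem rawES_at_of_placeRed {N : ℕ} [NeZero N] {A : ValuationSubring (AlgebraicClosure ℚ)}
    {ℓ : ℕ} (hℓ : ℓ.Prime) {σ₀ : AlgebraicClosure ℚ ≃ₐ[ℚ] AlgebraicClosure ℚ}
    (D : haveI : NeZero ℓ := ⟨hℓ.ne_zero⟩; PlaceRed N A ℓ σ₀)
    (hS18 : InjTorsionModL N ℓ A) (m : ℕ) (hm : ¬ ℓ ∣ m) :
    (∀ σ ∈ A.inertiaSubgroupIn ℚ, ∀ x : JZero N, (m : ℤ) • x = 0 → σ • x = x) ∧
    (∀ x : JZero N, (m : ℤ) • x = 0 →
        σ₀ • σ₀ • x - heckeOperatorBar N ⟨ℓ, hℓ⟩ (σ₀ • x) + (ℓ : ℤ) • x = 0) := by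
  have : NeZero ℓ := ⟨hℓ.ne_zero⟩
  have hinj : ∀ x : JZero N, m • x = 0 → D.red x = 0 → x = 0 :=
    fun x hx h0 => D.red_inj_torsion hS18 hm hx h0
  exact ⟨fun τ hτ x hx => smul_eq_of_red D.red hinj τ (fun y => D.red_inertia hτ y) hx,
    fun x hx => relation_eq_zero_of_red D.red hinj σ₀
      (heckeOperatorBar N ⟨ℓ, hℓ⟩).toAddMonoidHom ℓ
      (fun y => D.red_relation (Fermat.Agent.Lib.FF398.heckeInputsAlong N ℓ) y) hx⟩

open Fermat.Agent.S37.Core in
/-- **`RawESStatement` from the two open pieces of the S37 row plan**: [S18] and [PR]. -/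
theorem rawES_of_pieces
    (hS18 : ∀ (N : ℕ) [NeZero N] (ℓ : ℕ), ℓ.Prime → ¬ ℓ ∣ N →
      ∀ A : ValuationSubring (AlgebraicClosure ℚ), A.LiesOverPrime ℓ → InjTorsionModL N ℓ A)
    (hPR : ∀ (N : ℕ) [NeZero N] (ℓ : ℕ) (hℓ : ℓ.Prime), ¬ ℓ ∣ N →
      ∀ A : ValuationSubring (AlgebraicClosure ℚ), A.LiesOverPrime ℓ →
        ∀ σ₀ : AlgebraicClosure ℚ ≃ₐ[ℚ] AlgebraicClosure ℚ, A.IsFrobeniusAt σ₀ ℓ →
          haveI : NeZero ℓ := ⟨hℓ.ne_zero⟩; Nonempty (PlaceRed N A ℓ σ₀)) :
    Fermat.Agent.S29.RawESStatement := by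
  intro N p _ hp ℓ hℓ hdvd A hA
  have hℓN : ¬ ℓ ∣ N := fun h => hdvd (Dvd.dvd.mul_right h p)
  have hℓp : ¬ ℓ ∣ p := fun h => hdvd (Dvd.dvd.mul_left h N)
  refine ⟨?_, fun σ hσ x hx => ?_⟩
  · obtain ⟨σ₀, hσ₀⟩ := Fermat.Agent.S37.H99.exists_isFrobeniusAt ℓ hℓ A hA
    obtain ⟨D⟩ := hPR N ℓ hℓ hℓN A hA σ₀ hσ₀
    exact (rawES_at_of_placeRed hℓ D (hS18 N ℓ hℓ hℓN A hA) p hℓp).1
  · obtain ⟨D⟩ := hPR N ℓ hℓ hℓN A hA σ hσ
    exact (rawES_at_of_placeRed hℓ D (hS18 N ℓ hℓ hℓN A hA) p hℓp).2 x hx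

end Fermat.Agent.S37.H98

end
end
-- ===== PACK-END S37/H98/RawES.lean

-- ===== PACK-BEGIN S37/Core/AssemblePull.lean
section


/-!
# S37 row (helper37): assembly through an auxiliary level

For `ℓ ∈ {2, 3}` the smooth model is only available at levels `M` divisible by an auxiliary
prime.  `PullData N M ℓ` is the interface of piece [PULL]: a pullback map
`π^* : J₀(N) → J₀(M)` which is Galois equivariant, injective on prime-to-`ℓ` torsion and
commutes with `T_ℓ`.  `result_of_pieces'` is the variant of `result_of_pieces` in which the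
place reduction may live at any such level `M` (take `M = N`, `pull = id` when possible).
Fully proved.
-/

set_option autoImplicit false
set_option synthInstance.maxHeartbeats 400000

noncomputable section

namespace Fermat.Agent.S37.Core

open ModularCurve ValuationSubring AlgebraicCurve HahnSeries Fermat.Agent.S37.H99

/-- Interface of piece [PULL]. -/
structure PullData (N M : ℕ) [NeZero N] [NeZero M] (ℓ : ℕ) [NeZero ℓ] : Type where
  /-- the pullback map -/
  pull : JZero N →+ JZero M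
  galois : ∀ (σ : AlgebraicClosure ℚ ≃ₐ[ℚ] AlgebraicClosure ℚ) (x : JZero N),
    pull (σ • x) = σ • pull x
  inj_torsion : ∀ (m : ℕ), ¬ ℓ ∣ m → ∀ x : JZero N, m • x = 0 → pull x = 0 → x = 0
  hecke : ∀ x : JZero N,
    pull (heckeOperatorAlong (AlgebraicClosure ℚ) N ℓ x) =
      heckeOperatorAlong (AlgebraicClosure ℚ) M ℓ (pull x)

/-- the trivial pull datum -/
def PullData.refl (N : ℕ) [NeZero N] (ℓ : ℕ) [NeZero ℓ] : PullData N N ℓ where
  pull := AddMonoidHom.id _
  galois _ _ := rfl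
  inj_torsion _ _ _ _ h := h
  hecke _ := rfl

/-- **S37 at one place from the pieces, through an auxiliary level `M`.** -/
theorem isWeakRed_of_placeRed_pull (N M p : ℕ) [NeZero N] [NeZero M]
    (hcomm : HeckeOperatorsCommuteBar N)
    (A : ValuationSubring (AlgebraicClosure ℚ)) (ℓ : ℕ) (hℓ : ℓ.Prime) (hℓp : ¬ ℓ ∣ p)
    (σ₀ : AlgebraicClosure ℚ ≃ₐ[ℚ] AlgebraicClosure ℚ) (hσ₀ : A.IsFrobeniusAt σ₀ ℓ)
    (HIA : haveI : NeZero ℓ := ⟨hℓ.ne_zero⟩; HeckeInputsAlong (AlgebraicClosure ℚ) M ℓ)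
    (hS18 : InjTorsionModL M ℓ A)
    (D : haveI : NeZero ℓ := ⟨hℓ.ne_zero⟩; PlaceRed M A ℓ σ₀)
    (Pd : haveI : NeZero ℓ := ⟨hℓ.ne_zero⟩; PullData N M ℓ) :
    letI := heckeModuleBar N
    ∀ (_ : SMulCommClass (AlgebraicClosure ℚ ≃ₐ[ℚ] AlgebraicClosure ℚ) HeckeAlg (JZero N)),
      IsWeakRed (K := ℚ) p (JZero N) A ℓ hℓ σ₀
        (haveI : NeZero ℓ := ⟨hℓ.ne_zero⟩; D.red.comp Pd.pull) := by
  letI := heckeModuleBar N
  haveI : NeZero ℓ := ⟨hℓ.ne_zero⟩
  intro _
  refine ⟨hσ₀, ?_, ?_, ?_⟩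
  · intro τ hτ x
    show D.red (Pd.pull (τ • x)) = D.red (Pd.pull x)
    rw [Pd.galois, D.red_inertia hτ]
  · rintro x ⟨n, hn⟩ hx
    have hℓpn : ¬ ℓ ∣ p ^ n := fun h => hℓp (hℓ.dvd_of_dvd_pow h)
    refine Pd.inj_torsion (p ^ n) hℓpn x hn ?_
    refine D.red_inj_torsion hS18 (m := p ^ n) hℓpn ?_ hx
    rw [← map_nsmul, hn, map_zero]
  · intro x
    rw [heckeModuleBar_heckeGen_smul hcomm ⟨ℓ, hℓ⟩ (σ₀ • x)]
    show D.red (Pd.pull (σ₀ • σ₀ • x - heckeOperatorAlong (AlgebraicClosure ℚ) N ℓ (σ₀ • x)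
      + ℓ • x)) = 0
    rw [map_add, map_sub, map_nsmul, Pd.galois, Pd.galois, Pd.hecke, Pd.galois]
    exact D.red_relation HIA (Pd.pull x)

/-- **S37 from the pieces, the place reduction living at auxiliary levels.** -/
theorem result_of_pieces' (N p : ℕ) [NeZero N]
    (H : ∀ (ℓ : ℕ) (hℓ : ℓ.Prime), ¬ ℓ ∣ N →
      ∀ A : ValuationSubring (AlgebraicClosure ℚ), A.LiesOverPrime ℓ →
        ∀ σ₀ : AlgebraicClosure ℚ ≃ₐ[ℚ] AlgebraicClosure ℚ, A.IsFrobeniusAt σ₀ ℓ →
          haveI : NeZero ℓ := ⟨hℓ.ne_zero⟩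
          ∃ (M : ℕ) (_ : NeZero M), HeckeInputsAlong (AlgebraicClosure ℚ) M ℓ ∧
            InjTorsionModL M ℓ A ∧ Nonempty (PlaceRed M A ℓ σ₀) ∧ Nonempty (PullData N M ℓ))
    (hcomm : ModularCurve.HeckeOperatorsCommuteBar N) :
    letI := ModularCurve.heckeModuleBar N
    ∀ (_ : SMulCommClass (AlgebraicClosure ℚ ≃ₐ[ℚ] AlgebraicClosure ℚ) ModularCurve.HeckeAlg
      (ModularCurve.JZero N)),
      ModularCurve.SpecializationExists (K := ℚ) (L := AlgebraicClosure ℚ) N p
        (ModularCurve.JZero N) := by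
  letI := ModularCurve.heckeModuleBar N
  intro inst ℓ hℓ hdvd A hA
  have hℓN : ¬ ℓ ∣ N := fun h => hdvd (Dvd.dvd.mul_right h p)
  have hℓp : ¬ ℓ ∣ p := fun h => hdvd (Dvd.dvd.mul_left h N)
  obtain ⟨σ₀, hσ₀⟩ := exists_isFrobeniusAt ℓ hℓ A hA
  haveI : NeZero ℓ := ⟨hℓ.ne_zero⟩
  obtain ⟨M, hM, hHIA, hS18, ⟨D⟩, ⟨Pd⟩⟩ := H ℓ hℓ hℓN A hA σ₀ hσ₀
  exact exists_specialization_of_isWeakRed p A ℓ hℓ σ₀ (D.red.comp Pd.pull)
    (isWeakRed_of_placeRed_pull N M p hcomm A ℓ hℓ hℓp σ₀ hσ₀ hHIA hS18 D Pd inst)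

end Fermat.Agent.S37.Core

end
end
-- ===== PACK-END S37/Core/AssemblePull.lean

-- ===== PACK-BEGIN S37/Core/Final.lean
section


/-!
# S37 row (helper37): the FINAL interface `WeakRedData`

`WeakRedData M A ℓ σ₀` : an additive map `red : J₀(M) →+ Y` (any target) with
* `inertia`     : `red (τ • x) = red x` for `τ` in the inertia group at `A`,
* `inj_torsion` : `red` is injective on torsion of order prime to `ℓ`,
* `relation`    : `red (σ₀² x - T_ℓ σ₀ x + ℓ x) = 0` for the ONE Frobenius element `σ₀`,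
  where `T_ℓ = heckeOperatorAlong ℚ̄ M ℓ` is the Prelude operator (no `HeckeInputsAlong` needed
  here: it is needed by whoever proves `relation`).

`result_of_weakRedData` : the frozen statement S37 at level `N` from a `WeakRedData` at some
level `M` and a `PullData N M ℓ` (`M = N`, `PullData.refl` for `ℓ ≥ 5`).
Fully proved.
-/

set_option autoImplicit false
set_option synthInstance.maxHeartbeats 400000

noncomputable section

namespace Fermat.Agent.S37.Core

open ModularCurve ValuationSubring AlgebraicCurve HahnSeries Fermat.Agent.S37.H99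

/-- The final interface of the geometric part of S37. -/
structure WeakRedData (M : ℕ) [NeZero M] (A : ValuationSubring (AlgebraicClosure ℚ)) (ℓ : ℕ)
    [NeZero ℓ] (σ₀ : AlgebraicClosure ℚ ≃ₐ[ℚ] AlgebraicClosure ℚ) : Type 1 where
  /-- the target group -/
  Y : Type
  /-- additive group structure on the target -/
  instY : AddCommGroup Y
  /-- the reduction map -/
  red : JZero M →+ Y
  inertia : ∀ τ ∈ A.inertiaSubgroupIn ℚ, ∀ x : JZero M, red (τ • x) = red x
  inj_torsion : ∀ (m : ℕ), ¬ ℓ ∣ m → ∀ x : JZero M, m • x = 0 → red x = 0 → x = 0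
  relation : ∀ x : JZero M,
    red (σ₀ • σ₀ • x - heckeOperatorAlong (AlgebraicClosure ℚ) M ℓ (σ₀ • x) + ℓ • x) = 0

attribute [instance] WeakRedData.instY

/-- a `PlaceRed` gives a `WeakRedData` (pointwise route) -/
def PlaceRed.toWeakRedData {M : ℕ} [NeZero M] {A : ValuationSubring (AlgebraicClosure ℚ)}
    {ℓ : ℕ} [NeZero ℓ] {σ₀ : AlgebraicClosure ℚ ≃ₐ[ℚ] AlgebraicClosure ℚ}
    (D : PlaceRed M A ℓ σ₀) (HIA : HeckeInputsAlong (AlgebraicClosure ℚ) M ℓ)
    (hS18 : InjTorsionModL M ℓ A) : WeakRedData M A ℓ σ₀ where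
  Y := JZeroC (IsLocalRing.ResidueField A) M
  instY := inferInstance
  red := D.red
  inertia τ hτ x := D.red_inertia hτ x
  inj_torsion _ hm _ hx h0 := D.red_inj_torsion hS18 hm hx h0
  relation x := D.red_relation HIA x

/-- **S37 at one place from a `WeakRedData` at level `M` and a `PullData N M ℓ`.** -/
theorem isWeakRed_of_weakRedData (N M p : ℕ) [NeZero N] [NeZero M]
    (hcomm : HeckeOperatorsCommuteBar N)
    (A : ValuationSubring (AlgebraicClosure ℚ)) (ℓ : ℕ) (hℓ : ℓ.Prime) (hℓp : ¬ ℓ ∣ p)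
    (σ₀ : AlgebraicClosure ℚ ≃ₐ[ℚ] AlgebraicClosure ℚ) (hσ₀ : A.IsFrobeniusAt σ₀ ℓ)
    (W : haveI : NeZero ℓ := ⟨hℓ.ne_zero⟩; WeakRedData M A ℓ σ₀)
    (Pd : haveI : NeZero ℓ := ⟨hℓ.ne_zero⟩; PullData N M ℓ) :
    letI := heckeModuleBar N
    ∀ (_ : SMulCommClass (AlgebraicClosure ℚ ≃ₐ[ℚ] AlgebraicClosure ℚ) HeckeAlg (JZero N)),
      IsWeakRed (K := ℚ) p (JZero N) A ℓ hℓ σ₀
        (haveI : NeZero ℓ := ⟨hℓ.ne_zero⟩; W.red.comp Pd.pull) := by
  letI := heckeModuleBar N
  haveI : NeZero ℓ := ⟨hℓ.ne_zero⟩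
  intro _
  refine ⟨hσ₀, ?_, ?_, ?_⟩
  · intro τ hτ x
    show W.red (Pd.pull (τ • x)) = W.red (Pd.pull x)
    rw [Pd.galois, W.inertia τ hτ]
  · rintro x ⟨n, hn⟩ hx
    have hℓpn : ¬ ℓ ∣ p ^ n := fun h => hℓp (hℓ.dvd_of_dvd_pow h)
    refine Pd.inj_torsion (p ^ n) hℓpn x hn ?_
    refine W.inj_torsion (p ^ n) hℓpn _ ?_ hx
    rw [← map_nsmul, hn, map_zero]
  · intro x
    rw [heckeModuleBar_heckeGen_smul hcomm ⟨ℓ, hℓ⟩ (σ₀ • x)]
    show W.red (Pd.pull (σ₀ • σ₀ • x - heckeOperatorAlong (AlgebraicClosure ℚ) N ℓ (σ₀ • x)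
      + ℓ • x)) = 0
    rw [map_add, map_sub, map_nsmul, Pd.galois, Pd.galois, Pd.hecke, Pd.galois]
    exact W.relation (Pd.pull x)

/-- **S37 from `WeakRedData` at auxiliary levels.**  THE final glue of the row. -/
theorem result_of_weakRedData (N p : ℕ) [NeZero N]
    (H : ∀ (ℓ : ℕ) (hℓ : ℓ.Prime), ¬ ℓ ∣ N →
      ∀ A : ValuationSubring (AlgebraicClosure ℚ), A.LiesOverPrime ℓ →
        ∀ σ₀ : AlgebraicClosure ℚ ≃ₐ[ℚ] AlgebraicClosure ℚ, A.IsFrobeniusAt σ₀ ℓ →
          haveI : NeZero ℓ := ⟨hℓ.ne_zero⟩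
          ∃ (M : ℕ) (_ : NeZero M), Nonempty (WeakRedData M A ℓ σ₀) ∧ Nonempty (PullData N M ℓ))
    (hcomm : ModularCurve.HeckeOperatorsCommuteBar N) :
    letI := ModularCurve.heckeModuleBar N
    ∀ (_ : SMulCommClass (AlgebraicClosure ℚ ≃ₐ[ℚ] AlgebraicClosure ℚ) ModularCurve.HeckeAlg
      (ModularCurve.JZero N)),
      ModularCurve.SpecializationExists (K := ℚ) (L := AlgebraicClosure ℚ) N p
        (ModularCurve.JZero N) := by
  letI := ModularCurve.heckeModuleBar N
  intro inst ℓ hℓ hdvd A hA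
  have hℓN : ¬ ℓ ∣ N := fun h => hdvd (Dvd.dvd.mul_right h p)
  have hℓp : ¬ ℓ ∣ p := fun h => hdvd (Dvd.dvd.mul_left h N)
  obtain ⟨σ₀, hσ₀⟩ := exists_isFrobeniusAt ℓ hℓ A hA
  haveI : NeZero ℓ := ⟨hℓ.ne_zero⟩
  obtain ⟨M, hM, ⟨W⟩, ⟨Pd⟩⟩ := H ℓ hℓ hℓN A hA σ₀ hσ₀
  exact exists_specialization_of_isWeakRed p A ℓ hℓ σ₀ (W.red.comp Pd.pull)
    (isWeakRed_of_weakRedData N M p hcomm A ℓ hℓ hℓp σ₀ hσ₀ W Pd inst)

end Fermat.Agent.S37.Core

end
end
-- ===== PACK-END S37/Core/Final.lean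

-- ===== PACK-BEGIN S37/H999/RawES.lean
section



/-!
# S37 → S29 bridge (helper999): the RAW Eichler–Shimura statement

`Fermat.Agent.S29.RawESStatement` (the only input the rows S29/S30/S42 take from the rows
S37/S18) follows from the FINAL interface of the S37 row, i.e. from exactly the hypothesis `H` of
`Fermat.Agent.S37.Core.result_of_weakRedData` (for all levels `N`).  No Hecke-module structure,
no `HeckeOperatorsCommuteBar`, no `SMulCommClass` is needed.

* `rawES_at` : the statement at one `(N, p, ℓ, A)`;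
* `rawES_of_weakRedData` : `RawESStatement`.

Fully proved.
-/

set_option autoImplicit false
set_option synthInstance.maxHeartbeats 400000

noncomputable section

namespace Fermat.Agent.S37.H999

open ModularCurve ValuationSubring AlgebraicCurve Fermat.Agent.S37.Core Fermat.Agent.S37.H99

/-- additive maps preserve `m`-torsion -/
theorem nsmul_map_eq_zero {G H : Type*} [AddCommGroup G] [AddCommGroup H] (f : G →+ H) {m : ℕ}
    {x : G} (hx : m • x = 0) : m • f x = 0 := by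
  rw [← map_nsmul, hx, map_zero]

/-- the composite reduction map kills nothing on prime-to-`ℓ` torsion -/
theorem eq_zero_of_red_pull_eq_zero {N M : ℕ} [NeZero N] [NeZero M]
    {A : ValuationSubring (AlgebraicClosure ℚ)} {ℓ : ℕ} [NeZero ℓ]
    {σ₀ : AlgebraicClosure ℚ ≃ₐ[ℚ] AlgebraicClosure ℚ}
    (W : WeakRedData M A ℓ σ₀) (Pd : PullData N M ℓ) {m : ℕ} (hm : ¬ ℓ ∣ m)
    {z : JZero N} (hz : m • z = 0) (h0 : W.red (Pd.pull z) = 0) : z = 0 := by
  refine Pd.inj_torsion m hm z hz ?_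
  refine W.inj_torsion m hm _ ?_ h0
  rw [← map_nsmul, hz, map_zero]

/-- inertia acts trivially on prime-to-`ℓ` torsion -/
theorem inertia_smul_eq_of_weakRedData {N M : ℕ} [NeZero N] [NeZero M]
    {A : ValuationSubring (AlgebraicClosure ℚ)} {ℓ : ℕ} [NeZero ℓ]
    {σ₀ : AlgebraicClosure ℚ ≃ₐ[ℚ] AlgebraicClosure ℚ}
    (W : WeakRedData M A ℓ σ₀) (Pd : PullData N M ℓ) {m : ℕ} (hm : ¬ ℓ ∣ m)
    {τ : AlgebraicClosure ℚ ≃ₐ[ℚ] AlgebraicClosure ℚ} (hτ : τ ∈ A.inertiaSubgroupIn ℚ)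
    {x : JZero N} (hx : m • x = 0) : τ • x = x := by
  have hz : m • (τ • x - x) = 0 := by
    have h := nsmul_map_eq_zero (DistribSMul.toAddMonoidHom (JZero N) τ - AddMonoidHom.id _) hx
    exact h
  have h0 : W.red (Pd.pull (τ • x - x)) = 0 := by
    rw [map_sub, map_sub, Pd.galois, W.inertia τ hτ, sub_self]
  exact sub_eq_zero.mp (eq_zero_of_red_pull_eq_zero W Pd hm hz h0)

/-- the Eichler–Shimura relation on prime-to-`ℓ` torsion, for the Frobenius element `σ₀` -/
theorem frobenius_relation_of_weakRedData {N M : ℕ} [NeZero N] [NeZero M]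
    {A : ValuationSubring (AlgebraicClosure ℚ)} {ℓ : ℕ} [NeZero ℓ]
    {σ₀ : AlgebraicClosure ℚ ≃ₐ[ℚ] AlgebraicClosure ℚ}
    (W : WeakRedData M A ℓ σ₀) (Pd : PullData N M ℓ) {m : ℕ} (hm : ¬ ℓ ∣ m)
    {x : JZero N} (hx : m • x = 0) :
    σ₀ • σ₀ • x - heckeOperatorAlong (AlgebraicClosure ℚ) N ℓ (σ₀ • x) + ℓ • x = 0 := by
  refine eq_zero_of_red_pull_eq_zero W Pd hm ?_ ?_
  · have h := nsmul_map_eq_zero
      ((DistribSMul.toAddMonoidHom (JZero N) σ₀).comp (DistribSMul.toAddMonoidHom (JZero N) σ₀) -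
        (heckeOperatorAlong (AlgebraicClosure ℚ) N ℓ).comp
          (DistribSMul.toAddMonoidHom (JZero N) σ₀) + ℓ • AddMonoidHom.id _) hx
    exact h
  · rw [map_add, map_sub, map_nsmul, Pd.galois, Pd.galois, Pd.hecke, Pd.galois]
    exact W.relation (Pd.pull x)

/-- The RAW Eichler–Shimura statement at one `(N, p, ℓ, A)`, from the final interface of the
S37 row at `(N, ℓ, A)`. -/
theorem rawES_at (N p : ℕ) [NeZero N] (ℓ : ℕ) (hℓ : ℓ.Prime) (hdvd : ¬ ℓ ∣ N * p)
    (A : ValuationSubring (AlgebraicClosure ℚ)) (hA : A.LiesOverPrime ℓ)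
    (H : ∀ σ₀ : AlgebraicClosure ℚ ≃ₐ[ℚ] AlgebraicClosure ℚ, A.IsFrobeniusAt σ₀ ℓ →
      haveI : NeZero ℓ := ⟨hℓ.ne_zero⟩
      ∃ (M : ℕ) (_ : NeZero M), Nonempty (WeakRedData M A ℓ σ₀) ∧ Nonempty (PullData N M ℓ)) :
    (∀ σ ∈ A.inertiaSubgroupIn ℚ, ∀ x : JZero N, (p : ℤ) • x = 0 → σ • x = x) ∧
      (∀ σ : AlgebraicClosure ℚ ≃ₐ[ℚ] AlgebraicClosure ℚ, A.IsFrobeniusAt σ ℓ →
        ∀ x : JZero N, (p : ℤ) • x = 0 →
          σ • σ • x - heckeOperatorBar N ⟨ℓ, hℓ⟩ (σ • x) + (ℓ : ℤ) • x = 0) := by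
  have : NeZero ℓ := ⟨hℓ.ne_zero⟩
  have hℓp : ¬ ℓ ∣ p := fun h => hdvd (Dvd.dvd.mul_left h N)
  constructor
  · intro τ hτ x hx
    obtain ⟨σ₀, hσ₀⟩ := exists_isFrobeniusAt ℓ hℓ A hA
    obtain ⟨M, hM, ⟨W⟩, ⟨Pd⟩⟩ := H σ₀ hσ₀
    rw [natCast_zsmul] at hx
    exact inertia_smul_eq_of_weakRedData W Pd hℓp hτ hx
  · intro σ hσ x hx
    obtain ⟨M, hM, ⟨W⟩, ⟨Pd⟩⟩ := H σ hσ
    rw [natCast_zsmul] at hx
    rw [natCast_zsmul]
    exact frobenius_relation_of_weakRedData W Pd hℓp hx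

/-- **`RawESStatement` of the S29 row from the final interface of the S37 row.** -/
theorem rawES_of_weakRedData
    (H : ∀ (N : ℕ) [NeZero N] (ℓ : ℕ) (hℓ : ℓ.Prime), ¬ ℓ ∣ N →
      ∀ A : ValuationSubring (AlgebraicClosure ℚ), A.LiesOverPrime ℓ →
        ∀ σ₀ : AlgebraicClosure ℚ ≃ₐ[ℚ] AlgebraicClosure ℚ, A.IsFrobeniusAt σ₀ ℓ →
          haveI : NeZero ℓ := ⟨hℓ.ne_zero⟩
          ∃ (M : ℕ) (_ : NeZero M), Nonempty (WeakRedData M A ℓ σ₀) ∧
            Nonempty (PullData N M ℓ)) :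
    Fermat.Agent.S29.RawESStatement := by
  intro N p _ _ ℓ hℓ hdvd A hA
  have hℓN : ¬ ℓ ∣ N := fun h => hdvd (Dvd.dvd.mul_right h p)
  exact rawES_at N p ℓ hℓ hdvd A hA (fun σ₀ hσ₀ => H N ℓ hℓ hℓN A hA σ₀ hσ₀)

end Fermat.Agent.S37.H999

end
end
-- ===== PACK-END S37/H999/RawES.lean

-- ===== PACK-BEGIN S30/H330/AdicTorsionRel.lean
section
/-
S30 -- ADIC MODULE LAYER, input (T) from the interfaces of the S37 row (helper330).

`TorsionRelations N p` (inertia at `ℓ ∤ N p` acts trivially on `J₀(N)(ℚ̄)[p^∞]`, every Frobenius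
at `ℓ` satisfies `σ² - T_ℓ σ + ℓ = 0` on it) from each of the interfaces of the S37 row:
* `torsionRelations_of_redData`     : reduction data `H99.RedData`;
* `torsionRelations_of_pieces`      : [S18] `Core.InjTorsionModL` + [PR] `Core.PlaceRed`;
* `torsionRelations_of_weakRedData` : `Core.WeakRedData` + `Core.PullData` (final interface);
* `torsionRelations_of_rawAll`      : an abstract raw Eichler–Shimura statement on the
  `m`-torsion for all `m` prime to `ℓ`.
The pointwise lemmas of helper98 / helper999 hold for every modulus prime to `ℓ`; they are applied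
to the moduli `p ^ n`.
-/




set_option autoImplicit false

noncomputable section

namespace Fermat.Agent.S30.H330

open Fermat.Agent.S29 ModularCurve ValuationSubring

theorem not_dvd_pow_of_not_dvd_mul {ℓ N p : ℕ} (hℓ : ℓ.Prime) (h : ¬ ℓ ∣ N * p) (n : ℕ) :
    ¬ ℓ ∣ p ^ n := fun hd => h (Dvd.dvd.mul_left (hℓ.dvd_of_dvd_pow hd) N)

/-- The raw Eichler–Shimura statement at the level `N` on the `m`-torsion, for all `m` prime to
the prime `ℓ ∤ N`. -/
def RawESAll (N : ℕ) [NeZero N] : Prop :=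
  ∀ (ℓ : ℕ) (hℓ : ℓ.Prime), ¬ ℓ ∣ N → ∀ A : VQ, A.LiesOverPrime ℓ → ∀ m : ℕ, ¬ ℓ ∣ m →
    (∀ σ ∈ A.inertiaSubgroupIn ℚ, ∀ x : JZero N, m • x = 0 → σ • x = x) ∧
    (∀ σ : GQ, A.IsFrobeniusAt σ ℓ → ∀ x : JZero N, m • x = 0 →
      σ • σ • x - heckeOperatorBar N ⟨ℓ, hℓ⟩ (σ • x) + ℓ • x = 0)

/-- (T) from the raw Eichler–Shimura statement on all prime-to-`ℓ` torsion. -/
theorem torsionRelations_of_rawAll {N : ℕ} [NeZero N] (p : ℕ) (h : RawESAll N) :
    TorsionRelations N p := by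
  intro ℓ hℓ hdvd A hA
  have hℓN : ¬ ℓ ∣ N := fun h => hdvd (Dvd.dvd.mul_right h p)
  refine ⟨fun σ hσ x hx => ?_, fun σ hσ x hx => ?_⟩
  · obtain ⟨n, hn⟩ := hx
    exact (h ℓ hℓ hℓN A hA (p ^ n) (not_dvd_pow_of_not_dvd_mul hℓ hdvd n)).1 σ hσ x hn
  · obtain ⟨n, hn⟩ := hx
    exact (h ℓ hℓ hℓN A hA (p ^ n) (not_dvd_pow_of_not_dvd_mul hℓ hdvd n)).2 σ hσ x hn

/-- Raw Eichler–Shimura on all prime-to-`ℓ` torsion, from reduction data. -/
theorem rawESAll_of_redData {N : ℕ} [NeZero N]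
    (H : ∀ (ℓ : ℕ) (hℓ : ℓ.Prime), ¬ ℓ ∣ N →
      ∀ A : ValuationSubring (AlgebraicClosure ℚ), A.LiesOverPrime ℓ →
        Nonempty (Fermat.Agent.S37.H99.RedData N A ℓ hℓ)) :
    RawESAll N := by
  intro ℓ hℓ hℓN A hA m hm
  obtain ⟨D⟩ := H ℓ hℓ hℓN A hA
  have h := Fermat.Agent.S37.H98.rawES_at_of_redData D m
    (Nat.coprime_comm.mp ((Nat.Prime.coprime_iff_not_dvd hℓ).mpr hm))
  refine ⟨fun σ hσ x hx => h.1 σ hσ x (by rw [natCast_zsmul]; exact hx),
    fun σ hσ x hx => ?_⟩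
  have := h.2 σ hσ x (by rw [natCast_zsmul]; exact hx)
  rwa [natCast_zsmul] at this

/-- (T) from reduction data. -/
theorem torsionRelations_of_redData {N : ℕ} [NeZero N] (p : ℕ)
    (H : ∀ (ℓ : ℕ) (hℓ : ℓ.Prime), ¬ ℓ ∣ N →
      ∀ A : ValuationSubring (AlgebraicClosure ℚ), A.LiesOverPrime ℓ →
        Nonempty (Fermat.Agent.S37.H99.RedData N A ℓ hℓ)) :
    TorsionRelations N p :=
  torsionRelations_of_rawAll p (rawESAll_of_redData H)

open Fermat.Agent.S37.Core in
/-- Raw Eichler–Shimura on all prime-to-`ℓ` torsion, from the pieces [S18] and [PR]. -/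
theorem rawESAll_of_pieces {N : ℕ} [NeZero N]
    (hS18 : ∀ (ℓ : ℕ), ℓ.Prime → ¬ ℓ ∣ N →
      ∀ A : ValuationSubring (AlgebraicClosure ℚ), A.LiesOverPrime ℓ → InjTorsionModL N ℓ A)
    (hPR : ∀ (ℓ : ℕ) (hℓ : ℓ.Prime), ¬ ℓ ∣ N →
      ∀ A : ValuationSubring (AlgebraicClosure ℚ), A.LiesOverPrime ℓ →
        ∀ σ₀ : AlgebraicClosure ℚ ≃ₐ[ℚ] AlgebraicClosure ℚ, A.IsFrobeniusAt σ₀ ℓ →
          haveI : NeZero ℓ := ⟨hℓ.ne_zero⟩; Nonempty (PlaceRed N A ℓ σ₀)) :
    RawESAll N := by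
  intro ℓ hℓ hℓN A hA m hm
  refine ⟨fun σ hσ x hx => ?_, fun σ hσ x hx => ?_⟩
  · obtain ⟨σ₀, hσ₀⟩ := Fermat.Agent.S37.H99.exists_isFrobeniusAt ℓ hℓ A hA
    obtain ⟨D⟩ := hPR ℓ hℓ hℓN A hA σ₀ hσ₀
    exact (Fermat.Agent.S37.H98.rawES_at_of_placeRed hℓ D (hS18 ℓ hℓ hℓN A hA) m hm).1 σ hσ x
      (by rw [natCast_zsmul]; exact hx)
  · obtain ⟨D⟩ := hPR ℓ hℓ hℓN A hA σ hσ
    have := (Fermat.Agent.S37.H98.rawES_at_of_placeRed hℓ D (hS18 ℓ hℓ hℓN A hA) m hm).2 x
      (by rw [natCast_zsmul]; exact hx)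
    rwa [natCast_zsmul] at this

open Fermat.Agent.S37.Core in
/-- (T) from the pieces [S18] and [PR] of the S37 row plan. -/
theorem torsionRelations_of_pieces {N : ℕ} [NeZero N] (p : ℕ)
    (hS18 : ∀ (ℓ : ℕ), ℓ.Prime → ¬ ℓ ∣ N →
      ∀ A : ValuationSubring (AlgebraicClosure ℚ), A.LiesOverPrime ℓ → InjTorsionModL N ℓ A)
    (hPR : ∀ (ℓ : ℕ) (hℓ : ℓ.Prime), ¬ ℓ ∣ N →
      ∀ A : ValuationSubring (AlgebraicClosure ℚ), A.LiesOverPrime ℓ →
        ∀ σ₀ : AlgebraicClosure ℚ ≃ₐ[ℚ] AlgebraicClosure ℚ, A.IsFrobeniusAt σ₀ ℓ →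
          haveI : NeZero ℓ := ⟨hℓ.ne_zero⟩; Nonempty (PlaceRed N A ℓ σ₀)) :
    TorsionRelations N p :=
  torsionRelations_of_rawAll p (rawESAll_of_pieces hS18 hPR)

open Fermat.Agent.S37.Core Fermat.Agent.S37.H99 in
/-- Raw Eichler–Shimura on all prime-to-`ℓ` torsion, from the final interface of the S37 row. -/
theorem rawESAll_of_weakRedData {N : ℕ} [NeZero N]
    (H : ∀ (ℓ : ℕ) (hℓ : ℓ.Prime), ¬ ℓ ∣ N →
      ∀ A : ValuationSubring (AlgebraicClosure ℚ), A.LiesOverPrime ℓ →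
        ∀ σ₀ : AlgebraicClosure ℚ ≃ₐ[ℚ] AlgebraicClosure ℚ, A.IsFrobeniusAt σ₀ ℓ →
          haveI : NeZero ℓ := ⟨hℓ.ne_zero⟩
          ∃ (M : ℕ) (_ : NeZero M), Nonempty (WeakRedData M A ℓ σ₀) ∧
            Nonempty (PullData N M ℓ)) :
    RawESAll N := by
  intro ℓ hℓ hℓN A hA m hm
  have : NeZero ℓ := ⟨hℓ.ne_zero⟩
  refine ⟨fun σ hσ x hx => ?_, fun σ hσ x hx => ?_⟩
  · obtain ⟨σ₀, hσ₀⟩ := exists_isFrobeniusAt ℓ hℓ A hA
    obtain ⟨M, hM, ⟨W⟩, ⟨Pd⟩⟩ := H ℓ hℓ hℓN A hA σ₀ hσ₀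
    exact Fermat.Agent.S37.H999.inertia_smul_eq_of_weakRedData W Pd hm hσ hx
  · obtain ⟨M, hM, ⟨W⟩, ⟨Pd⟩⟩ := H ℓ hℓ hℓN A hA σ hσ
    exact Fermat.Agent.S37.H999.frobenius_relation_of_weakRedData W Pd hm hx

open Fermat.Agent.S37.Core in
/-- (T) from the final interface of the S37 row. -/
theorem torsionRelations_of_weakRedData {N : ℕ} [NeZero N] (p : ℕ)
    (H : ∀ (ℓ : ℕ) (hℓ : ℓ.Prime), ¬ ℓ ∣ N →
      ∀ A : ValuationSubring (AlgebraicClosure ℚ), A.LiesOverPrime ℓ →
        ∀ σ₀ : AlgebraicClosure ℚ ≃ₐ[ℚ] AlgebraicClosure ℚ, A.IsFrobeniusAt σ₀ ℓ →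
          haveI : NeZero ℓ := ⟨hℓ.ne_zero⟩
          ∃ (M : ℕ) (_ : NeZero M), Nonempty (WeakRedData M A ℓ σ₀) ∧
            Nonempty (PullData N M ℓ)) :
    TorsionRelations N p :=
  torsionRelations_of_rawAll p (rawESAll_of_weakRedData H)

end Fermat.Agent.S30.H330

end
end
-- ===== PACK-END S30/H330/AdicTorsionRel.lean

-- ===== PACK-BEGIN S18/H456/ModRes.lean
section


/-!
# S18 / MOD assembly (helper456): `residue_perfect` for `R = Rc M A E`
-/

set_option autoImplicit false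

noncomputable section

namespace Fermat.Agent.S18.H456

open ModularCurve AlgebraicCurve HahnSeries Fermat.Agent.S18 Fermat.Agent.S18.Mod
open IsDedekindDomain
open scoped NumberField

variable (A : ValuationSubring Qb) (E : IntermediateField ℚ Qb)

section NF

variable [NumberField E]

/-- `𝓞 E → κ_E`. -/
def toRes : 𝓞 E →+* IsLocalRing.ResidueField (H602.RE A E) :=
  (IsLocalRing.residue (H602.RE A E)).comp (H602.ofInt A E)

omit [NumberField E] in
theorem toRes_eq_zero_iff (a : 𝓞 E) : toRes A E a = 0 ↔ a ∈ H602.primeBelow A E := by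
  unfold toRes
  rw [RingHom.comp_apply, IsLocalRing.residue_eq_zero_iff]
  rfl

theorem toRes_surjective {ℓ : ℕ} (hℓ : ℓ ≠ 0) (hA : (ℓ : Qb) ∈ A.nonunits) :
    Function.Surjective (toRes A E) := by
  intro x
  obtain ⟨r, rfl⟩ := IsLocalRing.residue_surjective x
  have hr : (r : E) ∈ (H602.primeSpec A E hℓ hA).valuationSubringAtPrime E := by
    rw [H602.RE_eq_valuationSubringAtPrime A E hℓ hA]
    exact r.2
  obtain ⟨a, s, hs, hrs⟩ := hr
  -- `s` is invertible modulo the maximal ideal `P`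
  have hPmax : (H602.primeBelow A E).IsMaximal :=
    Ideal.IsPrime.isMaximal inferInstance (H602.primeBelow_ne_bot A E hℓ hA)
  have hs' : s ∉ H602.primeBelow A E := hs
  obtain ⟨t, ht⟩ := Ideal.IsMaximal.exists_inv hPmax hs'
  obtain ⟨u, hu, hstu⟩ := ht
  -- `s * t + u = 1`, hence `φ s * φ t = 1`
  have h1 : toRes A E s * toRes A E t = 1 := by
    have := congrArg (toRes A E) hstu
    rw [map_add, map_mul, (toRes_eq_zero_iff A E u).2 hu, add_zero, map_one] at this
    rwa [mul_comm] at this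
  refine ⟨a * t, ?_⟩
  -- `r * s = a` in `R_E`
  have h2 : r * H602.ofInt A E s = H602.ofInt A E a := by
    apply Subtype.ext
    show (r : E) * algebraMap (𝓞 E) E s = algebraMap (𝓞 E) E a
    rw [hrs]
    have hs0 : algebraMap (𝓞 E) E s ≠ 0 := by
      intro h0
      have : s = 0 := by
        apply FaithfulSMul.algebraMap_injective (𝓞 E) E
        rw [h0, map_zero]
      exact hs' (this ▸ Ideal.zero_mem _)
    rw [mul_assoc, inv_mul_cancel₀ hs0, mul_one]
  have h3 : IsLocalRing.residue (H602.RE A E) r * toRes A E s = toRes A E a := by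
    have := congrArg (IsLocalRing.residue (H602.RE A E)) h2
    rwa [map_mul] at this
  rw [map_mul, ← h3, mul_assoc, h1, mul_one]

theorem finite_residueField {ℓ : ℕ} (hℓ : ℓ ≠ 0) (hA : (ℓ : Qb) ∈ A.nonunits) :
    Finite (IsLocalRing.ResidueField (H602.RE A E)) := by
  have hP : H602.primeBelow A E ≠ ⊥ := H602.primeBelow_ne_bot A E hℓ hA
  have : Finite (𝓞 E ⧸ H602.primeBelow A E) := Ideal.finiteQuotientOfFreeOfNeBot _ hP
  let ψ : 𝓞 E ⧸ H602.primeBelow A E →+* IsLocalRing.ResidueField (H602.RE A E) :=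
    Ideal.Quotient.lift _ (toRes A E) (fun a ha => (toRes_eq_zero_iff A E a).2 ha)
  have hψ : Function.Surjective ψ := by
    intro x
    obtain ⟨a, rfl⟩ := toRes_surjective A E hℓ hA x
    exact ⟨Ideal.Quotient.mk _ a, rfl⟩
  exact Finite.of_surjective ψ hψ

end NF

/-- Frobenius is surjective on the residue field of `R_E` (`E/ℚ` finite). -/
theorem exists_pow_sub_mem_maximalIdeal [FiniteDimensional ℚ E] {ℓ : ℕ} (hℓ : ℓ.Prime)
    (hA : A.LiesOverPrime ℓ) (r : H602.RE A E) :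
    ∃ s : H602.RE A E, r - s ^ ℓ ∈ IsLocalRing.maximalIdeal (H602.RE A E) := by
  have := H602.numberField_of_finiteDimensional E
  have : Finite (IsLocalRing.ResidueField (H602.RE A E)) :=
    finite_residueField A E hℓ.ne_zero hA
  have hℓ0 : ((ℓ : ℕ) : IsLocalRing.ResidueField (H602.RE A E)) = 0 := by
    rw [← map_natCast (IsLocalRing.residue (H602.RE A E)), IsLocalRing.residue_eq_zero_iff,
      IsLocalRing.mem_maximalIdeal, mem_nonunits_iff]
    exact H602.natCast_not_isUnit_RE A E hA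
  have : Fact ℓ.Prime := ⟨hℓ⟩
  have : CharP (IsLocalRing.ResidueField (H602.RE A E)) ℓ :=
    (CharP.charP_iff_prime_eq_zero hℓ).2 hℓ0
  have : PerfectRing (IsLocalRing.ResidueField (H602.RE A E)) ℓ :=
    PerfectRing.ofFiniteOfIsReduced ℓ _
  obtain ⟨y, hy⟩ := surjective_frobenius (IsLocalRing.ResidueField (H602.RE A E)) ℓ
    (IsLocalRing.residue _ r)
  obtain ⟨s, rfl⟩ := IsLocalRing.residue_surjective y
  refine ⟨s, ?_⟩
  rw [← IsLocalRing.residue_eq_zero_iff, map_sub, map_pow, sub_eq_zero]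
  exact hy.symm

variable (M : ℕ)

/-- **`residue_perfect`** for `R = Rc M A E`. -/
theorem field_residue_perfect [FiniteDimensional ℚ E] {ℓ : ℕ} (hℓ : ℓ.Prime)
    (hA : A.LiesOverPrime ℓ) {w : Om M} (hw : IsUnif M A E w) :
    ∃ p : ℕ, p.Prime ∧ (p : Om M) * w⁻¹ ∈ Rc M A E ∧
      ∀ r ∈ Rc M A E, ∃ s ∈ Rc M A E, (r - s ^ p) * w⁻¹ ∈ Rc M A E := by
  have : IsDiscreteValuationRing (H602.RE A E) :=
    H602.isDiscreteValuationRing_RE A E hℓ.ne_zero hA
  refine ⟨ℓ, hℓ, ?_, ?_⟩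
  · rw [← cstR_natCast M A E, hw.mul_inv_mem_iff, IsLocalRing.mem_maximalIdeal, mem_nonunits_iff]
    exact H602.natCast_not_isUnit_RE A E hA
  · intro r hr
    obtain ⟨r₀, rfl⟩ := (mem_Rc_iff_cstR M A E).1 hr
    obtain ⟨s, hs⟩ := exists_pow_sub_mem_maximalIdeal A E hℓ hA r₀
    refine ⟨cstR M A E s, cstR_mem_Rc M A E s, ?_⟩
    rw [← cstR_pow, ← cstR_sub, hw.mul_inv_mem_iff]
    exact hs

end Fermat.Agent.S18.H456

end
end
-- ===== PACK-END S18/H456/ModRes.lean

-- ===== PACK-BEGIN S18/H24/GaussC.lean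
section



/-!
# S18 / MOD-ASM, piece G-V (helper24) — part C: `V_total`, `gauss`, `x ∈ V`

* `gaussForm_of_mem_Fc` : every `f ∈ Fc` is `0` or has a Gauss normal form `w^n U₁/U₂`;
* `field_V_total`       : field `V_total` of `Alg.GoodModel`;
* `field_gauss`         : field `gauss` for every coordinate with an integral expansion `q⁻¹ + …`;
* `coord_mem_Vc`        : the coordinate lies in `V`.
-/

set_option autoImplicit false

noncomputable section

namespace Fermat.Agent.S18.H24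

open ModularCurve AlgebraicCurve HahnSeries Fermat.Agent.S18 Fermat.Agent.S18.Mod
open Fermat.Agent.S18.H456

variable {M : ℕ} {A : ValuationSubring Qb} {E : IntermediateField ℚ Qb}

theorem residue_ne_zero_of_inv_mem {c : A} (hc0 : (c : Qb) ≠ 0) (hc : (c : Qb)⁻¹ ∈ A) :
    IsLocalRing.residue A c ≠ 0 := by
  intro h
  have hm := (IsLocalRing.residue_eq_zero_iff _).mp h
  rcases (mem_maximalIdeal_iff _).mp hm with h0 | hni
  · exact hc0 h0
  · exact hni hc

/-- Gauss form of a nonzero constant of `E`. -/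
theorem gaussForm_cst {w₀ : Qb} (hw : _root_.Fermat.Agent.S18.H24.IsUnif A E w₀) {c : Qb} (hcE : c ∈ E) (hc0 : c ≠ 0) :
    GaussForm M A E w₀ (cst M c) := by
  have hw0 := hw.ne_zero
  have hC := C_ne_zero' hw0
  -- the case `c ∈ A`
  have key : ∀ c : Qb, c ∈ E → c ≠ 0 → c ∈ A → GaussForm M A E w₀ (cst M c) := by
    intro c hcE hc0 hcA
    obtain ⟨k, hk1, hk2⟩ := hw.discrete c hcA hcE hc0
    have hu0 : c * (w₀⁻¹) ^ k ≠ 0 := mul_ne_zero hc0 (pow_ne_zero _ (inv_ne_zero hw0))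
    have huE : c * (w₀⁻¹) ^ k ∈ E := mul_mem hcE (pow_mem (inv_mem hw.mem_E) _)
    refine ⟨k, HahnSeries.C (⟨c * (w₀⁻¹) ^ k, hk1⟩ : A), 1, isIntE_C huE, isIntE_one, ?_, ?_, ?_⟩
    · rw [red_C]
      intro h
      exact residue_ne_zero_of_inv_mem (c := ⟨c * (w₀⁻¹) ^ k, hk1⟩) hu0 hk2
        (HahnSeries.C_injective (by rw [h, map_zero]))
    · rw [map_one]; exact one_ne_zero
    · rw [map_one, mul_one, val_cst', inc_C, zpow_natCast, ← map_pow, ← map_mul]
      congr 1
      show c = w₀ ^ k * (c * (w₀⁻¹) ^ k)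
      rw [inv_pow]
      field_simp
  rcases A.mem_or_inv_mem c with hcA | hcA
  · exact key c hcE hc0 hcA
  · have := (key c⁻¹ (inv_mem hcE) (inv_ne_zero hc0) hcA).inv hw0
    rwa [← map_inv₀, inv_inv] at this

theorem jqNModC_ne_zero (K : Type*) [CommRing K] [Nontrivial K] (d : ℕ) [NeZero d] :
    jqNModC K d ≠ 0 := by
  intro h
  have : jqModC K = 0 := qExpand_injective d (by rw [map_zero]; exact h)
  exact jqModC_ne_zero_of_nontrivial K this

theorem val_jd (d : ℕ) [NeZero d] (hd : d ∣ M) :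
    ((jd M d hd : Om M) : LaurentSeries Qb) = inc A (jqNModC A d) := by
  show coeffEmb Qb (qExpand ℚ d jq) = _
  have h1 : coeffEmb Qb (qExpand ℚ d jq) = jqNModC Qb d := coeffMap_jqNModC (algebraMap ℚ Qb) d
  rw [h1]
  exact (coeffMap_jqNModC A.subtype d).symm

theorem jd_mem_Fc (d : ℕ) [NeZero d] (hd : d ∣ M) : jd M d hd ∈ Fc M E :=
  Subfield.subset_closure (Or.inr ⟨d, inferInstance, hd, rfl⟩)

theorem gaussForm_jd (w₀ : Qb) (d : ℕ) [NeZero d] (hd : d ∣ M) :
    GaussForm M A E w₀ (jd M d hd) := by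
  refine ⟨0, jqNModC A d, 1, ?_, isIntE_one, ?_, ?_, ?_⟩
  · exact (isIntE_iff M A E).mpr ⟨jd M d hd, jd_mem_Fc d hd, val_jd d hd⟩
  · show coeffMap (IsLocalRing.residue A) (jqNModC A d) ≠ 0
    rw [coeffMap_jqNModC]
    exact jqNModC_ne_zero _ d
  · rw [map_one]; exact one_ne_zero
  · rw [map_one, mul_one, zpow_zero, one_mul, val_jd d hd]

theorem gaussForm_one (w₀ : Qb) : GaussForm M A E w₀ 1 := by
  refine ⟨0, 1, 1, isIntE_one, isIntE_one, ?_, ?_, ?_⟩
  · rw [map_one]; exact one_ne_zero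
  · rw [map_one]; exact one_ne_zero
  · rw [map_one, mul_one, zpow_zero, one_mul]; rfl

/-- **Gauss normal form.** -/
theorem gaussForm_of_mem_Fc {w₀ : Qb} (hw : _root_.Fermat.Agent.S18.H24.IsUnif A E w₀) {f : Om M} (hf : f ∈ Fc M E) :
    f = 0 ∨ GaussForm M A E w₀ f := by
  have hw0 := hw.ne_zero
  unfold Fc at hf
  induction hf using Subfield.closure_induction with
  | mem y hy =>
    rcases hy with hy | hy
    · obtain ⟨c, hc, rfl⟩ := (mem_Ec_iff M E).1 hy
      by_cases hc0 : c = 0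
      · left; rw [hc0]; exact map_zero _
      · right; exact gaussForm_cst hw hc hc0
    · obtain ⟨d, hd, hdM, rfl⟩ := hy
      right
      exact gaussForm_jd w₀ d hdM
  | one => right; exact gaussForm_one w₀
  | add x y _ _ hx hy =>
    rcases hx with rfl | hx
    · rw [zero_add]; exact hy
    · rcases hy with rfl | hy
      · rw [add_zero]; exact Or.inr hx
      · exact hx.add hw hy
  | neg x _ hx =>
    rcases hx with rfl | hx
    · left; rw [neg_zero]
    · right; exact hx.neg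
  | inv x _ hx =>
    rcases hx with rfl | hx
    · left; rw [inv_zero]
    · right; exact hx.inv hw0
  | mul x y _ _ hx hy =>
    rcases hx with rfl | hx
    · left; rw [zero_mul]
    · rcases hy with rfl | hy
      · left; rw [mul_zero]
      · right; exact hx.mul hw0 hy

/-- A Gauss form with `n ≥ 0` lies in `V`. -/
theorem GaussForm.mem_Vc_of_nonneg {w₀ : Qb} (hw : _root_.Fermat.Agent.S18.H24.IsUnif A E w₀) {f : Om M} (hfF : f ∈ Fc M E)
    {n : ℕ} {U₁ U₂ : LaurentSeries A} (h₁ : IsIntE M A E U₁) (h₂ : IsIntE M A E U₂)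
    (hr₂ : red A U₂ ≠ 0)
    (heq : (f : LaurentSeries Qb) * inc A U₂ = HahnSeries.C w₀ ^ n * inc A U₁) :
    f ∈ Vc M A E := by
  refine ⟨hfF, HahnSeries.C (⟨w₀, hw.mem_A⟩ ^ n : A) * U₁, U₂, IsIntE.mul (isIntE_C ?_) h₁, h₂,
    hr₂, ?_⟩
  · show ((⟨w₀, hw.mem_A⟩ ^ n : A) : Qb) ∈ E
    rw [SubmonoidClass.coe_pow]
    exact pow_mem hw.mem_E n
  · rw [heq, map_mul, inc_C, SubmonoidClass.coe_pow, map_pow]

variable (M) in
/-- field `V_total`. -/
theorem field_V_total {w₀ : Qb} (hw : _root_.Fermat.Agent.S18.H24.IsUnif A E w₀) :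
    ∀ f ∈ Fc M E, f ∈ Vc M A E ∨ f⁻¹ ∈ Vc M A E := by
  intro f hf
  rcases gaussForm_of_mem_Fc hw hf with rfl | hG
  · left; exact zero_mem _
  · have hw0 := hw.ne_zero
    obtain ⟨n, U₁, U₂, h₁, h₂, hr₁, hr₂, heq⟩ := hG
    rcases le_total 0 n with hn | hn
    · left
      obtain ⟨d, rfl⟩ := Int.eq_ofNat_of_zero_le hn
      rw [zpow_natCast] at heq
      exact GaussForm.mem_Vc_of_nonneg hw hf h₁ h₂ hr₂ heq
    · right
      have hG' : GaussForm M A E w₀ f := ⟨n, U₁, U₂, h₁, h₂, hr₁, hr₂, heq⟩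
      obtain ⟨n', W₁, W₂, k₁, k₂, kr₁, kr₂, heq'⟩ := hG'.inv hw0
      -- use the explicit inverse form instead
      have hf0 := hG'.ne_zero hw0
      have hfv0 : (f : LaurentSeries Qb) ≠ 0 := fun h => hf0 (val_eq_zero_iff.mp h)
      have hC := C_ne_zero' hw0
      obtain ⟨d, hd⟩ : ∃ d : ℕ, -n = d := Int.eq_ofNat_of_zero_le (by omega)
      have heq2 : ((f⁻¹ : Om M) : LaurentSeries Qb) * inc A U₁ = HahnSeries.C w₀ ^ d * inc A U₂ := by
        rw [val_inv]
        have hCn : (HahnSeries.C w₀ : LaurentSeries Qb) ^ n ≠ 0 := zpow_ne_zero n hC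
        have h1 : inc A U₁ = (HahnSeries.C w₀ ^ n)⁻¹ * ((f : LaurentSeries Qb) * inc A U₂) := by
          rw [heq, ← mul_assoc, inv_mul_cancel₀ hCn, one_mul]
        rw [h1, ← zpow_neg, hd, zpow_natCast]
        field_simp
      exact GaussForm.mem_Vc_of_nonneg hw (inv_mem hf) h₂ h₁ hr₁ heq2

/-! ### The coordinate and the field `gauss` -/

section Coord

variable [NeZero M]

/-- The integral series of a coordinate, over `A`. -/
theorem exists_series_of_hasIntExp {x : Om M} (hx : HasIntExp M x) :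
    ∃ XA : LaurentSeries A, IsIntE M A E XA ∧ inc A XA = (x : LaurentSeries Qb) ∧
      (red A XA).order ≠ 0 := by
  have hxF := mem_Fc_of_hasIntExp M E hx
  obtain ⟨X, h1, h2, h3, -⟩ := hx
  refine ⟨coeffMap (Int.castRingHom A) X, ?_, ?_, ?_⟩
  · refine (isIntE_iff M A E).mpr ⟨x, hxF, ?_⟩
    rw [h3]
    show _ = coeffMap A.subtype (coeffMap (Int.castRingHom A) X)
    rw [coeffMap_coeffMap]
    exact coeffMap_congr (RingHom.ext_int _ _) X
  · rw [h3]
    show coeffMap A.subtype (coeffMap (Int.castRingHom A) X) = _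
    rw [coeffMap_coeffMap]
    exact coeffMap_congr (RingHom.ext_int _ _) X
  · show (coeffMap (IsLocalRing.residue A) (coeffMap (Int.castRingHom A) X)).order ≠ 0
    rw [coeffMap_coeffMap]
    set Xk := coeffMap ((IsLocalRing.residue A).comp (Int.castRingHom A)) X with hXk
    have hc1 : Xk.coeff (-1) = 1 := by
      rw [hXk, coeffMap_coeff, h1, map_one]
    have hne : Xk ≠ 0 := by
      intro h
      rw [h, HahnSeries.coeff_zero] at hc1
      exact zero_ne_one hc1
    have hle : Xk.order ≤ -1 := HahnSeries.order_le_of_coeff_ne_zero (by rw [hc1]; exact one_ne_zero)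
    omega

theorem coord_mem_Vc {x : Om M} (hx : HasIntExp M x) : x ∈ Vc M A E := by
  obtain ⟨XA, hXA, hinc, -⟩ := exists_series_of_hasIntExp (A := A) (E := E) hx
  exact mem_VcSet_of_isIntE hXA hinc.symm

/-- field `gauss` (for a coordinate with integral expansion `q⁻¹ + …`). -/
theorem field_gauss {x : Om M} (hx : HasIntExp M x) :
    ∀ P : Polynomial (Om M), (∀ i, P.coeff i ∈ Rc M A E) →
      (∃ i, P.coeff i ≠ 0 ∧ (P.coeff i)⁻¹ ∈ Rc M A E) → (P.eval x)⁻¹ ∈ Vc M A E := by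
  intro P hP hunit
  have hxF := mem_Fc_of_hasIntExp M E hx
  obtain ⟨XA, hXA, hinc, hord⟩ := exists_series_of_hasIntExp (A := A) (E := E) hx
  -- lift `P` to `A[X]`
  let φ : A →+* Om M := (algebraMap Qb (Om M)).comp A.subtype
  have hlift : P ∈ Polynomial.lifts φ := by
    rw [Polynomial.lifts_iff_coeff_lifts]
    intro i
    obtain ⟨c, hcA, -, hc⟩ := (mem_Rc_iff M A E).mp (hP i)
    exact ⟨⟨c, hcA⟩, hc⟩
  obtain ⟨p, hp'⟩ := hlift
  have hp : p.map φ = P := hp'
  have hpcoeff : ∀ i, cst M ((p.coeff i : A) : Qb) = P.coeff i := by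
    intro i
    rw [← hp, Polynomial.coeff_map]
    rfl
  have hpE : ∀ i, ((p.coeff i : A) : Qb) ∈ E := by
    intro i
    obtain ⟨c, -, hcE, hc⟩ := (mem_Rc_iff M A E).mp (hP i)
    have : c = ((p.coeff i : A) : Qb) := cst_injective M (by rw [hc, hpcoeff])
    rw [← this]; exact hcE
  -- the series
  set U : LaurentSeries A := p.eval₂ (HahnSeries.C (Γ := ℤ) (R := A)) XA with hU
  have hUint : IsIntE M A E U := by
    rw [hU, Polynomial.eval₂_eq_sum_range]
    have : ∀ (s : Finset ℕ), IsIntE M A E (∑ i ∈ s, HahnSeries.C (p.coeff i) * XA ^ i) := by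
      intro s
      induction s using Finset.induction_on with
      | empty => rw [Finset.sum_empty]; exact isIntE_zero
      | insert a s ha ih =>
        rw [Finset.sum_insert ha]
        exact IsIntE.add (IsIntE.mul (isIntE_C (hpE a)) (IsIntE.pow hXA a)) ih
    exact this _
  have hincU : inc A U = ((P.eval x : Om M) : LaurentSeries Qb) := by
    rw [hU, Polynomial.hom_eval₂, hinc]
    have h1 : ((P.eval x : Om M) : LaurentSeries Qb) =
        P.eval₂ (modularFunctionFieldBar M).val.toRingHom (x : LaurentSeries Qb) := by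
      have := Polynomial.hom_eval₂ P (RingHom.id (Om M)) (modularFunctionFieldBar M).val.toRingHom x
      simp only [Polynomial.eval₂_id, RingHom.comp_id] at this
      exact this
    rw [h1, ← hp, Polynomial.eval₂_map]
    congr 1
    ext c : 1
    show inc A (HahnSeries.C c) = ((cst M (c : Qb) : Om M) : LaurentSeries Qb)
    rw [inc_C, val_cst']
  have hredU : red A U ≠ 0 := by
    rw [hU, Polynomial.hom_eval₂]
    have hcomp : (red A).comp (HahnSeries.C (Γ := ℤ) (R := A)) =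
        (HahnSeries.C (Γ := ℤ) (R := IsLocalRing.ResidueField A)).comp (IsLocalRing.residue A) := by
      ext c : 1
      exact red_C c
    rw [hcomp, ← Polynomial.eval₂_map]
    intro h0
    have hp0 := Fermat.Agent.S28.H806.eq_zero_of_eval₂_C_eq_zero _ hord _ h0
    obtain ⟨i, hi0, hiinv⟩ := hunit
    have hci : (p.map (IsLocalRing.residue A)).coeff i = 0 := by rw [hp0, Polynomial.coeff_zero]
    rw [Polynomial.coeff_map] at hci
    have hc0 : ((p.coeff i : A) : Qb) ≠ 0 := by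
      intro h
      apply hi0
      rw [← hpcoeff, h]
      exact map_zero _
    have hcinv : ((p.coeff i : A) : Qb)⁻¹ ∈ A := by
      obtain ⟨c, hcA, -, hc⟩ := (mem_Rc_iff M A E).mp hiinv
      rw [← hpcoeff, ← map_inv₀] at hc
      have := cst_injective M hc
      rw [← this]; exact hcA
    exact residue_ne_zero_of_inv_mem hc0 hcinv hci
  have hPx0 : ((P.eval x : Om M) : LaurentSeries Qb) ≠ 0 := by
    rw [← hincU]; exact red_ne_zero_imp_inc_ne_zero hredU
  refine ⟨inv_mem ?_, 1, U, isIntE_one, hUint, hredU, ?_⟩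
  · -- `P.eval x ∈ Fc`
    rw [Polynomial.eval_eq_sum_range]
    refine Subfield.sum_mem _ fun i _ => ?_
    exact mul_mem (field_E_le_F M E (field_R_le M A E (hP i))) (pow_mem hxF i)
  · rw [val_inv, hincU, map_one, inv_mul_cancel₀ hPx0]

end Coord

end Fermat.Agent.S18.H24

end
end
-- ===== PACK-END S18/H24/GaussC.lean

-- ===== PACK-BEGIN S18/H24/GaussFields.lean
section


/-!
# S18 / node_mod, part G-V (helper24) — HAND-IN

All `V`-fields of `Alg.GoodModel` (v4 on main) for the concrete objects of `S18/Mod/Defs.lean`: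

`gv_fields` : for every subring `V` with underlying set `VcSet M A E`, every `w` satisfying the
`w`-fields of G-R (`w_mem, w_ne_zero, w_inv_not_mem, w_gen, w_discrete` for `Rc M A E`), and every
coordinate `x` with an integral expansion `q⁻¹ + …` (`H456.HasIntExp`, e.g. from `IsCoordinate`):

    V_le ∧ V_total ∧ R_le_V ∧ x_mem_V ∧ w_inv_not_mem_V ∧ V_gen ∧ gauss

in exactly the field types of `Alg.GoodModel (Lc M) (Ec M E) (Fc M E) (Rc M A E) V w x S`.
No hypothesis on `ℓ`, `M`, or finiteness of `E` is needed here (they enter through G-R).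
-/

set_option autoImplicit false

noncomputable section

namespace Fermat.Agent.S18.H24

open ModularCurve AlgebraicCurve HahnSeries Fermat.Agent.S18 Fermat.Agent.S18.Mod
open Fermat.Agent.S18.H456

variable {M : ℕ} {A : ValuationSubring Qb} {E : IntermediateField ℚ Qb}

/-- The `w`-fields of G-R give a uniformiser in the sense of `IsUnif`. -/
theorem exists_isUnif {w : Om M} (hwR : w ∈ Rc M A E) (hw0 : w ≠ 0) (hwinv : w⁻¹ ∉ Rc M A E)
    (hgen : ∀ r ∈ Rc M A E, r⁻¹ ∉ Rc M A E → r * w⁻¹ ∈ Rc M A E)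
    (hdisc : ∀ r ∈ Rc M A E, r ≠ 0 →
      ∃ n : ℕ, r * (w⁻¹) ^ n ∈ Rc M A E ∧ (r * (w⁻¹) ^ n)⁻¹ ∈ Rc M A E) :
    ∃ w₀ : Qb, w = cst M w₀ ∧ _root_.Fermat.Agent.S18.H24.IsUnif A E w₀ := by
  obtain ⟨w₀, hw₀A, hw₀E, rfl⟩ := (mem_Rc_iff M A E).mp hwR
  have hw₀0 : w₀ ≠ 0 := by
    rintro rfl
    exact hw0 (map_zero _)
  have hninv : w₀⁻¹ ∉ A := by
    intro h
    apply hwinv
    rw [← map_inv₀]
    exact cst_mem_Rc M A E h (inv_mem hw₀E)
  refine ⟨w₀, rfl, hw₀A, hw₀E, hw₀0, hninv, ?_, ?_⟩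
  · intro c hcA hcE hcinv
    have h1 : (cst M c)⁻¹ ∉ Rc M A E := by
      intro h
      rw [← map_inv₀] at h
      exact hcinv ((cst_mem_Rc_iff M A E).mp h).1
    have h2 := hgen _ (cst_mem_Rc M A E hcA hcE) h1
    rw [← map_inv₀, ← map_mul] at h2
    exact ((cst_mem_Rc_iff M A E).mp h2).1
  · intro c hcA hcE hc0
    have h1 : cst M c ≠ 0 := fun h => hc0 (cst_injective M (by rw [h]; exact (map_zero _).symm))
    obtain ⟨n, hn1, hn2⟩ := hdisc _ (cst_mem_Rc M A E hcA hcE) h1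
    refine ⟨n, ?_, ?_⟩
    · rw [← map_inv₀, ← map_pow, ← map_mul] at hn1
      exact ((cst_mem_Rc_iff M A E).mp hn1).1
    · rw [← map_inv₀, ← map_pow, ← map_mul, ← map_inv₀] at hn2
      exact ((cst_mem_Rc_iff M A E).mp hn2).1

/-- **G-V hand-in**: all `V`-fields of `GoodModel` for the concrete Gauss valuation ring. -/
theorem gv_fields [NeZero M] (V : Subring (Om M)) (hV : (V : Set (Om M)) = VcSet M A E)
    {w : Om M} (hwR : w ∈ Rc M A E) (hw0 : w ≠ 0) (hwinv : w⁻¹ ∉ Rc M A E)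
    (hgen : ∀ r ∈ Rc M A E, r⁻¹ ∉ Rc M A E → r * w⁻¹ ∈ Rc M A E)
    (hdisc : ∀ r ∈ Rc M A E, r ≠ 0 →
      ∃ n : ℕ, r * (w⁻¹) ^ n ∈ Rc M A E ∧ (r * (w⁻¹) ^ n)⁻¹ ∈ Rc M A E)
    {x : Om M} (hx : HasIntExp M x) :
    ((V : Set (Om M)) ⊆ Fc M E) ∧
    (∀ f ∈ Fc M E, f ∈ V ∨ f⁻¹ ∈ V) ∧
    (Rc M A E ≤ V) ∧
    (x ∈ V) ∧
    (w⁻¹ ∉ V) ∧
    (∀ f ∈ V, f⁻¹ ∉ V → f * w⁻¹ ∈ V) ∧
    (∀ P : Polynomial (Om M), (∀ i, P.coeff i ∈ Rc M A E) →
      (∃ i, P.coeff i ≠ 0 ∧ (P.coeff i)⁻¹ ∈ Rc M A E) → (P.eval x)⁻¹ ∈ V) := by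
  have hVeq : V = Vc M A E := SetLike.coe_injective (by rw [hV, coe_Vc])
  subst hVeq
  obtain ⟨w₀, rfl, hw⟩ := _root_.Fermat.Agent.S18.H24.exists_isUnif hwR hw0 hwinv hgen hdisc
  exact ⟨field_V_le M A E, field_V_total M hw, field_R_le_V M A E, coord_mem_Vc hx,
    field_w_inv_not_mem_V hw.ne_zero hw.inv_not_mem, field_V_gen M hw, field_gauss hx⟩

/-- The same for a coordinate in the sense of `Mod.IsCoordinate`. -/
theorem gv_fields_of_isCoordinate [NeZero M] (V : Subring (Om M))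
    (hV : (V : Set (Om M)) = VcSet M A E)
    {w : Om M} (hwR : w ∈ Rc M A E) (hw0 : w ≠ 0) (hwinv : w⁻¹ ∉ Rc M A E)
    (hgen : ∀ r ∈ Rc M A E, r⁻¹ ∉ Rc M A E → r * w⁻¹ ∈ Rc M A E)
    (hdisc : ∀ r ∈ Rc M A E, r ≠ 0 →
      ∃ n : ℕ, r * (w⁻¹) ^ n ∈ Rc M A E ∧ (r * (w⁻¹) ^ n)⁻¹ ∈ Rc M A E)
    {ℓ : ℕ} {x : Om M} {S : Finset (Om M)} (hx : IsCoordinate M ℓ x S) :
    ((V : Set (Om M)) ⊆ Fc M E) ∧
    (∀ f ∈ Fc M E, f ∈ V ∨ f⁻¹ ∈ V) ∧
    (Rc M A E ≤ V) ∧
    (x ∈ V) ∧
    (w⁻¹ ∉ V) ∧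
    (∀ f ∈ V, f⁻¹ ∉ V → f * w⁻¹ ∈ V) ∧
    (∀ P : Polynomial (Om M), (∀ i, P.coeff i ∈ Rc M A E) →
      (∃ i, P.coeff i ≠ 0 ∧ (P.coeff i)⁻¹ ∈ Rc M A E) → (P.eval x)⁻¹ ∈ V) :=
  gv_fields V hV hwR hw0 hwinv hgen hdisc (hasIntExp_of_isCoordinate M hx)

end Fermat.Agent.S18.H24

end
end
-- ===== PACK-END S18/H24/GaussFields.lean

-- ===== PACK-BEGIN S18/H804/ValPlace.lean
section




/-!
# S18 / GLUE input: every nontrivial valuation subring of a function field containing the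
constants is a place  (helper804)

`K` a field of characteristic zero, `F` finite over `K(x)`, `x` transcendental.  A valuation
subring `O ≠ ⊤` of `F` containing `K` is the valuation ring of a `Place K F` (a discrete
valuation ring).  Proof: `x` or `x⁻¹` lies in `O`; `O` dominates the localisation of the integral
closure of `K[x^{±1}]` at its center, which is a DVR, hence maximal among proper subrings.

Corollary (`exists_mul_pow_unit`): if `m ∣ ord_v u` for every place `v`, then for every valuation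
subring `O ⊇ K` of `F` there is `t ≠ 0` with `u * t ^ m` a unit of `O`.
-/

set_option autoImplicit false
set_option linter.unusedSectionVars false

namespace Fermat.Agent.S18.H804

open AlgebraicCurve Polynomial IntermediateField IsDedekindDomain Fermat.Agent.S24 FF

open scoped IntermediateField.algebraAdjoinAdjoin

variable {K F : Type*} [Field K] [Field F] [Algebra K F] {t : F}

/-- `K[t] ⊆ O` when `t ∈ O`. -/
theorem mem_of_mem_coordRing_val (O : ValuationSubring F)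
    (hK : ∀ a : K, algebraMap K F a ∈ O) (ht : t ∈ O) {r : F}
    (hr : r ∈ coordRing K t) : r ∈ O := by
  induction hr using Algebra.adjoin_induction with
  | mem x hx =>
    rw [Set.mem_singleton_iff] at hx
    subst hx
    exact ht
  | algebraMap a => exact hK a
  | add x y _ _ hx hy => exact add_mem hx hy
  | mul x y _ _ hx hy => exact mul_mem hx hy

/-- The integral closure of `K[t]` is contained in `O` when `t ∈ O`. -/
theorem mem_of_mem_intRing_val (O : ValuationSubring F)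
    (hK : ∀ a : K, algebraMap K F a ∈ O) (ht : t ∈ O) {s : F}
    (hs : s ∈ intRing K t) : s ∈ O := by
  let φ : coordRing K t →+* O :=
    { toFun := fun y => ⟨y, mem_of_mem_coordRing_val O hK ht y.2⟩
      map_one' := rfl
      map_mul' := fun _ _ => rfl
      map_zero' := rfl
      map_add' := fun _ _ => rfl }
  obtain ⟨p, hpm, hp⟩ := hs
  have hint' : IsIntegral O s := by
    refine ⟨p.map φ, hpm.map φ, ?_⟩
    rw [← hp, Polynomial.eval₂_map]
    rfl
  obtain ⟨y, hy⟩ := IsIntegrallyClosed.isIntegral_iff.mp hint'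
  rw [← hy]
  exact y.2

/-- The inclusion of the integral closure of `K[t]` into `O`. -/
def toValRing (O : ValuationSubring F) (hK : ∀ a : K, algebraMap K F a ∈ O) (ht : t ∈ O) :
    intRing K t →+* O where
  toFun s := ⟨s, mem_of_mem_intRing_val O hK ht s.2⟩
  map_one' := rfl
  map_mul' _ _ := rfl
  map_zero' := rfl
  map_add' _ _ := rfl

/-- The center of `O` on the integral closure of `K[t]`. -/
def centerVal (O : ValuationSubring F) (hK : ∀ a : K, algebraMap K F a ∈ O) (ht : t ∈ O) :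
    Ideal (intRing K t) :=
  Ideal.comap (toValRing O hK ht) (IsLocalRing.maximalIdeal O)

instance centerVal_isPrime (O : ValuationSubring F) (hK : ∀ a : K, algebraMap K F a ∈ O)
    (ht : t ∈ O) : (centerVal O hK ht).IsPrime := by
  unfold centerVal
  infer_instance

theorem mem_centerVal_iff (O : ValuationSubring F) (hK : ∀ a : K, algebraMap K F a ∈ O)
    (ht : t ∈ O) (s : intRing K t) :
    s ∈ centerVal O hK ht ↔ (s : F) ∈ O.nonunits := by
  rw [centerVal, Ideal.mem_comap]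
  exact ValuationSubring.coe_mem_nonunits_iff.symm

section withCoord

variable [CharZero K] [IsCoord K t]

/-- The center of a proper valuation subring is nonzero. -/
theorem centerVal_ne_bot (O : ValuationSubring F) (hK : ∀ a : K, algebraMap K F a ∈ O)
    (ht : t ∈ O) (hO : O ≠ ⊤) : centerVal O hK ht ≠ ⊥ := by
  intro h
  apply hO
  refine SetLike.ext fun f => ⟨fun _ => ValuationSubring.mem_top f, fun _ => ?_⟩
  -- `f = a / b` with `a, b` in the integral closure, `b ≠ 0` a unit of `O`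
  obtain ⟨a, b, hb, rfl⟩ := IsFractionRing.div_surjective (A := intRing K t) f
  have hb0 : b ≠ 0 := nonZeroDivisors.ne_zero hb
  have hbF : (b : F) ≠ 0 := fun h0 => hb0 (Subtype.ext h0)
  have hbnot : (b : F) ∉ O.nonunits := by
    intro hbn
    have : b ∈ centerVal O hK ht := (mem_centerVal_iff O hK ht b).mpr hbn
    rw [h, Ideal.mem_bot] at this
    exact hb0 this
  have hbinv : (b : F)⁻¹ ∈ O := by
    by_contra hcon
    exact hbnot ((ValuationSubring.mem_nonunits_iff_or _).mpr (Or.inr hcon))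
  have ha : (a : F) ∈ O := mem_of_mem_intRing_val O hK ht a.2
  show algebraMap (intRing K t) F a / algebraMap (intRing K t) F b ∈ O
  rw [div_eq_mul_inv]
  exact mul_mem ha hbinv

/-- A proper valuation subring containing `K` and `t` is the valuation ring of a place. -/
theorem exists_place_of_mem (O : ValuationSubring F) (hK : ∀ a : K, algebraMap K F a ∈ O)
    (ht : t ∈ O) (hO : O ≠ ⊤) : ∃ v : Place K F, v.toValuationSubring = O := by
  let q : HeightOneSpectrum (intRing K t) :=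
    ⟨centerVal O hK ht, inferInstance, centerVal_ne_bot O hK ht hO⟩
  refine ⟨placeOfPrime K t q, ?_⟩
  rw [placeOfPrime_toValuationSubring,
    ← HeightOneSpectrum.valuationSubringAtPrime_eq_valuationSubring]
  refine ValuationSubring.eq_of_le_of_ne_top _ ?_ hO
  rintro x ⟨a, s, hs, rfl⟩
  have ha : (a : F) ∈ O := mem_of_mem_intRing_val O hK ht a.2
  have hs' : (s : F) ∉ O.nonunits := fun h =>
    hs ((mem_centerVal_iff O hK ht s).mpr h)
  have hsinv : (s : F)⁻¹ ∈ O := by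
    by_contra hcon
    exact hs' ((ValuationSubring.mem_nonunits_iff_or _).mpr (Or.inr hcon))
  exact mul_mem ha hsinv

end withCoord

/-- **Every proper valuation subring of `F` containing `K` is a place.** -/
theorem exists_place_of_valuationSubring [CharZero K] {x : F} (hx : Transcendental K x)
    [FiniteDimensional K⟮x⟯ F] (O : ValuationSubring F)
    (hK : ∀ a : K, algebraMap K F a ∈ O) (hO : O ≠ ⊤) :
    ∃ v : Place K F, v.toValuationSubring = O := by
  rcases O.mem_or_inv_mem x with h | h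
  · have : IsCoord K x := ⟨hx, inferInstance⟩
    exact exists_place_of_mem O hK h hO
  · have : FiniteDimensional K⟮x⁻¹⟯ F := finiteDimensional_adjoin_inv x
    have : IsCoord K x⁻¹ := ⟨transcendental_inv hx, inferInstance⟩
    exact exists_place_of_mem O hK h hO

/-- If `m` divides the order of `u` at every place, then `u` is, up to an `m`-th power, a unit of
every valuation subring of `F` containing `K`. -/
theorem exists_mul_pow_unit [CharZero K] {x : F} (hx : Transcendental K x)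
    [FiniteDimensional K⟮x⟯ F] (m : ℕ) (u : F) (hu : u ≠ 0)
    (hdiv : ∀ v : Place K F, (m : ℤ) ∣ v.ord u) (O : ValuationSubring F)
    (hK : ∀ a : K, algebraMap K F a ∈ O) :
    ∃ t : F, t ≠ 0 ∧ u * t ^ m ∈ O ∧ (u * t ^ m)⁻¹ ∈ O := by
  by_cases hO : O = ⊤
  · subst hO
    exact ⟨1, one_ne_zero, ValuationSubring.mem_top _, ValuationSubring.mem_top _⟩
  obtain ⟨v, rfl⟩ := exists_place_of_valuationSubring hx O hK hO
  obtain ⟨π, hπ, hπ1⟩ := exists_irreducible_coe v
  have hπ0 : (π : F) ≠ 0 := by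
    intro h
    rw [h, v.ord_zero] at hπ1
    exact zero_ne_one hπ1
  obtain ⟨k, hk⟩ := hdiv v
  refine ⟨(π : F) ^ (-k), zpow_ne_zero _ hπ0, ?_, ?_⟩
  all_goals
    have hne : u * ((π : F) ^ (-k)) ^ m ≠ 0 :=
      mul_ne_zero hu (pow_ne_zero _ (zpow_ne_zero _ hπ0))
    have hord : v.ord (u * ((π : F) ^ (-k)) ^ m) = 0 := by
      rw [v.ord_mul hu (pow_ne_zero _ (zpow_ne_zero _ hπ0)), ← zpow_natCast, ← zpow_mul,
        v.ord_zpow, hπ1, hk]
      ring
  · exact mem_of_ord_nonneg v hord.ge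
  · apply mem_of_ord_nonneg v
    rw [v.ord_inv, hord]
    simp

end Fermat.Agent.S18.H804

end
-- ===== PACK-END S18/H804/ValPlace.lean

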