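import Mathlib
import Fermat.Agent.Pack.S3234.G0E5L3
import Fermat.Agent.Pack.S3234.G0E1L1
import Fermat.Agent.Pack.S3234.G0E6L1
import Fermat.Agent.Pack.S3234.G0E6L2
import Fermat.Agent.Pack.S3234.G0E6L0
import Fermat.Agent.Pack.S3234.G0E2L0
import Fermat.Agent.Pack.S3234.G0E4L2
import Fermat.Agent.Pack.S3234.G0E4L0
import Fermat.Agent.Pack.S3234.G0E4L3
import Fermat.Agent.Pack.S3234.G0E3L1
import Fermat.Agent.Pack.S3234.G0E5L2

-- ===== PACK-BEGIN S29/H812/FundId.lean
section




/-!
# S29 / H812 — the fundamental identity `∑_{w | v} e(w | v) = [F' : F]` for a finite extension of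
function fields of one variable over an algebraically closed field of characteristic zero.
-/

set_option autoImplicit false

noncomputable section

open AlgebraicCurve IntermediateField

namespace Fermat.Agent.S29.H812

open Fermat.Agent.S24

variable {K F F' : Type*} [Field K] [Field F] [Field F']
  [Algebra K F] [Algebra K F'] [Algebra F F'] [IsScalarTower K F F']
  [Algebra.IsIntegral F F'] [HasPrincipalDivisors K F']

/-- The index set of the adapted family of the fibre over `v`. -/
abbrev FibIdx (F' : Type*) [Field F'] [Algebra K F'] [Algebra F F'] [IsScalarTower K F F']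
    [Algebra.IsIntegral F F'] [HasPrincipalDivisors K F'] (v : Place K F) : Type _ :=
  Σ w : {w : Place K F' // w ∈ v.fiber F'}, Fin (w.1.ramificationIndex F)

theorem card_fibIdx (v : Place K F) :
    Fintype.card (FibIdx F' v) = ∑ w ∈ v.fiber F', w.ramificationIndex F := by
  classical
  rw [Fintype.card_sigma]
  simp only [Fintype.card_fin]
  exact Finset.sum_coe_sort (v.fiber F') (fun w => w.ramificationIndex F)

theorem fibIdx_ext (v : Place K F) (a b : FibIdx F' v) (h1 : a.1.1 = b.1.1)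
    (h2 : (a.2 : ℕ) = (b.2 : ℕ)) : a = b := by
  obtain ⟨⟨w, hw⟩, i⟩ := a
  obtain ⟨⟨w', hw'⟩, i'⟩ := b
  simp only at h1
  subst h1
  simp only at h2
  have : i = i' := Fin.ext h2
  subst this
  rfl

/-- An adapted family for the fibre over `v`. -/
theorem exists_family (v : Place K F) :
    ∃ u : FibIdx F' v → F', (∀ a, u a ≠ 0) ∧ (∀ a : FibIdx F' v, a.1.1.ord (u a) = (a.2 : ℕ)) ∧
      (∀ a b : FibIdx F' v, b.1.1 ≠ a.1.1 →
        ((b.1.1.ramificationIndex F : ℕ) : ℤ) ≤ b.1.1.ord (u a)) := by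
  classical
  set B : ℕ := ∑ w ∈ v.fiber F', w.ramificationIndex F with hB
  have h : ∀ a : FibIdx F' v, ∃ u : F', u ≠ 0 ∧ a.1.1.ord u = (a.2 : ℕ) ∧
      ∀ w' ∈ (v.fiber F').erase a.1.1, (B : ℤ) ≤ w'.ord u := fun a =>
    exists_ord_eq_and_ge a.1.1 ((v.fiber F').erase a.1.1) (Finset.notMem_erase _ _) a.2 B
  choose u hu0 hu1 hu2 using h
  refine ⟨u, hu0, hu1, ?_⟩
  intro a b hne
  have hmem : b.1.1 ∈ (v.fiber F').erase a.1.1 := Finset.mem_erase.mpr ⟨hne, b.1.2⟩
  have h1 := hu2 a b.1.1 hmem
  have h2 : b.1.1.ramificationIndex F ≤ B :=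
    Finset.single_le_sum (f := fun w : Place K F' => w.ramificationIndex F)
      (fun _ _ => Nat.zero_le _) b.1.2
  have h3 : ((b.1.1.ramificationIndex F : ℕ) : ℤ) ≤ (B : ℤ) := by exact_mod_cast h2
  linarith

/-- The coordinate lemma for an adapted family. -/
theorem family_coord (v : Place K F) (u : FibIdx F' v → F') (hu0 : ∀ a, u a ≠ 0)
    (hu1 : ∀ a : FibIdx F' v, a.1.1.ord (u a) = (a.2 : ℕ))
    (hu2 : ∀ a b : FibIdx F' v, b.1.1 ≠ a.1.1 →
        ((b.1.1.ramificationIndex F : ℕ) : ℤ) ≤ b.1.1.ord (u a))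
    (c : FibIdx F' v → F) (hc : ∃ a, c a ≠ 0) :
    ∃ a₀, c a₀ ≠ 0 ∧ (∀ a, c a ≠ 0 → v.ord (c a₀) ≤ v.ord (c a)) ∧
      (∑ a, c a • u a) ≠ 0 ∧
      a₀.1.1.ord (∑ a, c a • u a)
        = (a₀.1.1.ramificationIndex F : ℤ) * v.ord (c a₀) + ((a₀.2 : ℕ) : ℤ) :=
  coord_lemma v (fun a : FibIdx F' v => a.1.1) (fun a => (a.2 : ℕ)) u
    (fun a => Place.mem_fiber.mp a.1.2) (fun a => a.2.2) hu0 hu1 hu2
    (fun a b h1 h2 => fibIdx_ext v a b h1 h2) c hc

theorem family_linearIndependent (v : Place K F) (u : FibIdx F' v → F') (hu0 : ∀ a, u a ≠ 0)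
    (hu1 : ∀ a : FibIdx F' v, a.1.1.ord (u a) = (a.2 : ℕ))
    (hu2 : ∀ a b : FibIdx F' v, b.1.1 ≠ a.1.1 →
        ((b.1.1.ramificationIndex F : ℕ) : ℤ) ≤ b.1.1.ord (u a)) :
    LinearIndependent F u := by
  rw [Fintype.linearIndependent_iff]
  intro c hsum a
  by_contra ha
  obtain ⟨_, _, _, hne, _⟩ := family_coord v u hu0 hu1 hu2 c ⟨a, ha⟩
  exact hne hsum

/-- **Fundamental inequality** `∑_{w | v} e(w | v) ≤ [F' : F]`. -/
theorem sum_ramificationIndex_le_finrank [Module.Finite F F'] (v : Place K F) :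
    ∑ w ∈ v.fiber F', w.ramificationIndex F ≤ Module.finrank F F' := by
  obtain ⟨u, hu0, hu1, hu2⟩ := exists_family (F' := F') v
  rw [← card_fibIdx]
  exact (family_linearIndependent v u hu0 hu1 hu2).fintype_card_le_finrank

section Identity

variable [IsAlgClosed K] [CharZero K] [Module.Finite F F']

omit [Algebra.IsIntegral F F'] [HasPrincipalDivisors K F'] [IsAlgClosed K] [CharZero K]
  [Module.Finite F F'] in
theorem not_mem_range_of_ord_ne_zero (v : Place K F) {f : F} (hf : v.ord f ≠ 0) :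
    f ∉ (algebraMap K F).range := by
  rintro ⟨c, rfl⟩
  exact hf (H117.ord_algebraMap v c)

/-- **Fundamental identity** `∑_{w | v} e(w | v) = [F' : F]`. -/
theorem sum_ramificationIndex_eq_finrank
    (hF : ∃ x : F, Transcendental K x ∧ FiniteDimensional K⟮x⟯ F) (v : Place K F) :
    ∑ w ∈ v.fiber F', w.ramificationIndex F = Module.finrank F F' := by
  classical
  obtain ⟨x, hx, hxfin⟩ := hF
  obtain ⟨π, hπ0, hπ1⟩ := H117.exists_ord_eq_one v
  have hπt : Transcendental K π :=
    FF.transcendental_of_not_mem_range (not_mem_range_of_ord_ne_zero v (by rw [hπ1]; norm_num))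
  haveI hπfin : FiniteDimensional K⟮π⟯ F := FF.finiteDimensional_adjoin_of_transcendental hx hπt
  set π' : F' := algebraMap F F' π with hπ'
  have hπ't : Transcendental K π' := transcendental_algebraMap_of hπt
  haveI hπ'fin : FiniteDimensional K⟮π'⟯ F' := finiteDimensional_adjoin_algebraMap π
  set Z : Finset (Place K F) := (FF.finite_setOf_ord_pos hπt).toFinset with hZ
  set Z' : Finset (Place K F') := (FF.finite_setOf_ord_pos hπ't).toFinset with hZ'
  have hZmem : ∀ v', v' ∈ Z ↔ 0 < v'.ord π := fun v' => by simp [hZ]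
  have hZ'mem : ∀ w, w ∈ Z' ↔ 0 < w.ord π' := fun w => by simp [hZ']
  have h1 := FF.sum_ord_eq_finrank hπt Z hZmem
  have h2 := FF.sum_ord_eq_finrank hπ't Z' hZ'mem
  rw [finrank_adjoin_algebraMap] at h2
  -- positivity transfer
  have hpos : ∀ w : Place K F', 0 < w.ord π' ↔ 0 < (w.restrict F).ord π := by
    intro w
    rw [hπ', w.ord_restrict]
    have he : (0 : ℤ) < (w.ramificationIndex F : ℤ) := by
      exact_mod_cast w.ramificationIndex_pos (F := F)
    constructor
    · intro h
      by_contra hcon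
      push Not at hcon
      nlinarith
    · intro h
      exact mul_pos he h
  have hmaps : ∀ w ∈ Z', w.restrict F ∈ Z := fun w hw =>
    (hZmem _).mpr ((hpos w).mp ((hZ'mem w).mp hw))
  have h3 : ∑ w ∈ Z', w.ord π'
      = ∑ v' ∈ Z, v'.ord π * ((∑ w ∈ v'.fiber F', w.ramificationIndex F : ℕ) : ℤ) := by
    rw [← Finset.sum_fiberwise_of_maps_to hmaps]
    refine Finset.sum_congr rfl fun v' hv' => ?_
    have hfilter : Z'.filter (fun w => w.restrict F = v') = v'.fiber F' := by
      ext w
      simp only [Finset.mem_filter, Place.mem_fiber]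
      constructor
      · exact fun h => h.2
      · intro h
        refine ⟨(hZ'mem w).mpr ((hpos w).mpr ?_), h⟩
        rw [h]
        exact (hZmem v').mp hv'
    rw [hfilter]
    push_cast
    rw [Finset.mul_sum]
    refine Finset.sum_congr rfl fun w hw => ?_
    rw [hπ', w.ord_restrict, Place.mem_fiber.mp hw]
    ring
  -- compare
  have h4 : ∑ v' ∈ Z, v'.ord π * ((∑ w ∈ v'.fiber F', w.ramificationIndex F : ℕ) : ℤ)
      = ∑ v' ∈ Z, v'.ord π * (Module.finrank F F' : ℤ) := by
    rw [← h3, h2, ← Finset.sum_mul, h1]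
    push_cast
    ring
  have hle : ∀ v' ∈ Z, v'.ord π * ((∑ w ∈ v'.fiber F', w.ramificationIndex F : ℕ) : ℤ)
      ≤ v'.ord π * (Module.finrank F F' : ℤ) := by
    intro v' hv'
    have h5 : (0 : ℤ) ≤ v'.ord π := ((hZmem v').mp hv').le
    have h6 : ((∑ w ∈ v'.fiber F', w.ramificationIndex F : ℕ) : ℤ) ≤ (Module.finrank F F' : ℤ) := by
      exact_mod_cast sum_ramificationIndex_le_finrank (F' := F') v'
    exact mul_le_mul_of_nonneg_left h6 h5
  have h7 := (Finset.sum_eq_sum_iff_of_le hle).mp h4 v ((hZmem v).mpr (by rw [hπ1]; norm_num))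
  rw [hπ1, one_mul, one_mul] at h7
  exact_mod_cast h7

end Identity

end Fermat.Agent.S29.H812

end
end
-- ===== PACK-END S29/H812/FundId.lean

-- ===== PACK-BEGIN S29/H812/IntBasis.lean
section


/-!
# S29 / H812 — a local integral basis at a place `v` of `F` for a finite extension `F'/F`

`InFib v x` : `x ∈ F'` is integral at every place above `v`.  We construct a basis `b` of `F'/F`
consisting of such elements, such that the coordinates of every such element lie in the valuation
ring of `v`.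
-/

set_option autoImplicit false

noncomputable section

open AlgebraicCurve IntermediateField

namespace Fermat.Agent.S29.H812

open Fermat.Agent.S24

variable {K F F' : Type*} [Field K] [Field F] [Field F']
  [Algebra K F] [Algebra K F'] [Algebra F F'] [IsScalarTower K F F']
  [Algebra.IsIntegral F F'] [HasPrincipalDivisors K F']

/-- `x` is integral at all places of `F'` above `v`. -/
def InFib (v : Place K F) (x : F') : Prop := ∀ w ∈ v.fiber F', x ∈ w.toValuationSubring

theorem inFib_zero (v : Place K F) : InFib v (0 : F') := fun _ _ => zero_mem _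

theorem inFib_one (v : Place K F) : InFib v (1 : F') := fun _ _ => one_mem _

theorem InFib.add {v : Place K F} {x y : F'} (hx : InFib v x) (hy : InFib v y) :
    InFib v (x + y) := fun w hw => add_mem (hx w hw) (hy w hw)

theorem InFib.mul {v : Place K F} {x y : F'} (hx : InFib v x) (hy : InFib v y) :
    InFib v (x * y) := fun w hw => mul_mem (hx w hw) (hy w hw)

theorem inFib_sum {v : Place K F} {ι : Type*} (s : Finset ι) (f : ι → F')
    (h : ∀ i ∈ s, InFib v (f i)) : InFib v (∑ i ∈ s, f i) :=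
  fun w hw => sum_mem fun i hi => h i hi w hw

theorem inFib_algebraMap {v : Place K F} {c : F} (hc : c ∈ v.toValuationSubring) :
    InFib v (algebraMap F F' c) := by
  intro w hw
  have h := Place.mem_fiber.mp hw
  rw [← h] at hc
  exact (Place.mem_restrict_iff w).mp hc

theorem InFib.smul {v : Place K F} {c : F} (hc : c ∈ v.toValuationSubring) {x : F'}
    (hx : InFib v x) : InFib v (c • x) := by
  rw [Algebra.smul_def]
  exact (inFib_algebraMap hc).mul hx

theorem inFib_iff_ord {v : Place K F} {x : F'} :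
    InFib v x ↔ ∀ w ∈ v.fiber F', 0 ≤ w.ord x :=
  forall₂_congr fun w _ => H117.mem_iff_ord_nonneg w

section Basis

variable [IsAlgClosed K] [CharZero K] [Module.Finite F F']

/-- **Local integral basis.** -/
theorem exists_integral_basis
    (hF : ∃ x : F, Transcendental K x ∧ FiniteDimensional K⟮x⟯ F) (v : Place K F) :
    ∃ b : Module.Basis (FibIdx F' v) F F',
      (∀ i, InFib v (b i)) ∧
      (∀ x : F', InFib v x → ∀ i, b.repr x i ∈ v.toValuationSubring) := by
  classical
  obtain ⟨u, hu0, hu1, hu2⟩ := exists_family (F' := F') v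
  have hli := family_linearIndependent v u hu0 hu1 hu2
  have hcard : Fintype.card (FibIdx F' v) = Module.finrank F F' := by
    rw [card_fibIdx, sum_ramificationIndex_eq_finrank hF v]
  set b : Module.Basis (FibIdx F' v) F F' := basisOfLinearIndependentOfCardEqFinrank' u hli hcard
    with hb
  have hbu : ∀ i, b i = u i := fun i => by
    rw [hb, coe_basisOfLinearIndependentOfCardEqFinrank']
  refine ⟨b, ?_, ?_⟩
  · intro a
    rw [hbu, inFib_iff_ord]
    intro w hw
    by_cases h : w = a.1.1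
    · rw [h, hu1]; exact Int.natCast_nonneg _
    · have hpos : 0 < w.ramificationIndex F := w.ramificationIndex_pos (F := F)
      have := hu2 a ⟨⟨w, hw⟩, ⟨0, hpos⟩⟩ h
      have h0 : (0 : ℤ) ≤ ((w.ramificationIndex F : ℕ) : ℤ) := Int.natCast_nonneg _
      exact h0.trans this
  · intro x hx a
    by_cases hall : ∀ a, b.repr x a = 0
    · rw [hall a]; exact zero_mem _
    push Not at hall
    obtain ⟨a₀, hc₀, hmin, -, hord⟩ := family_coord v u hu0 hu1 hu2 (fun a => b.repr x a) hall
    have hsum : ∑ a, b.repr x a • u a = x := by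
      have := b.sum_repr x
      simpa [hbu] using this
    rw [hsum] at hord
    have h0 : 0 ≤ a₀.1.1.ord x := H117.ord_nonneg_of_mem _ (hx a₀.1.1 a₀.1.2)
    have hi : ((a₀.2 : ℕ) : ℤ) < (a₀.1.1.ramificationIndex F : ℤ) := by exact_mod_cast a₀.2.2
    have hm : 0 ≤ v.ord (b.repr x a₀) := by
      by_contra hneg
      push Not at hneg
      have he : (0 : ℤ) < (a₀.1.1.ramificationIndex F : ℤ) := by
        exact_mod_cast a₀.1.1.ramificationIndex_pos (F := F)
      nlinarith
    by_cases ha : b.repr x a = 0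
    · rw [ha]; exact zero_mem _
    · exact H117.mem_of_ord_nonneg v (hm.trans (hmin a ha))

end Basis

end Fermat.Agent.S29.H812

end
end
-- ===== PACK-END S29/H812/IntBasis.lean

-- ===== PACK-BEGIN S29/H812/Norm.lean
section


/-!
# S29 / H812 — the norm formula `ord_v (N_{F'/F} f) = ∑_{w | v} ord_w f` for a finite extension
of function fields of one variable over an algebraically closed field of characteristic zero.
-/

set_option autoImplicit false

noncomputable section

open AlgebraicCurve IntermediateField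

namespace Fermat.Agent.S29.H812

open Fermat.Agent.S24

section Single

variable {K F : Type*} [Field K] [Field F] [Algebra K F]

theorem ord_prod (w : Place K F) {ι : Type*} (s : Finset ι) (g : ι → F)
    (hg : ∀ i ∈ s, g i ≠ 0) : w.ord (∏ i ∈ s, g i) = ∑ i ∈ s, w.ord (g i) := by
  classical
  induction s using Finset.induction_on with
  | empty => simp
  | insert a s ha ih =>
    rw [Finset.prod_insert ha, Finset.sum_insert ha,
      w.ord_mul (hg a (Finset.mem_insert_self _ _))
        (Finset.prod_ne_zero_iff.mpr fun i hi => hg i (Finset.mem_insert_of_mem hi)),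
      ih fun i hi => hg i (Finset.mem_insert_of_mem hi)]

theorem isUnit_of_ord_eq_zero (v : Place K F) (a : v.toValuationSubring) (ha : (a : F) ≠ 0)
    (h : v.ord (a : F) = 0) : IsUnit a := by
  rw [← v.adicValuation_coe_eq_one_iff, H504.adicValuation_eq_exp_neg_ord v ha, h]
  simp

end Single

variable {K F F' : Type*} [Field K] [Field F] [Field F']
  [Algebra K F] [Algebra K F'] [Algebra F F'] [IsScalarTower K F F']
  [Algebra.IsIntegral F F'] [HasPrincipalDivisors K F']
  [IsAlgClosed K] [CharZero K] [Module.Finite F F']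

/-- The matrix of multiplication by an integral element in a local integral basis, over the
valuation ring. -/
theorem exists_matrix (v : Place K F) [DecidableEq (FibIdx F' v)]
    (b : Module.Basis (FibIdx F' v) F F')
    (hb : ∀ i, InFib v (b i))
    (hrepr : ∀ x : F', InFib v x → ∀ i, b.repr x i ∈ v.toValuationSubring)
    {x : F'} (hx : InFib v x) :
    ∃ A : Matrix (FibIdx F' v) (FibIdx F' v) v.toValuationSubring,
      Algebra.leftMulMatrix b x = A.map v.toValuationSubring.subtype := by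
  refine ⟨fun i j => ⟨Algebra.leftMulMatrix b x i j, ?_⟩, ?_⟩
  · rw [Algebra.leftMulMatrix_eq_repr_mul]
    exact hrepr _ (hx.mul (hb j)) i
  · ext i j
    rfl

/-- The norm of an element integral above `v` is integral at `v`. -/
theorem norm_mem_of_inFib (hF : ∃ x : F, Transcendental K x ∧ FiniteDimensional K⟮x⟯ F)
    (v : Place K F) {x : F'} (hx : InFib v x) : Algebra.norm F x ∈ v.toValuationSubring := by
  classical
  obtain ⟨b, hb, hrepr⟩ := exists_integral_basis (F' := F') hF v
  obtain ⟨A, hA⟩ := exists_matrix v b hb hrepr hx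
  rw [Algebra.norm_eq_matrix_det b x, hA, ← RingHom.mapMatrix_apply, ← RingHom.map_det]
  exact (A.det).2

/-- If the norm of an integral element is a unit at `v`, the inverse is integral above `v`. -/
theorem inFib_inv_of_ord_norm_eq_zero
    (hF : ∃ x : F, Transcendental K x ∧ FiniteDimensional K⟮x⟯ F)
    (v : Place K F) {x : F'} (hx0 : x ≠ 0) (hx : InFib v x)
    (hN : v.ord (Algebra.norm F x) = 0) : InFib v x⁻¹ := by
  classical
  obtain ⟨b, hb, hrepr⟩ := exists_integral_basis (F' := F') hF v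
  obtain ⟨A, hA⟩ := exists_matrix v b hb hrepr hx
  have hdet : ((A.det : v.toValuationSubring) : F) = Algebra.norm F x := by
    rw [Algebra.norm_eq_matrix_det b x, hA, ← RingHom.mapMatrix_apply, ← RingHom.map_det]
    rfl
  have hNne : Algebra.norm F x ≠ 0 := Algebra.norm_ne_zero_iff.mpr hx0
  have hunit : IsUnit A.det :=
    isUnit_of_ord_eq_zero v A.det (by rw [hdet]; exact hNne) (by rw [hdet]; exact hN)
  -- the inverse matrix
  have h1 : A⁻¹ * A = 1 := Matrix.nonsing_inv_mul A hunit
  have h2 : (A⁻¹).map v.toValuationSubring.subtype * Algebra.leftMulMatrix b x = 1 := by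
    rw [hA, ← Matrix.map_mul, h1]
    exact Matrix.map_one _ (map_zero _) (map_one _)
  have h3 : Algebra.leftMulMatrix b x * Algebra.leftMulMatrix b x⁻¹ = 1 := by
    rw [← map_mul, mul_inv_cancel₀ hx0, map_one]
  have h4 : Algebra.leftMulMatrix b x⁻¹ = (A⁻¹).map v.toValuationSubring.subtype := by
    calc Algebra.leftMulMatrix b x⁻¹
        = ((A⁻¹).map v.toValuationSubring.subtype * Algebra.leftMulMatrix b x)
            * Algebra.leftMulMatrix b x⁻¹ := by rw [h2, one_mul]
      _ = (A⁻¹).map v.toValuationSubring.subtype := by rw [mul_assoc, h3, mul_one]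
  -- coordinates of `x⁻¹`
  have hcoord : ∀ i, b.repr x⁻¹ i ∈ v.toValuationSubring := by
    intro i
    have h5 := congrFun (Algebra.leftMulMatrix_mulVec_repr b x⁻¹ 1) i
    rw [mul_one] at h5
    rw [← h5, Matrix.mulVec, dotProduct]
    refine sum_mem fun j _ => mul_mem ?_ (hrepr 1 (inFib_one v) j)
    rw [h4]
    exact (A⁻¹ i j).2
  rw [← b.sum_repr x⁻¹]
  exact inFib_sum _ _ fun i _ => (hb i).smul (hcoord i)

variable (hF : ∃ x : F, Transcendental K x ∧ FiniteDimensional K⟮x⟯ F)

include hF in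
/-- Units above `v` have unit norm. -/
theorem ord_norm_eq_zero_of_unit (v : Place K F) {x : F'} (hx0 : x ≠ 0)
    (hx : ∀ w ∈ v.fiber F', w.ord x = 0) : v.ord (Algebra.norm F x) = 0 := by
  have h1 : InFib v x := inFib_iff_ord.mpr fun w hw => (hx w hw).ge
  have h2 : InFib v x⁻¹ := inFib_iff_ord.mpr fun w hw => by
    rw [w.ord_inv, hx w hw]; rfl
  have h3 := H117.ord_nonneg_of_mem v (norm_mem_of_inFib hF v h1)
  have h4 := H117.ord_nonneg_of_mem v (norm_mem_of_inFib hF v h2)
  have h5 : Algebra.norm F x * Algebra.norm F x⁻¹ = 1 := by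
    rw [← map_mul, mul_inv_cancel₀ hx0, map_one]
  have h6 : v.ord (Algebra.norm F x) + v.ord (Algebra.norm F x⁻¹) = 0 := by
    rw [← v.ord_mul (Algebra.norm_ne_zero_iff.mpr hx0)
      (Algebra.norm_ne_zero_iff.mpr (inv_ne_zero hx0)), h5, v.ord_one]
  omega

include hF in
/-- Non-units above `v` have non-unit norm. -/
theorem ord_norm_pos_of_ord_pos (v : Place K F) {x : F'} (hx0 : x ≠ 0) (hx : InFib v x)
    {w₀ : Place K F'} (hw₀ : w₀ ∈ v.fiber F') (hpos : 0 < w₀.ord x) :
    0 < v.ord (Algebra.norm F x) := by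
  have h3 := H117.ord_nonneg_of_mem v (norm_mem_of_inFib hF v hx)
  rcases eq_or_lt_of_le h3 with h0 | hlt
  · exfalso
    have h := inFib_inv_of_ord_norm_eq_zero hF v hx0 hx h0.symm
    have := H117.ord_nonneg_of_mem w₀ (h w₀ hw₀)
    rw [w₀.ord_inv] at this
    omega
  · exact hlt

include hF in
/-- Elements with the same orders above `v` have norms of the same order at `v`. -/
theorem ord_norm_congr (v : Place K F) {g h : F'} (hg : g ≠ 0) (hh : h ≠ 0)
    (hgh : ∀ w ∈ v.fiber F', w.ord g = w.ord h) :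
    v.ord (Algebra.norm F g) = v.ord (Algebra.norm F h) := by
  have hu0 : g * h⁻¹ ≠ 0 := mul_ne_zero hg (inv_ne_zero hh)
  have hu : v.ord (Algebra.norm F (g * h⁻¹)) = 0 :=
    ord_norm_eq_zero_of_unit hF v hu0 fun w hw => by
      rw [w.ord_mul hg (inv_ne_zero hh), w.ord_inv, hgh w hw]; ring
  have h1 : g = (g * h⁻¹) * h := by field_simp
  have h2 : Algebra.norm F g = Algebra.norm F (g * h⁻¹) * Algebra.norm F h := by
    rw [← map_mul, ← h1]
  rw [h2, v.ord_mul (Algebra.norm_ne_zero_iff.mpr hu0) (Algebra.norm_ne_zero_iff.mpr hh), hu,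
    zero_add]

end Fermat.Agent.S29.H812

end
end
-- ===== PACK-END S29/H812/Norm.lean

-- ===== PACK-BEGIN S29/H812/NormFormula.lean
section


/-!
# S29 / H812 — the norm formula and the Prelude classes `SumRamificationInertia`,
`FundamentalIdentity`, `PushforwardNormFormula` for finite extensions of function fields over an
algebraically closed field of characteristic zero.
-/

set_option autoImplicit false

noncomputable section

open AlgebraicCurve IntermediateField

namespace Fermat.Agent.S29.H812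

open Fermat.Agent.S24

variable {K F F' : Type*} [Field K] [Field F] [Field F']
  [Algebra K F] [Algebra K F'] [Algebra F F'] [IsScalarTower K F F']
  [Algebra.IsIntegral F F'] [HasPrincipalDivisors K F']
  [IsAlgClosed K] [CharZero K] [Module.Finite F F']

variable (hF : ∃ x : F, Transcendental K x ∧ FiniteDimensional K⟮x⟯ F)

include hF in
omit [HasPrincipalDivisors K F'] [CharZero K] in
theorem inertiaDeg_eq_one (w : Place K F') : w.inertiaDeg F = 1 := by
  obtain ⟨x, hx, hxfin⟩ := hF
  haveI := finiteDimensional_adjoin_algebraMap (K := K) (F' := F') x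
  have h := w.deg_restrict_mul_inertiaDeg (F := F)
  rw [FF.deg_eq_one (w.restrict F) hx,
    FF.deg_eq_one w (transcendental_algebraMap_of (F' := F') hx), one_mul] at h
  exact h

include hF in
/-- **Norm formula**: `ord_v (N f) = ∑_{w | v} ord_w f`. -/
theorem ord_norm_eq_sum (v : Place K F) {f : F'} (hf : f ≠ 0) :
    v.ord (Algebra.norm F f) = ∑ w ∈ v.fiber F', w.ord f := by
  classical
  have hϖ : ∀ w : Place K F', ∃ ϖ : F', ϖ ≠ 0 ∧ w.ord ϖ = 1 ∧
      ∀ w' ∈ (v.fiber F').erase w, w'.ord ϖ = 0 := fun w =>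
    exists_ord_eq_one_and_zero w _ (Finset.notMem_erase _ _)
  choose ϖ hϖ0 hϖ1 hϖ2 using hϖ
  set c : Place K F' → ℤ := fun w => v.ord (Algebra.norm F (ϖ w)) with hc
  have hpne : ∀ k : Place K F' → ℕ, ∏ w ∈ v.fiber F', ϖ w ^ k w ≠ 0 := fun k =>
    Finset.prod_ne_zero_iff.mpr fun w _ => pow_ne_zero _ (hϖ0 w)
  have hprod : ∀ (k : Place K F' → ℕ), ∀ w' ∈ v.fiber F',
      w'.ord (∏ w ∈ v.fiber F', ϖ w ^ k w) = k w' := by
    intro k w' hw'
    rw [ord_prod w' _ _ fun w _ => pow_ne_zero _ (hϖ0 w)]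
    simp_rw [H117.ord_pow]
    rw [Finset.sum_eq_single w']
    · rw [hϖ1 w']; ring
    · intro w _ hne
      rw [hϖ2 w w' (Finset.mem_erase.mpr ⟨fun h => hne h.symm, hw'⟩)]; ring
    · intro h; exact absurd hw' h
  have hnorm : ∀ k : Place K F' → ℕ,
      v.ord (Algebra.norm F (∏ w ∈ v.fiber F', ϖ w ^ k w)) = ∑ w ∈ v.fiber F', (k w : ℤ) * c w := by
    intro k
    rw [map_prod, ord_prod v _ _ fun w _ =>
      Algebra.norm_ne_zero_iff.mpr (pow_ne_zero _ (hϖ0 w))]
    refine Finset.sum_congr rfl fun w _ => ?_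
    rw [map_pow, H117.ord_pow]
  have hstar : ∀ f : F', f ≠ 0 →
      v.ord (Algebra.norm F f) = ∑ w ∈ v.fiber F', w.ord f * c w := by
    intro f hf
    set p : Place K F' → ℕ := fun w => (w.ord f).toNat with hp
    set n : Place K F' → ℕ := fun w => (-(w.ord f)).toNat with hn
    have hpn : ∀ w : Place K F', w.ord f = (p w : ℤ) - (n w : ℤ) := by
      intro w
      simp only [hp, hn]
      omega
    have hcong := ord_norm_congr hF v (g := f * ∏ w ∈ v.fiber F', ϖ w ^ n w)
      (h := ∏ w ∈ v.fiber F', ϖ w ^ p w) (mul_ne_zero hf (hpne n)) (hpne p) (by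
        intro w' hw'
        rw [w'.ord_mul hf (hpne n), hprod n w' hw', hprod p w' hw', hpn w']
        ring)
    rw [map_mul, v.ord_mul (Algebra.norm_ne_zero_iff.mpr hf)
      (Algebra.norm_ne_zero_iff.mpr (hpne n)), hnorm, hnorm] at hcong
    have : ∑ w ∈ v.fiber F', w.ord f * c w
        = ∑ w ∈ v.fiber F', (p w : ℤ) * c w - ∑ w ∈ v.fiber F', (n w : ℤ) * c w := by
      rw [← Finset.sum_sub_distrib]
      refine Finset.sum_congr rfl fun w _ => ?_
      rw [hpn w]; ring
    rw [this]
    linarith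
  -- the constants `c w` are all `1`
  obtain ⟨π, hπ0, hπ1⟩ := H117.exists_ord_eq_one v
  have hπ' : algebraMap F F' π ≠ 0 := by simpa using hπ0
  have h1 := hstar (algebraMap F F' π) hπ'
  rw [Algebra.norm_algebraMap, H117.ord_pow, hπ1, mul_one] at h1
  have h2 : ∀ w ∈ v.fiber F', w.ord (algebraMap F F' π) = (w.ramificationIndex F : ℤ) := by
    intro w hw
    rw [w.ord_restrict, Place.mem_fiber.mp hw, hπ1, mul_one]
  have h3 : ((∑ w ∈ v.fiber F', w.ramificationIndex F : ℕ) : ℤ) = (Module.finrank F F' : ℤ) := by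
    exact_mod_cast sum_ramificationIndex_eq_finrank hF v
  have hcpos : ∀ w ∈ v.fiber F', 1 ≤ c w := by
    intro w hw
    have hin : InFib v (ϖ w) := inFib_iff_ord.mpr fun w' hw' => by
      by_cases h : w' = w
      · rw [h, hϖ1]; norm_num
      · rw [hϖ2 w w' (Finset.mem_erase.mpr ⟨h, hw'⟩)]
    have := ord_norm_pos_of_ord_pos hF v (hϖ0 w) hin hw (by rw [hϖ1]; norm_num)
    exact this
  have h4 : ∑ w ∈ v.fiber F', (w.ramificationIndex F : ℤ) * (c w - 1) = 0 := by
    have : ∑ w ∈ v.fiber F', (w.ramificationIndex F : ℤ) * (c w - 1)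
        = ∑ w ∈ v.fiber F', w.ord (algebraMap F F' π) * c w
          - ∑ w ∈ v.fiber F', (w.ramificationIndex F : ℤ) := by
      rw [← Finset.sum_sub_distrib]
      refine Finset.sum_congr rfl fun w hw => ?_
      rw [h2 w hw]; ring
    rw [this, ← h1]
    push_cast at h3
    rw [h3]; ring
  have h5 := (Finset.sum_eq_zero_iff_of_nonneg (fun w hw => by
    have he : (0 : ℤ) ≤ (w.ramificationIndex F : ℤ) := Int.natCast_nonneg _
    have := hcpos w hw
    exact mul_nonneg he (by omega))).mp h4
  have hc1 : ∀ w ∈ v.fiber F', c w = 1 := by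
    intro w hw
    have h6 := h5 w hw
    have he : (0 : ℤ) < (w.ramificationIndex F : ℤ) := by
      exact_mod_cast w.ramificationIndex_pos (F := F)
    rcases mul_eq_zero.mp h6 with h7 | h7
    · omega
    · omega
  rw [hstar f hf]
  refine Finset.sum_congr rfl fun w hw => ?_
  rw [hc1 w hw, mul_one]

include hF in
/-- The Prelude's `PushforwardNormFormula`. -/
theorem pushforwardNormFormula : Divisor.PushforwardNormFormula K F F' := by
  classical
  intro f hf D hD v
  rw [Divisor.pushforward_apply, ord_norm_eq_sum hF v hf]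
  have h1 : ∀ w ∈ D.support,
      (if w.restrict F = v then D w * (w.inertiaDeg F : ℤ) else 0)
        = if w.restrict F = v then w.ord f else 0 := by
    intro w _
    rw [inertiaDeg_eq_one hF w, hD w]
    simp
  rw [Finset.sum_congr rfl h1, ← Finset.sum_filter]
  refine Finset.sum_subset ?_ ?_
  · intro w hw
    exact Place.mem_fiber.mpr (Finset.mem_filter.mp hw).2
  · intro w hw hnot
    have : w ∉ D.support := fun h => hnot (Finset.mem_filter.mpr ⟨h, Place.mem_fiber.mp hw⟩)
    rw [Finsupp.notMem_support_iff] at this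
    rw [← hD w, this]

include hF in
/-- The Prelude's `SumRamificationInertia`. -/
theorem sumRamificationInertia : SumRamificationInertia K F F' where
  sum_ramificationIndex_mul_inertiaDeg v := by
    have h := sum_ramificationIndex_eq_finrank (F' := F') hF v
    rw [← h]
    push_cast
    refine Finset.sum_congr rfl fun w _ => ?_
    rw [inertiaDeg_eq_one hF w]
    simp

include hF in
/-- The Prelude's `FundamentalIdentity`. -/
theorem fundamentalIdentity : FundamentalIdentity K F F' :=
  haveI := sumRamificationInertia (F' := F') hF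
  inferInstance

end Fermat.Agent.S29.H812

end
end
-- ===== PACK-END S29/H812/NormFormula.lean

-- ===== PACK-BEGIN S29/H222/ESKNorm.lean
section
/-
S29 / helper222 — piece ESK, part 3: the Hecke correspondence on divisors of functions
(`T_ℓ (div y) = div (Nm_α (β y))`, from the Prelude's `HeckeInputsAlong`), and the integral
Kronecker norm `K(U) = kronNorm ℓ (σ U)` with its reduction.
-/


set_option autoImplicit false
set_option linter.style.haveILetI false

noncomputable section

namespace Fermat.Agent.S29.H222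

open ModularCurve AlgebraicCurve HahnSeries IsLocalRing
open Fermat.Agent.S18 (Qb IsInt toF CoreStatement)
open Fermat.Agent.S37.H400 (kronNorm)

variable {A : ValuationSubring Qb} {N : ℕ}

/-! ### Characteristic of the residue field -/

theorem charP_residueField_of_liesOver {ℓ : ℕ} (hℓ : ℓ.Prime) (hA : A.LiesOverPrime ℓ) :
    CharP (ResidueField A) ℓ := by
  rw [CharP.charP_iff_prime_eq_zero hℓ]
  have h1 : ((ℓ : A) : Qb) ∈ A.nonunits := by
    have : ((ℓ : A) : Qb) = (ℓ : Qb) := by simp
    rw [this]; exact hA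
  have h2 : (ℓ : A) ∈ maximalIdeal A := ValuationSubring.coe_mem_nonunits_iff.mp h1
  have h3 : residue A (ℓ : A) = 0 := (residue_eq_zero_iff _).mpr h2
  rw [← h3, map_natCast]

/-! ### The Hecke correspondence on divisors of functions -/

section Hecke

variable [NeZero N] {ℓ : ℕ} [NeZero ℓ]

omit [NeZero N] in
/-- `β^* (div y) = div (β y)`. -/
theorem isDivOf_pullbackAlong_beta
    [HasPrincipalDivisors Qb (laurentBaseChange Qb (modularFunctionFieldFull (N * ℓ)))]
    (hβ : HeckeBetaBarIntegral Qb N ℓ)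
    {y : modularFunctionFieldBar N} {E : Divisor Qb (modularFunctionFieldBar N)}
    (hE : IsDivOf y E) :
    IsDivOf (K := Qb) (heckeBetaBar Qb N ℓ y)
      (Divisor.pullbackAlong (heckeBetaBar Qb N ℓ) hβ E) := by
  intro w
  letI := algebraAlong (heckeBetaBar Qb N ℓ)
  haveI := isScalarTower_along (heckeBetaBar Qb N ℓ)
  haveI := isIntegral_along (heckeBetaBar Qb N ℓ) hβ
  exact Divisor.pullback_apply_eq_ord hE w

/-- `α_* (div z) = div (Nm_α z)`. -/
theorem isDivOf_pushforwardAlong_alpha
    (hα : HeckeAlphaBarIntegral Qb N ℓ) (hfin : FiniteAlong Qb (heckeAlphaBar Qb N ℓ))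
    (hN : NormFormulaAlong Qb (heckeAlphaBar Qb N ℓ) hfin)
    {z : laurentBaseChange Qb (modularFunctionFieldFull (N * ℓ))} (hz : z ≠ 0)
    {E : Divisor Qb (laurentBaseChange Qb (modularFunctionFieldFull (N * ℓ)))}
    (hE : IsDivOf z E) :
    IsDivOf (K := Qb)
      (letI := algebraAlong (heckeAlphaBar Qb N ℓ)
       Algebra.norm (modularFunctionFieldBar N) z)
      (Divisor.pushforwardAlong (heckeAlphaBar Qb N ℓ) hα E) := by
  intro v
  letI := algebraAlong (heckeAlphaBar Qb N ℓ)
  haveI := isScalarTower_along (heckeAlphaBar Qb N ℓ)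
  haveI := isIntegral_along (heckeAlphaBar Qb N ℓ) hα
  haveI : Module.Finite (modularFunctionFieldBar N)
    (laurentBaseChange Qb (modularFunctionFieldFull (N * ℓ))) := hfin
  exact hN z hz E hE v

/-- `T_ℓ (div y) = div (heckeNorm y)` on divisors. -/
theorem isDivOf_heckeDivBar
    [HasPrincipalDivisors Qb (laurentBaseChange Qb (modularFunctionFieldFull (N * ℓ)))]
    (hα : HeckeAlphaBarIntegral Qb N ℓ) (hβ : HeckeBetaBarIntegral Qb N ℓ)
    (hfin : FiniteAlong Qb (heckeAlphaBar Qb N ℓ))
    (hN : NormFormulaAlong Qb (heckeAlphaBar Qb N ℓ) hfin)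
    {y : modularFunctionFieldBar N} (hy : y ≠ 0) {E : Divisor Qb (modularFunctionFieldBar N)}
    (hE : IsDivOf y E) :
    IsDivOf (K := Qb) (heckeNorm N ℓ y) (heckeDivBar hα hβ E) := by
  have hβy : heckeBetaBar Qb N ℓ y ≠ 0 := by
    intro h
    exact hy ((heckeBetaBar Qb N ℓ).toRingHom.injective (by simpa using h))
  exact isDivOf_pushforwardAlong_alpha hα hfin hN hβy (isDivOf_pullbackAlong_beta hβ hE)

end Hecke

end Fermat.Agent.S29.H222

end
end
-- ===== PACK-END S29/H222/ESKNorm.lean

-- ===== PACK-BEGIN S29/H222/ESKFrob.lean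
section
/-
S29 / helper222 — piece ESK-F: every Frobenius element at `A` satisfies the Eichler–Shimura
relation `σ² - T_ℓ σ + ℓ = 0` on `J₀(N)(ℚ̄)[m]`, from `S18.CoreStatement N A m`, the Prelude's
`PrincipalGeneratedByIntegral`, `HeckeInputsAlong` and NORM-ID.

Proof: `x = [D]`, `m D = div U₁ - div U₂` (`U₁, U₂` integral).  With `K(U) := kronNorm ℓ (σU)`
(`= Nm_α (β (σU))` by NORM-ID, reduction `Ū^ℓ · Φ²Ū` by the Kronecker congruence) put
`V₁ = σ²U₁ · U₁^ℓ · K(U₂)`, `V₂ = σ²U₂ · U₂^ℓ · K(U₁)`: same reduction, and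
`div V₁ - div V₂ = m (σ²D - T_ℓ σD + ℓ D)`.  CORE gives `V₁ = c y^m V₂`.
-/


set_option autoImplicit false
set_option linter.style.haveILetI false

noncomputable section

namespace Fermat.Agent.S29.H222

open ModularCurve AlgebraicCurve HahnSeries IsLocalRing
open Fermat.Agent.S18 (Qb IsInt toF CoreStatement)
open Fermat.Agent.S37.H400 (kronNorm)

variable {A : ValuationSubring Qb} {N : ℕ}

section Kron

variable [NeZero N] {ℓ : ℕ} [Fact ℓ.Prime] [NeZero ℓ] [CharP (ResidueField A) ℓ]

/-- Reduction of the Kronecker norm of `σU` for a Frobenius element `σ`. -/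
theorem coeffMap_residue_kronNorm_galA {g : A.decompositionSubgroup ℚ}
    (hgk : decK g = frobenius (ResidueField A) ℓ) (U : LaurentSeries A) :
    coeffMap (residue A) (kronNorm ℓ (galA g U))
      = coeffMap (residue A) U ^ ℓ
        * coeffMap (decK g) (coeffMap (decK g) (coeffMap (residue A) U)) := by
  have h1 := Fermat.Agent.S37.H400.coeffMap_kronNorm_char ℓ (residue A) (galA g U)
  have h2 := Fermat.Agent.S37.H400.laurent_pow_char ℓ (coeffMap (residue A) U)
  rw [coeffMap_residue_galA, ← hgk] at h1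
  rw [← hgk] at h2
  rw [h1, h2]

/-- The integral Kronecker norm `K(U) = kronNorm ℓ (σ U)`. -/
theorem isInt_kronNorm_galA (hnid : NormId N ℓ) {g : A.decompositionSubgroup ℚ}
    (hgk : decK g = frobenius (ResidueField A) ℓ) {U : LaurentSeries A} (hU : IsInt A N U) :
    IsInt A N (kronNorm ℓ (galA g U)) := by
  refine ⟨?_, ?_, ?_⟩
  · rw [Fermat.Agent.S37.H400.coeffMap_kronNorm]
    have := hnid (toF (isInt_galA g hU))
    rw [coe_toF] at this
    rw [← this]
    exact (heckeNorm N ℓ (toF (isInt_galA g hU))).2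
  · rw [coeffMap_residue_kronNorm_galA hgk]
    exact mul_mem (pow_mem hU.2.1 ℓ) (coeffMap_mem_fullC _ (coeffMap_mem_fullC _ hU.2.1))
  · rw [coeffMap_residue_kronNorm_galA hgk]
    exact mul_ne_zero (pow_ne_zero ℓ hU.2.2)
      (coeffMap_ne_zero_of_injective _ (decK_injective g)
        (coeffMap_ne_zero_of_injective _ (decK_injective g) hU.2.2))

theorem toF_kronNorm_galA (hnid : NormId N ℓ) {g : A.decompositionSubgroup ℚ}
    (hgk : decK g = frobenius (ResidueField A) ℓ) {U : LaurentSeries A} (hU : IsInt A N U) :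
    toF (isInt_kronNorm_galA hnid hgk hU) = heckeNorm N ℓ (toF (isInt_galA g hU)) := by
  apply Subtype.ext
  rw [coe_toF, Fermat.Agent.S37.H400.coeffMap_kronNorm, hnid (toF (isInt_galA g hU)), coe_toF]

end Kron

end Fermat.Agent.S29.H222

namespace Fermat.Agent.S29.H222

open ModularCurve AlgebraicCurve HahnSeries IsLocalRing
open Fermat.Agent.S18 (Qb IsInt toF CoreStatement)
open Fermat.Agent.S37.H400 (kronNorm)

variable {A : ValuationSubring Qb} {N : ℕ}

/-- A class is zero as soon as its divisor is the divisor of a function. -/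
theorem pic0_mk_eq_zero_of_isDivOf
    (D : Divisor.degZero (K := Qb) (F := modularFunctionFieldBar N))
    {y : modularFunctionFieldBar N} (hy : y ≠ 0)
    (h : IsDivOf (K := Qb) y (D : Divisor Qb (modularFunctionFieldBar N))) :
    (Pic0.mk D : JZero N) = 0 := by
  refine (QuotientAddGroup.eq_zero_iff _).mpr ?_
  rw [AddSubgroup.mem_addSubgroupOf]
  exact ⟨y, hy, h⟩

theorem galois_smul_mk (σ : Qb ≃ₐ[ℚ] Qb)
    (D : Divisor.degZero (K := Qb) (F := modularFunctionFieldBar N)) :
    σ • (Pic0.mk D : JZero N)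
      = Pic0.mk (SemilinearAut.degZeroSMulHom
          (arithmeticGalois (modularFunctionFieldFull N) σ) D) := by
  rw [galois_smul_pic0_def, SemilinearAut.pic0_smul_mk]

/-- **ESK-F.** -/
theorem esk_frob : ESKFrobStatement := by
  intro N _ ℓ hℓ m hm A hA hcore hpgi hHI hnid σ hσ x hx
  haveI : NeZero ℓ := ⟨hℓ.ne_zero⟩
  haveI : Fact ℓ.Prime := ⟨hℓ⟩
  haveI : CharP (ResidueField A) ℓ := charP_residueField_of_liesOver hℓ hA
  obtain ⟨hdec, hfrob⟩ := hσ
  set g : A.decompositionSubgroup ℚ := ⟨σ, hdec⟩ with hg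
  have hgk : decK g = frobenius (ResidueField A) ℓ := RingHom.ext fun x => hfrob x
  obtain ⟨hα, hβ, hP, hfin, hFI, hN⟩ := hHI
  haveI := hP
  obtain ⟨D, rfl⟩ := Pic0.mk_surjective x
  obtain ⟨U₁, U₂, h₁, h₂, D₁, D₂, hd₁, hd₂, hDD⟩ :=
    exists_isInt_of_principal hpgi (smul_mem_principal_of_torsion D hx)
  set G := arithmeticGalois (modularFunctionFieldFull N) σ with hG
  -- the integral series
  have hg₁ := isInt_galA g h₁
  have hg₂ := isInt_galA g h₂
  have hgg₁ := isInt_galA g hg₁
  have hgg₂ := isInt_galA g hg₂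
  have hK₁ := isInt_kronNorm_galA hnid hgk h₁
  have hK₂ := isInt_kronNorm_galA hnid hgk h₂
  have hV₁ : IsInt A N (galA g (galA g U₁) * U₁ ^ ℓ * kronNorm ℓ (galA g U₂)) :=
    isInt_mul (isInt_mul hgg₁ (isInt_pow h₁ ℓ)) hK₂
  have hV₂ : IsInt A N (galA g (galA g U₂) * U₂ ^ ℓ * kronNorm ℓ (galA g U₁)) :=
    isInt_mul (isInt_mul hgg₂ (isInt_pow h₂ ℓ)) hK₁
  -- equal reductions
  have hred : coeffMap (residue A) (galA g (galA g U₁) * U₁ ^ ℓ * kronNorm ℓ (galA g U₂))
      = coeffMap (residue A) (galA g (galA g U₂) * U₂ ^ ℓ * kronNorm ℓ (galA g U₁)) := by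
    simp only [map_mul, map_pow, coeffMap_residue_galA, coeffMap_residue_kronNorm_galA hgk]
    ring
  -- divisors
  have hσ₁ : IsDivOf (toF hg₁) (G • D₁) := by rw [toF_galA]; exact hd₁.smul G
  have hσ₂ : IsDivOf (toF hg₂) (G • D₂) := by rw [toF_galA]; exact hd₂.smul G
  have hσσ₁ : IsDivOf (toF hgg₁) (G • G • D₁) := by rw [toF_galA]; exact hσ₁.smul G
  have hσσ₂ : IsDivOf (toF hgg₂) (G • G • D₂) := by rw [toF_galA]; exact hσ₂.smul G
  have hp₁ : IsDivOf (toF (isInt_pow h₁ ℓ)) ((ℓ : ℤ) • D₁) := by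
    rw [toF_pow]; exact hd₁.pow ℓ
  have hp₂ : IsDivOf (toF (isInt_pow h₂ ℓ)) ((ℓ : ℤ) • D₂) := by
    rw [toF_pow]; exact hd₂.pow ℓ
  have hT₁ : IsDivOf (toF hK₁) (heckeDivBar hα hβ (G • D₁)) := by
    rw [toF_kronNorm_galA hnid hgk h₁]
    exact isDivOf_heckeDivBar hα hβ hfin hN (toF_ne_zero hg₁) hσ₁
  have hT₂ : IsDivOf (toF hK₂) (heckeDivBar hα hβ (G • D₂)) := by
    rw [toF_kronNorm_galA hnid hgk h₂]
    exact isDivOf_heckeDivBar hα hβ hfin hN (toF_ne_zero hg₂) hσ₂
  have hdV₁ : IsDivOf (toF hV₁)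
      (G • G • D₁ + (ℓ : ℤ) • D₁ + heckeDivBar hα hβ (G • D₂)) := by
    rw [toF_mul (isInt_mul hgg₁ (isInt_pow h₁ ℓ)) hK₂, toF_mul hgg₁ (isInt_pow h₁ ℓ)]
    exact ((hσσ₁.mul (toF_ne_zero _) (toF_ne_zero _) hp₁).mul
      (mul_ne_zero (toF_ne_zero _) (toF_ne_zero _)) (toF_ne_zero _) hT₂)
  have hdV₂ : IsDivOf (toF hV₂)
      (G • G • D₂ + (ℓ : ℤ) • D₂ + heckeDivBar hα hβ (G • D₁)) := by
    rw [toF_mul (isInt_mul hgg₂ (isInt_pow h₂ ℓ)) hK₁, toF_mul hgg₂ (isInt_pow h₂ ℓ)]
    exact ((hσσ₂.mul (toF_ne_zero _) (toF_ne_zero _) hp₂).mul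
      (mul_ne_zero (toF_ne_zero _) (toF_ne_zero _)) (toF_ne_zero _) hT₁)
  -- the divisor of the relation
  set Dv : Divisor Qb (modularFunctionFieldBar N) := (D : Divisor Qb (modularFunctionFieldBar N))
    with hDv
  set E : Divisor Qb (modularFunctionFieldBar N) :=
    G • G • Dv - heckeDivBar hα hβ (G • Dv) + (ℓ : ℤ) • Dv with hE
  have hGz : ∀ X : Divisor Qb (modularFunctionFieldBar N), G • ((m : ℤ) • X) = (m : ℤ) • (G • X) :=
    fun X => map_zsmul (DistribSMul.toAddMonoidHom (Divisor Qb (modularFunctionFieldBar N)) G) m X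
  have hmE : (m : ℤ) • E
      = (G • G • D₁ + (ℓ : ℤ) • D₁ + heckeDivBar hα hβ (G • D₂))
        - (G • G • D₂ + (ℓ : ℤ) • D₂ + heckeDivBar hα hβ (G • D₁)) := by
    have e1 : (m : ℤ) • E = G • G • ((m : ℤ) • Dv) - heckeDivBar hα hβ (G • ((m : ℤ) • Dv))
        + (ℓ : ℤ) • ((m : ℤ) • Dv) := by
      rw [hE, smul_add, smul_sub, hGz, hGz, map_zsmul, smul_comm (m : ℤ) (ℓ : ℤ) Dv]
    rw [e1, hDD, smul_sub, smul_sub, smul_sub, map_sub]
    abel
  have hkey : ∀ v : Place Qb (modularFunctionFieldBar N),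
      (m : ℤ) * E v = v.ord (toF hV₁) - v.ord (toF hV₂) := by
    intro v
    rw [← hdV₁ v, ← hdV₂ v, ← Finsupp.sub_apply, ← hmE, Finsupp.smul_apply, smul_eq_mul]
  have hord : ∀ v : Place Qb (modularFunctionFieldBar N),
      (m : ℤ) ∣ v.ord (toF hV₁) - v.ord (toF hV₂) := fun v => ⟨_, (hkey v).symm⟩
  obtain ⟨c, y, hc, hy, hcy⟩ := hcore _ _ hV₁ hV₂ hred hord
  have hEy : IsDivOf y E := isDivOf_of_eq_const_mul_pow hm hc hy (toF_ne_zero hV₂) hcy hkey
  -- conclusion in `Pic0`
  have hT : heckeOperatorBar N ⟨ℓ, hℓ⟩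
      = (heckePic0Bar hα hβ hFI hfin hN).toIntLinearMap := by
    unfold heckeOperatorBar
    rw [heckeOperatorAlong_eq hα hβ hFI hfin hN]
  rw [galois_smul_mk, galois_smul_mk, hT]
  show Pic0.mk _ - Pic0.correspondence _ _ hβ hα hFI hfin hN (Pic0.mk _) + (ℓ : ℤ) • Pic0.mk D = 0
  rw [Pic0.correspondence_mk]
  have hfinal : (Pic0.mk (SemilinearAut.degZeroSMulHom G (SemilinearAut.degZeroSMulHom G D))
      - Pic0.mk (Pic0.degZeroCorrespondence (heckeBetaBar Qb N ℓ) (heckeAlphaBar Qb N ℓ) hβ hα hFI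
          (SemilinearAut.degZeroSMulHom G D))
      + (ℓ : ℤ) • Pic0.mk D : JZero N)
      = Pic0.mk (SemilinearAut.degZeroSMulHom G (SemilinearAut.degZeroSMulHom G D)
          - Pic0.degZeroCorrespondence (heckeBetaBar Qb N ℓ) (heckeAlphaBar Qb N ℓ) hβ hα hFI
              (SemilinearAut.degZeroSMulHom G D)
          + (ℓ : ℤ) • D) := rfl
  rw [hfinal]
  exact pic0_mk_eq_zero_of_isDivOf _ hy hEy

end Fermat.Agent.S29.H222

end
end
-- ===== PACK-END S29/H222/ESKFrob.lean

-- ===== PACK-BEGIN S29/H222/ESKFamily.lean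
section
/-
S29 / helper222 — piece ESK, adapter: the Eichler–Shimura input of layer M in the exact shape of
`Fermat.Agent.S29.M.ESStatement` (deputy helper30's `M/Defs.lean`), from the four external inputs
stated as families:

* `CoreFamily`   : `S18.CoreStatement N A m` for `ℓ ∤ N`, `ℓ ∤ m`, `A` over `ℓ`     (row S18)
* `PGIFamily`    : Prelude `PrincipalGeneratedByIntegral A (residue A) N`            (S18/S37, M1-Gauss)
* `HIFamily`     : Prelude `HeckeInputsAlong ℚ̄ N ℓ`                                  (piece HI)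
* `NormIdFamily` : `NormId N ℓ`                                                      (piece NKI)
-/


set_option autoImplicit false
set_option linter.style.haveILetI false

noncomputable section

namespace Fermat.Agent.S29.H222

open ModularCurve AlgebraicCurve HahnSeries IsLocalRing
open Fermat.Agent.S18 (Qb IsInt toF CoreStatement)

/-- Row S18: the Kummer core for all `ℓ ∤ N m`. -/
def CoreFamily : Prop :=
  ∀ (N : ℕ) [NeZero N] (ℓ : ℕ), ℓ.Prime → ¬ ℓ ∣ N → ∀ m : ℕ, ¬ ℓ ∣ m →
    ∀ A : ValuationSubring Qb, A.LiesOverPrime ℓ → CoreStatement N A m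

/-- Principal divisors are generated by divisors of integral series (a theorem for `ℓ ∤ N`). -/
def PGIFamily : Prop :=
  ∀ (N : ℕ) [NeZero N] (ℓ : ℕ), ℓ.Prime → ¬ ℓ ∣ N →
    ∀ A : ValuationSubring Qb, A.LiesOverPrime ℓ →
      PrincipalGeneratedByIntegral A (IsLocalRing.residue A) N

/-- The six Prelude inputs of the Hecke correspondence `T_ℓ`, `ℓ ∤ N`. -/
def HIFamily : Prop :=
  ∀ (N : ℕ) [NeZero N] (ℓ : ℕ) [NeZero ℓ], ℓ.Prime → ¬ ℓ ∣ N → HeckeInputsAlong Qb N ℓ

/-- NORM-ID for all `ℓ ∤ N`. -/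
def NormIdFamily : Prop :=
  ∀ (N : ℕ) [NeZero N] (ℓ : ℕ) [NeZero ℓ], ℓ.Prime → ¬ ℓ ∣ N → NormId N ℓ

/-- **ES raw**, in the exact shape of the body of `Fermat.Agent.S29.M.ESStatement`. -/
theorem esRaw_of_families (hcore : CoreFamily) (hpgi : PGIFamily) (hHI : HIFamily)
    (hnid : NormIdFamily) :
    ∀ (N p : ℕ) [NeZero N] (ℓ : ℕ) (hℓ : ℓ.Prime), ¬ ℓ ∣ N * p →
      ∀ A : ValuationSubring Qb, A.LiesOverPrime ℓ →
        (∀ τ ∈ A.inertiaSubgroupIn ℚ, ∀ x : JZero N, (∃ n : ℕ, p ^ n • x = 0) → τ • x = x) ∧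
        (∀ σ : Qb ≃ₐ[ℚ] Qb, A.IsFrobeniusAt σ ℓ → ∀ x : JZero N, (∃ n : ℕ, p ^ n • x = 0) →
          σ • σ • x - heckeOperatorBar N ⟨ℓ, hℓ⟩ (σ • x) + ℓ • x = 0) := by
  intro N p _ ℓ hℓ hℓNp A hA
  haveI : NeZero ℓ := ⟨hℓ.ne_zero⟩
  have hℓN : ¬ ℓ ∣ N := fun h => hℓNp (Dvd.dvd.mul_right h p)
  have hℓp : ¬ ℓ ∣ p := fun h => hℓNp (Dvd.dvd.mul_left h N)
  have hp0 : p ≠ 0 := fun h => hℓp (h ▸ dvd_zero ℓ)
  have hℓpn : ∀ n : ℕ, ¬ ℓ ∣ p ^ n := fun n h => hℓp (hℓ.dvd_of_dvd_pow h)
  have hx' : ∀ (n : ℕ) (x : JZero N), p ^ n • x = 0 → ((p ^ n : ℕ) : ℤ) • x = 0 := by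
    intro n x hx
    rw [natCast_zsmul]
    exact hx
  refine ⟨?_, ?_⟩
  · rintro τ hτ x ⟨n, hx⟩
    exact esk_inertia N (p ^ n) (pow_ne_zero n hp0) A (hcore N ℓ hℓ hℓN (p ^ n) (hℓpn n) A hA)
      (hpgi N ℓ hℓ hℓN A hA) τ hτ x (hx' n x hx)
  · rintro σ hσ x ⟨n, hx⟩
    have h := esk_frob N ℓ hℓ (p ^ n) (pow_ne_zero n hp0) A hA
      (hcore N ℓ hℓ hℓN (p ^ n) (hℓpn n) A hA) (hpgi N ℓ hℓ hℓN A hA)
      (hHI N ℓ hℓ hℓN) (hnid N ℓ hℓ hℓN) σ hσ x (hx' n x hx)
    rw [natCast_zsmul] at h
    exact h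

end Fermat.Agent.S29.H222

end
end
-- ===== PACK-END S29/H222/ESKFamily.lean

-- ===== PACK-BEGIN S18/H333/Coord.lean
section



/-!
# S18 / NODE COORD (c3), helper333: existence of the coordinates

`node_coord` has EXACTLY the type of `Integ.node_coord` in the row skeleton
(origin/helper18:Fermat/Agent/S18/Integ/Skeleton.lean):

    theorem node_coord (M : ℕ) [NeZero M] {ℓ : ℕ} [Fact ℓ.Prime] (hℓM : ¬ ℓ ∣ M)
        (h3 : ℓ = 3 → 2 ∣ M) (h2 : ℓ = 2 → 3 ∣ M) : Mod.CoordinateStatement M ℓ

`ℓ ≥ 5`: `x = j`;  `ℓ = 3`: `x = t₂ = q⁻¹(η(q)/η(q²))²⁴`;  `ℓ = 2`: `x = t₃ = q⁻¹(η(q)/η(q³))¹²`.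
-/

set_option autoImplicit false

noncomputable section

namespace Fermat.Agent.S18.H333

open ModularCurve AlgebraicCurve HahnSeries

theorem coeffEmb_coeffMap_int (X : LaurentSeries ℤ) :
    coeffEmb Qb (coeffMap (Int.castRingHom ℚ) X) = coeffMap (Int.castRingHom Qb) X := by
  rw [coeffEmb, coeffMap_coeffMap]
  exact coeffMap_congr (RingHom.ext_int _ _) X

theorem jOm_coe (M : ℕ) : ((Mod.jOm M : Mod.Om M) : LaurentSeries Qb) = jqModC Qb := by
  show coeffEmb Qb (qExpand ℚ 1 jq) = jqModC Qb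
  rw [qExpand_one_apply, ← jqModC_rat, coeffEmb, coeffMap_jqModC]

/-- the element of `Ω = F_M` given by an integral series lying in `ℚ(j_d : d ∣ M)` -/
def omOf (M : ℕ) (X : LaurentSeries ℤ)
    (hX : coeffMap (Int.castRingHom ℚ) X ∈ modularFunctionFieldFull M) : Mod.Om M :=
  ⟨coeffEmb Qb (coeffMap (Int.castRingHom ℚ) X), coeffEmb_mem_laurentBaseChange Qb hX⟩

theorem omOf_coe (M : ℕ) (X : LaurentSeries ℤ)
    (hX : coeffMap (Int.castRingHom ℚ) X ∈ modularFunctionFieldFull M) :
    ((omOf M X hX : Mod.Om M) : LaurentSeries Qb) = coeffMap (Int.castRingHom Qb) X :=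
  coeffEmb_coeffMap_int X

theorem t2Q_mem (M : ℕ) (hM : 2 ∣ M) :
    coeffMap (Int.castRingHom ℚ) t2Z ∈ modularFunctionFieldFull M :=
  t2_mem_full ℚ (by norm_num) M hM

theorem t3Q_mem (M : ℕ) (hM : 3 ∣ M) :
    coeffMap (Int.castRingHom ℚ) t3Z ∈ modularFunctionFieldFull M :=
  t3_mem_full ℚ (by norm_num) M hM

/-- `t₂ ∈ Ω = F_M` (`2 ∣ M`) -/
def t2Om (M : ℕ) (hM : 2 ∣ M) : Mod.Om M := omOf M t2Z (t2Q_mem M hM)

/-- `t₃ ∈ Ω = F_M` (`3 ∣ M`) -/
def t3Om (M : ℕ) (hM : 3 ∣ M) : Mod.Om M := omOf M t3Z (t3Q_mem M hM)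

theorem t2Om_rel (M : ℕ) (hM : 2 ∣ M) :
    Mod.jOm M * t2Om M hM ^ 2 = (t2Om M hM + 256) ^ 3 := by
  apply Subtype.ext
  have h := t2_rel_a Qb
  have hx : ((t2Om M hM : Mod.Om M) : LaurentSeries Qb) = t2 Qb := omOf_coe M t2Z _
  push_cast
  rw [jOm_coe, hx]
  exact h

theorem t3Om_rel (M : ℕ) (hM : 3 ∣ M) :
    Mod.jOm M * t3Om M hM ^ 3 = (t3Om M hM + 27) * (t3Om M hM + 243) ^ 3 := by
  apply Subtype.ext
  have h := t3_rel_a Qb
  have hx : ((t3Om M hM : Mod.Om M) : LaurentSeries Qb) = t3 Qb := omOf_coe M t3Z _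
  push_cast
  rw [jOm_coe, hx]
  exact h

/-- **NODE COORD.** -/
theorem node_coord (M : ℕ) [NeZero M] {ℓ : ℕ} [Fact ℓ.Prime] (hℓM : ¬ ℓ ∣ M)
    (h3 : ℓ = 3 → 2 ∣ M) (h2 : ℓ = 2 → 3 ∣ M) : Mod.CoordinateStatement M ℓ := by
  classical
  have hp : ℓ.Prime := Fact.out
  by_cases hl3 : ℓ = 3
  · refine ⟨t2Om M (h3 hl3), {0, -64}, Or.inr ⟨Or.inl ⟨hl3, t2Om_rel M (h3 hl3), ?_⟩, ?_⟩⟩
    · intro s; simp
    · exact ⟨t2Z, t2Z_coeff_neg_one, fun k hk => t2Z_coeff_of_lt hk, omOf_coe M t2Z _,
        t2Q_mem M (h3 hl3)⟩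
  by_cases hl2 : ℓ = 2
  · refine ⟨t3Om M (h2 hl2), {0, -27}, Or.inr ⟨Or.inr ⟨hl2, t3Om_rel M (h2 hl2), ?_⟩, ?_⟩⟩
    · intro s; simp
    · exact ⟨t3Z, t3Z_coeff_neg_one, fun k hk => t3Z_coeff_of_lt hk, omOf_coe M t3Z _,
        t3Q_mem M (h2 hl2)⟩
  · refine ⟨Mod.jOm M, {0, 1728}, Or.inl ⟨?_, rfl, ?_⟩⟩
    · have h2' := hp.two_le
      by_contra hlt
      have : ℓ = 4 := by omega
      subst this
      exact absurd hp (by norm_num)
    · intro s; simp

end Fermat.Agent.S18.H333

end
end
-- ===== PACK-END S18/H333/Coord.lean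

-- ===== PACK-BEGIN S18/B12/H33/B2Regular.lean
section












/-!
# S18 b2 (squad S18/S33, assembled by helper33): `b2Regular : B2RegularStatement`, UNCONDITIONAL

This is output O1 of piece b2 of Route K (see `B12/Spec3.lean`): for a finite, torsion-free,
integrally closed `R[X]`-algebra `B` (`R` a DVR-like PID of characteristic 0 with prime `w`) whose
special fibre `B / w B` is a domain and generically separable over `k[X]`, tame at the primes
`X - c` (`c ∈ S`, distinct mod `w`) and unramified (reduced fibre) at all other primes of `R[X]`,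
the ring `B` is regular along `w`:  `H754.RegularAlong (algebraMap R[X] B (C w))`.

Pieces (all sorry-free, standard axioms):
* A0, A2, A2' (regular sequence, local bases, rank)  : helper93  (`B12/H93`; also helper873)
* A3  (discriminant reduction)                        : helper393 (`B12/H393`; also helper203/204)
* A4, A1 (UFD step, polynomial-ring instance)         : helper203 (`B12/H203`; also helper245/693)
* A5  (generic discriminant, tame)                    : helper444 (`B12/H444`, via helper274 P3)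
* A5' (reduction basis)                               : helper203 (`B12/H203`; also helper245/633)
* A8, A9 (integrally closed fibre, Dedekind => regular): helper84 (`B12/H84`, via helper278 P2;
                                                        also helper231/845)
* heart A6' and glue O1                               : helper33  (`B12/H33`)
-/

set_option autoImplicit false

namespace Fermat.Agent.S18.B12.H33

universe u v

/-- **A6' (heart of b2), unconditional.** -/
theorem b2CoreAbs : B2CoreAbsStatement.{u, v} :=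
  b2CoreAbs_of_pieces H93.regSeqAbs H93.localBasis H93.localBasisRank H393.discrRed
    H203.ufdStep H444.genericDiscr H203.redBasisAbs

/-- **O1 = b2, unconditional**: `H754.RegularAlong (C w)` for the chart ring. -/
theorem b2Regular : B2RegularStatement.{u, v} :=
  b2Regular_of_pieces b2CoreAbs H93.regSeqAbs H84.a8 H84.a9 H203.polyInst

end Fermat.Agent.S18.B12.H33

end
-- ===== PACK-END S18/B12/H33/B2Regular.lean

-- ===== PACK-BEGIN S18/B12/H33/RegChart.lean
section






/-!
# S18 b2 (helper33): REG-CHART — `b2Regular` instantiated on the charts of helper138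

Setting (the one of `H138.connected_special_fibre`): `R` a discrete valuation ring, `F` a field of
characteristic `0` which is an `R`-algebra, `x : F` transcendental over `R`,
`[FiniteDimensional (H138.baseField R x) F]`, and the chart
`B := H138.chart R {x} : Subalgebra R F` (the integral closure of `R[x]` in `F`).

Main result `regularAlong_chart`:

    H754.RegularAlong (algebraMap R (H138.chart R {x}) w)

from
* `hdom` : `w` is prime in the chart (QEP),
* `hsep` : elementwise separability of the special fibre (shape of `H425.hsep_poly`),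
* `S`, `hS` : the branch values, pairwise distinct mod `w`,
* `hNC` : for every prime `π` of `R[X]` not associated to `w` or to some `X - c` (`c ∈ S`), the
  ideal `π(x) B` is radical (unramifiedness away from `S`, from `GoodModel.unramified`).

All the instance plumbing (`R[X]`-algebra structure through `aeval x`, finiteness, torsion-freeness,
integral closedness) is done here.  `regularAlong_chart_field` is the same theorem with the
hypotheses `hsep`, `hNC` stated by elements of `F`.
-/

set_option autoImplicit false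
set_option linter.style.haveILetI false

noncomputable section

namespace Fermat.Agent.S18.B12.H33

open Polynomial

universe u v

section RegChart

variable (R : Type u) [CommRing R] {F : Type v} [Field F] [Algebra R F]

/-- The coordinate `x` as an element of the chart. -/
def chartX (x : F) : H138.chart R ({x} : Set F) := ⟨x, H138.mem_chart_of_mem rfl⟩

/-- The structure map `R[X] → B`, `X ↦ x`. -/
def chartPolyHom (x : F) : R[X] →ₐ[R] H138.chart R ({x} : Set F) := aeval (chartX R x)

variable {R}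

@[simp] theorem coe_chartX (x : F) : ((chartX R x : H138.chart R ({x} : Set F)) : F) = x := rfl

theorem chartPolyHom_apply (x : F) (p : R[X]) : chartPolyHom R x p = aeval (chartX R x) p := rfl

theorem coe_chartPolyHom (x : F) (p : R[X]) :
    ((chartPolyHom R x p : H138.chart R ({x} : Set F)) : F) = aeval x p := by
  have h := Polynomial.aeval_algHom_apply (H138.chart R ({x} : Set F)).val (chartX R x) p
  rw [chartPolyHom_apply]
  exact h.symm

theorem chartPolyHom_C (x : F) (r : R) :
    chartPolyHom R x (C r) = algebraMap R (H138.chart R ({x} : Set F)) r := by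
  rw [chartPolyHom_apply, aeval_C]

theorem chartPolyHom_injective {x : F} (hx : Transcendental R x) :
    Function.Injective (chartPolyHom R x) := by
  rw [injective_iff_map_eq_zero]
  intro p hp
  have h : aeval x p = 0 := by
    rw [← coe_chartPolyHom, hp]; rfl
  exact transcendental_iff.1 hx p h

theorem algebraMap_injective_of_transcendental {x : F} (hx : Transcendental R x) :
    Function.Injective (algebraMap R F) := by
  rw [injective_iff_map_eq_zero]
  intro r hr
  have h : aeval x (C r : R[X]) = 0 := by rw [aeval_C, hr]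
  have := transcendental_iff.1 hx _ h
  exact C_eq_zero.1 this

end RegChart

section Package

variable {R : Type u} [CommRing R] {F : Type v} [Field F] [Algebra R F]

/-- The `R[X]`-algebra structure of the chart (`X ↦ x`).  Not an instance. -/
@[reducible] def chartAlgebra (R : Type u) [CommRing R] {F : Type v} [Field F] [Algebra R F]
    (x : F) : Algebra R[X] (H138.chart R ({x} : Set F)) :=
  (chartPolyHom R x).toRingHom.toAlgebra

/-- The chart is (tautologically) the integral closure of `R[x]` in `F`. -/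
def chartEquiv (x : F) :
    integralClosure (Algebra.adjoin R ({x} : Set F)) F ≃+* H138.chart R ({x} : Set F) where
  toFun c := ⟨c.1, c.2⟩
  invFun c := ⟨c.1, c.2⟩
  left_inv _ := rfl
  right_inv _ := rfl
  map_mul' _ _ := rfl
  map_add' _ _ := rfl

/-- `R[X] ≃ R[x]` for transcendental `x`. -/
def polyEquivAdjoin {x : F} (hx : Transcendental R x) :
    R[X] ≃ₐ[R] Algebra.adjoin R ({x} : Set F) :=
  (AlgEquiv.ofInjective (aeval (R := R) x)
    ((injective_iff_map_eq_zero _).2 (transcendental_iff.1 hx))).trans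
      (Subalgebra.equivOfEq _ _ (Algebra.adjoin_singleton_eq_range_aeval R x).symm)

theorem coe_polyEquivAdjoin {x : F} (hx : Transcendental R x) (p : R[X]) :
    ((polyEquivAdjoin hx p : Algebra.adjoin R ({x} : Set F)) : F) = aeval x p := rfl

/-- The chart is integrally closed and finite over `R[X]`. -/
theorem chart_package [IsDomain R] [IsNoetherianRing R] [IsIntegrallyClosed R[X]] [CharZero F]
    {x : F} (hx : Transcendental R x) [FiniteDimensional (H138.baseField R x) F] :
    IsIntegrallyClosed (H138.chart R ({x} : Set F)) ∧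
      @Module.Finite R[X] (H138.chart R ({x} : Set F)) _ _ (chartAlgebra R x).toModule := by
  classical
  set A : Subalgebra R F := Algebra.adjoin R ({x} : Set F) with hA
  set K : Subfield F := H138.baseField R x with hK
  haveI := H138.isIntegrallyClosed_adjoin_singleton (R := R) hx
  haveI := H138.isNoetherianRing_adjoin_singleton (R := R) hx
  let φ : A →+* K :=
    { toFun := fun a => ⟨a, H138.adjoin_le_baseField x a.2⟩
      map_one' := rfl
      map_mul' := fun _ _ => rfl
      map_zero' := rfl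
      map_add' := fun _ _ => rfl }
  letI : Algebra A K := φ.toAlgebra
  haveI : IsScalarTower A K F := IsScalarTower.of_algebraMap_eq (fun _ => rfl)
  have hinj : Function.Injective (algebraMap A K) := by
    intro a b hab
    have : (a : F) = b := congrArg (fun t : K => (t : F)) hab
    exact Subtype.ext this
  haveI : FaithfulSMul A K := (faithfulSMul_iff_algebraMap_injective A K).2 hinj
  haveI : IsFractionRing A K := by
    refine IsFractionRing.of_field A K (fun z => ?_)
    obtain ⟨a, ha, b, hb, h⟩ := H138.exists_div_of_mem_baseField (R := R) x z.2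
    exact ⟨⟨a, ha⟩, ⟨b, hb⟩, Subtype.ext h⟩
  haveI : CharZero K := (algebraMap K F).charZero
  haveI hfinA : Module.Finite A (integralClosure A F) :=
    IsIntegralClosure.finite A K F (integralClosure A F)
  haveI hic : IsIntegrallyClosed (integralClosure A F) :=
    integralClosure.isIntegrallyClosedOfFiniteExtension K
  refine ⟨IsIntegrallyClosed.of_equiv (chartEquiv x), ?_⟩
  letI := chartAlgebra R x
  refine Module.Finite.of_equiv_equiv (A₁ := A) (B₁ := integralClosure A F)
    (polyEquivAdjoin hx).symm.toRingEquiv (chartEquiv x) ?_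
  refine RingHom.ext (fun a => ?_)
  obtain ⟨p, rfl⟩ := (polyEquivAdjoin hx).surjective a
  apply Subtype.ext
  simp only [RingHom.comp_apply, RingHom.coe_coe,
    AlgEquiv.coe_ringEquiv, AlgEquiv.symm_apply_apply]
  change ((chartPolyHom R x p : H138.chart R ({x} : Set F)) : F) = _
  rw [coe_chartPolyHom]
  rfl

end Package

section Coe

variable {R : Type u} [CommRing R] {F : Type v} [Field F] [Algebra R F]

/-- Divisibility by `w` in the chart, in terms of elements of `F`. -/
theorem algebraMap_dvd_chart_iff {x : F} (w : R) (z : H138.chart R ({x} : Set F)) :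
    algebraMap R (H138.chart R ({x} : Set F)) w ∣ z ↔
      ∃ t ∈ H138.chart R ({x} : Set F), (z : F) = algebraMap R F w * t := by
  constructor
  · rintro ⟨t, rfl⟩
    exact ⟨t, t.2, rfl⟩
  · rintro ⟨t, ht, h⟩
    exact ⟨⟨t, ht⟩, Subtype.ext h⟩

/-- Divisibility by `π(x)` in the chart, in terms of elements of `F`. -/
theorem chartPolyHom_dvd_chart_iff {x : F} (π : R[X]) (z : H138.chart R ({x} : Set F)) :
    chartPolyHom R x π ∣ z ↔
      ∃ t ∈ H138.chart R ({x} : Set F), (z : F) = aeval x π * t := by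
  constructor
  · rintro ⟨t, rfl⟩
    exact ⟨t, t.2, by rw [Subalgebra.coe_mul, coe_chartPolyHom]⟩
  · rintro ⟨t, ht, h⟩
    exact ⟨⟨t, ht⟩, Subtype.ext (by rw [Subalgebra.coe_mul, coe_chartPolyHom]; exact h)⟩

/-- Evaluation of a lifted polynomial, in terms of elements of `F`. -/
theorem coe_eval₂_chartPolyHom {x : F} (Q : R[X][X]) (b : H138.chart R ({x} : Set F)) :
    ((Q.eval₂ (chartPolyHom R x : R[X] →+* H138.chart R ({x} : Set F)) b :
      H138.chart R ({x} : Set F)) : F)
      = (Q.map (aeval x : R[X] →ₐ[R] F).toRingHom).eval (b : F) := by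
  have h := Polynomial.hom_eval₂ Q (chartPolyHom R x : R[X] →+* H138.chart R ({x} : Set F))
    (H138.chart R ({x} : Set F)).val.toRingHom b
  rw [eval_map]
  have hcomp : ((H138.chart R ({x} : Set F)).val.toRingHom.comp
      (chartPolyHom R x : R[X] →+* H138.chart R ({x} : Set F)))
      = (aeval x : R[X] →ₐ[R] F).toRingHom := by
    refine RingHom.ext (fun p => ?_)
    exact coe_chartPolyHom x p
  rw [hcomp] at h
  exact h

end Coe

section Main

variable {R : Type u} [CommRing R] [IsDomain R] [IsDiscreteValuationRing R]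
  {F : Type v} [Field F] [CharZero F] [Algebra R F]

/-- **REG-CHART.**  `b2Regular` on the chart `H138.chart R {x}`: the special fibre of the chart is
regular at every closed point. -/
theorem regularAlong_chart
    {x : F} (hx : Transcendental R x) [FiniteDimensional (H138.baseField R x) F]
    (w : R) (hw : Irreducible w)
    (hdom : Prime (algebraMap R (H138.chart R ({x} : Set F)) w))
    (hsep : ∀ b : H138.chart R ({x} : Set F), ∃ P : R[X][X],
        algebraMap R (H138.chart R ({x} : Set F)) w ∣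
          P.eval₂ (chartPolyHom R x : R[X] →+* H138.chart R ({x} : Set F)) b ∧
        ¬ algebraMap R (H138.chart R ({x} : Set F)) w ∣
          (derivative P).eval₂ (chartPolyHom R x : R[X] →+* H138.chart R ({x} : Set F)) b)
    (S : Finset R) (hS : ∀ c ∈ S, ∀ c' ∈ S, c ≠ c' → IsUnit (c - c'))
    (hNC : ∀ π : R[X], Prime π → ¬ Associated π (C w) → (∀ c ∈ S, ¬ Associated π (X - C c)) →
        (Ideal.span {chartPolyHom R x π}).IsRadical) :
    H754.RegularAlong (algebraMap R (H138.chart R ({x} : Set F)) w) := by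
  classical
  haveI : CharZero R := (algebraMap R F).charZero
  obtain ⟨hic, hfin⟩ := chart_package (R := R) hx
  letI := chartAlgebra R x
  haveI := hic
  haveI := hfin
  haveI : Module.IsTorsionFree R[X] (H138.chart R ({x} : Set F)) :=
    Module.isTorsionFree_iff_algebraMap_injective.2 (chartPolyHom_injective hx)
  have hCw : algebraMap R[X] (H138.chart R ({x} : Set F)) (C w)
      = algebraMap R (H138.chart R ({x} : Set F)) w := chartPolyHom_C x w
  have hdom' : Prime (algebraMap R[X] (H138.chart R ({x} : Set F)) (C w)) := by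
    rw [hCw]; exact hdom
  have hsep' := H425.hsep_poly R w hw (H138.chart R ({x} : Set F)) hdom' (by
    intro b
    obtain ⟨P, h1, h2⟩ := hsep b
    refine ⟨P, ?_, ?_⟩
    · rw [hCw]; exact h1
    · rw [hCw]; exact h2)
  have hreg := b2Regular.{u, v} R w hw (H138.chart R ({x} : Set F)) hdom' hsep' S hS hNC
  intro 𝔪 h𝔪 hw𝔪
  have := hreg 𝔪 h𝔪 (by rw [hCw]; exact hw𝔪)
  rwa [hCw] at this

/-- **REG-CHART, field form.**  Same as `regularAlong_chart`, with `hsep` and `hNC` stated by
elements of `F`: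
* `hsep` : for every `b` in the chart there is a polynomial `P` with coefficients in `R[x]` with
  `P(b) ∈ w B` and `P'(b) ∉ w B`;
* `hNC`  : for the primes `π` of `R[X]` away from `w` and the `X - c`, `c ∈ S`:
  `b ∈ B`, `b² ∈ π(x) B` ⟹ `b ∈ π(x) B`. -/
theorem regularAlong_chart_field
    {x : F} (hx : Transcendental R x) [FiniteDimensional (H138.baseField R x) F]
    (w : R) (hw : Irreducible w)
    (hdom : Prime (algebraMap R (H138.chart R ({x} : Set F)) w))
    (hsep : ∀ b ∈ H138.chart R ({x} : Set F), ∃ P : F[X],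
        (∀ i, P.coeff i ∈ Algebra.adjoin R ({x} : Set F)) ∧
        (∃ t ∈ H138.chart R ({x} : Set F), P.eval b = algebraMap R F w * t) ∧
        ¬ ∃ t ∈ H138.chart R ({x} : Set F), (derivative P).eval b = algebraMap R F w * t)
    (S : Finset R) (hS : ∀ c ∈ S, ∀ c' ∈ S, c ≠ c' → IsUnit (c - c'))
    (hNC : ∀ π : R[X], Prime π → ¬ Associated π (C w) → (∀ c ∈ S, ¬ Associated π (X - C c)) →
        ∀ b ∈ H138.chart R ({x} : Set F),
          (∃ t ∈ H138.chart R ({x} : Set F), b ^ 2 = aeval x π * t) →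
          ∃ t ∈ H138.chart R ({x} : Set F), b = aeval x π * t) :
    H754.RegularAlong (algebraMap R (H138.chart R ({x} : Set F)) w) := by
  refine regularAlong_chart hx w hw hdom ?_ S hS ?_
  · intro b
    obtain ⟨P, hP, h1, h2⟩ := hsep b b.2
    have hlift : P ∈ Polynomial.lifts (aeval x : R[X] →ₐ[R] F).toRingHom := by
      rw [Polynomial.lifts_iff_coeff_lifts]
      intro n
      have := hP n
      rw [Algebra.adjoin_singleton_eq_range_aeval] at this
      obtain ⟨q, hq⟩ := this
      exact ⟨q, hq⟩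
    obtain ⟨Q, hQ⟩ := (Polynomial.mem_lifts P).1 hlift
    refine ⟨Q, ?_, ?_⟩
    · rw [algebraMap_dvd_chart_iff, coe_eval₂_chartPolyHom, hQ]
      exact h1
    · rw [algebraMap_dvd_chart_iff, coe_eval₂_chartPolyHom, ← derivative_map, hQ]
      exact h2
  · intro π hπ h1 h2
    rw [Ideal.isRadical_iff_pow_one_lt 2 one_lt_two]
    intro r hr
    rw [Ideal.mem_span_singleton] at hr ⊢
    rw [chartPolyHom_dvd_chart_iff] at hr ⊢
    obtain ⟨t, ht, h⟩ := hr
    refine hNC π hπ h1 h2 r r.2 ⟨t, ht, ?_⟩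
    rw [← h]
    rfl

omit [IsDomain R] [IsDiscreteValuationRing R] [CharZero F] in
/-- The finiteness instance for the chart at infinity. -/
theorem finiteDimensional_baseField_inv (x : F) [h : FiniteDimensional (H138.baseField R x) F] :
    FiniteDimensional (H138.baseField R x⁻¹) F := by
  rw [H138.baseField_inv]
  exact h

/-- **REG-CHART at infinity** (field form): `regularAlong_chart_field` for the chart
`H138.chart R {x⁻¹}`, with the finiteness instance of the finite chart. -/
theorem regularAlong_chart_inv_field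
    {x : F} (hx : Transcendental R x) [FiniteDimensional (H138.baseField R x) F]
    (w : R) (hw : Irreducible w)
    (hdom : Prime (algebraMap R (H138.chart R ({x⁻¹} : Set F)) w))
    (hsep : ∀ b ∈ H138.chart R ({x⁻¹} : Set F), ∃ P : F[X],
        (∀ i, P.coeff i ∈ Algebra.adjoin R ({x⁻¹} : Set F)) ∧
        (∃ t ∈ H138.chart R ({x⁻¹} : Set F), P.eval b = algebraMap R F w * t) ∧
        ¬ ∃ t ∈ H138.chart R ({x⁻¹} : Set F), (derivative P).eval b = algebraMap R F w * t)
    (S : Finset R) (hS : ∀ c ∈ S, ∀ c' ∈ S, c ≠ c' → IsUnit (c - c'))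
    (hNC : ∀ π : R[X], Prime π → ¬ Associated π (C w) → (∀ c ∈ S, ¬ Associated π (X - C c)) →
        ∀ b ∈ H138.chart R ({x⁻¹} : Set F),
          (∃ t ∈ H138.chart R ({x⁻¹} : Set F), b ^ 2 = aeval x⁻¹ π * t) →
          ∃ t ∈ H138.chart R ({x⁻¹} : Set F), b = aeval x⁻¹ π * t) :
    H754.RegularAlong (algebraMap R (H138.chart R ({x⁻¹} : Set F)) w) := by
  haveI := finiteDimensional_baseField_inv (R := R) x
  exact regularAlong_chart_field (H138.transcendental_inv hx) w hw hdom hsep S hS hNC

end Main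

end Fermat.Agent.S18.B12.H33

end
end
-- ===== PACK-END S18/B12/H33/RegChart.lean

-- ===== PACK-BEGIN S18/H438/Front/Regular.lean
section




/-!
# S18 / ALG-FRONT (helper438), part 10: `H754.RegularAlong` on the chart of a good model

For `G : Alg.GoodModel Lc Ec Fc R V w x S`, `B := H138.chart (Rf Fc R) {xf G}`:

* `GoodModelFront.hsep_chart`  : elementwise separability (field form of
  `B12.H33.regularAlong_chart_field`), from `G.separable` and the `q`-expansion principle;
* `GoodModelFront.hNC_chart`   : `(span {π(x)}).IsRadical` for the primes `π` of `R[X]` not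
  associated to `w`, `X - c` (`c ∈ S`), from `G.unramified` via `H754.hNC_typed`;
* `GoodModelFront.regularAlong_chart` : `H754.RegularAlong (algebraMap R B w)`  (b2 on the chart).
-/

set_option autoImplicit false
set_option linter.style.haveILetI false
set_option linter.unusedSectionVars false

noncomputable section

namespace Fermat.Agent.S18.H438

open Alg Polynomial

variable {Ω : Type*} [Field Ω] {Lc Ec Fc : Subfield Ω} {R V : Subring Ω} {w x : Ω}
  {S : Finset Ω}

namespace GoodModelFront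

/-- the branch values, as a finite subset of the ring `R` -/
def SR (Fc : Subfield Ω) (R : Subring Ω) (S : Finset Ω) : Finset (Rf Fc R) :=
  S.preimage (fun r : Rf Fc R => ((r : Fc) : Ω))
    (fun _ _ _ _ h => Subtype.ext (Subtype.ext h))

theorem mem_SR {c : Rf Fc R} : c ∈ SR Fc R S ↔ ((c : Fc) : Ω) ∈ S := Finset.mem_preimage

variable (G : GoodModel Lc Ec Fc R V w x S)

include G in
theorem SR_isUnit_sub :
    ∀ c ∈ SR Fc R S, ∀ c' ∈ SR Fc R S, c ≠ c' → IsUnit (c - c') := by
  intro c hc c' hc' hne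
  rw [isUnit_subring_iff]
  have h1 : ((c : Fc) : Ω) ≠ ((c' : Fc) : Ω) := fun h => hne (Subtype.ext (Subtype.ext h))
  refine ⟨fun h => hne (sub_eq_zero.1 (Subtype.ext h)), ?_⟩
  exact G.S_distinct _ (mem_SR.1 hc) _ (mem_SR.1 hc') h1

/-- evaluation of polynomials over `Fc`, seen in `Ω` -/
theorem coe_eval_Fc (Q : Polynomial Fc) (b : Fc) :
    ((Q.eval b : Fc) : Ω) = (Q.map Fc.subtype).eval (b : Ω) := by
  rw [Polynomial.eval_map]
  exact (Polynomial.eval₂_at_apply Fc.subtype b).symm

include G in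
/-- **Elementwise separability of the special fibre of the chart** (field form). -/
theorem hsep_chart : ∀ b ∈ H138.chart (Rf Fc R) ({xf G} : Set Fc), ∃ P : Polynomial Fc,
    (∀ i, P.coeff i ∈ Algebra.adjoin (Rf Fc R) ({xf G} : Set Fc)) ∧
    (∃ t ∈ H138.chart (Rf Fc R) ({xf G} : Set Fc),
      P.eval b = algebraMap (Rf Fc R) Fc (wR G) * t) ∧
    ¬ ∃ t ∈ H138.chart (Rf Fc R) ({xf G} : Set Fc),
      (derivative P).eval b = algebraMap (Rf Fc R) Fc (wR G) * t := by
  intro b hb
  have hb' : b ∈ chartRing (Rf Fc R) (xf G) := hb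
  have hbV : b ∈ Vf G :=
    chartRing_le_valuationSubring (Rf Fc R) (xf G) (Vf G) (Rf_le_Vf G) (xf_mem_Vf G) hb'
  obtain ⟨P₀, hc, h1, h2, h3⟩ := G.separable (b : Ω) hbV
  have hRF : ∀ r ∈ R, r ∈ Fc := fun r hr => R_le_Fc G hr
  -- lift `P₀` to `Fc[X]`
  have hlift : P₀ ∈ Polynomial.lifts Fc.subtype := by
    rw [Polynomial.lifts_iff_coeff_lifts]
    intro n
    obtain ⟨a, -, h⟩ := exists_mem_baseRing_of_mem_polyRing Fc R (xf G) hRF (hc n)
    exact ⟨a, h⟩
  obtain ⟨P, hP⟩ := (Polynomial.mem_lifts _).1 hlift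
  have hcoe : ∀ i, ((P.coeff i : Fc) : Ω) = P₀.coeff i := fun i => by
    rw [← hP, Polynomial.coeff_map]; rfl
  have hcoeff : ∀ i, P.coeff i ∈ baseRing (Rf Fc R) (xf G) := fun i =>
    (mem_baseRing_iff Fc R (xf G) hRF).2 (by rw [hcoe]; exact hc i)
  have hw0 : wf G ≠ 0 := wf_ne_zero G
  -- values of polynomials with coefficients in `R[x]` at `b` lie in the chart
  have hmem : ∀ Q : Polynomial Fc, (∀ i, Q.coeff i ∈ baseRing (Rf Fc R) (xf G)) →
      Q.eval b ∈ chartRing (Rf Fc R) (xf G) := by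
    intro Q hQ
    rw [Polynomial.eval_eq_sum_range]
    refine Subalgebra.sum_mem _ fun i _ => ?_
    exact Subalgebra.mul_mem _
      ((chartRing (Rf Fc R) (xf G)).algebraMap_mem ⟨Q.coeff i, hQ i⟩)
      (Subalgebra.pow_mem _ hb' i)
  refine ⟨P, hcoeff, ?_, ?_⟩
  · refine ⟨P.eval b * (wf G)⁻¹, ?_, ?_⟩
    · refine qep_fin' G _ (hmem P hcoeff) ?_
      show ((P.eval b : Fc) : Ω) * w⁻¹ ∈ V
      rw [coe_eval_Fc, hP]
      exact h1
    · show P.eval b = wf G * (P.eval b * (wf G)⁻¹)
      field_simp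
  · rintro ⟨t, ht, h⟩
    have htV : t ∈ Vf G :=
      chartRing_le_valuationSubring (Rf Fc R) (xf G) (Vf G) (Rf_le_Vf G) (xf_mem_Vf G) ht
    have hd : (((derivative P).eval b : Fc) : Ω) = (derivative P₀).eval (b : Ω) := by
      rw [coe_eval_Fc, ← Polynomial.derivative_map, hP]
    have h' : (derivative P₀).eval (b : Ω) = w * (t : Ω) := by
      rw [← hd, h]; rfl
    have hw0' : w ≠ 0 := G.w_ne_zero
    have ht0 : (t : Ω) ≠ 0 := by
      intro ht0
      rw [ht0, mul_zero] at h'
      exact h2 h'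
    apply G.w_inv_not_mem_V
    have : w⁻¹ = (t : Ω) * ((derivative P₀).eval (b : Ω))⁻¹ := by
      rw [h']
      field_simp
    rw [this]
    exact V.mul_mem htV h3

include G in
/-- every element of `Lc` is algebraic over the ring `R` -/
theorem exists_poly_of_mem_Lc (a : Ω) (ha : a ∈ Lc) :
    ∃ p : Polynomial (Rf Fc R), p ≠ 0 ∧
      Polynomial.eval₂ (Fc.subtype.comp (Rf Fc R).subtype) a p = 0 := by
  have halg : IsAlgebraic Ec a := G.L_algebraic a ha
  letI : Algebra (Re G) Ω := ((algebraMap Ec Ω).comp (algebraMap (Re G) Ec)).toAlgebra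
  haveI : IsScalarTower (Re G) Ec Ω := IsScalarTower.of_algebraMap_eq (fun _ => rfl)
  obtain ⟨q, hq0, hq⟩ := (IsFractionRing.isAlgebraic_iff (Re G) Ec Ω).2 halg
  let j : Re G →+* Rf Fc R :=
    { toFun := fun e => ⟨⟨((e : Ec) : Ω), G.E_le_F (e : Ec).2⟩, e.2⟩
      map_one' := rfl
      map_mul' := fun _ _ => rfl
      map_zero' := rfl
      map_add' := fun _ _ => rfl }
  have hj : Function.Injective j := fun a b h =>
    Subtype.ext (Subtype.ext (congrArg (fun t : Rf Fc R => ((t : Fc) : Ω)) h))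
  refine ⟨q.map j, (Polynomial.map_ne_zero_iff hj).2 hq0, ?_⟩
  rw [Polynomial.eval₂_map]
  rw [Polynomial.aeval_def] at hq
  exact hq

include G in
/-- **hNC on the chart**: for every prime `π` of `R[X]` not associated to `w` or to `X - c`,
`c ∈ S`, the ideal `π(x) B` is radical. -/
theorem hNC_chart :
    ∀ π : Polynomial (Rf Fc R), Prime π → ¬ Associated π (C (wR G)) →
      (∀ c ∈ SR Fc R S, ¬ Associated π (X - C c)) →
      (Ideal.span {(B12.H33.chartPolyHom (Rf Fc R) (xf G) π :
        H138.chart (Rf Fc R) ({xf G} : Set Fc))}).IsRadical := by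
  haveI := charZero_Fc G
  haveI := isDiscreteValuationRing_Rf G
  haveI := finiteDimensional_baseField G
  haveI : CharZero (Rf Fc R) := RingHom.charZero (Rf Fc R).subtype
  have hx := transcendental_xf G
  obtain ⟨hic, hfin⟩ := B12.H33.chart_package (R := Rf Fc R) hx
  letI := B12.H33.chartAlgebra (Rf Fc R) (xf G)
  haveI := hic
  haveI := hfin
  haveI : Module.IsTorsionFree (Polynomial (Rf Fc R)) (H138.chart (Rf Fc R) ({xf G} : Set Fc)) :=
    Module.isTorsionFree_iff_algebraMap_injective.2 (B12.H33.chartPolyHom_injective hx)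
  haveI : FaithfulSMul (H138.chart (Rf Fc R) ({xf G} : Set Fc)) Ω :=
    (faithfulSMul_iff_algebraMap_injective (H138.chart (Rf Fc R) ({xf G} : Set Fc)) Ω).2
      (fun a b h => Subtype.ext (Subtype.ext h))
  have hC : ∀ r : Rf Fc R,
      algebraMap (H138.chart (Rf Fc R) ({xf G} : Set Fc)) Ω
        (algebraMap (Polynomial (Rf Fc R)) (H138.chart (Rf Fc R) ({xf G} : Set Fc)) (C r)) =
        ((r : Fc) : Ω) := by
    intro r
    show ((B12.H33.chartPolyHom (Rf Fc R) (xf G) (C r) : H138.chart (Rf Fc R) ({xf G} : Set Fc)) :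
      Fc).1 = _
    rw [B12.H33.coe_chartPolyHom, Polynomial.aeval_C]
    rfl
  have hX : algebraMap (H138.chart (Rf Fc R) ({xf G} : Set Fc)) Ω
        (algebraMap (Polynomial (Rf Fc R)) (H138.chart (Rf Fc R) ({xf G} : Set Fc)) X) = x := by
    show ((B12.H33.chartPolyHom (Rf Fc R) (xf G) X : H138.chart (Rf Fc R) ({xf G} : Set Fc)) :
      Fc).1 = _
    rw [B12.H33.coe_chartPolyHom, Polynomial.aeval_X]
    rfl
  have hwB : Prime (algebraMap (Polynomial (Rf Fc R)) (H138.chart (Rf Fc R) ({xf G} : Set Fc))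
      (C (wR G))) := by
    show Prime (B12.H33.chartPolyHom (Rf Fc R) (xf G) (C (wR G)))
    rw [B12.H33.chartPolyHom_C]
    exact prime_chart G
  refine H754.hNC_typed (Rf Fc R) (H138.chart (Rf Fc R) ({xf G} : Set Fc)) (Ω := Ω) (wR G)
    (irreducible_wf G) hwB Lc G.L_algClosed ?_ ?_ (SR Fc R S) S ?_ ?_
  · intro r
    rw [hC]
    exact G.E_le_L (G.R_le r.2)
  · intro a ha
    obtain ⟨p, hp0, hp⟩ := exists_poly_of_mem_Lc G a ha
    refine ⟨p, hp0, ?_⟩
    have hhom : ((algebraMap (H138.chart (Rf Fc R) ({xf G} : Set Fc)) Ω).comp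
        ((algebraMap (Polynomial (Rf Fc R)) (H138.chart (Rf Fc R) ({xf G} : Set Fc))).comp C)) =
        Fc.subtype.comp (Rf Fc R).subtype := RingHom.ext fun r => hC r
    rw [hhom]
    exact hp
  · intro c hc
    refine ⟨⟨⟨c, R_le_Fc G (G.S_mem c hc)⟩, G.S_mem c hc⟩, mem_SR.2 hc, ?_⟩
    rw [hC]
  · rw [hX]
    exact G.unramified

include G in
/-- **b2 on the chart of a good model**: the chart is regular along `w`. -/
theorem regularAlong_chart :
    H754.RegularAlong
      (algebraMap (Rf Fc R) (H138.chart (Rf Fc R) ({xf G} : Set Fc)) (wR G)) := by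
  haveI := charZero_Fc G
  haveI := isDiscreteValuationRing_Rf G
  haveI := finiteDimensional_baseField G
  refine B12.H33.regularAlong_chart_field (transcendental_xf G) (wR G) (irreducible_wf G)
    (prime_chart G) (hsep_chart G) (SR Fc R S) (SR_isUnit_sub G) ?_
  intro π hπ hπw hπS b hb hb2
  have hrad := hNC_chart G π hπ hπw hπS
  have h1 : (⟨b, hb⟩ : H138.chart (Rf Fc R) ({xf G} : Set Fc)) ^ 2 ∈
      Ideal.span {(B12.H33.chartPolyHom (Rf Fc R) (xf G) π :
        H138.chart (Rf Fc R) ({xf G} : Set Fc))} := by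
    rw [Ideal.mem_span_singleton, B12.H33.chartPolyHom_dvd_chart_iff]
    obtain ⟨t, ht, h⟩ := hb2
    exact ⟨t, ht, h⟩
  have h2 := hrad (Ideal.mem_radical_iff.2 ⟨2, h1⟩)
  rw [Ideal.mem_span_singleton, B12.H33.chartPolyHom_dvd_chart_iff] at h2
  exact h2

end GoodModelFront

end Fermat.Agent.S18.H438

end
end
-- ===== PACK-END S18/H438/Front/Regular.lean

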