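import Fermat.Agent.Pack.S3234.G0E7L0
import Fermat.Agent.Pack.S3234.G0E2L1
import Fermat.Agent.Pack.S3234.G0E0L3
import Fermat.Agent.Pack.S3234.G0E3L1
import Fermat.Agent.Pack.S3234.G0E6L3
import Fermat.Agent.Pack.S3234.G0E2L3
import Fermat.Agent.Pack.S3234.G0E3L0
import Fermat.Agent.Pack.S3234.G0E3L3
import Fermat.Agent.Pack.S3234.G0E2L2
import Fermat.Agent.Pack.S3234.G0E1L1

-- ===== PACK-BEGIN S29/H882/MeroPrim.lean
section


/-!
# S29 / MERO (helper882), part 4: `MC N = FC N`

A primitive element `θ` of the function field over `ℚ̄` stays of degree `[SL₂(ℤ):Γ₀(N)]` over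
`ℂ(j)` after base change (descent of relations), hence generates `MC N` over `ℂ(j)`.
-/

set_option autoImplicit false

noncomputable section

open UpperHalfPlane ModularGroup CongruenceSubgroup Polynomial ModularCurve IntermediateField
open scoped MatrixGroups Manifold Modular Real

namespace Fermat.Agent.S29.H882

open Fermat.Agent.S24 Fermat.Agent.S24.H648 Fermat.Agent.S24.H708 Fermat.Agent.S24.Deg457

variable (N : ℕ) [NeZero N]

/-- A primitive element of the function field over `ℚ̄(j)`. -/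
theorem exists_theta (P : ModularPackage N) : ∃ θ : FF N,
    (minpoly ↥(IntermediateField.adjoin Kbar {jF N}) θ).natDegree = Nat.card (XX N) := by
  haveI := P.finiteDimensional
  obtain ⟨θ, hθ⟩ := Field.exists_primitive_element ↥(IntermediateField.adjoin Kbar {jF N}) (FF N)
  refine ⟨θ, ?_⟩
  rw [(Field.primitive_element_iff_minpoly_natDegree_eq _ θ).mp hθ, P.finrank_eq]

/-- The base change of an element of the function field over `ℚ̄`, as a Laurent series over `ℂ`. -/
def ΘL (θ : FF N) : LaurentSeries ℂ := coeffMap iotaC (θ : LaurentSeries Kbar)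

theorem ΘL_mem_FC (θ : FF N) : ΘL N θ ∈ FC N :=
  coeffMap_mem_laurentBaseChange_of_mem iotaC _ θ.2

/-- The same element in `MC N`. -/
def ΘM (θ : FF N) : MC N := ⟨ΘL N θ, FC_le_MC N (ΘL_mem_FC N θ)⟩

theorem aeval_jF_ne_zero {t : Kbar[X]} (ht : t ≠ 0) :
    aeval (AdjoinSimple.gen Kbar (jF N)) t ≠ 0 := by
  intro h0
  apply aeval_JK_ne_zero Kbar ht
  have h1 := congrArg (algebraMap ↥(IntermediateField.adjoin Kbar {jF N}) (FF N)) h0
  rw [← aeval_algebraMap_apply, map_zero, AdjoinSimple.algebraMap_gen] at h1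
  have h2 := congrArg (algebraMap (FF N) (LaurentSeries Kbar)) h1
  rw [← aeval_algebraMap_apply, map_zero] at h2
  exact h2

theorem algebraMap_comp_aeval_jF :
    (algebraMap (FF N) (LaurentSeries Kbar)).comp
      ((aeval (jF N) : Kbar[X] →ₐ[Kbar] FF N).toRingHom) = evJ (JK Kbar) := by
  refine Polynomial.ringHom_ext ?_ ?_
  · intro c
    simp [evJ, ← IsScalarTower.algebraMap_apply]
  · simp [evJ]
    rfl

theorem card_le_natDegree_minpoly (θ : FF N)
    (hθ : (minpoly ↥(IntermediateField.adjoin Kbar {jF N}) θ).natDegree = Nat.card (XX N)) :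
    Nat.card (XX N) ≤ (minpoly ↥(IntermediateField.adjoin ℂ {jM N}) (ΘM N θ)).natDegree := by
  haveI := (finiteDimensional_and_finrank_le_MC N).1
  by_contra hlt
  rw [not_le] at hlt
  have hint : IsIntegral ↥(IntermediateField.adjoin ℂ {jM N}) (ΘM N θ) := IsIntegral.of_finite _ _
  have hp0 : minpoly ↥(IntermediateField.adjoin ℂ {jM N}) (ΘM N θ) ≠ 0 := minpoly.ne_zero hint
  obtain ⟨t, Q, ht, hQ⟩ := exists_clear_denominators (K := ℂ) (jM N)
    (minpoly ↥(IntermediateField.adjoin ℂ {jM N}) (ΘM N θ))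
  have hφinj : Function.Injective
      ((aeval (AdjoinSimple.gen ℂ (jM N)) : ℂ[X] →ₐ[ℂ] ℂ⟮jM N⟯).toRingHom) := by
    rw [injective_iff_map_eq_zero]
    intro t ht0
    by_contra h
    exact aeval_jM_ne_zero N h ht0
  have hQ0 : Q ≠ 0 := by
    intro h
    rw [h, Polynomial.map_zero] at hQ
    exact (mul_ne_zero (C_ne_zero.mpr ht) hp0) hQ.symm
  have hQd : Q.natDegree ≤
      (minpoly ↥(IntermediateField.adjoin ℂ {jM N}) (ΘM N θ)).natDegree := by
    rw [← Polynomial.natDegree_map_eq_of_injective hφinj Q, hQ, natDegree_C_mul ht]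
  have hroot : Q.eval₂ (evJ (JK ℂ)) (ΘL N θ) = 0 := by
    have h1 : aeval (ΘM N θ)
        (Q.map ((aeval (AdjoinSimple.gen ℂ (jM N)) : ℂ[X] →ₐ[ℂ] ℂ⟮jM N⟯).toRingHom)) = 0 := by
      rw [hQ, map_mul, minpoly.aeval, mul_zero]
    have h2 := congrArg (algebraMap (MC N) (LaurentSeries ℂ)) h1
    rw [map_zero, aeval_def, eval₂_map, Polynomial.hom_eval₂] at h2
    have hcomp : (algebraMap (MC N) (LaurentSeries ℂ)).comp
        ((algebraMap ↥(IntermediateField.adjoin ℂ {jM N}) (MC N)).comp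
          ((aeval (AdjoinSimple.gen ℂ (jM N)) : ℂ[X] →ₐ[ℂ] ℂ⟮jM N⟯).toRingHom))
        = evJ (JK ℂ) := by
      refine Polynomial.ringHom_ext ?_ ?_
      · intro c
        simp [evJ, ← IsScalarTower.algebraMap_apply]
      · simp [evJ]
        rfl
    rw [hcomp] at h2
    exact h2
  obtain ⟨Q', hQ'0, hQ'd, hQ'⟩ := exists_relation_of_coeffMap_ne_zero iotaC (JK Kbar)
    (θ : LaurentSeries Kbar) _ Q hQ0 hQd (by rw [coeffMap_JK]; exact hroot)
  have hinc : Function.Injective (algebraMap (FF N) (LaurentSeries Kbar)) :=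
    (algebraMap (FF N) (LaurentSeries Kbar)).injective
  have key := isIntegral_and_natDegree_le_of_relation (K := Kbar)
    (AdjoinSimple.gen Kbar (jF N)) (fun t ht => aeval_jF_ne_zero N ht) θ Q' hQ'0 _ hQ'd (by
      apply hinc
      rw [map_zero, Polynomial.hom_eval₂, AdjoinSimple.algebraMap_gen, algebraMap_comp_aeval_jF]
      exact hQ')
  have := key.2
  omega

/-- `ΘM` is a primitive element of `MC N` over `ℂ(j)`. -/
theorem adjoin_ΘM_eq_top (θ : FF N)
    (hθ : (minpoly ↥(IntermediateField.adjoin Kbar {jF N}) θ).natDegree = Nat.card (XX N)) :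
    IntermediateField.adjoin ↥(IntermediateField.adjoin ℂ {jM N}) {ΘM N θ} = ⊤ := by
  haveI := (finiteDimensional_and_finrank_le_MC N).1
  rw [Field.primitive_element_iff_minpoly_natDegree_eq]
  have h1 := card_le_natDegree_minpoly N θ hθ
  have h2 := (finiteDimensional_and_finrank_le_MC N).2
  have h3 : (minpoly ↥(IntermediateField.adjoin ℂ {jM N}) (ΘM N θ)).natDegree ≤
      Module.finrank ↥(IntermediateField.adjoin ℂ {jM N}) (MC N) := minpoly.natDegree_le _
  omega

theorem coe_mem_FC_of_mem_adjoin_jM (e : ↥(IntermediateField.adjoin ℂ {jM N})) :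
    (((e : MC N)) : LaurentSeries ℂ) ∈ FC N := by
  obtain ⟨r, s, hrs⟩ := (IntermediateField.mem_adjoin_simple_iff ℂ (e : MC N)).mp e.2
  have hr : ((aeval (jM N) r : MC N) : LaurentSeries ℂ) = aeval (JK ℂ) r := by
    have := (aeval_algebraMap_apply (LaurentSeries ℂ) (jM N) r).symm
    exact this
  have hs : ((aeval (jM N) s : MC N) : LaurentSeries ℂ) = aeval (JK ℂ) s := by
    have := (aeval_algebraMap_apply (LaurentSeries ℂ) (jM N) s).symm
    exact this
  have hmem : ∀ t : ℂ[X], aeval (JK ℂ) t ∈ FC N := by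
    intro t
    have := (aeval_algebraMap_apply (LaurentSeries ℂ) (⟨JK ℂ, JK_mem_FC N⟩ : FC N) t)
    have h2 : (algebraMap (FC N) (LaurentSeries ℂ)) (⟨JK ℂ, JK_mem_FC N⟩ : FC N) = JK ℂ := rfl
    rw [h2] at this
    rw [this]
    exact (aeval (⟨JK ℂ, JK_mem_FC N⟩ : FC N) t).2
  rw [hrs]
  have : (((aeval (jM N) r / aeval (jM N) s : MC N)) : LaurentSeries ℂ)
      = aeval (JK ℂ) r / aeval (JK ℂ) s := by
    rw [← hr, ← hs]
    rfl
  rw [this]
  exact div_mem (hmem r) (hmem s)

/-- **`MC N ≤ FC N`**: every `q`-expansion of a good function lies in the function field. -/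
theorem MC_le_FC : MC N ≤ FC N := by
  obtain ⟨P⟩ := nonempty_modularPackage N
  obtain ⟨θ, hθ⟩ := exists_theta N P
  have htop := adjoin_ΘM_eq_top N θ hθ
  intro y hy
  have hy' : (⟨y, hy⟩ : MC N) ∈
      IntermediateField.adjoin ↥(IntermediateField.adjoin ℂ {jM N}) {ΘM N θ} := by
    rw [htop]; exact IntermediateField.mem_top
  have key : ∀ z : MC N,
      z ∈ IntermediateField.adjoin ↥(IntermediateField.adjoin ℂ {jM N}) {ΘM N θ} →
      (z : LaurentSeries ℂ) ∈ FC N := by
    intro z hz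
    refine IntermediateField.adjoin_induction ↥(IntermediateField.adjoin ℂ {jM N})
      (p := fun (z : MC N) _ => ((z : MC N) : LaurentSeries ℂ) ∈ FC N) ?_ ?_ ?_ ?_ ?_ hz
    · intro x hx
      rw [Set.mem_singleton_iff] at hx
      subst hx
      exact ΘL_mem_FC N θ
    · intro e
      exact coe_mem_FC_of_mem_adjoin_jM N e
    · intro x y _ _ hx hy
      exact add_mem hx hy
    · intro x _ hx
      exact inv_mem hx
    · intro x y _ _ hx hy
      exact mul_mem hx hy
  exact key ⟨y, hy⟩ hy'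

theorem MC_eq_FC : MC N = FC N := le_antisymm (MC_le_FC N) (FC_le_MC N)

variable {N}

/-- **MERO (A)**: the `q`-expansion of a good function of level `N` lies in the function field of
`X₀(N)` over `ℂ`. -/
theorem mem_FC_of_mem_goodQ {b : LaurentSeries ℂ} (hb : b ∈ goodQ N) :
    b ∈ laurentBaseChange ℂ (modularFunctionFieldFull N) :=
  MC_le_FC N (goodQ_le_MC N hb)

/-- **MERO (A)**, function form. -/
theorem qexpFun_mem_FC {f : ℍ → ℂ} (hf : f ∈ goodRing N) :
    qexpFun 1 f ∈ laurentBaseChange ℂ (modularFunctionFieldFull N) :=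
  mem_FC_of_mem_goodQ (qexpFun_mem_goodQ hf)

/-- **MERO (A)**, `HasQExp` form. -/
theorem mem_FC_of_hasQExp {f : ℍ → ℂ} {b : LaurentSeries ℂ} (hf : f ∈ goodRing N)
    (hb : HasQExp 1 f b) : b ∈ laurentBaseChange ℂ (modularFunctionFieldFull N) :=
  mem_FC_of_mem_goodQ ⟨f, hf, hb⟩

end Fermat.Agent.S29.H882

end
end
-- ===== PACK-END S29/H882/MeroPrim.lean

-- ===== PACK-BEGIN S29/M4b/Defs.lean
section
/-
S29 row, LAYER M, SUB-LAYER M4b (the Kummer map) — FROZEN interface definitions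
(sub-architect: deputy helper822).  Namespace `Fermat.Agent.S29.M4b`.
Do not edit; propose changes via a note kind='question' stmt='S29'.

The relation `IsKum N p c x` ("`x` is the Kummer class of the character `c`"):
`x = [D]`, `p • D = div f` (landed `H455.IsKummerClass`), and after clearing poles by a `p`-th power
`t ^ p` the function `f * t ^ p` is the `p`-th power of a holomorphic `U : ℍ → ℂ` which transforms
under `Γ₀(N)` by the character `γ ↦ ζ_p ^ c(γ)`.

"Analytic realisation" = equality of `q`-expansions at `i∞` (landed S24 / H882 language):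
`G` realises `u ∈ FF N` iff `G ∈ S24.H648.goodRing N` (holomorphic, `Γ₀(N)`-invariant, all
`SL₂(ℤ)`-translates of at most exponential growth) and `qexpFun 1 G = coeffMap iotaC u`.
-/




set_option autoImplicit false

noncomputable section

open ModularCurve AlgebraicCurve CongruenceSubgroup UpperHalfPlane
open scoped MatrixGroups Manifold

namespace Fermat.Agent.S29.M4b

open Fermat.Agent.S24 Fermat.Agent.S29

/-- The fixed primitive `p`-th root of unity `exp(2πi/p)`. -/
def zetaP (p : ℕ) : ℂ := Complex.exp (2 * Real.pi * Complex.I / p)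

/-- `G : ℍ → ℂ` realises `u ∈ FF N = ℚ̄(j(q^d) : d ∣ N)`: `G` is a "good" function (holomorphic on
`ℍ`, `Γ₀(N)`-invariant, exponential growth at all cusps) whose `q`-expansion at `i∞` is `u`, the
coefficients being embedded by the fixed `Deg457.iotaC : ℚ̄ → ℂ`. -/
def Realises (N : ℕ) [NeZero N] (u : FF N) (G : ℍ → ℂ) : Prop :=
  G ∈ H648.goodRing N ∧
    H708.qexpFun 1 G = coeffMap Deg457.iotaC ((u : FF N) : LaurentSeries Kbar)

/-- `U` transforms under `Γ₀(N)` by the character `γ ↦ ζ_p ^ c(γ)`. -/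
def HasChar (N p : ℕ) (c : G0 N → ZMod p) (U : ℍ → ℂ) : Prop :=
  ∀ (γ : G0 N) (τ : ℍ), U ((γ : SL(2, ℤ)) • τ) = zetaP p ^ (c γ).val * U τ

/-- `U` is a twisted function of character `c`: holomorphic on `ℍ`, not identically zero, of
character `c`, with `U ^ p` good (i.e. `U` has at most exponential growth at every cusp). -/
structure IsTwisted (N p : ℕ) (c : G0 N → ZMod p) (U : ℍ → ℂ) : Prop where
  mdiff : MDifferentiable 𝓘(ℂ) 𝓘(ℂ) U
  ne_zero : ∃ τ : ℍ, U τ ≠ 0
  hasChar : HasChar N p c U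
  pow_mem : (fun τ => U τ ^ p) ∈ H648.goodRing N

/-- **The Kummer relation.**  `x ∈ J₀(N)(ℚ̄)` is the Kummer class of the character `c`. -/
def IsKum (N p : ℕ) [NeZero N] (c : G0 N → ZMod p) (x : JZero N) : Prop :=
  ∃ (f t : FF N) (U : ℍ → ℂ), t ≠ 0 ∧ H455.IsKummerClass (p : ℤ) f x ∧
    IsTwisted N p c U ∧ Realises N (f * t ^ p) (fun τ => U τ ^ p)

/-- `c'` is the transfer (= Hecke image `T_ℓ c`) of `c`: `c'(γ) = ∑ᵢ c(δᵢ)` for EVERY
factorisation `αᵢ γ = δᵢ α_{π i}` (`αᵢ = heckeRep ℓ i` of `DefsM`).  For `ℓ ∤ N` prime the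
factorisation exists and is unique (piece `HCoh`), so `c' = heckeCoh N ℓ c`. -/
def IsTransfer (N ℓ : ℕ) {A : Type*} [AddCommMonoid A] (c c' : G0 N → A) : Prop :=
  ∀ (γ : G0 N) (π : Option (Fin ℓ) → Option (Fin ℓ)) (δ : Option (Fin ℓ) → G0 N),
    (∀ i, IsHeckeFactor ℓ γ i (π i, δ i)) → c' γ = ∑ i, c (δ i)

end Fermat.Agent.S29.M4b

end
end
-- ===== PACK-END S29/M4b/Defs.lean

-- ===== PACK-BEGIN S30/H450/KumCompat.lean
section
/-
S30 (p-adic version), helper450: the Kummer relation of S29 sub-layer M4b (`M4b.IsKum`, frozen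
definitions of helper822, general modulus) is compatible with change of modulus.

* `isKum_red`  : REDUCTION.  `IsKum N (m * d) c x → IsKum N m (c mod m) (d • x)`
  (data `(f, t, U) ↦ (f, t ^ d, U ^ d)`).
* `isKum_infl` : INFLATION.  `IsKum N m c x → IsKum N (m * d) (d * c) x`
  (data `(f, t, U) ↦ (f ^ d, t, U)`).

Everything here is formal: no analysis beyond `ζ_{md} ^ d = ζ_m`.
-/


set_option autoImplicit false

noncomputable section

open ModularCurve AlgebraicCurve CongruenceSubgroup UpperHalfPlane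
open scoped MatrixGroups Manifold

namespace Fermat.Agent.S30.H450

open Fermat.Agent.S24 Fermat.Agent.S29 Fermat.Agent.S29.M4b

/-! ### Roots of unity -/

theorem zetaP_pow_self (m : ℕ) (hm : m ≠ 0) : zetaP m ^ m = 1 := by
  unfold zetaP
  rw [← Complex.exp_nat_mul]
  have hm' : (m : ℂ) ≠ 0 := by exact_mod_cast hm
  have : (m : ℂ) * (2 * Real.pi * Complex.I / m) = 2 * Real.pi * Complex.I := by
    field_simp
  rw [this, Complex.exp_two_pi_mul_I]

theorem zetaP_mul_pow (m d : ℕ) (hd : d ≠ 0) : zetaP (m * d) ^ d = zetaP m := by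
  unfold zetaP
  rw [← Complex.exp_nat_mul]
  congr 1
  have hd' : (d : ℂ) ≠ 0 := by exact_mod_cast hd
  by_cases hm : m = 0
  · subst hm
    simp
  have hm' : (m : ℂ) ≠ 0 := by exact_mod_cast hm
  push_cast
  field_simp

theorem zetaP_pow_mod (m : ℕ) (hm : m ≠ 0) (a : ℕ) : zetaP m ^ (a % m) = zetaP m ^ a := by
  conv_rhs => rw [← Nat.mod_add_div a m]
  rw [pow_add, pow_mul, zetaP_pow_self m hm, one_pow, mul_one]

/-! ### Reduction and inflation of characters -/

/-- Reduction of a character modulo a divisor of the modulus. -/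
def redChar {N m m' : ℕ} (h : m ∣ m') (c : G0 N → ZMod m') : G0 N → ZMod m :=
  fun γ => ZMod.castHom h (ZMod m) (c γ)

/-- Inflation of a character: `ZMod m → ZMod (m * d)`, `a ↦ d * a` (on representatives). -/
def inflChar {N : ℕ} (m d : ℕ) (c : G0 N → ZMod m) : G0 N → ZMod (m * d) :=
  fun γ => ((d * (c γ).val : ℕ) : ZMod (m * d))

theorem isParHom_redChar {N m m' : ℕ} (h : m ∣ m') {c : G0 N → ZMod m'} (hc : IsParHom c) :
    IsParHom (redChar h c) where
  map_mul γ γ' := by
    simp only [redChar, hc.map_mul, map_add]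
  parabolic γ hγ := by
    simp only [redChar, hc.parabolic γ hγ, map_zero]
  elliptic γ n hn hγ := by
    simp only [redChar, hc.elliptic γ n hn hγ, map_zero]

theorem redChar_add {N m m' : ℕ} (h : m ∣ m') (c c' : G0 N → ZMod m') :
    redChar h (c + c') = redChar h c + redChar h c' := by
  funext γ
  simp only [redChar, Pi.add_apply, map_add]

theorem val_redChar {N m m' : ℕ} [NeZero m'] (h : m ∣ m') (c : G0 N → ZMod m') (γ : G0 N) :
    (redChar h c γ).val = (c γ).val % m := by
  unfold redChar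
  have h1 : ZMod.castHom h (ZMod m) (c γ) = (((c γ).val : ℕ) : ZMod m) := by
    conv_lhs => rw [← ZMod.natCast_zmod_val (c γ)]
    rw [map_natCast]
  rw [h1, ZMod.val_natCast]

/-! ### Kummer classes under change of modulus (Prelude language) -/

section Alg

variable {K F : Type*} [Field K] [Field F] [Algebra K F]

theorem isKummerClass_red {m d : ℕ} {f : F} {x : Pic0 K F}
    (h : H455.IsKummerClass ((m * d : ℕ) : ℤ) f x) :
    H455.IsKummerClass (m : ℤ) f (d • x) := by
  obtain ⟨hf, D, rfl, hD⟩ := h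
  refine ⟨hf, d • D, rfl, fun v => ?_⟩
  rw [← hD v]
  simp only [AddSubmonoidClass.coe_nsmul, Finsupp.smul_apply, nsmul_eq_mul]
  push_cast
  ring

theorem isKummerClass_infl {m d : ℕ} {f : F} {x : Pic0 K F}
    (h : H455.IsKummerClass (m : ℤ) f x) :
    H455.IsKummerClass ((m * d : ℕ) : ℤ) (f ^ d) x := by
  obtain ⟨hf, D, rfl, hD⟩ := h
  refine ⟨pow_ne_zero d hf, D, rfl, fun v => ?_⟩
  rw [← zpow_natCast, Place.ord_zpow, ← hD v]
  push_cast
  ring

end Alg

/-! ### The analytic part -/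

section An

variable {N : ℕ}

theorem isTwisted_red {m d : ℕ} [NeZero m] [NeZero d] {c : G0 N → ZMod (m * d)} {U : ℍ → ℂ}
    (hU : IsTwisted N (m * d) c U) :
    IsTwisted N m (redChar (Dvd.intro d rfl) c) (fun τ => U τ ^ d) where
  mdiff := hU.mdiff.pow d
  ne_zero := by
    obtain ⟨τ, hτ⟩ := hU.ne_zero
    exact ⟨τ, pow_ne_zero d hτ⟩
  hasChar := by
    intro γ τ
    have : NeZero (m * d) := ⟨Nat.mul_ne_zero (NeZero.ne m) (NeZero.ne d)⟩
    beta_reduce
    rw [hU.hasChar γ τ, mul_pow, ← pow_mul, mul_comm (c γ).val d, pow_mul,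
      zetaP_mul_pow m d (NeZero.ne d), val_redChar, zetaP_pow_mod m (NeZero.ne m)]
  pow_mem := by
    have h := hU.pow_mem
    have e : (fun τ => (U τ ^ d) ^ m) = fun τ => U τ ^ (m * d) := by
      funext τ
      rw [← pow_mul, mul_comm]
    rw [e]
    exact h

variable [NeZero N]

theorem realises_red {m d : ℕ} {f t : FF N} {U : ℍ → ℂ}
    (h : Realises N (f * t ^ (m * d)) (fun τ => U τ ^ (m * d))) :
    Realises N (f * (t ^ d) ^ m) (fun τ => (U τ ^ d) ^ m) := by
  have e : (fun τ => (U τ ^ d) ^ m) = fun τ => U τ ^ (m * d) := by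
    funext τ
    rw [← pow_mul, mul_comm]
  have e' : f * (t ^ d) ^ m = f * t ^ (m * d) := by
    rw [← pow_mul, mul_comm d m]
  rw [e, e']
  exact h

/-- **REDUCTION.**  If `x` is the Kummer class of `c` for the modulus `m * d`, then `d • x` is the
Kummer class of `c mod m` for the modulus `m`. -/
theorem isKum_red {m d : ℕ} [NeZero m] [NeZero d] {c : G0 N → ZMod (m * d)} {x : JZero N}
    (h : IsKum N (m * d) c x) :
    IsKum N m (redChar (Dvd.intro d rfl) c) (d • x) := by
  obtain ⟨f, t, U, ht, hx, hU, hR⟩ := h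
  exact ⟨f, t ^ d, fun τ => U τ ^ d, pow_ne_zero d ht, isKummerClass_red hx, isTwisted_red hU,
    realises_red hR⟩

/-- Variant of `isKum_red` with a propositional equality of moduli (e.g. `p ^ (n+1) = p ^ n * p`). -/
theorem isKum_red' {m m' d : ℕ} [NeZero m] [NeZero d] (hm : m' = m * d) (hdvd : m ∣ m')
    {c : G0 N → ZMod m'} {x : JZero N} (h : IsKum N m' c x) :
    IsKum N m (redChar hdvd c) (d • x) := by
  subst hm
  exact isKum_red h

theorem realises_pow {u : FF N} {G : ℍ → ℂ} (h : Realises N u G) (d : ℕ) :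
    Realises N (u ^ d) (fun τ => G τ ^ d) := by
  obtain ⟨h1, h2⟩ := h
  have hq : H708.HasQExp 1 G (coeffMap Deg457.iotaC ((u : FF N) : LaurentSeries Kbar)) :=
    h2 ▸ H882.hasQExp_of_mem_goodRing h1
  have hG : (fun τ => G τ ^ d) = G ^ d := rfl
  refine ⟨hG ▸ (H648.goodRing N).pow_mem h1 d, ?_⟩
  rw [hG, (hq.pow d).qexpFun_eq]
  rw [IntermediateField.coe_pow, map_pow]

omit [NeZero N] in
theorem zetaP_pow_val_inflChar {m d : ℕ} [NeZero m] [NeZero d] (c : G0 N → ZMod m) (γ : G0 N) :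
    zetaP (m * d) ^ (inflChar m d c γ).val = zetaP m ^ (c γ).val := by
  have hmd : m * d ≠ 0 := Nat.mul_ne_zero (NeZero.ne m) (NeZero.ne d)
  have : NeZero (m * d) := ⟨hmd⟩
  unfold inflChar
  rw [ZMod.val_natCast, zetaP_pow_mod (m * d) hmd, pow_mul, zetaP_mul_pow m d (NeZero.ne d)]

/-- **INFLATION.**  If `x` is the Kummer class of `c` for the modulus `m`, then `x` is the Kummer
class of `d * c` for the modulus `m * d`. -/
theorem isKum_infl {m d : ℕ} [NeZero m] [NeZero d] {c : G0 N → ZMod m} {x : JZero N}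
    (h : IsKum N m c x) : IsKum N (m * d) (inflChar m d c) x := by
  obtain ⟨f, t, U, ht, hx, hU, hR⟩ := h
  have e : (fun τ => U τ ^ (m * d)) = fun τ => (U τ ^ m) ^ d := by
    funext τ
    rw [pow_mul]
  refine ⟨f ^ d, t, U, ht, isKummerClass_infl hx, ⟨hU.mdiff, hU.ne_zero, fun γ τ => ?_, ?_⟩, ?_⟩
  · rw [zetaP_pow_val_inflChar]
    exact hU.hasChar γ τ
  · rw [e]
    exact (realises_pow hR d).1
  · have e' : f ^ d * t ^ (m * d) = (f * t ^ m) ^ d := by
      rw [mul_pow, pow_mul]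
    rw [e, e']
    exact realises_pow hR d

end An

end Fermat.Agent.S30.H450

end
end
-- ===== PACK-END S30/H450/KumCompat.lean

-- ===== PACK-BEGIN S30/H450/KumTower.lean
section
/-
S30 (p-adic version), helper450: the KUMMER TOWER from the pieces of S29 sub-layer M4b.

* `KumPackage N m` : the pieces of helper822's `M4b/Skeleton.lean` at the modulus `m`
  (existence, uniqueness, injectivity, additivity, Hecke-equivariance of `M4b.IsKum N m`).
* `KumPackage.of_skeleton` : the package from statements in the EXACT shapes of the M4b skeleton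
  (the Hecke piece is converted with the landed `HCoh` facts of helper149).
* `exists_kummerTower_of` : the conclusion of helper49's `SkeletonLat.exists_kummerTower`
  (maps `κ n` on characters mod `p ^ n`, additive, injective, `p • κ (n+1) c = κ n (c mod p ^ n)`,
  Hecke-equivariant), from `KumPackage N (p ^ n)` for all `n`; the tower compatibility is
  `isKum_red` of `KumCompat.lean`.
-/



set_option autoImplicit false

noncomputable section

open ModularCurve AlgebraicCurve CongruenceSubgroup UpperHalfPlane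
open scoped MatrixGroups Manifold

namespace Fermat.Agent.S30.H450

open Fermat.Agent.S24 Fermat.Agent.S29 Fermat.Agent.S29.M4b

/-- The pieces of S29 sub-layer M4b at the modulus `m`. -/
structure KumPackage (N m : ℕ) [NeZero N] : Prop where
  ex : ∀ c : G0 N → ZMod m, IsParHom c → ∃ x : JZero N, IsKum N m c x
  uniq : ∀ (c : G0 N → ZMod m) (x x' : JZero N), IsKum N m c x → IsKum N m c x' → x = x'
  inj : ∀ c : G0 N → ZMod m, IsKum N m c (0 : JZero N) → c = 0
  add : ∀ (c c' : G0 N → ZMod m) (x x' : JZero N),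
    IsKum N m c x → IsKum N m c' x' → IsKum N m (c + c') (x + x')
  hecke : ∀ ℓ : Nat.Primes, ¬ (ℓ : ℕ) ∣ N * m → ∀ (c : G0 N → ZMod m) (x : JZero N),
    IsParHom c → IsKum N m c x → IsKum N m (heckeCoh N ℓ c) (heckeOperatorBar N ℓ x)

section Skeleton

variable {N : ℕ} [NeZero N]

omit [NeZero N] in
/-- The transfer of `c` is `heckeCoh N ℓ c` (for `ℓ ∤ N` prime; landed `HCoh`). -/
theorem isTransfer_heckeCoh_h450 {ℓ : ℕ} (hℓ : ℓ.Prime) (hℓN : ¬ ℓ ∣ N) {A : Type*}
    [AddCommMonoid A] (c : G0 N → A) : IsTransfer N ℓ c (heckeCoh N ℓ c) := by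
  intro γ π δ hfac
  unfold heckeCoh
  refine Finset.sum_congr rfl fun i _ => ?_
  rw [H149.HCoh_heckeFac_unique hℓ hℓN (hfac i)]

omit [NeZero N] in
/-- Existence of the Hecke factorisation with a permutation of the indices (landed `HCoh`). -/
theorem exists_perm_factor_h450 {ℓ : ℕ} (hℓ : ℓ.Prime) (hℓN : ¬ ℓ ∣ N) (γ : G0 N) :
    ∃ (π : Equiv.Perm (Option (Fin ℓ))) (δ : Option (Fin ℓ) → G0 N),
      ∀ i, IsHeckeFactor ℓ γ i (π i, δ i) :=
  ⟨H149.HCoh_perm (H149.HCoh_isFactorSystem hℓ hℓN) γ, fun i => (heckeFac N ℓ γ i).2,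
    fun i => H149.HCoh_heckeFac_spec hℓ hℓN γ i⟩

/-- The package at the modulus `m` from statements in the EXACT shapes of
`Fermat/Agent/S29/M4b/Skeleton.lean` (`isKum_exists`, `isKum_unique`, `isKum_zero_right`,
`isKum_add`, `isKum_hecke`). -/
theorem KumPackage.of_skeleton {m : ℕ}
    (hex : ∀ {c : G0 N → ZMod m}, IsParHom c → ∃ x : JZero N, IsKum N m c x)
    (huniq : ∀ {c : G0 N → ZMod m} {x x' : JZero N}, IsKum N m c x → IsKum N m c x' → x = x')
    (hinj : ∀ {c : G0 N → ZMod m}, IsKum N m c (0 : JZero N) → c = 0)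
    (hadd : ∀ {c c' : G0 N → ZMod m} {x x' : JZero N},
      IsKum N m c x → IsKum N m c' x' → IsKum N m (c + c') (x + x'))
    (hhecke : ∀ (ℓ : Nat.Primes), ¬ (ℓ : ℕ) ∣ N * m →
      (∀ γ : G0 N, ∃ (π : Equiv.Perm (Option (Fin (ℓ : ℕ)))) (δ : Option (Fin (ℓ : ℕ)) → G0 N),
        ∀ i, IsHeckeFactor (ℓ : ℕ) γ i (π i, δ i)) →
      ∀ {c c' : G0 N → ZMod m}, IsParHom c → IsTransfer N (ℓ : ℕ) c c' →
      ∀ {x : JZero N}, IsKum N m c x → IsKum N m c' (heckeOperatorBar N ℓ x)) :
    KumPackage N m where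
  ex _ hc := hex hc
  uniq _ _ _ h h' := huniq h h'
  inj _ h := hinj h
  add _ _ _ _ h h' := hadd h h'
  hecke ℓ hℓ c x hc h := by
    have hℓN : ¬ (ℓ : ℕ) ∣ N := fun hd => hℓ (Dvd.dvd.mul_right hd m)
    exact hhecke ℓ hℓ (exists_perm_factor_h450 ℓ.2 hℓN) hc
      (isTransfer_heckeCoh_h450 ℓ.2 hℓN c) h

end Skeleton

section Tower

variable (N : ℕ) [NeZero N] (p : ℕ)

open Classical in
/-- The Kummer tower: `kumTower N p n c` is THE Kummer class of the character `c` mod `p ^ n`
(and `0` if there is none). -/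
def kumTower (n : ℕ) (c : G0 N → ZMod (p ^ n)) : JZero N :=
  if h : ∃ x : JZero N, IsKum N (p ^ n) c x then h.choose else 0

variable {N p}

theorem isKum_kumTower (H : ∀ n, KumPackage N (p ^ n)) {n : ℕ} {c : G0 N → ZMod (p ^ n)}
    (hc : IsParHom c) : IsKum N (p ^ n) c (kumTower N p n c) := by
  have h := (H n).ex c hc
  rw [kumTower, dif_pos h]
  exact h.choose_spec

theorem kumTower_eq (H : ∀ n, KumPackage N (p ^ n)) {n : ℕ} {c : G0 N → ZMod (p ^ n)}
    {x : JZero N} (h : IsKum N (p ^ n) c x) : kumTower N p n c = x := by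
  have h' : ∃ x : JZero N, IsKum N (p ^ n) c x := ⟨x, h⟩
  rw [kumTower, dif_pos h']
  exact (H n).uniq c _ _ h'.choose_spec h

theorem not_dvd_mul_pow {ℓ : ℕ} (hℓ : ℓ.Prime) {N p : ℕ} (h : ¬ ℓ ∣ N * p) (n : ℕ) :
    ¬ ℓ ∣ N * p ^ n := by
  intro hd
  rcases (Nat.Prime.dvd_mul hℓ).1 hd with h1 | h1
  · exact h (Dvd.dvd.mul_right h1 p)
  · exact h (Dvd.dvd.mul_left (hℓ.dvd_of_dvd_pow h1) N)

/-- **The Kummer tower** (conclusion of helper49's `SkeletonLat.exists_kummerTower`, with the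
extra information that `κ n c` IS the Kummer class of `c`), from the M4b pieces at all moduli
`p ^ n`. -/
theorem exists_kummerTower_isKum_of [NeZero p] (H : ∀ n, KumPackage N (p ^ n)) :
    ∃ κ : (n : ℕ) → (G0 N → ZMod (p ^ n)) → JZero N,
      (∀ n c, IsParHom c → IsKum N (p ^ n) c (κ n c)) ∧
      (∀ n c c', IsParHom c → IsParHom c' → κ n (c + c') = κ n c + κ n c') ∧
      (∀ n c, IsParHom c → κ n c = 0 → c = 0) ∧
      (∀ (n : ℕ) (c : G0 N → ZMod (p ^ (n + 1))), IsParHom c →
        (p : ℤ) • κ (n + 1) c =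
          κ n (fun γ => ZMod.castHom (pow_dvd_pow p (Nat.le_succ n)) (ZMod (p ^ n)) (c γ))) ∧
      (∀ ℓ : Nat.Primes, ¬ (ℓ : ℕ) ∣ N * p → ∀ n c, IsParHom c →
        κ n (heckeCoh N ℓ c) = heckeOperatorBar N ℓ (κ n c)) := by
  refine ⟨kumTower N p, fun n c hc => isKum_kumTower H hc, fun n c c' hc hc' => ?_,
    fun n c hc h0 => ?_, fun n c hc => ?_, fun ℓ hℓ n c hc => ?_⟩
  · exact kumTower_eq H ((H n).add c c' _ _ (isKum_kumTower H hc) (isKum_kumTower H hc'))
  · have h := isKum_kumTower H hc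
    rw [h0] at h
    exact (H n).inj c h
  · have h := isKum_kumTower H hc
    have h1 := isKum_red' (m := p ^ n) (d := p) (pow_succ p n)
      (pow_dvd_pow p (Nat.le_succ n)) h
    rw [natCast_zsmul]
    exact (kumTower_eq H h1).symm
  · exact kumTower_eq H ((H n).hecke ℓ (not_dvd_mul_pow ℓ.2 hℓ n) c _ hc (isKum_kumTower H hc))

/-- **The Kummer tower**, EXACT conclusion of helper49's `SkeletonLat.exists_kummerTower`. -/
theorem exists_kummerTower_of [NeZero p] (H : ∀ n, KumPackage N (p ^ n)) :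
    ∃ κ : (n : ℕ) → (G0 N → ZMod (p ^ n)) → JZero N,
      (∀ n c c', IsParHom c → IsParHom c' → κ n (c + c') = κ n c + κ n c') ∧
      (∀ n c, IsParHom c → κ n c = 0 → c = 0) ∧
      (∀ (n : ℕ) (c : G0 N → ZMod (p ^ (n + 1))), IsParHom c →
        (p : ℤ) • κ (n + 1) c =
          κ n (fun γ => ZMod.castHom (pow_dvd_pow p (Nat.le_succ n)) (ZMod (p ^ n)) (c γ))) ∧
      (∀ ℓ : Nat.Primes, ¬ (ℓ : ℕ) ∣ N * p → ∀ n c, IsParHom c →
        κ n (heckeCoh N ℓ c) = heckeOperatorBar N ℓ (κ n c)) := by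
  obtain ⟨κ, -, h1, h2, h3, h4⟩ := exists_kummerTower_isKum_of H
  exact ⟨κ, h1, h2, h3, h4⟩

end Tower

end Fermat.Agent.S30.H450

end
end
-- ===== PACK-END S30/H450/KumTower.lean

-- ===== PACK-BEGIN S30/Fin/Count.lean
section
/-
S30 row, piece FIN (helper49): finiteness of the `m`-torsion of `J₀(N)(ℚ̄)` from the Kummer
relation `IsKum` of `Fermat.Agent.S29.M4b.Defs`.

`finite_torsion_of` : if every `m`-torsion class is the Kummer class of SOME function
`c : Γ₀(N) → ℤ/m` (piece `ONTO`), and Kummer classes are unique (piece `K4-UNIQ` of S29/M4b), then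
`J₀(N)(ℚ̄)[m]` is finite.  Reason: the character of a twisted function is additive, `Γ₀(N)` is
finitely generated, so there are only finitely many characters.
-/


set_option autoImplicit false

noncomputable section

open ModularCurve AlgebraicCurve CongruenceSubgroup UpperHalfPlane
open scoped MatrixGroups Manifold

namespace Fermat.Agent.S30.Fin

open Fermat.Agent.S29 Fermat.Agent.S29.M4b

/-- `SL(2, ℤ)` is finitely generated. -/
theorem fin_fg_SL2Z : Group.FG SL(2, ℤ) :=
  Group.fg_iff.mpr ⟨{ModularGroup.S, ModularGroup.T}, SpecialLinearGroup.SL2Z_generators,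
    Set.toFinite _⟩

/-- `Γ₀(N)` is finitely generated (Schreier). -/
theorem fin_fg_Gamma0 (N : ℕ) [NeZero N] : Group.FG (G0 N) := by
  have := fin_fg_SL2Z
  exact Subgroup.fg_of_index_ne_zero (Gamma0 N)

theorem fin_zetaP_isPrimitiveRoot (m : ℕ) [NeZero m] : IsPrimitiveRoot (zetaP m) m :=
  Complex.isPrimitiveRoot_exp m (NeZero.ne m)

/-- `ζ_m ^ a = ζ_m ^ b` forces `a = b` in `ℤ/m`. -/
theorem fin_natCast_eq_of_zetaP_pow_eq (m : ℕ) [NeZero m] {a b : ℕ}
    (h : zetaP m ^ a = zetaP m ^ b) : (a : ZMod m) = (b : ZMod m) := by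
  have hζ := fin_zetaP_isPrimitiveRoot m
  have hne : zetaP m ≠ 0 := hζ.ne_zero (NeZero.ne m)
  have key : ∀ a b : ℕ, a ≤ b → zetaP m ^ a = zetaP m ^ b → (a : ZMod m) = (b : ZMod m) := by
    intro a b hab h
    obtain ⟨d, rfl⟩ := Nat.exists_eq_add_of_le hab
    rw [pow_add] at h
    have h1 : zetaP m ^ d = 1 := by
      have h2 : zetaP m ^ a * 1 = zetaP m ^ a * zetaP m ^ d := by rw [mul_one]; exact h
      exact (mul_left_cancel₀ (pow_ne_zero a hne) h2).symm
    have h3 : m ∣ d := (hζ.pow_eq_one_iff_dvd d).mp h1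
    rw [Nat.cast_add, (ZMod.natCast_eq_zero_iff d m).mpr h3, add_zero]
  rcases le_total a b with hab | hab
  · exact key a b hab h
  · exact (key b a hab h.symm).symm

/-- The character of a twisted function is additive. -/
theorem fin_isTwisted_map_mul {N m : ℕ} [NeZero m] {c : G0 N → ZMod m} {U : ℍ → ℂ}
    (h : IsTwisted N m c U) (γ γ' : G0 N) : c (γ * γ') = c γ + c γ' := by
  obtain ⟨τ₀, hτ₀⟩ := h.ne_zero
  have h1 := h.hasChar (γ * γ') τ₀
  have h2 := h.hasChar γ (((γ' : G0 N) : SL(2, ℤ)) • τ₀)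
  have h3 := h.hasChar γ' τ₀
  have hsmul : (((γ * γ' : G0 N) : SL(2, ℤ))) • τ₀
      = ((γ : G0 N) : SL(2, ℤ)) • ((γ' : G0 N) : SL(2, ℤ)) • τ₀ := by
    rw [← mul_smul]
    rfl
  rw [hsmul, h2, h3, ← mul_assoc, ← pow_add] at h1
  have h4 : zetaP m ^ ((c γ).val + (c γ').val) = zetaP m ^ (c (γ * γ')).val :=
    mul_right_cancel₀ hτ₀ h1
  have h5 := fin_natCast_eq_of_zetaP_pow_eq m h4
  rw [Nat.cast_add, ZMod.natCast_zmod_val, ZMod.natCast_zmod_val, ZMod.natCast_zmod_val] at h5
  exact h5.symm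

/-- The character of a Kummer class is additive. -/
theorem fin_isKum_map_mul {N m : ℕ} [NeZero N] [NeZero m] {c : G0 N → ZMod m} {x : JZero N}
    (h : IsKum N m c x) (γ γ' : G0 N) : c (γ * γ') = c γ + c γ' := by
  obtain ⟨f, t, U, -, -, hU, -⟩ := h
  exact fin_isTwisted_map_mul hU γ γ'

/-- **FIN from ONTO and UNIQ.** -/
theorem finite_torsion_of (N : ℕ) [NeZero N] (m : ℕ) [NeZero m]
    (hex : ∀ x : JZero N, (m : ℤ) • x = 0 → ∃ c : G0 N → ZMod m, IsKum N m c x)
    (huniq : ∀ (c : G0 N → ZMod m) (x x' : JZero N), IsKum N m c x → IsKum N m c x' → x = x') :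
    {x : JZero N | (m : ℤ) • x = 0}.Finite := by
  classical
  obtain ⟨S, hS, hSfin⟩ := Group.fg_iff.mp (fin_fg_Gamma0 N)
  have : Finite S := hSfin.to_subtype
  choose! c hc using hex
  -- the character of `x` as a monoid homomorphism
  have hone : ∀ x : JZero N, (m : ℤ) • x = 0 → c x 1 = 0 := by
    intro x hx
    have h := fin_isKum_map_mul (hc x hx) 1 1
    rw [mul_one] at h
    exact left_eq_add.mp h
  let φ : {x : JZero N // (m : ℤ) • x = 0} → (S → ZMod m) := fun x s => c x.1 s.1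
  have hinj : Function.Injective φ := by
    rintro ⟨x, hx⟩ ⟨x', hx'⟩ h
    let f : G0 N →* Multiplicative (ZMod m) :=
      { toFun := fun γ => Multiplicative.ofAdd (c x γ)
        map_one' := by
          show Multiplicative.ofAdd (c x 1) = 1
          rw [hone x hx]; rfl
        map_mul' := fun γ γ' => by
          show Multiplicative.ofAdd (c x (γ * γ')) = _
          rw [fin_isKum_map_mul (hc x hx) γ γ']; rfl }
    let f' : G0 N →* Multiplicative (ZMod m) :=
      { toFun := fun γ => Multiplicative.ofAdd (c x' γ)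
        map_one' := by
          show Multiplicative.ofAdd (c x' 1) = 1
          rw [hone x' hx']; rfl
        map_mul' := fun γ γ' => by
          show Multiplicative.ofAdd (c x' (γ * γ')) = _
          rw [fin_isKum_map_mul (hc x' hx') γ γ']; rfl }
    have hff' : f = f' := by
      refine MonoidHom.eq_of_eqOn_dense hS ?_
      intro s hs
      show Multiplicative.ofAdd (c x s) = Multiplicative.ofAdd (c x' s)
      have := congrFun h ⟨s, hs⟩
      exact congrArg Multiplicative.ofAdd this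
    have hcc : c x = c x' := by
      funext γ
      have := DFunLike.congr_fun hff' γ
      exact Multiplicative.ofAdd.injective this
    apply Subtype.ext
    have h1 := hc x hx
    rw [hcc] at h1
    exact huniq (c x') x x' h1 (hc x' hx')
  have hfin : Finite {x : JZero N // (m : ℤ) • x = 0} := Finite.of_injective φ hinj
  exact Set.finite_coe_iff.mp hfin

end Fermat.Agent.S30.Fin

end
end
-- ===== PACK-END S30/Fin/Count.lean

-- ===== PACK-BEGIN S29/H332/KummerChar.lean
section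




/-!
# S29 / M4b / K1 — Kummer functions of additive characters `Γ₀(N) → ℤ/m`

For an additive map `c : Γ₀(N) → ZMod m` vanishing on all elements of trace `±2` we package the
character `χ_c(γ) = exp(2πi c(γ)/m)` and the Kummer function `h_c = E^{χ_c}₁₂ / (2Δ)`:

* `h_c ∈ holN N`, `h_c(γτ) = χ_c(γ) h_c(τ)`;
* `h_c ^ m ∈ goodRing N` and its `q`-expansion `kummerExp ^ m` lies in the function field
  `laurentBaseChange ℂ (modularFunctionFieldFull N)` (via helper882's MERO);
* `q`-expansion of `h_c` has order `-1` and leading coefficient `1`.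

The modulus `m ≥ 1` is arbitrary (rows S29: `m = p`; S30: `m = p ^ n`).
-/

set_option autoImplicit false
set_option linter.unusedSectionVars false

noncomputable section

open UpperHalfPlane HahnSeries ModularCurve Complex AlgebraicCurve
open scoped Real MatrixGroups Manifold

namespace Fermat.Agent.S29.H332

open Fermat.Agent.S24 Fermat.Agent.S24.H997 Fermat.Agent.S24.H624 Fermat.Agent.S24.H648

variable {N m : ℕ} [NeZero m]

/-- An additive character `Γ₀(N) → ℤ/m` vanishing on the elements of trace `±2`. -/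
structure IsParAdd (c : CongruenceSubgroup.Gamma0 N → ZMod m) : Prop where
  map_mul : ∀ γ γ' : CongruenceSubgroup.Gamma0 N, c (γ * γ') = c γ + c γ'
  parabolic : ∀ γ : CongruenceSubgroup.Gamma0 N,
    ((γ : SL(2, ℤ)).1.trace = 2 ∨ (γ : SL(2, ℤ)).1.trace = -2) → c γ = 0

namespace IsParAdd

variable {c c' : CongruenceSubgroup.Gamma0 N → ZMod m}

theorem map_one (hc : IsParAdd c) : c 1 = 0 := by
  have h := hc.map_mul 1 1
  rw [mul_one] at h
  exact left_eq_add.mp h

/-- The multiplicative character `γ ↦ exp(2πi c(γ)/m)`. -/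
def char (hc : IsParAdd c) : CongruenceSubgroup.Gamma0 N →* ℂˣ :=
  MonoidHom.toHomUnits
    { toFun := fun γ => ZMod.stdAddChar (c γ)
      map_one' := by rw [hc.map_one, AddChar.map_zero_eq_one]
      map_mul' := fun γ γ' => by rw [hc.map_mul, AddChar.map_add_eq_mul] }

@[simp]
theorem char_apply (hc : IsParAdd c) (γ : CongruenceSubgroup.Gamma0 N) :
    (hc.char γ : ℂ) = ZMod.stdAddChar (c γ) := rfl

theorem norm_char (hc : IsParAdd c) (γ : CongruenceSubgroup.Gamma0 N) :
    ‖(hc.char γ : ℂ)‖ = 1 := by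
  rw [char_apply, ZMod.stdAddChar_apply]
  exact Circle.norm_coe _

theorem char_pow (hc : IsParAdd c) (γ : CongruenceSubgroup.Gamma0 N) : hc.char γ ^ m = 1 := by
  apply Units.ext
  rw [Units.val_pow_eq_pow_val, char_apply, ← AddChar.map_nsmul_eq_pow, Units.val_one]
  have : m • c γ = 0 := by
    rw [nsmul_eq_mul]
    simp
  rw [this, AddChar.map_zero_eq_one]

theorem char_eq_one_iff (hc : IsParAdd c) (γ : CongruenceSubgroup.Gamma0 N) :
    hc.char γ = 1 ↔ c γ = 0 := by
  constructor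
  · intro h
    have h1 : (hc.char γ : ℂ) = 1 := by rw [h, Units.val_one]
    rw [char_apply, ← AddChar.map_zero_eq_one (ZMod.stdAddChar (N := m))] at h1
    exact ZMod.injective_stdAddChar h1
  · intro h
    apply Units.ext
    rw [char_apply, h, AddChar.map_zero_eq_one, Units.val_one]

theorem parTrivial (hc : IsParAdd c) : ParTrivial hc.char := by
  intro γ hγ
  rw [char_eq_one_iff]
  exact hc.parabolic γ hγ

theorem ellTrivial (hc : IsParAdd c)
    (hell : ∀ (γ : CongruenceSubgroup.Gamma0 N) (n : ℕ), 0 < n → γ ^ n = 1 → c γ = 0) :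
    EllTrivial hc.char := by
  intro γ n hn hγ
  rw [char_eq_one_iff]
  exact hell γ n hn hγ

theorem add (hc : IsParAdd c) (hc' : IsParAdd c') : IsParAdd (c + c') where
  map_mul γ γ' := by
    simp only [Pi.add_apply, hc.map_mul, hc'.map_mul]
    abel
  parabolic γ hγ := by
    simp only [Pi.add_apply, hc.parabolic γ hγ, hc'.parabolic γ hγ, add_zero]

theorem char_add (hc : IsParAdd c) (hc' : IsParAdd c') :
    (hc.add hc').char = hc.char * hc'.char := by
  ext γ
  simp [AddChar.map_add_eq_mul]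

variable [NeZero N]

variable (N) in
/-- The Kummer function of an additive parabolic character. -/
def kfun (hc : IsParAdd c) : ℍ → ℂ := kummerFun N hc.char

variable (N) in
/-- Its `q`-expansion at `i∞`. -/
def kexp (hc : IsParAdd c) : LaurentSeries ℂ := kummerExp N hc.char

theorem kfun_mem_holN (hc : IsParAdd c) : hc.kfun N ∈ holN N :=
  kummerFun_mem_holN hc.parTrivial hc.norm_char

theorem kfun_smul (hc : IsParAdd c) (γ : CongruenceSubgroup.Gamma0 N) (τ : ℍ) :
    hc.kfun N ((γ : SL(2, ℤ)) • τ) = ZMod.stdAddChar (c γ) * hc.kfun N τ :=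
  hasCharacter_kummerFun hc.parTrivial γ τ

theorem kfun_pow_mem_goodRing (hc : IsParAdd c) : hc.kfun N ^ m ∈ goodRing N :=
  kummerFun_pow_mem_goodRing hc.parTrivial hc.norm_char hc.char_pow

theorem hasQExp_kfun (hc : IsParAdd c) :
    Fermat.Agent.S24.H708.HasQExp 1 (hc.kfun N) (hc.kexp N) :=
  hasQExp_kummerFun hc.parTrivial hc.norm_char

theorem kexp_order (hc : IsParAdd c) : (hc.kexp N).order = -1 :=
  (kummerExp_eq hc.parTrivial hc.norm_char).1

theorem kexp_leadingCoeff (hc : IsParAdd c) : (hc.kexp N).leadingCoeff = 1 :=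
  (kummerExp_eq hc.parTrivial hc.norm_char).2

theorem kexp_ne_zero (hc : IsParAdd c) : hc.kexp N ≠ 0 :=
  kummerExp_ne_zero hc.parTrivial hc.norm_char

theorem kfun_ne_zero (hc : IsParAdd c) : hc.kfun N ≠ 0 :=
  kummerFun_ne_zero hc.parTrivial hc.norm_char

theorem hasCharacter_kfun (hc : IsParAdd c) : HasCharacter hc.char (hc.kfun N) :=
  hasCharacter_kummerFun hc.parTrivial

/-- **K2 (analytic part)**: local divisibility of the orders of the Kummer function, at a point
with rotation `ε` of finite order (`ε = 1`, `S`, `S * T`), for the coset `g⁻¹ Γ₀(N)` of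
`ε`-period `k`. -/
theorem kfun_dvd_mul_order_of_finite_order (hc : IsParAdd c)
    (hell : ∀ (γ : CongruenceSubgroup.Gamma0 N) (n : ℕ), 0 < n → γ ^ n = 1 → c γ = 0)
    (X : Expansion (holBase N)) {ε : SL(2, ℤ)} (R : RotData (holBase N) X ε)
    {n : ℕ} (hn : 0 < n) (hε : ε ^ n = 1)
    (g : SL(2, ℤ)) (k : ℕ) (hk : g * ε ^ k * g⁻¹ ∈ CongruenceSubgroup.Gamma0 N) :
    (R.m : ℤ) ∣ (k : ℤ) * (X.E ((holBase N).compH g ⟨hc.kfun N, hc.kfun_mem_holN⟩)).order :=
  hc.hasCharacter_kfun.dvd_mul_order_of_finite_order hc.kfun_mem_holN hc.kfun_ne_zero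
    (hc.ellTrivial hell) X R hn hε g k hk

/-- **K2 (analytic part)** at the cusps (`ε = T`). -/
theorem kfun_dvd_mul_order_T (hc : IsParAdd c)
    (X : Expansion (holBase N)) (R : RotData (holBase N) X ModularGroup.T)
    (g : SL(2, ℤ)) (k : ℕ)
    (hk : g * ModularGroup.T ^ k * g⁻¹ ∈ CongruenceSubgroup.Gamma0 N) :
    (R.m : ℤ) ∣ (k : ℤ) * (X.E ((holBase N).compH g ⟨hc.kfun N, hc.kfun_mem_holN⟩)).order :=
  hc.hasCharacter_kfun.dvd_mul_order_T hc.kfun_mem_holN hc.kfun_ne_zero hc.parTrivial X R g k hk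

/-- **K1 + MERO**: the `q`-expansion of `h_c ^ m` lies in the function field of `X₀(N)` over `ℂ`. -/
theorem kexp_pow_mem_FC (hc : IsParAdd c) :
    hc.kexp N ^ m ∈ laurentBaseChange ℂ (modularFunctionFieldFull N) :=
  Fermat.Agent.S29.H882.mem_FC_of_hasQExp hc.kfun_pow_mem_goodRing
    ((hc.hasQExp_kfun).pow m)

end IsParAdd

end Fermat.Agent.S29.H332

end
end
-- ===== PACK-END S29/H332/KummerChar.lean

-- ===== PACK-BEGIN S29/H332/K1.lean
section



/-!
# S29 / M4b — PIECE `K1` (exact skeleton type)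

`exists_isTwisted` : for a parabolic character `c : Γ₀(N) → ℤ/p` (any modulus `p ≥ 1`) there is a
twisted function `U` of character `c`; `U = E^χ₁₂ / (2Δ)`, `χ = ζ_p ^ c`.
-/

set_option autoImplicit false
set_option linter.unusedSectionVars false

noncomputable section

open ModularCurve AlgebraicCurve CongruenceSubgroup UpperHalfPlane
open scoped MatrixGroups Manifold

namespace Fermat.Agent.S29.H332

open Fermat.Agent.S24 Fermat.Agent.S29 Fermat.Agent.S29.M4b

variable {N : ℕ} {p : ℕ} [NeZero p]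

/-- `ζ_p ^ (a.val) = stdAddChar a`. -/
theorem zetaP_pow_val (a : ZMod p) : zetaP p ^ a.val = ZMod.stdAddChar a := by
  have h := ZMod.stdAddChar_coe (N := p) (a.val : ℤ)
  rw [Int.cast_natCast, ZMod.natCast_zmod_val] at h
  rw [h, zetaP, ← Complex.exp_nat_mul]
  congr 1
  push_cast
  ring

/-- A parabolic character in the sense of `DefsM` is one in the sense of `H332`. -/
theorem isParAdd_of_isParHom {c : G0 N → ZMod p} (hc : IsParHom c) : IsParAdd c where
  map_mul := hc.map_mul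
  parabolic := hc.parabolic

variable (N p) in
/-- **PIECE `K1`** of the M4b skeleton (exact type). -/
theorem exists_isTwisted [NeZero N] {c : G0 N → ZMod p} (hc : IsParHom c) :
    ∃ U : ℍ → ℂ, IsTwisted N p c U := by
  have hc' : IsParAdd c := isParAdd_of_isParHom hc
  refine ⟨hc'.kfun N, ?_, ?_, ?_, ?_⟩
  · exact (hc'.kfun_mem_holN).1
  · by_contra hne
    exact hc'.kfun_ne_zero (funext fun τ => by_contra fun h => hne ⟨τ, h⟩)
  · intro γ τ
    rw [zetaP_pow_val]
    exact hc'.kfun_smul γ τ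
  · exact hc'.kfun_pow_mem_goodRing

end Fermat.Agent.S29.H332

end
end
-- ===== PACK-END S29/H332/K1.lean

-- ===== PACK-BEGIN S29/M4b/H822/Basic.lean
section
/-
S29 / M4b (helper822): basic API for the frozen definitions of `M4b/Defs.lean`
(roots of unity, characters, realisations).  Sorry-free.
-/


set_option autoImplicit false

noncomputable section

open ModularCurve AlgebraicCurve CongruenceSubgroup UpperHalfPlane
open scoped MatrixGroups Manifold

namespace Fermat.Agent.S29.M4b.H822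

open Fermat.Agent.S24 Fermat.Agent.S29 Fermat.Agent.S29.M4b

/-! ### The root of unity `zetaP p` -/

theorem isPrimitiveRoot_zetaP (p : ℕ) [NeZero p] : IsPrimitiveRoot (zetaP p) p := by
  unfold zetaP
  exact Complex.isPrimitiveRoot_exp p (NeZero.ne p)

theorem zetaP_pow_self (p : ℕ) [NeZero p] : zetaP p ^ p = 1 :=
  (isPrimitiveRoot_zetaP p).pow_eq_one

theorem zetaP_ne_zero (p : ℕ) [NeZero p] : zetaP p ≠ 0 := by
  unfold zetaP
  exact Complex.exp_ne_zero _

theorem zetaP_pow_val_add (p : ℕ) [NeZero p] (a b : ZMod p) :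
    zetaP p ^ (a + b).val = zetaP p ^ a.val * zetaP p ^ b.val := by
  rw [ZMod.val_add, ← pow_add, ← pow_eq_pow_mod _ (zetaP_pow_self p)]

theorem zetaP_pow_val_eq_one_iff (p : ℕ) [NeZero p] (a : ZMod p) :
    zetaP p ^ a.val = 1 ↔ a = 0 := by
  rw [(isPrimitiveRoot_zetaP p).pow_eq_one_iff_dvd]
  constructor
  · intro h
    have h1 : a.val = 0 := Nat.eq_zero_of_dvd_of_lt h (ZMod.val_lt a)
    exact (ZMod.val_eq_zero a).mp h1
  · rintro rfl
    simp

theorem zetaP_pow_val_zero (p : ℕ) [NeZero p] : zetaP p ^ (0 : ZMod p).val = 1 := by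
  simp

/-! ### Characters -/

theorem hasChar_mul {N p : ℕ} [NeZero p] {c c' : G0 N → ZMod p} {U U' : ℍ → ℂ}
    (h : HasChar N p c U) (h' : HasChar N p c' U') :
    HasChar N p (c + c') (fun τ => U τ * U' τ) := by
  intro γ τ
  show U _ * U' _ = _
  rw [h γ τ, h' γ τ, Pi.add_apply, zetaP_pow_val_add]
  ring

theorem hasChar_pow_invariant {N p : ℕ} [NeZero p] {c : G0 N → ZMod p} {U : ℍ → ℂ}
    (h : HasChar N p c U) (γ : G0 N) (τ : ℍ) :
    U ((γ : SL(2, ℤ)) • τ) ^ p = U τ ^ p := by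
  rw [h γ τ, mul_pow, ← pow_mul, mul_comm (c γ).val p, pow_mul, zetaP_pow_self, one_pow, one_mul]

/-! ### Realisations -/

section Realises

variable {N : ℕ} [NeZero N]

theorem realises_mem {u : FF N} {G : ℍ → ℂ} (h : Realises N u G) : G ∈ H648.goodRing N := h.1

theorem realises_isMerInf {u : FF N} {G : ℍ → ℂ} (h : Realises N u G) : H708.IsMerInf 1 G :=
  H882.isMerInf_of_mem_goodRing h.1

theorem realises_hasQExp {u : FF N} {G : ℍ → ℂ} (h : Realises N u G) :
    H708.HasQExp 1 G (coeffMap Deg457.iotaC ((u : FF N) : LaurentSeries Kbar)) :=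
  ⟨realises_isMerInf h, h.2⟩

theorem realises_of_hasQExp {u : FF N} {G : ℍ → ℂ} (hG : G ∈ H648.goodRing N)
    (h : H708.HasQExp 1 G (coeffMap Deg457.iotaC ((u : FF N) : LaurentSeries Kbar))) :
    Realises N u G :=
  ⟨hG, h.2⟩

theorem realises_mul {u v : FF N} {G H : ℍ → ℂ} (hu : Realises N u G) (hv : Realises N v H) :
    Realises N (u * v) (G * H) := by
  refine realises_of_hasQExp ((H648.goodRing N).mul_mem hu.1 hv.1) ?_
  have := (realises_hasQExp hu).mul (realises_hasQExp hv)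
  simpa using this

theorem realises_pow {u : FF N} {G : ℍ → ℂ} (hu : Realises N u G) (n : ℕ) :
    Realises N (u ^ n) (G ^ n) := by
  refine realises_of_hasQExp ((H648.goodRing N).pow_mem hu.1 n) ?_
  have := (realises_hasQExp hu).pow n
  simpa using this

theorem coeffMap_iotaC_injective :
    Function.Injective (coeffMap Deg457.iotaC : LaurentSeries Kbar → LaurentSeries ℂ) := by
  intro x y h
  ext n
  have h1 := congrArg (fun z : LaurentSeries ℂ => z.coeff n) h
  simp only [coeffMap] at h1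
  exact Deg457.iotaC.injective (by simpa using h1)

/-- A realisation of a nonzero element is not the zero function. -/
theorem realises_ne_zero {u : FF N} {G : ℍ → ℂ} (h : Realises N u G) (hu : u ≠ 0) : G ≠ 0 := by
  intro hG
  have h1 := ((realises_hasQExp h).eq_zero_iff).mpr hG
  have h2 : ((u : FF N) : LaurentSeries Kbar) = 0 :=
    coeffMap_iotaC_injective (by rw [h1, map_zero])
  exact hu (Subtype.ext h2)

/-- The realised element is determined by the function. -/
theorem realises_unique_left {u v : FF N} {G : ℍ → ℂ} (hu : Realises N u G)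
    (hv : Realises N v G) : u = v := by
  apply Subtype.ext
  apply coeffMap_iotaC_injective
  rw [← hu.2, ← hv.2]

/-- The function is determined by the realised element. -/
theorem realises_unique_right {u : FF N} {G H : ℍ → ℂ} (hG : Realises N u G)
    (hH : Realises N u H) : G = H :=
  (realises_hasQExp hG).eq_of_eq (realises_hasQExp hH)

/-- Every element of the polynomial ring `ℚ̄[j(q^d) : d ∣ N]` is realised by a good function. -/
theorem exists_realises_of_mem_AK {a : FF N}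
    (ha : ((a : FF N) : LaurentSeries Kbar) ∈ Deg457.AK Kbar N) :
    ∃ G : ℍ → ℂ, Realises N a G := by
  have h1 := Deg457.coeffMap_mem_AK Deg457.iotaC ha
  obtain ⟨G, hG, hq⟩ := H882.AK_le_goodQ N h1
  exact ⟨G, hG, hq.2⟩

end Realises

end Fermat.Agent.S29.M4b.H822

end
end
-- ===== PACK-END S29/M4b/H822/Basic.lean

-- ===== PACK-BEGIN S29/H150/K2Hol.lean
section
/-
S29 / M4b / piece K2 (helper150), part 1: analytic preparation.

* `k2Char hc` : the multiplicative character `γ ↦ ζ_p ^ c(γ)` of a parabolic hom `c`;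
* `mem_holN_of_isTwisted` : a twisted function (M4b `IsTwisted`) lies in the S24 ring `holN N`;
* `qexp_eq_qExpand` : the S24 expansion in `q^{1/N}` of a function with `q`-expansion `φ`
  is `φ(z^N)`;
* `sigmaG_eq_of_qexp` : the S24 embedding `σ_g` of `u ∈ FF N` is the expansion of `G ∘ g⁻¹`
  for every `G ∈ holN N` with the `q`-expansion of `u`.
-/







set_option autoImplicit false
set_option linter.unusedSectionVars false

noncomputable section

open ModularCurve AlgebraicCurve CongruenceSubgroup UpperHalfPlane HahnSeries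
open scoped MatrixGroups Manifold

namespace Fermat.Agent.S29.H150

open Fermat.Agent.S24 Fermat.Agent.S24.H997 Fermat.Agent.S29 Fermat.Agent.S29.M4b

local notation "Δ" => ModularForm.discriminant

variable {N : ℕ} [NeZero N] {p : ℕ} [NeZero p]

/-! ### The character `ζ_p ^ c` -/

theorem k2_map_one {c : G0 N → ZMod p} (hc : IsParHom c) : c 1 = 0 := by
  have h := hc.map_mul 1 1
  rw [mul_one] at h
  have h2 : c 1 + 0 = c 1 + c 1 := by rw [add_zero]; exact h
  exact (add_left_cancel h2).symm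

/-- The multiplicative character `γ ↦ ζ_p ^ c(γ)`. -/
def k2Char {c : G0 N → ZMod p} (hc : IsParHom c) : Gamma0 N →* ℂˣ where
  toFun γ := Units.mk0 (zetaP p ^ (c γ).val) (pow_ne_zero _ (H822.zetaP_ne_zero p))
  map_one' := by
    apply Units.ext
    show zetaP p ^ (c 1).val = 1
    rw [k2_map_one hc, ZMod.val_zero, pow_zero]
  map_mul' γ γ' := by
    apply Units.ext
    show zetaP p ^ (c (γ * γ')).val = zetaP p ^ (c γ).val * zetaP p ^ (c γ').val
    rw [hc.map_mul, H822.zetaP_pow_val_add]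

theorem k2Char_coe {c : G0 N → ZMod p} (hc : IsParHom c) (γ : Gamma0 N) :
    ((k2Char hc γ : ℂˣ) : ℂ) = zetaP p ^ (c γ).val := rfl

theorem k2Char_eq_one_of {c : G0 N → ZMod p} (hc : IsParHom c) {γ : Gamma0 N} (h : c γ = 0) :
    k2Char hc γ = 1 := by
  apply Units.ext
  rw [k2Char_coe, h, ZMod.val_zero, pow_zero, Units.val_one]

theorem k2Char_parTrivial {c : G0 N → ZMod p} (hc : IsParHom c) :
    H332.ParTrivial (k2Char hc) := fun γ hγ => k2Char_eq_one_of hc (hc.parabolic γ hγ)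

theorem k2Char_ellTrivial {c : G0 N → ZMod p} (hc : IsParHom c) :
    H332.EllTrivial (k2Char hc) := fun γ n hn hγ => k2Char_eq_one_of hc (hc.elliptic γ n hn hγ)

theorem hasCharacter_of_hasChar {c : G0 N → ZMod p} (hc : IsParHom c) {U : ℍ → ℂ}
    (hU : HasChar N p c U) : H332.HasCharacter (k2Char hc) U := fun γ τ => by
  rw [k2Char_coe]
  exact hU γ τ

/-! ### Twisted functions lie in `holN N` -/

omit [NeZero N] in
theorem norm_le_one_add_norm_pow (x : ℂ) : ‖x‖ ≤ 1 + ‖x ^ p‖ := by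
  rw [norm_pow]
  rcases le_or_gt ‖x‖ 1 with h | h
  · have : 0 ≤ ‖x‖ ^ p := pow_nonneg (norm_nonneg x) p
    linarith
  · have h1 : ‖x‖ ≤ ‖x‖ ^ p := le_self_pow₀ h.le (NeZero.ne p)
    linarith

omit [NeZero N] in
theorem exists_bdd_of_expGrowth_pow {U : ℍ → ℂ} (g : SL(2, ℤ))
    (h : H648.ExpGrowth (fun τ => U (g • τ) ^ p)) :
    ∃ m : ℕ, IsBoundedAtImInfty (fun τ => Δ τ ^ m * compSL g U τ) := by
  obtain ⟨C, m, hC⟩ := h
  refine ⟨m, ?_⟩
  have hb : IsBoundedAtImInfty (fun τ => compSL g U τ * Δ τ ^ m) := by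
    apply H108.isBoundedAtImInfty_mul_discriminant_pow_of_exp_growth
    refine ⟨1 + |C|, 1, fun τ hτ => ?_⟩
    have h1 := hC τ hτ
    have h2 := norm_le_one_add_norm_pow (p := p) (U (g • τ))
    have he : 1 ≤ Real.exp (2 * Real.pi * m * τ.im) := by
      apply Real.one_le_exp
      have := τ.im_pos
      have := Real.pi_pos
      positivity
    have h3 : C * Real.exp (2 * Real.pi * m * τ.im) ≤ |C| * Real.exp (2 * Real.pi * m * τ.im) :=
      mul_le_mul_of_nonneg_right (le_abs_self C) (Real.exp_pos _).le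
    show ‖U (g • τ)‖ ≤ _
    calc ‖U (g • τ)‖ ≤ 1 + ‖U (g • τ) ^ p‖ := h2
      _ ≤ 1 + |C| * Real.exp (2 * Real.pi * m * τ.im) := by linarith
      _ ≤ Real.exp (2 * Real.pi * m * τ.im) + |C| * Real.exp (2 * Real.pi * m * τ.im) := by
          linarith
      _ = (1 + |C|) * Real.exp (2 * Real.pi * m * τ.im) := by ring
  have : (fun τ => Δ τ ^ m * compSL g U τ) = fun τ => compSL g U τ * Δ τ ^ m := by
    funext τ; ring
  rw [this]
  exact hb

/-- A twisted function lies in the S24 ring `holN N`. -/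
theorem mem_holN_of_isTwisted {c : G0 N → ZMod p} (hc : IsParHom c) {U : ℍ → ℂ}
    (hU : IsTwisted N p c U) : U ∈ holN N := by
  refine ⟨hU.mdiff, fun g => ?_⟩
  obtain ⟨m, hm⟩ := exists_bdd_of_expGrowth_pow (p := p) g (hU.pow_mem.2.2 g)
  exact (hasCharacter_of_hasChar hc hU.hasChar).compSL_mem_expRing (k2Char_parTrivial hc)
    hU.mdiff m g hm

omit [NeZero N] [NeZero p] in
theorem ne_zero_of_isTwisted {c : G0 N → ZMod p} {U : ℍ → ℂ}
    (hU : IsTwisted N p c U) : U ≠ 0 := by
  obtain ⟨τ, hτ⟩ := hU.ne_zero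
  intro h
  exact hτ (by rw [h]; rfl)

/-! ### Comparison of expansions -/

omit [NeZero N] in
theorem infExp_one_of_hasQExp {f : ℍ → ℂ} {φ : LaurentSeries ℂ} (h : H708.HasQExp 1 f φ) :
    InfExp 1 f φ := fun τ => by
  have := h.hasSum τ
  exact this

theorem infExp_of_hasQExp_one {f : ℍ → ℂ} {φ : LaurentSeries ℂ} (h : H708.HasQExp 1 f φ) :
    InfExp N f (qExpand ℂ N φ) := by
  have h1 : InfExp 1 f φ := infExp_one_of_hasQExp h
  have h2 := h1.subst (N := N) (fun τ => τ) 1 N (fun τ => by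
    rw [Units.val_one, one_mul, infZ_def, infZ_def, ← Complex.exp_nat_mul]
    congr 1
    have hN : (N : ℂ) ≠ 0 := by exact_mod_cast NeZero.ne N
    push_cast
    field_simp)
  rwa [infTwist_one] at h2

/-- The S24 expansion (in `q^{1/N}`) of an element of `holN N` with `q`-expansion `φ`. -/
theorem qexp_eq_qExpand {f : ℍ → ℂ} (hf : f ∈ holN N) {φ : LaurentSeries ℂ}
    (h : H708.HasQExp 1 f φ) :
    (holBase N).qexp ⟨f, hf⟩ = qExpand ℂ N φ :=
  (expInf_spec (holToExp N ⟨f, hf⟩)).unique (infExp_of_hasQExp_one h)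

/-- The S24 expansion of an analytic realisation of `u ∈ FF N`. -/
theorem qexp_eq_Φ_of_realises {u : FF N} {G : ℍ → ℂ} (hG : G ∈ holN N)
    (hu : Realises N u G) :
    (holBase N).qexp ⟨G, hG⟩ = HolBase.Φ N ((u : FF N) : LaurentSeries Kbar) :=
  qexp_eq_qExpand hG (H822.realises_hasQExp hu)

/-! ### The embeddings `σ_g` on realised elements -/

/-- If `G ∈ holN N` has the `q`-expansion of `u ∈ FF N`, then `σ_g u` is the expansion of
`G ∘ g⁻¹`, for every S24 expansion `X` and every `g ∈ SL₂(ℤ)`. -/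
theorem sigmaG_eq_of_qexp (X : Expansion (holBase N)) (g : SL(2, ℤ)) {u : FF N} {G : ℍ → ℂ}
    (hG : G ∈ holN N)
    (hq : (holBase N).qexp ⟨G, hG⟩ = HolBase.Φ N ((u : FF N) : LaurentSeries Kbar)) :
    (holBase N).sigmaG X g u = X.E ((holBase N).compH g⁻¹ ⟨G, hG⟩) := by
  obtain ⟨r, t, ht, rfl⟩ := exists_div_inclRN N u
  have ht' : (holBase N).bridge t ≠ 0 := fun h0 =>
    ht ((holBase N).bridge_injective (h0.trans (map_zero _).symm))
  have key : (⟨G, hG⟩ : (holBase N).Hol) * (holBase N).bridge t = (holBase N).bridge r := by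
    apply (holBase N).qexp_injective
    rw [map_mul, hq, HolBase.qexp_bridge, HolBase.qexp_bridge]
    have h1 : (((inclRN N r / inclRN N t : FF N) : FF N) : LaurentSeries Kbar)
        = (r : LaurentSeries Kbar) / (t : LaurentSeries Kbar) := rfl
    rw [h1, map_div₀]
    have h2 : HolBase.Φ N (t : LaurentSeries Kbar) ≠ 0 := by
      rw [← HolBase.qexp_bridge (holBase N)]
      intro h0
      exact ht' ((holBase N).qexp_injective (h0.trans (map_zero _).symm))
    exact div_mul_cancel₀ _ h2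
  have hE : X.E ((holBase N).compH g⁻¹ ((holBase N).bridge t)) ≠ 0 := by
    intro h0
    have h1 := X.inj (h0.trans (map_zero _).symm)
    exact ht' ((holBase N).compH_injective g⁻¹ (h1.trans (map_zero _).symm))
  rw [map_div₀, HolBase.sigmaG_inclRN, HolBase.sigmaG_inclRN, ← key, map_mul, map_mul,
    mul_div_assoc, div_self hE, mul_one]

end Fermat.Agent.S29.H150

end
end
-- ===== PACK-END S29/H150/K2Hol.lean

-- ===== PACK-BEGIN S29/M4b/Top.lean
section
/-
S29 row, LAYER M, SUB-LAYER M4b (the Kummer map) — TOP ASSEMBLY over the seven pieces of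
helper822's sub-skeleton (`origin/helper822:Fermat/Agent/S29/M4b/Skeleton.lean`), with the pieces
as `Prop`s (row-lead helper269; the assembly proof is helper822's `exists_kummerMap_of`).

A piece is DONE when it proves one of the `Prop`s `PieceK1 N p`, ..., `PieceHecke N p` below
(they are the EXACT statements of the skeleton, for a fixed level `N` and modulus `p`).

`M4b_of_pieces` : the seven pieces for `(N, p)`, `p` prime ⟹ the Kummer bridge for `(N, p)`;
`M4bStatement_of_pieces` : the seven pieces for all `N` and all primes `p` ⟹ `M4bStatement`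
(the `Prop` of `Fermat/Agent/S29/Parts.lean` consumed by `Main.S29_of_parts`).
The two group-theoretic facts about Hecke factorisations come from the landed `H149/HCoh.lean`.
-/




set_option autoImplicit false

noncomputable section

open ModularCurve AlgebraicCurve CongruenceSubgroup UpperHalfPlane
open scoped MatrixGroups Manifold

namespace Fermat.Agent.S29.M4b

open Fermat.Agent.S24 Fermat.Agent.S29

section Pieces

variable (N : ℕ) [NeZero N] (p : ℕ)

/-- PIECE `K1` (twisted Eisenstein series). -/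
def PieceK1 : Prop :=
  ∀ {c : G0 N → ZMod p}, IsParHom c → ∃ U : ℍ → ℂ, IsTwisted N p c U

/-- PIECE `K3` (descent `ℂ → ℚ̄`). -/
def PieceK3 : Prop :=
  ∀ {c : G0 N → ZMod p}, IsParHom c → ∀ {U : ℍ → ℂ}, IsTwisted N p c U →
    ∃ (U' : ℍ → ℂ) (u : FF N), IsTwisted N p c U' ∧ Realises N u (fun τ => U' τ ^ p)

/-- PIECE `K2` (dictionary over `ℚ̄`). -/
def PieceK2 : Prop :=
  ∀ {c : G0 N → ZMod p}, IsParHom c → ∀ {U : ℍ → ℂ} {u : FF N}, IsTwisted N p c U →
    Realises N u (fun τ => U τ ^ p) → ∃ x : JZero N, H455.IsKummerClass (p : ℤ) u x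

/-- PIECE `K4-UNIQ`. -/
def PieceUniq : Prop :=
  ∀ {c : G0 N → ZMod p} {x x' : JZero N}, IsKum N p c x → IsKum N p c x' → x = x'

/-- PIECE `K4-INJ`. -/
def PieceInj : Prop :=
  ∀ {c : G0 N → ZMod p}, IsKum N p c (0 : JZero N) → c = 0

/-- PIECE `K4-ADD`. -/
def PieceAdd : Prop :=
  ∀ {c c' : G0 N → ZMod p} {x x' : JZero N},
    IsKum N p c x → IsKum N p c' x' → IsKum N p (c + c') (x + x')

/-- PIECE `K4-HECKE`. -/
def PieceHecke : Prop :=
  ∀ (ℓ : Nat.Primes), ¬ (ℓ : ℕ) ∣ N * p →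
    (∀ γ : G0 N, ∃ (π : Equiv.Perm (Option (Fin (ℓ : ℕ)))) (δ : Option (Fin (ℓ : ℕ)) → G0 N),
      ∀ i, IsHeckeFactor (ℓ : ℕ) γ i (π i, δ i)) →
    ∀ {c c' : G0 N → ZMod p}, IsParHom c → IsTransfer N (ℓ : ℕ) c c' →
      ∀ {x : JZero N}, IsKum N p c x → IsKum N p c' (heckeOperatorBar N ℓ x)

end Pieces

section Assembly

variable {N : ℕ} [NeZero N] {p : ℕ}

theorem top_isKum_exists (h1 : PieceK1 N p) (h3 : PieceK3 N p) (h2 : PieceK2 N p)
    {c : G0 N → ZMod p} (hc : IsParHom c) : ∃ x : JZero N, IsKum N p c x := by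
  obtain ⟨U, hU⟩ := h1 hc
  obtain ⟨U', u, hU', hu⟩ := h3 hc hU
  obtain ⟨x, hx⟩ := h2 hc hU' hu
  refine ⟨x, u, 1, U', one_ne_zero, hx, hU', ?_⟩
  simpa using hu

theorem top_isKum_mem_Jp {c : G0 N → ZMod p} {x : JZero N} (h : IsKum N p c x) :
    x ∈ Jp N p := by
  obtain ⟨f, t, U, -, hx, -, -⟩ := h
  rw [Submodule.mem_torsionBy_iff]
  exact hx.zsmul_eq_zero

open Classical in
/-- The Kummer map: `κ c` is THE Kummer class of `c` (and `0` if there is none). -/
def topKummerMap (N : ℕ) [NeZero N] (p : ℕ) (c : G0 N → ZMod p) : Jp N p :=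
  if h : ∃ x : JZero N, IsKum N p c x then ⟨h.choose, top_isKum_mem_Jp h.choose_spec⟩ else 0

theorem top_isKum_kummerMap (h1 : PieceK1 N p) (h3 : PieceK3 N p) (h2 : PieceK2 N p)
    {c : G0 N → ZMod p} (hc : IsParHom c) :
    IsKum N p c (topKummerMap N p c : JZero N) := by
  have h := top_isKum_exists h1 h3 h2 hc
  rw [topKummerMap, dif_pos h]
  exact h.choose_spec

theorem top_kummerMap_eq (hu : PieceUniq N p) {c : G0 N → ZMod p} {x : JZero N}
    (h : IsKum N p c x) : (topKummerMap N p c : JZero N) = x := by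
  have h' : ∃ x : JZero N, IsKum N p c x := ⟨x, h⟩
  rw [topKummerMap, dif_pos h']
  exact hu h'.choose_spec h

/-- The transfer of `c` is `heckeCoh N ℓ c` (`ℓ ∤ N` prime). -/
theorem top_isTransfer_heckeCoh {ℓ : ℕ} (hℓ : ℓ.Prime) (hℓN : ¬ ℓ ∣ N) (c : G0 N → ZMod p) :
    IsTransfer N ℓ c (heckeCoh N ℓ c) := by
  intro γ π δ hfac
  unfold heckeCoh
  refine Finset.sum_congr rfl fun i _ => ?_
  rw [H149.HCoh_heckeFac_unique hℓ hℓN (hfac i)]

/-- Existence of the Hecke factorisation, with the index map a permutation. -/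
theorem top_exists_factor {ℓ : ℕ} (hℓ : ℓ.Prime) (hℓN : ¬ ℓ ∣ N) (γ : G0 N) :
    ∃ (π : Equiv.Perm (Option (Fin ℓ))) (δ : Option (Fin ℓ) → G0 N),
      ∀ i, IsHeckeFactor ℓ γ i (π i, δ i) :=
  ⟨H149.HCoh_perm (H149.HCoh_isFactorSystem hℓ hℓN) γ, fun i => (heckeFac N ℓ γ i).2,
    fun i => H149.HCoh_heckeFac_spec hℓ hℓN γ i⟩

/-- **Output of sub-layer M4b** for a fixed level and modulus, from the seven pieces. -/
theorem M4b_of_pieces (N : ℕ) [NeZero N] (p : ℕ)
    (h1 : PieceK1 N p) (h3 : PieceK3 N p) (h2 : PieceK2 N p) (hu : PieceUniq N p)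
    (hi : PieceInj N p) (ha : PieceAdd N p) (hh : PieceHecke N p) :
    ∃ κ : (G0 N → ZMod p) → Jp N p,
      (∀ c c', IsParHom c → IsParHom c' → κ (c + c') = κ c + κ c') ∧
      (∀ c, IsParHom c → κ c = 0 → c = 0) ∧
      (∀ ℓ : Nat.Primes, ¬ (ℓ : ℕ) ∣ N * p → ∀ c, IsParHom c →
        κ (heckeCoh N ℓ c) = heckeJp N p ℓ (κ c)) := by
  refine ⟨topKummerMap N p, fun c c' hc hc' => ?_, fun c hc h0 => ?_, fun ℓ hℓ c hc => ?_⟩
  · apply Subtype.ext
    rw [Submodule.coe_add]
    exact top_kummerMap_eq hu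
      (ha (top_isKum_kummerMap h1 h3 h2 hc) (top_isKum_kummerMap h1 h3 h2 hc'))
  · have h := top_isKum_kummerMap h1 h3 h2 hc
    rw [h0] at h
    exact hi h
  · apply Subtype.ext
    rw [coe_heckeJp]
    have hℓN : ¬ (ℓ : ℕ) ∣ N := fun h => hℓ (Dvd.dvd.mul_right h p)
    exact top_kummerMap_eq hu (hh ℓ hℓ (top_exists_factor ℓ.2 hℓN) hc
      (top_isTransfer_heckeCoh ℓ.2 hℓN c) (top_isKum_kummerMap h1 h3 h2 hc))

/-- The seven pieces for all levels and all PRIME moduli give `M4bStatement`. -/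
theorem M4bStatement_of_pieces
    (h1 : ∀ (N : ℕ) [NeZero N] (p : ℕ), p.Prime → PieceK1 N p)
    (h3 : ∀ (N : ℕ) [NeZero N] (p : ℕ), p.Prime → PieceK3 N p)
    (h2 : ∀ (N : ℕ) [NeZero N] (p : ℕ), p.Prime → PieceK2 N p)
    (hu : ∀ (N : ℕ) [NeZero N] (p : ℕ), p.Prime → PieceUniq N p)
    (hi : ∀ (N : ℕ) [NeZero N] (p : ℕ), p.Prime → PieceInj N p)
    (ha : ∀ (N : ℕ) [NeZero N] (p : ℕ), p.Prime → PieceAdd N p)
    (hh : ∀ (N : ℕ) [NeZero N] (p : ℕ), p.Prime → PieceHecke N p) :
    M4bStatement := by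
  intro N _ p hp
  exact M4b_of_pieces N p (h1 N p hp.out) (h3 N p hp.out) (h2 N p hp.out) (hu N p hp.out)
    (hi N p hp.out) (ha N p hp.out) (hh N p hp.out)

end Assembly

end Fermat.Agent.S29.M4b

end
end
-- ===== PACK-END S29/M4b/Top.lean

-- ===== PACK-BEGIN S29/M4b/K3/Defs.lean
section
/-
S29 row, LAYER M, SUB-LAYER M4b, PIECE K3 (descent `ℂ → ℚ̄`) — interface definitions of the
K3 sub-skeleton (helper42, squad-lead S29/S42).  Namespace `Fermat.Agent.S29.M4b.K3`.

K3 (`exists_realised_isTwisted` of `M4b/Skeleton.lean`) is PROVED in `M4b/K3/Top.lean` from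
* `H152.desc_main` (helper152; places-free descent of Kummer classes),
* the landed ROOT lemma `H751.exists_pow_eq_UHP`, MERO `H882`, and
* the two `Prop`s below: `DegStatement` (bounded degree of `F_ℂ` over `ℂ(j)`) and `FinStatement`
  (finiteness of the `Aut(ℂ/ℚ̄)`-orbit of the Kummer class of a twisted function).
-/


set_option autoImplicit false

noncomputable section

open ModularCurve AlgebraicCurve CongruenceSubgroup UpperHalfPlane
open scoped MatrixGroups Manifold

namespace Fermat.Agent.S29.M4b.K3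

open Fermat.Agent.S24 Fermat.Agent.S24.H648 Fermat.Agent.S24.H708 Fermat.Agent.S24.Deg457
open Fermat.Agent.S29 Fermat.Agent.S29.M4b

/-- `ℂ` as an algebra over `ℚ̄` along the fixed embedding `Deg457.iotaC`.  (A `def`, not an
instance: use `letI := algKC`.) -/
@[reducible] def algKC : Algebra Kbar ℂ := iotaC.toAlgebra

/-- The function field of `X₀(N)` over `ℂ` inside `ℂ((q))` (Prelude object). -/
abbrev FC (N : ℕ) : IntermediateField ℂ (LaurentSeries ℂ) :=
  laurentBaseChange ℂ (modularFunctionFieldFull N)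

/-- SUB-PIECE `K3-DEG`: the function field `F_ℂ = ℂ(j(q^d) : d ∣ N)` has bounded degree over
`ℂ(j)` (every element is a root of a polynomial of degree `≤ n` over `ℂ(j)`).
Exactly the hypothesis `hdeg` of `H152.desc_main`. -/
def DegStatement (N : ℕ) : Prop :=
  ∃ n : ℕ, ∀ u ∈ FC N,
    IsIntegral (IntermediateField.adjoin ℂ {coeffEmb ℂ jq}) u ∧
      (minpoly (IntermediateField.adjoin ℂ {coeffEmb ℂ jq}) u).natDegree ≤ n

/-- SUB-PIECE `K3-FIN` (the arithmetic heart of K3): for a twisted function `U` of a parabolic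
character, the `Aut(ℂ/ℚ̄)`-orbit of the class of `f = qexp (U ^ p)` in `F_ℂˣ / (F_ℂˣ) ^ p` is
finite.  Exactly the hypothesis `horb` of `H152.desc_main`.

Why true: `p ∣ ord_w f` at every place `w` of `F_ℂ/ℂ` (K2 over `ℂ`); `σ` permutes the places, so
the same holds for `σ f`, which is again the `q`-expansion of a good function `G_σ` (`σ f` is
integral over `ℂ[j]`); by the easy half of the dictionary `p ∣ ord_τ G_σ` for all `τ ∈ ℍ`, so
`G_σ = U_σ ^ p` (ROOT) and `U_σ` has a character `χ_σ : Γ₀(N) → μ_p`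
(`H751.exists_character_of_pow_eq`); there are finitely many characters (`Γ₀(N)` is finitely
generated), and `χ_σ = χ_σ'` implies `σ f / σ' f = (U_σ U_σ' ^ (p-1) / G_σ') ^ p ∈ (F_ℂˣ) ^ p`
(MERO applied to the good invariant function `U_σ U_σ' ^ (p-1)`). -/
def FinStatement (N p : ℕ) : Prop :=
  letI := algKC
  ∀ (c : G0 N → ZMod p), IsParHom c → ∀ U : ℍ → ℂ, IsTwisted N p c U →
    ∃ T : Set (LaurentSeries ℂ), T.Finite ∧ ∀ σ : ℂ ≃ₐ[Kbar] ℂ, ∃ t ∈ T,
      ∃ u ∈ FC N, u ≠ 0 ∧
        coeffMap (σ : ℂ →+* ℂ) (qexpFun 1 (fun τ => U τ ^ p)) = t * u ^ p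

end Fermat.Agent.S29.M4b.K3

end
end
-- ===== PACK-END S29/M4b/K3/Defs.lean

-- ===== PACK-BEGIN S29/M4b/K3/Basic.lean
section
/-
S29 row, M4b, piece K3 — basic lemmas for the top assembly (helper42).

* `isMerInf_of_isTwisted` : a twisted function of a parabolic character has a `q`-expansion at `i∞`.
* `exists_div_AK`, `exists_div_goodQ` : elements of the function fields over `ℚ̄` / `ℂ` are
  quotients of polynomials in the `j(q^d)` / of `q`-expansions of good functions.
* `hasChar_of_mul_eq` : transport of the character along `U' * B = ζ * U * A`.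
-/



set_option autoImplicit false

noncomputable section

open ModularCurve AlgebraicCurve CongruenceSubgroup UpperHalfPlane
open scoped MatrixGroups Manifold

namespace Fermat.Agent.S29.M4b.K3

open Fermat.Agent.S24 Fermat.Agent.S24.H648 Fermat.Agent.S24.H708 Fermat.Agent.S24.Deg457
open Fermat.Agent.S24.H624
open Fermat.Agent.S29 Fermat.Agent.S29.M4b

variable {N : ℕ} [NeZero N] {p : ℕ} [NeZero p]

/-- The translation `T` as an element of `Γ₀(N)`. -/
def TG (N : ℕ) : G0 N := ⟨ModularGroup.T, H882.T_mem_Gamma0 N⟩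

omit [NeZero N] in
theorem trace_TG : (TG N).mat.trace = 2 := by
  simp [TG, G0.mat, ModularGroup.T, Matrix.trace_fin_two]

omit [NeZero N] [NeZero p] in
/-- A twisted function of a parabolic character is `1`-periodic. -/
theorem periodic_of_isTwisted {c : G0 N → ZMod p} (hc : IsParHom c) {U : ℍ → ℂ}
    (hU : HasChar N p c U) : Function.Periodic (U ∘ ofComplex) (1 : ℝ) := by
  have hT : ∀ τ : ℍ, U (ModularGroup.T • τ) = U τ := by
    intro τ
    have h := hU (TG N) τ
    rw [hc.parabolic (TG N) (Or.inl trace_TG)] at h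
    simpa [TG] using h
  intro w
  by_cases hw : 0 < Complex.im w
  · have hw' : 0 < Complex.im (w + ((1 : ℝ) : ℂ)) := by simpa using hw
    simp only [Function.comp_apply, ofComplex_apply_of_im_pos hw', ofComplex_apply_of_im_pos hw]
    rw [← hT ⟨w, hw⟩]
    congr 1
    apply UpperHalfPlane.ext
    rw [UpperHalfPlane.modular_T_smul, UpperHalfPlane.coe_vadd]
    simp [add_comm]
  · have hw0 : Complex.im w ≤ 0 := not_lt.mp hw
    have hw' : Complex.im (w + ((1 : ℝ) : ℂ)) ≤ 0 := by simpa using hw0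
    simp only [Function.comp_apply]
    rw [ofComplex_apply_of_im_nonpos hw', ofComplex_apply_of_im_nonpos hw0]

omit [NeZero N] in
/-- If `U ^ p` has at most exponential growth, so has `U`. -/
theorem expGrowth_of_pow {U : ℍ → ℂ} (h : ExpGrowth (fun τ => U τ ^ p)) : ExpGrowth U := by
  obtain ⟨C, m, hC⟩ := h
  refine ⟨1 + |C|, m, fun τ hτ => ?_⟩
  have h1 := hC τ hτ
  rw [norm_pow] at h1
  have hp : p ≠ 0 := NeZero.ne p
  have hexp : (1 : ℝ) ≤ Real.exp (2 * Real.pi * m * τ.im) := by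
    apply Real.one_le_exp
    have := Real.pi_pos
    have := τ.im_pos
    positivity
  by_cases hle : ‖U τ‖ ≤ 1
  · calc ‖U τ‖ ≤ 1 := hle
      _ ≤ (1 + |C|) * 1 := by have := abs_nonneg C; linarith
      _ ≤ (1 + |C|) * Real.exp (2 * Real.pi * m * τ.im) := by
          apply mul_le_mul_of_nonneg_left hexp
          have := abs_nonneg C; linarith
  · have hgt : 1 ≤ ‖U τ‖ := (not_le.mp hle).le
    have h2 : ‖U τ‖ ≤ ‖U τ‖ ^ p := le_self_pow₀ hgt hp
    calc ‖U τ‖ ≤ ‖U τ‖ ^ p := h2
      _ ≤ C * Real.exp (2 * Real.pi * m * τ.im) := h1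
      _ ≤ (1 + |C|) * Real.exp (2 * Real.pi * m * τ.im) := by
          apply mul_le_mul_of_nonneg_right _ (Real.exp_pos _).le
          have := le_abs_self C; linarith

omit [NeZero N] in
/-- **K3a**: a twisted function of a parabolic character is meromorphic at `i∞` in `q`. -/
theorem isMerInf_of_isTwisted {c : G0 N → ZMod p} (hc : IsParHom c) {U : ℍ → ℂ}
    (hU : IsTwisted N p c U) : IsMerInf 1 U := by
  refine ⟨hU.mdiff, ?_, ?_⟩
  · have := periodic_of_isTwisted hc hU.hasChar
    simpa using this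
  · obtain ⟨-, -, h3⟩ := hU.pow_mem
    have h := h3 1
    simp only [one_smul] at h
    exact H882.isBounded_mul_qh_pow_of_expGrowth (expGrowth_of_pow h)

/-! ### Quotient presentations -/

section Quot

variable (K : Type*) [Field K] [Algebra ℚ K]

omit [NeZero N] in
/-- The polynomials in the `j(q^d)` lie in the function field. -/
theorem AK_le_laurentBaseChange (N : ℕ) :
    AK K N ≤ (laurentBaseChange K (modularFunctionFieldFull N)).toSubalgebra := by
  refine Algebra.adjoin_le ?_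
  rintro _ ⟨y, hy, rfl⟩
  exact coeffEmb_mem_laurentBaseChange K (IntermediateField.subset_adjoin ℚ _ hy)

omit [NeZero N] in
/-- Every element of the function field is a quotient of two polynomials in the `j(q^d)`. -/
theorem exists_div_AK (N : ℕ) {x : LaurentSeries K}
    (hx : x ∈ laurentBaseChange K (modularFunctionFieldFull N)) :
    ∃ r ∈ AK K N, ∃ s ∈ AK K N, s ≠ 0 ∧ x = r / s := by
  have h := laurentBaseChange_full_le (K := K) N hx
  rw [IntermediateField.mem_adjoin_iff_div] at h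
  obtain ⟨r, hr, s, hs, rfl⟩ := h
  by_cases hs0 : s = 0
  · refine ⟨0, zero_mem _, 1, one_mem _, one_ne_zero, ?_⟩
    rw [hs0, div_zero, zero_div]
  · exact ⟨r, hr, s, hs, hs0, rfl⟩

end Quot

/-- Every element of `F_ℂ` is a quotient of `q`-expansions of good functions. -/
theorem exists_div_goodQ {x : LaurentSeries ℂ} (hx : x ∈ FC N) :
    ∃ a ∈ H882.goodQ N, ∃ b ∈ H882.goodQ N, b ≠ 0 ∧ x = a / b := by
  obtain ⟨r, hr, s, hs, hs0, h⟩ := exists_div_AK ℂ N hx
  exact ⟨r, H882.AK_le_goodQ N hr, s, H882.AK_le_goodQ N hs, hs0, h⟩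

/-! ### Transport of the character -/

omit [NeZero N] [NeZero p] in
/-- If `U' * B = ζ * (U * A)` with `A`, `B` invariant under `Γ₀(N)`, `B ≠ 0`, all functions
holomorphic, and `U` has character `c`, then `U'` has character `c`. -/
theorem hasChar_of_mul_eq {c : G0 N → ZMod p} {U U' A B : ℍ → ℂ} (ζ : ℂ)
    (hU' : MDifferentiable 𝓘(ℂ) 𝓘(ℂ) U') (hB : MDifferentiable 𝓘(ℂ) 𝓘(ℂ) B) (hB0 : B ≠ 0)
    (hAinv : ∀ γ ∈ Gamma0 N, ∀ τ : ℍ, A (γ • τ) = A τ)
    (hBinv : ∀ γ ∈ Gamma0 N, ∀ τ : ℍ, B (γ • τ) = B τ)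
    (hU : HasChar N p c U) (h : ∀ τ, U' τ * B τ = ζ * (U τ * A τ)) : HasChar N p c U' := by
  intro γ τ₀
  -- the holomorphic function `D τ = U' (γ τ) - χ U' τ`
  set χ : ℂ := zetaP p ^ (c γ).val with hχ
  set D : ℍ → ℂ := fun τ => U' ((γ : SL(2, ℤ)) • τ) - χ * U' τ with hD
  have hDm : MDifferentiable 𝓘(ℂ) 𝓘(ℂ) D := by
    have h1 : MDifferentiable 𝓘(ℂ) 𝓘(ℂ) (fun τ : ℍ => U' ((γ : SL(2, ℤ)) • τ)) :=
      (precompSL (γ : SL(2, ℤ)) ⟨U', hU'⟩).2
    have h2 : MDifferentiable 𝓘(ℂ) 𝓘(ℂ) (fun τ : ℍ => χ * U' τ) :=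
      (mdifferentiable_const (c := χ)).mul hU'
    exact h1.sub h2
  have hDB : D * B = 0 := by
    funext τ
    simp only [Pi.mul_apply, Pi.zero_apply, hD]
    have e1 := h ((γ : SL(2, ℤ)) • τ)
    rw [hBinv _ γ.2 τ, hAinv _ γ.2 τ, hU γ τ] at e1
    have e2 := h τ
    calc (U' ((γ : SL(2, ℤ)) • τ) - χ * U' τ) * B τ
        = U' ((γ : SL(2, ℤ)) • τ) * B τ - χ * (U' τ * B τ) := by ring
      _ = ζ * (zetaP p ^ (c γ).val * U τ * A τ) - χ * (ζ * (U τ * A τ)) := by rw [e1, e2]
      _ = 0 := by rw [hχ]; ring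
  rcases mul_eq_zero_of_mdiff hDm hB hDB with h0 | h0
  · have := congrFun h0 τ₀
    simp only [hD, Pi.zero_apply] at this
    exact sub_eq_zero.mp this
  · exact absurd h0 hB0

end Fermat.Agent.S29.M4b.K3

end
end
-- ===== PACK-END S29/M4b/K3/Basic.lean

-- ===== PACK-BEGIN S29/M4b/K3/Deg.lean
section
/-
S29 row, M4b, piece K3 — sub-piece `K3-DEG` (helper42): bounded degree of `F_ℂ` over `ℂ(j)`.

`degStatement N : DegStatement N` (= hypothesis `hdeg` of `H152.desc_main` for `Ω = ℂ`), with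
`n = [SL₂(ℤ) : Γ₀(N)]`.  From the landed S24 degree theory (`Deg457.algDeg_of_mem_field`) and
`H882.exists_monic_of_mem_goodQ`.
-/



set_option autoImplicit false

noncomputable section

open ModularCurve AlgebraicCurve CongruenceSubgroup UpperHalfPlane Polynomial
open scoped MatrixGroups Manifold

namespace Fermat.Agent.S29.M4b.K3

open Fermat.Agent.S24 Fermat.Agent.S24.H648 Fermat.Agent.S24.H708 Fermat.Agent.S24.Deg457
open Fermat.Agent.S29 Fermat.Agent.S29.M4b

/-- The interface hypothesis of the S24 degree theory over `ℂ`. -/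
theorem hyp_complex (N : ℕ) [NeZero N] : Hyp ℂ N (Nat.card (XX N)) := by
  intro b hb
  obtain ⟨P, hPm, hPn, hP⟩ := H882.exists_monic_of_mem_goodQ (H882.AK_le_goodQ N hb)
  exact ⟨P, hPm, hPn, hP⟩

/-- **K3-DEG**. -/
theorem degStatement (N : ℕ) [NeZero N] : DegStatement N := by
  refine ⟨Nat.card (XX N), fun u hu => ?_⟩
  obtain ⟨Q, hQ0, hQn, hQ⟩ := algDeg_of_mem_field (RingHom.id ℂ) (_root_.Fermat.Agent.S29.M4b.K3.hyp_complex N) hu
  have hj : ∀ t : ℂ[X], t ≠ 0 →
      aeval (IntermediateField.AdjoinSimple.gen ℂ (coeffEmb ℂ jq)) t ≠ 0 := by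
    intro t ht h0
    apply aeval_JK_ne_zero ℂ ht
    have h1 := congrArg (algebraMap ↥(IntermediateField.adjoin ℂ {coeffEmb ℂ jq})
      (LaurentSeries ℂ)) h0
    rw [← aeval_algebraMap_apply, map_zero, IntermediateField.AdjoinSimple.algebraMap_gen] at h1
    exact h1
  refine isIntegral_and_natDegree_le_of_relation (K := ℂ)
    (IntermediateField.AdjoinSimple.gen ℂ (coeffEmb ℂ jq)) hj u Q hQ0 _ hQn ?_
  rw [IntermediateField.AdjoinSimple.algebraMap_gen]
  exact hQ

end Fermat.Agent.S29.M4b.K3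

end
end
-- ===== PACK-END S29/M4b/K3/Deg.lean

-- ===== PACK-BEGIN S30/H810/Real.lean
section
/-
S30 / piece FIN-ONTO (helper810), part 1: analytic realisation of `R_N = ℚ̄[j(q^d) : d ∣ N]`
by good functions, and the Taylor embeddings `σ_τ : FF N → ℂ((z))`.

* `realRN N : RN N →+* goodRing N` : the good function with `q`-expansion `ι r`;
* `sigmaTau N τ : FF N →+* LaurentSeries ℂ` : Taylor expansion at `τ` of the realisation;
* `sigmaTau_of_realises` : if `G` realises `u` (M4b `Realises`), then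
  `sigmaTau N τ u = taylorLaurent τ G`.
-/





set_option autoImplicit false
set_option linter.unusedSectionVars false

noncomputable section

open ModularCurve AlgebraicCurve CongruenceSubgroup UpperHalfPlane HahnSeries
open scoped MatrixGroups Manifold

namespace Fermat.Agent.S30.H810

open Fermat.Agent.S24 Fermat.Agent.S24.H648 Fermat.Agent.S24.H708 Fermat.Agent.S24.Deg457
open Fermat.Agent.S24.H624 Fermat.Agent.S24.H997 Fermat.Agent.S29 Fermat.Agent.S29.M4b
open Fermat.Agent.S29.H882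

variable (N : ℕ) [NeZero N]

/-- every element of `R_N` is the `q`-expansion of a good function -/
theorem exists_good_of_RN (r : RN N) :
    ∃ f : ℍ → ℂ, f ∈ goodRing N ∧ HasQExp 1 f (coeffMap iotaC (r : LaurentSeries Kbar)) := by
  have h1 : (r : LaurentSeries Kbar) ∈ AK Kbar N := r.2
  have h2 : coeffMap iotaC (r : LaurentSeries Kbar) ∈ AK ℂ N := coeffMap_mem_AK iotaC h1
  exact AK_le_goodQ N h2

/-- the good function realising `r ∈ R_N` -/
def realFun (r : RN N) : ℍ → ℂ := (exists_good_of_RN N r).choose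

theorem realFun_mem (r : RN N) : realFun N r ∈ goodRing N :=
  (exists_good_of_RN N r).choose_spec.1

theorem realFun_hasQExp (r : RN N) :
    HasQExp 1 (realFun N r) (coeffMap iotaC (r : LaurentSeries Kbar)) :=
  (exists_good_of_RN N r).choose_spec.2

/-- the realisation `R_N → goodRing N` as a ring hom -/
def realRN : RN N →+* goodRing N where
  toFun r := ⟨realFun N r, realFun_mem N r⟩
  map_one' := by
    apply Subtype.ext
    have h := realFun_hasQExp N (1 : RN N)
    have h1 : coeffMap iotaC ((1 : RN N) : LaurentSeries Kbar) = 1 := by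
      rw [OneMemClass.coe_one, map_one]
    rw [h1] at h
    exact h.eq_of_eq (HasQExp.one 1)
  map_mul' a b := by
    apply Subtype.ext
    have h := realFun_hasQExp N (a * b)
    have h1 : coeffMap iotaC ((a * b : RN N) : LaurentSeries Kbar)
        = coeffMap iotaC (a : LaurentSeries Kbar) * coeffMap iotaC (b : LaurentSeries Kbar) := by
      rw [MulMemClass.coe_mul, map_mul]
    rw [h1] at h
    exact h.eq_of_eq ((realFun_hasQExp N a).mul (realFun_hasQExp N b))
  map_zero' := by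
    apply Subtype.ext
    have h := realFun_hasQExp N (0 : RN N)
    have h1 : coeffMap iotaC ((0 : RN N) : LaurentSeries Kbar) = 0 := by
      rw [ZeroMemClass.coe_zero, map_zero]
    rw [h1] at h
    exact h.eq_of_eq (HasQExp.zero 1)
  map_add' a b := by
    apply Subtype.ext
    have h := realFun_hasQExp N (a + b)
    have h1 : coeffMap iotaC ((a + b : RN N) : LaurentSeries Kbar)
        = coeffMap iotaC (a : LaurentSeries Kbar) + coeffMap iotaC (b : LaurentSeries Kbar) := by
      rw [AddMemClass.coe_add, map_add]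
    rw [h1] at h
    exact h.eq_of_eq ((realFun_hasQExp N a).add (realFun_hasQExp N b))

@[simp] theorem coe_realRN (r : RN N) : ((realRN N r : goodRing N) : ℍ → ℂ) = realFun N r := rfl

theorem iotaC_injective : Function.Injective iotaC := iotaC.injective

theorem coeffMap_iotaC_injective :
    Function.Injective (coeffMap iotaC : LaurentSeries Kbar → LaurentSeries ℂ) := by
  intro x y h
  ext k
  apply iotaC_injective
  have := congrArg (fun s : LaurentSeries ℂ => s.coeff k) h
  simpa using this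

theorem realRN_injective : Function.Injective (realRN N) := by
  intro a b h
  apply Subtype.ext
  apply coeffMap_iotaC_injective
  have ha := realFun_hasQExp N a
  have hb := realFun_hasQExp N b
  have h' : realFun N a = realFun N b := congrArg Subtype.val h
  rw [h'] at ha
  exact ha.unique hb

/-- good functions are holomorphic -/
theorem goodRing_le_holoRing : goodRing N ≤ holoRing := fun _ hf => hf.1

/-- the inclusion `goodRing N → holoRing` -/
def goodToHolo : goodRing N →+* holoRing :=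
  (Subalgebra.inclusion (goodRing_le_holoRing N)).toRingHom

@[simp] theorem coe_goodToHolo (f : goodRing N) :
    ((goodToHolo N f : holoRing) : ℍ → ℂ) = (f : ℍ → ℂ) := rfl

theorem goodToHolo_injective : Function.Injective (goodToHolo N) :=
  Subalgebra.inclusion_injective (goodRing_le_holoRing N)

/-- Taylor expansion at `τ` of the realisation of `r ∈ R_N` -/
def sTau (τ : ℍ) : RN N →+* LaurentSeries ℂ :=
  (taylorLaurent τ).comp ((goodToHolo N).comp (realRN N))

theorem sTau_injective (τ : ℍ) : Function.Injective (sTau N τ) :=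
  (taylorLaurent_injective τ).comp ((goodToHolo_injective N).comp (realRN_injective N))

/-- **The Taylor embedding** `σ_τ : FF N → ℂ((z))`. -/
def sigmaTau (τ : ℍ) : FF N →+* LaurentSeries ℂ := liftF (sTau N τ) (sTau_injective N τ)

theorem sigmaTau_inclRN (τ : ℍ) (r : RN N) :
    sigmaTau N τ (inclRN N r) = taylorLaurent τ (goodToHolo N (realRN N r)) :=
  liftF_inclRN _ _ r

theorem algebraMap_laurent_eq_C (c : ℂ) :
    algebraMap ℂ (LaurentSeries ℂ) c = HahnSeries.C c := by
  rw [algebraMap_laurentSeries_eq_single]; rfl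

theorem realFun_algebraMap (c : Kbar) :
    realFun N (algebraMap Kbar (RN N) c) = fun _ => iotaC c := by
  have h := realFun_hasQExp N (algebraMap Kbar (RN N) c)
  have h1 : ((algebraMap Kbar (RN N) c : RN N) : LaurentSeries Kbar)
      = algebraMap Kbar (LaurentSeries Kbar) c := rfl
  rw [h1, coeffMap_algebraMap', algebraMap_laurent_eq_C] at h
  exact h.eq_of_eq (HasQExp.const 1 (iotaC c))

theorem taylorLaurent_const (τ : ℍ) (c : ℂ) (f : holoRing) (hf : (f : ℍ → ℂ) = fun _ => c) :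
    taylorLaurent τ f = HahnSeries.C c := by
  have : f = algebraMap ℂ holoRing c := Subtype.ext hf
  rw [this, taylorLaurent_apply, AlgHom.commutes, PowerSeries.algebraMap_apply,
    Algebra.algebraMap_self, RingHom.id_apply, HahnSeries.ofPowerSeries_C]

theorem sigmaTau_algebraMap (τ : ℍ) (c : Kbar) :
    sigmaTau N τ (algebraMap Kbar (FF N) c) = HahnSeries.C (iotaC c) := by
  rw [sigmaTau, liftF_algebraMap]
  exact taylorLaurent_const τ (iotaC c) _ (realFun_algebraMap N c)

variable {N}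

theorem Realises.hasQExp {u : FF N} {G : ℍ → ℂ} (hG : Realises N u G) :
    HasQExp 1 G (coeffMap iotaC ((u : FF N) : LaurentSeries Kbar)) := by
  have h := hasQExp_of_mem_goodRing hG.1
  rwa [hG.2] at h

/-- **Compatibility**: if `G` realises `u`, then `σ_τ u` is the Taylor expansion of `G` at `τ`. -/
theorem sigmaTau_of_realises {u : FF N} {G : ℍ → ℂ} (hG : Realises N u G)
    (hmd : G ∈ holoRing) (τ : ℍ) :
    sigmaTau N τ u = taylorLaurent τ ⟨G, hmd⟩ := by
  obtain ⟨r, t, ht, hu⟩ := exists_div_inclRN N u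
  have ht' : inclRN N t ≠ 0 := fun h => ht (inclRN_injective N (by rw [h, map_zero]))
  have hmul : u * inclRN N t = inclRN N r := by
    rw [hu, div_mul_cancel₀ _ ht']
  have hcoe : ((u : FF N) : LaurentSeries Kbar) * (t : LaurentSeries Kbar)
      = (r : LaurentSeries Kbar) := by
    have := congrArg (fun x : FF N => (x : LaurentSeries Kbar)) hmul
    simpa using this
  have hq : HasQExp 1 (G * realFun N t) (coeffMap iotaC (r : LaurentSeries Kbar)) := by
    have := (Realises.hasQExp hG).mul (realFun_hasQExp N t)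
    rwa [← map_mul, hcoe] at this
  have hfun : G * realFun N t = realFun N r := hq.eq_of_eq (realFun_hasQExp N r)
  have hholo : (⟨G, hmd⟩ : holoRing) * goodToHolo N (realRN N t)
      = goodToHolo N (realRN N r) := Subtype.ext hfun
  have hT0 : taylorLaurent τ (goodToHolo N (realRN N t)) ≠ 0 := by
    intro h
    exact ht (sTau_injective N τ (by rw [map_zero]; exact h))
  rw [hu, map_div₀, sigmaTau_inclRN, sigmaTau_inclRN, ← hholo, map_mul, mul_div_assoc,
    div_self hT0, mul_one]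

end Fermat.Agent.S30.H810

end
end
-- ===== PACK-END S30/H810/Real.lean

-- ===== PACK-BEGIN S30/H109/Onto.lean
section



/-!
# S30 / adic layer, piece ONTO (helper109): every torsion class is a Kummer class

`exists_isKum_of_torsion` : if `m • x = 0` in `J₀(N)(ℚ̄)` then `x` is the Kummer class
(`M4b.IsKum`) of an additive character `c : Γ₀(N) → ℤ/m`.

Input (hypothesis `DCStatement`, the converse direction of the dictionary DICT): a function
`f ∈ FF N` all of whose orders at the places of `FF N / ℚ̄` are divisible by `m` has, after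
multiplication by an `m`-th power, a holomorphic realisation all of whose analytic orders of
vanishing are divisible by `m`.  Then ROOT (landed `H751`) gives the `m`-th root `U`, which
transforms by a character of `Γ₀(N)`.
-/

set_option autoImplicit false

noncomputable section

open ModularCurve AlgebraicCurve CongruenceSubgroup UpperHalfPlane
open scoped MatrixGroups Manifold

namespace Fermat.Agent.S30.H109

open Fermat.Agent.S24 Fermat.Agent.S29 Fermat.Agent.S29.M4b

/-- The converse dictionary: divisibility of all algebraic orders by `m` gives a holomorphic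
realisation (up to an `m`-th power) with all analytic orders divisible by `m`. -/
def DCStatement (N m : ℕ) [NeZero N] : Prop :=
  ∀ f : FF N, f ≠ 0 → (∀ v : Place Kbar (FF N), (m : ℤ) ∣ v.ord f) →
    ∃ (t : FF N) (G : ℍ → ℂ), t ≠ 0 ∧ Realises N (f * t ^ m) G ∧
      ∀ τ : ℍ, ∃ k : ℕ, analyticOrderAt (G ∘ ofComplex) (τ : ℂ) = ((m * k : ℕ) : ℕ∞)

section roots

variable (m : ℕ) [NeZero m]

lemma zetaP_isPrimitiveRoot : IsPrimitiveRoot (zetaP m) m :=
  Complex.isPrimitiveRoot_exp m (NeZero.ne m)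

lemma zetaP_pow_val_add (a b : ZMod m) :
    zetaP m ^ (a + b).val = zetaP m ^ a.val * zetaP m ^ b.val := by
  rw [← pow_add]
  have h1 : (a + b).val = (a.val + b.val) % m := ZMod.val_add a b
  rw [h1]
  exact (pow_mod_orderOf_aux m).symm
where
  pow_mod_orderOf_aux (m : ℕ) [NeZero m] {n : ℕ} :
      zetaP m ^ n = zetaP m ^ (n % m) := by
    conv_lhs => rw [← Nat.div_add_mod n m, pow_add, pow_mul,
      (zetaP_isPrimitiveRoot m).pow_eq_one, one_pow, one_mul]

lemma zetaP_pow_val_injective {a b : ZMod m}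
    (h : zetaP m ^ a.val = zetaP m ^ b.val) : a = b := by
  apply ZMod.val_injective m
  exact (zetaP_isPrimitiveRoot m).pow_inj (ZMod.val_lt a) (ZMod.val_lt b) h

lemma exists_zmod_of_pow_eq_one {z : ℂ} (hz : z ^ m = 1) :
    ∃ c : ZMod m, zetaP m ^ c.val = z := by
  obtain ⟨i, hi, hiz⟩ := (zetaP_isPrimitiveRoot m).eq_pow_of_pow_eq_one hz
  refine ⟨(i : ZMod m), ?_⟩
  rw [ZMod.val_natCast_of_lt hi, hiz]

end roots

section onto

variable (N : ℕ) [NeZero N] (m : ℕ) [NeZero m]

/-- The character of an `m`-th root of a `Γ₀(N)`-invariant function. -/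
theorem exists_hom_hasChar {U : ℍ → ℂ} (hU : MDifferentiable 𝓘(ℂ) 𝓘(ℂ) U)
    (hne : ∃ τ, U τ ≠ 0)
    (hinv : ∀ γ ∈ Gamma0 N, ∀ τ : ℍ, U (γ • τ) ^ m = U τ ^ m) :
    ∃ c : G0 N → ZMod m, (∀ γ γ' : G0 N, c (γ * γ') = c γ + c γ') ∧ HasChar N m c U := by
  have hm : m ≠ 0 := NeZero.ne m
  obtain ⟨τ₁, hτ₁⟩ := hne
  -- the constant attached to `γ`
  have key : ∀ γ : G0 N, ∃ c : ZMod m, ∀ τ : ℍ,
      U ((γ : SL(2, ℤ)) • τ) = zetaP m ^ c.val * U τ := by
    intro γ
    have hA1 : U ((γ : SL(2, ℤ)) • τ₁) ≠ 0 := by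
      intro h0
      have := hinv γ γ.2 τ₁
      rw [h0, zero_pow hm] at this
      exact pow_ne_zero m hτ₁ this.symm
    set z : ℂ := U ((γ : SL(2, ℤ)) • τ₁) / U τ₁ with hz
    have hzm : z ^ m = 1 := by
      rw [hz, div_pow, hinv γ γ.2 τ₁, div_self (pow_ne_zero m hτ₁)]
    obtain ⟨c, hc⟩ := exists_zmod_of_pow_eq_one m hzm
    refine ⟨c, fun τ => ?_⟩
    have hdet : 0 < ((Matrix.SpecialLinearGroup.mapGL ℝ (γ : SL(2, ℤ))).det : ℝ) := by
      simp
    have hAd : MDifferentiable 𝓘(ℂ) 𝓘(ℂ) (fun τ : ℍ => U ((γ : SL(2, ℤ)) • τ)) :=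
      hU.comp (UpperHalfPlane.mdifferentiable_smul hdet)
    have hBd : MDifferentiable 𝓘(ℂ) 𝓘(ℂ) (fun τ : ℍ => zetaP m ^ c.val * U τ) :=
      (mdifferentiable_const (c := zetaP m ^ c.val)).mul hU
    have := H751.eq_of_pow_eq_UHP hAd hBd hm (fun τ => by
      rw [hinv γ γ.2 τ, mul_pow, hc, hzm, one_mul]) (τ₀ := τ₁)
      (by
        simp only [hc, hz]
        field_simp) hA1
    exact congrFun this τ
  choose c hc using key
  refine ⟨c, fun γ γ' => ?_, fun γ τ => hc γ τ⟩
  apply zetaP_pow_val_injective m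
  rw [zetaP_pow_val_add]
  have h1 := hc (γ * γ') τ₁
  have h2 := hc γ ((γ' : SL(2, ℤ)) • τ₁)
  have h3 := hc γ' τ₁
  have hsm : ((γ * γ' : G0 N) : SL(2, ℤ)) • τ₁ = (γ : SL(2, ℤ)) • ((γ' : SL(2, ℤ)) • τ₁) := by
    rw [Subgroup.coe_mul, mul_smul]
  rw [hsm, h2, h3] at h1
  have h5 : zetaP m ^ (c γ).val * zetaP m ^ (c γ').val * U τ₁ =
      zetaP m ^ (c (γ * γ')).val * U τ₁ := by
    linear_combination h1
  exact (mul_right_cancel₀ hτ₁ h5).symm

/-- **ONTO.**  Every `m`-torsion class of `J₀(N)(ℚ̄)` is the Kummer class of an additive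
character of `Γ₀(N)` with values in `ℤ/m`. -/
theorem exists_isKum_of_torsion (hDC : DCStatement N m) {x : JZero N}
    (hx : (m : ℤ) • x = 0) :
    ∃ c : G0 N → ZMod m, (∀ γ γ' : G0 N, c (γ * γ') = c γ + c γ') ∧ IsKum N m c x := by
  have hm : m ≠ 0 := NeZero.ne m
  obtain ⟨f, hf⟩ := H455.exists_isKummerClass_of_zsmul_eq_zero hx
  have hdvd : ∀ v : Place Kbar (FF N), (m : ℤ) ∣ v.ord f := by
    obtain ⟨-, D, -, hD⟩ := hf
    exact fun v => ⟨_, (hD v).symm⟩
  obtain ⟨t, G, ht, hG, hord⟩ := hDC f hf.ne_zero hdvd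
  have hGgood := hG.1
  obtain ⟨U, hUd, hUG⟩ := H751.exists_pow_eq_UHP hGgood.1 m hm hord
  have hpowfun : (fun τ => U τ ^ m) = G := funext hUG
  -- `G` is not identically zero
  have hGne : G ≠ 0 := by
    intro h0
    have hq := hG.2
    have hmer := (H882.hasQExp_of_mem_goodRing hGgood).isMerInf
    rw [(H708.qexpFun_eq_zero_iff hmer).2 h0] at hq
    have hne : (f * t ^ m : FF N) ≠ 0 := mul_ne_zero hf.ne_zero (pow_ne_zero m ht)
    have hne' : ((f * t ^ m : FF N) : LaurentSeries Kbar) ≠ 0 := by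
      intro h
      exact hne (Subtype.ext h)
    exact hne' ((map_eq_zero_iff _ (coeffMap Deg457.iotaC).injective).1 hq.symm)
  have hUne : ∃ τ, U τ ≠ 0 := by
    by_contra hcon
    simp only [not_exists, not_not] at hcon
    apply hGne
    funext τ
    rw [← hUG τ, hcon τ, zero_pow hm]
    rfl
  obtain ⟨c, hcmul, hchar⟩ := exists_hom_hasChar N m hUd hUne (fun γ hγ τ => by
    rw [hUG, hUG, hGgood.2.1 γ hγ τ])
  refine ⟨c, hcmul, f, t, U, ht, hf, ⟨hUd, hUne, hchar, ?_⟩, ?_⟩
  · rw [hpowfun]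
    exact hGgood
  · rw [hpowfun]
    exact hG

/-- The set of additive characters `Γ₀(N) → ℤ/m` is finite (`Γ₀(N)` is finitely generated). -/
theorem finite_hom_set :
    {c : G0 N → ZMod m | ∀ γ γ' : G0 N, c (γ * γ') = c γ + c γ'}.Finite := by
  haveI : Group.FG SL(2, ℤ) := Group.fg_iff.mpr ⟨{ModularGroup.S, ModularGroup.T},
    SpecialLinearGroup.SL2Z_generators, by simp⟩
  haveI : Group.FG (G0 N) := inferInstance
  obtain ⟨s, hs⟩ := Group.fg_def.mp (inferInstance : Group.FG (G0 N))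
  let T := {c : G0 N → ZMod m | ∀ γ γ' : G0 N, c (γ * γ') = c γ + c γ'}
  let r : T → (s → ZMod m) := fun c x => c.1 x
  have hr : Function.Injective r := by
    intro c d hcd
    have hc := c.2
    have hd := d.2
    have hc1 : c.1 1 = 0 := by
      have := hc 1 1
      rw [mul_one] at this
      exact left_eq_add.mp this
    have hd1 : d.1 1 = 0 := by
      have := hd 1 1
      rw [mul_one] at this
      exact left_eq_add.mp this
    have hcinv : ∀ γ, c.1 γ⁻¹ = -c.1 γ := fun γ => by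
      have := hc γ γ⁻¹
      rw [mul_inv_cancel, hc1] at this
      exact eq_neg_of_add_eq_zero_right this.symm
    have hdinv : ∀ γ, d.1 γ⁻¹ = -d.1 γ := fun γ => by
      have := hd γ γ⁻¹
      rw [mul_inv_cancel, hd1] at this
      exact eq_neg_of_add_eq_zero_right this.symm
    apply Subtype.ext
    funext γ
    have hγ : γ ∈ Subgroup.closure (s : Set (G0 N)) := by rw [hs]; trivial
    induction hγ using Subgroup.closure_induction with
    | mem x hx => exact congrFun hcd ⟨x, hx⟩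
    | one => rw [hc1, hd1]
    | mul x y _ _ hx hy => rw [hc, hd, hx, hy]
    | inv x _ hx => rw [hcinv, hdinv, hx]
  haveI : Finite T := Finite.of_injective r hr
  exact Set.toFinite T

/-- **FIN.**  `J₀(N)(ℚ̄)[m]` is finite, given the converse dictionary and the uniqueness of
Kummer classes (piece `K4-UNIQ` of sub-layer M4b). -/
theorem finite_torsion (hDC : DCStatement N m)
    (huniq : ∀ (c : G0 N → ZMod m) (x x' : JZero N),
      IsKum N m c x → IsKum N m c x' → x = x') :
    {x : JZero N | m • x = 0}.Finite := by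
  have key : ∀ x : {x : JZero N | m • x = 0}, ∃ c : G0 N → ZMod m,
      (∀ γ γ' : G0 N, c (γ * γ') = c γ + c γ') ∧ IsKum N m c x.1 := fun x =>
    exists_isKum_of_torsion N m hDC (by rw [natCast_zsmul]; exact x.2)
  choose c hc1 hc2 using key
  let T := {c : G0 N → ZMod m | ∀ γ γ' : G0 N, c (γ * γ') = c γ + c γ'}
  haveI : Finite T := (finite_hom_set N m).to_subtype
  let φ : {x : JZero N | m • x = 0} → T := fun x => ⟨c x, hc1 x⟩
  have hinj : Function.Injective φ := by
    intro x y h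
    have hxy : c x = c y := congrArg Subtype.val h
    apply Subtype.ext
    exact huniq (c x) x.1 y.1 (hc2 x) (hxy ▸ hc2 y)
  haveI : Finite {x : JZero N | m • x = 0} := Finite.of_injective φ hinj
  exact Set.toFinite _

end onto

end Fermat.Agent.S30.H109

end
end
-- ===== PACK-END S30/H109/Onto.lean

-- ===== PACK-BEGIN S29/H102/KBasic.lean
section
/-
S29 / M4b / K4 (helper102) — basic lemmas shared by the K4 pieces.

* `KBasic_zetaP_pow`            : `zetaP p ^ p = 1`;
* `KBasic_expGrowth_of_pow`     : `ExpGrowth (F ^ p) → ExpGrowth F` (`p ≠ 0`);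
* `KBasic_mem_goodRing_of_pow`  : a holomorphic `Γ₀(N)`-invariant `V` with `V ^ p` good is good;
* `KBasic_realises_hasQExp`     : `Realises N u G → HasQExp 1 G (coeffMap iotaC u)`;
* `KBasic_exists_root`          : a good function `V` whose `p`-th power realises `w ∈ FF N`
                                  realises a `p`-th root `v ∈ FF N` of `w`
                                  (MERO + root descent + `F_ℂ ∩ ℚ̄((q)) = FF N`).
-/




set_option autoImplicit false

noncomputable section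

open ModularCurve AlgebraicCurve CongruenceSubgroup UpperHalfPlane
open scoped MatrixGroups Manifold

namespace Fermat.Agent.S29.H102

open Fermat.Agent.S24 Fermat.Agent.S29 Fermat.Agent.S29.M4b
open Fermat.Agent.S24.H648 Fermat.Agent.S24.H708

theorem KBasic_zetaP_pow (p : ℕ) [NeZero p] : zetaP p ^ p = 1 := by
  have hp : (p : ℂ) ≠ 0 := Nat.cast_ne_zero.mpr (NeZero.ne p)
  rw [zetaP, ← Complex.exp_nat_mul, mul_div_cancel₀ _ hp]
  exact Complex.exp_two_pi_mul_I

theorem KBasic_zetaP_ne_zero (p : ℕ) : zetaP p ≠ 0 := Complex.exp_ne_zero _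

/-- `ζ_p ^ a = 1` iff `p ∣ a`. -/
theorem KBasic_zetaP_pow_eq_one_iff (p : ℕ) [NeZero p] (a : ℕ) : zetaP p ^ a = 1 ↔ p ∣ a := by
  have h : IsPrimitiveRoot (zetaP p) p := by
    have := Complex.isPrimitiveRoot_exp p (NeZero.ne p)
    simpa [zetaP] using this
  exact h.pow_eq_one_iff_dvd a

/-- The character value only depends on the class mod `p`. -/
theorem KBasic_zetaP_pow_val_add (p : ℕ) [NeZero p] (a b : ZMod p) :
    zetaP p ^ (a + b).val = zetaP p ^ a.val * zetaP p ^ b.val := by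
  rw [← pow_add, ZMod.val_add]
  conv_rhs => rw [← Nat.mod_add_div (a.val + b.val) p]
  rw [pow_add, pow_mul, KBasic_zetaP_pow, one_pow, mul_one]

theorem KBasic_expGrowth_of_pow {F : ℍ → ℂ} {p : ℕ} (hp : p ≠ 0)
    (h : ExpGrowth (fun τ => F τ ^ p)) : ExpGrowth F := by
  obtain ⟨C, m, hC⟩ := h
  refine ⟨max C 1, m, fun τ hτ => ?_⟩
  have hexp : (1 : ℝ) ≤ Real.exp (2 * Real.pi * m * τ.im) := by
    apply Real.one_le_exp
    have := Real.pi_pos
    have := τ.im_pos
    positivity
  have hmax1 : (1 : ℝ) ≤ max C 1 := le_max_right _ _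
  by_cases h1 : ‖F τ‖ ≤ 1
  · calc ‖F τ‖ ≤ 1 := h1
      _ = 1 * 1 := (one_mul 1).symm
      _ ≤ max C 1 * Real.exp (2 * Real.pi * m * τ.im) :=
          mul_le_mul hmax1 hexp zero_le_one (le_trans zero_le_one hmax1)
  · have h1' : 1 ≤ ‖F τ‖ := le_of_lt (not_le.mp h1)
    have h2 : ‖F τ‖ ≤ ‖F τ‖ ^ p := le_self_pow₀ h1' hp
    have h3 : ‖F τ‖ ^ p ≤ C * Real.exp (2 * Real.pi * m * τ.im) := by
      have := hC τ hτ
      rwa [norm_pow] at this
    calc ‖F τ‖ ≤ ‖F τ‖ ^ p := h2
      _ ≤ C * Real.exp (2 * Real.pi * m * τ.im) := h3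
      _ ≤ max C 1 * Real.exp (2 * Real.pi * m * τ.im) :=
          mul_le_mul_of_nonneg_right (le_max_left _ _) (Real.exp_pos _).le

theorem KBasic_mem_goodRing_of_pow {N : ℕ} {V : ℍ → ℂ} {p : ℕ} (hp : p ≠ 0)
    (hV : MDifferentiable 𝓘(ℂ) 𝓘(ℂ) V)
    (hinv : ∀ γ ∈ Gamma0 N, ∀ τ : ℍ, V (γ • τ) = V τ)
    (hpow : (fun τ => V τ ^ p) ∈ goodRing N) : V ∈ goodRing N := by
  refine ⟨hV, hinv, fun g => ?_⟩
  exact KBasic_expGrowth_of_pow hp (hpow.2.2 g)

variable {N : ℕ} [NeZero N]

theorem KBasic_realises_hasQExp {u : FF N} {G : ℍ → ℂ} (h : Realises N u G) :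
    HasQExp 1 G (coeffMap Deg457.iotaC ((u : FF N) : LaurentSeries Kbar)) :=
  ⟨H882.isMerInf_of_mem_goodRing h.1, h.2⟩

theorem KBasic_coeffMap_iotaC_injective :
    Function.Injective (coeffMap Deg457.iotaC : LaurentSeries Kbar → LaurentSeries ℂ) := by
  intro x y h
  ext k
  have := congrArg (fun z : LaurentSeries ℂ => z.coeff k) h
  simp only [coeffMap_coeff] at this
  exact Deg457.iotaC.injective this

/-- **Analytic `p`-th roots are algebraic.**  If `V` is good of level `N` and `V ^ p` realises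
`w ∈ FF N`, then `V` realises some `v ∈ FF N` with `v ^ p = w`. -/
theorem KBasic_exists_root {p : ℕ} (hp : p ≠ 0) {V : ℍ → ℂ} (hV : V ∈ goodRing N) {w : FF N}
    (hw : Realises N w (fun τ => V τ ^ p)) :
    ∃ v : FF N, v ^ p = w ∧ Realises N v V := by
  have hVq : HasQExp 1 V (qexpFun 1 V) := H882.hasQExp_of_mem_goodRing hV
  have hVp : HasQExp 1 (fun τ => V τ ^ p) (qexpFun 1 V ^ p) := hVq.pow p
  have hwq := KBasic_realises_hasQExp hw
  have heq : qexpFun 1 V ^ p = coeffMap Deg457.iotaC ((w : FF N) : LaurentSeries Kbar) :=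
    hVp.unique hwq
  obtain ⟨v₀, hv₀⟩ := RootDesc_laurent Deg457.iotaC hp (qexpFun 1 V)
    ((w : FF N) : LaurentSeries Kbar) heq
  have hmem : v₀ ∈ modularFunctionFieldBar N := by
    apply H882.mem_laurentBaseChange_of_coeffMap_mem Deg457.iotaC (modularFunctionFieldFull N)
    rw [hv₀]
    exact H882.qexpFun_mem_FC hV
  refine ⟨⟨v₀, hmem⟩, ?_, hV, hv₀.symm⟩
  apply Subtype.ext
  apply KBasic_coeffMap_iotaC_injective
  show coeffMap Deg457.iotaC (v₀ ^ p) = _
  rw [map_pow, hv₀, heq]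

end Fermat.Agent.S29.H102

end
end
-- ===== PACK-END S29/H102/KBasic.lean

-- ===== PACK-BEGIN S29/H942/SameChar.lean
section


/-!
# S29 / M4b / K3 (DESC), sub-piece (B) "FINITE" (helper942)

Two twisted functions of the SAME character have `p`-th powers whose `q`-expansions differ by a
`p`-th power of the function field `F_ℂ = laurentBaseChange ℂ (modularFunctionFieldFull N)`.

* `expGrowth_of_pow` : root of a growth bound.
* `mem_goodRing_of_pow_mem` : a holomorphic `Γ₀(N)`-invariant function with a good power is good.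
* `mul_pow_pred_mem_goodRing` : `U * V ^ (p - 1)` is good for `U`, `V` twisted of the same
  character.
* `exists_pow_mul_eq_of_isTwisted` : `qexp (U ^ p) = g ^ p * qexp (V ^ p)` with `g ∈ F_ℂ`, `g ≠ 0`.
* `exists_pow_mul_eq_of_realised` : the same for data `(f, t, U)` with `qexp (U ^ p) = f * t ^ p`
  (the shape used in `IsKum`).
-/

set_option autoImplicit false

noncomputable section

open ModularCurve AlgebraicCurve CongruenceSubgroup UpperHalfPlane
open scoped MatrixGroups Manifold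

namespace Fermat.Agent.S29.H942

open Fermat.Agent.S24 Fermat.Agent.S29 Fermat.Agent.S29.M4b

/-- Root of a growth bound: if `f ^ p` (`p ≠ 0`) has at most exponential growth, so has `f`. -/
theorem expGrowth_of_pow {f : ℍ → ℂ} {p : ℕ} (hp : p ≠ 0)
    (h : H648.ExpGrowth (fun τ => f τ ^ p)) : H648.ExpGrowth f := by
  obtain ⟨C, m, hC⟩ := h
  refine ⟨max C 1, m, fun τ hτ => ?_⟩
  have hexp : (1 : ℝ) ≤ Real.exp (2 * Real.pi * m * τ.im) := by
    apply Real.one_le_exp
    have := Real.pi_pos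
    have := τ.im_pos
    positivity
  have hpow := hC τ hτ
  rw [norm_pow] at hpow
  rcases le_total ‖f τ‖ 1 with h1 | h1
  · calc ‖f τ‖ ≤ 1 := h1
      _ = 1 * 1 := (one_mul 1).symm
      _ ≤ max C 1 * Real.exp (2 * Real.pi * m * τ.im) :=
          mul_le_mul (le_max_right _ _) hexp zero_le_one (le_trans zero_le_one (le_max_right _ _))
  · calc ‖f τ‖ ≤ ‖f τ‖ ^ p := le_self_pow₀ h1 hp
      _ ≤ C * Real.exp (2 * Real.pi * m * τ.im) := hpow
      _ ≤ max C 1 * Real.exp (2 * Real.pi * m * τ.im) := by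
          gcongr
          exact le_max_left _ _

/-- A holomorphic `Γ₀(N)`-invariant function one of whose powers is good is good. -/
theorem mem_goodRing_of_pow_mem (N : ℕ) {W : ℍ → ℂ} {p : ℕ} (hp : p ≠ 0)
    (hW : MDifferentiable 𝓘(ℂ) 𝓘(ℂ) W)
    (hinv : ∀ γ ∈ Gamma0 N, ∀ τ : ℍ, W (γ • τ) = W τ)
    (hpow : (fun τ => W τ ^ p) ∈ H648.goodRing N) : W ∈ H648.goodRing N := by
  refine ⟨hW, hinv, fun g => ?_⟩
  exact expGrowth_of_pow hp (hpow.2.2 g)

/-- `ζ_p ^ p = 1`. -/
theorem zetaP_pow_self' (p : ℕ) [NeZero p] : zetaP p ^ p = 1 := by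
  unfold zetaP
  rw [← Complex.exp_nat_mul]
  have hp : (p : ℂ) ≠ 0 := Nat.cast_ne_zero.mpr (NeZero.ne p)
  rw [mul_div_cancel₀ _ hp]
  exact Complex.exp_two_pi_mul_I

variable (N : ℕ) [NeZero N] (p : ℕ) [NeZero p]

/-- For `U`, `V` of the same character, `U * V ^ (p - 1)` is `Γ₀(N)`-invariant. -/
theorem mul_pow_pred_invariant {c : G0 N → ZMod p} {U V : ℍ → ℂ}
    (hU : HasChar N p c U) (hV : HasChar N p c V) (γ : SL(2, ℤ)) (hγ : γ ∈ Gamma0 N) (τ : ℍ) :
    U (γ • τ) * V (γ • τ) ^ (p - 1) = U τ * V τ ^ (p - 1) := by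
  have h1 := hU ⟨γ, hγ⟩ τ
  have h2 := hV ⟨γ, hγ⟩ τ
  simp only at h1 h2
  rw [h1, h2, mul_pow, ← pow_mul]
  have hp1 : 1 ≤ p := Nat.one_le_iff_ne_zero.mpr (NeZero.ne p)
  have hz : zetaP p ^ (c ⟨γ, hγ⟩).val * zetaP p ^ ((c ⟨γ, hγ⟩).val * (p - 1)) = 1 := by
    rw [← pow_add]
    have : (c ⟨γ, hγ⟩).val + (c ⟨γ, hγ⟩).val * (p - 1) = p * (c ⟨γ, hγ⟩).val := by
      have hpp : p - 1 + 1 = p := Nat.sub_add_cancel hp1
      calc (c ⟨γ, hγ⟩).val + (c ⟨γ, hγ⟩).val * (p - 1)
          = (c ⟨γ, hγ⟩).val * (p - 1 + 1) := by ring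
        _ = p * (c ⟨γ, hγ⟩).val := by rw [hpp, mul_comm]
    rw [this, pow_mul, zetaP_pow_self', one_pow]
  calc zetaP p ^ (c ⟨γ, hγ⟩).val * U τ * (zetaP p ^ ((c ⟨γ, hγ⟩).val * (p - 1)) * V τ ^ (p - 1))
      = (zetaP p ^ (c ⟨γ, hγ⟩).val * zetaP p ^ ((c ⟨γ, hγ⟩).val * (p - 1))) *
          (U τ * V τ ^ (p - 1)) := by ring
    _ = U τ * V τ ^ (p - 1) := by rw [hz, one_mul]

/-- For `U`, `V` twisted of the same character, `U * V ^ (p - 1)` is good. -/
theorem mul_pow_pred_mem_goodRing {c : G0 N → ZMod p} {U V : ℍ → ℂ}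
    (hU : IsTwisted N p c U) (hV : IsTwisted N p c V) :
    (fun τ => U τ * V τ ^ (p - 1)) ∈ H648.goodRing N := by
  refine mem_goodRing_of_pow_mem N (NeZero.ne p) (hU.mdiff.mul (hV.mdiff.pow (p - 1)))
    (fun γ hγ τ => mul_pow_pred_invariant N p hU.hasChar hV.hasChar γ hγ τ) ?_
  have h : (fun τ => (U τ * V τ ^ (p - 1)) ^ p)
      = (fun τ => U τ ^ p) * (fun τ => V τ ^ p) ^ (p - 1) := by
    funext τ
    simp only [Pi.mul_apply, Pi.pow_apply]
    rw [mul_pow, ← pow_mul, ← pow_mul, mul_comm (p - 1) p]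
  rw [h]
  exact (H648.goodRing N).mul_mem hU.pow_mem ((H648.goodRing N).pow_mem hV.pow_mem _)

/-- `qexpFun` commutes with powers of functions meromorphic at `i∞`. -/
theorem qexpFun_pow' {f : ℍ → ℂ} (hf : H708.IsMerInf 1 f) (n : ℕ) :
    H708.qexpFun 1 (f ^ n) = H708.qexpFun 1 f ^ n := by
  induction n with
  | zero =>
      rw [pow_zero, pow_zero]
      have h1 : (1 : ℍ → ℂ) = fun _ => (1 : ℂ) := rfl
      rw [h1, H708.qexpFun_const]
      simp
  | succ n ih => rw [pow_succ, H708.qexpFun_mul (hf.pow n) hf, ih, pow_succ]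

omit [NeZero N] [NeZero p] in
/-- A twisted function has a nonzero `p`-th power. -/
theorem pow_ne_zero_of_isTwisted {c : G0 N → ZMod p} {U : ℍ → ℂ} (hU : IsTwisted N p c U) :
    (fun τ => U τ ^ p) ≠ 0 := by
  obtain ⟨τ, hτ⟩ := hU.ne_zero
  intro h0
  exact pow_ne_zero p hτ (congrFun h0 τ)

/-- The `q`-expansion of the `p`-th power of a twisted function is a nonzero element of `F_ℂ`. -/
theorem qexpFun_pow_ne_zero_of_isTwisted {c : G0 N → ZMod p} {U : ℍ → ℂ}
    (hU : IsTwisted N p c U) : H708.qexpFun 1 (fun τ => U τ ^ p) ≠ 0 := by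
  intro h0
  exact pow_ne_zero_of_isTwisted N p hU
    ((H708.qexpFun_eq_zero_iff (H882.isMerInf_of_mem_goodRing hU.pow_mem)).mp h0)

/-- **Sub-piece (B) of K3.**  If `U` and `V` are twisted functions of the same character `c`, then
the `q`-expansions of `U ^ p` and `V ^ p` differ by the `p`-th power of a nonzero element of the
function field `F_ℂ` of `X₀(N)` over `ℂ`. -/
theorem exists_pow_mul_eq_of_isTwisted {c : G0 N → ZMod p} {U V : ℍ → ℂ}
    (hU : IsTwisted N p c U) (hV : IsTwisted N p c V) :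
    ∃ g : LaurentSeries ℂ, g ∈ H882.FC N ∧ g ≠ 0 ∧
      H708.qexpFun 1 (fun τ => U τ ^ p) = g ^ p * H708.qexpFun 1 (fun τ => V τ ^ p) := by
  set W : ℍ → ℂ := fun τ => U τ * V τ ^ (p - 1) with hWdef
  have hW : W ∈ H648.goodRing N := mul_pow_pred_mem_goodRing N p hU hV
  have hWm := H882.isMerInf_of_mem_goodRing hW
  have hUm := H882.isMerInf_of_mem_goodRing hU.pow_mem
  have hVm := H882.isMerInf_of_mem_goodRing hV.pow_mem
  set w := H708.qexpFun 1 W with hw
  set a := H708.qexpFun 1 (fun τ => U τ ^ p) with ha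
  set b := H708.qexpFun 1 (fun τ => V τ ^ p) with hb
  have hwFC : w ∈ H882.FC N := H882.qexpFun_mem_FC hW
  have hbFC : b ∈ H882.FC N := H882.qexpFun_mem_FC hV.pow_mem
  have hb0 : b ≠ 0 := qexpFun_pow_ne_zero_of_isTwisted N p hV
  have ha0 : a ≠ 0 := qexpFun_pow_ne_zero_of_isTwisted N p hU
  -- `w ^ p = a * b ^ (p - 1)`
  have hfun : W ^ p = (fun τ => U τ ^ p) * (fun τ => V τ ^ p) ^ (p - 1) := by
    funext τ
    simp only [hWdef, Pi.mul_apply, Pi.pow_apply]
    rw [mul_pow, ← pow_mul, ← pow_mul, mul_comm (p - 1) p]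
  have hwp : w ^ p = a * b ^ (p - 1) := by
    rw [hw, ← qexpFun_pow' hWm p, hfun, H708.qexpFun_mul hUm (hVm.pow (p - 1)),
      qexpFun_pow' hVm (p - 1)]
  have hp1 : p - 1 + 1 = p := Nat.sub_add_cancel (Nat.one_le_iff_ne_zero.mpr (NeZero.ne p))
  refine ⟨w * b⁻¹, mul_mem hwFC (inv_mem hbFC), ?_, ?_⟩
  · refine mul_ne_zero ?_ (inv_ne_zero hb0)
    intro h0
    rw [h0, zero_pow (NeZero.ne p)] at hwp
    exact mul_ne_zero ha0 (pow_ne_zero _ hb0) hwp.symm
  · rw [mul_pow, hwp, inv_pow]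
    have hbp : b ^ p = b ^ (p - 1) * b := by rw [← pow_succ, hp1]
    rw [hbp, mul_inv]
    field_simp

/-- Variant of (B) for data in the shape of `IsKum`: if `qexp (U ^ p) = f * t ^ p` and
`qexp (V ^ p) = f' * t' ^ p` with `U`, `V` twisted of the same character, `t, t' ≠ 0`, then
`f = g ^ p * f'` for some nonzero `g ∈ F_ℂ` (provided `t, t' ∈ F_ℂ`). -/
theorem exists_pow_mul_eq_of_realised {c : G0 N → ZMod p} {U V : ℍ → ℂ}
    (hU : IsTwisted N p c U) (hV : IsTwisted N p c V) {f t f' t' : LaurentSeries ℂ}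
    (ht : t ∈ H882.FC N) (ht0 : t ≠ 0) (ht' : t' ∈ H882.FC N) (ht0' : t' ≠ 0)
    (hf : H708.qexpFun 1 (fun τ => U τ ^ p) = f * t ^ p)
    (hf' : H708.qexpFun 1 (fun τ => V τ ^ p) = f' * t' ^ p) :
    ∃ g : LaurentSeries ℂ, g ∈ H882.FC N ∧ g ≠ 0 ∧ f = g ^ p * f' := by
  obtain ⟨g, hg, hg0, h⟩ := exists_pow_mul_eq_of_isTwisted N p hU hV
  refine ⟨g * t' * t⁻¹, mul_mem (mul_mem hg ht') (inv_mem ht),
    mul_ne_zero (mul_ne_zero hg0 ht0') (inv_ne_zero ht0), ?_⟩
  rw [hf, hf'] at h
  have htp : t ^ p ≠ 0 := pow_ne_zero _ ht0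
  rw [mul_pow, mul_pow, inv_pow]
  field_simp
  rw [h]
  ring

end Fermat.Agent.S29.H942

end
end
-- ===== PACK-END S29/H942/SameChar.lean

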