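import Fermat.Prelude.Def_FLTPrelim_Ramification
import Fermat.Agent.Pack.S3234.G0E5L2
import Fermat.Agent.Pack.S3234.G0E7L1
import Fermat.Agent.Pack.S3234.G0E5L1
import Fermat.Agent.Pack.S3234.G0E7L0
import Fermat.Agent.Pack.S3234.G0E7L2
import Fermat.Agent.Pack.S3234.G0E2L0
import Fermat.Agent.Pack.S3234.G0E1L1
import Fermat.Agent.Pack.S3234.G0E6L1
import Fermat.Agent.Pack.S3234.G0E3L3
import Fermat.Agent.Pack.S3234.G0E6L0

-- ===== PACK-BEGIN S37/H98/Gen.lean
section






/-!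
# S37, piece R-f [GEN] (helper98): `PrincipalGeneratedByIntegral` unconditionally

`gen N ℓ hℓ hℓN A hA : PrincipalGeneratedByIntegral A (IsLocalRing.residue A) N`
for every valuation subring `A` of `ℚ̄` over a prime `ℓ ∤ N`: the field `gen` of
`Core.PlaceRed` / `Core.GeoRed` (second half of the Prelude `ReductionInputsModL A N`).

Assembly of landed pieces only:
* `H700.pgi` (helper700): PGI from `S28.CoreData N k` and `HasPrincipalDivisors ℚ̄ F̄_N`;
* `S28.H867.coreData_of_inputs` + `H807` + `H25` (row S28): `CoreData N k` for every field `k`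
  of characteristic `ℓ ∤ N`;
* `Lib.RR.H864.hasPrincipalDivisors_modularFunctionFieldBar` (from row S24).
Also exported: `charP_residueField` (the residue field of `A` has characteristic `ℓ`),
`coreData_residueField`, and `reduction_mem` (hypothesis `hyk` of the Prelude property (ii) is
automatic).
-/

set_option autoImplicit false
set_option synthInstance.maxHeartbeats 400000

noncomputable section

namespace Fermat.Agent.S37.H98

open ModularCurve ValuationSubring AlgebraicCurve HahnSeries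

/-- The residue field of a valuation subring over the prime `ℓ` has characteristic `ℓ`. -/
theorem charP_residueField {L : Type*} [Field L] (A : ValuationSubring L) (ℓ : ℕ)
    (hℓ : ℓ.Prime) (hA : A.LiesOverPrime ℓ) : CharP (IsLocalRing.ResidueField A) ℓ := by
  have hℓm : ((ℓ : ℕ) : A) ∈ IsLocalRing.maximalIdeal A := by
    obtain ⟨ha, hm⟩ := (ValuationSubring.mem_nonunits_iff_exists_mem_maximalIdeal).mp hA
    have : (⟨(ℓ : L), ha⟩ : A) = ((ℓ : ℕ) : A) := by
      apply Subtype.ext; simp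
    rwa [this] at hm
  have h0 : ((ℓ : ℕ) : IsLocalRing.ResidueField A) = 0 := by
    have := (IsLocalRing.residue_eq_zero_iff ((ℓ : ℕ) : A)).mpr hℓm
    rwa [map_natCast] at this
  have : Fact ℓ.Prime := ⟨hℓ⟩
  exact (CharP.charP_iff_prime_eq_zero hℓ).mpr h0

/-- `S28.CoreData` over the residue field of a valuation subring of `ℚ̄` over `ℓ ∤ N`. -/
theorem coreData_residueField (N : ℕ) [NeZero N] (ℓ : ℕ) (hℓ : ℓ.Prime) (hℓN : ¬ ℓ ∣ N)
    (A : ValuationSubring (AlgebraicClosure ℚ)) (hA : A.LiesOverPrime ℓ) :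
    Fermat.Agent.S28.CoreData N (IsLocalRing.ResidueField A) := by
  have : Fact ℓ.Prime := ⟨hℓ⟩
  have : CharP (IsLocalRing.ResidueField A) ℓ := charP_residueField A ℓ hℓ hA
  exact Fermat.Agent.S28.H867.coreData_of_inputs N ℓ hℓN (IsLocalRing.ResidueField A)
    (fun p hp _ _ => Fermat.Agent.S28.H807.nonempty_modPolyData p hp)
    (fun p hp _ _ => Fermat.Agent.S28.H807.nonempty_unitPolyData p hp)
    Fermat.Agent.S28.H25.theta_identity

/-- **R-f [GEN]**: every principal divisor of `ℚ̄(X₀(N))` is generated by divisors of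
Gauss-integral functions with nonzero reduction (Prelude `PrincipalGeneratedByIntegral`), for
every valuation subring `A` of `ℚ̄` over a prime `ℓ ∤ N`. -/
theorem gen (N : ℕ) [NeZero N] (ℓ : ℕ) (hℓ : ℓ.Prime) (hℓN : ¬ ℓ ∣ N)
    (A : ValuationSubring (AlgebraicClosure ℚ)) (hA : A.LiesOverPrime ℓ) :
    PrincipalGeneratedByIntegral A (IsLocalRing.residue A) N := by
  have := Fermat.Agent.Lib.RR.H864.hasPrincipalDivisors_modularFunctionFieldBar N
  exact Fermat.Agent.S37.H700.pgi (coreData_residueField N ℓ hℓ hℓN A hA)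

/-- Reductions of Gauss-integral elements of `ℚ̄(X₀(N))` lie in the function field of the
special fibre: the hypothesis `hyk` of the Prelude property (ii) is automatic. -/
theorem reduction_mem (N : ℕ) [NeZero N] (ℓ : ℕ) (hℓ : ℓ.Prime) (hℓN : ¬ ℓ ∣ N)
    (A : ValuationSubring (AlgebraicClosure ℚ)) (hA : A.LiesOverPrime ℓ)
    (u : LaurentSeries A) (hu : coeffMap A.subtype u ∈ modularFunctionFieldBar N) :
    coeffMap (IsLocalRing.residue A) u ∈
      modularFunctionFieldFullC (IsLocalRing.ResidueField A) N :=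
  Fermat.Agent.S37.H700.reduction_mem (coreData_residueField N ℓ hℓ hℓN A hA) u hu

end Fermat.Agent.S37.H98

end
end
-- ===== PACK-END S37/H98/Gen.lean

-- ===== PACK-BEGIN S18/H804/ValPlaceModular.lean
section



/-!
# S18 / GLUE input for the modular function field `F_M = ℚ̄(j(q^d) : d ∣ M)`  (helper804)

* `exists_place_of_valuationSubring_modular` : every proper valuation subring of `F_M` containing
  `ℚ̄` is the valuation ring of a `Place`.
* `exists_mul_pow_unit_modular` : Place-divisibility of the divisor of `u` by `m` gives the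
  valuation-subring form used in `Alg.AlgMainStatement`.
-/

set_option autoImplicit false

namespace Fermat.Agent.S18.H804

open AlgebraicCurve ModularCurve Fermat.Agent.S24

variable (M : ℕ) [NeZero M]

theorem exists_place_of_valuationSubring_modular
    (O : ValuationSubring ↥(modularFunctionFieldBar M))
    (hK : ∀ a : AlgebraicClosure ℚ,
      algebraMap (AlgebraicClosure ℚ) ↥(modularFunctionFieldBar M) a ∈ O) (hO : O ≠ ⊤) :
    ∃ v : Place (AlgebraicClosure ℚ) ↥(modularFunctionFieldBar M), v.toValuationSubring = O :=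
  haveI := Fermat.Agent.Lib.RR.H804.finiteDimensional_jF M
  exists_place_of_valuationSubring (Fermat.Agent.Lib.RR.H804.transcendental_jF M) O hK hO

theorem exists_mul_pow_unit_modular (m : ℕ) (u : ↥(modularFunctionFieldBar M)) (hu : u ≠ 0)
    (hdiv : ∀ v : Place (AlgebraicClosure ℚ) ↥(modularFunctionFieldBar M), (m : ℤ) ∣ v.ord u)
    (O : ValuationSubring ↥(modularFunctionFieldBar M))
    (hK : ∀ a : AlgebraicClosure ℚ,
      algebraMap (AlgebraicClosure ℚ) ↥(modularFunctionFieldBar M) a ∈ O) :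
    ∃ t : ↥(modularFunctionFieldBar M), t ≠ 0 ∧ u * t ^ m ∈ O ∧ (u * t ^ m)⁻¹ ∈ O :=
  haveI := Fermat.Agent.Lib.RR.H804.finiteDimensional_jF M
  exists_mul_pow_unit (Fermat.Agent.Lib.RR.H804.transcendental_jF M) m u hu hdiv O hK

end Fermat.Agent.S18.H804

end
-- ===== PACK-END S18/H804/ValPlaceModular.lean

-- ===== PACK-BEGIN S18/H558/BranchJ.lean
section



/-!
# S18 / MOD M2 (part 1): char-0 ramification of `F_M / ℚ̄(j)` in Prelude `Place` language

From the landed S24 analytic core (`H997.analyticCore`, `H117` local theorem), for every level `N`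
(`FF N = modularFunctionFieldBar N`, `jF N` the `j`-function, `Kbar = ℚ̄`):

* `ord_j_sub_eq_one`   : `a ≠ 0`, `a ≠ 1728`, `0 < v.ord (j - a)` ⟹ `v.ord (j - a) = 1`;
* `ord_j_dvd_three`    : `0 < v.ord j` ⟹ `v.ord j ∣ 3`;
* `ord_j_sub_1728_dvd_two` : `0 < v.ord (j - 1728)` ⟹ `v.ord (j - 1728) ∣ 2`;
* `finrank_jF`         : `[FF N : ℚ̄(j)] = #(SL₂(ℤ)/Γ₀(N))`.
-/

set_option autoImplicit false

noncomputable section

open AlgebraicCurve ModularCurve
open scoped MatrixGroups

namespace Fermat.Agent.S18.H558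

open Fermat.Agent.S24

variable (N : ℕ) [NeZero N]

/-- `-1` acts trivially on `SL₂(ℤ) / Γ₀(N)`. -/
theorem permOf_neg_one : permOf N (-1 : SL(2, ℤ)) = 1 := by
  ext x
  obtain ⟨g, rfl⟩ := QuotientGroup.mk_surjective x
  show ((-1 : SL(2, ℤ)) • (g : XX N)) = (g : XX N)
  rw [MulAction.Quotient.smul_mk, smul_eq_mul]
  apply QuotientGroup.eq.mpr
  have hinv : ((-1 : SL(2, ℤ)))⁻¹ = -1 := by
    rw [inv_eq_iff_eq_inv, eq_comm, inv_eq_iff_mul_eq_one, neg_mul_neg, one_mul]
  have h : (-1 * g)⁻¹ * g = (-1 : SL(2, ℤ)) := by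
    rw [neg_one_mul, ← mul_neg_one, mul_inv_rev, mul_assoc, inv_mul_cancel, mul_one, hinv]
  rw [h, CongruenceSubgroup.Gamma0_mem]
  simp

omit [NeZero N] in
theorem permOf_mul (g h : SL(2, ℤ)) : permOf N (g * h) = permOf N g * permOf N h := by
  ext x
  simp [permOf, mul_smul]

theorem permOf_pow (g : SL(2, ℤ)) (n : ℕ) : permOf N (g ^ n) = permOf N g ^ n := by
  induction n with
  | zero => simp [H997.permOf_one]
  | succ n ih => rw [pow_succ, pow_succ, permOf_mul, ih]

theorem S_sq : ModularGroup.S ^ 2 = (-1 : SL(2, ℤ)) := by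
  apply Subtype.ext
  rw [pow_two, Matrix.SpecialLinearGroup.coe_mul, ModularGroup.coe_S,
    Matrix.SpecialLinearGroup.coe_neg, Matrix.SpecialLinearGroup.coe_one]
  ext i j
  fin_cases i <;> fin_cases j <;> simp [Matrix.mul_apply, Fin.sum_univ_two]

theorem ST_cube : (ModularGroup.S * ModularGroup.T) ^ 3 = (-1 : SL(2, ℤ)) := by
  apply Subtype.ext
  rw [pow_succ, pow_two, Matrix.SpecialLinearGroup.coe_mul, Matrix.SpecialLinearGroup.coe_mul,
    Matrix.SpecialLinearGroup.coe_mul, ModularGroup.coe_S, ModularGroup.coe_T,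
    Matrix.SpecialLinearGroup.coe_neg, Matrix.SpecialLinearGroup.coe_one]
  ext i j
  fin_cases i <;> fin_cases j <;> simp [Matrix.mul_apply, Fin.sum_univ_two]

theorem permOf_inv_pow_eq_one (g : SL(2, ℤ)) (n : ℕ) (hg : g ^ n = -1) :
    (permOf N g⁻¹) ^ n = 1 := by
  rw [H997.permOf_inv, inv_pow, ← permOf_pow, hg, permOf_neg_one, inv_one]

/-- The degree of `F_N` over `ℚ̄(j)`. -/
theorem finrank_jF :
    FiniteDimensional ↥(IntermediateField.adjoin Kbar {jF N}) (FF N) ∧
      Module.finrank ↥(IntermediateField.adjoin Kbar {jF N}) (FF N) = Nat.card (XX N) := by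
  obtain ⟨hfd, hle⟩ := Deg457.degree_fields N
  exact ⟨hfd, le_antisymm hle (H997.analyticCore N).card_le_finrank⟩

/-- Generic values of `j` are unramified. -/
theorem ord_j_sub_eq_one (a : Kbar) (h0 : a ≠ 0) (h1 : a ≠ 1728) (v : Place Kbar (FF N))
    (hv : 0 < v.ord (jF N - algebraMap Kbar (FF N) a)) :
    v.ord (jF N - algebraMap Kbar (FF N) a) = 1 := by
  obtain ⟨hfd, hrank⟩ := finrank_jF N
  obtain ⟨Z, -, -, -, h⟩ := local_fin (jF N) hrank a ((H997.analyticCore N).dataFin a)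
  exact h ((H997.analyticCore N).dataFin_perm_generic a h0 h1) v hv

/-- General divisibility: if the `n`-th power of the monodromy at `a` is trivial, every zero of
`j - a` has order dividing `n`. -/
theorem ord_j_sub_dvd (a : Kbar) (n : ℕ)
    (hperm : ((H997.analyticCore N).dataFin a).perm ^ n = 1) (v : Place Kbar (FF N))
    (hv : 0 < v.ord (jF N - algebraMap Kbar (FF N) a)) :
    v.ord (jF N - algebraMap Kbar (FF N) a) ∣ (n : ℤ) := by
  obtain ⟨hfd, hrank⟩ := finrank_jF N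
  set L := (H997.analyticCore N).dataFin a with hL
  have hE : IntermediateField.adjoin Kbar {jF N} ≤
      IntermediateField.adjoin Kbar {jF N - algebraMap Kbar (FF N) a} :=
    (adjoin_sub_algebraMap Kbar (jF N) a).ge
  obtain ⟨x, rfl⟩ := H117.exists_placeOf_eq L _ hE hrank v hv
  exact H117.ord_t_dvd_of_pow_apply_eq L x n (by rw [hperm]; rfl)

theorem dataFin_zero_perm_eq :
    ((H997.analyticCore N).dataFin 0).perm = permOf N (ModularGroup.S * ModularGroup.T)⁻¹ := by
  unfold H997.AnalyticCore.dataFin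
  rw [dif_pos rfl]
  rfl

theorem dataFin_1728_perm_eq :
    ((H997.analyticCore N).dataFin 1728).perm = permOf N (ModularGroup.S)⁻¹ := by
  have h0 : (1728 : Kbar) ≠ 0 := by norm_num
  unfold H997.AnalyticCore.dataFin
  rw [dif_neg h0, dif_pos rfl]
  rfl

/-- Zeros of `j` have order `1` or `3`. -/
theorem ord_j_dvd_three (v : Place Kbar (FF N)) (hv : 0 < v.ord (jF N)) :
    v.ord (jF N) ∣ 3 := by
  have h := ord_j_sub_dvd N 0 3
    (by rw [dataFin_zero_perm_eq]; exact permOf_inv_pow_eq_one N _ 3 ST_cube) v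
    (by rwa [map_zero, sub_zero])
  rw [map_zero, sub_zero] at h
  exact_mod_cast h

/-- Zeros of `j - 1728` have order `1` or `2`. -/
theorem ord_j_sub_1728_dvd_two (v : Place Kbar (FF N))
    (hv : 0 < v.ord (jF N - algebraMap Kbar (FF N) 1728)) :
    v.ord (jF N - algebraMap Kbar (FF N) 1728) ∣ 2 := by
  have h := ord_j_sub_dvd N 1728 2
    (by rw [dataFin_1728_perm_eq]; exact permOf_inv_pow_eq_one N _ 2 S_sq) v hv
  exact_mod_cast h

end Fermat.Agent.S18.H558

end
end
-- ===== PACK-END S18/H558/BranchJ.lean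

-- ===== PACK-BEGIN S18/H558/BranchT2.lean
section


/-!
# S18 / MOD M2 (part 2): ramification of `F_M / ℚ̄(t)` for the Hauptmodul `t = t₂` of `X₀(2)`

Hypothesis (proved elsewhere, piece c3-i): `t ∈ FF M` with `j * t ^ 2 = (t + 256) ^ 3`.
Then `F_M / ℚ̄(t)` is unramified outside `t ∈ {0, -64, ∞}`:

* `ord_t2_sub_eq_one` : `c ≠ 0`, `c ≠ -64`, `0 < v.ord (t - c)` ⟹ `v.ord (t - c) = 1`;
* `ord_t2_add_64_dvd_two` : `0 < v.ord (t + 64)` ⟹ `v.ord (t + 64) ∣ 2`;
* `ord_t2_inv_sub_eq_one` : the same in the coordinate `1/t` (chart at infinity).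
-/

set_option autoImplicit false

noncomputable section

open AlgebraicCurve ModularCurve

namespace Fermat.Agent.S18.H558

open Fermat.Agent.S24

section Generic

variable {K F : Type*} [Field K] [Field F] [Algebra K F] (v : Place K F)

/-- A nonzero constant plus an element of positive order has order `0`. -/
theorem ord_const_add {g : K} (hg : g ≠ 0) {z : F} (hz : 0 < v.ord z) :
    v.ord (algebraMap K F g + z) = 0 := by
  have hg' : algebraMap K F g ≠ 0 := (map_ne_zero _).2 hg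
  have h0 : v.ord (algebraMap K F g) = 0 := H117.ord_algebraMap v g
  rw [H117.ord_add_eq_of_lt v (by rw [h0]; exact hz) hg', h0]

/-- A nonzero constant plus `T * y` with `0 < ord T`, `y` integral, has order `0`. -/
theorem ord_const_add_mul {g : K} (hg : g ≠ 0) {T y : F} (hT : 0 < v.ord T)
    (hy : y ∈ v.toValuationSubring) : v.ord (algebraMap K F g + T * y) = 0 := by
  rcases eq_or_ne y 0 with rfl | hy0
  · rw [mul_zero, add_zero]; exact H117.ord_algebraMap v g
  · have hT0 : T ≠ 0 := H117.ne_zero_of_ord_ne_zero v hT.ne'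
    refine ord_const_add v hg ?_
    rw [v.ord_mul hT0 hy0]
    have := H117.ord_nonneg_of_mem v hy
    omega

/-- If `0 < ord (t - c)` then `t` is integral at `v`. -/
theorem mem_of_ord_sub_pos {t : F} {c : K} (h : 0 < v.ord (t - algebraMap K F c)) :
    t ∈ v.toValuationSubring := by
  have h1 : t - algebraMap K F c ∈ v.toValuationSubring := H117.mem_of_ord_nonneg v h.le
  have h2 : algebraMap K F c ∈ v.toValuationSubring := v.algebraMap_mem' c
  have := add_mem h1 h2
  rwa [sub_add_cancel] at this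

/-- If `0 < ord (t - c)` and `c ≠ 0` then `ord t = 0`. -/
theorem ord_eq_zero_of_ord_sub_pos {t : F} {c : K} (hc : c ≠ 0)
    (h : 0 < v.ord (t - algebraMap K F c)) : v.ord t = 0 := by
  have := ord_const_add v hc h
  rwa [add_sub_cancel] at this

/-- Nonvanishing version of `ord_const_add_mul`. -/
theorem const_add_mul_ne_zero {g : K} (hg : g ≠ 0) {T y : F} (hT : 0 < v.ord T)
    (hy : y ∈ v.toValuationSubring) : algebraMap K F g + T * y ≠ 0 := by
  intro h
  rcases eq_or_ne y 0 with rfl | hy0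
  · rw [mul_zero, add_zero] at h
    exact hg ((map_eq_zero _).1 h)
  · have hT0 : T ≠ 0 := H117.ne_zero_of_ord_ne_zero v hT.ne'
    have h1 : T * y = algebraMap K F (-g) := by
      rw [map_neg, eq_neg_iff_add_eq_zero, add_comm]; exact h
    have h2 := congrArg v.ord h1
    rw [v.ord_mul hT0 hy0, H117.ord_algebraMap] at h2
    have := H117.ord_nonneg_of_mem v hy
    omega

/-- **Tower lemma.**  If `J * D = T ^ k * U` with `D`, `U` units at `v`, then
`ord J = k * ord T`. -/
theorem ord_eq_of_key {J D T U : F} (k : ℕ) (hkey : J * D = T ^ k * U)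
    (hD0 : D ≠ 0) (hD : v.ord D = 0) (hU0 : U ≠ 0) (hU : v.ord U = 0) (hT0 : T ≠ 0) :
    J ≠ 0 ∧ v.ord J = k * v.ord T := by
  have hJ0 : J ≠ 0 := by
    intro h
    rw [h, zero_mul] at hkey
    exact (mul_ne_zero (pow_ne_zero k hT0) hU0) hkey.symm
  refine ⟨hJ0, ?_⟩
  have h1 := congrArg v.ord hkey
  rw [v.ord_mul hJ0 hD0, v.ord_mul (pow_ne_zero k hT0) hU0, H117.ord_pow, hD, hU] at h1
  simpa using h1

/-- A positive integer `e` with `k * e ∣ k` (`k > 0`) is `1`. -/
theorem eq_one_of_mul_dvd {k : ℕ} (hk : 0 < k) {e : ℤ} (he : 0 < e) (h : (k : ℤ) * e ∣ (k : ℤ)) :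
    e = 1 := by
  have hk' : (k : ℤ) ≠ 0 := by exact_mod_cast hk.ne'
  have h1 : (k : ℤ) * e ∣ (k : ℤ) * 1 := by rwa [mul_one]
  have h2 : e ∣ 1 := (mul_dvd_mul_iff_left hk').mp h1
  exact Int.eq_one_of_dvd_one he.le h2

end Generic

section T2

variable (M : ℕ) [NeZero M] (t : FF M) (hid : jF M * t ^ 2 = (t + 256) ^ 3)

include hid

theorem t2_ne_zero : t ≠ 0 := by
  rintro rfl
  norm_num at hid

/-- Places over `t = -64`: ramification index `1` or `2`. -/
theorem ord_t2_add_64_dvd_two (v : Place Kbar (FF M))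
    (hv : 0 < v.ord (t - algebraMap Kbar (FF M) (-64))) :
    v.ord (t - algebraMap Kbar (FF M) (-64)) ∣ 2 := by
  set T := t - algebraMap Kbar (FF M) (-64) with hT
  have ht0 : t ≠ 0 := t2_ne_zero M t hid
  have hT0 : T ≠ 0 := H117.ne_zero_of_ord_ne_zero v hv.ne'
  have htv : v.ord t = 0 := ord_eq_zero_of_ord_sub_pos v (by norm_num) hv
  have htmem : t ∈ v.toValuationSubring := mem_of_ord_sub_pos v hv
  have hTmem : T ∈ v.toValuationSubring := H117.mem_of_ord_nonneg v hv.le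
  -- (j - 1728) t^2 = (t + 64) (t - 512)^2
  have key : (jF M - algebraMap Kbar (FF M) 1728) * t ^ 2
      = T * (algebraMap Kbar (FF M) (-576) + T * 1) ^ 2 := by
    have e1 : algebraMap Kbar (FF M) (-64) = -64 := by rw [map_neg, map_ofNat]
    have e2 : algebraMap Kbar (FF M) 1728 = 1728 := map_ofNat _ _
    have e3 : algebraMap Kbar (FF M) (-576) = -576 := by rw [map_neg, map_ofNat]
    rw [hT, e1, e2, e3]
    linear_combination hid
  have hU : v.ord (algebraMap Kbar (FF M) (-576) + T * 1) = 0 :=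
    ord_const_add_mul v (by norm_num) hv (one_mem _)
  have hU0 : algebraMap Kbar (FF M) (-576) + T * 1 ≠ 0 := by
    intro h
    have h2 : t ^ 2 ≠ 0 := pow_ne_zero 2 ht0
    rw [h] at key
    simp only [ne_eq, OfNat.ofNat_ne_zero, not_false_eq_true, zero_pow, mul_zero, mul_eq_zero,
      h2, or_false] at key
    -- j = 1728, so `j` would be constant; contradiction with hid? use orders instead
    have hj : jF M = algebraMap Kbar (FF M) 1728 := sub_eq_zero.mp key
    have ht512 : t = algebraMap Kbar (FF M) 512 := by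
      have : t = algebraMap Kbar (FF M) (-64) + T := by rw [hT]; ring
      have hT' : T = algebraMap Kbar (FF M) 576 := by
        have : T * 1 = -algebraMap Kbar (FF M) (-576) := by
          rw [eq_neg_iff_add_eq_zero, add_comm]; exact h
        rw [mul_one] at this
        rw [this, ← map_neg]; norm_num
      rw [this, hT', ← map_add]; norm_num
    have : v.ord T = 0 := by
      have hT' : T = algebraMap Kbar (FF M) 576 := by
        rw [hT, ht512, ← map_sub]; norm_num
      rw [hT']; exact H117.ord_algebraMap v _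
    omega
  have hj0 : jF M - algebraMap Kbar (FF M) 1728 ≠ 0 := by
    intro h
    rw [h, zero_mul] at key
    have := mul_ne_zero hT0 (pow_ne_zero 2 hU0)
    exact this key.symm
  have hord : v.ord (jF M - algebraMap Kbar (FF M) 1728) = v.ord T := by
    have h1 := congrArg v.ord key
    rw [v.ord_mul hj0 (pow_ne_zero 2 ht0), v.ord_mul hT0 (pow_ne_zero 2 hU0),
      H117.ord_pow, H117.ord_pow, htv, hU] at h1
    simpa using h1
  have hpos : 0 < v.ord (jF M - algebraMap Kbar (FF M) 1728) := by rw [hord]; exact hv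
  have := ord_j_sub_1728_dvd_two M v hpos
  rwa [hord] at this

end T2

end Fermat.Agent.S18.H558

namespace Fermat.Agent.S18.H558

open Fermat.Agent.S24

section T2main

variable (M : ℕ) [NeZero M] (t : FF M) (hid : jF M * t ^ 2 = (t + 256) ^ 3)

include hid

/-- **`F_M / ℚ̄(t₂)` is unramified outside `t₂ ∈ {0, -64, ∞}`.** -/
theorem ord_t2_sub_eq_one (c : Kbar) (hc0 : c ≠ 0) (hc64 : c ≠ -64) (v : Place Kbar (FF M))
    (hv : 0 < v.ord (t - algebraMap Kbar (FF M) c)) :
    v.ord (t - algebraMap Kbar (FF M) c) = 1 := by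
  set C : FF M := algebraMap Kbar (FF M) c with hC
  set T := t - C with hT
  have ht0 : t ≠ 0 := t2_ne_zero M t hid
  have hT0 : T ≠ 0 := H117.ne_zero_of_ord_ne_zero v hv.ne'
  have htv : v.ord t = 0 := ord_eq_zero_of_ord_sub_pos v hc0 hv
  have htmem : t ∈ v.toValuationSubring := mem_of_ord_sub_pos v hv
  have hCmem : C ∈ v.toValuationSubring := v.algebraMap_mem' c
  have hC0 : C ≠ 0 := (map_ne_zero _).2 hc0
  have hCv : v.ord C = 0 := H117.ord_algebraMap v c
  have ht2 : v.ord (t ^ 2) = 0 := by rw [H117.ord_pow, htv]; simp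
  by_cases h256 : c = -256
  · -- `j t² = (t + 256)³`
    have hCe : C = -256 := by rw [hC, h256, map_neg, map_ofNat]
    have key : jF M * t ^ 2 = T ^ 3 * 1 := by
      rw [hT, hCe]; linear_combination hid
    obtain ⟨hJ0, hJ⟩ := ord_eq_of_key v 3 key (pow_ne_zero 2 ht0) ht2 one_ne_zero v.ord_one hT0
    have hpos : 0 < v.ord (jF M) := by rw [hJ]; positivity
    have h3 := ord_j_dvd_three M v hpos
    rw [hJ] at h3
    exact eq_one_of_mul_dvd (k := 3) (by norm_num) hv (by exact_mod_cast h3)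
  by_cases h512 : c = 512
  · -- `(j - 1728) t² = (t - 512)² (t + 64)`
    have hCe : C = 512 := by rw [hC, h512, map_ofNat]
    have e2 : algebraMap Kbar (FF M) 1728 = 1728 := map_ofNat _ _
    have e3 : algebraMap Kbar (FF M) 576 = 576 := map_ofNat _ _
    have key : (jF M - algebraMap Kbar (FF M) 1728) * t ^ 2
        = T ^ 2 * (algebraMap Kbar (FF M) 576 + T * 1) := by
      rw [hT, hCe, e2, e3]; linear_combination hid
    obtain ⟨hJ0, hJ⟩ := ord_eq_of_key v 2 key (pow_ne_zero 2 ht0) ht2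
      (const_add_mul_ne_zero v (by norm_num) hv (one_mem _))
      (ord_const_add_mul v (by norm_num) hv (one_mem _)) hT0
    have hpos : 0 < v.ord (jF M - algebraMap Kbar (FF M) 1728) := by rw [hJ]; positivity
    have h2 := ord_j_sub_1728_dvd_two M v hpos
    rw [hJ] at h2
    exact eq_one_of_mul_dvd (k := 2) (by norm_num) hv (by exact_mod_cast h2)
  · -- generic case
    set a : Kbar := (c + 256) ^ 3 / c ^ 2 with ha
    have hc2 : c ^ 2 ≠ 0 := pow_ne_zero 2 hc0
    have hac : a * c ^ 2 = (c + 256) ^ 3 := by rw [ha]; field_simp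
    have ha0 : a ≠ 0 := by
      rw [ha]
      refine div_ne_zero (pow_ne_zero 3 ?_) hc2
      intro h
      exact h256 (eq_neg_of_add_eq_zero_left h)
    have ha1728 : a ≠ 1728 := by
      intro h
      rw [h] at hac
      have : (c + 64) * (c - 512) ^ 2 = 0 := by linear_combination -hac
      rcases mul_eq_zero.mp this with h1 | h1
      · exact hc64 (eq_neg_of_add_eq_zero_left h1)
      · exact h512 (sub_eq_zero.mp (pow_eq_zero_iff (by norm_num) |>.mp h1))
    set q : Kbar := c * (c + 256) ^ 2 * (c - 512) with hq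
    have hq0 : q ≠ 0 := by
      rw [hq]
      refine mul_ne_zero (mul_ne_zero hc0 (pow_ne_zero 2 ?_)) (sub_ne_zero.mpr h512)
      intro h
      exact h256 (eq_neg_of_add_eq_zero_left h)
    have hA : algebraMap Kbar (FF M) a * C ^ 2 = (C + 256) ^ 3 := by
      have := congrArg (algebraMap Kbar (FF M)) hac
      simpa [map_mul, map_pow, map_add, map_ofNat] using this
    have hQ : algebraMap Kbar (FF M) q = C * (C + 256) ^ 2 * (C - 512) := by
      rw [hq]; simp [map_mul, map_pow, map_add, map_sub, map_ofNat, hC]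
    set W : FF M := t * C ^ 2 + C ^ 3 - 196608 * C - 16777216 with hW
    have hWmem : W ∈ v.toValuationSubring := by
      have h1 : (196608 : FF M) ∈ v.toValuationSubring := by
        have := v.algebraMap_mem' (196608 : Kbar); rwa [map_ofNat] at this
      have h2 : (16777216 : FF M) ∈ v.toValuationSubring := by
        have := v.algebraMap_mem' (16777216 : Kbar); rwa [map_ofNat] at this
      exact sub_mem (sub_mem (add_mem (mul_mem htmem (pow_mem hCmem 2)) (pow_mem hCmem 3))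
        (mul_mem h1 hCmem)) h2
    have key : (jF M - algebraMap Kbar (FF M) a) * (t ^ 2 * C ^ 2)
        = T ^ 1 * (algebraMap Kbar (FF M) q + T * W) := by
      rw [hQ, hW, hT]
      linear_combination C ^ 2 * hid - t ^ 2 * hA
    have hD0 : t ^ 2 * C ^ 2 ≠ 0 := mul_ne_zero (pow_ne_zero 2 ht0) (pow_ne_zero 2 hC0)
    have hD : v.ord (t ^ 2 * C ^ 2) = 0 := by
      rw [v.ord_mul (pow_ne_zero 2 ht0) (pow_ne_zero 2 hC0), ht2, H117.ord_pow, hCv]; simp
    obtain ⟨hJ0, hJ⟩ := ord_eq_of_key v 1 key hD0 hD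
      (const_add_mul_ne_zero v hq0 hv hWmem) (ord_const_add_mul v hq0 hv hWmem) hT0
    have hJ' : v.ord (jF M - algebraMap Kbar (FF M) a) = v.ord T := by simpa using hJ
    have hpos : 0 < v.ord (jF M - algebraMap Kbar (FF M) a) := by rw [hJ']; exact hv
    rw [← hJ']
    exact ord_j_sub_eq_one M a ha0 ha1728 v hpos

/-- The same statement in the coordinate `s = 1/t` (chart at infinity): unramified outside
`s ∈ {0, -1/64}`. -/
theorem ord_t2_inv_sub_eq_one (s : Kbar) (hs0 : s ≠ 0) (hs64 : s ≠ -(1 / 64))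
    (v : Place Kbar (FF M)) (hv : 0 < v.ord (t⁻¹ - algebraMap Kbar (FF M) s)) :
    v.ord (t⁻¹ - algebraMap Kbar (FF M) s) = 1 := by
  have ht0 : t ≠ 0 := t2_ne_zero M t hid
  have hti : v.ord t⁻¹ = 0 := ord_eq_zero_of_ord_sub_pos v hs0 hv
  have htv : v.ord t = 0 := by rw [v.ord_inv] at hti; omega
  set S : FF M := algebraMap Kbar (FF M) s with hS
  have hS0 : S ≠ 0 := (map_ne_zero _).2 hs0
  have hSv : v.ord S = 0 := H117.ord_algebraMap v s
  -- `t⁻¹ - s = -(s / t) (t - 1/s)`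
  have hrel : t⁻¹ - S = (-(S * t⁻¹)) * (t - algebraMap Kbar (FF M) s⁻¹) := by
    rw [map_inv₀, ← hS]
    have h1 : S * S⁻¹ = 1 := mul_inv_cancel₀ hS0
    have h2 : t * t⁻¹ = 1 := mul_inv_cancel₀ ht0
    linear_combination (-t⁻¹) * h1 + S * h2
  have hne1 : -(S * t⁻¹) ≠ 0 := neg_ne_zero.mpr (mul_ne_zero hS0 (inv_ne_zero ht0))
  have hord1 : v.ord (-(S * t⁻¹)) = 0 := by
    rw [H117.ord_neg, v.ord_mul hS0 (inv_ne_zero ht0), hSv, hti]; rfl
  have hne2 : t - algebraMap Kbar (FF M) s⁻¹ ≠ 0 := by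
    intro h
    rw [h, mul_zero] at hrel
    rw [hrel, v.ord_zero] at hv
    exact lt_irrefl _ hv
  have hord : v.ord (t⁻¹ - S) = v.ord (t - algebraMap Kbar (FF M) s⁻¹) := by
    rw [hrel, v.ord_mul hne1 hne2, hord1, zero_add]
  rw [hord] at hv ⊢
  refine ord_t2_sub_eq_one M t hid s⁻¹ (inv_ne_zero hs0) ?_ v hv
  intro h
  apply hs64
  have : s = (s⁻¹)⁻¹ := (inv_inv s).symm
  rw [this, h]
  norm_num

end T2main

end Fermat.Agent.S18.H558

namespace Fermat.Agent.S18.H558

open Fermat.Agent.S24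

/-- `j`-line, chart at infinity: in the coordinate `s = 1/j`, `F_N / ℚ̄(j)` is unramified outside
`s ∈ {0, 1/1728}`. -/
theorem ord_j_inv_sub_eq_one (N : ℕ) [NeZero N] (s : Kbar) (hs0 : s ≠ 0) (hs : s ≠ 1 / 1728)
    (v : Place Kbar (FF N)) (hv : 0 < v.ord ((jF N)⁻¹ - algebraMap Kbar (FF N) s)) :
    v.ord ((jF N)⁻¹ - algebraMap Kbar (FF N) s) = 1 := by
  have hti : v.ord (jF N)⁻¹ = 0 := ord_eq_zero_of_ord_sub_pos v hs0 hv
  have ht0 : jF N ≠ 0 := by
    intro h
    rw [h, inv_zero, zero_sub, H117.ord_neg, H117.ord_algebraMap] at hv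
    exact lt_irrefl _ hv
  set S : FF N := algebraMap Kbar (FF N) s with hS
  have hS0 : S ≠ 0 := (map_ne_zero _).2 hs0
  have hSv : v.ord S = 0 := H117.ord_algebraMap v s
  have hrel : (jF N)⁻¹ - S = (-(S * (jF N)⁻¹)) * (jF N - algebraMap Kbar (FF N) s⁻¹) := by
    rw [map_inv₀, ← hS]
    have h1 : S * S⁻¹ = 1 := mul_inv_cancel₀ hS0
    have h2 : jF N * (jF N)⁻¹ = 1 := mul_inv_cancel₀ ht0
    linear_combination (-(jF N)⁻¹) * h1 + S * h2
  have hne1 : -(S * (jF N)⁻¹) ≠ 0 := neg_ne_zero.mpr (mul_ne_zero hS0 (inv_ne_zero ht0))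
  have hord1 : v.ord (-(S * (jF N)⁻¹)) = 0 := by
    rw [H117.ord_neg, v.ord_mul hS0 (inv_ne_zero ht0), hSv, hti]; rfl
  have hne2 : jF N - algebraMap Kbar (FF N) s⁻¹ ≠ 0 := by
    intro h
    rw [h, mul_zero] at hrel
    rw [hrel, v.ord_zero] at hv
    exact lt_irrefl _ hv
  have hord : v.ord ((jF N)⁻¹ - S) = v.ord (jF N - algebraMap Kbar (FF N) s⁻¹) := by
    rw [hrel, v.ord_mul hne1 hne2, hord1, zero_add]
  rw [hord] at hv ⊢
  refine ord_j_sub_eq_one N s⁻¹ (inv_ne_zero hs0) ?_ v hv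
  intro h
  apply hs
  have : s = (s⁻¹)⁻¹ := (inv_inv s).symm
  rw [this, h]
  norm_num

end Fermat.Agent.S18.H558

end
end
-- ===== PACK-END S18/H558/BranchT2.lean

-- ===== PACK-BEGIN S18/H558/BranchT3.lean
section


/-!
# S18 / MOD M2 (part 3): ramification of `F_M / ℚ̄(t)` for the Hauptmodul `t = t₃` of `X₀(3)`

Hypothesis (proved elsewhere, piece c3-i): `t ∈ FF M` with `j * t ^ 3 = (t + 27) * (t + 243) ^ 3`.
Then `F_M / ℚ̄(t)` is unramified outside `t ∈ {0, -27, ∞}`:

* `ord_t3_sub_eq_one` : `c ≠ 0`, `c ≠ -27`, `0 < v.ord (t - c)` ⟹ `v.ord (t - c) = 1`;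
* `ord_t3_add_27_dvd_three` : `0 < v.ord (t + 27)` ⟹ `v.ord (t + 27) ∣ 3`;
* `ord_t3_inv_sub_eq_one` : the same in the coordinate `1/t` (chart at infinity).
-/

set_option autoImplicit false

noncomputable section

open AlgebraicCurve ModularCurve

namespace Fermat.Agent.S18.H558

open Fermat.Agent.S24

section T3

variable (M : ℕ) [NeZero M] (t : FF M) (hid : jF M * t ^ 3 = (t + 27) * (t + 243) ^ 3)

include hid

theorem t3_ne_zero : t ≠ 0 := by
  rintro rfl
  norm_num at hid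

/-- Places over `t = -27`: ramification index `1` or `3`. -/
theorem ord_t3_add_27_dvd_three (v : Place Kbar (FF M))
    (hv : 0 < v.ord (t - algebraMap Kbar (FF M) (-27))) :
    v.ord (t - algebraMap Kbar (FF M) (-27)) ∣ 3 := by
  set T := t - algebraMap Kbar (FF M) (-27) with hT
  have ht0 : t ≠ 0 := t3_ne_zero M t hid
  have hT0 : T ≠ 0 := H117.ne_zero_of_ord_ne_zero v hv.ne'
  have htv : v.ord t = 0 := ord_eq_zero_of_ord_sub_pos v (by norm_num) hv
  have ht3 : v.ord (t ^ 3) = 0 := by rw [H117.ord_pow, htv]; simp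
  have e1 : algebraMap Kbar (FF M) (-27) = -27 := by rw [map_neg, map_ofNat]
  have e3 : algebraMap Kbar (FF M) 216 = 216 := map_ofNat _ _
  have key : jF M * t ^ 3 = T ^ 1 * (algebraMap Kbar (FF M) 216 + T * 1) ^ 3 := by
    rw [hT, e1, e3]; linear_combination hid
  have hU0 := const_add_mul_ne_zero v (g := (216 : Kbar)) (by norm_num) hv (one_mem _)
  have hU := ord_const_add_mul v (g := (216 : Kbar)) (by norm_num) hv (one_mem _)
  obtain ⟨hJ0, hJ⟩ := ord_eq_of_key v 1 key (pow_ne_zero 3 ht0) ht3 (pow_ne_zero 3 hU0)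
    (by rw [H117.ord_pow, hU]; simp) hT0
  have hJ' : v.ord (jF M) = v.ord T := by simpa using hJ
  have hpos : 0 < v.ord (jF M) := by rw [hJ']; exact hv
  have := ord_j_dvd_three M v hpos
  rwa [hJ'] at this

/-- **`F_M / ℚ̄(t₃)` is unramified outside `t₃ ∈ {0, -27, ∞}`.** -/
theorem ord_t3_sub_eq_one (c : Kbar) (hc0 : c ≠ 0) (hc27 : c ≠ -27) (v : Place Kbar (FF M))
    (hv : 0 < v.ord (t - algebraMap Kbar (FF M) c)) :
    v.ord (t - algebraMap Kbar (FF M) c) = 1 := by
  set C : FF M := algebraMap Kbar (FF M) c with hC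
  set T := t - C with hT
  have ht0 : t ≠ 0 := t3_ne_zero M t hid
  have hT0 : T ≠ 0 := H117.ne_zero_of_ord_ne_zero v hv.ne'
  have htv : v.ord t = 0 := ord_eq_zero_of_ord_sub_pos v hc0 hv
  have htmem : t ∈ v.toValuationSubring := mem_of_ord_sub_pos v hv
  have hCmem : C ∈ v.toValuationSubring := v.algebraMap_mem' c
  have hC0 : C ≠ 0 := (map_ne_zero _).2 hc0
  have hCv : v.ord C = 0 := H117.ord_algebraMap v c
  have ht3 : v.ord (t ^ 3) = 0 := by rw [H117.ord_pow, htv]; simp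
  by_cases h243 : c = -243
  · -- `j t³ = (t + 243)³ (t + 27)`
    have hCe : C = -243 := by rw [hC, h243, map_neg, map_ofNat]
    have e3 : algebraMap Kbar (FF M) (-216) = -216 := by rw [map_neg, map_ofNat]
    have key : jF M * t ^ 3 = T ^ 3 * (algebraMap Kbar (FF M) (-216) + T * 1) := by
      rw [hT, hCe, e3]; linear_combination hid
    obtain ⟨hJ0, hJ⟩ := ord_eq_of_key v 3 key (pow_ne_zero 3 ht0) ht3
      (const_add_mul_ne_zero v (by norm_num) hv (one_mem _))
      (ord_const_add_mul v (by norm_num) hv (one_mem _)) hT0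
    have hpos : 0 < v.ord (jF M) := by rw [hJ]; positivity
    have h3 := ord_j_dvd_three M v hpos
    rw [hJ] at h3
    exact eq_one_of_mul_dvd (k := 3) (by norm_num) hv (by exact_mod_cast h3)
  by_cases hquad : c ^ 2 - 486 * c - 19683 = 0
  · -- `(j - 1728) t³ = (t² - 486 t - 19683)² = (t - c)² (t - c')²`
    have e2 : algebraMap Kbar (FF M) 1728 = 1728 := map_ofNat _ _
    have hg : (2 * c - 486 : Kbar) ≠ 0 := by
      intro h
      have hc : c = 243 := by linear_combination h / 2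
      rw [hc] at hquad
      norm_num at hquad
    have hG : algebraMap Kbar (FF M) (2 * c - 486) = 2 * C - 486 := by
      simp [map_sub, map_mul, map_ofNat, hC]
    have hquad' : C ^ 2 - 486 * C - 19683 = 0 := by
      have := congrArg (algebraMap Kbar (FF M)) hquad
      simpa [map_sub, map_mul, map_pow, map_ofNat, hC] using this
    have key : (jF M - algebraMap Kbar (FF M) 1728) * t ^ 3
        = T ^ 2 * (algebraMap Kbar (FF M) (2 * c - 486) + T * 1) ^ 2 := by
      rw [hG, hT, e2]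
      linear_combination hid + (2 * t ^ 2 - 972 * t - 39366 - (C ^ 2 - 486 * C - 19683)) * hquad'
    have hU0 := const_add_mul_ne_zero v hg hv (one_mem _)
    have hU := ord_const_add_mul v hg hv (one_mem _)
    obtain ⟨hJ0, hJ⟩ := ord_eq_of_key v 2 key (pow_ne_zero 3 ht0) ht3 (pow_ne_zero 2 hU0)
      (by rw [H117.ord_pow, hU]; simp) hT0
    have hpos : 0 < v.ord (jF M - algebraMap Kbar (FF M) 1728) := by rw [hJ]; positivity
    have h2 := ord_j_sub_1728_dvd_two M v hpos
    rw [hJ] at h2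
    exact eq_one_of_mul_dvd (k := 2) (by norm_num) hv (by exact_mod_cast h2)
  · -- generic case
    set a : Kbar := (c + 27) * (c + 243) ^ 3 / c ^ 3 with ha
    have hc3 : c ^ 3 ≠ 0 := pow_ne_zero 3 hc0
    have h27' : c + 27 ≠ 0 := fun h => hc27 (eq_neg_of_add_eq_zero_left h)
    have h243' : c + 243 ≠ 0 := fun h => h243 (eq_neg_of_add_eq_zero_left h)
    have hac : a * c ^ 3 = (c + 27) * (c + 243) ^ 3 := by rw [ha]; field_simp
    have ha0 : a ≠ 0 := by
      rw [ha]
      exact div_ne_zero (mul_ne_zero h27' (pow_ne_zero 3 h243')) hc3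
    have ha1728 : a ≠ 1728 := by
      intro h
      rw [h] at hac
      have : (c ^ 2 - 486 * c - 19683) ^ 2 = 0 := by linear_combination -hac
      exact hquad (pow_eq_zero_iff (by norm_num) |>.mp this)
    set q : Kbar := c ^ 2 * (c + 243) ^ 2 * (c ^ 2 - 486 * c - 19683) with hq
    have hq0 : q ≠ 0 := by
      rw [hq]
      exact mul_ne_zero (mul_ne_zero (pow_ne_zero 2 hc0) (pow_ne_zero 2 h243')) hquad
    have hA : algebraMap Kbar (FF M) a * C ^ 3 = (C + 27) * (C + 243) ^ 3 := by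
      have := congrArg (algebraMap Kbar (FF M)) hac
      simpa [map_mul, map_pow, map_add, map_ofNat] using this
    have hQ : algebraMap Kbar (FF M) q = C ^ 2 * (C + 243) ^ 2 * (C ^ 2 - 486 * C - 19683) := by
      rw [hq]; simp [map_mul, map_pow, map_add, map_sub, map_ofNat, hC]
    set W : FF M := t ^ 2 * C ^ 3 + t * C ^ 4 - 196830 * (t * C ^ 2) - 19131876 * (t * C)
      - 387420489 * t + C ^ 5 - 196830 * C ^ 3 - 38263752 * C ^ 2 - 774840978 * C with hW
    have hnum : ∀ n : ℕ, (n : FF M) ∈ v.toValuationSubring := fun n => natCast_mem _ n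
    have hWmem : W ∈ v.toValuationSubring := by
      have h1 : (196830 : FF M) ∈ v.toValuationSubring := by exact_mod_cast hnum 196830
      have h2 : (19131876 : FF M) ∈ v.toValuationSubring := by exact_mod_cast hnum 19131876
      have h3 : (387420489 : FF M) ∈ v.toValuationSubring := by exact_mod_cast hnum 387420489
      have h4 : (38263752 : FF M) ∈ v.toValuationSubring := by exact_mod_cast hnum 38263752
      have h5 : (774840978 : FF M) ∈ v.toValuationSubring := by exact_mod_cast hnum 774840978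
      refine sub_mem (sub_mem (sub_mem (add_mem (sub_mem (sub_mem (sub_mem (add_mem ?_ ?_) ?_) ?_)
        ?_) ?_) ?_) ?_) ?_
      · exact mul_mem (pow_mem htmem 2) (pow_mem hCmem 3)
      · exact mul_mem htmem (pow_mem hCmem 4)
      · exact mul_mem h1 (mul_mem htmem (pow_mem hCmem 2))
      · exact mul_mem h2 (mul_mem htmem hCmem)
      · exact mul_mem h3 htmem
      · exact pow_mem hCmem 5
      · exact mul_mem h1 (pow_mem hCmem 3)
      · exact mul_mem h4 (pow_mem hCmem 2)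
      · exact mul_mem h5 hCmem
    have key : (jF M - algebraMap Kbar (FF M) a) * (t ^ 3 * C ^ 3)
        = T ^ 1 * (algebraMap Kbar (FF M) q + T * W) := by
      rw [hQ, hW, hT]
      linear_combination C ^ 3 * hid - t ^ 3 * hA
    have hD0 : t ^ 3 * C ^ 3 ≠ 0 := mul_ne_zero (pow_ne_zero 3 ht0) (pow_ne_zero 3 hC0)
    have hD : v.ord (t ^ 3 * C ^ 3) = 0 := by
      rw [v.ord_mul (pow_ne_zero 3 ht0) (pow_ne_zero 3 hC0), ht3, H117.ord_pow, hCv]; simp
    obtain ⟨hJ0, hJ⟩ := ord_eq_of_key v 1 key hD0 hD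
      (const_add_mul_ne_zero v hq0 hv hWmem) (ord_const_add_mul v hq0 hv hWmem) hT0
    have hJ' : v.ord (jF M - algebraMap Kbar (FF M) a) = v.ord T := by simpa using hJ
    have hpos : 0 < v.ord (jF M - algebraMap Kbar (FF M) a) := by rw [hJ']; exact hv
    rw [← hJ']
    exact ord_j_sub_eq_one M a ha0 ha1728 v hpos

/-- The same statement in the coordinate `s = 1/t` (chart at infinity): unramified outside
`s ∈ {0, -1/27}`. -/
theorem ord_t3_inv_sub_eq_one (s : Kbar) (hs0 : s ≠ 0) (hs27 : s ≠ -(1 / 27))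
    (v : Place Kbar (FF M)) (hv : 0 < v.ord (t⁻¹ - algebraMap Kbar (FF M) s)) :
    v.ord (t⁻¹ - algebraMap Kbar (FF M) s) = 1 := by
  have ht0 : t ≠ 0 := t3_ne_zero M t hid
  have hti : v.ord t⁻¹ = 0 := ord_eq_zero_of_ord_sub_pos v hs0 hv
  have htv : v.ord t = 0 := by rw [v.ord_inv] at hti; omega
  set S : FF M := algebraMap Kbar (FF M) s with hS
  have hS0 : S ≠ 0 := (map_ne_zero _).2 hs0
  have hSv : v.ord S = 0 := H117.ord_algebraMap v s
  have hrel : t⁻¹ - S = (-(S * t⁻¹)) * (t - algebraMap Kbar (FF M) s⁻¹) := by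
    rw [map_inv₀, ← hS]
    have h1 : S * S⁻¹ = 1 := mul_inv_cancel₀ hS0
    have h2 : t * t⁻¹ = 1 := mul_inv_cancel₀ ht0
    linear_combination (-t⁻¹) * h1 + S * h2
  have hne1 : -(S * t⁻¹) ≠ 0 := neg_ne_zero.mpr (mul_ne_zero hS0 (inv_ne_zero ht0))
  have hord1 : v.ord (-(S * t⁻¹)) = 0 := by
    rw [H117.ord_neg, v.ord_mul hS0 (inv_ne_zero ht0), hSv, hti]; rfl
  have hne2 : t - algebraMap Kbar (FF M) s⁻¹ ≠ 0 := by
    intro h
    rw [h, mul_zero] at hrel
    rw [hrel, v.ord_zero] at hv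
    exact lt_irrefl _ hv
  have hord : v.ord (t⁻¹ - S) = v.ord (t - algebraMap Kbar (FF M) s⁻¹) := by
    rw [hrel, v.ord_mul hne1 hne2, hord1, zero_add]
  rw [hord] at hv ⊢
  refine ord_t3_sub_eq_one M t hid s⁻¹ (inv_ne_zero hs0) ?_ v hv
  intro h
  apply hs27
  have : s = (s⁻¹)⁻¹ := (inv_inv s).symm
  rw [this, h]
  norm_num

end T3

end Fermat.Agent.S18.H558

end
end
-- ===== PACK-END S18/H558/BranchT3.lean

-- ===== PACK-BEGIN S18/H558/PartBr.lean
section






/-!
# S18 / MOD / G-BR (helper558): the branch-value fields of `Alg.GoodModel` at the concrete objects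

Target: the four fields `S_mem`, `S_distinct`, `S_unit`, `unramified` of `Alg.GoodModel`
(= the structure `PartBr (Lc M) (Rc M A E) x S` of MOD-ASM helper216) for

* `x = jOm M`, `S = {0, 1728}`, `ℓ ≥ 5`                       (`brJ_*`),
* `x` with `jOm M * x ^ 2 = (x + 256) ^ 3`, `S = {0, -64}`, `ℓ = 3`   (`brT2_*`),
* `x` with `jOm M * x ^ 3 = (x + 27) * (x + 243) ^ 3`, `S = {0, -27}`, `ℓ = 2` (`brT3_*`),

for EVERY intermediate field `E` of `Q̄/ℚ` (no finiteness needed) and every valuation subring `A`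
of `Q̄` lying over `ℓ`.  The bundled forms `brJ`, `brT2`, `brT3` are conjunctions of the four
fields in the order of the structure, so `PartBr` is `⟨h.1, h.2.1, h.2.2.1, h.2.2.2⟩`.

Inputs: M2 (`H558/Branch*.lean`, Place language) and `H804.exists_place_of_valuationSubring_modular`
(every proper valuation subring of `F_M` containing `Q̄` is a `Place`).
-/

set_option autoImplicit false

noncomputable section

namespace Fermat.Agent.S18.H558

open AlgebraicCurve ModularCurve Fermat.Agent.S24 Fermat.Agent.S18 Fermat.Agent.S18.Mod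

variable (M : ℕ) [NeZero M]

/-- The frozen coordinate `jOm M` is the `j`-function `jF M` of the S24 library. -/
theorem jOm_eq_jF : jOm M = jF M := by
  apply Subtype.ext
  show coeffEmb Qb (qExpand ℚ 1 jq) = coeffEmb Kbar jq
  rw [qExpand_one_apply]

/-! ### Integers in `Rc` -/

section Consts

variable (A : ValuationSubring Qb) (E : IntermediateField ℚ Qb)

theorem algebraMap_mem_Rc {a : Qb} (hA : a ∈ A) (hE : a ∈ E) :
    algebraMap Qb (Om M) a ∈ Rc M A E :=
  Subring.mem_map.2 ⟨a, ⟨hA, hE⟩, rfl⟩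

theorem intCast_mem_Rc (n : ℤ) : ((n : ℤ) : Om M) ∈ Rc M A E := by
  have h : ((n : ℤ) : Om M) = algebraMap Qb (Om M) (n : Qb) := (map_intCast _ n).symm
  rw [h]
  exact algebraMap_mem_Rc M A E (intCast_mem A n) (intCast_mem E n)

theorem inv_intCast_mem_Rc (n : ℤ) (hn : ((n : ℤ) : Qb)⁻¹ ∈ A) :
    (((n : ℤ) : Om M))⁻¹ ∈ Rc M A E := by
  have h : (((n : ℤ) : Om M))⁻¹ = algebraMap Qb (Om M) ((n : Qb)⁻¹) := by
    rw [map_inv₀, map_intCast]
  rw [h]
  exact algebraMap_mem_Rc M A E hn (inv_mem (intCast_mem E n))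

/-- An integer prime to the residue characteristic is a unit of `A`. -/
theorem inv_intCast_mem_of_coprime {ℓ : ℕ} (hA : A.LiesOverPrime ℓ) (n : ℤ)
    (hn : IsCoprime n (ℓ : ℤ)) : ((n : ℤ) : Qb)⁻¹ ∈ A := by
  obtain ⟨a, b, hab⟩ := hn
  have hℓ : A.valuation (ℓ : Qb) < 1 := (A.mem_nonunits_iff).1 hA
  have hb : A.valuation (b : Qb) ≤ 1 := (A.valuation_le_one_iff _).2 (intCast_mem A b)
  have ha : A.valuation (a : Qb) ≤ 1 := (A.valuation_le_one_iff _).2 (intCast_mem A a)
  have hnv : A.valuation (n : Qb) ≤ 1 := (A.valuation_le_one_iff _).2 (intCast_mem A n)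
  have hbℓ : A.valuation ((b : Qb) * (ℓ : Qb)) < 1 := by
    rw [map_mul]
    calc A.valuation (b : Qb) * A.valuation (ℓ : Qb) ≤ 1 * A.valuation (ℓ : Qb) :=
          mul_le_mul' hb le_rfl
      _ = A.valuation (ℓ : Qb) := one_mul _
      _ < 1 := hℓ
  have hone : (a : Qb) * (n : Qb) = 1 - (b : Qb) * (ℓ : Qb) := by
    have h := congrArg (Int.cast : ℤ → Qb) hab
    push_cast at h
    linear_combination h
  have h1 : A.valuation (1 - (b : Qb) * (ℓ : Qb)) = 1 := Valuation.map_one_sub_of_lt _ hbℓ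
  have h2 : A.valuation (a : Qb) * A.valuation (n : Qb) = 1 := by
    rw [← map_mul, hone, h1]
  have h3 : A.valuation (n : Qb) = 1 := by
    apply le_antisymm hnv
    calc (1 : _) = A.valuation (a : Qb) * A.valuation (n : Qb) := h2.symm
      _ ≤ 1 * A.valuation (n : Qb) := mul_le_mul' ha le_rfl
      _ = A.valuation (n : Qb) := one_mul _
  rw [← A.valuation_le_one_iff, map_inv₀, h3, inv_one]

end Consts

/-! ### From the Place statement to the valuation-subring statement -/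

/-- If `x - c` has order `1` at every place where it vanishes (for the constants `c ∉ S`), then
`x` satisfies the field `unramified` of `Alg.GoodModel`. -/
theorem unramified_of_ord (x : Om M) (S : Finset (Om M))
    (h : ∀ c : Qb, algebraMap Qb (Om M) c ∉ S → ∀ v : Place Qb (Om M),
      0 < v.ord (x - algebraMap Qb (Om M) c) → v.ord (x - algebraMap Qb (Om M) c) = 1) :
    ∀ O : ValuationSubring (Om M), (∀ a ∈ Lc M, a ∈ O) → ∀ c ∈ Lc M, c ∉ S →
      x - c ∈ O → (x - c)⁻¹ ∉ O → ∀ t ∈ O, t⁻¹ ∉ O → t * (x - c)⁻¹ ∈ O := by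
  intro O hL c hc hcS hxO hxinv t ht htinv
  obtain ⟨c₀, rfl⟩ := hc
  have hK : ∀ a : Qb, algebraMap Qb (Om M) a ∈ O := fun a => hL _ ⟨a, rfl⟩
  have hO : O ≠ ⊤ := by
    intro htop
    exact hxinv (htop ▸ ValuationSubring.mem_top _)
  obtain ⟨v, rfl⟩ := H804.exists_place_of_valuationSubring_modular M O hK hO
  have hx0 : x - algebraMap Qb (Om M) c₀ ≠ 0 := by
    intro h0
    rw [h0, inv_zero] at hxinv
    exact hxinv (zero_mem _)
  have ht0 : t ≠ 0 := by
    intro h0
    rw [h0, inv_zero] at htinv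
    exact htinv (zero_mem _)
  have h1 : 0 ≤ v.ord (x - algebraMap Qb (Om M) c₀) := H117.ord_nonneg_of_mem v hxO
  have h2 : ¬ 0 ≤ v.ord (x - algebraMap Qb (Om M) c₀)⁻¹ := fun hh =>
    hxinv (H117.mem_of_ord_nonneg v hh)
  rw [v.ord_inv] at h2
  have h3 : 0 ≤ v.ord t := H117.ord_nonneg_of_mem v ht
  have h4 : ¬ 0 ≤ v.ord t⁻¹ := fun hh => htinv (H117.mem_of_ord_nonneg v hh)
  rw [v.ord_inv] at h4
  have h5 := h c₀ hcS v (by omega)
  apply H117.mem_of_ord_nonneg v
  rw [v.ord_mul ht0 (inv_ne_zero hx0), v.ord_inv, h5]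
  omega

/-! ### The coordinate `j`, `ℓ ≥ 5` -/

section J

variable (A : ValuationSubring Qb) (E : IntermediateField ℚ Qb) {ℓ : ℕ}

theorem inv_1728_mem (hℓ : ℓ.Prime) (h5 : 5 ≤ ℓ) (hA : A.LiesOverPrime ℓ) :
    ((1728 : ℤ) : Qb)⁻¹ ∈ A := by
  apply inv_intCast_mem_of_coprime A hA
  have hcop : Nat.Coprime 1728 ℓ := by
    rw [Nat.coprime_comm, Nat.Prime.coprime_iff_not_dvd hℓ]
    intro hdvd
    have h1728 : (1728 : ℕ) = 2 ^ 6 * 3 ^ 3 := by norm_num
    rw [h1728] at hdvd
    rcases (Nat.Prime.dvd_mul hℓ).1 hdvd with h | h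
    · have := Nat.le_of_dvd (by norm_num) (hℓ.dvd_of_dvd_pow h)
      omega
    · have := Nat.le_of_dvd (by norm_num) (hℓ.dvd_of_dvd_pow h)
      omega
  exact_mod_cast (Nat.isCoprime_iff_coprime.2 hcop)

theorem brJ_unramified (S : Finset (Om M)) (hS : ∀ s, s ∈ S ↔ s = 0 ∨ s = 1728) :
    ∀ O : ValuationSubring (Om M), (∀ a ∈ Lc M, a ∈ O) → ∀ c ∈ Lc M, c ∉ S →
      jOm M - c ∈ O → (jOm M - c)⁻¹ ∉ O → ∀ t ∈ O, t⁻¹ ∉ O → t * (jOm M - c)⁻¹ ∈ O := by
  apply unramified_of_ord
  intro c hcS v hv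
  rw [jOm_eq_jF] at hv ⊢
  have h0 : c ≠ 0 := by
    rintro rfl
    exact hcS ((hS _).2 (Or.inl (map_zero _)))
  have h1 : c ≠ 1728 := by
    rintro rfl
    exact hcS ((hS _).2 (Or.inr (map_ofNat _ 1728)))
  exact ord_j_sub_eq_one M c h0 h1 v hv

/-- **G-BR for `x = j`, `ℓ ≥ 5`**: the four fields `S_mem`, `S_distinct`, `S_unit`, `unramified`. -/
theorem brJ (hℓ : ℓ.Prime) (h5 : 5 ≤ ℓ) (hA : A.LiesOverPrime ℓ) (S : Finset (Om M))
    (hS : ∀ s, s ∈ S ↔ s = 0 ∨ s = 1728) :
    (∀ s ∈ S, s ∈ Rc M A E) ∧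
    (∀ s ∈ S, ∀ t ∈ S, s ≠ t → (s - t)⁻¹ ∈ Rc M A E) ∧
    (∀ s ∈ S, s ≠ 0 → s⁻¹ ∈ Rc M A E) ∧
    (∀ O : ValuationSubring (Om M), (∀ a ∈ Lc M, a ∈ O) → ∀ c ∈ Lc M, c ∉ S →
      jOm M - c ∈ O → (jOm M - c)⁻¹ ∉ O → ∀ t ∈ O, t⁻¹ ∉ O → t * (jOm M - c)⁻¹ ∈ O) := by
  have hu : ((1728 : ℤ) : Om M)⁻¹ ∈ Rc M A E :=
    inv_intCast_mem_Rc M A E 1728 (inv_1728_mem A hℓ h5 hA)
  have hcast : ((1728 : ℤ) : Om M) = 1728 := by norm_num
  rw [hcast] at hu
  refine ⟨?_, ?_, ?_, brJ_unramified M S hS⟩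
  · intro s hs
    rcases (hS s).1 hs with rfl | rfl
    · exact zero_mem _
    · have := intCast_mem_Rc M A E 1728
      rwa [hcast] at this
  · intro s hs t ht hst
    rcases (hS s).1 hs with rfl | rfl <;> rcases (hS t).1 ht with rfl | rfl
    · exact absurd rfl hst
    · rw [zero_sub, inv_neg]
      exact neg_mem hu
    · rwa [sub_zero]
    · exact absurd rfl hst
  · intro s hs hs0
    rcases (hS s).1 hs with rfl | rfl
    · exact absurd rfl hs0
    · exact hu

end J

/-! ### The Hauptmodul `t₂`, `ℓ = 3` -/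

section T2

variable (A : ValuationSubring Qb) (E : IntermediateField ℚ Qb)

theorem inv_64_mem (hA : A.LiesOverPrime 3) : ((64 : ℤ) : Qb)⁻¹ ∈ A := by
  apply inv_intCast_mem_of_coprime A hA
  have hcop : Nat.Coprime 64 3 := by norm_num
  exact_mod_cast (Nat.isCoprime_iff_coprime.2 hcop)

theorem brT2_unramified (x : Om M) (hx : jOm M * x ^ 2 = (x + 256) ^ 3) (S : Finset (Om M))
    (hS : ∀ s, s ∈ S ↔ s = 0 ∨ s = -64) :
    ∀ O : ValuationSubring (Om M), (∀ a ∈ Lc M, a ∈ O) → ∀ c ∈ Lc M, c ∉ S →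
      x - c ∈ O → (x - c)⁻¹ ∉ O → ∀ t ∈ O, t⁻¹ ∉ O → t * (x - c)⁻¹ ∈ O := by
  apply unramified_of_ord
  intro c hcS v hv
  rw [jOm_eq_jF] at hx
  have h0 : c ≠ 0 := by
    rintro rfl
    exact hcS ((hS _).2 (Or.inl (map_zero _)))
  have h1 : c ≠ -64 := by
    rintro rfl
    exact hcS ((hS _).2 (Or.inr (by rw [map_neg, map_ofNat])))
  exact ord_t2_sub_eq_one M x hx c h0 h1 v hv

/-- **G-BR for `x = t₂`, `ℓ = 3`**. -/
theorem brT2 (hA : A.LiesOverPrime 3) (x : Om M) (hx : jOm M * x ^ 2 = (x + 256) ^ 3)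
    (S : Finset (Om M)) (hS : ∀ s, s ∈ S ↔ s = 0 ∨ s = -64) :
    (∀ s ∈ S, s ∈ Rc M A E) ∧
    (∀ s ∈ S, ∀ t ∈ S, s ≠ t → (s - t)⁻¹ ∈ Rc M A E) ∧
    (∀ s ∈ S, s ≠ 0 → s⁻¹ ∈ Rc M A E) ∧
    (∀ O : ValuationSubring (Om M), (∀ a ∈ Lc M, a ∈ O) → ∀ c ∈ Lc M, c ∉ S →
      x - c ∈ O → (x - c)⁻¹ ∉ O → ∀ t ∈ O, t⁻¹ ∉ O → t * (x - c)⁻¹ ∈ O) := by
  have hu : ((64 : ℤ) : Om M)⁻¹ ∈ Rc M A E :=
    inv_intCast_mem_Rc M A E 64 (inv_64_mem A hA)
  have hcast : ((64 : ℤ) : Om M) = 64 := by norm_num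
  rw [hcast] at hu
  refine ⟨?_, ?_, ?_, brT2_unramified M x hx S hS⟩
  · intro s hs
    rcases (hS s).1 hs with rfl | rfl
    · exact zero_mem _
    · have := intCast_mem_Rc M A E 64
      rw [hcast] at this
      exact neg_mem this
  · intro s hs t ht hst
    rcases (hS s).1 hs with rfl | rfl <;> rcases (hS t).1 ht with rfl | rfl
    · exact absurd rfl hst
    · rwa [zero_sub, neg_neg]
    · rw [sub_zero, inv_neg]
      exact neg_mem hu
    · exact absurd rfl hst
  · intro s hs hs0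
    rcases (hS s).1 hs with rfl | rfl
    · exact absurd rfl hs0
    · rw [inv_neg]
      exact neg_mem hu

end T2

/-! ### The Hauptmodul `t₃`, `ℓ = 2` -/

section T3

variable (A : ValuationSubring Qb) (E : IntermediateField ℚ Qb)

theorem inv_27_mem (hA : A.LiesOverPrime 2) : ((27 : ℤ) : Qb)⁻¹ ∈ A := by
  apply inv_intCast_mem_of_coprime A hA
  have hcop : Nat.Coprime 27 2 := by norm_num
  exact_mod_cast (Nat.isCoprime_iff_coprime.2 hcop)

theorem brT3_unramified (x : Om M) (hx : jOm M * x ^ 3 = (x + 27) * (x + 243) ^ 3)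
    (S : Finset (Om M)) (hS : ∀ s, s ∈ S ↔ s = 0 ∨ s = -27) :
    ∀ O : ValuationSubring (Om M), (∀ a ∈ Lc M, a ∈ O) → ∀ c ∈ Lc M, c ∉ S →
      x - c ∈ O → (x - c)⁻¹ ∉ O → ∀ t ∈ O, t⁻¹ ∉ O → t * (x - c)⁻¹ ∈ O := by
  apply unramified_of_ord
  intro c hcS v hv
  rw [jOm_eq_jF] at hx
  have h0 : c ≠ 0 := by
    rintro rfl
    exact hcS ((hS _).2 (Or.inl (map_zero _)))
  have h1 : c ≠ -27 := by
    rintro rfl
    exact hcS ((hS _).2 (Or.inr (by rw [map_neg, map_ofNat])))
  exact ord_t3_sub_eq_one M x hx c h0 h1 v hv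

/-- **G-BR for `x = t₃`, `ℓ = 2`**. -/
theorem brT3 (hA : A.LiesOverPrime 2) (x : Om M)
    (hx : jOm M * x ^ 3 = (x + 27) * (x + 243) ^ 3)
    (S : Finset (Om M)) (hS : ∀ s, s ∈ S ↔ s = 0 ∨ s = -27) :
    (∀ s ∈ S, s ∈ Rc M A E) ∧
    (∀ s ∈ S, ∀ t ∈ S, s ≠ t → (s - t)⁻¹ ∈ Rc M A E) ∧
    (∀ s ∈ S, s ≠ 0 → s⁻¹ ∈ Rc M A E) ∧
    (∀ O : ValuationSubring (Om M), (∀ a ∈ Lc M, a ∈ O) → ∀ c ∈ Lc M, c ∉ S →
      x - c ∈ O → (x - c)⁻¹ ∉ O → ∀ t ∈ O, t⁻¹ ∉ O → t * (x - c)⁻¹ ∈ O) := by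
  have hu : ((27 : ℤ) : Om M)⁻¹ ∈ Rc M A E :=
    inv_intCast_mem_Rc M A E 27 (inv_27_mem A hA)
  have hcast : ((27 : ℤ) : Om M) = 27 := by norm_num
  rw [hcast] at hu
  refine ⟨?_, ?_, ?_, brT3_unramified M x hx S hS⟩
  · intro s hs
    rcases (hS s).1 hs with rfl | rfl
    · exact zero_mem _
    · have := intCast_mem_Rc M A E 27
      rw [hcast] at this
      exact neg_mem this
  · intro s hs t ht hst
    rcases (hS s).1 hs with rfl | rfl <;> rcases (hS t).1 ht with rfl | rfl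
    · exact absurd rfl hst
    · rwa [zero_sub, neg_neg]
    · rw [sub_zero, inv_neg]
      exact neg_mem hu
    · exact absurd rfl hst
  · intro s hs hs0
    rcases (hS s).1 hs with rfl | rfl
    · exact absurd rfl hs0
    · rw [inv_neg]
      exact neg_mem hu

end T3

/-- **G-BR, all admissible coordinates at once**: for every coordinate `x` with branch set `S`
in the sense of `Mod.IsCoordinate`, the four branch fields of `Alg.GoodModel` hold at the concrete
objects, for every intermediate field `E`. -/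
theorem br_of_isCoordinate {ℓ : ℕ} [Fact ℓ.Prime] (A : ValuationSubring Qb)
    (hA : A.LiesOverPrime ℓ) (E : IntermediateField ℚ Qb) (x : Om M) (S : Finset (Om M))
    (hx : IsCoordinate M ℓ x S) :
    (∀ s ∈ S, s ∈ Rc M A E) ∧
    (∀ s ∈ S, ∀ t ∈ S, s ≠ t → (s - t)⁻¹ ∈ Rc M A E) ∧
    (∀ s ∈ S, s ≠ 0 → s⁻¹ ∈ Rc M A E) ∧
    (∀ O : ValuationSubring (Om M), (∀ a ∈ Lc M, a ∈ O) → ∀ c ∈ Lc M, c ∉ S →
      x - c ∈ O → (x - c)⁻¹ ∉ O → ∀ t ∈ O, t⁻¹ ∉ O → t * (x - c)⁻¹ ∈ O) := by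
  rcases hx with ⟨h5, rfl, hS⟩ | ⟨⟨h3, hid, hS⟩ | ⟨h2, hid, hS⟩, -⟩
  · exact brJ M A E Fact.out h5 hA S hS
  · subst h3
    exact brT2 M A E hA x hid S hS
  · subst h2
    exact brT3 M A E hA x hid S hS

end Fermat.Agent.S18.H558

end

end
-- ===== PACK-END S18/H558/PartBr.lean

-- ===== PACK-BEGIN S18/H107/BranchConcrete.lean
section







/-!
# helper107 — S18 / node_mod, G-BR : the branch data of the `j`-line at the CONCRETE objects

`branchJ_concrete107 M : BranchJ107 (Mod.Lc M) (Mod.jOm M)` — in valuation-subring language over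
`Ω = Om M = F_M`:  `F_M / ℚ̄(j)` is unramified outside `0, 1728, ∞`, with `ord ≤ 3` over `0` and
`ord ≤ 2` over `1728`.

Adapter from the `Place`-language results on main (`H24.ord_sub_eq_one`, `ord_zero_dvd`,
`ord_1728_dvd`) via `H504.placeOfValuationSubring` (a valuation subring of `F_M` containing `ℚ̄`
with a nonzero non-unit is a `Place`).

Consequences: `unramified_j_concrete107` (= field `unramified` of `Alg.GoodModel` for `x = j`,
`S = {0, 1728}`), and, through `unramified_t2_107` / `unramified_t3_107`, the field `unramified`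
for the Hauptmodul coordinates.
-/

set_option autoImplicit false

noncomputable section

namespace Fermat.Agent.S18.H107

open AlgebraicCurve ModularCurve IntermediateField HahnSeries
open Fermat.Agent.S18 Fermat.Agent.S18.Mod Fermat.Agent.S24 Fermat.Agent.Lib.RR

variable (M : ℕ) [NeZero M]

theorem jOm_eq_jF107 : jOm M = jF M := by
  apply Subtype.ext
  show coeffEmb Qb (qExpand ℚ 1 jq) = coeffEmb Kbar jq
  rw [qExpand_one_apply]

variable {M}

omit [NeZero M] in
theorem algebraMap_mem_of_Lc107 {O : ValuationSubring (Om M)} (hL : ∀ a ∈ Lc M, a ∈ O)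
    (a : Qb) : algebraMap Qb (Om M) a ∈ O :=
  hL _ ⟨a, rfl⟩

omit [NeZero M] in
/-- A bound on `ord` at the place defined by `O` gives `OrdLe107`. -/
theorem ordLe_of_place107 (v : Place Qb (Om M)) {y : Om M} (hy0 : y ≠ 0) (k : ℕ)
    (hk : v.ord y ≤ k) : OrdLe107 v.toValuationSubring y k := by
  intro s hs hs'
  have hs0 : s ≠ 0 := by
    rintro rfl
    exact hs' (by rw [inv_zero]; exact v.toValuationSubring.zero_mem)
  have h1 : 0 ≤ v.ord s := ord_nonneg_of_mem v hs
  have h2 : ¬ 0 ≤ v.ord s⁻¹ := fun h => hs' (mem_of_ord_nonneg v h)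
  rw [v.ord_inv] at h2
  have h3 : 1 ≤ v.ord s := by omega
  apply mem_of_ord_nonneg v
  rw [v.ord_mul (pow_ne_zero _ hs0) (inv_ne_zero hy0), ord_pow, v.ord_inv]
  have h4 : (k : ℤ) * 1 ≤ (k : ℤ) * v.ord s := by
    apply mul_le_mul_of_nonneg_left h3
    exact_mod_cast Nat.zero_le k
  omega

omit [NeZero M] in
/-- positivity of `ord` at the place of a valuation ring, for a non-unit. -/
theorem ord_pos_of_nonunit107 (v : Place Qb (Om M)) {y : Om M} (hy : y ∈ v.toValuationSubring)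
    (hy' : y⁻¹ ∉ v.toValuationSubring) : 0 < v.ord y := by
  have h1 : 0 ≤ v.ord y := ord_nonneg_of_mem v hy
  have h2 : ¬ 0 ≤ v.ord y⁻¹ := fun h => hy' (mem_of_ord_nonneg v h)
  rw [v.ord_inv] at h2
  omega

omit [NeZero M] in
theorem ne_zero_of_inv_not_mem107 {O : ValuationSubring (Om M)} {y : Om M} (hy' : y⁻¹ ∉ O) :
    y ≠ 0 := by
  rintro rfl
  exact hy' (by rw [inv_zero]; exact O.zero_mem)

variable (M)

/-- **G-BR, branch data of the `j`-line** at the concrete objects. -/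
theorem branchJ_concrete107 : BranchJ107 (Lc M) (jOm M) := by
  haveI : FiniteDimensional Kbar⟮jF M⟯ (FF M) := H24.finiteDimensional_FF M
  refine ⟨?_, ?_, ?_⟩
  · rintro O hL _ ⟨a, rfl⟩ ha0 ha1728 hz hz'
    have ha0' : a ≠ 0 := fun h => ha0 (by rw [h, map_zero])
    have ha1728' : a ≠ 1728 := fun h => ha1728 (by rw [h, map_ofNat])
    rw [jOm_eq_jF107] at hz hz' ⊢
    haveI : FiniteDimensional Kbar⟮jF M - algebraMap Kbar (FF M) a⟯ (FF M) :=
      FF.finiteDimensional_adjoin_sub_const (jF M) a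
    set v : Place Kbar (FF M) :=
      H504.placeOfValuationSubring O (algebraMap_mem_of_Lc107 hL) hz hz' with hv
    have hpos : 0 < v.ord (jF M - algebraMap Kbar (FF M) a) := ord_pos_of_nonunit107 v hz hz'
    have h1 := H24.ord_sub_eq_one M a ha0' ha1728' v hpos
    exact ordLe_of_place107 v (ne_zero_of_inv_not_mem107 hz') 1 (by rw [h1]; norm_num)
  · intro O hL hz hz'
    rw [jOm_eq_jF107] at hz hz' ⊢
    set v : Place Kbar (FF M) :=
      H504.placeOfValuationSubring O (algebraMap_mem_of_Lc107 hL) hz hz' with hv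
    have hpos : 0 < v.ord (jF M) := ord_pos_of_nonunit107 v hz hz'
    have h1 := H24.ord_zero_dvd M v hpos
    exact ordLe_of_place107 v (ne_zero_of_inv_not_mem107 hz') 3
      (Int.le_of_dvd (by norm_num) h1)
  · intro O hL hz hz'
    rw [jOm_eq_jF107] at hz hz' ⊢
    have e : (1728 : FF M) = algebraMap Kbar (FF M) 1728 := by rw [map_ofNat]
    rw [e] at hz hz' ⊢
    haveI : FiniteDimensional Kbar⟮jF M - algebraMap Kbar (FF M) 1728⟯ (FF M) :=
      FF.finiteDimensional_adjoin_sub_const (jF M) 1728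
    set v : Place Kbar (FF M) :=
      H504.placeOfValuationSubring O (algebraMap_mem_of_Lc107 hL) hz hz' with hv
    have hpos : 0 < v.ord (jF M - algebraMap Kbar (FF M) 1728) :=
      ord_pos_of_nonunit107 v hz hz'
    have h1 := H24.ord_1728_dvd M v hpos
    exact ordLe_of_place107 v (ne_zero_of_inv_not_mem107 hz') 2
      (Int.le_of_dvd (by norm_num) h1)

/-- The field `unramified` of `Alg.GoodModel` for `x = j`, `S = {0, 1728}`. -/
theorem unramified_j_concrete107 (S : Finset (Om M)) (hS : ∀ s, s ∈ S ↔ s = 0 ∨ s = 1728) :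
    ∀ O : ValuationSubring (Om M), (∀ a ∈ Lc M, a ∈ O) → ∀ c ∈ Lc M, c ∉ S →
      jOm M - c ∈ O → (jOm M - c)⁻¹ ∉ O → ∀ t ∈ O, t⁻¹ ∉ O → t * (jOm M - c)⁻¹ ∈ O := by
  intro O hL c hc hcS hz hz'
  rw [← OrdLe107.one_iff]
  exact (branchJ_concrete107 M).generic O hL c hc (fun h => hcS ((hS c).2 (Or.inl h)))
    (fun h => hcS ((hS c).2 (Or.inr h))) hz hz'

end Fermat.Agent.S18.H107

end
end
-- ===== PACK-END S18/H107/BranchConcrete.lean

-- ===== PACK-BEGIN S18/H107/M3T.lean
section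






/-!
# helper107 — S18 / node_mod, piece M3-T at the CONCRETE objects of `Mod/Defs.lean`

`goodModel_of_isCoordinate107` : for `ℓ ∈ {2, 3}` (`¬ 5 ≤ ℓ`), every admissible coordinate `x`
(`Mod.IsCoordinate M ℓ x S`), every intermediate field `E` and every `V`, `w`:

    BaseModel107 (Lc M) (Ec M E) (Fc M E) (Rc M A E) V w (jOm M)      -- the j-model minus S-fields
    + x ∈ Fc M E + x ∈ V + gauss for x
    ⟹  Alg.GoodModel (Lc M) (Ec M E) (Fc M E) (Rc M A E) V w x S.

The branch data (`branchJ_concrete107`) and the units `2⁻¹` resp. `3⁻¹ ∈ Rc M A E` are proved here.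
-/

set_option autoImplicit false

noncomputable section

namespace Fermat.Agent.S18.H107

open AlgebraicCurve ModularCurve IntermediateField HahnSeries
open Fermat.Agent.S18 Fermat.Agent.S18.Mod Fermat.Agent.S18.Alg

/-- If `A` lies over `ℓ` and `n ≡ 1 mod ℓ`-like: `n = ℓ * k + 1` then `n` is a unit of `A`.
We only need: `ℓ ∈ 𝔪_A`, `n - 1 ∈ ℓ ℤ` ⟹ `n⁻¹ ∈ A`. -/
theorem inv_natCast_mem_of_liesOver107 {L : Type*} [Field L] (A : ValuationSubring L) {ℓ : ℕ}
    (hA : A.LiesOverPrime ℓ) (n k : ℕ) (hn : n = ℓ * k + 1) : ((n : L))⁻¹ ∈ A := by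
  have hℓ : A.valuation (ℓ : L) < 1 := by
    have h : (ℓ : L) ∈ A.nonunits := hA
    exact (A.mem_nonunits_iff).1 h
  have hk : A.valuation ((ℓ : L) * (k : L)) < 1 := by
    rw [map_mul]
    calc A.valuation (ℓ : L) * A.valuation (k : L) ≤ A.valuation (ℓ : L) * 1 := by
          gcongr
          exact (A.valuation_le_one_iff _).2 (_root_.natCast_mem A k)
      _ = A.valuation (ℓ : L) := mul_one _
      _ < 1 := hℓ
  have hval : A.valuation (n : L) = 1 := by
    have e : (n : L) = 1 + (ℓ : L) * (k : L) := by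
      rw [hn]
      push_cast
      ring
    rw [e, ← map_one A.valuation]
    exact Valuation.map_add_eq_of_lt_left _ (by rw [map_one]; exact hk)
  refine (A.valuation_le_one_iff _).1 ?_
  rw [map_inv₀, hval, inv_one]

variable (M : ℕ)

theorem inv_natCast_mem_Rc107 (A : ValuationSubring Qb) (E : IntermediateField ℚ Qb) {ℓ : ℕ}
    (hA : A.LiesOverPrime ℓ) (n k : ℕ) (hn : n = ℓ * k + 1) :
    ((n : Om M))⁻¹ ∈ Rc M A E := by
  refine ⟨((n : Qb))⁻¹, ⟨inv_natCast_mem_of_liesOver107 A hA n k hn, ?_⟩, ?_⟩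
  · exact E.toSubfield.inv_mem (_root_.natCast_mem E.toSubfield n)
  · rw [map_inv₀, map_natCast]

variable [NeZero M]

/-- **M3-T, concrete form.** -/
theorem goodModel_of_isCoordinate107 {ℓ : ℕ} (A : ValuationSubring Qb) (hA : A.LiesOverPrime ℓ)
    (h5 : ¬ 5 ≤ ℓ) {x : Om M} {S : Finset (Om M)} (hx : IsCoordinate M ℓ x S)
    (E : IntermediateField ℚ Qb) {V : Subring (Om M)} {w : Om M}
    (hb : BaseModel107 (Lc M) (Ec M E) (Fc M E) (Rc M A E) V w (jOm M))
    (hxF : x ∈ Fc M E) (hxV : x ∈ V)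
    (hgauss : ∀ P : Polynomial (Om M), (∀ i, P.coeff i ∈ Rc M A E) →
      (∃ i, P.coeff i ≠ 0 ∧ (P.coeff i)⁻¹ ∈ Rc M A E) → (P.eval x)⁻¹ ∈ V) :
    GoodModel (Lc M) (Ec M E) (Fc M E) (Rc M A E) V w x S := by
  rcases hx with ⟨h, -⟩ | ⟨h | h, -⟩
  · exact absurd h h5
  · obtain ⟨hℓ, hrel, hS⟩ := h
    subst hℓ
    have h2 : (2 : Om M)⁻¹ ∈ Rc M A E := by
      have h4 := inv_natCast_mem_Rc107 M A E hA 4 1 (by norm_num)
      have e : (2 : Om M)⁻¹ = 2 * ((4 : ℕ) : Om M)⁻¹ := by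
        push_cast
        norm_num
      rw [e]
      exact (Rc M A E).mul_mem (ofNat_mem _ 2) h4
    exact goodModel_t2_107 hb (branchJ_concrete107 M) hrel hxF hxV h2 hgauss hS
  · obtain ⟨hℓ, hrel, hS⟩ := h
    subst hℓ
    have h3 : (3 : Om M)⁻¹ ∈ Rc M A E := by
      have := inv_natCast_mem_Rc107 M A E hA 3 1 (by norm_num)
      simpa using this
    exact goodModel_t3_107 hb (branchJ_concrete107 M) hrel hxF hxV h3 hgauss hS

end Fermat.Agent.S18.H107

end
end
-- ===== PACK-END S18/H107/M3T.lean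

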