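import Fermat.Prelude.Def_AlgebraicCurve_Correspondence
import Fermat.Prelude.Def_ModularCurve_HeckeOperatorTotal
import Fermat.Prelude.Def_ModularCurve_HeckeModule
import Fermat.Prelude.Thm_ModularCurve_coeffMap_qExpand
import Fermat.Agent.Pack.S3234.G0E2L1
import Fermat.Agent.Pack.S3234.G0E6L1
import Fermat.Agent.Pack.S3234.G0E7L0
import Fermat.Agent.Pack.S3234.G0E4L1
import Fermat.Agent.Pack.S3234.G0E2L2
import Fermat.Agent.Pack.S3234.G0E7L2
import Fermat.Agent.Pack.S3234.G0E7L3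
import Fermat.Agent.Pack.S3234.G0E2L3

-- ===== PACK-BEGIN S29/H126/M3.lean
section
/-
S29 row, piece `M3` (helper126): the Galois action on `J₀(N)(ℚ̄)` is smooth — every class is fixed
by an open subgroup `Gal(ℚ̄/L)`, `L/ℚ` finite.

Route: every element of the function field `ℚ̄(X₀(N))` (a subfield of `ℚ̄((q))` generated by `ℚ̄` and
series with rational coefficients) is fixed by an open subgroup; a place `v` is determined, among the
finitely many zeros of a function `t` with `v(t) > 0`, by finitely many functions separating it from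
the other zeros; a divisor has finite support.
-/




set_option autoImplicit false

noncomputable section

namespace Fermat.Agent.S29.H126

open ModularCurve AlgebraicCurve IntermediateField
open Fermat.Agent.S24 Fermat.Agent.Lib.RR.H804

/-- A property of Galois elements which holds on an open subgroup `Gal(ℚ̄/L)`, `L/ℚ` finite. -/
def M3OpenFixed (P : GQ → Prop) : Prop :=
  ∃ L : IntermediateField ℚ (AlgebraicClosure ℚ), FiniteDimensional ℚ L ∧
    ∀ σ : GQ, (∀ y ∈ L, σ y = y) → P σ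

theorem M3OpenFixed.mono {P Q : GQ → Prop} (h : M3OpenFixed P) (hPQ : ∀ σ, P σ → Q σ) :
    M3OpenFixed Q := by
  obtain ⟨L, hL, hP⟩ := h
  exact ⟨L, hL, fun σ hσ => hPQ σ (hP σ hσ)⟩

theorem M3OpenFixed.of_forall {P : GQ → Prop} (h : ∀ σ, P σ) : M3OpenFixed P :=
  ⟨⊥, inferInstance, fun σ _ => h σ⟩

theorem M3OpenFixed.and {P Q : GQ → Prop} (hP : M3OpenFixed P) (hQ : M3OpenFixed Q) :
    M3OpenFixed (fun σ => P σ ∧ Q σ) := by
  obtain ⟨L₁, hL₁, h₁⟩ := hP
  obtain ⟨L₂, hL₂, h₂⟩ := hQ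
  refine ⟨L₁ ⊔ L₂, inferInstance,
    fun σ hσ => ⟨h₁ σ fun y hy => hσ y ?_, h₂ σ fun y hy => hσ y ?_⟩⟩
  · exact (le_sup_left : L₁ ≤ L₁ ⊔ L₂) hy
  · exact (le_sup_right : L₂ ≤ L₁ ⊔ L₂) hy

theorem M3OpenFixed.finset {ι : Type*} (s : Finset ι) {P : ι → GQ → Prop}
    (h : ∀ i ∈ s, M3OpenFixed (P i)) : M3OpenFixed (fun σ => ∀ i ∈ s, P i σ) := by
  classical
  induction s using Finset.induction_on with
  | empty => exact .of_forall (fun σ i hi => absurd hi (Finset.notMem_empty i))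
  | insert a s ha ih =>
    have h1 := h a (Finset.mem_insert_self a s)
    have h2 := ih (fun i hi => h i (Finset.mem_insert_of_mem hi))
    refine (h1.and h2).mono fun σ hσ i hi => ?_
    rcases Finset.mem_insert.mp hi with rfl | hi
    · exact hσ.1
    · exact hσ.2 i hi

/-- Every element of the base-changed field is fixed (coefficientwise) by an open subgroup. -/
theorem M3_coeffMap_openFixed (F₀ : IntermediateField ℚ (LaurentSeries ℚ))
    {f : LaurentSeries (AlgebraicClosure ℚ)}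
    (hf : f ∈ laurentBaseChange (AlgebraicClosure ℚ) F₀) :
    M3OpenFixed (fun σ => coeffMap (σ : AlgebraicClosure ℚ →+* AlgebraicClosure ℚ) f = f) := by
  rw [mem_laurentBaseChange_iff] at hf
  induction hf using Subfield.closure_induction with
  | mem y hy =>
      rcases hy with ⟨a, rfl⟩ | ⟨z, hz, rfl⟩
      · have ha : IsIntegral ℚ a := ((AlgebraicClosure.isAlgebraic ℚ).isAlgebraic a).isIntegral
        refine ⟨ℚ⟮a⟯, adjoin.finiteDimensional ha, fun σ hσ => ?_⟩
        show coeffMap (σ : AlgebraicClosure ℚ →+* AlgebraicClosure ℚ) (algebraMap _ _ a) = _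
        rw [coeffMap_algebraMap]
        exact congrArg _ (hσ a (mem_adjoin_simple_self ℚ a))
      · exact .of_forall fun σ => coeffMap_coeffEmb σ z
  | one => exact .of_forall fun σ => map_one _
  | add x y _ _ hx hy => exact (hx.and hy).mono fun σ h => by rw [map_add, h.1, h.2]
  | neg x _ hx => exact hx.mono fun σ h => by rw [map_neg, h]
  | inv x _ hx => exact hx.mono fun σ h => by rw [map_inv₀, h]
  | mul x y _ _ hx hy => exact (hx.and hy).mono fun σ h => by rw [map_mul, h.1, h.2]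

/-- Two distinct places are separated by a function. -/
theorem M3_exists_mem_not_mem {K F : Type*} [Field K] [Field F] [Algebra K F] {v w : Place K F}
    (h : w ≠ v) : ∃ g : F, g ∈ v.toValuationSubring ∧ g ∉ w.toValuationSubring := by
  by_contra hcon
  have hle : v.toValuationSubring ≤ w.toValuationSubring := fun g hg =>
    by_contra fun hgw => hcon ⟨g, hg, hgw⟩
  exact h (Place.ext (ValuationSubring.eq_of_le_of_ne_top _ hle w.ne_top').symm)

variable (N : ℕ) [NeZero N]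

omit [NeZero N] in
/-- Every function in `ℚ̄(X₀(N))` is fixed by an open subgroup. -/
theorem M3_elt_openFixed (f : FF N) :
    M3OpenFixed (fun σ => arithmeticGalois (modularFunctionFieldFull N) σ • f = f) :=
  (M3_coeffMap_openFixed _ f.2).mono fun σ h =>
    Subtype.ext (by rw [coe_arithmeticGalois_smul]; exact h)

/-- Every place of `ℚ̄(X₀(N))` is fixed by an open subgroup. -/
theorem M3_place_openFixed (v : Place Kbar (FF N)) :
    M3OpenFixed (fun σ => arithmeticGalois (modularFunctionFieldFull N) σ • v = v) := by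
  classical
  obtain ⟨x, hx⟩ : ∃ x : FF N, x ∉ v.toValuationSubring := by
    by_contra h
    exact v.ne_top' (eq_top_iff.mpr fun x _ => by_contra fun hx => h ⟨x, hx⟩)
  have hx0 : x ≠ 0 := fun h0 => hx (h0 ▸ zero_mem _)
  set t : FF N := x⁻¹ with ht
  have htpos : 0 < v.ord t := by
    have h1 : ¬ 0 ≤ v.ord x := mt (FF.mem_of_ord_nonneg v) hx
    rw [ht, v.ord_inv]
    omega
  have htK : t ∉ (algebraMap Kbar (FF N)).range := by
    rintro ⟨a, ha⟩
    rw [← ha, FF.ord_algebraMap] at htpos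
    exact lt_irrefl _ htpos
  have htr : Transcendental Kbar t := FF.transcendental_of_not_mem_range htK
  have := finiteDimensional_jF N
  have : FiniteDimensional Kbar⟮t⟯ (FF N) :=
    FF.finiteDimensional_adjoin_of_transcendental (transcendental_jF N) htr
  have hZ : {w : Place Kbar (FF N) | 0 < w.ord t}.Finite := FF.finite_setOf_ord_pos htr
  have hQ : ∀ w ∈ hZ.toFinset, M3OpenFixed
      (fun σ => arithmeticGalois (modularFunctionFieldFull N) σ • v = w → w = v) := by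
    intro w _
    by_cases hwv : w = v
    · exact .of_forall fun σ _ => hwv
    · obtain ⟨g, hgv, hgw⟩ := M3_exists_mem_not_mem hwv
      refine (M3_elt_openFixed N g).mono fun σ hσ hσv => ?_
      exfalso
      apply hgw
      rw [← hσv, SemilinearAut.smul_toValuationSubring, ← hσ]
      exact ValuationSubring.smul_mem_pointwise_smul _ g _ hgv
  refine ((M3_elt_openFixed N t).and (M3OpenFixed.finset _ hQ)).mono fun σ hσ => ?_
  obtain ⟨hσt, hσQ⟩ := hσ
  have hmem : arithmeticGalois (modularFunctionFieldFull N) σ • v ∈ hZ.toFinset := by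
    rw [Set.Finite.mem_toFinset]
    show 0 < (arithmeticGalois (modularFunctionFieldFull N) σ • v).ord t
    have := SemilinearAut.ord_smul (arithmeticGalois (modularFunctionFieldFull N) σ) v t
    rw [hσt] at this
    rw [this]
    exact htpos
  exact hσQ _ hmem rfl

/-- Every divisor of `ℚ̄(X₀(N))` is fixed by an open subgroup. -/
theorem M3_divisor_openFixed (D : Divisor Kbar (FF N)) :
    M3OpenFixed (fun σ => arithmeticGalois (modularFunctionFieldFull N) σ • D = D) := by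
  refine (M3OpenFixed.finset D.support (fun v _ => M3_place_openFixed N v)).mono fun σ hσ => ?_
  rw [SemilinearAut.divisor_smul_def]
  conv_rhs => rw [← Finsupp.mapDomain_id (v := D)]
  exact Finsupp.mapDomain_congr fun v hv => hσ v hv

/-- PIECE `M3`: the Galois action on `J₀(N)(ℚ̄)` is smooth. -/
theorem M3_jZero_smooth (x : JZero N) :
    ∃ L : IntermediateField ℚ (AlgebraicClosure ℚ), FiniteDimensional ℚ L ∧
      ∀ σ : GQ, (∀ y ∈ L, σ y = y) → σ • x = x := by
  obtain ⟨D, rfl⟩ := Pic0.mk_surjective x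
  refine (M3_divisor_openFixed N (D : Divisor Kbar (FF N))).mono fun σ hσ => ?_
  rw [galois_smul_pic0_def, SemilinearAut.pic0_smul_mk]
  exact congrArg Pic0.mk (Subtype.ext (by rw [SemilinearAut.coe_degZeroSMulHom]; exact hσ))

end Fermat.Agent.S29.H126

end
end
-- ===== PACK-END S29/H126/M3.lean

-- ===== PACK-BEGIN S29/M3.lean
section
/-
S29 row, PIECE `M3` (helper126): the Galois action on `J₀(N)(ℚ̄)` is smooth.
Statement exactly as in `SkeletonM.lean`; proof in `Fermat/Agent/S29/H126/M3.lean`.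
-/



set_option autoImplicit false

noncomputable section

namespace Fermat.Agent.S29

open ModularCurve AlgebraicCurve

variable (N : ℕ) [NeZero N]

/-- PIECE `M3`: the Galois action on `J₀(N)(ℚ̄)` is smooth. -/
theorem jZero_smooth (x : JZero N) :
    ∃ L : IntermediateField ℚ (AlgebraicClosure ℚ), FiniteDimensional ℚ L ∧
      ∀ σ : GQ, (∀ y ∈ L, σ y = y) → σ • x = x :=
  H126.M3_jZero_smooth N x

end Fermat.Agent.S29

end
end
-- ===== PACK-END S29/M3.lean

-- ===== PACK-BEGIN S30/H990/FromInputs.lean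
section
/-
S30 top glue (helper990): the frozen statement S30 from the three open inputs of the adic module
layer of helper330: (K) Kummer map onto torsion, (P) eigen parabolic character, (T) torsion
relations.  The inputs (Sm) and (GH) are discharged from main (S29 pieces M3 and M2).
-/





set_option autoImplicit false

namespace Fermat.Agent.S30.H990

open Polynomial

/-- Input (Sm) of the adic module layer holds (S29 piece M3, helper126). -/
theorem smoothStatement (N : ℕ) [NeZero N] : Fermat.Agent.S30.H330.SmoothStatement N :=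
  fun x => Fermat.Agent.S29.jZero_smooth N x

/-- Input (GH) of the adic module layer holds (S29 piece M2, helper571). -/
theorem galoisHeckeStatement (N : ℕ) [NeZero N] :
    Fermat.Agent.S30.H330.GaloisHeckeStatement N :=
  fun σ ℓ x => (Fermat.Agent.S29.H571.heckeOperatorBar_smul N ℓ σ x).symm

/-- **S30 from the inputs (K), (P), (T).** -/
theorem result_of_inputs
    (hK : ∀ (N : ℕ) [NeZero N] (p : ℕ) [Fact p.Prime],
      Fermat.Agent.S30.H330.KummerStatement N p)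
    (hT : ∀ (N : ℕ) [NeZero N] (p : ℕ) [Fact p.Prime],
      Fermat.Agent.S30.H330.TorsionRelations N p)
    (hP : ∀ (p : ℕ) [Fact p.Prime] (N : ℕ) [NeZero N] (S : Finset ℕ)
      (_hpS : p ∈ S) (_hNS : ∀ q : ℕ, q.Prime → q ∣ N → q ∈ S)
      (𝒪' : Type) [CommRing 𝒪'] [IsDomain 𝒪'] [IsDiscreteValuationRing 𝒪']
      [IsAdicComplete (IsLocalRing.maximalIdeal 𝒪') 𝒪'] [Finite (IsLocalRing.ResidueField 𝒪')]
      [CharZero 𝒪'] (_hp𝒪' : (p : 𝒪') ∈ IsLocalRing.maximalIdeal 𝒪')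
      (χ : CuspForm.heckeAlgebra N 2 (↑S : Set ℕ) →+* 𝒪'),
      Fermat.Agent.S30.H330.ParEigenStatement N S 𝒪' χ) :
    ∀ (p : ℕ) [Fact p.Prime] (N : ℕ) [NeZero N] (S : Finset ℕ)
      (_hpS : p ∈ S) (_hNS : ∀ q : ℕ, q.Prime → q ∣ N → q ∈ S)
      (𝒪' : Type) [CommRing 𝒪'] [IsDomain 𝒪'] [IsDiscreteValuationRing 𝒪']
      [IsAdicComplete (IsLocalRing.maximalIdeal 𝒪') 𝒪'] [Finite (IsLocalRing.ResidueField 𝒪')]
      [CharZero 𝒪'] (_hp𝒪' : (p : 𝒪') ∈ IsLocalRing.maximalIdeal 𝒪')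
      (χ : CuspForm.heckeAlgebra N 2 (↑S : Set ℕ) →+* 𝒪'),
      ∃ (𝒪'' : Type) (_ : CommRing 𝒪'') (_ : IsDomain 𝒪'') (_ : IsDiscreteValuationRing 𝒪'')
        (_ : IsAdicComplete (IsLocalRing.maximalIdeal 𝒪'') 𝒪'')
        (_ : Finite (IsLocalRing.ResidueField 𝒪'')) (_ : CharZero 𝒪'')
        (_ : Algebra 𝒪' 𝒪'') (_ : Module.Finite 𝒪' 𝒪'') (_ : IsLocalHom (algebraMap 𝒪' 𝒪'')),
      Function.Injective (algebraMap 𝒪' 𝒪'') ∧
      ∃ ρ : GaloisRepAdic 𝒪'',
        (∀ (ℓ : ℕ) (hℓ : ℓ.Prime) (hℓN : ¬ ℓ ∣ N) (hℓS : ℓ ∉ (↑S : Set ℕ)),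
          ∀ A : ValuationSubring (AlgebraicClosure ℚ), A.LiesOverPrime ℓ →
            ∀ σ : AlgebraicClosure ℚ ≃ₐ[ℚ] AlgebraicClosure ℚ, A.IsFrobeniusAt σ ℓ →
              LinearMap.charpoly (ρ.ρ σ) =
                X ^ 2 - C (algebraMap 𝒪' 𝒪'' (χ (CuspForm.heckeAlgebra.T hℓ hℓN hℓS))) * X
                  + C ((ℓ : 𝒪''))) ∧
        (∀ q : ℕ, q.Prime → ¬ q ∣ N → q ≠ p → ρ.IsUnramifiedAt q) :=
  result_of_hasAdicEigenModules (hasAdicEigenModules_of_H330
    (fun p _ N _ S hpS hNS 𝒪' _ _ _ _ _ _ hp𝒪' χ =>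
      Fermat.Agent.S30.H330.hasAdicFrobModule_of_inputs hpS hNS hp𝒪' χ (hK N p)
        (hP p N S hpS hNS 𝒪' hp𝒪' χ) (hT N p) (smoothStatement N) (galoisHeckeStatement N)))

end Fermat.Agent.S30.H990

end
-- ===== PACK-END S30/H990/FromInputs.lean

-- ===== PACK-BEGIN S29/H812/Along.lean
section



/-!
# S29 / H812 — the Prelude's `…Along` predicates for an arbitrary `K`-algebra homomorphism between
function fields of one variable over an algebraically closed field of characteristic zero.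
-/

set_option autoImplicit false

noncomputable section

open AlgebraicCurve IntermediateField

namespace Fermat.Agent.S29.H812

open Fermat.Agent.S24

variable {K F F' : Type*} [Field K] [Field F] [Field F'] [Algebra K F] [Algebra K F']
  [IsAlgClosed K] [CharZero K]

/-- A `K`-algebra homomorphism of function fields of one variable is finite. -/
theorem finiteAlong (hF : ∃ x : F, Transcendental K x ∧ FiniteDimensional K⟮x⟯ F)
    (hF' : ∃ x : F', Transcendental K x ∧ FiniteDimensional K⟮x⟯ F') (φ : F →ₐ[K] F') :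
    FiniteAlong K φ := by
  letI := algebraAlong φ
  haveI := isScalarTower_along φ
  obtain ⟨x, hx, -⟩ := hF
  obtain ⟨x', hx', hx'fin⟩ := hF'
  have hφx : Transcendental K (algebraMap F F' x) := transcendental_algebraMap_of hx
  haveI : FiniteDimensional K⟮algebraMap F F' x⟯ F' :=
    FF.finiteDimensional_adjoin_of_transcendental hx' hφx
  exact finite_of_finite_adjoin_algebraMap (K := K) x

theorem isIntegral_of_finiteAlong {φ : F →ₐ[K] F'} (h : FiniteAlong K φ) :
    φ.toRingHom.IsIntegral := by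
  letI := algebraAlong φ
  haveI : Module.Finite F F' := h
  exact (Algebra.IsIntegral.of_finite F F').isIntegral

theorem fundamentalIdentityAlong (hF : ∃ x : F, Transcendental K x ∧ FiniteDimensional K⟮x⟯ F)
    [HasPrincipalDivisors K F'] (φ : F →ₐ[K] F') (hfin : FiniteAlong K φ)
    (hφ : φ.toRingHom.IsIntegral) : FundamentalIdentityAlong K φ hφ := by
  letI := algebraAlong φ
  haveI := isScalarTower_along φ
  haveI := isIntegral_along φ hφ
  haveI : Module.Finite F F' := hfin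
  exact fundamentalIdentity (F' := F') hF

theorem normFormulaAlong (hF : ∃ x : F, Transcendental K x ∧ FiniteDimensional K⟮x⟯ F)
    [HasPrincipalDivisors K F'] (φ : F →ₐ[K] F') (hfin : FiniteAlong K φ) :
    NormFormulaAlong K φ hfin := by
  letI := algebraAlong φ
  haveI := isScalarTower_along φ
  haveI : Module.Finite F F' := hfin
  exact pushforwardNormFormula (F' := F') hF

end Fermat.Agent.S29.H812

end
end
-- ===== PACK-END S29/H812/Along.lean

-- ===== PACK-BEGIN S29/H812/HeckeInputs.lean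
section




/-!
# S29 / H812 — the Prelude Hecke operator on `J₀(N)(ℚ̄)` is the genuine correspondence

All six inputs of `ModularCurve.HeckeInputsAlong (AlgebraicClosure ℚ) N ℓ` hold, for every `N ≠ 0`
and every `ℓ ≠ 0` (prime or not, dividing `N` or not); consequently
`heckeOperatorAlong = heckePic0Bar …` (Prelude `heckeOperatorAlong_eq`).

Generic part (`Fermat/Agent/S29/H812/*.lean`): for a finite extension `F'/F` of function fields of
one variable over an algebraically closed field of characteristic zero,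
`∑_{w | v} e(w | v) = [F' : F]` and `ord_v (N_{F'/F} f) = ∑_{w | v} ord_w f`.
-/

set_option autoImplicit false

noncomputable section

namespace Fermat.Agent.S29.H812

open ModularCurve AlgebraicCurve IntermediateField

/-- The modular function field has a coordinate. -/
theorem exists_coord_modular (M : ℕ) [NeZero M] :
    ∃ x : ↥(modularFunctionFieldBar M), Transcendental (AlgebraicClosure ℚ) x ∧
      FiniteDimensional (AlgebraicClosure ℚ)⟮x⟯ ↥(modularFunctionFieldBar M) :=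
  (Fermat.Agent.Lib.RR.H864.ff1_modularFunctionFieldBar M).exists_finite

/-- The degeneracy map `α` (inclusion) is finite. -/
theorem finiteAlong_heckeAlphaBar (N : ℕ) [NeZero N] (ℓ : ℕ) [NeZero ℓ] :
    FiniteAlong (AlgebraicClosure ℚ) (heckeAlphaBar (AlgebraicClosure ℚ) N ℓ) := by
  haveI : NeZero (N * ℓ) := ⟨Nat.mul_ne_zero (NeZero.ne N) (NeZero.ne ℓ)⟩
  exact finiteAlong (exists_coord_modular N) (exists_coord_modular (N * ℓ)) _

/-- The degeneracy map `β` (`q ↦ q^ℓ`) is finite. -/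
theorem finiteAlong_heckeBetaBar (N : ℕ) [NeZero N] (ℓ : ℕ) [NeZero ℓ] :
    FiniteAlong (AlgebraicClosure ℚ) (heckeBetaBar (AlgebraicClosure ℚ) N ℓ) := by
  haveI : NeZero (N * ℓ) := ⟨Nat.mul_ne_zero (NeZero.ne N) (NeZero.ne ℓ)⟩
  exact finiteAlong (exists_coord_modular N) (exists_coord_modular (N * ℓ)) _

/-- `HeckeInputsAlong` for every `ℓ ≠ 0`. -/
theorem heckeInputsAlong (N : ℕ) [NeZero N] (ℓ : ℕ) [NeZero ℓ] :
    HeckeInputsAlong (AlgebraicClosure ℚ) N ℓ := by
  haveI : NeZero (N * ℓ) := ⟨Nat.mul_ne_zero (NeZero.ne N) (NeZero.ne ℓ)⟩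
  haveI hP : HasPrincipalDivisors (AlgebraicClosure ℚ)
      (laurentBaseChange (AlgebraicClosure ℚ) (modularFunctionFieldFull (N * ℓ))) :=
    Fermat.Agent.Lib.RR.H864.hasPrincipalDivisors_modularFunctionFieldBar (N * ℓ)
  have hF := exists_coord_modular N
  have hfinα := finiteAlong_heckeAlphaBar N ℓ
  have hfinβ := finiteAlong_heckeBetaBar N ℓ
  have hα : HeckeAlphaBarIntegral (AlgebraicClosure ℚ) N ℓ := isIntegral_of_finiteAlong hfinα
  have hβ : HeckeBetaBarIntegral (AlgebraicClosure ℚ) N ℓ := isIntegral_of_finiteAlong hfinβ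
  exact heckeInputsAlong_intro hα hβ
    (fundamentalIdentityAlong hF (heckeBetaBar (AlgebraicClosure ℚ) N ℓ) hfinβ hβ)
    hfinα
    (normFormulaAlong hF (heckeAlphaBar (AlgebraicClosure ℚ) N ℓ) hfinα)

end Fermat.Agent.S29.H812

end
end
-- ===== PACK-END S29/H812/HeckeInputs.lean

-- ===== PACK-BEGIN S29/HI.lean
section



/-!
# S29, layer M, piece `HI` (helper812): exact `SkeletonM` statement.
Proof in `Fermat/Agent/S29/H812/HeckeInputs.lean` (holds for every `ℓ ≠ 0`).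
-/

set_option autoImplicit false

noncomputable section

namespace Fermat.Agent.S29

open ModularCurve AlgebraicCurve

variable (N : ℕ) [NeZero N]

/-- PIECE `HI`: the Prelude Hecke operator is the genuine correspondence (all six inputs hold). -/
theorem heckeInputsAlong_bar (ℓ : ℕ) [NeZero ℓ] (_hℓ : ℓ.Prime) :
    HeckeInputsAlong (AlgebraicClosure ℚ) N ℓ :=
  H812.heckeInputsAlong N ℓ

end Fermat.Agent.S29

end
end
-- ===== PACK-END S29/HI.lean

-- ===== PACK-BEGIN S37/H819/Emb.lean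
section




/-!
# S37 / NORM (helper819) — the embeddings `σ_g` of `ℚ̄(X₀(Nℓ))` for `g ∈ Γ₀(N)`

`M = N ℓ`, `σ_g := sigmaG (holBase M) qexp g : FF M →+* ℂ((z))`, `z = q^{1/M}`
(S24, helper997).  For `h ∈ Γ₀(N)`:
* `σ_{h⁻¹} ∘ α = Φ_M` on `FF N`                                  (`sig_alpha`)
* `σ_{h⁻¹} ∘ β = (y ↦ y(ζ^b q^{1/ℓ}))` if `ℓ ∣ h₁₁ - b h₁₀`       (`sig_beta`)
* `σ_1 = Φ_M`                                                      (`sig_one`)
where `α, β : FF N → FF M` are the Prelude degeneracy maps `heckeAlphaBar`, `heckeBetaBar`.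
-/

set_option autoImplicit false

noncomputable section

open ModularCurve HahnSeries UpperHalfPlane AlgebraicCurve
open scoped MatrixGroups

namespace Fermat.Agent.S37.H819

open Fermat.Agent.S24 Fermat.Agent.S24.H997

/-! ### Formal lemmas on `infTwist`, `qExpand`, `coeffMap` -/

section Formal

variable {R : Type*} [CommRing R]

theorem infTwist_qExpand (u : Rˣ) (d : ℕ) [NeZero d] (x : LaurentSeries R) :
    infTwist u (qExpand R d x) = qExpand R d (infTwist (u ^ d) x) := by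
  ext k
  rw [infTwist_coeff]
  by_cases hk : (d : ℤ) ∣ k
  · obtain ⟨m, rfl⟩ := hk
    rw [qExpand_coeff_mul, qExpand_coeff_mul, infTwist_coeff]
    congr 2
    rw [zpow_mul, zpow_natCast]
  · rw [qExpand_coeff_of_not_dvd d _ hk, qExpand_coeff_of_not_dvd d _ hk, zero_mul]

theorem coeffMap_infTwist {S : Type*} [CommRing S] (f : R →+* S) (u : Rˣ)
    (x : LaurentSeries R) :
    coeffMap f (infTwist u x) = infTwist (Units.map (f : R →* S) u) (coeffMap f x) := by
  ext k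
  rw [coeffMap_coeff, infTwist_coeff, infTwist_coeff, coeffMap_coeff, map_mul]
  congr 1
  rw [← map_zpow]
  rfl

theorem coeffMap_C' {S : Type*} [CommRing S] (f : R →+* S) (r : R) :
    coeffMap f (HahnSeries.C r) = HahnSeries.C (f r) := by
  rw [C_apply, coeffMap_single, C_apply]

end Formal

theorem coeffMap_ιK_coeffEmb (s : LaurentSeries ℚ) :
    coeffMap ιK (coeffEmb Kbar s) = coeffEmb ℂ s := by
  rw [coeffEmb, coeffMap_coeffMap, coeffEmb]
  refine coeffMap_congr (RingHom.ext fun c => ?_) s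
  rw [RingHom.comp_apply, ιK_algebraMap]
  simp

theorem infRoot_pow (b : ℤ) (n d : ℕ) : (infRoot b n) ^ d = infRoot ((d : ℤ) * b) n := by
  apply Units.ext
  rw [Units.val_pow_eq_pow_val, infRoot_coe, infRoot_coe, ← Complex.exp_nat_mul]
  congr 1
  push_cast
  ring

/-- the expansion of `j(d(τ+b)/ℓ)` is `j_d(ζ^b q^{1/ℓ})`, in the variable `z = q^{1/(Nℓ)}` -/
theorem infGenExp_eq_twist (N ℓ d : ℕ) [NeZero N] [NeZero d] (b : ℤ) :
    haveI : NeZero (d * N) := ⟨Nat.mul_ne_zero (NeZero.ne d) (NeZero.ne N)⟩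
    infGenExp (d * N) ((d : ℤ) * b) ℓ
      = qExpand ℂ N (infTwist (infRoot b ℓ) (coeffMap ιK (coeffEmb Kbar (qExpand ℚ d jq)))) := by
  have : NeZero (d * N) := ⟨Nat.mul_ne_zero (NeZero.ne d) (NeZero.ne N)⟩
  rw [coeffMap_ιK_coeffEmb, coeffEmb, coeffMap_qExpand, infTwist_qExpand, qExpand_qExpand,
    infRoot_pow, infGenExp]
  have : coeffMap (algebraMap ℚ ℂ) jq = infJq := rfl
  rw [this]
  exact qExpand_congr (Nat.mul_comm d N) _

variable (N ℓ : ℕ) [NeZero N] [NeZero ℓ]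

/-- the embedding `σ_g` at level `N ℓ` -/
def sig (g : SL(2, ℤ)) : FF (N * ℓ) →+* LaurentSeries ℂ :=
  (holBase (N * ℓ)).sigmaG (holBase (N * ℓ)).qexpExpansion g

theorem sig_inclRN (g : SL(2, ℤ)) (r : RN (N * ℓ)) :
    sig N ℓ g (inclRN (N * ℓ) r)
      = (holBase (N * ℓ)).qexp ((holBase (N * ℓ)).compH g⁻¹ ((holBase (N * ℓ)).bridge r)) :=
  (holBase (N * ℓ)).sigmaG_inclRN _ g r

theorem sig_algebraMap (g : SL(2, ℤ)) (c : Kbar) :
    sig N ℓ g (algebraMap Kbar (FF (N * ℓ)) c) = HahnSeries.C (ιK c) :=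
  (holBase (N * ℓ)).sigmaG_algebraMap _ g c

/-- the value of `qexp` from a convergent expansion -/
theorem qexp_eq_of_infExp {M : ℕ} [NeZero M] (h : (holBase M).Hol) {φ : LaurentSeries ℂ}
    (hφ : InfExp M (h : ℍ → ℂ) φ) : (holBase M).qexp h = φ :=
  (expInf_spec (holToExp M h)).unique hφ

/-- `σ_1` is the formal comparison map `Φ_M`. -/
theorem sig_one (x : FF (N * ℓ)) :
    sig N ℓ 1 x = HolBase.Φ (N * ℓ) (x : LaurentSeries Kbar) := by
  obtain ⟨r, t, -, rfl⟩ := exists_div_inclRN (N * ℓ) x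
  rw [map_div₀, sig_inclRN, sig_inclRN, inv_one, HolBase.compH_one, HolBase.compH_one,
    HolBase.qexp_bridge, HolBase.qexp_bridge]
  rw [IntermediateField.coe_div, map_div₀]
  rfl

/-- Two ring homs out of `FF N` into a field agree if they agree on constants and on the
generators `j(q^d)`, `d ∣ N`. -/
theorem ringHom_ext_FF {E : Type*} [Field E] (f g : FF N →+* E)
    (hc : ∀ c : Kbar, f (algebraMap Kbar (FF N) c) = g (algebraMap Kbar (FF N) c))
    (hgen : ∀ (d : ℕ) [NeZero d] (hd : d ∣ N),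
      f (inclRN N (jR N d hd)) = g (inclRN N (jR N d hd))) : f = g := by
  let f' : RN N →+* E := f.comp (inclRN N).toRingHom
  let g' : RN N →+* E := g.comp (inclRN N).toRingHom
  have key' : ∀ r : RN N, f' r = g' r := by
    rintro ⟨r, hr⟩
    induction hr using Algebra.adjoin_induction with
    | mem x hx =>
        obtain ⟨y, ⟨d, hne, hd, rfl⟩, rfl⟩ := hx
        have : (⟨coeffEmb Kbar (qExpand ℚ d jq), Algebra.subset_adjoin
            ⟨_, ⟨d, hne, hd, rfl⟩, rfl⟩⟩ : RN N) = jR N d hd := rfl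
        rw [this]
        exact hgen d hd
    | algebraMap c =>
        have : (⟨algebraMap Kbar (LaurentSeries Kbar) c, Subalgebra.algebraMap_mem _ c⟩ : RN N)
            = algebraMap Kbar (RN N) c := rfl
        rw [this]
        show f (inclRN N (algebraMap Kbar (RN N) c)) = g (inclRN N (algebraMap Kbar (RN N) c))
        have e : inclRN N (algebraMap Kbar (RN N) c) = algebraMap Kbar (FF N) c := rfl
        rw [e]
        exact hc c
    | add x y hx hy ihx ihy =>
        have : (⟨x + y, add_mem hx hy⟩ : RN N) = ⟨x, hx⟩ + ⟨y, hy⟩ := rfl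
        rw [this, map_add, map_add, ihx, ihy]
    | mul x y hx hy ihx ihy =>
        have : (⟨x * y, mul_mem hx hy⟩ : RN N) = ⟨x, hx⟩ * ⟨y, hy⟩ := rfl
        rw [this, map_mul, map_mul, ihx, ihy]
  have key : ∀ r : RN N, f (inclRN N r) = g (inclRN N r) := key'
  ext x
  obtain ⟨r, t, -, rfl⟩ := exists_div_inclRN N x
  rw [map_div₀, map_div₀, key, key]

/-- the coercion `FF N → ℚ̄((q))` as a ring hom -/
def coeHom : FF N →+* LaurentSeries Kbar where
  toFun x := (x : LaurentSeries Kbar)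
  map_one' := rfl
  map_mul' _ _ := rfl
  map_zero' := rfl
  map_add' _ _ := rfl

@[simp] theorem coeHom_apply (x : FF N) : coeHom N x = (x : LaurentSeries Kbar) := rfl

theorem coe_inclRN_jR (d : ℕ) [NeZero d] (hd : d ∣ N) :
    ((inclRN N (jR N d hd) : FF N) : LaurentSeries Kbar) = coeffEmb Kbar (qExpand ℚ d jq) := rfl

theorem coe_algebraMap_FF (c : Kbar) :
    ((algebraMap Kbar (FF N) c : FF N) : LaurentSeries Kbar)
      = algebraMap Kbar (LaurentSeries Kbar) c := rfl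

theorem alpha_inclRN_jR (d : ℕ) [NeZero d] (hd : d ∣ N) (hd' : d ∣ N * ℓ) :
    heckeAlphaBar Kbar N ℓ (inclRN N (jR N d hd)) = inclRN (N * ℓ) (jR (N * ℓ) d hd') := by
  apply Subtype.ext
  rw [coe_heckeAlphaBar, coe_inclRN_jR, coe_inclRN_jR]

theorem beta_inclRN_jR (d : ℕ) [NeZero d] (hd : d ∣ N) [NeZero (d * ℓ)]
    (hdℓ : d * ℓ ∣ N * ℓ) :
    heckeBetaBar Kbar N ℓ (inclRN N (jR N d hd)) = inclRN (N * ℓ) (jR (N * ℓ) (d * ℓ) hdℓ) := by
  apply Subtype.ext
  rw [coe_heckeBetaBar, coe_inclRN_jR, coe_inclRN_jR, coeffEmb, ← coeffMap_qExpand,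
    qExpand_qExpand]
  congr 1
  exact qExpand_congr (Nat.mul_comm ℓ d) _

theorem compH_JH_of_mem_gamma0 {h : SL(2, ℤ)} (hh : h ∈ CongruenceSubgroup.Gamma0 N)
    (d : ℕ) (hd : d ∣ N) (hd' : d ∣ N * ℓ) :
    (holBase (N * ℓ)).compH h ((holBase (N * ℓ)).JH d hd') = (holBase (N * ℓ)).JH d hd' := by
  apply Subtype.ext
  funext τ
  exact Jd_inv N d hd h hh τ

/-- For `h ∈ Γ₀(N)` the embedding `σ_{h⁻¹}` restricts to `Φ_M` on `α(FF N)`. -/
theorem sig_alpha {h : SL(2, ℤ)} (hh : h ∈ CongruenceSubgroup.Gamma0 N) (y : FF N) :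
    sig N ℓ h⁻¹ (heckeAlphaBar Kbar N ℓ y) = HolBase.Φ (N * ℓ) (y : LaurentSeries Kbar) := by
  have key := ringHom_ext_FF N ((sig N ℓ h⁻¹).comp (heckeAlphaBar Kbar N ℓ).toRingHom)
    ((HolBase.Φ (N * ℓ)).comp (coeHom N)) ?_ ?_
  · exact RingHom.congr_fun key y
  · intro c
    rw [RingHom.comp_apply, RingHom.comp_apply, coeHom_apply, coe_algebraMap_FF,
      HolBase.Φ_algebraMap]
    have e : (heckeAlphaBar Kbar N ℓ).toRingHom (algebraMap Kbar (FF N) c)
        = algebraMap Kbar (FF (N * ℓ)) c := (heckeAlphaBar Kbar N ℓ).commutes c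
    rw [e, sig_algebraMap]
  · intro d _ hd
    have hd' : d ∣ N * ℓ := Dvd.dvd.mul_right hd ℓ
    rw [RingHom.comp_apply, RingHom.comp_apply, coeHom_apply, coe_inclRN_jR]
    have e : (heckeAlphaBar Kbar N ℓ).toRingHom (inclRN N (jR N d hd))
        = inclRN (N * ℓ) (jR (N * ℓ) d hd') := alpha_inclRN_jR N ℓ d hd hd'
    rw [e, sig_inclRN, HolBase.bridge_jR, inv_inv, (holBase (N * ℓ)).Φ_gen d hd',
      compH_JH_of_mem_gamma0 N ℓ hh d hd hd']

/-- For `h ∈ Γ₀(N)` with `h₁₁ ≡ b h₁₀ mod ℓ`, the embedding `σ_{h⁻¹}` is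
`y ↦ y(ζ_ℓ^b q^{1/ℓ})` on `β(FF N)`. -/
theorem sig_beta {h : SL(2, ℤ)} (hh : h ∈ CongruenceSubgroup.Gamma0 N) {b : ℤ}
    (hb : (ℓ : ℤ) ∣ h 1 1 - b * h 1 0) (y : FF N) :
    sig N ℓ h⁻¹ (heckeBetaBar Kbar N ℓ y)
      = qExpand ℂ N (infTwist (infRoot b ℓ) (coeffMap ιK (y : LaurentSeries Kbar))) := by
  have key := ringHom_ext_FF N ((sig N ℓ h⁻¹).comp (heckeBetaBar Kbar N ℓ).toRingHom)
    (((qExpand ℂ N).comp (infTwist (infRoot b ℓ))).comp ((coeffMap ιK).comp (coeHom N))) ?_ ?_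
  · exact RingHom.congr_fun key y
  · intro c
    rw [RingHom.comp_apply, RingHom.comp_apply, RingHom.comp_apply, RingHom.comp_apply,
      coeHom_apply, coe_algebraMap_FF]
    have e : (heckeBetaBar Kbar N ℓ).toRingHom (algebraMap Kbar (FF N) c)
        = algebraMap Kbar (FF (N * ℓ)) c := (heckeBetaBar Kbar N ℓ).commutes c
    rw [e, sig_algebraMap, algebraMap_laurentSeries_eq_single, coeffMap_single,
      infTwist_single, qExpand_single]
    simp [HahnSeries.C_apply]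
  · intro d _ hd
    have hN0 : 0 < N := Nat.pos_of_ne_zero (NeZero.ne N)
    have hℓ0 : 0 < ℓ := Nat.pos_of_ne_zero (NeZero.ne ℓ)
    have hd0 : 0 < d := Nat.pos_of_dvd_of_pos hd hN0
    have hdℓ : d * ℓ ∣ N * ℓ := Nat.mul_dvd_mul_right hd ℓ
    haveI hne1 : NeZero (d * ℓ) := ⟨Nat.mul_ne_zero (NeZero.ne d) (NeZero.ne ℓ)⟩
    haveI hne2 : NeZero (d * N) := ⟨Nat.mul_ne_zero (NeZero.ne d) (NeZero.ne N)⟩
    rw [RingHom.comp_apply, RingHom.comp_apply, RingHom.comp_apply, RingHom.comp_apply,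
      coeHom_apply, coe_inclRN_jR]
    have e : (heckeBetaBar Kbar N ℓ).toRingHom (inclRN N (jR N d hd))
        = inclRN (N * ℓ) (jR (N * ℓ) (d * ℓ) hdℓ) := beta_inclRN_jR N ℓ d hd hdℓ
    rw [e, sig_inclRN, HolBase.bridge_jR, inv_inv, ← infGenExp_eq_twist N ℓ d b]
    have hdvd : ((d : ℕ) : ℤ) ∣ h 1 0 := by
      rw [gamma0_mem_iff_dvd] at hh
      exact dvd_trans (by exact_mod_cast hd) hh
    obtain ⟨γ', h00, h01, h10, h11⟩ := exists_hnf_twist d ℓ b h hdvd hb
    have hexp : InfExp (N * ℓ) (fun τ => Fermat.Agent.S20.L1.jFun (infAff d ((d : ℤ) * b) ℓ τ))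
        (infGenExp (d * N) ((d : ℤ) * b) ℓ) :=
      inf_J_infAff_exp infExp_jFun (e := d * N) (N := N * ℓ) ((d : ℤ) * b) hd0 hℓ0
        (Nat.mul_pos hN0 hℓ0) (by ring)
    refine qexp_eq_of_infExp _ (hexp.congr fun τ => ?_)
    have hJ : (((holBase (N * ℓ)).compH h ((holBase (N * ℓ)).JH (d * ℓ) hdℓ) :
        (holBase (N * ℓ)).Hol) : ℍ → ℂ) τ = Jd (d * ℓ) (h • τ) := rfl
    rw [hJ]
    unfold Jd
    rw [inf_aff_smul_eq (Nat.mul_pos hd0 hℓ0) hd0 hℓ0 h γ' h00 h01 h10 h11 τ, jFun_smul']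

end Fermat.Agent.S37.H819

end
end
-- ===== PACK-END S37/H819/Emb.lean

-- ===== PACK-BEGIN S37/H819/Enum.lean
section


/-!
# S37 / NORM (helper819) — enumeration of the `FF N`-embeddings of `FF (N ℓ)` and the norm
-/

set_option autoImplicit false

noncomputable section

open ModularCurve HahnSeries UpperHalfPlane AlgebraicCurve
open scoped MatrixGroups

namespace Fermat.Agent.S37.H819

open Fermat.Agent.S24 Fermat.Agent.S24.H997

variable (N ℓ : ℕ) [NeZero N] [NeZero ℓ]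

/-- `α (j) = j` -/
theorem alpha_jF : heckeAlphaBar Kbar N ℓ (jF N) = jF (N * ℓ) := by
  apply Subtype.ext
  rw [coe_heckeAlphaBar]
  rfl

/-- every element of `ℚ̄(j) ⊆ FF (N ℓ)` lies in the image of `α` -/
theorem exists_alpha_eq_of_mem_adjoin {c : FF (N * ℓ)}
    (hc : c ∈ IntermediateField.adjoin Kbar {jF (N * ℓ)}) :
    ∃ c' : FF N, heckeAlphaBar Kbar N ℓ c' = c := by
  induction hc using IntermediateField.adjoin_induction with
  | mem z hz =>
      rw [Set.mem_singleton_iff] at hz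
      subst hz
      exact ⟨jF N, alpha_jF N ℓ⟩
  | algebraMap a => exact ⟨algebraMap Kbar (FF N) a, (heckeAlphaBar Kbar N ℓ).commutes a⟩
  | add z w _ _ hz hw =>
      obtain ⟨z', rfl⟩ := hz
      obtain ⟨w', rfl⟩ := hw
      exact ⟨z' + w', map_add _ _ _⟩
  | inv z _ hz =>
      obtain ⟨z', rfl⟩ := hz
      exact ⟨z'⁻¹, map_inv₀ _ _⟩
  | mul z w _ _ hz hw =>
      obtain ⟨z', rfl⟩ := hz
      obtain ⟨w', rfl⟩ := hw
      exact ⟨z' * w', map_mul _ _ _⟩

/-- `FF (N ℓ)` is finite over `FF N` (along `α`). -/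
theorem finite_alpha :
    letI := algebraAlong (heckeAlphaBar Kbar N ℓ)
    Module.Finite (FF N) (FF (N * ℓ)) := by
  letI := algebraAlong (heckeAlphaBar Kbar N ℓ)
  haveI hfd := (Deg457.degree_fields (N * ℓ)).1
  obtain ⟨s, hs⟩ := (Module.Finite.fg_top :
    (⊤ : Submodule ↥(IntermediateField.adjoin Kbar {jF (N * ℓ)}) (FF (N * ℓ))).FG)
  refine ⟨⟨s, ?_⟩⟩
  rw [eq_top_iff]
  intro x hxt
  have hx : x ∈ Submodule.span ↥(IntermediateField.adjoin Kbar {jF (N * ℓ)})
      (s : Set (FF (N * ℓ))) := by rw [hs]; trivial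
  revert hxt
  induction hx using Submodule.span_induction with
  | mem y hy => exact fun _ => Submodule.subset_span hy
  | zero => exact fun _ => zero_mem _
  | add y z _ _ hy hz => exact fun _ => add_mem (hy trivial) (hz trivial)
  | smul c y _ hy =>
      obtain ⟨c', hc'⟩ := exists_alpha_eq_of_mem_adjoin N ℓ c.2
      have e : c • y = c' • y := by
        show (c : FF (N * ℓ)) * y = heckeAlphaBar Kbar N ℓ c' * y
        rw [hc']
      rw [e]
      exact fun _ => Submodule.smul_mem _ c' (hy trivial)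

/-! ### The target field and the algebra structures -/

/-- An algebraic closure of `ℂ((z))` (type synonym carrying `N`, `ℓ`). -/
def Om (_N _ℓ : ℕ) : Type := AlgebraicClosure (LaurentSeries ℂ)

instance : Field (Om N ℓ) := inferInstanceAs (Field (AlgebraicClosure (LaurentSeries ℂ)))

instance : IsAlgClosed (Om N ℓ) :=
  inferInstanceAs (IsAlgClosed (AlgebraicClosure (LaurentSeries ℂ)))

/-- the inclusion `ℂ((z)) → Ω` -/
def incOm : LaurentSeries ℂ →+* Om N ℓ :=
  algebraMap (LaurentSeries ℂ) (AlgebraicClosure (LaurentSeries ℂ))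

theorem incOm_injective : Function.Injective (incOm N ℓ) :=
  (algebraMap (LaurentSeries ℂ) (AlgebraicClosure (LaurentSeries ℂ))).injective

/-- `FF (N ℓ)` as an `FF N`-algebra along `α` (the Prelude's `algebraAlong`) -/
local instance instAlgAlpha : Algebra (FF N) (FF (N * ℓ)) :=
  algebraAlong (heckeAlphaBar Kbar N ℓ)

/-- `Ω` as an `FF N`-algebra through `σ₁ ∘ α` -/
local instance instAlgOm : Algebra (FF N) (Om N ℓ) :=
  (((incOm N ℓ).comp (sig N ℓ 1)).comp (heckeAlphaBar Kbar N ℓ).toRingHom).toAlgebra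

theorem algebraMap_alpha (y : FF N) :
    algebraMap (FF N) (FF (N * ℓ)) y = heckeAlphaBar Kbar N ℓ y := rfl

theorem algebraMap_Om (y : FF N) :
    algebraMap (FF N) (Om N ℓ) y = incOm N ℓ (sig N ℓ 1 (heckeAlphaBar Kbar N ℓ y)) := rfl

local instance instFiniteAlpha : Module.Finite (FF N) (FF (N * ℓ)) := finite_alpha N ℓ

example : Algebra.IsSeparable (FF N) (FF (N * ℓ)) := inferInstance

/-- the `FF N`-embedding `σ_{h⁻¹}` for `h ∈ Γ₀(N)` -/
def embOf (h : SL(2, ℤ)) (hh : h ∈ CongruenceSubgroup.Gamma0 N) :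
    FF (N * ℓ) →ₐ[FF N] Om N ℓ :=
  { (incOm N ℓ).comp (sig N ℓ h⁻¹) with
    commutes' := fun y => by
      show incOm N ℓ (sig N ℓ h⁻¹ (heckeAlphaBar Kbar N ℓ y))
        = incOm N ℓ (sig N ℓ 1 (heckeAlphaBar Kbar N ℓ y))
      rw [sig_alpha N ℓ hh, sig_one, coe_heckeAlphaBar] }

theorem embOf_apply (h : SL(2, ℤ)) (hh : h ∈ CongruenceSubgroup.Gamma0 N) (x : FF (N * ℓ)) :
    embOf N ℓ h hh x = incOm N ℓ (sig N ℓ h⁻¹ x) := rfl

/-! ### Every `FF N`-embedding is some `σ_g` -/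

/-- all the `σ_g` agree with `σ₁` on `ℚ̄(j)` -/
theorem sig_eq_on_adjoin (g : SL(2, ℤ)) {f : FF (N * ℓ)}
    (hf : f ∈ IntermediateField.adjoin Kbar {jF (N * ℓ)}) : sig N ℓ g f = sig N ℓ 1 f := by
  induction hf using IntermediateField.adjoin_induction with
  | mem z hz =>
      rw [Set.mem_singleton_iff] at hz
      subst hz
      unfold sig
      rw [HolBase.sigmaG_jF, HolBase.sigmaG_jF]
  | algebraMap c => rw [sig_algebraMap, sig_algebraMap]
  | add z w _ _ hz hw => rw [map_add, map_add, hz, hw]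
  | inv z _ hz => rw [map_inv₀, map_inv₀, hz]
  | mul z w _ _ hz hw => rw [map_mul, map_mul, hz, hw]

/-- `ℚ̄(j)` inside `FF (N ℓ)` -/
abbrev Kj : Type := ↥(IntermediateField.adjoin Kbar {jF (N * ℓ)})

/-- `Ω` as a `ℚ̄(j)`-algebra through `σ₁` -/
local instance instAlgKjOm : Algebra (Kj N ℓ) (Om N ℓ) :=
  (((incOm N ℓ).comp (sig N ℓ 1)).comp (algebraMap (Kj N ℓ) (FF (N * ℓ)))).toAlgebra

/-- the `ℚ̄(j)`-embedding attached to a coset -/
def embK (x : XX (N * ℓ)) : FF (N * ℓ) →ₐ[Kj N ℓ] Om N ℓ :=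
  { (incOm N ℓ).comp ((holBase (N * ℓ)).sigmaX (holBase (N * ℓ)).qexpExpansion x) with
    commutes' := fun c => by
      show incOm N ℓ (sig N ℓ (Quotient.out x) (c : FF (N * ℓ)))
        = incOm N ℓ (sig N ℓ 1 (c : FF (N * ℓ)))
      rw [sig_eq_on_adjoin N ℓ _ c.2] }

theorem embK_apply (x : XX (N * ℓ)) (f : FF (N * ℓ)) :
    embK N ℓ x f = incOm N ℓ ((holBase (N * ℓ)).sigmaX (holBase (N * ℓ)).qexpExpansion x f) :=
  rfl

theorem embK_injective : Function.Injective (embK N ℓ) := by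
  intro x y hxy
  apply (holBase (N * ℓ)).sigmaX_injective (holBase (N * ℓ)).qexpExpansion
  refine RingHom.ext fun f => ?_
  apply incOm_injective N ℓ
  have := congrArg (fun φ : FF (N * ℓ) →ₐ[Kj N ℓ] Om N ℓ => φ f) hxy
  simpa only [embK_apply] using this

theorem embK_bijective : Function.Bijective (embK N ℓ) := by
  haveI hfd := (Deg457.degree_fields (N * ℓ)).1
  haveI : Module.Finite (Kj N ℓ) (FF (N * ℓ)) := hfd
  haveI : Module.Free (Kj N ℓ) (FF (N * ℓ)) := Module.Free.of_divisionRing _ _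
  haveI : Finite (FF (N * ℓ) →ₐ[Kj N ℓ] Om N ℓ) := Finite.algHom _ _ _
  refine (embK_injective N ℓ).bijective_of_nat_card_le ?_
  calc Nat.card (FF (N * ℓ) →ₐ[Kj N ℓ] Om N ℓ)
      ≤ Module.finrank (Kj N ℓ) (FF (N * ℓ)) := card_algHom_le_finrank _ _ _
    _ ≤ Nat.card (XX (N * ℓ)) := (Deg457.degree_fields (N * ℓ)).2

/-- an `FF N`-embedding agrees with `σ₁` on `ℚ̄(j)` -/
theorem algHom_eq_on_adjoin (τ : FF (N * ℓ) →ₐ[FF N] Om N ℓ) {f : FF (N * ℓ)}
    (hf : f ∈ IntermediateField.adjoin Kbar {jF (N * ℓ)}) :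
    τ f = incOm N ℓ (sig N ℓ 1 f) := by
  obtain ⟨c', rfl⟩ := exists_alpha_eq_of_mem_adjoin N ℓ hf
  exact τ.commutes c'

/-- **Classification.** Every `FF N`-embedding of `FF (N ℓ)` into `Ω` is `σ_{h⁻¹}` for some
`h ∈ Γ₀(N)`. -/
theorem exists_embOf_eq (τ : FF (N * ℓ) →ₐ[FF N] Om N ℓ) :
    ∃ (h : SL(2, ℤ)) (hh : h ∈ CongruenceSubgroup.Gamma0 N), τ = embOf N ℓ h hh := by
  -- view `τ` as a `ℚ̄(j)`-embedding
  let τK : FF (N * ℓ) →ₐ[Kj N ℓ] Om N ℓ :=
    { τ.toRingHom with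
      commutes' := fun c => algHom_eq_on_adjoin N ℓ τ c.2 }
  obtain ⟨x, hx⟩ := (embK_bijective N ℓ).2 τK
  obtain ⟨g, rfl⟩ := QuotientGroup.mk_surjective x
  have hτ : ∀ f : FF (N * ℓ), τ f = incOm N ℓ (sig N ℓ g f) := by
    intro f
    have h1 : τK f = τ f := rfl
    rw [← h1, ← hx, embK_apply, HolBase.sigmaX_mk]
    rfl
  -- `g⁻¹ ∈ Γ₀(N)`
  have hg : g⁻¹ ∈ CongruenceSubgroup.Gamma0 N := by
    have hNN : N ∣ N * ℓ := Dvd.intro ℓ rfl
    have h2 := hτ (heckeAlphaBar Kbar N ℓ (inclRN N (jR N N dvd_rfl)))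
    have h3 : τ (heckeAlphaBar Kbar N ℓ (inclRN N (jR N N dvd_rfl)))
        = incOm N ℓ (sig N ℓ 1 (heckeAlphaBar Kbar N ℓ (inclRN N (jR N N dvd_rfl)))) :=
      τ.commutes _
    rw [h3] at h2
    have h4 := incOm_injective N ℓ h2
    rw [alpha_inclRN_jR N ℓ N dvd_rfl hNN, sig_inclRN, sig_inclRN, HolBase.bridge_jR, inv_one,
      HolBase.compH_one] at h4
    have h5 := (holBase (N * ℓ)).qexp_injective h4
    apply Jd_distinct N
    intro t
    have h6 := congrArg (fun f : (holBase (N * ℓ)).Hol => (f : ℍ → ℂ) t) h5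
    exact h6.symm
  refine ⟨g⁻¹, hg, ?_⟩
  apply AlgHom.ext
  intro f
  rw [hτ f, embOf_apply, inv_inv]

/-! ### Generation of `FF (N ℓ)` by `α(FF N)` and `β(FF N)` -/

omit [NeZero ℓ] in
theorem dvd_cases {ℓ : ℕ} (hℓ : ℓ.Prime) {N d : ℕ} (hd : d ∣ N * ℓ) :
    d ∣ N ∨ ∃ d', d' ∣ N ∧ d = d' * ℓ := by
  by_cases hℓd : ℓ ∣ d
  · right
    obtain ⟨d', rfl⟩ := hℓd
    refine ⟨d', ?_, Nat.mul_comm _ _⟩
    rw [Nat.mul_comm N ℓ] at hd
    exact Nat.dvd_of_mul_dvd_mul_left hℓ.pos hd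
  · left
    have hc : Nat.Coprime d ℓ := (Nat.coprime_comm.mp ((Nat.Prime.coprime_iff_not_dvd hℓ).mpr hℓd))
    exact hc.dvd_of_dvd_mul_right hd

/-- Two ring homs out of `FF (N ℓ)` agreeing on `α(FF N)` and on `β(FF N)` are equal. -/
theorem ringHom_ext_alpha_beta (hℓ : ℓ.Prime) {E : Type*} [Field E]
    (f g : FF (N * ℓ) →+* E)
    (hα : ∀ y : FF N, f (heckeAlphaBar Kbar N ℓ y) = g (heckeAlphaBar Kbar N ℓ y))
    (hβ : ∀ y : FF N, f (heckeBetaBar Kbar N ℓ y) = g (heckeBetaBar Kbar N ℓ y)) : f = g := by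
  apply ringHom_ext_FF (N * ℓ) f g
  · intro c
    have := hα (algebraMap Kbar (FF N) c)
    rwa [AlgHom.commutes] at this
  · intro d hne hd
    rcases dvd_cases hℓ hd with hdN | ⟨d', hd', rfl⟩
    · rw [← alpha_inclRN_jR N ℓ d hdN hd]
      exact hα _
    · haveI : NeZero d' := ⟨fun h0 => hne.out (by rw [h0, Nat.zero_mul])⟩
      rw [← beta_inclRN_jR N ℓ d' hd' hd]
      exact hβ _

/-! ### The `ℓ + 1` embeddings -/

section Reps

variable (hℓ : ℓ.Prime) (hℓN : ¬ ℓ ∣ N)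

include hℓ hℓN in
theorem coprime_N_ℓ : Nat.Coprime N ℓ :=
  Nat.coprime_comm.mp ((Nat.Prime.coprime_iff_not_dvd hℓ).mpr hℓN)

/-- a representative `h_b ∈ Γ₀(N)` with `(h_b)₁₁ ≡ b (h_b)₁₀ mod ℓ` -/
def hrep (b : ℤ) : SL(2, ℤ) := Classical.choose (exists_rep (coprime_N_ℓ N ℓ hℓ hℓN) b)

theorem hrep_mem (b : ℤ) : hrep N ℓ hℓ hℓN b ∈ CongruenceSubgroup.Gamma0 N :=
  (Classical.choose_spec (exists_rep (coprime_N_ℓ N ℓ hℓ hℓN) b)).1

theorem hrep_dvd (b : ℤ) :
    (ℓ : ℤ) ∣ (hrep N ℓ hℓ hℓN b) 1 1 - b * (hrep N ℓ hℓ hℓN b) 1 0 :=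
  (Classical.choose_spec (exists_rep (coprime_N_ℓ N ℓ hℓ hℓN) b)).2

/-- the `ℓ + 1` embeddings: `none ↦ σ₁`, `some b ↦ σ_{h_b⁻¹}` -/
def embList : Option (Fin ℓ) → (FF (N * ℓ) →ₐ[FF N] Om N ℓ)
  | none => embOf N ℓ 1 (one_mem _)
  | some b => embOf N ℓ (hrep N ℓ hℓ hℓN (b : ℕ)) (hrep_mem N ℓ hℓ hℓN _)

theorem embList_none_beta (y : FF N) :
    embList N ℓ hℓ hℓN none (heckeBetaBar Kbar N ℓ y)
      = incOm N ℓ (HolBase.Φ (N * ℓ) (qExpand Kbar ℓ (y : LaurentSeries Kbar))) := by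
  show incOm N ℓ (sig N ℓ 1⁻¹ (heckeBetaBar Kbar N ℓ y)) = _
  rw [inv_one, sig_one, coe_heckeBetaBar]

theorem embList_some_beta (b : Fin ℓ) (y : FF N) :
    embList N ℓ hℓ hℓN (some b) (heckeBetaBar Kbar N ℓ y)
      = incOm N ℓ (qExpand ℂ N (infTwist (infRoot (b : ℕ) ℓ)
          (coeffMap ιK (y : LaurentSeries Kbar)))) := by
  show incOm N ℓ (sig N ℓ (hrep N ℓ hℓ hℓN (b : ℕ))⁻¹ (heckeBetaBar Kbar N ℓ y)) = _
  rw [sig_beta N ℓ (hrep_mem N ℓ hℓ hℓN _) (hrep_dvd N ℓ hℓ hℓN _)]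

/-- the test element `j ∈ FF N` -/
def jTest : FF N := inclRN N (jR N 1 (one_dvd N))

theorem coe_jTest : ((jTest N : FF N) : LaurentSeries Kbar) = coeffEmb Kbar (qExpand ℚ 1 jq) :=
  rfl

theorem phi_beta_jTest_order :
    (HolBase.Φ (N * ℓ) (qExpand Kbar ℓ ((jTest N : FF N) : LaurentSeries Kbar))).order
      = -(((N * ℓ * ℓ : ℕ)) : ℤ) := by
  rw [coe_jTest]
  show (qExpand ℂ (N * ℓ) (coeffMap ιK (qExpand Kbar ℓ
    (coeffEmb Kbar (qExpand ℚ 1 jq))))).order = _
  rw [coeffMap_qExpand, coeffMap_ιK_coeffEmb, coeffEmb, coeffMap_qExpand, inf_qExpand_order,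
    inf_qExpand_order, inf_qExpand_order]
  have : coeffMap (algebraMap ℚ ℂ) jq = infJq := rfl
  rw [this, infJq_order]
  push_cast
  ring

theorem twist_jTest_eq (b : ℤ) :
    haveI : NeZero (1 * N) := ⟨by rw [one_mul]; exact NeZero.ne N⟩
    qExpand ℂ N (infTwist (infRoot b ℓ) (coeffMap ιK ((jTest N : FF N) : LaurentSeries Kbar)))
      = infGenExp (1 * N) (((1 : ℕ) : ℤ) * b) ℓ := by
  rw [coe_jTest]
  exact (infGenExp_eq_twist N ℓ 1 b).symm

include hℓ in
theorem embList_injective : Function.Injective (embList N ℓ hℓ hℓN) := by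
  haveI : NeZero (1 * N) := ⟨by rw [one_mul]; exact NeZero.ne N⟩
  have hℓ2 : 2 ≤ ℓ := hℓ.two_le
  have hN1 : 1 ≤ N := Nat.pos_of_ne_zero (NeZero.ne N)
  have key_ns : ∀ b : Fin ℓ, embList N ℓ hℓ hℓN none ≠ embList N ℓ hℓ hℓN (some b) := by
    intro b hEq
    have h1 := congrArg (fun φ : FF (N * ℓ) →ₐ[FF N] Om N ℓ =>
      φ (heckeBetaBar Kbar N ℓ (jTest N))) hEq
    simp only [embList_none_beta, embList_some_beta] at h1
    have h2 := incOm_injective N ℓ h1
    have h3 := congrArg HahnSeries.order h2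
    rw [phi_beta_jTest_order, twist_jTest_eq, infGenExp_order] at h3
    have h4 : N * ℓ * ℓ = 1 * N := by
      have : ((N * ℓ * ℓ : ℕ) : ℤ) = ((1 * N : ℕ) : ℤ) := by linarith
      exact_mod_cast this
    have h5 : N * 4 ≤ N * ℓ * ℓ := by
      rw [Nat.mul_assoc]
      exact Nat.mul_le_mul_left N (Nat.mul_le_mul hℓ2 hℓ2)
    omega
  have key_ss : ∀ b b' : Fin ℓ, embList N ℓ hℓ hℓN (some b) = embList N ℓ hℓ hℓN (some b') →
      b = b' := by
    intro b b' hEq
    have h1 := congrArg (fun φ : FF (N * ℓ) →ₐ[FF N] Om N ℓ =>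
      φ (heckeBetaBar Kbar N ℓ (jTest N))) hEq
    simp only [embList_some_beta] at h1
    have h2 := incOm_injective N ℓ h1
    rw [twist_jTest_eq, twist_jTest_eq] at h2
    have h3 := congrArg HahnSeries.leadingCoeff h2
    rw [infGenExp_leadingCoeff, infGenExp_leadingCoeff] at h3
    have h4 : infRoot (((1 : ℕ) : ℤ) * ((b : ℕ) : ℤ)) ℓ = infRoot (((1 : ℕ) : ℤ) * ((b' : ℕ) : ℤ)) ℓ :=
      inv_injective (Units.val_inj.mp h3)
    obtain ⟨k, hk⟩ := (infRoot_eq_iff hℓ.pos).mp h4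
    have hb := b.2
    have hb' := b'.2
    apply Fin.ext
    have h5 : ((b : ℕ) : ℤ) - ((b' : ℕ) : ℤ) = ℓ * k := by
      simp only [Nat.cast_one, one_mul] at hk
      exact hk
    have hk0 : k = 0 := by
      by_contra hne
      rcases lt_or_gt_of_ne hne with hlt | hgt
      · have : (ℓ : ℤ) * k ≤ ℓ * (-1) :=
          mul_le_mul_of_nonneg_left (by omega) (by positivity)
        have h6 : ((b : ℕ) : ℤ) < ℓ := by exact_mod_cast hb
        have h7 : (0 : ℤ) ≤ ((b : ℕ) : ℤ) := by positivity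
        have h8 : ((b' : ℕ) : ℤ) < ℓ := by exact_mod_cast hb'
        linarith
      · have : (ℓ : ℤ) * 1 ≤ ℓ * k :=
          mul_le_mul_of_nonneg_left (by omega) (by positivity)
        have h6 : ((b : ℕ) : ℤ) < ℓ := by exact_mod_cast hb
        have h7 : (0 : ℤ) ≤ ((b' : ℕ) : ℤ) := by positivity
        linarith
    rw [hk0, mul_zero] at h5
    have : ((b : ℕ) : ℤ) = ((b' : ℕ) : ℤ) := by linarith
    exact_mod_cast this
  intro o o' hEq
  rcases o with _ | b <;> rcases o' with _ | b'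
  · rfl
  · exact absurd hEq (key_ns b')
  · exact absurd hEq.symm (key_ns b)
  · rw [key_ss b b' hEq]

include hℓ in
theorem embList_surjective : Function.Surjective (embList N ℓ hℓ hℓN) := by
  intro τ
  obtain ⟨h, hh, rfl⟩ := exists_embOf_eq N ℓ τ
  rcases dvd_or_exists_b hℓ h with hd | ⟨b, hb⟩
  · -- `h ∈ Γ₀(N ℓ)`, so `σ_{h⁻¹} = σ₁`
    refine ⟨none, ?_⟩
    have hM : h ∈ CongruenceSubgroup.Gamma0 (N * ℓ) :=
      mem_gamma0_mul (coprime_N_ℓ N ℓ hℓ hℓN) hh hd
    have e : sig N ℓ h⁻¹ = sig N ℓ (1 : SL(2, ℤ))⁻¹ := by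
      have := (holBase (N * ℓ)).sigmaG_mul_of_mem (holBase (N * ℓ)).qexpExpansion 1
        (inv_mem hM)
      rw [one_mul] at this
      rw [inv_one]
      exact this
    apply AlgHom.ext
    intro f
    show incOm N ℓ (sig N ℓ (1 : SL(2, ℤ))⁻¹ f) = incOm N ℓ (sig N ℓ h⁻¹ f)
    rw [e]
  · -- `σ_{h⁻¹} = σ_{h_{b₀}⁻¹}` with `b₀ = b mod ℓ`
    have hℓpos : (0 : ℤ) < ℓ := by exact_mod_cast hℓ.pos
    have hb0 : 0 ≤ b % (ℓ : ℤ) := Int.emod_nonneg b hℓpos.ne'
    have hb1 : b % (ℓ : ℤ) < ℓ := Int.emod_lt_of_pos b hℓpos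
    let b₀ : Fin ℓ := ⟨(b % (ℓ : ℤ)).toNat, by
      have := hb1
      omega⟩
    have hb₀ : ((b₀ : ℕ) : ℤ) = b % (ℓ : ℤ) := Int.toNat_of_nonneg hb0
    refine ⟨some b₀, ?_⟩
    have e : sig N ℓ (hrep N ℓ hℓ hℓN ((b₀ : ℕ) : ℤ))⁻¹ = sig N ℓ h⁻¹ := by
      apply ringHom_ext_alpha_beta N ℓ hℓ
      · intro y
        rw [sig_alpha N ℓ (hrep_mem N ℓ hℓ hℓN _), sig_alpha N ℓ hh]
      · intro y
        rw [sig_beta N ℓ (hrep_mem N ℓ hℓ hℓN _) (hrep_dvd N ℓ hℓ hℓN _), sig_beta N ℓ hh hb]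
        have : infRoot ((b₀ : ℕ) : ℤ) ℓ = infRoot b ℓ := by
          rw [infRoot_eq_iff hℓ.pos, hb₀]
          exact ⟨-(b / (ℓ : ℤ)), by linarith [Int.emod_add_mul_ediv b ℓ]⟩
        rw [this]
    apply AlgHom.ext
    intro f
    show incOm N ℓ (sig N ℓ (hrep N ℓ hℓ hℓN ((b₀ : ℕ) : ℤ))⁻¹ f) = incOm N ℓ (sig N ℓ h⁻¹ f)
    rw [e]

include hℓ in
theorem embList_bijective : Function.Bijective (embList N ℓ hℓ hℓN) :=
  ⟨embList_injective N ℓ hℓ hℓN, embList_surjective N ℓ hℓ hℓN⟩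

end Reps

end Fermat.Agent.S37.H819

end
end
-- ===== PACK-END S37/H819/Enum.lean

-- ===== PACK-BEGIN S37/H819/Norm.lean
section


/-!
# S37 / NORM (helper819) — the norm of `β y` over `α(FF N)` is the Kronecker product

Main results (`K = ℚ̄`, `ℓ` prime, `ℓ ∤ N`, `α = heckeAlphaBar`, `β = heckeBetaBar`,
`FF N = ℚ̄(j(q^d) : d ∣ N) ⊆ ℚ̄((q))`, the norm is taken for the Prelude algebra structure
`algebraAlong α` on `FF (N ℓ)`):

* `norm_heckeBeta` :
  `V_ℓ (Nm_α (β y)) = V_{ℓ²} y * ∏_{b < ℓ} y(ζ^b u)`   in `ℚ̄((u))`, `u = q^{1/ℓ}`,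
  i.e. `Nm_α(β y)(q) = y(q^ℓ) ∏_b y(ζ^b q^{1/ℓ})`, for any primitive `ℓ`-th root of unity `ζ`.
-/

set_option autoImplicit false

noncomputable section

open ModularCurve HahnSeries UpperHalfPlane AlgebraicCurve
open scoped MatrixGroups

namespace Fermat.Agent.S37.H819

open Fermat.Agent.S24 Fermat.Agent.S24.H997

variable (N ℓ : ℕ) [NeZero N] [NeZero ℓ]

section Internal

attribute [local instance] instAlgAlpha instAlgOm instFiniteAlpha

/-- The norm formula over `ℂ((z))`, `z = q^{1/(N ℓ)}`. -/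
theorem norm_complex (hℓ : ℓ.Prime) (hℓN : ¬ ℓ ∣ N) (y : FF N) :
    HolBase.Φ (N * ℓ)
        ((Algebra.norm (FF N) (heckeBetaBar Kbar N ℓ y) : FF N) : LaurentSeries Kbar)
      = HolBase.Φ (N * ℓ) (qExpand Kbar ℓ (y : LaurentSeries Kbar))
        * ∏ b : Fin ℓ, qExpand ℂ N (infTwist (infRoot ((b : ℕ) : ℤ) ℓ)
            (coeffMap ιK (y : LaurentSeries Kbar))) := by
  have h := Algebra.norm_eq_prod_embeddings (FF N) (Om N ℓ) (heckeBetaBar Kbar N ℓ y)
  rw [algebraMap_Om, sig_one, coe_heckeAlphaBar] at h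
  have he := embList_bijective N ℓ hℓ hℓN
  rw [← he.prod_comp (fun σ : FF (N * ℓ) →ₐ[FF N] Om N ℓ => σ (heckeBetaBar Kbar N ℓ y)),
    Fintype.prod_option, embList_none_beta] at h
  simp only [embList_some_beta] at h
  rw [← map_prod, ← map_mul] at h
  exact incOm_injective N ℓ h

/-- Products over the powers of a primitive root do not depend on the primitive root. -/
theorem prod_range_pow_primitive {R M : Type*} [CommRing R] [IsDomain R] [CommMonoid M] {n : ℕ}
    {ω ε : R} (hω : IsPrimitiveRoot ω n) (hε : IsPrimitiveRoot ε n) (T : R → M) :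
    ∏ b ∈ Finset.range n, T (ω ^ b) = ∏ b ∈ Finset.range n, T (ε ^ b) := by
  classical
  rcases Nat.eq_zero_or_pos n with rfl | hn
  · simp
  have key : ∀ {ξ : R}, IsPrimitiveRoot ξ n →
      ∏ b ∈ Finset.range n, T (ξ ^ b) = ∏ u ∈ Polynomial.nthRootsFinset n (1 : R), T u := by
    intro ξ hξ
    have himg : (Finset.range n).image (fun b => ξ ^ b) = Polynomial.nthRootsFinset n (1 : R) := by
      apply Finset.eq_of_subset_of_card_le
      · intro u hu
        obtain ⟨b, -, rfl⟩ := Finset.mem_image.mp hu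
        rw [Polynomial.mem_nthRootsFinset hn, ← pow_mul, mul_comm, pow_mul, hξ.pow_eq_one, one_pow]
      · rw [hξ.card_nthRootsFinset, Finset.card_image_of_injOn hξ.injOn_pow, Finset.card_range]
    rw [← himg, Finset.prod_image]
    intro a ha b hb hab
    exact hξ.injOn_pow ha hb hab
  rw [key hω, key hε]

omit [NeZero N] in
theorem coe_infRoot_one_isPrimitiveRoot : IsPrimitiveRoot ((infRoot 1 ℓ : ℂˣ) : ℂ) ℓ := by
  have h := Complex.isPrimitiveRoot_exp ℓ (NeZero.ne ℓ)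
  have e : ((infRoot 1 ℓ : ℂˣ) : ℂ) = Complex.exp (2 * Real.pi * Complex.I / ℓ) := by
    rw [infRoot_coe]
    congr 1
    push_cast
    ring
  rw [e]
  exact h

/-- `Φ_N ∘ V_ℓ = Φ_{N ℓ}` -/
theorem Φ_qExpand (x : LaurentSeries Kbar) :
    HolBase.Φ N (qExpand Kbar ℓ x) = HolBase.Φ (N * ℓ) x := by
  show qExpand ℂ N (coeffMap ιK (qExpand Kbar ℓ x)) = qExpand ℂ (N * ℓ) (coeffMap ιK x)
  rw [coeffMap_qExpand, qExpand_qExpand]

/-- **The norm of `β y` over `α(FF N)`** (Kronecker product formula): for `ℓ ∤ N` prime and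
any primitive `ℓ`-th root of unity `ζ ∈ ℚ̄`,
`Nm(β y)(u^ℓ) = y(u^{ℓ²}) · ∏_{b<ℓ} y(ζ^b u)`. -/
theorem norm_heckeBeta_aux (hℓ : ℓ.Prime) (hℓN : ¬ ℓ ∣ N) (ζ : Kbarˣ)
    (hζ : IsPrimitiveRoot (ζ : Kbar) ℓ) (y : FF N) :
    qExpand Kbar ℓ
        ((Algebra.norm (FF N) (heckeBetaBar Kbar N ℓ y) : FF N) : LaurentSeries Kbar)
      = qExpand Kbar (ℓ * ℓ) (y : LaurentSeries Kbar)
        * ∏ b ∈ Finset.range ℓ, infTwist (ζ ^ b) (y : LaurentSeries Kbar) := by
  apply HolBase.Φ_injective (N := N)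
  have e2 : HolBase.Φ N (qExpand Kbar (ℓ * ℓ) (y : LaurentSeries Kbar))
      = HolBase.Φ (N * ℓ) (qExpand Kbar ℓ (y : LaurentSeries Kbar)) := by
    rw [← Φ_qExpand, qExpand_qExpand]
  rw [map_mul, map_prod, Φ_qExpand, norm_complex N ℓ hℓ hℓN y, e2]
  congr 1
  rw [Fin.prod_univ_eq_prod_range (fun b : ℕ => qExpand ℂ N (infTwist (infRoot ((b : ℕ) : ℤ) ℓ)
    (coeffMap ιK (y : LaurentSeries Kbar)))) ℓ]
  -- both sides are products of `T (ξ ^ b)`
  let T : ℂ → LaurentSeries ℂ := fun u =>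
    if h : u = 0 then 1
    else qExpand ℂ N (infTwist (Units.mk0 u h) (coeffMap ιK (y : LaurentSeries Kbar)))
  have hT : ∀ v : ℂˣ, T (v : ℂ)
      = qExpand ℂ N (infTwist v (coeffMap ιK (y : LaurentSeries Kbar))) := by
    intro v
    simp only [T]
    rw [dif_neg v.ne_zero]
    congr 3
    exact Units.ext rfl
  have hε := coe_infRoot_one_isPrimitiveRoot ℓ
  have hω : IsPrimitiveRoot (ιK (ζ : Kbar)) ℓ := hζ.map_of_injective ιK_injective
  have hL : ∀ b ∈ Finset.range ℓ,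
      qExpand ℂ N (infTwist (infRoot ((b : ℕ) : ℤ) ℓ) (coeffMap ιK (y : LaurentSeries Kbar)))
        = T (((infRoot 1 ℓ : ℂˣ) : ℂ) ^ b) := by
    intro b _
    rw [← Units.val_pow_eq_pow_val, hT, infRoot_pow, mul_one]
  have hR : ∀ b ∈ Finset.range ℓ,
      HolBase.Φ N (infTwist (ζ ^ b) (y : LaurentSeries Kbar)) = T ((ιK (ζ : Kbar)) ^ b) := by
    intro b _
    have e : (ιK (ζ : Kbar)) ^ b = ((Units.map (ιK : Kbar →* ℂ) (ζ ^ b) : ℂˣ) : ℂ) := by
      simp
    rw [e, hT]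
    show qExpand ℂ N (coeffMap ιK (infTwist (ζ ^ b) (y : LaurentSeries Kbar))) = _
    rw [coeffMap_infTwist]
  rw [Finset.prod_congr rfl hL, Finset.prod_congr rfl hR]
  exact prod_range_pow_primitive hε hω T

/-- the degree of `FF (N ℓ)` over `α(FF N)` is `ℓ + 1` -/
theorem finrank_alpha_aux (hℓ : ℓ.Prime) (hℓN : ¬ ℓ ∣ N) :
    Module.finrank (FF N) (FF (N * ℓ)) = ℓ + 1 := by
  rw [← AlgHom.card (FF N) (FF (N * ℓ)) (Om N ℓ),
    ← Fintype.card_of_bijective (embList_bijective N ℓ hℓ hℓN)]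
  simp

omit [NeZero N] in
theorem coe_sub_FF (a b : FF N) :
    ((a - b : FF N) : LaurentSeries Kbar) = (a : LaurentSeries Kbar) - (b : LaurentSeries Kbar) :=
  rfl

set_option maxHeartbeats 1000000 in
set_option synthInstance.maxHeartbeats 200000 in
/-- the characteristic polynomial of `β y` over `α(FF N)` is the Kronecker polynomial -/
theorem charpoly_heckeBeta_aux (hℓ : ℓ.Prime) (hℓN : ¬ ℓ ∣ N) (ζ : Kbarˣ)
    (hζ : IsPrimitiveRoot (ζ : Kbar) ℓ) (y : FF N) :
    (((Algebra.lmul (FF N) (FF (N * ℓ)) (heckeBetaBar Kbar N ℓ y)).charpoly.map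
        (coeHom N)).map (qExpand Kbar ℓ))
      = (Polynomial.X - Polynomial.C (qExpand Kbar (ℓ * ℓ) (y : LaurentSeries Kbar)))
        * ∏ b ∈ Finset.range ℓ,
            (Polynomial.X - Polynomial.C (infTwist (ζ ^ b) (y : LaurentSeries Kbar))) := by
  apply Polynomial.eq_of_infinite_eval_eq
  refine Set.infinite_of_injective_forall_mem
    (f := fun c : Kbar => algebraMap Kbar (LaurentSeries Kbar) c)
    (algebraMap Kbar (LaurentSeries Kbar)).injective ?_
  intro c
  show Polynomial.eval _ _ = Polynomial.eval _ _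
  -- the constant `c` as an element of `FF N`
  set t : FF N := algebraMap Kbar (FF N) c with ht
  have hc : algebraMap Kbar (LaurentSeries Kbar) c = qExpand Kbar ℓ (coeHom N t) := by
    rw [coeHom_apply, ht, coe_algebraMap_FF, algebraMap_laurentSeries_eq_single, qExpand_single,
      mul_zero]
  -- left side
  have hL : Polynomial.eval (algebraMap Kbar (LaurentSeries Kbar) c)
      (((Algebra.lmul (FF N) (FF (N * ℓ)) (heckeBetaBar Kbar N ℓ y)).charpoly.map
        (coeHom N)).map (qExpand Kbar ℓ))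
      = qExpand Kbar ℓ ((Algebra.norm (FF N)
          (heckeBetaBar Kbar N ℓ (t - y)) : FF N) : LaurentSeries Kbar) := by
    rw [hc, Polynomial.eval_map, Polynomial.eval₂_hom, Polynomial.eval_map,
      Polynomial.eval₂_hom, LinearMap.eval_charpoly, coeHom_apply]
    congr 2
    rw [Algebra.norm_apply]
    congr 1
    rw [map_sub, map_sub]
    congr 1
    refine LinearMap.ext fun z => ?_
    show heckeAlphaBar Kbar N ℓ t * z = heckeBetaBar Kbar N ℓ t * z
    rw [ht, AlgHom.commutes, AlgHom.commutes]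
  rw [hL, norm_heckeBeta_aux N ℓ hℓ hℓN ζ hζ (t - y)]
  have hsub : ((t - y : FF N) : LaurentSeries Kbar)
      = algebraMap Kbar (LaurentSeries Kbar) c - (y : LaurentSeries Kbar) := by
    rw [coe_sub_FF, ht, coe_algebraMap_FF]
  have hV : ∀ (n : ℕ) [NeZero n], qExpand Kbar n (algebraMap Kbar (LaurentSeries Kbar) c)
      = algebraMap Kbar (LaurentSeries Kbar) c := by
    intro n _
    rw [algebraMap_laurentSeries_eq_single, qExpand_single, mul_zero]
  have hT : ∀ u : Kbarˣ, infTwist u (algebraMap Kbar (LaurentSeries Kbar) c)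
      = algebraMap Kbar (LaurentSeries Kbar) c := by
    intro u
    rw [algebraMap_laurentSeries_eq_single, infTwist_single]
    simp
  rw [hsub, map_sub, hV, Polynomial.eval_mul, Polynomial.eval_sub, Polynomial.eval_X,
    Polynomial.eval_C, Polynomial.eval_prod]
  congr 1
  refine Finset.prod_congr rfl fun b _ => ?_
  rw [map_sub, hT, Polynomial.eval_sub, Polynomial.eval_X, Polynomial.eval_C]

end Internal

/-! ### Public statements (with the Prelude's `algebraAlong`) -/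

/-- `FF (N ℓ)` is a finite extension of `α(FF N)`: the Prelude's `FiniteAlong`. -/
theorem finiteAlong_heckeAlphaBar :
    FiniteAlong Kbar (heckeAlphaBar Kbar N ℓ) :=
  finite_alpha N ℓ

/-- `[FF (N ℓ) : α(FF N)] = ℓ + 1` for a prime `ℓ ∤ N`. -/
theorem finrankAlong_heckeAlphaBar (hℓ : ℓ.Prime) (hℓN : ¬ ℓ ∣ N) :
    finrankAlong Kbar (heckeAlphaBar Kbar N ℓ) = ℓ + 1 :=
  finrank_alpha_aux N ℓ hℓ hℓN

/-- **NORM.** For a prime `ℓ ∤ N`, a primitive `ℓ`-th root of unity `ζ ∈ ℚ̄` and `y ∈ FF N`: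
`Nm_{FF(Nℓ)/α(FF N)}(β y)(u^ℓ) = y(u^{ℓ²}) · ∏_{b<ℓ} y(ζ^b u)` in `ℚ̄((u))`. -/
theorem norm_heckeBeta (hℓ : ℓ.Prime) (hℓN : ¬ ℓ ∣ N) (ζ : Kbarˣ)
    (hζ : IsPrimitiveRoot (ζ : Kbar) ℓ) (y : FF N) :
    letI := algebraAlong (heckeAlphaBar Kbar N ℓ)
    qExpand Kbar ℓ
        ((Algebra.norm (FF N) (heckeBetaBar Kbar N ℓ y) : FF N) : LaurentSeries Kbar)
      = qExpand Kbar (ℓ * ℓ) (y : LaurentSeries Kbar)
        * ∏ b ∈ Finset.range ℓ, infTwist (ζ ^ b) (y : LaurentSeries Kbar) :=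
  norm_heckeBeta_aux N ℓ hℓ hℓN ζ hζ y

set_option maxHeartbeats 1000000 in
set_option synthInstance.maxHeartbeats 200000 in
/-- **CHARPOLY.** The characteristic polynomial of `β y` over `α(FF N)` is the Kronecker
polynomial `(X - y(q^ℓ)) ∏_b (X - y(ζ^b q^{1/ℓ}))` (written in `u = q^{1/ℓ}`). -/
theorem charpoly_heckeBeta (hℓ : ℓ.Prime) (hℓN : ¬ ℓ ∣ N) (ζ : Kbarˣ)
    (hζ : IsPrimitiveRoot (ζ : Kbar) ℓ) (y : FF N) :
    letI := algebraAlong (heckeAlphaBar Kbar N ℓ)
    haveI : Module.Finite (FF N) (FF (N * ℓ)) := finiteAlong_heckeAlphaBar N ℓ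
    (((Algebra.lmul (FF N) (FF (N * ℓ)) (heckeBetaBar Kbar N ℓ y)).charpoly.map
        (coeHom N)).map (qExpand Kbar ℓ))
      = (Polynomial.X - Polynomial.C (qExpand Kbar (ℓ * ℓ) (y : LaurentSeries Kbar)))
        * ∏ b ∈ Finset.range ℓ,
            (Polynomial.X - Polynomial.C (infTwist (ζ ^ b) (y : LaurentSeries Kbar))) :=
  charpoly_heckeBeta_aux N ℓ hℓ hℓN ζ hζ y

end Fermat.Agent.S37.H819

end
end
-- ===== PACK-END S37/H819/Norm.lean

-- ===== PACK-BEGIN S29/H222/ESKAdapterM.lean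
section
/-
S29 / helper222 — piece ESK, adapter to layer M: `Fermat.Agent.S29.M.ESStatement` (the
Eichler–Shimura input of deputy helper30's layer M, `M/Defs.lean`) from the external inputs
of `ESKFamily.lean`:

* `CoreFamily`   : `S18.CoreStatement N A m` for `ℓ ∤ N`, `ℓ ∤ m`, `A` over `ℓ`     (row S18)
* `PGIFamily`    : Prelude `PrincipalGeneratedByIntegral A (residue A) N`            (S18/S37, M1-Gauss)
* `NormIdFamily` : `NormId N ℓ`                                                      (piece NKI)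

(`HIFamily`, the fourth input, is discharged here from helper812's piece HI.)
-/




set_option autoImplicit false
set_option linter.style.haveILetI false

noncomputable section

namespace Fermat.Agent.S29.H222

/-- **ES for layer M**: the exact `M.ESStatement`, from the four families. -/
theorem esStatement_of_families (hcore : CoreFamily) (hpgi : PGIFamily) (hHI : HIFamily)
    (hnid : NormIdFamily) : Fermat.Agent.S29.M.ESStatement :=
  esRaw_of_families hcore hpgi hHI hnid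

/-- Piece HI (helper812) in family form. -/
theorem hiFamily : HIFamily :=
  fun N _ ℓ _ _ _ => Fermat.Agent.S29.H812.heckeInputsAlong N ℓ

/-- **ES for layer M** from the three remaining external inputs. -/
theorem esStatement_of_core_pgi_normId (hcore : CoreFamily) (hpgi : PGIFamily)
    (hnid : NormIdFamily) : Fermat.Agent.S29.M.ESStatement :=
  esStatement_of_families hcore hpgi hiFamily hnid

end Fermat.Agent.S29.H222

end
end
-- ===== PACK-END S29/H222/ESKAdapterM.lean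

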