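import Fermat.Prelude.Def_FLTPrelim_Ramification
import Mathlib
import Fermat.Prelude.Def_AlgebraicCurve_Correspondence
import Fermat.Agent.Pack.S3234.G0E7L0
import Fermat.Agent.Pack.S3234.G0E2L0
import Fermat.Agent.Pack.S3234.G0E6L1
import Fermat.Agent.Pack.S3234.G0E1L2
import Fermat.Agent.Pack.S3234.G0E1L1
import Fermat.Agent.Pack.S3234.G0E7L1
import Fermat.Agent.Pack.S3234.G0E7L3
import Fermat.Agent.Pack.S3234.G0E6L2
import Fermat.Agent.Pack.S3234.G0E3L2

-- ===== PACK-BEGIN S29/H282/FracK.lean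
section


/-!
# S29 / M4b-K2 (helper282) — the function field of `X₀(N)` over an arbitrary field `K ⊇ ℚ`

Port of `Fermat/Agent/S24/Mod/H997Frac.lean` from `ℚ̄` to an arbitrary field `K` of
characteristic zero:

* `FFK K N`    : the function field `laurentBaseChange K (modularFunctionFieldFull N)`;
* `RNK K N`    : the `K`-subalgebra of `K((q))` generated by the `j(q^d)`, `d ∣ N`;
* `inclRNK`    : the inclusion `RNK K N → FFK K N`;
* `liftFK`     : every injective ring hom `RNK K N →+* L` into a field extends to `FFK K N`.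
-/

set_option autoImplicit false

noncomputable section

open ModularCurve HahnSeries IntermediateField

namespace Fermat.Agent.S29.H282

open Fermat.Agent.S24 Fermat.Agent.S24.Deg457

variable (K : Type*) [Field K] [Algebra ℚ K] (N : ℕ)

/-- The function field of `X₀(N)` over `K` (as a type). -/
abbrev FFK : Type _ := ↥(laurentBaseChange K (modularFunctionFieldFull N))

/-- The function field of `X₀(N)` over `K` is generated over `K` by the `j(q^d)`, `d ∣ N`. -/
theorem ffK_eq_adjoin :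
    laurentBaseChange K (modularFunctionFieldFull N) = IntermediateField.adjoin K (gens K N) := by
  apply le_antisymm
  · exact laurentBaseChange_full_le N
  · rw [laurentBaseChange]
    exact IntermediateField.adjoin.mono _ _ _
      (Set.image_mono (IntermediateField.subset_adjoin ℚ _))

/-- The polynomial ring `K[j(q^d) : d ∣ N] ⊆ K((q))`. -/
abbrev RNK : Subalgebra K (LaurentSeries K) := AK K N

theorem RNK_le : RNK K N ≤ (laurentBaseChange K (modularFunctionFieldFull N)).toSubalgebra := by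
  rw [ffK_eq_adjoin]
  exact IntermediateField.algebra_adjoin_le_adjoin K (gens K N)

/-- The inclusion `R_N → FFK K N`. -/
def inclRNK : RNK K N →ₐ[K] FFK K N := Subalgebra.inclusion (RNK_le K N)

@[simp] theorem coe_inclRNK (r : RNK K N) :
    ((inclRNK K N r : FFK K N) : LaurentSeries K) = r := rfl

theorem inclRNK_injective : Function.Injective (inclRNK K N) :=
  Subalgebra.inclusion_injective (RNK_le K N)

theorem exists_div_inclRNK (f : FFK K N) :
    ∃ r t : RNK K N, t ≠ 0 ∧ f = inclRNK K N r / inclRNK K N t := by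
  have hf : (f : LaurentSeries K) ∈ IntermediateField.adjoin K (gens K N) := by
    rw [← ffK_eq_adjoin]; exact f.2
  obtain ⟨r, hr, s, hs, h⟩ := IntermediateField.mem_adjoin_iff_div.mp hf
  by_cases hs0 : s = 0
  · refine ⟨0, 1, one_ne_zero, ?_⟩
    apply Subtype.ext
    rw [h, hs0, div_zero]
    simp
  · refine ⟨⟨r, hr⟩, ⟨s, hs⟩, fun h0 => hs0 (congrArg Subtype.val h0), ?_⟩
    apply Subtype.ext
    rw [h]
    simp

/-- The generator `j(q^d)` as an element of `R_N`. -/
def jRK (d : ℕ) [NeZero d] (hd : d ∣ N) : RNK K N :=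
  ⟨coeffEmb K (qExpand ℚ d jq),
    Algebra.subset_adjoin ⟨_, mem_divisorExpansions N hd, rfl⟩⟩

/-- The `j`-function as an element of the function field of `X₀(N)` over `K`. -/
def jFK [NeZero N] : FFK K N :=
  ⟨coeffEmb K jq,
    coeffEmb_mem_laurentBaseChange K (modularFunctionField_le_full N (jq_mem N))⟩

theorem inclRNK_jRK_one [NeZero N] : inclRNK K N (jRK K N 1 (one_dvd N)) = jFK K N := by
  apply Subtype.ext
  simp [jRK, jFK, qExpand_one_apply]

theorem jFK_Kbar [NeZero N] : jFK Kbar N = jF N := rfl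

section Lift

variable {K N}
variable {L : Type*} [Field L]

/-- Extension of an injective ring hom `R_N →+* L` to the fraction field `FFK K N`. -/
def liftFK (s : RNK K N →+* L) (hs : Function.Injective s) : FFK K N →+* L :=
  letI : Algebra (RNK K N) (FFK K N) := (inclRNK K N).toRingHom.toAlgebra
  haveI : FaithfulSMul (RNK K N) (FFK K N) :=
    (faithfulSMul_iff_algebraMap_injective _ _).mpr (inclRNK_injective K N)
  haveI : IsFractionRing (RNK K N) (FFK K N) :=
    IsFractionRing.of_field _ _ fun z => by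
      obtain ⟨r, t, -, h⟩ := exists_div_inclRNK K N z
      exact ⟨r, t, h⟩
  IsFractionRing.lift hs

theorem liftFK_inclRNK (s : RNK K N →+* L) (hs : Function.Injective s) (r : RNK K N) :
    liftFK s hs (inclRNK K N r) = s r := by
  let _ : Algebra (RNK K N) (FFK K N) := (inclRNK K N).toRingHom.toAlgebra
  have : FaithfulSMul (RNK K N) (FFK K N) :=
    (faithfulSMul_iff_algebraMap_injective _ _).mpr (inclRNK_injective K N)
  have : IsFractionRing (RNK K N) (FFK K N) :=
    IsFractionRing.of_field _ _ fun z => by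
      obtain ⟨r, t, -, h⟩ := exists_div_inclRNK K N z
      exact ⟨r, t, h⟩
  exact IsFractionRing.lift_algebraMap hs r

theorem liftFK_div (s : RNK K N →+* L) (hs : Function.Injective s) (r t : RNK K N) :
    liftFK s hs (inclRNK K N r / inclRNK K N t) = s r / s t := by
  rw [map_div₀, liftFK_inclRNK, liftFK_inclRNK]

theorem liftFK_algebraMap (s : RNK K N →+* L) (hs : Function.Injective s) (c : K) :
    liftFK s hs (algebraMap K (FFK K N) c) = s (algebraMap K (RNK K N) c) := by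
  rw [← liftFK_inclRNK s hs]
  congr 1

end Lift

end Fermat.Agent.S29.H282

end
end
-- ===== PACK-END S29/H282/FracK.lean

-- ===== PACK-BEGIN S29/H282/BridgeK.lean
section


/-!
# S29 / M4b-K2 (helper282) — the bridge `R_N(K) → Hol` for an arbitrary coefficient field `K ⊆ ℂ`

Port of the second half of `Fermat/Agent/S24/Mod/H997Bridge.lean` from `(ℚ̄, ιK)` to an arbitrary
field `K` with a ring hom `ι : K →+* ℂ`.
-/

set_option autoImplicit false

noncomputable section

open ModularCurve HahnSeries UpperHalfPlane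
open scoped MatrixGroups

namespace Fermat.Agent.S29.H282

open Fermat.Agent.S24 Fermat.Agent.S24.H997 Fermat.Agent.S24.Deg457

variable {K : Type*} [Field K] [Algebra ℚ K] (ι : K →+* ℂ)
variable {N : ℕ} [NeZero N] (B : HolBase N)

theorem ι_algebraMap (c : ℚ) : ι (algebraMap ℚ K c) = (c : ℂ) := by
  have h : ι.comp (algebraMap ℚ K) = algebraMap ℚ ℂ := Subsingleton.elim _ _
  have := congrArg (fun f : ℚ →+* ℂ => f c) h
  simpa using this

/-- The formal comparison map `K((q)) → ℂ((z))`, `q ↦ z^N`, coefficients via `ι`. -/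
def ΦK (N : ℕ) [NeZero N] : LaurentSeries K →+* LaurentSeries ℂ :=
  (qExpand ℂ N).comp (coeffMap ι)

theorem ΦK_injective : Function.Injective (ΦK ι N) := by
  intro x y h
  have h1 : coeffMap ι x = coeffMap ι y := qExpand_injective N h
  ext k
  apply ι.injective
  have := congrArg (fun s => s.coeff k) h1
  simpa using this

theorem ΦK_coeff (x : LaurentSeries K) (k : ℤ) :
    (ΦK ι N x).coeff k = if (N : ℤ) ∣ k then ι (x.coeff (k / N)) else 0 := by
  split_ifs with h
  · obtain ⟨m, rfl⟩ := h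
    have hN : (N : ℤ) ≠ 0 := by exact_mod_cast NeZero.ne N
    rw [Int.mul_ediv_cancel_left _ hN]
    show (qExpand ℂ N (coeffMap ι x)).coeff (N * m) = _
    rw [qExpand_coeff_mul]; rfl
  · exact qExpand_coeff_of_not_dvd N _ h

theorem ΦK_algebraMap (c : K) :
    ΦK ι N (algebraMap K (LaurentSeries K) c) = HahnSeries.C (ι c) := by
  rw [algebraMap_laurentSeries_eq_single]
  show qExpand ℂ N (coeffMap ι (HahnSeries.single 0 c)) = _
  rw [coeffMap_single, qExpand_single, mul_zero]; rfl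

theorem ΦK_gen (d : ℕ) [NeZero d] (hd : d ∣ N) :
    ΦK ι N (coeffEmb K (qExpand ℚ d jq)) = B.qexp (B.JH d hd) := by
  ext k
  rw [ΦK_coeff]
  show _ = (B.qexp ⟨B.J d, B.J_mem d hd⟩).coeff k
  rw [B.qexp_J d hd k]
  have hN : (N : ℤ) ≠ 0 := by exact_mod_cast NeZero.ne N
  have hd0 : (d : ℤ) ≠ 0 := by exact_mod_cast NeZero.ne d
  by_cases h1 : (N : ℤ) ∣ k
  · obtain ⟨m, rfl⟩ := h1
    rw [if_pos (dvd_mul_right _ _), Int.mul_ediv_cancel_left _ hN, coeffEmb_coeff, ι_algebraMap]
    by_cases h2 : (d : ℤ) ∣ m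
    · obtain ⟨l, rfl⟩ := h2
      have h3 : ((N * d : ℕ) : ℤ) ∣ (N : ℤ) * (d * l) := ⟨l, by push_cast; ring⟩
      rw [if_pos h3, qExpand_coeff_mul]
      have : (N : ℤ) * (d * l) / ((N * d : ℕ) : ℤ) = l := by
        have h4 : (N : ℤ) * (d * l) = ((N * d : ℕ) : ℤ) * l := by push_cast; ring
        rw [h4, Int.mul_ediv_cancel_left]
        exact_mod_cast (Nat.mul_ne_zero (NeZero.ne N) (NeZero.ne d))
      rw [this]
    · have h3 : ¬ ((N * d : ℕ) : ℤ) ∣ (N : ℤ) * m := by
        rintro ⟨l, hl⟩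
        apply h2
        refine ⟨l, ?_⟩
        have : (N : ℤ) * m = N * (d * l) := by rw [hl]; push_cast; ring
        exact mul_left_cancel₀ hN this
      rw [if_neg h3, qExpand_coeff_of_not_dvd d _ h2]
      simp
  · have h3 : ¬ ((N * d : ℕ) : ℤ) ∣ k := by
      intro h; apply h1
      exact dvd_trans ⟨(d : ℤ), by push_cast; ring⟩ h
    rw [if_neg h1, if_neg h3]

theorem ΦK_mem_range {r : LaurentSeries K} (hr : r ∈ RNK K N) : ΦK ι N r ∈ B.qexp.range := by
  induction hr using Algebra.adjoin_induction with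
  | mem x hx =>
      obtain ⟨y, ⟨d, hne, hd, rfl⟩, rfl⟩ := hx
      exact ⟨B.JH d hd, (ΦK_gen ι B d hd).symm⟩
  | algebraMap c =>
      exact ⟨B.constH (ι c), by rw [ΦK_algebraMap]; exact B.qexp_const _⟩
  | add _ _ _ _ hx hy => rw [map_add]; exact add_mem hx hy
  | mul _ _ _ _ hx hy => rw [map_mul]; exact mul_mem hx hy

/-- The bridge `e : R_N(K) →+* Hol`. -/
def bridgeK : RNK K N →+* B.Hol :=
  (B.qexpEquiv.symm : B.qexp.range →+* B.Hol).comp
    (((ΦK ι N).comp (RNK K N).val.toRingHom).codRestrict B.qexp.range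
      fun r => ΦK_mem_range ι B r.2)

theorem qexp_bridgeK (r : RNK K N) :
    B.qexp (bridgeK ι B r) = ΦK ι N (r : LaurentSeries K) := by
  have h := B.qexpEquiv.apply_symm_apply
    ((((ΦK ι N).comp (RNK K N).val.toRingHom).codRestrict B.qexp.range
      fun r => ΦK_mem_range ι B r.2) r)
  exact congrArg Subtype.val h

theorem bridgeK_injective : Function.Injective (bridgeK ι B) := by
  intro r r' h
  apply Subtype.ext
  apply ΦK_injective ι (N := N)
  rw [← qexp_bridgeK, ← qexp_bridgeK, h]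

theorem bridgeK_algebraMap (c : K) :
    bridgeK ι B (algebraMap K (RNK K N) c) = B.constH (ι c) := by
  apply B.qexp_injective
  rw [qexp_bridgeK]
  show ΦK ι N (algebraMap K (LaurentSeries K) c) = _
  rw [ΦK_algebraMap]
  exact (B.qexp_const _).symm

theorem bridgeK_jRK (d : ℕ) [NeZero d] (hd : d ∣ N) :
    bridgeK ι B (jRK K N d hd) = B.JH d hd := by
  apply B.qexp_injective
  rw [qexp_bridgeK]
  exact ΦK_gen ι B d hd

/-- Every `e r` is `Γ₀(N)`-invariant. -/
theorem compH_bridgeK_of_mem {g : SL(2, ℤ)} (hg : g ∈ CongruenceSubgroup.Gamma0 N)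
    (r : RNK K N) : B.compH g (bridgeK ι B r) = bridgeK ι B r := by
  obtain ⟨r, hr⟩ := r
  induction hr using Algebra.adjoin_induction with
  | mem x hx =>
      obtain ⟨y, ⟨d, hne, hd, rfl⟩, rfl⟩ := hx
      have : (⟨coeffEmb K (qExpand ℚ d jq), Algebra.subset_adjoin
          ⟨_, ⟨d, hne, hd, rfl⟩, rfl⟩⟩ : RNK K N) = jRK K N d hd := rfl
      rw [this, bridgeK_jRK]
      exact B.compH_JH_of_mem d hd hg
  | algebraMap c =>
      have : (⟨algebraMap K (LaurentSeries K) c, Subalgebra.algebraMap_mem _ c⟩ : RNK K N)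
          = algebraMap K (RNK K N) c := rfl
      rw [this, bridgeK_algebraMap]
      rfl
  | add x y hx hy ihx ihy =>
      have : (⟨x + y, add_mem hx hy⟩ : RNK K N) = ⟨x, hx⟩ + ⟨y, hy⟩ := rfl
      rw [this, map_add, map_add, ihx, ihy]
  | mul x y hx hy ihx ihy =>
      have : (⟨x * y, mul_mem hx hy⟩ : RNK K N) = ⟨x, hx⟩ * ⟨y, hy⟩ := rfl
      rw [this, map_mul, map_mul, ihx, ihy]

end Fermat.Agent.S29.H282

end
end
-- ===== PACK-END S29/H282/BridgeK.lean

-- ===== PACK-BEGIN S29/H282/LocalK.lean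
section


/-!
# S29 / M4b-K2 (helper282) — `LocalData` for the function field over `K` from an expansion

Port of `Fermat/Agent/S24/Mod/H997Local.lean` (namespace `HolBase`) and of the first half of
`H997Core.lean` from `(ℚ̄, ιK)` to an arbitrary field `K` with `ι : K →+* ℂ`.
-/

set_option autoImplicit false

noncomputable section

open ModularCurve HahnSeries UpperHalfPlane
open scoped MatrixGroups

namespace Fermat.Agent.S29.H282

open Fermat.Agent.S24 Fermat.Agent.S24.H997 Fermat.Agent.S24.Deg457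

variable {K : Type*} [Field K] [Algebra ℚ K] (ι : K →+* ℂ)
variable {N : ℕ} [NeZero N] (B : HolBase N) (X : Expansion B)

/-- the ring hom `R_N(K) → ℂ((z))`, `r ↦ E (e r ∘ g⁻¹)` -/
def sGK (g : SL(2, ℤ)) : RNK K N →+* LaurentSeries ℂ :=
  X.E.comp ((B.compH g⁻¹).comp (bridgeK ι B))

theorem sGK_apply (g : SL(2, ℤ)) (r : RNK K N) :
    sGK ι B X g r = X.E (B.compH g⁻¹ (bridgeK ι B r)) := rfl

theorem sGK_injective (g : SL(2, ℤ)) : Function.Injective (sGK ι B X g) :=
  X.inj.comp ((B.compH_injective g⁻¹).comp (bridgeK_injective ι B))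

/-- the embedding `FFK K N → ℂ((z))` attached to `g` -/
def sigmaGK (g : SL(2, ℤ)) : FFK K N →+* LaurentSeries ℂ :=
  liftFK (sGK ι B X g) (sGK_injective ι B X g)

theorem sigmaGK_inclRNK (g : SL(2, ℤ)) (r : RNK K N) :
    sigmaGK ι B X g (inclRNK K N r) = X.E (B.compH g⁻¹ (bridgeK ι B r)) :=
  liftFK_inclRNK _ _ r

theorem sigmaGK_algebraMap (g : SL(2, ℤ)) (c : K) :
    sigmaGK ι B X g (algebraMap K (FFK K N) c) = HahnSeries.C (ι c) := by
  rw [sigmaGK, liftFK_algebraMap, sGK_apply, bridgeK_algebraMap, HolBase.compH_constH, X.const]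

theorem sigmaGK_jFK (g : SL(2, ℤ)) :
    sigmaGK ι B X g (jFK K N) = X.E (B.JH 1 (one_dvd N)) := by
  rw [← inclRNK_jRK_one, sigmaGK_inclRNK, bridgeK_jRK, HolBase.compH_JH_one]

theorem sGK_mul_of_mem (g : SL(2, ℤ)) {δ : SL(2, ℤ)} (hδ : δ ∈ CongruenceSubgroup.Gamma0 N) :
    sGK ι B X (g * δ) = sGK ι B X g := by
  ext1 r
  rw [sGK_apply, sGK_apply, mul_inv_rev, HolBase.compH_mul,
    compH_bridgeK_of_mem ι B (inv_mem hδ)]

theorem sigmaGK_mul_of_mem (g : SL(2, ℤ)) {δ : SL(2, ℤ)}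
    (hδ : δ ∈ CongruenceSubgroup.Gamma0 N) : sigmaGK ι B X (g * δ) = sigmaGK ι B X g := by
  unfold sigmaGK
  congr 1
  exact sGK_mul_of_mem ι B X g hδ

theorem sigmaGK_eq_of_mk_eq {g g' : SL(2, ℤ)}
    (h : (g : XX N) = (g' : XX N)) : sigmaGK ι B X g = sigmaGK ι B X g' := by
  have hmem : g⁻¹ * g' ∈ CongruenceSubgroup.Gamma0 N := QuotientGroup.eq.mp h
  have := sigmaGK_mul_of_mem ι B X g hmem
  rw [mul_inv_cancel_left] at this
  exact this.symm

/-- the embedding attached to a coset -/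
def sigmaXK (x : XX N) : FFK K N →+* LaurentSeries ℂ := sigmaGK ι B X (Quotient.out x)

theorem sigmaXK_mk (g : SL(2, ℤ)) : sigmaXK ι B X (g : XX N) = sigmaGK ι B X g :=
  sigmaGK_eq_of_mk_eq ι B X (QuotientGroup.out_eq' _)

theorem sigmaXK_injective : Function.Injective (sigmaXK (K := K) ι B X) := by
  intro x y hxy
  obtain ⟨g, rfl⟩ := QuotientGroup.mk_surjective x
  obtain ⟨g', rfl⟩ := QuotientGroup.mk_surjective y
  rw [sigmaXK_mk, sigmaXK_mk] at hxy
  have h1 := congrArg (fun s => s (inclRNK K N (jRK K N N dvd_rfl))) hxy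
  simp only [sigmaGK_inclRNK, bridgeK_jRK] at h1
  have h2 := X.inj h1
  apply QuotientGroup.eq.mpr
  apply B.J_distinct
  intro τ
  have h3 := congrArg (fun h : B.Hol => (h : ℍ → ℂ) (g' • τ)) h2
  simp only [HolBase.compH_apply] at h3
  rw [← mul_smul, ← mul_smul, inv_mul_cancel, one_smul] at h3
  exact h3

theorem rotRel_sigmaGK (ε : SL(2, ℤ)) (R : RotData B X ε) (g : SL(2, ℤ)) (f : FFK K N) :
    RotRel R.ζ (sigmaGK ι B X g f) (sigmaGK ι B X (ε⁻¹ * g) f) := by
  have hζ : R.ζ ≠ 0 := R.hζ.ne_zero R.m_pos.ne'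
  obtain ⟨r, t, -, rfl⟩ := exists_div_inclRNK K N f
  rw [map_div₀, map_div₀]
  have key : ∀ r : RNK K N, RotRel R.ζ (sigmaGK ι B X g (inclRNK K N r))
      (sigmaGK ι B X (ε⁻¹ * g) (inclRNK K N r)) := by
    intro r
    rw [sigmaGK_inclRNK, sigmaGK_inclRNK, mul_inv_rev, inv_inv, HolBase.compH_mul]
    exact R.rot _
  exact (key r).div hζ (key t)

/-- `LocalData` from an expansion with rotation data. -/
def mkLocalDataK (ε : SL(2, ℤ)) (R : RotData B X ε) (t : FFK K N) (u : LaurentSeries ℂ)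
    (ht : ∀ g : SL(2, ℤ), sigmaGK ι B X g t = u) (hu : u.order = (R.m : ℤ)) :
    LocalData K (FFK K N) ℂ (XX N) t where
  m := R.m
  m_pos := R.m_pos
  ζ := R.ζ
  hζ := R.hζ
  ι := ι
  perm := permOf N ε⁻¹
  σ := sigmaXK ι B X
  σ_inj := sigmaXK_injective ι B X
  σ_const x c := sigmaGK_algebraMap ι B X _ c
  σ_t_eq x y := by
    show sigmaGK ι B X _ t = sigmaGK ι B X _ t
    rw [ht, ht]
  σ_t_order x := by
    show (sigmaGK ι B X _ t).order = _
    rw [ht, hu]
  σ_perm_order x f := by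
    obtain ⟨g, rfl⟩ := QuotientGroup.mk_surjective x
    have h : permOf N ε⁻¹ (g : XX N) = ((ε⁻¹ * g : SL(2, ℤ)) : XX N) := rfl
    rw [h, sigmaXK_mk, sigmaXK_mk]
    exact (rotRel_sigmaGK ι B X ε R g f).1
  σ_perm_leadingCoeff x f := by
    obtain ⟨g, rfl⟩ := QuotientGroup.mk_surjective x
    have h : permOf N ε⁻¹ (g : XX N) = ((ε⁻¹ * g : SL(2, ℤ)) : XX N) := rfl
    rw [h, sigmaXK_mk, sigmaXK_mk]
    exact (rotRel_sigmaGK ι B X ε R g f).2

@[simp] theorem mkLocalDataK_perm (ε : SL(2, ℤ)) (R : RotData B X ε) (t : FFK K N)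
    (u : LaurentSeries ℂ) (ht : ∀ g : SL(2, ℤ), sigmaGK ι B X g t = u)
    (hu : u.order = (R.m : ℤ)) :
    (mkLocalDataK ι B X ε R t u ht hu).perm = permOf N ε⁻¹ := rfl

@[simp] theorem mkLocalDataK_σ (ε : SL(2, ℤ)) (R : RotData B X ε) (t : FFK K N)
    (u : LaurentSeries ℂ) (ht : ∀ g : SL(2, ℤ), sigmaGK ι B X g t = u)
    (hu : u.order = (R.m : ℤ)) :
    (mkLocalDataK ι B X ε R t u ht hu).σ = sigmaXK ι B X := rfl

@[simp] theorem mkLocalDataK_m (ε : SL(2, ℤ)) (R : RotData B X ε) (t : FFK K N)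
    (u : LaurentSeries ℂ) (ht : ∀ g : SL(2, ℤ), sigmaGK ι B X g t = u)
    (hu : u.order = (R.m : ℤ)) :
    (mkLocalDataK ι B X ε R t u ht hu).m = R.m := rfl

@[simp] theorem mkLocalDataK_ζ (ε : SL(2, ℤ)) (R : RotData B X ε) (t : FFK K N)
    (u : LaurentSeries ℂ) (ht : ∀ g : SL(2, ℤ), sigmaGK ι B X g t = u)
    (hu : u.order = (R.m : ℤ)) :
    (mkLocalDataK ι B X ε R t u ht hu).ζ = R.ζ := rfl

end Fermat.Agent.S29.H282

end
end
-- ===== PACK-END S29/H282/LocalK.lean

-- ===== PACK-BEGIN S29/H282/CoreK.lean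
section


/-!
# S29 / M4b-K2 (helper282) — the local data of the function field over `K` at every point

Port of the second half of `Fermat/Agent/S24/Mod/H997Core.lean` from `(ℚ̄, ιK)` to an arbitrary
field `K` with `ι : K →+* ℂ`.
-/

set_option autoImplicit false

noncomputable section

open ModularCurve HahnSeries UpperHalfPlane
open scoped MatrixGroups

namespace Fermat.Agent.S29.H282

open Fermat.Agent.S24 Fermat.Agent.S24.H997 Fermat.Agent.S24.Deg457

variable {K : Type*} [Field K] [Algebra ℚ K] (ι : K →+* ℂ)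
variable {N : ℕ} [NeZero N] (A : AnalyticCore N)

/-- the local data at `∞` -/
def dataInfK : LocalData K (FFK K N) ℂ (XX N) (jFK K N)⁻¹ :=
  mkLocalDataK ι A.toHolBase A.toHolBase.qexpExpansion ModularGroup.T A.infRot (jFK K N)⁻¹
    (A.qexp (A.toHolBase.JH 1 (one_dvd N)))⁻¹
    (fun g => by rw [map_inv₀, sigmaGK_jFK]; rfl)
    (by
      rw [RotRel.order_inv' A.toHolBase.qexp_J_one_ne_zero, A.toHolBase.order_qexp_J_one, neg_neg]
      rfl)

theorem sigmaGK_sub {a : K} {ε : SL(2, ℤ)} (P : PointData A.toHolBase (ι a) ε)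
    (g : SL(2, ℤ)) :
    sigmaGK ι A.toHolBase P.X g (jFK K N - algebraMap K (FFK K N) a)
      = P.X.E (A.toHolBase.JH 1 (one_dvd N) - A.toHolBase.constH (ι a)) := by
  rw [map_sub, sigmaGK_jFK, sigmaGK_algebraMap, map_sub, P.X.const]

/-- the local data attached to point data over `a` -/
def dataOfPointK {a : K} {ε : SL(2, ℤ)} (P : PointData A.toHolBase (ι a) ε) :
    LocalData K (FFK K N) ℂ (XX N) (jFK K N - algebraMap K (FFK K N) a) :=
  mkLocalDataK ι A.toHolBase P.X ε P.R _ _ (fun g => sigmaGK_sub ι A P g) P.order_J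

/-- all the embeddings `σ_x` agree on `K(j)` -/
theorem sigmaXK_eq_on_adjoin (X : Expansion A.toHolBase) (x y : XX N) {f : FFK K N}
    (hf : f ∈ IntermediateField.adjoin K {jFK K N}) :
    sigmaXK ι A.toHolBase X x f = sigmaXK ι A.toHolBase X y f := by
  induction hf using IntermediateField.adjoin_induction with
  | mem z hz =>
      rw [Set.mem_singleton_iff] at hz
      subst hz
      show sigmaGK ι A.toHolBase X _ (jFK K N) = sigmaGK ι A.toHolBase X _ (jFK K N)
      rw [sigmaGK_jFK, sigmaGK_jFK]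
  | algebraMap c =>
      show sigmaGK ι A.toHolBase X _ _ = sigmaGK ι A.toHolBase X _ _
      rw [sigmaGK_algebraMap, sigmaGK_algebraMap]
  | add z w _ _ hz hw => rw [map_add, map_add, hz, hw]
  | inv z _ hz => rw [map_inv₀, map_inv₀, hz]
  | mul z w _ _ hz hw => rw [map_mul, map_mul, hz, hw]

include ι A in
/-- lower bound for the degree: `|SL₂(ℤ)/Γ₀(N)| ≤ [FFK K N : K(j)]`. -/
theorem card_le_finrankK
    [FiniteDimensional ↥(IntermediateField.adjoin K {jFK K N}) (FFK K N)] :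
    Nat.card (XX N) ≤ Module.finrank ↥(IntermediateField.adjoin K {jFK K N}) (FFK K N) := by
  classical
  set E := IntermediateField.adjoin K {jFK K N} with hE
  let X := A.toHolBase.qexpExpansion
  let x0 : XX N := ((1 : SL(2, ℤ)) : XX N)
  let ψ : ↥E →+* LaurentSeries ℂ := (sigmaXK ι A.toHolBase X x0).comp (algebraMap ↥E (FFK K N))
  letI : Algebra ↥E (LaurentSeries ℂ) := ψ.toAlgebra
  let a : XX N → (FFK K N →ₐ[↥E] LaurentSeries ℂ) := fun x =>
    { sigmaXK ι A.toHolBase X x with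
      commutes' := fun y => sigmaXK_eq_on_adjoin ι A X x x0 y.2 }
  have ha : Function.Injective a := by
    intro x y hxy
    apply sigmaXK_injective ι A.toHolBase X
    refine RingHom.ext fun f => ?_
    exact congrArg (fun φ : FFK K N →ₐ[↥E] LaurentSeries ℂ => φ f) hxy
  haveI : Module.Free ↥E (FFK K N) := Module.Free.of_divisionRing ↥E (FFK K N)
  haveI : Module.Finite ↥E (FFK K N) := ‹FiniteDimensional ↥E (FFK K N)›
  haveI : Finite (FFK K N →ₐ[↥E] LaurentSeries ℂ) :=
    Finite.algHom ↥E (FFK K N) (LaurentSeries ℂ)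
  calc Nat.card (XX N) ≤ Nat.card (FFK K N →ₐ[↥E] LaurentSeries ℂ) :=
        Nat.card_le_card_of_injective a ha
    _ ≤ Module.finrank ↥E (FFK K N) := card_algHom_le_finrank ↥E (FFK K N) (LaurentSeries ℂ)

/-- the stabiliser generator used over the point `a` -/
def epsAt (a : K) : SL(2, ℤ) :=
  letI := Classical.propDecidable
  if ι a = 0 then ModularGroup.S * ModularGroup.T
  else if ι a = 1728 then ModularGroup.S else 1

/-- the point data over the point `a` -/
def pointAt (a : K) : PointData A.toHolBase (ι a) (epsAt ι a) :=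
  letI := Classical.propDecidable
  if h0 : ι a = 0 then by
    rw [epsAt, if_pos h0, h0]; exact A.at0
  else if h1 : ι a = 1728 then by
    rw [epsAt, if_neg h0, if_pos h1, h1]; exact A.at1728
  else by
    rw [epsAt, if_neg h0, if_neg h1]; exact A.generic (ι a) h0 h1

/-- the local data over a finite point `a : K` -/
def dataFinK (a : K) : LocalData K (FFK K N) ℂ (XX N) (jFK K N - algebraMap K (FFK K N) a) :=
  dataOfPointK ι A (pointAt ι A a)

theorem dataFinK_perm (a : K) : (dataFinK ι A a).perm = permOf N (epsAt ι a)⁻¹ := rfl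

theorem dataFinK_σ (a : K) :
    (dataFinK ι A a).σ = sigmaXK ι A.toHolBase (pointAt ι A a).X := rfl

theorem dataFinK_m (a : K) : (dataFinK ι A a).m = (pointAt ι A a).R.m := rfl

theorem dataFinK_ζ (a : K) : (dataFinK ι A a).ζ = (pointAt ι A a).R.ζ := rfl

theorem dataInfK_perm : (dataInfK (K := K) ι A).perm = permOf N ModularGroup.T⁻¹ := rfl

theorem dataInfK_σ :
    (dataInfK (K := K) ι A).σ = sigmaXK ι A.toHolBase A.toHolBase.qexpExpansion := rfl

theorem dataInfK_m : (dataInfK (K := K) ι A).m = N := rfl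

end Fermat.Agent.S29.H282

end
end
-- ===== PACK-END S29/H282/CoreK.lean

-- ===== PACK-BEGIN S18/H965/GlueLemmas.lean
section





/-!
# S18 / GLUE (helper965): lemmas for `node_glue`

Interface-independent lemmas about the concrete objects of `Mod/Defs.lean`:

* `coeff_mem_of_mem_Fc`      : elements of `Fc M E` have `q`-expansion coefficients in `E`;
* `exists_finset_mem_Fc`     : every `f ∈ Ω = F_M` lies in `Fc M E` as soon as `E` contains a
                               finite set `T` of constants (descent to a number field);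
* `natCast_inv_mem_Rc`       : `ℓ ∤ m` ⟹ `m⁻¹ ∈ Rc M A E`;
* `exists_unit_twist`        : the divisor hypothesis of `CoreStatement` in the valuation-subring
                               form required by `Alg.AlgMainStatement`;
* `sub_one_mul_inv_mem_VcSet`: `u = U₁/U₂`, `Ū₁ = Ū₂` ⟹ `(u - 1)/w ∈ VcSet M A E`.
-/

set_option autoImplicit false

noncomputable section

namespace Fermat.Agent.S18.H965

open ModularCurve AlgebraicCurve HahnSeries Fermat.Agent.S18 Fermat.Agent.S18.Mod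

variable (M : ℕ) (E : IntermediateField ℚ Qb)

/-- The subfield of `Ω = F_M` of series all of whose coefficients lie in `E`. -/
def coeffField : Subfield (Om M) :=
  ((coeffMap (algebraMap (↥E) Qb)).fieldRange).comap
    (algebraMap (Om M) (LaurentSeries Qb))

variable {M E}

theorem coeff_mem_of_mem_coeffField {f : Om M} (hf : f ∈ coeffField M E) (n : ℤ) :
    ((f : LaurentSeries Qb)).coeff n ∈ E := by
  obtain ⟨y, hy⟩ := hf
  have h : (f : LaurentSeries Qb) = coeffMap (algebraMap (↥E) Qb) y := hy.symm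
  rw [h, coeffMap_coeff]
  exact (y.coeff n).2

theorem Ec_le_coeffField : Ec M E ≤ coeffField M E := by
  rintro y ⟨a, ha, rfl⟩
  refine ⟨HahnSeries.single 0 ⟨a, ha⟩, ?_⟩
  rw [coeffMap_single]
  change _ = algebraMap Qb (LaurentSeries Qb) a
  rw [algebraMap_laurentSeries_eq_single]
  rfl

theorem gens_subset_coeffField : gens M ⊆ (coeffField M E : Set (Om M)) := by
  rintro y ⟨d, hd, hdM, rfl⟩
  refine ⟨coeffMap (algebraMap ℚ (↥E)) (qExpand ℚ d jq), ?_⟩
  rw [coeffMap_coeffMap]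
  change _ = coeffEmb Qb (qExpand ℚ d jq)
  unfold coeffEmb
  exact coeffMap_congr (RingHom.ext fun c => rfl) _

theorem Fc_le_coeffField : Fc M E ≤ coeffField M E := by
  unfold Fc
  rw [Subfield.closure_le]
  rintro y (hy | hy)
  · exact Ec_le_coeffField hy
  · exact gens_subset_coeffField hy

/-- Elements of `Fc M E` have all their `q`-expansion coefficients in `E`. -/
theorem coeff_mem_of_mem_Fc {f : Om M} (hf : f ∈ Fc M E) (n : ℤ) :
    ((f : LaurentSeries Qb)).coeff n ∈ E :=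
  coeff_mem_of_mem_coeffField (Fc_le_coeffField hf) n


/-! ### Descent to a number field -/

theorem Ec_le_Fc : Ec M E ≤ Fc M E := fun _ hy =>
  Subfield.subset_closure (Or.inl hy)

theorem algebraMap_mem_Ec {a : Qb} (ha : a ∈ E) : algebraMap Qb (Om M) a ∈ Ec M E :=
  ⟨a, ha, rfl⟩

theorem algebraMap_mem_Fc {a : Qb} (ha : a ∈ E) : algebraMap Qb (Om M) a ∈ Fc M E :=
  Ec_le_Fc (algebraMap_mem_Ec ha)

/-- The image of `ℚ(j_d : d ∣ M)` lies in `Fc M E` for every `E`. -/
theorem exists_mem_Fc_of_mem_full {z : LaurentSeries ℚ} (hz : z ∈ modularFunctionFieldFull M) :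
    ∃ f ∈ Fc M E, (f : LaurentSeries Qb) = coeffEmb Qb z := by
  unfold modularFunctionFieldFull at hz
  induction hz using IntermediateField.adjoin_induction with
  | mem y hy =>
      obtain ⟨d, hd, hdM, rfl⟩ := hy
      exact ⟨jd M d hdM, Subfield.subset_closure (Or.inr ⟨d, hd, hdM, rfl⟩), rfl⟩
  | algebraMap r =>
      refine ⟨algebraMap Qb (Om M) (algebraMap ℚ Qb r),
        algebraMap_mem_Fc (E.algebraMap_mem r), ?_⟩
      change algebraMap Qb (LaurentSeries Qb) (algebraMap ℚ Qb r) = _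
      rw [algebraMap_laurentSeries_eq_single, algebraMap_laurentSeries_eq_single]
      unfold coeffEmb
      rw [coeffMap_single]
  | add x y _ _ hx hy =>
      obtain ⟨f, hf, hfx⟩ := hx
      obtain ⟨g, hg, hgy⟩ := hy
      exact ⟨f + g, add_mem hf hg, by rw [map_add, ← hfx, ← hgy]; rfl⟩
  | inv x _ hx =>
      obtain ⟨f, hf, hfx⟩ := hx
      exact ⟨f⁻¹, inv_mem hf, by rw [map_inv₀, ← hfx]; rfl⟩
  | mul x y _ _ hx hy =>
      obtain ⟨f, hf, hfx⟩ := hx
      obtain ⟨g, hg, hgy⟩ := hy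
      exact ⟨f * g, mul_mem hf hg, by rw [map_mul, ← hfx, ← hgy]; rfl⟩

variable (M) in
/-- **Descent.**  Every element of `Ω = F_M` lies in `Fc M E` as soon as the number field `E`
contains a certain finite set of constants. -/
theorem exists_finset_series (x : LaurentSeries Qb) (hx : x ∈ modularFunctionFieldBar M) :
    ∃ T : Finset Qb, ∀ E : IntermediateField ℚ Qb, (∀ a ∈ T, a ∈ E) →
      ∃ f ∈ Fc M E, (f : LaurentSeries Qb) = x := by
  classical
  rw [mem_laurentBaseChange_iff] at hx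
  induction hx using Subfield.closure_induction with
  | mem y hy =>
      rcases hy with ⟨a, rfl⟩ | ⟨z, hz, rfl⟩
      · refine ⟨{a}, fun E hE => ⟨algebraMap Qb (Om M) a, algebraMap_mem_Fc (hE a (by simp)), rfl⟩⟩
      · exact ⟨∅, fun E _ => exists_mem_Fc_of_mem_full hz⟩
  | one => exact ⟨∅, fun E _ => ⟨1, one_mem _, rfl⟩⟩
  | add x y _ _ hx hy =>
      obtain ⟨T₁, h₁⟩ := hx
      obtain ⟨T₂, h₂⟩ := hy
      refine ⟨T₁ ∪ T₂, fun E hE => ?_⟩
      obtain ⟨f, hf, hfx⟩ := h₁ E (fun a ha => hE a (Finset.mem_union_left _ ha))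
      obtain ⟨g, hg, hgy⟩ := h₂ E (fun a ha => hE a (Finset.mem_union_right _ ha))
      exact ⟨f + g, add_mem hf hg, by rw [← hfx, ← hgy]; rfl⟩
  | neg x _ hx =>
      obtain ⟨T₁, h₁⟩ := hx
      refine ⟨T₁, fun E hE => ?_⟩
      obtain ⟨f, hf, hfx⟩ := h₁ E hE
      exact ⟨-f, neg_mem hf, by rw [← hfx]; rfl⟩
  | inv x _ hx =>
      obtain ⟨T₁, h₁⟩ := hx
      refine ⟨T₁, fun E hE => ?_⟩
      obtain ⟨f, hf, hfx⟩ := h₁ E hE
      exact ⟨f⁻¹, inv_mem hf, by rw [← hfx]; rfl⟩
  | mul x y _ _ hx hy =>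
      obtain ⟨T₁, h₁⟩ := hx
      obtain ⟨T₂, h₂⟩ := hy
      refine ⟨T₁ ∪ T₂, fun E hE => ?_⟩
      obtain ⟨f, hf, hfx⟩ := h₁ E (fun a ha => hE a (Finset.mem_union_left _ ha))
      obtain ⟨g, hg, hgy⟩ := h₂ E (fun a ha => hE a (Finset.mem_union_right _ ha))
      exact ⟨f * g, mul_mem hf hg, by rw [← hfx, ← hgy]; rfl⟩

variable (M) in
/-- **Descent**, elementwise form. -/
theorem exists_finset_mem_Fc (f : Om M) :
    ∃ T : Finset Qb, ∀ E : IntermediateField ℚ Qb, (∀ a ∈ T, a ∈ E) → f ∈ Fc M E := by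
  obtain ⟨T, hT⟩ := exists_finset_series M (f : LaurentSeries Qb) f.2
  refine ⟨T, fun E hE => ?_⟩
  obtain ⟨g, hg, hgf⟩ := hT E hE
  have : g = f := Subtype.ext hgf
  exact this ▸ hg


/-! ### `m` is a unit of `A ∩ E` -/

theorem natCast_inv_mem_valuationSubring {ℓ : ℕ} (hℓ : ℓ.Prime) (A : ValuationSubring Qb)
    (hA : A.LiesOverPrime ℓ) {m : ℕ} (hm : ¬ ℓ ∣ m) : ((m : Qb))⁻¹ ∈ A := by
  have hcop : IsCoprime (ℓ : ℤ) (m : ℤ) :=
    Nat.isCoprime_iff_coprime.mpr ((Nat.Prime.coprime_iff_not_dvd hℓ).mpr hm)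
  obtain ⟨a, b, hab⟩ := hcop
  have habQ : (a : Qb) * (ℓ : Qb) + (b : Qb) * (m : Qb) = 1 := by exact_mod_cast hab
  have hℓv : A.valuation (ℓ : Qb) < 1 := (A.mem_nonunits_iff).mp hA
  have hint : ∀ c : ℤ, A.valuation (c : Qb) ≤ 1 := fun c =>
    (A.valuation_le_one_iff _).mpr (intCast_mem A c)
  have hmle : A.valuation (m : Qb) ≤ 1 := (A.valuation_le_one_iff _).mpr (natCast_mem A m)
  have hmge : ¬ A.valuation (m : Qb) < 1 := by
    intro hlt
    have h1 : A.valuation ((a : Qb) * (ℓ : Qb)) < 1 := by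
      rw [map_mul]
      calc A.valuation (a : Qb) * A.valuation (ℓ : Qb) ≤ 1 * A.valuation (ℓ : Qb) :=
            mul_le_mul' (hint a) le_rfl
        _ = A.valuation (ℓ : Qb) := one_mul _
        _ < 1 := hℓv
    have h2 : A.valuation ((b : Qb) * (m : Qb)) < 1 := by
      rw [map_mul]
      calc A.valuation (b : Qb) * A.valuation (m : Qb) ≤ 1 * A.valuation (m : Qb) :=
            mul_le_mul' (hint b) le_rfl
        _ = A.valuation (m : Qb) := one_mul _
        _ < 1 := hlt
    have h3 : A.valuation ((a : Qb) * (ℓ : Qb) + (b : Qb) * (m : Qb)) < 1 :=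
      Valuation.map_add_lt _ h1 h2
    rw [habQ, map_one] at h3
    exact lt_irrefl _ h3
  have hm1 : A.valuation (m : Qb) = 1 := le_antisymm hmle (not_lt.mp hmge)
  rw [← A.valuation_le_one_iff, map_inv₀, hm1, inv_one]

theorem mem_Rc_iff {A : ValuationSubring Qb} {y : Om M} :
    y ∈ Rc M A E ↔ ∃ a : Qb, a ∈ A ∧ a ∈ E ∧ algebraMap Qb (Om M) a = y := by
  constructor
  · rintro ⟨a, ⟨haA, haE⟩, rfl⟩
    exact ⟨a, haA, haE, rfl⟩
  · rintro ⟨a, haA, haE, rfl⟩
    exact ⟨a, ⟨haA, haE⟩, rfl⟩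

theorem natCast_inv_mem_Rc {ℓ : ℕ} (hℓ : ℓ.Prime) (A : ValuationSubring Qb)
    (hA : A.LiesOverPrime ℓ) {m : ℕ} (hm : ¬ ℓ ∣ m) : ((m : Om M))⁻¹ ∈ Rc M A E := by
  rw [mem_Rc_iff]
  refine ⟨((m : Qb))⁻¹, natCast_inv_mem_valuationSubring hℓ A hA hm,
    inv_mem (natCast_mem E m), ?_⟩
  rw [map_inv₀, map_natCast]

theorem Rc_le_Ec {A : ValuationSubring Qb} {y : Om M} (hy : y ∈ Rc M A E) : y ∈ Ec M E := by
  obtain ⟨a, -, haE, rfl⟩ := mem_Rc_iff.mp hy
  exact algebraMap_mem_Ec haE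

/-! ### The divisor hypothesis in valuation-subring form -/

theorem exists_unit_twist [NeZero M] {m : ℕ} {f g : Om M} (hf : f ≠ 0) (hg : g ≠ 0)
    (hdiv : ∀ v : Place Qb (modularFunctionFieldBar M), (m : ℤ) ∣ v.ord f - v.ord g)
    (O : ValuationSubring (Om M)) (hO : ∀ a ∈ Lc M, a ∈ O) :
    ∃ t : Om M, t ≠ 0 ∧ (f / g) * t ^ m ∈ O ∧ ((f / g) * t ^ m)⁻¹ ∈ O := by
  by_cases hO' : O = ⊤
  · subst hO'
    exact ⟨1, one_ne_zero, ValuationSubring.mem_top _, ValuationSubring.mem_top _⟩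
  obtain ⟨P⟩ := Fermat.Agent.S24.nonempty_modularPackage M
  have := P.finiteDimensional
  obtain ⟨v, hv⟩ := Fermat.Agent.Lib.RR.H443.exists_place_eq O
    (fun a => hO _ ⟨a, rfl⟩) hO' (Fermat.Agent.Lib.RR.H864.transcendental_jF M)
  obtain ⟨k, hk⟩ := hdiv v
  obtain ⟨π, hπ⟩ := Fermat.Agent.Lib.RR.exists_ord_eq_one v
  have hπ0 : π ≠ 0 := Fermat.Agent.Lib.RR.ne_zero_of_ord_ne_zero v (by rw [hπ]; exact one_ne_zero)
  have ht0 : π ^ (-k) ≠ 0 := zpow_ne_zero _ hπ0
  have hfg : f / g ≠ 0 := div_ne_zero hf hg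
  have hord : v.ord ((f / g) * (π ^ (-k)) ^ m) = 0 := by
    rw [v.ord_mul hfg (pow_ne_zero _ ht0), div_eq_mul_inv, v.ord_mul hf (inv_ne_zero hg),
      v.ord_inv, Fermat.Agent.Lib.RR.ord_pow, v.ord_zpow, hπ]
    have : v.ord f = v.ord g + m * k := by linarith
    rw [this]
    ring
  refine ⟨π ^ (-k), ht0, ?_, ?_⟩
  · rw [← hv]
    exact Fermat.Agent.Lib.RR.mem_of_ord_nonneg v (by rw [hord])
  · rw [← hv]
    exact Fermat.Agent.Lib.RR.mem_of_ord_nonneg v (by rw [v.ord_inv, hord, neg_zero])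


/-! ### `u ≡ 1` modulo the uniformiser -/

/-- A series over `Q̄` with coefficients in `A` comes from a series over `A`. -/
theorem exists_series_of_coeff_mem (A : ValuationSubring Qb) (x : LaurentSeries Qb)
    (hx : ∀ n, x.coeff n ∈ A) : ∃ U : LaurentSeries A, coeffMap A.subtype U = x := by
  refine ⟨⟨fun n => ⟨x.coeff n, hx n⟩, x.isPWO_support.mono ?_⟩, ?_⟩
  · intro n hn
    rw [HahnSeries.mem_support]
    intro h0
    exact hn (Subtype.ext h0)
  · ext n
    rfl

theorem toF_ne_zero {A : ValuationSubring Qb} {U : LaurentSeries A} (hU : IsInt A M U) :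
    toF hU ≠ 0 := by
  intro h0
  apply hU.2.2
  have h1 : coeffMap A.subtype U = 0 := congrArg Subtype.val h0
  have h2 : U = 0 := by
    ext n
    have := congrArg (fun x => x.coeff n) h1
    simpa using this
  rw [h2, map_zero]

theorem coe_toF {A : ValuationSubring Qb} {U : LaurentSeries A} (hU : IsInt A M U) :
    ((toF hU : Om M) : LaurentSeries Qb) = coeffMap A.subtype U := rfl

/-- **`u ≡ 1 mod w`.**  If `U₁, U₂` are integral with the same reduction and `toF U_i ∈ Fc M E`,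
then `(U₁/U₂ - 1)/w` lies in the Gauss valuation ring `VcSet M A E`, for any `w` generating the
maximal ideal of `Rc M A E`. -/
theorem sub_one_mul_inv_mem_VcSet (A : ValuationSubring Qb) {U₁ U₂ : LaurentSeries A}
    (h₁ : IsInt A M U₁) (h₂ : IsInt A M U₂)
    (hred : coeffMap (IsLocalRing.residue A) U₁ = coeffMap (IsLocalRing.residue A) U₂)
    (hf₁ : toF h₁ ∈ Fc M E) (hf₂ : toF h₂ ∈ Fc M E)
    {w : Om M} (hw : w ∈ Rc M A E)
    (hgen : ∀ r ∈ Rc M A E, r⁻¹ ∉ Rc M A E → r * w⁻¹ ∈ Rc M A E) :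
    (toF h₁ / toF h₂ - 1) * w⁻¹ ∈ VcSet M A E := by
  obtain ⟨w', hw'A, hw'E, rfl⟩ := mem_Rc_iff.mp hw
  have hg0 : toF h₂ ≠ 0 := toF_ne_zero h₂
  have hwF : algebraMap Qb (Om M) w' ∈ Fc M E := algebraMap_mem_Fc hw'E
  set f : Om M := (toF h₁ - toF h₂) * (algebraMap Qb (Om M) w')⁻¹ with hf
  have hfF : f ∈ Fc M E := mul_mem (sub_mem hf₁ hf₂) (inv_mem hwF)
  have huF : (toF h₁ / toF h₂ - 1) * (algebraMap Qb (Om M) w')⁻¹ ∈ Fc M E :=
    mul_mem (sub_mem (div_mem hf₁ hf₂) (one_mem _)) (inv_mem hwF)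
  -- coefficients of `f`
  have hcoeff : ∀ n : ℤ, (f : LaurentSeries Qb).coeff n
      = ((U₁.coeff n : Qb) - (U₂.coeff n : Qb)) * w'⁻¹ := by
    intro n
    have e1 : (f : LaurentSeries Qb) = (coeffMap A.subtype U₁ - coeffMap A.subtype U₂)
        * (algebraMap Qb (LaurentSeries Qb) w')⁻¹ := rfl
    rw [e1, ← map_inv₀, algebraMap_laurentSeries_eq_single, HahnSeries.coeff_mul_single_zero,
      HahnSeries.coeff_sub, coeffMap_coeff, coeffMap_coeff]
    rfl
  have hcoeffE : ∀ (U : LaurentSeries A) (hU : IsInt A M U), toF hU ∈ Fc M E →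
      ∀ n : ℤ, ((U.coeff n : A) : Qb) ∈ E := by
    intro U hU hUF n
    have := coeff_mem_of_mem_Fc hUF n
    rwa [coe_toF, coeffMap_coeff] at this
  have hcoeffA : ∀ n : ℤ, (f : LaurentSeries Qb).coeff n ∈ A := by
    intro n
    rw [hcoeff]
    set d : A := U₁.coeff n - U₂.coeff n with hd
    have hdval : ((U₁.coeff n : Qb) - (U₂.coeff n : Qb)) = (d : Qb) := rfl
    rw [hdval]
    have hdE : (d : Qb) ∈ E := sub_mem (hcoeffE U₁ h₁ hf₁ n) (hcoeffE U₂ h₂ hf₂ n)
    have hres : IsLocalRing.residue A d = 0 := by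
      have := congrArg (fun x => x.coeff n) hred
      simp only [coeffMap_coeff] at this
      rw [hd, map_sub, this, sub_self]
    have hnu : ¬ IsUnit d := by
      rw [IsLocalRing.residue_eq_zero_iff] at hres
      exact (IsLocalRing.mem_maximalIdeal _).mp hres
    by_cases hd0 : (d : Qb) = 0
    · rw [hd0, zero_mul]
      exact A.zero_mem
    have hr : algebraMap Qb (Om M) (d : Qb) ∈ Rc M A E := mem_Rc_iff.mpr ⟨d, d.2, hdE, rfl⟩
    have hr' : (algebraMap Qb (Om M) (d : Qb))⁻¹ ∉ Rc M A E := by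
      intro hmem
      obtain ⟨b, hbA, -, hb⟩ := mem_Rc_iff.mp hmem
      rw [← map_inv₀] at hb
      have hb' : b = (d : Qb)⁻¹ := (algebraMap Qb (Om M)).injective hb
      apply hnu
      refine IsUnit.of_mul_eq_one (⟨b, hbA⟩ : A) (Subtype.ext ?_)
      change (d : Qb) * b = 1
      rw [hb', mul_inv_cancel₀ hd0]
    obtain ⟨c, hcA, -, hc⟩ := mem_Rc_iff.mp (hgen _ hr hr')
    rw [← map_inv₀, ← map_mul] at hc
    have hc' : c = (d : Qb) * w'⁻¹ := (algebraMap Qb (Om M)).injective hc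
    rw [← hc']
    exact hcA
  obtain ⟨W₁, hW₁⟩ := exists_series_of_coeff_mem A (f : LaurentSeries Qb) hcoeffA
  refine ⟨huF, W₁, U₂, ⟨?_, f, hfF, hW₁.symm⟩, ⟨hcoeffE U₂ h₂ hf₂, toF h₂, hf₂, rfl⟩,
    h₂.2.2, ?_⟩
  · intro n
    have := coeff_mem_of_mem_Fc hfF n
    rwa [← hW₁, coeffMap_coeff] at this
  · rw [hW₁, ← coe_toF h₂]
    have : (toF h₁ / toF h₂ - 1) * (algebraMap Qb (Om M) w')⁻¹ * toF h₂ = f := by
      rw [hf]
      field_simp
    rw [← this]
    rfl

end Fermat.Agent.S18.H965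

end
end
-- ===== PACK-END S18/H965/GlueLemmas.lean

-- ===== PACK-BEGIN S18/H965/Glue.lean
section


/-!
# S18 / NODE GLUE (helper965)

`node_glue : Mod.GlueStatement M ℓ A m` (for PRIME `m`) — exactly the type of `node_glue` in
`Fermat/Agent/S18/Integ/Skeleton.lean` (interfaces v4 = FINAL, on main b6b9cd58):

    CoordinateStatement M ℓ → GoodModelStatement M ℓ A → AlgStatement M → CoreStatement M A m.

Proof: given integral `U₁, U₂` with the same reduction, put `u = U₁/U₂ ∈ Ω`.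
* descent: `U₁, U₂ ∈ Fc M E` as soon as `E ⊇ T` (`exists_finset_mem_Fc`); MOD supplies a member
  `p = (Ec M E, Fc M E, Rc M A E, V, w)` of the good family with `E ⊇ T`;
* `m⁻¹ ∈ Rc M A E` since `ℓ ∤ m` (`natCast_inv_mem_Rc`);
* `(u - 1)/w ∈ V = VcSet M A E` (`sub_one_mul_inv_mem_VcSet`, uses only `w_mem`, `w_gen`);
* every valuation subring `O ⊇ Q̄` of `Ω` is `⊤` or a place (`H443.exists_place_eq`), whence the
  divisor hypothesis in the form required by ALG (`exists_unit_twist`);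
* ALG gives `u = c y^m`.
-/

set_option autoImplicit false

noncomputable section

namespace Fermat.Agent.S18.H965

open ModularCurve AlgebraicCurve HahnSeries Fermat.Agent.S18 Fermat.Agent.S18.Mod

/-- **NODE GLUE (d1).** -/
theorem node_glue (M : ℕ) [NeZero M] {ℓ : ℕ} [Fact ℓ.Prime] (_hℓM : ¬ ℓ ∣ M)
    (A : ValuationSubring Qb) (hA : A.LiesOverPrime ℓ) (m : ℕ) (hmp : m.Prime) (hm : ¬ ℓ ∣ m) :
    Mod.GlueStatement M ℓ A m := by
  classical
  intro hcoord hmod halg U₁ U₂ h₁ h₂ hred hdiv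
  obtain ⟨x, S, hxS⟩ := hcoord
  obtain ⟨𝓕, -, hfam, hT⟩ := hmod x S hxS
  obtain ⟨T₁, hT₁⟩ := exists_finset_mem_Fc M (toF h₁)
  obtain ⟨T₂, hT₂⟩ := exists_finset_mem_Fc M (toF h₂)
  obtain ⟨E, V, w, -, hTE, hV, hp⟩ := hT (T₁ ∪ T₂)
  have hf₁ : toF h₁ ∈ Fc M E := hT₁ E (fun a ha => hTE a (Finset.mem_union_left _ ha))
  have hf₂ : toF h₂ ∈ Fc M E := hT₂ E (fun a ha => hTE a (Finset.mem_union_right _ ha))
  have hgood : Alg.GoodModel (Lc M) (Ec M E) (Fc M E) (Rc M A E) V w x S := hfam.good _ hp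
  have hm0 : m ≠ 0 := hmp.ne_zero
  have hu0 : toF h₁ / toF h₂ ≠ 0 := div_ne_zero (toF_ne_zero h₁) (toF_ne_zero h₂)
  have huV : (toF h₁ / toF h₂ - 1) * w⁻¹ ∈ V := by
    have h := sub_one_mul_inv_mem_VcSet A h₁ h₂ hred hf₁ hf₂ hgood.w_mem hgood.w_gen
    rw [← hV] at h
    exact h
  obtain ⟨y, c, hcL, hc0, huy⟩ := halg (Lc M) x S 𝓕 hfam _ hp m
    hmp (natCast_inv_mem_Rc Fact.out A hA hm) (toF h₁ / toF h₂) (div_mem hf₁ hf₂) hu0 huV
    (exists_unit_twist (toF_ne_zero h₁) (toF_ne_zero h₂) hdiv)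
  obtain ⟨c', rfl⟩ := hcL
  refine ⟨c', y, ?_, ?_, ?_⟩
  · rintro rfl
    exact hc0 (map_zero _)
  · rintro rfl
    rw [zero_pow hm0, mul_zero] at huy
    exact hu0 huy
  · rw [← huy, div_mul_cancel₀ _ (toF_ne_zero h₂)]

end Fermat.Agent.S18.H965

end
end
-- ===== PACK-END S18/H965/Glue.lean

-- ===== PACK-BEGIN S18/H568/D2.lean
section






/-!
# S18 / node D2 (helper568): transfer `CORE(M) → CORE(N)`

EXACT node statement of `origin/helper18:Fermat/Agent/S18/Integ/Skeleton.lean` (`node_d2`), with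
`levelM N ℓ` unfolded (`levelM` lives in the skeleton file, which contains `sorry`):

    theorem node_d2 (N : ℕ) [NeZero N] {ℓ : ℕ} [Fact ℓ.Prime] (hℓN : ¬ ℓ ∣ N)
        (A : ValuationSubring Qb) (hA : A.LiesOverPrime ℓ) (m : ℕ) (hm : ¬ ℓ ∣ m) :
        CoreStatement (if ℓ = 3 then Nat.lcm N 2 else if ℓ = 2 then Nat.lcm N 3 else N) A m →
          CoreStatement N A m

General form: `coreStatement_of_dvd` (any `N ∣ M` with `[F_M : F_N]` nonzero and prime to `m`).

Proof: (1) `IsInt A N U → IsInt A M U` (monotonicity of the function fields);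
(2) for a place `w` of `F_M`, `ord_w(f) = e(w) · ord_{w|F_N}(f)` for `f ∈ F_N` (Prelude
`Place.ord_restrictAlong`), so `m ∣ div` is inherited; (3) norm trick
(`exists_pow_of_norm_coprime`); (4) degree `[F_{Np} : F_N] = p + 1` for `p ∤ N`
(helper988, `relfinrank_bar_mul_prime`, on main).
-/

set_option autoImplicit false

noncomputable section

namespace Fermat.Agent.S18.H568

open ModularCurve AlgebraicCurve HahnSeries IntermediateField Module

section Generic

variable {K Ω : Type*} [Field K] [Field Ω] [Algebra K Ω] {E F : IntermediateField K Ω}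

/-- `extendScalars h` and `F` (with the `E`-algebra structure along the inclusion) are the same
`E`-vector space. -/
def extendScalarsLinearEquiv568 (hEF : E ≤ F) :
    letI := (IntermediateField.inclusion hEF).toRingHom.toAlgebra
    ↥(extendScalars hEF) ≃ₗ[E] F :=
  letI := (IntermediateField.inclusion hEF).toRingHom.toAlgebra
  { toFun := fun x => ⟨x.1, (mem_extendScalars hEF).mp x.2⟩
    invFun := fun x => ⟨x.1, (mem_extendScalars hEF).mpr x.2⟩
    map_add' := fun _ _ => rfl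
    map_smul' := fun _ _ => rfl
    left_inv := fun _ => rfl
    right_inv := fun _ => rfl }

theorem finrank_inclusion_eq_relfinrank (hEF : E ≤ F) :
    letI := (IntermediateField.inclusion hEF).toRingHom.toAlgebra
    finrank E F = E.relfinrank F := by
  letI := (IntermediateField.inclusion hEF).toRingHom.toAlgebra
  rw [relfinrank_eq_finrank_of_le hEF]
  exact (extendScalarsLinearEquiv568 hEF).finrank_eq.symm

theorem finiteDimensional_inclusion (hEF : E ≤ F) (h0 : E.relfinrank F ≠ 0) :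
    letI := (IntermediateField.inclusion hEF).toRingHom.toAlgebra
    FiniteDimensional E F := by
  letI := (IntermediateField.inclusion hEF).toRingHom.toAlgebra
  apply FiniteDimensional.of_finrank_pos
  rw [finrank_inclusion_eq_relfinrank hEF]
  exact Nat.pos_of_ne_zero h0

end Generic

/-- Monotonicity of `ℚ̄(X₀(N))` in the level. -/
theorem bar_le_of_dvd {N M : ℕ} [NeZero N] [NeZero M] (h : N ∣ M) :
    modularFunctionFieldBar N ≤ modularFunctionFieldBar M := by
  rw [Fermat.Agent.S28.H988.modularFunctionFieldBar_eq_fullC,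
    Fermat.Agent.S28.H988.modularFunctionFieldBar_eq_fullC]
  exact full_degeneracyC_le _ h

theorem isInt_of_dvd {N M : ℕ} [NeZero N] [NeZero M] (h : N ∣ M) {A : ValuationSubring Qb}
    {U : LaurentSeries A} (hU : IsInt A N U) : IsInt A M U :=
  ⟨bar_le_of_dvd h hU.1, full_degeneracyC_le _ h hU.2.1, hU.2.2⟩

theorem toF_ne_zero {N : ℕ} {A : ValuationSubring Qb} {U : LaurentSeries A}
    (hU : IsInt A N U) : toF hU ≠ 0 := by
  intro h0
  have h1 : coeffMap A.subtype U = 0 := congrArg Subtype.val h0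
  have h2 : U = 0 := by
    ext n
    have := congrArg (fun f : LaurentSeries Qb => f.coeff n) h1
    simpa [coeffMap_coeff] using this
  exact hU.2.2 (by rw [h2]; exact map_zero _)

/-- **General transfer**: `CORE(M) → CORE(N)` for `N ∣ M` when `[F_M : F_N]` is finite and prime
to `m`. -/
theorem coreStatement_of_dvd (N M : ℕ) [NeZero N] [NeZero M] (hNM : N ∣ M)
    (A : ValuationSubring Qb) (m : ℕ)
    (hd0 : (modularFunctionFieldBar N).relfinrank (modularFunctionFieldBar M) ≠ 0)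
    (hcop : Nat.Coprime ((modularFunctionFieldBar N).relfinrank (modularFunctionFieldBar M)) m) :
    CoreStatement M A m → CoreStatement N A m := by
  intro hM U₁ U₂ h₁ h₂ hred hord
  have hle := bar_le_of_dvd hNM
  set φ : modularFunctionFieldBar N →ₐ[Qb] modularFunctionFieldBar M :=
    IntermediateField.inclusion hle with hφdef
  letI : Algebra (modularFunctionFieldBar N) (modularFunctionFieldBar M) := algebraAlong φ
  haveI : IsScalarTower Qb (modularFunctionFieldBar N) (modularFunctionFieldBar M) :=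
    isScalarTower_along φ
  haveI hfd : FiniteDimensional (modularFunctionFieldBar N) (modularFunctionFieldBar M) :=
    finiteDimensional_inclusion hle hd0
  have hfr : finrank (modularFunctionFieldBar N) (modularFunctionFieldBar M) =
      (modularFunctionFieldBar N).relfinrank (modularFunctionFieldBar M) :=
    finrank_inclusion_eq_relfinrank hle
  have hφint : φ.toRingHom.IsIntegral := fun x =>
    (Algebra.IsIntegral.of_finite (modularFunctionFieldBar N) (modularFunctionFieldBar M)).isIntegral x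
  have h₁' : IsInt A M U₁ := isInt_of_dvd hNM h₁
  have h₂' : IsInt A M U₂ := isInt_of_dvd hNM h₂
  have e₁ : toF h₁' = φ (toF h₁) := rfl
  have e₂ : toF h₂' = φ (toF h₂) := rfl
  obtain ⟨c, y, hc, hy, hcy⟩ := hM U₁ U₂ h₁' h₂' hred (fun w => by
    rw [e₁, e₂, Place.ord_restrictAlong φ hφint w, Place.ord_restrictAlong φ hφint w, ← mul_sub]
    exact Dvd.dvd.mul_left (hord _) _)
  have hn₁ := toF_ne_zero h₁
  have hn₂ := toF_ne_zero h₂
  -- descend `u = toF h₁ / toF h₂`
  have hu : toF h₁ / toF h₂ ≠ 0 := div_ne_zero hn₁ hn₂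
  have hkey : algebraMap (modularFunctionFieldBar N) (modularFunctionFieldBar M)
      (toF h₁ / toF h₂) = algebraMap Qb (modularFunctionFieldBar M) c * y ^ m := by
    have hn₂' : toF h₂' ≠ 0 := toF_ne_zero h₂'
    show φ (toF h₁ / toF h₂) = _
    rw [map_div₀, ← e₁, ← e₂, hcy, mul_div_assoc, div_self hn₂', mul_one]
  obtain ⟨c', y', hc', hy', hfin⟩ :=
    exists_pow_of_norm_coprime m (by rw [hfr]; exact hcop) (toF h₁ / toF h₂) hu c hc y hy hkey
  refine ⟨c', y', hc', hy', ?_⟩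
  rw [← hfin, div_mul_cancel₀ _ hn₂]

/-- Transfer along `N ∣ N * p`, `p` prime not dividing `N`, when `p + 1` is prime to `m`. -/
theorem coreStatement_of_mul_prime (N p : ℕ) [NeZero N] (hp : p.Prime) (hpN : ¬ p ∣ N)
    (A : ValuationSubring Qb) (m : ℕ) (h2 : Nat.Coprime (p + 1) m) :
    CoreStatement (N * p) A m → CoreStatement N A m := by
  haveI : NeZero (N * p) := ⟨Nat.mul_ne_zero (NeZero.ne N) hp.ne_zero⟩
  have hdeg := Fermat.Agent.S28.H988.relfinrank_bar_mul_prime N p (NeZero.ne N) hp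
  rw [if_neg hpN] at hdeg
  refine coreStatement_of_dvd N (N * p) (Dvd.intro p rfl) A m ?_ ?_
  · rw [hdeg]; exact Nat.succ_ne_zero p
  · rw [hdeg]; exact h2

/-- **NODE D2** (statement of `Integ/Skeleton.lean`, `levelM N ℓ` unfolded). -/
theorem node_d2 (N : ℕ) [NeZero N] {ℓ : ℕ} [Fact ℓ.Prime] (_hℓN : ¬ ℓ ∣ N)
    (A : ValuationSubring Qb) (_hA : A.LiesOverPrime ℓ) (m : ℕ) (hm : ¬ ℓ ∣ m) :
    CoreStatement (if ℓ = 3 then Nat.lcm N 2 else if ℓ = 2 then Nat.lcm N 3 else N) A m →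
      CoreStatement N A m := by
  split_ifs with h3 h2
  · -- ℓ = 3, M = lcm N 2
    subst h3
    by_cases h : 2 ∣ N
    · rw [Nat.lcm_eq_left h]; exact id
    · have hc : Nat.Coprime N 2 :=
        (Nat.coprime_comm.mp ((Nat.Prime.coprime_iff_not_dvd Nat.prime_two).mpr h))
      rw [hc.lcm_eq_mul]
      have hm3 : Nat.Coprime 3 m := (Nat.Prime.coprime_iff_not_dvd Nat.prime_three).mpr hm
      exact coreStatement_of_mul_prime N 2 Nat.prime_two h A m hm3
  · -- ℓ = 2, M = lcm N 3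
    subst h2
    by_cases h : 3 ∣ N
    · rw [Nat.lcm_eq_left h]; exact id
    · have hc : Nat.Coprime N 3 :=
        (Nat.coprime_comm.mp ((Nat.Prime.coprime_iff_not_dvd Nat.prime_three).mpr h))
      rw [hc.lcm_eq_mul]
      have hm2 : Nat.Coprime 2 m := (Nat.Prime.coprime_iff_not_dvd Nat.prime_two).mpr hm
      have hm4 : Nat.Coprime (3 + 1) m := by
        have : (3 + 1 : ℕ) = 2 ^ 2 := by norm_num
        rw [this]
        exact Nat.Coprime.pow_left 2 hm2
      exact coreStatement_of_mul_prime N 3 Nat.prime_three h A m hm4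
  · exact id

end Fermat.Agent.S18.H568

end

end
-- ===== PACK-END S18/H568/D2.lean

-- ===== PACK-BEGIN S18/H694/CoreFamilyOfNodes.lean
section





/-!
# S18 / helper694 — the hub for ALL `m` from the two open nodes (`node_mod`, `node_alg`)

The S18 skeleton (interfaces v4) produces the hub `CoreStatement N A p` only for PRIME `p ≠ ℓ`.
Row S29 (`S29/H222/ESKFamily.lean`, `CoreFamily`; `esStatement_of_core`) needs it for all `m`
prime to `ℓ`.  This file wires the closed nodes on main (`H333.node_coord`, `H965.node_glue`,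
`H568.node_d2`) with `H694.coreStatement_of_prime`:

* `coreStatement_of_nodes` : `CoreStatement N A m` for all `m` with `ℓ ∤ m`, from `node_mod` at the
  level `M = levelM N ℓ` and `node_alg`;
* `coreFamily_of_nodes` : the exact body of `S29.H222.CoreFamily` from the two node statements
  (in the exact shapes of `Integ/Skeleton.lean`).

When `node_mod` and `node_alg` are on main, `CoreFamily` is `coreFamily_of_nodes node_mod node_alg`.
-/

set_option autoImplicit false

noncomputable section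

namespace Fermat.Agent.S18.H694

open ModularCurve AlgebraicCurve

/-- The level at which good reduction is proved (same as `Integ.levelM` of the skeleton). -/
def levelAux (N ℓ : ℕ) : ℕ := if ℓ = 3 then Nat.lcm N 2 else if ℓ = 2 then Nat.lcm N 3 else N

theorem levelAux_ne_zero (N ℓ : ℕ) [NeZero N] : levelAux N ℓ ≠ 0 := by
  unfold levelAux
  split_ifs <;> simp [NeZero.ne N]

theorem not_dvd_levelAux (N : ℕ) {ℓ : ℕ} [Fact ℓ.Prime] (hℓN : ¬ ℓ ∣ N) :
    ¬ ℓ ∣ levelAux N ℓ := by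
  unfold levelAux
  split_ifs with h3 h2
  · subst h3
    intro h
    have := (Nat.Prime.dvd_mul (by norm_num : Nat.Prime 3)).mp (h.trans (Nat.lcm_dvd_mul N 2))
    rcases this with h | h
    · exact hℓN h
    · omega
  · subst h2
    intro h
    have := (Nat.Prime.dvd_mul (by norm_num : Nat.Prime 2)).mp (h.trans (Nat.lcm_dvd_mul N 3))
    rcases this with h | h
    · exact hℓN h
    · omega
  · exact hℓN

/-- The hub at level `N` for all `m` prime to `ℓ`, from `node_mod` at level `levelAux N ℓ` and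
`node_alg`. -/
theorem coreStatement_of_nodes (N : ℕ) [NeZero N] {ℓ : ℕ} [Fact ℓ.Prime] (hℓN : ¬ ℓ ∣ N)
    (A : ValuationSubring Qb) (hA : A.LiesOverPrime ℓ)
    (hmod : Mod.GoodModelStatement (levelAux N ℓ) ℓ A)
    (halg : Mod.AlgStatement (levelAux N ℓ)) :
    ∀ m : ℕ, ¬ ℓ ∣ m → CoreStatement N A m := by
  have : NeZero (levelAux N ℓ) := ⟨levelAux_ne_zero N ℓ⟩
  have hℓM := not_dvd_levelAux N hℓN
  have h3 : ℓ = 3 → 2 ∣ levelAux N ℓ := fun h => by
    unfold levelAux; rw [if_pos h]; exact Nat.dvd_lcm_right N 2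
  have h2 : ℓ = 2 → 3 ∣ levelAux N ℓ := fun h => by
    unfold levelAux
    rw [if_neg (by omega), if_pos h]; exact Nat.dvd_lcm_right N 3
  refine coreStatement_of_prime hℓN hA (fun p hp hℓp => ?_)
  have hcoreM : CoreStatement (levelAux N ℓ) A p :=
    H965.node_glue (levelAux N ℓ) hℓM A hA p hp hℓp
      (H333.node_coord (levelAux N ℓ) hℓM h3 h2) hmod halg
  exact H568.node_d2 N hℓN A hA p hℓp hcoreM

/-- **The S18 hub family needed by row S29** (exact body of `Fermat.Agent.S29.H222.CoreFamily`),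
from the two open nodes of the S18 skeleton in their exact shapes. -/
theorem coreFamily_of_nodes
    (node_mod : ∀ (M : ℕ) [NeZero M] {ℓ : ℕ} [Fact ℓ.Prime], ¬ ℓ ∣ M →
      ∀ A : ValuationSubring Qb, A.LiesOverPrime ℓ → Mod.GoodModelStatement M ℓ A)
    (node_alg : ∀ M : ℕ, Mod.AlgStatement M) :
    ∀ (N : ℕ) [NeZero N] (ℓ : ℕ), ℓ.Prime → ¬ ℓ ∣ N → ∀ m : ℕ, ¬ ℓ ∣ m →
      ∀ A : ValuationSubring Qb, A.LiesOverPrime ℓ → CoreStatement N A m := by
  intro N _ ℓ hℓ hℓN m hm A hA
  have : Fact ℓ.Prime := ⟨hℓ⟩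
  have : NeZero (levelAux N ℓ) := ⟨levelAux_ne_zero N ℓ⟩
  exact coreStatement_of_nodes N hℓN A hA
    (node_mod (levelAux N ℓ) (not_dvd_levelAux N hℓN) A hA) (node_alg (levelAux N ℓ)) m hm

end Fermat.Agent.S18.H694

end
end
-- ===== PACK-END S18/H694/CoreFamilyOfNodes.lean

-- ===== PACK-BEGIN S18/H438/Front/AlgMain.lean
section




/-!
# S18 / node_alg (helper438): `Alg.AlgMainStatement` (v4, prime `m`)

    theorem algMain (Lc x S 𝓕) : Alg.AlgMainStatement Lc x S 𝓕

Wiring: for a member `(Ec, Fc, R, V, w)` of the good family, `G : Alg.GoodModel …`,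
`R' := Rf Fc R`, `x' := xf G`, charts `B₀ = H138.chart R' {x'}`, `B₁ = H138.chart R' {x'⁻¹}`:

* `H394.kummer_charts_of_regular` (typed core: LE + graded Kummer algebra + b5) needs on both
  charts: `Prime w`, `H754.RegularAlong w`, `H754.OneModPi w u`, `H754.DivisibleDivisor B m u`;
* these are `GoodModelFront.prime_chart`, `regularAlong_chart` (b2 = `B12.H33`, hNC = `H754`),
  `oneModPi_chart`, `divisibleDivisor_chart` (places = `H845`), applied to `G` and to
  `H425.goodModel_inv G`.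
-/

set_option autoImplicit false
set_option linter.style.haveILetI false
set_option linter.unusedSectionVars false

noncomputable section

namespace Fermat.Agent.S18.H438

open Alg Polynomial

variable {Ω : Type*} [Field Ω] {Lc Ec Fc : Subfield Ω} {R V : Subring Ω} {w x : Ω}
  {S : Finset Ω}

namespace GoodModelFront

/-- **node_alg for one good model** (no enlargement of constants is needed). -/
theorem algMain_of_goodModel (G : GoodModel Lc Ec Fc R V w x S)
    (m : ℕ) (hm : m.Prime) (hmR : ((m : Ω))⁻¹ ∈ R)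
    (u : Ω) (huF : u ∈ Fc) (hu0 : u ≠ 0) (hu1 : (u - 1) * w⁻¹ ∈ V)
    (hdiv : ∀ O : ValuationSubring Ω, (∀ a ∈ Lc, a ∈ O) →
      ∃ t : Ω, t ≠ 0 ∧ u * t ^ m ∈ O ∧ (u * t ^ m)⁻¹ ∈ O) :
    ∃ y : Ω, ∃ c ∈ Lc, c ≠ 0 ∧ u = c * y ^ m := by
  classical
  haveI := G.charZero
  haveI := charZero_Fc G
  haveI := isDiscreteValuationRing_Rf G
  haveI := finiteDimensional_baseField G
  have G' := H425.goodModel_inv G
  have hxinv : xf G' = (xf G)⁻¹ := rfl
  have hwR : wR G' = wR G := rfl
  -- the data in `Fc`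
  set u' : Fc := ⟨u, huF⟩ with hu'
  have hu'0 : u' ≠ 0 := fun h => hu0 (congrArg Subtype.val h)
  have hm0 : (m : Ω) ≠ 0 := Nat.cast_ne_zero.2 hm.ne_zero
  let ν : Rf Fc R := ⟨⟨(m : Ω)⁻¹, R_le_Fc G hmR⟩, hmR⟩
  have hν : ν * (m : Rf Fc R) = 1 := by
    apply Subtype.ext
    apply Subtype.ext
    show (m : Ω)⁻¹ * (((m : Rf Fc R) : Fc) : Ω) = 1
    have : ((((m : Rf Fc R) : Fc) : Ω)) = (m : Ω) := by
      simp
    rw [this, inv_mul_cancel₀ hm0]
  have hinjR : Function.Injective (algebraMap (Rf Fc R) Fc) := Subtype.val_injective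
  -- both charts
  have hw₁ : Prime (algebraMap (Rf Fc R) (H138.chart (Rf Fc R) ({(xf G)⁻¹} : Set Fc)) (wR G)) :=
    prime_chart G'
  have hreg₁ : H754.RegularAlong
      (algebraMap (Rf Fc R) (H138.chart (Rf Fc R) ({(xf G)⁻¹} : Set Fc)) (wR G)) :=
    regularAlong_chart G'
  have hu₁ : H754.OneModPi
      (algebraMap (Rf Fc R) (H138.chart (Rf Fc R) ({(xf G)⁻¹} : Set Fc)) (wR G)) u' :=
    oneModPi_chart G' hu1
  have hdiv₁ : H754.DivisibleDivisor (H138.chart (Rf Fc R) ({(xf G)⁻¹} : Set Fc)) m u' :=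
    divisibleDivisor_chart G' hu1 hdiv
  obtain ⟨r, a, y, hr, h⟩ := H394.kummer_charts_of_regular hinjR (isIntegral_Rf_mem_range G)
    (transcendental_xf G) (wR G) m hm ν hν u' hu'0
    (prime_chart G) hw₁ (regularAlong_chart G) hreg₁ (oneModPi_chart G hu1) hu₁
    (divisibleDivisor_chart G hu1 hdiv) hdiv₁
  have hrΩ : ((r : Fc) : Ω) ≠ 0 := fun h0 => hr (Subtype.ext (Subtype.ext h0))
  refine ⟨(y : Ω), ((r : Fc) : Ω) ^ a, ?_, zpow_ne_zero _ hrΩ, ?_⟩
  · exact Lc.zpow_mem (G.E_le_L (G.R_le r.2)) a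
  · have h2 : u = ((algebraMap (Rf Fc R) Fc r ^ a * y ^ m : Fc) : Ω) :=
      congrArg (fun t : Fc => (t : Ω)) h
    have h3 : ((algebraMap (Rf Fc R) Fc r ^ a * y ^ m : Fc) : Ω) =
        ((r : Fc) : Ω) ^ a * (y : Ω) ^ m := by
      have h4 : Fc.subtype (algebraMap (Rf Fc R) Fc r ^ a) = ((r : Fc) : Ω) ^ a :=
        map_zpow₀ Fc.subtype _ a
      show Fc.subtype (algebraMap (Rf Fc R) Fc r ^ a * y ^ m) = _
      rw [map_mul, map_pow, h4]
      rfl
    exact h2.trans h3

end GoodModelFront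

/-- **node_alg**: the ALG main statement (v4, prime `m`), for every good family. -/
theorem algMain (Lc : Subfield Ω) (x : Ω) (S : Finset Ω) (𝓕 : Set (Model Ω)) :
    AlgMainStatement Lc x S 𝓕 := by
  intro hfam p hp m hm hmR u huF hu0 hu1 hdiv
  exact GoodModelFront.algMain_of_goodModel (hfam.good p hp) m hm hmR u huF hu0 hu1 hdiv

end Fermat.Agent.S18.H438

end
end
-- ===== PACK-END S18/H438/Front/AlgMain.lean

-- ===== PACK-BEGIN S18/H438/NodeAlg.lean
section



/-!
# S18 / NODE ALG (helper438): `Mod.AlgStatement M`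

Exact type of `Integ.node_alg` (skeleton v4 of row-lead helper18):

    theorem node_alg (M : ℕ) : Mod.AlgStatement M

It is the instance `Ω = Om M` of `H438.algMain : Alg.AlgMainStatement Lc x S 𝓕`
(`Front/AlgMain.lean`), which holds for every field `Ω` and every good family.
-/

set_option autoImplicit false

namespace Fermat.Agent.S18.H438

/-- **NODE ALG.** -/
theorem node_alg (M : ℕ) : Mod.AlgStatement M :=
  fun Lc x S 𝓕 => algMain Lc x S 𝓕

end Fermat.Agent.S18.H438

end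
-- ===== PACK-END S18/H438/NodeAlg.lean

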