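import Fermat.Agent.Pack.S3234.G0E7L1
import Fermat.Agent.Pack.S3234.G0E7L2
import Fermat.Agent.Pack.S3234.G0E8L1

-- ===== PACK-BEGIN S18/Mod/H216/NodeMod.lean
section








/-!
# S18 / MOD-ASM (helper216): **node_mod** — `Mod.GoodModelStatement M ℓ A`, UNCONDITIONAL

`node_mod (M) [NeZero M] {ℓ} [Fact ℓ.Prime] (hℓM : ¬ ℓ ∣ M) (A) (hA : A.LiesOverPrime ℓ) :
  Mod.GoodModelStatement M ℓ A` — exact type of `Integ.node_mod` (Skeleton v4c).

Wiring of the six parts at the concrete objects of `Mod/Defs.lean`: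

| part | source |
|---|---|
| G-R   | `H456.IsUnif`, `H456.field_residue_perfect`, `H602.isDiscreteValuationRing_RE` |
| G-FLD | `H456.field_*`, `H24.field_finite_j` |
| G-V   | `H216.partVStatement_j` (coordinate `j`), `H24.gv_fields_of_isCoordinate` (`t₂, t₃`) |
| G-QEP | `H216.partQepStatement_j` |
| G-SEP | `H264.separable_jOm` |
| G-BR  | `H558.br_of_isCoordinate` |
| M3-T  | `H107.goodModel_of_isCoordinate107` (transfer `j ↦ t₂, t₃` for `ℓ = 3, 2`) |
-/

set_option autoImplicit false
set_option linter.unusedSectionVars false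

noncomputable section

namespace Fermat.Agent.S18.Mod.H216

open ModularCurve AlgebraicCurve HahnSeries Fermat.Agent.S18 Fermat.Agent.S18.Mod
open Fermat.Agent.S18.Alg

variable (M : ℕ) [NeZero M] {ℓ : ℕ} [Fact ℓ.Prime] (A : ValuationSubring Qb)

/-- **G-R** at the concrete objects. -/
theorem partRStatement (hA : A.LiesOverPrime ℓ) : PartRStatement M A := by
  intro E hE
  have := hE
  have hℓ : ℓ.Prime := Fact.out
  have : IsDiscreteValuationRing (H602.RE A E) :=
    H602.isDiscreteValuationRing_RE A E hℓ.ne_zero hA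
  obtain ⟨w, hw⟩ := H456.exists_isUnif M A E
  exact ⟨w, H456.field_R_le M A E, H456.field_R_total M A E, hw.mem, hw.ne_zero, hw.inv_not_mem,
    hw.gen, hw.discrete, H456.field_residue_perfect A E M hℓ hA hw⟩

/-- **G-FLD** for the coordinate `j`. -/
theorem partFldStatement_j : PartFldStatement M (jOm M) := by
  intro E _
  exact ⟨H456.field_E_le_L M E, H456.field_E_le_F M E, H456.field_L_algebraic M E,
    H456.field_L_algClosed M, H456.field_E_closed_in_F M E, H456.field_compositum M E,
    H456.mem_Fc_of_hasIntExp M E (H456.hasIntExp_jOm M),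
    H456.transcendental_of_hasIntExp M (H456.hasIntExp_jOm M), H24.field_finite_j M E⟩

/-- **G-SEP** for the coordinate `j`. -/
theorem partSepStatement_j (hℓM : ¬ ℓ ∣ M) (hA : A.LiesOverPrime ℓ) :
    PartSepStatement M A (jOm M) :=
  fun E _ w hw => ⟨H264.separable_jOm M hℓM A hA E (Vc M A E) (coe_Vc M A E) w hw.w_mem
    hw.w_ne_zero hw.w_gen⟩

/-- **G-BR** for every admissible coordinate. -/
theorem partBrStatement_of_isCoordinate (hA : A.LiesOverPrime ℓ) (x : Om M) (S : Finset (Om M))
    (hx : IsCoordinate M ℓ x S) : PartBrStatement M A x S := by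
  intro E _
  obtain ⟨h1, h2, h3, h4⟩ := H558.br_of_isCoordinate M A hA E x S hx
  exact ⟨h1, h2, h3, h4⟩

/-- The `j`-model without its branch fields, for every `ℓ ∤ M` (input of the transfer M3-T). -/
theorem baseModel_j (hℓM : ¬ ℓ ∣ M) (hA : A.LiesOverPrime ℓ) (E : IntermediateField ℚ Qb)
    (hE : FiniteDimensional ℚ E) {w : Om M} (hw : PartR (Ec M E) (Rc M A E) w) :
    H107.BaseModel107 (Lc M) (Ec M E) (Fc M E) (Rc M A E) (Vc M A E) w (jOm M) := by
  have hF := partFldStatement_j M E hE
  have hV := partVStatement_j A hℓM hA E hE w hw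
  have hQ := partQepStatement_j A hℓM hA E hE w hw
  have hS := partSepStatement_j M A hℓM hA E hE w hw
  exact
    { charZero := charZero_Om M
      R_le := hw.R_le
      R_total := hw.R_total
      w_mem := hw.w_mem
      w_ne_zero := hw.w_ne_zero
      w_inv_not_mem := hw.w_inv_not_mem
      w_gen := hw.w_gen
      w_discrete := hw.w_discrete
      residue_perfect := hw.residue_perfect
      E_le_L := hF.E_le_L
      E_le_F := hF.E_le_F
      L_algebraic := hF.L_algebraic
      L_algClosed := hF.L_algClosed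
      E_closed_in_F := hF.E_closed_in_F
      compositum := hF.compositum
      x_mem := hF.x_mem
      x_transcendental := hF.x_transcendental
      finite := hF.finite
      V_le := hV.V_le
      V_total := hV.V_total
      R_le_V := hV.R_le_V
      w_inv_not_mem_V := hV.w_inv_not_mem_V
      V_gen := hV.V_gen
      x_mem_V := hV.x_mem_V
      gauss := hV.gauss
      qep_fin := hQ.qep_fin
      qep_inf := hQ.qep_inf
      separable := hS.separable }

/-- **M3-T**: for `ℓ ∈ {2, 3}` every admissible coordinate is good. -/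
theorem goodAt_of_lt_five (hℓM : ¬ ℓ ∣ M) (hA : A.LiesOverPrime ℓ) (h5 : ¬ 5 ≤ ℓ) (x : Om M)
    (S : Finset (Om M)) (hx : IsCoordinate M ℓ x S) : GoodAt M A x S := by
  intro E hE
  obtain ⟨w, hw⟩ := partRStatement M A hA E hE
  obtain ⟨-, -, -, hxV, -, -, hgauss⟩ :=
    H24.gv_fields_of_isCoordinate (M := M) (A := A) (E := E) (Vc M A E) (coe_Vc M A E)
      hw.w_mem hw.w_ne_zero hw.w_inv_not_mem hw.w_gen hw.w_discrete hx
  exact ⟨Vc M A E, w, coe_Vc M A E,
    H107.goodModel_of_isCoordinate107 M A hA h5 hx E (baseModel_j M A hℓM hA E hE hw)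
      (H456.field_x_mem M E hx) hxV hgauss⟩

/-- **NODE MOD**: the concrete objects at level `M` form a good model
(exact type of `Integ.node_mod`, Skeleton v4c). -/
theorem node_mod (M : ℕ) [NeZero M] {ℓ : ℕ} [Fact ℓ.Prime] (hℓM : ¬ ℓ ∣ M)
    (A : ValuationSubring Qb) (hA : A.LiesOverPrime ℓ) : Mod.GoodModelStatement M ℓ A :=
  goodModelStatement_of_parts M ℓ A
    (fun _ => partRStatement M A hA)
    (fun _ => partFldStatement_j M)
    (fun _ => partVStatement_j A hℓM hA)
    (fun _ => partQepStatement_j A hℓM hA)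
    (fun _ => partSepStatement_j M A hℓM hA)
    (fun h5 S hS => partBrStatement_of_isCoordinate M A hA (jOm M) S (Or.inl ⟨h5, rfl, hS⟩))
    (fun h5 x S hx => goodAt_of_lt_five M A hℓM hA h5 x S hx)

end Fermat.Agent.S18.Mod.H216

end
end
-- ===== PACK-END S18/Mod/H216/NodeMod.lean

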