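import Mathlib
import Fermat.Prelude.Def_CuspForm_HeckeAlgebra
import Fermat.Prelude.Def_AlgebraicCurve_BaseChangeGalois
import Fermat.Prelude.Def_ModularCurve_ReductionModL
import Fermat.Prelude.Def_FLTPrelim_Ramification
import Fermat.Prelude.Def_AlgebraicCurve_Correspondence
import Fermat.Prelude.Def_ModularCurve_LaurentCoeff
import Fermat.Agent.Pack.S3234.G0E0L3

-- ===== PACK-BEGIN S31/H862/Cosets.lean
section



/-!
# S31 / SS (helper862) — coset combinatorics of the Hecke double coset `Γ₀(N) diag(1,p) Γ₀(N)`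

`Φ (γ, x) = γ · β_x` (`β_x` the Prelude representatives `heckeRep p x`, `x ∈ ℙ¹(𝔽_p)`) is
injective, and there is an involution `σ` of `Γ₀(N) × ℙ¹(𝔽_p)` with
`Φ (σ y) * Φ y = p · 1` (the adjugate).
-/

set_option autoImplicit false

open UpperHalfPlane CongruenceSubgroup Matrix.SpecialLinearGroup
open scoped MatrixGroups ModularForm

open P2MW.S_ModularForm_heckeT_slash_eq_self_of_mem_Gamma0.ModularForm.HeckeSlashInvariance

namespace Fermat.Agent.S31.H862

variable {p : ℕ} [Fact p.Prime] {N : ℕ}

/-- `Φ (γ, x) = γ · β_x`. -/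
noncomputable def cosetMap (p N : ℕ) (y : Gamma0 N × OnePoint (ZMod p)) : GL (Fin 2) ℝ :=
  mapGL ℝ (y.1 : SL(2, ℤ)) * heckeRep p y.2

theorem p_ne_zero' : p ≠ 0 := (Fact.out : p.Prime).ne_zero

theorem mapGL_val_apply (g : SL(2, ℤ)) (i j : Fin 2) :
    ((mapGL ℝ g : GL (Fin 2) ℝ) : Matrix (Fin 2) (Fin 2) ℝ) i j = ((g i j : ℤ) : ℝ) := by
  simp

theorem sl_det_eq (g : SL(2, ℤ)) : g 0 0 * g 1 1 - g 0 1 * g 1 0 = 1 := by
  have h := g.det_coe
  rwa [Matrix.det_fin_two] at h

theorem sl_ext_entries {g h : SL(2, ℤ)} (h00 : g 0 0 = h 0 0) (h01 : g 0 1 = h 0 1)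
    (h10 : g 1 0 = h 1 0) (h11 : g 1 1 = h 1 1) : g = h := by
  ext i j
  fin_cases i <;> fin_cases j <;> assumption

/-- entries of `g · β_j` -/
theorem entries_mul_heckeMatrix (g : SL(2, ℤ)) (j : ℕ) (a b : Fin 2) :
    ((mapGL ℝ g * ModularForm.heckeMatrix p j : GL (Fin 2) ℝ) : Matrix (Fin 2) (Fin 2) ℝ) a b =
      (((!![g 0 0, g 0 0 * j + g 0 1 * p; g 1 0, g 1 0 * j + g 1 1 * p] :
        Matrix (Fin 2) (Fin 2) ℤ) a b : ℤ) : ℝ) := by
  have hp : p ≠ 0 := p_ne_zero'
  fin_cases a <;> fin_cases b <;>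
    simp [Matrix.mul_apply, Fin.sum_univ_two, ModularForm.val_heckeMatrix hp]

/-- entries of `g · β_∞` -/
theorem entries_mul_heckeDiagMatrix (g : SL(2, ℤ)) (a b : Fin 2) :
    ((mapGL ℝ g * ModularForm.heckeDiagMatrix p : GL (Fin 2) ℝ) : Matrix (Fin 2) (Fin 2) ℝ) a b =
      (((!![g 0 0 * p, g 0 1; g 1 0 * p, g 1 1] :
        Matrix (Fin 2) (Fin 2) ℤ) a b : ℤ) : ℝ) := by
  have hp : p ≠ 0 := p_ne_zero'
  fin_cases a <;> fin_cases b <;>
    simp [Matrix.mul_apply, Fin.sum_univ_two, ModularForm.val_heckeDiagMatrix hp]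

theorem entries_heckeMatrix (j : ℕ) (a b : Fin 2) :
    ((ModularForm.heckeMatrix p j : GL (Fin 2) ℝ) : Matrix (Fin 2) (Fin 2) ℝ) a b =
      (((!![1, (j : ℤ); 0, (p : ℤ)] : Matrix (Fin 2) (Fin 2) ℤ) a b : ℤ) : ℝ) := by
  have hp : p ≠ 0 := p_ne_zero'
  fin_cases a <;> fin_cases b <;> simp [ModularForm.val_heckeMatrix hp]

theorem entries_heckeDiagMatrix (a b : Fin 2) :
    ((ModularForm.heckeDiagMatrix p : GL (Fin 2) ℝ) : Matrix (Fin 2) (Fin 2) ℝ) a b =
      (((!![(p : ℤ), 0; 0, 1] : Matrix (Fin 2) (Fin 2) ℤ) a b : ℤ) : ℝ) := by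
  have hp : p ≠ 0 := p_ne_zero'
  fin_cases a <;> fin_cases b <;> simp [ModularForm.val_heckeDiagMatrix hp]

theorem p_two_le : (2 : ℤ) ≤ p := by exact_mod_cast (Fact.out : p.Prime).two_le

/-- `g β_j = β_j'` forces `g = 1`, `j = j'`. -/
theorem eq_of_mul_heckeMatrix_eq (g : SL(2, ℤ)) (j j' : ZMod p)
    (h : mapGL ℝ g * ModularForm.heckeMatrix p j.val = ModularForm.heckeMatrix p j'.val) :
    g = 1 ∧ j = j' := by
  have hp2 := p_two_le (p := p)
  have hE : ∀ a b : Fin 2,
      (!![g 0 0, g 0 0 * (j.val : ℤ) + g 0 1 * p; g 1 0, g 1 0 * (j.val : ℤ) + g 1 1 * p] :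
        Matrix (Fin 2) (Fin 2) ℤ) a b =
      (!![1, (j'.val : ℤ); 0, (p : ℤ)] : Matrix (Fin 2) (Fin 2) ℤ) a b := by
    intro a b
    have h1 := congrArg (fun M : GL (Fin 2) ℝ => (M : Matrix (Fin 2) (Fin 2) ℝ) a b) h
    simp only [entries_mul_heckeMatrix, entries_heckeMatrix] at h1
    exact_mod_cast h1
  have h00 : g 0 0 = 1 := by simpa using hE 0 0
  have h10 : g 1 0 = 0 := by simpa using hE 1 0
  have h01 : g 0 0 * (j.val : ℤ) + g 0 1 * p = j'.val := by simpa using hE 0 1
  have h11 : g 1 0 * (j.val : ℤ) + g 1 1 * p = p := by simpa using hE 1 1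
  rw [h00, one_mul] at h01
  rw [h10, zero_mul, zero_add] at h11
  have hp0 : (p : ℤ) ≠ 0 := by positivity
  have h11' : g 1 1 = 1 := by
    have : (g 1 1 - 1) * (p : ℤ) = 0 := by linear_combination h11
    rcases mul_eq_zero.mp this with h | h
    · linarith
    · exact absurd h hp0
  have hjj : j = j' := by
    have h2 := congrArg (Int.cast : ℤ → ZMod p) h01
    push_cast at h2
    rw [ZMod.natCast_zmod_val, ZMod.natCast_zmod_val, ZMod.natCast_self, mul_zero, add_zero] at h2
    exact h2
  subst hjj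
  have h01' : g 0 1 = 0 := by
    have : g 0 1 * (p : ℤ) = 0 := by linear_combination h01
    rcases mul_eq_zero.mp this with h | h
    · exact h
    · exact absurd h hp0
  refine ⟨sl_ext_entries ?_ ?_ ?_ ?_, rfl⟩ <;> simp [h00, h01', h10, h11']

/-- `g β_∞ = β_∞` forces `g = 1`. -/
theorem eq_of_mul_heckeDiagMatrix_eq (g : SL(2, ℤ))
    (h : mapGL ℝ g * ModularForm.heckeDiagMatrix p = ModularForm.heckeDiagMatrix p) :
    g = 1 := by
  have hp2 := p_two_le (p := p)
  have hE : ∀ a b : Fin 2,
      (!![g 0 0 * p, g 0 1; g 1 0 * p, g 1 1] : Matrix (Fin 2) (Fin 2) ℤ) a b =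
      (!![(p : ℤ), 0; 0, 1] : Matrix (Fin 2) (Fin 2) ℤ) a b := by
    intro a b
    have h1 := congrArg (fun M : GL (Fin 2) ℝ => (M : Matrix (Fin 2) (Fin 2) ℝ) a b) h
    simp only [entries_mul_heckeDiagMatrix, entries_heckeDiagMatrix] at h1
    exact_mod_cast h1
  have h00 : g 0 0 * p = p := by simpa using hE 0 0
  have h10 : g 1 0 * p = 0 := by simpa using hE 1 0
  have h01 : g 0 1 = 0 := by simpa using hE 0 1
  have h11 : g 1 1 = 1 := by simpa using hE 1 1
  have hp0 : (p : ℤ) ≠ 0 := by positivity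
  have h00' : g 0 0 = 1 := by
    have : (g 0 0 - 1) * (p : ℤ) = 0 := by linear_combination h00
    rcases mul_eq_zero.mp this with h | h
    · linarith
    · exact absurd h hp0
  have h10' : g 1 0 = 0 := by
    rcases mul_eq_zero.mp h10 with h | h
    · exact h
    · exact absurd h hp0
  exact sl_ext_entries (by simp [h00']) (by simp [h01]) (by simp [h10']) (by simp [h11])

/-- `g β_j ≠ β_∞`. -/
theorem mul_heckeMatrix_ne (g : SL(2, ℤ)) (j : ℕ) :
    mapGL ℝ g * ModularForm.heckeMatrix p j ≠ ModularForm.heckeDiagMatrix p := by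
  intro h
  have hp2 := p_two_le (p := p)
  have hE : ∀ a b : Fin 2,
      (!![g 0 0, g 0 0 * (j : ℤ) + g 0 1 * p; g 1 0, g 1 0 * (j : ℤ) + g 1 1 * p] :
        Matrix (Fin 2) (Fin 2) ℤ) a b =
      (!![(p : ℤ), 0; 0, 1] : Matrix (Fin 2) (Fin 2) ℤ) a b := by
    intro a b
    have h1 := congrArg (fun M : GL (Fin 2) ℝ => (M : Matrix (Fin 2) (Fin 2) ℝ) a b) h
    simp only [entries_mul_heckeMatrix, entries_heckeDiagMatrix] at h1
    exact_mod_cast h1
  have h00 : g 0 0 = p := by simpa using hE 0 0
  have h10 : g 1 0 = 0 := by simpa using hE 1 0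
  have hdet := sl_det_eq g
  rw [h00, h10, mul_zero, sub_zero] at hdet
  have hdvd : (p : ℤ) ∣ 1 := ⟨g 1 1, hdet.symm⟩
  have := Int.le_of_dvd one_pos hdvd
  omega

/-- `g β_∞ ≠ β_j`. -/
theorem mul_heckeDiagMatrix_ne (g : SL(2, ℤ)) (j : ℕ) :
    mapGL ℝ g * ModularForm.heckeDiagMatrix p ≠ ModularForm.heckeMatrix p j := by
  intro h
  have hp2 := p_two_le (p := p)
  have hE : ∀ a b : Fin 2,
      (!![g 0 0 * p, g 0 1; g 1 0 * p, g 1 1] : Matrix (Fin 2) (Fin 2) ℤ) a b =
      (!![1, (j : ℤ); 0, (p : ℤ)] : Matrix (Fin 2) (Fin 2) ℤ) a b := by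
    intro a b
    have h1 := congrArg (fun M : GL (Fin 2) ℝ => (M : Matrix (Fin 2) (Fin 2) ℝ) a b) h
    simp only [entries_mul_heckeDiagMatrix, entries_heckeMatrix] at h1
    exact_mod_cast h1
  have h00 : g 0 0 * p = 1 := by simpa using hE 0 0
  have hdvd : (p : ℤ) ∣ 1 := ⟨g 0 0, by rw [mul_comm]; exact h00.symm⟩
  have := Int.le_of_dvd one_pos hdvd
  omega

theorem eq_of_mul_heckeRep_eq (g : SL(2, ℤ)) (x x' : OnePoint (ZMod p))
    (h : mapGL ℝ g * heckeRep p x = heckeRep p x') : g = 1 ∧ x = x' := by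
  induction x using OnePoint.rec with
  | infty =>
    induction x' using OnePoint.rec with
    | infty => exact ⟨eq_of_mul_heckeDiagMatrix_eq g h, rfl⟩
    | coe j' => exact absurd h (mul_heckeDiagMatrix_ne g _)
  | coe j =>
    induction x' using OnePoint.rec with
    | infty => exact absurd h (mul_heckeMatrix_ne g _)
    | coe j' =>
      obtain ⟨h1, h2⟩ := eq_of_mul_heckeMatrix_eq g j j' h
      exact ⟨h1, by rw [h2]⟩

theorem cosetMap_injective : Function.Injective (cosetMap p N) := by
  rintro ⟨γ, x⟩ ⟨γ', x'⟩ h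
  simp only [cosetMap] at h
  have h2 : mapGL ℝ ((γ' : SL(2, ℤ))⁻¹ * (γ : SL(2, ℤ))) * heckeRep p x = heckeRep p x' := by
    rw [map_mul, map_inv, mul_assoc, h, ← mul_assoc, inv_mul_cancel, one_mul]
  obtain ⟨h3, h4⟩ := eq_of_mul_heckeRep_eq _ x x' h2
  have h5 : (γ : SL(2, ℤ)) = γ' := by
    have := congrArg (fun t => (γ' : SL(2, ℤ)) * t) h3
    simpa using this
  exact Prod.ext (Subtype.ext h5) h4

/-- The scalar matrix `p · 1`. -/
noncomputable def scalarP (p : ℕ) [Fact p.Prime] : GL (Fin 2) ℝ :=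
  Matrix.GeneralLinearGroup.scalar (Fin 2)
    (Units.mk0 (p : ℝ) (Nat.cast_ne_zero.mpr (Fact.out : p.Prime).ne_zero))

theorem entries_scalarP (a b : Fin 2) :
    ((scalarP p : GL (Fin 2) ℝ) : Matrix (Fin 2) (Fin 2) ℝ) a b =
      (((!![(p : ℤ), 0; 0, (p : ℤ)] : Matrix (Fin 2) (Fin 2) ℤ) a b : ℤ) : ℝ) := by
  rw [scalarP, Matrix.GeneralLinearGroup.coe_scalar, Matrix.scalar_apply,
    Matrix.diagonal_apply]
  fin_cases a <;> fin_cases b <;> simp

/-- the unipotent matrix `(1, -j; 0, 1)` -/
def unipNeg (j : ℤ) : SL(2, ℤ) :=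
  ⟨!![1, -j; 0, 1], by simp [Matrix.det_fin_two_of]⟩

theorem unipNeg_apply_zero_zero (j : ℤ) : unipNeg j 0 0 = 1 := rfl

theorem unipNeg_apply_zero_one (j : ℤ) : unipNeg j 0 1 = -j := rfl

theorem unipNeg_apply_one_zero (j : ℤ) : unipNeg j 1 0 = 0 := rfl

theorem unipNeg_apply_one_one (j : ℤ) : unipNeg j 1 1 = 1 := rfl

theorem unipNeg_mem (N : ℕ) (j : ℤ) : unipNeg j ∈ Gamma0 N := by
  rw [Gamma0_mem, unipNeg_apply_one_zero]
  simp

theorem heckeRep_zero_mul_diag :
    heckeRep p ((0 : ZMod p) : OnePoint (ZMod p)) * ModularForm.heckeDiagMatrix p = scalarP p := by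
  have hp : p ≠ 0 := p_ne_zero'
  ext a b
  rw [entries_scalarP]
  fin_cases a <;> fin_cases b <;>
    simp [Matrix.mul_apply, Fin.sum_univ_two, ModularForm.val_heckeDiagMatrix hp,
      ModularForm.val_heckeMatrix hp]

theorem unipNeg_mul_diag_mul_heckeMatrix (j : ℕ) :
    mapGL ℝ (unipNeg (j : ℤ)) * ModularForm.heckeDiagMatrix p * ModularForm.heckeMatrix p j
      = scalarP p := by
  have hp : p ≠ 0 := p_ne_zero'
  ext a b
  rw [entries_scalarP]
  rw [mul_assoc]
  have h : ∀ a b : Fin 2, ((mapGL ℝ (unipNeg (j : ℤ)) *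
      (ModularForm.heckeDiagMatrix p * ModularForm.heckeMatrix p j) : GL (Fin 2) ℝ) :
        Matrix (Fin 2) (Fin 2) ℝ) a b =
      ((unipNeg (j : ℤ) a 0 : ℤ) : ℝ) * ((ModularForm.heckeDiagMatrix p *
        ModularForm.heckeMatrix p j : GL (Fin 2) ℝ) : Matrix (Fin 2) (Fin 2) ℝ) 0 b +
      ((unipNeg (j : ℤ) a 1 : ℤ) : ℝ) * ((ModularForm.heckeDiagMatrix p *
        ModularForm.heckeMatrix p j : GL (Fin 2) ℝ) : Matrix (Fin 2) (Fin 2) ℝ) 1 b := by
    intro a b
    rw [Units.val_mul, Matrix.mul_apply, Fin.sum_univ_two, mapGL_val_apply, mapGL_val_apply]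
  rw [h]
  fin_cases a <;> fin_cases b <;>
    simp [Matrix.mul_apply, Fin.sum_univ_two, ModularForm.val_heckeDiagMatrix hp,
      ModularForm.val_heckeMatrix hp, unipNeg_apply_zero_zero, unipNeg_apply_zero_one,
      unipNeg_apply_one_zero, unipNeg_apply_one_one]
  ring

/-- the adjugate of `β_x` is `τ β_{x₀}` with `τ` unipotent upper triangular -/
theorem exists_adj_heckeRep (N : ℕ) (x : OnePoint (ZMod p)) :
    ∃ (τ : SL(2, ℤ)) (x₀ : OnePoint (ZMod p)), τ ∈ Gamma0 N ∧
      mapGL ℝ τ * heckeRep p x₀ * heckeRep p x = scalarP p := by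
  induction x using OnePoint.rec with
  | infty =>
    refine ⟨1, ((0 : ZMod p) : OnePoint (ZMod p)), one_mem _, ?_⟩
    rw [map_one, one_mul]
    exact heckeRep_zero_mul_diag
  | coe j =>
    exact ⟨unipNeg (j.val : ℤ), OnePoint.infty, unipNeg_mem N _,
      unipNeg_mul_diag_mul_heckeMatrix j.val⟩

theorem Gamma0_dvd {N : ℕ} {g : SL(2, ℤ)} : g ∈ Gamma0 N ↔ (N : ℤ) ∣ g 1 0 := by
  rw [Gamma0_mem, ZMod.intCast_zmod_eq_zero_iff_dvd]

theorem exists_adj_partner (hpN : ¬ p ∣ N) (y : Gamma0 N × OnePoint (ZMod p)) :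
    ∃ y' : Gamma0 N × OnePoint (ZMod p), cosetMap p N y' * cosetMap p N y = scalarP p := by
  obtain ⟨γ, x⟩ := y
  obtain ⟨τ, x₀, hτ, hτx⟩ := exists_adj_heckeRep N x
  have hγinv : ((γ : SL(2, ℤ))⁻¹) ∈ Gamma0 N := inv_mem γ.2
  obtain ⟨g', hg', hmul⟩ := heckeRep_mul hpN ((γ : SL(2, ℤ))⁻¹) (Gamma0_dvd.mp hγinv) x₀
  have hg'mem : g' ∈ Gamma0 N := Gamma0_dvd.mpr hg'
  refine ⟨(⟨τ * g', mul_mem hτ hg'mem⟩, redMatrix p ((γ : SL(2, ℤ))⁻¹) • x₀), ?_⟩
  simp only [cosetMap]
  calc mapGL ℝ (τ * g') * heckeRep p (redMatrix p ((γ : SL(2, ℤ))⁻¹) • x₀)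
        * (mapGL ℝ (γ : SL(2, ℤ)) * heckeRep p x)
      = mapGL ℝ τ * (mapGL ℝ g' * heckeRep p (redMatrix p ((γ : SL(2, ℤ))⁻¹) • x₀))
        * mapGL ℝ (γ : SL(2, ℤ)) * heckeRep p x := by
        rw [map_mul]; group
    _ = mapGL ℝ τ * (heckeRep p x₀ * mapGL ℝ ((γ : SL(2, ℤ))⁻¹))
        * mapGL ℝ (γ : SL(2, ℤ)) * heckeRep p x := by rw [hmul]
    _ = mapGL ℝ τ * heckeRep p x₀ * heckeRep p x := by
        rw [map_inv]; group
    _ = scalarP p := hτx

/-- The adjugate involution on `Γ₀(N) × ℙ¹(𝔽_p)`. -/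
noncomputable def adjFun (hpN : ¬ p ∣ N) (y : Gamma0 N × OnePoint (ZMod p)) :
    Gamma0 N × OnePoint (ZMod p) :=
  Classical.choose (exists_adj_partner hpN y)

theorem adjFun_spec (hpN : ¬ p ∣ N) (y : Gamma0 N × OnePoint (ZMod p)) :
    cosetMap p N (adjFun hpN y) * cosetMap p N y = scalarP p :=
  Classical.choose_spec (exists_adj_partner hpN y)

theorem adjFun_involutive (hpN : ¬ p ∣ N) : Function.Involutive (adjFun (N := N) hpN) := by
  intro y
  apply cosetMap_injective
  have h1 := adjFun_spec hpN y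
  have h2 := adjFun_spec hpN (adjFun hpN y)
  have hc : scalarP p * cosetMap p N y = cosetMap p N y * scalarP p :=
    Matrix.GeneralLinearGroup.scalar_commute _ _
  have h3 : cosetMap p N (adjFun hpN (adjFun hpN y)) * scalarP p
      = cosetMap p N y * scalarP p := by
    calc cosetMap p N (adjFun hpN (adjFun hpN y)) * scalarP p
        = cosetMap p N (adjFun hpN (adjFun hpN y)) *
            (cosetMap p N (adjFun hpN y) * cosetMap p N y) := by rw [h1]
      _ = (cosetMap p N (adjFun hpN (adjFun hpN y)) * cosetMap p N (adjFun hpN y)) *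
            cosetMap p N y := (mul_assoc _ _ _).symm
      _ = scalarP p * cosetMap p N y := by rw [h2]
      _ = cosetMap p N y * scalarP p := hc
  exact mul_right_cancel h3

/-- The adjugate involution as a permutation. -/
noncomputable def adjPerm (hpN : ¬ p ∣ N) : Equiv.Perm (Gamma0 N × OnePoint (ZMod p)) :=
  (adjFun_involutive hpN).toPerm

theorem adjPerm_apply (hpN : ¬ p ∣ N) (y : Gamma0 N × OnePoint (ZMod p)) :
    adjPerm hpN y = adjFun hpN y := rfl

omit [Fact p.Prime] in
theorem det_cosetMap_pos (y : Gamma0 N × OnePoint (ZMod p)) : 0 < (cosetMap p N y).det.val := by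
  obtain ⟨γ, x⟩ := y
  simp only [cosetMap, map_mul, Units.val_mul]
  have h1 : ((mapGL ℝ (γ : SL(2, ℤ))).det : ℝˣ) = 1 := by simp
  rw [h1, Units.val_one, one_mul]
  induction x using OnePoint.rec with
  | infty => exact ModularForm.det_heckeDiagMatrix_pos p
  | coe j => exact ModularForm.det_heckeMatrix_pos p _

end Fermat.Agent.S31.H862

end
-- ===== PACK-END S31/H862/Cosets.lean

-- ===== PACK-BEGIN S24/Alg/LocBig.lean
section


/-!
# S24 / ALG-LOC: Laurent series of order at least `n`

`LocBig n s` means `s = 0` or `n ≤ ord s`.  For such `s` the coefficient `s.coeff n` behaves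
like a leading coefficient: it is multiplicative.
-/

set_option autoImplicit false

noncomputable section

namespace Fermat.Agent.S24.H144

variable {C : Type*} [Field C]

/-- `s` is zero or has order at least `n`. -/
def LocBig (n : ℤ) (s : LaurentSeries C) : Prop := s = 0 ∨ n ≤ s.order

namespace LocBig

variable {n m : ℤ} {a b : LaurentSeries C}

theorem zero (n : ℤ) : LocBig n (0 : LaurentSeries C) := Or.inl rfl

theorem of_le_order (h : n ≤ a.order) : LocBig n a := Or.inr h

theorem self_order (a : LaurentSeries C) : LocBig a.order a := Or.inr le_rfl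

theorem mono (h : LocBig m a) (hnm : n ≤ m) : LocBig n a := by
  rcases h with h | h
  · exact Or.inl h
  · exact Or.inr (hnm.trans h)

theorem coeff_eq_zero (h : LocBig n a) {k : ℤ} (hk : k < n) : a.coeff k = 0 := by
  rcases h with rfl | h
  · simp
  · exact HahnSeries.coeff_eq_zero_of_lt_order (lt_of_lt_of_le hk h)

theorem neg (h : LocBig n a) : LocBig n (-a) := by
  rcases h with rfl | h
  · simp [zero]
  · exact Or.inr (by rwa [HahnSeries.order_neg])

theorem add (ha : LocBig n a) (hb : LocBig n b) : LocBig n (a + b) := by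
  rcases eq_or_ne (a + b) 0 with h0 | h0
  · exact Or.inl h0
  rcases ha with rfl | ha
  · rwa [zero_add]
  rcases hb with rfl | hb
  · rw [add_zero]; exact Or.inr ha
  exact Or.inr (le_trans (le_min ha hb) (HahnSeries.min_order_le_order_add h0))

theorem sub (ha : LocBig n a) (hb : LocBig n b) : LocBig n (a - b) := by
  rw [sub_eq_add_neg]; exact ha.add hb.neg

theorem mul (ha : LocBig n a) (hb : LocBig m b) : LocBig (n + m) (a * b) := by
  rcases ha with rfl | ha
  · simp [zero]
  rcases hb with rfl | hb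
  · simp [zero]
  rcases eq_or_ne a 0 with rfl | ha0
  · simp [zero]
  rcases eq_or_ne b 0 with rfl | hb0
  · simp [zero]
  refine Or.inr ?_
  rw [HahnSeries.order_mul ha0 hb0]
  omega

theorem pow (ha : LocBig n a) (k : ℕ) : LocBig (k * n) (a ^ k) := by
  induction k with
  | zero =>
    simp only [Nat.cast_zero, zero_mul, pow_zero]
    exact Or.inr (by rw [HahnSeries.order_one])
  | succ k ih =>
    rw [pow_succ]
    have := ih.mul ha
    convert this using 1
    push_cast; ring

/-- An element which is big of every order is zero. -/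
theorem eq_zero_of_forall (h : ∀ k : ℕ, LocBig (k : ℤ) a) : a = 0 := by
  by_contra h0
  rcases h (a.order.toNat + 1) with h1 | h1
  · exact h0 h1
  · have := Int.self_le_toNat a.order
    push_cast at h1
    omega

/-- The coefficient at the bound is multiplicative. -/
theorem coeff_mul (ha : LocBig n a) (hb : LocBig m b) :
    (a * b).coeff (n + m) = a.coeff n * b.coeff m := by
  rcases eq_or_ne a 0 with rfl | ha0
  · simp
  rcases eq_or_ne b 0 with rfl | hb0
  · simp
  have ha' : n ≤ a.order := ha.resolve_left ha0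
  have hb' : m ≤ b.order := hb.resolve_left hb0
  rcases lt_or_eq_of_le ha' with hlt | heq
  · -- `a.coeff n = 0`
    rw [HahnSeries.coeff_eq_zero_of_lt_order hlt, zero_mul]
    have hab : LocBig (a.order + m) (a * b) := (self_order a).mul hb
    exact hab.coeff_eq_zero (by omega)
  rcases lt_or_eq_of_le hb' with hlt | heq'
  · rw [HahnSeries.coeff_eq_zero_of_lt_order hlt, mul_zero]
    have hab : LocBig (n + b.order) (a * b) := ha.mul (self_order b)
    exact hab.coeff_eq_zero (by omega)
  rw [heq, heq', HahnSeries.coeff_mul_order_add_order, HahnSeries.leadingCoeff_eq,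
    HahnSeries.leadingCoeff_eq]

/-- If two series have the same order and the same leading coefficient, their difference has
larger order. -/
theorem sub_of_leadingCoeff_eq (ho : a.order = b.order)
    (hl : a.leadingCoeff = b.leadingCoeff) : LocBig (a.order + 1) (a - b) := by
  rcases eq_or_ne (a - b) 0 with h0 | h0
  · exact Or.inl h0
  refine Or.inr ?_
  have hbig : LocBig a.order (a - b) := (self_order a).sub (ho ▸ self_order b)
  have h1 : a.order ≤ (a - b).order := hbig.resolve_left h0
  have h2 : (a - b).coeff a.order = 0 := by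
    rw [HahnSeries.coeff_sub, ← HahnSeries.leadingCoeff_eq]
    conv_lhs => rw [ho, ← HahnSeries.leadingCoeff_eq, hl]
    exact sub_self _
  have h3 : (a - b).order ≠ a.order := by
    intro h
    have := HahnSeries.coeff_order_eq_zero.not.mpr h0
    rw [h] at this
    exact this h2
  omega

end LocBig

end Fermat.Agent.S24.H144

end
end
-- ===== PACK-END S24/Alg/LocBig.lean

-- ===== PACK-BEGIN S37/Red/Spec.lean
section



/-!
# S37-RED — frozen interfaces (architect: helper40)            v1

Abstract construction of the **place reduction map** `r : Pl(F) → Pl(F_k)` of a function field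
with a "Gauss-type" reduction datum and good charts, in the generality needed to produce the
hypothesis `ModularCurve.IsPlaceReductionAlong` of the Prelude (row S37; also level `M` of S18).

Everything here is Mathlib + Prelude `AlgebraicCurve.Place` only.  Documentation, proofs on paper
and the split into pieces: `coord/S37-red.md` on `origin/helper40`.

Conventions: all statements are `def … : Prop` (no `sorry` in this file); a piece `X` is DONE
when `theorem x : XStatement …` is proved sorry-free in `Fermat/Agent/S37/Red/H<seat>/…`.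
-/

set_option autoImplicit false

noncomputable section

namespace Fermat.Agent.S37.Red

open AlgebraicCurve IntermediateField

universe u

/-! ## 1. The datum -/

/-- A **reduction datum**: constants `A ⊆ K`, `π : A ↠ k`; a valuation ring `O ⊆ F` containing
`A` with a surjective ring hom `ρ : O ↠ F_k` extending `π`; a coordinate `x ∈ O` whose reduction
is transcendental over `k`.  (For modular function fields: `O` = valuation ring of the Gauss
valuation of `q`-expansion coefficients, `ρ` = coefficientwise reduction, `x = j` or a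
Hauptmodul.) -/
structure Datum {K k : Type u} [Field K] [Field k] (A : ValuationSubring K) (π : A →+* k)
    (F Fk : Type u) [Field F] [Field Fk] [Algebra K F] [Algebra k Fk] where
  π_surj : Function.Surjective π
  /-- the (Gauss) valuation ring of the function field -/
  O : ValuationSubring F
  /-- reduction of functions -/
  ρ : O →+* Fk
  ρ_surj : Function.Surjective ρ
  const_mem : ∀ a : A, algebraMap K F (a : K) ∈ O
  ρ_const : ∀ a : A, ρ ⟨algebraMap K F (a : K), const_mem a⟩ = algebraMap k Fk (π a)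
  /-- the coordinate -/
  x : F
  x_mem : x ∈ O
  xk_transc : Transcendental k (ρ ⟨x, x_mem⟩)

namespace Datum

variable {K k F Fk : Type u} [Field K] [Field k] [Field F] [Field Fk]
  [Algebra K F] [Algebra k Fk] {A : ValuationSubring K} {π : A →+* k} (G : Datum A π F Fk)

/-- the reduced coordinate `x̄ ∈ F_k` -/
def xk : Fk := G.ρ ⟨G.x, G.x_mem⟩

/-- total reduction `F → F_k` (junk value `0` outside `O`) -/
def red (f : F) : Fk := open Classical in if h : f ∈ G.O then G.ρ ⟨f, h⟩ else 0

/-- the image of `A` in `F` -/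
def constRing (_G : Datum A π F Fk) : Subring F := A.toSubring.map (algebraMap K F)

/-- `A[t] ⊆ F` -/
def polyRing (t : F) : Subring F := G.constRing ⊔ Subring.closure {t}

/-- `B_t` := integral closure of `A[t]` in `F`.  `B_fin = G.chart G.x`, `B_inf = G.chart G.x⁻¹`. -/
def chart (t : F) : Subring F := (integralClosure (G.polyRing t) F).toSubring

/-- `C_s` := integral closure of `k[s]` in `F_k`.  `C_fin = chartk G.xk`, `C_inf = chartk G.xk⁻¹`. -/
def chartk (_G : Datum A π F Fk) (s : Fk) : Subring Fk :=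
  (integralClosure (Algebra.adjoin k {s}) Fk).toSubring

/-- `K·B_t` := integral closure of `K[t]` in `F`. -/
def chartK (_G : Datum A π F Fk) (t : F) : Subring F :=
  (integralClosure (Algebra.adjoin K {t}) F).toSubring

/-- **Good charts** = the hypotheses (H1), (H3), (H4') of `coord/S37-red.md`. -/
structure Good : Prop where
  /-- (H1) `F / K(x)` is finite -/
  finite : FiniteDimensional K⟮G.x⟯ F
  /-- (H1) `F_k / k(x̄)` is finite … -/
  finite_k : FiniteDimensional k⟮G.xk⟯ Fk
  /-- (H1) … and separable … -/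
  sep_k : Algebra.IsSeparable k⟮G.xk⟯ Fk
  /-- (H1) … of the same degree. -/
  finrank_eq : Module.finrank K⟮G.x⟯ F = Module.finrank k⟮G.xk⟯ Fk
  /-- (H3) normality of the special fibre, finite chart: every element of `F_k` integral over
  `k[x̄]` is the reduction of an element of `O` integral over `A[x]`. -/
  lift_fin : ∀ c ∈ G.chartk G.xk, ∃ b ∈ G.chart G.x, ∃ hb : b ∈ G.O, G.ρ ⟨b, hb⟩ = c
  /-- (H3) the same at infinity. -/
  lift_inf : ∀ c ∈ G.chartk G.xk⁻¹, ∃ b ∈ G.chart G.x⁻¹, ∃ hb : b ∈ G.O, G.ρ ⟨b, hb⟩ = c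
  /-- (H4') saturation, finite chart: `O ∩ K·B_fin = B_fin`. -/
  sat_fin : ∀ f ∈ G.O, f ∈ G.chartK G.x → f ∈ G.chart G.x
  /-- (H4') the same at infinity. -/
  sat_inf : ∀ f ∈ G.O, f ∈ G.chartK G.x⁻¹ → f ∈ G.chart G.x⁻¹

end Datum

/-! ## 2. Values at places, the properties of `r` -/

section Props

variable {K k F Fk : Type u} [Field K] [Field k] [Field F] [Field Fk]
  [Algebra K F] [Algebra k Fk]

/-- `f(P) = a`: the function `f` is regular at `P` with value `a`.
(Not `0 < P.ord (f - a)`: the Prelude has `ord 0 = 0`.) -/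
def ValAt (P : Place K F) (f : F) (a : K) : Prop :=
  P.toValuationSubring.valuation (f - algebraMap K F a) < 1

variable {A : ValuationSubring K} {π : A →+* k} (G : Datum A π F Fk)
  (r : Place K F → Place k Fk)

/-- (i) + (ii) of the Prelude `IsPlaceReductionAlong`, in abstract form:
`r` preserves degrees and `r_*(div y) = div (ρ y)` for every unit `y` of `O`. -/
def IsRed : Prop :=
  (∀ P, (r P).deg = P.deg) ∧
    ∀ (y : F) (hy : y ∈ G.O), G.ρ ⟨y, hy⟩ ≠ 0 →
      ∀ D : Divisor K F, (∀ P, D P = P.ord y) →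
        ∀ Q, Finsupp.mapDomain r D Q = Q.ord (G.ρ ⟨y, hy⟩)

/-- **Evaluation compatibility** on the chart of `t` (`t = x` or `t = x⁻¹`): if `t(P) ∈ A`
then for all `b ∈ B_t`: `b(P) = a ∈ A` implies `(ρ b)(r P) = π a`. -/
def EvalCompatAt (t : F) : Prop :=
  ∀ (P : Place K F) (a₀ : A), ValAt P t a₀ →
    ∀ b ∈ G.chart t, ∀ (hb : b ∈ G.O) (a : A), ValAt P b a →
      ValAt (r P) (G.ρ ⟨b, hb⟩) (π a)

/-- (EC) evaluation compatibility on both charts. -/
def EvalCompat : Prop := EvalCompatAt G r G.x ∧ EvalCompatAt G r G.x⁻¹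

/-- **RED-C1**: (EC) determines `r` (constants algebraically closed). -/
def EvalCompatUniqueStatement [IsAlgClosed K] [CharZero K] [IsAlgClosed k] : Prop :=
  G.Good → ∀ r₁ r₂ : Place K F → Place k Fk, EvalCompat G r₁ → EvalCompat G r₂ → r₁ = r₂

end Props

/-! ## 3. MAIN THEOREM of S37-RED (abstract form) -/

/-- **RED-MAIN**: over algebraically closed constants (`K` of characteristic `0`), a datum with
good charts has a place reduction map with (i), (ii) and (EC). -/
def MainStatement : Prop :=
  ∀ (K k F Fk : Type u) [Field K] [Field k] [Field F] [Field Fk] [Algebra K F] [Algebra k Fk]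
    [IsAlgClosed K] [CharZero K] [IsAlgClosed k] (A : ValuationSubring K) (π : A →+* k)
    (G : Datum A π F Fk), G.Good →
    ∃ r : Place K F → Place k Fk, IsRed G r ∧ EvalCompat G r

/-! ## 4. The pieces -/

section Pieces

variable {K k F Fk : Type u} [Field K] [Field k] [Field F] [Field Fk]
  [Algebra K F] [Algebra k Fk] [IsAlgClosed K] [CharZero K] [IsAlgClosed k]
  {A : ValuationSubring K} {π : A →+* k} (G : Datum A π F Fk)

/-- Hypothesis on an auxiliary coordinate `t ∈ O`: reduction transcendental, both extensions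
finite of the same degree, the one in characteristic `ℓ` separable. -/
structure Datum.AuxCoord (t : F) : Prop where
  mem : t ∈ G.O
  transc : Transcendental k (G.red t)
  finite : FiniteDimensional K⟮t⟯ F
  finite_k : FiniteDimensional k⟮G.red t⟯ Fk
  sep_k : Algebra.IsSeparable k⟮G.red t⟯ Fk
  finrank_eq : Module.finrank K⟮t⟯ F = Module.finrank k⟮G.red t⟯ Fk

/-- **RED-A1 (norms commute with reduction)**.  For an auxiliary coordinate `t` and `y ∈ O`:
`N_{F/K(t)}(y) ∈ O` and `ρ (N_{F/K(t)} y) = N_{F_k/k(t̄)} (ρ y)`.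
(Gauss: lifts of a `k(t̄)`-basis of `F_k` form a basis of `O` over `O ∩ K(t)`.) -/
def NormRedStatement : Prop :=
  ∀ t : F, G.AuxCoord t → ∀ y ∈ G.O,
    ((Algebra.norm K⟮t⟯ y : K⟮t⟯) : F) ∈ G.O ∧
      G.red ((Algebra.norm K⟮t⟯ y : K⟮t⟯) : F) =
        ((Algebra.norm k⟮G.red t⟯ (G.red y) : k⟮G.red t⟯) : Fk)

/-- **RED-A (fibre sums)**.  For an auxiliary coordinate `t`, a unit `y` of `O` and `c ∈ A`:
the number of zeros (minus poles) of `ȳ` on the fibre `t̄ = c̄` equals the number of zeros (minus
poles) of `y` on the residue disc `t ≡ c mod 𝔪_A`.  The sums are over arbitrary finite sets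
containing the relevant part of the support. -/
def FibreSumStatement : Prop :=
  ∀ t : F, G.AuxCoord t → ∀ (y : F) (hy : y ∈ G.O), G.ρ ⟨y, hy⟩ ≠ 0 → ∀ c : A,
    ∀ (S : Finset (Place K F)) (T : Finset (Place k Fk)),
      (∀ P : Place K F, P.ord y ≠ 0 → (∃ a : A, π a = π c ∧ ValAt P t a) → P ∈ S) →
      (∀ P ∈ S, ∃ a : A, π a = π c ∧ ValAt P t a) →
      (∀ Q : Place k Fk, Q.ord (G.ρ ⟨y, hy⟩) ≠ 0 → ValAt Q (G.red t) (π c) → Q ∈ T) →
      (∀ Q ∈ T, ValAt Q (G.red t) (π c)) →
      ∑ Q ∈ T, Q.ord (G.ρ ⟨y, hy⟩) = ∑ P ∈ S, P.ord y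

/-- `t` is **monic-like of degree `M`** w.r.t. `x`: `t ∈ B_fin` and `t / x^M ∈ 1 + x⁻¹ B_inf`. -/
def Datum.MonicLike (t : F) (M : ℕ) : Prop :=
  t ∈ G.chart G.x ∧ ∃ β ∈ G.chart G.x⁻¹, t = G.x ^ M * (1 + G.x⁻¹ * β)

/-- **RED-B (degrees)**.  A monic-like `t` of degree `M ≥ 1` whose reduction is a separating
element is an auxiliary coordinate: `[F : K(t)] = M n = [F_k : k(t̄)]`; moreover `t(P) ∈ A`
forces `x(P) ∈ A`. -/
def DegEqStatement : Prop :=
  G.Good → ∀ (t : F) (M : ℕ), 0 < M → G.MonicLike t M →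
    Algebra.IsSeparable k⟮G.red t⟯ Fk →
    G.AuxCoord t ∧ Module.finrank K⟮t⟯ F = M * Module.finrank K⟮G.x⟯ F ∧
      ∀ (P : Place K F) (a : A), ValAt P t a → ∃ a₀ : A, ValAt P G.x a₀

/-- **RED-D1 (separating coordinates)**.  Given a place `Q₁` of `F_k` in the finite chart and a
finite set `T` of places of the finite chart not containing `Q₁`, there is a monic-like `t`
with separating reduction such that `t̄(Q₁) = 0` and `t̄(Q) ≠ 0` for `Q ∈ T`.
(`t = x + (p(x) + h)^ℓ`, `ℓ = char k`, CRT in `C_fin` + (H3).) -/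
def SepStatement : Prop :=
  G.Good → ∀ (Q₁ : Place k Fk) (T : Finset (Place k Fk)), G.xk ∈ Q₁.toValuationSubring →
    (∀ Q ∈ T, G.xk ∈ Q.toValuationSubring) → Q₁ ∉ T →
    ∃ (t : F) (M : ℕ), 0 < M ∧ G.MonicLike t M ∧ Algebra.IsSeparable k⟮G.red t⟯ Fk ∧
      ValAt Q₁ (G.red t) 0 ∧ ∀ Q ∈ T, ¬ ValAt Q (G.red t) 0

/-- **RED-C0 (every chart function has a value in `A`)**: if `t(P) ∈ A` then every `b ∈ B_t`
is regular at `P` with value in `A`. -/
def ChartValueStatement : Prop :=
  ∀ (t : F) (P : Place K F) (a₀ : A), ValAt P t a₀ → ∀ b ∈ G.chart t, ∃ a : A, ValAt P b a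

/-- **RED-C (construction of `r`)**: existence of a map with (i) and (EC). -/
def ExistsEvalCompatStatement : Prop :=
  G.Good → ∃ r : Place K F → Place k Fk, (∀ P, (r P).deg = P.deg) ∧ EvalCompat G r

/-- **RED-D (the count)**: (EC) implies (ii). -/
def RedOfEvalCompatStatement : Prop :=
  G.Good → ∀ r : Place K F → Place k Fk, (∀ P, (r P).deg = P.deg) → EvalCompat G r → IsRed G r

/-- **RED-F (Galois compatibility, abstract)**: a semilinear automorphism `g` of `F/K` which
preserves `A` and `O`, fixes `x` and induces `gk` on `F_k/k` commutes with `r`. -/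
def GaloisCompatStatement : Prop :=
  G.Good → ∀ r : Place K F → Place k Fk, EvalCompat G r →
    ∀ (g : SemilinearAut K F) (gk : SemilinearAut k Fk),
      (∀ a : K, a ∈ A → SemilinearAut.baseAut g a ∈ A) →
      (∀ f : F, f ∈ G.O → g • f ∈ G.O) →
      (∀ (f : F) (hf : f ∈ G.O) (hgf : g • f ∈ G.O), G.ρ ⟨g • f, hgf⟩ = gk • G.ρ ⟨f, hf⟩) →
      g • G.x = G.x →
      ∀ P : Place K F, r (g • P) = gk • r P

end Pieces

end Fermat.Agent.S37.Red

end
end
-- ===== PACK-END S37/Red/Spec.lean

-- ===== PACK-BEGIN S37/H217/Lattice.lean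
section


/-!
# Block ALG, lemmas L1 and L3 (lifted residue bases over valuation rings)

Abstract setting (Mathlib only).  `L/L₀` a finite field extension, `V₀ ⊆ L₀` and `V ⊆ L` valuation
subrings with `V ∩ L₀ = V₀` (`ValExtends`).  A family `e : ι → L` of elements of `V` is
*residually independent* (`ResidIndep`) if a `V₀`-combination of the `e i` lying in the maximal
ideal of `V` has all its coefficients in the maximal ideal of `V₀` (i.e. the residues of the `e i`
are linearly independent over the residue field of `V₀`).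

If `#ι = [L : L₀]` then (this is the "defectless, `e = 1`, `f = n`" case):

* `L1` (`linearIndependent_of_residIndep`, `repr_mem_of_mem`, `repr_mem_nonunits_of_mem`):
  `e` is an `L₀`-basis of `L`, and `V = ⊕ V₀ e i`, `𝔪_V = ⊕ 𝔪_{V₀} e i`;
* `L3` (`exists_matrix_leftMul`, `norm_mem_and_map_norm`, `charpoly_mem_and_map_charpoly`):
  for `y ∈ V` the matrix of multiplication by `y` has entries in `V₀`, and for any compatible pair
  of ring homs `ρ₀ : V₀ → R₁`, `ρ : V → S₁` (`S₁` free over `R₁` on the images of the `e i`) norm,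
  trace and characteristic polynomial commute with `ρ`.
-/

namespace Fermat.Agent.S37.H217

open scoped BigOperators

section Lattice

variable {L₀ L : Type*} [Field L₀] [Field L] [Algebra L₀ L]

/-- `V` lies over `V₀`, i.e. `V ∩ L₀ = V₀`. -/
def ValExtends (V₀ : ValuationSubring L₀) (V : ValuationSubring L) : Prop :=
  ∀ a : L₀, algebraMap L₀ L a ∈ V ↔ a ∈ V₀

/-- Residual independence of a family `e` (see the module docstring). -/
def ResidIndep (V₀ : ValuationSubring L₀) (V : ValuationSubring L) {ι : Type*} [Fintype ι]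
    (e : ι → L) : Prop :=
  ∀ c : ι → L₀, (∀ i, c i ∈ V₀) → (∑ i, c i • e i) ∈ V.nonunits → ∀ i, c i ∈ V₀.nonunits

variable {V₀ : ValuationSubring L₀} {V : ValuationSubring L}

theorem ValExtends.mem_nonunits_iff (h : ValExtends V₀ V) (a : L₀) :
    algebraMap L₀ L a ∈ V.nonunits ↔ a ∈ V₀.nonunits := by
  rw [ValuationSubring.mem_nonunits_iff_or, ValuationSubring.mem_nonunits_iff_or, ← map_inv₀,
    h a⁻¹, map_eq_zero]

/-- Scaling: a nonzero finite family in `L₀` can be divided by one of its members so that all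
members land in `V₀`. -/
theorem exists_scale {ι : Type*} [Fintype ι] (V₀ : ValuationSubring L₀) (c : ι → L₀)
    (hc : c ≠ 0) : ∃ m, c m ≠ 0 ∧ ∀ i, c i / c m ∈ V₀ := by
  classical
  obtain ⟨i₀, hi₀⟩ : ∃ i₀, c i₀ ≠ 0 := by
    by_contra h
    exact hc (funext fun i => not_not.mp fun hi => h ⟨i, hi⟩)
  obtain ⟨m, -, hm⟩ := Finset.exists_max_image Finset.univ (fun i => V₀.valuation (c i))
    ⟨i₀, Finset.mem_univ _⟩
  have hm0 : c m ≠ 0 := by
    intro h0
    have h1 := hm i₀ (Finset.mem_univ _)
    rw [h0, map_zero] at h1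
    exact hi₀ ((map_eq_zero _).mp (le_antisymm h1 zero_le))
  refine ⟨m, hm0, fun i => ?_⟩
  rw [← ValuationSubring.valuation_le_one_iff, map_div₀]
  have hv : V₀.valuation (c m) ≠ 0 := (map_ne_zero _).mpr hm0
  exact (div_le_one₀ (zero_lt_iff.mpr hv)).mpr (hm i (Finset.mem_univ _))

theorem smul_sum_div {ι : Type*} [Fintype ι] (c : ι → L₀) (e : ι → L) (m : ι) :
    ∑ i, (c i / c m) • e i = algebraMap L₀ L (c m)⁻¹ * ∑ i, c i • e i := by
  rw [Finset.mul_sum]
  refine Finset.sum_congr rfl fun i _ => ?_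
  rw [Algebra.smul_def, Algebra.smul_def, ← mul_assoc, ← map_mul, div_eq_inv_mul]

/-- `L1`, key step: a combination of the `e i` lying in `V` has coefficients in `V₀`. -/
theorem coeff_mem_of_sum_mem {ι : Type*} [Fintype ι] (h : ValExtends V₀ V) {e : ι → L}
    (hR : ResidIndep V₀ V e) (c : ι → L₀) (hc : (∑ i, c i • e i) ∈ V) : ∀ i, c i ∈ V₀ := by
  by_contra hne
  obtain ⟨i₀, hi₀⟩ := not_forall.mp hne
  have hc0 : c ≠ 0 := by
    intro h0
    apply hi₀
    rw [h0]
    exact V₀.zero_mem
  obtain ⟨m, hm0, hm⟩ := exists_scale V₀ c hc0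
  have hmV : c m ∉ V₀ := by
    intro hmem
    apply hi₀
    have : c i₀ = c i₀ / c m * c m := by field_simp
    rw [this]
    exact V₀.mul_mem _ _ (hm i₀) hmem
  have hinv : (c m)⁻¹ ∈ V₀.nonunits :=
    (ValuationSubring.inv_mem_nonunits_iff V₀).mpr (Or.inr hmV)
  have hsum : (∑ i, (c i / c m) • e i) ∈ V.nonunits := by
    rw [smul_sum_div]
    have h1 : algebraMap L₀ L (c m)⁻¹ ∈ V.nonunits := (h.mem_nonunits_iff _).mpr hinv
    rw [ValuationSubring.mem_nonunits_iff] at h1 ⊢
    rw [map_mul]
    exact mul_lt_one_of_nonneg_of_lt_one_left zero_le h1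
      ((ValuationSubring.valuation_le_one_iff V _).mpr hc)
  have := hR _ hm hsum m
  rw [div_self hm0] at this
  rw [ValuationSubring.mem_nonunits_iff, map_one] at this
  exact lt_irrefl _ this

/-- `L1`: a residually independent family is linearly independent. -/
theorem eq_zero_of_sum_eq_zero {ι : Type*} [Fintype ι] {e : ι → L}
    (hR : ResidIndep V₀ V e) (c : ι → L₀) (hc : (∑ i, c i • e i) = 0) : ∀ i, c i = 0 := by
  by_contra hne
  have hc0 : c ≠ 0 := by
    intro h0
    apply hne
    intro i
    rw [h0]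
    rfl
  obtain ⟨m, hm0, hm⟩ := exists_scale V₀ c hc0
  have hsum : (∑ i, (c i / c m) • e i) ∈ V.nonunits := by
    rw [smul_sum_div, hc, mul_zero]
    exact V.nonunits.zero_mem
  have := hR _ hm hsum m
  rw [div_self hm0] at this
  rw [ValuationSubring.mem_nonunits_iff, map_one] at this
  exact lt_irrefl _ this

theorem linearIndependent_of_residIndep {ι : Type*} [Fintype ι]
    {e : ι → L} (hR : ResidIndep V₀ V e) : LinearIndependent L₀ e :=
  Fintype.linearIndependent_iff.mpr fun c hc => eq_zero_of_sum_eq_zero hR c hc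

/-- `L1`: a residually independent family of cardinality `[L : L₀]` is a basis. -/
theorem exists_basis_of_residIndep {ι : Type*} [Fintype ι] [Nonempty ι]
    {e : ι → L} (hR : ResidIndep V₀ V e) (hcard : Fintype.card ι = Module.finrank L₀ L) :
    ∃ b : Module.Basis ι L₀ L, ⇑b = e :=
  ⟨basisOfLinearIndependentOfCardEqFinrank (linearIndependent_of_residIndep hR) hcard,
    coe_basisOfLinearIndependentOfCardEqFinrank _ _⟩

section Basis

variable {ι : Type*} [Fintype ι]

/-- `L1`: coordinates of elements of `V` in a residually independent basis lie in `V₀`. -/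
theorem repr_mem_of_mem (h : ValExtends V₀ V) (b : Module.Basis ι L₀ L)
    (hR : ResidIndep V₀ V b) {y : L} (hy : y ∈ V) (i : ι) : b.repr y i ∈ V₀ :=
  coeff_mem_of_sum_mem h hR (fun i => b.repr y i) (by rw [b.sum_repr]; exact hy) i

/-- `L1`: coordinates of elements of `𝔪_V` in a residually independent basis lie in `𝔪_{V₀}`. -/
theorem repr_mem_nonunits_of_mem (h : ValExtends V₀ V) (b : Module.Basis ι L₀ L)
    (hR : ResidIndep V₀ V b) {y : L} (hy : y ∈ V.nonunits) (i : ι) :
    b.repr y i ∈ V₀.nonunits :=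
  hR (fun i => b.repr y i) (fun i => repr_mem_of_mem h b hR (V.nonunits_subset hy) i)
    (by rw [b.sum_repr]; exact hy) i

variable [DecidableEq ι]

/-- The matrix (with entries in `V₀`) of multiplication by `y ∈ V` in a residually independent
basis consisting of elements of `V`. -/
noncomputable def intMatrix (h : ValExtends V₀ V) (b : Module.Basis ι L₀ L)
    (hR : ResidIndep V₀ V b) (hb : ∀ i, b i ∈ V) (y : V) : Matrix ι ι V₀ :=
  fun i j => ⟨b.repr ((y : L) * b j) i, repr_mem_of_mem h b hR (V.mul_mem _ _ y.2 (hb j)) i⟩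

theorem intMatrix_map (h : ValExtends V₀ V) (b : Module.Basis ι L₀ L)
    (hR : ResidIndep V₀ V b) (hb : ∀ i, b i ∈ V) (y : V) :
    (intMatrix h b hR hb y).map (algebraMap V₀ L₀) = Algebra.leftMulMatrix b (y : L) := by
  ext i j
  rw [Algebra.leftMulMatrix_eq_repr_mul]
  rfl

/-- `L3`: the norm of `y ∈ V` is the determinant of the integral matrix; in particular it lies
in `V₀`. -/
theorem norm_eq_det_intMatrix (h : ValExtends V₀ V) (b : Module.Basis ι L₀ L)
    (hR : ResidIndep V₀ V b) (hb : ∀ i, b i ∈ V) (y : V) :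
    Algebra.norm L₀ (y : L) = ((intMatrix h b hR hb y).det : L₀) := by
  rw [Algebra.norm_eq_matrix_det b, ← intMatrix_map h b hR hb y]
  exact (RingHom.map_det (algebraMap V₀ L₀) _).symm

theorem trace_eq_trace_intMatrix (h : ValExtends V₀ V) (b : Module.Basis ι L₀ L)
    (hR : ResidIndep V₀ V b) (hb : ∀ i, b i ∈ V) (y : V) :
    Algebra.trace L₀ L (y : L) = ((intMatrix h b hR hb y).trace : L₀) := by
  rw [Algebra.trace_eq_matrix_trace b, ← intMatrix_map h b hR hb y]
  exact (AddMonoidHom.map_trace (algebraMap V₀ L₀) _).symm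

theorem charpoly_eq_map_charpoly_intMatrix [FiniteDimensional L₀ L] (h : ValExtends V₀ V)
    (b : Module.Basis ι L₀ L) (hR : ResidIndep V₀ V b) (hb : ∀ i, b i ∈ V) (y : V) :
    (Algebra.lmul L₀ L (y : L)).charpoly =
      (intMatrix h b hR hb y).charpoly.map (algebraMap V₀ L₀) := by
  rw [← Matrix.charpoly_map, intMatrix_map, Algebra.leftMulMatrix_apply,
    LinearMap.charpoly_toMatrix]

theorem norm_mem (h : ValExtends V₀ V) (b : Module.Basis ι L₀ L)
    (hR : ResidIndep V₀ V b) (hb : ∀ i, b i ∈ V) {y : L} (hy : y ∈ V) :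
    Algebra.norm L₀ y ∈ V₀ := by
  have := norm_eq_det_intMatrix h b hR hb ⟨y, hy⟩
  rw [this]
  exact Subtype.property _

section Reduction

variable {R₁ S₁ : Type*} [CommRing R₁] [CommRing S₁] [Algebra R₁ S₁]

/-- `L3`: compatibility of the multiplication matrices with a reduction map. -/
theorem leftMulMatrix_map_eq (h : ValExtends V₀ V) (b : Module.Basis ι L₀ L)
    (hR : ResidIndep V₀ V b) (hb : ∀ i, b i ∈ V) (ρ₀ : V₀ →+* R₁) (ρ : V →+* S₁)
    (hρ : ∀ a : V₀, ρ ⟨algebraMap L₀ L a, (h a).mpr a.2⟩ = algebraMap R₁ S₁ (ρ₀ a))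
    (b₁ : Module.Basis ι R₁ S₁) (hb₁ : ∀ i, ρ ⟨b i, hb i⟩ = b₁ i) (y : V) :
    Algebra.leftMulMatrix b₁ (ρ y) = (intMatrix h b hR hb y).map ρ₀ := by
  have key : ∀ j, ρ y * b₁ j = ∑ i, ρ₀ (intMatrix h b hR hb y i j) • b₁ i := by
    intro j
    have h1 : y * ⟨b j, hb j⟩ =
        ∑ i, (⟨algebraMap L₀ L (intMatrix h b hR hb y i j), (h _).mpr (Subtype.property _)⟩ : V) *
          ⟨b i, hb i⟩ := by
      apply Subtype.ext
      have h2 : ((∑ i, (⟨algebraMap L₀ L (intMatrix h b hR hb y i j),
          (h _).mpr (Subtype.property _)⟩ : V) * ⟨b i, hb i⟩ : V) : L) =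
          ∑ i, algebraMap L₀ L (intMatrix h b hR hb y i j) * b i := by
        rw [← ValuationSubring.subtype_apply, map_sum]
        rfl
      rw [h2]
      have h3 := b.sum_repr ((y : L) * b j)
      simp only [Algebra.smul_def] at h3
      exact h3.symm
    rw [← hb₁ j, ← map_mul, h1, map_sum]
    refine Finset.sum_congr rfl fun i _ => ?_
    rw [map_mul, hρ, hb₁, Algebra.smul_def]
  ext i j
  rw [Algebra.leftMulMatrix_eq_repr_mul, key j, b₁.repr_sum_self]
  rfl

/-- `L3`: **norm commutes with reduction**. -/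
theorem map_norm_eq_norm_map (h : ValExtends V₀ V) (b : Module.Basis ι L₀ L)
    (hR : ResidIndep V₀ V b) (hb : ∀ i, b i ∈ V) (ρ₀ : V₀ →+* R₁) (ρ : V →+* S₁)
    (hρ : ∀ a : V₀, ρ ⟨algebraMap L₀ L a, (h a).mpr a.2⟩ = algebraMap R₁ S₁ (ρ₀ a))
    (b₁ : Module.Basis ι R₁ S₁) (hb₁ : ∀ i, ρ ⟨b i, hb i⟩ = b₁ i) (y : V) :
    ρ₀ ⟨Algebra.norm L₀ (y : L), norm_mem h b hR hb y.2⟩ = Algebra.norm R₁ (ρ y) := by
  rw [Algebra.norm_eq_matrix_det b₁, leftMulMatrix_map_eq h b hR hb ρ₀ ρ hρ b₁ hb₁ y]
  have : (⟨Algebra.norm L₀ (y : L), norm_mem h b hR hb y.2⟩ : V₀) =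
      (intMatrix h b hR hb y).det := Subtype.ext (norm_eq_det_intMatrix h b hR hb y)
  rw [this]
  exact RingHom.map_det ρ₀ _

/-- `L3`: trace commutes with reduction. -/
theorem map_trace_intMatrix_eq_trace_map (h : ValExtends V₀ V) (b : Module.Basis ι L₀ L)
    (hR : ResidIndep V₀ V b) (hb : ∀ i, b i ∈ V) (ρ₀ : V₀ →+* R₁) (ρ : V →+* S₁)
    (hρ : ∀ a : V₀, ρ ⟨algebraMap L₀ L a, (h a).mpr a.2⟩ = algebraMap R₁ S₁ (ρ₀ a))
    (b₁ : Module.Basis ι R₁ S₁) (hb₁ : ∀ i, ρ ⟨b i, hb i⟩ = b₁ i) (y : V) :
    ρ₀ (intMatrix h b hR hb y).trace = Algebra.trace R₁ S₁ (ρ y) := by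
  rw [Algebra.trace_eq_matrix_trace b₁, leftMulMatrix_map_eq h b hR hb ρ₀ ρ hρ b₁ hb₁ y]
  exact AddMonoidHom.map_trace ρ₀ _

/-- `L3`: characteristic polynomial commutes with reduction. -/
theorem map_charpoly_intMatrix_eq_charpoly_map (h : ValExtends V₀ V) (b : Module.Basis ι L₀ L)
    (hR : ResidIndep V₀ V b) (hb : ∀ i, b i ∈ V) (ρ₀ : V₀ →+* R₁) (ρ : V →+* S₁)
    (hρ : ∀ a : V₀, ρ ⟨algebraMap L₀ L a, (h a).mpr a.2⟩ = algebraMap R₁ S₁ (ρ₀ a))
    (b₁ : Module.Basis ι R₁ S₁) (hb₁ : ∀ i, ρ ⟨b i, hb i⟩ = b₁ i) (y : V) :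
    (intMatrix h b hR hb y).charpoly.map ρ₀ =
      (Algebra.leftMulMatrix b₁ (ρ y)).charpoly := by
  rw [leftMulMatrix_map_eq h b hR hb ρ₀ ρ hρ b₁ hb₁ y, Matrix.charpoly_map]

end Reduction

end Basis

end Lattice

end Fermat.Agent.S37.H217

end
-- ===== PACK-END S37/H217/Lattice.lean

-- ===== PACK-BEGIN S37/Red/H399/NormRed.lean
section



/-!
# S37-RED, piece RED-A1 (helper399): norms commute with reduction

`Fermat.Agent.S37.Red.H399.normRed : NormRedStatement G` for every reduction datum `G`
(interface `Fermat/Agent/S37/Red/Spec.lean` of helper40).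

Route (coord/S37-red.md, A1): for an auxiliary coordinate `t`
* `O ∩ K = A` and `ker ρ = 𝔪_O` (`mem_O_iff_mem_A`, `rho_eq_zero_iff`);
* Gauss lemma: `ρ (O ∩ K(t)) ⊆ k(t̄)` (`rho_mem_adjoin`);
* lifts of a `k(t̄)`-basis of `F_k` are residually independent over `O ∩ K(t)`, hence a basis of
  `F / K(t)` (helper217's lattice lemmas, `Fermat/Agent/S37/H217/Lattice.lean`), and the
  norm is the determinant of an integral matrix which reduces to the matrix of `ρ y`.
-/

set_option autoImplicit false

noncomputable section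

namespace Fermat.Agent.S37.Red.H399

open AlgebraicCurve IntermediateField Polynomial Fermat.Agent.S37.H217

universe u

variable {K k F Fk : Type u} [Field K] [Field k] [Field F] [Field Fk]
  [Algebra K F] [Algebra k Fk] {A : ValuationSubring K} {π : A →+* k} (G : Datum A π F Fk)

/-- the kernel of `ρ` is the maximal ideal of `O` -/
theorem rho_eq_zero_iff (y : G.O) : G.ρ y = 0 ↔ (y : F) ∈ G.O.nonunits := by
  have hmax : (RingHom.ker G.ρ).IsMaximal := RingHom.ker_isMaximal_of_surjective G.ρ G.ρ_surj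
  have hker : RingHom.ker G.ρ = IsLocalRing.maximalIdeal G.O := IsLocalRing.eq_maximalIdeal hmax
  rw [← RingHom.mem_ker, hker, ValuationSubring.coe_mem_nonunits_iff]

/-- the kernel of `π` is the maximal ideal of `A` -/
theorem pi_eq_zero_iff (G : Datum A π F Fk) (a : A) : π a = 0 ↔ (a : K) ∈ A.nonunits := by
  have hmax : (RingHom.ker π).IsMaximal := RingHom.ker_isMaximal_of_surjective π G.π_surj
  have hker : RingHom.ker π = IsLocalRing.maximalIdeal A := IsLocalRing.eq_maximalIdeal hmax
  rw [← RingHom.mem_ker, hker, ValuationSubring.coe_mem_nonunits_iff]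

/-- the total reduction agrees with `ρ` on `O` -/
theorem red_eq_of_mem {f : F} (hf : f ∈ G.O) : G.red f = G.ρ ⟨f, hf⟩ := by
  rw [Datum.red, dif_pos hf]

/-- the ring homomorphism `A → O` -/
def constHom : A →+* G.O where
  toFun a := ⟨algebraMap K F (a : K), G.const_mem a⟩
  map_one' := Subtype.ext (by simp)
  map_mul' a b := Subtype.ext (by simp)
  map_zero' := Subtype.ext (by simp)
  map_add' a b := Subtype.ext (by simp)

@[simp] theorem coe_constHom (a : A) : ((constHom G a : G.O) : F) = algebraMap K F (a : K) := rfl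

theorem rho_constHom (a : A) : G.ρ (constHom G a) = algebraMap k Fk (π a) := G.ρ_const a

theorem rho_comp_constHom : G.ρ.comp (constHom G) = (algebraMap k Fk).comp π :=
  RingHom.ext fun a => rho_constHom G a

/-- `O ∩ K = A` -/
theorem mem_O_iff_mem_A (c : K) : algebraMap K F c ∈ G.O ↔ c ∈ A := by
  constructor
  · intro hc
    by_contra hcA
    have hc0 : c ≠ 0 := fun h => hcA (h ▸ A.zero_mem)
    have hinv : c⁻¹ ∈ A := (A.mem_or_inv_mem c).resolve_left hcA
    have hnu : c⁻¹ ∈ A.nonunits := (A.inv_mem_nonunits_iff).mpr (Or.inr hcA)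
    have h0 : π ⟨c⁻¹, hinv⟩ = 0 := (pi_eq_zero_iff G ⟨c⁻¹, hinv⟩).mpr hnu
    have h1 : G.ρ (constHom G ⟨c⁻¹, hinv⟩) = 0 := by rw [rho_constHom, h0, map_zero]
    have h2 : G.ρ (constHom G ⟨c⁻¹, hinv⟩ * ⟨algebraMap K F c, hc⟩) = 0 := by
      rw [map_mul, h1, zero_mul]
    have h3 : constHom G ⟨c⁻¹, hinv⟩ * ⟨algebraMap K F c, hc⟩ = 1 := by
      apply Subtype.ext
      show algebraMap K F c⁻¹ * algebraMap K F c = 1
      rw [← map_mul, inv_mul_cancel₀ hc0, map_one]
    rw [h3, map_one] at h2
    exact one_ne_zero h2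
  · intro hc
    exact G.const_mem ⟨c, hc⟩

omit [Field F] [Field Fk] [Algebra K F] [Algebra k Fk] in
/-- scaling a nonzero polynomial over `K` to a primitive polynomial over `A` -/
theorem exists_primitive (π : A →+* k) (P : K[X]) (hP : P ≠ 0) :
    ∃ (c : K) (P₀ : A[X]), c ≠ 0 ∧ P = C c * P₀.map A.subtype ∧ P₀.map π ≠ 0 := by
  classical
  have hsupp : P.support.Nonempty := Polynomial.support_nonempty.mpr hP
  obtain ⟨m, hm, hmax⟩ := Finset.exists_max_image P.support (fun i => A.valuation (P.coeff i)) hsupp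
  have hc0 : P.coeff m ≠ 0 := Polynomial.mem_support_iff.mp hm
  have hv0 : A.valuation (P.coeff m) ≠ 0 := (_root_.map_ne_zero _).mpr hc0
  have hmem : ∀ i, (P.coeff m)⁻¹ * P.coeff i ∈ A := by
    intro i
    by_cases hi : i ∈ P.support
    · rw [← ValuationSubring.valuation_le_one_iff, map_mul, map_inv₀,
        inv_mul_le_iff₀ (zero_lt_iff.mpr hv0), mul_one]
      exact hmax i hi
    · rw [Polynomial.notMem_support_iff.mp hi, mul_zero]
      exact A.zero_mem
  have hlift : C (P.coeff m)⁻¹ * P ∈ Polynomial.lifts A.subtype := by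
    rw [Polynomial.lifts_iff_coeff_lifts]
    intro i
    rw [Polynomial.coeff_C_mul]
    exact ⟨⟨_, hmem i⟩, rfl⟩
  obtain ⟨P₀, hP₀⟩ := (Polynomial.mem_lifts _).mp hlift
  refine ⟨P.coeff m, P₀, hc0, ?_, ?_⟩
  · rw [hP₀, ← mul_assoc, ← C_mul, mul_inv_cancel₀ hc0, C_1, one_mul]
  · intro h
    have h1 : (P₀.map π).coeff m = 0 := by rw [h, coeff_zero]
    rw [coeff_map] at h1
    have h2 : ((P₀.coeff m : A) : K) = 1 := by
      have := congrArg (fun Q => Q.coeff m) hP₀
      simp only [coeff_map, coeff_C_mul] at this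
      rw [ValuationSubring.subtype_apply] at this
      rw [this, inv_mul_cancel₀ hc0]
    have h3 : P₀.coeff m = 1 := Subtype.ext h2
    rw [h3, map_one] at h1
    exact one_ne_zero h1


section Aux

variable {G} {t : F} (ht : G.AuxCoord t)

include ht

theorem red_t_eq : G.red t = G.ρ ⟨t, ht.mem⟩ := by
  rw [Datum.red, dif_pos ht.mem]

/-- value in `O` of a polynomial over `A` at `t` -/
def evalO (P : A[X]) : G.O := P.eval₂ (constHom G) ⟨t, ht.mem⟩

theorem coe_evalO (P : A[X]) :
    ((evalO ht P : G.O) : F) = aeval t (P.map A.subtype) := by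
  have h := Polynomial.hom_eval₂ P (constHom G) G.O.subtype ⟨t, ht.mem⟩
  rw [aeval_def, eval₂_map]
  exact h

theorem rho_evalO (P : A[X]) : G.ρ (evalO ht P) = aeval (G.red t) (P.map π) := by
  rw [evalO, Polynomial.hom_eval₂, rho_comp_constHom, aeval_def, eval₂_map, red_t_eq ht]

theorem rho_evalO_ne_zero {P : A[X]} (hP : P.map π ≠ 0) : G.ρ (evalO ht P) ≠ 0 := by
  rw [rho_evalO ht]
  intro h
  exact hP (transcendental_iff.mp ht.transc _ h)

/-- **Gauss lemma**: the reduction of an element of `O ∩ K(t)` lies in `k(t̄)`. -/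
theorem rho_mem_adjoin (f : F) (hf : f ∈ K⟮t⟯) (hfO : f ∈ G.O) :
    G.ρ ⟨f, hfO⟩ ∈ k⟮G.red t⟯ := by
  obtain ⟨P, Q, hPQ⟩ := (IntermediateField.mem_adjoin_simple_iff K f).mp hf
  by_cases hP : P = 0
  · have : (⟨f, hfO⟩ : G.O) = 0 := Subtype.ext (by
      show f = 0
      rw [hPQ, hP, map_zero, zero_div])
    rw [this, map_zero]
    exact zero_mem _
  by_cases hQ : Q = 0
  · have : (⟨f, hfO⟩ : G.O) = 0 := Subtype.ext (by
      show f = 0
      rw [hPQ, hQ, map_zero, div_zero])
    rw [this, map_zero]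
    exact zero_mem _
  obtain ⟨c, P₀, hc, hPc, hP₀⟩ := exists_primitive π P hP
  obtain ⟨d, Q₀, hd, hQd, hQ₀⟩ := exists_primitive π Q hQ
  have hPne := rho_evalO_ne_zero ht hP₀
  have hQne := rho_evalO_ne_zero ht hQ₀
  -- the constant `c / d` lies in `A`
  have hP0F : ((evalO ht P₀ : G.O) : F) ≠ 0 := by
    intro h
    apply hPne
    have : evalO ht P₀ = 0 := Subtype.ext h
    rw [this, map_zero]
  have hQ0F : ((evalO ht Q₀ : G.O) : F) ≠ 0 := by
    intro h
    apply hQne
    have : evalO ht Q₀ = 0 := Subtype.ext h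
    rw [this, map_zero]
  have hfeq : f * (evalO ht Q₀ : G.O) = algebraMap K F (c / d) * (evalO ht P₀ : G.O) := by
    rw [hPQ, hPc, hQd, coe_evalO, coe_evalO, map_mul, map_mul, aeval_C, aeval_C, map_div₀]
    have hdF : algebraMap K F d ≠ 0 := (_root_.map_ne_zero _).mpr hd
    have hQ0F' : aeval t (Q₀.map A.subtype) ≠ 0 := by rw [← coe_evalO ht]; exact hQ0F
    field_simp
  -- `P₀(t)` is a unit of `O`
  have hPunit : IsUnit (evalO ht P₀) := by
    by_contra hnu
    apply hPne
    rw [rho_eq_zero_iff, ValuationSubring.coe_mem_nonunits_iff, IsLocalRing.mem_maximalIdeal]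
    exact hnu
  obtain ⟨u, hu⟩ := hPunit
  have hcdO : algebraMap K F (c / d) ∈ G.O := by
    have h1 : algebraMap K F (c / d) =
        ((⟨f, hfO⟩ * evalO ht Q₀ * ((u⁻¹ : G.Oˣ) : G.O) : G.O) : F) := by
      have h2 : ((u : G.O) : F) * (((u⁻¹ : G.Oˣ) : G.O) : F) = 1 := by
        exact congrArg Subtype.val (Units.mul_inv u)
      rw [hu] at h2
      show _ = f * (evalO ht Q₀ : G.O) * (((u⁻¹ : G.Oˣ) : G.O) : F)
      rw [hfeq, mul_assoc, h2, mul_one]
    rw [h1]
    exact Subtype.property _
  have hcdA : c / d ∈ A := (mem_O_iff_mem_A G _).mp hcdO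
  -- now compute the reduction
  have hkey : (⟨f, hfO⟩ : G.O) * evalO ht Q₀ = constHom G ⟨c / d, hcdA⟩ * evalO ht P₀ :=
    Subtype.ext hfeq
  have hρ := congrArg G.ρ hkey
  rw [map_mul, map_mul, rho_constHom, rho_evalO ht, rho_evalO ht] at hρ
  have hQne' : aeval (G.red t) (Q₀.map π) ≠ 0 := by rw [← rho_evalO ht]; exact hQne
  have : G.ρ ⟨f, hfO⟩ =
      algebraMap k Fk (π ⟨c / d, hcdA⟩) * aeval (G.red t) (P₀.map π) /
        aeval (G.red t) (Q₀.map π) := by
    rw [eq_div_iff hQne']
    exact hρ
  rw [this]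
  refine div_mem (mul_mem (IntermediateField.algebraMap_mem _ _) ?_) ?_
  · exact IntermediateField.algebra_adjoin_le_adjoin k _ (Polynomial.aeval_mem_adjoin_singleton k _)
  · exact IntermediateField.algebra_adjoin_le_adjoin k _ (Polynomial.aeval_mem_adjoin_singleton k _)

end Aux

/-! ### The Gauss valuation ring of `K(t)` and the lifted basis -/

/-- the valuation ring `O ∩ K(t)` of `K(t)` -/
def gaussRing (t : F) : ValuationSubring K⟮t⟯ := G.O.comap (algebraMap K⟮t⟯ F)

theorem valExtends_gaussRing (t : F) : ValExtends (gaussRing G t) G.O :=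
  fun _ => Iff.rfl

/-- the inclusion `O ∩ K(t) → O` -/
def inclO (t : F) : gaussRing G t →+* G.O where
  toFun a := ⟨algebraMap K⟮t⟯ F (a : K⟮t⟯), a.2⟩
  map_one' := Subtype.ext (by simp)
  map_mul' a b := Subtype.ext (by simp)
  map_zero' := Subtype.ext (by simp)
  map_add' a b := Subtype.ext (by simp)

@[simp] theorem coe_inclO (t : F) (a : gaussRing G t) :
    ((inclO G t a : G.O) : F) = ((a : K⟮t⟯) : F) := rfl

section Main

variable {G} {t : F} (ht : G.AuxCoord t)

/-- reduction `O ∩ K(t) → k(t̄)` -/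
def rho₀ : gaussRing G t →+* k⟮G.red t⟯ :=
  (G.ρ.comp (inclO G t)).codRestrict k⟮G.red t⟯
    (fun a => rho_mem_adjoin ht _ (a : K⟮t⟯).2 a.2)

theorem coe_rho₀ (a : gaussRing G t) : ((rho₀ ht a : k⟮G.red t⟯) : Fk) = G.ρ (inclO G t a) := rfl

include ht

/-- **RED-A1**, for one auxiliary coordinate. -/
theorem normRed_aux (y : F) (hy : y ∈ G.O) :
    ((Algebra.norm K⟮t⟯ y : K⟮t⟯) : F) ∈ G.O ∧
      G.red ((Algebra.norm K⟮t⟯ y : K⟮t⟯) : F) =
        ((Algebra.norm k⟮G.red t⟯ (G.red y) : k⟮G.red t⟯) : Fk) := by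
  classical
  have := ht.finite
  have := ht.finite_k
  have h := valExtends_gaussRing G t
  -- a basis of `F_k / k(t̄)` and lifts to `O`
  let b₁ := Module.finBasis k⟮G.red t⟯ Fk
  have hnpos : 0 < Module.finrank k⟮G.red t⟯ Fk := Module.finrank_pos
  have : Nonempty (Fin (Module.finrank k⟮G.red t⟯ Fk)) := ⟨⟨0, hnpos⟩⟩
  choose e he using fun i => G.ρ_surj (b₁ i)
  have hR : ResidIndep (gaussRing G t) G.O (fun i => ((e i : G.O) : F)) := by
    intro c hc hsum i
    have hs : (∑ i, c i • ((e i : G.O) : F)) =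
        ((∑ i, inclO G t ⟨c i, hc i⟩ * e i : G.O) : F) := by
      rw [← ValuationSubring.subtype_apply, map_sum]
      refine Finset.sum_congr rfl fun i _ => ?_
      rw [Algebra.smul_def]
      rfl
    rw [hs] at hsum
    have h0 : G.ρ (∑ i, inclO G t ⟨c i, hc i⟩ * e i) = 0 := (rho_eq_zero_iff G _).mpr hsum
    rw [map_sum] at h0
    have h1 : ∑ i, rho₀ ht ⟨c i, hc i⟩ • b₁ i = 0 := by
      rw [← h0]
      refine Finset.sum_congr rfl fun i _ => ?_
      rw [map_mul, he i, Algebra.smul_def]
      rfl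
    have h2 := Fintype.linearIndependent_iff.mp b₁.linearIndependent _ h1 i
    have h3 : G.ρ (inclO G t ⟨c i, hc i⟩) = 0 := by
      rw [← coe_rho₀ ht, h2]
      rfl
    have h4 := (rho_eq_zero_iff G _).mp h3
    exact (h.mem_nonunits_iff (c i)).mp h4
  have hcard : Fintype.card (Fin (Module.finrank k⟮G.red t⟯ Fk)) = Module.finrank K⟮t⟯ F := by
    rw [Fintype.card_fin, ht.finrank_eq]
  obtain ⟨b, hb⟩ := exists_basis_of_residIndep hR hcard
  have hR' : ResidIndep (gaussRing G t) G.O ⇑b := by rw [hb]; exact hR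
  have hbO : ∀ i, b i ∈ G.O := fun i => by rw [hb]; exact (e i).2
  have hb₁ : ∀ i, G.ρ ⟨b i, hbO i⟩ = b₁ i := by
    intro i
    have : (⟨b i, hbO i⟩ : G.O) = e i := Subtype.ext (congrFun hb i)
    rw [this, he i]
  have hρ : ∀ a : gaussRing G t,
      G.ρ ⟨algebraMap K⟮t⟯ F a, (h a).mpr a.2⟩ = algebraMap k⟮G.red t⟯ Fk (rho₀ ht a) :=
    fun a => rfl
  have key := map_norm_eq_norm_map h b hR' hbO (rho₀ ht) G.ρ hρ b₁ hb₁ ⟨y, hy⟩
  have hmem : ((Algebra.norm K⟮t⟯ y : K⟮t⟯) : F) ∈ G.O := norm_mem h b hR' hbO hy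
  refine ⟨hmem, ?_⟩
  rw [red_eq_of_mem G hmem, red_eq_of_mem G hy]
  exact congrArg Subtype.val key

end Main

/-- **RED-A1 (norms commute with reduction)**: `NormRedStatement` of the frozen interface. -/
theorem normRed : NormRedStatement G :=
  fun _ ht y hy => normRed_aux ht y hy

end Fermat.Agent.S37.Red.H399

end
end
-- ===== PACK-END S37/Red/H399/NormRed.lean

-- ===== PACK-BEGIN S18/Sq05/Spec.lean
section




/-!
# S18 — squad S18/S05 (squad-lead helper5): frozen statements of the squad's pieces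

Row plan: `origin/helper18:coord/S18.md` (v2).  This squad owns

* **T2** / **T3**: "a function without zeros and poles is constant" for the modular function
  fields in characteristic `0` and `ℓ` (`ConstStatement`, definitionally equal to
  `Fermat.Agent.S18.H94.ConstOfOrdZero` of the adopted top layer),
* the residue-field facts needed to instantiate T3 at `k = A/𝔪`,
* **d1** (descent to a number field, see `coord/S18-squad05.md`).

Every statement below is FROZEN.  Proofs go to `Fermat/Agent/S18/H<seat>/…` (own namespace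
`Fermat.Agent.S18.H<seat>`), importing Mathlib, Prelude and landed files only.
-/

set_option autoImplicit false

noncomputable section

namespace Fermat.Agent.S18.Sq05

open AlgebraicCurve ModularCurve IntermediateField

/-- A function without zeros and poles (at the discrete valuation rings containing `K`) is a
constant.  Unfolded form of `H94.ConstOfOrdZero K F`. -/
def ConstStatement (K F : Type*) [Field K] [Field F] [Algebra K F] : Prop :=
  ∀ u : F, u ≠ 0 → (∀ v : Place K F, v.ord u = 0) → ∃ c : K, u = algebraMap K F c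

/-- **FF.1 (DISC)**, Mathlib-only, characteristic-free.  A valuation subring of a finite
extension `F/E` whose restriction to `E` is a principal ideal ring is a principal ideal ring.
(Value group index `≤ [F:E]`; no separability, no Krull–Akizuki.) -/
def DiscStatement : Prop :=
  ∀ (E F : Type) [Field E] [Field F] [Algebra E F] [FiniteDimensional E F]
    (V : ValuationSubring F),
    IsPrincipalIdealRing (V.comap (algebraMap E F)) → IsPrincipalIdealRing V

/-- **FF.2 (EXT)**, characteristic-free.  If `F` is finite over `K(u)`, `u` transcendental, then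
`u` has a zero at some place of `F/K`. -/
def ExtStatement : Prop :=
  ∀ (K F : Type) [Field K] [Field F] [Algebra K F] (u : F), Transcendental K u →
    FiniteDimensional K⟮u⟯ F → ∃ v : Place K F, 0 < v.ord u

/-- **FF.3 (CONST, generic)**: `K` algebraically closed, `F` finite over `K(x)`. -/
def ConstGenericStatement : Prop :=
  ∀ (K F : Type) [Field K] [Field F] [Algebra K F] [IsAlgClosed K] (x : F),
    Transcendental K x → FiniteDimensional K⟮x⟯ F → ConstStatement K F

/-- **RES.1**: the residue field of a valuation subring of an algebraically closed field is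
algebraically closed. -/
def ResAlgClosedStatement : Prop :=
  ∀ (L : Type) [Field L] [IsAlgClosed L] (A : ValuationSubring L),
    IsAlgClosed (IsLocalRing.ResidueField A)

/-- **RES.2**: primes different from the residue characteristic are invertible in the residue
field. -/
def ResCharStatement : Prop :=
  ∀ (L : Type) [Field L] (A : ValuationSubring L) (ℓ p : ℕ), ℓ.Prime → p.Prime →
    A.LiesOverPrime ℓ → p ≠ ℓ → ((p : ℕ) : IsLocalRing.ResidueField A) ≠ 0

/-- The `j`-function as an element of the function field `k(j(q^d) : d ∣ N)`. -/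
def jC (k : Type*) [Field k] (N : ℕ) [NeZero N] : modularFunctionFieldFullC k N :=
  ⟨jqModC k, jqModC_mem_full k N⟩

/-- **MOD.1**: `j` is transcendental and `k(j(q^d) : d ∣ N)` is finite over `k(j)`, for every
field `k` in which the primes dividing `N` are invertible.
(From landed S28: `H626.finiteDimensional_extendScalars`, `H867.hasModPolys`,
`H807.nonempty_modPolyData`.) -/
def ModFiniteStatement : Prop :=
  ∀ (k : Type) [Field k] (N : ℕ) [NeZero N], (∀ p : ℕ, p.Prime → p ∣ N → (p : k) ≠ 0) →
    Transcendental k (jC k N) ∧ FiniteDimensional k⟮jC k N⟯ (modularFunctionFieldFullC k N)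

/-- **T3 (generic field)**. -/
def T3GenericStatement : Prop :=
  ∀ (k : Type) [Field k] [IsAlgClosed k] (N : ℕ) [NeZero N],
    (∀ p : ℕ, p.Prime → p ∣ N → (p : k) ≠ 0) →
    ConstStatement k (modularFunctionFieldFullC k N)

/-- **T3** (as consumed by the top layer): `CONST_Fk` at `k = A/𝔪`. -/
def T3Statement : Prop :=
  ∀ (N : ℕ) [NeZero N] (ℓ : ℕ), ℓ.Prime → ¬ ℓ ∣ N →
    ∀ A : ValuationSubring (AlgebraicClosure ℚ), A.LiesOverPrime ℓ →
      ConstStatement (IsLocalRing.ResidueField A)
        (modularFunctionFieldFullC (IsLocalRing.ResidueField A) N)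

/-- **T2**: `CONST_F` in characteristic zero (from landed S24: `open_fundamental_eq`,
`ModularPackage.finiteDimensional`; or from FF.3 + MOD.1 and
`modularFunctionFieldBar N = modularFunctionFieldFullC ℚ̄ N`). -/
def T2Statement : Prop :=
  ∀ (N : ℕ) [NeZero N],
    ConstStatement (AlgebraicClosure ℚ) (modularFunctionFieldBar N)

/-- **HPD.k (hedge, for route H / `Lib.RR.FF1` in characteristic `ℓ`)**: the product formula,
characteristic-free. -/
def HpdStatement : Prop :=
  ∀ (K F : Type) [Field K] [Field F] [Algebra K F] [IsAlgClosed K] (x : F),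
    Transcendental K x → FiniteDimensional K⟮x⟯ F → HasPrincipalDivisors K F

/-- Assembly of T3 from the pieces (proved here so that the split is known to be sound). -/
theorem t3Generic_of_pieces (hC : ConstGenericStatement) (hM : ModFiniteStatement) :
    T3GenericStatement := by
  intro k _ _ N _ hchar
  obtain ⟨htr, hfin⟩ := hM k N hchar
  exact hC k _ (jC k N) htr hfin

theorem t3_of_pieces (hG : T3GenericStatement) (hA : ResAlgClosedStatement)
    (hR : ResCharStatement) : T3Statement := by
  intro N _ ℓ hℓ hℓN A hAℓ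
  have := hA _ A
  refine hG _ N fun p hp hpN => hR _ A ℓ p hℓ hp hAℓ ?_
  rintro rfl
  exact hℓN hpN

end Fermat.Agent.S18.Sq05

end
end
-- ===== PACK-END S18/Sq05/Spec.lean

-- ===== PACK-BEGIN S37/H818/FieldBridge.lean
section
/-
S37 / LEVEL TRANSFER (helper818), part 9: bridges between `IntermediateField` language
(`relfinrank`, `⊔`) and the Prelude's "along" language (`finrankAlong`, `Algebra.adjoin`).
-/



set_option autoImplicit false
set_option linter.style.haveILetI false

noncomputable section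

namespace Fermat.Agent.S37.H818

open AlgebraicCurve IntermediateField

variable {K E : Type*} [Field K] [Field E] [Algebra K E]

/-- `finrankAlong` of an inclusion of intermediate fields is the relative finrank. -/
theorem finrankAlong_inclusion {A B : IntermediateField K E} (h : A ≤ B) :
    finrankAlong K (IntermediateField.inclusion h) = A.relfinrank B := by
  rw [IntermediateField.relfinrank_eq_finrank_of_le h]
  unfold finrankAlong
  letI := algebraAlong (IntermediateField.inclusion h)
  let e : ↥B ≃ₗ[A] ↥(IntermediateField.extendScalars h) :=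
    { toFun := fun x => ⟨x.1, x.2⟩
      invFun := fun x => ⟨x.1, x.2⟩
      map_add' := fun _ _ => rfl
      map_smul' := fun _ _ => rfl
      left_inv := fun _ => rfl
      right_inv := fun _ => rfl }
  exact e.finrank_eq

/-- `FiniteAlong` for an inclusion, from positivity of the relative finrank. -/
theorem finiteAlong_inclusion {A B : IntermediateField K E} (h : A ≤ B)
    (hpos : 0 < A.relfinrank B) : FiniteAlong K (IntermediateField.inclusion h) := by
  unfold FiniteAlong
  letI := algebraAlong (IntermediateField.inclusion h)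
  have h1 : 0 < Module.finrank A B := by
    have := finrankAlong_inclusion h
    unfold finrankAlong at this
    rw [this]
    exact hpos
  exact Module.finite_of_finrank_pos h1

/-- If `C ≤ A ⊔ B` (with `A, B ≤ C`, `C` finite over `A`), then `C` is generated as an
`A`-algebra by the image of `B`. -/
theorem adjoin_range_inclusion_eq_top {A B C : IntermediateField K E} (hAC : A ≤ C)
    (hBC : B ≤ C) (hC : C ≤ A ⊔ B) (hfin : FiniteAlong K (IntermediateField.inclusion hAC)) :
    (letI := algebraAlong (IntermediateField.inclusion hAC)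
     Algebra.adjoin A (Set.range (IntermediateField.inclusion hBC))) = ⊤ := by
  letI := algebraAlong (IntermediateField.inclusion hAC)
  haveI : Module.Finite A C := hfin
  haveI : Algebra.IsAlgebraic A C := Algebra.IsAlgebraic.of_finite A C
  set T : Subalgebra A C := Algebra.adjoin A (Set.range (IntermediateField.inclusion hBC)) with hT
  have key : ∀ y (hy : y ∈ A ⊔ B), ∃ hyC : y ∈ C, (⟨y, hyC⟩ : C) ∈ T := by
    intro y hy
    rw [IntermediateField.sup_def] at hy
    induction hy using IntermediateField.adjoin_induction with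
    | mem x hx =>
      rcases hx with hx | hx
      · refine ⟨hAC hx, ?_⟩
        have : (⟨x, hAC hx⟩ : C) = algebraMap A C ⟨x, hx⟩ := rfl
        rw [this]
        exact T.algebraMap_mem _
      · refine ⟨hBC hx, ?_⟩
        exact Algebra.subset_adjoin ⟨⟨x, hx⟩, rfl⟩
    | algebraMap x =>
      refine ⟨C.algebraMap_mem x, ?_⟩
      have : (⟨algebraMap K E x, C.algebraMap_mem x⟩ : C) =
          algebraMap A C ⟨algebraMap K E x, A.algebraMap_mem x⟩ := rfl
      rw [this]
      exact T.algebraMap_mem _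
    | add x y _ _ hx hy =>
      obtain ⟨hxC, hxT⟩ := hx
      obtain ⟨hyC, hyT⟩ := hy
      exact ⟨C.add_mem hxC hyC, T.add_mem hxT hyT⟩
    | inv x _ hx =>
      obtain ⟨hxC, hxT⟩ := hx
      refine ⟨C.inv_mem hxC, ?_⟩
      have h1 := T.inv_mem_of_algebraic (x := ⟨⟨x, hxC⟩, hxT⟩)
        (Algebra.IsAlgebraic.isAlgebraic (R := A) (⟨x, hxC⟩ : C))
      exact h1
    | mul x y _ _ hx hy =>
      obtain ⟨hxC, hxT⟩ := hx
      obtain ⟨hyC, hyT⟩ := hy
      exact ⟨C.mul_mem hxC hyC, T.mul_mem hxT hyT⟩
  rw [eq_top_iff]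
  rintro ⟨y, hyC⟩ -
  obtain ⟨_, h⟩ := key y (hC hyC)
  exact h

end Fermat.Agent.S37.H818

end

end
-- ===== PACK-END S37/H818/FieldBridge.lean

-- ===== PACK-BEGIN S37/H939/MatrixCorank.lean
section


/-!
# Corank of the reduction of a matrix bounds the valuation of its determinant
(row S37 / S18, piece b2 = R2; seat helper939)

`S` a commutative ring, `K` a field, `φ : S →+* K` surjective with kernel contained in `(π)`.
For a square matrix `G` over `S`:  `π ^ (n - rank (φ G)) ∣ det G`.
-/

set_option autoImplicit false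

namespace Fermat.Agent.S37.H939

open Matrix

variable {S K : Type*} [CommRing S] [Field K] {ι : Type*} [Fintype ι] [DecidableEq ι]

lemma prod_ite_mem_eq_pow_card (J : Finset ι) (π : S) :
    (∏ j, if j ∈ J then π else 1) = π ^ J.card := by
  classical
  rw [Finset.prod_ite, Finset.prod_const_one, mul_one, Finset.prod_const]
  congr 1
  congr 1
  ext j
  simp

/-- If every column indexed by `J` of `G` is divisible by `π`, then `π ^ #J ∣ det G`. -/
lemma pow_card_dvd_det_of_cols (G : Matrix ι ι S) (π : S) (J : Finset ι)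
    (h : ∀ j ∈ J, ∀ i, π ∣ G i j) : π ^ J.card ∣ G.det := by
  classical
  choose! q hq using h
  -- `G = H * diagonal δ`
  let δ : ι → S := fun j => if j ∈ J then π else 1
  let H : Matrix ι ι S := fun i j => if j ∈ J then q j i else G i j
  have hG : G = H * diagonal δ := by
    ext i j
    rw [Matrix.mul_diagonal]
    by_cases hj : j ∈ J
    · simp only [H, δ, hj, if_true]
      rw [hq j hj i, mul_comm]
    · simp only [H, δ, hj, if_false, mul_one]
  have hδ : ∏ j, δ j = π ^ J.card := prod_ite_mem_eq_pow_card J π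
  rw [hG, Matrix.det_mul, Matrix.det_diagonal, hδ]
  exact Dvd.intro_left _ rfl

omit [Fintype ι] in
/-- Lift a transvection along a surjective ring hom. -/
lemma exists_transvection_lift (φ : S →+* K) (hφ : Function.Surjective φ)
    (t : TransvectionStruct ι K) :
    ∃ t' : TransvectionStruct ι S, t'.toMatrix.map φ = t.toMatrix := by
  obtain ⟨s, hs⟩ := hφ t.c
  refine ⟨⟨t.i, t.j, t.hij, s⟩, ?_⟩
  ext a b
  simp only [TransvectionStruct.toMatrix, transvection, Matrix.map_apply, Matrix.add_apply,
    Matrix.one_apply, Matrix.single_apply]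
  split_ifs <;> simp [hs]

/-- Lift a product of transvections along a surjective ring hom, keeping determinant `1`. -/
lemma exists_lift_prod_transvections (φ : S →+* K) (hφ : Function.Surjective φ)
    (L : List (TransvectionStruct ι K)) :
    ∃ P : Matrix ι ι S, P.det = 1 ∧ P.map φ = (L.map TransvectionStruct.toMatrix).prod := by
  induction L with
  | nil => exact ⟨1, by simp, by simp⟩
  | cons t L ih =>
    obtain ⟨P, hP, hPφ⟩ := ih
    obtain ⟨t', ht'⟩ := exists_transvection_lift φ hφ t
    refine ⟨t'.toMatrix * P, by simp [hP], ?_⟩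
    rw [List.map_cons, List.prod_cons, ← hPφ, ← ht', Matrix.map_mul]

/-- **Corank lemma.** If `φ : S →+* K` is surjective with `ker φ ⊆ (π)`, then for every square
matrix `G` over `S` we have `π ^ (n - rank (φ G)) ∣ det G`. -/
theorem pow_corank_dvd_det (φ : S →+* K) (hφ : Function.Surjective φ) (π : S)
    (hπ : ∀ s, φ s = 0 → π ∣ s) (G : Matrix ι ι S) :
    π ^ (Fintype.card ι - (G.map φ).rank) ∣ G.det := by
  classical
  obtain ⟨L, L', D, hD⟩ :=
    Matrix.Pivot.exists_list_transvec_mul_diagonal_mul_list_transvec (G.map φ)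
  obtain ⟨P, hP, hPφ⟩ := exists_lift_prod_transvections φ hφ L
  obtain ⟨P', hP', hP'φ⟩ := exists_lift_prod_transvections φ hφ L'
  -- `G' = adj P * G * adj P'` reduces to `diagonal D`
  set G' : Matrix ι ι S := P.adjugate * G * P'.adjugate with hG'
  have hdet : G'.det = G.det := by
    rw [hG', Matrix.det_mul, Matrix.det_mul, Matrix.det_adjugate, Matrix.det_adjugate, hP, hP']
    simp
  have hPu : IsUnit (P.map φ).det := by
    rw [← RingHom.mapMatrix_apply, ← RingHom.map_det, hP, map_one]; exact isUnit_one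
  have hP'u : IsUnit (P'.map φ).det := by
    rw [← RingHom.mapMatrix_apply, ← RingHom.map_det, hP', map_one]; exact isUnit_one
  have hadjP : (P.adjugate).map φ * P.map φ = 1 := by
    rw [← Matrix.map_mul, Matrix.adjugate_mul, hP, one_smul]
    simp
  have hadjP' : P'.map φ * (P'.adjugate).map φ = 1 := by
    rw [← Matrix.map_mul, Matrix.mul_adjugate, hP', one_smul]
    simp
  have hred : G'.map φ = diagonal D := by
    rw [hG', Matrix.map_mul, Matrix.map_mul, hD, ← hPφ, ← hP'φ]
    calc (P.adjugate).map φ * (P.map φ * diagonal D * P'.map φ) * (P'.adjugate).map φ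
        = ((P.adjugate).map φ * P.map φ) * diagonal D * (P'.map φ * (P'.adjugate).map φ) := by
          simp only [Matrix.mul_assoc]
      _ = diagonal D := by rw [hadjP, hadjP', Matrix.one_mul, Matrix.mul_one]
  -- the rank
  have hrank : (G.map φ).rank = Fintype.card {i // D i ≠ 0} := by
    rw [hD, ← hPφ, ← hP'φ, Matrix.rank_mul_eq_left_of_isUnit_det _ _ hP'u,
      Matrix.rank_mul_eq_right_of_isUnit_det _ _ hPu, Matrix.rank_diagonal]
  -- the zero columns
  let J : Finset ι := Finset.univ.filter fun j => D j = 0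
  have hJ : J.card = Fintype.card ι - (G.map φ).rank := by
    rw [hrank]
    have h1 : Fintype.card {i // D i ≠ 0} = (Finset.univ.filter fun j => D j ≠ 0).card := by
      rw [Fintype.card_subtype]
    have h2 : (Finset.univ.filter fun j => D j ≠ 0).card + J.card = Fintype.card ι := by
      rw [add_comm]
      exact Finset.card_filter_add_card_filter_not (s := Finset.univ) (p := fun j => D j = 0)
        |>.trans Finset.card_univ
    omega
  rw [← hJ, ← hdet]
  apply pow_card_dvd_det_of_cols
  intro j hj i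
  apply hπ
  have hj' : D j = 0 := by simpa [J] using hj
  have := congrFun (congrFun hred i) j
  rw [Matrix.map_apply] at this
  rw [this, Matrix.diagonal_apply]
  split_ifs with h
  · rw [h]; exact hj'
  · rfl

end Fermat.Agent.S37.H939

end
-- ===== PACK-END S37/H939/MatrixCorank.lean

-- ===== PACK-BEGIN S18/H213/DetRank.lean
section


/-!
# S18 / b2 — the determinant–rank lemma (helper213)

`O` a domain, `π` a prime element generating a maximal ideal, `κ = O/π`.  If the rows of a square
matrix `H` over `O` reduce into a subspace of `κⁿ` of codimension `≥ r`, then `π ^ r ∣ det H`.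
-/

set_option autoImplicit false

set_option linter.unusedSectionVars false

open Module

namespace Fermat.Agent.S18.H213

attribute [local instance] Ideal.Quotient.field

variable {O : Type*} [CommRing O] [IsDomain O] {π : O}

/-- Reduction of a row vector modulo `π`. -/
def redRow (π : O) {ι : Type*} (v : ι → O) : ι → O ⧸ Ideal.span {π} :=
  fun k => Ideal.Quotient.mk (Ideal.span {π}) (v k)

theorem redRow_add {ι : Type*} (v w : ι → O) : redRow π (v + w) = redRow π v + redRow π w := by
  funext k; simp [redRow]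

theorem redRow_smul {ι : Type*} (c : O) (v : ι → O) :
    redRow π (c • v) = Ideal.Quotient.mk (Ideal.span {π}) c • redRow π v := by
  funext k; simp [redRow]

theorem redRow_sum {ι α : Type*} (s : Finset α) (f : α → ι → O) :
    redRow π (∑ a ∈ s, f a) = ∑ a ∈ s, redRow π (f a) := by
  funext k
  simp only [redRow, Finset.sum_apply, map_sum]

theorem redRow_eq_zero_iff {ι : Type*} (v : ι → O) :
    redRow π v = 0 ↔ ∀ k, π ∣ v k := by
  constructor
  · intro h k
    have := congrFun h k
    simp only [redRow, Pi.zero_apply, Ideal.Quotient.eq_zero_iff_mem,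
      Ideal.mem_span_singleton] at this
    exact this
  · intro h
    funext k
    simp only [redRow, Pi.zero_apply, Ideal.Quotient.eq_zero_iff_mem, Ideal.mem_span_singleton]
    exact h k

/-- **DET–RANK**, subspace form. -/
theorem pow_dvd_det_of_rows_mem (hπ : Prime π) [hmax : (Ideal.span {π}).IsMaximal]
    {ι : Type*} [Fintype ι] [DecidableEq ι] :
    ∀ (r : ℕ) (H : Matrix ι ι O) (U : Submodule (O ⧸ Ideal.span {π}) (ι → O ⧸ Ideal.span {π})),
      finrank (O ⧸ Ideal.span {π}) U + r ≤ Fintype.card ι →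
      (∀ j, redRow π (H j) ∈ U) → π ^ r ∣ H.det := by
  intro r
  induction r with
  | zero => intro H U _ _; simp
  | succ r ih =>
    intro H U hU hH
    -- the rows are linearly dependent mod π
    have hdep : ¬ LinearIndependent (O ⧸ Ideal.span {π})
        (fun j : ι => (⟨redRow π (H j), hH j⟩ : U)) := by
      intro hli
      have := hli.fintype_card_le_finrank
      omega
    rw [Fintype.not_linearIndependent_iff] at hdep
    obtain ⟨g, hg, j0, hj0⟩ := hdep
    -- lift the coefficients
    have hsurj := Ideal.Quotient.mk_surjective (I := Ideal.span {π})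
    choose c hc using fun j => hsurj (g j)
    have hcj0 : ¬ π ∣ c j0 := by
      intro hdiv
      apply hj0
      rw [← hc j0, Ideal.Quotient.eq_zero_iff_mem, Ideal.mem_span_singleton]
      exact hdiv
    -- the combined row vanishes mod π
    have hR : redRow π (∑ j, c j • H j) = 0 := by
      rw [redRow_sum]
      have h1 : ∀ j, redRow π (c j • H j) = g j • redRow π (H j) := fun j => by
        rw [redRow_smul, hc]
      simp only [h1]
      have := congrArg (Subtype.val) hg
      simpa using this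
    rw [redRow_eq_zero_iff] at hR
    choose R' hR' using hR
    have hRR' : (∑ j, c j • H j) = π • R' := by
      funext k
      rw [hR' k]
      simp
    -- determinant identity
    have hdet : c j0 * H.det = π * (H.updateRow j0 R').det := by
      have h1 := Matrix.det_updateRow_sum H j0 c
      rw [hRR', Matrix.det_updateRow_smul] at h1
      rw [h1, smul_eq_mul]
    -- the new matrix has rows in `U ⊔ span {R'}`
    have hrows : ∀ j, redRow π ((H.updateRow j0 R') j) ∈
        U ⊔ Submodule.span (O ⧸ Ideal.span {π}) {redRow π R'} := by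
      intro j
      by_cases hj : j = j0
      · subst hj
        rw [Matrix.updateRow_self]
        exact Submodule.mem_sup_right (Submodule.mem_span_singleton_self _)
      · rw [Matrix.updateRow_ne hj]
        exact Submodule.mem_sup_left (hH j)
    have hfin : finrank (O ⧸ Ideal.span {π})
        ↥(U ⊔ Submodule.span (O ⧸ Ideal.span {π}) {redRow π R'}) + r ≤ Fintype.card ι := by
      have h1 := Submodule.finrank_add_le_finrank_add_finrank U
        (Submodule.span (O ⧸ Ideal.span {π}) {redRow π R'})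
      have h2 : finrank (O ⧸ Ideal.span {π})
          ↥(Submodule.span (O ⧸ Ideal.span {π}) {redRow π R'}) ≤ 1 := by
        have := finrank_span_le_card (R := O ⧸ Ideal.span {π}) ({redRow π R'} : Set _)
        simpa using this
      omega
    have hih := ih (H.updateRow j0 R') _ hfin hrows
    have hdvd : π ^ (r + 1) ∣ c j0 * H.det := by
      rw [hdet, pow_succ']
      exact mul_dvd_mul_left π hih
    exact hπ.pow_dvd_of_dvd_mul_left (r + 1) hcj0 hdvd

/-- **DET–RANK**, quotient form: the rows are killed by a surjection onto a space of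
dimension `≥ r`. -/
theorem pow_dvd_det_of_rows_ker (hπ : Prime π) [hmax : (Ideal.span {π}).IsMaximal]
    {ι : Type*} [Fintype ι] [DecidableEq ι] {Q : Type*} [AddCommGroup Q]
    [Module (O ⧸ Ideal.span {π}) Q]
    (g : (ι → O ⧸ Ideal.span {π}) →ₗ[O ⧸ Ideal.span {π}] Q) (hg : Function.Surjective g)
    (r : ℕ) (hr : r ≤ finrank (O ⧸ Ideal.span {π}) Q) (H : Matrix ι ι O)
    (hH : ∀ j, g (redRow π (H j)) = 0) : π ^ r ∣ H.det := by
  refine pow_dvd_det_of_rows_mem hπ r H (LinearMap.ker g) ?_ (fun j => hH j)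
  have h1 := LinearMap.finrank_range_add_finrank_ker g
  have h2 : finrank (O ⧸ Ideal.span {π}) (LinearMap.range g) = finrank (O ⧸ Ideal.span {π}) Q := by
    rw [LinearMap.range_eq_top.mpr hg]
    exact finrank_top _ _
  have h3 : finrank (O ⧸ Ideal.span {π}) (ι → O ⧸ Ideal.span {π}) = Fintype.card ι := by
    simp
  omega

end Fermat.Agent.S18.H213

end
-- ===== PACK-END S18/H213/DetRank.lean

-- ===== PACK-BEGIN S37/H217/Gauss.lean
section


/-!
# Block ALG, lemma L4 (Gauss lemma for roots over a valuation ring)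

`K` an algebraically closed field, `A` a valuation subring of `K` with residue field `k`,
`N ∈ A[X]` with nonzero reduction.  Then for every `cbar ∈ k` the multiplicity of `cbar` as a
root of the reduction of `N` equals the number (with multiplicity) of roots `c` of `N` in `K`
such that `c ∈ A` and `c` reduces to `cbar`.
-/

namespace Fermat.Agent.S37.H217

open Polynomial

section Gauss

variable {K : Type*} [Field K]

/-- Coefficient recursion: if `(1 - C d * X) * Q = P` with `d ∈ A` and `P` with coefficients in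
`A`, then `Q` has coefficients in `A`. -/
theorem coeff_mem_of_one_sub_mul (A : ValuationSubring K) (d : K) (hd : d ∈ A) (P Q : K[X])
    (hP : ∀ i, P.coeff i ∈ A) (h : (1 - C d * X) * Q = P) : ∀ i, Q.coeff i ∈ A := by
  have key : ∀ i, Q.coeff (i + 1) = P.coeff (i + 1) + d * Q.coeff i := by
    intro i
    rw [← h]
    simp [sub_mul, mul_assoc, coeff_X_mul, coeff_C_mul]
  have key0 : Q.coeff 0 = P.coeff 0 := by
    rw [← h]; simp [sub_mul, mul_assoc]
  intro i
  induction i with
  | zero => rw [key0]; exact hP 0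
  | succ i ih => rw [key]; exact A.add_mem _ _ (hP _) (A.mul_mem _ _ hd ih)

/-- If `c ∉ A` is a root (in `K`) of `N ∈ A[X]`, then `N = (1 - C d * X) * N₁` in `A[X]`, where
`d = c⁻¹` lies in the maximal ideal of `A`. -/
theorem exists_factor_of_root_not_mem (A : ValuationSubring K) (N : Polynomial A) (c : K)
    (hc : (N.map (algebraMap A K)).IsRoot c) (hcA : c ∉ A) :
    ∃ (d : A) (N₁ : Polynomial A), d ∈ IsLocalRing.maximalIdeal A ∧ (d : K) = c⁻¹ ∧
      N = (1 - C d * X) * N₁ ∧
      N.map (algebraMap A K) = (X - C c) * (C (-c)⁻¹ * N₁.map (algebraMap A K)) := by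
  have hinj : Function.Injective (algebraMap A K) := Subtype.coe_injective
  have hc0 : c ≠ 0 := fun h => hcA (h ▸ A.zero_mem)
  have hdA : c⁻¹ ∈ A := (A.mem_or_inv_mem c).resolve_left hcA
  obtain ⟨Q, hQ⟩ := dvd_iff_isRoot.mpr hc
  -- `N_K = (X - c) * Q = (1 - c⁻¹ X) * ((-c) Q)`
  have hfac : (1 - C c⁻¹ * X) * (C (-c) * Q) = N.map (algebraMap A K) := by
    rw [hQ]
    have : (1 - C c⁻¹ * X) * (C (-c) * Q) = (C (-c) * (1 - C c⁻¹ * X)) * Q := by ring
    rw [this]
    congr 1
    rw [mul_sub, mul_one, ← mul_assoc, ← C_mul]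
    have : -c * c⁻¹ = -1 := by field_simp
    rw [this]
    simp only [map_neg, map_one, neg_mul, one_mul, sub_neg_eq_add]
    ring
  have hcoeff : ∀ i, (C (-c) * Q).coeff i ∈ A := by
    refine coeff_mem_of_one_sub_mul A c⁻¹ hdA _ _ ?_ hfac
    intro i
    rw [coeff_map]
    exact (N.coeff i).2
  have hlift : (C (-c) * Q) ∈ Polynomial.lifts (algebraMap A K) := by
    rw [Polynomial.lifts_iff_coeff_lifts]
    intro i
    exact ⟨⟨_, hcoeff i⟩, rfl⟩
  obtain ⟨N₁, hN₁⟩ := (Polynomial.mem_lifts _).mp hlift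
  refine ⟨⟨c⁻¹, hdA⟩, N₁, ?_, rfl, ?_, ?_⟩
  · rw [IsLocalRing.mem_maximalIdeal]
    intro hu
    apply hcA
    have := (A.inv_mem_nonunits_iff (x := c))
    obtain ⟨u, hu'⟩ := hu
    have h1 : ((u⁻¹ : Aˣ) : A) * ⟨c⁻¹, hdA⟩ = 1 := by
      rw [← hu']; simp
    have h2 : (((u⁻¹ : Aˣ) : A) : K) * c⁻¹ = 1 := by
      have := congrArg (fun x : A => (x : K)) h1
      simpa using this
    have h3 : (((u⁻¹ : Aˣ) : A) : K) = c := by
      field_simp at h2
      exact h2
    rw [← h3]
    exact ((u⁻¹ : Aˣ) : A).2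
  · apply Polynomial.map_injective _ hinj
    rw [Polynomial.map_mul, hN₁, ← hfac]
    congr 1
    simp [Polynomial.map_sub, Polynomial.map_mul]
  · rw [hN₁, hQ, ← mul_assoc (C (-c)⁻¹), ← C_mul]
    have : (-c)⁻¹ * -c = 1 := by field_simp
    rw [this]; simp

open Classical in
/-- **Gauss lemma for roots.**  For `N ∈ A[X]` with nonzero reduction, the multiplicity of `cbar`
as a root of the reduction equals the number of roots of `N` in `K` (with multiplicity) lying in
`A` and reducing to `cbar`. -/
theorem rootMultiplicity_map_residue_eq_card_filter [IsAlgClosed K]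
    (A : ValuationSubring K) (N : Polynomial A)
    (hN : N.map (IsLocalRing.residue A) ≠ 0) (cbar : IsLocalRing.ResidueField A) :
    (N.map (IsLocalRing.residue A)).rootMultiplicity cbar =
      ((N.map (algebraMap A K)).roots.filter
        (fun c => ∃ h : c ∈ A, IsLocalRing.residue A ⟨c, h⟩ = cbar)).card := by
  have hinj : Function.Injective (algebraMap A K) := Subtype.coe_injective
  induction' hn : N.natDegree using Nat.strong_induction_on with n ih generalizing N
  have hN0 : N ≠ 0 := by
    intro h; apply hN; rw [h, Polynomial.map_zero]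
  have hNK : N.map (algebraMap A K) ≠ 0 := by
    intro h; apply hN0; apply Polynomial.map_injective _ hinj; rw [h, Polynomial.map_zero]
  by_cases hdeg : N.natDegree = 0
  · obtain ⟨a, rfl⟩ := natDegree_eq_zero.mp hdeg
    simp only [Polynomial.map_C, rootMultiplicity_C, roots_C, Multiset.filter_zero,
      Multiset.card_zero]
  · have hK : (N.map (algebraMap A K)).degree ≠ 0 := by
      intro h
      apply hdeg
      have := natDegree_eq_of_degree_eq_some h
      rwa [natDegree_map_eq_of_injective hinj] at this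
    obtain ⟨c, hc⟩ := IsAlgClosed.exists_root _ hK
    by_cases hcA : c ∈ A
    · have hroot : N.IsRoot ⟨c, hcA⟩ := by
        have := eval_map_apply (p := N) (algebraMap A K) ⟨c, hcA⟩
        apply hinj
        rw [map_zero, ← this]
        exact hc
      obtain ⟨N₁, hN₁⟩ := dvd_iff_isRoot.mpr hroot
      subst hN₁
      have hN₁bar : N₁.map (IsLocalRing.residue A) ≠ 0 := by
        intro h; apply hN; rw [Polynomial.map_mul, h, mul_zero]
      have hN₁0 : N₁ ≠ 0 := by
        intro h; apply hN₁bar; rw [h, Polynomial.map_zero]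
      have hdeg₁ : N₁.natDegree < n := by
        rw [← hn, natDegree_mul (X_sub_C_ne_zero _) hN₁0, natDegree_X_sub_C]; omega
      have IH := ih _ hdeg₁ N₁ hN₁bar rfl
      rw [Polynomial.map_mul] at hN hNK
      rw [Polynomial.map_mul, Polynomial.map_mul, rootMultiplicity_mul hN, roots_mul hNK,
        Multiset.filter_add, Multiset.card_add, IH]
      congr 1
      simp only [Polynomial.map_sub, map_X, map_C, rootMultiplicity_X_sub_C, roots_X_sub_C,
        Multiset.filter_singleton]
      by_cases hcb : cbar = IsLocalRing.residue A ⟨c, hcA⟩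
      · rw [if_pos hcb, if_pos ⟨hcA, hcb.symm⟩]
        rfl
      · rw [if_neg hcb, if_neg]
        · rfl
        · rintro ⟨h, hh⟩
          exact hcb hh.symm
    · obtain ⟨d, N₁, hd, hdc, hfac, hfacK⟩ := exists_factor_of_root_not_mem A N c hc hcA
      have hdbar : IsLocalRing.residue A d = 0 := (IsLocalRing.residue_eq_zero_iff d).mpr hd
      have hbar : N.map (IsLocalRing.residue A) = N₁.map (IsLocalRing.residue A) := by
        rw [hfac, Polynomial.map_mul]
        simp [hdbar]
      have hN₁bar : N₁.map (IsLocalRing.residue A) ≠ 0 := by rwa [← hbar]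
      have hN₁0 : N₁ ≠ 0 := by
        intro h; apply hN₁bar; rw [h, Polynomial.map_zero]
      have hc0 : c ≠ 0 := fun h => hcA (h ▸ A.zero_mem)
      have hcinv : (-c)⁻¹ ≠ 0 := inv_ne_zero (neg_ne_zero.mpr hc0)
      have hdeg₁ : N₁.natDegree < n := by
        have h1 := congrArg natDegree hfacK
        rw [natDegree_map_eq_of_injective hinj, natDegree_mul (X_sub_C_ne_zero _)
          (mul_ne_zero (C_ne_zero.mpr hcinv) ((Polynomial.map_ne_zero_iff hinj).mpr hN₁0)),
          natDegree_X_sub_C, natDegree_C_mul hcinv, natDegree_map_eq_of_injective hinj] at h1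
        omega
      have IH := ih _ hdeg₁ N₁ hN₁bar rfl
      rw [hbar, IH, hfacK, roots_mul (by rw [← hfacK]; exact hNK), roots_X_sub_C,
        roots_C_mul _ hcinv, Multiset.filter_add, Multiset.filter_singleton, if_neg]
      · simp
      · rintro ⟨h, -⟩
        exact hcA h

end Gauss

end Fermat.Agent.S37.H217

end
-- ===== PACK-END S37/H217/Gauss.lean

-- ===== PACK-BEGIN S37/H448/AscentAbs.lean
section



/-!
# S37 / RED-E4(c) (helper448): geometric normality ascends along algebraic extensions of a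
perfect field — abstract q-series form

Setting: `k₀` a perfect field, `k / k₀` an algebraic extension with `k` algebraically closed,
`ι : k₀((q)) → k((q))` the coefficientwise embedding, `X ∈ k₀((q))` a coordinate.
Integrality over `R[X]` inside `R((q))` is `(evalSer R X).IsIntegralElem z`
(`evalSer R X : R[T] →+* R((q))`, `T ↦ X`; this is the shape of `Core.IntElt.IsFin`).

Main result `exists_integral_decomp`:
if `z = ∑ C (e i) * ι (w i)` with `w i` in a `k₀`-subspace `F₀ ⊆ k₀((q))` (a set closed under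
`0`, `+` and multiplication by constants `C c`) and `z` is integral
over `k[ι X]`, then `z = ∑ C (e' j) * ι (w' j)` with `w' j ∈ F₀` **integral over `k₀[X]`**.

Proof: `k' := k₀(e i)` is finite separable over `k₀`; take a basis `b` of `k'/k₀`, its dual basis
`d` for the trace form, rewrite `z = ∑ C (b j) * ι (w' j)`; then
`ι (w' j) = ∑_σ C (σ (d j)) * σ̂ z` (sum over the embeddings `σ : k' → k`, `σ̂` an extension of
`σ` to `k`, acting coefficientwise), a sum of products of integral elements; finally integrality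
descends from `k[ι X]` to `k₀[X]` because `k[T]` is integral over `k₀[T]` and `ι` is injective.
-/

set_option autoImplicit false
set_option linter.style.haveILetI false
set_option linter.unusedSimpArgs false

noncomputable section

namespace Fermat.Agent.S37.H448

open HahnSeries ModularCurve Polynomial

/-- evaluation `R[T] → R((q))`, `T ↦ u` (same term as `Core.evalSeries`) -/
def evalSer (R : Type*) [CommRing R] (u : LaurentSeries R) :
    Polynomial R →+* LaurentSeries R :=
  Polynomial.eval₂RingHom (HahnSeries.C : R →+* LaurentSeries R) u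

section Basic

variable {R S : Type*} [CommRing R] [CommRing S]

theorem coeffMap_C' (f : R →+* S) (r : R) :
    coeffMap f (HahnSeries.C r) = HahnSeries.C (f r) := by
  show coeffMap f (HahnSeries.single 0 r) = HahnSeries.single 0 (f r)
  exact coeffMap_single f 0 r

theorem coeffMap_injective' {f : R →+* S} (hf : Function.Injective f) :
    Function.Injective (coeffMap f) := by
  intro x y h
  ext n
  apply hf
  have := congrArg (fun s => s.coeff n) h
  simpa using this

theorem evalSer_C (u : LaurentSeries R) (r : R) :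
    evalSer R u (Polynomial.C r) = HahnSeries.C r := by
  simp [evalSer]

theorem evalSer_X (u : LaurentSeries R) : evalSer R u Polynomial.X = u := by
  simp [evalSer]

/-- base change of the evaluation map -/
theorem coeffMap_comp_evalSer (f : R →+* S) (u : LaurentSeries R) :
    (coeffMap f).comp (evalSer R u) =
      (evalSer S (coeffMap f u)).comp (Polynomial.mapRingHom f) := by
  apply Polynomial.ringHom_ext
  · intro r
    simp [evalSer_C, coeffMap_C']
  · simp [evalSer_X]

/-- integrality is preserved by coefficient maps -/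
theorem isIntegralElem_coeffMap (f : R →+* S) {u z : LaurentSeries R}
    (h : (evalSer R u).IsIntegralElem z) :
    (evalSer S (coeffMap f u)).IsIntegralElem (coeffMap f z) := by
  obtain ⟨p, hp, hz⟩ := h
  refine ⟨p.map (Polynomial.mapRingHom f), hp.map _, ?_⟩
  rw [Polynomial.eval₂_map, ← coeffMap_comp_evalSer, ← Polynomial.hom_eval₂, hz, map_zero]

theorem isIntegralElem_C (u : LaurentSeries R) (r : R) :
    (evalSer R u).IsIntegralElem (HahnSeries.C r) := by
  rw [← evalSer_C u r]
  exact RingHom.isIntegralElem_map _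

theorem isIntegralElem_sum (g : Polynomial R →+* LaurentSeries R) {ι : Type*} (s : Finset ι)
    (f : ι → LaurentSeries R) (h : ∀ i ∈ s, g.IsIntegralElem (f i)) :
    g.IsIntegralElem (∑ i ∈ s, f i) := by
  classical
  induction s using Finset.induction_on with
  | empty =>
    rw [Finset.sum_empty]
    exact g.isIntegralElem_zero
  | insert a s ha ih =>
    rw [Finset.sum_insert ha]
    exact RingHom.IsIntegralElem.add g (h a (Finset.mem_insert_self a s))
      (ih fun i hi => h i (Finset.mem_insert_of_mem hi))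

end Basic

section Descent

variable {k₀ k : Type*} [Field k₀] [Field k] [Algebra k₀ k]

/-- `k[T]` is integral over `k₀[T]` when `k / k₀` is algebraic -/
theorem mapRingHom_isIntegral [Algebra.IsAlgebraic k₀ k] :
    (Polynomial.mapRingHom (algebraMap k₀ k)).IsIntegral := by
  intro p
  induction p using Polynomial.induction_on' with
  | add p q hp hq => exact RingHom.IsIntegralElem.add _ hp hq
  | monomial n a =>
    have ha : (Polynomial.mapRingHom (algebraMap k₀ k)).IsIntegralElem (Polynomial.C a) := by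
      obtain ⟨m, hm, hma⟩ := (Algebra.IsAlgebraic.isAlgebraic (R := k₀) a).isIntegral
      refine ⟨m.map (Polynomial.C : k₀ →+* Polynomial k₀), hm.map _, ?_⟩
      rw [Polynomial.eval₂_map]
      have hcomp : (Polynomial.mapRingHom (algebraMap k₀ k)).comp (Polynomial.C : k₀ →+* _) =
          (Polynomial.C : k →+* Polynomial k).comp (algebraMap k₀ k) := by
        ext r
        simp
      rw [hcomp, ← Polynomial.hom_eval₂, hma, map_zero]
    have hX : (Polynomial.mapRingHom (algebraMap k₀ k)).IsIntegralElem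
        (Polynomial.X ^ n : Polynomial k) := by
      have : (Polynomial.X ^ n : Polynomial k) =
          Polynomial.mapRingHom (algebraMap k₀ k) (Polynomial.X ^ n) := by simp
      rw [this]
      exact RingHom.isIntegralElem_map _
    rw [← Polynomial.C_mul_X_pow_eq_monomial]
    exact RingHom.IsIntegralElem.mul _ ha hX

/-- integrality descends from `k[ι X]` to `k₀[X]` -/
theorem isIntegralElem_descent [Algebra.IsAlgebraic k₀ k] {X w : LaurentSeries k₀}
    (h : (evalSer k (coeffMap (algebraMap k₀ k) X)).IsIntegralElem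
      (coeffMap (algebraMap k₀ k) w)) :
    (evalSer k₀ X).IsIntegralElem w := by
  set f := evalSer k (coeffMap (algebraMap k₀ k) X) with hf
  set g := Polynomial.mapRingHom (algebraMap k₀ k) with hg
  have hfg : (f.comp g).IsIntegralElem (coeffMap (algebraMap k₀ k) w) := by
    letI : Algebra (Polynomial k₀) (Polynomial k) := g.toAlgebra
    letI : Algebra (Polynomial k) (LaurentSeries k) := f.toAlgebra
    letI : Algebra (Polynomial k₀) (LaurentSeries k) := (f.comp g).toAlgebra
    haveI : IsScalarTower (Polynomial k₀) (Polynomial k) (LaurentSeries k) :=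
      IsScalarTower.of_algebraMap_eq fun _ => rfl
    haveI : Algebra.IsIntegral (Polynomial k₀) (Polynomial k) := ⟨mapRingHom_isIntegral⟩
    exact isIntegral_trans (R := Polynomial k₀) (A := Polynomial k) _ h
  obtain ⟨P, hP, hPz⟩ := hfg
  refine ⟨P, hP, ?_⟩
  have hcomp : f.comp g = (coeffMap (algebraMap k₀ k)).comp (evalSer k₀ X) :=
    (coeffMap_comp_evalSer (algebraMap k₀ k) X).symm
  rw [hcomp, ← Polynomial.hom_eval₂] at hPz
  exact coeffMap_injective' (algebraMap k₀ k).injective (hPz.trans (map_zero _).symm)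

end Descent

section Main

variable {k₀ k : Type*} [Field k₀] [Field k] [Algebra k₀ k]

theorem coeffMap_smul_eq (c : k₀) (w : LaurentSeries k₀) :
    coeffMap (algebraMap k₀ k) (c • w) =
      HahnSeries.C (algebraMap k₀ k c) * coeffMap (algebraMap k₀ k) w := by
  rw [← HahnSeries.C_mul_eq_smul, map_mul, coeffMap_C']

/-- **Geometric normality ascent, abstract form.**  If `z = ∑ C (e i) * ι (w i)` with `w i` in
the set `F₀` (closed under `k₀`-linear combinations) is integral over `k[ι X]`, then `z = ∑ C (e' j) * ι (w' j)` with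
`w' j ∈ F₀` integral over `k₀[X]`. -/
theorem exists_integral_decomp [PerfectField k₀] [IsAlgClosed k] [Algebra.IsAlgebraic k₀ k]
    (F₀ : Set (LaurentSeries k₀)) (h0 : (0 : LaurentSeries k₀) ∈ F₀)
    (hadd : ∀ x y : LaurentSeries k₀, x ∈ F₀ → y ∈ F₀ → x + y ∈ F₀)
    (hC : ∀ (c : k₀) (x : LaurentSeries k₀), x ∈ F₀ → HahnSeries.C c * x ∈ F₀)
    (X : LaurentSeries k₀)
    {m : ℕ} (e : Fin m → k) (w : Fin m → LaurentSeries k₀) (hw : ∀ i, w i ∈ F₀)
    (hint : (evalSer k (coeffMap (algebraMap k₀ k) X)).IsIntegralElem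
      (∑ i, HahnSeries.C (e i) * coeffMap (algebraMap k₀ k) (w i))) :
    ∃ (n : ℕ) (e' : Fin n → k) (w' : Fin n → LaurentSeries k₀),
      (∀ j, w' j ∈ F₀) ∧ (∀ j, (evalSer k₀ X).IsIntegralElem (w' j)) ∧
      ∑ i, HahnSeries.C (e i) * coeffMap (algebraMap k₀ k) (w i) =
        ∑ j, HahnSeries.C (e' j) * coeffMap (algebraMap k₀ k) (w' j) := by
  classical
  set z := ∑ i, HahnSeries.C (e i) * coeffMap (algebraMap k₀ k) (w i) with hz
  -- the finite subextension generated by the `e i`
  let k' : IntermediateField k₀ k := IntermediateField.adjoin k₀ (Set.range e)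
  haveI : FiniteDimensional k₀ k' :=
    IntermediateField.finiteDimensional_adjoin
      (fun x _ => (Algebra.IsAlgebraic.isAlgebraic (R := k₀) x).isIntegral)
  haveI : Algebra.IsSeparable k₀ k' := Algebra.IsAlgebraic.isSeparable_of_perfectField
  haveI : IsAlgClosure k₀ k := ⟨inferInstance, inferInstance⟩
  haveI : Normal k₀ k := IsAlgClosure.normal k₀ k
  let b : Module.Basis (Fin (Module.finrank k₀ k')) k₀ k' := Module.finBasis k₀ k'
  let d : Module.Basis (Fin (Module.finrank k₀ k')) k₀ k' :=
    (Algebra.traceForm k₀ k').dualBasis (traceForm_nondegenerate k₀ k') b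
  have he : ∀ i, e i ∈ k' := fun i => IntermediateField.subset_adjoin k₀ _ ⟨i, rfl⟩
  let c : Fin m → Fin (Module.finrank k₀ k') → k₀ := fun i j => b.repr ⟨e i, he i⟩ j
  have hc : ∀ i, e i = ∑ j, algebraMap k₀ k (c i j) * ((b j : k') : k) := by
    intro i
    have h1 := b.sum_repr ⟨e i, he i⟩
    have h2 := congrArg (fun x : k' => (x : k)) h1
    simp only [AddSubmonoidClass.coe_finsetSum] at h2
    rw [← h2]
    refine Finset.sum_congr rfl fun j _ => ?_
    rw [IntermediateField.coe_smul, Algebra.smul_def]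
  let w' : Fin (Module.finrank k₀ k') → LaurentSeries k₀ :=
    fun j => ∑ i, HahnSeries.C (c i j) * w i
  have hw' : ∀ j, w' j ∈ F₀ := fun j =>
    Finset.sum_induction _ (fun x => x ∈ F₀) hadd h0 fun i _ => hC _ _ (hw i)
  have hzw' : z = ∑ j, HahnSeries.C ((b j : k') : k) * coeffMap (algebraMap k₀ k) (w' j) := by
    have h1 : ∀ j, HahnSeries.C ((b j : k') : k) * coeffMap (algebraMap k₀ k) (w' j) =
        ∑ i, HahnSeries.C (algebraMap k₀ k (c i j) * ((b j : k') : k)) *
          coeffMap (algebraMap k₀ k) (w i) := by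
      intro j
      rw [map_sum, Finset.mul_sum]
      refine Finset.sum_congr rfl fun i _ => ?_
      rw [map_mul, coeffMap_C', map_mul]
      ring
    rw [Finset.sum_congr rfl fun j _ => h1 j, Finset.sum_comm, hz]
    refine Finset.sum_congr rfl fun i _ => ?_
    rw [← Finset.sum_mul, ← map_sum, ← hc i]
  -- the conjugates of `z`
  have hconj : ∀ σ : k' →ₐ[k₀] k,
      coeffMap ((σ.liftNormal k : k →ₐ[k₀] k) : k →+* k) z =
        ∑ i, HahnSeries.C (σ (b i)) * coeffMap (algebraMap k₀ k) (w' i) := by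
    intro σ
    rw [hzw', map_sum]
    refine Finset.sum_congr rfl fun i _ => ?_
    rw [map_mul, coeffMap_C', coeffMap_coeffMap]
    have h1 : ((σ.liftNormal k : k →ₐ[k₀] k) : k →+* k) ((b i : k') : k) = σ (b i) :=
      AlgHom.liftNormal_commutes σ k (b i)
    have h2 : (((σ.liftNormal k : k →ₐ[k₀] k) : k →+* k).comp (algebraMap k₀ k)) =
        algebraMap k₀ k := by
      ext r
      exact (σ.liftNormal k).commutes r
    rw [h1, h2]
  have key : ∀ j, coeffMap (algebraMap k₀ k) (w' j) =
      ∑ σ : k' →ₐ[k₀] k, HahnSeries.C (σ (d j)) *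
        coeffMap ((σ.liftNormal k : k →ₐ[k₀] k) : k →+* k) z := by
    intro j
    have h1 : ∀ σ : k' →ₐ[k₀] k, HahnSeries.C (σ (d j)) *
        coeffMap ((σ.liftNormal k : k →ₐ[k₀] k) : k →+* k) z =
        ∑ i, HahnSeries.C (σ (d j * b i)) * coeffMap (algebraMap k₀ k) (w' i) := by
      intro σ
      rw [hconj σ, Finset.mul_sum]
      refine Finset.sum_congr rfl fun i _ => ?_
      rw [map_mul, map_mul, mul_assoc]
    rw [Finset.sum_congr rfl fun σ _ => h1 σ, Finset.sum_comm]
    have h2 : ∀ i, ∑ σ : k' →ₐ[k₀] k, HahnSeries.C (σ (d j * b i)) *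
        coeffMap (algebraMap k₀ k) (w' i) =
        if i = j then coeffMap (algebraMap k₀ k) (w' i) else 0 := by
      intro i
      rw [← Finset.sum_mul, ← map_sum, ← trace_eq_sum_embeddings k, ← Algebra.traceForm_apply,
        LinearMap.BilinForm.apply_dualBasis_left]
      split_ifs with h
      · rw [map_one, map_one, one_mul]
      · rw [map_zero, map_zero, zero_mul]
    rw [Finset.sum_congr rfl fun i _ => h2 i, Finset.sum_ite_eq' Finset.univ j]
    simp
  refine ⟨Module.finrank k₀ k', fun j => ((b j : k') : k), w', hw', ?_, hzw'⟩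
  intro j
  apply isIntegralElem_descent (k := k)
  rw [key j]
  refine isIntegralElem_sum _ _ _ fun σ _ =>
    RingHom.IsIntegralElem.mul _ (isIntegralElem_C _ _) ?_
  have h3 := isIntegralElem_coeffMap ((σ.liftNormal k : k →ₐ[k₀] k) : k →+* k) hint
  have h4 : (((σ.liftNormal k : k →ₐ[k₀] k) : k →+* k).comp (algebraMap k₀ k)) =
      algebraMap k₀ k := by
    ext r
    exact (σ.liftNormal k).commutes r
  rwa [coeffMap_coeffMap, h4] at h3

end Main

end Fermat.Agent.S37.H448

end
end
-- ===== PACK-END S37/H448/AscentAbs.lean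

-- ===== PACK-BEGIN S29/M4b/H89/PRoot.lean
section
/-
S29 row, layer M, sub-layer M4b — lemma PROOT (helper89), used by piece K4-UNIQ.

`exists_coeffMap_eq_of_pow` : let `ι : K →+* L` be a homomorphism of fields, `K` algebraically
closed, `p` a natural number invertible in `K`.  If the `p`-th power of a Laurent series `b` over
`L` has all its coefficients in `ι K`, then so has `b`:  `b ^ p = coeffMap ι w → ∃ v, coeffMap ι v = b`.

Proof: reduce to power series with nonzero constant term; the constant term is a `p`-th root of an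
element of `ι K`, hence in `ι K`; then induction on the index, comparing the coefficients of
`(P + X^m R)^p = P^p + p P^(p-1) X^m R + k X^(2m) R^2`.
Mathlib + Prelude `coeffMap` only.
-/



set_option autoImplicit false

noncomputable section

namespace Fermat.Agent.S29.M4b.H89.PRoot

open PowerSeries ModularCurve

section PS

variable {L : Type*} [Field L]

/-- Power series all of whose coefficients lie in a subfield. -/
def coeffSubring (S : Subfield L) : Subring (PowerSeries L) where
  carrier := {B | ∀ n, PowerSeries.coeff n B ∈ S}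
  mul_mem' := by
    intro B C hB hC n
    rw [PowerSeries.coeff_mul]
    exact S.sum_mem fun x _ => S.mul_mem (hB _) (hC _)
  one_mem' := by
    intro n
    rw [PowerSeries.coeff_one]
    split_ifs
    · exact S.one_mem
    · exact S.zero_mem
  add_mem' := by
    intro B C hB hC n
    rw [map_add]
    exact S.add_mem (hB _) (hC _)
  zero_mem' := by
    intro n
    rw [map_zero]
    exact S.zero_mem
  neg_mem' := by
    intro B hB n
    rw [map_neg]
    exact S.neg_mem (hB _)

theorem mem_coeffSubring {S : Subfield L} {B : PowerSeries L} :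
    B ∈ coeffSubring S ↔ ∀ n, PowerSeries.coeff n B ∈ S := Iff.rfl

/-- The key induction, for power series with nonzero constant coefficient. -/
theorem mem_coeffSubring_of_pow (S : Subfield L) {p : ℕ} (hp : (p : L) ≠ 0)
    (hroot : ∀ x : L, x ^ p ∈ S → x ∈ S) (B : PowerSeries L)
    (hB0 : PowerSeries.coeff 0 B ≠ 0) (hBp : B ^ p ∈ coeffSubring S) :
    B ∈ coeffSubring S := by
  have hp0 : p ≠ 0 := by
    rintro rfl
    exact hp (by simp)
  -- constant coefficient
  have h0 : PowerSeries.coeff 0 B ∈ S := by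
    apply hroot
    have := hBp 0
    rwa [PowerSeries.coeff_zero_eq_constantCoeff, map_pow,
      ← PowerSeries.coeff_zero_eq_constantCoeff] at this
  intro m
  induction m using Nat.strong_induction_on with
  | _ m ih =>
    rcases Nat.eq_zero_or_pos m with rfl | hm
    · exact h0
    -- decomposition `B = P + X^m * R`
    set P : PowerSeries L := ((PowerSeries.trunc m B : Polynomial L) : PowerSeries L) with hP
    set R : PowerSeries L := PowerSeries.mk fun i => PowerSeries.coeff (i + m) B with hR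
    have hdec : B = P + PowerSeries.X ^ m * R := by
      rw [add_comm]
      exact PowerSeries.eq_X_pow_mul_shift_add_trunc m B
    have hPmem : P ∈ coeffSubring S := by
      intro n
      rw [hP, Polynomial.coeff_coe, PowerSeries.coeff_trunc]
      split_ifs with hn
      · exact ih n hn
      · exact S.zero_mem
    have hP0 : PowerSeries.coeff 0 P = PowerSeries.coeff 0 B := by
      rw [hP, Polynomial.coeff_coe, PowerSeries.coeff_trunc, if_pos hm]
    have hR0 : PowerSeries.coeff 0 R = PowerSeries.coeff m B := by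
      rw [hR, PowerSeries.coeff_mk, zero_add]
    obtain ⟨k, hk⟩ := Polynomial.powAddExpansion P (PowerSeries.X ^ m * R) p
    have hexp : PowerSeries.coeff m (B ^ p)
        = PowerSeries.coeff m (P ^ p)
          + (p : L) * (PowerSeries.coeff 0 B) ^ (p - 1) * PowerSeries.coeff m B := by
      have e1 : B ^ p = P ^ p + PowerSeries.X ^ m * ((p : PowerSeries L) * P ^ (p - 1) * R)
          + PowerSeries.X ^ (2 * m) * (k * R ^ 2) := by
        conv_lhs => rw [hdec]
        rw [hk]
        ring
      rw [e1, map_add, map_add, PowerSeries.coeff_X_pow_mul', PowerSeries.coeff_X_pow_mul',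
        if_pos le_rfl, if_neg (by omega), add_zero, Nat.sub_self]
      congr 1
      rw [PowerSeries.coeff_zero_eq_constantCoeff, map_mul, map_mul, map_pow, map_natCast,
        ← PowerSeries.coeff_zero_eq_constantCoeff, hP0, hR0]
    have hmem : (p : L) * (PowerSeries.coeff 0 B) ^ (p - 1) * PowerSeries.coeff m B ∈ S := by
      have h1 : PowerSeries.coeff m (P ^ p) ∈ S := (coeffSubring S).pow_mem hPmem p m
      have h2 := hBp m
      rw [hexp] at h2
      have := S.sub_mem h2 h1
      rwa [add_sub_cancel_left] at this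
    have hunit : (p : L) * (PowerSeries.coeff 0 B) ^ (p - 1) ∈ S :=
      S.mul_mem (natCast_mem S p) (S.pow_mem h0 _)
    have hne : (p : L) * (PowerSeries.coeff 0 B) ^ (p - 1) ≠ 0 :=
      mul_ne_zero hp (pow_ne_zero _ hB0)
    have := S.mul_mem (S.inv_mem hunit) hmem
    rwa [← mul_assoc, inv_mul_cancel₀ hne, one_mul] at this

end PS

section Laurent

variable {K L : Type*} [Field K] [Field L]

/-- Laurent series version: if all coefficients of `b ^ p` lie in `S`, so do those of `b`. -/
theorem laurent_coeff_mem_of_pow (S : Subfield L) {p : ℕ} (hp : (p : L) ≠ 0)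
    (hroot : ∀ x : L, x ^ p ∈ S → x ∈ S) (b : LaurentSeries L)
    (hbp : ∀ n, (b ^ p).coeff n ∈ S) : ∀ n, b.coeff n ∈ S := by
  by_cases hb : b = 0
  · intro n
    rw [hb, HahnSeries.coeff_zero]
    exact S.zero_mem
  set B := b.powerSeriesPart with hBdef
  have hbB : HahnSeries.single b.order (1 : L) * HahnSeries.ofPowerSeries ℤ L B = b :=
    LaurentSeries.single_order_mul_powerSeriesPart b
  have hB0 : PowerSeries.coeff 0 B ≠ 0 := by
    rw [hBdef, LaurentSeries.powerSeriesPart_coeff]
    simpa using (HahnSeries.coeff_order_eq_zero (x := b)).not.2 hb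
  have hBp : B ^ p ∈ coeffSubring S := by
    intro n
    have e : b ^ p = HahnSeries.single (p • b.order) (1 : L)
        * HahnSeries.ofPowerSeries ℤ L (B ^ p) := by
      conv_lhs => rw [← hbB]
      rw [mul_pow, HahnSeries.single_pow, one_pow, map_pow]
    have h2 := hbp ((n : ℤ) + p • b.order)
    rw [e, HahnSeries.coeff_single_mul_add, one_mul, HahnSeries.ofPowerSeries_apply_coeff] at h2
    exact h2
  have hB := mem_coeffSubring_of_pow S hp hroot B hB0 hBp
  intro n
  by_cases hn : b.order ≤ n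
  · obtain ⟨k, hk⟩ := Int.le.dest hn
    have := hB k
    rw [hBdef, LaurentSeries.powerSeriesPart_coeff, hk] at this
    exact this
  · rw [HahnSeries.coeff_eq_zero_of_lt_order (not_le.1 hn)]
    exact S.zero_mem

/-- A Laurent series with coefficients in the range of `ι` is in the range of `coeffMap ι`. -/
theorem exists_coeffMap_eq_of_coeff_mem (ι : K →+* L) (b : LaurentSeries L)
    (hb : ∀ n, b.coeff n ∈ ι.fieldRange) : ∃ v : LaurentSeries K, coeffMap ι v = b := by
  classical
  have hex : ∀ n, ∃ a : K, ι a = b.coeff n := fun n => RingHom.mem_fieldRange.1 (hb n)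
  let g : ℤ → K := fun n => if b.coeff n = 0 then 0 else Classical.choose (hex n)
  have hg : ∀ n, ι (g n) = b.coeff n := by
    intro n
    by_cases h0 : b.coeff n = 0
    · simp only [g, if_pos h0, map_zero, h0]
    · simp only [g, if_neg h0]
      exact Classical.choose_spec (hex n)
  have hsupp : Function.support g ⊆ b.support := by
    intro n hn
    rw [Function.mem_support] at hn
    rw [HahnSeries.mem_support]
    intro h0
    apply hn
    simp only [g, if_pos h0]
  refine ⟨⟨g, b.isPWO_support.mono hsupp⟩, ?_⟩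
  ext n
  rw [coeffMap_coeff]
  exact hg n

/-- **PROOT**: a Laurent series over `L` whose `p`-th power has coefficients in the algebraically
closed subfield `ι K` (with `p` invertible in `K`) has coefficients in `ι K`. -/
theorem exists_coeffMap_eq_of_pow [IsAlgClosed K] (ι : K →+* L) {p : ℕ} (hp : (p : K) ≠ 0)
    (b : LaurentSeries L) (w : LaurentSeries K) (h : b ^ p = coeffMap ι w) :
    ∃ v : LaurentSeries K, coeffMap ι v = b := by
  have hp0 : p ≠ 0 := by
    rintro rfl
    exact hp (by simp)
  have hpL : (p : L) ≠ 0 := by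
    have := (map_ne_zero ι).2 hp
    rwa [map_natCast] at this
  apply exists_coeffMap_eq_of_coeff_mem
  apply laurent_coeff_mem_of_pow ι.fieldRange hpL
  · intro x hx
    obtain ⟨c, hc⟩ := RingHom.mem_fieldRange.1 hx
    let _ : Algebra K L := ι.toAlgebra
    have hint : IsIntegral K x := by
      refine ⟨Polynomial.X ^ p - Polynomial.C c, Polynomial.monic_X_pow_sub_C c hp0, ?_⟩
      rw [Polynomial.eval₂_sub, Polynomial.eval₂_pow, Polynomial.eval₂_X, Polynomial.eval₂_C]
      show x ^ p - ι c = 0
      rw [hc, sub_self]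
    have hdeg := IsAlgClosed.degree_eq_one_of_irreducible K (minpoly.irreducible hint)
    have := minpoly.mem_range_of_degree_eq_one K x hdeg
    obtain ⟨a, ha⟩ := this
    exact RingHom.mem_fieldRange.2 ⟨a, ha⟩
  · intro n
    rw [h, coeffMap_coeff]
    exact RingHom.mem_fieldRange.2 ⟨_, rfl⟩

end Laurent

end Fermat.Agent.S29.M4b.H89.PRoot

end
end
-- ===== PACK-END S29/M4b/H89/PRoot.lean

-- ===== PACK-BEGIN Lib/RR/H638/LinAlg.lean
section


/-!
# Linear algebra for the Čech formula (helper638)

`finrank_map_mkQ_of_exhaust`: if `V` is exhausted by an increasing chain of finite-dimensional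
subspaces `Vₙ` with `dim Vₙ = dim (W ⊓ Vₙ) + g` for `n ≥ n₀`, then the image of `V` in `E ⧸ W`
has dimension `g`.
-/

set_option autoImplicit false

namespace Fermat.Agent.Lib.RR.H638

variable {K E : Type*} [Field K] [AddCommGroup E] [Module K E]

theorem finrank_map_mkQ_add (W U : Submodule K E) [Module.Finite K U] :
    Module.finrank K ↥(U.map W.mkQ) + Module.finrank K ↥(W ⊓ U) = Module.finrank K U := by
  have h := LinearMap.finrank_range_add_finrank_ker (W.mkQ.comp U.subtype)
  have hr : LinearMap.range (W.mkQ.comp U.subtype) = U.map W.mkQ := by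
    rw [LinearMap.range_comp, Submodule.range_subtype]
  have hk : LinearMap.ker (W.mkQ.comp U.subtype) = Submodule.comap U.subtype (W ⊓ U) := by
    rw [LinearMap.ker_comp, Submodule.ker_mkQ, Submodule.comap_inf, Submodule.comap_subtype_self,
      inf_top_eq]
  rw [hr, hk] at h
  have e := Submodule.comapSubtypeEquivOfLe (inf_le_right : W ⊓ U ≤ U)
  rw [← h, e.finrank_eq]

theorem finrank_map_mkQ_of_exhaust (V W : Submodule K E) (Vn : ℕ → Submodule K E)
    (hmono : Monotone Vn) (hfin : ∀ n, Module.Finite K (Vn n)) (hVn : ∀ n, Vn n ≤ V)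
    (hex : ∀ f ∈ V, ∃ n, f ∈ Vn n) (g n0 : ℕ)
    (hdim : ∀ n, n0 ≤ n → Module.finrank K (Vn n) = Module.finrank K ↥(W ⊓ Vn n) + g) :
    Module.Finite K ↥(V.map W.mkQ) ∧ Module.finrank K ↥(V.map W.mkQ) = g := by
  have hI : ∀ n, n0 ≤ n → Module.finrank K ↥((Vn n).map W.mkQ) = g := by
    intro n hn
    have := hfin n
    have h1 := finrank_map_mkQ_add W (Vn n)
    have h2 := hdim n hn
    omega
  have hfinI : ∀ n, Module.Finite K ↥((Vn n).map W.mkQ) := fun n => by
    have := hfin n
    infer_instance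
  have heq : ∀ n, n0 ≤ n → (Vn n0).map W.mkQ = (Vn n).map W.mkQ := by
    intro n hn
    have := hfinI n
    exact Submodule.eq_of_le_of_finrank_eq (Submodule.map_mono (hmono hn))
      ((hI n0 le_rfl).trans (hI n hn).symm)
  have htop : V.map W.mkQ = (Vn n0).map W.mkQ := by
    apply le_antisymm
    · rintro _ ⟨f, hf, rfl⟩
      obtain ⟨n, hn⟩ := hex f hf
      have hle : Vn n ≤ Vn (max n n0) := hmono (le_max_left _ _)
      rw [heq (max n n0) (le_max_right _ _)]
      exact ⟨f, hle hn, rfl⟩
    · exact Submodule.map_mono (hVn n0)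
  rw [htop]
  exact ⟨hfinI n0, hI n0 le_rfl⟩

end Fermat.Agent.Lib.RR.H638

end
-- ===== PACK-END Lib/RR/H638/LinAlg.lean

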