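import Mathlib
import Fermat.Prelude.Def_GaloisRep_Flat
import Fermat.Prelude.Def_ModularCurve_ArithmeticGalois
import Fermat.Prelude.Def_ModularCurve_IgusaScheme
import Fermat.Prelude.Def_ModularCurve_X0ModL
import Fermat.Prelude.Def_ModularCurve_X0
import Fermat.Prelude.Def_AlgebraicCurve_DivisorClassGroup
import Mathlib.RingTheory.IntegralClosure.IsIntegralClosure.Basic
import Mathlib.RingTheory.LocalRing.MaximalIdeal.Basic
import Mathlib.RingTheory.Nakayama
import Mathlib.RingTheory.Polynomial.Basic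
import Mathlib.Algebra.Polynomial.Taylor
import Mathlib.RingTheory.Finiteness.Basic
import Mathlib.RingTheory.Adjoin.FG
import Fermat.Agent.Pack.S3234.G0E0L2

-- ===== PACK-BEGIN S19/Defs.lean
section




/-!
# Cell A3 (S19) — FROZEN top-level interface (row-lead helper15)

Route Z (origin/helper15:coord/A3.md, origin/helper19:coord/A3-route-helper19.md):

    frozen S19  <==  FIN (torsion finite)  +  ORDER (an `OrderDatum` for the torsion)
    ORD block   :  `OrdStatement`   : OrderDatum  ==>  HopfModel          (pure algebra)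
    glue        :  `S19_of_hopfModel` (file `Glue.lean`)                  (unfolding)

Everything here is definitions only.  Interfaces are frozen; ask helper15 (note kind 'interface')
before proposing a change.
-/

set_option autoImplicit false

noncomputable section

namespace Fermat.Agent.S19

/-- `Q̄`. -/
abbrev Qb : Type := AlgebraicClosure ℚ

/-- `Gal(Q̄/Q)`. -/
abbrev GalQ : Type := Qb ≃ₐ[ℚ] Qb

/-- `Z_(ℓ)` as a subring of `ℚ` (the Prelude ring). -/
abbrev Rl (ℓ : ℕ) : Subring ℚ := GaloisRep.ratLocalizedAt ℓ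

/-- The integral closure of `Z_(ℓ)` in `Q̄`. -/
abbrev Zb (ℓ : ℕ) : Subalgebra (Rl ℓ) Qb := integralClosure (Rl ℓ) Qb

/-- The S19-shaped conclusion for an abstract module `M` with a map `act : Gal → M → M`:
a finite flat commutative cocommutative Hopf algebra over `Z_(ℓ)` whose `Q̄`-points are `M`,
additively and Galois-equivariantly. -/
def HopfModel (ℓ : ℕ) (M : Type) [AddCommGroup M] (act : GalQ → M → M) : Prop :=
  ∃ (H : Type) (_ : CommRing H) (_ : HopfAlgebra (Rl ℓ) H),
    Module.Finite (Rl ℓ) H ∧ Module.Flat (Rl ℓ) H ∧ Coalgebra.IsCocomm (Rl ℓ) H ∧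
    ∃ e : WithConv (H →ₐ[Rl ℓ] Qb) ≃ M,
      (∀ f g, e (f * g) = e f + e g) ∧
      ∀ (σ : GalQ) (f g : WithConv (H →ₐ[Rl ℓ] Qb)),
        (∀ h : H, g h = σ (f h)) → e g = act σ (e f)

/-- The two families of "coordinate functions" on `M × M` coming from a set of functions on `M`. -/
def coordFunctions {M : Type} (S : Set (M → Qb)) : Set (M × M → Qb) :=
  {g | ∃ h ∈ S, g = fun p => h p.1} ∪ {g | ∃ h ∈ S, g = fun p => h p.2}

/-- **ORDER datum** (route Z, §0): a set `gens` of functions `M → Q̄` which are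
Galois-equivariant, have values integral over `Z_(ℓ)`, separate the points of `M`, and whose
translates `(s,t) ↦ f (s+t)` are `Z̄_(ℓ)`-polynomial in the coordinate functions
`(s,t) ↦ h s`, `(s,t) ↦ h t`  (`h ∈ gens`).

* The only axiom on `act` is additivity `act_add` (v2, 18:30Z: without it `OrdStatement` is
  false — counterexamples by helper979, helper259, helper79); no finiteness of `gens`, no
  closure of `gens` under anything.
* `add_mem` is over `Zb ℓ` (integral closure in `Q̄`), which is WEAKER than over `Z_(ℓ)`;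
  the ORD block proves that it implies the statement over `Z_(ℓ)`. -/
structure OrderDatum (ℓ : ℕ) (M : Type) [AddCommGroup M] (act : GalQ → M → M) where
  act_add : ∀ (σ : GalQ) (a b : M), act σ (a + b) = act σ a + act σ b
  gens : Set (M → Qb)
  equivariant : ∀ f ∈ gens, ∀ (σ : GalQ) (m : M), f (act σ m) = σ (f m)
  integral : ∀ f ∈ gens, ∀ m : M, IsIntegral (Rl ℓ) (f m)
  separates : ∀ m m' : M, (∀ f ∈ gens, f m = f m') → m = m'
  add_mem : ∀ f ∈ gens, (fun p : M × M => f (p.1 + p.2)) ∈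
    Algebra.adjoin (Zb ℓ) (coordFunctions gens)

/-- **ORD block** (pure algebra): an order datum on a finite module gives a Hopf model. -/
def OrdStatement : Prop :=
  ∀ (ℓ : ℕ) [Fact ℓ.Prime] (M : Type) [AddCommGroup M] [Finite M] (act : GalQ → M → M),
    Nonempty (OrderDatum ℓ M act) → HopfModel ℓ M act

/-- The torsion module of S19 with its Galois action. -/
abbrev Tors (N ℓ k : ℕ) : Type := ↥(Submodule.torsionBy ℤ (ModularCurve.JZero N) ((ℓ : ℤ) ^ k))

/-- Galois action on the torsion. -/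
def torsAct (N ℓ k : ℕ) (σ : GalQ) (m : Tors N ℓ k) : Tors N ℓ k :=
  ⟨σ • (m : ModularCurve.JZero N), by
    have h := m.2
    rw [Submodule.mem_torsionBy_iff] at h ⊢
    have h2 := (DistribSMul.toAddMonoidHom (ModularCurve.JZero N) σ).map_zsmul
      ((ℓ : ℤ) ^ k) (m : ModularCurve.JZero N)
    rw [h, map_zero] at h2
    exact h2.symm⟩

@[simp] theorem coe_torsAct (N ℓ k : ℕ) (σ : GalQ) (m : Tors N ℓ k) :
    ((torsAct N ℓ k σ m : Tors N ℓ k) : ModularCurve.JZero N) = σ • (m : ModularCurve.JZero N) :=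
  rfl

/-- **FIN block**: the torsion is finite. -/
def FinStatement : Prop :=
  ∀ (N : ℕ) [NeZero N] (ℓ : ℕ) [Fact ℓ.Prime] (k : ℕ), Finite (Tors N ℓ k)

theorem torsAct_add (N ℓ k : ℕ) (σ : GalQ) (a b : Tors N ℓ k) :
    torsAct N ℓ k σ (a + b) = torsAct N ℓ k σ a + torsAct N ℓ k σ b :=
  Subtype.ext (smul_add σ (a : ModularCurve.JZero N) (b : ModularCurve.JZero N))

/-- **ORDER block** (the geometric wall): the torsion carries an order datum. -/
def OrderStatement : Prop :=
  ∀ (N : ℕ) [NeZero N] (ℓ : ℕ) [Fact ℓ.Prime], ¬ ℓ ∣ N → ∀ k : ℕ,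
    Nonempty (OrderDatum ℓ (Tors N ℓ k) (torsAct N ℓ k))

end Fermat.Agent.S19

end

end
-- ===== PACK-END S19/Defs.lean

-- ===== PACK-BEGIN S19/H135/Defs.lean
section
/-
Cell A3 / WP-C (helper135): closure algebra for "flat models" (the S19 / `IsFlatAt` existential).
Definitions: `FlatModel`, pull-back algebra maps on function algebras, Hopf lattices.
-/



set_option autoImplicit false

namespace Fermat.Agent.S19.H135

/-- The `S19` / `GaloisRepAdic.IsFlatAt` existential for an arbitrary additive group `M` with a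
family of maps `act σ : M → M` indexed by the absolute Galois group of `ℚ`. -/
def FlatModel (ℓ : ℕ) (M : Type) [AddCommGroup M]
    (act : (AlgebraicClosure ℚ ≃ₐ[ℚ] AlgebraicClosure ℚ) → M → M) : Prop :=
  ∃ (H : Type) (_ : CommRing H) (_ : HopfAlgebra (GaloisRep.ratLocalizedAt ℓ) H),
    Module.Finite (GaloisRep.ratLocalizedAt ℓ) H ∧ Module.Flat (GaloisRep.ratLocalizedAt ℓ) H ∧
    Coalgebra.IsCocomm (GaloisRep.ratLocalizedAt ℓ) H ∧
    ∃ e : WithConv (H →ₐ[GaloisRep.ratLocalizedAt ℓ] AlgebraicClosure ℚ) ≃ M,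
      (∀ f g : WithConv (H →ₐ[GaloisRep.ratLocalizedAt ℓ] AlgebraicClosure ℚ),
        e (f * g) = e f + e g) ∧
      ∀ (σ : AlgebraicClosure ℚ ≃ₐ[ℚ] AlgebraicClosure ℚ)
        (f g : WithConv (H →ₐ[GaloisRep.ratLocalizedAt ℓ] AlgebraicClosure ℚ)),
        (∀ h : H, g h = σ (f h)) → e g = act σ (e f)

/-- `IsFlatAt` is, by definition, `FlatModel` for all finite quotients `V / I V`. -/
theorem isFlatAt_iff {A : Type} [CommRing A] [IsLocalRing A] (ρ : GaloisRepAdic A) (p : ℕ) :
    ρ.IsFlatAt p ↔ Finite (IsLocalRing.ResidueField A) ∧ ∀ I : Ideal A, Finite (A ⧸ I) →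
      FlatModel p (ρ.V ⧸ (I • (⊤ : Submodule A ρ.V))) (fun σ x => ρ.levelAction I σ x) :=
  Iff.rfl

section Pull

variable (R : Type*) [CommSemiring R] (K : Type*) [CommSemiring K] [Algebra R K]
variable {X Y Z : Type*}

/-- Pull-back of functions along `φ : X → Y`, as an algebra homomorphism. -/
def pull (φ : X → Y) : (Y → K) →ₐ[R] (X → K) :=
  AlgHom.pi (fun x => Pi.evalAlgHom R (fun _ => K) (φ x))

@[simp] lemma pull_apply (φ : X → Y) (f : Y → K) (x : X) : pull R K φ f x = f (φ x) := rfl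

lemma pull_comp (φ : X → Y) (ψ : Y → Z) :
    (pull R K φ).comp (pull R K ψ) = pull R K (ψ ∘ φ) := rfl

lemma pull_injective {φ : X → Y} (hφ : Function.Surjective φ) :
    Function.Injective (pull R K φ) := by
  intro f g h
  funext y
  obtain ⟨x, rfl⟩ := hφ y
  exact congrFun h x

lemma pull_surjective [Nonempty K] {φ : X → Y} (hφ : Function.Injective φ) :
    Function.Surjective (pull R K φ) := by
  classical
  intro f
  refine ⟨fun y => if h : ∃ x, φ x = y then f h.choose else Classical.arbitrary K, ?_⟩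
  funext x
  have hx : ∃ x', φ x' = φ x := ⟨x, rfl⟩
  simp only [pull_apply, dif_pos hx]
  exact congrArg f (hφ hx.choose_spec)

end Pull

/-- A *Hopf lattice* for `(M, act)`: an `ℤ_(ℓ)`-subalgebra `Λ` of the algebra of functions
`M → ℚ̄`, finitely generated as a module, consisting of Galois-equivariant functions, separating
the points of `M`, and closed under "comultiplication" `f ↦ ((m, n) ↦ f (m + n))`. -/
structure IsHopfLattice (ℓ : ℕ) {M : Type} [AddCommGroup M]
    (act : (AlgebraicClosure ℚ ≃ₐ[ℚ] AlgebraicClosure ℚ) → M → M)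
    (Λ : Subalgebra (GaloisRep.ratLocalizedAt ℓ) (M → AlgebraicClosure ℚ)) : Prop where
  fg : (Subalgebra.toSubmodule Λ).FG
  equivariant : ∀ f ∈ Λ, ∀ (σ : AlgebraicClosure ℚ ≃ₐ[ℚ] AlgebraicClosure ℚ) (m : M),
    f (act σ m) = σ (f m)
  separates : ∀ m n : M, (∀ f ∈ Λ, f m = f n) → m = n
  comul : Λ.map (pull (GaloisRep.ratLocalizedAt ℓ) (AlgebraicClosure ℚ)
        (fun p : M × M => p.1 + p.2)) ≤
      Λ.map (pull (GaloisRep.ratLocalizedAt ℓ) (AlgebraicClosure ℚ) (Prod.fst : M × M → M)) ⊔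
      Λ.map (pull (GaloisRep.ratLocalizedAt ℓ) (AlgebraicClosure ℚ) (Prod.snd : M × M → M))

/-- `(M, act)` carries a Hopf lattice. -/
def HasHopfLattice (ℓ : ℕ) (M : Type) [AddCommGroup M]
    (act : (AlgebraicClosure ℚ ≃ₐ[ℚ] AlgebraicClosure ℚ) → M → M) : Prop :=
  ∃ Λ : Subalgebra (GaloisRep.ratLocalizedAt ℓ) (M → AlgebraicClosure ℚ), IsHopfLattice ℓ act Λ

/-- Layer 0 (the construction of the Hopf algebra from a lattice), as a hypothesis. -/
def Layer0 (ℓ : ℕ) : Prop :=
  ∀ (M : Type) [AddCommGroup M] (act : (AlgebraicClosure ℚ ≃ₐ[ℚ] AlgebraicClosure ℚ) → M → M),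
    HasHopfLattice ℓ M act → FlatModel ℓ M act

end Fermat.Agent.S19.H135

end
-- ===== PACK-END S19/H135/Defs.lean

-- ===== PACK-BEGIN S19/H135/OfFlatModel.lean
section
/-
Cell A3 / WP-C (helper135): a flat model yields a Hopf lattice (image of the Hopf algebra under
evaluation at its `ℚ̄`-points).  No reducedness of `H ⊗ ℚ` is needed.
-/


set_option autoImplicit false

namespace Fermat.Agent.S19.H135

open TensorProduct

theorem FlatModel.hasHopfLattice {ℓ : ℕ} {M : Type} [AddCommGroup M]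
    {act : (AlgebraicClosure ℚ ≃ₐ[ℚ] AlgebraicClosure ℚ) → M → M}
    (h : FlatModel ℓ M act) : HasHopfLattice ℓ M act := by
  obtain ⟨H, _, _, hfin, -, -, e, hadd, hgal⟩ := h
  let ev : H →ₐ[GaloisRep.ratLocalizedAt ℓ] (M → AlgebraicClosure ℚ) :=
    AlgHom.pi (fun m => (e.symm m).ofConv)
  have ev_apply : ∀ (x : H) (m : M), ev x m = (e.symm m).ofConv x := fun _ _ => rfl
  refine ⟨ev.range, ?_, ?_, ?_, ?_⟩
  · -- finitely generated
    have h1 : Subalgebra.toSubmodule ev.range = LinearMap.range ev.toLinearMap := rfl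
    rw [h1, LinearMap.range_eq_map]
    exact Submodule.FG.map _ hfin.fg_top
  · -- equivariance
    rintro f ⟨x, rfl⟩ σ m
    let g₀ : WithConv (H →ₐ[GaloisRep.ratLocalizedAt ℓ] AlgebraicClosure ℚ) :=
      WithConv.toConv (((σ : AlgebraicClosure ℚ →ₐ[ℚ] AlgebraicClosure ℚ).restrictScalars
        (GaloisRep.ratLocalizedAt ℓ)).comp (e.symm m).ofConv)
    have h2 : e g₀ = act σ (e (e.symm m)) := hgal σ (e.symm m) g₀ (fun _ => rfl)
    rw [Equiv.apply_symm_apply] at h2
    have h3 : e.symm (act σ m) = g₀ := by rw [← h2, Equiv.symm_apply_apply]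
    show (e.symm (act σ m)).ofConv x = σ ((e.symm m).ofConv x)
    rw [h3]
    rfl
  · -- separation
    intro m n hmn
    have : e.symm m = e.symm n := by
      apply WithConv.ofConv_injective
      apply AlgHom.ext
      intro x
      exact hmn (ev x) ⟨x, rfl⟩
    exact e.symm.injective this
  · -- comultiplication
    rintro F ⟨f, ⟨x, rfl⟩, rfl⟩
    set S := Subalgebra.map (pull (GaloisRep.ratLocalizedAt ℓ) (AlgebraicClosure ℚ)
        (Prod.fst : M × M → M)) ev.range ⊔
      Subalgebra.map (pull (GaloisRep.ratLocalizedAt ℓ) (AlgebraicClosure ℚ)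
        (Prod.snd : M × M → M)) ev.range with hS
    have hsymm : ∀ m n : M, e.symm (m + n) = e.symm m * e.symm n := by
      intro m n
      apply e.injective
      rw [hadd]
      simp
    have key : ∀ t : H ⊗[GaloisRep.ratLocalizedAt ℓ] H,
        (fun p : M × M => Algebra.TensorProduct.lift (e.symm p.1).ofConv (e.symm p.2).ofConv
          (fun _ _ => Commute.all _ _) t) ∈ S := by
      intro t
      induction t using TensorProduct.induction_on with
      | zero =>
        have : (fun p : M × M => Algebra.TensorProduct.lift (e.symm p.1).ofConv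
            (e.symm p.2).ofConv (fun _ _ => Commute.all _ _)
            (0 : H ⊗[GaloisRep.ratLocalizedAt ℓ] H)) = 0 := by
          funext p; simp
        rw [this]; exact S.zero_mem
      | tmul a b =>
        have : (fun p : M × M => Algebra.TensorProduct.lift (e.symm p.1).ofConv
            (e.symm p.2).ofConv (fun _ _ => Commute.all _ _) (a ⊗ₜ[GaloisRep.ratLocalizedAt ℓ] b))
            = pull (GaloisRep.ratLocalizedAt ℓ) (AlgebraicClosure ℚ) (Prod.fst : M × M → M) (ev a)
              * pull (GaloisRep.ratLocalizedAt ℓ) (AlgebraicClosure ℚ)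
                (Prod.snd : M × M → M) (ev b) := by
          funext p
          simp [ev_apply]
        rw [this]
        refine S.mul_mem ?_ ?_
        · exact (le_sup_left : _ ≤ S) ⟨ev a, ⟨a, rfl⟩, rfl⟩
        · exact (le_sup_right : _ ≤ S) ⟨ev b, ⟨b, rfl⟩, rfl⟩
      | add t₁ t₂ h₁ h₂ =>
        have : (fun p : M × M => Algebra.TensorProduct.lift (e.symm p.1).ofConv
            (e.symm p.2).ofConv (fun _ _ => Commute.all _ _) (t₁ + t₂)) =
            (fun p : M × M => Algebra.TensorProduct.lift (e.symm p.1).ofConv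
              (e.symm p.2).ofConv (fun _ _ => Commute.all _ _) t₁) +
            (fun p : M × M => Algebra.TensorProduct.lift (e.symm p.1).ofConv
              (e.symm p.2).ofConv (fun _ _ => Commute.all _ _) t₂) := by
          funext p; simp
        rw [this]; exact S.add_mem h₁ h₂
    have hF : pull (GaloisRep.ratLocalizedAt ℓ) (AlgebraicClosure ℚ)
        (fun p : M × M => p.1 + p.2) (ev x) =
        (fun p : M × M => Algebra.TensorProduct.lift (e.symm p.1).ofConv (e.symm p.2).ofConv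
          (fun _ _ => Commute.all _ _) (Coalgebra.comul x)) := by
      funext p
      show (e.symm (p.1 + p.2)).ofConv x = _
      rw [hsymm]
      exact AlgHom.convMul_apply _ _ _
    show pull (GaloisRep.ratLocalizedAt ℓ) (AlgebraicClosure ℚ)
        (fun p : M × M => p.1 + p.2) (ev x) ∈ S
    rw [hF]
    exact key _

end Fermat.Agent.S19.H135

end
-- ===== PACK-END S19/H135/OfFlatModel.lean

-- ===== PACK-BEGIN S19/H135/Basic.lean
section
/-
Cell A3 / WP-C (helper135): basic consequences of the Hopf lattice axioms.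
-/


set_option autoImplicit false

namespace Fermat.Agent.S19.H135

section Box

variable {R : Type*} [CommRing R] {K : Type*} [CommRing K] [Algebra R K]
variable {X Y : Type*}

/-- Induction principle for the "box product" `pr₁^* Λ₁ ⊔ pr₂^* Λ₂` of two subalgebras of
function algebras: its elements are sums of products `a(x) b(y)`. -/
theorem box_induction {Λ₁ : Subalgebra R (X → K)} {Λ₂ : Subalgebra R (Y → K)}
    {C : (X × Y → K) → Prop} {F : X × Y → K}
    (hF : F ∈ Λ₁.map (pull R K (Prod.fst : X × Y → X)) ⊔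
      Λ₂.map (pull R K (Prod.snd : X × Y → Y)))
    (hmul : ∀ a ∈ Λ₁, ∀ b ∈ Λ₂, C (fun p => a p.1 * b p.2))
    (hadd : ∀ F₁ F₂, C F₁ → C F₂ → C (F₁ + F₂)) : C F := by
  rw [← Subalgebra.mem_toSubmodule, ← Subalgebra.mul_toSubmodule] at hF
  refine Submodule.mul_induction_on hF ?_ hadd
  rintro _ ⟨a, ha, rfl⟩ _ ⟨b, hb, rfl⟩
  exact hmul a ha b hb

theorem mul_mem_box {Λ₁ : Subalgebra R (X → K)} {Λ₂ : Subalgebra R (Y → K)}
    {a : X → K} (ha : a ∈ Λ₁) {b : Y → K} (hb : b ∈ Λ₂) :
    (fun p : X × Y => a p.1 * b p.2) ∈ Λ₁.map (pull R K (Prod.fst : X × Y → X)) ⊔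
      Λ₂.map (pull R K (Prod.snd : X × Y → Y)) :=
  Subalgebra.mul_mem _ ((le_sup_left : Λ₁.map (pull R K (Prod.fst : X × Y → X)) ≤ _)
      ⟨a, ha, rfl⟩)
    ((le_sup_right : Λ₂.map (pull R K (Prod.snd : X × Y → Y)) ≤ _) ⟨b, hb, rfl⟩)

end Box

namespace IsHopfLattice

variable {ℓ : ℕ} {M : Type} [AddCommGroup M]
  {act : (AlgebraicClosure ℚ ≃ₐ[ℚ] AlgebraicClosure ℚ) → M → M}
  {Λ : Subalgebra (GaloisRep.ratLocalizedAt ℓ) (M → AlgebraicClosure ℚ)}

theorem comul_mem (hΛ : IsHopfLattice ℓ act Λ) {f : M → AlgebraicClosure ℚ} (hf : f ∈ Λ) :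
    (fun p : M × M => f (p.1 + p.2)) ∈
      Λ.map (pull (GaloisRep.ratLocalizedAt ℓ) (AlgebraicClosure ℚ) (Prod.fst : M × M → M)) ⊔
      Λ.map (pull (GaloisRep.ratLocalizedAt ℓ) (AlgebraicClosure ℚ) (Prod.snd : M × M → M)) :=
  hΛ.comul ⟨f, hf, rfl⟩

theorem box_equivariant (hΛ : IsHopfLattice ℓ act Λ) {F : M × M → AlgebraicClosure ℚ}
    (hF : F ∈ Λ.map (pull (GaloisRep.ratLocalizedAt ℓ) (AlgebraicClosure ℚ)
        (Prod.fst : M × M → M)) ⊔
      Λ.map (pull (GaloisRep.ratLocalizedAt ℓ) (AlgebraicClosure ℚ) (Prod.snd : M × M → M)))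
    (σ : AlgebraicClosure ℚ ≃ₐ[ℚ] AlgebraicClosure ℚ) (m n : M) :
    F (act σ m, act σ n) = σ (F (m, n)) := by
  refine box_induction (C := fun F => F (act σ m, act σ n) = σ (F (m, n))) hF ?_ ?_
  · intro a ha b hb
    simp only [hΛ.equivariant a ha, hΛ.equivariant b hb, map_mul]
  · intro F₁ F₂ h₁ h₂
    simp only [Pi.add_apply, h₁, h₂, map_add]

theorem act_add (hΛ : IsHopfLattice ℓ act Λ) (σ : AlgebraicClosure ℚ ≃ₐ[ℚ] AlgebraicClosure ℚ)
    (m n : M) : act σ (m + n) = act σ m + act σ n := by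
  apply hΛ.separates
  intro f hf
  rw [hΛ.equivariant f hf]
  exact (hΛ.box_equivariant (hΛ.comul_mem hf) σ m n).symm

theorem act_one (hΛ : IsHopfLattice ℓ act Λ) (m : M) : act 1 m = m := by
  apply hΛ.separates
  intro f hf
  rw [hΛ.equivariant f hf]
  rfl

theorem act_mul (hΛ : IsHopfLattice ℓ act Λ)
    (σ τ : AlgebraicClosure ℚ ≃ₐ[ℚ] AlgebraicClosure ℚ) (m : M) :
    act (σ * τ) m = act σ (act τ m) := by
  apply hΛ.separates
  intro f hf
  rw [hΛ.equivariant f hf, hΛ.equivariant f hf, hΛ.equivariant f hf]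
  rfl

theorem act_zero (hΛ : IsHopfLattice ℓ act Λ)
    (σ : AlgebraicClosure ℚ ≃ₐ[ℚ] AlgebraicClosure ℚ) : act σ 0 = 0 := by
  have h := hΛ.act_add σ 0 0
  rw [add_zero] at h
  exact left_eq_add.mp h

/-- The action as a family of additive automorphisms. -/
noncomputable def actEquiv (hΛ : IsHopfLattice ℓ act Λ) (σ : AlgebraicClosure ℚ ≃ₐ[ℚ] AlgebraicClosure ℚ) :
    M ≃+ M where
  toFun := act σ
  invFun := act σ⁻¹
  left_inv m := by rw [← hΛ.act_mul, inv_mul_cancel, hΛ.act_one]
  right_inv m := by rw [← hΛ.act_mul, mul_inv_cancel, hΛ.act_one]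
  map_add' := hΛ.act_add σ

@[simp] theorem actEquiv_apply (hΛ : IsHopfLattice ℓ act Λ)
    (σ : AlgebraicClosure ℚ ≃ₐ[ℚ] AlgebraicClosure ℚ) (m : M) : hΛ.actEquiv σ m = act σ m := rfl

theorem act_bijective (hΛ : IsHopfLattice ℓ act Λ)
    (σ : AlgebraicClosure ℚ ≃ₐ[ℚ] AlgebraicClosure ℚ) : Function.Bijective (act σ) :=
  (hΛ.actEquiv σ).bijective

theorem act_neg (hΛ : IsHopfLattice ℓ act Λ)
    (σ : AlgebraicClosure ℚ ≃ₐ[ℚ] AlgebraicClosure ℚ) (m : M) : act σ (-m) = -act σ m :=
  map_neg (hΛ.actEquiv σ) m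

theorem act_sub (hΛ : IsHopfLattice ℓ act Λ)
    (σ : AlgebraicClosure ℚ ≃ₐ[ℚ] AlgebraicClosure ℚ) (m n : M) :
    act σ (m - n) = act σ m - act σ n :=
  map_sub (hΛ.actEquiv σ) m n

/-- Elements of a Hopf lattice are integral over `ℤ_(ℓ)`. -/
theorem isIntegral (hΛ : IsHopfLattice ℓ act Λ) {f : M → AlgebraicClosure ℚ} (hf : f ∈ Λ) :
    IsIntegral (GaloisRep.ratLocalizedAt ℓ) f :=
  IsIntegral.of_mem_of_fg Λ hΛ.fg f hf

/-- Values of elements of a Hopf lattice are integral over `ℤ_(ℓ)`. -/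
theorem isIntegral_apply (hΛ : IsHopfLattice ℓ act Λ) {f : M → AlgebraicClosure ℚ} (hf : f ∈ Λ)
    (m : M) : IsIntegral (GaloisRep.ratLocalizedAt ℓ) (f m) :=
  (hΛ.isIntegral hf).map (Pi.evalAlgHom (GaloisRep.ratLocalizedAt ℓ)
    (fun _ : M => AlgebraicClosure ℚ) m)

/-- The group carrying a Hopf lattice is finite. -/
theorem finite (hΛ : IsHopfLattice ℓ act Λ) : Finite M := by
  classical
  obtain ⟨s, hs⟩ := hΛ.fg
  have hsΛ : ∀ f ∈ s, f ∈ Λ := fun f hf => by
    have : f ∈ Submodule.span (GaloisRep.ratLocalizedAt ℓ) (s : Set (M → AlgebraicClosure ℚ)) :=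
      Submodule.subset_span hf
    rw [hs] at this
    exact this
  -- for each generator, a monic polynomial killing it
  have hpoly : ∀ f : s, ∃ P : Polynomial (GaloisRep.ratLocalizedAt ℓ), P.Monic ∧
      ∀ m : M, Polynomial.eval₂ (algebraMap _ (AlgebraicClosure ℚ)) (f.1 m) P = 0 := by
    intro f
    obtain ⟨P, hP, hP0⟩ := hΛ.isIntegral (hsΛ f.1 f.2)
    refine ⟨P, hP, fun m => ?_⟩
    have := congrArg (Pi.evalAlgHom (GaloisRep.ratLocalizedAt ℓ)
      (fun _ : M => AlgebraicClosure ℚ) m) hP0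
    rw [map_zero, ← Polynomial.aeval_def, ← Polynomial.aeval_algHom_apply] at this
    rw [← Polynomial.aeval_def]
    exact this
  choose P hPm hP0 using hpoly
  -- the target: tuples of roots
  let T : s → Set (AlgebraicClosure ℚ) := fun f =>
    {z | Polynomial.eval₂ (algebraMap _ (AlgebraicClosure ℚ)) z (P f) = 0}
  have hTfin : ∀ f, (T f).Finite := by
    intro f
    have hne : (P f).map (algebraMap _ (AlgebraicClosure ℚ)) ≠ 0 :=
      ((hPm f).map _).ne_zero
    refine Set.Finite.subset (((P f).map (algebraMap _ (AlgebraicClosure ℚ))).roots.toFinset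
      ).finite_toSet ?_
    intro z hz
    simp only [Finset.mem_coe, Multiset.mem_toFinset, Polynomial.mem_roots hne,
      Polynomial.IsRoot.def, Polynomial.eval_map]
    exact hz
  have : ∀ f, Finite (T f) := fun f => (hTfin f).to_subtype
  let Φ : M → (∀ f : s, T f) := fun m f => ⟨f.1 m, hP0 f m⟩
  have hΦ : Function.Injective Φ := by
    intro m n hmn
    apply hΛ.separates
    intro f hf
    have hf' : f ∈ Submodule.span (GaloisRep.ratLocalizedAt ℓ)
        (s : Set (M → AlgebraicClosure ℚ)) := by rw [hs]; exact hf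
    refine Submodule.span_induction (p := fun f _ => f m = f n) ?_ ?_ ?_ ?_ hf'
    · intro g hg
      have := congrFun hmn ⟨g, hg⟩
      exact congrArg Subtype.val this
    · rfl
    · intro g₁ g₂ _ _ h₁ h₂
      simp only [Pi.add_apply, h₁, h₂]
    · intro c g _ hg
      simp only [Pi.smul_apply, hg]
  exact Finite.of_injective Φ hΦ

end IsHopfLattice

end Fermat.Agent.S19.H135

end
-- ===== PACK-END S19/H135/Basic.lean

-- ===== PACK-BEGIN S28/H865Reduction.lean
section
/-
S28 helper (helper865): the REDUCTION MAP (V0).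

* `resZl ℓ : ℤ_(ℓ) →+* 𝔽_ℓ`, the residue map;
* `igV ℓ ⊆ ℚ((q))`, the localisation of `ℤ_(ℓ)((q))` at the prime `(ℓ)` (a discrete valuation
  ring with uniformiser `ℓ`), realised as a subring of `ℚ((q))`;
* `igRed ℓ : igV ℓ →+* 𝔽_ℓ((q))`, reduction of `q`-expansions modulo `ℓ`, with kernel `ℓ · igV ℓ`;
* `igE ℓ ⊆ ℚ((q))`, the fraction field of `igV ℓ`; it contains every `modularFunctionFieldFull N`;
* `igV ℓ` is integrally closed in `igE ℓ`; hence all charts `chartAlg N ℓ S`, `S ⊆ {j, j⁻¹}`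
  are contained in `igV ℓ`, which gives the reduction maps `chartRed`.
-/




set_option autoImplicit false

noncomputable section

namespace Fermat.Agent.S28.H865

open ModularCurve

section Residue

variable (ℓ : ℕ) [Fact ℓ.Prime]

theorem den_ne_zero_zmod (x : ↥(GaloisRep.ratLocalizedAt ℓ)) : ((x.1.den : ℕ) : ZMod ℓ) ≠ 0 := by
  rw [Ne, ZMod.natCast_eq_zero_iff]
  intro h
  have hc : Nat.Coprime x.1.den ℓ := x.2
  exact ((Nat.Prime.coprime_iff_not_dvd (Fact.out : ℓ.Prime)).mp hc.symm) h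

/-- The residue map `ℤ_(ℓ) → 𝔽_ℓ`. -/
def resZl : ↥(GaloisRep.ratLocalizedAt ℓ) →+* ZMod ℓ where
  toFun x := ((x.1 : ℚ) : ZMod ℓ)
  map_one' := by simp
  map_zero' := by simp
  map_mul' x y := by
    show (((x.1 * y.1 : ℚ)) : ZMod ℓ) = _
    exact Rat.cast_mul_of_ne_zero (den_ne_zero_zmod ℓ x) (den_ne_zero_zmod ℓ y)
  map_add' x y := by
    show (((x.1 + y.1 : ℚ)) : ZMod ℓ) = _
    exact Rat.cast_add_of_ne_zero (den_ne_zero_zmod ℓ x) (den_ne_zero_zmod ℓ y)

theorem resZl_apply (x : ↥(GaloisRep.ratLocalizedAt ℓ)) : resZl ℓ x = ((x.1 : ℚ) : ZMod ℓ) := rfl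

/-- The kernel of the residue map is `ℓ · ℤ_(ℓ)`. -/
theorem resZl_eq_zero_iff (x : ↥(GaloisRep.ratLocalizedAt ℓ)) :
    resZl ℓ x = 0 ↔ ∃ y : ↥(GaloisRep.ratLocalizedAt ℓ), x = (ℓ : ↥(GaloisRep.ratLocalizedAt ℓ)) * y := by
  constructor
  · intro h
    rw [resZl_apply, Rat.cast_def, div_eq_zero_iff] at h
    have hnum : ((x.1.num : ℤ) : ZMod ℓ) = 0 := h.resolve_right (den_ne_zero_zmod ℓ x)
    rw [ZMod.intCast_zmod_eq_zero_iff_dvd] at hnum
    obtain ⟨m, hm⟩ := hnum
    have hmem : (Rat.divInt m x.1.den) ∈ GaloisRep.ratLocalizedAt ℓ := by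
      show (Rat.divInt m x.1.den).den.Coprime ℓ
      have hdvd : (Rat.divInt m x.1.den).den ∣ x.1.den := by
        exact_mod_cast Rat.den_dvd m x.1.den
      exact Nat.Coprime.coprime_dvd_left hdvd x.2
    refine ⟨⟨Rat.divInt m x.1.den, hmem⟩, Subtype.ext ?_⟩
    have hd : ((x.1.den : ℕ) : ℚ) ≠ 0 := by exact_mod_cast x.1.den_ne_zero
    show x.1 = (((ℓ : ℕ) : ↥(GaloisRep.ratLocalizedAt ℓ)) : ℚ) * Rat.divInt m x.1.den
    rw [Rat.divInt_eq_div]
    conv_lhs => rw [← Rat.num_div_den x.1, hm]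
    push_cast
    ring
  · rintro ⟨y, rfl⟩
    rw [map_mul, map_natCast, ZMod.natCast_self, zero_mul]

theorem natCast_ne_zero_ratLocalizedAt : ((ℓ : ℕ) : ↥(GaloisRep.ratLocalizedAt ℓ)) ≠ 0 := by
  intro h
  have h2 := congrArg (Subtype.val : ↥(GaloisRep.ratLocalizedAt ℓ) → ℚ) h
  have h3 : ((ℓ : ℕ) : ℚ) = 0 := by simpa using h2
  exact (Fact.out : ℓ.Prime).ne_zero (by exact_mod_cast h3)

theorem padicValRat_nonneg_of_mem (x : ↥(GaloisRep.ratLocalizedAt ℓ)) :
    0 ≤ padicValRat ℓ x.1 := by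
  rw [padicValRat_def]
  have hc : Nat.Coprime x.1.den ℓ := x.2
  have hnd : ¬ ℓ ∣ x.1.den := (Nat.Prime.coprime_iff_not_dvd (Fact.out : ℓ.Prime)).mp hc.symm
  rw [padicValNat.eq_zero_of_not_dvd hnd]
  simp

/-- A nonzero element of `ℤ_(ℓ)` is not divisible by all powers of `ℓ`. -/
theorem exists_not_pow_dvd (r : ↥(GaloisRep.ratLocalizedAt ℓ)) (hr : r ≠ 0) :
    ∃ n : ℕ, ¬ ∃ s : ↥(GaloisRep.ratLocalizedAt ℓ),
      r = ((ℓ : ℕ) : ↥(GaloisRep.ratLocalizedAt ℓ)) ^ n * s := by
  by_contra hcon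
  push Not at hcon
  have hr1 : r.1 ≠ 0 := fun h => hr (Subtype.ext h)
  obtain ⟨s, hs⟩ := hcon ((padicValRat ℓ r.1).toNat + 1)
  have hs0 : s.1 ≠ 0 := by
    intro h
    apply hr
    rw [hs, show s = 0 from Subtype.ext h, mul_zero]
  have hℓ0 : ((ℓ : ℕ) : ℚ) ≠ 0 := by
    exact_mod_cast (Fact.out : ℓ.Prime).ne_zero
  have hval : padicValRat ℓ r.1 =
      (((padicValRat ℓ r.1).toNat + 1 : ℕ) : ℤ) + padicValRat ℓ s.1 := by
    have h1 : r.1 = ((ℓ : ℕ) : ℚ) ^ ((padicValRat ℓ r.1).toNat + 1) * s.1 := by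
      have := congrArg (Subtype.val : ↥(GaloisRep.ratLocalizedAt ℓ) → ℚ) hs
      simpa using this
    conv_lhs => rw [h1]
    rw [padicValRat.mul (pow_ne_zero _ hℓ0) hs0, padicValRat.pow,
      padicValRat.self (Fact.out : ℓ.Prime).one_lt, mul_one]
  have h2 := padicValRat_nonneg_of_mem ℓ s
  have h3 := Int.self_le_toNat (padicValRat ℓ r.1)
  push_cast at hval
  omega

end Residue

section Laurent

variable (ℓ : ℕ) [Fact ℓ.Prime]

/-- Coefficientwise inclusion `ℤ_(ℓ)((q)) → ℚ((q))`. -/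
def toQ : LaurentSeries ↥(GaloisRep.ratLocalizedAt ℓ) →+* LaurentSeries ℚ :=
  coeffMap (GaloisRep.ratLocalizedAt ℓ).subtype

/-- Coefficientwise reduction `ℤ_(ℓ)((q)) → 𝔽_ℓ((q))`. -/
def toRes : LaurentSeries ↥(GaloisRep.ratLocalizedAt ℓ) →+* LaurentSeries (ZMod ℓ) :=
  coeffMap (resZl ℓ)

omit [Fact ℓ.Prime] in
@[simp]
theorem toQ_coeff (a : LaurentSeries ↥(GaloisRep.ratLocalizedAt ℓ)) (k : ℤ) :
    (toQ ℓ a).coeff k = ((a.coeff k : ↥(GaloisRep.ratLocalizedAt ℓ)) : ℚ) := rfl

@[simp]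
theorem toRes_coeff (a : LaurentSeries ↥(GaloisRep.ratLocalizedAt ℓ)) (k : ℤ) :
    (toRes ℓ a).coeff k = resZl ℓ (a.coeff k) := rfl

omit [Fact ℓ.Prime] in
theorem toQ_injective : Function.Injective (toQ ℓ) := by
  intro a b h
  ext k
  have := congrArg (fun z => HahnSeries.coeff z k) h
  exact this

omit [Fact ℓ.Prime] in
theorem toQ_eq_zero_iff (a : LaurentSeries ↥(GaloisRep.ratLocalizedAt ℓ)) :
    toQ ℓ a = 0 ↔ a = 0 :=
  map_eq_zero_iff (toQ ℓ) (toQ_injective ℓ)

theorem natCast_mul_coeff {S : Type*} [CommRing S] (n : ℕ) (a : LaurentSeries S) (k : ℤ) :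
    (((n : ℕ) : LaurentSeries S) * a).coeff k = (n : S) * a.coeff k := by
  rw [← map_natCast (HahnSeries.C : S →+* LaurentSeries S) n, HahnSeries.C_mul_eq_smul,
    HahnSeries.coeff_smul, smul_eq_mul]

/-- Division by `ℓ` on `ℤ_(ℓ)` (junk value `0` on non-multiples). -/
def divL (r : ↥(GaloisRep.ratLocalizedAt ℓ)) : ↥(GaloisRep.ratLocalizedAt ℓ) :=
  if h : resZl ℓ r = 0 then Classical.choose ((resZl_eq_zero_iff ℓ r).mp h) else 0

theorem divL_spec {r : ↥(GaloisRep.ratLocalizedAt ℓ)} (h : resZl ℓ r = 0) :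
    r = ((ℓ : ℕ) : ↥(GaloisRep.ratLocalizedAt ℓ)) * divL ℓ r := by
  rw [divL, dif_pos h]
  exact Classical.choose_spec ((resZl_eq_zero_iff ℓ r).mp h)

theorem divL_zero : divL ℓ 0 = 0 := by
  have h := divL_spec ℓ (r := 0) (map_zero _)
  rcases mul_eq_zero.mp h.symm with h1 | h1
  · exact absurd h1 (natCast_ne_zero_ratLocalizedAt ℓ)
  · exact h1

/-- The kernel of `ℤ_(ℓ)((q)) → 𝔽_ℓ((q))` is generated by `ℓ`. -/
theorem toRes_eq_zero_iff (a : LaurentSeries ↥(GaloisRep.ratLocalizedAt ℓ)) :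
    toRes ℓ a = 0 ↔
      ∃ a' : LaurentSeries ↥(GaloisRep.ratLocalizedAt ℓ),
        a = ((ℓ : ℕ) : LaurentSeries ↥(GaloisRep.ratLocalizedAt ℓ)) * a' := by
  constructor
  · intro h
    refine ⟨a.map (⟨divL ℓ, divL_zero ℓ⟩ : ZeroHom _ _), ?_⟩
    ext k
    rw [natCast_mul_coeff, HahnSeries.map_coeff]
    have hk : resZl ℓ (a.coeff k) = 0 := by
      have := congrArg (fun z => HahnSeries.coeff z k) h
      simpa using this
    exact congrArg Subtype.val (divL_spec ℓ hk)
  · rintro ⟨a', rfl⟩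
    rw [map_mul, map_natCast]
    have : ((ℓ : ℕ) : LaurentSeries (ZMod ℓ)) = 0 := by
      rw [← map_natCast (HahnSeries.C : ZMod ℓ →+* LaurentSeries (ZMod ℓ)) ℓ, ZMod.natCast_self,
        map_zero]
    rw [this, zero_mul]

/-- Every nonzero element of `ℤ_(ℓ)((q))` is `ℓ ^ n` times an element with nonzero reduction. -/
theorem exists_eq_pow_mul (a : LaurentSeries ↥(GaloisRep.ratLocalizedAt ℓ)) (ha : a ≠ 0) :
    ∃ (n : ℕ) (a' : LaurentSeries ↥(GaloisRep.ratLocalizedAt ℓ)),
      a = ((ℓ : ℕ) : LaurentSeries ↥(GaloisRep.ratLocalizedAt ℓ)) ^ n * a' ∧ toRes ℓ a' ≠ 0 := by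
  by_contra hcon
  push Not at hcon
  have hall : ∀ n : ℕ, ∃ a' : LaurentSeries ↥(GaloisRep.ratLocalizedAt ℓ),
      a = ((ℓ : ℕ) : LaurentSeries ↥(GaloisRep.ratLocalizedAt ℓ)) ^ n * a' := by
    intro n
    induction n with
    | zero => exact ⟨a, by simp⟩
    | succ n ih =>
      obtain ⟨a', ha'⟩ := ih
      obtain ⟨a'', ha''⟩ := (toRes_eq_zero_iff ℓ a').mp (hcon n a' ha')
      exact ⟨a'', by rw [ha', ha'']; ring⟩
  obtain ⟨k, hk⟩ : ∃ k, a.coeff k ≠ 0 := by
    by_contra hc
    push Not at hc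
    exact ha (HahnSeries.ext (funext hc))
  obtain ⟨n, hn⟩ := exists_not_pow_dvd ℓ (a.coeff k) hk
  obtain ⟨a', ha'⟩ := hall n
  apply hn
  refine ⟨a'.coeff k, ?_⟩
  conv_lhs => rw [ha']
  rw [← Nat.cast_pow, natCast_mul_coeff, Nat.cast_pow]

end Laurent

section ValuationRing

variable (ℓ : ℕ) [Fact ℓ.Prime]

/-- The localisation of `ℤ_(ℓ)((q))` at the prime `(ℓ)`, as a subring of `ℚ((q))`. -/
def igV : Subring (LaurentSeries ℚ) where
  carrier := {x | ∃ a b : LaurentSeries ↥(GaloisRep.ratLocalizedAt ℓ),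
    toRes ℓ b ≠ 0 ∧ x * toQ ℓ b = toQ ℓ a}
  mul_mem' := by
    rintro x y ⟨a, b, hb, hx⟩ ⟨a', b', hb', hy⟩
    refine ⟨a * a', b * b', ?_, ?_⟩
    · rw [map_mul]; exact mul_ne_zero hb hb'
    · rw [map_mul, map_mul, ← hx, ← hy]; ring
  one_mem' := ⟨1, 1, by simp, by simp⟩
  add_mem' := by
    rintro x y ⟨a, b, hb, hx⟩ ⟨a', b', hb', hy⟩
    refine ⟨a * b' + a' * b, b * b', ?_, ?_⟩
    · rw [map_mul]; exact mul_ne_zero hb hb'
    · rw [map_mul, map_add, map_mul, map_mul, ← hx, ← hy]; ring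
  zero_mem' := ⟨0, 1, by simp, by simp⟩
  neg_mem' := by
    rintro x ⟨a, b, hb, hx⟩
    exact ⟨-a, b, hb, by rw [map_neg, ← hx]; ring⟩

theorem mem_igV_iff {x : LaurentSeries ℚ} :
    x ∈ igV ℓ ↔ ∃ a b : LaurentSeries ↥(GaloisRep.ratLocalizedAt ℓ),
      toRes ℓ b ≠ 0 ∧ x * toQ ℓ b = toQ ℓ a := Iff.rfl

theorem toQ_mem_igV (a : LaurentSeries ↥(GaloisRep.ratLocalizedAt ℓ)) : toQ ℓ a ∈ igV ℓ :=
  ⟨a, 1, by simp, by simp⟩

theorem toRes_ne_zero_imp_ne_zero {b : LaurentSeries ↥(GaloisRep.ratLocalizedAt ℓ)}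
    (hb : toRes ℓ b ≠ 0) : b ≠ 0 := by
  rintro rfl
  exact hb (map_zero _)

theorem toQ_ne_zero_of_toRes_ne_zero {b : LaurentSeries ↥(GaloisRep.ratLocalizedAt ℓ)}
    (hb : toRes ℓ b ≠ 0) : toQ ℓ b ≠ 0 := fun h =>
  toRes_ne_zero_imp_ne_zero ℓ hb ((toQ_eq_zero_iff ℓ b).mp h)

/-- A chosen numerator of an element of `igV`. -/
def igNum (x : igV ℓ) : LaurentSeries ↥(GaloisRep.ratLocalizedAt ℓ) := Classical.choose x.2

/-- A chosen denominator of an element of `igV`. -/
def igDen (x : igV ℓ) : LaurentSeries ↥(GaloisRep.ratLocalizedAt ℓ) :=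
  Classical.choose (Classical.choose_spec x.2)

theorem toRes_igDen_ne_zero (x : igV ℓ) : toRes ℓ (igDen ℓ x) ≠ 0 :=
  (Classical.choose_spec (Classical.choose_spec x.2)).1

theorem mul_toQ_igDen (x : igV ℓ) : x.1 * toQ ℓ (igDen ℓ x) = toQ ℓ (igNum ℓ x) :=
  (Classical.choose_spec (Classical.choose_spec x.2)).2

/-- The underlying function of the reduction map. -/
def igRedFun (x : igV ℓ) : LaurentSeries (ZMod ℓ) :=
  toRes ℓ (igNum ℓ x) / toRes ℓ (igDen ℓ x)

theorem igRedFun_eq (x : igV ℓ) (a b : LaurentSeries ↥(GaloisRep.ratLocalizedAt ℓ))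
    (hb : toRes ℓ b ≠ 0) (h : x.1 * toQ ℓ b = toQ ℓ a) :
    igRedFun ℓ x = toRes ℓ a / toRes ℓ b := by
  rw [igRedFun, div_eq_div_iff (toRes_igDen_ne_zero ℓ x) hb, ← map_mul, ← map_mul]
  congr 1
  apply toQ_injective ℓ
  rw [map_mul, map_mul, ← h, ← mul_toQ_igDen ℓ x]
  ring

/-- **Reduction of `q`-expansions modulo `ℓ`**, `igV ℓ → 𝔽_ℓ((q))`. -/
def igRed : igV ℓ →+* LaurentSeries (ZMod ℓ) where
  toFun := igRedFun ℓ
  map_one' := by
    rw [igRedFun_eq ℓ 1 1 1 (by simp) (by simp)]
    simp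
  map_zero' := by
    rw [igRedFun_eq ℓ 0 0 1 (by simp) (by simp)]
    simp
  map_mul' x y := by
    rw [igRedFun_eq ℓ (x * y) (igNum ℓ x * igNum ℓ y) (igDen ℓ x * igDen ℓ y)
      (by rw [map_mul]; exact mul_ne_zero (toRes_igDen_ne_zero ℓ x) (toRes_igDen_ne_zero ℓ y))
      (by rw [map_mul, map_mul, ← mul_toQ_igDen ℓ x, ← mul_toQ_igDen ℓ y, Subring.coe_mul]; ring)]
    rw [igRedFun, igRedFun, map_mul, map_mul, mul_div_mul_comm]
  map_add' x y := by
    rw [igRedFun_eq ℓ (x + y) (igNum ℓ x * igDen ℓ y + igNum ℓ y * igDen ℓ x)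
      (igDen ℓ x * igDen ℓ y)
      (by rw [map_mul]; exact mul_ne_zero (toRes_igDen_ne_zero ℓ x) (toRes_igDen_ne_zero ℓ y))
      (by rw [map_mul, map_add, map_mul, map_mul, ← mul_toQ_igDen ℓ x, ← mul_toQ_igDen ℓ y,
            Subring.coe_add]; ring)]
    rw [igRedFun, igRedFun, map_mul, map_add, map_mul, map_mul,
      div_add_div _ _ (toRes_igDen_ne_zero ℓ x) (toRes_igDen_ne_zero ℓ y)]
    congr 1
    ring

theorem igRed_eq (x : igV ℓ) (a b : LaurentSeries ↥(GaloisRep.ratLocalizedAt ℓ))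
    (hb : toRes ℓ b ≠ 0) (h : x.1 * toQ ℓ b = toQ ℓ a) :
    igRed ℓ x = toRes ℓ a / toRes ℓ b :=
  igRedFun_eq ℓ x a b hb h

@[simp]
theorem igRed_toQ (a : LaurentSeries ↥(GaloisRep.ratLocalizedAt ℓ)) :
    igRed ℓ ⟨toQ ℓ a, toQ_mem_igV ℓ a⟩ = toRes ℓ a := by
  rw [igRed_eq ℓ _ a 1 (by simp) (by simp)]
  simp

theorem natCast_laurent_zmod_eq_zero : ((ℓ : ℕ) : LaurentSeries (ZMod ℓ)) = 0 := by
  rw [← map_natCast (HahnSeries.C : ZMod ℓ →+* LaurentSeries (ZMod ℓ)) ℓ, ZMod.natCast_self,
    map_zero]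

theorem natCast_laurent_rat_ne_zero : ((ℓ : ℕ) : LaurentSeries ℚ) ≠ 0 := by
  rw [← map_natCast (HahnSeries.C : ℚ →+* LaurentSeries ℚ) ℓ, Ne,
    map_eq_zero_iff _ HahnSeries.C_injective]
  exact_mod_cast (Fact.out : ℓ.Prime).ne_zero

/-- The kernel of the reduction map is `ℓ · igV`. -/
theorem igRed_eq_zero_iff (x : igV ℓ) :
    igRed ℓ x = 0 ↔ ∃ y : igV ℓ, x = ((ℓ : ℕ) : igV ℓ) * y := by
  constructor
  · intro h
    rw [igRed_eq ℓ x _ _ (toRes_igDen_ne_zero ℓ x) (mul_toQ_igDen ℓ x), div_eq_zero_iff] at h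
    have h0 := h.resolve_right (toRes_igDen_ne_zero ℓ x)
    obtain ⟨a', ha'⟩ := (toRes_eq_zero_iff ℓ _).mp h0
    have hℓ := natCast_laurent_rat_ne_zero ℓ
    have hy : x.1 / ((ℓ : ℕ) : LaurentSeries ℚ) ∈ igV ℓ := by
      refine ⟨a', igDen ℓ x, toRes_igDen_ne_zero ℓ x, ?_⟩
      have h1 := mul_toQ_igDen ℓ x
      rw [ha', map_mul, map_natCast] at h1
      field_simp
      rw [h1]
    refine ⟨⟨_, hy⟩, Subtype.ext ?_⟩
    simp only [Subring.coe_mul, Subring.coe_natCast]
    field_simp
  · rintro ⟨y, rfl⟩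
    rw [map_mul, map_natCast, natCast_laurent_zmod_eq_zero, zero_mul]

/-- Elements of `igV` with nonzero reduction are units. -/
theorem inv_mem_igV_of_igRed_ne_zero (x : igV ℓ) (h : igRed ℓ x ≠ 0) : (x.1)⁻¹ ∈ igV ℓ := by
  rw [igRed_eq ℓ x _ _ (toRes_igDen_ne_zero ℓ x) (mul_toQ_igDen ℓ x)] at h
  have hnum : toRes ℓ (igNum ℓ x) ≠ 0 := fun h0 => h (by rw [h0, zero_div])
  refine ⟨igDen ℓ x, igNum ℓ x, hnum, ?_⟩
  have hb := toQ_ne_zero_of_toRes_ne_zero ℓ (toRes_igDen_ne_zero ℓ x)
  have ha := toQ_ne_zero_of_toRes_ne_zero ℓ hnum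
  have h1 := mul_toQ_igDen ℓ x
  have hx : x.1 ≠ 0 := by
    intro hx
    rw [hx, zero_mul] at h1
    exact ha h1.symm
  rw [← h1]
  field_simp

/-- General fact: if `x` is integral over a subring `V` of a field and `x⁻¹ ∈ V`, then `x ∈ V`. -/
theorem mem_of_isIntegral_of_inv_mem {L : Type*} [Field L] (V : Subring L) {x : L}
    (hint : IsIntegral V x) (hinv : x⁻¹ ∈ V) : x ∈ V := by
  obtain ⟨p, hmonic, hp⟩ := hint
  by_cases hx : x = 0
  · rw [hx]; exact V.zero_mem
  rw [Polynomial.eval₂_eq_sum_range, Finset.sum_range_succ, hmonic.coeff_natDegree, map_one,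
    one_mul] at hp
  rcases Nat.eq_zero_or_pos p.natDegree with h0 | hpos
  · rw [h0] at hp
    simp at hp
  obtain ⟨m, hm⟩ : ∃ m, p.natDegree = m + 1 := ⟨p.natDegree - 1, by omega⟩
  rw [hm] at hp
  have hxm : x = -∑ i ∈ Finset.range (m + 1), (algebraMap V L (p.coeff i)) * (x⁻¹) ^ (m - i) := by
    have h1 : x ^ (m + 1) = -∑ i ∈ Finset.range (m + 1), (algebraMap V L (p.coeff i)) * x ^ i :=
      eq_neg_of_add_eq_zero_right hp
    have h2 : x = x ^ (m + 1) * (x⁻¹) ^ m := by
      rw [pow_succ, mul_assoc, mul_comm x, ← mul_assoc, ← mul_pow, mul_inv_cancel₀ hx, one_pow,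
        one_mul]
    conv_lhs => rw [h2, h1]
    rw [neg_mul, Finset.sum_mul]
    congr 1
    refine Finset.sum_congr rfl fun i hi => ?_
    have hi' : i ≤ m := Nat.lt_succ_iff.mp (Finset.mem_range.mp hi)
    rw [mul_assoc]
    congr 1
    obtain ⟨k, rfl⟩ := Nat.exists_eq_add_of_le hi'
    rw [Nat.add_sub_cancel_left, pow_add, ← mul_assoc, ← mul_pow, mul_inv_cancel₀ hx, one_pow,
      one_mul]
  rw [hxm]
  refine V.neg_mem (V.sum_mem fun i _ => V.mul_mem ?_ (V.pow_mem hinv _))
  exact (p.coeff i).2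

/-- The fraction field of `igV ℓ` inside `ℚ((q))`. -/
def igE : IntermediateField ℚ (LaurentSeries ℚ) where
  carrier := {x | ∃ a b : LaurentSeries ↥(GaloisRep.ratLocalizedAt ℓ),
    b ≠ 0 ∧ x * toQ ℓ b = toQ ℓ a}
  mul_mem' := by
    rintro x y ⟨a, b, hb, hx⟩ ⟨a', b', hb', hy⟩
    refine ⟨a * a', b * b', mul_ne_zero hb hb', ?_⟩
    rw [map_mul, map_mul, ← hx, ← hy]; ring
  one_mem' := ⟨1, 1, one_ne_zero, by simp⟩
  add_mem' := by
    rintro x y ⟨a, b, hb, hx⟩ ⟨a', b', hb', hy⟩
    refine ⟨a * b' + a' * b, b * b', mul_ne_zero hb hb', ?_⟩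
    rw [map_mul, map_add, map_mul, map_mul, ← hx, ← hy]; ring
  zero_mem' := ⟨0, 1, one_ne_zero, by simp⟩
  algebraMap_mem' := by
    intro c
    refine ⟨((c.num : ℤ) : LaurentSeries ↥(GaloisRep.ratLocalizedAt ℓ)),
      ((c.den : ℕ) : LaurentSeries ↥(GaloisRep.ratLocalizedAt ℓ)), ?_, ?_⟩
    · intro h
      have h2 := congrArg (toQ ℓ) h
      rw [map_natCast, map_zero,
        ← map_natCast (HahnSeries.C : ℚ →+* LaurentSeries ℚ) c.den,
        map_eq_zero_iff _ HahnSeries.C_injective] at h2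
      exact c.den_ne_zero (by exact_mod_cast h2)
    · rw [map_natCast, map_intCast, algebraMap_apply_eq_single,
        ← map_natCast (HahnSeries.C : ℚ →+* LaurentSeries ℚ) c.den,
        ← map_intCast (HahnSeries.C : ℚ →+* LaurentSeries ℚ) c.num, ← HahnSeries.C_apply,
        ← map_mul, Rat.mul_den_eq_num]
  inv_mem' := by
    rintro x ⟨a, b, hb, hx⟩
    by_cases hx0 : x = 0
    · rw [hx0, inv_zero]
      exact ⟨0, 1, one_ne_zero, by simp⟩
    have hb' : toQ ℓ b ≠ 0 := fun h => hb ((toQ_eq_zero_iff ℓ b).mp h)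
    have ha : a ≠ 0 := by
      rintro rfl
      rw [map_zero] at hx
      exact (mul_ne_zero hx0 hb') hx
    refine ⟨b, a, ha, ?_⟩
    rw [← hx]
    field_simp

omit [Fact ℓ.Prime] in
theorem mem_igE_iff {x : LaurentSeries ℚ} :
    x ∈ igE ℓ ↔ ∃ a b : LaurentSeries ↥(GaloisRep.ratLocalizedAt ℓ),
      b ≠ 0 ∧ x * toQ ℓ b = toQ ℓ a := Iff.rfl

theorem igV_le_igE {x : LaurentSeries ℚ} (hx : x ∈ igV ℓ) : x ∈ igE ℓ := by
  obtain ⟨a, b, hb, h⟩ := hx
  exact ⟨a, b, toRes_ne_zero_imp_ne_zero ℓ hb, h⟩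

theorem toQ_mem_igE (a : LaurentSeries ↥(GaloisRep.ratLocalizedAt ℓ)) : toQ ℓ a ∈ igE ℓ :=
  igV_le_igE ℓ (toQ_mem_igV ℓ a)

/-- **Valuation ring dichotomy.** An element of the fraction field `igE` either lies in `igV`,
or its inverse lies in `ℓ · igV`. -/
theorem mem_igV_or_inv_eq_mul {x : LaurentSeries ℚ} (hx : x ∈ igE ℓ) :
    x ∈ igV ℓ ∨ ∃ y ∈ igV ℓ, x⁻¹ = ((ℓ : ℕ) : LaurentSeries ℚ) * y := by
  obtain ⟨a, b, hb, h⟩ := hx
  by_cases hx0 : x = 0
  · left
    rw [hx0]
    exact (igV ℓ).zero_mem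
  have hbQ : toQ ℓ b ≠ 0 := fun h0 => hb ((toQ_eq_zero_iff ℓ b).mp h0)
  have ha : a ≠ 0 := by
    rintro rfl
    rw [map_zero] at h
    exact (mul_ne_zero hx0 hbQ) h
  obtain ⟨n, a', rfl, ha'⟩ := exists_eq_pow_mul ℓ a ha
  obtain ⟨m, b', rfl, hb'⟩ := exists_eq_pow_mul ℓ b hb
  have hℓ := natCast_laurent_rat_ne_zero ℓ
  have ha'Q := toQ_ne_zero_of_toRes_ne_zero ℓ ha'
  have hb'Q := toQ_ne_zero_of_toRes_ne_zero ℓ hb'
  simp only [map_mul, map_pow, map_natCast] at h
  rcases le_or_gt m n with hmn | hmn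
  · left
    obtain ⟨k, rfl⟩ := Nat.exists_eq_add_of_le hmn
    refine ⟨((ℓ : ℕ) : LaurentSeries ↥(GaloisRep.ratLocalizedAt ℓ)) ^ k * a', b', hb', ?_⟩
    simp only [map_mul, map_pow, map_natCast]
    have hpow : ((ℓ : ℕ) : LaurentSeries ℚ) ^ m ≠ 0 := pow_ne_zero _ hℓ
    apply mul_left_cancel₀ hpow
    rw [← mul_assoc, mul_comm _ x, mul_assoc, h, pow_add]
    ring
  · right
    obtain ⟨k, rfl⟩ := Nat.exists_eq_add_of_lt hmn
    refine ⟨((ℓ : ℕ) : LaurentSeries ℚ) ^ k * toQ ℓ b' / toQ ℓ a', ?_, ?_⟩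
    · refine ⟨((ℓ : ℕ) : LaurentSeries ↥(GaloisRep.ratLocalizedAt ℓ)) ^ k * b', a', ha', ?_⟩
      simp only [map_mul, map_pow, map_natCast]
      field_simp
    · have hpow : ((ℓ : ℕ) : LaurentSeries ℚ) ^ n ≠ 0 := pow_ne_zero _ hℓ
      have hx' : x = toQ ℓ a' / (((ℓ : ℕ) : LaurentSeries ℚ) ^ (k + 1) * toQ ℓ b') := by
        rw [eq_div_iff (mul_ne_zero (pow_ne_zero _ hℓ) hb'Q)]
        apply mul_left_cancel₀ hpow
        rw [← h, pow_add, pow_add]
        ring
      rw [hx', inv_div, pow_succ]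
      field_simp

/-- `igV ℓ` is integrally closed in its fraction field `igE ℓ`. -/
theorem mem_igV_of_isIntegral {x : LaurentSeries ℚ} (hx : x ∈ igE ℓ)
    (hint : IsIntegral (igV ℓ) x) : x ∈ igV ℓ := by
  rcases mem_igV_or_inv_eq_mul ℓ hx with h | ⟨y, hy, hxy⟩
  · exact h
  · refine mem_of_isIntegral_of_inv_mem (igV ℓ) hint ?_
    rw [hxy]
    exact (igV ℓ).mul_mem (natCast_mem _ _) hy

end ValuationRing

end Fermat.Agent.S28.H865

end
end
-- ===== PACK-END S28/H865Reduction.lean

-- ===== PACK-BEGIN S28/H865Dvr.lean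
section
/-
S28 helper (helper865): `ℤ_(ℓ) = GaloisRep.ratLocalizedAt ℓ` is a discrete valuation ring with
uniformiser `ℓ`; in particular it is integrally closed and `ℓ` is a prime element.
-/



set_option autoImplicit false

noncomputable section

namespace Fermat.Agent.S28.H865

variable (ℓ : ℕ) [Fact ℓ.Prime]

theorem span_natCast_eq_ker_resZl :
    Ideal.span {((ℓ : ℕ) : ↥(GaloisRep.ratLocalizedAt ℓ))} = RingHom.ker (resZl ℓ) := by
  ext x
  rw [RingHom.mem_ker, resZl_eq_zero_iff, Ideal.mem_span_singleton']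
  constructor
  · rintro ⟨a, rfl⟩
    exact ⟨a, mul_comm _ _⟩
  · rintro ⟨y, rfl⟩
    exact ⟨y, mul_comm _ _⟩

/-- `ℓ` is a prime element of `ℤ_(ℓ)`. -/
theorem prime_natCast_ratLocalizedAt : Prime ((ℓ : ℕ) : ↥(GaloisRep.ratLocalizedAt ℓ)) := by
  rw [← Ideal.span_singleton_prime (natCast_ne_zero_ratLocalizedAt ℓ), span_natCast_eq_ker_resZl]
  exact RingHom.ker_isPrime _

/-- Elements of `ℤ_(ℓ)` with nonzero residue are units. -/
theorem isUnit_of_resZl_ne_zero {u : ↥(GaloisRep.ratLocalizedAt ℓ)} (hu : resZl ℓ u ≠ 0) :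
    IsUnit u := by
  have hu0 : u.1 ≠ 0 := by
    intro h
    apply hu
    rw [show u = 0 from Subtype.ext h, map_zero]
  have hnum : ((u.1.num : ℤ) : ZMod ℓ) ≠ 0 := by
    intro h
    apply hu
    rw [resZl_apply, Rat.cast_def, h, zero_div]
  have hmem : (u.1)⁻¹ ∈ GaloisRep.ratLocalizedAt ℓ := by
    show ((u.1)⁻¹).den.Coprime ℓ
    rw [Rat.den_inv_of_ne_zero hu0]
    rw [Nat.coprime_comm, Nat.Prime.coprime_iff_not_dvd (Fact.out : ℓ.Prime)]
    intro hdvd
    apply hnum
    rw [ZMod.intCast_zmod_eq_zero_iff_dvd]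
    exact Int.natCast_dvd.mpr hdvd
  exact IsUnit.of_mul_eq_one ⟨(u.1)⁻¹, hmem⟩ (Subtype.ext (mul_inv_cancel₀ hu0))

/-- Every nonzero element of `ℤ_(ℓ)` is a unit times a power of `ℓ`. -/
theorem exists_eq_pow_mul_unit (x : ↥(GaloisRep.ratLocalizedAt ℓ)) (hx : x ≠ 0) :
    ∃ (n : ℕ) (u : ↥(GaloisRep.ratLocalizedAt ℓ)),
      x = ((ℓ : ℕ) : ↥(GaloisRep.ratLocalizedAt ℓ)) ^ n * u ∧ IsUnit u := by
  classical
  by_contra hcon
  push Not at hcon
  have hall : ∀ n : ℕ, ∃ s : ↥(GaloisRep.ratLocalizedAt ℓ),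
      x = ((ℓ : ℕ) : ↥(GaloisRep.ratLocalizedAt ℓ)) ^ n * s := by
    intro n
    induction n with
    | zero => exact ⟨x, by simp⟩
    | succ n ih =>
      obtain ⟨s, hs⟩ := ih
      have hres : resZl ℓ s = 0 := by
        by_contra h
        exact hcon n s hs (isUnit_of_resZl_ne_zero ℓ h)
      obtain ⟨s', hs'⟩ := (resZl_eq_zero_iff ℓ s).mp hres
      exact ⟨s', by rw [hs, hs']; ring⟩
  obtain ⟨n, hn⟩ := exists_not_pow_dvd ℓ x hx
  exact hn (hall n)

instance isDiscreteValuationRing_ratLocalizedAt :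
    IsDiscreteValuationRing ↥(GaloisRep.ratLocalizedAt ℓ) :=
  IsDiscreteValuationRing.ofHasUnitMulPowIrreducibleFactorization
    ⟨((ℓ : ℕ) : ↥(GaloisRep.ratLocalizedAt ℓ)), (prime_natCast_ratLocalizedAt ℓ).irreducible,
      fun {x} hx => by
        obtain ⟨n, u, hxu, hu⟩ := exists_eq_pow_mul_unit ℓ x hx
        refine ⟨n, ?_⟩
        rw [hxu]
        exact ⟨hu.unit, by simp⟩⟩

theorem isIntegrallyClosed_ratLocalizedAt :
    IsIntegrallyClosed ↥(GaloisRep.ratLocalizedAt ℓ) := inferInstance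

theorem isIntegrallyClosed_polynomial_ratLocalizedAt :
    IsIntegrallyClosed (Polynomial ↥(GaloisRep.ratLocalizedAt ℓ)) := inferInstance

theorem prime_C_natCast :
    Prime (Polynomial.C ((ℓ : ℕ) : ↥(GaloisRep.ratLocalizedAt ℓ))) :=
  Polynomial.prime_C_iff.mpr (prime_natCast_ratLocalizedAt ℓ)

end Fermat.Agent.S28.H865

end
end
-- ===== PACK-END S28/H865Dvr.lean

-- ===== PACK-BEGIN S59/H540/DetCong.lean
section


/-!
# S59 / G-DET, algebra part (helper540) — Mathlib only

* `mem_of_forall_mem_sup_pow` : in a noetherian local ring every ideal is closed for the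
  `𝔪`-adic topology (Krull's intersection theorem for `A ⧸ J`).
* `det_sub_one_mem` : an endomorphism of a finite free module which is congruent to the identity
  modulo `I` has determinant congruent to `1` modulo `I`.
* `det_eq_coeff_zero_of_charpoly` : the determinant of an endomorphism of a free module of rank `2`
  with characteristic polynomial `X² - tX + d` is `d`.
-/

set_option autoImplicit false

namespace Fermat.Agent.S59.H540

open IsLocalRing

/-- In a noetherian local ring, an element lying in `J ⊔ 𝔪 ^ k` for every `k` lies in `J`. -/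
theorem mem_of_forall_mem_sup_pow {A : Type*} [CommRing A] [IsLocalRing A] [IsNoetherianRing A]
    (J : Ideal A) (x : A) (h : ∀ k : ℕ, x ∈ J ⊔ maximalIdeal A ^ k) : x ∈ J := by
  have hbot := Ideal.iInf_pow_smul_eq_bot_of_isLocalRing (R := A) (M := A ⧸ J)
    (maximalIdeal A) (Ideal.IsPrime.ne_top')
  have hx : (Ideal.Quotient.mk J x : A ⧸ J) ∈
      (⨅ i : ℕ, maximalIdeal A ^ i • (⊤ : Submodule A (A ⧸ J))) := by
    rw [Submodule.mem_iInf]
    intro k
    obtain ⟨j, hj, t, ht, rfl⟩ := Submodule.mem_sup.mp (h k)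
    have e : (Ideal.Quotient.mk J (j + t) : A ⧸ J) = t • (1 : A ⧸ J) := by
      rw [map_add, Ideal.Quotient.eq_zero_iff_mem.mpr hj, zero_add, Algebra.smul_def, mul_one]
      rfl
    rw [e]
    exact Submodule.smul_mem_smul ht Submodule.mem_top
  rw [hbot] at hx
  exact Ideal.Quotient.eq_zero_iff_mem.mp ((Submodule.mem_bot A).mp hx)

/-- Coordinates of an element of `I • ⊤` lie in `I`. -/
theorem repr_mem_of_mem_smul_top {A : Type*} [CommRing A] {V : Type*} [AddCommGroup V]
    [Module A V] {ι : Type*} (b : Module.Basis ι A V) (I : Ideal A) {x : V}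
    (hx : x ∈ I • (⊤ : Submodule A V)) (i : ι) : b.repr x i ∈ I := by
  refine Submodule.smul_induction_on (p := fun x => b.repr x i ∈ I) hx ?_ ?_
  · intro r hr m _
    rw [map_smul, Finsupp.smul_apply, smul_eq_mul]
    exact I.mul_mem_right _ hr
  · intro x y hx hy
    rw [map_add, Finsupp.add_apply]
    exact I.add_mem hx hy

/-- An endomorphism congruent to the identity modulo `I` has determinant `≡ 1` modulo `I`. -/
theorem det_sub_one_mem {A : Type*} [CommRing A] {V : Type*} [AddCommGroup V] [Module A V]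
    [Module.Free A V] [Module.Finite A V] (I : Ideal A) (f : V →ₗ[A] V)
    (hf : ∀ v : V, f v - v ∈ I • (⊤ : Submodule A V)) : LinearMap.det f - 1 ∈ I := by
  classical
  let b := Module.Free.chooseBasis A V
  have hM : (Ideal.Quotient.mk I).mapMatrix (LinearMap.toMatrix b b f) = 1 := by
    ext i j
    rw [RingHom.mapMatrix_apply, Matrix.map_apply, LinearMap.toMatrix_apply, Matrix.one_apply]
    have h1 : b.repr (f (b j)) i = b.repr (f (b j) - b j) i + b.repr (b j) i := by
      rw [map_sub, Finsupp.sub_apply, sub_add_cancel]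
    have h2 : b.repr (f (b j) - b j) i ∈ I := repr_mem_of_mem_smul_top b I (hf (b j)) i
    rw [h1, map_add, Ideal.Quotient.eq_zero_iff_mem.mpr h2, zero_add, Module.Basis.repr_self,
      Finsupp.single_apply]
    by_cases hij : i = j
    · subst hij; simp
    · have hji : ¬ j = i := fun h => hij h.symm
      simp [hij, hji]
  have hdet : Ideal.Quotient.mk I (LinearMap.det f) = 1 := by
    rw [← LinearMap.det_toMatrix b f, RingHom.map_det, hM, Matrix.det_one]
  rw [← Ideal.Quotient.eq_zero_iff_mem, map_sub, hdet, map_one, sub_self]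

/-- Determinant from a characteristic polynomial of the shape `X² - t X + d`. -/
theorem det_eq_of_charpoly {A : Type*} [CommRing A] [Nontrivial A] {V : Type*} [AddCommGroup V]
    [Module A V] [Module.Free A V] [Module.Finite A V] (hrank : Module.finrank A V = 2)
    (f : V →ₗ[A] V) (t d : A)
    (h : LinearMap.charpoly f = Polynomial.X ^ 2 - Polynomial.C t * Polynomial.X + Polynomial.C d) :
    LinearMap.det f = d := by
  rw [LinearMap.det_eq_sign_charpoly_coeff, hrank, h]
  simp [Polynomial.coeff_X, Polynomial.coeff_C]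

end Fermat.Agent.S59.H540

end
-- ===== PACK-END S59/H540/DetCong.lean

-- ===== PACK-BEGIN Lib/Ribet/H223/BLRCore.lean
section


/-!
# Boston–Lenstra–Ribet: quotients of group rings arising from two-dimensional representations
(helper223, row RIBET, piece P2 = (R1))

Let `k` be a field with `2 ≠ 0`, `G` a group, `ρ : G →* E` with `k[G] → E` surjective
(`E = M₂(k)`: `ρ` absolutely irreducible), `τ : E → k` a linear "trace", `d : G →* k` a
"determinant" with `ρ g ^ 2 - τ (ρ g) ρ g + d g = 0`.  If `π : G →* B` satisfies the same quadratic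
relations `π g ^ 2 - τ (ρ g) π g + d g = 0`, then `π` factors through `ρ`: there is an algebra
homomorphism `Ψ : E →ₐ[k] B` with `Ψ (ρ g) = π g`.
-/

set_option autoImplicit false

namespace Fermat.Agent.Lib.Ribet.H223

section abstract

variable {k : Type*} [Field k] {A E B : Type*} [Ring A] [Algebra k A] [Ring E] [Algebra k E]
  [Ring B] [Algebra k B]

/-- **Abstract core.**  `A` carries an anti-multiplicative map `σ` which both `P` and `Q` turn
into `u ↦ T u - u`, the "trace" `T` factors through `P`, and `E` has two elements whose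
commutator squares to `1`.  Then `ker P ⊆ ker Q`. -/
theorem ker_le_ker_of_antiInvolution (hk2 : (2 : k) ≠ 0) (P : A →ₐ[k] E) (Q : A →ₐ[k] B)
    (T : A → k) (σ : A → A) (hσmul : ∀ u v, σ (u * v) = σ v * σ u)
    (hσQ : ∀ u, Q (σ u) = algebraMap k B (T u) - Q u)
    (hT : ∀ u, P u = 0 → T u = 0) (hsurj : Function.Surjective P)
    (hcomm : ∃ y z : E, (y * z - z * y) * (y * z - z * y) = 1) :
    ∀ u, P u = 0 → Q u = 0 := by
  -- Step 1
  have step1 : ∀ u, P u = 0 → ∀ v, Q u * Q v = Q (σ v) * Q u := by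
    intro u hu v
    have huv : P (u * v) = 0 := by rw [map_mul, hu, zero_mul]
    have h1 : Q (σ (u * v)) = - (Q u * Q v) := by
      rw [hσQ, hT _ huv, map_zero, zero_sub, map_mul]
    have h2 : Q (σ (u * v)) = - (Q (σ v) * Q u) := by
      rw [hσmul, map_mul, hσQ u, hT u hu, map_zero, zero_sub, mul_neg]
    exact neg_injective (h1.symm.trans h2)
  -- Step 2
  have step2 : ∀ u, P u = 0 → ∀ v w, Q u * Q (v * w - w * v) = 0 := by
    intro u hu v w
    have h1 : Q u * Q (v * w) = Q u * Q w * Q v := by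
      rw [step1 u hu (v * w), hσmul, map_mul, mul_assoc, ← step1 u hu v, ← mul_assoc,
        ← step1 u hu w]
    have h2 : Q u * Q (w * v) = Q u * Q w * Q v := by rw [map_mul, mul_assoc]
    rw [map_sub, mul_sub, h1, h2, sub_self]
  obtain ⟨y, z, hyz⟩ := hcomm
  obtain ⟨v, rfl⟩ := hsurj y
  obtain ⟨w, rfl⟩ := hsurj z
  set c : A := (v * w - w * v) * (v * w - w * v) with hc
  have hPc : P c = 1 := by
    rw [hc, map_mul, map_sub, map_mul, map_mul]
    exact hyz
  have hκ : P (c - 1) = 0 := by rw [map_sub, hPc, map_one, sub_self]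
  have huc : ∀ u, P u = 0 → Q u * Q c = 0 := by
    intro u hu
    rw [hc, map_mul, ← mul_assoc, step2 u hu v w, zero_mul]
  -- `Q κ = 0`
  have h3 : Q (c - 1) * Q (c - 1) = - (Q (c - 1) * Q (c - 1)) := by
    have := step1 (c - 1) hκ (c - 1)
    rw [hσQ, hT _ hκ, map_zero, zero_sub, neg_mul] at this
    exact this
  have h4 : Q (c - 1) * Q (c - 1) = 0 := by
    have h5 : (2 : k) • (Q (c - 1) * Q (c - 1)) = 0 := by
      rw [two_smul]
      nth_rewrite 1 [h3]
      exact neg_add_cancel _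
    exact (smul_eq_zero.mp h5).resolve_left hk2
  have h6 : Q (c - 1) = 0 := by
    have h7 := huc (c - 1) hκ
    have h8 : Q c = Q (c - 1) + 1 := by rw [map_sub, map_one, sub_add_cancel]
    rw [h8, mul_add, h4, zero_add, mul_one] at h7
    exact h7
  have hQc : Q c = 1 := by
    have h8 : Q c = Q (c - 1) + 1 := by rw [map_sub, map_one, sub_add_cancel]
    rw [h8, h6, zero_add]
  intro u hu
  have := huc u hu
  rwa [hQc, mul_one] at this

/-- A surjective algebra homomorphism `P` and an algebra homomorphism `Q` with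
`ker P ⊆ ker Q` give an algebra homomorphism `E →ₐ[k] B`. -/
noncomputable def liftOfKerLe (P : A →ₐ[k] E) (Q : A →ₐ[k] B) (hsurj : Function.Surjective P)
    (hker : ∀ u, P u = 0 → Q u = 0) : E →ₐ[k] B :=
  have key : ∀ u v, P u = P v → Q u = Q v := fun u v h => by
    have := hker (u - v) (by rw [map_sub, h, sub_self])
    rwa [map_sub, sub_eq_zero] at this
  { toFun := fun e => Q (Function.surjInv hsurj e)
    map_one' := by
      rw [← map_one Q]
      exact key _ _ (by rw [Function.surjInv_eq hsurj, map_one])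
    map_mul' := fun x y => by
      rw [← map_mul Q]
      exact key _ _ (by rw [map_mul, Function.surjInv_eq hsurj, Function.surjInv_eq hsurj,
        Function.surjInv_eq hsurj])
    map_zero' := by
      rw [← map_zero Q]
      exact key _ _ (by rw [Function.surjInv_eq hsurj, map_zero])
    map_add' := fun x y => by
      rw [← map_add Q]
      exact key _ _ (by rw [map_add, Function.surjInv_eq hsurj, Function.surjInv_eq hsurj,
        Function.surjInv_eq hsurj])
    commutes' := fun r => by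
      rw [← AlgHom.commutes Q r]
      exact key _ _ (by rw [Function.surjInv_eq hsurj, AlgHom.commutes]) }

theorem liftOfKerLe_apply (P : A →ₐ[k] E) (Q : A →ₐ[k] B) (hsurj : Function.Surjective P)
    (hker : ∀ u, P u = 0 → Q u = 0) (u : A) : liftOfKerLe P Q hsurj hker (P u) = Q u := by
  have := hker (Function.surjInv hsurj (P u) - u)
    (by rw [map_sub, Function.surjInv_eq hsurj, sub_self])
  rw [map_sub, sub_eq_zero] at this
  exact this

end abstract

section groupRing

variable {k : Type*} [Field k] {G : Type*} [Group G] {E B : Type*} [Ring E] [Algebra k E]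
  [Ring B] [Algebra k B]

/-- `g ↦ d(g) g⁻¹`, as a monoid homomorphism into the opposite of the group algebra. -/
noncomputable def conjHom (d : G →* k) : G →* (MonoidAlgebra k G)ᵐᵒᵖ where
  toFun g := MulOpposite.op (MonoidAlgebra.single g⁻¹ (d g))
  map_one' := by
    rw [inv_one, map_one]
    rfl
  map_mul' g h := by
    rw [← MulOpposite.op_mul, MonoidAlgebra.single_mul_single, mul_inv_rev, map_mul, mul_comm]

/-- The anti-involution `∑ a_g g ↦ ∑ a_g d(g) g⁻¹` of `k[G]`. -/
noncomputable def conj (d : G →* k) (u : MonoidAlgebra k G) : MonoidAlgebra k G :=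
  MulOpposite.unop (MonoidAlgebra.lift k (MonoidAlgebra k G)ᵐᵒᵖ G (conjHom d) u)

theorem conj_mul (d : G →* k) (u v : MonoidAlgebra k G) :
    conj d (u * v) = conj d v * conj d u := by
  unfold conj
  rw [map_mul, MulOpposite.unop_mul]

theorem conj_add (d : G →* k) (u v : MonoidAlgebra k G) :
    conj d (u + v) = conj d u + conj d v := by
  unfold conj
  rw [map_add, MulOpposite.unop_add]

theorem conj_smul (d : G →* k) (r : k) (u : MonoidAlgebra k G) :
    conj d (r • u) = r • conj d u := by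
  unfold conj
  rw [map_smul, MulOpposite.unop_smul]

theorem conj_of (d : G →* k) (g : G) :
    conj d (MonoidAlgebra.of k G g) = MonoidAlgebra.single g⁻¹ (d g) := by
  unfold conj
  rw [MonoidAlgebra.lift_of]
  rfl

/-- `Q ∘ conj = T - Q` when the quadratic relations hold. -/
theorem lift_conj (π : G →* B) (d : G →* k) (t : G → k)
    (hπ : ∀ g, π g * π g - t g • π g + d g • 1 = 0)
    (T : MonoidAlgebra k G →ₗ[k] k) (hT : ∀ g, T (MonoidAlgebra.of k G g) = t g)
    (u : MonoidAlgebra k G) :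
    MonoidAlgebra.lift k B G π (conj d u) =
      algebraMap k B (T u) - MonoidAlgebra.lift k B G π u := by
  induction u using MonoidAlgebra.induction_on with
  | of g =>
    rw [conj_of, MonoidAlgebra.lift_single, MonoidAlgebra.lift_of, hT, Algebra.algebraMap_eq_smul_one]
    have h1 := hπ g
    have h2 : (π g * π g - t g • π g + d g • 1) * π g⁻¹ = 0 := by rw [h1, zero_mul]
    have h3 : π g * π g⁻¹ = 1 := by rw [← map_mul, mul_inv_cancel, map_one]
    rw [add_mul, sub_mul, mul_assoc, h3, mul_one, smul_mul_assoc, h3, smul_mul_assoc,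
      one_mul] at h2
    rw [← sub_eq_zero, ← h2]
    abel
  | add x y hx hy =>
    simp only [conj_add, map_add, hx, hy]
    abel
  | smul r x hx =>
    simp only [conj_smul, map_smul, hx, smul_sub, smul_eq_mul, map_mul]
    rw [Algebra.smul_def]

/-- **Boston–Lenstra–Ribet**, kernel form. -/
theorem blr_ker (hk2 : (2 : k) ≠ 0) (ρ : G →* E) (π : G →* B) (d : G →* k) (τ : E →ₗ[k] k)
    (hπ : ∀ g, π g * π g - τ (ρ g) • π g + d g • 1 = 0)
    (hsurj : Function.Surjective (MonoidAlgebra.lift k E G ρ))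
    (hcomm : ∃ y z : E, (y * z - z * y) * (y * z - z * y) = 1) :
    ∀ u, MonoidAlgebra.lift k E G ρ u = 0 → MonoidAlgebra.lift k B G π u = 0 := by
  have hT : ∀ g, (τ ∘ₗ (MonoidAlgebra.lift k E G ρ).toLinearMap) (MonoidAlgebra.of k G g) =
      τ (ρ g) := by
    intro g
    rw [LinearMap.comp_apply, AlgHom.toLinearMap_apply, MonoidAlgebra.lift_of]
  refine ker_le_ker_of_antiInvolution hk2 (MonoidAlgebra.lift k E G ρ)
    (MonoidAlgebra.lift k B G π)
    (fun u => (τ ∘ₗ (MonoidAlgebra.lift k E G ρ).toLinearMap) u) (conj d) (conj_mul d)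
    ?_ ?_ hsurj hcomm
  · intro u
    exact lift_conj π d (fun g => τ (ρ g)) hπ _ hT u
  · intro u hu
    rw [LinearMap.comp_apply, AlgHom.toLinearMap_apply, hu, map_zero]

/-- **Boston–Lenstra–Ribet**: `π` factors through `ρ`. -/
theorem blr_exists_algHom (hk2 : (2 : k) ≠ 0) (ρ : G →* E) (π : G →* B) (d : G →* k)
    (τ : E →ₗ[k] k) (hπ : ∀ g, π g * π g - τ (ρ g) • π g + d g • 1 = 0)
    (hsurj : Function.Surjective (MonoidAlgebra.lift k E G ρ))
    (hcomm : ∃ y z : E, (y * z - z * y) * (y * z - z * y) = 1) :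
    ∃ Ψ : E →ₐ[k] B, (∀ u, Ψ (MonoidAlgebra.lift k E G ρ u) = MonoidAlgebra.lift k B G π u) ∧
      ∀ g, Ψ (ρ g) = π g := by
  have hker := blr_ker hk2 ρ π d τ hπ hsurj hcomm
  refine ⟨liftOfKerLe _ _ hsurj hker, fun u => liftOfKerLe_apply _ _ hsurj hker u, fun g => ?_⟩
  have := liftOfKerLe_apply _ _ hsurj hker (MonoidAlgebra.of k G g)
  rwa [MonoidAlgebra.lift_of, MonoidAlgebra.lift_of] at this

end groupRing

section endo

variable {k : Type*} [Field k] {G : Type*} [Group G] {W₀ V : Type*} [AddCommGroup W₀]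
  [Module k W₀] [AddCommGroup V] [Module k V]

/-- In `M₂(k)` there are two elements whose commutator squares to `1`. -/
theorem exists_commutator_sq_eq_one_matrix :
    ∃ y z : Matrix (Fin 2) (Fin 2) k, (y * z - z * y) * (y * z - z * y) = 1 := by
  refine ⟨!![0, 1; 0, 0], !![0, 0; 1, 0], ?_⟩
  ext i j
  fin_cases i <;> fin_cases j <;> simp [Matrix.mul_apply, Fin.sum_univ_two]

/-- In `End(W₀)`, `dim W₀ = 2`, there are two elements whose commutator squares to `1`. -/
theorem exists_commutator_sq_eq_one (h : Module.finrank k W₀ = 2) :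
    ∃ y z : Module.End k W₀, (y * z - z * y) * (y * z - z * y) = 1 := by
  have : Module.Finite k W₀ := Module.finite_of_finrank_eq_succ h
  let b : Module.Basis (Fin 2) k W₀ := Module.finBasisOfFinrankEq k W₀ h
  let e := LinearMap.toMatrixAlgEquiv b
  obtain ⟨y, z, hyz⟩ := exists_commutator_sq_eq_one_matrix (k := k)
  refine ⟨e.symm y, e.symm z, ?_⟩
  rw [← map_mul, ← map_mul, ← map_sub, ← map_mul, hyz, map_one]

/-- **Boston–Lenstra–Ribet**, embedding form: if every `g` satisfies on `V ≠ 0` the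
characteristic polynomial of `ρ g` (`ρ` two-dimensional with `k[G] → End W₀` surjective), then
`ρ` embeds into `V`. -/
theorem blr_exists_embedding (hk2 : (2 : k) ≠ 0) (h2 : Module.finrank k W₀ = 2)
    (ρ : G →* Module.End k W₀) (π : G →* Module.End k V) (d : G →* k)
    (hsurj : Function.Surjective (MonoidAlgebra.lift k (Module.End k W₀) G ρ))
    (hπ : ∀ g, π g * π g - LinearMap.trace k W₀ (ρ g) • π g + d g • 1 = 0) [Nontrivial V] :
    ∃ φ : W₀ →ₗ[k] V, Function.Injective φ ∧ ∀ g w, φ (ρ g w) = π g (φ w) := by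
  classical
  have hfin : Module.Finite k W₀ := Module.finite_of_finrank_eq_succ h2
  obtain ⟨Ψ, hΨ, hΨg⟩ := blr_exists_algHom hk2 ρ π d (LinearMap.trace k W₀) hπ hsurj
    (exists_commutator_sq_eq_one h2)
  let b : Module.Basis (Fin 2) k W₀ := Module.finBasisOfFinrankEq k W₀ h2
  -- `a i w` is the endomorphism `x ↦ (i-th coordinate of x) • w`
  let a : Fin 2 → W₀ →ₗ[k] Module.End k W₀ := fun i =>
    { toFun := fun w => (b.coord i).smulRight w
      map_add' := fun w w' => by
        ext x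
        simp only [LinearMap.smulRight_apply, LinearMap.add_apply, smul_add]
      map_smul' := fun r w => by
        ext x
        simp only [LinearMap.smulRight_apply, LinearMap.smul_apply, RingHom.id_apply]
        exact smul_comm _ _ _ }
  have ha_apply : ∀ i w x, a i w x = b.coord i x • w := fun i w x => rfl
  have hsum : a 0 (b 0) + a 1 (b 1) = 1 := by
    apply b.ext
    intro j
    fin_cases j <;> simp [ha_apply]
  obtain ⟨v, hv⟩ := exists_ne (0 : V)
  have hex : ∃ i, Ψ (a i (b i)) v ≠ 0 := by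
    by_contra hcon
    push Not at hcon
    apply hv
    have h1 : Ψ (a 0 (b 0) + a 1 (b 1)) v = v := by rw [hsum, map_one]; rfl
    rw [map_add, LinearMap.add_apply, hcon 0, hcon 1, add_zero] at h1
    exact h1.symm
  obtain ⟨i, hi⟩ := hex
  set v₁ := Ψ (a i (b i)) v with hv₁
  let φ : W₀ →ₗ[k] V :=
    { toFun := fun w => Ψ (a i w) v₁
      map_add' := fun w w' => by rw [map_add, map_add, LinearMap.add_apply]
      map_smul' := fun r w => by
        rw [map_smul, map_smul, LinearMap.smul_apply, RingHom.id_apply] }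
  have hφ : ∀ w, φ w = Ψ (a i w) v₁ := fun w => rfl
  have hidem : a i (b i) * a i (b i) = a i (b i) := by
    apply LinearMap.ext
    intro x
    simp [ha_apply]
  have hφb : φ (b i) = v₁ := by
    rw [hφ, hv₁, ← Module.End.mul_apply, ← map_mul, hidem]
  have hcomp : ∀ (f : Module.End k W₀) (w : W₀), a i (f w) = f * a i w := by
    intro f w
    apply LinearMap.ext
    intro x
    simp [ha_apply]
  have hequiv : ∀ (f : Module.End k W₀) (w : W₀), φ (f w) = Ψ f (φ w) := by
    intro f w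
    rw [hφ, hφ, hcomp, map_mul, Module.End.mul_apply]
  refine ⟨φ, ?_, fun g w => ?_⟩
  · rw [← LinearMap.ker_eq_bot, Submodule.eq_bot_iff]
    intro w hw
    by_contra hw0
    rw [LinearMap.mem_ker] at hw
    -- some coordinate of `w` is nonzero
    have hcoord : ∃ j, b.coord j w ≠ 0 := by
      by_contra hcon
      push Not at hcon
      apply hw0
      apply b.ext_elem
      intro j
      rw [map_zero, Finsupp.zero_apply]
      exact hcon j
    obtain ⟨j, hj⟩ := hcoord
    have h1 : (a j ((b.coord j w)⁻¹ • b i)) w = b i := by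
      rw [ha_apply, smul_smul, mul_inv_cancel₀ hj, one_smul]
    have h2 := hequiv (a j ((b.coord j w)⁻¹ • b i)) w
    rw [h1, hφb, hw, map_zero] at h2
    exact hi h2
  · rw [hequiv, hΨg]

end endo

end Fermat.Agent.Lib.Ribet.H223

end
-- ===== PACK-END Lib/Ribet/H223/BLRCore.lean

-- ===== PACK-BEGIN S32/H152/EmbCoord.lean
section
/-
S32 / EMB (helper152) — coordinates: for a free `R`-module `V` with finite basis `b` and a ring
homomorphism `f : R → K` into a field, the `f`-semilinear coordinate map `V → Kⁿ` and the ring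
homomorphism `End_R V → End_K (Kⁿ)` (matrix in the basis `b`, entries mapped by `f`).
Mathlib-only.
-/


set_option autoImplicit false
set_option linter.unusedSectionVars false

noncomputable section

namespace Fermat.Agent.S32.H152

open Matrix

section Coord

variable {R K : Type*} [CommRing R] [Field K] (f : R →+* K) {n : Type*} [Fintype n]
  [DecidableEq n] {V : Type*} [AddCommGroup V] [Module R V] (b : Module.Basis n R V)

/-- The `f`-semilinear coordinate map. -/
def embCoord : V →+ (n → K) where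
  toFun v := fun i => f (b.repr v i)
  map_zero' := by
    funext i
    simp
  map_add' v w := by
    funext i
    simp

theorem embCoord_apply (v : V) (i : n) : embCoord f b v i = f (b.repr v i) := rfl

theorem embCoord_smul (r : R) (v : V) : embCoord f b (r • v) = f r • embCoord f b v := by
  funext i
  simp [embCoord_apply]

theorem embCoord_basis (i : n) : embCoord f b (b i) = Pi.single i 1 := by
  funext j
  rw [embCoord_apply, Module.Basis.repr_self, Finsupp.single_apply, Pi.single_apply]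
  by_cases h : i = j
  · subst h
    simp
  · rw [if_neg h, if_neg (Ne.symm h), map_zero]

theorem embCoord_injective (hf : Function.Injective f) : Function.Injective (embCoord f b) := by
  intro v w h
  apply b.repr.injective
  ext i
  apply hf
  exact congrFun h i

/-- The ring homomorphism `End_R V → End_K (Kⁿ)`. -/
def embEnd : Module.End R V →+* Module.End K (n → K) :=
  ((Matrix.toLinAlgEquiv' : Matrix n n K ≃ₐ[K] _) : Matrix n n K →+* _).comp
    ((f.mapMatrix).comp ((LinearMap.toMatrixAlgEquiv b : _ ≃ₐ[R] Matrix n n R) : _ →+* _))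

theorem embEnd_apply (E : Module.End R V) (x : n → K) :
    embEnd f b E x = ((LinearMap.toMatrix b b E).map f) *ᵥ x := rfl

theorem embEnd_eq (E : Module.End R V) :
    embEnd f b E = Matrix.toLin' ((LinearMap.toMatrix b b E).map f) := rfl

theorem embEnd_coord (E : Module.End R V) (v : V) :
    embEnd f b E (embCoord f b v) = embCoord f b (E v) := by
  funext i
  rw [embEnd_apply, embCoord_apply, ← LinearMap.toMatrix_mulVec_repr b b E v]
  exact (RingHom.map_mulVec f _ _ i).symm

theorem embEnd_smul (r : R) (E : Module.End R V) :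
    embEnd f b (r • E) = f r • embEnd f b E := by
  rw [embEnd_eq, embEnd_eq, map_smul, ← map_smul]
  ext i j
  simp [Matrix.map_apply]

theorem embEnd_trace (E : Module.End R V) :
    LinearMap.trace K (n → K) (embEnd f b E) = f (LinearMap.trace R V E) := by
  rw [LinearMap.trace_eq_matrix_trace R b E, embEnd_eq,
    LinearMap.trace_eq_matrix_trace K (Pi.basisFun K n), LinearMap.toMatrix_eq_toMatrix',
    LinearMap.toMatrix'_toLin']
  exact (AddMonoidHom.map_trace (f : R →+ K) _).symm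

/-- The image of the matrix unit. -/
theorem embEnd_single (i j : n) :
    embEnd f b ((LinearMap.toMatrixAlgEquiv b).symm (Matrix.single i j (1 : R)))
      = Matrix.toLin' (Matrix.single i j (1 : K)) := by
  rw [embEnd_eq]
  congr 1
  have h : LinearMap.toMatrix b b ((LinearMap.toMatrixAlgEquiv b).symm (Matrix.single i j (1 : R)))
      = Matrix.single i j (1 : R) :=
    (LinearMap.toMatrixAlgEquiv b).apply_symm_apply _
  rw [h]
  ext k l
  simp [Matrix.single_apply, apply_ite f]

end Coord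

/-- Coordinates of an element of `I • ⊤` lie in `I`. -/
theorem embCoord_repr_mem {O M n : Type*} [CommRing O] [AddCommGroup M] [Module O M]
    (c : Module.Basis n O M) (I : Ideal O) {x : M} (hx : x ∈ I • (⊤ : Submodule O M)) (j : n) :
    c.repr x j ∈ I := by
  refine Submodule.smul_induction_on (p := fun x => c.repr x j ∈ I) hx ?_ ?_
  · intro a ha y _
    rw [map_smul, Finsupp.smul_apply, smul_eq_mul]
    exact I.mul_mem_right _ ha
  · intro x y hx hy
    rw [map_add, Finsupp.add_apply]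
    exact I.add_mem hx hy

/-- Cancelling a nonzero factor in a discrete valuation ring costs a bounded power of `𝔪`. -/
theorem embCoord_dvr_cancel {O : Type*} [CommRing O] [IsDomain O] [IsDiscreteValuationRing O]
    {δ : O} (hδ : δ ≠ 0) :
    ∃ k : ℕ, ∀ (m : ℕ) (a : O), δ * a ∈ IsLocalRing.maximalIdeal O ^ (m + k) →
      a ∈ IsLocalRing.maximalIdeal O ^ m := by
  obtain ⟨ϖ, hϖ⟩ := IsDiscreteValuationRing.exists_irreducible O
  obtain ⟨k, u, hu⟩ := IsDiscreteValuationRing.eq_unit_mul_pow_irreducible hδ hϖ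
  refine ⟨k, fun m a h => ?_⟩
  rw [hϖ.maximalIdeal_eq, Ideal.span_singleton_pow, Ideal.mem_span_singleton] at h ⊢
  rw [hu, pow_add] at h
  have h1 : ϖ ^ k * ϖ ^ m ∣ ϖ ^ k * ((u : O) * a) := by
    have e1 : ϖ ^ k * ϖ ^ m = ϖ ^ m * ϖ ^ k := mul_comm _ _
    have e2 : ϖ ^ k * ((u : O) * a) = (u : O) * ϖ ^ k * a := by ring
    rw [e1, e2]
    exact h
  have h2 := (mul_dvd_mul_iff_left (pow_ne_zero k hϖ.ne_zero)).mp h1
  exact (Units.dvd_mul_left (u := u)).mp h2

end Fermat.Agent.S32.H152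

end
end
-- ===== PACK-END S32/H152/EmbCoord.lean

-- ===== PACK-BEGIN S28/H589/Section.lean
section



/-!
# S28 / A-Φ descent, formal part 1 (helper589): the section matrix

For `f ∈ R((q))` and `p ≥ 1`, the Laurent series ring is free of rank `p` over the image of
`V_p = qExpand R p` (`q ↦ q^p`) with basis `1, q, …, q^(p-1)`.  The matrix of multiplication
by `f` in this basis has entries the "sections" `sec p f i k = ∑ₘ f_{pm+k-i} qᵐ`.  Its
characteristic polynomial `χ` is monic of degree `p` over `R((q))` and `V_p(χ)(f) = 0`.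
-/

set_option autoImplicit false

noncomputable section

open ModularCurve HahnSeries

namespace Fermat.Agent.S28.H589

variable {R : Type*} [CommRing R]

theorem sec_bddBelow (p : ℕ) [NeZero p] (f : LaurentSeries R) (i k : ℕ) :
    BddBelow (Function.support fun m : ℤ => f.coeff ((p : ℤ) * m + k - i)) := by
  refine ⟨-(|f.order| + i + k), ?_⟩
  intro m hm
  by_contra hlt
  push Not at hlt
  apply hm
  apply HahnSeries.coeff_eq_zero_of_lt_order
  have hp : (1 : ℤ) ≤ p := by
    have := Nat.pos_of_ne_zero (NeZero.ne p)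
    exact_mod_cast this
  have hm0 : m < 0 := by
    have h1 := abs_nonneg f.order
    have : (0 : ℤ) ≤ i := Int.natCast_nonneg i
    have : (0 : ℤ) ≤ k := Int.natCast_nonneg k
    linarith
  have h2 : (p : ℤ) * m ≤ m := by nlinarith
  have h3 := neg_abs_le f.order
  have : (0 : ℤ) ≤ i := Int.natCast_nonneg i
  linarith

/-- The section `∑ₘ f_{pm+k-i} qᵐ` of `f`. -/
def sec (p : ℕ) [NeZero p] (f : LaurentSeries R) (i k : ℕ) : LaurentSeries R :=
  HahnSeries.ofSuppBddBelow (fun m : ℤ => f.coeff ((p : ℤ) * m + k - i)) (sec_bddBelow p f i k)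

@[simp]
theorem sec_coeff (p : ℕ) [NeZero p] (f : LaurentSeries R) (i k : ℕ) (m : ℤ) :
    (sec p f i k).coeff m = f.coeff ((p : ℤ) * m + k - i) := rfl

/-- `f · qⁱ = ∑_{k<p} V_p(sec p f i k) · qᵏ`. -/
theorem mul_single_eq_sum_sec (p : ℕ) [NeZero p] (f : LaurentSeries R) (i : ℕ) :
    f * HahnSeries.single (i : ℤ) (1 : R) =
      ∑ k ∈ Finset.range p, qExpand R p (sec p f i k) * HahnSeries.single (k : ℤ) (1 : R) := by
  ext n
  rw [HahnSeries.coeff_mul_single, mul_one, HahnSeries.coeff_sum]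
  have hp : (0 : ℤ) < p := by
    have := Nat.pos_of_ne_zero (NeZero.ne p)
    exact_mod_cast this
  set k₀ : ℕ := (n % (p : ℤ)).toNat with hk₀
  have hk₀n : ((k₀ : ℕ) : ℤ) = n % (p : ℤ) := Int.toNat_of_nonneg (Int.emod_nonneg _ hp.ne')
  have hk₀p : k₀ < p := by
    have := Int.emod_lt_of_pos n hp
    rw [← hk₀n] at this
    exact_mod_cast this
  rw [Finset.sum_eq_single_of_mem k₀ (Finset.mem_range.mpr hk₀p)]
  · rw [HahnSeries.coeff_mul_single, mul_one]
    have hdiv : n - (k₀ : ℤ) = (p : ℤ) * (n / (p : ℤ)) := by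
      rw [hk₀n]
      have := Int.emod_add_mul_ediv n (p : ℤ)
      linarith
    rw [hdiv, qExpand_coeff_mul, sec_coeff]
    congr 1
    rw [← hdiv]
    ring
  · intro k hk hne
    rw [HahnSeries.coeff_mul_single, mul_one]
    apply qExpand_coeff_of_not_dvd
    intro hdvd
    apply hne
    have hkp : k < p := Finset.mem_range.mp hk
    have h1 : n % (p : ℤ) = (k : ℤ) % (p : ℤ) := by
      have := (Int.emod_emod_of_dvd n (dvd_refl (p : ℤ)))
      exact (Int.emod_eq_emod_iff_emod_sub_eq_zero).mpr (Int.emod_eq_zero_of_dvd hdvd)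
    have h2 : (k : ℤ) % (p : ℤ) = k := Int.emod_eq_of_lt (Int.natCast_nonneg k) (by exact_mod_cast hkp)
    have : ((k₀ : ℕ) : ℤ) = (k : ℤ) := by rw [hk₀n, h1, h2]
    exact_mod_cast this.symm

/-- The section matrix of `f`. -/
def secMat (p : ℕ) [NeZero p] (f : LaurentSeries R) : Matrix (Fin p) (Fin p) (LaurentSeries R) :=
  fun i k => sec p f (i : ℕ) (k : ℕ)

/-- The basis vector `(qᵏ)ₖ`. -/
def qVec (R : Type*) [CommRing R] (p : ℕ) : Fin p → LaurentSeries R :=
  fun k => HahnSeries.single ((k : ℕ) : ℤ) (1 : R)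

theorem secMat_mulVec (p : ℕ) [NeZero p] (f : LaurentSeries R) :
    ((secMat p f).map (qExpand R p)).mulVec (qVec R p) = f • qVec R p := by
  funext i
  simp only [Matrix.mulVec, dotProduct, Matrix.map_apply, secMat, qVec, Pi.smul_apply,
    smul_eq_mul]
  rw [mul_single_eq_sum_sec p f (i : ℕ), ← Fin.sum_univ_eq_sum_range
    (fun k => qExpand R p (sec p f (i : ℕ) k) * HahnSeries.single (k : ℤ) (1 : R)) p]

/-- **Section charpoly.**  For every `f ∈ R((q))` there is a monic polynomial `χ` of degree `p`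
over `R((q))` with `V_p(χ)(f) = 0`. -/
theorem exists_section_charpoly [Nontrivial R] (p : ℕ) [NeZero p] (f : LaurentSeries R) :
    ∃ χ : Polynomial (LaurentSeries R), χ.Monic ∧ χ.natDegree = p ∧
      (χ.map (qExpand R p)).eval f = 0 := by
  classical
  refine ⟨(secMat p f).charpoly, Matrix.charpoly_monic _, ?_, ?_⟩
  · rw [Matrix.charpoly_natDegree_eq_dim, Fintype.card_fin]
  · rw [← Matrix.charpoly_map, Matrix.eval_charpoly]
    set A : Matrix (Fin p) (Fin p) (LaurentSeries R) :=
      Matrix.scalar (Fin p) f - (secMat p f).map (qExpand R p) with hA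
    have hAv : A.mulVec (qVec R p) = 0 := by
      rw [hA, Matrix.sub_mulVec, secMat_mulVec]
      funext i
      simp [Matrix.mulVec, dotProduct, Matrix.scalar_apply, Matrix.diagonal_apply]
    have hdet : A.det • qVec R p = 0 := by
      have h1 : (A.adjugate * A).mulVec (qVec R p) = 0 := by
        rw [← Matrix.mulVec_mulVec, hAv, Matrix.mulVec_zero]
      rw [Matrix.adjugate_mul, Matrix.smul_mulVec, Matrix.one_mulVec] at h1
      exact h1
    have h0 := congrFun hdet ⟨0, Nat.pos_of_ne_zero (NeZero.ne p)⟩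
    simp only [Pi.smul_apply, qVec, Nat.cast_zero, smul_eq_mul, Pi.zero_apply] at h0
    have h1 : (HahnSeries.single (0 : ℤ) (1 : R)) = 1 := rfl
    rw [h1, mul_one] at h0
    exact h0

end Fermat.Agent.S28.H589

end

end
-- ===== PACK-END S28/H589/Section.lean

-- ===== PACK-BEGIN S37/H940/PlaceBasic.lean
section




/-!
# S37 / RIM (helper940): basic vocabulary on places

`InMax P f` : `f` lies in the maximal ideal of the place `P` (`f = 0` or `ord_P f > 0`);
closure properties; uniqueness of the value of a function at a place.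
Everything is characteristic free.
-/

set_option autoImplicit false

namespace Fermat.Agent.S37.H940

open AlgebraicCurve
open Fermat.Agent.S24.FF

variable {K F : Type*} [Field K] [Field F] [Algebra K F]

/-- `f` lies in the maximal ideal of the place `P`. -/
def InMax (P : Place K F) (f : F) : Prop := f = 0 ∨ 0 < P.ord f

theorem inMax_zero (P : Place K F) : InMax P (0 : F) := Or.inl rfl

theorem inMax_of_ord_pos {P : Place K F} {f : F} (h : 0 < P.ord f) : InMax P f := Or.inr h

theorem InMax.ord_pos {P : Place K F} {f : F} (h : InMax P f) (hf : f ≠ 0) : 0 < P.ord f :=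
  h.resolve_left hf

theorem InMax.ord_nonneg {P : Place K F} {f : F} (h : InMax P f) : 0 ≤ P.ord f := by
  rcases h with rfl | h
  · simp
  · exact h.le

theorem inMax_iff_mem_nonunits {P : Place K F} {f : F} :
    InMax P f ↔ f ∈ P.toValuationSubring.nonunits := by
  rcases eq_or_ne f 0 with rfl | hf
  · refine ⟨fun _ => ?_, fun _ => inMax_zero P⟩
    rw [ValuationSubring.mem_nonunits_iff_exists_mem_maximalIdeal]
    exact ⟨zero_mem _, Ideal.zero_mem _⟩
  · rw [← ord_pos_iff_mem_nonunits P hf]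
    exact ⟨fun h => h.ord_pos hf, inMax_of_ord_pos⟩

theorem inMax_iff_exists_mem_maximalIdeal {P : Place K F} {f : F} :
    InMax P f ↔ ∃ h : f ∈ P.toValuationSubring,
      (⟨f, h⟩ : P.toValuationSubring) ∈ IsLocalRing.maximalIdeal P.toValuationSubring := by
  rw [inMax_iff_mem_nonunits, ValuationSubring.mem_nonunits_iff_exists_mem_maximalIdeal]

theorem InMax.add {P : Place K F} {f g : F} (hf : InMax P f) (hg : InMax P g) :
    InMax P (f + g) := by
  rw [inMax_iff_exists_mem_maximalIdeal] at hf hg ⊢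
  obtain ⟨hf1, hf2⟩ := hf
  obtain ⟨hg1, hg2⟩ := hg
  exact ⟨add_mem hf1 hg1, Ideal.add_mem _ hf2 hg2⟩

theorem InMax.neg {P : Place K F} {f : F} (hf : InMax P f) : InMax P (-f) := by
  rw [inMax_iff_exists_mem_maximalIdeal] at hf ⊢
  obtain ⟨hf1, hf2⟩ := hf
  exact ⟨neg_mem hf1, Ideal.neg_mem_iff _ |>.mpr hf2⟩

theorem InMax.sub {P : Place K F} {f g : F} (hf : InMax P f) (hg : InMax P g) :
    InMax P (f - g) := by
  rw [sub_eq_add_neg]
  exact hf.add hg.neg

theorem InMax.mul_of_ord_nonneg {P : Place K F} {f g : F} (hf : InMax P f) (hg : 0 ≤ P.ord g) :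
    InMax P (f * g) := by
  rw [inMax_iff_exists_mem_maximalIdeal] at hf ⊢
  obtain ⟨hf1, hf2⟩ := hf
  have hg1 : g ∈ P.toValuationSubring := mem_of_ord_nonneg P hg
  exact ⟨mul_mem hf1 hg1, Ideal.mul_mem_right ⟨g, hg1⟩ _ hf2⟩

theorem InMax.ord_nonneg_mul {P : Place K F} {f g : F} (hg : 0 ≤ P.ord g) (hf : InMax P f) :
    InMax P (g * f) := by
  rw [mul_comm]
  exact hf.mul_of_ord_nonneg hg

theorem InMax.const_mul {P : Place K F} {f : F} (hf : InMax P f) (c : K) :
    InMax P (algebraMap K F c * f) :=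
  hf.ord_nonneg_mul (ord_algebraMap P c).ge

theorem not_inMax_one (P : Place K F) : ¬ InMax P (1 : F) := by
  rintro (h | h)
  · exact one_ne_zero h
  · simp at h

theorem not_inMax_of_ord_eq_zero {P : Place K F} {f : F} (hf : f ≠ 0) (h : P.ord f = 0) :
    ¬ InMax P f := by
  rintro (h0 | h0)
  · exact hf h0
  · omega

theorem inMax_algebraMap_iff {P : Place K F} {c : K} : InMax P (algebraMap K F c) ↔ c = 0 := by
  constructor
  · rintro (h | h)
    · exact (map_eq_zero_iff _ (algebraMap K F).injective).mp h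
    · rw [ord_algebraMap] at h
      exact absurd h (lt_irrefl _)
  · rintro rfl
    rw [map_zero]
    exact inMax_zero P

/-- the value of a function at a place is unique -/
theorem value_unique {P : Place K F} {f : F} {a b : K}
    (ha : InMax P (f - algebraMap K F a)) (hb : InMax P (f - algebraMap K F b)) : a = b := by
  have h := hb.sub ha
  have e : f - algebraMap K F b - (f - algebraMap K F a) = algebraMap K F (a - b) := by
    rw [map_sub]; ring
  rw [e, inMax_algebraMap_iff] at h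
  exact sub_eq_zero.mp h

/-- a function congruent to a constant modulo the maximal ideal is regular -/
theorem ord_nonneg_of_inMax_sub {P : Place K F} {f : F} {a : K}
    (h : InMax P (f - algebraMap K F a)) : 0 ≤ P.ord f := by
  have h1 : f - algebraMap K F a ∈ P.toValuationSubring := mem_of_ord_nonneg P h.ord_nonneg
  have h2 : f = (f - algebraMap K F a) + algebraMap K F a := by ring
  rw [h2]
  exact ord_nonneg_of_mem P (add_mem h1 (P.algebraMap_mem' a))

/-- a function with a nonzero value is a unit at the place -/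
theorem ord_eq_zero_of_inMax_sub {P : Place K F} {f : F} {a : K}
    (h : InMax P (f - algebraMap K F a)) (ha : a ≠ 0) : P.ord f = 0 := by
  have h0 := ord_nonneg_of_inMax_sub h
  by_contra hne
  have hpos : 0 < P.ord f := lt_of_le_of_ne h0 (Ne.symm hne)
  have h1 : InMax P f := inMax_of_ord_pos hpos
  have h2 := h1.sub h
  rw [sub_sub_cancel, inMax_algebraMap_iff] at h2
  exact ha h2

theorem ord_neg (P : Place K F) (f : F) : P.ord (-f) = P.ord f := by
  rcases eq_or_ne f 0 with rfl | hf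
  · simp
  have h1 : P.ord (-1 : F) = 0 := by
    have := ord_algebraMap P (-1 : K)
    simpa using this
  rw [neg_eq_neg_one_mul, P.ord_mul (neg_ne_zero.mpr one_ne_zero) hf, h1, zero_add]

theorem ord_const_mul (P : Place K F) {c : K} (hc : c ≠ 0) (f : F) :
    P.ord (algebraMap K F c * f) = P.ord f := by
  rcases eq_or_ne f 0 with rfl | hf
  · simp
  have hc' : algebraMap K F c ≠ 0 := by
    rwa [Ne, map_eq_zero_iff _ (algebraMap K F).injective]
  rw [P.ord_mul hc' hf, ord_algebraMap, zero_add]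

theorem ord_nonneg_add {P : Place K F} {f g : F} (hf : 0 ≤ P.ord f) (hg : 0 ≤ P.ord g) :
    0 ≤ P.ord (f + g) :=
  ord_nonneg_of_mem P (add_mem (mem_of_ord_nonneg P hf) (mem_of_ord_nonneg P hg))

theorem ord_nonneg_sub {P : Place K F} {f g : F} (hf : 0 ≤ P.ord f) (hg : 0 ≤ P.ord g) :
    0 ≤ P.ord (f - g) :=
  ord_nonneg_of_mem P (sub_mem (mem_of_ord_nonneg P hf) (mem_of_ord_nonneg P hg))

theorem ord_nonneg_mul {P : Place K F} {f g : F} (hf : 0 ≤ P.ord f) (hg : 0 ≤ P.ord g) :
    0 ≤ P.ord (f * g) :=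
  ord_nonneg_of_mem P (mul_mem (mem_of_ord_nonneg P hf) (mem_of_ord_nonneg P hg))

theorem ord_nonneg_const (P : Place K F) (c : K) : 0 ≤ P.ord (algebraMap K F c) :=
  (ord_algebraMap P c).ge

end Fermat.Agent.S37.H940

end
-- ===== PACK-END S37/H940/PlaceBasic.lean

-- ===== PACK-BEGIN S37/H697/Bounded.lean
section


/-!
# S37 (helper697): the bounded-homomorphism trick

An additive map `δ : (X →₀ ℤ) →+ (Y →₀ ℤ)` which kills a subgroup `Pr` ("principal divisors") and
is bounded on the generators `single P 1` vanishes on every `D` all of whose multiples `n • D` are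
congruent modulo `Pr` to elements of bounded `ℓ¹`-norm.

This replaces divisibility of `Pic⁰` in uniqueness statements for place reductions, and pointwise
arguments in the Eichler–Shimura relation: the boundedness hypothesis on multiples is supplied by
Riemann's inequality.
-/

set_option autoImplicit false

namespace Fermat.Agent.S37.H697

open Finsupp

variable {X Y : Type*}

/-- The `ℓ¹`-norm of a finitely supported integer-valued function. -/
noncomputable def l1norm (E : X →₀ ℤ) : ℕ := E.sum fun _ n => n.natAbs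

@[simp] theorem l1norm_zero : l1norm (0 : X →₀ ℤ) = 0 := by simp [l1norm]

theorem l1norm_single (P : X) (n : ℤ) : l1norm (single P n) = n.natAbs := by
  simp [l1norm]

theorem l1norm_add_le (D E : X →₀ ℤ) : l1norm (D + E) ≤ l1norm D + l1norm E := by
  classical
  unfold l1norm
  have h1 : (D + E).sum (fun _ n => n.natAbs)
      = ∑ x ∈ D.support ∪ E.support, ((D + E) x).natAbs :=
    Finsupp.sum_of_support_subset _ Finsupp.support_add _ (fun _ _ => rfl)
  have h2 : D.sum (fun _ n => n.natAbs) = ∑ x ∈ D.support ∪ E.support, (D x).natAbs :=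
    Finsupp.sum_of_support_subset _ Finset.subset_union_left _ (fun _ _ => rfl)
  have h3 : E.sum (fun _ n => n.natAbs) = ∑ x ∈ D.support ∪ E.support, (E x).natAbs :=
    Finsupp.sum_of_support_subset _ Finset.subset_union_right _ (fun _ _ => rfl)
  rw [h1, h2, h3, ← Finset.sum_add_distrib]
  exact Finset.sum_le_sum fun x _ => by
    rw [Finsupp.add_apply]; exact Int.natAbs_add_le _ _

theorem l1norm_neg (D : X →₀ ℤ) : l1norm (-D) = l1norm D := by
  unfold l1norm
  rw [Finsupp.sum_neg_index (fun _ => rfl)]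
  simp [Finsupp.sum]

theorem l1norm_sub_le (D E : X →₀ ℤ) : l1norm (D - E) ≤ l1norm D + l1norm E := by
  rw [sub_eq_add_neg]
  exact (l1norm_add_le D (-E)).trans (by rw [l1norm_neg])

theorem natAbs_apply_le_l1norm (E : X →₀ ℤ) (x : X) : (E x).natAbs ≤ l1norm E := by
  classical
  by_cases hx : x ∈ E.support
  · unfold l1norm Finsupp.sum
    exact Finset.single_le_sum (f := fun a => (E a).natAbs) (fun _ _ => Nat.zero_le _) hx
  · rw [Finsupp.notMem_support_iff.mp hx]; simp

/-- A bounded additive functional is bounded by the `ℓ¹`-norm. -/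
theorem natAbs_map_le (φ : (X →₀ ℤ) →+ ℤ) (C : ℕ)
    (hC : ∀ P : X, (φ (single P 1)).natAbs ≤ C) (E : X →₀ ℤ) :
    (φ E).natAbs ≤ C * l1norm E := by
  classical
  induction E using Finsupp.induction with
  | zero => simp
  | single_add P n E hP hn ih =>
    have hsingle : φ (single P n) = n * φ (single P 1) := by
      have : single P n = n • single P (1 : ℤ) := by
        rw [Finsupp.smul_single, smul_eq_mul, mul_one]
      rw [this, map_zsmul, smul_eq_mul]
    have hnorm : l1norm (single P n + E) = n.natAbs + l1norm E := by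
      unfold l1norm
      rw [Finsupp.sum_add_index_of_disjoint]
      · simp
      · rw [Finset.disjoint_left]
        intro x hx hx'
        have : x = P := by
          have := Finsupp.support_single_subset hx
          simpa using this
        exact hP (this ▸ hx')
    rw [map_add, hnorm, hsingle, mul_add]
    refine (Int.natAbs_add_le _ _).trans (Nat.add_le_add ?_ ih)
    rw [Int.natAbs_mul, mul_comm]
    exact Nat.mul_le_mul_right _ (hC P)

/-- **Bounded-homomorphism trick.** -/
theorem eq_zero_of_bounded (δ : (X →₀ ℤ) →+ (Y →₀ ℤ)) (Pr : AddSubgroup (X →₀ ℤ))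
    (hPr : ∀ D ∈ Pr, δ D = 0) (C : ℕ) (hC : ∀ P : X, l1norm (δ (single P 1)) ≤ C)
    (D : X →₀ ℤ) (B : ℕ)
    (hB : ∀ n : ℕ, ∃ E : X →₀ ℤ, l1norm E ≤ B ∧ n • D - E ∈ Pr) :
    δ D = 0 := by
  ext y
  rw [Finsupp.zero_apply]
  set φ : (X →₀ ℤ) →+ ℤ := (Finsupp.applyAddHom y).comp δ with hφ
  have hφC : ∀ P : X, (φ (single P 1)).natAbs ≤ C := fun P =>
    (natAbs_apply_le_l1norm (δ (single P 1)) y).trans (hC P)
  have hbound : ∀ n : ℕ, n * (φ D).natAbs ≤ C * B := by
    intro n
    obtain ⟨E, hE, hmem⟩ := hB n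
    have h0 : δ (n • D - E) = 0 := hPr _ hmem
    have h1 : φ (n • D) = φ E := by
      have : φ (n • D - E) = 0 := by
        show (δ (n • D - E)) y = 0
        rw [h0]; rfl
      rw [map_sub, sub_eq_zero] at this
      exact this
    have h2 : (φ (n • D)).natAbs = n * (φ D).natAbs := by
      rw [map_nsmul, nsmul_eq_mul, Int.natAbs_mul, Int.natAbs_natCast]
    rw [← h2, h1]
    exact (natAbs_map_le φ C hφC E).trans (Nat.mul_le_mul_left _ hE)
  have hzero : (φ D).natAbs = 0 := by
    by_contra hne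
    have hpos : 1 ≤ (φ D).natAbs := Nat.one_le_iff_ne_zero.mpr hne
    have := hbound (C * B + 1)
    have h3 : (C * B + 1) * 1 ≤ (C * B + 1) * (φ D).natAbs := Nat.mul_le_mul_left _ hpos
    omega
  exact Int.natAbs_eq_zero.mp hzero

end Fermat.Agent.S37.H697

end
-- ===== PACK-END S37/H697/Bounded.lean

-- ===== PACK-BEGIN S19/H679/Star.lean
section


/-!
# Cell A3 (S19), block UNR (helper679) — the semilinear action on functions and the orbit trace

`Γ` a group acting on a field `Ω` by ring automorphisms and on a set `M` (through a plain map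
`act : Γ → M → M` with `act 1 = id`, `act (σ τ) = act σ ∘ act τ`).  On functions `M → Ω` we
use the semilinear action `(σ ⋆ f) m = σ • f (act σ⁻¹ m)`; `f` is *equivariant*
(`f (act σ m) = σ • f m`) iff `σ ⋆ f = f`.

Main result: `orbitTrace_mem` — the orbit-trace lemma used for unramified descent.
-/

set_option autoImplicit false

namespace Fermat.Agent.S19.H679

variable {Γ : Type*} [Group Γ] {Ω : Type*} [Field Ω] [MulSemiringAction Γ Ω] {M : Type*}

/-- `act` is a group action (as a plain map). -/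
structure IsActH679 (act : Γ → M → M) : Prop where
  one : ∀ m, act 1 m = m
  mul : ∀ σ τ m, act (σ * τ) m = act σ (act τ m)

/-- The semilinear action on functions. -/
def starH679 (act : Γ → M → M) (σ : Γ) (f : M → Ω) : M → Ω := fun m => σ • f (act σ⁻¹ m)

theorem starH679_apply (act : Γ → M → M) (σ : Γ) (f : M → Ω) (m : M) :
    starH679 act σ f m = σ • f (act σ⁻¹ m) := rfl

section basics

variable {act : Γ → M → M} (hact : IsActH679 act)
include hact

theorem IsActH679.inv_act (σ : Γ) (m : M) : act σ⁻¹ (act σ m) = m := by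
  rw [← hact.mul, inv_mul_cancel, hact.one]

theorem IsActH679.act_inv (σ : Γ) (m : M) : act σ (act σ⁻¹ m) = m := by
  rw [← hact.mul, mul_inv_cancel, hact.one]

theorem starH679_one (f : M → Ω) : starH679 act (1 : Γ) f = f := by
  funext m
  simp [starH679, hact.one]

theorem starH679_mul (σ τ : Γ) (f : M → Ω) :
    starH679 act (σ * τ) f = starH679 act σ (starH679 act τ f) := by
  funext m
  simp only [starH679, mul_inv_rev, hact.mul, mul_smul]

theorem starH679_inv_star (σ : Γ) (f : M → Ω) :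
    starH679 act σ⁻¹ (starH679 act σ f) = f := by
  rw [← starH679_mul hact, inv_mul_cancel, starH679_one hact]

theorem starH679_star_inv (σ : Γ) (f : M → Ω) :
    starH679 act σ (starH679 act σ⁻¹ f) = f := by
  rw [← starH679_mul hact, mul_inv_cancel, starH679_one hact]

/-- `σ ⋆ f = f` iff `f` intertwines `act σ` and `σ •`. -/
theorem starH679_eq_self_iff (σ : Γ) (f : M → Ω) :
    starH679 act σ f = f ↔ ∀ m, f (act σ m) = σ • f m := by
  constructor
  · intro h m
    have := congrFun h (act σ m)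
    rw [starH679_apply, hact.inv_act] at this
    exact this.symm
  · intro h
    funext m
    rw [starH679_apply, ← h, hact.act_inv]

end basics

/-- The semilinear action as a ring homomorphism of the function ring. -/
def starRingHomH679 (act : Γ → M → M) (σ : Γ) : (M → Ω) →+* (M → Ω) where
  toFun := starH679 act σ
  map_one' := by funext m; simp [starH679]
  map_mul' f g := by funext m; simp [starH679, smul_mul']
  map_zero' := by funext m; simp [starH679]
  map_add' f g := by funext m; simp [starH679, smul_add]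

@[simp] theorem starRingHomH679_apply (act : Γ → M → M) (σ : Γ) (f : M → Ω) :
    starRingHomH679 act σ f = starH679 act σ f := rfl

theorem starH679_smul (act : Γ → M → M) (σ : Γ) (x : Ω) (f : M → Ω) :
    starH679 act σ (x • f) = (σ • x) • starH679 act σ f := by
  funext m
  simp [starH679, smul_mul']

theorem starH679_add (act : Γ → M → M) (σ : Γ) (f g : M → Ω) :
    starH679 act σ (f + g) = starH679 act σ f + starH679 act σ g :=
  map_add (starRingHomH679 act σ) f g

theorem starH679_sum (act : Γ → M → M) (σ : Γ) {ι : Type*} (s : Finset ι) (F : ι → M → Ω) :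
    starH679 act σ (∑ i ∈ s, F i) = ∑ i ∈ s, starH679 act σ (F i) :=
  map_sum (starRingHomH679 act σ) F s

/-- The action on pairs (coefficient tuple, function). -/
def actPairH679 (act : Γ → M → M) {J : Type*} (σ : Γ) (p : (J → Ω) × (M → Ω)) :
    (J → Ω) × (M → Ω) :=
  (fun j => σ • p.1 j, starH679 act σ p.2)

theorem actPairH679_mul {act : Γ → M → M} (hact : IsActH679 act) {J : Type*} (σ τ : Γ)
    (p : (J → Ω) × (M → Ω)) :
    actPairH679 act (σ * τ) p = actPairH679 act σ (actPairH679 act τ p) := by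
  simp only [actPairH679, starH679_mul hact, mul_smul]

theorem actPairH679_one {act : Γ → M → M} (hact : IsActH679 act) {J : Type*}
    (p : (J → Ω) × (M → Ω)) : actPairH679 act (1 : Γ) p = p := by
  simp only [actPairH679, starH679_one hact, one_smul]

section trace

variable {act : Γ → M → M} (hact : IsActH679 act)
variable {A : Type*} [CommRing A] [Algebra A Ω]
variable {J : Type*} [Fintype J]

/-- The orbit trace with coefficient index `j`. -/
noncomputable def orbitTraceH679 (O : Finset ((J → Ω) × (M → Ω))) (j : J) : M → Ω :=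
  ∑ p ∈ O, p.1 j • p.2

include hact in
/-- The orbit trace over a `Γ`-stable finite set is invariant. -/
theorem starH679_orbitTrace (O : Finset ((J → Ω) × (M → Ω)))
    (hO : ∀ σ : Γ, ∀ p ∈ O, actPairH679 act σ p ∈ O) (σ : Γ) (j : J) :
    starH679 act σ (orbitTraceH679 O j) = orbitTraceH679 O j := by
  classical
  unfold orbitTraceH679
  rw [starH679_sum]
  refine Finset.sum_nbij' (fun p => actPairH679 act σ p) (fun p => actPairH679 act σ⁻¹ p)
    (fun p hp => hO σ p hp) (fun p hp => hO σ⁻¹ p hp) ?_ ?_ ?_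
  · intro p _
    rw [← actPairH679_mul hact, inv_mul_cancel, actPairH679_one hact]
  · intro p _
    rw [← actPairH679_mul hact, mul_inv_cancel, actPairH679_one hact]
  · intro p _
    rw [starH679_smul]
    rfl

include hact in
/-- **Orbit-trace lemma.**  See the module docstring of `Descent.lean` for its use. -/
theorem orbitTrace_mem (𝔪 : Ideal A) (Hloc : Submodule A (M → Ω))
    (c : J → Ω) (a : J → A) (f : M → Ω) (D : Set Γ) (hD1 : (1 : Γ) ∈ D)
    (hfin : (Set.range fun σ : Γ => actPairH679 act σ (c, f)).Finite)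
    (h1 : ∀ δ ∈ D, starH679 act δ f ∈ Hloc)
    (h1' : ∀ δ ∈ D, ∀ j, ∃ y : A, algebraMap A Ω y = δ • c j)
    (h2 : ∃ e ∈ 𝔪, ∑ j, algebraMap A Ω (a j) * c j = 1 + algebraMap A Ω e)
    (h3 : ∀ δ ∈ D, actPairH679 act δ (c, f) ≠ (c, f) →
      ∃ e ∈ 𝔪, ∑ j, algebraMap A Ω (a j) * δ • c j = algebraMap A Ω e)
    (h4 : ∀ σ : Γ, (∀ δ ∈ D, actPairH679 act σ (c, f) ≠ actPairH679 act δ (c, f)) →
      ∀ j, (σ • c j) • starH679 act σ f ∈ 𝔪 • Hloc) :
    f ∈ Submodule.span A {h | h ∈ Hloc ∧ ∀ σ : Γ, starH679 act σ h = h} ⊔ 𝔪 • Hloc := by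
  classical
  set O : Finset ((J → Ω) × (M → Ω)) := hfin.toFinset with hOdef
  have hmemO : ∀ p, p ∈ O ↔ ∃ σ : Γ, actPairH679 act σ (c, f) = p := by
    intro p
    rw [hOdef, Set.Finite.mem_toFinset]
    rfl
  have hOstable : ∀ σ : Γ, ∀ p ∈ O, actPairH679 act σ p ∈ O := by
    intro σ p hp
    obtain ⟨τ, rfl⟩ := (hmemO p).1 hp
    exact (hmemO _).2 ⟨σ * τ, actPairH679_mul hact σ τ _⟩
  have hp0 : (c, f) ∈ O := (hmemO _).2 ⟨1, actPairH679_one hact _⟩
  have hfH : f ∈ Hloc := by
    have := h1 1 hD1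
    rwa [starH679_one hact] at this
  have hmH : 𝔪 • Hloc ≤ Hloc := Submodule.smul_le_right
  -- each term of each trace lies in `Hloc`
  have hterm : ∀ p ∈ O, ∀ j, p.1 j • p.2 ∈ Hloc := by
    intro p hp j
    obtain ⟨σ, rfl⟩ := (hmemO p).1 hp
    by_cases hσ : ∃ δ ∈ D, actPairH679 act σ (c, f) = actPairH679 act δ (c, f)
    · obtain ⟨δ, hδ, hδeq⟩ := hσ
      rw [hδeq]
      obtain ⟨y, hy⟩ := h1' δ hδ j
      show (δ • c j) • starH679 act δ f ∈ Hloc
      rw [← hy, algebraMap_smul]
      exact Hloc.smul_mem y (h1 δ hδ)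
    · push_neg at hσ
      exact hmH (h4 σ hσ j)
  have hT : ∀ j, orbitTraceH679 O j ∈ {h | h ∈ Hloc ∧ ∀ σ : Γ, starH679 act σ h = h} := by
    intro j
    refine ⟨?_, fun σ => starH679_orbitTrace hact O hOstable σ j⟩
    exact Submodule.sum_mem _ fun p hp => hterm p hp j
  -- the combination
  have hcomb : ∑ j, a j • orbitTraceH679 O j
      = ∑ p ∈ O, (∑ j, algebraMap A Ω (a j) * p.1 j) • p.2 := by
    unfold orbitTraceH679
    simp_rw [Finset.smul_sum, Finset.sum_smul]
    rw [Finset.sum_comm]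
    refine Finset.sum_congr rfl fun p _ => Finset.sum_congr rfl fun j _ => ?_
    rw [← algebraMap_smul Ω (a j) (p.1 j • p.2), smul_smul]
  have hrest : ∀ p ∈ O.erase (c, f), (∑ j, algebraMap A Ω (a j) * p.1 j) • p.2 ∈ 𝔪 • Hloc := by
    intro p hp
    obtain ⟨hne, hpO⟩ := Finset.mem_erase.1 hp
    obtain ⟨σ, rfl⟩ := (hmemO p).1 hpO
    by_cases hσ : ∃ δ ∈ D, actPairH679 act σ (c, f) = actPairH679 act δ (c, f)
    · obtain ⟨δ, hδ, hδeq⟩ := hσ
      rw [hδeq] at hne ⊢
      obtain ⟨e, he, hee⟩ := h3 δ hδ hne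
      show (∑ j, algebraMap A Ω (a j) * δ • c j) • starH679 act δ f ∈ 𝔪 • Hloc
      rw [hee, algebraMap_smul]
      exact Submodule.smul_mem_smul he (h1 δ hδ)
    · push_neg at hσ
      rw [Finset.sum_smul]
      refine Submodule.sum_mem _ fun j _ => ?_
      rw [← smul_smul, algebraMap_smul]
      exact Submodule.smul_mem _ _ (h4 σ hσ j)
  obtain ⟨e, he, hee⟩ := h2
  have hsplit : ∑ j, a j • orbitTraceH679 O j
      = f + (e • f + ∑ p ∈ O.erase (c, f), (∑ j, algebraMap A Ω (a j) * p.1 j) • p.2) := by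
    rw [hcomb, ← Finset.add_sum_erase O _ hp0]
    show (∑ j, algebraMap A Ω (a j) * c j) • f + _ = _
    rw [hee, add_smul, one_smul, algebraMap_smul, add_assoc]
  have hf : f = ∑ j, a j • orbitTraceH679 O j
      - (e • f + ∑ p ∈ O.erase (c, f), (∑ j, algebraMap A Ω (a j) * p.1 j) • p.2) := by
    rw [hsplit, add_sub_cancel_right]
  rw [hf, sub_eq_add_neg]
  refine Submodule.add_mem_sup ?_ ?_
  · exact Submodule.sum_mem _ fun j _ => Submodule.smul_mem _ _ (Submodule.subset_span (hT j))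
  · refine Submodule.neg_mem _ (Submodule.add_mem _ ?_ ?_)
    · exact Submodule.smul_mem_smul he hfH
    · exact Submodule.sum_mem _ hrest

end trace

end Fermat.Agent.S19.H679

end
-- ===== PACK-END S19/H679/Star.lean

-- ===== PACK-BEGIN A3/H799/FamRing.lean
section








/-!
# A3 / LOCAL — rings of "algebraic families" on a finite parameter set  (helper799)

Cell A3 (S19/S32), piece LOCAL of the "coordinates, not schemes" route
(`coord/A3-LOCAL-helper799.md`).  Mathlib only.

`A` is a commutative ring (in the application the valuation ring of `ℚ̄` above `ℓ`), `T` a finite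
set (pairs of torsion points in a residue disc), `Λ` an `A`-subalgebra of the ring `T → A` of all
`A`-valued functions on `T` (in the application `Λ = A[z_i(c), z_i(c')]`, the polynomial functions in
the disc coordinates).  Because `Λ` is a subring of a finite product of copies of `A`, every
statement "over `Λ`" can be checked pointwise; this file proves that `Λ` is nevertheless closed
under all the operations used by Riemann–Roch with parameters:

* `inv_mem`        : pointwise units of `Λ` are units of `Λ`;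
* `hensel_mem`     : a function `y : T → 𝔪` that is pointwise a simple root of a polynomial with
                     coefficients in `Λ` lies in `Λ`  (Hensel without completeness);
* `exists_conductor` : if `Λ` separates the points of `T` then `d • (T → A) ⊆ Λ` for some `d ≠ 0`;
* `limit_mem`      : `Λ` is closed under `x`-adic limits, `x ∈ Λ` pointwise topologically nilpotent.
-/

set_option autoImplicit false

namespace Fermat.Agent.A3.H799

open Polynomial

section Units

variable {A : Type*} [CommRing A] {T : Type*} [Finite T]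

/-- The ring of all functions on a finite set is integral over any subalgebra. -/
theorem isIntegral_fun (Λ : Subalgebra A (T → A)) (f : T → A) : IsIntegral Λ f := by
  have h : IsIntegral A f := Algebra.IsIntegral.isIntegral f
  exact h.tower_top

/-- **Pointwise units are units.**  If `f ∈ Λ` is a unit at every point of the finite set `T`,
its pointwise inverse lies in `Λ`. -/
theorem inv_mem (Λ : Subalgebra A (T → A)) {f g : T → A} (hf : f ∈ Λ) (hfg : f * g = 1) :
    g ∈ Λ := by
  have hint : (algebraMap Λ (T → A)).IsIntegral := fun x => isIntegral_fun Λ x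
  have hinj : Function.Injective (algebraMap Λ (T → A)) := Subtype.val_injective
  have := hint.isLocalHom hinj
  have hu : IsUnit (algebraMap Λ (T → A) ⟨f, hf⟩) :=
    IsUnit.of_mul_eq_one (a := (algebraMap Λ (T → A) ⟨f, hf⟩)) g hfg
  obtain ⟨u, hu'⟩ := (isUnit_of_map_unit (algebraMap Λ (T → A)) _ hu)
  have h1 : f * ((u⁻¹ : Λˣ) : Λ) = 1 := by
    have := congrArg (algebraMap Λ (T → A)) (u.mul_inv)
    rw [map_mul, map_one, hu'] at this
    exact this
  have : g = ((u⁻¹ : Λˣ) : Λ) := by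
    calc g = g * (f * ((u⁻¹ : Λˣ) : Λ)) := by rw [h1, mul_one]
      _ = (f * g) * ((u⁻¹ : Λˣ) : Λ) := by ring
      _ = ((u⁻¹ : Λˣ) : Λ) := by rw [hfg, one_mul]
  rw [this]
  exact Subtype.mem _

/-- Version of `inv_mem` with a pointwise hypothesis. -/
theorem exists_inv_mem (Λ : Subalgebra A (T → A)) {f : T → A} (hf : f ∈ Λ)
    (hu : ∀ t, IsUnit (f t)) : ∃ g ∈ Λ, f * g = 1 := by
  choose u hu' using hu
  refine ⟨fun t => ((u t)⁻¹ : Aˣ), ?_, ?_⟩
  · refine inv_mem Λ hf ?_
    funext t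
    simp [← hu']
  · funext t
    simp [← hu']

end Units

section Hensel

variable {A : Type*} [CommRing A] [IsLocalRing A] {T : Type*} [Finite T]

/-- The ideal of `Λ` of functions with values in the maximal ideal of `A`. -/
def radIdeal (Λ : Subalgebra A (T → A)) : Ideal Λ where
  carrier := {f | ∀ t, (f : T → A) t ∈ IsLocalRing.maximalIdeal A}
  add_mem' := fun {f g} hf hg t => by
    simpa using (IsLocalRing.maximalIdeal A).add_mem (hf t) (hg t)
  zero_mem' := fun t => by simp
  smul_mem' := fun c f hf t => by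
    simpa using (IsLocalRing.maximalIdeal A).mul_mem_left ((c : T → A) t) (hf t)

omit [Finite T] in
theorem mem_radIdeal {Λ : Subalgebra A (T → A)} {f : Λ} :
    f ∈ radIdeal Λ ↔ ∀ t, (f : T → A) t ∈ IsLocalRing.maximalIdeal A := Iff.rfl

/-- `radIdeal Λ` is contained in the Jacobson radical of `Λ`. -/
theorem radIdeal_le_jacobson (Λ : Subalgebra A (T → A)) :
    radIdeal Λ ≤ Ideal.jacobson (⊥ : Ideal Λ) := by
  intro x hx
  rw [Ideal.mem_jacobson_bot]
  intro y
  have hu : ∀ t, IsUnit (((x * y + 1 : Λ) : T → A) t) := by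
    intro t
    have h1 : ((x * y + 1 : Λ) : T → A) t = (x : T → A) t * (y : T → A) t + 1 := by simp
    rw [h1]
    have hm : (x : T → A) t * (y : T → A) t ∈ IsLocalRing.maximalIdeal A :=
      (IsLocalRing.maximalIdeal A).mul_mem_right _ (hx t)
    by_contra hnu
    have h2 : (x : T → A) t * (y : T → A) t + 1 ∈ IsLocalRing.maximalIdeal A :=
      (IsLocalRing.mem_maximalIdeal _).mpr hnu
    have h3 : (1 : A) ∈ IsLocalRing.maximalIdeal A := by
      have := (IsLocalRing.maximalIdeal A).sub_mem h2 hm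
      simpa using this
    exact (IsLocalRing.maximalIdeal.isMaximal A).ne_top
      ((Ideal.eq_top_iff_one _).mpr h3)
  obtain ⟨g, hg, hfg⟩ := exists_inv_mem Λ (x * y + 1).2 hu
  exact IsUnit.of_mul_eq_one (⟨g, hg⟩ : Λ) (Subtype.ext hfg)

/-- **Hensel without completeness.**  Let `Λ` be an `A`-algebra of functions on the finite set `T`
(`A` local).  If `y : T → 𝔪_A` is a root of `Φ ∈ Λ[X]` and `Φ'(y)` is a unit at every point,
then `y ∈ Λ`. -/
theorem hensel_mem (Λ : Subalgebra A (T → A)) (Φ : Λ[X]) (y : T → A)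
    (hy : ∀ t, y t ∈ IsLocalRing.maximalIdeal A)
    (hroot : aeval y Φ = 0)
    (hder : ∀ t, IsUnit ((aeval y (derivative Φ)) t)) : y ∈ Λ := by
  classical
  -- notation
  set Ψ : Λ[X] := divX Φ with hΨ
  set c : Λ := Φ.coeff 0 with hc
  have hΦ : Φ = Ψ * X + C c := (divX_mul_X_add Φ).symm
  -- the bigger ring Λ' = Λ[y]
  let Λ' : Subalgebra Λ (T → A) := Algebra.adjoin Λ {y}
  have hΛ' : Λ' = (aeval y : Λ[X] →ₐ[Λ] (T → A)).range :=
    Algebra.adjoin_singleton_eq_range_aeval Λ y
  have hyΛ' : y ∈ Λ' := Algebra.subset_adjoin (Set.mem_singleton y)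
  have hΨy : aeval y Ψ ∈ Λ' := by
    rw [hΛ']; exact ⟨Ψ, rfl⟩
  -- the relation Ψ(y) * y = - c
  have hrel : aeval y Ψ * y + algebraMap Λ (T → A) c = 0 := by
    have := hroot
    rw [hΦ] at this
    simpa using this
  -- Ψ(y) is a pointwise unit
  have hder' : aeval y (derivative Φ) = aeval y (derivative Ψ) * y + aeval y Ψ := by
    conv_lhs => rw [hΦ]
    simp [derivative_mul]
  have hunit : ∀ t, IsUnit ((aeval y Ψ) t) := by
    intro t
    have h1 := hder t
    rw [hder'] at h1
    have hm : (aeval y (derivative Ψ) * y) t ∈ IsLocalRing.maximalIdeal A := by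
      simpa using (IsLocalRing.maximalIdeal A).mul_mem_left _ (hy t)
    by_contra hnu
    have h2 : (aeval y Ψ) t ∈ IsLocalRing.maximalIdeal A :=
      (IsLocalRing.mem_maximalIdeal _).mpr hnu
    have h3 := (IsLocalRing.maximalIdeal A).add_mem hm h2
    exact (IsLocalRing.mem_maximalIdeal _).mp h3 (by simpa using h1)
  -- its inverse lies in Λ'
  obtain ⟨w, hw, hww⟩ := exists_inv_mem (Λ'.restrictScalars A) (f := aeval y Ψ) hΨy hunit
  have hw' : w ∈ Λ' := hw
  -- y = - w * c
  have hyw : y = -(w * algebraMap Λ (T → A) c) := by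
    have h1 : aeval y Ψ * y = -algebraMap Λ (T → A) c := eq_neg_of_add_eq_zero_left hrel
    calc y = (aeval y Ψ * w) * y := by rw [hww, one_mul]
      _ = w * (aeval y Ψ * y) := by ring
      _ = -(w * algebraMap Λ (T → A) c) := by rw [h1]; ring
  -- c lies in the radical ideal
  have hcI : c ∈ radIdeal Λ := by
    intro t
    have h1 : (algebraMap Λ (T → A) c) t = -((aeval y Ψ) t * y t) := by
      have := congrFun hrel t
      simp only [Pi.add_apply, Pi.mul_apply, Pi.zero_apply] at this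
      exact eq_neg_of_add_eq_zero_right this
    have h2 : ((c : Λ) : T → A) t = (algebraMap Λ (T → A) c) t := rfl
    rw [h2, h1]
    exact (IsLocalRing.maximalIdeal A).neg_mem ((IsLocalRing.maximalIdeal A).mul_mem_left _ (hy t))
  -- Nakayama
  have hfg : (Subalgebra.toSubmodule Λ').FG :=
    (isIntegral_fun Λ y).fg_adjoin_singleton
  have hle : Subalgebra.toSubmodule Λ' ≤
      (Subalgebra.toSubmodule (⊥ : Subalgebra Λ (T → A))) ⊔
        (radIdeal Λ) • (Subalgebra.toSubmodule Λ') := by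
    intro z hz
    have hz' : z ∈ Λ' := hz
    rw [hΛ'] at hz'
    obtain ⟨p, hpz⟩ := hz'
    have hpz' : aeval y p = z := hpz
    have hp : p = divX p * X + C (p.coeff 0) := (divX_mul_X_add p).symm
    have hpy : aeval y p = algebraMap Λ (T → A) (p.coeff 0) +
        c • (-(w * aeval y (divX p))) := by
      conv_lhs => rw [hp]
      simp only [map_add, map_mul, aeval_X, aeval_C]
      rw [Algebra.smul_def]
      have hyw' : aeval y (divX p) * y =
          aeval y (divX p) * (-(w * algebraMap Λ (T → A) c)) := by rw [← hyw]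
      rw [hyw']
      ring
    rw [← hpz', hpy]
    refine Submodule.add_mem_sup ?_ ?_
    · exact Subalgebra.algebraMap_mem _ _
    · refine Submodule.smul_mem_smul hcI ?_
      refine Subalgebra.neg_mem _ (Subalgebra.mul_mem _ hw' ?_)
      rw [hΛ']; exact ⟨_, rfl⟩
  have hfin := Submodule.le_of_le_smul_of_le_jacobson_bot hfg (radIdeal_le_jacobson Λ) hle
  have hy1 : y ∈ Subalgebra.toSubmodule (⊥ : Subalgebra Λ (T → A)) := hfin hyΛ'
  obtain ⟨l, hl⟩ := Algebra.mem_bot.mp hy1
  rw [← hl]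
  exact l.2

end Hensel

end Fermat.Agent.A3.H799

end
-- ===== PACK-END A3/H799/FamRing.lean

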