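import Mathlib
import Fermat.Prelude.Def_GaloisRep_Flat
import Mathlib.NumberTheory.ModularForms.CongruenceSubgroups
import Mathlib.GroupTheory.GroupAction.Quotient
import Mathlib.GroupTheory.Index
import Fermat.Prelude.Def_ModularCurve_GenusNumerics
import Mathlib.Data.Nat.Squarefree
import Mathlib.Data.Nat.Factorization.Induction
import Mathlib.SetTheory.Cardinal.NatCard
import Mathlib.FieldTheory.PrimitiveElement
import Mathlib.FieldTheory.IsAlgClosed.AlgebraicClosure
import Mathlib.RingTheory.Norm.Transitivity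
import Mathlib.Algebra.Polynomial.Lifts
import Fermat.Prelude.Def_AlgebraicCurve_Correspondence
import Fermat.Prelude.Def_ModularCurve_ArithmeticGalois
import Fermat.Agent.Pack.S3234.G0E0L3

-- ===== PACK-BEGIN A3/H619/RatLoc.lean
section
/-
A3 / piece ORD (helper619): basic facts about `R = GaloisRep.ratLocalizedAt p ⊆ ℚ` (any `p`)
and about Galois-fixed elements of `ℚ̄`.
-/



set_option autoImplicit false

noncomputable section

namespace Fermat.Agent.A3.H619

open GaloisRep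

/-- `ℚ̄`. -/
abbrev Qb : Type := AlgebraicClosure ℚ

/-- `G_ℚ`. -/
abbrev GQ : Type := Qb ≃ₐ[ℚ] Qb

variable (p : ℕ)

theorem intCast_mem_ratLoc (n : ℤ) : (n : ℚ) ∈ ratLocalizedAt p := by
  show ((n : ℚ)).den.Coprime p
  simp

theorem natCast_mem_ratLoc (n : ℕ) : (n : ℚ) ∈ ratLocalizedAt p := by
  show ((n : ℚ)).den.Coprime p
  simp

theorem inv_den_mem_ratLoc (x : ratLocalizedAt p) : ((x.1.den : ℚ))⁻¹ ∈ ratLocalizedAt p := by
  show (((x.1.den : ℚ))⁻¹).den.Coprime p
  rw [Rat.inv_natCast_den, if_neg x.1.den_ne_zero]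
  exact x.2

/-- Every ideal of `ratLocalizedAt p` is principal. -/
instance isPrincipalIdealRing_ratLoc : IsPrincipalIdealRing (ratLocalizedAt p) := by
  refine ⟨fun I => ?_⟩
  -- the contraction to `ℤ`
  let f : ℤ →+* ratLocalizedAt p := Int.castRingHom _
  obtain ⟨n, hn⟩ : ∃ n : ℤ, I.comap f = Ideal.span {n} :=
    ⟨_, (Submodule.IsPrincipal.span_singleton_generator (I.comap f)).symm⟩
  refine ⟨⟨f n, ?_⟩⟩
  apply le_antisymm
  · intro x hx
    -- `x = num / den`
    have hden : (⟨(x.1.den : ℚ), natCast_mem_ratLoc p _⟩ : ratLocalizedAt p) * x = f x.1.num := by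
      apply Subtype.ext
      simp [f, Rat.den_mul_eq_num]
    have hnum : x.1.num ∈ I.comap f := by
      rw [Ideal.mem_comap, ← hden]
      exact I.mul_mem_left _ hx
    rw [hn, Ideal.mem_span_singleton] at hnum
    obtain ⟨k, hk⟩ := hnum
    have hx' : x = f n * (f k * ⟨((x.1.den : ℚ))⁻¹, inv_den_mem_ratLoc p x⟩) := by
      apply Subtype.ext
      have h1 : (x.1.den : ℚ) ≠ 0 := by exact_mod_cast x.1.den_ne_zero
      have h2 : x.1 = (x.1.num : ℚ) / (x.1.den : ℚ) := (Rat.num_div_den x.1).symm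
      simp only [f, Subring.coe_mul, eq_intCast, Subring.coe_intCast]
      rw [← mul_assoc, ← Int.cast_mul, ← hk]
      rw [← div_eq_mul_inv]
      exact h2
    rw [hx']
    exact Ideal.mul_mem_right _ _ (Ideal.subset_span (Set.mem_singleton (f n)))
  · rw [Submodule.span_le, Set.singleton_subset_iff]
    have : n ∈ I.comap f := by rw [hn]; exact Ideal.subset_span rfl
    exact this

theorem algebraMap_ratLoc_Qb_injective :
    Function.Injective (algebraMap (ratLocalizedAt p) Qb) := by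
  intro x y h
  apply Subtype.ext
  exact (algebraMap ℚ Qb).injective h

instance faithfulSMul_ratLoc_rat : FaithfulSMul (ratLocalizedAt p) ℚ :=
  (faithfulSMul_iff_algebraMap_injective _ _).mpr Subtype.val_injective

instance isFractionRing_ratLoc : IsFractionRing (ratLocalizedAt p) ℚ := by
  refine IsFractionRing.of_field (ratLocalizedAt p) ℚ fun z => ?_
  refine ⟨⟨(z.num : ℚ), intCast_mem_ratLoc p _⟩, ⟨(z.den : ℚ), natCast_mem_ratLoc p _⟩, ?_⟩
  show z = (z.num : ℚ) / (z.den : ℚ)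
  exact (Rat.num_div_den z).symm

/-- `ratLocalizedAt p` is integrally closed in `ℚ`. -/
theorem mem_ratLoc_of_isIntegral {x : ℚ} (hx : IsIntegral (ratLocalizedAt p) x) :
    x ∈ ratLocalizedAt p := by
  obtain ⟨y, rfl⟩ := IsIntegrallyClosed.isIntegral_iff.mp hx
  exact y.2

theorem isGalois_Qb : IsGalois ℚ Qb := by
  have : IsAlgClosure ℚ (AlgebraicClosure ℚ) :=
    ⟨inferInstance, AlgebraicClosure.isAlgebraic ℚ⟩
  exact IsAlgClosure.isGalois ℚ (AlgebraicClosure ℚ)

/-- An element of `ℚ̄` fixed by `G_ℚ` is rational. -/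
theorem exists_rat_of_fixed (x : Qb) (h : ∀ σ : GQ, σ x = x) :
    ∃ q : ℚ, algebraMap ℚ Qb q = x := by
  have := isGalois_Qb
  exact (InfiniteGalois.mem_range_algebraMap_iff_fixed x).mpr h

end Fermat.Agent.A3.H619

end
end
-- ===== PACK-END A3/H619/RatLoc.lean

-- ===== PACK-BEGIN A3/H619/Descent.lean
section
/-
A3 / piece ORD (helper619): Galois descent for lattices of equivariant functions.

`T` a type with an action `act` of `G_ℚ`; a function `f : T → ℚ̄` is *equivariant* if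
`f (σ t) = σ (f t)`.  Equivariant functions which are linearly independent over
`R = ratLocalizedAt p` are linearly independent over `ℚ̄`.
-/


set_option autoImplicit false

noncomputable section

namespace Fermat.Agent.A3.H619

open GaloisRep

variable {p : ℕ} {T : Type}

/-- Galois-equivariant functions `T → ℚ̄`. -/
def IsEquivFun (act : GQ → T → T) (f : T → Qb) : Prop :=
  ∀ (σ : GQ) (t : T), f (act σ t) = σ (f t)

/-- Clearing denominators: finitely many rationals have a common nonzero multiplier in `R`. -/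
theorem exists_common_den {ι : Type*} (s : Finset ι) (q : ι → ℚ) :
    ∃ d : ratLocalizedAt p, d ≠ 0 ∧ ∀ i ∈ s, ((d : ℚ) * q i) ∈ ratLocalizedAt p := by
  classical
  induction s using Finset.induction_on with
  | empty => exact ⟨1, one_ne_zero, by simp⟩
  | insert a s ha ih =>
    obtain ⟨d, hd0, hd⟩ := ih
    let e : ratLocalizedAt p := ⟨((q a).den : ℚ), natCast_mem_ratLoc p _⟩
    have he0 : e ≠ 0 := by
      intro h
      have : ((q a).den : ℚ) = 0 := congrArg Subtype.val h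
      exact (q a).den_ne_zero (by exact_mod_cast this)
    refine ⟨e * d, mul_ne_zero he0 hd0, ?_⟩
    intro i hi
    rcases Finset.mem_insert.mp hi with rfl | hi
    · have h1 : ((e * d : ratLocalizedAt p) : ℚ) * q i = (d : ℚ) * ((q i).num : ℚ) := by
        show ((q i).den : ℚ) * (d : ℚ) * q i = (d : ℚ) * ((q i).num : ℚ)
        rw [← Rat.den_mul_eq_num]; ring
      rw [h1]
      exact (ratLocalizedAt p).mul_mem d.2 (intCast_mem_ratLoc p _)
    · have h1 : ((e * d : ratLocalizedAt p) : ℚ) * q i = (e : ℚ) * ((d : ℚ) * q i) := by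
        show (e : ℚ) * (d : ℚ) * q i = _
        ring
      rw [h1]
      exact (ratLocalizedAt p).mul_mem e.2 (hd i hi)

section Descent

variable (act : GQ → T → T) (hact1 : ∀ t, act 1 t = t)
  (hactmul : ∀ (σ τ : GQ) (t : T), act (σ * τ) t = act σ (act τ t))

include hact1 hactmul

/-- Applying `σ` to the coefficients of a relation between equivariant functions gives a
relation. -/
theorem relation_conj {ι : Type*} (b : ι → (T → Qb)) (hb : ∀ i, IsEquivFun act (b i))
    (s : Finset ι) (c : ι → Qb) (h : ∑ i ∈ s, c i • b i = 0) (σ : GQ) :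
    ∑ i ∈ s, (σ (c i)) • b i = 0 := by
  funext t
  have ht : act σ (act σ⁻¹ t) = t := by rw [← hactmul, mul_inv_cancel, hact1]
  have h0 := congrFun h (act σ⁻¹ t)
  simp only [Finset.sum_apply, Pi.smul_apply, smul_eq_mul, Pi.zero_apply] at h0 ⊢
  have h1 := congrArg σ h0
  rw [map_sum, map_zero] at h1
  rw [← h1]
  refine Finset.sum_congr rfl fun i _ => ?_
  rw [map_mul, ← hb i σ (act σ⁻¹ t), ht]

/-- **Galois descent.**  Equivariant functions which are `R`-linearly independent are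
`ℚ̄`-linearly independent. -/
theorem linearIndependent_Qb_of_equivariant {ι : Type*} (b : ι → (T → Qb))
    (hb : ∀ i, IsEquivFun act (b i))
    (hind : LinearIndependent (ratLocalizedAt p) b) :
    LinearIndependent Qb b := by
  classical
  rw [linearIndependent_iff']
  -- strong induction on the size of the support
  suffices H : ∀ (n : ℕ) (s : Finset ι) (c : ι → Qb), s.card = n →
      ∑ i ∈ s, c i • b i = 0 → ∀ i ∈ s, c i = 0 from fun s c h => H _ s c rfl h
  intro n
  induction n using Nat.strong_induction_on with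
  | _ n ih =>
    intro s c hn h
    by_contra hne
    push Not at hne
    obtain ⟨i₀, hi₀, hc₀⟩ := hne
    -- normalise
    set c' : ι → Qb := fun i => c i / c i₀ with hc'
    have hc'0 : c' i₀ = 1 := div_self hc₀
    have h' : ∑ i ∈ s, c' i • b i = 0 := by
      have : ∑ i ∈ s, c' i • b i = (c i₀)⁻¹ • ∑ i ∈ s, c i • b i := by
        rw [Finset.smul_sum]
        refine Finset.sum_congr rfl fun i _ => ?_
        rw [smul_smul]
        show (c i / c i₀) • b i = _
        rw [div_eq_inv_mul]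
      rw [this, h, smul_zero]
    -- the coefficients are Galois-fixed
    have hfix : ∀ (σ : GQ), ∀ i ∈ s, σ (c' i) = c' i := by
      intro σ
      have hσ := relation_conj act hact1 hactmul b hb s c' h' σ
      have hd : ∑ i ∈ s.erase i₀, (σ (c' i) - c' i) • b i = 0 := by
        have h2 : ∑ i ∈ s, (σ (c' i) - c' i) • b i = 0 := by
          simp only [sub_smul, Finset.sum_sub_distrib, hσ, h', sub_zero]
        rw [← Finset.add_sum_erase s _ hi₀] at h2
        simpa [hc'0] using h2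
      have hcard : (s.erase i₀).card < n := by
        rw [← hn]; exact Finset.card_erase_lt_of_mem hi₀
      have := ih _ hcard (s.erase i₀) (fun i => σ (c' i) - c' i) rfl hd
      intro i hi
      by_cases hii : i = i₀
      · subst hii; rw [hc'0, map_one]
      · exact sub_eq_zero.mp (this i (Finset.mem_erase.mpr ⟨hii, hi⟩))
    -- hence rational
    have hrat : ∀ i ∈ s, ∃ q : ℚ, algebraMap ℚ Qb q = c' i := fun i hi =>
      exists_rat_of_fixed _ fun σ => hfix σ i hi
    choose! q hq using hrat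
    obtain ⟨d, hd0, hd⟩ := exists_common_den (p := p) s q
    -- an `R`-linear relation
    let r : ι → ratLocalizedAt p := fun i =>
      if hi : i ∈ s then ⟨(d : ℚ) * q i, hd i hi⟩ else 0
    have hr : ∀ i ∈ s, algebraMap (ratLocalizedAt p) Qb (r i)
        = algebraMap ℚ Qb (d : ℚ) * c' i := by
      intro i hi
      simp only [r, dif_pos hi]
      rw [← hq i hi, ← map_mul]
      rfl
    have hrel : ∑ i ∈ s, r i • b i = 0 := by
      have : ∑ i ∈ s, r i • b i = (algebraMap ℚ Qb (d : ℚ)) • ∑ i ∈ s, c' i • b i := by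
        rw [Finset.smul_sum]
        refine Finset.sum_congr rfl fun i hi => ?_
        rw [smul_smul, ← hr i hi, algebraMap_smul]
      rw [this, h', smul_zero]
    have hzero := linearIndependent_iff'.mp hind s r hrel i₀ hi₀
    have h3 : algebraMap ℚ Qb (d : ℚ) * c' i₀ = 0 := by
      rw [← hr i₀ hi₀, hzero, map_zero]
    rw [hc'0, mul_one] at h3
    have h4 : (d : ℚ) = 0 := (map_eq_zero _).mp h3
    exact hd0 (Subtype.ext h4)

end Descent

end Fermat.Agent.A3.H619

end
end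
-- ===== PACK-END A3/H619/Descent.lean

-- ===== PACK-BEGIN S29/H509/WeightedEis.lean
section


/-!
# Weighted Eisenstein sums (helper509, S29 piece TES, file 1)

For a bounded weight `w : (Fin 2 → ℤ) → ℂ` (`‖w v‖ ≤ 1`) and `3 ≤ k` we study
`wEis w k z = ∑' v, w v * eisSummand k v z`:
absolute summability, the slash action of `SL(2, ℤ)`, holomorphy, boundedness at `i∞`
(of every `SL(2, ℤ)`-translate) and the limit along a vertical strip.
-/

set_option autoImplicit false

namespace Fermat.Agent.S29.H509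

open ModularForm UpperHalfPlane Matrix CongruenceSubgroup EisensteinSeries Filter Topology
open scoped MatrixGroups Manifold

noncomputable section

/-- The weighted Eisenstein sum `∑' v, w v * (v 0 * z + v 1) ^ (-k)`. -/
def wEis (w : (Fin 2 → ℤ) → ℂ) (k : ℤ) (z : ℍ) : ℂ :=
  ∑' v : Fin 2 → ℤ, w v * eisSummand k v z

lemma norm_wEis_summand_le {w : (Fin 2 → ℤ) → ℂ} (hw : ∀ v, ‖w v‖ ≤ 1) (k : ℤ)
    (v : Fin 2 → ℤ) (z : ℍ) : ‖w v * eisSummand k v z‖ ≤ ‖eisSummand k v z‖ := by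
  rw [norm_mul]
  exact mul_le_of_le_one_left (norm_nonneg _) (hw v)

lemma summable_norm_wEis_summand {w : (Fin 2 → ℤ) → ℂ} (hw : ∀ v, ‖w v‖ ≤ 1) {k : ℤ}
    (hk : 3 ≤ k) (z : ℍ) : Summable fun v : Fin 2 → ℤ => ‖w v * eisSummand k v z‖ :=
  (summable_norm_eisSummand hk z).of_nonneg_of_le (fun _ => norm_nonneg _)
    (fun v => norm_wEis_summand_le hw k v z)

lemma summable_wEis_summand {w : (Fin 2 → ℤ) → ℂ} (hw : ∀ v, ‖w v‖ ≤ 1) {k : ℤ}
    (hk : 3 ≤ k) (z : ℍ) : Summable fun v : Fin 2 → ℤ => w v * eisSummand k v z :=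
  (summable_norm_wEis_summand hw hk z).of_norm

/-- Right multiplication by `γ ∈ SL(2, ℤ)` as a permutation of `Fin 2 → ℤ`. -/
def vecMulEquiv (γ : SL(2, ℤ)) : (Fin 2 → ℤ) ≃ (Fin 2 → ℤ) where
  toFun v := v ᵥ* γ
  invFun v := v ᵥ* ↑(γ⁻¹)
  left_inv v := by
    simp_rw [vecMul_vecMul, ← Matrix.SpecialLinearGroup.coe_mul, mul_inv_cancel,
      Matrix.SpecialLinearGroup.coe_one, vecMul_one]
  right_inv v := by
    simp_rw [vecMul_vecMul, ← Matrix.SpecialLinearGroup.coe_mul, inv_mul_cancel,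
      Matrix.SpecialLinearGroup.coe_one, vecMul_one]

@[simp] lemma vecMulEquiv_apply (γ : SL(2, ℤ)) (v : Fin 2 → ℤ) :
    vecMulEquiv γ v = v ᵥ* γ := rfl

@[simp] lemma vecMulEquiv_symm_apply (γ : SL(2, ℤ)) (v : Fin 2 → ℤ) :
    (vecMulEquiv γ).symm v = v ᵥ* ↑(γ⁻¹) := rfl

/-- The slash action permutes the weights. -/
theorem wEis_slash (w : (Fin 2 → ℤ) → ℂ) (k : ℤ) (γ : SL(2, ℤ)) :
    wEis w k ∣[k] γ = wEis (fun v => w (v ᵥ* ↑(γ⁻¹))) k := by
  ext1 z
  simp_rw [SL_slash_apply, _root_.zpow_neg,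
    mul_inv_eq_iff_eq_mul₀ (zpow_ne_zero _ <| denom_ne_zero _ z), wEis, eisSummand_SL2_apply,
    ← tsum_mul_right]
  conv_rhs => rw [← (vecMulEquiv γ).tsum_eq]
  refine tsum_congr fun v => ?_
  simp only [vecMulEquiv_apply, vecMul_vecMul, ← Matrix.SpecialLinearGroup.coe_mul, mul_inv_cancel,
    Matrix.SpecialLinearGroup.coe_one, vecMul_one]
  ring


/-! ### Locally uniform convergence and holomorphy -/

theorem wEis_tendstoLocallyUniformly {w : (Fin 2 → ℤ) → ℂ} (hw : ∀ v, ‖w v‖ ≤ 1) {k : ℤ}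
    (hk : 3 ≤ k) :
    TendstoLocallyUniformly
      (fun (s : Finset (Fin 2 → ℤ)) ↦ (∑ x ∈ s, w x * eisSummand k x ·))
      (wEis w k ·) Filter.atTop := by
  have hk' : (2 : ℝ) < k := by norm_cast
  have p_sum : Summable fun x : Fin 2 → ℤ ↦ ‖x‖ ^ (-k) :=
    mod_cast (summable_one_div_norm_rpow hk')
  simp only [tendstoLocallyUniformly_iff_forall_isCompact, wEis]
  intro K hK
  obtain ⟨A, B, hB, HABK⟩ := subset_verticalStrip_of_isCompact hK
  refine (tendstoUniformlyOn_tsum (hu := p_sum.mul_left <| r ⟨⟨A, B⟩, hB⟩ ^ (-k : ℝ))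
    (fun p z hz ↦ ?_)).mono HABK
  refine (norm_wEis_summand_le hw k p z).trans ?_
  simpa only [eisSummand, one_div, ← _root_.zpow_neg, norm_zpow, ← Real.rpow_intCast,
    Int.cast_neg] using summand_bound_of_mem_verticalStrip (by positivity) p hB hz

lemma wEis_tendstoLocallyUniformlyOn {w : (Fin 2 → ℤ) → ℂ} (hw : ∀ v, ‖w v‖ ≤ 1) {k : ℤ}
    (hk : 3 ≤ k) :
    TendstoLocallyUniformlyOn (fun (s : Finset (Fin 2 → ℤ)) ↦
      ↑ₕ(fun (z : ℍ) ↦ ∑ x ∈ s, w x * eisSummand k x z)) (↑ₕ(wEis w k))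
          Filter.atTop {z : ℂ | 0 < z.im} := by
  rw [← upperHalfPlaneSet, ← range_coe, ← Set.image_univ]
  apply TendstoLocallyUniformlyOn.comp (s := ⊤) _ _ _ (OpenPartialHomeomorph.continuousOn_symm _)
  · simp only [Set.top_eq_univ, tendstoLocallyUniformlyOn_univ]
    apply wEis_tendstoLocallyUniformly hw hk
  · simp only [IsOpenEmbedding.toOpenPartialHomeomorph_target, Set.top_eq_univ,
      Set.mapsTo_range_iff, Set.mem_univ, forall_const]

/-- Weighted Eisenstein sums are holomorphic on `ℍ`. -/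
theorem wEis_mdifferentiable {w : (Fin 2 → ℤ) → ℂ} (hw : ∀ v, ‖w v‖ ≤ 1) {k : ℤ}
    (hk : 3 ≤ k) : MDiff (wEis w k) := by
  intro τ
  suffices DifferentiableAt ℂ (↑ₕ(wEis w k)) τ.1 by
    convert!
      MDifferentiableAt.comp τ (DifferentiableAt.mdifferentiableAt this) τ.mdifferentiable_coe
    exact funext fun z ↦ (comp_ofComplex (wEis w k) z).symm
  refine DifferentiableOn.differentiableAt ?_ (isOpen_upperHalfPlaneSet.mem_nhds τ.2)
  refine (wEis_tendstoLocallyUniformlyOn hw hk).differentiableOn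
    (Eventually.of_forall fun s ↦ ?_) isOpen_upperHalfPlaneSet
  have h1 : DifferentiableOn ℂ (fun z : ℂ => ∑ x ∈ s, w x * (↑ₕ(eisSummand k x)) z)
      {z : ℂ | 0 < z.im} :=
    DifferentiableOn.fun_sum fun x _ ↦
      (eisSummand_extension_differentiableOn k x).const_mul (w x)
  refine h1.congr fun z _ => ?_
  simp only [Function.comp_apply]

/-! ### The majorant and boundedness at `i∞` -/

/-- The majorant `∑' v, ‖eisSummand k v z‖`. -/
def eisMaj (k : ℤ) (z : ℍ) : ℝ := ∑' v : Fin 2 → ℤ, ‖eisSummand k v z‖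

lemma norm_wEis_le_eisMaj {w : (Fin 2 → ℤ) → ℂ} (hw : ∀ v, ‖w v‖ ≤ 1) {k : ℤ}
    (hk : 3 ≤ k) (z : ℍ) : ‖wEis w k z‖ ≤ eisMaj k z := by
  refine (norm_tsum_le_tsum_norm (summable_norm_wEis_summand hw hk z)).trans ?_
  exact (summable_norm_wEis_summand hw hk z).tsum_le_tsum
    (fun v => norm_wEis_summand_le hw k v z) (summable_norm_eisSummand hk z)

lemma eisMaj_smul (k : ℤ) (γ : SL(2, ℤ)) (z : ℍ) :
    eisMaj k (γ • z) = ‖denom γ z‖ ^ k * eisMaj k z := by
  unfold eisMaj
  simp_rw [eisSummand_SL2_apply, norm_mul, norm_zpow, tsum_mul_left]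
  congr 1
  exact (vecMulEquiv γ).tsum_eq (fun v => ‖eisSummand k v z‖)

lemma denom_T_zpow (n : ℤ) (z : ℍ) : denom (ModularGroup.T ^ n : SL(2, ℤ)) z = 1 := by
  simp [denom, ModularGroup.coe_T_zpow, -map_zpow]

lemma eisMaj_T_zpow_smul (k : ℤ) (n : ℤ) (z : ℍ) :
    eisMaj k (ModularGroup.T ^ n • z) = eisMaj k z := by
  rw [eisMaj_smul, denom_T_zpow]
  simp

lemma eisMaj_le_of_mem_verticalStrip {k : ℤ} (hk : 3 ≤ k) {A B : ℝ} (hB : 0 < B) {z : ℍ}
    (hz : z ∈ verticalStrip A B) :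
    eisMaj k z ≤ ∑' x : Fin 2 → ℤ, r ⟨⟨A, B⟩, hB⟩ ^ (-k) * ‖x‖ ^ (-k) := by
  have hk' : (2 : ℝ) < k := by norm_cast
  apply (summable_norm_eisSummand hk _).tsum_le_tsum _
  · exact_mod_cast (summable_one_div_norm_rpow hk').mul_left <| r ⟨⟨A, B⟩, hB⟩ ^ (-k)
  · intro x
    simp_rw [eisSummand, norm_zpow]
    exact_mod_cast summand_bound_of_mem_verticalStrip (lt_trans two_pos hk').le x hB hz

/-- Weighted Eisenstein sums are bounded at `i∞`. -/
theorem isBoundedAtImInfty_wEis {w : (Fin 2 → ℤ) → ℂ} (hw : ∀ v, ‖w v‖ ≤ 1) {k : ℤ}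
    (hk : 3 ≤ k) : IsBoundedAtImInfty (wEis w k) := by
  rw [UpperHalfPlane.isBoundedAtImInfty_iff]
  refine ⟨∑' x : Fin 2 → ℤ, r ⟨⟨1, 2⟩, Nat.ofNat_pos⟩ ^ (-k) * ‖x‖ ^ (-k), 2, fun z hz => ?_⟩
  obtain ⟨n, hn⟩ := ModularGroup_T_zpow_mem_verticalStrip z (N := 1) one_pos
  refine (norm_wEis_le_eisMaj hw hk z).trans ?_
  rw [← eisMaj_T_zpow_smul k ((1 : ℕ) * n) z]
  refine eisMaj_le_of_mem_verticalStrip hk two_pos ?_
  exact verticalStrip_anti_right _ hz (by simpa using hn)

/-- Every `SL(2, ℤ)`-translate of a weighted Eisenstein sum is bounded at `i∞`. -/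
theorem isBoundedAtImInfty_wEis_slash {w : (Fin 2 → ℤ) → ℂ} (hw : ∀ v, ‖w v‖ ≤ 1) {k : ℤ}
    (hk : 3 ≤ k) (γ : SL(2, ℤ)) : IsBoundedAtImInfty (wEis w k ∣[k] γ) := by
  rw [wEis_slash]
  exact isBoundedAtImInfty_wEis (fun v => hw _) hk


/-! ### The limit at `i∞` -/

lemma norm_eisSummand_le_inv_im {k : ℤ} (hk : 1 ≤ k) {v : Fin 2 → ℤ} (hv : v 0 ≠ 0) (z : ℍ)
    (hz : 1 ≤ z.im) : ‖eisSummand k v z‖ ≤ (z.im)⁻¹ := by
  have him : z.im ≤ ‖(v 0 : ℂ) * (z : ℂ) + v 1‖ := by
    have h1 : |((v 0 : ℂ) * (z : ℂ) + v 1).im| ≤ ‖(v 0 : ℂ) * (z : ℂ) + v 1‖ :=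
      Complex.abs_im_le_norm _
    have h2 : ((v 0 : ℂ) * (z : ℂ) + v 1).im = (v 0 : ℝ) * z.im := by
      simp [Complex.add_im, Complex.mul_im]
    have h3 : (1 : ℝ) ≤ |(v 0 : ℝ)| := by
      have : (1 : ℤ) ≤ |v 0| := Int.one_le_abs hv
      exact_mod_cast this
    rw [h2, abs_mul, abs_of_pos z.im_pos] at h1
    nlinarith [z.im_pos]
  have hpos : 0 < z.im := z.im_pos
  obtain ⟨n, rfl⟩ : ∃ n : ℕ, k = (n : ℤ) := ⟨k.toNat, by omega⟩
  have hn : 1 ≤ n := by exact_mod_cast hk
  simp only [eisSummand, _root_.zpow_neg, zpow_natCast, norm_inv, norm_pow]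
  rw [inv_le_inv₀ (pow_pos (hpos.trans_le him) _) hpos]
  calc z.im ≤ ‖(v 0 : ℂ) * (z : ℂ) + v 1‖ := him
    _ = ‖(v 0 : ℂ) * (z : ℂ) + v 1‖ ^ 1 := (pow_one _).symm
    _ ≤ ‖(v 0 : ℂ) * (z : ℂ) + v 1‖ ^ n := pow_le_pow_right₀ (hz.trans him) hn

lemma tendsto_eisSummand_atImInfty {k : ℤ} (hk : 1 ≤ k) {v : Fin 2 → ℤ} (hv : v 0 ≠ 0) :
    Tendsto (eisSummand k v) atImInfty (𝓝 0) := by
  rw [tendsto_zero_iff_norm_tendsto_zero]
  refine squeeze_zero' (Eventually.of_forall fun _ => norm_nonneg _) ?_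
    (tendsto_inv_atTop_zero.comp tendsto_comap)
  rw [Filter.Eventually, atImInfty_mem]
  exact ⟨1, fun z hz => norm_eisSummand_le_inv_im hk hv z hz⟩

/-- The constant term of a weighted Eisenstein sum: the sum over the vectors `(0, d)`. -/
def wEisConst (w : (Fin 2 → ℤ) → ℂ) (k : ℤ) : ℂ :=
  ∑' v : Fin 2 → ℤ, if v 0 = 0 then w v * (v 1 : ℂ) ^ (-k) else 0

/-- Along any filter finer than `atImInfty` and eventually contained in a vertical strip, the
weighted Eisenstein sum tends to its constant term. -/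
theorem tendsto_wEis_of_le {w : (Fin 2 → ℤ) → ℂ} (hw : ∀ v, ‖w v‖ ≤ 1) {k : ℤ}
    (hk : 3 ≤ k) {l : Filter ℍ} (hl : l ≤ atImInfty) {A B : ℝ} (hB : 0 < B)
    (hstrip : ∀ᶠ z in l, z ∈ verticalStrip A B) :
    Tendsto (wEis w k) l (𝓝 (wEisConst w k)) := by
  have hk' : (2 : ℝ) < k := by norm_cast
  refine tendsto_tsum_of_dominated_convergence
    (bound := fun x : Fin 2 → ℤ => r ⟨⟨A, B⟩, hB⟩ ^ (-k) * ‖x‖ ^ (-k)) ?_ ?_ ?_
  · exact_mod_cast (summable_one_div_norm_rpow hk').mul_left (r ⟨⟨A, B⟩, hB⟩ ^ (-k))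
  · intro v
    by_cases hv : v 0 = 0
    · simp only [hv, if_true, eisSummand, Int.cast_zero, zero_mul, zero_add]
      exact tendsto_const_nhds
    · simp only [hv, if_false]
      have := ((tendsto_eisSummand_atImInfty (k := k) (by omega) hv).mono_left hl).const_mul (w v)
      simpa using this
  · filter_upwards [hstrip] with z hz v
    refine (norm_wEis_summand_le hw k v z).trans ?_
    simp_rw [eisSummand, norm_zpow]
    exact_mod_cast summand_bound_of_mem_verticalStrip (lt_trans two_pos hk').le v hB hz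

/-- The path `y ↦ i * max y 1` in the upper half plane. -/
def imAxis (y : ℝ) : ℍ := ⟨⟨0, max y 1⟩, lt_of_lt_of_le one_pos (le_max_right y 1)⟩

lemma imAxis_im (y : ℝ) : (imAxis y).im = max y 1 := rfl

lemma imAxis_re (y : ℝ) : (imAxis y).re = 0 := rfl

lemma tendsto_imAxis : Tendsto imAxis atTop atImInfty := by
  rw [atImInfty, tendsto_comap_iff]
  refine tendsto_atTop_mono (fun y => ?_) tendsto_id
  simp [Function.comp, imAxis_im]

/-- Along the imaginary axis the weighted Eisenstein sum tends to its constant term. -/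
theorem tendsto_wEis_imAxis {w : (Fin 2 → ℤ) → ℂ} (hw : ∀ v, ‖w v‖ ≤ 1) {k : ℤ}
    (hk : 3 ≤ k) : Tendsto (fun y : ℝ => wEis w k (imAxis y)) atTop (𝓝 (wEisConst w k)) := by
  have h := tendsto_wEis_of_le hw hk (l := Filter.map imAxis atTop) tendsto_imAxis
    (A := 0) (B := 1) one_pos
    (by
      rw [Filter.eventually_map]
      exact Eventually.of_forall fun y => ⟨by simp [imAxis_re], by simp [imAxis_im]⟩)
  exact h.comp tendsto_map

/-- A weighted Eisenstein sum with nonzero constant term is not identically zero. -/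
theorem wEis_ne_zero_of_const_ne_zero {w : (Fin 2 → ℤ) → ℂ} (hw : ∀ v, ‖w v‖ ≤ 1) {k : ℤ}
    (hk : 3 ≤ k) (hc : wEisConst w k ≠ 0) : wEis w k ≠ 0 := by
  intro h0
  have h := tendsto_wEis_imAxis hw hk
  simp only [h0, Pi.zero_apply] at h
  exact hc (tendsto_nhds_unique h tendsto_const_nhds)

/-- Periodicity: if the weight is invariant under `v ↦ v ᵥ* T ^ n`, the sum is invariant
under `z ↦ T ^ n • z`. -/
lemma wEis_T_zpow_smul {w : (Fin 2 → ℤ) → ℂ} {k : ℤ}
    (hT : ∀ (n : ℤ) (v : Fin 2 → ℤ), w (v ᵥ* (ModularGroup.T ^ n : SL(2, ℤ))) = w v)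
    (n : ℤ) (z : ℍ) : wEis w k (ModularGroup.T ^ n • z) = wEis w k z := by
  have h := congrFun (wEis_slash w k (ModularGroup.T ^ n)) z
  rw [SL_slash_apply, denom_T_zpow] at h
  simp only [_root_.one_zpow, mul_one] at h
  rw [h]
  congr 1
  funext v
  rw [← _root_.zpow_neg]
  exact hT (-n) v

/-- For `T`-invariant weights, the weighted Eisenstein sum tends to its constant term at `i∞`. -/
theorem tendsto_wEis_atImInfty {w : (Fin 2 → ℤ) → ℂ} (hw : ∀ v, ‖w v‖ ≤ 1) {k : ℤ}
    (hk : 3 ≤ k)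
    (hT : ∀ (n : ℤ) (v : Fin 2 → ℤ), w (v ᵥ* (ModularGroup.T ^ n : SL(2, ℤ))) = w v) :
    Tendsto (wEis w k) atImInfty (𝓝 (wEisConst w k)) := by
  have h := tendsto_wEis_of_le hw hk (l := atImInfty ⊓ 𝓟 (verticalStrip 1 1)) inf_le_left
    (A := 1) (B := 1) one_pos (eventually_inf_principal.mpr (Eventually.of_forall fun _ h => h))
  rw [Metric.tendsto_nhds] at h ⊢
  intro ε hε
  have h1 := h ε hε
  rw [eventually_inf_principal, Filter.Eventually, atImInfty_mem] at h1
  obtain ⟨A, hA⟩ := h1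
  rw [Filter.Eventually, atImInfty_mem]
  refine ⟨max A 1, fun z hz => ?_⟩
  obtain ⟨n, hn⟩ := ModularGroup_T_zpow_mem_verticalStrip z (N := 1) one_pos
  have hn' : ModularGroup.T ^ ((1 : ℕ) * n : ℤ) • z ∈ verticalStrip 1 1 :=
    verticalStrip_anti_right _ ((le_max_right _ _).trans hz) (by simpa using hn)
  have him : A ≤ (ModularGroup.T ^ ((1 : ℕ) * n : ℤ) • z).im := by
    rw [ModularGroup.im_T_zpow_smul]
    exact (le_max_left _ _).trans hz
  have := hA _ him hn'
  simp only [Set.mem_setOf_eq] at this ⊢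
  rwa [wEis_T_zpow_smul hT] at this

/-- If the weight vanishes at `(0, d)` for `d ≠ ±1`, the constant term has two summands. -/
lemma wEisConst_eq {w : (Fin 2 → ℤ) → ℂ} {k : ℤ}
    (hsupp : ∀ v : Fin 2 → ℤ, v 0 = 0 → v 1 ≠ 1 → v 1 ≠ -1 → w v = 0) :
    wEisConst w k = w ![0, 1] + w ![0, -1] * (-1 : ℂ) ^ (-k) := by
  unfold wEisConst
  have hne : (![0, 1] : Fin 2 → ℤ) ≠ ![0, -1] := by
    intro h
    have := congrFun h 1
    simp at this
  rw [tsum_eq_sum (s := {![0, 1], ![0, -1]})]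
  · rw [Finset.sum_pair hne]
    simp
  · intro v hv
    simp only [Finset.mem_insert, Finset.mem_singleton, not_or] at hv
    by_cases h0 : v 0 = 0
    · simp only [h0, if_true]
      have h1 : v 1 ≠ 1 := by
        intro h1
        apply hv.1
        ext i
        fin_cases i <;> simp [h0, h1]
      have h2 : v 1 ≠ -1 := by
        intro h2
        apply hv.2
        ext i
        fin_cases i <;> simp [h0, h2]
      rw [hsupp v h0 h1 h2, zero_mul]
    · simp [h0]

end

end Fermat.Agent.S29.H509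

end
-- ===== PACK-END S29/H509/WeightedEis.lean

-- ===== PACK-BEGIN S29/H509/TwistedEis.lean
section


/-!
# Twisted Eisenstein series (helper509, S29 piece TES, file 2)

For a subgroup `Γ ≤ SL(2, ℤ)` and a unitary character `χ : Γ →* ℂˣ` which is trivial on the
upper unipotent elements of `Γ`, the twisted Eisenstein series
`twEis χ k z = ∑_{(c, d) bottom row of γ ∈ Γ} χ(γ)⁻¹ (c z + d) ^ (-k)`
is holomorphic, satisfies `twEis χ k ∣[k] δ = χ δ • twEis χ k` for `δ ∈ Γ`, all its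
`SL(2, ℤ)`-translates are bounded at `i∞`, and it is nonzero when `k` is even and `χ` is
trivial on all elements of `Γ` fixing `∞`.
-/

set_option autoImplicit false

namespace Fermat.Agent.S29.H509

open ModularForm UpperHalfPlane Matrix CongruenceSubgroup EisensteinSeries Filter Topology
open scoped MatrixGroups Manifold

noncomputable section

/-- The bottom row of a matrix in `SL(2, ℤ)`. -/
def botRow (γ : SL(2, ℤ)) : Fin 2 → ℤ := fun j => (γ : Matrix (Fin 2) (Fin 2) ℤ) 1 j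

lemma botRow_apply (γ : SL(2, ℤ)) (j : Fin 2) :
    botRow γ j = (γ : Matrix (Fin 2) (Fin 2) ℤ) 1 j := rfl

lemma botRow_one : botRow 1 = ![0, 1] := by
  ext j
  fin_cases j <;> simp [botRow]

lemma botRow_mul (a b : SL(2, ℤ)) :
    botRow (a * b) = botRow a ᵥ* (b : Matrix (Fin 2) (Fin 2) ℤ) := by
  ext j
  simp [botRow, Matrix.vecMul, dotProduct, Matrix.mul_apply]

lemma botRow_snd_of_fst_eq_zero (γ : SL(2, ℤ)) (h : botRow γ 0 = 0) :
    botRow γ 1 = 1 ∨ botRow γ 1 = -1 := by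
  have hdet := γ.det_coe
  rw [Matrix.det_fin_two] at hdet
  simp only [botRow_apply] at h ⊢
  rw [h, mul_zero, sub_zero] at hdet
  rcases Int.eq_one_or_neg_one_of_mul_eq_one' hdet with h1 | h1
  · exact Or.inl h1.2
  · exact Or.inr h1.2

lemma botRow_eq_of_fst_eq_zero (γ : SL(2, ℤ)) (h : botRow γ 0 = 0) :
    botRow γ = ![0, 1] ∨ botRow γ = ![0, -1] := by
  rcases botRow_snd_of_fst_eq_zero γ h with h1 | h1
  · left
    ext j
    fin_cases j <;> simp [h, h1]
  · right
    ext j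
    fin_cases j <;> simp [h, h1]

variable {Γ : Subgroup SL(2, ℤ)}

open Classical in
/-- The weight function attached to a character `χ` of `Γ`: `χ(γ)⁻¹` on the bottom row of
`γ ∈ Γ`, and `0` on vectors which are not bottom rows of elements of `Γ`. -/
def chiWeight (χ : Γ →* ℂˣ) (v : Fin 2 → ℤ) : ℂ :=
  if h : ∃ γ : Γ, botRow (γ : SL(2, ℤ)) = v then (((χ h.choose)⁻¹ : ℂˣ) : ℂ) else 0

/-- `χ` is trivial on the upper unipotent elements of `Γ`. -/
def TrivOnUnip (χ : Γ →* ℂˣ) : Prop :=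
  ∀ γ : Γ, botRow (γ : SL(2, ℤ)) = ![0, 1] → χ γ = 1

/-- `χ` is trivial on the elements of `Γ` fixing `∞`. -/
def TrivOnStabInfty (χ : Γ →* ℂˣ) : Prop :=
  ∀ γ : Γ, botRow (γ : SL(2, ℤ)) 0 = 0 → χ γ = 1

lemma TrivOnStabInfty.trivOnUnip {χ : Γ →* ℂˣ} (h : TrivOnStabInfty χ) : TrivOnUnip χ :=
  fun γ hγ => h γ (by simp [hγ])

lemma chi_eq_of_botRow_eq {χ : Γ →* ℂˣ} (hχ : TrivOnUnip χ) {γ₁ γ₂ : Γ}
    (h : botRow (γ₁ : SL(2, ℤ)) = botRow (γ₂ : SL(2, ℤ))) : χ γ₁ = χ γ₂ := by
  have h1 : botRow ((γ₁ * γ₂⁻¹ : Γ) : SL(2, ℤ)) = ![0, 1] := by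
    rw [Subgroup.coe_mul, botRow_mul, h, ← botRow_mul, Subgroup.coe_inv, mul_inv_cancel,
      botRow_one]
  have := hχ _ h1
  rwa [map_mul, map_inv, mul_inv_eq_one] at this

lemma chiWeight_botRow {χ : Γ →* ℂˣ} (hχ : TrivOnUnip χ) (γ : Γ) :
    chiWeight χ (botRow (γ : SL(2, ℤ))) = (((χ γ)⁻¹ : ℂˣ) : ℂ) := by
  have hex : ∃ γ' : Γ, botRow (γ' : SL(2, ℤ)) = botRow (γ : SL(2, ℤ)) := ⟨γ, rfl⟩
  unfold chiWeight
  rw [dif_pos hex, chi_eq_of_botRow_eq hχ hex.choose_spec]

lemma chiWeight_of_not_exists (χ : Γ →* ℂˣ) {v : Fin 2 → ℤ}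
    (h : ¬ ∃ γ : Γ, botRow (γ : SL(2, ℤ)) = v) : chiWeight χ v = 0 :=
  dif_neg h

lemma norm_chiWeight_le {χ : Γ →* ℂˣ} (hnorm : ∀ γ, ‖(χ γ : ℂ)‖ = 1) (v : Fin 2 → ℤ) :
    ‖chiWeight χ v‖ ≤ 1 := by
  unfold chiWeight
  split_ifs with h
  · simp [hnorm]
  · simp

lemma chiWeight_vecMul_inv {χ : Γ →* ℂˣ} (hχ : TrivOnUnip χ) (δ : Γ) (v : Fin 2 → ℤ) :
    chiWeight χ (v ᵥ* (((δ : SL(2, ℤ))⁻¹ : SL(2, ℤ)) : Matrix (Fin 2) (Fin 2) ℤ)) =
      (χ δ : ℂ) * chiWeight χ v := by
  by_cases hex : ∃ γ : Γ, botRow (γ : SL(2, ℤ)) = v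
  · obtain ⟨γ, rfl⟩ := hex
    have h1 : botRow (γ : SL(2, ℤ)) ᵥ* (((δ : SL(2, ℤ))⁻¹ : SL(2, ℤ)) :
        Matrix (Fin 2) (Fin 2) ℤ) = botRow ((γ * δ⁻¹ : Γ) : SL(2, ℤ)) := by
      rw [Subgroup.coe_mul, botRow_mul, Subgroup.coe_inv]
    rw [h1, chiWeight_botRow hχ, chiWeight_botRow hχ, map_mul, map_inv]
    simp [mul_comm]
  · rw [chiWeight_of_not_exists χ hex, mul_zero]
    apply chiWeight_of_not_exists
    rintro ⟨γ, hγ⟩
    apply hex
    refine ⟨γ * δ, ?_⟩
    rw [Subgroup.coe_mul, botRow_mul, hγ, Matrix.vecMul_vecMul,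
      ← Matrix.SpecialLinearGroup.coe_mul, inv_mul_cancel, Matrix.SpecialLinearGroup.coe_one,
      Matrix.vecMul_one]

/-- The twisted Eisenstein series of weight `k` attached to `χ`. -/
def twEis (χ : Γ →* ℂˣ) (k : ℤ) : ℍ → ℂ := wEis (chiWeight χ) k

/-- The transformation law of the twisted Eisenstein series. -/
theorem twEis_slash {χ : Γ →* ℂˣ} (hχ : TrivOnUnip χ) (k : ℤ) (δ : Γ) :
    twEis χ k ∣[k] (δ : SL(2, ℤ)) = (χ δ : ℂ) • twEis χ k := by
  unfold twEis
  rw [wEis_slash]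
  ext z
  simp only [wEis, Pi.smul_apply, smul_eq_mul, chiWeight_vecMul_inv hχ δ, mul_assoc,
    tsum_mul_left]

/-- The transformation law, pointwise. -/
theorem twEis_smul_apply {χ : Γ →* ℂˣ} (hχ : TrivOnUnip χ) (k : ℤ) (δ : Γ) (z : ℍ) :
    twEis χ k ((δ : SL(2, ℤ)) • z) = (χ δ : ℂ) * denom (δ : SL(2, ℤ)) z ^ k * twEis χ k z := by
  have h := congrFun (twEis_slash hχ k δ) z
  rw [SL_slash_apply, Pi.smul_apply, smul_eq_mul, _root_.zpow_neg,
    mul_inv_eq_iff_eq_mul₀ (zpow_ne_zero _ <| denom_ne_zero _ z)] at h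
  rw [h]
  ring

theorem twEis_mdifferentiable {χ : Γ →* ℂˣ} (hnorm : ∀ γ, ‖(χ γ : ℂ)‖ = 1) {k : ℤ}
    (hk : 3 ≤ k) : MDiff (twEis χ k) :=
  wEis_mdifferentiable (norm_chiWeight_le hnorm) hk

theorem isBoundedAtImInfty_twEis_slash {χ : Γ →* ℂˣ} (hnorm : ∀ γ, ‖(χ γ : ℂ)‖ = 1) {k : ℤ}
    (hk : 3 ≤ k) (A : SL(2, ℤ)) : IsBoundedAtImInfty (twEis χ k ∣[k] A) :=
  isBoundedAtImInfty_wEis_slash (norm_chiWeight_le hnorm) hk A

lemma chiWeight_zero_one {χ : Γ →* ℂˣ} (hχ : TrivOnUnip χ) : chiWeight χ ![0, 1] = 1 := by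
  have h := chiWeight_botRow hχ (1 : Γ)
  rw [Subgroup.coe_one, botRow_one] at h
  rw [h]
  simp

lemma chiWeight_zero_neg_one {χ : Γ →* ℂˣ} (hχ : TrivOnStabInfty χ) :
    chiWeight χ ![0, -1] = 0 ∨ chiWeight χ ![0, -1] = 1 := by
  by_cases hex : ∃ γ : Γ, botRow (γ : SL(2, ℤ)) = ![0, -1]
  · obtain ⟨γ, hγ⟩ := hex
    right
    rw [← hγ, chiWeight_botRow hχ.trivOnUnip, hχ γ (by simp [hγ])]
    simp
  · exact Or.inl (chiWeight_of_not_exists χ hex)

lemma chiWeight_eq_zero_of_fst_eq_zero (χ : Γ →* ℂˣ) (v : Fin 2 → ℤ) (h0 : v 0 = 0)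
    (h1 : v 1 ≠ 1) (h2 : v 1 ≠ -1) : chiWeight χ v = 0 := by
  apply chiWeight_of_not_exists
  rintro ⟨γ, rfl⟩
  rcases botRow_snd_of_fst_eq_zero _ h0 with h | h
  · exact h1 h
  · exact h2 h

/-- The constant term of the twisted Eisenstein series of even weight is `1` or `2`. -/
lemma wEisConst_chiWeight {χ : Γ →* ℂˣ} (hχ : TrivOnStabInfty χ) {k : ℤ} (hk : Even k) :
    wEisConst (chiWeight χ) k = 1 ∨ wEisConst (chiWeight χ) k = 2 := by
  rw [wEisConst_eq (chiWeight_eq_zero_of_fst_eq_zero χ), chiWeight_zero_one hχ.trivOnUnip]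
  have hpow : (-1 : ℂ) ^ (-k) = 1 := Even.neg_one_zpow hk.neg
  rw [hpow, mul_one]
  rcases chiWeight_zero_neg_one hχ with h | h
  · left
    rw [h, add_zero]
  · right
    rw [h]
    norm_num

/-- The twisted Eisenstein series of even weight `k ≥ 3` is not identically zero. -/
theorem twEis_ne_zero {χ : Γ →* ℂˣ} (hnorm : ∀ γ, ‖(χ γ : ℂ)‖ = 1) (hχ : TrivOnStabInfty χ)
    {k : ℤ} (hk : 3 ≤ k) (heven : Even k) : twEis χ k ≠ 0 := by
  apply wEis_ne_zero_of_const_ne_zero (norm_chiWeight_le hnorm) hk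
  rcases wEisConst_chiWeight hχ heven with h | h <;> rw [h] <;> norm_num

end

end Fermat.Agent.S29.H509

end
-- ===== PACK-END S29/H509/TwistedEis.lean

-- ===== PACK-BEGIN S20/H872/Coset.lean
section





/-!
# Combinatorics of `SL(2, ℤ) ⧸ Γ₀(N)` — coset criterion and fixed points of `S`, `S * T`

Left cosets, Mathlib left-multiplication action.  Everything is expressed through the
first column `(g 0 0, g 1 0)` of a matrix.
-/

set_option autoImplicit false

open CongruenceSubgroup Matrix.SpecialLinearGroup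
open scoped MatrixGroups

namespace Fermat.Agent.S20.H872

variable {N : ℕ}

/-- Determinant relation of an element of `SL(2, ℤ)`. -/
theorem det_rel (g : SL(2, ℤ)) : g 0 0 * g 1 1 - g 0 1 * g 1 0 = 1 := by
  have h := g.det_coe
  rw [Matrix.det_fin_two] at h
  exact h

/-- The `(1,0)` entry of `g⁻¹ * h`. -/
theorem inv_mul_apply_one_zero (g h : SL(2, ℤ)) :
    (g⁻¹ * h) 1 0 = g 0 0 * h 1 0 - g 1 0 * h 0 0 := by
  have hg : (g⁻¹ : SL(2, ℤ)).1 = !![g 1 1, -g 0 1; -g 1 0, g 0 0] := by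
    rw [Matrix.SpecialLinearGroup.coe_inv, Matrix.adjugate_fin_two]
  have : ((g⁻¹ * h : SL(2, ℤ)) : Matrix (Fin 2) (Fin 2) ℤ) 1 0
      = (-g 1 0) * h 0 0 + g 0 0 * h 1 0 := by
    rw [Matrix.SpecialLinearGroup.coe_mul, hg, Matrix.mul_apply, Fin.sum_univ_two]
    simp
  rw [this]; ring

/-- **Coset criterion** in `ZMod N`. -/
theorem mk_eq_mk_iff (g h : SL(2, ℤ)) :
    (QuotientGroup.mk g : SL(2, ℤ) ⧸ Gamma0 N) = QuotientGroup.mk h ↔
      ((g 0 0 : ℤ) : ZMod N) * ((h 1 0 : ℤ) : ZMod N)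
        = ((g 1 0 : ℤ) : ZMod N) * ((h 0 0 : ℤ) : ZMod N) := by
  rw [QuotientGroup.eq, Gamma0_mem, inv_mul_apply_one_zero]
  push_cast
  exact sub_eq_zero

/-- **Coset criterion**, divisibility form. -/
theorem mk_eq_mk_iff_dvd (g h : SL(2, ℤ)) :
    (QuotientGroup.mk g : SL(2, ℤ) ⧸ Gamma0 N) = QuotientGroup.mk h ↔
      (N : ℤ) ∣ g 0 0 * h 1 0 - g 1 0 * h 0 0 := by
  rw [QuotientGroup.eq, Gamma0_mem, inv_mul_apply_one_zero,
    ZMod.intCast_zmod_eq_zero_iff_dvd]

theorem smul_mk (s g : SL(2, ℤ)) :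
    s • (QuotientGroup.mk g : SL(2, ℤ) ⧸ Gamma0 N) = QuotientGroup.mk (s * g) := rfl

/-- First column of `S * g`. -/
theorem S_mul_apply_zero_zero (g : SL(2, ℤ)) : (ModularGroup.S * g) 0 0 = - g 1 0 := by
  rw [Matrix.SpecialLinearGroup.coe_mul, ModularGroup.coe_S, Matrix.mul_apply, Fin.sum_univ_two]
  simp

theorem S_mul_apply_one_zero (g : SL(2, ℤ)) : (ModularGroup.S * g) 1 0 = g 0 0 := by
  rw [Matrix.SpecialLinearGroup.coe_mul, ModularGroup.coe_S, Matrix.mul_apply, Fin.sum_univ_two]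
  simp

/-- First column of `T ^ k * g`. -/
theorem T_zpow_mul_apply_zero_zero (k : ℤ) (g : SL(2, ℤ)) :
    (ModularGroup.T ^ k * g) 0 0 = g 0 0 + k * g 1 0 := by
  rw [Matrix.SpecialLinearGroup.coe_mul, ModularGroup.coe_T_zpow, Matrix.mul_apply,
    Fin.sum_univ_two]
  simp

theorem T_zpow_mul_apply_one_zero (k : ℤ) (g : SL(2, ℤ)) :
    (ModularGroup.T ^ k * g) 1 0 = g 1 0 := by
  rw [Matrix.SpecialLinearGroup.coe_mul, ModularGroup.coe_T_zpow, Matrix.mul_apply,
    Fin.sum_univ_two]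
  simp

/-- First column of `S * T * g`. -/
theorem ST_mul_apply_zero_zero (g : SL(2, ℤ)) :
    (ModularGroup.S * ModularGroup.T * g) 0 0 = - g 1 0 := by
  rw [mul_assoc, S_mul_apply_zero_zero]
  have := T_zpow_mul_apply_one_zero 1 g
  rw [zpow_one] at this
  rw [this]

theorem ST_mul_apply_one_zero (g : SL(2, ℤ)) :
    (ModularGroup.S * ModularGroup.T * g) 1 0 = g 0 0 + g 1 0 := by
  rw [mul_assoc, S_mul_apply_one_zero]
  have := T_zpow_mul_apply_zero_zero 1 g
  rw [zpow_one] at this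
  rw [this]; ring

/-- The lower unipotent matrix `[[1,0],[u,1]]`. -/
def lowerUni (u : ℤ) : SL(2, ℤ) :=
  ⟨!![1, 0; u, 1], by simp [Matrix.det_fin_two_of]⟩

@[simp] theorem lowerUni_apply_zero_zero (u : ℤ) : lowerUni u 0 0 = 1 := rfl
@[simp] theorem lowerUni_apply_one_zero (u : ℤ) : lowerUni u 1 0 = u := rfl
@[simp] theorem lowerUni_apply_zero_one (u : ℤ) : lowerUni u 0 1 = 0 := rfl
@[simp] theorem lowerUni_apply_one_one (u : ℤ) : lowerUni u 1 1 = 1 := rfl

/-- The coset of `[[1,0],[u,1]]` for `u : ZMod N`. -/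
noncomputable def affinePt (N : ℕ) (u : ZMod N) : SL(2, ℤ) ⧸ Gamma0 N :=
  QuotientGroup.mk (lowerUni (ZMod.cast u : ℤ))

theorem mk_eq_affinePt_iff [NeZero N] (g : SL(2, ℤ)) (u : ZMod N) :
    (QuotientGroup.mk g : SL(2, ℤ) ⧸ Gamma0 N) = affinePt N u ↔
      ((g 0 0 : ℤ) : ZMod N) * u = ((g 1 0 : ℤ) : ZMod N) := by
  rw [affinePt, mk_eq_mk_iff]
  simp

theorem affinePt_injective [NeZero N] : Function.Injective (affinePt N) := by
  intro u v h
  rw [affinePt, mk_eq_affinePt_iff] at h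
  simpa using h.symm

theorem S_smul_affinePt_eq_iff [NeZero N] (u : ZMod N) :
    ModularGroup.S • affinePt N u = affinePt N u ↔ u ^ 2 + 1 = 0 := by
  rw [affinePt, smul_mk, ← affinePt, mk_eq_affinePt_iff, S_mul_apply_zero_zero,
    S_mul_apply_one_zero]
  simp only [lowerUni_apply_one_zero, lowerUni_apply_zero_zero, Int.cast_neg, ZMod.intCast_cast,
    ZMod.cast_id', id_eq, Int.cast_one]
  constructor
  · intro h
    linear_combination -h
  · intro h
    linear_combination -h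

theorem ST_smul_affinePt_eq_iff [NeZero N] (u : ZMod N) :
    (ModularGroup.S * ModularGroup.T) • affinePt N u = affinePt N u ↔ u ^ 2 + u + 1 = 0 := by
  rw [affinePt, smul_mk, ← affinePt, mk_eq_affinePt_iff, ST_mul_apply_zero_zero,
    ST_mul_apply_one_zero]
  simp only [lowerUni_apply_one_zero, lowerUni_apply_zero_zero, Int.cast_neg, ZMod.intCast_cast,
    ZMod.cast_id', id_eq, Int.cast_one, Int.cast_add]
  constructor
  · intro h
    linear_combination -h
  · intro h
    linear_combination -h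

/-- If `g 0 0` is a unit mod `N` (with inverse `w`), then the coset of `g` is an affine point. -/
theorem mk_eq_affinePt_of_inv [NeZero N] (g : SL(2, ℤ)) (w : ZMod N)
    (hw : ((g 0 0 : ℤ) : ZMod N) * w = 1) :
    (QuotientGroup.mk g : SL(2, ℤ) ⧸ Gamma0 N) = affinePt N (((g 1 0 : ℤ) : ZMod N) * w) := by
  rw [mk_eq_affinePt_iff]
  linear_combination ((g 1 0 : ℤ) : ZMod N) * hw

theorem det_rel_zmod (g : SL(2, ℤ)) :
    ((g 0 0 : ℤ) : ZMod N) * ((g 1 1 : ℤ) : ZMod N)
      - ((g 0 1 : ℤ) : ZMod N) * ((g 1 0 : ℤ) : ZMod N) = 1 := by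
  have := congrArg (Int.cast : ℤ → ZMod N) (det_rel g)
  push_cast at this
  exact this

/-- A coset fixed by `S` is an affine point. -/
theorem exists_affinePt_of_S_fixed [NeZero N] (x : SL(2, ℤ) ⧸ Gamma0 N)
    (hx : ModularGroup.S • x = x) : ∃ u : ZMod N, x = affinePt N u := by
  induction x using QuotientGroup.induction_on with
  | H g =>
    rw [smul_mk, mk_eq_mk_iff, S_mul_apply_zero_zero, S_mul_apply_one_zero] at hx
    push_cast at hx
    have hd := det_rel_zmod (N := N) g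
    set a : ZMod N := ((g 0 0 : ℤ) : ZMod N)
    set b : ZMod N := ((g 0 1 : ℤ) : ZMod N)
    set c : ZMod N := ((g 1 0 : ℤ) : ZMod N)
    set d : ZMod N := ((g 1 1 : ℤ) : ZMod N)
    refine ⟨c * (a * d ^ 2 - 2 * b * c * d - a * b ^ 2), mk_eq_affinePt_of_inv g _ ?_⟩
    change a * (a * d ^ 2 - 2 * b * c * d - a * b ^ 2) = 1
    linear_combination (a * d - b * c + 1) * hd + b ^ 2 * hx

/-- A coset fixed by `S * T` is an affine point. -/
theorem exists_affinePt_of_ST_fixed [NeZero N] (x : SL(2, ℤ) ⧸ Gamma0 N)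
    (hx : (ModularGroup.S * ModularGroup.T) • x = x) : ∃ u : ZMod N, x = affinePt N u := by
  induction x using QuotientGroup.induction_on with
  | H g =>
    rw [smul_mk, mk_eq_mk_iff, ST_mul_apply_zero_zero, ST_mul_apply_one_zero] at hx
    push_cast at hx
    have hd := det_rel_zmod (N := N) g
    set a : ZMod N := ((g 0 0 : ℤ) : ZMod N)
    set b : ZMod N := ((g 0 1 : ℤ) : ZMod N)
    set c : ZMod N := ((g 1 0 : ℤ) : ZMod N)
    set d : ZMod N := ((g 1 1 : ℤ) : ZMod N)
    refine ⟨c * (a * d ^ 2 - 2 * b * c * d - b ^ 2 * (a + c)), mk_eq_affinePt_of_inv g _ ?_⟩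
    change a * (a * d ^ 2 - 2 * b * c * d - b ^ 2 * (a + c)) = 1
    linear_combination (a * d - b * c + 1) * hd + b ^ 2 * hx

/-- **I2**: the fixed points of `S` on `SL(2, ℤ) ⧸ Γ₀(N)` are counted by `nuTwo N`. -/
theorem card_fixed_S (N : ℕ) [NeZero N] :
    Nat.card {x : SL(2, ℤ) ⧸ Gamma0 N // ModularGroup.S • x = x} = ModularCurve.nuTwo N := by
  rw [ModularCurve.nuTwo]
  symm
  refine Nat.card_congr (Equiv.ofBijective
    (fun u => ⟨affinePt N u.1, (S_smul_affinePt_eq_iff u.1).2 u.2⟩) ⟨?_, ?_⟩)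
  · intro u v h
    exact Subtype.ext (affinePt_injective (congrArg Subtype.val h))
  · rintro ⟨x, hx⟩
    obtain ⟨u, rfl⟩ := exists_affinePt_of_S_fixed x hx
    exact ⟨⟨u, (S_smul_affinePt_eq_iff u).1 hx⟩, rfl⟩

/-- **I3**: the fixed points of `S * T` on `SL(2, ℤ) ⧸ Γ₀(N)` are counted by `nuThree N`. -/
theorem card_fixed_ST (N : ℕ) [NeZero N] :
    Nat.card {x : SL(2, ℤ) ⧸ Gamma0 N // (ModularGroup.S * ModularGroup.T) • x = x}
      = ModularCurve.nuThree N := by
  rw [ModularCurve.nuThree]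
  symm
  refine Nat.card_congr (Equiv.ofBijective
    (fun u => ⟨affinePt N u.1, (ST_smul_affinePt_eq_iff u.1).2 u.2⟩) ⟨?_, ?_⟩)
  · intro u v h
    exact Subtype.ext (affinePt_injective (congrArg Subtype.val h))
  · rintro ⟨x, hx⟩
    obtain ⟨u, rfl⟩ := exists_affinePt_of_ST_fixed x hx
    exact ⟨⟨u, (ST_smul_affinePt_eq_iff u).1 hx⟩, rfl⟩

end Fermat.Agent.S20.H872

end
-- ===== PACK-END S20/H872/Coset.lean

-- ===== PACK-BEGIN S20/H872/Index.lean
section





/-!
# `[SL(2, ℤ) : Γ₀(N)] = ψ(N)` (Dedekind psi function)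

Route: `[Γ₀(N) : Γ₀(N p)] = p` if `p ∣ N`, `p + 1` otherwise, and induction on the prime
factorisation.
-/

set_option autoImplicit false

open CongruenceSubgroup Matrix.SpecialLinearGroup
open scoped MatrixGroups

namespace Fermat.Agent.S20.H872

/-! ### Arithmetic of `dedekindPsi` -/

theorem dedekindPsi_mul_prime_of_dvd {N p : ℕ} (hN : N ≠ 0) (hp : p.Prime) (hpN : p ∣ N) :
    ModularCurve.dedekindPsi (N * p) = p * ModularCurve.dedekindPsi N := by
  unfold ModularCurve.dedekindPsi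
  have hset : (N * p).divisors.filter Squarefree = N.divisors.filter Squarefree := by
    ext d
    simp only [Finset.mem_filter, Nat.mem_divisors]
    constructor
    · rintro ⟨⟨hd, _⟩, hsq⟩
      refine ⟨⟨?_, hN⟩, hsq⟩
      have h2 : d ∣ N ^ 2 := by
        rw [pow_two]
        exact hd.trans (mul_dvd_mul_left N hpN)
      exact (hsq.dvd_pow_iff_dvd two_ne_zero).1 h2
    · rintro ⟨⟨hd, _⟩, hsq⟩
      exact ⟨⟨hd.mul_right p, mul_ne_zero hN hp.ne_zero⟩, hsq⟩
  rw [hset, Finset.mul_sum]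
  refine Finset.sum_congr rfl fun d hd => ?_
  have hdN : d ∣ N := (Nat.mem_divisors.1 (Finset.mem_filter.1 hd).1).1
  obtain ⟨e, rfl⟩ := hdN
  have hd0 : 0 < d := Nat.pos_of_ne_zero (by rintro rfl; simp at hN)
  rw [mul_assoc, Nat.mul_div_cancel_left _ hd0, Nat.mul_div_cancel_left _ hd0, mul_comm]

theorem dedekindPsi_mul_prime_of_not_dvd {N p : ℕ} (hN : N ≠ 0) (hp : p.Prime) (hpN : ¬ p ∣ N) :
    ModularCurve.dedekindPsi (N * p) = (p + 1) * ModularCurve.dedekindPsi N := by
  unfold ModularCurve.dedekindPsi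
  have hcop : ∀ d, d ∣ N → Nat.Coprime d p := fun d hd =>
    (Nat.Coprime.symm ((Nat.Prime.coprime_iff_not_dvd hp).2 fun h => hpN (h.trans hd)))
  have hset : (N * p).divisors.filter Squarefree
      = (N.divisors.filter Squarefree) ∪ (N.divisors.filter Squarefree).image (· * p) := by
    ext d
    simp only [Finset.mem_filter, Nat.mem_divisors, Finset.mem_union, Finset.mem_image]
    constructor
    · rintro ⟨⟨hd, _⟩, hsq⟩
      by_cases hpd : p ∣ d
      · right
        obtain ⟨e, rfl⟩ := hpd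
        refine ⟨e, ⟨⟨?_, hN⟩, hsq.squarefree_of_dvd (Dvd.intro_left p rfl)⟩, mul_comm e p⟩
        rw [mul_comm p e] at hd
        exact Nat.dvd_of_mul_dvd_mul_right hp.pos hd
      · left
        refine ⟨⟨?_, hN⟩, hsq⟩
        have : Nat.Coprime d p := (Nat.Coprime.symm ((Nat.Prime.coprime_iff_not_dvd hp).2 hpd))
        exact this.dvd_of_dvd_mul_right hd
    · rintro (⟨⟨hd, _⟩, hsq⟩ | ⟨e, ⟨⟨he, _⟩, hsq⟩, rfl⟩)
      · exact ⟨⟨hd.mul_right p, mul_ne_zero hN hp.ne_zero⟩, hsq⟩
      · refine ⟨⟨mul_dvd_mul_right he p, mul_ne_zero hN hp.ne_zero⟩, ?_⟩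
        exact (Nat.squarefree_mul (hcop e he)).2 ⟨hsq, hp.squarefree⟩
  have hdisj : Disjoint (N.divisors.filter Squarefree)
      ((N.divisors.filter Squarefree).image (· * p)) := by
    rw [Finset.disjoint_left]
    intro d hd hd'
    simp only [Finset.mem_filter, Nat.mem_divisors, Finset.mem_image] at hd hd'
    obtain ⟨e, _, rfl⟩ := hd'
    exact hpN ((Dvd.intro_left e rfl).trans hd.1.1)
  rw [hset, Finset.sum_union hdisj, Finset.sum_image, add_mul, one_mul, Finset.mul_sum]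
  · congr 1
    · refine Finset.sum_congr rfl fun d hd => ?_
      have hdN : d ∣ N := (Nat.mem_divisors.1 (Finset.mem_filter.1 hd).1).1
      obtain ⟨e, rfl⟩ := hdN
      have hd0 : 0 < d := Nat.pos_of_ne_zero (by rintro rfl; simp at hN)
      rw [mul_assoc, Nat.mul_div_cancel_left _ hd0, Nat.mul_div_cancel_left _ hd0, mul_comm]
    · refine Finset.sum_congr rfl fun d hd => ?_
      exact Nat.mul_div_mul_right N d hp.pos
  · intro a _ b _ hab
    exact Nat.eq_of_mul_eq_mul_right hp.pos hab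

/-! ### The relative index `[Γ₀(N) : Γ₀(N p)]` -/

theorem Gamma0_mul_le (N p : ℕ) : Gamma0 (N * p) ≤ Gamma0 N := by
  intro g hg
  rw [Gamma0_mem, ZMod.intCast_zmod_eq_zero_iff_dvd] at hg ⊢
  exact (Dvd.intro _ (by push_cast; rfl)).trans hg

theorem lowerUni_mem_Gamma0 (N : ℕ) (t : ℤ) : lowerUni ((N : ℤ) * t) ∈ Gamma0 N := by
  rw [Gamma0_mem, ZMod.intCast_zmod_eq_zero_iff_dvd]
  exact Dvd.intro _ rfl

/-- Criterion for equality of cosets in `Γ₀(N) ⧸ Γ₀(N p)`. -/
theorem rel_mk_eq_mk_iff (N p : ℕ) (g g' : SL(2, ℤ)) (hg : g ∈ Gamma0 N) (hg' : g' ∈ Gamma0 N) :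
    (QuotientGroup.mk (⟨g, hg⟩ : Gamma0 N) :
        Gamma0 N ⧸ (Gamma0 (N * p)).subgroupOf (Gamma0 N)) = QuotientGroup.mk ⟨g', hg'⟩
      ↔ ((N : ℤ) * (p : ℤ)) ∣ g 0 0 * g' 1 0 - g 1 0 * g' 0 0 := by
  rw [QuotientGroup.eq, Subgroup.mem_subgroupOf]
  have : (((⟨g, hg⟩ : Gamma0 N)⁻¹ * (⟨g', hg'⟩ : Gamma0 N) : Gamma0 N) : SL(2, ℤ))
      = g⁻¹ * g' := rfl
  rw [this, Gamma0_mem, inv_mul_apply_one_zero, ZMod.intCast_zmod_eq_zero_iff_dvd]
  push_cast
  rfl

theorem Gamma0_dvd (N : ℕ) (g : SL(2, ℤ)) (hg : g ∈ Gamma0 N) : (N : ℤ) ∣ g 1 0 := by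
  rwa [Gamma0_mem, ZMod.intCast_zmod_eq_zero_iff_dvd] at hg

/-- Criterion in terms of `γ = c / N`. -/
theorem rel_mk_eq_mk_iff' {N : ℕ} (hN : N ≠ 0) (p : ℕ) (g g' : SL(2, ℤ)) (hg : g ∈ Gamma0 N)
    (hg' : g' ∈ Gamma0 N) (γ γ' : ℤ) (hγ : g 1 0 = N * γ) (hγ' : g' 1 0 = N * γ') :
    (QuotientGroup.mk (⟨g, hg⟩ : Gamma0 N) :
        Gamma0 N ⧸ (Gamma0 (N * p)).subgroupOf (Gamma0 N)) = QuotientGroup.mk ⟨g', hg'⟩
      ↔ (p : ℤ) ∣ g 0 0 * γ' - γ * g' 0 0 := by
  rw [rel_mk_eq_mk_iff, hγ, hγ']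
  have : g 0 0 * ((N : ℤ) * γ') - (N : ℤ) * γ * g' 0 0
      = (N : ℤ) * (g 0 0 * γ' - γ * g' 0 0) := by ring
  rw [this]
  exact mul_dvd_mul_iff_left (by exact_mod_cast hN)

/-- the affine representatives of `Γ₀(N) ⧸ Γ₀(N p)` -/
noncomputable def relPt (N p : ℕ) (t : ZMod p) :
    Gamma0 N ⧸ (Gamma0 (N * p)).subgroupOf (Gamma0 N) :=
  QuotientGroup.mk ⟨lowerUni ((N : ℤ) * (ZMod.cast t : ℤ)), lowerUni_mem_Gamma0 N _⟩

theorem mk_eq_relPt_iff {N : ℕ} (hN : N ≠ 0) (p : ℕ) [NeZero p] (g : SL(2, ℤ))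
    (hg : g ∈ Gamma0 N) (γ : ℤ) (hγ : g 1 0 = N * γ) (t : ZMod p) :
    (QuotientGroup.mk (⟨g, hg⟩ : Gamma0 N) :
        Gamma0 N ⧸ (Gamma0 (N * p)).subgroupOf (Gamma0 N)) = relPt N p t
      ↔ ((g 0 0 : ℤ) : ZMod p) * t = ((γ : ℤ) : ZMod p) := by
  rw [relPt, rel_mk_eq_mk_iff' hN p g _ hg _ γ (ZMod.cast t : ℤ) hγ rfl]
  rw [lowerUni_apply_zero_zero, mul_one, ← ZMod.intCast_zmod_eq_zero_iff_dvd]
  push_cast
  try simp only [ZMod.intCast_cast, ZMod.cast_id', id_eq]
  exact sub_eq_zero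

theorem relPt_injective {N : ℕ} (hN : N ≠ 0) (p : ℕ) [NeZero p] :
    Function.Injective (relPt N p) := by
  intro t t' h
  rw [relPt, mk_eq_relPt_iff hN p _ _ (ZMod.cast t : ℤ) rfl] at h
  simpa using h.symm

/-- If `a = g 0 0` is nonzero mod the prime `p`, the coset of `g` is an affine point. -/
theorem exists_relPt_of_ne_zero {N : ℕ} (hN : N ≠ 0) (p : ℕ) [Fact p.Prime] (g : SL(2, ℤ))
    (hg : g ∈ Gamma0 N) (ha : ((g 0 0 : ℤ) : ZMod p) ≠ 0) :
    ∃ t : ZMod p,
      (QuotientGroup.mk (⟨g, hg⟩ : Gamma0 N) :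
        Gamma0 N ⧸ (Gamma0 (N * p)).subgroupOf (Gamma0 N)) = relPt N p t := by
  obtain ⟨γ, hγ⟩ := Gamma0_dvd N g hg
  refine ⟨((γ : ℤ) : ZMod p) * (((g 0 0 : ℤ) : ZMod p))⁻¹, ?_⟩
  rw [mk_eq_relPt_iff hN p g hg γ hγ]
  field_simp

theorem card_rel_of_dvd {N p : ℕ} (hN : N ≠ 0) (hp : p.Prime) (hpN : p ∣ N) :
    (Gamma0 (N * p)).relIndex (Gamma0 N) = p := by
  have : Fact p.Prime := ⟨hp⟩
  rw [Subgroup.relIndex, Subgroup.index_eq_card]
  have hbij : Function.Bijective (relPt N p) := by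
    refine ⟨relPt_injective hN p, fun x => ?_⟩
    induction x using QuotientGroup.induction_on with
    | H k =>
      obtain ⟨g, hg⟩ := k
      have ha : ((g 0 0 : ℤ) : ZMod p) ≠ 0 := by
        intro h0
        rw [ZMod.intCast_zmod_eq_zero_iff_dvd] at h0
        have hc : (p : ℤ) ∣ g 1 0 := (Int.natCast_dvd_natCast.2 hpN).trans (Gamma0_dvd N g hg)
        have h1 : (p : ℤ) ∣ 1 := by
          rw [← det_rel g]
          exact dvd_sub (h0.mul_right _) (hc.mul_left _)
        have h2 : p ∣ 1 := by exact_mod_cast h1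
        exact hp.one_lt.ne' (Nat.dvd_one.1 h2)
      obtain ⟨t, ht⟩ := exists_relPt_of_ne_zero hN p g hg ha
      exact ⟨t, ht.symm⟩
  rw [← Nat.card_congr (Equiv.ofBijective _ hbij), Nat.card_eq_fintype_card, ZMod.card]

theorem exists_mem_Gamma0_col {N p : ℕ} (hcop : Nat.Coprime p N) :
    ∃ g : SL(2, ℤ), g ∈ Gamma0 N ∧ g 0 0 = p ∧ g 1 0 = N := by
  have h : IsCoprime (p : ℤ) (N : ℤ) := Nat.isCoprime_iff_coprime.2 hcop
  obtain ⟨u, v, huv⟩ := h
  have hdet : (!![(p : ℤ), -v; (N : ℤ), u]).det = 1 := by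
    rw [Matrix.det_fin_two_of]; linear_combination huv
  let g : SL(2, ℤ) := ⟨!![(p : ℤ), -v; (N : ℤ), u], hdet⟩
  refine ⟨g, ?_, rfl, rfl⟩
  rw [Gamma0_mem]
  change (((N : ℤ) : ℤ) : ZMod N) = 0
  simp

theorem card_rel_of_not_dvd {N p : ℕ} (hN : N ≠ 0) (hp : p.Prime) (hpN : ¬ p ∣ N) :
    (Gamma0 (N * p)).relIndex (Gamma0 N) = p + 1 := by
  have : Fact p.Prime := ⟨hp⟩
  rw [Subgroup.relIndex, Subgroup.index_eq_card]
  obtain ⟨g₀, hg₀, hk0, hk1⟩ :=
    exists_mem_Gamma0_col ((Nat.Prime.coprime_iff_not_dvd hp).2 hpN)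
  let f : Option (ZMod p) → Gamma0 N ⧸ (Gamma0 (N * p)).subgroupOf (Gamma0 N) := fun o =>
    o.elim (QuotientGroup.mk ⟨g₀, hg₀⟩) (relPt N p)
  have hinf : ∀ t : ZMod p,
      (QuotientGroup.mk (⟨g₀, hg₀⟩ : Gamma0 N) :
        Gamma0 N ⧸ (Gamma0 (N * p)).subgroupOf (Gamma0 N)) ≠ relPt N p t := by
    intro t h
    rw [mk_eq_relPt_iff hN p g₀ hg₀ 1 (by rw [hk1, mul_one]), hk0] at h
    simp at h
  have hbij : Function.Bijective f := by
    constructor
    · rintro (_ | t) (_ | t') h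
      · rfl
      · exact absurd h (hinf t')
      · exact absurd h.symm (hinf t)
      · exact congrArg some (relPt_injective hN p h)
    · intro x
      induction x using QuotientGroup.induction_on with
      | H k =>
        obtain ⟨g, hg⟩ := k
        by_cases ha : ((g 0 0 : ℤ) : ZMod p) = 0
        · refine ⟨none, ?_⟩
          obtain ⟨γ, hγ⟩ := Gamma0_dvd N g hg
          change (QuotientGroup.mk (⟨g₀, hg₀⟩ : Gamma0 N) :
            Gamma0 N ⧸ (Gamma0 (N * p)).subgroupOf (Gamma0 N)) = _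
          rw [rel_mk_eq_mk_iff' hN p g₀ g hg₀ hg 1 γ (by rw [hk1, mul_one]) hγ, hk0]
          rw [ZMod.intCast_zmod_eq_zero_iff_dvd] at ha
          exact dvd_sub (Dvd.intro _ rfl) (ha.mul_left _)
        · obtain ⟨t, ht⟩ := exists_relPt_of_ne_zero hN p g hg ha
          exact ⟨some t, ht.symm⟩
  rw [← Nat.card_congr (Equiv.ofBijective _ hbij), Nat.card_eq_fintype_card, Fintype.card_option,
    ZMod.card]

/-! ### The index formula -/

theorem Gamma0_one : Gamma0 1 = ⊤ := by
  ext g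
  simp only [Gamma0_mem, Subgroup.mem_top, iff_true]
  exact Subsingleton.elim _ _

/-- **I1**: `[SL(2, ℤ) : Γ₀(N)] = ψ(N)`. -/
theorem index_Gamma0 (N : ℕ) (hN : N ≠ 0) : (Gamma0 N).index = ModularCurve.dedekindPsi N := by
  induction N using induction_on_primes with
  | zero => exact absurd rfl hN
  | one => rw [Gamma0_one, Subgroup.index_top, ModularCurve.dedekindPsi_one]
  | prime_mul p M hp ih =>
    have hM : M ≠ 0 := by rintro rfl; simp at hN
    have ih' := ih hM
    rw [mul_comm p M, ← Subgroup.relIndex_mul_index (Gamma0_mul_le M p), ih']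
    by_cases hpM : p ∣ M
    · rw [card_rel_of_dvd hM hp hpM, dedekindPsi_mul_prime_of_dvd hM hp hpM]
    · rw [card_rel_of_not_dvd hM hp hpM, dedekindPsi_mul_prime_of_not_dvd hM hp hpM]

/-- **I1**, cardinality form. -/
theorem card_quot_Gamma0 (N : ℕ) [NeZero N] :
    Nat.card (SL(2, ℤ) ⧸ Gamma0 N) = ModularCurve.dedekindPsi N := by
  rw [← Subgroup.index_eq_card]
  exact index_Gamma0 N (NeZero.ne N)

end Fermat.Agent.S20.H872

end
-- ===== PACK-END S20/H872/Index.lean

-- ===== PACK-BEGIN S24/Alg/LocOrd.lean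
section


/-!
# S24 / ALG-LOC: elementary calculus of `Place.ord`

Membership in the valuation ring, ultrametric inequality and its strict case.
-/

set_option autoImplicit false

noncomputable section

open AlgebraicCurve

namespace Fermat.Agent.S24.H144

variable {K F : Type*} [Field K] [Field F] [Algebra K F]

theorem loc_ord_nonneg_of_mem (v : Place K F) {f : F} (hf : f ∈ v.toValuationSubring) :
    0 ≤ v.ord f := by
  rcases eq_or_ne f 0 with rfl | hf0
  · simp
  obtain ⟨π, hπ⟩ := IsDiscreteValuationRing.exists_irreducible v.toValuationSubring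
  obtain ⟨n, u, hu⟩ :=
    IsDiscreteValuationRing.eq_unit_mul_pow_irreducible
      (x := (⟨f, hf⟩ : v.toValuationSubring)) (by simpa [Subtype.ext_iff] using hf0) hπ
  have hcoe : f = ((u : v.toValuationSubring) : F) * ((π : F) ^ (n : ℤ)) := by
    have h := congrArg (Subtype.val) hu
    push_cast at h
    rw [zpow_natCast]
    exact h
  rw [hcoe, v.ord_unit_smul_zpow u hπ (n : ℤ)]
  exact Int.natCast_nonneg n

theorem loc_mem_of_ord_nonneg (v : Place K F) {f : F} (h : 0 ≤ v.ord f) :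
    f ∈ v.toValuationSubring := by
  rcases eq_or_ne f 0 with rfl | hf
  · exact zero_mem _
  obtain ⟨π, hπ⟩ := IsDiscreteValuationRing.exists_irreducible v.toValuationSubring
  obtain ⟨u, hu⟩ := v.exists_unit_mul_zpow hf hπ
  rw [hu, show v.ord f = (((v.ord f).toNat : ℕ) : ℤ) from (Int.toNat_of_nonneg h).symm,
    zpow_natCast]
  exact mul_mem (u : v.toValuationSubring).2 (pow_mem (π : v.toValuationSubring).2 _)

/-- `f ∈ O_v ↔ 0 ≤ ord_v f` (valid also for `f = 0` because `ord_v 0 = 0`). -/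
theorem loc_mem_iff_ord_nonneg (v : Place K F) (f : F) :
    f ∈ v.toValuationSubring ↔ 0 ≤ v.ord f :=
  ⟨loc_ord_nonneg_of_mem v, loc_mem_of_ord_nonneg v⟩

theorem loc_ord_algebraMap (v : Place K F) (c : K) : v.ord (algebraMap K F c) = 0 := by
  rcases eq_or_ne c 0 with rfl | hc
  · simp
  have h1 : 0 ≤ v.ord (algebraMap K F c) := loc_ord_nonneg_of_mem v (v.algebraMap_mem' c)
  have h2 : 0 ≤ v.ord (algebraMap K F c⁻¹) := loc_ord_nonneg_of_mem v (v.algebraMap_mem' c⁻¹)
  rw [map_inv₀, v.ord_inv] at h2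
  omega

theorem loc_ord_pow (v : Place K F) (f : F) (n : ℕ) : v.ord (f ^ n) = n * v.ord f := by
  have := v.ord_zpow f (n : ℤ)
  rwa [zpow_natCast] at this

theorem loc_ord_neg (v : Place K F) (f : F) : v.ord (-f) = v.ord f := by
  rcases eq_or_ne f 0 with rfl | hf
  · simp
  have h : (-1 : F) ≠ 0 := by simp
  have h1 : v.ord (-1 : F) = 0 := by
    have h2 := v.ord_mul h h
    rw [neg_one_mul, neg_neg, v.ord_one] at h2
    omega
  rw [← neg_one_mul, v.ord_mul h hf, h1, zero_add]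

/-- Ultrametric inequality. -/
theorem loc_ord_add (v : Place K F) {f g : F} (hf : f ≠ 0) (hg : g ≠ 0) (hfg : f + g ≠ 0) :
    min (v.ord f) (v.ord g) ≤ v.ord (f + g) := by
  -- wlog `ord f ≤ ord g`
  wlog h : v.ord f ≤ v.ord g generalizing f g
  · have := this hg hf (by rwa [add_comm]) (by omega)
    rwa [min_comm, add_comm g f] at this
  rw [min_eq_left h]
  have hq : g * f⁻¹ ∈ v.toValuationSubring := by
    apply loc_mem_of_ord_nonneg
    rw [v.ord_mul hg (inv_ne_zero hf), v.ord_inv]; omega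
  have h1 : 1 + g * f⁻¹ ∈ v.toValuationSubring := add_mem (one_mem _) hq
  have h2 : f + g = f * (1 + g * f⁻¹) := by field_simp
  have h3 : (1 + g * f⁻¹) ≠ 0 := by
    intro h0; rw [h0, mul_zero] at h2; exact hfg h2
  rw [h2, v.ord_mul hf h3]
  have := loc_ord_nonneg_of_mem v h1
  omega

/-- Ultrametric inequality, version with nonnegativity bound (no nonvanishing hypotheses). -/
theorem loc_ord_add_of_le (v : Place K F) {f g : F} {n : ℤ} (hn : n ≤ 0 ∨ f + g ≠ 0)
    (hf : f = 0 ∨ n ≤ v.ord f) (hg : g = 0 ∨ n ≤ v.ord g) : n ≤ v.ord (f + g) := by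
  rcases eq_or_ne (f + g) 0 with h0 | h0
  · rw [h0, v.ord_zero]
    rcases hn with hn | hn
    · exact hn
    · exact absurd h0 hn
  rcases eq_or_ne f 0 with rfl | hf0
  · rw [zero_add] at h0 ⊢
    rcases hg with hg | hg
    · exact absurd hg h0
    · exact hg
  rcases eq_or_ne g 0 with rfl | hg0
  · rw [add_zero]
    rcases hf with hf | hf
    · exact absurd hf hf0
    · exact hf
  have := loc_ord_add v hf0 hg0 h0
  rcases hf with hf | hf
  · exact absurd hf hf0
  rcases hg with hg | hg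
  · exact absurd hg hg0
  exact le_trans (le_min hf hg) this

/-- Strict case of the ultrametric inequality. -/
theorem loc_ord_add_eq_of_lt (v : Place K F) {f g : F} (hf : f ≠ 0) (hg : g ≠ 0)
    (h : v.ord f < v.ord g) : v.ord (f + g) = v.ord f := by
  have hfg : f + g ≠ 0 := by
    intro h0
    have : g = -f := by rw [← sub_eq_zero]; rw [sub_neg_eq_add, add_comm]; exact h0
    rw [this, loc_ord_neg] at h
    exact lt_irrefl _ h
  have h1 := loc_ord_add v hf hg hfg
  rw [min_eq_left h.le] at h1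
  -- f = (f + g) + (-g)
  have hng : -g ≠ 0 := neg_ne_zero.mpr hg
  have h2 := loc_ord_add v hfg hng (by simpa using hf)
  rw [add_neg_cancel_right, loc_ord_neg] at h2
  rcases le_total (v.ord (f + g)) (v.ord g) with h3 | h3
  · rw [min_eq_left h3] at h2; omega
  · rw [min_eq_right h3] at h2; omega

end Fermat.Agent.S24.H144

end
end
-- ===== PACK-END S24/Alg/LocOrd.lean

-- ===== PACK-BEGIN S24/Alg/LocBasic.lean
section


/-!
# S24 / ALG-LOC, part 1: valuations induced by embeddings into Laurent series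

`Induces σ v` : the place `v` of `F` is the one cut out by the embedding `σ : F → C((z))`.
Main result `loc_exists_mult`: then `ord_z ∘ σ = g * v.ord` for some `g ≥ 1`.
-/

set_option autoImplicit false

noncomputable section

open AlgebraicCurve

namespace Fermat.Agent.S24.H144

variable {K F : Type*} [Field K] [Field F] [Algebra K F]
variable {C : Type*} [Field C]

/-- The embedding `σ` induces the place `v`: the valuation ring of `v` is the set of `f`
whose image has non-negative order. -/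
def Induces (σ : F →+* LaurentSeries C) (v : Place K F) : Prop :=
  ∀ f : F, f ∈ v.toValuationSubring ↔ 0 ≤ (σ f).order

theorem loc_map_ne_zero (σ : F →+* LaurentSeries C) {f : F} (hf : f ≠ 0) : σ f ≠ 0 :=
  (map_ne_zero σ).mpr hf

theorem loc_order_map_mul (σ : F →+* LaurentSeries C) {f g : F} (hf : f ≠ 0) (hg : g ≠ 0) :
    (σ (f * g)).order = (σ f).order + (σ g).order := by
  rw [map_mul]
  exact HahnSeries.order_mul (loc_map_ne_zero σ hf) (loc_map_ne_zero σ hg)

theorem loc_order_map_one (σ : F →+* LaurentSeries C) : (σ (1 : F)).order = 0 := by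
  rw [map_one]; exact HahnSeries.order_one

theorem loc_order_map_inv (σ : F →+* LaurentSeries C) (f : F) :
    (σ f⁻¹).order = -(σ f).order := by
  rcases eq_or_ne f 0 with rfl | hf
  · simp
  · have h := loc_order_map_mul σ hf (inv_ne_zero hf)
    rw [mul_inv_cancel₀ hf, loc_order_map_one] at h
    omega

theorem loc_order_map_pow (σ : F →+* LaurentSeries C) {f : F} (hf : f ≠ 0) (n : ℕ) :
    (σ (f ^ n)).order = n * (σ f).order := by
  induction n with
  | zero => simp
  | succ n ih =>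
    rw [pow_succ, loc_order_map_mul σ (pow_ne_zero n hf) hf, ih]
    push_cast; ring

theorem loc_order_map_zpow (σ : F →+* LaurentSeries C) {f : F} (hf : f ≠ 0) (n : ℤ) :
    (σ (f ^ n)).order = n * (σ f).order := by
  obtain ⟨k, rfl | rfl⟩ := Int.eq_nat_or_neg n
  · rw [zpow_natCast]; exact loc_order_map_pow σ hf k
  · rw [zpow_neg, zpow_natCast, loc_order_map_inv, loc_order_map_pow σ hf k]; ring

theorem loc_order_map_add_le (σ : F →+* LaurentSeries C) {f g : F} (hfg : f + g ≠ 0) :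
    min (σ f).order (σ g).order ≤ (σ (f + g)).order := by
  rw [map_add]
  exact HahnSeries.min_order_le_order_add (by rw [← map_add]; exact loc_map_ne_zero σ hfg)

/-- A unit of the valuation ring has order `0`. -/
theorem loc_order_unit {σ : F →+* LaurentSeries C} {v : Place K F} (hσ : Induces σ v)
    (u : v.toValuationSubringˣ) : (σ ((u : v.toValuationSubring) : F)).order = 0 := by
  have h1 : 0 ≤ (σ ((u : v.toValuationSubring) : F)).order :=
    (hσ _).mp (u : v.toValuationSubring).2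
  have h2 : 0 ≤ (σ (((u⁻¹ : v.toValuationSubringˣ) : v.toValuationSubring) : F)).order :=
    (hσ _).mp ((u⁻¹ : v.toValuationSubringˣ) : v.toValuationSubring).2
  have h3 : (((u⁻¹ : v.toValuationSubringˣ) : v.toValuationSubring) : F)
      = (((u : v.toValuationSubring) : F))⁻¹ := by
    have hmul : ((u : v.toValuationSubring) : F)
        * (((u⁻¹ : v.toValuationSubringˣ) : v.toValuationSubring) : F) = 1 := by
      have := congrArg (Subtype.val) (Units.mul_inv u)
      exact this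
    exact eq_inv_of_mul_eq_one_right hmul
  rw [h3, loc_order_map_inv] at h2
  omega

/-- A non-unit of the valuation ring which is nonzero has positive order. -/
theorem loc_order_pos_of_not_isUnit {σ : F →+* LaurentSeries C} {v : Place K F}
    (hσ : Induces σ v) {a : v.toValuationSubring} (ha : a ≠ 0) (hu : ¬ IsUnit a) :
    0 < (σ (a : F)).order := by
  have h1 : 0 ≤ (σ (a : F)).order := (hσ _).mp a.2
  have haF : (a : F) ≠ 0 := by simpa using ha
  have h2 : ¬ (0 ≤ (σ ((a : F)⁻¹)).order) := by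
    intro h
    have hmem : (a : F)⁻¹ ∈ v.toValuationSubring := (hσ _).mpr h
    apply hu
    refine ⟨⟨a, ⟨(a : F)⁻¹, hmem⟩, ?_, ?_⟩, rfl⟩
    · ext; simp [haF]
    · ext; simp [haF]
  rw [loc_order_map_inv] at h2
  omega

/-- **LOC1.** If `σ` induces `v` then `ord_z ∘ σ = g * v.ord` for a positive integer `g`. -/
theorem loc_exists_mult (v : Place K F) (σ : F →+* LaurentSeries C) (hσ : Induces σ v) :
    ∃ g : ℕ, 0 < g ∧ ∀ f : F, (σ f).order = g * v.ord f := by
  obtain ⟨π, hπ⟩ := IsDiscreteValuationRing.exists_irreducible v.toValuationSubring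
  have hπ0 : π ≠ 0 := hπ.ne_zero
  have hπF : (π : F) ≠ 0 := by simpa using hπ0
  have hpos : 0 < (σ (π : F)).order := loc_order_pos_of_not_isUnit hσ hπ0 hπ.not_isUnit
  refine ⟨(σ (π : F)).order.toNat, by omega, fun f => ?_⟩
  rcases eq_or_ne f 0 with rfl | hf
  · simp
  obtain ⟨u, hu⟩ := v.exists_unit_mul_zpow hf hπ
  have huF : ((u : v.toValuationSubring) : F) ≠ 0 := by simp
  conv_lhs => rw [hu]
  rw [loc_order_map_mul σ huF (zpow_ne_zero _ hπF), loc_order_unit hσ u,
    loc_order_map_zpow σ hπF, Int.toNat_of_nonneg hpos.le]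
  ring

end Fermat.Agent.S24.H144

end
end
-- ===== PACK-END S24/Alg/LocBasic.lean

-- ===== PACK-BEGIN S24/Alg/LocEmb.lean
section






/-!
# S24 / ALG-LOC: a full set of embeddings

Let `F/F₀` be finite separable of degree `n` and let `σ x : F →+* E` (`x : X`, `|X| = n`) be
pairwise distinct ring homomorphisms into a field `E` which agree on `F₀`.  Then the `σ x`
are *all* the `F₀`-embeddings of `F` into an algebraic closure of `E`.  Consequences:

* `loc_minpoly_coeff_mem`: if all `σ x u` lie in a subring `O` of `E`, then so do the images of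
  the coefficients of the minimal polynomial of `u` over `F₀`;
* `loc_norm_eq_prod`: the image of the norm is the product of the conjugates `σ x f`.
-/

set_option autoImplicit false

noncomputable section

open Polynomial

namespace Fermat.Agent.S24.H144

section General

variable {F₀ F Ω : Type*} [Field F₀] [Field F] [Algebra F₀ F] [FiniteDimensional F₀ F]
  [Algebra.IsSeparable F₀ F] [Field Ω] [IsAlgClosed Ω] [Algebra F₀ Ω]
variable {X : Type*} [Finite X]

/-- An injective family of `finrank` many embeddings into an algebraically closed field is the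
family of all embeddings. -/
theorem loc_algHom_bijective (ψ : X → (F →ₐ[F₀] Ω)) (hψ : Function.Injective ψ)
    (hcard : Module.finrank F₀ F = Nat.card X) : Function.Bijective ψ := by
  apply hψ.bijective_of_nat_card_le
  rw [← hcard, ← AlgHom.card F₀ F Ω, Fintype.card_eq_nat_card]

end General

section Emb

variable {F₀ F E : Type*} [Field F₀] [Field F] [Algebra F₀ F] [FiniteDimensional F₀ F]
  [Algebra.IsSeparable F₀ F] [Field E]
variable {X : Type*} [Finite X]

/-- If all conjugates `σ x u` lie in a subring `O ⊆ E`, then the images of the coefficients of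
the minimal polynomial of `u` over `F₀` lie in `O`. -/
theorem loc_minpoly_coeff_mem (σ : X → (F →+* E)) (hinj : Function.Injective σ)
    (hagree : ∀ (x y : X) (c : F₀), σ x (algebraMap F₀ F c) = σ y (algebraMap F₀ F c))
    (hcard : Module.finrank F₀ F = Nat.card X)
    (O : Subring E) (u : F) (hu : ∀ x, σ x u ∈ O) (x₀ : X) (i : ℕ) :
    σ x₀ (algebraMap F₀ F ((minpoly F₀ u).coeff i)) ∈ O := by
  classical
  let φ : F₀ →+* AlgebraicClosure E :=
    (algebraMap E (AlgebraicClosure E)).comp ((σ x₀).comp (algebraMap F₀ F))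
  letI : Algebra F₀ (AlgebraicClosure E) := φ.toAlgebra
  have hφ : ∀ c : F₀, algebraMap F₀ (AlgebraicClosure E) c
      = algebraMap E (AlgebraicClosure E) (σ x₀ (algebraMap F₀ F c)) := fun c => rfl
  let ψ : X → (F →ₐ[F₀] AlgebraicClosure E) := fun x =>
    { ((algebraMap E (AlgebraicClosure E)).comp (σ x)) with
      commutes' := fun c => by
        change algebraMap E (AlgebraicClosure E) (σ x (algebraMap F₀ F c))
          = algebraMap F₀ (AlgebraicClosure E) c
        rw [hφ, hagree x x₀] }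
  have hψ_apply : ∀ x f, ψ x f = algebraMap E (AlgebraicClosure E) (σ x f) := fun _ _ => rfl
  have hψinj : Function.Injective ψ := by
    intro x y hxy
    apply hinj
    ext f
    have h := congrArg (fun τ : F →ₐ[F₀] AlgebraicClosure E => τ f) hxy
    exact (algebraMap E (AlgebraicClosure E)).injective h
  have hbij := loc_algHom_bijective ψ hψinj hcard
  have hint : IsIntegral F₀ u := Algebra.IsIntegral.isIntegral u
  have hmonic : ((minpoly F₀ u).map (algebraMap F₀ (AlgebraicClosure E))).Monic :=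
    (minpoly.monic hint).map _
  have hsplit : ((minpoly F₀ u).map (algebraMap F₀ (AlgebraicClosure E))).Splits :=
    IsAlgClosed.splits _
  let g : O →+* AlgebraicClosure E := (algebraMap E (AlgebraicClosure E)).comp O.subtype
  have hroots : ∀ r ∈ ((minpoly F₀ u).map (algebraMap F₀ (AlgebraicClosure E))).roots,
      r ∈ g.range := by
    intro r hr
    have hr' : r ∈ (minpoly F₀ u).rootSet (AlgebraicClosure E) := by
      rw [Polynomial.rootSet_def, Finset.mem_coe, Multiset.mem_toFinset]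
      exact hr
    rw [← Algebra.IsAlgebraic.range_eval_eq_rootSet_minpoly] at hr'
    obtain ⟨τ, rfl⟩ := hr'
    obtain ⟨x, rfl⟩ := hbij.2 τ
    exact ⟨⟨σ x u, hu x⟩, rfl⟩
  have hlift := hsplit.mem_lift_of_roots_mem_range hmonic g hroots
  obtain ⟨o, ho⟩ := (lifts_iff_coeff_lifts _).mp hlift i
  rw [coeff_map, hφ] at ho
  have h := (algebraMap E (AlgebraicClosure E)).injective ho
  rw [← h]
  exact o.2

/-- The image of the norm is the product of the conjugates. -/
theorem loc_norm_eq_prod [Fintype X] (σ : X → (F →+* E)) (hinj : Function.Injective σ)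
    (hagree : ∀ (x y : X) (c : F₀), σ x (algebraMap F₀ F c) = σ y (algebraMap F₀ F c))
    (hcard : Module.finrank F₀ F = Nat.card X) (f : F) (x₀ : X) :
    σ x₀ (algebraMap F₀ F (Algebra.norm F₀ f)) = ∏ x, σ x f := by
  classical
  let φ : F₀ →+* AlgebraicClosure E :=
    (algebraMap E (AlgebraicClosure E)).comp ((σ x₀).comp (algebraMap F₀ F))
  letI : Algebra F₀ (AlgebraicClosure E) := φ.toAlgebra
  have hφ : ∀ c : F₀, algebraMap F₀ (AlgebraicClosure E) c
      = algebraMap E (AlgebraicClosure E) (σ x₀ (algebraMap F₀ F c)) := fun c => rfl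
  let ψ : X → (F →ₐ[F₀] AlgebraicClosure E) := fun x =>
    { ((algebraMap E (AlgebraicClosure E)).comp (σ x)) with
      commutes' := fun c => by
        change algebraMap E (AlgebraicClosure E) (σ x (algebraMap F₀ F c))
          = algebraMap F₀ (AlgebraicClosure E) c
        rw [hφ, hagree x x₀] }
  have hψ_apply : ∀ x f, ψ x f = algebraMap E (AlgebraicClosure E) (σ x f) := fun _ _ => rfl
  have hψinj : Function.Injective ψ := by
    intro x y hxy
    apply hinj
    ext f
    have h := congrArg (fun τ : F →ₐ[F₀] AlgebraicClosure E => τ f) hxy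
    exact (algebraMap E (AlgebraicClosure E)).injective h
  have hbij := loc_algHom_bijective ψ hψinj hcard
  apply (algebraMap E (AlgebraicClosure E)).injective
  rw [← hφ, Algebra.norm_eq_prod_embeddings F₀ (AlgebraicClosure E) f, map_prod]
  exact (Fintype.prod_bijective ψ hbij _ _ (fun x => hψ_apply x f)).symm

end Emb

end Fermat.Agent.S24.H144

end
end
-- ===== PACK-END S24/Alg/LocEmb.lean

-- ===== PACK-BEGIN S37/H160/ValPoly.lean
section


/-!
# S37 / RED-V (helper160): polynomials over a valuation ring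

`A` a valuation subring of a field `K`.  Mathlib-only.

* `exists_dvd_all`        : among finitely many elements of `K`, one divides all others in `A`;
* `exists_primitive_scale`: a finite family of polynomials over `K`, not all zero, is a common
  scalar multiple of polynomials over `A`, one of which has a coefficient equal to `1`;
* `mem_lifts_of_mul_mem_lifts` (Gauss' lemma): `p * s ∈ A[X]`, `s ∈ A[X]` with nonzero
  reduction  ⟹  `p ∈ A[X]`;
* `roots_map_residue` (Gauss' lemma for roots): the roots of the reduction of `g ∈ A[X]` are the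
  reductions of the roots of `g` lying in `A` (with multiplicities), `K` algebraically closed.
-/

set_option autoImplicit false

namespace Fermat.Agent.S37.H160

open Polynomial

variable {K : Type*} [Field K] (A : ValuationSubring K)

/-- Among finitely many elements of `K`, not all zero, one divides all the others in `A`. -/
theorem exists_dvd_all {ι : Type*} (s : Finset ι) (a : ι → K) (h : ∃ i ∈ s, a i ≠ 0) :
    ∃ i₀ ∈ s, a i₀ ≠ 0 ∧ ∀ i ∈ s, a i / a i₀ ∈ A := by
  obtain ⟨i₁, hi₁, hne⟩ := h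
  obtain ⟨i₀, hi₀, hmax⟩ := s.exists_max_image (fun i => A.valuation (a i)) ⟨i₁, hi₁⟩
  have h0 : a i₀ ≠ 0 := by
    intro h
    have h1 := hmax i₁ hi₁
    simp only [h, map_zero] at h1
    exact hne ((map_eq_zero _).mp (le_antisymm h1 zero_le))
  refine ⟨i₀, hi₀, h0, fun i hi => ?_⟩
  rw [← A.valuation_le_one_iff, map_div₀]
  have hpos : 0 < A.valuation (a i₀) := by
    rw [zero_lt_iff]
    exact (_root_.map_ne_zero _).mpr h0
  exact (div_le_one₀ hpos).mpr (hmax i hi)

/-- A finite family of polynomials over `K`, not all zero, is a common scalar multiple of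
polynomials over `A`, one of which has a coefficient equal to `1`. -/
theorem exists_primitive_scale {ι : Type*} (s : Finset ι) (p : ι → K[X])
    (h : ∃ i ∈ s, p i ≠ 0) :
    ∃ (c : K) (p₀ : ι → A[X]), c ≠ 0 ∧ (∀ i ∈ s, p i = C c * (p₀ i).map A.subtype) ∧
      ∃ i ∈ s, ∃ n, (p₀ i).coeff n = 1 := by
  classical
  obtain ⟨i₁, hi₁, hne⟩ := h
  obtain ⟨n₁, hn₁⟩ : ∃ n, (p i₁).coeff n ≠ 0 := by
    by_contra hall
    push Not at hall
    exact hne (Polynomial.ext fun n => by simpa using hall n)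
  let T : Finset (Σ _ : ι, ℕ) := s.sigma fun i => (p i).support
  have hT : ∃ x ∈ T, (p x.1).coeff x.2 ≠ 0 :=
    ⟨⟨i₁, n₁⟩, Finset.mem_sigma.mpr ⟨hi₁, mem_support_iff.mpr hn₁⟩, hn₁⟩
  obtain ⟨x₀, hx₀, hc, hall⟩ := exists_dvd_all A T (fun x => (p x.1).coeff x.2) hT
  set c := (p x₀.1).coeff x₀.2 with hcdef
  have hmem : ∀ i ∈ s, ∀ n, (p i).coeff n / c ∈ A := by
    intro i hi n
    by_cases hn : (p i).coeff n = 0
    · rw [hn, zero_div]; exact A.zero_mem
    · exact hall ⟨i, n⟩ (Finset.mem_sigma.mpr ⟨hi, mem_support_iff.mpr hn⟩)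
  have hlift : ∀ i ∈ s, ∃ q : A[X], q.map A.subtype = C c⁻¹ * p i := by
    intro i hi
    have : C c⁻¹ * p i ∈ lifts A.subtype := by
      rw [lifts_iff_coeff_lifts]
      intro n
      rw [coeff_C_mul]
      exact ⟨⟨(p i).coeff n / c, hmem i hi n⟩, by simp [div_eq_inv_mul]⟩
    exact (mem_lifts _).mp this
  choose! q hq using hlift
  refine ⟨c, q, hc, fun i hi => ?_, x₀.1, (Finset.mem_sigma.mp hx₀).1, x₀.2, ?_⟩
  · rw [hq i hi, ← mul_assoc, ← C_mul, mul_inv_cancel₀ hc, C_1, one_mul]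
  · have h1 := congrArg (fun r => coeff r x₀.2) (hq x₀.1 (Finset.mem_sigma.mp hx₀).1)
    simp only [coeff_map, coeff_C_mul] at h1
    apply Subtype.ext
    have h2 : A.subtype ((q x₀.1).coeff x₀.2) = 1 := by
      rw [h1, ← hcdef, inv_mul_cancel₀ hc]
    simpa using h2

/-- Single polynomial version of `exists_primitive_scale`. -/
theorem exists_primitive_scale_one (p : K[X]) (hp : p ≠ 0) :
    ∃ (c : K) (p₀ : A[X]), c ≠ 0 ∧ p = C c * p₀.map A.subtype ∧ ∃ n, p₀.coeff n = 1 := by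
  obtain ⟨c, p₀, hc, h1, i, -, n, hn⟩ :=
    exists_primitive_scale A (Finset.univ : Finset Unit) (fun _ => p) ⟨(), Finset.mem_univ _, hp⟩
  cases i
  exact ⟨c, p₀ (), hc, h1 () (Finset.mem_univ _), n, hn⟩

variable {A}

theorem map_subtype_injective : Function.Injective (Polynomial.map (A.subtype) : A[X] → K[X]) :=
  Polynomial.map_injective _ Subtype.val_injective

variable {k : Type*} [Field k] (π : A →+* k)

theorem map_ne_zero_of_coeff_eq_one {p : A[X]} {n : ℕ} (h : p.coeff n = 1) : p.map π ≠ 0 := by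
  intro h0
  have := congrArg (fun r => coeff r n) h0
  simp [h] at this

variable (hπ : ∀ a : A, π a = 0 ↔ a ∈ IsLocalRing.maximalIdeal A)

include hπ in
/-- An element of `K` outside `A` has an inverse in the kernel of `π`. -/
theorem inv_mem_ker_of_not_mem {c : K} (hc : c ∉ A) :
    ∃ h : c⁻¹ ∈ A, π ⟨c⁻¹, h⟩ = 0 := by
  have hinv : c⁻¹ ∈ A := (A.mem_or_inv_mem c).resolve_left hc
  refine ⟨hinv, (hπ _).mpr ?_⟩
  rw [IsLocalRing.mem_maximalIdeal, mem_nonunits_iff]
  intro hu
  obtain ⟨u, hu⟩ := hu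
  apply hc
  have h1 : ((u⁻¹ : Aˣ) : A) * ⟨c⁻¹, hinv⟩ = 1 := by rw [← hu]; simp
  have h2 : (((u⁻¹ : Aˣ) : A) : K) * c⁻¹ = 1 := by
    have := congrArg Subtype.val h1
    simpa using this
  have hc0 : c ≠ 0 := by
    rintro rfl
    exact hc A.zero_mem
  have h3 : (((u⁻¹ : Aˣ) : A) : K) = c := by
    field_simp at h2
    exact h2
  rw [← h3]
  exact ((u⁻¹ : Aˣ) : A).2

include hπ in
/-- **Gauss' lemma.**  If `p * s` has coefficients in `A`, where `s ∈ A[X]` has nonzero
reduction, then `p` has coefficients in `A`. -/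
theorem mem_lifts_of_mul_mem_lifts (p : K[X]) (s q : A[X]) (hs : s.map π ≠ 0)
    (h : p * s.map A.subtype = q.map A.subtype) : ∃ p' : A[X], p'.map A.subtype = p := by
  rcases eq_or_ne p 0 with rfl | hp
  · exact ⟨0, by simp⟩
  obtain ⟨c, p₀, hc, hpc, n, hn⟩ := exists_primitive_scale_one A p hp
  by_cases hcA : c ∈ A
  · refine ⟨C ⟨c, hcA⟩ * p₀, ?_⟩
    rw [Polynomial.map_mul, map_C, hpc]
    rfl
  · exfalso
    obtain ⟨hinv, hker⟩ := inv_mem_ker_of_not_mem π hπ hcA
    have h1 : p₀ * s = C ⟨c⁻¹, hinv⟩ * q := by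
      apply map_subtype_injective
      rw [Polynomial.map_mul, Polynomial.map_mul, map_C, ← h, hpc]
      simp only [ValuationSubring.subtype_apply]
      rw [← mul_assoc, ← mul_assoc, ← C_mul, inv_mul_cancel₀ hc, C_1, one_mul]
    have h2 := congrArg (Polynomial.map π) h1
    rw [Polynomial.map_mul, Polynomial.map_mul, map_C, hker, C_0, zero_mul] at h2
    rcases mul_eq_zero.mp h2 with h3 | h3
    · exact map_ne_zero_of_coeff_eq_one π hn h3
    · exact hs h3

/-- Reduction `K → k`, extended by `0` outside `A`. -/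
noncomputable def redK (c : K) : k := by
  classical
  exact if h : c ∈ A then π ⟨c, h⟩ else 0

theorem redK_of_mem {c : K} (h : c ∈ A) : redK π c = π ⟨c, h⟩ := by
  simp [redK, h]

theorem redK_coe (a : A) : redK π (a : K) = π a := by
  rw [redK_of_mem π a.2]

open Classical in
include hπ in
/-- **Gauss' lemma for roots.**  For `g ∈ A[X]` with nonzero reduction, `K` algebraically closed,
the roots of the reduction of `g` are the reductions of the roots of `g` that lie in `A`. -/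
theorem roots_map_residue [IsAlgClosed K] (g : A[X]) (hg : g.map π ≠ 0) :
    (g.map π).roots = ((g.map A.subtype).roots.filter (· ∈ A)).map (redK π) := by
  suffices H : ∀ (n : ℕ) (g : A[X]), (g.map A.subtype).natDegree = n → g.map π ≠ 0 →
      (g.map π).roots = ((g.map A.subtype).roots.filter (· ∈ A)).map (redK π) from
    H _ g rfl hg
  intro n
  induction n with
  | zero =>
    intro g hn _
    have h1 : g.map A.subtype = C ((g.map A.subtype).coeff 0) := eq_C_of_natDegree_eq_zero hn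
    have h2 : g = C (g.coeff 0) := by
      apply map_subtype_injective
      rw [h1, map_C, coeff_map]
    rw [h1, roots_C, h2, map_C, roots_C]
    simp
  | succ n ih =>
    intro g hn hg
    have hG : g.map A.subtype ≠ 0 := by
      intro h0
      rw [h0, natDegree_zero] at hn
      omega
    have hdeg : (g.map A.subtype).degree ≠ 0 := by
      rw [degree_eq_natDegree hG, hn]
      exact_mod_cast Nat.succ_ne_zero n
    obtain ⟨γ, hγ⟩ := IsAlgClosed.exists_root (g.map A.subtype) hdeg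
    obtain ⟨G₁, hG₁⟩ := dvd_iff_isRoot.mpr hγ
    have hG₁0 : G₁ ≠ 0 := by
      rintro rfl
      rw [mul_zero] at hG₁
      exact hG hG₁
    have hdeg₁ : G₁.natDegree = n := by
      have := congrArg natDegree hG₁
      rw [natDegree_mul (X_sub_C_ne_zero γ) hG₁0, natDegree_X_sub_C, hn] at this
      omega
    by_cases hγA : γ ∈ A
    · -- integral root
      have hroot : IsRoot g ⟨γ, hγA⟩ := by
        have h1 : eval γ (g.map A.subtype) = A.subtype (eval ⟨γ, hγA⟩ g) := by
          rw [eval_map, ← eval₂_hom]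
          rfl
        rw [IsRoot.def] at hγ ⊢
        rw [h1] at hγ
        exact Subtype.ext hγ
      obtain ⟨g₁, hg₁⟩ := dvd_iff_isRoot.mpr hroot
      have hg₁map : g₁.map A.subtype = G₁ := by
        have h1 : (X - C γ) * g₁.map A.subtype = (X - C γ) * G₁ := by
          rw [← hG₁, hg₁, Polynomial.map_mul, Polynomial.map_sub, map_X, map_C]
          rfl
        exact mul_left_cancel₀ (X_sub_C_ne_zero γ) h1
      have hg₁π : g₁.map π ≠ 0 := by
        intro h0
        apply hg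
        rw [hg₁, Polynomial.map_mul, h0, mul_zero]
      have hih := ih g₁ (by rw [hg₁map, hdeg₁]) hg₁π
      have e1 : g.map π = (X - C (π ⟨γ, hγA⟩)) * g₁.map π := by
        rw [hg₁, Polynomial.map_mul, Polynomial.map_sub, map_X, map_C]
      have e1ne : (X - C (π ⟨γ, hγA⟩)) * g₁.map π ≠ 0 := e1 ▸ hg
      have e2ne : (X - C γ) * G₁ ≠ 0 := hG₁ ▸ hG
      rw [e1, roots_mul e1ne, roots_X_sub_C, hih, hG₁, roots_mul e2ne, roots_X_sub_C,
        Multiset.filter_add, Multiset.map_add, hg₁map]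
      congr 1
      rw [Multiset.filter_singleton, if_pos hγA, Multiset.map_singleton, redK_of_mem π hγA]
    · -- root outside `A`
      obtain ⟨hinv, hker⟩ := inv_mem_ker_of_not_mem π hπ hγA
      have hγ0 : γ ≠ 0 := by
        rintro rfl
        exact hγA A.zero_mem
      set s : A[X] := 1 - C ⟨γ⁻¹, hinv⟩ * X with hs
      have hsmap : s.map A.subtype = C (-γ⁻¹) * (X - C γ) := by
        rw [hs, Polynomial.map_sub, Polynomial.map_one, Polynomial.map_mul, map_C, map_X]
        simp only [ValuationSubring.subtype_apply]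
        rw [mul_sub, ← C_mul, neg_mul, inv_mul_cancel₀ hγ0, C_neg, C_neg, C_1]
        ring
      have hsπ : s.map π = 1 := by
        rw [hs, Polynomial.map_sub, Polynomial.map_one, Polynomial.map_mul, map_C, hker, C_0,
          zero_mul, sub_zero]
      have hG₂ : (C (-γ) * G₁) * s.map A.subtype = g.map A.subtype := by
        rw [hsmap, hG₁]
        have : C (-γ) * C (-γ⁻¹) = (1 : K[X]) := by
          rw [← C_mul, neg_mul_neg, mul_inv_cancel₀ hγ0, C_1]
        calc C (-γ) * G₁ * (C (-γ⁻¹) * (X - C γ))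
            = (C (-γ) * C (-γ⁻¹)) * ((X - C γ) * G₁) := by ring
          _ = (X - C γ) * G₁ := by rw [this, one_mul]
      obtain ⟨g₂, hg₂⟩ := mem_lifts_of_mul_mem_lifts π hπ (C (-γ) * G₁) s g
        (by rw [hsπ]; exact one_ne_zero) hG₂
      have hgs : g = g₂ * s := by
        apply map_subtype_injective
        rw [Polynomial.map_mul, hg₂, hG₂]
      have hg₂π : g₂.map π = g.map π := by
        rw [hgs, Polynomial.map_mul, hsπ, mul_one]
      have hCγ : C (-γ) ≠ (0 : K[X]) := by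
        rw [Ne, C_eq_zero, neg_eq_zero]
        exact hγ0
      have hdeg₂ : (g₂.map A.subtype).natDegree = n := by
        rw [hg₂, natDegree_C_mul (by rwa [neg_ne_zero]), hdeg₁]
      have hih := ih g₂ hdeg₂ (hg₂π ▸ hg)
      have e2ne : (X - C γ) * G₁ ≠ 0 := hG₁ ▸ hG
      rw [← hg₂π, hih, hG₁, roots_mul e2ne, roots_X_sub_C, Multiset.filter_add,
        Multiset.filter_singleton, if_neg hγA, hg₂, roots_C_mul _ (by rwa [neg_ne_zero])]
      simp

open Classical in
include hπ in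
/-- Counting form of `roots_map_residue`. -/
theorem rootMultiplicity_map_residue [IsAlgClosed K] (g : A[X]) (hg : g.map π ≠ 0) (cb : k) :
    (g.map π).rootMultiplicity cb =
      Multiset.card ((g.map A.subtype).roots.filter (fun c => c ∈ A ∧ redK π c = cb)) := by
  rw [← count_roots, roots_map_residue π hπ g hg, Multiset.count_map, Multiset.filter_filter]
  congr 1
  refine Multiset.filter_congr fun c _ => ?_
  constructor
  · rintro ⟨h1, h2⟩
    exact ⟨h2, h1.symm⟩
  · rintro ⟨h1, h2⟩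
    exact ⟨h2.symm, h1⟩

end Fermat.Agent.S37.H160

end
-- ===== PACK-END S37/H160/ValPoly.lean

-- ===== PACK-BEGIN S37/H818/PullFunct.lean
section
/-
S37 / LEVEL TRANSFER (helper818), part 1: functoriality of the Prelude's `restrictAlong`,
`ramificationIndexAlong` and `pullbackAlong` under composition of field embeddings.
-/



set_option autoImplicit false
set_option linter.style.haveILetI false

noncomputable section

namespace Fermat.Agent.S37.H818

open AlgebraicCurve

variable {K F G G₁ : Type*} [Field K] [Field F] [Field G] [Field G₁]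
  [Algebra K F] [Algebra K G] [Algebra K G₁]

/-- Restriction of a place along a composite is the composite of the restrictions. -/
theorem restrictAlong_comp (φ : F →ₐ[K] G) (ψ : G →ₐ[K] G₁)
    (hφ : φ.toRingHom.IsIntegral) (hψ : ψ.toRingHom.IsIntegral)
    (hψφ : (ψ.comp φ).toRingHom.IsIntegral) (W : Place K G₁) :
    W.restrictAlong (ψ.comp φ) hψφ = (W.restrictAlong ψ hψ).restrictAlong φ hφ := by
  apply Place.ext
  rfl

/-- Existence of a uniformizer in the field for a place. -/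
theorem exists_ord_eq_one (v : Place K F) : ∃ f : F, f ≠ 0 ∧ v.ord f = 1 := by
  obtain ⟨π, hπ⟩ := IsDiscreteValuationRing.exists_irreducible v.toValuationSubring
  refine ⟨(π : F), ?_, v.ord_coe_irreducible hπ⟩
  simpa [ne_eq, ZeroMemClass.coe_eq_zero] using hπ.ne_zero

/-- Ramification indices are multiplicative in towers. -/
theorem ramificationIndexAlong_comp (φ : F →ₐ[K] G) (ψ : G →ₐ[K] G₁)
    (hφ : φ.toRingHom.IsIntegral) (hψ : ψ.toRingHom.IsIntegral)
    (hψφ : (ψ.comp φ).toRingHom.IsIntegral) (W : Place K G₁) :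
    Place.ramificationIndexAlong (ψ.comp φ) W =
      Place.ramificationIndexAlong ψ W *
        Place.ramificationIndexAlong φ (W.restrictAlong ψ hψ) := by
  obtain ⟨f, hf0, hf⟩ := exists_ord_eq_one ((W.restrictAlong ψ hψ).restrictAlong φ hφ)
  have h1 := Place.ord_restrictAlong (ψ.comp φ) hψφ W f
  have h2 := Place.ord_restrictAlong ψ hψ W (φ f)
  have h3 := Place.ord_restrictAlong φ hφ (W.restrictAlong ψ hψ) f
  rw [restrictAlong_comp φ ψ hφ hψ hψφ W, hf, mul_one] at h1
  rw [hf, mul_one] at h3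
  rw [h3] at h2
  have h4 : (ψ.comp φ) f = ψ (φ f) := rfl
  rw [h4, h2] at h1
  exact_mod_cast h1.symm

variable [HasPrincipalDivisors K G] [HasPrincipalDivisors K G₁]

/-- Pullback of divisors is functorial. -/
theorem pullbackAlong_comp (φ : F →ₐ[K] G) (ψ : G →ₐ[K] G₁)
    (hφ : φ.toRingHom.IsIntegral) (hψ : ψ.toRingHom.IsIntegral)
    (hψφ : (ψ.comp φ).toRingHom.IsIntegral) (D : Divisor K F) :
    Divisor.pullbackAlong (ψ.comp φ) hψφ D =
      Divisor.pullbackAlong ψ hψ (Divisor.pullbackAlong φ hφ D) := by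
  ext W
  rw [Divisor.pullbackAlong_apply, Divisor.pullbackAlong_apply, Divisor.pullbackAlong_apply,
    ramificationIndexAlong_comp φ ψ hφ hψ hψφ W, restrictAlong_comp φ ψ hφ hψ hψφ W]
  push_cast
  ring

end Fermat.Agent.S37.H818

end

end
-- ===== PACK-END S37/H818/PullFunct.lean

-- ===== PACK-BEGIN S29/H571/FiniteLevel.lean
section



/-!
# Torsion divisor classes of `JZero N` have finite level
(helper571, piece FINLEVEL of the S29 route)

Every element `f` of the function field `laurentBaseChange ℚ̄ F₀ ⊆ ℚ̄((q))` has its coefficients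
"in a finite extension": it is fixed by `Gal(ℚ̄/L)` for some finite `L/ℚ`
(`seriesFiniteLevel_of_mem`).  If `n • x = 0` in `Pic0`, `n ≠ 0`, write `x = [D]`,
`n D = div f`; every `σ` fixing `f` fixes `n D`, hence `D` (divisors are torsion-free).
So the stabiliser of a torsion class contains `Gal(ℚ̄/L)` for a finite (even finite normal) `L`.
-/

set_option autoImplicit false
set_option linter.style.haveILetI false

noncomputable section

namespace Fermat.Agent.S29.H571

open AlgebraicCurve ModularCurve IntermediateField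

/-- `f` is fixed coefficientwise by `Gal(ℚ̄/L)` for some finite `L/ℚ`. -/
def SeriesFiniteLevel (f : LaurentSeries (AlgebraicClosure ℚ)) : Prop :=
  ∃ L : IntermediateField ℚ (AlgebraicClosure ℚ), FiniteDimensional ℚ L ∧
    ∀ σ : AlgebraicClosure ℚ ≃ₐ[ℚ] AlgebraicClosure ℚ, (∀ a ∈ L, σ a = a) →
      coeffMap (σ : AlgebraicClosure ℚ →+* AlgebraicClosure ℚ) f = f

theorem SeriesFiniteLevel.binary {f g h : LaurentSeries (AlgebraicClosure ℚ)}
    (hf : SeriesFiniteLevel f) (hg : SeriesFiniteLevel g)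
    (H : ∀ σ : AlgebraicClosure ℚ ≃ₐ[ℚ] AlgebraicClosure ℚ,
      coeffMap (σ : AlgebraicClosure ℚ →+* AlgebraicClosure ℚ) f = f →
      coeffMap (σ : AlgebraicClosure ℚ →+* AlgebraicClosure ℚ) g = g →
      coeffMap (σ : AlgebraicClosure ℚ →+* AlgebraicClosure ℚ) h = h) :
    SeriesFiniteLevel h := by
  obtain ⟨L₁, hL₁, h₁⟩ := hf
  obtain ⟨L₂, hL₂, h₂⟩ := hg
  refine ⟨L₁ ⊔ L₂, inferInstance, fun σ hσ => H σ (h₁ σ fun a ha => hσ a ?_)
    (h₂ σ fun a ha => hσ a ?_)⟩
  · exact (le_sup_left : L₁ ≤ L₁ ⊔ L₂) ha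
  · exact (le_sup_right : L₂ ≤ L₁ ⊔ L₂) ha

theorem SeriesFiniteLevel.unary {f h : LaurentSeries (AlgebraicClosure ℚ)}
    (hf : SeriesFiniteLevel f)
    (H : ∀ σ : AlgebraicClosure ℚ ≃ₐ[ℚ] AlgebraicClosure ℚ,
      coeffMap (σ : AlgebraicClosure ℚ →+* AlgebraicClosure ℚ) f = f →
      coeffMap (σ : AlgebraicClosure ℚ →+* AlgebraicClosure ℚ) h = h) :
    SeriesFiniteLevel h :=
  hf.binary hf fun σ h₁ _ => H σ h₁

theorem seriesFiniteLevel_of_mem {F₀ : IntermediateField ℚ (LaurentSeries ℚ)}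
    {f : LaurentSeries (AlgebraicClosure ℚ)}
    (hf : f ∈ laurentBaseChange (AlgebraicClosure ℚ) F₀) : SeriesFiniteLevel f := by
  rw [mem_laurentBaseChange_iff] at hf
  induction hf using Subfield.closure_induction with
  | mem y hy =>
      rcases hy with ⟨a, rfl⟩ | ⟨z, _, rfl⟩
      · haveI : Algebra.IsAlgebraic ℚ (AlgebraicClosure ℚ) := AlgebraicClosure.isAlgebraic ℚ
        have ha : IsIntegral ℚ a := (Algebra.IsAlgebraic.isAlgebraic a).isIntegral
        refine ⟨ℚ⟮a⟯, IntermediateField.adjoin.finiteDimensional ha, fun σ hσ => ?_⟩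
        rw [coeffMap_algebraMap]
        congr 1
        exact hσ a (IntermediateField.mem_adjoin_simple_self ℚ a)
      · exact ⟨⊥, inferInstance, fun σ _ => coeffMap_coeffEmb σ z⟩
  | one => exact ⟨⊥, inferInstance, fun σ _ => map_one _⟩
  | add x y _ _ hx hy =>
      exact hx.binary hy fun σ h₁ h₂ => by rw [map_add, h₁, h₂]
  | neg x _ hx => exact hx.unary fun σ h₁ => by rw [map_neg, h₁]
  | inv x _ hx => exact hx.unary fun σ h₁ => by rw [map_inv₀, h₁]
  | mul x y _ _ hx hy =>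
      exact hx.binary hy fun σ h₁ h₂ => by rw [map_mul, h₁, h₂]

section Pic

variable (F₀ : IntermediateField ℚ (LaurentSeries ℚ))

/-- A Galois element fixing the function `f` with `n D = div f`, `n ≠ 0`, fixes the class
of `D`. -/
theorem smul_mk_eq_of_fixes (σ : AlgebraicClosure ℚ ≃ₐ[ℚ] AlgebraicClosure ℚ)
    (D : Divisor.degZero (K := AlgebraicClosure ℚ)
      (F := laurentBaseChange (AlgebraicClosure ℚ) F₀))
    {n : ℤ} (hn : n ≠ 0) (f : laurentBaseChange (AlgebraicClosure ℚ) F₀)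
    (hD : ∀ v : Place (AlgebraicClosure ℚ) (laurentBaseChange (AlgebraicClosure ℚ) F₀),
      n * (D : Divisor _ _) v = v.ord f)
    (hσ : coeffMap (σ : AlgebraicClosure ℚ →+* AlgebraicClosure ℚ)
      (f : LaurentSeries (AlgebraicClosure ℚ)) = f) :
    σ • (Pic0.mk D) = Pic0.mk D := by
  set g := arithmeticGalois F₀ σ with hg
  have hgf : g • f = f := Subtype.ext (by rw [coe_arithmeticGalois_smul, hσ])
  have hgf' : g⁻¹ • f = f := by
    conv_lhs => rw [← hgf]
    exact inv_smul_smul g f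
  rw [galois_smul_pic0_def, SemilinearAut.pic0_smul_mk]
  refine congrArg Pic0.mk (Subtype.ext ?_)
  rw [SemilinearAut.coe_degZeroSMulHom]
  ext w
  rw [SemilinearAut.divisor_smul_apply]
  have h1 := hD (g⁻¹ • w)
  have h2 := hD w
  have h3 : (g⁻¹ • w).ord f = w.ord f := by
    have := SemilinearAut.ord_smul g⁻¹ w f
    rwa [hgf'] at this
  rw [h3, ← h2] at h1
  exact mul_left_cancel₀ hn h1

/-- **FINLEVEL.** A torsion class of `Pic0` of a function field `laurentBaseChange ℚ̄ F₀` is fixed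
by `Gal(ℚ̄/L)` for some finite extension `L/ℚ`. -/
theorem exists_finiteLevel_of_zsmul_eq_zero
    (x : Pic0 (AlgebraicClosure ℚ) (laurentBaseChange (AlgebraicClosure ℚ) F₀))
    {n : ℤ} (hn : n ≠ 0) (hx : n • x = 0) :
    ∃ L : IntermediateField ℚ (AlgebraicClosure ℚ), FiniteDimensional ℚ L ∧
      ∀ σ : AlgebraicClosure ℚ ≃ₐ[ℚ] AlgebraicClosure ℚ, (∀ a ∈ L, σ a = a) → σ • x = x := by
  obtain ⟨D, rfl⟩ := Pic0.mk_surjective x
  have h0 : Pic0.mk (n • D) = 0 := by
    rw [← hx]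
    exact map_zsmul (QuotientAddGroup.mk' _) n D
  have h1 : ((n • D : Divisor.degZero (K := AlgebraicClosure ℚ)
      (F := laurentBaseChange (AlgebraicClosure ℚ) F₀)) : Divisor _ _)
      ∈ Divisor.principal (K := AlgebraicClosure ℚ)
        (F := laurentBaseChange (AlgebraicClosure ℚ) F₀) := by
    have := (QuotientAddGroup.eq_zero_iff _).mp h0
    exact AddSubgroup.mem_addSubgroupOf.mp this
  obtain ⟨f, -, hf⟩ := h1
  obtain ⟨L, hL, hLσ⟩ := seriesFiniteLevel_of_mem (F₀ := F₀) f.2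
  refine ⟨L, hL, fun σ hσ => smul_mk_eq_of_fixes F₀ σ D hn f (fun v => ?_) (hLσ σ hσ)⟩
  rw [← hf v]
  simp

/-- Normal version of FINLEVEL: the finite extension can be taken normal over `ℚ`. -/
theorem exists_normal_finiteLevel_of_zsmul_eq_zero
    (x : Pic0 (AlgebraicClosure ℚ) (laurentBaseChange (AlgebraicClosure ℚ) F₀))
    {n : ℤ} (hn : n ≠ 0) (hx : n • x = 0) :
    ∃ L : IntermediateField ℚ (AlgebraicClosure ℚ), FiniteDimensional ℚ L ∧ Normal ℚ L ∧
      ∀ σ : AlgebraicClosure ℚ ≃ₐ[ℚ] AlgebraicClosure ℚ, (∀ a ∈ L, σ a = a) → σ • x = x := by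
  obtain ⟨L, hL, h⟩ := exists_finiteLevel_of_zsmul_eq_zero F₀ x hn hx
  haveI : Algebra.IsAlgebraic ℚ (AlgebraicClosure ℚ) := AlgebraicClosure.isAlgebraic ℚ
  haveI : IsAlgClosure ℚ (AlgebraicClosure ℚ) := ⟨inferInstance, inferInstance⟩
  haveI : Normal ℚ (AlgebraicClosure ℚ) := IsAlgClosure.normal ℚ (AlgebraicClosure ℚ)
  refine ⟨IntermediateField.normalClosure ℚ L (AlgebraicClosure ℚ),
    normalClosure.is_finiteDimensional ℚ L (AlgebraicClosure ℚ),
    normalClosure.normal ℚ L (AlgebraicClosure ℚ), fun σ hσ => h σ fun a ha => hσ a ?_⟩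
  exact IntermediateField.le_normalClosure L ha

/-- Elements of a normal intermediate field stay in it under every automorphism. -/
theorem map_mem_of_normal (L : IntermediateField ℚ (AlgebraicClosure ℚ)) [Normal ℚ L]
    (τ : AlgebraicClosure ℚ ≃ₐ[ℚ] AlgebraicClosure ℚ) {a : AlgebraicClosure ℚ} (ha : a ∈ L) :
    τ a ∈ L := by
  haveI : Algebra.IsAlgebraic ℚ (AlgebraicClosure ℚ) := AlgebraicClosure.isAlgebraic ℚ
  haveI : IsAlgClosure ℚ (AlgebraicClosure ℚ) := ⟨inferInstance, inferInstance⟩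
  haveI : Normal ℚ (AlgebraicClosure ℚ) := IsAlgClosure.normal ℚ (AlgebraicClosure ℚ)
  exact (IntermediateField.normal_iff_forall_map_le'.mp (inferInstance : Normal ℚ L)) τ
    ⟨a, ha, rfl⟩

/-- If `σ` fixes a normal `L` pointwise, so does every conjugate `τ⁻¹ σ τ`. -/
theorem conj_fixes_of_normal (L : IntermediateField ℚ (AlgebraicClosure ℚ)) [Normal ℚ L]
    (σ τ : AlgebraicClosure ℚ ≃ₐ[ℚ] AlgebraicClosure ℚ) (hσ : ∀ a ∈ L, σ a = a) :
    ∀ a ∈ L, (τ⁻¹ * σ * τ) a = a := by
  intro a ha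
  show τ⁻¹ (σ (τ a)) = a
  rw [hσ (τ a) (map_mem_of_normal L τ ha)]
  exact τ.symm_apply_apply a

end Pic

end Fermat.Agent.S29.H571

end
end
-- ===== PACK-END S29/H571/FiniteLevel.lean

-- ===== PACK-BEGIN S19/H19/Indep.lean
section
/-
A3 / S19, helper19 — piece ORD, part 1: Galois descent for equivariant functions.

`M` a set with an action of `G = Gal(ℚ̄/ℚ)`; functions `f : M → ℚ̄` with
`f (σ m) = σ (f m)` which are linearly independent over `ℚ` are linearly independent over `ℚ̄`.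
Also: a `ℚ̄`-subalgebra of `M → ℚ̄` (`M` finite) separating points is everything.
Mathlib only.
-/


set_option autoImplicit false

noncomputable section

namespace Fermat.Agent.S19.H19

open scoped BigOperators

/-- `ℚ̄`. -/
abbrev Qb : Type := AlgebraicClosure ℚ

/-- The absolute Galois group of `ℚ`. -/
abbrev GalQ : Type := _root_.Fermat.Agent.S19.H19.Qb ≃ₐ[ℚ] _root_.Fermat.Agent.S19.H19.Qb

theorem isGalois_Qb_rat : IsGalois ℚ _root_.Fermat.Agent.S19.H19.Qb := by
  have : Algebra.IsAlgebraic ℚ (AlgebraicClosure ℚ) := AlgebraicClosure.isAlgebraic ℚ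
  have : IsAlgClosure ℚ (AlgebraicClosure ℚ) := ⟨inferInstance, inferInstance⟩
  have : Normal ℚ (AlgebraicClosure ℚ) := IsAlgClosure.normal ℚ (AlgebraicClosure ℚ)
  exact isGalois_iff.mpr ⟨inferInstance, inferInstance⟩

theorem exists_rat_of_fixed (x : _root_.Fermat.Agent.S19.H19.Qb) (hx : ∀ σ : _root_.Fermat.Agent.S19.H19.GalQ, σ x = x) :
    ∃ q : ℚ, algebraMap ℚ _root_.Fermat.Agent.S19.H19.Qb q = x := by
  have := isGalois_Qb_rat
  exact (InfiniteGalois.mem_range_algebraMap_iff_fixed (k := ℚ) (K := _root_.Fermat.Agent.S19.H19.Qb) x).mpr hx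

variable {M : Type*} (act : _root_.Fermat.Agent.S19.H19.GalQ → M → M)

/-- Equivariant functions. -/
def IsEquivariant (f : M → _root_.Fermat.Agent.S19.H19.Qb) : Prop := ∀ (σ : _root_.Fermat.Agent.S19.H19.GalQ) (m : M), f (act σ m) = σ (f m)

variable {act}

/-- **Galois descent of linear relations.**  A `ℚ̄`-linear relation between equivariant functions
which are linearly independent over `ℚ` is trivial. -/
theorem linearIndependent_of_equivariant
    (hone : ∀ m, act 1 m = m)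
    (hact : ∀ σ τ m, act σ (act τ m) = act (σ * τ) m)
    {ι : Type*} [Finite ι] (f : ι → M → _root_.Fermat.Agent.S19.H19.Qb) (hf : ∀ i, IsEquivariant act (f i))
    (hQ : LinearIndependent ℚ f) : LinearIndependent _root_.Fermat.Agent.S19.H19.Qb f := by
  classical
  have := Fintype.ofFinite ι
  rw [Fintype.linearIndependent_iff]
  -- strong induction on the size of the support of a relation
  suffices H : ∀ (n : ℕ) (c : ι → _root_.Fermat.Agent.S19.H19.Qb), (Finset.univ.filter fun i => c i ≠ 0).card = n →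
      ∑ i, c i • f i = 0 → ∀ i, c i = 0 from fun c hc i => H _ c rfl hc i
  intro n
  induction n using Nat.strong_induction_on with
  | _ n ih =>
    intro c hn hc
    by_contra hne
    push Not at hne
    obtain ⟨i₀, hi₀⟩ := hne
    -- normalise `c i₀ = 1`
    set d : ι → _root_.Fermat.Agent.S19.H19.Qb := fun i => c i / c i₀ with hd
    have hd₀ : d i₀ = 1 := div_self hi₀
    have hdsupp : ∀ i, d i ≠ 0 ↔ c i ≠ 0 := fun i => by
      simp only [hd, ne_eq, div_eq_zero_iff, hi₀, or_false]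
    have hdrel : ∑ i, d i • f i = 0 := by
      have : ∑ i, d i • f i = (c i₀)⁻¹ • ∑ i, c i • f i := by
        rw [Finset.smul_sum]
        refine Finset.sum_congr rfl fun i _ => ?_
        rw [smul_smul, hd]
        congr 1
        field_simp
      rw [this, hc, smul_zero]
    -- the conjugate relation
    have hconj : ∀ σ : _root_.Fermat.Agent.S19.H19.GalQ, ∑ i, (σ (d i)) • f i = 0 := by
      intro σ
      funext m
      have h1 := congrFun hdrel (act σ⁻¹ m)
      simp only [Finset.sum_apply, Pi.smul_apply, smul_eq_mul, Pi.zero_apply] at h1 ⊢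
      have h2 := congrArg σ h1
      rw [map_sum, map_zero] at h2
      rw [← h2]
      refine Finset.sum_congr rfl fun i _ => ?_
      rw [map_mul, ← hf i σ (act σ⁻¹ m), hact, mul_inv_cancel, hone]
    -- the difference has smaller support
    have hfix : ∀ (σ : _root_.Fermat.Agent.S19.H19.GalQ) (i : ι), σ (d i) = d i := by
      intro σ
      have hrel : ∑ i, (σ (d i) - d i) • f i = 0 := by
        have : ∑ i, (σ (d i) - d i) • f i = ∑ i, (σ (d i)) • f i - ∑ i, d i • f i := by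
          rw [← Finset.sum_sub_distrib]
          refine Finset.sum_congr rfl fun i _ => ?_
          rw [sub_smul]
        rw [this, hconj σ, hdrel, sub_zero]
      have hsub : (Finset.univ.filter fun i => σ (d i) - d i ≠ 0) ⊂
          (Finset.univ.filter fun i => c i ≠ 0) := by
        rw [Finset.ssubset_iff_of_subset]
        · refine ⟨i₀, by simp [hi₀], ?_⟩
          simp [hd₀]
        · intro i hi
          simp only [Finset.mem_filter, Finset.mem_univ, true_and] at hi ⊢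
          rw [← hdsupp]
          intro h0
          apply hi
          rw [h0, map_zero, sub_zero]
      have hlt := Finset.card_lt_card hsub
      rw [hn] at hlt
      intro i
      have := ih _ hlt (fun i => σ (d i) - d i) rfl hrel i
      exact sub_eq_zero.mp this
    -- so the `d i` are rational
    have hrat : ∀ i, ∃ q : ℚ, algebraMap ℚ _root_.Fermat.Agent.S19.H19.Qb q = d i := fun i =>
      exists_rat_of_fixed (d i) fun σ => hfix σ i
    choose q hq using hrat
    have hqrel : ∑ i, q i • f i = 0 := by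
      rw [← hdrel]
      refine Finset.sum_congr rfl fun i _ => ?_
      rw [← hq i]
      funext m
      simp [Algebra.smul_def]
    have h0 := (Fintype.linearIndependent_iff.mp hQ) q hqrel i₀
    have h1 : d i₀ = 0 := by rw [← hq i₀, h0, map_zero]
    rw [hd₀] at h1
    exact one_ne_zero h1

/-- A `K`-subalgebra of `M → K`, `M` finite, which separates points is everything. -/
theorem subalgebra_eq_top_of_separates {K : Type*} [Field K] {M : Type*} [Finite M]
    (S : Subalgebra K (M → K))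
    (hsep : ∀ m m' : M, m ≠ m' → ∃ f ∈ S, f m ≠ f m') : S = ⊤ := by
  classical
  have := Fintype.ofFinite M
  -- indicator functions
  have hind : ∀ m : M, (Pi.single m (1 : K) : M → K) ∈ S := by
    intro m
    -- for each `m' ≠ m` a function in `S` which is `1` at `m` and `0` at `m'`
    have h1 : ∀ m' : M, ∃ g ∈ S, g m = 1 ∧ (m' ≠ m → g m' = 0) := by
      intro m'
      by_cases h : m' = m
      · exact ⟨1, S.one_mem, rfl, fun h' => absurd h h'⟩
      · obtain ⟨f, hfS, hf⟩ := hsep m m' (Ne.symm h)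
        refine ⟨(f m - f m')⁻¹ • (f - algebraMap K (M → K) (f m')), ?_, ?_, ?_⟩
        · exact S.smul_mem (S.sub_mem hfS (S.algebraMap_mem _)) _
        · simp only [Pi.smul_apply, Pi.sub_apply, Pi.algebraMap_apply, Algebra.algebraMap_self,
            RingHom.id_apply, smul_eq_mul]
          exact inv_mul_cancel₀ (sub_ne_zero.mpr hf)
        · intro _
          simp
    choose g hgS hg1 hg0 using h1
    have hprod : (Pi.single m (1 : K) : M → K) = ∏ m', g m' := by
      funext x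
      rw [Finset.prod_apply]
      by_cases hx : x = m
      · subst hx
        rw [Pi.single_eq_same]
        exact (Finset.prod_eq_one (f := fun m' => g m' x) fun m' _ => hg1 m').symm
      · rw [Pi.single_eq_of_ne hx]
        exact (Finset.prod_eq_zero (f := fun m' => g m' x) (Finset.mem_univ x) (hg0 x hx)).symm
    rw [hprod]
    exact S.prod_mem fun m' _ => hgS m'
  rw [eq_top_iff]
  intro f _
  have hf : f = ∑ m, f m • (Pi.single m (1 : K) : M → K) := by
    funext x
    simp [Finset.sum_apply, Pi.single_apply]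
  rw [hf]
  exact S.sum_mem fun m _ => S.smul_mem (hind m) _

end Fermat.Agent.S19.H19

end

end
-- ===== PACK-END S19/H19/Indep.lean

-- ===== PACK-BEGIN A3/H319/LevelGroup.lean
section


/-!
# A3 / LEVEL (helper319), part 2: group theory

`Γ₀(N)` is generated by `Γ₀(N p)` together with `T = [[1,1],[0,1]]` and `U = [[1,0],[N,1]]`
(`p` prime); more precisely, an additive character `c : Γ₀(N) → A` vanishing on `Γ₀(N p)`, with
values in a group `A` without `p`-torsion, vanishes identically.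
-/

set_option autoImplicit false

noncomputable section

open CongruenceSubgroup Matrix
open scoped MatrixGroups

namespace Fermat.Agent.A3.H319

/-- The lower unipotent matrix `[[1,0],[N m,1]]`. -/
def lowerU (N : ℕ) (m : ℤ) : SL(2, ℤ) :=
  ⟨!![1, 0; (N : ℤ) * m, 1], by simp [Matrix.det_fin_two]⟩

@[simp] theorem lowerU_apply_zero_zero (N : ℕ) (m : ℤ) : (lowerU N m) 0 0 = 1 := rfl
@[simp] theorem lowerU_apply_zero_one (N : ℕ) (m : ℤ) : (lowerU N m) 0 1 = 0 := rfl
@[simp] theorem lowerU_apply_one_zero (N : ℕ) (m : ℤ) : (lowerU N m) 1 0 = (N : ℤ) * m := rfl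
@[simp] theorem lowerU_apply_one_one (N : ℕ) (m : ℤ) : (lowerU N m) 1 1 = 1 := rfl

theorem mem_Gamma0_iff_dvd {M : ℕ} {γ : SL(2, ℤ)} : γ ∈ Gamma0 M ↔ (M : ℤ) ∣ γ 1 0 := by
  rw [Gamma0_mem]
  exact ZMod.intCast_zmod_eq_zero_iff_dvd _ _

theorem lowerU_mem (N : ℕ) (m : ℤ) : lowerU N m ∈ Gamma0 N := by
  rw [mem_Gamma0_iff_dvd, lowerU_apply_one_zero]
  exact dvd_mul_right _ _

theorem lowerU_mul_mem (N p : ℕ) (m : ℤ) : lowerU N ((p : ℤ) * m) ∈ Gamma0 (N * p) := by
  rw [mem_Gamma0_iff_dvd, lowerU_apply_one_zero]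
  refine ⟨m, ?_⟩
  push_cast
  ring

theorem lowerU_add (N : ℕ) (m m' : ℤ) : lowerU N (m + m') = lowerU N m * lowerU N m' := by
  apply Subtype.ext
  rw [Matrix.SpecialLinearGroup.coe_mul]
  ext i j
  fin_cases i <;> fin_cases j <;>
    simp [lowerU, Matrix.mul_apply, Fin.sum_univ_two, mul_add]

theorem T_mem_Gamma0 (M : ℕ) : ModularGroup.T ∈ Gamma0 M := by
  rw [mem_Gamma0_iff_dvd]
  simp [ModularGroup.T]

theorem Gamma0_mul_le (N p : ℕ) : Gamma0 (N * p) ≤ Gamma0 N := by
  intro γ hγ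
  rw [mem_Gamma0_iff_dvd] at hγ ⊢
  refine dvd_trans ?_ hγ
  exact ⟨(p : ℤ), by push_cast; ring⟩

theorem mul_lowerU_apply_one_zero (N : ℕ) (γ : SL(2, ℤ)) (m : ℤ) :
    (γ * lowerU N m) 1 0 = γ 1 0 + γ 1 1 * ((N : ℤ) * m) := by
  rw [Matrix.SpecialLinearGroup.coe_mul, Matrix.mul_apply, Fin.sum_univ_two]
  simp

theorem mul_T_apply_one_zero (γ : SL(2, ℤ)) : (γ * ModularGroup.T) 1 0 = γ 1 0 := by
  rw [Matrix.SpecialLinearGroup.coe_mul, Matrix.mul_apply, Fin.sum_univ_two]
  simp [ModularGroup.T]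

theorem mul_T_apply_one_one (γ : SL(2, ℤ)) : (γ * ModularGroup.T) 1 1 = γ 1 0 + γ 1 1 := by
  rw [Matrix.SpecialLinearGroup.coe_mul, Matrix.mul_apply, Fin.sum_univ_two]
  simp [ModularGroup.T]

/-- **Group theory of LEVEL.**  An additive character of `Γ₀(N)` with values in a group
without `p`-torsion (`p` prime) which vanishes on `Γ₀(N p)` is zero. -/
theorem eq_zero_of_forall_mem_Gamma0_mul {N p : ℕ} (hp : p.Prime) {A : Type*} [AddCommGroup A]
    (hA : ∀ a : A, p • a = 0 → a = 0) (c : ↥(Gamma0 N) → A)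
    (hadd : ∀ γ γ' : ↥(Gamma0 N), c (γ * γ') = c γ + c γ')
    (hres : ∀ γ : ↥(Gamma0 N), (γ : SL(2, ℤ)) ∈ Gamma0 (N * p) → c γ = 0)
    (γ : ↥(Gamma0 N)) : c γ = 0 := by
  -- the elements `U_m` and `T` of `Γ₀(N)`
  let u : ℤ → ↥(Gamma0 N) := fun m => ⟨lowerU N m, lowerU_mem N m⟩
  let t : ↥(Gamma0 N) := ⟨ModularGroup.T, T_mem_Gamma0 N⟩
  have hu_add : ∀ m m' : ℤ, u (m + m') = u m * u m' := fun m m' =>
    Subtype.ext (lowerU_add N m m')
  -- `c` vanishes on `T`
  have hcT : c t = 0 := hres t (T_mem_Gamma0 (N * p))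
  -- `c` vanishes on the `U_m`
  have hcU : ∀ m : ℤ, c (u m) = 0 := by
    intro m
    let φ : ℤ →+ A := AddMonoidHom.mk' (fun m => c (u m)) (fun m m' => by
      show c (u (m + m')) = c (u m) + c (u m')
      rw [hu_add, hadd])
    have h1 : φ ((p : ℤ) * m) = 0 := hres (u ((p : ℤ) * m)) (lowerU_mul_mem N p m)
    have h2 : φ ((p : ℤ) * m) = p • φ m := by
      rw [← nsmul_eq_mul, map_nsmul]
    exact hA (φ m) (by rw [← h2, h1])
  -- the case `p ∤ d`
  have key : ∀ γ : ↥(Gamma0 N), ¬ (p : ℤ) ∣ (γ : SL(2, ℤ)) 1 1 → c γ = 0 := by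
    intro γ hd
    obtain ⟨c', hc'⟩ := mem_Gamma0_iff_dvd.mp γ.2
    have hcop : IsCoprime ((γ : SL(2, ℤ)) 1 1) (p : ℤ) := by
      have hpp : Prime (p : ℤ) := Nat.prime_iff_prime_int.mp hp
      exact (IsCoprime.symm ((Prime.coprime_iff_not_dvd hpp).mpr hd))
    obtain ⟨x, y, hxy⟩ := hcop
    -- `m := - c' * x`
    have hmem : ((γ * u (-c' * x) : ↥(Gamma0 N)) : SL(2, ℤ)) ∈ Gamma0 (N * p) := by
      rw [mem_Gamma0_iff_dvd]
      show ((N * p : ℕ) : ℤ) ∣ ((γ : SL(2, ℤ)) * lowerU N (-c' * x)) 1 0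
      rw [mul_lowerU_apply_one_zero, hc']
      refine ⟨c' * y, ?_⟩
      push_cast
      linear_combination (-(N : ℤ) * c') * hxy
    have h1 := hres _ hmem
    rw [hadd, hcU, add_zero] at h1
    exact h1
  by_cases hd : (p : ℤ) ∣ (γ : SL(2, ℤ)) 1 1
  · -- then `p ∤ c`, use `γ T`
    have hdet : (γ : SL(2, ℤ)) 0 0 * (γ : SL(2, ℤ)) 1 1 - (γ : SL(2, ℤ)) 0 1 * (γ : SL(2, ℤ)) 1 0 = 1 := by
      have := (γ : SL(2, ℤ)).2
      rw [Matrix.det_fin_two] at this
      exact this
    have hc : ¬ (p : ℤ) ∣ (γ : SL(2, ℤ)) 1 0 := by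
      intro hc
      have h1 : (p : ℤ) ∣ 1 := by
        rw [← hdet]
        exact dvd_sub (dvd_mul_of_dvd_right hd _) (dvd_mul_of_dvd_right hc _)
      have hpp : Prime (p : ℤ) := Nat.prime_iff_prime_int.mp hp
      exact hpp.not_dvd_one h1
    have h2 : ¬ (p : ℤ) ∣ ((γ * t : ↥(Gamma0 N)) : SL(2, ℤ)) 1 1 := by
      show ¬ (p : ℤ) ∣ ((γ : SL(2, ℤ)) * ModularGroup.T) 1 1
      rw [mul_T_apply_one_one]
      intro h
      exact hc ((dvd_add_left hd).mp h)
    have h3 := key (γ * t) h2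
    rw [hadd, hcT, add_zero] at h3
    exact h3
  · exact key γ hd

end Fermat.Agent.A3.H319

end
end
-- ===== PACK-END A3/H319/LevelGroup.lean

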