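import Mathlib
import Fermat.Prelude.Thm_IsLocalRing_isAdicComplete_of_module_finite
import Fermat.Prelude.Thm_Algebra_finite_maximalSpectrum_and_bijective_localization_of_module_finite
import Fermat.Prelude.Def_FLTPrelim_Ramification
import Fermat.Prelude.Def_ModularCurve_ReductionModL
import Mathlib.LinearAlgebra.Matrix.SchurComplement
import Mathlib.LinearAlgebra.Matrix.NonsingularInverse
import Mathlib.LinearAlgebra.Matrix.ToLin
import Mathlib.LinearAlgebra.Projection
import Mathlib.RingTheory.LocalRing.MaximalIdeal.Basic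
import Mathlib.Algebra.Polynomial.RingDivision
import Mathlib.Algebra.Polynomial.AlgebraMap
import Mathlib.Algebra.Polynomial.Div

-- ===== PACK-BEGIN S59/G4/H109/PointsDVR.lean
section




/-!
# Row S59, layer G4, piece POINTS — part 1 (helper109)

The integral closure of a complete discrete valuation ring `𝒪` of characteristic zero in a finite
extension `L` of its fraction field `K` is again a complete discrete valuation ring, finite over
`𝒪`, with `𝒪 → integralClosure 𝒪 L` a local homomorphism.
(Port of `S31/H262/PadicDVR.lean` (helper262) from `ℤ_[p]` to a general `𝒪`.)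
-/

set_option autoImplicit false
set_option linter.unusedSectionVars false
set_option linter.style.haveILetI false

noncomputable section

namespace Fermat.Agent.S59.G4.H109

open IsLocalRing

section DVR

variable (𝒪 : Type) [CommRing 𝒪] [IsDomain 𝒪] [IsDiscreteValuationRing 𝒪]
  [IsAdicComplete (maximalIdeal 𝒪) 𝒪] [CharZero 𝒪]
variable (K : Type) [Field K] [Algebra 𝒪 K] [IsFractionRing 𝒪 K]
variable (L : Type) [Field L] [Algebra K L] [Algebra 𝒪 L] [IsScalarTower 𝒪 K L]
  [FiniteDimensional K L]

/-- The ring of integers of `L`. -/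
abbrev intRingO : Subalgebra 𝒪 L := integralClosure 𝒪 L

include 𝒪 in
theorem charZero_K : CharZero K :=
  charZero_of_injective_algebraMap (IsFractionRing.injective 𝒪 K)

include 𝒪 K in
theorem charZero_L : CharZero L :=
  haveI := charZero_K 𝒪 K
  charZero_of_injective_algebraMap (algebraMap K L).injective

include K in
theorem intRingO_isDedekindDomain : IsDedekindDomain (intRingO 𝒪 L) :=
  haveI := charZero_K 𝒪 K
  integralClosure.isDedekindDomain 𝒪 K L

include K in
theorem intRingO_moduleFinite : Module.Finite 𝒪 (intRingO 𝒪 L) :=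
  haveI := charZero_K 𝒪 K
  IsIntegralClosure.finite 𝒪 K L (intRingO 𝒪 L)

include K in
theorem intRingO_isNoetherianRing : IsNoetherianRing (intRingO 𝒪 L) :=
  haveI := charZero_K 𝒪 K
  IsIntegralClosure.isNoetherianRing 𝒪 K L (intRingO 𝒪 L)

include K in
theorem algebraMap_O_L_injective : Function.Injective (algebraMap 𝒪 L) := by
  rw [IsScalarTower.algebraMap_eq 𝒪 K L]
  exact (algebraMap K L).injective.comp (IsFractionRing.injective 𝒪 K)

include K in
theorem algebraMap_intRingO_injective : Function.Injective (algebraMap 𝒪 (intRingO 𝒪 L)) := by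
  intro a b h
  apply algebraMap_O_L_injective 𝒪 K L
  have := congrArg (fun x : intRingO 𝒪 L => (x : L)) h
  exact this

include K in
theorem intRingO_charZero : CharZero (intRingO 𝒪 L) :=
  charZero_of_injective_algebraMap (algebraMap_intRingO_injective 𝒪 K L)

include K in
/-- `𝒪 → integralClosure 𝒪 L` is a local homomorphism. -/
theorem intRingO_isLocalHom : IsLocalHom (algebraMap 𝒪 (intRingO 𝒪 L)) := by
  apply RingHom.IsIntegral.isLocalHom _ (algebraMap_intRingO_injective 𝒪 K L)
  intro x
  have hx : IsIntegral 𝒪 (x : L) := x.2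
  obtain ⟨q, hq, hq0⟩ := hx
  refine ⟨q, hq, ?_⟩
  apply Subtype.ext
  have h1 : ((Polynomial.eval₂ (algebraMap 𝒪 (intRingO 𝒪 L)) x q : intRingO 𝒪 L) : L)
      = Polynomial.eval₂ (algebraMap 𝒪 L) (x : L) q := by
    rw [← Polynomial.aeval_def, ← Polynomial.aeval_def]
    exact (Polynomial.aeval_algHom_apply (intRingO 𝒪 L).val x q).symm
  rw [h1, hq0]
  rfl

include K in
theorem intRingO_not_isField : ¬ IsField (intRingO 𝒪 L) := by
  intro hF
  obtain ⟨ϖ, hϖ⟩ := IsDiscreteValuationRing.exists_irreducible 𝒪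
  have h0 : algebraMap 𝒪 (intRingO 𝒪 L) ϖ ≠ 0 := by
    intro h
    exact hϖ.ne_zero (algebraMap_intRingO_injective 𝒪 K L (by rw [h, map_zero]))
  obtain ⟨b, hb⟩ := hF.mul_inv_cancel h0
  have hu : IsUnit (algebraMap 𝒪 (intRingO 𝒪 L) ϖ) := IsUnit.of_mul_eq_one _ hb
  haveI := intRingO_isLocalHom 𝒪 K L
  exact hϖ.not_isUnit (isUnit_of_map_unit (algebraMap 𝒪 (intRingO 𝒪 L)) ϖ hu)

include K in
/-- The ring of integers is a local ring (it is a domain, finite over the complete local ring
`𝒪`, hence it is the product of its localisations at its finitely many maximal ideals). -/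
theorem intRingO_isLocalRing : IsLocalRing (intRingO 𝒪 L) := by
  classical
  haveI := intRingO_moduleFinite 𝒪 K L
  obtain ⟨-, hbij, -, -⟩ :=
    Algebra.finite_maximalSpectrum_and_bijective_localization_of_module_finite (𝒪 := 𝒪)
      (intRingO 𝒪 L)
  -- at most one maximal ideal
  have huniq : ∀ I J : MaximalSpectrum (intRingO 𝒪 L), I = J := by
    intro I J
    by_contra hIJ
    obtain ⟨e, he⟩ := hbij.2 (Function.update
      (0 : ∀ K' : MaximalSpectrum (intRingO 𝒪 L), Localization.AtPrime K'.asIdeal) I 1)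
    have hI : algebraMap (intRingO 𝒪 L) (Localization.AtPrime I.asIdeal) e = 1 := by
      have := congrFun he I
      simpa using this
    have hJ : algebraMap (intRingO 𝒪 L) (Localization.AtPrime J.asIdeal) e = 0 := by
      have := congrFun he J
      simpa [Function.update_of_ne (Ne.symm hIJ)] using this
    have hprod : e * (1 - e) = 0 := by
      apply hbij.1
      funext K'
      simp only [RingHom.pi_apply, map_mul, map_sub, map_one, map_zero]
      by_cases hK : K' = I
      · subst hK; rw [hI]; simp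
      · have : algebraMap (intRingO 𝒪 L) (Localization.AtPrime K'.asIdeal) e = 0 := by
          have := congrFun he K'
          simpa [Function.update_of_ne hK] using this
        rw [this]; simp
    rcases mul_eq_zero.mp hprod with h0 | h1
    · rw [h0, map_zero] at hI
      exact zero_ne_one hI
    · have : e = 1 := (sub_eq_zero.mp h1).symm
      rw [this, map_one] at hJ
      exact one_ne_zero hJ
  obtain ⟨M, hM⟩ := Ideal.exists_maximal (intRingO 𝒪 L)
  refine IsLocalRing.of_unique_max_ideal ⟨M, hM, fun J hJ => ?_⟩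
  exact congrArg MaximalSpectrum.asIdeal (huniq ⟨J, hJ⟩ ⟨M, hM⟩)

include K in
theorem intRingO_isDiscreteValuationRing : IsDiscreteValuationRing (intRingO 𝒪 L) :=
  haveI := intRingO_isLocalRing 𝒪 K L
  haveI := intRingO_isNoetherianRing 𝒪 K L
  ((IsDiscreteValuationRing.TFAE (intRingO 𝒪 L) (intRingO_not_isField 𝒪 K L)).out 0 2).mpr
    (intRingO_isDedekindDomain 𝒪 K L)

include K in
theorem intRingO_isAdicComplete :
    haveI := intRingO_isLocalRing 𝒪 K L
    IsAdicComplete (maximalIdeal (intRingO 𝒪 L)) (intRingO 𝒪 L) := by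
  haveI := intRingO_isLocalRing 𝒪 K L
  haveI := intRingO_moduleFinite 𝒪 K L
  haveI := intRingO_isLocalHom 𝒪 K L
  exact IsLocalRing.isAdicComplete_of_module_finite (𝒪 := 𝒪)

include K in
theorem intRingO_finite_residueField [Finite (ResidueField 𝒪)] :
    haveI := intRingO_isLocalRing 𝒪 K L
    Finite (ResidueField (intRingO 𝒪 L)) := by
  haveI := intRingO_isLocalRing 𝒪 K L
  haveI := intRingO_moduleFinite 𝒪 K L
  haveI := intRingO_isLocalHom 𝒪 K L
  exact Module.finite_of_finite (ResidueField 𝒪)

include K in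
/-- Powers of the maximal ideal are cofinal with the powers of any nonzero element. -/
theorem exists_maximalIdeal_pow_le_span_pow (ϖ : 𝒪) (hϖ : ϖ ≠ 0) (n : ℕ) :
    haveI := intRingO_isLocalRing 𝒪 K L
    ∃ m : ℕ, maximalIdeal (intRingO 𝒪 L) ^ m
      ≤ Ideal.span {algebraMap 𝒪 (intRingO 𝒪 L) ϖ ^ n} := by
  haveI := intRingO_isLocalRing 𝒪 K L
  haveI := intRingO_isNoetherianRing 𝒪 K L
  have hp0 : algebraMap 𝒪 (intRingO 𝒪 L) ϖ ≠ 0 := by
    intro h
    exact hϖ (algebraMap_intRingO_injective 𝒪 K L (by rw [h, map_zero]))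
  have hne : Ideal.span {algebraMap 𝒪 (intRingO 𝒪 L) ϖ} ≠ ⊥ := by
    rw [Ne, Ideal.span_singleton_eq_bot]
    exact hp0
  have hall : ∀ I : Ideal (intRingO 𝒪 L), I ≠ ⊥ → ∃ n, I = maximalIdeal (intRingO 𝒪 L) ^ n :=
    ((IsDiscreteValuationRing.TFAE (intRingO 𝒪 L) (intRingO_not_isField 𝒪 K L)).out 0 6).mp
      (intRingO_isDiscreteValuationRing 𝒪 K L)
  obtain ⟨e, he⟩ := hall _ hne
  refine ⟨e * n, ?_⟩
  rw [pow_mul, ← he, Ideal.span_singleton_pow]

end DVR

end Fermat.Agent.S59.G4.H109

end
end
-- ===== PACK-END S59/G4/H109/PointsDVR.lean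

-- ===== PACK-BEGIN S59/G4/H109/PointsStrict.lean
section


/-!
# Row S59, layer G4, piece POINTS — part 2 (helper109)

Joint strictness of a separating family of points.  `𝒪` is a complete DVR of characteristic zero
with fraction field `K` and uniformiser `ϖ`, `T` a finite free `𝒪`-algebra, `E = K ⊗[𝒪] T`, `L j`
a finite family of finite field extensions of `K` and `Φ : E →ₐ[K] Π j, L j` injective.  Then the
points `T → integralClosure 𝒪 (L j)` are jointly strict:
for every `n` there is `m` such that `χ_j t ∈ 𝔪_j ^ m` for all `j` implies `t ∈ ϖ ^ n T`.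
(Port of `S31/H262/Strict.lean` (helper262) from `ℤ_[p]` to a general `𝒪`.)
-/

set_option autoImplicit false
set_option linter.unusedSectionVars false
set_option linter.style.haveILetI false

noncomputable section

namespace Fermat.Agent.S59.G4.H109

open scoped TensorProduct
open IsLocalRing

section Lattice

variable (𝒪 : Type) [CommRing 𝒪] [IsDomain 𝒪] [IsDiscreteValuationRing 𝒪]
variable (K : Type) [Field K] [Algebra 𝒪 K] [IsFractionRing 𝒪 K]
variable (T : Type) [CommRing T] [Algebra 𝒪 T]

/-- The `𝒪`-lattice in `E = K ⊗[𝒪] T` spanned by the pure tensors `1 ⊗ t`. -/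
def latO : Submodule 𝒪 (K ⊗[𝒪] T) :=
  Submodule.span 𝒪 (Set.range fun t : T => (1 : K) ⊗ₜ[𝒪] t)

theorem one_tmul_mem_latO (t : T) : (1 : K) ⊗ₜ[𝒪] t ∈ latO 𝒪 K T :=
  Submodule.subset_span ⟨t, rfl⟩

theorem algebraMap_tmul_mem_latO (a : 𝒪) (t : T) :
    (algebraMap 𝒪 K a) ⊗ₜ[𝒪] t ∈ latO 𝒪 K T := by
  have h : (algebraMap 𝒪 K a) ⊗ₜ[𝒪] t = a • ((1 : K) ⊗ₜ[𝒪] t) := by
    rw [TensorProduct.smul_tmul', Algebra.smul_def, mul_one]
  rw [h]
  exact (latO 𝒪 K T).smul_mem a (one_tmul_mem_latO 𝒪 K T t)

variable {𝒪} in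
/-- Every element of `K` becomes integral after multiplication by a power of `ϖ`. -/
theorem exists_pow_mul_mem_O {ϖ : 𝒪} (hϖ : Irreducible ϖ) (x : K) :
    ∃ (c : ℕ) (a : 𝒪), algebraMap 𝒪 K ϖ ^ c * x = algebraMap 𝒪 K a := by
  obtain ⟨a, s, hs, rfl⟩ := IsFractionRing.div_surjective (A := 𝒪) x
  have hs0 : s ≠ 0 := nonZeroDivisors.ne_zero hs
  obtain ⟨c, u, hu⟩ := IsDiscreteValuationRing.eq_unit_mul_pow_irreducible hs0 hϖ
  refine ⟨c, a * ((u⁻¹ : 𝒪ˣ) : 𝒪), ?_⟩
  have hsK : algebraMap 𝒪 K s ≠ 0 := by
    intro h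
    exact hs0 (IsFractionRing.injective 𝒪 K (by rw [h, map_zero]))
  rw [← mul_div_assoc, div_eq_iff hsK, ← map_pow, ← map_mul, ← map_mul]
  congr 1
  rw [hu]
  have hu1 : ((u⁻¹ : 𝒪ˣ) : 𝒪) * (u : 𝒪) = 1 := Units.inv_mul u
  calc ϖ ^ c * a = a * (((u⁻¹ : 𝒪ˣ) : 𝒪) * (u : 𝒪)) * ϖ ^ c := by rw [hu1]; ring
    _ = a * ((u⁻¹ : 𝒪ˣ) : 𝒪) * ((u : 𝒪) * ϖ ^ c) := by ring

variable {𝒪} in
/-- Every element of `E` lies in the lattice after multiplication by a power of `ϖ`. -/
theorem exists_pow_smul_mem_latO {ϖ : 𝒪} (hϖ : Irreducible ϖ) (e : K ⊗[𝒪] T) :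
    ∃ c : ℕ, ∀ c' : ℕ, c ≤ c' → (algebraMap 𝒪 K ϖ ^ c') • e ∈ latO 𝒪 K T := by
  induction e using TensorProduct.induction_on with
  | zero => exact ⟨0, fun c' _ => by rw [smul_zero]; exact (latO 𝒪 K T).zero_mem⟩
  | tmul x b =>
    obtain ⟨c, a, hca⟩ := exists_pow_mul_mem_O K hϖ x
    refine ⟨c, fun c' hc' => ?_⟩
    obtain ⟨d, rfl⟩ := Nat.exists_eq_add_of_le hc'
    have h : (algebraMap 𝒪 K ϖ ^ (c + d)) • (x ⊗ₜ[𝒪] b) =
        (algebraMap 𝒪 K (ϖ ^ d * a)) ⊗ₜ[𝒪] b := by
      rw [TensorProduct.smul_tmul', smul_eq_mul, pow_add, mul_comm (algebraMap 𝒪 K ϖ ^ c),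
        mul_assoc, hca, map_mul, map_pow]
    rw [h]
    exact algebraMap_tmul_mem_latO 𝒪 K T _ b
  | add x y hx hy =>
    obtain ⟨c1, h1⟩ := hx
    obtain ⟨c2, h2⟩ := hy
    refine ⟨max c1 c2, fun c' hc' => ?_⟩
    rw [smul_add]
    exact (latO 𝒪 K T).add_mem (h1 c' (le_trans (le_max_left _ _) hc'))
      (h2 c' (le_trans (le_max_right _ _) hc'))

end Lattice

section Coordinates

variable (𝒪 : Type) [CommRing 𝒪] [IsDomain 𝒪] [IsDiscreteValuationRing 𝒪]
variable (K : Type) [Field K] [Algebra 𝒪 K] [IsFractionRing 𝒪 K]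
variable (T : Type) [CommRing T] [Algebra 𝒪 T] [Module.Finite 𝒪 T] [Module.Free 𝒪 T]

/-- Coordinates lemma: if `ϖ⁻ⁿ • (1 ⊗ t)` lies in the lattice, then `t ∈ ϖⁿ T`. -/
theorem mem_span_of_inv_smul_mem_latO (ϖ : 𝒪) (hϖ : ϖ ≠ 0) (n : ℕ) (t : T)
    (h : ((algebraMap 𝒪 K ϖ ^ n)⁻¹) • ((1 : K) ⊗ₜ[𝒪] t) ∈ latO 𝒪 K T) :
    t ∈ Ideal.span {algebraMap 𝒪 T ϖ ^ n} := by
  classical
  set b := Module.Free.chooseBasis 𝒪 T with hb
  set bE := Algebra.TensorProduct.basis K b with hbE
  -- the lattice is contained in the `𝒪`-span of the basis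
  have hle : latO 𝒪 K T ≤ Submodule.span 𝒪 (Set.range bE) := by
    unfold latO
    rw [Submodule.span_le]
    rintro _ ⟨x, rfl⟩
    rw [SetLike.mem_coe, Module.Basis.mem_span_iff_repr_mem]
    intro i
    refine ⟨b.repr x i, ?_⟩
    rw [hbE, Algebra.TensorProduct.basis_repr_tmul]
    simp
  have h' := hle h
  rw [Module.Basis.mem_span_iff_repr_mem] at h'
  have hϖK : algebraMap 𝒪 K ϖ ^ n ≠ 0 := by
    apply pow_ne_zero
    intro h0
    exact hϖ (IsFractionRing.injective 𝒪 K (by rw [h0, map_zero]))
  -- each coordinate of `t` is divisible by `ϖ ^ n`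
  have hdvd : ∀ i, (ϖ ^ n) ∣ b.repr t i := by
    intro i
    obtain ⟨a, ha⟩ := h' i
    rw [hbE, map_smul, Algebra.TensorProduct.basis_repr_tmul] at ha
    simp only [one_smul, Finsupp.smul_apply, Finsupp.mapRange_apply, smul_eq_mul] at ha
    have hval : algebraMap 𝒪 K (b.repr t i) = algebraMap 𝒪 K (ϖ ^ n * a) := by
      rw [map_mul, map_pow, ha]
      field_simp
    exact ⟨a, IsFractionRing.injective 𝒪 K hval⟩
  rw [Ideal.mem_span_singleton, ← b.sum_repr t]
  refine Finset.dvd_sum fun i _ => ?_
  obtain ⟨k, hk⟩ := hdvd i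
  rw [hk, mul_smul]
  refine Dvd.intro (k • b i) ?_
  rw [← map_pow, ← Algebra.smul_def]

end Coordinates

section Strict

variable (𝒪 : Type) [CommRing 𝒪] [IsDomain 𝒪] [IsDiscreteValuationRing 𝒪]
  [IsAdicComplete (maximalIdeal 𝒪) 𝒪] [CharZero 𝒪]
variable (K : Type) [Field K] [Algebra 𝒪 K] [IsFractionRing 𝒪 K]
variable (T : Type) [CommRing T] [Algebra 𝒪 T] [Module.Finite 𝒪 T] [Module.Free 𝒪 T]
variable {ι : Type} [Finite ι] (L : ι → Type) [∀ j, Field (L j)] [∀ j, Algebra K (L j)]
  [∀ j, Algebra 𝒪 (L j)] [∀ j, IsScalarTower 𝒪 K (L j)]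
  [∀ j, FiniteDimensional K (L j)]
variable (Φ : (K ⊗[𝒪] T) →ₐ[K] (∀ j, L j))

/-- The `j`-th point, with values in the field `L j`. -/
def ptL (j : ι) : T →+* L j :=
  (Pi.evalRingHom L j).comp
    ((Φ : (K ⊗[𝒪] T) →+* (∀ j, L j)).comp
      (Algebra.TensorProduct.includeRight : T →ₐ[𝒪] K ⊗[𝒪] T).toRingHom)

theorem ptL_apply (j : ι) (t : T) : ptL 𝒪 K T L Φ j t = Φ ((1 : K) ⊗ₜ[𝒪] t) j := rfl

theorem ptL_algebraMap (j : ι) (a : 𝒪) :
    ptL 𝒪 K T L Φ j (algebraMap 𝒪 T a) = algebraMap 𝒪 (L j) a := by
  rw [ptL_apply]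
  have h1 : (1 : K) ⊗ₜ[𝒪] (algebraMap 𝒪 T a) = algebraMap K (K ⊗[𝒪] T) (algebraMap 𝒪 K a) := by
    rw [Algebra.TensorProduct.algebraMap_apply, Algebra.algebraMap_eq_smul_one a,
      ← TensorProduct.smul_tmul, Algebra.smul_def, mul_one]
    rfl
  rw [h1, AlgHom.commutes, Pi.algebraMap_apply, ← IsScalarTower.algebraMap_apply]

/-- The `j`-th point as an `𝒪`-algebra homomorphism. -/
def ptLAlg (j : ι) : T →ₐ[𝒪] L j :=
  { ptL 𝒪 K T L Φ j with commutes' := ptL_algebraMap 𝒪 K T L Φ j }

theorem isIntegral_ptL (j : ι) (t : T) : IsIntegral 𝒪 (ptL 𝒪 K T L Φ j t) := by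
  have h1 : IsIntegral 𝒪 t := Algebra.IsIntegral.isIntegral (R := 𝒪) t
  exact h1.map (ptLAlg 𝒪 K T L Φ j)

/-- The `j`-th point, with values in the ring of integers of `L j`. -/
def pt (j : ι) : T →+* intRingO 𝒪 (L j) where
  toFun t := ⟨ptL 𝒪 K T L Φ j t, isIntegral_ptL 𝒪 K T L Φ j t⟩
  map_one' := Subtype.ext (map_one _)
  map_mul' x y := Subtype.ext (map_mul _ x y)
  map_zero' := Subtype.ext (map_zero _)
  map_add' x y := Subtype.ext (map_add _ x y)

theorem coe_pt (j : ι) (t : T) :
    ((pt 𝒪 K T L Φ j t : intRingO 𝒪 (L j)) : L j) = Φ ((1 : K) ⊗ₜ[𝒪] t) j := rfl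

theorem pt_algebraMap (j : ι) (a : 𝒪) :
    pt 𝒪 K T L Φ j (algebraMap 𝒪 T a) = algebraMap 𝒪 (intRingO 𝒪 (L j)) a :=
  Subtype.ext (ptL_algebraMap 𝒪 K T L Φ j a)

/-- The `𝒪`-submodule of `E` of elements all of whose components are integral. -/
def intSub : Submodule 𝒪 (K ⊗[𝒪] T) :=
  Submodule.comap (Φ.toLinearMap.restrictScalars 𝒪)
    (Submodule.pi Set.univ fun j => Subalgebra.toSubmodule (intRingO 𝒪 (L j)))

theorem mem_intSub (e : K ⊗[𝒪] T) :
    e ∈ intSub 𝒪 K T L Φ ↔ ∀ j, IsIntegral 𝒪 (Φ e j) := by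
  unfold intSub
  rw [Submodule.mem_comap, Submodule.mem_pi]
  constructor
  · intro h j
    exact h j (Set.mem_univ j)
  · intro h j _
    exact h j

/-- The comparison map from `intSub` to the product of the rings of integers. -/
def intSubToPi : intSub 𝒪 K T L Φ →ₗ[𝒪] (∀ j, intRingO 𝒪 (L j)) where
  toFun w := fun j => ⟨Φ w.1 j, (mem_intSub 𝒪 K T L Φ w.1).mp w.2 j⟩
  map_add' x y := by
    funext j
    apply Subtype.ext
    simp
  map_smul' a x := by
    funext j
    apply Subtype.ext
    have h : Φ (a • (x : K ⊗[𝒪] T)) = a • Φ (x : K ⊗[𝒪] T) :=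
      (Φ.toLinearMap.restrictScalars 𝒪).map_smul a x.1
    simp [h]

variable {𝒪 K T L Φ} in
theorem intSubToPi_injective (hΦ : Function.Injective Φ) :
    Function.Injective (intSubToPi 𝒪 K T L Φ) := by
  intro x y h
  apply Subtype.ext
  apply hΦ
  funext j
  have := congrArg (fun f : (∀ j, intRingO 𝒪 (L j)) => ((f j : intRingO 𝒪 (L j)) : L j)) h
  exact this

variable {𝒪 K T L Φ} in
theorem intSub_fg (hΦ : Function.Injective Φ) : (intSub 𝒪 K T L Φ).FG := by
  haveI : Fintype ι := Fintype.ofFinite ι
  haveI : ∀ j, Module.Finite 𝒪 (intRingO 𝒪 (L j)) := fun j => intRingO_moduleFinite 𝒪 K (L j)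
  haveI : Module.Finite 𝒪 (∀ j, intRingO 𝒪 (L j)) := Module.Finite.pi
  haveI : IsNoetherian 𝒪 (∀ j, intRingO 𝒪 (L j)) := inferInstance
  haveI : Module.Finite 𝒪 (intSub 𝒪 K T L Φ) :=
    Module.Finite.of_injective (intSubToPi 𝒪 K T L Φ) (intSubToPi_injective hΦ)
  exact (Submodule.fg_top _).mp (Module.finite_def.mp this)

variable {𝒪 K T L Φ} in
/-- A uniform power of `ϖ` maps `intSub` into the lattice. -/
theorem exists_pow_smul_intSub_le (hΦ : Function.Injective Φ) {ϖ : 𝒪} (hϖ : Irreducible ϖ) :
    ∃ c : ℕ, ∀ w ∈ intSub 𝒪 K T L Φ, (algebraMap 𝒪 K ϖ ^ c) • w ∈ latO 𝒪 K T := by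
  classical
  obtain ⟨G, hG⟩ := intSub_fg hΦ
  choose cf hcf using fun e : K ⊗[𝒪] T => exists_pow_smul_mem_latO K T hϖ e
  refine ⟨G.sup cf, fun w hw => ?_⟩
  have hsm : ∀ (c : ℕ) (g : K ⊗[𝒪] T), (ϖ ^ c) • g = (algebraMap 𝒪 K ϖ ^ c) • g := by
    intro c g
    rw [← algebraMap_smul K (ϖ ^ c) g, map_pow]
  -- the set of `e` with `ϖ ^ c • e ∈ lat` is an `𝒪`-submodule containing the generators
  have hsub : intSub 𝒪 K T L Φ ≤
      Submodule.comap (LinearMap.lsmul 𝒪 (K ⊗[𝒪] T) (ϖ ^ G.sup cf)) (latO 𝒪 K T) := by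
    rw [← hG, Submodule.span_le]
    intro g hg
    rw [SetLike.mem_coe, Submodule.mem_comap, LinearMap.lsmul_apply]
    have h1 := hcf g (G.sup cf) (Finset.le_sup (f := cf) hg)
    rw [hsm]
    exact h1
  have h3 := hsub hw
  rw [Submodule.mem_comap, LinearMap.lsmul_apply] at h3
  rw [← hsm]
  exact h3

variable {𝒪 K T L Φ} in
/-- **Joint strictness** of the points `pt j : T → intRingO 𝒪 (L j)`. -/
theorem strict_of_injective [∀ j, IsLocalRing (intRingO 𝒪 (L j))]
    (hΦ : Function.Injective Φ) {ϖ : 𝒪} (hϖ : Irreducible ϖ) (n : ℕ) :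
    ∃ m : ℕ, ∀ t : T,
      (∀ j, pt 𝒪 K T L Φ j t ∈ maximalIdeal (intRingO 𝒪 (L j)) ^ m) →
        t ∈ Ideal.span {algebraMap 𝒪 T ϖ ^ n} := by
  classical
  haveI : Fintype ι := Fintype.ofFinite ι
  obtain ⟨c, hc⟩ := exists_pow_smul_intSub_le hΦ hϖ
  have hex : ∀ j : ι, ∃ m : ℕ, maximalIdeal (intRingO 𝒪 (L j)) ^ m
      ≤ Ideal.span {algebraMap 𝒪 (intRingO 𝒪 (L j)) ϖ ^ (n + c)} := by
    intro j
    have := exists_maximalIdeal_pow_le_span_pow 𝒪 K (L j) ϖ hϖ.ne_zero (n + c)
    convert this using 4
  choose mf hmf using hex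
  refine ⟨Finset.univ.sup mf, fun t ht => ?_⟩
  have hp0 : algebraMap 𝒪 K ϖ ≠ 0 := by
    intro h0
    exact hϖ.ne_zero (IsFractionRing.injective 𝒪 K (by rw [h0, map_zero]))
  apply mem_span_of_inv_smul_mem_latO 𝒪 K T ϖ hϖ.ne_zero n t
  -- the element `e = ϖ^{-(n+c)} • (1 ⊗ t)` has integral components
  have he : ((algebraMap 𝒪 K ϖ ^ (n + c))⁻¹) • ((1 : K) ⊗ₜ[𝒪] t) ∈ intSub 𝒪 K T L Φ := by
    rw [mem_intSub]
    intro j
    have h1 : pt 𝒪 K T L Φ j t ∈ Ideal.span {algebraMap 𝒪 (intRingO 𝒪 (L j)) ϖ ^ (n + c)} :=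
      hmf j (Ideal.pow_le_pow_right (Finset.le_sup (f := mf) (Finset.mem_univ j)) (ht j))
    rw [Ideal.mem_span_singleton] at h1
    obtain ⟨y, hy⟩ := h1
    have hy' : Φ ((1 : K) ⊗ₜ[𝒪] t) j = algebraMap 𝒪 (L j) ϖ ^ (n + c) * (y : L j) := by
      have := congrArg (fun x : intRingO 𝒪 (L j) => (x : L j)) hy
      simpa [coe_pt] using this
    have hpL : algebraMap 𝒪 (L j) ϖ ≠ 0 := by
      intro h0
      exact hϖ.ne_zero (algebraMap_O_L_injective 𝒪 K (L j) (by rw [h0, map_zero]))
    have hval : Φ (((algebraMap 𝒪 K ϖ ^ (n + c))⁻¹) • ((1 : K) ⊗ₜ[𝒪] t)) j = (y : L j) := by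
      rw [map_smul, Pi.smul_apply, hy', Algebra.smul_def, map_inv₀, map_pow,
        ← IsScalarTower.algebraMap_apply]
      field_simp
    rw [hval]
    exact y.2
  have h2 := hc _ he
  have h3 : (algebraMap 𝒪 K ϖ ^ c) • (((algebraMap 𝒪 K ϖ ^ (n + c))⁻¹) • ((1 : K) ⊗ₜ[𝒪] t)) =
      ((algebraMap 𝒪 K ϖ ^ n)⁻¹) • ((1 : K) ⊗ₜ[𝒪] t) := by
    rw [smul_smul]
    congr 1
    rw [pow_add]
    field_simp
  rw [h3] at h2
  exact h2

end Strict

end Fermat.Agent.S59.G4.H109

end
end
-- ===== PACK-END S59/G4/H109/PointsStrict.lean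

-- ===== PACK-BEGIN S37/Red/H759/Directed.lean
section
/-
S37-RED, piece E4(c) "passage R_E → A", generic part (helper759).  Mathlib-only.

Closure operators commute with DIRECTED unions.  `Ω` a field, `κ : ι → Set Ω` a directed family
of sets (in the application: the images of the residue fields `κ_E` of the number fields
`E ⊆ Q̄`, or of the rings `A ∩ E`), `k0 ⊆ ⋃ κ i`, `S` a set of generators.

* `exists_mem_subring_closure`  : `c ∈ Subring.closure (k0 ∪ S)`  ⟹ `∃ i, c ∈ Subring.closure (κ i ∪ S)`
* `exists_mem_subfield_closure` : `c ∈ Subfield.closure (k0 ∪ S)` ⟹ `∃ i, c ∈ Subfield.closure (κ i ∪ S)`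
* `exists_isIntegral`           : `c` integral over `Subring.closure (k0 ∪ S)` ⟹
                                  `∃ i, c` integral over `Subring.closure (κ i ∪ S)`
* `exists_level`                : all three at once, for a common index `i`, which can moreover be
                                  chosen above any given index.
* `isIntegral_subring_iff`      : normal form of integrality over a subring of `Ω`
                                  (monic polynomial over `Ω` with coefficients in the subring).
-/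


set_option autoImplicit false

namespace Fermat.Agent.S37.Red.H759

open Polynomial

section NormalForm

variable {Ω : Type*} [CommRing Ω]

/-- Integrality over a subring `B ⊆ Ω`: normal form with a polynomial over `Ω`. -/
theorem isIntegral_subring_iff (B : Subring Ω) (c : Ω) :
    IsIntegral B c ↔
      ∃ P : Polynomial Ω, P.Monic ∧ (∀ i, P.coeff i ∈ B) ∧ P.eval c = 0 := by
  constructor
  · rintro ⟨p, hp, hpc⟩
    refine ⟨p.map B.subtype, hp.map _, fun i => ?_, ?_⟩
    · rw [coeff_map]; exact (p.coeff i).2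
    · rw [eval_map]; exact hpc
  · rintro ⟨P, hP, hcoeff, hPc⟩
    have hlift : P ∈ Polynomial.lifts B.subtype := by
      rw [Polynomial.lifts_iff_coeff_lifts]
      intro n
      exact ⟨⟨P.coeff n, hcoeff n⟩, rfl⟩
    obtain ⟨q, hq, -, hqm⟩ := Polynomial.lifts_and_natDegree_eq_and_monic hlift hP
    refine ⟨q, hqm, ?_⟩
    have : eval₂ (algebraMap B Ω) c q = (q.map B.subtype).eval c := by
      rw [eval_map]; rfl
    rw [this, hq, hPc]

/-- Integrality is monotone in the subring. -/
theorem isIntegral_subring_mono {B C : Subring Ω} (h : B ≤ C) {c : Ω} (hc : IsIntegral B c) :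
    IsIntegral C c := by
  rw [isIntegral_subring_iff] at hc ⊢
  obtain ⟨P, hP, hcoeff, hPc⟩ := hc
  exact ⟨P, hP, fun i => h (hcoeff i), hPc⟩

/-- Integrality over a subalgebra is integrality over the underlying subring. -/
theorem isIntegral_subalgebra_iff {k : Type*} [CommRing k] [Algebra k Ω] (B : Subalgebra k Ω)
    (c : Ω) : IsIntegral B c ↔ IsIntegral B.toSubring c := by
  constructor
  · rintro ⟨p, hp, hpc⟩
    exact ⟨p, hp, hpc⟩
  · rintro ⟨p, hp, hpc⟩
    exact ⟨p, hp, hpc⟩

end NormalForm

section Directed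

variable {Ω : Type*} [Field Ω] {ι : Type*} [Nonempty ι] (κ : ι → Set Ω)

omit [Nonempty ι] in
theorem directed_subring_closure (hdir : Directed (· ⊆ ·) κ) (S : Set Ω) :
    Directed (· ≤ ·) fun i => Subring.closure (κ i ∪ S) := by
  intro i j
  obtain ⟨l, hil, hjl⟩ := hdir i j
  exact ⟨l, Subring.closure_mono (Set.union_subset_union_left S hil),
    Subring.closure_mono (Set.union_subset_union_left S hjl)⟩

omit [Nonempty ι] in
theorem directed_subfield_closure (hdir : Directed (· ⊆ ·) κ) (S : Set Ω) :
    Directed (· ≤ ·) fun i => Subfield.closure (κ i ∪ S) := by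
  intro i j
  obtain ⟨l, hil, hjl⟩ := hdir i j
  exact ⟨l, Subfield.closure_mono (Set.union_subset_union_left S hil),
    Subfield.closure_mono (Set.union_subset_union_left S hjl)⟩

/-- Elements of the subring generated by `k0 ∪ S` are defined at a finite level. -/
theorem exists_mem_subring_closure (hdir : Directed (· ⊆ ·) κ) {k0 : Set Ω} (S : Set Ω)
    (hk : k0 ⊆ ⋃ i, κ i) {c : Ω} (hc : c ∈ Subring.closure (k0 ∪ S)) :
    ∃ i, c ∈ Subring.closure (κ i ∪ S) := by
  have hle : Subring.closure (k0 ∪ S) ≤ ⨆ i, Subring.closure (κ i ∪ S) := by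
    rw [Subring.closure_le]
    rintro a (ha | ha)
    · obtain ⟨i, hi⟩ := Set.mem_iUnion.mp (hk ha)
      exact (le_iSup (fun i => Subring.closure (κ i ∪ S)) i)
        (Subring.subset_closure (Or.inl hi))
    · obtain ⟨i⟩ := ‹Nonempty ι›
      exact (le_iSup (fun i => Subring.closure (κ i ∪ S)) i)
        (Subring.subset_closure (Or.inr ha))
  exact (Subring.mem_iSup_of_directed (directed_subring_closure κ hdir S)).mp (hle hc)

/-- Elements of the subfield generated by `k0 ∪ S` are defined at a finite level. -/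
theorem exists_mem_subfield_closure (hdir : Directed (· ⊆ ·) κ) {k0 : Set Ω} (S : Set Ω)
    (hk : k0 ⊆ ⋃ i, κ i) {c : Ω} (hc : c ∈ Subfield.closure (k0 ∪ S)) :
    ∃ i, c ∈ Subfield.closure (κ i ∪ S) := by
  have hle : Subfield.closure (k0 ∪ S) ≤ ⨆ i, Subfield.closure (κ i ∪ S) := by
    rw [Subfield.closure_le]
    rintro a (ha | ha)
    · obtain ⟨i, hi⟩ := Set.mem_iUnion.mp (hk ha)
      exact (le_iSup (fun i => Subfield.closure (κ i ∪ S)) i)
        (Subfield.subset_closure (Or.inl hi))
    · obtain ⟨i⟩ := ‹Nonempty ι›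
      exact (le_iSup (fun i => Subfield.closure (κ i ∪ S)) i)
        (Subfield.subset_closure (Or.inr ha))
  exact (Subfield.mem_iSup_of_directed (directed_subfield_closure κ hdir S)).mp (hle hc)

/-- Finitely many elements of the subring generated by `k0 ∪ S` are defined at a common finite
level. -/
theorem exists_forall_mem_subring_closure (hdir : Directed (· ⊆ ·) κ) {k0 : Set Ω} (S : Set Ω)
    (hk : k0 ⊆ ⋃ i, κ i) (T : Finset Ω) (hT : ∀ c ∈ T, c ∈ Subring.closure (k0 ∪ S)) :
    ∃ i, ∀ c ∈ T, c ∈ Subring.closure (κ i ∪ S) := by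
  classical
  induction T using Finset.induction_on with
  | empty =>
    obtain ⟨i⟩ := ‹Nonempty ι›
    exact ⟨i, by simp⟩
  | insert a T _ ih =>
    obtain ⟨i, hi⟩ := ih (fun c hc => hT c (Finset.mem_insert_of_mem hc))
    obtain ⟨j, hj⟩ := exists_mem_subring_closure κ hdir S hk (hT a (Finset.mem_insert_self a T))
    obtain ⟨l, hil, hjl⟩ := directed_subring_closure κ hdir S i j
    refine ⟨l, fun c hc => ?_⟩
    rcases Finset.mem_insert.mp hc with rfl | hc
    · exact hjl hj
    · exact hil (hi c hc)

/-- Integrality over the subring generated by `k0 ∪ S` holds at a finite level. -/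
theorem exists_isIntegral (hdir : Directed (· ⊆ ·) κ) {k0 : Set Ω} (S : Set Ω)
    (hk : k0 ⊆ ⋃ i, κ i) {c : Ω} (hc : IsIntegral (Subring.closure (k0 ∪ S)) c) :
    ∃ i, IsIntegral (Subring.closure (κ i ∪ S)) c := by
  classical
  rw [isIntegral_subring_iff] at hc
  obtain ⟨P, hP, hcoeff, hPc⟩ := hc
  obtain ⟨i, hi⟩ := exists_forall_mem_subring_closure κ hdir S hk
    (P.support.image fun n => P.coeff n) (by
      intro a ha
      obtain ⟨n, -, rfl⟩ := Finset.mem_image.mp ha
      exact hcoeff n)
  refine ⟨i, (isIntegral_subring_iff _ _).mpr ⟨P, hP, fun n => ?_, hPc⟩⟩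
  by_cases hn : n ∈ P.support
  · exact hi _ (Finset.mem_image_of_mem _ hn)
  · rw [Polynomial.notMem_support_iff.mp hn]
    exact zero_mem _

/-- **Finite level**: an element of the field generated by `k0 ∪ S` which is integral over the
ring generated by `k0 ∪ S'` is, for some index `i ≥ i₀`, an element of the field generated by
`κ i ∪ S` integral over the ring generated by `κ i ∪ S'`. -/
theorem exists_level (hdir : Directed (· ⊆ ·) κ) {k0 : Set Ω} (S S' : Set Ω)
    (hk : k0 ⊆ ⋃ i, κ i) (i₀ : ι) {c : Ω} (hc : c ∈ Subfield.closure (k0 ∪ S))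
    (hint : IsIntegral (Subring.closure (k0 ∪ S')) c) :
    ∃ i, κ i₀ ⊆ κ i ∧ c ∈ Subfield.closure (κ i ∪ S) ∧
      IsIntegral (Subring.closure (κ i ∪ S')) c := by
  obtain ⟨i₁, h₁⟩ := exists_mem_subfield_closure κ hdir S hk hc
  obtain ⟨i₂, h₂⟩ := exists_isIntegral κ hdir S' hk hint
  obtain ⟨i₃, h₁₃, h₂₃⟩ := hdir i₁ i₂
  obtain ⟨i, h₃, h₀⟩ := hdir i₃ i₀
  refine ⟨i, h₀, ?_, ?_⟩
  · exact Subfield.closure_mono (Set.union_subset_union_left S (h₁₃.trans h₃)) h₁
  · exact isIntegral_subring_mono
      (Subring.closure_mono (Set.union_subset_union_left S' (h₂₃.trans h₃))) h₂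

end Directed

end Fermat.Agent.S37.Red.H759

namespace Fermat.Agent.S37.Red.H759

section Monotone

variable {Ω : Type*} [Field Ω] {ι : Type*} [Preorder ι] [IsDirected ι (· ≤ ·)] [Nonempty ι]
  (κ : ι → Set Ω)

omit [Field Ω] [Nonempty ι] in
theorem directed_of_monotone (hmono : Monotone κ) : Directed (· ⊆ ·) κ := by
  intro i j
  obtain ⟨l, hil, hjl⟩ := exists_ge_ge i j
  exact ⟨l, hmono hil, hmono hjl⟩

/-- **Finite level, monotone form**: for a monotone family `κ` over a directed preorder, an
element of the field generated by `k0 ∪ S` which is integral over the ring generated by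
`k0 ∪ S'` is, for some index `i ≥ i₀`, an element of the field generated by `κ i ∪ S` integral
over the ring generated by `κ i ∪ S'`. -/
theorem exists_level_ge (hmono : Monotone κ) {k0 : Set Ω} (S S' : Set Ω)
    (hk : k0 ⊆ ⋃ i, κ i) (i₀ : ι) {c : Ω} (hc : c ∈ Subfield.closure (k0 ∪ S))
    (hint : IsIntegral (Subring.closure (k0 ∪ S')) c) :
    ∃ i, i₀ ≤ i ∧ c ∈ Subfield.closure (κ i ∪ S) ∧
      IsIntegral (Subring.closure (κ i ∪ S')) c := by
  have hdir := directed_of_monotone κ hmono
  obtain ⟨i₁, h₁⟩ := exists_mem_subfield_closure κ hdir S hk hc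
  obtain ⟨i₂, h₂⟩ := exists_isIntegral κ hdir S' hk hint
  obtain ⟨i₃, h₁₃, h₂₃⟩ := exists_ge_ge i₁ i₂
  obtain ⟨i, h₃, h₀⟩ := exists_ge_ge i₃ i₀
  refine ⟨i, h₀, ?_, ?_⟩
  · exact Subfield.closure_mono (Set.union_subset_union_left S (hmono (h₁₃.trans h₃))) h₁
  · exact isIntegral_subring_mono
      (Subring.closure_mono (Set.union_subset_union_left S' (hmono (h₂₃.trans h₃)))) h₂

end Monotone

end Fermat.Agent.S37.Red.H759

end
-- ===== PACK-END S37/Red/H759/Directed.lean

-- ===== PACK-BEGIN S18/H9/Res.lean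
section



/-!
# S18, squad S18/S05, pieces RES.1 and RES.2 (helper9)

Mathlib + Prelude only.  The two theorems have EXACTLY the unfolded types of
`Fermat.Agent.S18.Sq05.ResAlgClosedStatement` and `Fermat.Agent.S18.Sq05.ResCharStatement`
(frozen in `Fermat/Agent/S18/Sq05/Spec.lean`, squad-lead helper5), so
`(resAlgClosed : Sq05.ResAlgClosedStatement)` and `(resChar : Sq05.ResCharStatement)` hold by
unfolding the definitions.

* `resAlgClosed` — the residue field of a valuation subring of an algebraically closed field is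
  algebraically closed.
* `resChar` — primes different from the residue characteristic are invertible in the residue
  field.
-/

set_option autoImplicit false

namespace Fermat.Agent.S18.H9

open Polynomial

/-- **RES.1**: the residue field of a valuation subring of an algebraically closed field is
algebraically closed. -/
theorem resAlgClosed :
    ∀ (L : Type) [Field L] [IsAlgClosed L] (A : ValuationSubring L),
      IsAlgClosed (IsLocalRing.ResidueField A) := by
  intro L _ _ A
  refine IsAlgClosed.of_exists_root _ fun p hpm hpi => ?_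
  -- lift `p` to a monic polynomial over `A`
  have hsurj : Function.Surjective (IsLocalRing.residue A) := IsLocalRing.residue_surjective
  have hlift : p ∈ Polynomial.lifts (IsLocalRing.residue A) :=
    (Polynomial.mem_lifts p).mpr (Polynomial.map_surjective _ hsurj p)
  obtain ⟨P, hPmap, hPdeg, hPm⟩ := Polynomial.lifts_and_degree_eq_and_monic hlift hpm
  -- a root of `P` in `L`
  have hdeg : (P.map (algebraMap A L)).degree ≠ 0 := by
    rw [Polynomial.degree_map_eq_of_injective (FaithfulSMul.algebraMap_injective A L), hPdeg]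
    exact Polynomial.degree_pos_of_irreducible hpi |>.ne'
  obtain ⟨x, hx⟩ := IsAlgClosed.exists_root (P.map (algebraMap A L)) hdeg
  -- the root is integral over `A`, hence lies in `A`
  have hint : IsIntegral A x := ⟨P, hPm, by
    rw [← Polynomial.eval_map]; exact hx⟩
  obtain ⟨y, hy⟩ := (IsIntegrallyClosed.isIntegral_iff (R := A) (K := L)).mp hint
  refine ⟨IsLocalRing.residue A y, ?_⟩
  have hy0 : P.eval y = 0 := by
    apply FaithfulSMul.algebraMap_injective A L
    rw [map_zero, ← Polynomial.eval₂_at_apply, Polynomial.eval₂_eq_eval_map, hy]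
    exact hx
  rw [← hPmap, Polynomial.eval_map, Polynomial.eval₂_at_apply, hy0, map_zero]

/-- **RES.2**: primes different from the residue characteristic are invertible in the residue
field. -/
theorem resChar :
    ∀ (L : Type) [Field L] (A : ValuationSubring L) (ℓ p : ℕ), ℓ.Prime → p.Prime →
      A.LiesOverPrime ℓ → p ≠ ℓ → ((p : ℕ) : IsLocalRing.ResidueField A) ≠ 0 := by
  intro L _ A ℓ p hℓ hp hA hne h0
  -- `ℓ` is in the maximal ideal
  have hℓm : ((ℓ : ℕ) : A) ∈ IsLocalRing.maximalIdeal A := by
    obtain ⟨ha, hm⟩ := (ValuationSubring.mem_nonunits_iff_exists_mem_maximalIdeal).mp hA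
    have : (⟨(ℓ : L), ha⟩ : A) = ((ℓ : ℕ) : A) := by
      apply Subtype.ext; simp
    rwa [this] at hm
  -- `p` is in the maximal ideal
  have hpm : ((p : ℕ) : A) ∈ IsLocalRing.maximalIdeal A := by
    rw [← IsLocalRing.residue_eq_zero_iff]
    rw [map_natCast]
    exact h0
  -- Bezout
  have hcop : IsCoprime (p : ℤ) (ℓ : ℤ) := by
    rw [Int.isCoprime_iff_gcd_eq_one]
    exact (Nat.coprime_primes hp hℓ).mpr hne
  obtain ⟨a, b, hab⟩ := hcop
  have h1 : (1 : A) ∈ IsLocalRing.maximalIdeal A := by
    have e : (1 : A) = (a : A) * ((p : ℕ) : A) + (b : A) * ((ℓ : ℕ) : A) := by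
      have := congrArg (Int.cast : ℤ → A) hab
      push_cast at this
      rw [← this]
    rw [e]
    exact Ideal.add_mem _ (Ideal.mul_mem_left _ _ hpm) (Ideal.mul_mem_left _ _ hℓm)
  exact (Ideal.ne_top_iff_one _).mp (IsLocalRing.maximalIdeal.isMaximal A).ne_top h1

end Fermat.Agent.S18.H9

end
-- ===== PACK-END S18/H9/Res.lean

-- ===== PACK-BEGIN S37/H697/FrobF.lean
section


/-!
# S37 (helper697): coefficientwise automorphisms of the function field `k(j(q^d) : d ∣ N)`

For a field `k` and a ring automorphism `φ` of `k`, the coefficientwise map `coeffMap φ` on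
`k((q))` preserves `modularFunctionFieldFullC k N` (its generators have coefficients in the prime
ring).  This gives a semilinear automorphism `coeffSL N φ` of the function field, hence an action
on places and divisors (Prelude `SemilinearAut`).  For `φ` = Frobenius this is the map `Φ` of the
Eichler–Shimura relation.
-/

set_option autoImplicit false

noncomputable section

open HahnSeries IntermediateField AlgebraicCurve ModularCurve

namespace Fermat.Agent.S37.H697

variable {k : Type*} [Field k] (N : ℕ)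

theorem mem_fullC_iff {x : LaurentSeries k} :
    x ∈ modularFunctionFieldFullC k N ↔
      x ∈ Subfield.closure
        (Set.range (algebraMap k (LaurentSeries k)) ∪ divisorExpansionsC k N) :=
  Iff.rfl

theorem coeffMap_mem_fullC (φ : k →+* k) {x : LaurentSeries k}
    (hx : x ∈ modularFunctionFieldFullC k N) :
    coeffMap φ x ∈ modularFunctionFieldFullC k N := by
  rw [mem_fullC_iff] at hx
  induction hx using Subfield.closure_induction with
  | mem y hy =>
      rcases hy with ⟨a, rfl⟩ | ⟨d, hd, hdN, rfl⟩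
      · rw [coeffMap_algebraMap]
        exact (modularFunctionFieldFullC k N).algebraMap_mem _
      · have := hd
        rw [coeffMap_qExpand, coeffMap_jqModC]
        exact jqModCd_mem_full k N hdN
  | one => simp
  | add x y _ _ hx hy => simpa using add_mem hx hy
  | neg x _ hx => simpa using neg_mem hx
  | inv x _ hx => simpa using inv_mem hx
  | mul x y _ _ hx hy => simpa using mul_mem hx hy

/-- The coefficientwise ring automorphism of `modularFunctionFieldFullC k N` induced by a ring
automorphism of `k`. -/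
def coeffRingAut (φ : k ≃+* k) :
    (modularFunctionFieldFullC k N) ≃+* (modularFunctionFieldFullC k N) where
  toFun x := ⟨coeffMap (φ : k →+* k) (x : LaurentSeries k), coeffMap_mem_fullC N _ x.2⟩
  invFun x := ⟨coeffMap (φ.symm : k →+* k) (x : LaurentSeries k), coeffMap_mem_fullC N _ x.2⟩
  left_inv x := Subtype.ext <| by
    show coeffMap (φ.symm : k →+* k) (coeffMap (φ : k →+* k) (x : LaurentSeries k))
      = (x : LaurentSeries k)
    rw [coeffMap_coeffMap,
      coeffMap_congr (g := RingHom.id k) (RingHom.ext fun a => φ.symm_apply_apply a)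
        (x : LaurentSeries k),
      coeffMap_id]
  right_inv x := Subtype.ext <| by
    show coeffMap (φ : k →+* k) (coeffMap (φ.symm : k →+* k) (x : LaurentSeries k))
      = (x : LaurentSeries k)
    rw [coeffMap_coeffMap,
      coeffMap_congr (g := RingHom.id k) (RingHom.ext fun a => φ.apply_symm_apply a)
        (x : LaurentSeries k),
      coeffMap_id]
  map_mul' x y :=
    Subtype.ext (map_mul (coeffMap (φ : k →+* k)) (x : LaurentSeries k) (y : LaurentSeries k))
  map_add' x y :=
    Subtype.ext (map_add (coeffMap (φ : k →+* k)) (x : LaurentSeries k) (y : LaurentSeries k))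

@[simp]
theorem coe_coeffRingAut_apply (φ : k ≃+* k) (x : modularFunctionFieldFullC k N) :
    (coeffRingAut N φ x : LaurentSeries k) = coeffMap (φ : k →+* k) (x : LaurentSeries k) :=
  rfl

theorem coeffRingAut_algebraMap (φ : k ≃+* k) (a : k) :
    coeffRingAut N φ (algebraMap k (modularFunctionFieldFullC k N) a)
      = algebraMap k (modularFunctionFieldFullC k N) (φ a) :=
  Subtype.ext (coeffMap_algebraMap (φ : k →+* k) a)

/-- The semilinear automorphism of `modularFunctionFieldFullC k N` induced by a ring automorphism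
of `k`. -/
def coeffSL (φ : k ≃+* k) : SemilinearAut k (modularFunctionFieldFullC k N) :=
  ⟨(coeffRingAut N φ, φ), fun a => coeffRingAut_algebraMap N φ a⟩

@[simp]
theorem coe_coeffSL_smul (φ : k ≃+* k) (x : modularFunctionFieldFullC k N) :
    ((coeffSL N φ • x : modularFunctionFieldFullC k N) : LaurentSeries k)
      = coeffMap (φ : k →+* k) (x : LaurentSeries k) :=
  rfl

theorem coeffSL_symm (φ : k ≃+* k) : coeffSL N φ.symm = (coeffSL N φ)⁻¹ := rfl

theorem coeffSL_refl : coeffSL N (RingEquiv.refl k) = 1 := by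
  refine Subtype.ext (Prod.ext (RingEquiv.ext fun x => Subtype.ext ?_) rfl)
  show coeffMap ((RingEquiv.refl k : k ≃+* k) : k →+* k) (x : LaurentSeries k)
    = (x : LaurentSeries k)
  rw [show ((RingEquiv.refl k : k ≃+* k) : k →+* k) = RingHom.id k from RingHom.ext fun _ => rfl,
    coeffMap_id]

end Fermat.Agent.S37.H697

end
end
-- ===== PACK-END S37/H697/FrobF.lean

-- ===== PACK-BEGIN S19/H439/InertiaLift.lean
section


/-!
# Cell A3 / GR: inertia-invariant lifts of residue constants (helper439)

`V` a valuation subring of a field `K`, `k` its residue field.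

* `exists_rootOfUnity_lift`     : if `X ^ n - 1` splits in `K` then every `n`-th root of unity of
                                  `k` is the residue of an `n`-th root of unity of `K` (lying in `V`).
* `rootOfUnity_eq_of_residue_eq`: if `n` is invertible in `k`, two `n`-th roots of unity of `K` with
                                  the same residue are equal.
* `exists_pow_eq_one_of_isAlgebraic` : a nonzero element of a field of characteristic `ℓ > 0`
                                  which is algebraic over `ZMod ℓ` is a root of unity of order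
                                  prime to `ℓ`.
* `isAlgebraic_residue`         : if `K / ℚ` is algebraic and `ℓ ∈ 𝔪_V` then `k` is algebraic over
                                  `ZMod ℓ`.
* `exists_inertia_fixed_lift`   : (**I_lift_const**) `K` algebraically closed and algebraic over
                                  `ℚ`, `ℓ ∈ 𝔪_V`: every `c ∈ k` has a lift `a ∈ V` which is fixed by
                                  every ring endomorphism `σ` of `K` with `σ b - b ∈ 𝔪_V` for all
                                  `b ∈ V` (in particular by the inertia group of `V`).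
-/

set_option autoImplicit false

noncomputable section

open Polynomial IsLocalRing

namespace Fermat.Agent.S19.H439

variable {K : Type*} [Field K] (V : ValuationSubring K)

/-- A root of unity lies in every valuation subring. -/
theorem mem_of_pow_eq_one {ζ : K} {n : ℕ} (hn : n ≠ 0) (h : ζ ^ n = 1) : ζ ∈ V := by
  rcases V.mem_or_inv_mem ζ with h1 | h1
  · exact h1
  · have : ζ = (ζ⁻¹) ^ (n - 1) := by
      have e : ζ * ζ ^ (n - 1) = 1 := by
        rw [← pow_succ', Nat.sub_add_cancel (Nat.pos_of_ne_zero hn)]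
        exact h
      rw [inv_pow]
      exact eq_inv_of_mul_eq_one_left e
    rw [this]
    exact pow_mem h1 _

/-- Residues of elements of `K` lying in `V`. -/
def resOf (a : K) (ha : a ∈ V) : ResidueField V := residue V ⟨a, ha⟩

theorem resOf_eq_iff {a b : K} (ha : a ∈ V) (hb : b ∈ V) :
    resOf V a ha = resOf V b hb ↔ a - b ∈ V.nonunits := by
  unfold resOf
  rw [← sub_eq_zero, ← map_sub, residue_eq_zero_iff, ← V.coe_mem_nonunits_iff]
  rfl

/-- If `n` is invertible in the residue field, two `n`-th roots of unity with the same residue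
are equal. -/
theorem rootOfUnity_eq_of_residue_eq {n : ℕ} (hn : (n : ResidueField V) ≠ 0) {ζ ζ' : K}
    (hζ : ζ ^ n = 1) (hζ' : ζ' ^ n = 1) (h : ζ - ζ' ∈ V.nonunits) : ζ = ζ' := by
  have hn0 : n ≠ 0 := by
    rintro rfl
    exact hn (by simp)
  have hζ'0 : ζ' ≠ 0 := by
    rintro rfl
    rw [zero_pow hn0] at hζ'
    exact zero_ne_one hζ'
  have hζ'V : ζ' ∈ V := mem_of_pow_eq_one V hn0 hζ'
  have hζV : ζ ∈ V := mem_of_pow_eq_one V hn0 hζ
  -- `u = ζ / ζ'`
  set u : K := ζ / ζ' with hu
  have hun : u ^ n = 1 := by rw [hu, div_pow, hζ, hζ', div_one]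
  have huV : u ∈ V := mem_of_pow_eq_one V hn0 hun
  have hζ'inv : ζ'⁻¹ ∈ V := mem_of_pow_eq_one V hn0 (by rw [inv_pow, hζ', inv_one])
  have hu1 : u - 1 ∈ V.nonunits := by
    have e : u - 1 = (ζ - ζ') * ζ'⁻¹ := by
      rw [hu]; field_simp
    rw [e]
    have hmax : (⟨ζ, hζV⟩ - ⟨ζ', hζ'V⟩ : V) ∈ maximalIdeal V := by
      rw [← V.coe_mem_nonunits_iff]
      exact h
    have hmul := Ideal.mul_mem_right (⟨ζ'⁻¹, hζ'inv⟩ : V) _ hmax
    rw [← V.coe_mem_nonunits_iff] at hmul
    exact hmul
  by_contra hne
  have hune : u ≠ 1 := by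
    intro h1
    apply hne
    rw [hu, div_eq_one_iff_eq hζ'0] at h1
    exact h1
  -- geometric sum
  have hgeom : ∑ i ∈ Finset.range n, u ^ i = 0 := by
    have := mul_neg_geom_sum u n
    rw [hun, sub_self] at this
    rcases mul_eq_zero.mp this with h1 | h1
    · exact absurd (sub_eq_zero.mp h1).symm hune
    · exact h1
  -- reduce
  let uV : V := ⟨u, huV⟩
  have hres : residue V uV = 1 := by
    rw [← sub_eq_zero, ← map_one (residue V), ← map_sub, residue_eq_zero_iff,
      ← V.coe_mem_nonunits_iff]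
    exact hu1
  have hsumV : ∑ i ∈ Finset.range n, uV ^ i = 0 := by
    apply Subtype.ext
    push_cast
    exact hgeom
  have := congrArg (residue V) hsumV
  rw [map_sum, map_zero] at this
  simp only [map_pow, hres, one_pow, Finset.sum_const, Finset.card_range, nsmul_eq_mul,
    mul_one] at this
  exact hn this

/-- If `X ^ n - 1` splits in `K`, every `n`-th root of unity of the residue field is the residue
of an `n`-th root of unity of `K`. -/
theorem exists_rootOfUnity_lift [IsAlgClosed K] {n : ℕ} (hn : n ≠ 0) {c : ResidueField V}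
    (hc : c ^ n = 1) :
    ∃ (ζ : K) (hζ : ζ ∈ V), ζ ^ n = 1 ∧ residue V ⟨ζ, hζ⟩ = c := by
  classical
  -- factor `X ^ n - 1` over `K`
  have hsplit : (X ^ n - 1 : K[X]).Splits := IsAlgClosed.splits _
  have hmonic : (X ^ n - 1 : K[X]).Monic := monic_X_pow_sub_C 1 hn
  have hprod := hsplit.eq_prod_roots_of_monic hmonic
  set s := (X ^ n - 1 : K[X]).roots with hs
  have hroot : ∀ ζ ∈ s, ζ ^ n = 1 := by
    intro ζ hζ
    have := (mem_roots hmonic.ne_zero).mp hζ
    simpa [sub_eq_zero] using this
  have hmemV : ∀ ζ ∈ s, ζ ∈ V := fun ζ hζ => mem_of_pow_eq_one V hn (hroot ζ hζ)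
  -- the multiset of roots, as elements of `V`
  let t : Multiset V := s.pmap (fun ζ h => (⟨ζ, h⟩ : V)) hmemV
  have ht : t.map (fun a : V => (a : K)) = s := by
    simp only [t]
    rw [Multiset.map_pmap, Multiset.pmap_eq_map, Multiset.map_id']
  have hprodV : (X ^ n - 1 : V[X]) = (t.map fun a => X - C a).prod := by
    apply Polynomial.map_injective V.subtype Subtype.val_injective
    rw [Polynomial.map_sub, Polynomial.map_pow, Polynomial.map_X, Polynomial.map_one,
      Polynomial.map_multiset_prod, Multiset.map_map]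
    conv_lhs => rw [hprod]
    rw [← ht, Multiset.map_map]
    congr 1
    apply Multiset.map_congr rfl
    intro a _
    simp
  have hprodk : (X ^ n - 1 : (ResidueField V)[X])
      = (t.map fun a => X - C (residue V a)).prod := by
    have := congrArg (Polynomial.map (residue V)) hprodV
    rw [Polynomial.map_sub, Polynomial.map_pow, Polynomial.map_X, Polynomial.map_one,
      Polynomial.map_multiset_prod, Multiset.map_map] at this
    rw [this]
    congr 1
    apply Multiset.map_congr rfl
    intro a _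
    simp
  have hev : ((t.map fun a => X - C (residue V a)).prod).eval c = 0 := by
    rw [← hprodk]
    simp [hc]
  rw [Polynomial.eval_multiset_prod, Multiset.prod_eq_zero_iff, Multiset.map_map] at hev
  obtain ⟨a, ha, hac⟩ := Multiset.mem_map.mp hev
  simp only [Function.comp_apply, eval_sub, eval_X, eval_C] at hac
  have hat : (a : K) ∈ s := by
    rw [← ht]
    exact Multiset.mem_map_of_mem _ ha
  refine ⟨a, a.2, hroot _ hat, ?_⟩
  have : residue V a = c := (sub_eq_zero.mp hac).symm
  exact this

/-- A nonzero element of a field of characteristic `ℓ`, algebraic over `ZMod ℓ`, is a root of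
unity of order prime to `ℓ`. -/
theorem exists_pow_eq_one_of_isAlgebraic {k : Type*} [Field k] {ℓ : ℕ} [Fact ℓ.Prime]
    [Algebra (ZMod ℓ) k] {c : k} (hc : c ≠ 0) (halg : IsAlgebraic (ZMod ℓ) c) :
    ∃ n : ℕ, n ≠ 0 ∧ (n : k) ≠ 0 ∧ c ^ n = 1 := by
  classical
  let E := IntermediateField.adjoin (ZMod ℓ) {c}
  have : FiniteDimensional (ZMod ℓ) E :=
    IntermediateField.adjoin.finiteDimensional halg.isIntegral
  have : Finite E := Module.finite_of_finite (ZMod ℓ)
  let _ : Fintype E := Fintype.ofFinite E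
  let cE : E := ⟨c, IntermediateField.mem_adjoin_simple_self (ZMod ℓ) c⟩
  have hcE : cE ≠ 0 := fun h => hc (congrArg Subtype.val h)
  have hpow := FiniteField.pow_card_sub_one_eq_one cE hcE
  have hcard0 : ((Fintype.card E : ℕ) : E) = 0 := FiniteField.cast_card_eq_zero E
  have hcard1 : 1 < Fintype.card E := Fintype.one_lt_card
  refine ⟨Fintype.card E - 1, by omega, ?_, ?_⟩
  · have h1 : ((Fintype.card E - 1 : ℕ) : E) = -1 := by
      rw [Nat.cast_sub hcard1.le, hcard0, Nat.cast_one, zero_sub]
    intro h0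
    have h2 : ((Fintype.card E - 1 : ℕ) : k) = algebraMap E k ((Fintype.card E - 1 : ℕ) : E) := by
      rw [map_natCast]
    rw [h2, h1, map_neg, map_one] at h0
    exact one_ne_zero (neg_eq_zero.mp h0)
  · have := congrArg (algebraMap E k) hpow
    rw [map_pow, map_one] at this
    exact this

section Residue

variable {ℓ : ℕ} [Fact ℓ.Prime]

omit [Fact ℓ.Prime] in
/-- The residue field of a valuation ring containing `ℓ` in its maximal ideal has
characteristic `ℓ`. -/
theorem natCast_residue_eq_zero' (hℓ : (ℓ : K) ∈ V.nonunits) : ((ℓ : ℕ) : ResidueField V) = 0 := by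
  have h1 : ((ℓ : V) : K) ∈ V.nonunits := by
    have : ((ℓ : V) : K) = (ℓ : K) := by simp
    rw [this]; exact hℓ
  have h2 : (ℓ : V) ∈ maximalIdeal V := V.coe_mem_nonunits_iff.mp h1
  have h3 := (residue_eq_zero_iff (ℓ : V)).mpr h2
  rwa [map_natCast] at h3

theorem charP_residueField (hℓ : (ℓ : K) ∈ V.nonunits) : CharP (ResidueField V) ℓ := by
  obtain ⟨p, hp⟩ := CharP.exists (ResidueField V)
  have hdvd : p ∣ ℓ := (CharP.cast_eq_zero_iff (ResidueField V) p ℓ).mp
    (natCast_residue_eq_zero' V hℓ)
  rcases (Nat.dvd_prime (Fact.out : ℓ.Prime)).mp hdvd with h1 | h1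
  · subst h1
    exact absurd rfl (CharP.char_ne_one (ResidueField V) 1)
  · subst h1
    exact hp

/-- If `K` is algebraic over `ℚ`, every residue is a root of a polynomial with integer
coefficients which is nonzero modulo `ℓ`. -/
theorem exists_int_poly_residue [Algebra ℚ K] [Algebra.IsAlgebraic ℚ K] (a : K) (ha : a ∈ V) :
    ∃ q : ℤ[X], q.map (Int.castRingHom (ZMod ℓ)) ≠ 0 ∧
      q.eval₂ (Int.castRingHom (ResidueField V)) (residue V ⟨a, ha⟩) = 0 := by
  have hcz : CharZero K := charZero_of_injective_algebraMap (algebraMap ℚ K).injective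
  have halg : IsAlgebraic ℚ a := Algebra.IsAlgebraic.isAlgebraic a
  have halgZ : IsAlgebraic ℤ a := (IsFractionRing.isAlgebraic_iff ℤ ℚ K).mpr halg
  obtain ⟨p, hp0, hpa⟩ := halgZ
  have hq := Polynomial.aeval_primPart_eq_zero hp0 hpa
  refine ⟨p.primPart, ?_, ?_⟩
  · intro h0
    have hdvd : C (ℓ : ℤ) ∣ p.primPart := by
      rw [Polynomial.C_dvd_iff_dvd_coeff]
      intro i
      have := congrArg (fun r => Polynomial.coeff r i) h0
      simp only [coeff_map, coeff_zero, eq_intCast] at this
      exact (ZMod.intCast_zmod_eq_zero_iff_dvd _ _).mp this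
    have hu := (Polynomial.isPrimitive_primPart p) _ hdvd
    have hprime : Prime (ℓ : ℤ) := Nat.prime_iff_prime_int.mp (Fact.out : ℓ.Prime)
    exact hprime.not_isUnit hu
  · -- evaluate in `V`, then reduce
    have h1 : V.subtype (p.primPart.eval₂ (Int.castRingHom V) (⟨a, ha⟩ : V))
        = p.primPart.eval₂ (Int.castRingHom K) a := by
      rw [Polynomial.hom_eval₂ p.primPart (Int.castRingHom V) V.subtype (⟨a, ha⟩ : V)]
      have e : V.subtype.comp (Int.castRingHom V) = Int.castRingHom K := RingHom.ext_int _ _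
      rw [e]
      rfl
    have h2 : p.primPart.eval₂ (Int.castRingHom K) a = 0 := by
      rw [← hq, Polynomial.aeval_def]
      have e : algebraMap ℤ K = Int.castRingHom K := RingHom.ext_int _ _
      rw [e]
    have hinj : Function.Injective V.subtype := fun x y h => Subtype.ext h
    have h3 : p.primPart.eval₂ (Int.castRingHom V) (⟨a, ha⟩ : V) = 0 :=
      hinj ((h1.trans h2).trans (map_zero V.subtype).symm)
    have h4 := congrArg (residue V) h3
    rw [map_zero, Polynomial.hom_eval₂] at h4
    have e : (residue V).comp (Int.castRingHom V) = Int.castRingHom (ResidueField V) :=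
      RingHom.ext_int _ _
    rw [e] at h4
    exact h4

/-- **Inertia-invariant lifts of residue constants** (`I_lift_const`).  Let `K` be algebraically
closed and algebraic over `ℚ`, `V` a valuation subring with `ℓ ∈ 𝔪_V`.  Every element of the
residue field has a lift `a ∈ V` (namely `0` or a root of unity of order prime to `ℓ`) which is
fixed by every ring endomorphism `σ` of `K` with `σ b ≡ b mod 𝔪_V` for all `b ∈ V`. -/
theorem exists_inertia_fixed_lift [IsAlgClosed K] [Algebra ℚ K] [Algebra.IsAlgebraic ℚ K]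
    (hℓ : (ℓ : K) ∈ V.nonunits) (c : ResidueField V) :
    ∃ (a : K) (ha : a ∈ V), residue V ⟨a, ha⟩ = c ∧
      ∀ σ : K →+* K, (∀ b ∈ V, σ b - b ∈ V.nonunits) → σ a = a := by
  by_cases hc : c = 0
  · refine ⟨0, V.zero_mem, ?_, fun σ _ => map_zero σ⟩
    rw [hc]
    exact map_zero (residue V)
  have hchar := charP_residueField V hℓ
  let _ : Algebra (ZMod ℓ) (ResidueField V) := ZMod.algebra _ ℓ
  obtain ⟨a₀, rfl⟩ := residue_surjective (R := V) c
  obtain ⟨q, hq0, hq⟩ := exists_int_poly_residue (ℓ := ℓ) V (a₀ : K) a₀.2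
  have halg : IsAlgebraic (ZMod ℓ) (residue V a₀) := by
    refine ⟨q.map (Int.castRingHom (ZMod ℓ)), hq0, ?_⟩
    rw [Polynomial.aeval_def, Polynomial.eval₂_map]
    rw [← hq]
    congr 1
    exact RingHom.ext_int _ _
  obtain ⟨n, hn0, hnk, hpow⟩ := exists_pow_eq_one_of_isAlgebraic (ℓ := ℓ) hc halg
  obtain ⟨ζ, hζV, hζn, hζc⟩ := exists_rootOfUnity_lift V hn0 hpow
  refine ⟨ζ, hζV, hζc, fun σ hσ => ?_⟩
  have h1 : (σ ζ) ^ n = 1 := by rw [← map_pow, hζn, map_one]
  exact rootOfUnity_eq_of_residue_eq V hnk h1 hζn (hσ ζ hζV)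

end Residue

end Fermat.Agent.S19.H439

end
end
-- ===== PACK-END S19/H439/InertiaLift.lean

-- ===== PACK-BEGIN S28/H988/Coprime.lean
section
/-
S28 / [L.UP] upper bound, helper988.
Pure algebra (Mathlib only):
* `isCoprime_map_of_reduction`: two monic polynomials over `k⟦X⟧`, one with unit constant
  coefficient, the other congruent to `X ^ m` modulo the maximal ideal, are coprime over `k⸨X⸩`.
* `mem_range_of_common_root`: the "gcd lemma": a common root `x` of two polynomials over a
  subfield `F`, such that the two quotients by `X - x` are coprime, lies in `F`.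
-/


set_option autoImplicit false

noncomputable section

open Polynomial

namespace Fermat.Agent.S28.H988

section Reduction

variable {k : Type*} [Field k]

/-- A monic polynomial over `k⟦X⟧` all of whose lower coefficients lie in the maximal ideal
reduces to `X ^ natDegree`. -/
theorem map_constantCoeff_eq_X_pow (g : Polynomial (PowerSeries k)) (hg : g.Monic)
    (hc : ∀ i < g.natDegree, PowerSeries.constantCoeff (g.coeff i) = 0) :
    g.map (PowerSeries.constantCoeff (R := k)) = X ^ g.natDegree := by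
  ext i
  rw [coeff_map, coeff_X_pow]
  rcases lt_trichotomy i g.natDegree with h | h | h
  · rw [hc i h, if_neg (ne_of_lt h)]
  · rw [h, if_pos rfl, coeff_natDegree, hg.leadingCoeff, map_one]
  · rw [coeff_eq_zero_of_natDegree_lt h, map_zero, if_neg (ne_of_gt h)]

/-- Two monic polynomials over `k⟦X⟧`, one with unit constant coefficient, the other congruent
to `X ^ m` modulo the maximal ideal, are coprime over `k⸨X⸩`. -/
theorem isCoprime_map_of_reduction
    (g₁ g₂ : Polynomial (PowerSeries k)) (h₁ : g₁.Monic) (h₂ : g₂.Monic)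
    (hc₁ : PowerSeries.constantCoeff (g₁.coeff 0) ≠ 0)
    (hc₂ : ∀ i < g₂.natDegree, PowerSeries.constantCoeff (g₂.coeff i) = 0) :
    IsCoprime (g₁.map (algebraMap (PowerSeries k) (LaurentSeries k)))
      (g₂.map (algebraMap (PowerSeries k) (LaurentSeries k))) := by
  classical
  set φ := algebraMap (PowerSeries k) (LaurentSeries k) with hφ
  have hφinj : Function.Injective φ := IsFractionRing.injective _ _
  rw [← EuclideanDomain.gcd_isUnit_iff]
  set H := EuclideanDomain.gcd (g₁.map φ) (g₂.map φ) with hH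
  have hHne : H ≠ 0 := by
    intro h0
    have := (EuclideanDomain.gcd_eq_zero_iff.mp h0).1
    exact (h₁.map φ).ne_zero this
  have hH1 : H ∣ g₁.map φ := EuclideanDomain.gcd_dvd_left _ _
  have hH2 : H ∣ g₂.map φ := EuclideanDomain.gcd_dvd_right _ _
  -- normalise
  set H' := H * C (leadingCoeff H)⁻¹ with hH'
  have hH'monic : H'.Monic := monic_mul_leadingCoeff_inv hHne
  have hunit : IsUnit (C (leadingCoeff H)⁻¹ : Polynomial (LaurentSeries k)) :=
    isUnit_C.mpr (IsUnit.mk0 _ (inv_ne_zero (leadingCoeff_ne_zero.mpr hHne)))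
  have hH'1 : H' ∣ g₁.map φ := (hunit.mul_right_dvd).mpr hH1
  have hH'2 : H' ∣ g₂.map φ := (hunit.mul_right_dvd).mpr hH2
  obtain ⟨h', hh'⟩ := IsIntegrallyClosed.eq_map_mul_C_of_dvd (LaurentSeries k) h₁ hH'1
  rw [hH'monic.leadingCoeff, map_one, mul_one] at hh'
  have hh'monic : h'.Monic := monic_of_injective hφinj (by rw [hh']; exact hH'monic)
  have hd1 : h' ∣ g₁ := (map_dvd_map φ hφinj hh'monic).mp (by rw [hh']; exact hH'1)
  have hd2 : h' ∣ g₂ := (map_dvd_map φ hφinj hh'monic).mp (by rw [hh']; exact hH'2)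
  -- reduce modulo the maximal ideal
  set ψ := PowerSeries.constantCoeff (R := k) with hψ
  have hb1 : h'.map ψ ∣ g₁.map ψ := Polynomial.map_dvd ψ hd1
  have hb2 : h'.map ψ ∣ X ^ g₂.natDegree := by
    rw [← map_constantCoeff_eq_X_pow g₂ h₂ hc₂]
    exact Polynomial.map_dvd ψ hd2
  have hbmonic : (h'.map ψ).Monic := hh'monic.map ψ
  obtain ⟨i, _, hi⟩ := (dvd_prime_pow (prime_X (R := k)) _).mp hb2
  have hi0 : i = 0 := by
    by_contra hne
    have hX : (X : Polynomial k) ∣ h'.map ψ :=
      (dvd_pow_self X hne).trans hi.symm.dvd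
    have := hX.trans hb1
    rw [X_dvd_iff, coeff_map] at this
    exact hc₁ this
  rw [hi0, pow_zero] at hi
  have hdeg0 : (h'.map ψ).natDegree = 0 := by
    have := natDegree_eq_of_degree_eq (degree_eq_degree_of_associated hi)
    simpa using this
  have hh'deg : h'.natDegree = 0 := by
    rw [← hdeg0, hh'monic.natDegree_map]
  have hh'one : h' = 1 := by
    have := eq_C_of_natDegree_eq_zero hh'deg
    rw [this]
    have hc : h'.coeff 0 = 1 := by
      have := hh'monic.leadingCoeff
      rwa [leadingCoeff, hh'deg] at this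
    rw [hc, C_1]
  have hH'one : H' = 1 := by rw [← hh', hh'one, Polynomial.map_one]
  have : IsUnit H' := by rw [hH'one]; exact isUnit_one
  exact (IsUnit.mul_iff.mp this).1

end Reduction

section GcdLemma

variable {F K : Type*} [Field F] [Field K] [Algebra F K]

/-- The gcd lemma: if `x` is a common root of `A` and `B` (polynomials over the subfield `F`)
and the quotients of `A` and `B` by `X - x` are coprime over the big field, then `x ∈ F`. -/
theorem mem_range_of_common_root (A B : Polynomial F) (hA : A ≠ 0) (x : K)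
    (hAx : (A.map (algebraMap F K)).IsRoot x) (hBx : (B.map (algebraMap F K)).IsRoot x)
    (hcop : IsCoprime ((A.map (algebraMap F K)) /ₘ (X - C x))
      ((B.map (algebraMap F K)) /ₘ (X - C x))) :
    x ∈ (algebraMap F K).range := by
  have hAx' : aeval x A = 0 := by
    rw [aeval_def, eval₂_eq_eval_map]; exact hAx
  have hBx' : aeval x B = 0 := by
    rw [aeval_def, eval₂_eq_eval_map]; exact hBx
  have hint : IsIntegral F x := by
    refine ⟨A * C (leadingCoeff A)⁻¹, monic_mul_leadingCoeff_inv hA, ?_⟩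
    rw [eval₂_mul, ← aeval_def, hAx', zero_mul]
  rw [← minpoly.natDegree_eq_one_iff]
  set μ := minpoly F x with hμ
  have hμA : μ ∣ A := minpoly.dvd F x hAx'
  have hμB : μ ∣ B := minpoly.dvd F x hBx'
  set φ := algebraMap F K with hφ
  have hμroot : (μ.map φ).IsRoot x := by
    have := minpoly.aeval F x
    rw [aeval_def, eval₂_eq_eval_map] at this
    exact this
  have e1 := mul_divByMonic_eq_iff_isRoot.mpr hμroot
  have e2 := mul_divByMonic_eq_iff_isRoot.mpr hAx
  have e3 := mul_divByMonic_eq_iff_isRoot.mpr hBx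
  have hne : (X - C x : Polynomial K) ≠ 0 := X_sub_C_ne_zero x
  have d1 : (μ.map φ) /ₘ (X - C x) ∣ (A.map φ) /ₘ (X - C x) := by
    have : μ.map φ ∣ A.map φ := Polynomial.map_dvd φ hμA
    rw [← e1, ← e2] at this
    exact (mul_dvd_mul_iff_left hne).mp this
  have d2 : (μ.map φ) /ₘ (X - C x) ∣ (B.map φ) /ₘ (X - C x) := by
    have : μ.map φ ∣ B.map φ := Polynomial.map_dvd φ hμB
    rw [← e1, ← e3] at this
    exact (mul_dvd_mul_iff_left hne).mp this
  have hu : IsUnit ((μ.map φ) /ₘ (X - C x)) := hcop.isUnit_of_dvd' d1 d2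
  have hdeg : (μ.map φ).natDegree = 1 := by
    rw [← e1, natDegree_mul hne hu.ne_zero, natDegree_X_sub_C, natDegree_eq_zero_of_isUnit hu]
  rwa [natDegree_map] at hdeg

end GcdLemma

end Fermat.Agent.S28.H988

end

end
-- ===== PACK-END S28/H988/Coprime.lean

-- ===== PACK-BEGIN S18/H278/NCVal.lean
section


/-!
# S18 / ALG-FRONT, piece hNC (helper278), part 1: the valuation-theoretic core

`Ω` a field, `Lc ≤ Ω` an algebraically closed subfield, `x : Ω`, `S` a finite set (branch values).
Hypothesis `Unramified Lc x S` = the field `unramified` of `Alg.GoodModel` (`Alg/Spec.lean`):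
at a place `O ⊇ Lc` of `Ω` where `x` takes a value `c ∈ Lc`, `c ∉ S`, `x - c` is a uniformiser.

`mul_inv_mem_of_unramified` : if `P ∈ Lc[X]` is separable without roots in `S` and `P(x)` is a
nonunit of `O`, then `P(x)` is a uniformiser of `O`: `t / P(x) ∈ O` for every nonunit `t` of `O`.
-/

set_option autoImplicit false
set_option linter.unusedSectionVars false

namespace Fermat.Agent.S18.H278

open Polynomial

section Val

variable {Ω : Type*} [Field Ω]

/-- The `unramified` field of `Alg.GoodModel`, as a standalone predicate. -/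
def Unramified (Lc : Subfield Ω) (x : Ω) (S : Finset Ω) : Prop :=
  ∀ O : ValuationSubring Ω, (∀ a ∈ Lc, a ∈ O) → ∀ c ∈ Lc, c ∉ S →
    x - c ∈ O → (x - c)⁻¹ ∉ O → ∀ t ∈ O, t⁻¹ ∉ O → t * (x - c)⁻¹ ∈ O

variable (O : ValuationSubring Ω) (Lc : Subfield Ω) (hLO : ∀ a ∈ Lc, a ∈ O)

/-- `t ∈ O`, `t⁻¹ ∉ O` means valuation `< 1`. -/
theorem valuation_lt_one_of_inv_not_mem {t : Ω} (ht : t ∈ O) (ht' : t⁻¹ ∉ O) :
    O.valuation t < 1 := by
  rcases eq_or_ne t 0 with rfl | h0
  · exact absurd (by rw [inv_zero]; exact O.zero_mem) ht'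
  have h1 : O.valuation t ≤ 1 := (O.valuation_le_one_iff t).mpr ht
  refine lt_of_le_of_ne h1 fun h => ht' ?_
  rw [← O.valuation_le_one_iff, map_inv₀, h, inv_one]

theorem inv_not_mem_of_valuation_lt_one {t : Ω} (h0 : t ≠ 0) (ht : O.valuation t < 1) :
    t⁻¹ ∉ O := by
  intro h
  have h1 : O.valuation t⁻¹ ≤ 1 := (O.valuation_le_one_iff _).mpr h
  have h2 : O.valuation (t * t⁻¹) < 1 := by
    rw [map_mul]
    exact mul_lt_one_of_lt_of_le ht h1
  rw [mul_inv_cancel₀ h0, map_one] at h2
  exact lt_irrefl _ h2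

include hLO in
/-- A nonzero constant is a unit of `O`. -/
theorem valuation_eq_one_of_mem {a : Ω} (ha : a ∈ Lc) (ha0 : a ≠ 0) : O.valuation a = 1 := by
  have h1 : O.valuation a ≤ 1 := (O.valuation_le_one_iff a).mpr (hLO a ha)
  refine le_antisymm h1 ?_
  by_contra h
  rw [not_le] at h
  exact inv_not_mem_of_valuation_lt_one O ha0 h (hLO _ (Lc.inv_mem ha))

include hLO in
/-- A polynomial with constant coefficients evaluated at an element of `O` lies in `O`. -/
theorem aeval_mem_of_mem (Q : Polynomial Lc) {y : Ω} (hy : y ∈ O) : aeval y Q ∈ O := by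
  induction Q using Polynomial.induction_on' with
  | add p q hp hq => rw [map_add]; exact O.add_mem _ _ hp hq
  | monomial n a =>
    rw [aeval_monomial]
    exact O.mul_mem _ _ (hLO _ a.2) (pow_mem hy n)

include hLO in
/-- `Q(y) ≡ Q(c)` modulo `y - c`. -/
theorem valuation_aeval_sub_le (Q : Polynomial Lc) {y : Ω} (hy : y ∈ O) (c : Lc) :
    O.valuation (aeval y Q - ((Q.eval c : Lc) : Ω)) ≤ O.valuation (y - (c : Ω)) := by
  obtain ⟨Q₁, hQ₁⟩ : (X - C c) ∣ Q - C (Q.eval c) := by
    rw [dvd_iff_isRoot]
    simp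
  have h1 : aeval y Q - ((Q.eval c : Lc) : Ω) = (y - (c : Ω)) * aeval y Q₁ := by
    have := congrArg (aeval y) hQ₁
    rw [map_sub, map_mul, map_sub, aeval_X, aeval_C, aeval_C] at this
    exact this
  rw [h1, map_mul]
  exact mul_le_of_le_one_right' ((O.valuation_le_one_iff _).mpr (aeval_mem_of_mem O Lc hLO Q₁ hy))

include hLO in
/-- **Uniformiser lemma.**  If `P ∈ Lc[X]` is separable with no root in `S` and `P(x)` is a
nonunit of the place `O ⊇ Lc`, then `P(x)` is a uniformiser of `O`. -/
theorem mul_inv_mem_of_unramified [IsAlgClosed Lc] {x : Ω} {S : Finset Ω}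
    (hunr : Unramified Lc x S)
    (P : Polynomial Lc) (hPsep : P.Separable) (hroots : ∀ c : Lc, P.IsRoot c → (c : Ω) ∉ S)
    (hπO : aeval x P ∈ O) (hπ : (aeval x P)⁻¹ ∉ O) :
    ∀ t ∈ O, t⁻¹ ∉ O → t * (aeval x P)⁻¹ ∈ O := by
  have hP0 : P ≠ 0 := hPsep.ne_zero
  have hvπ : O.valuation (aeval x P) < 1 := valuation_lt_one_of_inv_not_mem O hπO hπ
  have hlead : O.valuation ((P.leadingCoeff : Lc) : Ω) = 1 :=
    valuation_eq_one_of_mem O Lc hLO (P.leadingCoeff).2
      (by simpa using leadingCoeff_ne_zero.mpr hP0)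
  -- `x ∈ O`
  have hxO : x ∈ O := by
    by_contra hx
    have hx0 : x ≠ 0 := fun h => hx (h ▸ O.zero_mem)
    have hxinv : x⁻¹ ∈ O := (O.mem_or_inv_mem x).resolve_left hx
    have hvx : O.valuation x⁻¹ < 1 :=
      valuation_lt_one_of_inv_not_mem O hxinv (by rwa [inv_inv])
    let _inst := invertibleOfNonzero hx0
    have h1 := eval₂_reverse_mul_pow (algebraMap Lc Ω) x P
    rw [invOf_eq_inv] at h1
    have h2 : O.valuation (aeval x⁻¹ P.reverse) = 1 := by
      have h3 := valuation_aeval_sub_le O Lc hLO P.reverse hxinv 0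
      have h4 : P.reverse.eval 0 = P.leadingCoeff := by
        rw [← coeff_zero_eq_eval_zero, coeff_zero_reverse]
      rw [h4] at h3
      have h3' : O.valuation (aeval x⁻¹ P.reverse - ((P.leadingCoeff : Lc) : Ω)) ≤
          O.valuation x⁻¹ := by simpa using h3
      have h6 : O.valuation (aeval x⁻¹ P.reverse - ((P.leadingCoeff : Lc) : Ω)) <
          O.valuation ((P.leadingCoeff : Lc) : Ω) := by
        rw [hlead]; exact lt_of_le_of_lt h3' hvx
      rw [Valuation.map_eq_of_sub_lt _ h6, hlead]
    have h7 : O.valuation (aeval x P) = O.valuation x ^ P.natDegree := by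
      rw [aeval_def, ← h1, map_mul, map_pow, ← aeval_def, h2, one_mul]
    have h8 : 1 ≤ O.valuation x := by
      by_contra h
      rw [not_le] at h
      exact hx ((O.valuation_le_one_iff x).mp h.le)
    have h9 : 1 ≤ O.valuation x ^ P.natDegree := one_le_pow₀ h8
    rw [← h7] at h9
    exact absurd hvπ (not_lt.mpr h9)
  -- a root `c₀` with `x - c₀` a nonunit
  have hsplit := (IsAlgClosed.splits P).eq_prod_roots
  have hprod : aeval x P =
      ((P.leadingCoeff : Lc) : Ω) * (P.roots.map (fun c : Lc => x - (c : Ω))).prod := by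
    conv_lhs => rw [hsplit]
    rw [map_mul, aeval_C, map_multiset_prod, Multiset.map_map]
    congr 2
    refine Multiset.map_congr rfl fun c _ => ?_
    simp only [Function.comp_apply, map_sub, aeval_X, aeval_C]
    rfl
  obtain ⟨c₀, hc₀, hvc₀⟩ : ∃ c₀ ∈ P.roots, O.valuation (x - (c₀ : Ω)) < 1 := by
    by_contra hcon
    push Not at hcon
    have hall : ∀ c ∈ P.roots, O.valuation (x - (c : Ω)) = 1 := fun c hc =>
      le_antisymm ((O.valuation_le_one_iff _).mpr (O.sub_mem hxO (hLO _ c.2))) (hcon c hc)
    have h1 : O.valuation (aeval x P) = 1 := by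
      rw [hprod, map_mul, hlead, one_mul, map_multiset_prod, Multiset.map_map]
      apply Multiset.prod_eq_one
      intro a ha
      obtain ⟨c, hc, rfl⟩ := Multiset.mem_map.mp ha
      exact hall c hc
    rw [h1] at hvπ
    exact lt_irrefl _ hvπ
  have hroot : P.IsRoot c₀ := isRoot_of_mem_roots hc₀
  have hc₀S : (c₀ : Ω) ∉ S := hroots c₀ hroot
  have hxc₀ : x - (c₀ : Ω) ∈ O := O.sub_mem hxO (hLO _ c₀.2)
  have hxc₀0 : x - (c₀ : Ω) ≠ 0 := by
    intro h
    have hx' : aeval x P = 0 := by
      rw [sub_eq_zero] at h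
      have h2 : aeval (algebraMap Lc Ω c₀) P = algebraMap Lc Ω (P.eval c₀) :=
        aeval_algebraMap_apply_eq_algebraMap_eval c₀ P
      rw [h]
      show aeval (algebraMap Lc Ω c₀) P = 0
      rw [h2, hroot.eq_zero, map_zero]
    rw [hx', inv_zero] at hπ
    exact hπ O.zero_mem
  have hxc₀inv : (x - (c₀ : Ω))⁻¹ ∉ O := inv_not_mem_of_valuation_lt_one O hxc₀0 hvc₀
  -- `P = (X - c₀) Q` with `Q(c₀) ≠ 0`
  set Q := P /ₘ (X - C c₀) with hQ
  have hPQ : (X - C c₀) * Q = P := mul_divByMonic_eq_iff_isRoot.mpr hroot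
  have hQc₀ : Q.eval c₀ ≠ 0 := by
    have hder := hPsep.eval₂_derivative_ne_zero (RingHom.id Lc) (x := c₀)
      (by rw [eval₂_id]; exact hroot)
    rw [eval₂_id] at hder
    intro h0
    apply hder
    rw [← hPQ, derivative_mul, eval_add, eval_mul, eval_mul, derivative_sub, derivative_X,
      derivative_C, sub_zero, eval_one, one_mul, eval_sub, eval_X, eval_C, sub_self, zero_mul,
      add_zero, h0]
  have hvQ : O.valuation (aeval x Q) = 1 := by
    have h3 := valuation_aeval_sub_le O Lc hLO Q hxO c₀
    have h5 : O.valuation ((Q.eval c₀ : Lc) : Ω) = 1 :=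
      valuation_eq_one_of_mem O Lc hLO (Q.eval c₀).2 (by simpa using hQc₀)
    have h6 : O.valuation (aeval x Q - ((Q.eval c₀ : Lc) : Ω)) <
        O.valuation ((Q.eval c₀ : Lc) : Ω) := by
      rw [h5]; exact lt_of_le_of_lt h3 hvc₀
    rw [Valuation.map_eq_of_sub_lt _ h6, h5]
  have hvP : O.valuation (aeval x P) = O.valuation (x - (c₀ : Ω)) := by
    rw [← hPQ, map_mul, map_mul, hvQ, mul_one, map_sub, aeval_X, aeval_C]
    rfl
  -- conclusion
  intro t ht ht'
  have h1 : t * (x - (c₀ : Ω))⁻¹ ∈ O := hunr O hLO c₀ c₀.2 hc₀S hxc₀ hxc₀inv t ht ht'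
  rw [← O.valuation_le_one_iff] at h1 ⊢
  rwa [map_mul, map_inv₀, hvP, ← map_inv₀, ← map_mul]

/-- The branch values in the chart at infinity. -/
def invBranch [DecidableEq Ω] (S : Finset Ω) : Finset Ω := insert 0 (S.image fun s => s⁻¹)

/-- **Chart at infinity**: `Unramified` for `x` and `S` implies `Unramified` for `x⁻¹` and
`{0} ∪ S⁻¹`. -/
theorem Unramified.inv [DecidableEq Ω] {Lc : Subfield Ω} {x : Ω} {S : Finset Ω}
    (hunr : Unramified Lc x S) : Unramified Lc x⁻¹ (invBranch S) := by
  intro O hLO c' hc'L hc'S hmem hinv t ht ht'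
  have hc'0 : c' ≠ 0 := by
    rintro rfl
    exact hc'S (Finset.mem_insert_self _ _)
  have hcS : c'⁻¹ ∉ S := by
    intro h
    apply hc'S
    refine Finset.mem_insert_of_mem (Finset.mem_image.mpr ⟨c'⁻¹, h, inv_inv c'⟩)
  have hv1 : O.valuation (x⁻¹ - c') < 1 := valuation_lt_one_of_inv_not_mem O hmem hinv
  have hvc' : O.valuation c' = 1 := valuation_eq_one_of_mem O Lc hLO hc'L hc'0
  have hvx' : O.valuation x⁻¹ = 1 := by
    rw [Valuation.map_eq_of_sub_lt _ (by rw [hvc']; exact hv1), hvc']
  have hx0 : x ≠ 0 := by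
    rintro rfl
    rw [inv_zero, map_zero] at hvx'
    exact zero_ne_one hvx'
  have hvx : O.valuation x = 1 := by
    rw [map_inv₀] at hvx'
    exact inv_eq_one.mp hvx'
  have hkey : x - c'⁻¹ = -((x⁻¹ - c') * x * c'⁻¹) := by
    field_simp
    ring
  have hv2 : O.valuation (x - c'⁻¹) = O.valuation (x⁻¹ - c') := by
    rw [hkey, Valuation.map_neg, map_mul, map_mul, hvx, map_inv₀, hvc', inv_one, mul_one, mul_one]
  have hxc0 : x - c'⁻¹ ≠ 0 := by
    intro h
    rw [h, map_zero] at hv2
    have h3 : x⁻¹ - c' = 0 := (Valuation.zero_iff _).mp hv2.symm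
    rw [h3, inv_zero] at hinv
    exact hinv O.zero_mem
  have h1 : x - c'⁻¹ ∈ O := by
    rw [← O.valuation_le_one_iff, hv2]
    exact hv1.le
  have h2 : (x - c'⁻¹)⁻¹ ∉ O :=
    inv_not_mem_of_valuation_lt_one O hxc0 (by rw [hv2]; exact hv1)
  have h3 := hunr O hLO c'⁻¹ (Lc.inv_mem hc'L) hcS h1 h2 t ht ht'
  rw [← O.valuation_le_one_iff] at h3 ⊢
  rwa [map_mul, map_inv₀, ← hv2, ← map_inv₀, ← map_mul]

end Val

end Fermat.Agent.S18.H278

end
-- ===== PACK-END S18/H278/NCVal.lean

-- ===== PACK-BEGIN S37/H339/RatTower.lean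
section


/-!
# S37 BOARD v3, leaf D4 (helper339): the generic tower lemma

`K(j) ⊆ K(t) ⊆ F` with `j · Q(t) = P(t)`, `P`, `Q` coprime, `t` transcendental:
`[K(t) : K(j)] = max (deg P) (deg Q)` (Mathlib's `RatFunc.finrank_eq_max_natDegree`, transported),
hence `max (deg P) (deg Q) · [F : K(t)] = [F : K(j)]`; finiteness and separability of `F / K(j)`
pass to `F / K(t)`.
-/

set_option autoImplicit false

noncomputable section

namespace Fermat.Agent.S37.H339

open IntermediateField Polynomial

section RatTower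

variable {K F : Type*} [Field K] [Field F] [Algebra K F]

/-- numerator and denominator of `P / Q` for coprime `P`, `Q` have the degrees of `P`, `Q` -/
theorem natDegree_num_denom_of_isCoprime (P Q : K[X]) (hcop : IsCoprime P Q) (hQ : Q ≠ 0) :
    (algebraMap K[X] (RatFunc K) P / algebraMap K[X] (RatFunc K) Q).num.natDegree = P.natDegree ∧
      (algebraMap K[X] (RatFunc K) P / algebraMap K[X] (RatFunc K) Q).denom.natDegree =
        Q.natDegree := by
  set f : RatFunc K := algebraMap K[X] (RatFunc K) P / algebraMap K[X] (RatFunc K) Q with hf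
  have h1 : f.num * Q = P * f.denom := (RatFunc.num_mul_eq_mul_denom_iff hQ).mpr hf
  have hc := RatFunc.isCoprime_num_denom f
  have hnP : f.num ∣ P := hc.dvd_of_dvd_mul_right ⟨Q, h1.symm⟩
  have hPn : P ∣ f.num := hcop.dvd_of_dvd_mul_right ⟨f.denom, h1⟩
  have hdQ : f.denom ∣ Q := hc.symm.dvd_of_dvd_mul_left ⟨P, by linear_combination h1⟩
  have hQd : Q ∣ f.denom := hcop.symm.dvd_of_dvd_mul_left ⟨f.num, by linear_combination -h1⟩
  constructor
  · exact natDegree_eq_of_degree_eq (degree_eq_degree_of_associated (associated_of_dvd_dvd hnP hPn))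
  · exact natDegree_eq_of_degree_eq (degree_eq_degree_of_associated (associated_of_dvd_dvd hdQ hQd))

/-- `[K(t) : K(j)] = max (deg P) (deg Q)` when `j · Q(t) = P(t)` with `P`, `Q` coprime and `t`
transcendental -/
theorem relfinrank_adjoin_of_eq (t j : F) (ht : Transcendental K t) (P Q : K[X])
    (hcop : IsCoprime P Q) (hQ : Q ≠ 0) (h : j * aeval t Q = aeval t P) :
    relfinrank K⟮j⟯ K⟮t⟯ = max P.natDegree Q.natDegree := by
  classical
  set e := RatFunc.algEquivOfTranscendental t ht with he
  set φ : RatFunc K →ₐ[K] F := (K⟮t⟯.val).comp e.toAlgHom with hφ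
  have hφX : φ RatFunc.X = t := by
    show ((e RatFunc.X : K⟮t⟯) : F) = t
    rw [RatFunc.algEquivOfTranscendental_X]
  have hφpoly : ∀ g : K[X], φ (algebraMap K[X] (RatFunc K) g) = aeval t g := by
    intro g
    show ((e (algebraMap K[X] (RatFunc K) g) : K⟮t⟯) : F) = aeval t g
    rw [RatFunc.algEquivOfTranscendental_algebraMap]
    have : ((aeval (AdjoinSimple.gen K t) g : K⟮t⟯) : F) = aeval ((AdjoinSimple.gen K t : K⟮t⟯) : F) g := by
      rw [← IntermediateField.coe_val, ← aeval_algHom_apply]
    rw [this]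
    rfl
  have hQt : aeval t Q ≠ 0 := fun h0 => ht ⟨Q, hQ, h0⟩
  set f : RatFunc K := algebraMap K[X] (RatFunc K) P / algebraMap K[X] (RatFunc K) Q with hf
  have hφf : φ f = j := by
    rw [hf, map_div₀, hφpoly, hφpoly, ← h, mul_div_assoc, div_self hQt, mul_one]
  have hA : (K⟮f⟯).map φ = K⟮j⟯ := by
    rw [IntermediateField.adjoin_map, Set.image_singleton, hφf]
  have hB : (⊤ : IntermediateField K (RatFunc K)).map φ = K⟮t⟯ := by
    rw [← RatFunc.adjoin_X, IntermediateField.adjoin_map, Set.image_singleton, hφX]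
  rw [← hA, ← hB, relfinrank_map_map, relfinrank_top_right, RatFunc.finrank_eq_max_natDegree]
  obtain ⟨h1, h2⟩ := natDegree_num_denom_of_isCoprime P Q hcop hQ
  rw [h1, h2]

/-- `K(j) ⊆ K(t)` when `j · Q(t) = P(t)`, `Q(t) ≠ 0` -/
theorem adjoin_le_adjoin_of_eq (t j : F) (P Q : K[X]) (hQt : aeval t Q ≠ 0)
    (h : j * aeval t Q = aeval t P) : K⟮j⟯ ≤ K⟮t⟯ := by
  rw [adjoin_simple_le_iff]
  have hj : j = aeval t P / aeval t Q := by
    rw [← h, mul_div_assoc, div_self hQt, mul_one]
  rw [hj]
  have ht : t ∈ K⟮t⟯ := mem_adjoin_simple_self K t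
  have hmem : ∀ g : K[X], aeval t g ∈ K⟮t⟯ := by
    intro g
    rw [aeval_eq_sum_range]
    exact sum_mem fun i _ => by
      rw [Algebra.smul_def]
      exact mul_mem (IntermediateField.algebraMap_mem _ _) (pow_mem ht i)
  exact div_mem (hmem P) (hmem Q)

/-- the tower law for `K(j) ⊆ K(t) ⊆ F` -/
theorem max_natDegree_mul_finrank (t j : F) (ht : Transcendental K t) (P Q : K[X])
    (hcop : IsCoprime P Q) (hQ : Q ≠ 0) (h : j * aeval t Q = aeval t P) :
    max P.natDegree Q.natDegree * Module.finrank K⟮t⟯ F = Module.finrank K⟮j⟯ F := by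
  have hQt : aeval t Q ≠ 0 := fun h0 => ht ⟨Q, hQ, h0⟩
  rw [← relfinrank_adjoin_of_eq t j ht P Q hcop hQ h]
  exact relfinrank_mul_finrank_top (adjoin_le_adjoin_of_eq t j P Q hQt h)

/-- finiteness passes up the tower -/
theorem finiteDimensional_of_le {A B : IntermediateField K F} (hAB : A ≤ B)
    [FiniteDimensional A F] : FiniteDimensional B F := by
  letI : Algebra A B := (IntermediateField.inclusion hAB).toRingHom.toAlgebra
  haveI : IsScalarTower A B F := IsScalarTower.of_algebraMap_eq fun _ => rfl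
  exact Module.Finite.of_restrictScalars_finite A B F

/-- separability passes up the tower -/
theorem isSeparable_of_le {A B : IntermediateField K F} (hAB : A ≤ B)
    [Algebra.IsSeparable A F] : Algebra.IsSeparable B F := by
  letI : Algebra A B := (IntermediateField.inclusion hAB).toRingHom.toAlgebra
  haveI : IsScalarTower A B F := IsScalarTower.of_algebraMap_eq fun _ => rfl
  exact Algebra.isSeparable_tower_top_of_isSeparable A B F

/-- **Tower lemma.** All the (H1)-type information passes from `j` to `t`. -/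
theorem h1_of_tower (t j : F) (ht : Transcendental K t) (P Q : K[X])
    (hcop : IsCoprime P Q) (hQ : Q ≠ 0) (h : j * aeval t Q = aeval t P)
    (hfin : FiniteDimensional K⟮j⟯ F) :
    FiniteDimensional K⟮t⟯ F ∧
      max P.natDegree Q.natDegree * Module.finrank K⟮t⟯ F = Module.finrank K⟮j⟯ F ∧
      (Algebra.IsSeparable K⟮j⟯ F → Algebra.IsSeparable K⟮t⟯ F) := by
  have hQt : aeval t Q ≠ 0 := fun h0 => ht ⟨Q, hQ, h0⟩
  have hle := adjoin_le_adjoin_of_eq t j P Q hQt h
  exact ⟨finiteDimensional_of_le hle, max_natDegree_mul_finrank t j ht P Q hcop hQ h,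
    fun hs => isSeparable_of_le hle⟩

end RatTower

end Fermat.Agent.S37.H339

end
end
-- ===== PACK-END S37/H339/RatTower.lean

-- ===== PACK-BEGIN S19/H495/Pivot.lean
section
/-
A3 / S19 — WP-W6alg (helper495): constant-rank linear algebra over a commutative ring.

A matrix `A` over a commutative ring `R` has *constant rank at the pivot `(p, q)`* when the
square block `A[p, q]` has unit determinant and every bordered minor (the block enlarged by one
row and one column) vanishes.  Then `A = A[·, q] * A[p, q]⁻¹ * A[p, ·]`, the kernel and the image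
of `A` are free direct summands with explicit bases whose entries are polynomials in the entries
of `A` divided by the pivot minor, and all of this is stable under arbitrary base change.
-/





set_option linter.unusedSectionVars false
set_option linter.unusedSimpArgs false
set_option linter.style.longLine false

namespace Fermat.Agent.S19.H495

open Matrix

variable {R : Type*} [CommRing R]
variable {m n ι : Type*} [Fintype m] [Fintype n] [Fintype ι] [DecidableEq m] [DecidableEq n]
  [DecidableEq ι]

/-- The bordered minor of `A`: the determinant of the pivot block `A[p, q]` enlarged by the row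
`i` and the column `j`. -/
noncomputable def borderedMinor (A : Matrix m n R) (p : ι → m) (q : ι → n) (i : m) (j : n) : R :=
  (A.submatrix (Sum.elim p (fun _ : Unit => i)) (Sum.elim q (fun _ : Unit => j))).det

/-- `A` has constant rank at the pivot `(p, q)`: the pivot minor is a unit and all bordered minors
vanish. -/
def ConstRankAt (A : Matrix m n R) (p : ι → m) (q : ι → n) : Prop :=
  IsUnit (A.submatrix p q).det ∧ ∀ i j, borderedMinor A p q i j = 0

theorem borderedMinor_eq_fromBlocks (A : Matrix m n R) (p : ι → m) (q : ι → n) (i : m) (j : n) :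
    borderedMinor A p q i j =
      (fromBlocks (A.submatrix p q) (A.submatrix p (fun _ : Unit => j))
        (A.submatrix (fun _ : Unit => i) q) (A.submatrix (fun _ : Unit => i) (fun _ : Unit => j))).det := by
  unfold borderedMinor
  congr 1
  ext (a | a) (b | b) <;> rfl

/-- Schur complement form of the bordered minor. -/
theorem borderedMinor_eq (A : Matrix m n R) (p : ι → m) (q : ι → n) (i : m) (j : n)
    (h : IsUnit (A.submatrix p q).det) :
    borderedMinor A p q i j =
      (A.submatrix p q).det * (A i j - ∑ a, ∑ b, A i (q a) * (A.submatrix p q)⁻¹ a b * A (p b) j) := by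
  rw [borderedMinor_eq_fromBlocks]
  let _ := invertibleOfIsUnitDet _ h
  rw [det_fromBlocks₁₁]
  congr 1
  rw [det_unique (n := Unit)]
  simp only [Matrix.sub_apply, submatrix_apply, Matrix.mul_apply, invOf_eq_nonsing_inv,
    Finset.sum_mul]
  rw [Finset.sum_comm]

section Core

variable (A : Matrix m n R) (p : ι → m) (q : ι → n)

/-- The reduced row echelon matrix `A[p, q]⁻¹ * A[p, ·]` of `A` at the pivot `(p, q)`. -/
noncomputable def echelon : Matrix ι n R := (A.submatrix p q)⁻¹ * A.submatrix p id

/-- The reduced column echelon matrix `A[·, q] * A[p, q]⁻¹` of `A` at the pivot `(p, q)`. -/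
noncomputable def coechelon : Matrix m ι R := A.submatrix id q * (A.submatrix p q)⁻¹

variable {A p q}

theorem ConstRankAt.isUnit_det (h : ConstRankAt A p q) : IsUnit (A.submatrix p q).det := h.1

theorem ConstRankAt.entry_eq (h : ConstRankAt A p q) (i : m) (j : n) :
    A i j = ∑ a, ∑ b, A i (q a) * (A.submatrix p q)⁻¹ a b * A (p b) j := by
  have h1 := borderedMinor_eq A p q i j h.1
  rw [h.2 i j] at h1
  have h2 := h.1.mul_right_eq_zero.mp h1.symm
  exact sub_eq_zero.mp h2

/-- Rank factorisation of a matrix of constant rank. -/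
theorem ConstRankAt.factorization (h : ConstRankAt A p q) :
    A = A.submatrix id q * (A.submatrix p q)⁻¹ * A.submatrix p id := by
  ext i j
  rw [h.entry_eq i j]
  simp only [Matrix.mul_apply, submatrix_apply, id_eq, Finset.sum_mul]
  rw [Finset.sum_comm]

theorem ConstRankAt.eq_mul_echelon (h : ConstRankAt A p q) :
    A = A.submatrix id q * echelon A p q := by
  rw [echelon, ← Matrix.mul_assoc]; exact h.factorization

theorem ConstRankAt.eq_coechelon_mul (h : ConstRankAt A p q) :
    A = coechelon A p q * A.submatrix p id := h.factorization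

theorem echelon_submatrix (h : IsUnit (A.submatrix p q).det) :
    (echelon A p q).submatrix id q = 1 := by
  have : (echelon A p q).submatrix id q = (A.submatrix p q)⁻¹ * A.submatrix p q := by
    ext a b; simp [echelon, Matrix.mul_apply]
  rw [this, nonsing_inv_mul _ h]

theorem coechelon_submatrix (h : IsUnit (A.submatrix p q).det) :
    (coechelon A p q).submatrix p id = 1 := by
  have : (coechelon A p q).submatrix p id = A.submatrix p q * (A.submatrix p q)⁻¹ := by
    ext a b; simp [coechelon, Matrix.mul_apply]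
  rw [this, mul_nonsing_inv _ h]

theorem echelon_apply_pivot (h : IsUnit (A.submatrix p q).det) (a b : ι) :
    echelon A p q a (q b) = if a = b then 1 else 0 := by
  have := congrFun (congrFun (echelon_submatrix h) a) b
  simpa [Matrix.one_apply] using this

theorem coechelon_apply_pivot (h : IsUnit (A.submatrix p q).det) (a b : ι) :
    coechelon A p q (p a) b = if a = b then 1 else 0 := by
  have := congrFun (congrFun (coechelon_submatrix h) a) b
  simpa [Matrix.one_apply] using this

/-- In a nontrivial ring the column selector of a pivot is injective. -/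
theorem injective_of_isUnit_det_right [Nontrivial R] (h : IsUnit (A.submatrix p q).det) :
    Function.Injective q := by
  intro a b hab
  by_contra hne
  have h1 : echelon A p q a (q a) = 1 := by rw [echelon_apply_pivot h, if_pos rfl]
  have h2 : echelon A p q a (q b) = 0 := by rw [echelon_apply_pivot h, if_neg hne]
  rw [hab, h2] at h1
  exact zero_ne_one h1

/-- In a nontrivial ring the row selector of a pivot is injective. -/
theorem injective_of_isUnit_det_left [Nontrivial R] (h : IsUnit (A.submatrix p q).det) :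
    Function.Injective p := by
  intro a b hab
  by_contra hne
  have h1 : coechelon A p q (p a) a = 1 := by rw [coechelon_apply_pivot h, if_pos rfl]
  have h2 : coechelon A p q (p b) a = 0 := by
    rw [coechelon_apply_pivot h, if_neg (Ne.symm hne)]
  rw [hab, h2] at h1
  exact zero_ne_one h1

/-! ### The kernel -/

theorem submatrix_mulVec_eq (x : n → R) (a : ι) :
    (A.submatrix p id *ᵥ x) a = (A *ᵥ x) (p a) := rfl

theorem ConstRankAt.mulVec_eq_zero_iff_submatrix (h : ConstRankAt A p q) (x : n → R) :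
    A *ᵥ x = 0 ↔ A.submatrix p id *ᵥ x = 0 := by
  constructor
  · intro hx
    ext a
    rw [submatrix_mulVec_eq, hx]; rfl
  · intro hx
    rw [h.eq_coechelon_mul, ← Matrix.mulVec_mulVec, hx, Matrix.mulVec_zero]

theorem ConstRankAt.mulVec_eq_zero_iff_echelon (h : ConstRankAt A p q) (x : n → R) :
    A *ᵥ x = 0 ↔ echelon A p q *ᵥ x = 0 := by
  rw [h.mulVec_eq_zero_iff_submatrix]
  constructor
  · intro hx
    rw [echelon, ← Matrix.mulVec_mulVec, hx, Matrix.mulVec_zero]
  · intro hx
    have : A.submatrix p id = A.submatrix p q * echelon A p q := by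
      rw [echelon, ← Matrix.mul_assoc, mul_nonsing_inv _ h.1, Matrix.one_mul]
    rw [this, ← Matrix.mulVec_mulVec, hx, Matrix.mulVec_zero]

variable (A p q)

/-- The projector onto the kernel of `A` along the pivot coordinates:
`kerProj = 1 - S_q * echelon`, where `S_q` is the selection matrix of the pivot columns.
Its `j`-th column is `e_j - ∑ a, echelon a j • e_{q a}`. -/
noncomputable def kerProj : Matrix n n R :=
  1 - (1 : Matrix n n R).submatrix id q * echelon A p q

/-- The projector onto the image of `A` along the non-pivot coordinates: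
`imgProj = coechelon * S_p`, where `S_p` is the selection matrix of the pivot rows. -/
noncomputable def imgProj : Matrix m m R :=
  coechelon A p q * (1 : Matrix m m R).submatrix p id

variable {A p q}

theorem mul_one_submatrix_right {k : Type*} [Fintype k] (B : Matrix k n R) :
    B * (1 : Matrix n n R).submatrix id q = B.submatrix id q := by
  ext i a
  simp [Matrix.mul_apply, Matrix.one_apply]

theorem one_submatrix_mul_left {k : Type*} [Fintype k] (B : Matrix m k R) :
    (1 : Matrix m m R).submatrix p id * B = B.submatrix p id := by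
  ext a j
  simp [Matrix.mul_apply, Matrix.one_apply]

theorem echelon_mul_kerProj (h : IsUnit (A.submatrix p q).det) :
    echelon A p q * kerProj A p q = 0 := by
  rw [kerProj, Matrix.mul_sub, Matrix.mul_one, ← Matrix.mul_assoc, mul_one_submatrix_right,
    echelon_submatrix h, Matrix.one_mul, sub_self]

theorem ConstRankAt.mul_kerProj (h : ConstRankAt A p q) : A * kerProj A p q = 0 := by
  refine (congrArg (· * kerProj A p q) h.eq_mul_echelon).trans ?_
  rw [Matrix.mul_assoc, echelon_mul_kerProj h.1, Matrix.mul_zero]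

theorem kerProj_mul_kerProj (h : IsUnit (A.submatrix p q).det) :
    kerProj A p q * kerProj A p q = kerProj A p q := by
  nth_rewrite 1 [kerProj]
  rw [Matrix.sub_mul, Matrix.one_mul, Matrix.mul_assoc,
    echelon_mul_kerProj h, Matrix.mul_zero, sub_zero]

theorem kerProj_mulVec_of_echelon (x : n → R) (hx : echelon A p q *ᵥ x = 0) :
    kerProj A p q *ᵥ x = x := by
  rw [kerProj, Matrix.sub_mulVec, Matrix.one_mulVec, ← Matrix.mulVec_mulVec, hx,
    Matrix.mulVec_zero, sub_zero]

theorem ConstRankAt.kerProj_mulVec (h : ConstRankAt A p q) (x : n → R) (hx : A *ᵥ x = 0) :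
    kerProj A p q *ᵥ x = x :=
  kerProj_mulVec_of_echelon x ((h.mulVec_eq_zero_iff_echelon x).mp hx)

theorem kerProj_apply (i j : n) :
    kerProj A p q i j = (if i = j then 1 else 0) - ∑ a, (if i = q a then echelon A p q a j else 0) := by
  simp [kerProj, Matrix.mul_apply, Matrix.one_apply]

/-- The pivot columns of the kernel projector vanish. -/
theorem kerProj_submatrix_pivot (h : IsUnit (A.submatrix p q).det) :
    (kerProj A p q).submatrix id q = 0 := by
  rw [← mul_one_submatrix_right, kerProj, Matrix.sub_mul, Matrix.one_mul, Matrix.mul_assoc,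
    mul_one_submatrix_right (q := q) (echelon A p q), echelon_submatrix h, Matrix.mul_one, sub_self]

theorem kerProj_apply_pivot (h : IsUnit (A.submatrix p q).det) (i : n) (a : ι) :
    kerProj A p q i (q a) = 0 := by
  have := congrFun (congrFun (kerProj_submatrix_pivot h) i) a
  simpa using this

/-- Off the pivot rows, the kernel projector is the identity matrix. -/
theorem kerProj_apply_of_notMem (i j : n) (hi : i ∉ Set.range q) :
    kerProj A p q i j = if i = j then 1 else 0 := by
  rw [kerProj_apply]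
  have : ∀ a, (if i = q a then echelon A p q a j else 0) = 0 := by
    intro a
    rw [if_neg]
    rintro rfl
    exact hi ⟨a, rfl⟩
  simp [this]

theorem ConstRankAt.ker_eq_range_kerProj (h : ConstRankAt A p q) :
    LinearMap.ker A.mulVecLin = LinearMap.range (kerProj A p q).mulVecLin := by
  ext x
  simp only [LinearMap.mem_ker, Matrix.mulVecLin_apply, LinearMap.mem_range]
  constructor
  · intro hx
    exact ⟨x, h.kerProj_mulVec x hx⟩
  · rintro ⟨y, rfl⟩
    rw [Matrix.mulVec_mulVec, h.mul_kerProj, Matrix.zero_mulVec]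

/-- Every element of the kernel is the combination of the non-pivot columns of the kernel
projector with its own non-pivot coordinates as coefficients. -/
theorem ConstRankAt.eq_sum_kerProj (h : ConstRankAt A p q) (x : n → R) (hx : A *ᵥ x = 0) (i : n) :
    x i = ∑ j, kerProj A p q i j * x j := by
  have := congrFun (h.kerProj_mulVec x hx) i
  rw [← this]
  rfl

/-! ### The image -/

theorem ConstRankAt.imgProj_mul (h : ConstRankAt A p q) : imgProj A p q * A = A := by
  rw [imgProj, Matrix.mul_assoc, one_submatrix_mul_left]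
  exact h.eq_coechelon_mul.symm

theorem imgProj_mul_imgProj (h : IsUnit (A.submatrix p q).det) :
    imgProj A p q * imgProj A p q = imgProj A p q := by
  rw [imgProj, Matrix.mul_assoc, ← Matrix.mul_assoc ((1 : Matrix m m R).submatrix p id),
    one_submatrix_mul_left, coechelon_submatrix h, Matrix.one_mul]

theorem ConstRankAt.range_eq_range_submatrix (h : ConstRankAt A p q) :
    LinearMap.range A.mulVecLin = LinearMap.range (A.submatrix id q).mulVecLin := by
  ext y
  simp only [LinearMap.mem_range, Matrix.mulVecLin_apply]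
  constructor
  · rintro ⟨x, rfl⟩
    refine ⟨echelon A p q *ᵥ x, ?_⟩
    rw [Matrix.mulVec_mulVec, ← h.eq_mul_echelon]
  · rintro ⟨z, rfl⟩
    refine ⟨(1 : Matrix n n R).submatrix id q *ᵥ z, ?_⟩
    rw [Matrix.mulVec_mulVec, mul_one_submatrix_right]

theorem ConstRankAt.range_eq_range_imgProj (h : ConstRankAt A p q) :
    LinearMap.range A.mulVecLin = LinearMap.range (imgProj A p q).mulVecLin := by
  ext y
  simp only [LinearMap.mem_range, Matrix.mulVecLin_apply]
  constructor
  · rintro ⟨x, rfl⟩
    refine ⟨A *ᵥ x, ?_⟩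
    rw [Matrix.mulVec_mulVec, h.imgProj_mul]
  · rintro ⟨z, rfl⟩
    refine ⟨(1 : Matrix n n R).submatrix id q *ᵥ ((A.submatrix p q)⁻¹ *ᵥ
      ((1 : Matrix m m R).submatrix p id *ᵥ z)), ?_⟩
    rw [Matrix.mulVec_mulVec, Matrix.mulVec_mulVec, Matrix.mulVec_mulVec, imgProj, coechelon,
      mul_one_submatrix_right, Matrix.mul_assoc]

/-- The pivot columns of a matrix with unit pivot minor are linearly independent: the
coefficients are recovered from the pivot rows. -/
theorem submatrix_mulVec_injective (h : IsUnit (A.submatrix p q).det) :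
    Function.Injective (A.submatrix id q).mulVecLin := by
  intro x y hxy
  have h1 : ((A.submatrix p q)⁻¹ * (A.submatrix id q).submatrix p id) *ᵥ x =
      ((A.submatrix p q)⁻¹ * (A.submatrix id q).submatrix p id) *ᵥ y := by
    rw [← Matrix.mulVec_mulVec, ← Matrix.mulVec_mulVec]
    congr 1
    ext a
    exact congrFun hxy (p a)
  have h2 : (A.submatrix p q)⁻¹ * (A.submatrix id q).submatrix p id = 1 := by
    rw [show (A.submatrix id q).submatrix p id = A.submatrix p q from rfl, nonsing_inv_mul _ h]
  rwa [h2, Matrix.one_mulVec, Matrix.one_mulVec] at h1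

end Core

/-! ### Base change -/

section BaseChange

variable {S : Type*} [CommRing S] (f : R →+* S) {A : Matrix m n R} {p : ι → m} {q : ι → n}

theorem map_nonsing_inv (G : Matrix ι ι R) (h : IsUnit G.det) : (G⁻¹).map f = (G.map f)⁻¹ := by
  symm
  apply Matrix.inv_eq_right_inv
  rw [← Matrix.map_mul, mul_nonsing_inv _ h, Matrix.map_one _ f.map_zero f.map_one]

theorem borderedMinor_map (A : Matrix m n R) (p : ι → m) (q : ι → n) (i : m) (j : n) :
    borderedMinor (A.map f) p q i j = f (borderedMinor A p q i j) := by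
  unfold borderedMinor
  rw [RingHom.map_det]
  rfl

theorem det_submatrix_map (A : Matrix m n R) (p : ι → m) (q : ι → n) :
    ((A.map f).submatrix p q).det = f (A.submatrix p q).det := by
  rw [RingHom.map_det]
  rfl

/-- Constant rank at a pivot is stable under arbitrary base change. -/
theorem ConstRankAt.map (h : ConstRankAt A p q) : ConstRankAt (A.map f) p q := by
  refine ⟨?_, fun i j => ?_⟩
  · rw [det_submatrix_map]; exact h.1.map f
  · rw [borderedMinor_map, h.2 i j, map_zero]

/-- Constant rank at a pivot descends along a local homomorphism (e.g. the reduction map of a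
local ring, or an injective map from a valuation ring... with unit pivot) as soon as the
bordered minors vanish. -/
theorem ConstRankAt.of_map [IsLocalHom f] (h1 : IsUnit ((A.map f).submatrix p q).det)
    (h2 : ∀ i j, borderedMinor A p q i j = 0) : ConstRankAt A p q := by
  refine ⟨?_, h2⟩
  rw [det_submatrix_map] at h1
  exact isUnit_of_map_unit f _ h1

theorem echelon_map (h : IsUnit (A.submatrix p q).det) :
    echelon (A.map f) p q = (echelon A p q).map f := by
  unfold echelon
  rw [Matrix.map_mul, map_nonsing_inv f _ h]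
  rfl

theorem coechelon_map (h : IsUnit (A.submatrix p q).det) :
    coechelon (A.map f) p q = (coechelon A p q).map f := by
  unfold coechelon
  rw [Matrix.map_mul, map_nonsing_inv f _ h]
  rfl

theorem kerProj_map (h : IsUnit (A.submatrix p q).det) :
    kerProj (A.map f) p q = (kerProj A p q).map f := by
  unfold kerProj
  rw [echelon_map f h]
  ext i j
  simp [Matrix.mul_apply, Matrix.one_apply, apply_ite f]

theorem imgProj_map (h : IsUnit (A.submatrix p q).det) :
    imgProj (A.map f) p q = (imgProj A p q).map f := by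
  unfold imgProj
  rw [coechelon_map f h]
  ext i j
  simp [Matrix.mul_apply, Matrix.one_apply, apply_ite f]

end BaseChange

/-! ### Freeness of kernel and image -/

section Free

variable {A : Matrix m n R} {p : ι → m} {q : ι → n}

open Classical in
/-- Extension by zero of a vector indexed by the non-pivot columns. -/
noncomputable def extendNonPivot (q : ι → n) (y : {j // j ∉ Set.range q} → R) : n → R :=
  fun j => if h : j ∉ Set.range q then y ⟨j, h⟩ else 0

theorem extendNonPivot_apply_of_notMem (y : {j // j ∉ Set.range q} → R) (j : n)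
    (h : j ∉ Set.range q) : extendNonPivot q y j = y ⟨j, h⟩ := by
  unfold extendNonPivot; rw [dif_pos h]

theorem extendNonPivot_apply_pivot (y : {j // j ∉ Set.range q} → R) (a : ι) :
    extendNonPivot q y (q a) = 0 := by
  unfold extendNonPivot; rw [dif_neg]; exact fun h => h ⟨a, rfl⟩

/-- Two vectors with the same non-pivot coordinates have the same image under the kernel
projector. -/
theorem kerProj_mulVec_congr (h : IsUnit (A.submatrix p q).det) (x y : n → R)
    (hxy : ∀ j, j ∉ Set.range q → x j = y j) : kerProj A p q *ᵥ x = kerProj A p q *ᵥ y := by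
  ext i
  simp only [Matrix.mulVec, dotProduct]
  refine Finset.sum_congr rfl fun j _ => ?_
  by_cases hj : j ∈ Set.range q
  · obtain ⟨a, rfl⟩ := hj
    rw [kerProj_apply_pivot h, zero_mul, zero_mul]
  · rw [hxy j hj]

theorem kerProj_mulVec_apply_of_notMem (x : n → R) (i : n) (hi : i ∉ Set.range q) :
    (kerProj A p q *ᵥ x) i = x i := by
  simp only [Matrix.mulVec, dotProduct, kerProj_apply_of_notMem i _ hi]
  simp

/-- The kernel of a matrix of constant rank is free on the non-pivot columns: the coordinates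
of a kernel vector at the non-pivot columns are arbitrary and determine it. -/
noncomputable def ConstRankAt.kerEquiv (h : ConstRankAt A p q) :
    LinearMap.ker A.mulVecLin ≃ₗ[R] ({j // j ∉ Set.range q} → R) where
  toFun x := fun j => x.1 j.1
  map_add' _ _ := rfl
  map_smul' _ _ := rfl
  invFun y := ⟨kerProj A p q *ᵥ extendNonPivot q y, by
    rw [LinearMap.mem_ker, Matrix.mulVecLin_apply, Matrix.mulVec_mulVec, h.mul_kerProj,
      Matrix.zero_mulVec]⟩
  left_inv x := by
    apply Subtype.ext
    have hx : A *ᵥ x.1 = 0 := x.2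
    show kerProj A p q *ᵥ extendNonPivot q (fun j => x.1 j.1) = x.1
    rw [kerProj_mulVec_congr h.1 _ x.1 fun j hj => extendNonPivot_apply_of_notMem _ j hj]
    exact h.kerProj_mulVec x.1 hx
  right_inv y := by
    funext j
    show (kerProj A p q *ᵥ extendNonPivot q y) j.1 = y j
    rw [kerProj_mulVec_apply_of_notMem _ _ j.2, extendNonPivot_apply_of_notMem _ _ j.2]

theorem ConstRankAt.kerEquiv_apply (h : ConstRankAt A p q) (x : LinearMap.ker A.mulVecLin)
    (j : {j // j ∉ Set.range q}) : h.kerEquiv x j = x.1 j.1 := rfl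

theorem ConstRankAt.kerEquiv_symm_apply (h : ConstRankAt A p q)
    (y : {j // j ∉ Set.range q} → R) :
    ((h.kerEquiv.symm y : LinearMap.ker A.mulVecLin) : n → R) =
      kerProj A p q *ᵥ extendNonPivot q y := rfl

/-- The image of a matrix of constant rank is free on the pivot columns. -/
noncomputable def ConstRankAt.rangeEquiv (h : ConstRankAt A p q) :
    (ι → R) ≃ₗ[R] LinearMap.range A.mulVecLin :=
  (LinearEquiv.ofInjective _ (submatrix_mulVec_injective h.1)).trans
    (LinearEquiv.ofEq _ _ h.range_eq_range_submatrix.symm)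

theorem ConstRankAt.rangeEquiv_apply (h : ConstRankAt A p q) (c : ι → R) :
    ((h.rangeEquiv c : LinearMap.range A.mulVecLin) : m → R) = A.submatrix id q *ᵥ c := rfl

/-- The coefficients of an element of the image on the pivot columns are its coordinates at the
pivot rows, transformed by the inverse pivot block. -/
theorem ConstRankAt.rangeEquiv_symm_apply (h : ConstRankAt A p q)
    (y : LinearMap.range A.mulVecLin) :
    h.rangeEquiv.symm y = (A.submatrix p q)⁻¹ *ᵥ (fun a => y.1 (p a)) := by
  obtain ⟨c, rfl⟩ := h.rangeEquiv.surjective y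
  rw [LinearEquiv.symm_apply_apply, h.rangeEquiv_apply]
  have : (fun a => (A.submatrix id q *ᵥ c) (p a)) = A.submatrix p q *ᵥ c := rfl
  rw [this, Matrix.mulVec_mulVec, nonsing_inv_mul _ h.1, Matrix.one_mulVec]

theorem ConstRankAt.free_ker (h : ConstRankAt A p q) :
    Module.Free R (LinearMap.ker A.mulVecLin) :=
  Module.Free.of_equiv h.kerEquiv.symm

theorem ConstRankAt.free_range (h : ConstRankAt A p q) :
    Module.Free R (LinearMap.range A.mulVecLin) :=
  Module.Free.of_equiv h.rangeEquiv

/-- The image of a matrix of constant rank is a direct summand: it is complemented by the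
kernel of the image projector. -/
theorem ConstRankAt.isCompl_range (h : ConstRankAt A p q) :
    IsCompl (LinearMap.range A.mulVecLin) (LinearMap.ker (imgProj A p q).mulVecLin) := by
  rw [h.range_eq_range_imgProj]
  apply LinearMap.IsIdempotentElem.isCompl
  show (imgProj A p q).mulVecLin * (imgProj A p q).mulVecLin = (imgProj A p q).mulVecLin
  rw [Module.End.mul_eq_comp, ← Matrix.mulVecLin_mul, imgProj_mul_imgProj h.1]

/-- The kernel of a matrix of constant rank is a direct summand: it is complemented by the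
kernel of the kernel projector (the span of the pivot coordinate vectors). -/
theorem ConstRankAt.isCompl_ker (h : ConstRankAt A p q) :
    IsCompl (LinearMap.ker A.mulVecLin) (LinearMap.ker (kerProj A p q).mulVecLin) := by
  rw [h.ker_eq_range_kerProj]
  apply LinearMap.IsIdempotentElem.isCompl
  show (kerProj A p q).mulVecLin * (kerProj A p q).mulVecLin = (kerProj A p q).mulVecLin
  rw [Module.End.mul_eq_comp, ← Matrix.mulVecLin_mul, kerProj_mul_kerProj h.1]

end Free

end Fermat.Agent.S19.H495

end
-- ===== PACK-END S19/H495/Pivot.lean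

-- ===== PACK-BEGIN S19/H19/Good.lean
section
/-
A3 / S19, helper19 — piece ORD, part 2: "good" algebra maps into function algebras.

An `R`-algebra map `φ : A → (X → K)` (`K` a field) is *good* if `A` has a finite `R`-basis whose
image is `K`-linearly independent.  Good maps are injective and the external product of two good
maps, `A ⊗[R] B → (X × Y → K)`, is good.  Mathlib only.
-/


set_option autoImplicit false

noncomputable section

namespace Fermat.Agent.S19.H19

open scoped BigOperators TensorProduct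

section Pullback

variable (R : Type) [CommSemiring R] (K : Type) [CommSemiring K] [Algebra R K]

/-- Pull back functions along `f`, as an algebra map. -/
def pullback {X Y : Type} (f : X → Y) : (Y → K) →ₐ[R] (X → K) :=
  AlgHom.pi (fun x => Pi.evalAlgHom R (fun _ => K) (f x))

@[simp] theorem pullback_apply {X Y : Type} (f : X → Y) (g : Y → K) (x : X) :
    pullback R K f g x = g (f x) := rfl

end Pullback

section ProdMap

variable {R : Type} [CommRing R] {K : Type} [Field K] [Algebra R K]
variable {A B : Type} [Semiring A] [Algebra R A] [Semiring B] [Algebra R B]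
variable {X Y : Type}

/-- External product of two algebra maps into function algebras. -/
def prodMap (φ : A →ₐ[R] (X → K)) (ψ : B →ₐ[R] (Y → K)) : A ⊗[R] B →ₐ[R] (X × Y → K) :=
  Algebra.TensorProduct.productMap ((pullback R K Prod.fst).comp φ)
    ((pullback R K Prod.snd).comp ψ)

@[simp] theorem prodMap_tmul (φ : A →ₐ[R] (X → K)) (ψ : B →ₐ[R] (Y → K)) (a : A) (b : B)
    (p : X × Y) : prodMap φ ψ (a ⊗ₜ[R] b) p = φ a p.1 * ψ b p.2 := by
  simp [prodMap, Algebra.TensorProduct.productMap_apply_tmul]

/-- Products of two linearly independent families of functions are linearly independent. -/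
theorem linearIndependent_mul {ι κ : Type} [Finite ι] [Finite κ] (f : ι → X → K)
    (g : κ → Y → K) (hf : LinearIndependent K f) (hg : LinearIndependent K g) :
    LinearIndependent K (fun (p : ι × κ) => fun (q : X × Y) => f p.1 q.1 * g p.2 q.2) := by
  classical
  have := Fintype.ofFinite ι
  have := Fintype.ofFinite κ
  rw [Fintype.linearIndependent_iff] at hf hg ⊢
  intro c hc
  have h1 : ∀ (y : Y) (i : ι), ∑ j, c (i, j) * g j y = 0 := by
    intro y
    apply hf (fun i => ∑ j, c (i, j) * g j y)
    funext x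
    have := congrFun hc (x, y)
    simp only [Finset.sum_apply, Pi.smul_apply, smul_eq_mul, Pi.zero_apply] at this ⊢
    rw [← this, Fintype.sum_prod_type]
    refine Finset.sum_congr rfl fun i _ => ?_
    rw [Finset.sum_mul]
    refine Finset.sum_congr rfl fun j _ => ?_
    ring
  intro p
  obtain ⟨i, j⟩ := p
  apply hg (fun j => c (i, j))
  funext y
  have := h1 y i
  simp only [Finset.sum_apply, Pi.smul_apply, smul_eq_mul, Pi.zero_apply]
  exact this

end ProdMap

section Good

variable {R : Type} [CommRing R] {K : Type} [Field K] [Algebra R K]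
variable {A B : Type} [Semiring A] [Algebra R A] [Semiring B] [Algebra R B]
variable {X Y : Type}

/-- `φ : A → (X → K)` is good if some finite `R`-basis of `A` has `K`-independent image. -/
def Good (φ : A →ₐ[R] (X → K)) : Prop :=
  ∃ (ι : Type) (_ : Finite ι) (b : Module.Basis ι R A), LinearIndependent K (fun i => φ (b i))

theorem Good.injective (hRK : Function.Injective (algebraMap R K)) {φ : A →ₐ[R] (X → K)}
    (h : Good φ) : Function.Injective φ := by
  classical
  obtain ⟨ι, hι, b, hb⟩ := h
  have := Fintype.ofFinite ι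
  have key : ∀ x : A, φ x = ∑ i, algebraMap R K (b.repr x i) • φ (b i) := by
    intro x
    conv_lhs => rw [← b.sum_repr x]
    rw [map_sum]
    refine Finset.sum_congr rfl fun i _ => ?_
    rw [map_smul]
    funext m
    simp [Algebra.smul_def]
  intro x y hxy
  have h2 : ∑ i, (algebraMap R K (b.repr x i) - algebraMap R K (b.repr y i)) • φ (b i) = 0 := by
    simp only [sub_smul, Finset.sum_sub_distrib]
    rw [← key x, ← key y, hxy, sub_self]
  have h3 := (Fintype.linearIndependent_iff.mp hb) _ h2
  apply b.ext_elem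
  intro i
  exact hRK (sub_eq_zero.mp (h3 i))

theorem Good.prod {φ : A →ₐ[R] (X → K)} {ψ : B →ₐ[R] (Y → K)} (hφ : Good φ) (hψ : Good ψ) :
    Good (prodMap φ ψ) := by
  obtain ⟨ι, hι, b, hb⟩ := hφ
  obtain ⟨κ, hκ, c, hc⟩ := hψ
  refine ⟨ι × κ, inferInstance, b.tensorProduct c, ?_⟩
  have := linearIndependent_mul _ _ hb hc
  convert this using 1
  funext p q
  rw [Module.Basis.tensorProduct_apply', prodMap_tmul]

theorem Good.finite {φ : A →ₐ[R] (X → K)} (h : Good φ) : Module.Finite R A := by
  obtain ⟨ι, hι, b, -⟩ := h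
  exact Module.Finite.of_basis b

theorem Good.free {φ : A →ₐ[R] (X → K)} (h : Good φ) : Module.Free R A := by
  obtain ⟨ι, hι, b, -⟩ := h
  exact Module.Free.of_basis b

end Good

end Fermat.Agent.S19.H19

end

end
-- ===== PACK-END S19/H19/Good.lean

-- ===== PACK-BEGIN A3/H799/Disc.lean
section





/-!
# A3 / LOCAL — disc algebras and interpolation  (helper799)

A *disc algebra* over a local ring `A` is the algebraic shadow of "integral functions on an open
residue disc with parameter `t`": an `A`-algebra `𝒪` with an element `t`, an evaluation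
`ev a : 𝒪 →ₐ[A] A` at every `a ∈ 𝔪_A` with `ev a t = a`, and the Taylor property
`f = ev a f + (t - a) * f'`.  (In the application `𝒪 = 𝒪_Q = V ∩ ⋂_{r P = Q} 𝒪_P` is the ring of
functions of Gauss norm `≤ 1` without poles in the residue disc of the point `Q` of the special
fibre; Taylor follows from conservation of zeros.)

Main results (pure algebra):

* `DiscAlg.exists_interp` : Newton/Hermite interpolation, `f = p(t) + ∏ (t - a_i) * h`, `p ∈ A[X]`;
* `DiscAlg.prod_dvd_of_aeval` : if `p(t) ∈ ∏ (t - a_i) 𝒪` then `∏ (X - a_i) ∣ p` in `A[X]`.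
-/

set_option autoImplicit false

namespace Fermat.Agent.A3.H799

open Polynomial

/-- Integral functions on a residue disc with parameter `t` (see the module docstring). -/
structure DiscAlg (A : Type*) [CommRing A] [IsLocalRing A] (𝒪 : Type*) [CommRing 𝒪]
    [Algebra A 𝒪] where
  /-- the parameter -/
  t : 𝒪
  /-- evaluation at the point with parameter value `a` -/
  ev : IsLocalRing.maximalIdeal A → 𝒪 →ₐ[A] A
  ev_t : ∀ a, ev a t = (a : A)
  taylor : ∀ (a : IsLocalRing.maximalIdeal A) (f : 𝒪),
    ∃ f' : 𝒪, f = algebraMap A 𝒪 (ev a f) + (t - algebraMap A 𝒪 (a : A)) * f'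
  nzd : ∀ (a : IsLocalRing.maximalIdeal A) (f : 𝒪), (t - algebraMap A 𝒪 (a : A)) * f = 0 → f = 0

namespace DiscAlg

variable {A : Type*} [CommRing A] [IsLocalRing A] {𝒪 : Type*} [CommRing 𝒪] [Algebra A 𝒪]
variable (D : DiscAlg A 𝒪)

/-- The monic polynomial `∏ (X - a)` attached to a list of points. -/
noncomputable def nodal (l : List (IsLocalRing.maximalIdeal A)) : A[X] :=
  (l.map fun a => X - C (a : A)).prod

@[simp] theorem nodal_nil : nodal ([] : List (IsLocalRing.maximalIdeal A)) = 1 := by
  simp [nodal]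

@[simp] theorem nodal_cons (a : IsLocalRing.maximalIdeal A) (l : List (IsLocalRing.maximalIdeal A)) :
    nodal (a :: l) = (X - C (a : A)) * nodal l := by
  simp [nodal]

theorem nodal_monic (l : List (IsLocalRing.maximalIdeal A)) : (nodal l).Monic := by
  induction l with
  | nil => simp
  | cons a l ih => rw [nodal_cons]; exact (monic_X_sub_C _).mul ih

theorem nodal_append (l l' : List (IsLocalRing.maximalIdeal A)) :
    nodal (l ++ l') = nodal l * nodal l' := by
  simp [nodal]

theorem nodal_append_singleton (l : List (IsLocalRing.maximalIdeal A))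
    (a : IsLocalRing.maximalIdeal A) : nodal (l ++ [a]) = nodal l * (X - C (a : A)) := by
  rw [nodal_append, nodal_cons, nodal_nil, mul_one]

theorem natDegree_nodal (l : List (IsLocalRing.maximalIdeal A)) :
    (nodal l).natDegree = l.length := by
  induction l with
  | nil => simp
  | cons a l ih =>
    rw [nodal_cons, ((monic_X_sub_C _).natDegree_mul (nodal_monic l)), ih, natDegree_X_sub_C]
    simp [add_comm]

@[simp] theorem ev_aeval (a : IsLocalRing.maximalIdeal A) (p : A[X]) :
    D.ev a (aeval D.t p) = p.eval (a : A) := by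
  rw [← Polynomial.aeval_algHom_apply, D.ev_t]
  simp [Polynomial.aeval_def]

theorem aeval_nodal_cons (a : IsLocalRing.maximalIdeal A)
    (l : List (IsLocalRing.maximalIdeal A)) :
    aeval D.t (nodal (a :: l)) = (D.t - algebraMap A 𝒪 (a : A)) * aeval D.t (nodal l) := by
  simp [nodal_cons]

/-- **Interpolation.**  Every disc function is a polynomial in `t` modulo `∏ (t - a_i)`. -/
theorem exists_interp (l : List (IsLocalRing.maximalIdeal A)) (f : 𝒪) :
    ∃ (p : A[X]) (h : 𝒪), f = aeval D.t p + aeval D.t (nodal l) * h := by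
  induction l generalizing f with
  | nil => exact ⟨0, f, by simp⟩
  | cons a l ih =>
    obtain ⟨f', hf'⟩ := D.taylor a f
    obtain ⟨p, h, hp⟩ := ih f'
    refine ⟨C (D.ev a f) + (X - C (a : A)) * p, h, ?_⟩
    rw [D.aeval_nodal_cons]
    conv_lhs => rw [hf', hp]
    simp only [map_add, map_mul, map_sub, aeval_C, aeval_X]
    ring

/-- If `p(t)` is divisible by `∏ (t - a_i)` in the disc algebra, then `p` is divisible by
`∏ (X - a_i)` as a polynomial. -/
theorem nodal_dvd_of_aeval (l : List (IsLocalRing.maximalIdeal A)) (p : A[X]) (h : 𝒪)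
    (hp : aeval D.t p = aeval D.t (nodal l) * h) : nodal l ∣ p := by
  induction l generalizing p h with
  | nil => simp
  | cons a l ih =>
    rw [D.aeval_nodal_cons] at hp
    have hroot : p.eval (a : A) = 0 := by
      have := congrArg (D.ev a) hp
      rw [D.ev_aeval, map_mul, map_mul, map_sub, D.ev_t] at this
      simpa using this
    have hdiv : (X - C (a : A)) * (p /ₘ (X - C (a : A))) = p :=
      mul_divByMonic_eq_iff_isRoot.mpr hroot
    set p₁ := p /ₘ (X - C (a : A)) with hp₁
    have h1 : aeval D.t p = (D.t - algebraMap A 𝒪 (a : A)) * aeval D.t p₁ := by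
      conv_lhs => rw [← hdiv]
      simp
    have h2 : (D.t - algebraMap A 𝒪 (a : A)) * (aeval D.t p₁ - aeval D.t (nodal l) * h) = 0 := by
      rw [mul_sub, ← h1, hp]; ring
    have h3 := D.nzd a _ h2
    have h4 : aeval D.t p₁ = aeval D.t (nodal l) * h := sub_eq_zero.mp h3
    obtain ⟨q, hq⟩ := ih p₁ h h4
    refine ⟨q, ?_⟩
    rw [nodal_cons, ← hdiv, hq]
    ring

/-- Cancellation of `nodal l` in the disc algebra. -/
theorem nodal_cancel (l : List (IsLocalRing.maximalIdeal A)) (f : 𝒪)
    (h : aeval D.t (nodal l) * f = 0) : f = 0 := by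
  induction l with
  | nil => simpa using h
  | cons a l ih =>
    rw [D.aeval_nodal_cons, mul_assoc] at h
    exact ih (D.nzd a _ h)

end DiscAlg

end Fermat.Agent.A3.H799

end
-- ===== PACK-END A3/H799/Disc.lean

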