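import Mathlib
import Fermat.Prelude.Def_ModularCurve_X0ModL
import Fermat.Prelude.Thm_ModularCurve_coeffMap_qExpand
import Fermat.Prelude.Def_AlgebraicCurve_Correspondence
import Fermat.Agent.Pack.S3234.G4E0L1
import Fermat.Agent.Pack.S3234.G0E2L2
import Fermat.Agent.Pack.S3234.G0E3L0
import Fermat.Agent.Pack.S3234.G0E2L1
import Fermat.Agent.Pack.S3234.G4E0L0
import Fermat.Agent.Pack.S3234.G0E1L0
import Fermat.Agent.Pack.S3234.G4E0L2

-- ===== PACK-BEGIN S19/H135/SubProd.lean
section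
/-
Cell A3 / WP-C (helper135): Hopf lattices restrict along equivariant injections (sub-objects,
transport along isomorphisms) and are stable under binary products.
-/


set_option autoImplicit false

namespace Fermat.Agent.S19.H135

section Sub

variable {ℓ : ℕ} {M M₁ : Type} [AddCommGroup M] [AddCommGroup M₁]
  {act : (AlgebraicClosure ℚ ≃ₐ[ℚ] AlgebraicClosure ℚ) → M → M}
  {act₁ : (AlgebraicClosure ℚ ≃ₐ[ℚ] AlgebraicClosure ℚ) → M₁ → M₁}

/-- Restriction of a Hopf lattice along an equivariant additive injection. -/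
theorem IsHopfLattice.restrict {Λ : Subalgebra (GaloisRep.ratLocalizedAt ℓ) (M → AlgebraicClosure ℚ)}
    (hΛ : IsHopfLattice ℓ act Λ) (i : M₁ →+ M) (hi : Function.Injective i)
    (heq : ∀ σ m, i (act₁ σ m) = act σ (i m)) :
    IsHopfLattice ℓ act₁ (Λ.map (pull (GaloisRep.ratLocalizedAt ℓ) (AlgebraicClosure ℚ) i)) := by
  refine ⟨?_, ?_, ?_, ?_⟩
  · rw [Subalgebra.map_toSubmodule]
    exact hΛ.fg.map _
  · rintro _ ⟨a, ha, rfl⟩ σ m
    simp only [AlgHom.coe_toRingHom, pull_apply, heq]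
    exact hΛ.equivariant a ha σ (i m)
  · intro m n hmn
    apply hi
    apply hΛ.separates
    intro a ha
    exact hmn _ ⟨a, ha, rfl⟩
  · rintro _ ⟨_, ⟨a, ha, rfl⟩, rfl⟩
    have h1 := hΛ.comul_mem ha
    have h2 : pull (GaloisRep.ratLocalizedAt ℓ) (AlgebraicClosure ℚ)
        (fun p : M₁ × M₁ => p.1 + p.2)
        (pull (GaloisRep.ratLocalizedAt ℓ) (AlgebraicClosure ℚ) i a) =
        fun p : M₁ × M₁ => (fun q : M × M => a (q.1 + q.2)) (i p.1, i p.2) := by
      funext p
      simp only [pull_apply, map_add]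
    show pull (GaloisRep.ratLocalizedAt ℓ) (AlgebraicClosure ℚ)
        (fun p : M₁ × M₁ => p.1 + p.2)
        (pull (GaloisRep.ratLocalizedAt ℓ) (AlgebraicClosure ℚ) i a) ∈ _
    rw [h2]
    refine box_induction (C := fun F => (fun p : M₁ × M₁ => F (i p.1, i p.2)) ∈
      Subalgebra.map (pull (GaloisRep.ratLocalizedAt ℓ) (AlgebraicClosure ℚ)
        (Prod.fst : M₁ × M₁ → M₁))
        (Λ.map (pull (GaloisRep.ratLocalizedAt ℓ) (AlgebraicClosure ℚ) i)) ⊔
      Subalgebra.map (pull (GaloisRep.ratLocalizedAt ℓ) (AlgebraicClosure ℚ)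
        (Prod.snd : M₁ × M₁ → M₁))
        (Λ.map (pull (GaloisRep.ratLocalizedAt ℓ) (AlgebraicClosure ℚ) i))) h1 ?_ ?_
    · intro a' ha' b' hb'
      exact mul_mem_box (Λ₁ := Λ.map (pull (GaloisRep.ratLocalizedAt ℓ) (AlgebraicClosure ℚ) i))
        (Λ₂ := Λ.map (pull (GaloisRep.ratLocalizedAt ℓ) (AlgebraicClosure ℚ) i))
        ⟨a', ha', rfl⟩ ⟨b', hb', rfl⟩
    · intro F₁ F₂ h₁ h₂
      exact Subalgebra.add_mem _ h₁ h₂

theorem HasHopfLattice.of_injective (h : HasHopfLattice ℓ M act) (i : M₁ →+ M)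
    (hi : Function.Injective i) (heq : ∀ σ m, i (act₁ σ m) = act σ (i m)) :
    HasHopfLattice ℓ M₁ act₁ := by
  obtain ⟨Λ, hΛ⟩ := h
  exact ⟨_, hΛ.restrict i hi heq⟩

/-- Transport along an equivariant additive isomorphism. -/
theorem HasHopfLattice.of_addEquiv (h : HasHopfLattice ℓ M act) (e : M ≃+ M₁)
    (heq : ∀ σ m, e (act σ m) = act₁ σ (e m)) : HasHopfLattice ℓ M₁ act₁ := by
  refine h.of_injective e.symm.toAddMonoidHom e.symm.injective ?_
  intro σ m
  apply e.injective
  simp only [AddEquiv.toAddMonoidHom_eq_coe, AddMonoidHom.coe_coe, AddEquiv.apply_symm_apply, heq]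

/-- Restriction to a stable subgroup. -/
theorem HasHopfLattice.addSubgroup (h : HasHopfLattice ℓ M act) (M' : AddSubgroup M)
    (hM' : ∀ σ, ∀ m ∈ M', act σ m ∈ M') :
    HasHopfLattice ℓ M' (fun σ m => ⟨act σ m.1, hM' σ m.1 m.2⟩) :=
  h.of_injective M'.subtype Subtype.val_injective (fun _ _ => rfl)

end Sub

section Prod

variable {ℓ : ℕ} {M₁ M₂ : Type} [AddCommGroup M₁] [AddCommGroup M₂]
  {act₁ : (AlgebraicClosure ℚ ≃ₐ[ℚ] AlgebraicClosure ℚ) → M₁ → M₁}
  {act₂ : (AlgebraicClosure ℚ ≃ₐ[ℚ] AlgebraicClosure ℚ) → M₂ → M₂}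

/-- The box product of two Hopf lattices is a Hopf lattice on the product. -/
theorem IsHopfLattice.prod
    {Λ₁ : Subalgebra (GaloisRep.ratLocalizedAt ℓ) (M₁ → AlgebraicClosure ℚ)}
    {Λ₂ : Subalgebra (GaloisRep.ratLocalizedAt ℓ) (M₂ → AlgebraicClosure ℚ)}
    (h₁ : IsHopfLattice ℓ act₁ Λ₁) (h₂ : IsHopfLattice ℓ act₂ Λ₂) :
    IsHopfLattice ℓ (fun σ (m : M₁ × M₂) => (act₁ σ m.1, act₂ σ m.2))
      (Λ₁.map (pull (GaloisRep.ratLocalizedAt ℓ) (AlgebraicClosure ℚ)
          (Prod.fst : M₁ × M₂ → M₁)) ⊔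
        Λ₂.map (pull (GaloisRep.ratLocalizedAt ℓ) (AlgebraicClosure ℚ)
          (Prod.snd : M₁ × M₂ → M₂))) := by
  refine ⟨?_, ?_, ?_, ?_⟩
  · rw [← Subalgebra.mul_toSubmodule, Subalgebra.map_toSubmodule, Subalgebra.map_toSubmodule]
    exact (h₁.fg.map _).mul (h₂.fg.map _)
  · intro F hF σ m
    refine box_induction (C := fun F => F (act₁ σ m.1, act₂ σ m.2) = σ (F m)) hF ?_ ?_
    · intro a ha b hb
      simp only [h₁.equivariant a ha, h₂.equivariant b hb, map_mul]
    · intro F₁ F₂ e₁ e₂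
      simp only [Pi.add_apply, e₁, e₂, map_add]
  · intro m n hmn
    refine Prod.ext ?_ ?_
    · apply h₁.separates
      intro a ha
      exact hmn _ ((le_sup_left : Λ₁.map (pull (GaloisRep.ratLocalizedAt ℓ) (AlgebraicClosure ℚ)
          (Prod.fst : M₁ × M₂ → M₁)) ≤ _) ⟨a, ha, rfl⟩)
    · apply h₂.separates
      intro b hb
      exact hmn _ ((le_sup_right : Λ₂.map (pull (GaloisRep.ratLocalizedAt ℓ) (AlgebraicClosure ℚ)
          (Prod.snd : M₁ × M₂ → M₂)) ≤ _) ⟨b, hb, rfl⟩)
  · set Λ := Λ₁.map (pull (GaloisRep.ratLocalizedAt ℓ) (AlgebraicClosure ℚ)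
          (Prod.fst : M₁ × M₂ → M₁)) ⊔
        Λ₂.map (pull (GaloisRep.ratLocalizedAt ℓ) (AlgebraicClosure ℚ)
          (Prod.snd : M₁ × M₂ → M₂)) with hΛdef
    set B := Λ.map (pull (GaloisRep.ratLocalizedAt ℓ) (AlgebraicClosure ℚ)
          (Prod.fst : (M₁ × M₂) × (M₁ × M₂) → M₁ × M₂)) ⊔
        Λ.map (pull (GaloisRep.ratLocalizedAt ℓ) (AlgebraicClosure ℚ)
          (Prod.snd : (M₁ × M₂) × (M₁ × M₂) → M₁ × M₂)) with hBdef
    rw [Subalgebra.map_le, hΛdef]
    refine sup_le ?_ ?_
    · rw [Subalgebra.map_le]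
      intro a ha
      show (fun p : (M₁ × M₂) × (M₁ × M₂) => a ((p.1 + p.2).1)) ∈ B
      have h := h₁.comul_mem ha
      refine box_induction (C := fun F =>
        (fun p : (M₁ × M₂) × (M₁ × M₂) => F (p.1.1, p.2.1)) ∈ B) h ?_ ?_
      · intro a' ha' a'' ha''
        exact mul_mem_box (Λ₁ := Λ) (Λ₂ := Λ)
          (a := fun m : M₁ × M₂ => a' m.1) (b := fun m : M₁ × M₂ => a'' m.1)
          ((le_sup_left : Λ₁.map (pull (GaloisRep.ratLocalizedAt ℓ) (AlgebraicClosure ℚ)
            (Prod.fst : M₁ × M₂ → M₁)) ≤ _) ⟨a', ha', rfl⟩)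
          ((le_sup_left : Λ₁.map (pull (GaloisRep.ratLocalizedAt ℓ) (AlgebraicClosure ℚ)
            (Prod.fst : M₁ × M₂ → M₁)) ≤ _) ⟨a'', ha'', rfl⟩)
      · intro F₁ F₂ e₁ e₂
        exact Subalgebra.add_mem _ e₁ e₂
    · rw [Subalgebra.map_le]
      intro b hb
      show (fun p : (M₁ × M₂) × (M₁ × M₂) => b ((p.1 + p.2).2)) ∈ B
      have h := h₂.comul_mem hb
      refine box_induction (C := fun F =>
        (fun p : (M₁ × M₂) × (M₁ × M₂) => F (p.1.2, p.2.2)) ∈ B) h ?_ ?_
      · intro b' hb' b'' hb''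
        exact mul_mem_box (Λ₁ := Λ) (Λ₂ := Λ)
          (a := fun m : M₁ × M₂ => b' m.2) (b := fun m : M₁ × M₂ => b'' m.2)
          ((le_sup_right : Λ₂.map (pull (GaloisRep.ratLocalizedAt ℓ) (AlgebraicClosure ℚ)
            (Prod.snd : M₁ × M₂ → M₂)) ≤ _) ⟨b', hb', rfl⟩)
          ((le_sup_right : Λ₂.map (pull (GaloisRep.ratLocalizedAt ℓ) (AlgebraicClosure ℚ)
            (Prod.snd : M₁ × M₂ → M₂)) ≤ _) ⟨b'', hb'', rfl⟩)
      · intro F₁ F₂ e₁ e₂
        exact Subalgebra.add_mem _ e₁ e₂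

theorem HasHopfLattice.prod (h₁ : HasHopfLattice ℓ M₁ act₁) (h₂ : HasHopfLattice ℓ M₂ act₂) :
    HasHopfLattice ℓ (M₁ × M₂) (fun σ m => (act₁ σ m.1, act₂ σ m.2)) := by
  obtain ⟨Λ₁, hΛ₁⟩ := h₁
  obtain ⟨Λ₂, hΛ₂⟩ := h₂
  exact ⟨_, hΛ₁.prod hΛ₂⟩

end Prod

end Fermat.Agent.S19.H135

end
-- ===== PACK-END S19/H135/SubProd.lean

-- ===== PACK-BEGIN S19/H135/Power.lean
section
/-
Cell A3 / WP-C (helper135): Hopf lattices on trivial groups and on finite powers / finite
products of copies of one module.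
-/


set_option autoImplicit false

namespace Fermat.Agent.S19.H135

section Trivial

variable {ℓ : ℕ} {M : Type} [AddCommGroup M]
  {act : (AlgebraicClosure ℚ ≃ₐ[ℚ] AlgebraicClosure ℚ) → M → M}

/-- On a trivial group the scalars form a Hopf lattice. -/
theorem isHopfLattice_bot [Subsingleton M] :
    IsHopfLattice ℓ act (⊥ : Subalgebra (GaloisRep.ratLocalizedAt ℓ) (M → AlgebraicClosure ℚ)) := by
  refine ⟨?_, ?_, ?_, ?_⟩
  · exact Subalgebra.fg_bot_toSubmodule
  · intro f hf σ m
    obtain ⟨r, rfl⟩ := Algebra.mem_bot.mp hf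
    show algebraMap ℚ (AlgebraicClosure ℚ) (r : ℚ) = σ (algebraMap ℚ (AlgebraicClosure ℚ) (r : ℚ))
    exact (σ.commutes (r : ℚ)).symm
  · intro m n _
    exact Subsingleton.elim m n
  · rintro _ ⟨f, hf, rfl⟩
    obtain ⟨r, rfl⟩ := Algebra.mem_bot.mp hf
    rw [AlgHom.coe_toRingHom, AlgHom.commutes]
    exact Subalgebra.algebraMap_mem _ r

theorem hasHopfLattice_of_subsingleton [Subsingleton M] : HasHopfLattice ℓ M act :=
  ⟨⊥, isHopfLattice_bot⟩

end Trivial

section Power

variable {ℓ : ℕ} {M : Type} [AddCommGroup M]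
  {act : (AlgebraicClosure ℚ ≃ₐ[ℚ] AlgebraicClosure ℚ) → M → M}

/-- Finite powers, indexed by `Fin r`. -/
theorem HasHopfLattice.finPower (h : HasHopfLattice ℓ M act) (r : ℕ) :
    HasHopfLattice ℓ (Fin r → M) (fun σ v i => act σ (v i)) := by
  induction r with
  | zero => exact hasHopfLattice_of_subsingleton
  | succ r ih =>
    have hprod := h.prod ih
    let i : (Fin (r + 1) → M) →+ M × (Fin r → M) :=
      { toFun := fun v => (v 0, fun j => v j.succ)
        map_zero' := rfl
        map_add' := fun _ _ => rfl }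
    refine hprod.of_injective i ?_ (fun _ _ => rfl)
    intro v w hvw
    have h0 : v 0 = w 0 := congrArg Prod.fst hvw
    have hs : (fun j : Fin r => v j.succ) = fun j => w j.succ := congrArg Prod.snd hvw
    funext j
    refine Fin.cases h0 (fun j => congrFun hs j) j

/-- Finite powers, indexed by an arbitrary finite type. -/
theorem HasHopfLattice.power (h : HasHopfLattice ℓ M act) (ι : Type) [Finite ι] :
    HasHopfLattice ℓ (ι → M) (fun σ v i => act σ (v i)) := by
  obtain ⟨r, ⟨e⟩⟩ := Finite.exists_equiv_fin ι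
  let i : (ι → M) →+ (Fin r → M) :=
    { toFun := fun v j => v (e.symm j)
      map_zero' := rfl
      map_add' := fun _ _ => rfl }
  refine (h.finPower r).of_injective i ?_ (fun _ _ => rfl)
  intro v w hvw
  funext x
  have := congrFun hvw (e x)
  simpa [i] using this

end Power

end Fermat.Agent.S19.H135

end
-- ===== PACK-END S19/H135/Power.lean

-- ===== PACK-BEGIN S31/H982/TracePow.lean
section


/-!
# Row S31 (helper982): trace of powers in rank 2 and local constancy of traces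

Self-contained versions of the small algebra pieces used by the transfer principle
(`Fermat/Agent/S31/H982/Transfer.lean`).
-/

set_option autoImplicit false

open Polynomial

namespace Fermat.Agent.S31.H982

open Fermat.Agent.S31

section PowTr

variable {R : Type*} [CommRing R]

theorem powTr_zero (a d : R) : powTr a d 0 = 2 := by
  rw [powTr]

theorem powTr_one (a d : R) : powTr a d 1 = a := by
  rw [powTr]

theorem powTr_add_two (a d : R) (j : ℕ) :
    powTr a d (j + 2) = a * powTr a d (j + 1) - d * powTr a d j := by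
  rw [powTr]

/-- Ring homomorphisms commute with `powTr`. -/
theorem map_powTr' {R' : Type*} [CommRing R'] (φ : R →+* R') (a d : R) (j : ℕ) :
    φ (powTr a d j) = powTr (φ a) (φ d) j := by
  induction j using Nat.strong_induction_on with
  | _ j ih =>
    match j, ih with
    | 0, _ => rw [powTr_zero, powTr_zero, map_ofNat]
    | 1, _ => rw [powTr_one, powTr_one]
    | (j + 2), ih =>
      rw [powTr_add_two, powTr_add_two, map_sub, map_mul, map_mul, ih (j + 1) (by omega),
        ih j (by omega)]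

variable {M : Type*} [AddCommGroup M] [Module R M] [Module.Free R M] [Module.Finite R M]

/-- The trace of an endomorphism is minus the next-to-leading coefficient of its characteristic
polynomial. -/
theorem trace_eq_neg_nextCoeff_charpoly (f : Module.End R M) :
    LinearMap.trace R M f = -f.charpoly.nextCoeff := by
  classical
  let b := Module.Free.chooseBasis R M
  rw [LinearMap.trace_eq_matrix_trace R b, Matrix.trace_eq_neg_charpoly_nextCoeff,
    LinearMap.charpoly_toMatrix]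

/-- **B1**.  Cayley–Hamilton in rank 2: the trace of `f ^ j` is `powTr a d j` if the
characteristic polynomial of `f` is `X ^ 2 - a X + d`. -/
theorem trace_pow_of_charpoly' (hrk : Module.finrank R M = 2) (f : Module.End R M)
    (a d : R) (h : f.charpoly = X ^ 2 - C a * X + C d) (j : ℕ) :
    LinearMap.trace R M (f ^ j) = powTr a d j := by
  rcases subsingleton_or_nontrivial R with hR | hR
  · exact Subsingleton.elim _ _
  have hCH : f ^ 2 = a • f - d • (1 : Module.End R M) := by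
    have h1 := LinearMap.aeval_self_charpoly f
    rw [h] at h1
    simp only [map_add, map_sub, map_mul, map_pow, aeval_X, aeval_C] at h1
    rw [Algebra.algebraMap_eq_smul_one, Algebra.algebraMap_eq_smul_one] at h1
    rw [smul_mul_assoc, one_mul] at h1
    rw [← sub_eq_zero]
    rw [← h1]
    abel
  have htr1 : LinearMap.trace R M f = a := by
    have hdeg : f.charpoly.natDegree = 2 := by
      rw [LinearMap.charpoly_natDegree, hrk]
    rw [trace_eq_neg_nextCoeff_charpoly,
      nextCoeff_of_natDegree_pos (by rw [hdeg]; norm_num), hdeg, h]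
    simp [coeff_X, coeff_C]
  induction j using Nat.strong_induction_on with
  | _ j ih =>
    match j, ih with
    | 0, _ =>
      rw [pow_zero, LinearMap.trace_one, hrk, powTr_zero]
      norm_num
    | 1, _ => rw [pow_one, htr1, powTr_one]
    | (j + 2), ih =>
      have hpow : f ^ (j + 2) = a • f ^ (j + 1) - d • f ^ j := by
        rw [pow_add, hCH, mul_sub, mul_smul_comm, mul_smul_comm, mul_one, ← pow_succ]
      rw [hpow, map_sub, map_smul, map_smul, ih (j + 1) (by omega), ih j (by omega),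
        powTr_add_two, smul_eq_mul, smul_eq_mul]

end PowTr

section TraceCongr

/-- A linear map sends `I • ⊤` into `I • ⊤`. -/
theorem map_mem_smul_top {R M : Type*} [CommRing R] [AddCommGroup M] [Module R M]
    (I : Ideal R) (f : Module.End R M) {x : M} (hx : x ∈ I • (⊤ : Submodule R M)) :
    f x ∈ I • (⊤ : Submodule R M) := by
  refine Submodule.smul_induction_on hx ?_ ?_
  · intro a ha w _
    rw [map_smul]
    exact Submodule.smul_mem_smul ha Submodule.mem_top
  · intro x y hx hy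
    rw [map_add]
    exact Submodule.add_mem _ hx hy

/-- Coordinates of an element of `I • ⊤` lie in `I`. -/
theorem repr_mem_of_mem_smul_top {R M ι : Type*} [CommRing R] [AddCommGroup M] [Module R M]
    (b : Module.Basis ι R M) (I : Ideal R) {x : M} (hx : x ∈ I • (⊤ : Submodule R M)) (i : ι) :
    b.repr x i ∈ I := by
  refine Submodule.smul_induction_on hx ?_ ?_
  · intro a ha w _
    rw [map_smul, Finsupp.smul_apply, smul_eq_mul]
    exact I.mul_mem_right _ ha
  · intro x y hx hy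
    rw [map_add, Finsupp.add_apply]
    exact I.add_mem hx hy

/-- If an endomorphism of a finite free module has image in `I • ⊤`, its trace lies in `I`. -/
theorem trace_mem_of_forall_mem_smul_top {R M : Type*} [CommRing R] [AddCommGroup M]
    [Module R M] [Module.Free R M] [Module.Finite R M] (I : Ideal R) (f : Module.End R M)
    (hf : ∀ v, f v ∈ I • (⊤ : Submodule R M)) : LinearMap.trace R M f ∈ I := by
  classical
  let b := Module.Free.chooseBasis R M
  rw [LinearMap.trace_eq_matrix_trace R b, Matrix.trace]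
  refine I.sum_mem fun i _ => ?_
  rw [Matrix.diag_apply, LinearMap.toMatrix_apply]
  exact repr_mem_of_mem_smul_top b I (hf _) i

variable {A : Type} [CommRing A] [IsLocalRing A]

/-- **C**.  Traces are locally constant modulo `m ^ n`. -/
theorem trace_congr_of_agree' (ρ : GaloisRepAdic A) (n : ℕ) :
    ∃ L : IntermediateField ℚ Qb, FiniteDimensional ℚ L ∧
      ∀ g g' : GQ, (∀ x ∈ L, g x = g' x) →
        ρ.trace g - ρ.trace g' ∈ IsLocalRing.maximalIdeal A ^ n := by
  obtain ⟨L, hL, h1⟩ := ρ.isAdicContinuous n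
  refine ⟨L, hL, fun g g' hgg' => ?_⟩
  have hσ : ∀ x ∈ L, (g'⁻¹ * g) x = x := by
    intro x hx
    rw [AlgEquiv.mul_apply, hgg' x hx]
    exact g'.symm_apply_apply x
  have hg : g = g' * (g'⁻¹ * g) := by group
  have key : ∀ v, (ρ.ρ g - ρ.ρ g') v ∈
      (IsLocalRing.maximalIdeal A ^ n) • (⊤ : Submodule A ρ.V) := by
    intro v
    have h2 : (ρ.ρ g - ρ.ρ g') v = ρ.ρ g' (ρ.ρ (g'⁻¹ * g) v - v) := by
      conv_lhs => rw [hg]
      rw [map_mul, LinearMap.sub_apply, Module.End.mul_apply, map_sub]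
    rw [h2]
    exact map_mem_smul_top _ _ (h1 _ hσ v)
  have := trace_mem_of_forall_mem_smul_top _ _ key
  rwa [map_sub] at this

end TraceCongr

end Fermat.Agent.S31.H982

end
-- ===== PACK-END S31/H982/TracePow.lean

-- ===== PACK-BEGIN S31/H862/Weight.lean
section




/-!
# S31 / SS (helper862) — a `Γ₀(N)`-partition weight on the upper half plane

`wt N : ℍ → ℝ` is nonnegative, continuous, integrable for the invariant measure of `ℍ`, and
`∑_{γ ∈ Γ₀(N)} wt N (γ • z) = 1` for every `z`.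
-/

set_option autoImplicit false

open UpperHalfPlane CongruenceSubgroup MeasureTheory
open scoped MatrixGroups ENNReal NNReal

namespace Fermat.Agent.S31.H862

/-- A chosen `SL(2,ℤ)`-partition of unity. -/
noncomputable def chiBase : ℂ → ℝ := Classical.choose Fermat.Agent.S21.exists_partition_SL2Z

theorem isPartition_chiBase : Fermat.Agent.S21.IsSL2ZPartition chiBase := by
  obtain ⟨h1, h2, h3, h4, h5⟩ := Classical.choose_spec Fermat.Agent.S21.exists_partition_SL2Z
  exact ⟨h1, h2, h3, h4, h5⟩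

/-- The weight function on `ℍ`. -/
noncomputable def wt (N : ℕ) (z : ℍ) : ℝ := Fermat.Agent.S21.chi N chiBase (z : ℂ)

theorem mob_coe_eq (g : SL(2, ℤ)) (z : ℍ) :
    Fermat.Agent.S21.mob g (z : ℂ) = ((g • z : ℍ) : ℂ) := by
  simp [Fermat.Agent.S21.mob]

theorem wt_smul_eq (N : ℕ) (γ : SL(2, ℤ)) (z : ℍ) :
    wt N (γ • z) = Fermat.Agent.S21.chi N chiBase (Fermat.Agent.S21.mob γ (z : ℂ)) := by
  rw [wt, mob_coe_eq]

section

variable (N : ℕ) [NeZero N]

theorem wt_nonneg (z : ℍ) : 0 ≤ wt N z :=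
  Fermat.Agent.S21.chi_nonneg N isPartition_chiBase _

theorem wt_le_one (z : ℍ) : wt N z ≤ 1 :=
  Fermat.Agent.S21.chi_le_one N isPartition_chiBase _

theorem continuous_wt : Continuous (wt N) := by
  have h := Fermat.Agent.S21.continuousOn_chi N isPartition_chiBase
  exact h.comp_continuous continuous_coe fun z => z.im_pos

theorem finite_support_wt (z : ℍ) :
    (Function.support fun γ : Gamma0 N => wt N ((γ : SL(2, ℤ)) • z)).Finite := by
  have h := Fermat.Agent.S21.chi_locfin N isPartition_chiBase {(z : ℂ)} isCompact_singleton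
    (by
      intro w hw
      rw [Set.mem_singleton_iff] at hw
      subst hw
      exact z.im_pos)
  refine h.subset fun γ hγ => ⟨(z : ℂ), rfl, ?_⟩
  rw [← wt_smul_eq]
  exact hγ

theorem hasSum_wt (z : ℍ) : HasSum (fun γ : Gamma0 N => wt N ((γ : SL(2, ℤ)) • z)) 1 := by
  classical
  have hfin := finite_support_wt N z
  have h1 := Fermat.Agent.S21.chi_sum_eq_one N isPartition_chiBase (z : ℂ) z.im_pos
  have h2 : ∑ᶠ γ : Gamma0 N, wt N ((γ : SL(2, ℤ)) • z) = 1 := by
    rw [← h1]
    exact finsum_congr fun γ => wt_smul_eq N _ z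
  rw [← h2, finsum_eq_sum _ hfin]
  exact hasSum_sum_of_ne_finset_zero fun γ hγ => by
    simpa using hγ

end

/-- the density on `ℂ` -/
noncomputable def dens (z : ℂ) : ℝ≥0∞ := ↑((1 / ‖z.im‖₊) ^ 2 : NNReal)

/-- the Siegel-type box in `ℂ` -/
def boxC : Set ℂ := {z : ℂ | |z.re| ≤ 1 ∧ 1 / 2 < z.im}

theorem lintegral_Ioi_half_lt_top :
    ∫⁻ y in Set.Ioi (1 / 2 : ℝ), (↑((1 / ‖y‖₊) ^ 2 : NNReal) : ℝ≥0∞) < ∞ := by
  have h := integrableOn_Ioi_rpow_of_lt (a := -2) (c := 1 / 2) (by norm_num) (by norm_num)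
  have h2 := h.hasFiniteIntegral
  rw [HasFiniteIntegral] at h2
  refine lt_of_le_of_lt (le_of_eq ?_) h2
  refine setLIntegral_congr_fun measurableSet_Ioi fun y hy => ?_
  have hy0 : (0 : ℝ) < y := lt_trans (by norm_num) hy
  rw [enorm_eq_nnnorm]
  congr 1
  ext
  simp only [NNReal.coe_pow, one_div, NNReal.coe_inv, coe_nnnorm, Real.norm_eq_abs]
  rw [abs_of_pos hy0, abs_of_pos (Real.rpow_pos_of_pos hy0 _),
    Real.rpow_neg hy0.le, inv_pow]
  norm_num

theorem lintegral_boxC_lt_top : ∫⁻ z in boxC, dens z < ∞ := by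
  have hmp := Complex.volume_preserving_equiv_real_prod
  have hbox : boxC = Complex.measurableEquivRealProd ⁻¹' (Set.Icc (-1 : ℝ) 1 ×ˢ Set.Ioi (1 / 2 : ℝ)) := by
    ext z
    simp [boxC, abs_le, Complex.measurableEquivRealProd]
  have hdens : ∀ z : ℂ, dens z =
      (fun p : ℝ × ℝ => (↑((1 / ‖p.2‖₊) ^ 2 : NNReal) : ℝ≥0∞)) (Complex.measurableEquivRealProd z) := by
    intro z
    simp [dens, Complex.measurableEquivRealProd]
  have key := hmp.setLIntegral_comp_preimage_emb Complex.measurableEquivRealProd.measurableEmbedding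
    (fun p : ℝ × ℝ => (↑((1 / ‖p.2‖₊) ^ 2 : NNReal) : ℝ≥0∞)) (Set.Icc (-1 : ℝ) 1 ×ˢ Set.Ioi (1 / 2 : ℝ))
  have e1 : ∫⁻ z in boxC, dens z = ∫⁻ (b : ℝ × ℝ) in Set.Icc (-1 : ℝ) 1 ×ˢ Set.Ioi (1 / 2 : ℝ),
      (↑((1 / ‖b.2‖₊) ^ 2 : NNReal) : ℝ≥0∞) := by
    rw [← key, hbox]
    exact lintegral_congr fun z => hdens z
  rw [e1, Measure.volume_eq_prod, setLIntegral_prod]
  · simp only
    rw [lintegral_const]
    exact ENNReal.mul_lt_top lintegral_Ioi_half_lt_top (by simp)
  · apply Measurable.aemeasurable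
    fun_prop


/-- the Siegel-type box in `ℍ` -/
def boxH : Set ℍ := {z : ℍ | |z.re| ≤ 1 ∧ 1 / 2 < z.im}

theorem volume_boxH_lt_top : volume boxH < ∞ := by
  rw [UpperHalfPlane.volume_eq_lintegral]
  refine lt_of_le_of_lt (lintegral_mono_set ?_) lintegral_boxC_lt_top
  rintro _ ⟨z, hz, rfl⟩
  exact hz

theorem measurableSet_boxH : MeasurableSet boxH := by
  have h1 : Continuous fun z : ℍ => |z.re| := continuous_abs.comp UpperHalfPlane.continuous_re
  have h2 : Continuous fun z : ℍ => z.im := UpperHalfPlane.continuous_im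
  exact (isClosed_le h1 continuous_const).measurableSet.inter
    (isOpen_lt continuous_const h2).measurableSet

theorem continuous_chiBase_coe : Continuous fun z : ℍ => chiBase (z : ℂ) :=
  isPartition_chiBase.smooth.continuousOn.comp_continuous continuous_coe fun z => z.im_pos

theorem chiBase_le_one (z : ℍ) : chiBase (z : ℂ) ≤ 1 := by
  classical
  have hfin := Fermat.Agent.S21.IntAAux.finite_support chiBase isPartition_chiBase (z : ℂ) z.im_pos
  have h1 := isPartition_chiBase.sum_eq_one (z : ℂ) z.im_pos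
  rw [finsum_eq_sum _ hfin] at h1
  by_cases h0 : chiBase (z : ℂ) = 0
  · rw [h0]; exact zero_le_one
  · have hmem : (1 : SL(2, ℤ)) ∈ hfin.toFinset := by
      rw [Set.Finite.mem_toFinset, Function.mem_support]
      simpa [Fermat.Agent.S21.mob] using h0
    have h2 := Finset.single_le_sum (f := fun g : SL(2, ℤ) => chiBase (Fermat.Agent.S21.mob g (z : ℂ)))
      (fun g _ => isPartition_chiBase.nonneg _) hmem
    rw [h1] at h2
    simpa [Fermat.Agent.S21.mob] using h2

theorem integrable_chiBase : Integrable (fun z : ℍ => chiBase (z : ℂ)) volume := by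
  have hb : Integrable (boxH.indicator fun _ : ℍ => (1 : ℝ)) volume :=
    (integrable_indicator_iff measurableSet_boxH).mpr
      (integrableOn_const (by exact volume_boxH_lt_top.ne))
  refine hb.mono' continuous_chiBase_coe.aestronglyMeasurable (Filter.Eventually.of_forall fun z => ?_)
  rw [Real.norm_of_nonneg (isPartition_chiBase.nonneg _)]
  by_cases hz : z ∈ boxH
  · rw [Set.indicator_of_mem hz]
    exact chiBase_le_one z
  · rw [Set.indicator_of_notMem hz]
    by_contra hne
    push Not at hne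
    exact hz (isPartition_chiBase.supp _ (ne_of_gt hne))

theorem integrable_chiBase_smul (g : SL(2, ℤ)) :
    Integrable (fun z : ℍ => chiBase ((g • z : ℍ) : ℂ)) volume := by
  have hmp : MeasurePreserving (fun z : ℍ => (g : GL (Fin 2) ℝ) • z) volume volume :=
    measurePreserving_smul (g : GL (Fin 2) ℝ) volume
  have h := hmp.integrable_comp_of_integrable integrable_chiBase
  refine h.congr (Filter.Eventually.of_forall fun z => ?_)
  simp only [Function.comp_apply]
  rw [ModularGroup.sl_moeb]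

variable (N : ℕ) [NeZero N]

omit [NeZero N] in
theorem wt_eq_sum (z : ℍ) [Fintype (SL(2, ℤ) ⧸ Gamma0 N)] :
    wt N z = ∑ q : SL(2, ℤ) ⧸ Gamma0 N, chiBase ((((Quotient.out q : SL(2, ℤ)) • z : ℍ)) : ℂ) := by
  rw [wt, Fermat.Agent.S21.IntAAux.chi_of_mem N chiBase z.im_pos, finsum_eq_sum_of_fintype]
  exact Finset.sum_congr rfl fun q _ => by rw [mob_coe_eq]

theorem integrable_wt : Integrable (wt N) volume := by
  have : Finite (SL(2, ℤ) ⧸ Gamma0 N) := Subgroup.finite_quotient_of_finiteIndex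
  let _ : Fintype (SL(2, ℤ) ⧸ Gamma0 N) := Fintype.ofFinite _
  have h : Integrable (fun z : ℍ => ∑ q : SL(2, ℤ) ⧸ Gamma0 N,
      chiBase ((((Quotient.out q : SL(2, ℤ)) • z : ℍ)) : ℂ)) volume :=
    integrable_finsetSum _ fun q _ => integrable_chiBase_smul _
  exact h.congr (Filter.Eventually.of_forall fun z => (wt_eq_sum N z).symm)

end Fermat.Agent.S31.H862

end
-- ===== PACK-END S31/H862/Weight.lean

-- ===== PACK-BEGIN S37/H217/NormRed.lean
section


/-!
# Norms commute with reduction (RED-A1), abstract form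

`K ⊇ A` valuation subring, `π : A ↠ k`; `F/K`, `F_k/k` field extensions; `O ⊆ F` a valuation
subring containing `A`, with a surjective ring hom `ρ : O ↠ F_k` extending `π`; `t ∈ O` with
`t̄ = ρ t` transcendental over `k`, and `[F : K(t)] = [F_k : k(t̄)] < ∞`.  Then for `y ∈ O`:

  `N_{F/K(t)} y ∈ O`  and  `ρ (N_{F/K(t)} y) = N_{F_k/k(t̄)} (ρ y)`.

(`norm_red`).  Intermediate results: `ρ` maps `O ∩ K(t)` into `k(t̄)` (`rho_mem_adjoin`),
`O ∩ K = A` (`mem_of_algebraMap_mem`), primitive scaling of polynomials (`exists_primitive`).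
-/

namespace Fermat.Agent.S37.H217

open IntermediateField Polynomial

/-- An abstract Gauss reduction context. -/
structure RedCtx {K k : Type*} [Field K] [Field k] (A : ValuationSubring K) (π : A →+* k)
    (F Fk : Type*) [Field F] [Field Fk] [Algebra K F] [Algebra k Fk] where
  π_surj : Function.Surjective π
  /-- the valuation ring of the function field -/
  O : ValuationSubring F
  /-- reduction of functions -/
  ρ : O →+* Fk
  ρ_surj : Function.Surjective ρ
  const_mem : ∀ a : A, algebraMap K F (a : K) ∈ O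
  ρ_const : ∀ a : A, ρ ⟨algebraMap K F (a : K), const_mem a⟩ = algebraMap k Fk (π a)

namespace RedCtx

variable {K k : Type*} [Field K] [Field k] {A : ValuationSubring K} {π : A →+* k}
  {F Fk : Type*} [Field F] [Field Fk] [Algebra K F] [Algebra k Fk] (G : RedCtx A π F Fk)

include G in
theorem π_eq_zero_iff (a : A) : π a = 0 ↔ a ∈ IsLocalRing.maximalIdeal A := by
  have h := IsLocalRing.eq_maximalIdeal (RingHom.ker_isMaximal_of_surjective π G.π_surj)
  rw [← h, RingHom.mem_ker]

theorem ρ_eq_zero_iff (f : G.O) : G.ρ f = 0 ↔ (f : F) ∈ G.O.nonunits := by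
  have h := IsLocalRing.eq_maximalIdeal (RingHom.ker_isMaximal_of_surjective G.ρ G.ρ_surj)
  rw [ValuationSubring.coe_mem_nonunits_iff, ← h, RingHom.mem_ker]

/-- the inclusion `A → O` -/
def const : A →+* G.O where
  toFun a := ⟨algebraMap K F (a : K), G.const_mem a⟩
  map_one' := Subtype.ext (by simp)
  map_mul' a b := Subtype.ext (by simp)
  map_zero' := Subtype.ext (by simp)
  map_add' a b := Subtype.ext (by simp)

@[simp] theorem coe_const (a : A) : ((G.const a : G.O) : F) = algebraMap K F (a : K) := rfl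

theorem ρ_comp_const : G.ρ.comp G.const = (algebraMap k Fk).comp π :=
  RingHom.ext fun a => G.ρ_const a

/-- `O ∩ K = A`. -/
theorem mem_of_algebraMap_mem {c : K} (hc : algebraMap K F c ∈ G.O) : c ∈ A := by
  by_contra hcA
  have hc0 : c ≠ 0 := fun h => hcA (h ▸ A.zero_mem)
  have hinv : c⁻¹ ∈ A := (A.mem_or_inv_mem c).resolve_left hcA
  have hnon : (⟨c⁻¹, hinv⟩ : A) ∈ IsLocalRing.maximalIdeal A := by
    rw [← ValuationSubring.coe_mem_nonunits_iff]
    exact (A.inv_mem_nonunits_iff).mpr (Or.inr hcA)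
  have h1 : G.ρ (G.const ⟨c⁻¹, hinv⟩) = 0 := by
    have := G.ρ_const ⟨c⁻¹, hinv⟩
    rw [(G.π_eq_zero_iff _).mpr hnon, map_zero] at this
    exact this
  have h2 : G.ρ (⟨algebraMap K F c, hc⟩ * G.const ⟨c⁻¹, hinv⟩) = 0 := by
    rw [map_mul, h1, mul_zero]
  have h3 : (⟨algebraMap K F c, hc⟩ * G.const ⟨c⁻¹, hinv⟩ : G.O) = 1 := by
    apply Subtype.ext
    show algebraMap K F c * algebraMap K F c⁻¹ = 1
    rw [← map_mul, mul_inv_cancel₀ hc0, map_one]
  rw [h3, map_one] at h2
  exact one_ne_zero h2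

/-- evaluation at `t ∈ O` of polynomials over `A` -/
def evalO (t : G.O) : A[X] →+* G.O := Polynomial.eval₂RingHom G.const t

theorem coe_evalO (t : G.O) (P : A[X]) :
    ((G.evalO t P : G.O) : F) = aeval (t : F) (P.map (algebraMap A K)) := by
  have h1 : ((G.evalO t P : G.O) : F) = G.O.subtype (Polynomial.eval₂ G.const t P) := rfl
  rw [h1, Polynomial.hom_eval₂, aeval_def, Polynomial.eval₂_map]
  rfl

theorem ρ_evalO (t : G.O) (P : A[X]) :
    G.ρ (G.evalO t P) = aeval (G.ρ t) (P.map π) := by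
  have h1 : G.ρ (G.evalO t P) = G.ρ (Polynomial.eval₂ G.const t P) := rfl
  rw [h1, Polynomial.hom_eval₂, aeval_def, Polynomial.eval₂_map, G.ρ_comp_const]

omit [Field Fk] [Algebra k Fk] [Algebra K F] [Field F] in
/-- Primitive scaling: a nonzero polynomial over `K` is a constant times a polynomial over `A`
with nonzero reduction. -/
theorem exists_primitive (π : A →+* k) (P : K[X]) (hP : P ≠ 0) :
    ∃ (c : K) (P₁ : A[X]), c ≠ 0 ∧ P = C c * P₁.map (algebraMap A K) ∧ P₁.map π ≠ 0 := by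
  classical
  have hsupp : P.support.Nonempty := Polynomial.support_nonempty.mpr hP
  have hc0 : (fun i : P.support => P.coeff i) ≠ 0 := by
    obtain ⟨i, hi⟩ := hsupp
    intro h
    have := congrFun h ⟨i, hi⟩
    exact (Polynomial.mem_support_iff.mp hi) this
  obtain ⟨m, hm0, hm⟩ := exists_scale A (fun i : P.support => P.coeff i) hc0
  have hcoeff : ∀ i, (C (P.coeff m)⁻¹ * P).coeff i ∈ A := by
    intro i
    rw [coeff_C_mul]
    by_cases hi : i ∈ P.support
    · have := hm ⟨i, hi⟩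
      rw [div_eq_inv_mul] at this
      exact this
    · rw [Polynomial.notMem_support_iff.mp hi, mul_zero]
      exact A.zero_mem
  have hl : (C (P.coeff m)⁻¹ * P) ∈ Polynomial.lifts (algebraMap A K) := by
    rw [Polynomial.lifts_iff_coeff_lifts]
    intro i
    exact ⟨⟨_, hcoeff i⟩, rfl⟩
  obtain ⟨P₁, hP₁⟩ := (Polynomial.mem_lifts _).mp hl
  refine ⟨P.coeff m, P₁, hm0, ?_, ?_⟩
  · rw [hP₁, ← mul_assoc, ← C_mul, mul_inv_cancel₀ hm0, C_1, one_mul]
  · intro h0
    have h1 : (P₁.map π).coeff m = 0 := by rw [h0, coeff_zero]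
    rw [coeff_map] at h1
    have h2 : (P₁.coeff m : K) = 1 := by
      have := congrArg (fun Q : K[X] => Q.coeff m) hP₁
      simp only [coeff_map, coeff_C_mul] at this
      rw [inv_mul_cancel₀ hm0] at this
      exact this
    have h3 : P₁.coeff m = 1 := Subtype.ext h2
    rw [h3, map_one] at h1
    exact one_ne_zero h1

variable {t : F} (ht : t ∈ G.O) (htr : Transcendental k (G.ρ ⟨t, ht⟩))

include htr in
/-- The value at `t` of a polynomial over `A` with nonzero reduction is a unit of `O`. -/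
theorem evalO_notMem_nonunits {P : A[X]} (hP : P.map π ≠ 0) :
    ((G.evalO ⟨t, ht⟩ P : G.O) : F) ∉ G.O.nonunits := by
  rw [← G.ρ_eq_zero_iff, G.ρ_evalO]
  intro h
  exact hP (transcendental_iff.mp htr _ h)

include htr in
/-- `ρ` maps `O ∩ K(t)` into `k(t̄)`. -/
theorem rho_mem_adjoin (f : G.O) (hf : (f : F) ∈ K⟮t⟯) : G.ρ f ∈ k⟮G.ρ ⟨t, ht⟩⟯ := by
  obtain ⟨r, s, hrs⟩ := (mem_adjoin_simple_iff K (f : F)).mp hf
  by_cases hf0 : (f : F) = 0
  · have : f = 0 := Subtype.ext hf0
    rw [this, map_zero]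
    exact zero_mem _
  have hr0 : r ≠ 0 := by
    rintro rfl
    rw [map_zero, zero_div] at hrs
    exact hf0 hrs
  have hs0 : s ≠ 0 := by
    rintro rfl
    rw [map_zero, div_zero] at hrs
    exact hf0 hrs
  obtain ⟨cr, r₁, hcr, hr, hr₁⟩ := exists_primitive π r hr0
  obtain ⟨cs, s₁, hcs, hs, hs₁⟩ := exists_primitive π s hs0
  set R₁ : G.O := G.evalO ⟨t, ht⟩ r₁ with hR₁
  set S₁ : G.O := G.evalO ⟨t, ht⟩ s₁ with hS₁
  have hRu : (R₁ : F) ∉ G.O.nonunits := G.evalO_notMem_nonunits ht htr hr₁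
  have hSu : (S₁ : F) ∉ G.O.nonunits := G.evalO_notMem_nonunits ht htr hs₁
  have hRρ : G.ρ R₁ ≠ 0 := fun h => hRu ((G.ρ_eq_zero_iff _).mp h)
  have hSρ : G.ρ S₁ ≠ 0 := fun h => hSu ((G.ρ_eq_zero_iff _).mp h)
  have hR0 : (R₁ : F) ≠ 0 := fun h => hRu (h ▸ G.O.nonunits.zero_mem)
  have hS0 : (S₁ : F) ≠ 0 := fun h => hSu (h ▸ G.O.nonunits.zero_mem)
  -- `f * S₁ = c * R₁` with `c = cr / cs`
  have hR : aeval t r = algebraMap K F cr * (R₁ : F) := by
    rw [hR₁, G.coe_evalO, hr, map_mul, aeval_C]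
  have hS : aeval t s = algebraMap K F cs * (S₁ : F) := by
    rw [hS₁, G.coe_evalO, hs, map_mul, aeval_C]
  have hcs' : algebraMap K F cs ≠ 0 := (_root_.map_ne_zero _).mpr hcs
  have hfc : algebraMap K F (cr / cs) = (f : F) * (S₁ : F) * (R₁ : F)⁻¹ := by
    rw [hrs, hR, hS, map_div₀]
    field_simp
  -- `R₁⁻¹ ∈ O`
  have hRinv : (R₁ : F)⁻¹ ∈ G.O := by
    rcases G.O.mem_or_inv_mem (R₁ : F) with h | h
    · by_contra hn
      apply hRu
      rw [ValuationSubring.mem_nonunits_iff_or]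
      exact Or.inr hn
    · exact h
  have hcO : algebraMap K F (cr / cs) ∈ G.O := by
    rw [hfc]
    exact G.O.mul_mem _ _ (G.O.mul_mem _ _ f.2 S₁.2) hRinv
  have hcA : cr / cs ∈ A := G.mem_of_algebraMap_mem hcO
  -- `f * S₁ = const c * R₁` in `O`
  have hmul : f * S₁ = G.const ⟨cr / cs, hcA⟩ * R₁ := by
    apply Subtype.ext
    show (f : F) * (S₁ : F) = algebraMap K F (cr / cs) * (R₁ : F)
    rw [hfc]
    field_simp
  have hρ := congrArg G.ρ hmul
  rw [map_mul, map_mul] at hρ
  have hρf : G.ρ f = G.ρ (G.const ⟨cr / cs, hcA⟩) * G.ρ R₁ * (G.ρ S₁)⁻¹ := by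
    rw [← hρ]
    field_simp
  rw [hρf]
  have h1 : G.ρ (G.const ⟨cr / cs, hcA⟩) ∈ k⟮G.ρ ⟨t, ht⟩⟯ := by
    have := G.ρ_const ⟨cr / cs, hcA⟩
    have h' : G.ρ (G.const ⟨cr / cs, hcA⟩) = algebraMap k Fk (π ⟨cr / cs, hcA⟩) := this
    rw [h']
    exact IntermediateField.algebraMap_mem _ _
  have h2 : ∀ P : A[X], G.ρ (G.evalO ⟨t, ht⟩ P) ∈ k⟮G.ρ ⟨t, ht⟩⟯ := by
    intro P
    rw [G.ρ_evalO]
    exact (mem_adjoin_simple_iff k _).mpr ⟨P.map π, 1, by simp⟩
  exact mul_mem (mul_mem h1 (h2 r₁)) (inv_mem (h2 s₁))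

/-- `V₀ = O ∩ K(t)`, a valuation subring of `K(t)`. -/
def V₀ (t : F) : ValuationSubring K⟮t⟯ := G.O.comap (algebraMap K⟮t⟯ F)

theorem valExtends (t : F) : ValExtends (G.V₀ t) G.O := fun _ => Iff.rfl

/-- the inclusion `V₀ → O` -/
def incl (t : F) : G.V₀ t →+* G.O where
  toFun a := ⟨algebraMap K⟮t⟯ F (a : K⟮t⟯), a.2⟩
  map_one' := Subtype.ext (by simp)
  map_mul' a b := Subtype.ext (by simp)
  map_zero' := Subtype.ext (by simp)
  map_add' a b := Subtype.ext (by simp)

@[simp] theorem coe_incl (t : F) (a : G.V₀ t) :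
    ((G.incl t a : G.O) : F) = ((a : K⟮t⟯) : F) := rfl

/-- the reduction `ρ₀ : O ∩ K(t) → k(t̄)` -/
def ρ₀ : G.V₀ t →+* k⟮G.ρ ⟨t, ht⟩⟯ :=
  RingHom.codRestrict (G.ρ.comp (G.incl t)) k⟮G.ρ ⟨t, ht⟩⟯
    (fun f => G.rho_mem_adjoin ht htr (G.incl t f) (by rw [coe_incl]; exact (f : K⟮t⟯).2))

theorem coe_ρ₀ (a : G.V₀ t) : ((G.ρ₀ ht htr a : k⟮G.ρ ⟨t, ht⟩⟯) : Fk) = G.ρ (G.incl t a) := rfl

include htr in
/-- **Norms commute with reduction** (RED-A1). -/
theorem norm_red [FiniteDimensional K⟮t⟯ F] [FiniteDimensional k⟮G.ρ ⟨t, ht⟩⟯ Fk]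
    (hfr : Module.finrank K⟮t⟯ F = Module.finrank k⟮G.ρ ⟨t, ht⟩⟯ Fk) (y : G.O) :
    ∃ h : ((Algebra.norm K⟮t⟯ (y : F) : K⟮t⟯) : F) ∈ G.O,
      G.ρ ⟨_, h⟩ = ((Algebra.norm k⟮G.ρ ⟨t, ht⟩⟯ (G.ρ y) : k⟮G.ρ ⟨t, ht⟩⟯) : Fk) := by
  classical
  set b₁ := Module.finBasis k⟮G.ρ ⟨t, ht⟩⟯ Fk with hb₁def
  choose e he using fun i => G.ρ_surj (b₁ i)
  have hR : ResidIndep (G.V₀ t) G.O (fun i => ((e i : G.O) : F)) := by
    intro c hc hsum
    -- the element `s = ∑ incl (c i) * e i` of `O`
    set s : G.O := ∑ i, G.incl t ⟨c i, hc i⟩ * e i with hs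
    have hsF : (s : F) = ∑ i, c i • ((e i : G.O) : F) := by
      rw [hs, ← ValuationSubring.subtype_apply, map_sum]
      refine Finset.sum_congr rfl fun i _ => ?_
      rw [map_mul, Algebra.smul_def]
      rfl
    have hρs : G.ρ s = 0 := by
      rw [G.ρ_eq_zero_iff, hsF]
      exact hsum
    have hρs' : ∑ i, G.ρ₀ ht htr ⟨c i, hc i⟩ • b₁ i = 0 := by
      rw [← hρs, hs, map_sum]
      refine Finset.sum_congr rfl fun i _ => ?_
      rw [map_mul, he, Algebra.smul_def]
      rfl
    have hzero := Fintype.linearIndependent_iff.mp b₁.linearIndependent _ hρs'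
    intro i
    have h1 : G.ρ (G.incl t ⟨c i, hc i⟩) = 0 := by
      have := congrArg (fun z : k⟮G.ρ ⟨t, ht⟩⟯ => (z : Fk)) (hzero i)
      simpa [coe_ρ₀] using this
    rw [G.ρ_eq_zero_iff, coe_incl] at h1
    exact ((G.valExtends t).mem_nonunits_iff (c i)).mp h1
  have : Nonempty (Fin (Module.finrank k⟮G.ρ ⟨t, ht⟩⟯ Fk)) :=
    ⟨⟨0, Module.finrank_pos⟩⟩
  obtain ⟨b, hb⟩ := exists_basis_of_residIndep hR (by rw [Fintype.card_fin, hfr])
  have hbi : ∀ i, b i = ((e i : G.O) : F) := fun i => congrFun hb i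
  have hR' : ResidIndep (G.V₀ t) G.O b := by rw [hb]; exact hR
  have hbO : ∀ i, b i ∈ G.O := fun i => by rw [hbi]; exact (e i).2
  have key := map_norm_eq_norm_map (G.valExtends t) b hR' hbO (G.ρ₀ ht htr) G.ρ
    (fun a => rfl) b₁ (fun i => by
      have : (⟨b i, hbO i⟩ : G.O) = e i := Subtype.ext (hbi i)
      rw [this, he]) y
  refine ⟨norm_mem (G.valExtends t) b hR' hbO y.2, ?_⟩
  have := congrArg (fun z : k⟮G.ρ ⟨t, ht⟩⟯ => (z : Fk)) key
  exact this

include htr in
/-- **Traces commute with reduction.** -/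
theorem trace_red [FiniteDimensional K⟮t⟯ F] [FiniteDimensional k⟮G.ρ ⟨t, ht⟩⟯ Fk]
    (hfr : Module.finrank K⟮t⟯ F = Module.finrank k⟮G.ρ ⟨t, ht⟩⟯ Fk) (y : G.O) :
    ∃ h : ((Algebra.trace K⟮t⟯ F (y : F) : K⟮t⟯) : F) ∈ G.O,
      G.ρ ⟨_, h⟩ = ((Algebra.trace k⟮G.ρ ⟨t, ht⟩⟯ Fk (G.ρ y) : k⟮G.ρ ⟨t, ht⟩⟯) : Fk) := by
  classical
  set b₁ := Module.finBasis k⟮G.ρ ⟨t, ht⟩⟯ Fk with hb₁def
  choose e he using fun i => G.ρ_surj (b₁ i)
  have hR : ResidIndep (G.V₀ t) G.O (fun i => ((e i : G.O) : F)) := by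
    intro c hc hsum
    set s : G.O := ∑ i, G.incl t ⟨c i, hc i⟩ * e i with hs
    have hsF : (s : F) = ∑ i, c i • ((e i : G.O) : F) := by
      rw [hs, ← ValuationSubring.subtype_apply, map_sum]
      refine Finset.sum_congr rfl fun i _ => ?_
      rw [map_mul, Algebra.smul_def]
      rfl
    have hρs : G.ρ s = 0 := by
      rw [G.ρ_eq_zero_iff, hsF]
      exact hsum
    have hρs' : ∑ i, G.ρ₀ ht htr ⟨c i, hc i⟩ • b₁ i = 0 := by
      rw [← hρs, hs, map_sum]
      refine Finset.sum_congr rfl fun i _ => ?_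
      rw [map_mul, he, Algebra.smul_def]
      rfl
    have hzero := Fintype.linearIndependent_iff.mp b₁.linearIndependent _ hρs'
    intro i
    have h1 : G.ρ (G.incl t ⟨c i, hc i⟩) = 0 := by
      have := congrArg (fun z : k⟮G.ρ ⟨t, ht⟩⟯ => (z : Fk)) (hzero i)
      simpa [coe_ρ₀] using this
    rw [G.ρ_eq_zero_iff, coe_incl] at h1
    exact ((G.valExtends t).mem_nonunits_iff (c i)).mp h1
  have : Nonempty (Fin (Module.finrank k⟮G.ρ ⟨t, ht⟩⟯ Fk)) :=
    ⟨⟨0, Module.finrank_pos⟩⟩
  obtain ⟨b, hb⟩ := exists_basis_of_residIndep hR (by rw [Fintype.card_fin, hfr])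
  have hbi : ∀ i, b i = ((e i : G.O) : F) := fun i => congrFun hb i
  have hR' : ResidIndep (G.V₀ t) G.O b := by rw [hb]; exact hR
  have hbO : ∀ i, b i ∈ G.O := fun i => by rw [hbi]; exact (e i).2
  have key := map_trace_intMatrix_eq_trace_map (G.valExtends t) b hR' hbO (G.ρ₀ ht htr) G.ρ
    (fun a => rfl) b₁ (fun i => by
      have : (⟨b i, hbO i⟩ : G.O) = e i := Subtype.ext (hbi i)
      rw [this, he]) y
  have htr' := trace_eq_trace_intMatrix (G.valExtends t) b hR' hbO y
  have hmem : ((Algebra.trace K⟮t⟯ F (y : F) : K⟮t⟯) : F) ∈ G.O := by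
    rw [htr']
    exact ((intMatrix (G.valExtends t) b hR' hbO y).trace).2
  refine ⟨hmem, ?_⟩
  have h2 : (⟨((Algebra.trace K⟮t⟯ F (y : F) : K⟮t⟯) : F), hmem⟩ : G.O) =
      G.incl t (intMatrix (G.valExtends t) b hR' hbO y).trace := by
    apply Subtype.ext
    rw [coe_incl, ← htr']
  rw [h2, ← key]
  rfl

end RedCtx

end Fermat.Agent.S37.H217

end
-- ===== PACK-END S37/H217/NormRed.lean

-- ===== PACK-BEGIN S37/H217/Integral.lean
section


/-!
# Block ALG, lemma L2 (q-expansion principle from the degree equality)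

Setting of `Lattice.lean`: `V ⊆ L` lies over `V₀ ⊆ L₀`, `b` a basis of `L/L₀` consisting of
elements of `V`, residually independent.

* `minpoly_coeff_mem`: for `y ∈ V` the minimal polynomial of `y` over `L₀` has coefficients in
  `V₀`.
* `isIntegral_inf_of_isIntegral`: if `R ⊆ L₀` is an integrally closed domain with fraction field
  `L₀` and `y ∈ V` is integral over `R`, then `y` is integral over `V₀ ∩ R`.
  (Application: `R = K[x]`, `V₀` = Gauss valuation ring, `V₀ ∩ R = A[x]`: the integral closure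
  of `A[x]` in `L` is `V ∩` (integral closure of `K[x]`).)
* `exists_scalar_of_mem_nonunits`: if every nonzero element of `𝔪_{V₀}` is divisible in `V₀` by a
  "constant" of `𝔪_{V₀}` (predicate `P`), then every nonzero `y ∈ 𝔪_V` is divisible in `V` by
  such a constant.  (Application: QEP, `y ∈ B`, `ρ y = 0` implies `y ∈ 𝔪_A B`.)
-/

namespace Fermat.Agent.S37.H217

open Polynomial

section Integral

variable {L₀ L : Type*} [Field L₀] [Field L] [Algebra L₀ L]
variable {V₀ : ValuationSubring L₀} {V : ValuationSubring L}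
variable {ι : Type*} [Fintype ι] [DecidableEq ι]

theorem aeval_charpoly_intMatrix [FiniteDimensional L₀ L] (h : ValExtends V₀ V)
    (b : Module.Basis ι L₀ L) (hR : ResidIndep V₀ V b) (hb : ∀ i, b i ∈ V) (y : V) :
    aeval (y : L) ((intMatrix h b hR hb y).charpoly.map (algebraMap V₀ L₀)) = 0 := by
  rw [← charpoly_eq_map_charpoly_intMatrix h b hR hb y]
  have h1 := LinearMap.aeval_self_charpoly (Algebra.lmul L₀ L (y : L))
  rw [aeval_algHom_apply] at h1
  have h2 := congrArg (fun f : Module.End L₀ L => f 1) h1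
  simpa using h2

/-- For `y ∈ V`, the minimal polynomial of `y` over `L₀` has coefficients in `V₀`. -/
theorem minpoly_coeff_mem [FiniteDimensional L₀ L] (h : ValExtends V₀ V)
    (b : Module.Basis ι L₀ L) (hR : ResidIndep V₀ V b) (hb : ∀ i, b i ∈ V) (y : V) (i : ℕ) :
    (minpoly L₀ (y : L)).coeff i ∈ V₀ := by
  have hdvd : minpoly L₀ (y : L) ∣ (intMatrix h b hR hb y).charpoly.map (algebraMap V₀ L₀) :=
    minpoly.dvd L₀ (y : L) (aeval_charpoly_intMatrix h b hR hb y)
  have hmon : (minpoly L₀ (y : L)).Monic := minpoly.monic (IsIntegral.of_finite L₀ (y : L))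
  have hl := integralClosure.mem_lifts_of_monic_of_dvd_map L₀
    (Matrix.charpoly_monic (intMatrix h b hR hb y)) hmon hdvd
  rw [Polynomial.lifts_iff_coeff_lifts] at hl
  obtain ⟨c, hc⟩ := hl i
  have hint : IsIntegral V₀ ((minpoly L₀ (y : L)).coeff i) := by
    rw [← hc]
    exact c.2
  obtain ⟨a, ha⟩ := IsIntegrallyClosed.isIntegral_iff.mp hint
  rw [← ha]
  exact a.2

/-- If `y ∈ V` is integral over an integrally closed domain `R` with fraction field `L₀`, then
the coefficients of its minimal polynomial over `R` land in `V₀`. -/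
theorem minpoly_coeff_mem_of_isIntegral [FiniteDimensional L₀ L] (h : ValExtends V₀ V)
    (b : Module.Basis ι L₀ L) (hR : ResidIndep V₀ V b) (hb : ∀ i, b i ∈ V)
    {R : Type*} [CommRing R] [IsDomain R] [Algebra R L₀] [IsFractionRing R L₀]
    [IsIntegrallyClosed R] [Algebra R L] [IsScalarTower R L₀ L]
    (y : V) (hy : IsIntegral R (y : L)) (i : ℕ) :
    algebraMap R L₀ ((minpoly R (y : L)).coeff i) ∈ V₀ := by
  have h1 := minpoly_coeff_mem h b hR hb y i
  rwa [minpoly.isIntegrallyClosed_eq_field_fractions' L₀ hy, coeff_map] at h1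

/-- If `y ∈ V` is integral over an integrally closed domain `R` with fraction field `L₀`, then
`y` is integral over the subring `V₀ ∩ R` of `L₀`. -/
theorem isIntegral_inf_of_isIntegral [FiniteDimensional L₀ L] (h : ValExtends V₀ V)
    (b : Module.Basis ι L₀ L) (hR : ResidIndep V₀ V b) (hb : ∀ i, b i ∈ V)
    {R : Type*} [CommRing R] [IsDomain R] [Algebra R L₀] [IsFractionRing R L₀]
    [IsIntegrallyClosed R] [Algebra R L] [IsScalarTower R L₀ L]
    (y : V) (hy : IsIntegral R (y : L)) :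
    IsIntegral (↥(V₀.toSubring ⊓ (algebraMap R L₀).range)) (y : L) := by
  set S : Subring L₀ := V₀.toSubring ⊓ (algebraMap R L₀).range with hS
  have hmin : minpoly L₀ (y : L) = (minpoly R (y : L)).map (algebraMap R L₀) :=
    minpoly.isIntegrallyClosed_eq_field_fractions' L₀ hy
  have hl : minpoly L₀ (y : L) ∈ Polynomial.lifts (algebraMap S L₀) := by
    rw [Polynomial.lifts_iff_coeff_lifts]
    intro i
    refine ⟨⟨(minpoly L₀ (y : L)).coeff i, ?_, ?_⟩, rfl⟩
    · exact minpoly_coeff_mem h b hR hb y i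
    · rw [hmin, coeff_map]
      exact ⟨_, rfl⟩
  have hmon : (minpoly L₀ (y : L)).Monic := minpoly.monic (IsIntegral.of_finite L₀ (y : L))
  obtain ⟨q, hq, -, hqm⟩ := Polynomial.lifts_and_degree_eq_and_monic hl hmon
  refine ⟨q, hqm, ?_⟩
  have h1 : aeval (y : L) (q.map (algebraMap S L₀)) = 0 := by
    rw [hq]; exact minpoly.aeval L₀ (y : L)
  rw [aeval_map_algebraMap] at h1
  exact h1

omit [DecidableEq ι] in
/-- QEP, abstract form: divisibility of elements of `𝔪_V` by constants. -/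
theorem exists_scalar_of_mem_nonunits (h : ValExtends V₀ V)
    (b : Module.Basis ι L₀ L) (hR : ResidIndep V₀ V b) (hb : ∀ i, b i ∈ V)
    (P : L₀ → Prop)
    (hgen : ∀ c ∈ V₀.nonunits, c ≠ 0 → ∃ a : L₀, a ≠ 0 ∧ a ∈ V₀.nonunits ∧ P a ∧ c / a ∈ V₀)
    {y : L} (hy : y ∈ V.nonunits) (hy0 : y ≠ 0) :
    ∃ a : L₀, a ≠ 0 ∧ a ∈ V₀.nonunits ∧ P a ∧ (algebraMap L₀ L a)⁻¹ * y ∈ V := by
  have hc0 : (fun i => b.repr y i) ≠ 0 := by
    intro h0
    apply hy0
    rw [← b.sum_repr y]
    refine Finset.sum_eq_zero fun i _ => ?_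
    have := congrFun h0 i
    simp only [Pi.zero_apply] at this
    rw [this, zero_smul]
  obtain ⟨m, hm0, hm⟩ := exists_scale V₀ (fun i => b.repr y i) hc0
  obtain ⟨a, ha0, ha, hPa, hdiv⟩ := hgen _ (repr_mem_nonunits_of_mem h b hR hy m) hm0
  refine ⟨a, ha0, ha, hPa, ?_⟩
  have hsum : (algebraMap L₀ L a)⁻¹ * y = ∑ i, algebraMap L₀ L (b.repr y i / a) * b i := by
    conv_lhs => rw [← b.sum_repr y]
    rw [Finset.mul_sum]
    refine Finset.sum_congr rfl fun i _ => ?_
    rw [Algebra.smul_def, ← mul_assoc, ← map_inv₀, ← map_mul, div_eq_inv_mul]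
  rw [hsum]
  refine V.toSubring.sum_mem fun i _ => ?_
  refine V.mul_mem _ _ ((h _).mpr ?_) (hb i)
  have : b.repr y i / a = b.repr y i / b.repr y m * (b.repr y m / a) := by
    field_simp
  rw [this]
  exact V₀.mul_mem _ _ (hm i) hdiv

end Integral

end Fermat.Agent.S37.H217

end
-- ===== PACK-END S37/H217/Integral.lean

-- ===== PACK-BEGIN S37/H217/Sat.lean
section



/-!
# Saturation (H4') from the degree equality (H1), abstract form

Setting of `NormRed.lean` (`G : RedCtx A π F Fk`, `t ∈ O`, `t̄` transcendental over `k`,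
`[F : K(t)] = [F_k : k(t̄)] < ∞`).  Then every `f ∈ O` which is integral over `K[t]` is integral
over `A[t]` (`isIntegral_polyRing_of_isIntegral`): **the integral closure of `A[t]` in `F` is
`O ∩` (integral closure of `K[t]`)**.  No noetherian/discreteness hypothesis on `A`.

Also: `transcendental_of_rho` (`t` is transcendental over `K`), `coeff_mem_of_aeval_mem`
(`O ∩ K[t] = A[t]`), `exists_residBasis` (the lifted residue basis).
-/

namespace Fermat.Agent.S37.H217

open IntermediateField Polynomial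

open scoped IntermediateField.algebraAdjoinAdjoin

namespace RedCtx

variable {K k : Type*} [Field K] [Field k] {A : ValuationSubring K} {π : A →+* k}
  {F Fk : Type*} [Field F] [Field Fk] [Algebra K F] [Algebra k Fk] (G : RedCtx A π F Fk)

variable {t : F} (ht : t ∈ G.O) (htr : Transcendental k (G.ρ ⟨t, ht⟩))

include htr in
/-- `O ∩ K[t] = A[t]`: a polynomial over `K` whose value at `t` lies in `O` has coefficients in
`A`. -/
theorem coeff_mem_of_aeval_mem (P : K[X]) (hP : aeval t P ∈ G.O) (i : ℕ) : P.coeff i ∈ A := by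
  by_cases hP0 : P = 0
  · rw [hP0, coeff_zero]; exact A.zero_mem
  obtain ⟨c, P₁, hc, hPc, hP₁⟩ := exists_primitive π P hP0
  set R₁ : G.O := G.evalO ⟨t, ht⟩ P₁ with hR₁
  have hRu : (R₁ : F) ∉ G.O.nonunits := G.evalO_notMem_nonunits ht htr hP₁
  have hR0 : (R₁ : F) ≠ 0 := fun h => hRu (h ▸ G.O.nonunits.zero_mem)
  have hRinv : (R₁ : F)⁻¹ ∈ G.O := by
    rcases G.O.mem_or_inv_mem (R₁ : F) with h | h
    · by_contra hn
      apply hRu
      rw [ValuationSubring.mem_nonunits_iff_or]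
      exact Or.inr hn
    · exact h
  have hval : aeval t P = algebraMap K F c * (R₁ : F) := by
    rw [hR₁, G.coe_evalO, hPc, map_mul, aeval_C]
  have hcO : algebraMap K F c ∈ G.O := by
    have : algebraMap K F c = aeval t P * (R₁ : F)⁻¹ := by
      rw [hval]; field_simp
    rw [this]
    exact G.O.mul_mem _ _ hP hRinv
  have hcA : c ∈ A := G.mem_of_algebraMap_mem hcO
  rw [hPc, coeff_C_mul, coeff_map]
  exact A.mul_mem _ _ hcA (P₁.coeff i).2

include htr in
/-- `t` is transcendental over `K`. -/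
theorem transcendental_of_rho : Transcendental K t := by
  rw [transcendental_iff]
  intro P hP
  by_contra hP0
  obtain ⟨c, P₁, hc, hPc, hP₁⟩ := exists_primitive π P hP0
  have hRu := G.evalO_notMem_nonunits ht htr hP₁
  apply hRu
  rw [G.coe_evalO]
  have h1 : aeval t P = algebraMap K F c * aeval t (P₁.map (algebraMap A K)) := by
    conv_lhs => rw [hPc]
    rw [map_mul, aeval_C]
  rw [hP] at h1
  have h2 : aeval t (P₁.map (algebraMap A K)) = 0 := by
    rcases mul_eq_zero.mp h1.symm with h | h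
    · exact absurd ((_root_.map_eq_zero _).mp h) hc
    · exact h
  rw [h2]
  exact G.O.nonunits.zero_mem

include htr in
/-- The lifted residue basis. -/
theorem exists_residBasis [FiniteDimensional K⟮t⟯ F] [FiniteDimensional k⟮G.ρ ⟨t, ht⟩⟯ Fk]
    (hfr : Module.finrank K⟮t⟯ F = Module.finrank k⟮G.ρ ⟨t, ht⟩⟯ Fk) :
    ∃ b : Module.Basis (Fin (Module.finrank k⟮G.ρ ⟨t, ht⟩⟯ Fk)) K⟮t⟯ F,
      ResidIndep (G.V₀ t) G.O b ∧ ∀ i, b i ∈ G.O := by
  classical
  set b₁ := Module.finBasis k⟮G.ρ ⟨t, ht⟩⟯ Fk with hb₁def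
  choose e he using fun i => G.ρ_surj (b₁ i)
  have hR : ResidIndep (G.V₀ t) G.O (fun i => ((e i : G.O) : F)) := by
    intro c hc hsum
    set s : G.O := ∑ i, G.incl t ⟨c i, hc i⟩ * e i with hs
    have hsF : (s : F) = ∑ i, c i • ((e i : G.O) : F) := by
      rw [hs, ← ValuationSubring.subtype_apply, map_sum]
      refine Finset.sum_congr rfl fun i _ => ?_
      rw [map_mul, Algebra.smul_def]
      rfl
    have hρs : G.ρ s = 0 := by
      rw [G.ρ_eq_zero_iff, hsF]
      exact hsum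
    have hρs' : ∑ i, G.ρ₀ ht htr ⟨c i, hc i⟩ • b₁ i = 0 := by
      rw [← hρs, hs, map_sum]
      refine Finset.sum_congr rfl fun i _ => ?_
      rw [map_mul, he, Algebra.smul_def]
      rfl
    have hzero := Fintype.linearIndependent_iff.mp b₁.linearIndependent _ hρs'
    intro i
    have h1 : G.ρ (G.incl t ⟨c i, hc i⟩) = 0 := by
      have := congrArg (fun z : k⟮G.ρ ⟨t, ht⟩⟯ => (z : Fk)) (hzero i)
      simpa [coe_ρ₀] using this
    rw [G.ρ_eq_zero_iff, coe_incl] at h1
    exact ((G.valExtends t).mem_nonunits_iff (c i)).mp h1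
  have : Nonempty (Fin (Module.finrank k⟮G.ρ ⟨t, ht⟩⟯ Fk)) :=
    ⟨⟨0, Module.finrank_pos⟩⟩
  obtain ⟨b, hb⟩ := exists_basis_of_residIndep hR (by rw [Fintype.card_fin, hfr])
  have hbi : ∀ i, b i = ((e i : G.O) : F) := fun i => congrFun hb i
  refine ⟨b, by rw [hb]; exact hR, fun i => by rw [hbi]; exact (e i).2⟩

/-- `A[t] ⊆ F` (the subring generated by the image of `A` and `t`). -/
def polyRing (_G : RedCtx A π F Fk) (t : F) : Subring F :=
  A.toSubring.map (algebraMap K F) ⊔ Subring.closure {t}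

theorem aeval_mem_polyRing (t : F) (P : K[X]) (hP : ∀ i, P.coeff i ∈ A) :
    aeval t P ∈ G.polyRing t := by
  rw [aeval_eq_sum_range]
  refine Subring.sum_mem _ fun i _ => ?_
  rw [Algebra.smul_def]
  refine Subring.mul_mem _ ?_ ?_
  · exact (le_sup_left : _ ≤ G.polyRing t) (Subring.mem_map.mpr ⟨_, hP i, rfl⟩)
  · exact Subring.pow_mem _
      ((le_sup_right : _ ≤ G.polyRing t) (Subring.subset_closure rfl)) _

include htr in
/-- **Saturation (H4')**: an element of `O` integral over `K[t]` is integral over `A[t]`. -/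
theorem isIntegral_polyRing_of_isIntegral [FiniteDimensional K⟮t⟯ F]
    [FiniteDimensional k⟮G.ρ ⟨t, ht⟩⟯ Fk]
    (hfr : Module.finrank K⟮t⟯ F = Module.finrank k⟮G.ρ ⟨t, ht⟩⟯ Fk)
    {f : F} (hfO : f ∈ G.O) (hf : IsIntegral (Algebra.adjoin K {t}) f) :
    IsIntegral (G.polyRing t) f := by
  classical
  have httr : Transcendental K t := G.transcendental_of_rho ht htr
  obtain ⟨b, hbR, hbO⟩ := G.exists_residBasis ht htr hfr
  have : IsIntegrallyClosed (Algebra.adjoin K {t}) :=
    IsIntegrallyClosed.of_equiv (algEquivOfTranscendental K t httr).toRingEquiv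
  have hmin : minpoly K⟮t⟯ f = (minpoly (Algebra.adjoin K {t}) f).map
      (algebraMap (Algebra.adjoin K {t}) K⟮t⟯) :=
    minpoly.isIntegrallyClosed_eq_field_fractions' K⟮t⟯ hf
  set q := minpoly (Algebra.adjoin K {t}) f with hq
  -- the coefficients of `q` lie in `A[t]`
  have hcoeff : ∀ i, ((q.coeff i : Algebra.adjoin K {t}) : F) ∈ G.polyRing t := by
    intro i
    have h1 := minpoly_coeff_mem (G.valExtends t) b hbR hbO ⟨f, hfO⟩ i
    have h1' : (minpoly K⟮t⟯ f).coeff i ∈ G.V₀ t := h1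
    rw [hmin, coeff_map] at h1'
    have h2 : ((q.coeff i : Algebra.adjoin K {t}) : F) ∈ G.O := h1'
    have h3 : ((q.coeff i : Algebra.adjoin K {t}) : F) ∈ (aeval (R := K) t).range := by
      rw [← Algebra.adjoin_singleton_eq_range_aeval]
      exact (q.coeff i).2
    obtain ⟨P, hP⟩ := h3
    have hP' : aeval t P = ((q.coeff i : Algebra.adjoin K {t}) : F) := hP
    rw [← hP']
    rw [← hP'] at h2
    exact G.aeval_mem_polyRing t P (G.coeff_mem_of_aeval_mem ht htr P h2)
  -- lift `q` to a monic polynomial over `A[t]`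
  set Q : F[X] := q.map (algebraMap (Algebra.adjoin K {t}) F) with hQ
  have hQmon : Q.Monic := (minpoly.monic hf).map _
  have hl : Q ∈ Polynomial.lifts (algebraMap (G.polyRing t) F) := by
    rw [Polynomial.lifts_iff_coeff_lifts]
    intro i
    refine ⟨⟨_, hcoeff i⟩, ?_⟩
    rw [hQ, coeff_map]
    rfl
  obtain ⟨q', hq', -, hq'm⟩ := Polynomial.lifts_and_degree_eq_and_monic hl hQmon
  refine ⟨q', hq'm, ?_⟩
  have h4 : Polynomial.eval₂ (algebraMap (G.polyRing t) F) f q' = Polynomial.eval f Q := by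
    rw [← hq', Polynomial.eval_map]
  rw [h4, hQ, Polynomial.eval_map]
  exact minpoly.aeval (Algebra.adjoin K {t}) f

end RedCtx

end Fermat.Agent.S37.H217

end
-- ===== PACK-END S37/H217/Sat.lean

-- ===== PACK-BEGIN S37/H340/KronFrob.lean
section



/-!
# S37 / R3-K : the Kronecker polynomial in characteristic `ℓ` (helper340)

* `pow_char_eq_qExpand` : in characteristic `ℓ`, `f ^ ℓ = V (f^φ)` where `f^φ` is `f` with
  Frobenius applied to the coefficients (`coeffMap (frobenius R ℓ) f`) and `V = qExpand R ℓ`;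
* `kronMat_mul`, `kronMat_qExpand` : the regular representation `f ↦ kronMat ℓ f`;
* `kron_char` : over a domain of characteristic `ℓ`, `kron ℓ f = Y ^ ℓ - C (f^φ)`
  (**Kronecker congruence**).
-/

set_option autoImplicit false

noncomputable section

namespace Fermat.Agent.S37.H340

open ModularCurve Polynomial Matrix

variable {R : Type*} [CommRing R] (ℓ : ℕ) [NeZero ℓ]

section Frobenius

variable [hℓ : Fact ℓ.Prime] [CharP R ℓ]

omit [NeZero ℓ] in
/-- coefficients of the `ℓ`-th power of a power series in characteristic `ℓ` -/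
lemma powerSeries_coeff_pow_char (p : PowerSeries R) (n : ℕ) :
    PowerSeries.coeff n (p ^ ℓ) = if ℓ ∣ n then (PowerSeries.coeff (n / ℓ) p) ^ ℓ else 0 := by
  have h1 : PowerSeries.coeff n (p ^ ℓ) =
      PowerSeries.coeff n (((PowerSeries.trunc (n + 1) p : R[X]) : PowerSeries R) ^ ℓ) := by
    rw [← PowerSeries.coeff_coe_trunc_of_lt (Nat.lt_succ_self n) (f := p ^ ℓ),
      ← PowerSeries.trunc_trunc_pow, PowerSeries.coeff_coe_trunc_of_lt (Nat.lt_succ_self n)]
  rw [h1, ← Polynomial.coe_pow, Polynomial.coeff_coe, ← Polynomial.map_frobenius_expand,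
    Polynomial.coeff_map, Polynomial.coeff_expand hℓ.out.pos, frobenius_def]
  split_ifs with h
  · rw [PowerSeries.coeff_trunc, if_pos]
    exact lt_of_le_of_lt (Nat.div_le_self n ℓ) (Nat.lt_succ_self n)
  · exact zero_pow hℓ.out.ne_zero

omit [NeZero ℓ] hℓ in
/-- `LaurentSeries R` has characteristic `ℓ`. -/
lemma charP_laurentSeries : CharP (LaurentSeries R) ℓ :=
  charP_of_injective_ringHom (f := (HahnSeries.C : R →+* LaurentSeries R))
    HahnSeries.C_injective ℓ

/-- In characteristic `ℓ`: `f ^ ℓ = V (f^φ)`. -/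
theorem pow_char_eq_qExpand (f : LaurentSeries R) :
    f ^ ℓ = qExpand R ℓ (coeffMap (frobenius R ℓ) f) := by
  have := charP_laurentSeries (R := R) ℓ
  have key : (frobenius (LaurentSeries R) ℓ) =
      (qExpand R ℓ).comp (coeffMap (frobenius R ℓ)) := by
    refine IsLocalization.ringHom_ext (Submonoid.powers (PowerSeries.X : PowerSeries R)) ?_
    ext p : 1
    simp only [RingHom.comp_apply, LaurentSeries.coe_algebraMap, frobenius_def]
    rw [← map_pow, coeffMap_ofPowerSeries]
    ext k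
    rw [qExpand_coeff]
    rcases le_or_gt 0 k with hk | hk
    · lift k to ℕ using hk
      rw [HahnSeries.ofPowerSeries_apply_coeff, powerSeries_coeff_pow_char]
      have hdvd : ((ℓ : ℤ) ∣ (k : ℤ)) ↔ ℓ ∣ k := Int.natCast_dvd_natCast
      by_cases h : ℓ ∣ k
      · rw [if_pos h, if_pos (hdvd.mpr h)]
        have : ((k : ℤ) / (ℓ : ℤ)) = ((k / ℓ : ℕ) : ℤ) := by push_cast; rfl
        rw [this, HahnSeries.ofPowerSeries_apply_coeff, PowerSeries.coeff_map, frobenius_def]
      · rw [if_neg h, if_neg (fun h' => h (hdvd.mp h'))]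
    · rw [ofPowerSeries_coeff_of_neg _ hk]
      split_ifs with h
      · rw [ofPowerSeries_coeff_of_neg]
        have hℓpos : (0 : ℤ) < ℓ := by exact_mod_cast hℓ.out.pos
        exact Int.ediv_neg_of_neg_of_pos hk hℓpos
      · rfl
  have := congrArg (fun φ : LaurentSeries R →+* LaurentSeries R => φ f) key
  simpa [frobenius_def] using this

end Frobenius

section RegularRep

/-- sections of a decomposed series -/
lemma sect_sum (h : Fin ℓ → LaurentSeries R) (k : Fin ℓ) :
    sect ℓ ((k : ℕ) : ℤ)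
      (∑ i : Fin ℓ, (qq : LaurentSeries R) ^ (i : ℕ) * qExpand R ℓ (h i)) = h k := by
  have hℓ : (0 : ℤ) < ℓ := by exact_mod_cast Nat.pos_of_ne_zero (NeZero.ne ℓ)
  ext n
  rw [sect_coeff, HahnSeries.coeff_sum]
  simp only [coeff_qq_pow_mul, qExpand_coeff]
  rw [Finset.sum_eq_single k]
  · have : (ℓ : ℤ) * n + (k : ℕ) - (k : ℕ) = (ℓ : ℤ) * n := by ring
    rw [this, if_pos (dvd_mul_right _ _), Int.mul_ediv_cancel_left _ hℓ.ne']
  · intro i _ hi
    rw [if_neg]
    intro hdvd
    apply hi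
    have h1 : (ℓ : ℤ) ∣ ((k : ℕ) : ℤ) - ((i : ℕ) : ℤ) := by
      have h2 : (ℓ : ℤ) * n + (k : ℕ) - (i : ℕ) = (ℓ : ℤ) * n + (((k : ℕ) : ℤ) - (i : ℕ)) := by
        ring
      rw [h2] at hdvd
      exact (Int.dvd_add_right (dvd_mul_right _ _)).mp hdvd
    have hi1 : ((i : ℕ) : ℤ) < ℓ := by exact_mod_cast i.2
    have hi0 : (0 : ℤ) ≤ ((i : ℕ) : ℤ) := Int.natCast_nonneg _
    have hk1 : ((k : ℕ) : ℤ) < ℓ := by exact_mod_cast k.2
    have hk0 : (0 : ℤ) ≤ ((k : ℕ) : ℤ) := Int.natCast_nonneg _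
    obtain ⟨c, hc⟩ := h1
    have hc0 : c = 0 := by
      by_contra hne
      rcases lt_or_gt_of_ne hne with h | h
      · have : (ℓ : ℤ) * c ≤ -ℓ := by nlinarith
        omega
      · have : (ℓ : ℤ) ≤ (ℓ : ℤ) * c := by nlinarith
        omega
    rw [hc0, mul_zero] at hc
    ext
    omega
  · intro h; exact absurd (Finset.mem_univ _) h

/-- uniqueness of the decomposition -/
lemma decomp_unique {h h' : Fin ℓ → LaurentSeries R}
    (e : ∑ i : Fin ℓ, (qq : LaurentSeries R) ^ (i : ℕ) * qExpand R ℓ (h i) =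
      ∑ i : Fin ℓ, (qq : LaurentSeries R) ^ (i : ℕ) * qExpand R ℓ (h' i)) : h = h' := by
  funext k
  rw [← sect_sum ℓ h k, e, sect_sum ℓ h' k]

/-- `f ↦ kronMat ℓ f` is multiplicative. -/
theorem kronMat_mul (f g : LaurentSeries R) :
    kronMat ℓ (f * g) = kronMat ℓ g * kronMat ℓ f := by
  refine Matrix.ext fun k j => ?_
  have e : ∑ i : Fin ℓ, (qq : LaurentSeries R) ^ (i : ℕ) * qExpand R ℓ (kronMat ℓ (f * g) i j) =
      ∑ i : Fin ℓ, (qq : LaurentSeries R) ^ (i : ℕ) *
        qExpand R ℓ ((kronMat ℓ g * kronMat ℓ f) i j) := by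
    rw [← qq_pow_mul_eq_sum, ← mul_assoc, qq_pow_mul_eq_sum ℓ f j, Finset.sum_mul]
    have h1 : ∀ i : Fin ℓ, (qq : LaurentSeries R) ^ (i : ℕ) * qExpand R ℓ (kronMat ℓ f i j) * g =
        ∑ k' : Fin ℓ, (qq : LaurentSeries R) ^ (k' : ℕ) *
          qExpand R ℓ (kronMat ℓ g k' i * kronMat ℓ f i j) := by
      intro i
      rw [mul_right_comm, qq_pow_mul_eq_sum ℓ g i, Finset.sum_mul]
      refine Finset.sum_congr rfl fun k' _ => ?_
      rw [map_mul]; ring
    simp_rw [h1]
    rw [Finset.sum_comm]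
    refine Finset.sum_congr rfl fun k' _ => ?_
    rw [Matrix.mul_apply, map_sum, Finset.mul_sum]
  exact congrFun (decomp_unique ℓ (h := fun i => kronMat ℓ (f * g) i j)
    (h' := fun i => (kronMat ℓ g * kronMat ℓ f) i j) e) k

theorem kronMat_qExpand (g : LaurentSeries R) :
    kronMat ℓ (qExpand R ℓ g) = Matrix.scalar (Fin ℓ) g := by
  have hℓ : (0 : ℤ) < ℓ := by exact_mod_cast Nat.pos_of_ne_zero (NeZero.ne ℓ)
  ext i j n
  rw [kronMat_apply, sect_coeff, qExpand_coeff, Matrix.scalar_apply, Matrix.diagonal_apply]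
  by_cases hij : i = j
  · subst hij
    have : (ℓ : ℤ) * n + (((i : ℕ) : ℤ) - (i : ℕ)) = (ℓ : ℤ) * n := by ring
    rw [this, if_pos (dvd_mul_right _ _), Int.mul_ediv_cancel_left _ hℓ.ne', if_pos rfl]
  · rw [if_neg hij, if_neg]
    · simp
    · intro hdvd
      apply hij
      have h1 : (ℓ : ℤ) ∣ ((i : ℕ) : ℤ) - ((j : ℕ) : ℤ) :=
        (Int.dvd_add_right (dvd_mul_right _ _)).mp hdvd
      have hi1 : ((i : ℕ) : ℤ) < ℓ := by exact_mod_cast i.2
      have hi0 : (0 : ℤ) ≤ ((i : ℕ) : ℤ) := Int.natCast_nonneg _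
      have hj1 : ((j : ℕ) : ℤ) < ℓ := by exact_mod_cast j.2
      have hj0 : (0 : ℤ) ≤ ((j : ℕ) : ℤ) := Int.natCast_nonneg _
      obtain ⟨c, hc⟩ := h1
      have hc0 : c = 0 := by
        by_contra hne
        rcases lt_or_gt_of_ne hne with h | h
        · have : (ℓ : ℤ) * c ≤ -ℓ := by nlinarith
          omega
        · have : (ℓ : ℤ) ≤ (ℓ : ℤ) * c := by nlinarith
          omega
      rw [hc0, mul_zero] at hc
      ext
      omega

theorem kronMat_one : kronMat ℓ (1 : LaurentSeries R) = 1 := by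
  have := kronMat_qExpand ℓ (1 : LaurentSeries R)
  rwa [map_one, map_one] at this

theorem kronMat_pow (f : LaurentSeries R) (n : ℕ) : kronMat ℓ (f ^ n) = kronMat ℓ f ^ n := by
  induction n with
  | zero => rw [pow_zero, pow_zero, kronMat_one]
  | succ n ih => rw [pow_succ, kronMat_mul, ih, pow_succ']

end RegularRep

section Congruence

variable [hℓ : Fact ℓ.Prime] [CharP R ℓ] [IsDomain R]

/-- **Kronecker congruence**: in characteristic `ℓ`, the Kronecker polynomial of `f` is
`Y ^ ℓ - f^φ`, where `f^φ` is `f` with Frobenius applied to the coefficients. -/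
theorem kron_char (f : LaurentSeries R) :
    kron ℓ f = X ^ ℓ - C (coeffMap (frobenius R ℓ) f) := by
  classical
  have := charP_laurentSeries (R := R) ℓ
  set g := coeffMap (frobenius R ℓ) f with hg
  have hVg : qExpand R ℓ g = f ^ ℓ := (pow_char_eq_qExpand ℓ f).symm
  -- `M ^ ℓ = g • 1`
  have hMpow : kronMat ℓ f ^ ℓ = Matrix.scalar (Fin ℓ) g := by
    rw [← kronMat_pow, pow_char_eq_qExpand, kronMat_qExpand]
  set M' : Matrix (Fin ℓ) (Fin ℓ) (LaurentSeries R) :=
    (qExpand R ℓ).mapMatrix (kronMat ℓ f) with hM'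
  have hM'pow : M' ^ ℓ = Matrix.scalar (Fin ℓ) (f ^ ℓ) := by
    rw [hM', ← map_pow, hMpow, ← hVg]
    ext i j
    simp [Matrix.scalar_apply, Matrix.diagonal_apply, apply_ite]
  have hcomm : Commute M' (Matrix.scalar (Fin ℓ) f) :=
    (Matrix.scalar_commute f (fun r' => Commute.all _ _) M').symm
  have hNpow : (M' - Matrix.scalar (Fin ℓ) f) ^ ℓ = 0 := by
    rw [sub_pow_char_of_commute ℓ hcomm, hM'pow, ← map_pow, sub_self]
  have hnil : IsNilpotent (M' - Matrix.scalar (Fin ℓ) f) := ⟨ℓ, hNpow⟩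
  have h1 : (M' - Matrix.scalar (Fin ℓ) f).charpoly = X ^ ℓ := by
    have h := Matrix.isNilpotent_charpoly_sub_pow_of_isNilpotent hnil
    rw [Fintype.card_fin] at h
    exact sub_eq_zero.mp (IsReduced.eq_zero _ h)
  rw [Matrix.charpoly_sub_scalar] at h1
  have h2 : M'.charpoly = (X - C f) ^ ℓ := by
    have h3 := congrArg (fun P : (LaurentSeries R)[X] => P.comp (X - C f)) h1
    simp only [Polynomial.comp_assoc, Polynomial.add_comp, Polynomial.X_comp,
      Polynomial.C_comp, sub_add_cancel, Polynomial.comp_X, Polynomial.pow_comp] at h3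
    exact h3
  have h4 : (kron ℓ f).map (qExpand R ℓ) = (X ^ ℓ - C g : (LaurentSeries R)[X]).map
      (qExpand R ℓ) := by
    rw [kron, ← Matrix.charpoly_map]
    change M'.charpoly = _
    rw [h2, sub_pow_char, Polynomial.map_sub, Polynomial.map_pow, Polynomial.map_X,
      Polynomial.map_C, hVg, ← C_pow]
  exact Polynomial.map_injective _ (qExpand_injective ℓ) h4

end Congruence

end Fermat.Agent.S37.H340

end
end
-- ===== PACK-END S37/H340/KronFrob.lean

-- ===== PACK-BEGIN S37/H697/KronDet.lean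
section




/-!
# S37 (helper697): the formal Kronecker norm `V_ℓ f · det (kronMat ℓ f)`

On top of helper340's formal Kronecker polynomial (`H340.kron`):

* `knorm ℓ f := V_ℓ f · det (kronMat ℓ f)`, compatible with coefficient homomorphisms;
* `qExpand_kdet_eq_prod` : `V_ℓ (det (kronMat ℓ f)) = ∏_{b<ℓ} f(ζ^b q)` over a domain with a
  primitive `ℓ`-th root of unity `ζ`;
* `kdet_char` : `det (kronMat ℓ f) = f^φ` (coefficientwise Frobenius) in characteristic `ℓ`;
* `knorm_char_equiv` : in characteristic `ℓ`, for an automorphism `φ` of the coefficient field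
  with `φ x = x ^ ℓ`:  `knorm ℓ f = (Φ⁻¹ f) ^ ℓ · Φ f`.
-/

set_option autoImplicit false

noncomputable section

namespace Fermat.Agent.S37.H697

open ModularCurve HahnSeries Polynomial Matrix

variable {R : Type*} [CommRing R] (ℓ : ℕ) [NeZero ℓ]

/-- The determinant of the section matrix of `f`. -/
def kdet (f : LaurentSeries R) : LaurentSeries R := (H340.kronMat ℓ f).det

/-- The formal Kronecker norm `f(q^ℓ) · det (kronMat ℓ f)`. -/
def knorm (f : LaurentSeries R) : LaurentSeries R := qExpand R ℓ f * kdet ℓ f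

theorem kdet_coeffMap {S : Type*} [CommRing S] (g : R →+* S) (f : LaurentSeries R) :
    kdet ℓ (coeffMap g f) = coeffMap g (kdet ℓ f) := by
  rw [kdet, kdet, H340.kronMat_map, RingHom.map_det]
  rfl

theorem knorm_coeffMap {S : Type*} [CommRing S] (g : R →+* S) (f : LaurentSeries R) :
    knorm ℓ (coeffMap g f) = coeffMap g (knorm ℓ f) := by
  rw [knorm, knorm, map_mul, kdet_coeffMap, coeffMap_qExpand]

theorem kdet_eq_coeff_zero (f : LaurentSeries R) :
    kdet ℓ f = (-1) ^ ℓ * (H340.kron ℓ f).coeff 0 := by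
  rw [kdet, H340.kron, Matrix.det_eq_sign_charpoly_coeff, Fintype.card_fin]

/-- **Product formula** for the determinant. -/
theorem qExpand_kdet_eq_prod [IsDomain R] {ζ : R} (hζ : IsPrimitiveRoot ζ ℓ)
    (f : LaurentSeries R) :
    qExpand R ℓ (kdet ℓ f) = ∏ b : Fin ℓ, H340.tw ℓ (ζ ^ (b : ℕ)) f := by
  have h := congrArg (fun P : (LaurentSeries R)[X] => P.coeff 0)
    (H340.kron_map_qExpand_eq_prod hζ f)
  simp only [Polynomial.coeff_map] at h
  rw [kdet_eq_coeff_zero, map_mul, map_pow, map_neg, map_one, h,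
    Polynomial.coeff_zero_eq_eval_zero, Polynomial.eval_prod]
  simp only [Polynomial.eval_sub, Polynomial.eval_X, Polynomial.eval_C, zero_sub]
  rw [Finset.prod_neg, Finset.card_univ, Fintype.card_fin, ← mul_assoc, ← mul_pow]
  simp

section CharL

variable [hℓ : Fact ℓ.Prime] [CharP R ℓ] [IsDomain R]

/-- In characteristic `ℓ`: `det (kronMat ℓ f) = f^φ`. -/
theorem kdet_char (f : LaurentSeries R) :
    kdet ℓ f = coeffMap (frobenius R ℓ) f := by
  have := H340.charP_laurentSeries (R := R) ℓ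
  rw [kdet_eq_coeff_zero, H340.kron_char, Polynomial.coeff_sub, Polynomial.coeff_X_pow,
    Polynomial.coeff_C_zero, if_neg hℓ.out.pos.ne, zero_sub]
  rcases hℓ.out.eq_two_or_odd' with h2 | hodd
  · have h2' : (2 : LaurentSeries R) = 0 := by
      have := CharP.cast_eq_zero (LaurentSeries R) ℓ
      rw [h2] at this
      exact_mod_cast this
    have hneg : -(coeffMap (frobenius R ℓ) f) = coeffMap (frobenius R ℓ) f := by
      rw [neg_eq_iff_add_eq_zero, ← two_mul, h2', zero_mul]
    have h1 : (-1 : LaurentSeries R) ^ ℓ = 1 := by rw [h2]; simp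
    rw [hneg, h1, one_mul]
  · rw [hodd.neg_one_pow]
    ring

/-- In characteristic `ℓ`: `knorm ℓ f = f(q^ℓ) · f^φ`. -/
theorem knorm_char (f : LaurentSeries R) :
    knorm ℓ f = qExpand R ℓ f * coeffMap (frobenius R ℓ) f := by
  rw [knorm, kdet_char]

/-- In characteristic `ℓ`, for an automorphism `φ` of `R` with `φ x = x ^ ℓ`:
`knorm ℓ f = (Φ⁻¹ f) ^ ℓ · Φ f`. -/
theorem knorm_char_equiv (φ : R ≃+* R) (hφ : ∀ x, φ x = x ^ ℓ) (f : LaurentSeries R) :
    knorm ℓ f = (coeffMap (φ.symm : R →+* R) f) ^ ℓ * coeffMap (φ : R →+* R) f := by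
  have hfrob : (φ : R →+* R) = frobenius R ℓ := RingHom.ext fun x => by
    rw [RingEquiv.coe_toRingHom, hφ, frobenius_def]
  rw [knorm_char, H340.pow_char_eq_qExpand, coeffMap_coeffMap, hfrob]
  congr 2
  rw [← hfrob]
  have : ((φ : R →+* R).comp (φ.symm : R →+* R)) = RingHom.id R :=
    RingHom.ext fun x => φ.apply_symm_apply x
  rw [this, coeffMap_id]

end CharL

end Fermat.Agent.S37.H697

end
end
-- ===== PACK-END S37/H697/KronDet.lean

-- ===== PACK-BEGIN S37/H818/BaseChange.lean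
section
/-
S37 / LEVEL TRANSFER (helper818), part 2: the base-change identity
  `i^* ∘ a_* = a'_* ∘ i₁^*`  on divisors, for a commutative square of function fields

      F  --a-->  F₁
      |i         |i₁
      v          v
      G  --a'->  G₁

under (1) the norm formulas for `a` and `a'`, (2) norm compatibility
`N_{G₁/G}(i₁ f) = i (N_{F₁/F} f)` (true when `G₁ = G ⊗_F F₁`), and (3) local generators in `F₁`.
-/




set_option autoImplicit false
set_option linter.style.haveILetI false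

noncomputable section

namespace Fermat.Agent.S37.H818

open AlgebraicCurve

variable {K F F₁ G G₁ : Type*} [Field K] [Field F] [Field F₁] [Field G] [Field G₁]
  [Algebra K F] [Algebra K F₁] [Algebra K G] [Algebra K G₁]

/-- Norm compatibility for the square: `N_{G₁/G}(i₁ f) = i (N_{F₁/F} f)`. -/
def NormCompat (a : F →ₐ[K] F₁) (i : F →ₐ[K] G) (a' : G →ₐ[K] G₁) (i₁ : F₁ →ₐ[K] G₁) : Prop :=
  ∀ f : F₁, (letI := algebraAlong a'; Algebra.norm G (i₁ f)) =
    i (letI := algebraAlong a; Algebra.norm F f)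

/-- Local generators: every place `w` of `F₁` has a function with nonzero order at `w` and
order zero at all other places in the same fibre of `a`. -/
def HasLocalGenerators (a : F →ₐ[K] F₁) (ha : a.toRingHom.IsIntegral) : Prop :=
  ∀ w : Place K F₁, ∃ f : F₁, f ≠ 0 ∧ w.ord f ≠ 0 ∧
    ∀ w' : Place K F₁, w' ≠ w → w'.restrictAlong a ha = w.restrictAlong a ha → w'.ord f = 0

section

variable (a : F →ₐ[K] F₁) (i : F →ₐ[K] G) (a' : G →ₐ[K] G₁) (i₁ : F₁ →ₐ[K] G₁)
  (ha : a.toRingHom.IsIntegral) (hi : i.toRingHom.IsIntegral)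
  (ha' : a'.toRingHom.IsIntegral) (hi₁ : i₁.toRingHom.IsIntegral)
  (hsq : i₁.comp a = a'.comp i)

include hsq in
/-- The two ways of restricting a place of `G₁` to `F` agree. -/
theorem restrict_square (W : Place K G₁) :
    (W.restrictAlong a' ha').restrictAlong i hi = (W.restrictAlong i₁ hi₁).restrictAlong a ha := by
  have h1 : (i₁.comp a).toRingHom.IsIntegral := RingHom.IsIntegral.trans _ _ ha hi₁
  have h2 : (a'.comp i).toRingHom.IsIntegral := RingHom.IsIntegral.trans _ _ hi ha'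
  rw [← restrictAlong_comp i a' hi ha' h2 W, ← restrictAlong_comp a i₁ ha hi₁ h1 W]
  exact (Place.restrictAlong_congr hsq h1 h2 W).symm

variable [HasPrincipalDivisors K G] [HasPrincipalDivisors K G₁]

/-- The defect of the base-change identity. -/
def bcDefect : Divisor K F₁ →+ Divisor K G :=
  (Divisor.pullbackAlong i hi).comp (Divisor.pushforwardAlong a ha) -
    (Divisor.pushforwardAlong a' ha').comp (Divisor.pullbackAlong i₁ hi₁)

theorem bcDefect_apply (D : Divisor K F₁) :
    bcDefect a i a' i₁ ha hi ha' hi₁ D =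
      Divisor.pullbackAlong i hi (Divisor.pushforwardAlong a ha D) -
        Divisor.pushforwardAlong a' ha' (Divisor.pullbackAlong i₁ hi₁ D) := rfl

include hsq in
/-- Locality: the defect of a place `w` is supported over the place `w|_F`. -/
theorem bcDefect_single_apply_of_ne (w : Place K F₁) (n : ℤ) (u : Place K G)
    (hu : u.restrictAlong i hi ≠ w.restrictAlong a ha) :
    bcDefect a i a' i₁ ha hi ha' hi₁ (Finsupp.single w n) u = 0 := by
  classical
  rw [bcDefect_apply, Finsupp.sub_apply]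
  have h1 : Divisor.pullbackAlong i hi (Divisor.pushforwardAlong a ha (Finsupp.single w n)) u
      = 0 := by
    rw [Divisor.pushforwardAlong_single, Divisor.pullbackAlong_apply,
      Finsupp.single_eq_of_ne hu, mul_zero]
  have h2 : Divisor.pushforwardAlong a' ha'
      (Divisor.pullbackAlong i₁ hi₁ (Finsupp.single w n)) u = 0 := by
    rw [Divisor.pullbackAlong_single, map_sum, Finset.sum_apply']
    refine Finset.sum_eq_zero fun W hW => ?_
    rw [Divisor.pushforwardAlong_single]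
    refine Finsupp.single_eq_of_ne ?_
    intro hWu
    apply hu
    rw [hWu, restrict_square a i a' i₁ ha hi ha' hi₁ hsq W, Place.mem_fiberAlong.mp hW]
  rw [h1, h2, sub_zero]

/-- The defect vanishes on principal divisors, by the norm formulas and norm compatibility. -/
theorem bcDefect_principal
    (hfin : FiniteAlong K a) (hN : NormFormulaAlong K a hfin)
    (hfin' : FiniteAlong K a') (hN' : NormFormulaAlong K a' hfin')
    (hnorm : NormCompat a i a' i₁)
    {f : F₁} (hf : f ≠ 0) {D : Divisor K F₁} (hD : ∀ w, D w = w.ord f) :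
    bcDefect a i a' i₁ ha hi ha' hi₁ D = 0 := by
  rw [bcDefect_apply, sub_eq_zero]
  ext u
  -- left side
  have hL : Divisor.pullbackAlong i hi (Divisor.pushforwardAlong a ha D) u =
      u.ord (i (letI := algebraAlong a; Algebra.norm F f)) := by
    letI := algebraAlong a
    haveI := isScalarTower_along a
    haveI := isIntegral_along a ha
    haveI : Module.Finite F F₁ := hfin
    have hE : ∀ v : Place K F, Divisor.pushforward F D v = v.ord (Algebra.norm F f) :=
      fun v => hN f hf D hD v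
    have : Divisor.pushforwardAlong a ha D = Divisor.pushforward F D := rfl
    rw [this]
    letI := algebraAlong i
    haveI := isScalarTower_along i
    haveI := isIntegral_along i hi
    exact Divisor.pullback_apply_eq_ord (F' := G) hE u
  -- right side
  have hR : Divisor.pushforwardAlong a' ha' (Divisor.pullbackAlong i₁ hi₁ D) u =
      u.ord (letI := algebraAlong a'; Algebra.norm G (i₁ f)) := by
    have hD' : ∀ W : Place K G₁, Divisor.pullbackAlong i₁ hi₁ D W = W.ord (i₁ f) := by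
      intro W
      letI := algebraAlong i₁
      haveI := isScalarTower_along i₁
      haveI := isIntegral_along i₁ hi₁
      exact Divisor.pullback_apply_eq_ord (F' := G₁) hD W
    letI := algebraAlong a'
    haveI := isScalarTower_along a'
    haveI := isIntegral_along a' ha'
    haveI : Module.Finite G G₁ := hfin'
    have hf' : i₁ f ≠ 0 := by simpa using hf
    exact hN' (i₁ f) hf' _ hD' u
  rw [hL, hR, hnorm f]

variable [HasPrincipalDivisors K F₁]

include hsq in
/-- **Base change identity** `i^* a_* = a'_* i₁^*` on divisors. -/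
theorem pullback_pushforward_eq
    (hfin : FiniteAlong K a) (hN : NormFormulaAlong K a hfin)
    (hfin' : FiniteAlong K a') (hN' : NormFormulaAlong K a' hfin')
    (hnorm : NormCompat a i a' i₁) (hLG : HasLocalGenerators a ha) (D : Divisor K F₁) :
    Divisor.pullbackAlong i hi (Divisor.pushforwardAlong a ha D) =
      Divisor.pushforwardAlong a' ha' (Divisor.pullbackAlong i₁ hi₁ D) := by
  classical
  rw [← sub_eq_zero, ← bcDefect_apply]
  set δ := bcDefect a i a' i₁ ha hi ha' hi₁ with hδ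
  -- it suffices to treat single places
  suffices h : ∀ w : Place K F₁, δ (Finsupp.single w 1) = 0 by
    induction D using Finsupp.induction with
    | zero => simp
    | single_add w n D _ _ ih =>
      rw [map_add, ih, add_zero]
      have : Finsupp.single w n = n • Finsupp.single w (1 : ℤ) := by
        rw [Finsupp.smul_single, smul_eq_mul, mul_one]
      rw [this, map_zsmul, h w, smul_zero]
  intro w₀
  ext u
  rw [Finsupp.zero_apply]
  by_cases hu : u.restrictAlong i hi = w₀.restrictAlong a ha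
  swap
  · exact bcDefect_single_apply_of_ne a i a' i₁ ha hi ha' hi₁ hsq w₀ 1 u hu
  obtain ⟨f, hf0, hfw, hfo⟩ := hLG w₀
  obtain ⟨D, hD, -⟩ := HasPrincipalDivisors.exists_divisor (K := K) f hf0
  have h0 : δ D = 0 := bcDefect_principal a i a' i₁ ha hi ha' hi₁ hfin hN hfin' hN' hnorm hf0 hD
  -- decompose D
  have hsum : δ D u = ∑ w ∈ D.support, δ (Finsupp.single w (D w)) u := by
    conv_lhs => rw [← Finsupp.sum_single D]
    rw [Finsupp.sum, map_sum, Finset.sum_apply']
  have hw₀ : w₀ ∈ D.support := by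
    rw [Finsupp.mem_support_iff, hD]
    exact hfw
  rw [Finset.sum_eq_single_of_mem w₀ hw₀] at hsum
  · rw [h0, Finsupp.zero_apply] at hsum
    have : Finsupp.single w₀ (D w₀) = (D w₀) • Finsupp.single w₀ (1 : ℤ) := by
      rw [Finsupp.smul_single, smul_eq_mul, mul_one]
    rw [this, map_zsmul, Finsupp.smul_apply, smul_eq_mul] at hsum
    have hne : D w₀ ≠ 0 := by rw [hD]; exact hfw
    rcases mul_eq_zero.mp hsum.symm with h | h
    · exact absurd h hne
    · exact h
  · intro w _ hw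
    by_cases hwv : w.restrictAlong a ha = w₀.restrictAlong a ha
    · have : D w = 0 := by rw [hD]; exact hfo w hw hwv
      rw [this, Finsupp.single_zero, map_zero, Finsupp.zero_apply]
    · exact bcDefect_single_apply_of_ne a i a' i₁ ha hi ha' hi₁ hsq w (D w) u
        (fun h => hwv (h.symm.trans hu))

end

end Fermat.Agent.S37.H818

end

end
-- ===== PACK-END S37/H818/BaseChange.lean

-- ===== PACK-BEGIN S37/H818/HeckeComm.lean
section
/-
S37 / LEVEL TRANSFER (helper818), part 3: a correspondence `a_* b^*` commutes with pullback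
along a degeneracy map `i`, at the level of divisors and of `Pic0`.

      F  ==a,b==>  F₁
      |i           |i₁
      v            v
      G  ==a',b'=> G₁          i₁ ∘ a = a' ∘ i,   i₁ ∘ b = b' ∘ i.
-/




set_option autoImplicit false
set_option linter.style.haveILetI false

noncomputable section

namespace Fermat.Agent.S37.H818

open AlgebraicCurve

variable {K F F₁ G G₁ : Type*} [Field K] [Field F] [Field F₁] [Field G] [Field G₁]
  [Algebra K F] [Algebra K F₁] [Algebra K G] [Algebra K G₁]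

theorem pullbackAlong_congr [HasPrincipalDivisors K G] {φ φ' : F →ₐ[K] G} (h : φ = φ')
    (hφ : φ.toRingHom.IsIntegral) (hφ' : φ'.toRingHom.IsIntegral) (D : Divisor K F) :
    Divisor.pullbackAlong φ hφ D = Divisor.pullbackAlong φ' hφ' D := by
  subst h
  rfl

section

variable (a b : F →ₐ[K] F₁) (i : F →ₐ[K] G) (a' b' : G →ₐ[K] G₁) (i₁ : F₁ →ₐ[K] G₁)
  (ha : a.toRingHom.IsIntegral) (hb : b.toRingHom.IsIntegral) (hi : i.toRingHom.IsIntegral)
  (ha' : a'.toRingHom.IsIntegral) (hb' : b'.toRingHom.IsIntegral)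
  (hi₁ : i₁.toRingHom.IsIntegral)
  (hsqa : i₁.comp a = a'.comp i) (hsqb : i₁.comp b = b'.comp i)

variable [HasPrincipalDivisors K G] [HasPrincipalDivisors K G₁] [HasPrincipalDivisors K F₁]

include hsqa hsqb hi₁ in
/-- **Hecke/degeneracy commutation on divisors**:
`i^* (a_* b^* D) = a'_* b'^* (i^* D)`. -/
theorem pullbackAlong_correspondence
    (hfin : FiniteAlong K a) (hN : NormFormulaAlong K a hfin)
    (hfin' : FiniteAlong K a') (hN' : NormFormulaAlong K a' hfin')
    (hnorm : NormCompat a i a' i₁) (hLG : HasLocalGenerators a ha) (D : Divisor K F) :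
    Divisor.pullbackAlong i hi (Divisor.correspondence b a hb ha D) =
      Divisor.correspondence b' a' hb' ha' (Divisor.pullbackAlong i hi D) := by
  have h1 : (i₁.comp b).toRingHom.IsIntegral := RingHom.IsIntegral.trans _ _ hb hi₁
  have h2 : (b'.comp i).toRingHom.IsIntegral := RingHom.IsIntegral.trans _ _ hi hb'
  rw [Divisor.correspondence_apply, Divisor.correspondence_apply,
    pullback_pushforward_eq a i a' i₁ ha hi ha' hi₁ hsqa hfin hN hfin' hN' hnorm hLG,
    ← pullbackAlong_comp b i₁ hb hi₁ h1, ← pullbackAlong_comp i b' hi hb' h2,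
    pullbackAlong_congr hsqb h1 h2]

end

/-! ### Pullback on `Pic0` along a homomorphism -/

section PullbackHom

variable [HasPrincipalDivisors K G] (i : F →ₐ[K] G) (hi : i.toRingHom.IsIntegral)
  (hFI : FundamentalIdentityAlong K i hi)

/-- Pullback of degree-zero divisors along `i`. -/
def pullbackDegZeroAlong :
    Divisor.degZero (K := K) (F := F) →+ Divisor.degZero (K := K) (F := G) :=
  ((Divisor.pullbackAlong i hi).domRestrict (Divisor.degZero (K := K) (F := F))).codRestrict _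
    fun D => Divisor.pullbackAlong_mem_degZero i hi hFI D.2

@[simp]
theorem coe_pullbackDegZeroAlong (D : Divisor.degZero (K := K) (F := F)) :
    (pullbackDegZeroAlong i hi hFI D : Divisor K G) =
      Divisor.pullbackAlong i hi (D : Divisor K F) := rfl

/-- Pullback on `Pic0` along `i` (the map `π^*` of the level transfer). -/
def pullbackPic0Along : Pic0 K F →+ Pic0 K G :=
  QuotientAddGroup.map _ _ (pullbackDegZeroAlong i hi hFI) (by
    rintro ⟨D, hD0⟩ hD
    simp only [AddSubgroup.mem_addSubgroupOf] at hD ⊢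
    exact Divisor.isPrincipal_pullbackAlong i hi hD)

theorem pullbackPic0Along_mk (D : Divisor.degZero (K := K) (F := F)) :
    pullbackPic0Along i hi hFI (Pic0.mk D) = Pic0.mk (pullbackDegZeroAlong i hi hFI D) := rfl

end PullbackHom

section Pic0Comm

variable (a b : F →ₐ[K] F₁) (i : F →ₐ[K] G) (a' b' : G →ₐ[K] G₁) (i₁ : F₁ →ₐ[K] G₁)
  (ha : a.toRingHom.IsIntegral) (hb : b.toRingHom.IsIntegral) (hi : i.toRingHom.IsIntegral)
  (ha' : a'.toRingHom.IsIntegral) (hb' : b'.toRingHom.IsIntegral)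
  (hi₁ : i₁.toRingHom.IsIntegral)
  (hsqa : i₁.comp a = a'.comp i) (hsqb : i₁.comp b = b'.comp i)

variable [HasPrincipalDivisors K G] [HasPrincipalDivisors K G₁] [HasPrincipalDivisors K F₁]

include hsqa hsqb hi₁ in
/-- **Hecke/degeneracy commutation on `Pic0`**: `π^* ∘ T = T' ∘ π^*`, where
`T = a_* b^*` on `Pic0 F`, `T' = a'_* b'^*` on `Pic0 G` and `π^* = i^*`. -/
theorem pullbackPic0Along_correspondence
    (hFIb : FundamentalIdentityAlong K b hb)
    (hfin : FiniteAlong K a) (hN : NormFormulaAlong K a hfin)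
    (hFIb' : FundamentalIdentityAlong K b' hb')
    (hfin' : FiniteAlong K a') (hN' : NormFormulaAlong K a' hfin')
    (hFIi : FundamentalIdentityAlong K i hi)
    (hnorm : NormCompat a i a' i₁) (hLG : HasLocalGenerators a ha) (x : Pic0 K F) :
    pullbackPic0Along i hi hFIi (Pic0.correspondence b a hb ha hFIb hfin hN x) =
      Pic0.correspondence b' a' hb' ha' hFIb' hfin' hN' (pullbackPic0Along i hi hFIi x) := by
  obtain ⟨D, rfl⟩ := Pic0.mk_surjective x
  rw [Pic0.correspondence_mk, pullbackPic0Along_mk, pullbackPic0Along_mk,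
    Pic0.correspondence_mk]
  congr 1
  apply Subtype.ext
  simp only [coe_pullbackDegZeroAlong, Pic0.coe_degZeroCorrespondence]
  exact pullbackAlong_correspondence a b i a' b' i₁ ha hb hi ha' hb' hi₁ hsqa hsqb
    hfin hN hfin' hN' hnorm hLG D

end Pic0Comm

end Fermat.Agent.S37.H818

end

end
-- ===== PACK-END S37/H818/HeckeComm.lean

-- ===== PACK-BEGIN S37/H818/NormCompat.lean
section
/-
S37 / LEVEL TRANSFER (helper818), part 5: norm compatibility for a square

      F  --a-->  F₁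
      |i         |i₁
      v          v
      G  --a'->  G₁

with `[F₁ : F] = [G₁ : G]` and `G₁ = G · i₁(F₁)`:  `N_{G₁/G}(i₁ f) = i (N_{F₁/F} f)`.
-/




set_option autoImplicit false
set_option linter.style.haveILetI false

noncomputable section

namespace Fermat.Agent.S37.H818

open AlgebraicCurve

section Abstract

variable {F F₁ G G₁ : Type*} [Field F] [Field F₁] [Field G] [Field G₁]
  [Algebra F F₁] [Algebra G G₁] (i : F →+* G) (i₁ : F₁ →+* G₁)
  (hsq : ∀ x : F, i₁ (algebraMap F F₁ x) = algebraMap G G₁ (i x))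

include hsq in
theorem map_smul_square (c : F) (x : F₁) : i₁ (c • x) = i c • i₁ x := by
  rw [Algebra.smul_def, Algebra.smul_def, map_mul, hsq]

include hsq in
/-- The image of a basis spans a subspace closed under multiplication containing `i₁(F₁)`. -/
theorem span_image_basis_eq_top {n : ℕ} (e : Module.Basis (Fin n) F F₁)
    (hgen : Algebra.adjoin G (Set.range i₁) = ⊤) :
    Submodule.span G (Set.range fun j => i₁ (e j)) = ⊤ := by
  set S : Submodule G G₁ := Submodule.span G (Set.range fun j => i₁ (e j)) with hS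
  have hgenS : ∀ f : F₁, i₁ f ∈ S := by
    intro f
    have hf : f = ∑ j, e.repr f j • e j := (e.sum_repr f).symm
    rw [hf, map_sum]
    refine Submodule.sum_mem _ fun j _ => ?_
    rw [map_smul_square i i₁ hsq]
    exact Submodule.smul_mem _ _ (Submodule.subset_span ⟨j, rfl⟩)
  have hmul : ∀ x ∈ S, ∀ y ∈ S, x * y ∈ S := by
    intro x hx y hy
    induction hx using Submodule.span_induction with
    | mem x hx =>
      obtain ⟨j, rfl⟩ := hx
      induction hy using Submodule.span_induction with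
      | mem y hy =>
        obtain ⟨k, rfl⟩ := hy
        simp only
        rw [← map_mul]
        exact hgenS _
      | zero => rw [mul_zero]; exact S.zero_mem
      | add y z _ _ hy hz => rw [mul_add]; exact S.add_mem hy hz
      | smul c y _ hy => rw [mul_smul_comm]; exact S.smul_mem c hy
    | zero => rw [zero_mul]; exact S.zero_mem
    | add x z _ _ hx hz => rw [add_mul]; exact S.add_mem hx hz
    | smul c x _ hx => rw [smul_mul_assoc]; exact S.smul_mem c hx
  rw [eq_top_iff]
  intro x _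
  have hx : x ∈ Algebra.adjoin G (Set.range i₁) := by rw [hgen]; exact Algebra.mem_top
  induction hx using Algebra.adjoin_induction with
  | mem y hy =>
    obtain ⟨f, rfl⟩ := hy
    exact hgenS f
  | algebraMap g =>
    have h1 : (1 : G₁) ∈ S := by
      have := hgenS 1
      rwa [map_one] at this
    have : algebraMap G G₁ g = g • (1 : G₁) := by rw [Algebra.smul_def, mul_one]
    rw [this]
    exact S.smul_mem g h1
  | add y z _ _ hy hz => exact S.add_mem (hy trivial) (hz trivial)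
  | mul y z _ _ hy hz => exact hmul _ (hy trivial) _ (hz trivial)

include hsq in
/-- Norm compatibility, abstract form. -/
theorem norm_square [Module.Finite F F₁] [Module.Finite G G₁]
    (hdeg : Module.finrank G G₁ = Module.finrank F F₁)
    (hgen : Algebra.adjoin G (Set.range i₁) = ⊤) (f : F₁) :
    Algebra.norm G (i₁ f) = i (Algebra.norm F f) := by
  classical
  set n := Module.finrank F F₁ with hn
  let e : Module.Basis (Fin n) F F₁ := Module.finBasis F F₁
  have hspan := span_image_basis_eq_top i i₁ hsq e hgen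
  have hcard : Fintype.card (Fin n) = Module.finrank G G₁ := by
    rw [Fintype.card_fin, hdeg]
  let e' : Module.Basis (Fin n) G G₁ :=
    basisOfTopLeSpanOfCardEqFinrank (fun j => i₁ (e j)) hspan.ge hcard
  have he' : ∀ j, e' j = i₁ (e j) := fun j => by
    simp [e', coe_basisOfTopLeSpanOfCardEqFinrank]
  rw [Algebra.norm_eq_matrix_det e' (i₁ f), Algebra.norm_eq_matrix_det e f, RingHom.map_det]
  congr 1
  ext k j
  rw [RingHom.mapMatrix_apply, Matrix.map_apply, Algebra.leftMulMatrix_eq_repr_mul,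
    Algebra.leftMulMatrix_eq_repr_mul, he']
  have hprod : i₁ f * i₁ (e j) = ∑ k, i (e.repr (f * e j) k) • e' k := by
    rw [← map_mul]
    conv_lhs => rw [← e.sum_repr (f * e j)]
    rw [map_sum]
    refine Finset.sum_congr rfl fun k _ => ?_
    rw [map_smul_square i i₁ hsq, he']
  rw [hprod, e'.repr_sum_self]

end Abstract

section Along

variable {K F F₁ G G₁ : Type*} [Field K] [Field F] [Field F₁] [Field G] [Field G₁]
  [Algebra K F] [Algebra K F₁] [Algebra K G] [Algebra K G₁]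

/-- `NormCompat` from equality of degrees and generation `G₁ = a'(G)[i₁(F₁)]`. -/
theorem normCompat_of_finrank_eq (a : F →ₐ[K] F₁) (i : F →ₐ[K] G) (a' : G →ₐ[K] G₁)
    (i₁ : F₁ →ₐ[K] G₁) (hsq : i₁.comp a = a'.comp i)
    (hfin : FiniteAlong K a) (hfin' : FiniteAlong K a')
    (hdeg : finrankAlong K a' = finrankAlong K a)
    (hgen : (letI := algebraAlong a'; Algebra.adjoin G (Set.range i₁)) = ⊤) :
    NormCompat a i a' i₁ := by
  intro f
  letI := algebraAlong a
  letI := algebraAlong a'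
  haveI : Module.Finite F F₁ := hfin
  haveI : Module.Finite G G₁ := hfin'
  refine norm_square (i : F →+* G) (i₁ : F₁ →+* G₁) (fun x => ?_) hdeg ?_ f
  · exact congrArg (fun φ : F →ₐ[K] G₁ => φ x) hsq
  · exact hgen

end Along

end Fermat.Agent.S37.H818

end

end
-- ===== PACK-END S37/H818/NormCompat.lean

-- ===== PACK-BEGIN S37/H159/MGauss.lean
section



/-!
# Theorem M, part 1: the reduction context and the Gauss valuation ring of `K(x)`
(row S37, piece R-b = normality of the special fibre; seat helper159)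

`K ⊇ A` a valuation ring with residue map `π : A ↠ k`; `F` a field which is a `K[X]`-algebra
(`X ↦ x`), `O ⊆ F` a valuation ring with residue map `ρ : O ↠ F_k`, where `F_k` is a
`k[X]`-algebra (`X ↦ x̄`), such that `ρ (P(x)) = P̄(x̄)` for `P ∈ A[X]`.

This file: `ker ρ = 𝔪_O`, `O ∩ K = A`, `O ∩ K[x] = A[x]` (Gauss), the Gauss valuation ring
`V₀ = O ∩ K(x)` of an abstract fraction field `L₀` of `K[X]`, and the induced residue map
`ρ₀ : V₀ → L₀k` (`L₀k` a fraction field of `k[X]`).
-/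

set_option autoImplicit false
set_option linter.unusedSectionVars false

namespace Fermat.Agent.S37.H159

open Polynomial

/-- A reduction context (see the module docstring). -/
structure RedCtx {K : Type*} [Field K] (A : ValuationSubring K) (k : Type*) [Field k]
    (F : Type*) [Field F] [Algebra K[X] F] (Fk : Type*) [Field Fk] [Algebra k[X] Fk] where
  /-- residue map of the constants -/
  π : A →+* k
  π_surj : Function.Surjective π
  /-- the valuation ring of the function field -/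
  O : ValuationSubring F
  /-- reduction of functions -/
  ρ : O →+* Fk
  ρ_surj : Function.Surjective ρ
  mem : ∀ p : A[X], algebraMap K[X] F (p.map A.subtype) ∈ O
  ρ_poly : ∀ p : A[X],
    ρ ⟨algebraMap K[X] F (p.map A.subtype), mem p⟩ = algebraMap k[X] Fk (p.map π)

/-- Scaling a nonzero polynomial over the fraction field of a valuation ring to a polynomial
over the valuation ring with a coefficient equal to `1`. -/
theorem exists_primitive {K : Type*} [Field K] (A : ValuationSubring K) (P : K[X]) (hP : P ≠ 0) :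
    ∃ (lam : K) (P₀ : A[X]) (m : ℕ), lam ≠ 0 ∧ P₀.coeff m = 1 ∧
      P = C lam * P₀.map A.subtype := by
  classical
  have hne : P.support.Nonempty := by
    rw [Finset.nonempty_iff_ne_empty, Ne, Polynomial.support_eq_empty]
    exact hP
  obtain ⟨m, hm, hmax⟩ := Finset.exists_max_image P.support (fun i => A.valuation (P.coeff i)) hne
  have hlam : P.coeff m ≠ 0 := Polynomial.mem_support_iff.mp hm
  have hmem : ∀ i, (P.coeff m)⁻¹ * P.coeff i ∈ A := by
    intro i
    by_cases hi : i ∈ P.support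
    · rw [← ValuationSubring.valuation_le_one_iff, map_mul, map_inv₀]
      have hv : A.valuation (P.coeff m) ≠ 0 := (_root_.map_ne_zero _).mpr hlam
      rw [inv_mul_le_iff₀ (zero_lt_iff.mpr hv), mul_one]
      exact hmax i hi
    · rw [Polynomial.notMem_support_iff.mp hi, mul_zero]
      exact A.zero_mem
  have hl : C (P.coeff m)⁻¹ * P ∈ Polynomial.lifts A.subtype := by
    rw [Polynomial.lifts_iff_coeff_lifts]
    intro i
    rw [coeff_C_mul]
    exact ⟨⟨_, hmem i⟩, rfl⟩
  obtain ⟨P₀, hP₀⟩ := hl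
  refine ⟨P.coeff m, P₀, m, hlam, ?_, ?_⟩
  · apply Subtype.ext
    have := congrArg (fun q => q.coeff m) hP₀
    simp only [coeff_C_mul] at this
    rw [show (P₀.coeff m : K) = (Polynomial.map A.subtype P₀).coeff m by
      rw [coeff_map]; rfl]
    rw [show (Polynomial.map A.subtype P₀) = mapRingHom A.subtype P₀ from rfl, this,
      inv_mul_cancel₀ hlam]
    rfl
  · rw [show (Polynomial.map A.subtype P₀) = mapRingHom A.subtype P₀ from rfl, hP₀, ← mul_assoc,
      ← C_mul, mul_inv_cancel₀ hlam, C_1, one_mul]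

namespace RedCtx

variable {K : Type*} [Field K] {A : ValuationSubring K} {k : Type*} [Field k]
  {F : Type*} [Field F] [Algebra K[X] F] {Fk : Type*} [Field Fk] [Algebra k[X] Fk]
  (G : RedCtx A k F Fk)

theorem ρ_eq_zero_iff (u : G.O) : G.ρ u = 0 ↔ (u : F) ∈ G.O.nonunits := by
  have hmax : (RingHom.ker G.ρ).IsMaximal := RingHom.ker_isMaximal_of_surjective G.ρ G.ρ_surj
  have hker := IsLocalRing.eq_maximalIdeal hmax
  rw [← RingHom.mem_ker, hker, ValuationSubring.mem_nonunits_iff_exists_mem_maximalIdeal]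
  exact ⟨fun h => ⟨u.2, h⟩, fun ⟨_, h⟩ => h⟩

theorem π_eq_zero_iff (a : A) : G.π a = 0 ↔ (a : K) ∈ A.nonunits := by
  have hmax : (RingHom.ker G.π).IsMaximal := RingHom.ker_isMaximal_of_surjective G.π G.π_surj
  have hker := IsLocalRing.eq_maximalIdeal hmax
  rw [← RingHom.mem_ker, hker, ValuationSubring.mem_nonunits_iff_exists_mem_maximalIdeal]
  exact ⟨fun h => ⟨a.2, h⟩, fun ⟨_, h⟩ => h⟩

/-- An element of `O` with nonzero reduction is a unit of `O`. -/
theorem inv_mem_of_ρ_ne_zero (u : G.O) (hu : G.ρ u ≠ 0) : (u : F)⁻¹ ∈ G.O := by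
  have h1 : (u : F) ∉ G.O.nonunits := fun h => hu ((G.ρ_eq_zero_iff u).mpr h)
  rw [ValuationSubring.mem_nonunits_iff, not_lt] at h1
  rw [← ValuationSubring.valuation_le_one_iff, map_inv₀]
  exact inv_le_one_of_one_le₀ h1

theorem ne_zero_of_ρ_ne_zero (u : G.O) (hu : G.ρ u ≠ 0) : (u : F) ≠ 0 := by
  intro h
  apply hu
  have : u = 0 := Subtype.ext h
  rw [this, map_zero]

theorem C_mem (a : A) : algebraMap K[X] F (C (a : K)) ∈ G.O := by
  have := G.mem (C a)
  rwa [Polynomial.map_C] at this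

theorem ρ_C (a : A) : G.ρ ⟨algebraMap K[X] F (C (a : K)), G.C_mem a⟩ =
    algebraMap k[X] Fk (C (G.π a)) := by
  have h := G.ρ_poly (C a)
  have e : (⟨algebraMap K[X] F (C (a : K)), G.C_mem a⟩ : G.O) =
      ⟨algebraMap K[X] F ((C a : A[X]).map A.subtype), G.mem (C a)⟩ :=
    Subtype.ext (congrArg (algebraMap K[X] F)
      (show (C (a : K) : K[X]) = (C a : A[X]).map A.subtype by rw [Polynomial.map_C]; rfl))
  rw [e, h, Polynomial.map_C]

/-- `O ∩ K = A`. -/
theorem C_mem_iff (a : K) : algebraMap K[X] F (C a) ∈ G.O ↔ a ∈ A := by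
  constructor
  · intro h
    by_contra ha
    have ha0 : a ≠ 0 := fun h0 => ha (h0 ▸ A.zero_mem)
    have hinv : a⁻¹ ∈ A.nonunits := (ValuationSubring.inv_mem_nonunits_iff A).mpr (Or.inr ha)
    have hinvA : a⁻¹ ∈ A := A.nonunits_subset hinv
    have h1 : G.π ⟨a⁻¹, hinvA⟩ = 0 := (G.π_eq_zero_iff _).mpr hinv
    have h2 := G.ρ_C ⟨a⁻¹, hinvA⟩
    rw [h1, map_zero, map_zero] at h2
    have h3 := (G.ρ_eq_zero_iff _).mp h2
    rw [ValuationSubring.mem_nonunits_iff] at h3
    have h4 : G.O.valuation (algebraMap K[X] F (C a)) ≤ 1 :=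
      (ValuationSubring.valuation_le_one_iff _ _).mpr h
    have h5 : algebraMap K[X] F (C a) * algebraMap K[X] F (C a⁻¹) = 1 := by
      rw [← map_mul, ← C_mul, mul_inv_cancel₀ ha0, C_1, map_one]
    have h6 : G.O.valuation (algebraMap K[X] F (C a) * algebraMap K[X] F (C a⁻¹)) < 1 := by
      rw [map_mul]
      exact mul_lt_one_of_nonneg_of_lt_one_right h4 zero_le h3
    rw [h5, map_one] at h6
    exact lt_irrefl _ h6
  · intro ha
    exact G.C_mem ⟨a, ha⟩

variable (hinj : Function.Injective (algebraMap k[X] Fk))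

include hinj in
/-- A polynomial over `A` with nonzero reduction is a unit of `O` at `x`. -/
theorem inv_mem_of_map_ne_zero (P₀ : A[X]) (h : P₀.map G.π ≠ 0) :
    (algebraMap K[X] F (P₀.map A.subtype))⁻¹ ∈ G.O := by
  refine G.inv_mem_of_ρ_ne_zero ⟨_, G.mem P₀⟩ ?_
  rw [G.ρ_poly]
  exact fun h0 => h (hinj (by rw [h0, map_zero]))

include hinj in
theorem ne_zero_of_map_ne_zero (P₀ : A[X]) (h : P₀.map G.π ≠ 0) :
    algebraMap K[X] F (P₀.map A.subtype) ≠ 0 := by
  refine G.ne_zero_of_ρ_ne_zero ⟨_, G.mem P₀⟩ ?_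
  rw [G.ρ_poly]
  exact fun h0 => h (hinj (by rw [h0, map_zero]))

theorem map_π_ne_zero_of_coeff_eq_one (P₀ : A[X]) (m : ℕ) (h : P₀.coeff m = 1) :
    P₀.map G.π ≠ 0 := by
  intro h0
  have := congrArg (fun q => q.coeff m) h0
  simp only [coeff_map, h, map_one, coeff_zero] at this
  exact one_ne_zero this

include hinj in
/-- **Gauss**: `O ∩ K[x] = A[x]`. -/
theorem exists_map_eq_of_mem (P : K[X]) (hP : algebraMap K[X] F P ∈ G.O) :
    ∃ P₁ : A[X], P₁.map A.subtype = P := by
  by_cases hP0 : P = 0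
  · exact ⟨0, by rw [hP0, Polynomial.map_zero]⟩
  obtain ⟨lam, P₀, m, hlam, hm, hPeq⟩ := exists_primitive A P hP0
  have hne := G.map_π_ne_zero_of_coeff_eq_one P₀ m hm
  have hinv := G.inv_mem_of_map_ne_zero hinj P₀ hne
  have hne' := G.ne_zero_of_map_ne_zero hinj P₀ hne
  have h1 : algebraMap K[X] F (C lam) =
      algebraMap K[X] F P * (algebraMap K[X] F (P₀.map A.subtype))⁻¹ := by
    rw [hPeq, map_mul, mul_assoc, mul_inv_cancel₀ hne', mul_one]
  have h2 : algebraMap K[X] F (C lam) ∈ G.O := by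
    rw [h1]
    exact G.O.mul_mem _ _ hP hinv
  have h3 : lam ∈ A := (G.C_mem_iff lam).mp h2
  refine ⟨C ⟨lam, h3⟩ * P₀, ?_⟩
  rw [Polynomial.map_mul, Polynomial.map_C, hPeq]
  rfl

section Rational

variable (L₀ : Type*) [Field L₀] [Algebra K[X] L₀] [IsFractionRing K[X] L₀] [Algebra L₀ F]
  [IsScalarTower K[X] L₀ F]
variable (L₀k : Type*) [Field L₀k] [Algebra k[X] L₀k] [IsFractionRing k[X] L₀k] [Algebra L₀k Fk]
  [IsScalarTower k[X] L₀k Fk]

/-- the Gauss valuation ring `O ∩ K(x)` -/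
def V₀ : ValuationSubring L₀ := G.O.comap (algebraMap L₀ F)

theorem mem_V₀ (v : L₀) : v ∈ G.V₀ L₀ ↔ algebraMap L₀ F v ∈ G.O := ValuationSubring.mem_comap

theorem valExtends : H217.ValExtends (G.V₀ L₀) G.O := fun _ => ValuationSubring.mem_comap.symm

include L₀k in
theorem algebraMap_injective_k : Function.Injective (algebraMap k[X] Fk) := by
  rw [IsScalarTower.algebraMap_eq k[X] L₀k Fk]
  exact (algebraMap L₀k Fk).injective.comp (IsFractionRing.injective k[X] L₀k)

include L₀k in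
/-- Normal form of the elements of the Gauss ring: `v = P₁(x) / Q₀(x)` with `P₁, Q₀ ∈ A[X]`,
`Q̄₀ ≠ 0`. -/
theorem exists_normal_form (v : L₀) (hv : algebraMap L₀ F v ∈ G.O) :
    ∃ (P₁ Q₀ : A[X]), Q₀.map G.π ≠ 0 ∧
      v * algebraMap K[X] L₀ (Q₀.map A.subtype) = algebraMap K[X] L₀ (P₁.map A.subtype) := by
  have hinj := algebraMap_injective_k (k := k) (Fk := Fk) L₀k
  obtain ⟨P, Q, hQ, rfl⟩ := IsFractionRing.div_surjective K[X] v
  have hQ0 : Q ≠ 0 := nonZeroDivisors.ne_zero hQ
  obtain ⟨lam, Q₀, m, hlam, hm, hQeq⟩ := exists_primitive A Q hQ0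
  have hne := G.map_π_ne_zero_of_coeff_eq_one Q₀ m hm
  have hQ₀F := G.ne_zero_of_map_ne_zero hinj Q₀ hne
  have hQ₀L : algebraMap K[X] L₀ (Q₀.map A.subtype) ≠ 0 := by
    intro h0
    apply hQ₀F
    rw [IsScalarTower.algebraMap_apply K[X] L₀ F, h0, map_zero]
  have hlamL : algebraMap K[X] L₀ (C lam) ≠ 0 := by
    rw [Ne, map_eq_zero_iff _ (IsFractionRing.injective K[X] L₀), C_eq_zero]
    exact hlam
  have key : algebraMap K[X] L₀ P / algebraMap K[X] L₀ Q *
      algebraMap K[X] L₀ (Q₀.map A.subtype) = algebraMap K[X] L₀ (C lam⁻¹ * P) := by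
    rw [hQeq, map_mul, map_mul]
    have : algebraMap K[X] L₀ (C lam⁻¹) = (algebraMap K[X] L₀ (C lam))⁻¹ := by
      apply eq_inv_of_mul_eq_one_left
      rw [← map_mul, ← C_mul, inv_mul_cancel₀ hlam, C_1, map_one]
    rw [this]
    field_simp
  have hmem : algebraMap K[X] F (C lam⁻¹ * P) ∈ G.O := by
    rw [IsScalarTower.algebraMap_apply K[X] L₀ F, ← key, map_mul,
      ← IsScalarTower.algebraMap_apply K[X] L₀ F]
    exact G.O.mul_mem _ _ hv (G.mem Q₀)
  obtain ⟨P₁, hP₁⟩ := G.exists_map_eq_of_mem hinj _ hmem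
  exact ⟨P₁, Q₀, hne, by rw [key, hP₁]⟩

include L₀ in
theorem exists_ρ_eq (v : L₀) (hv : algebraMap L₀ F v ∈ G.O) :
    G.ρ ⟨algebraMap L₀ F v, hv⟩ ∈ (algebraMap L₀k Fk).range := by
  have hinj := algebraMap_injective_k (k := k) (Fk := Fk) L₀k
  obtain ⟨P₁, Q₀, hne, hvQ⟩ := G.exists_normal_form L₀ L₀k v hv
  have h1 : (⟨algebraMap L₀ F v, hv⟩ : G.O) * ⟨_, G.mem Q₀⟩ = ⟨_, G.mem P₁⟩ := by
    apply Subtype.ext
    show algebraMap L₀ F v * algebraMap K[X] F (Q₀.map A.subtype) =
      algebraMap K[X] F (P₁.map A.subtype)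
    rw [IsScalarTower.algebraMap_apply K[X] L₀ F, IsScalarTower.algebraMap_apply K[X] L₀ F,
      ← map_mul, hvQ]
  have h2 := congrArg G.ρ h1
  rw [map_mul, G.ρ_poly, G.ρ_poly] at h2
  have h3 : algebraMap k[X] Fk (Q₀.map G.π) ≠ 0 := fun h0 => hne (hinj (by rw [h0, map_zero]))
  refine ⟨algebraMap k[X] L₀k (P₁.map G.π) / algebraMap k[X] L₀k (Q₀.map G.π), ?_⟩
  rw [map_div₀, ← IsScalarTower.algebraMap_apply, ← IsScalarTower.algebraMap_apply,
    div_eq_iff h3, h2]

/-- the inclusion `V₀ → O` -/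
def incl : G.V₀ L₀ →+* G.O :=
  (algebraMap L₀ F).restrict (G.V₀ L₀) G.O (fun _ hx => (G.mem_V₀ L₀ _).mp hx)

theorem incl_coe (v : G.V₀ L₀) : ((G.incl L₀ v : G.O) : F) = algebraMap L₀ F v := rfl

/-- the residue map of the Gauss valuation ring -/
noncomputable def ρ₀ : G.V₀ L₀ →+* L₀k :=
  ((RingEquiv.ofBijective (algebraMap L₀k Fk).rangeRestrict
    ⟨(algebraMap L₀k Fk).rangeRestrict.injective,
      (algebraMap L₀k Fk).rangeRestrict_surjective⟩).symm : _ →+* L₀k).comp
    (RingHom.codRestrict (G.ρ.comp (G.incl L₀)) (algebraMap L₀k Fk).range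
      (fun v => G.exists_ρ_eq L₀ L₀k v ((G.mem_V₀ L₀ _).mp v.2)))

theorem algebraMap_ρ₀ (v : G.V₀ L₀) :
    algebraMap L₀k Fk (G.ρ₀ L₀ L₀k v) = G.ρ ⟨algebraMap L₀ F v, (G.mem_V₀ L₀ _).mp v.2⟩ := by
  set e := RingEquiv.ofBijective (algebraMap L₀k Fk).rangeRestrict
    ⟨(algebraMap L₀k Fk).rangeRestrict.injective,
      (algebraMap L₀k Fk).rangeRestrict_surjective⟩ with he
  set y : (algebraMap L₀k Fk).range := RingHom.codRestrict (G.ρ.comp (G.incl L₀))
    (algebraMap L₀k Fk).range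
      (fun v => G.exists_ρ_eq L₀ L₀k v ((G.mem_V₀ L₀ _).mp v.2)) v with hy
  have h1 : G.ρ₀ L₀ L₀k v = e.symm y := rfl
  have h2 : e (e.symm y) = y := e.apply_symm_apply y
  have h3 : ((e (e.symm y) : (algebraMap L₀k Fk).range) : Fk) = algebraMap L₀k Fk (e.symm y) := rfl
  rw [h1, ← h3, h2]
  rfl

/-- `H217`-shaped compatibility of `ρ` and `ρ₀`. -/
theorem ρ_algebraMap (v : G.V₀ L₀) :
    G.ρ ⟨algebraMap L₀ F v, ((G.valExtends L₀) v).mpr v.2⟩ = algebraMap L₀k Fk (G.ρ₀ L₀ L₀k v) :=
  (G.algebraMap_ρ₀ L₀ L₀k v).symm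

theorem ρ₀_eq_zero_iff (v : G.V₀ L₀) : G.ρ₀ L₀ L₀k v = 0 ↔ (v : L₀) ∈ (G.V₀ L₀).nonunits := by
  rw [← (G.valExtends L₀).mem_nonunits_iff, ← G.ρ_eq_zero_iff ⟨_, (G.mem_V₀ L₀ _).mp v.2⟩,
    ← G.algebraMap_ρ₀ L₀ L₀k v]
  exact (map_eq_zero_iff _ (algebraMap L₀k Fk).injective).symm

theorem poly_mem_V₀ (p : A[X]) : algebraMap K[X] L₀ (p.map A.subtype) ∈ G.V₀ L₀ := by
  rw [G.mem_V₀, ← IsScalarTower.algebraMap_apply]
  exact G.mem p

theorem ρ₀_poly (p : A[X]) :
    G.ρ₀ L₀ L₀k ⟨_, G.poly_mem_V₀ L₀ p⟩ = algebraMap k[X] L₀k (p.map G.π) := by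
  apply (algebraMap L₀k Fk).injective
  rw [G.algebraMap_ρ₀, ← IsScalarTower.algebraMap_apply k[X] L₀k Fk, ← G.ρ_poly p]
  congr 1
  apply Subtype.ext
  exact (IsScalarTower.algebraMap_apply K[X] L₀ F _).symm

include L₀k in
/-- **Gauss**: `V₀ ∩ K[x] = A[x]`. -/
theorem exists_map_eq_of_mem_V₀ (P : K[X]) (hP : algebraMap K[X] L₀ P ∈ G.V₀ L₀) :
    ∃ P₁ : A[X], P₁.map A.subtype = P := by
  refine G.exists_map_eq_of_mem (algebraMap_injective_k (k := k) (Fk := Fk) L₀k) P ?_
  rw [IsScalarTower.algebraMap_apply K[X] L₀ F]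
  exact (G.mem_V₀ L₀ _).mp hP

end Rational

end RedCtx

end Fermat.Agent.S37.H159

end
-- ===== PACK-END S37/H159/MGauss.lean

-- ===== PACK-BEGIN S37/H159/MInt.lean
section




/-!
# Theorem M, part 2: lifted residue bases, saturation, integrality of reductions
(row S37, piece R-b; seat helper159)

In a reduction context `G` with `[F : K(x)] = [F_k : k(x̄)] < ∞`:

* `exists_resid_basis` : there is a `K(x)`-basis of `F` inside `O` which is residually
  independent (lift of a `k(x̄)`-basis of `F_k`);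
* `isIntegralElem_of_mem` (saturation, QEP): an element of `O` integral over `K[x]` is integral
  over `A[x]`;
* `isIntegral_ρ` : its reduction is integral over `k[x̄]`.
-/

set_option autoImplicit false
set_option linter.unusedSectionVars false

namespace Fermat.Agent.S37.H159

open Polynomial

namespace RedCtx

variable {K : Type*} [Field K] {A : ValuationSubring K} {k : Type*} [Field k]
  {F : Type*} [Field F] [Algebra K[X] F] {Fk : Type*} [Field Fk] [Algebra k[X] Fk]
  (G : RedCtx A k F Fk)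

/-- `A[X] → O`, `P ↦ P(x)`. -/
noncomputable def polyO : A[X] →+* G.O :=
  RingHom.codRestrict ((algebraMap K[X] F).comp (mapRingHom A.subtype)) G.O G.mem

theorem polyO_coe (p : A[X]) : ((G.polyO p : G.O) : F) = algebraMap K[X] F (p.map A.subtype) :=
  rfl

theorem ρ_polyO (p : A[X]) : G.ρ (G.polyO p) = algebraMap k[X] Fk (p.map G.π) :=
  G.ρ_poly p

theorem ρ_comp_polyO : G.ρ.comp G.polyO = (algebraMap k[X] Fk).comp (mapRingHom G.π) :=
  RingHom.ext fun p => G.ρ_polyO p

/-- the structure map `A[X] → F` -/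
noncomputable def polyF : A[X] →+* F := (algebraMap K[X] F).comp (mapRingHom A.subtype)

theorem subtype_comp_polyO : G.O.subtype.comp G.polyO = polyF (A := A) (F := F) := rfl

/-- If `f ∈ O` is integral over `A[x]`, then `ρ f` is integral over `k[x̄]`. -/
theorem isIntegral_ρ_of_isIntegralElem (f : G.O)
    (hf : (polyF (A := A) (F := F)).IsIntegralElem (f : F)) : IsIntegral k[X] (G.ρ f) := by
  obtain ⟨μ, hμ, hμf⟩ := hf
  have h1 : Polynomial.eval₂ G.polyO f μ = 0 := by
    apply Subtype.coe_injective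
    have := Polynomial.hom_eval₂ μ G.polyO G.O.subtype f
    rw [subtype_comp_polyO] at this
    exact this.trans hμf
  have h2 := Polynomial.hom_eval₂ μ G.polyO G.ρ f
  rw [h1, map_zero, ρ_comp_polyO] at h2
  refine ⟨μ.map (mapRingHom G.π), hμ.map _, ?_⟩
  rw [Polynomial.eval₂_map]
  exact h2.symm

section Rational

variable (L₀ : Type*) [Field L₀] [Algebra K[X] L₀] [IsFractionRing K[X] L₀] [Algebra L₀ F]
  [IsScalarTower K[X] L₀ F]
variable (L₀k : Type*) [Field L₀k] [Algebra k[X] L₀k] [IsFractionRing k[X] L₀k] [Algebra L₀k Fk]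
  [IsScalarTower k[X] L₀k Fk]

/-- Reduction of a `V₀`-combination of elements of `O`. -/
theorem ρ_sum_smul {ι : Type*} [Fintype ι] (y : ι → F) (hy : ∀ i, y i ∈ G.O)
    (c : ι → L₀) (hc : ∀ i, c i ∈ G.V₀ L₀) (hs : (∑ i, c i • y i) ∈ G.O) :
    G.ρ ⟨∑ i, c i • y i, hs⟩ = ∑ i, G.ρ₀ L₀ L₀k ⟨c i, hc i⟩ • G.ρ ⟨y i, hy i⟩ := by
  have h1 : (⟨∑ i, c i • y i, hs⟩ : G.O) = ∑ i, G.incl L₀ ⟨c i, hc i⟩ * ⟨y i, hy i⟩ := by
    apply Subtype.ext
    show (∑ i, c i • y i) = G.O.subtype (∑ i, G.incl L₀ ⟨c i, hc i⟩ * ⟨y i, hy i⟩)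
    rw [map_sum]
    refine Finset.sum_congr rfl fun i _ => ?_
    rw [Algebra.smul_def]
    rfl
  rw [h1, map_sum]
  refine Finset.sum_congr rfl fun i _ => ?_
  rw [map_mul, Algebra.smul_def, G.algebraMap_ρ₀]
  rfl

/-- Lifts of a linearly independent family are residually independent. -/
theorem residIndep_of_linearIndependent {ι : Type*} [Fintype ι] (y : ι → F)
    (hy : ∀ i, y i ∈ G.O) (hli : LinearIndependent L₀k (fun i => G.ρ ⟨y i, hy i⟩)) :
    H217.ResidIndep (G.V₀ L₀) G.O y := by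
  intro c hc hs i
  have hsO : (∑ i, c i • y i) ∈ G.O := G.O.nonunits_subset hs
  have h1 := G.ρ_sum_smul L₀ L₀k y hy c hc hsO
  have h2 : G.ρ ⟨∑ i, c i • y i, hsO⟩ = 0 := (G.ρ_eq_zero_iff _).mpr hs
  rw [h2] at h1
  have h3 := Fintype.linearIndependent_iff.mp hli _ h1.symm i
  exact (G.ρ₀_eq_zero_iff L₀ L₀k _).mp h3

variable [FiniteDimensional L₀k Fk]

/-- Existence of a residually independent basis of `F / K(x)` in `O`. -/
theorem exists_resid_basis (hdeg : Module.finrank L₀ F = Module.finrank L₀k Fk) :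
    ∃ y : Module.Basis (Fin (Module.finrank L₀k Fk)) L₀ F,
      (∀ i, y i ∈ G.O) ∧ H217.ResidIndep (G.V₀ L₀) G.O y := by
  classical
  set n := Module.finrank L₀k Fk with hn
  have hpos : 0 < n := Module.finrank_pos
  have : Nonempty (Fin n) := ⟨⟨0, hpos⟩⟩
  let bk : Module.Basis (Fin n) L₀k Fk := Module.finBasis L₀k Fk
  choose u hu using fun i => G.ρ_surj (bk i)
  let y : Fin n → F := fun i => (u i : F)
  have hy : ∀ i, y i ∈ G.O := fun i => (u i).2
  have hli : LinearIndependent L₀k (fun i => G.ρ ⟨y i, hy i⟩) := by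
    have : (fun i => G.ρ ⟨y i, hy i⟩) = bk := funext fun i => hu i
    rw [this]
    exact bk.linearIndependent
  have hR := G.residIndep_of_linearIndependent L₀ L₀k y hy hli
  obtain ⟨b, hb⟩ := H217.exists_basis_of_residIndep hR (by rw [Fintype.card_fin, hdeg])
  refine ⟨b, fun i => ?_, ?_⟩
  · rw [hb]; exact hy i
  · rw [hb]; exact hR

variable [FiniteDimensional L₀ F] [Algebra.IsAlgebraic L₀ F]

/-- **Saturation (QEP)**: an element of `O` which is integral over `K[x]` is integral over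
`A[x]`. -/
theorem isIntegralElem_of_mem (hdeg : Module.finrank L₀ F = Module.finrank L₀k Fk)
    (f : F) (hfO : f ∈ G.O) (hf : IsIntegral K[X] f) :
    (polyF (A := A) (F := F)).IsIntegralElem f := by
  classical
  obtain ⟨y, hyO, hR⟩ := G.exists_resid_basis L₀ L₀k hdeg
  have hcoef : ∀ i, algebraMap K[X] L₀ ((minpoly K[X] f).coeff i) ∈ G.V₀ L₀ := fun i =>
    H217.minpoly_coeff_mem_of_isIntegral (G.valExtends L₀) y hR hyO (R := K[X]) ⟨f, hfO⟩ hf i
  have hl : minpoly K[X] f ∈ Polynomial.lifts (mapRingHom A.subtype) := by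
    rw [Polynomial.lifts_iff_coeff_lifts]
    intro i
    obtain ⟨P₁, hP₁⟩ := G.exists_map_eq_of_mem_V₀ L₀ L₀k _ (hcoef i)
    exact ⟨P₁, hP₁⟩
  obtain ⟨μ, hμ, -, hμm⟩ := Polynomial.lifts_and_degree_eq_and_monic hl (minpoly.monic hf)
  refine ⟨μ, hμm, ?_⟩
  have h1 : Polynomial.eval₂ (polyF (A := A) (F := F)) f μ =
      Polynomial.eval₂ (algebraMap K[X] F) f (μ.map (mapRingHom A.subtype)) := by
    rw [Polynomial.eval₂_map]
    rfl
  rw [h1, hμ]
  exact minpoly.aeval K[X] f

/-- The reduction of an element of `O` integral over `K[x]` is integral over `k[x̄]`. -/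
theorem isIntegral_ρ (hdeg : Module.finrank L₀ F = Module.finrank L₀k Fk)
    (f : G.O) (hf : IsIntegral K[X] (f : F)) : IsIntegral k[X] (G.ρ f) :=
  G.isIntegral_ρ_of_isIntegralElem f (G.isIntegralElem_of_mem L₀ L₀k hdeg f f.2 hf)

end Rational

end RedCtx

end Fermat.Agent.S37.H159

end
-- ===== PACK-END S37/H159/MInt.lean

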