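import Fermat.Prelude.Def_CuspForm_HeckeLocal
import Mathlib
import Fermat.Prelude.Def_AlgebraicCurve_DivisorClassGroup
import Fermat.Prelude.Def_AlgebraicCurve_Repartitions
import Fermat.Prelude.Def_ModularCurve_ReductionModL
import Fermat.Agent.Pack.S3234.G0E2L2
import Fermat.Agent.Pack.S3234.G4E0L1
import Fermat.Agent.Pack.S3234.G0E0L2
import Fermat.Agent.Pack.S3234.G4E0L3
import Fermat.Agent.Pack.S3234.G4E0L2
import Fermat.Agent.Pack.S3234.G0E3L1

-- ===== PACK-BEGIN S59/G4/Spec.lean
section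



/-!
# Row S59, layer G4: existence of the Hecke–Galois datum — interface (squad-lead helper7)

Goal (`G4Statement`): for a non-Eisenstein residual character `θ` of the anemic Hecke algebra
(`S ⊇ {p} ∪ primes(N)`), the Prelude ring `T = CuspForm.heckeLocal N S 𝒪 θ` carries a
`CuspForm.HeckeGaloisRepDatum`.  The algebraic fields are on main
(`Fermat.Agent.S59.H7.datumOfRep`); what is left is the representation `ρ_T`.

Pieces (each is a `Prop` below; prove `theorem foo : FooStatement`):

* `RedStatement`     (RED)    `T` is reduced.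
* `PointsStatement`  (POINTS) a reduced finite free local `𝒪`-algebra has a finite strict family
                              of `p`-adic points.
* `TraceFnStatement` (TRFN)   the traces of the S30-representations at the points glue to a
                              function `GQ → T` (Frobenius division + strictness + completeness).
* `DescentStatement` (DESC)   Wiles/Carayol descent: representations at a strict family of points
                              with traces in `T` and absolutely irreducible reduction come from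
                              a representation over `T`.
* `ResStatement`     (RES)    the reductions at the points are absolutely irreducible.
* `OddStatement`     (ODD)    the representations at the points are odd.

Plan, owners, status: `coord/S59-G4.md` on `origin/helper7`.
Only sorry-free definitions in this file; it is FROZEN once on main.
-/

set_option autoImplicit false

open Polynomial IsLocalRing

namespace Fermat.Agent.S59.G4

open Fermat.Agent.S31

/-- A `p`-adic point of `T` together with a Galois representation over its coefficient ring. -/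
structure RepPoint (p : ℕ) (T : Type) [CommRing T] : Type 1 where
  /-- the point -/
  pt : PadicPoint p T
  /-- the representation -/
  ρ : GaloisRepAdic pt.O

/-- The family of points is **strict**: the topology induced on `T` by the points is the
`𝔪_T`-adic one.  (For a Noetherian local `T` this implies joint injectivity.) -/
def IsStrict {p : ℕ} {T : Type} [CommRing T] [IsLocalRing T] (F : List (PadicPoint p T)) : Prop :=
  ∀ n : ℕ, ∃ n' : ℕ, ∀ t : T,
    (∀ P ∈ F, P.χ t ∈ maximalIdeal P.O ^ n') → t ∈ maximalIdeal T ^ n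

/-- Frobenius condition: `ρ` over `A` has the Hecke characteristic polynomials given by
`φ : 𝕋 → A` at all primes `ℓ ∉ S`, `ℓ ∤ N`. -/
def FrobCond {N : ℕ} [NeZero N] {S : Set ℕ} {A : Type} [CommRing A] [IsLocalRing A]
    (ρ : GaloisRepAdic A) (φ : CuspForm.heckeAlgebra N 2 S →+* A) : Prop :=
  ∀ (ℓ : ℕ) (hℓ : ℓ.Prime) (hℓN : ¬ ℓ ∣ N) (hℓS : ℓ ∉ S),
    ∀ B : ValuationSubring Qb, B.LiesOverPrime ℓ →
      ∀ σ : GQ, B.IsFrobeniusAt σ ℓ →
        LinearMap.charpoly (ρ.ρ σ) =
          X ^ 2 - C (φ (CuspForm.heckeAlgebra.T hℓ hℓN hℓS)) * X + C ((ℓ : A))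

/-- The same for a residual representation. -/
def ResFrobCond {N : ℕ} [NeZero N] {S : Set ℕ} {k : Type} [Field k]
    (ρ : ResidualGaloisRep k) (φ : CuspForm.heckeAlgebra N 2 S →+* k) : Prop :=
  ∀ (ℓ : ℕ) (hℓ : ℓ.Prime) (hℓN : ¬ ℓ ∣ N) (hℓS : ℓ ∉ S),
    ∀ B : ValuationSubring Qb, B.LiesOverPrime ℓ →
      ∀ σ : GQ, B.IsFrobeniusAt σ ℓ →
        LinearMap.charpoly (ρ.ρ σ) =
          X ^ 2 - C (φ (CuspForm.heckeAlgebra.T hℓ hℓN hℓS)) * X + C ((ℓ : k))

/-- `θ` is **non-Eisenstein**: it is the Frobenius character of an absolutely irreducible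
residual representation. -/
def NonEisenstein {N : ℕ} [NeZero N] {S : Set ℕ} {k : Type} [Field k]
    (θ : CuspForm.heckeAlgebra N 2 S →+* k) : Prop :=
  ∃ ρbar : ResidualGaloisRep k, ρbar.IsAbsolutelyIrreducible ∧ ResFrobCond ρbar θ

/-! ## The pieces -/

/-- **RED.** The local Hecke algebra is reduced (from the reducedness of the anemic Hecke
algebra, `Fermat.Agent.S31.H838.ssStatement`, by base change and localisation). -/
def RedStatement : Prop :=
  ∀ (N : ℕ) [NeZero N] (S : Set ℕ), (∀ q : ℕ, q.Prime → q ∣ N → q ∈ S) →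
    ∀ (𝒪 : Type) [CommRing 𝒪] [IsDomain 𝒪] [IsDiscreteValuationRing 𝒪]
      [IsAdicComplete (maximalIdeal 𝒪) 𝒪] [CharZero 𝒪]
      (θ : CuspForm.heckeAlgebra N 2 S →+* ResidueField 𝒪),
      IsReduced (CuspForm.heckeLocal N S 𝒪 θ)

/-- **POINTS.** A reduced local ring which is a finite free algebra over a complete DVR `𝒪`
(characteristic zero, finite residue field of characteristic `p`) has a finite strict family of
`p`-adic points, all of them local homomorphisms. -/
def PointsStatement : Prop :=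
  ∀ (p : ℕ) [Fact p.Prime] (𝒪 : Type) [CommRing 𝒪] [IsDomain 𝒪] [IsDiscreteValuationRing 𝒪]
    [IsAdicComplete (maximalIdeal 𝒪) 𝒪] [Finite (ResidueField 𝒪)] [CharZero 𝒪]
    (_hp𝒪 : (p : 𝒪) ∈ maximalIdeal 𝒪)
    (T : Type) [CommRing T] [IsLocalRing T] [Algebra 𝒪 T] [Module.Finite 𝒪 T] [Module.Free 𝒪 T]
    [IsReduced T],
    ∃ F : List (PadicPoint p T), IsStrict F ∧ ∀ P ∈ F, IsLocalHom P.χ

section Local

variable {p : ℕ} {T : Type} [CommRing T] [IsLocalRing T]

/-- The traces of the representations at the points glue to a function with values in `T`. -/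
def HasTraceFn (F : List (RepPoint p T)) : Prop :=
  ∃ τ : GQ → T, ∀ P ∈ F, ∀ σ : GQ, P.pt.χ (τ σ) = LinearMap.trace P.pt.O P.ρ.V (P.ρ.ρ σ)

/-- `ρ` over `T` specialises to the given representations at all points of the family (on the
level of characteristic polynomials). -/
def Specialises (ρ : GaloisRepAdic T) (F : List (RepPoint p T)) : Prop :=
  ∀ P ∈ F, ∀ σ : GQ,
    (LinearMap.charpoly (ρ.ρ σ)).map P.pt.χ = LinearMap.charpoly (P.ρ.ρ σ)

end Local

/-- **TRFN.** For a strict family of points of a complete Noetherian local ring `T` with Hecke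
structure `π : 𝕋 → T`, representations at the points satisfying the Frobenius condition have a
`T`-valued trace function. -/
def TraceFnStatement : Prop :=
  ∀ (p : ℕ) [Fact p.Prime] (N : ℕ) [NeZero N] (S : Finset ℕ)
    (T : Type) [CommRing T] [IsLocalRing T] [IsNoetherianRing T]
    [IsAdicComplete (maximalIdeal T) T]
    (π : CuspForm.heckeAlgebra N 2 (↑S : Set ℕ) →+* T)
    (F : List (RepPoint p T)), IsStrict (F.map RepPoint.pt) →
    (∀ P ∈ F, IsLocalHom P.pt.χ) →
    (∀ P ∈ F, FrobCond P.ρ (P.pt.χ.comp π)) → HasTraceFn F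

/-- **DESC.** (`p` odd.)  Given a nonempty strict family of points of the complete Noetherian
local ring `T`, representations at the points with determinant `-1` on every involution `≠ 1`
(oddness), with a `T`-valued trace function and absolutely irreducible reductions, there is a
representation over `T` specialising to all of them, with absolutely irreducible reduction. -/
def DescentStatement : Prop :=
  ∀ (p : ℕ) [Fact p.Prime] (_hp2 : p ≠ 2)
    (T : Type) [CommRing T] [IsLocalRing T] [IsNoetherianRing T]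
    [IsAdicComplete (maximalIdeal T) T]
    (F : List (RepPoint p T)), F ≠ [] → IsStrict (F.map RepPoint.pt) →
    (∀ P ∈ F, IsLocalHom P.pt.χ) →
    (∀ P ∈ F, ∀ c : GQ, c * c = 1 → c ≠ 1 → LinearMap.det (P.ρ.ρ c) = -1) →
    (∀ P ∈ F, P.ρ.residual.IsAbsolutelyIrreducible) →
    HasTraceFn F →
    ∃ ρ : GaloisRepAdic T, Specialises ρ F ∧ ρ.residual.IsAbsolutelyIrreducible

/-- **RES.** A representation over a complete DVR whose Frobenius characteristic polynomials
reduce to those of a non-Eisenstein `θ` has absolutely irreducible reduction.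
(Frobenius division + Brauer–Nesbitt for 2-dimensional representations with an absolutely
irreducible member.) -/
def ResStatement : Prop :=
  ∀ (p : ℕ) [Fact p.Prime] (_hp2 : p ≠ 2) (N : ℕ) [NeZero N] (S : Finset ℕ) (_hpS : p ∈ S)
    (O : Type) [CommRing O] [IsDomain O] [IsDiscreteValuationRing O]
    [IsAdicComplete (maximalIdeal O) O] [Finite (ResidueField O)] [CharZero O]
    (_hpO : (p : O) ∈ maximalIdeal O)
    (χ : CuspForm.heckeAlgebra N 2 (↑S : Set ℕ) →+* O)
    (_hθ : NonEisenstein ((residue O).comp χ))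
    (ρ : GaloisRepAdic O), FrobCond ρ χ → ρ.residual.IsAbsolutelyIrreducible

/-- **ODD.** A representation over a complete DVR with `det ρ(Frob_ℓ) = ℓ` for all primes
`ℓ ∉ S` (`p ∈ S`) has determinant `-1` on every involution `c ≠ 1` of `Gal(ℚ̄/ℚ)`.
(`det = ` cyclotomic by Frobenius division; an involution `≠ 1` inverts the roots of unity of
odd order: its fixed field `F` has `[ℚ̄ : F] = 2`, `-1` is not a square in `F` and sums of squares
of `F` are squares.) -/
def OddStatement : Prop :=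
  ∀ (p : ℕ) [Fact p.Prime] (_hp2 : p ≠ 2) (N : ℕ) [NeZero N] (S : Finset ℕ) (_hpS : p ∈ S)
    (O : Type) [CommRing O] [IsDomain O] [IsDiscreteValuationRing O]
    [IsAdicComplete (maximalIdeal O) O] [Finite (ResidueField O)] [CharZero O]
    (_hpO : (p : O) ∈ maximalIdeal O)
    (χ : CuspForm.heckeAlgebra N 2 (↑S : Set ℕ) →+* O)
    (ρ : GaloisRepAdic O), FrobCond ρ χ →
    ∀ c : GQ, c * c = 1 → c ≠ 1 → LinearMap.det (ρ.ρ c) = -1

/-! ## The goal -/

/-- **G4.** Existence of the Hecke–Galois datum on the Prelude ring `heckeLocal`. -/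
def G4Statement : Prop :=
  ∀ (p : ℕ) [Fact p.Prime] (_hp2 : p ≠ 2) (N : ℕ) [NeZero N] (S : Finset ℕ) (_hpS : p ∈ S)
    (_hNS : ∀ q : ℕ, q.Prime → q ∣ N → q ∈ S)
    (𝒪 : Type) [CommRing 𝒪] [IsDomain 𝒪] [IsDiscreteValuationRing 𝒪]
    [IsAdicComplete (maximalIdeal 𝒪) 𝒪] [Finite (ResidueField 𝒪)] [CharZero 𝒪]
    (_hp𝒪 : (p : 𝒪) ∈ maximalIdeal 𝒪)
    (θ : CuspForm.heckeAlgebra N 2 (↑S : Set ℕ) →+* ResidueField 𝒪) (_hθ : NonEisenstein θ)
    [Fact (CuspForm.HasIntegralStructure N 2)],
    ∃ H : CuspForm.HeckeGaloisRepDatum N (↑S : Set ℕ) 𝒪 θ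
        (CuspForm.heckeLocal N (↑S : Set ℕ) 𝒪 θ),
      H.π = CuspForm.heckeLocal.π N (↑S : Set ℕ) 𝒪 θ

end Fermat.Agent.S59.G4

end
-- ===== PACK-END S59/G4/Spec.lean

-- ===== PACK-BEGIN S32/Spec.lean
section
/-
Row S32 (flat at `p`), TOP GLUE — interface (helper32).

Goal: the frozen statement S32 (`H.ρ.IsFlatAt p` for a Hecke–Galois datum of level `N`, `p ∤ N`,
`p` odd) from

* the frozen S19 in the form `HopfModel p (Tors N p k)` (cell A3, the wall),
* the six inputs of the S30 skeleton (tower),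
* `S59.G4.PointsStatement` (strict finite families of `p`-adic points of `T`).

Pieces (each a `Prop` below; `Top.lean` proves S32 from them):

* `FlatEigenStatement` (EIG): every eigencharacter has an adic eigenmodule all of whose finite
  quotients carry Hopf models.
* `RelStatement` (REL): on the eigenmodule at a point `P` of `T`, EVERY `g ∈ G_ℚ` satisfies the
  characteristic polynomial of `H.ρ g`, specialised at `P`.
* `EmbedStatement` (EMB): Boston–Lenstra–Ribet + lattices + Artin–Rees: a strict semilinear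
  equivariant embedding of `H.ρ.V` in the eigenmodule.
* `RedStatement` (RED): the coefficient ring `T` of a datum is reduced.
-/




set_option autoImplicit false

noncomputable section

namespace Fermat.Agent.S32

open IsLocalRing Fermat.Agent.S19 Fermat.Agent.S31

/-- The action induced on `M / I M`. -/
def modAct {A M : Type} [CommRing A] [AddCommGroup M] [Module A M]
    (ρ : GalQ →* Module.End A M) (I : Ideal A) (σ : GalQ) :
    (M ⧸ (I • (⊤ : Submodule A M))) →ₗ[A] (M ⧸ (I • (⊤ : Submodule A M))) :=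
  Submodule.mapQ _ _ (ρ σ) (by
    rw [← Submodule.map_le_iff_le_comap, Submodule.map_smul'']
    exact Submodule.smul_mono le_rfl le_top)

@[simp] theorem modAct_mk {A M : Type} [CommRing A] [AddCommGroup M] [Module A M]
    (ρ : GalQ →* Module.End A M) (I : Ideal A) (σ : GalQ) (v : M) :
    modAct ρ I σ (Submodule.Quotient.mk v) = Submodule.Quotient.mk (ρ σ v) := rfl

/-- A module with Galois action all of whose finite quotients `M / I M` carry Hopf models over
`ℤ_(p)` (the rank-free form of `GaloisRepAdic.IsFlatAt`). -/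
def IsFlatMod (p : ℕ) {A M : Type} [CommRing A] [AddCommGroup M] [Module A M]
    (ρ : GalQ →* Module.End A M) : Prop :=
  ∀ I : Ideal A, Finite (A ⧸ I) →
    HopfModel p (M ⧸ (I • (⊤ : Submodule A M))) (fun σ x => modAct ρ I σ x)

/-- **EIG.**  For `p ∤ N`, every eigencharacter with values in a complete DVR has an adic
eigenmodule which is flat. -/
def FlatEigenStatement : Prop :=
  ∀ (p : ℕ) [Fact p.Prime] (N : ℕ) [NeZero N] (S : Finset ℕ)
    (_hpS : p ∈ S) (_hNS : ∀ q : ℕ, q.Prime → q ∣ N → q ∈ S) (_hpN : ¬ p ∣ N)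
    (𝒪' : Type) [CommRing 𝒪'] [IsDomain 𝒪'] [IsDiscreteValuationRing 𝒪']
    [IsAdicComplete (maximalIdeal 𝒪') 𝒪'] [Finite (ResidueField 𝒪')]
    [CharZero 𝒪'] (_hp𝒪' : (p : 𝒪') ∈ maximalIdeal 𝒪')
    (χ : CuspForm.heckeAlgebra N 2 (↑S : Set ℕ) →+* 𝒪'),
    ∃ E : Fermat.Agent.S30.H990.AdicEigenModule p N S 𝒪' χ, IsFlatMod p E.ρ

/-- **REL.**  At a local point `P` of the coefficient ring of a datum, every element of `G_ℚ`
satisfies on the eigenmodule of `P.χ ∘ π` the characteristic polynomial of `H.ρ`. -/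
def RelStatement : Prop :=
  ∀ (p : ℕ) [Fact p.Prime] (N : ℕ) [NeZero N] (S : Finset ℕ)
    (_hpS : p ∈ S) (_hNS : ∀ q : ℕ, q.Prime → q ∣ N → q ∈ S)
    (𝒪 : Type) [CommRing 𝒪] [IsDomain 𝒪] [IsDiscreteValuationRing 𝒪]
    [IsAdicComplete (maximalIdeal 𝒪) 𝒪]
    (θ : CuspForm.heckeAlgebra N 2 (↑S : Set ℕ) →+* ResidueField 𝒪)
    (T : Type) [CommRing T] [IsLocalRing T] [IsNoetherianRing T]
    [IsAdicComplete (maximalIdeal T) T] [Algebra 𝒪 T] [IsLocalHom (algebraMap 𝒪 T)]
    [Module.Finite 𝒪 T] [Module.Free 𝒪 T]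
    (H : CuspForm.HeckeGaloisRepDatum N (↑S : Set ℕ) 𝒪 θ T)
    (P : PadicPoint p T) (_hloc : IsLocalHom P.χ)
    (E : Fermat.Agent.S30.H990.AdicEigenModule p N S P.O (P.χ.comp H.π)) (g : GalQ),
    E.ρ g * E.ρ g - P.χ (H.ρ.trace g) • E.ρ g
      + P.χ ((H.ρ.det g : Tˣ) : T) • (1 : Module.End P.O E.M) = 0

/-- **EMB.**  Let `ρ` be a two-dimensional representation over a local ring `T` whose image spans
`End_T V`, `ψ : T → 𝒪'` a point with values in a DVR with `2 ≠ 0`, and `M ≠ 0` a finite free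
`𝒪'`-module with Galois action on which every `g` satisfies the characteristic polynomial of
`ρ g` specialised along `ψ`.  Then there is a `ψ`-semilinear equivariant map `φ : V → M` which
is strict: `φ v ∈ 𝔪 ^ (m + k) M` implies `v ∈ ψ⁻¹(𝔪 ^ m) V`. -/
def EmbedStatement : Prop :=
  ∀ (T : Type) [CommRing T] [IsLocalRing T] (ρ : GaloisRepAdic T),
    Submodule.span T (Set.range ρ.ρ) = ⊤ →
    ∀ (𝒪' : Type) [CommRing 𝒪'] [IsDomain 𝒪'] [IsDiscreteValuationRing 𝒪'],
      (2 : 𝒪') ≠ 0 → ∀ (ψ : T →+* 𝒪')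
      (M : Type) [AddCommGroup M] [Module 𝒪' M] [Module.Free 𝒪' M] [Module.Finite 𝒪' M]
      [Nontrivial M] (ρM : GalQ →* Module.End 𝒪' M),
      (∀ g : GalQ, ρM g * ρM g - ψ (ρ.trace g) • ρM g
        + ψ ((ρ.det g : Tˣ) : T) • (1 : Module.End 𝒪' M) = 0) →
      ∃ φ : ρ.V →+ M, (∀ (t : T) (v : ρ.V), φ (t • v) = ψ t • φ v) ∧
        (∀ (g : GalQ) (v : ρ.V), φ (ρ.ρ g v) = ρM g (φ v)) ∧
        ∃ k : ℕ, ∀ (m : ℕ) (v : ρ.V),
          φ v ∈ (maximalIdeal 𝒪' ^ (m + k)) • (⊤ : Submodule 𝒪' M) →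
            v ∈ (Ideal.comap ψ (maximalIdeal 𝒪' ^ m)) • (⊤ : Submodule T ρ.V)

/-- **RED.**  The coefficient ring of a Hecke–Galois datum is reduced. -/
def RedStatement : Prop :=
  ∀ (N : ℕ) [NeZero N] (S : Finset ℕ) (_hNS : ∀ q : ℕ, q.Prime → q ∣ N → q ∈ S)
    (𝒪 : Type) [CommRing 𝒪] [IsDomain 𝒪] [IsDiscreteValuationRing 𝒪]
    [IsAdicComplete (maximalIdeal 𝒪) 𝒪] [CharZero 𝒪]
    (θ : CuspForm.heckeAlgebra N 2 (↑S : Set ℕ) →+* ResidueField 𝒪)
    (T : Type) [CommRing T] [IsLocalRing T] [IsNoetherianRing T]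
    [IsAdicComplete (maximalIdeal T) T] [Algebra 𝒪 T] [IsLocalHom (algebraMap 𝒪 T)]
    [Module.Finite 𝒪 T] [Module.Free 𝒪 T]
    (_H : CuspForm.HeckeGaloisRepDatum N (↑S : Set ℕ) 𝒪 θ T), IsReduced T

/-- The frozen statement S32, as a `Prop`. -/
def S32Statement : Prop :=
  ∀ {p : ℕ} {N : ℕ} [NeZero N] {S : Finset ℕ}
    {𝒪 : Type} [CommRing 𝒪] [IsDomain 𝒪] [IsDiscreteValuationRing 𝒪]
    [IsAdicComplete (maximalIdeal 𝒪) 𝒪]
    {θ : CuspForm.heckeAlgebra N 2 (↑S : Set ℕ) →+* ResidueField 𝒪}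
    {T : Type} [CommRing T] [IsLocalRing T] [IsNoetherianRing T]
    [IsAdicComplete (maximalIdeal T) T] [Algebra 𝒪 T] [IsLocalHom (algebraMap 𝒪 T)]
    [Module.Finite 𝒪 T] [Module.Free 𝒪 T]
    [Finite (ResidueField 𝒪)] [CharZero 𝒪],
    p.Prime → p ≠ 2 → (p : 𝒪) ∈ maximalIdeal 𝒪 → ¬ p ∣ N → p ∈ S →
    (∀ q : ℕ, q.Prime → q ∣ N → q ∈ S) →
    ∀ H : CuspForm.HeckeGaloisRepDatum N (↑S : Set ℕ) 𝒪 θ T, H.ρ.IsFlatAt p

end Fermat.Agent.S32

end
end
-- ===== PACK-END S32/Spec.lean

-- ===== PACK-BEGIN S19/H135/Zl.lean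
section
/-
Cell A3 / WP-C (helper135): arithmetic of `ℤ_(ℓ) = GaloisRep.ratLocalizedAt ℓ` inside `ℚ̄`:
fraction field, Galois-fixed integral elements.
-/



set_option autoImplicit false

namespace Fermat.Agent.S19.H135

variable (ℓ : ℕ)

theorem intCast_mem_ratLocalizedAt (n : ℤ) : (n : ℚ) ∈ GaloisRep.ratLocalizedAt ℓ := by
  show ((n : ℚ)).den.Coprime ℓ
  simp

theorem isFractionRing_ratLocalizedAt : IsFractionRing (GaloisRep.ratLocalizedAt ℓ) ℚ := by
  refine IsFractionRing.of_field _ _ (fun z => ?_)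
  refine ⟨⟨(z.num : ℚ), intCast_mem_ratLocalizedAt ℓ z.num⟩,
    ⟨((z.den : ℤ) : ℚ), intCast_mem_ratLocalizedAt ℓ z.den⟩, ?_⟩
  show z = (z.num : ℚ) / (((z.den : ℤ) : ℚ))
  rw [Int.cast_natCast]
  exact (Rat.num_div_den z).symm

theorem algebraMap_ratLocalizedAt_apply (r : GaloisRep.ratLocalizedAt ℓ) :
    algebraMap (GaloisRep.ratLocalizedAt ℓ) (AlgebraicClosure ℚ) r =
      algebraMap ℚ (AlgebraicClosure ℚ) (r : ℚ) := rfl

theorem algebraMap_ratLocalizedAt_injective :
    Function.Injective (algebraMap (GaloisRep.ratLocalizedAt ℓ) (AlgebraicClosure ℚ)) := by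
  intro r s h
  rw [algebraMap_ratLocalizedAt_apply, algebraMap_ratLocalizedAt_apply] at h
  exact Subtype.ext ((algebraMap ℚ (AlgebraicClosure ℚ)).injective h)

/-- `ℚ̄ / ℚ` is Galois. -/
theorem isGalois_Qb_h135 : IsGalois ℚ (AlgebraicClosure ℚ) := by
  have h1 : Algebra.IsAlgebraic ℚ (AlgebraicClosure ℚ) := AlgebraicClosure.isAlgebraic ℚ
  have h2 : IsAlgClosure ℚ (AlgebraicClosure ℚ) := ⟨inferInstance, inferInstance⟩
  have h3 : Normal ℚ (AlgebraicClosure ℚ) := IsAlgClosure.normal ℚ (AlgebraicClosure ℚ)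
  exact isGalois_iff.mpr ⟨inferInstance, inferInstance⟩

/-- Galois-fixed elements of `ℚ̄` are rational. -/
theorem exists_rat_of_fixed {z : AlgebraicClosure ℚ}
    (hfix : ∀ σ : AlgebraicClosure ℚ ≃ₐ[ℚ] AlgebraicClosure ℚ, σ z = z) :
    ∃ x : ℚ, algebraMap ℚ (AlgebraicClosure ℚ) x = z := by
  have := isGalois_Qb_h135
  exact (InfiniteGalois.mem_range_algebraMap_iff_fixed (k := ℚ)
    (K := AlgebraicClosure ℚ) z).mpr hfix

variable [Fact ℓ.Prime]

/-- A rational number which is integral over `ℤ_(ℓ)` lies in `ℤ_(ℓ)`. -/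
theorem mem_ratLocalizedAt_of_isIntegral {x : ℚ} (hx : IsIntegral (GaloisRep.ratLocalizedAt ℓ) x) :
    ∃ r : GaloisRep.ratLocalizedAt ℓ, (r : ℚ) = x := by
  have := isFractionRing_ratLocalizedAt ℓ
  exact IsIntegrallyClosed.isIntegral_iff.mp hx

/-- An element of `ℚ̄` which is integral over `ℤ_(ℓ)` and fixed by the absolute Galois group
lies in `ℤ_(ℓ)`. -/
theorem exists_ratLocalizedAt_of_fixed_of_isIntegral {z : AlgebraicClosure ℚ}
    (hfix : ∀ σ : AlgebraicClosure ℚ ≃ₐ[ℚ] AlgebraicClosure ℚ, σ z = z)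
    (hint : IsIntegral (GaloisRep.ratLocalizedAt ℓ) z) :
    ∃ r : GaloisRep.ratLocalizedAt ℓ, algebraMap _ (AlgebraicClosure ℚ) r = z := by
  obtain ⟨x, rfl⟩ := exists_rat_of_fixed hfix
  have hx : IsIntegral (GaloisRep.ratLocalizedAt ℓ) x :=
    (isIntegral_algebraMap_iff (algebraMap ℚ (AlgebraicClosure ℚ)).injective).mp hint
  obtain ⟨r, rfl⟩ := mem_ratLocalizedAt_of_isIntegral ℓ hx
  exact ⟨r, rfl⟩

end Fermat.Agent.S19.H135

end
-- ===== PACK-END S19/H135/Zl.lean

-- ===== PACK-BEGIN S19/H135/Indep.lean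
section
/-
Cell A3 / WP-C (helper135): independence and descent for lattices of Galois-equivariant functions.
* `linearIndependent_Qb_of_equivariant`: `ℚ`-independent equivariant functions are `ℚ̄`-independent;
* `exists_basis_of_fg_equivariant`: a f.g. `ℤ_(ℓ)`-module of equivariant functions has a finite
  basis which is `ℚ̄`-linearly independent;
* `mem_of_integral_combination`: an equivariant combination of the basis with integral
  coefficients has coefficients in `ℤ_(ℓ)`.
-/


set_option autoImplicit false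

namespace Fermat.Agent.S19.H135

section Indep

variable {M : Type*} {ι : Type*}

/-- Artin-type lemma: a `ℚ`-linearly independent family of functions `M → ℚ̄` which are
equivariant for a family of surjections `act σ : M → M` is `ℚ̄`-linearly independent. -/
theorem linearIndependent_Qb_of_equivariant
    (act : (AlgebraicClosure ℚ ≃ₐ[ℚ] AlgebraicClosure ℚ) → M → M)
    (hact : ∀ σ, Function.Surjective (act σ))
    (f : ι → M → AlgebraicClosure ℚ) (hf : ∀ i σ m, f i (act σ m) = σ (f i m))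
    (hli : LinearIndependent ℚ f) : LinearIndependent (AlgebraicClosure ℚ) f := by
  classical
  rw [linearIndependent_iff']
  intro s
  induction s using Finset.strongInduction with
  | H s ih =>
    intro g hg i hi
    by_contra hne
    set c : ι → AlgebraicClosure ℚ := fun k => (g i)⁻¹ * g k with hc
    have hci : c i = 1 := inv_mul_cancel₀ hne
    have hsum : ∑ k ∈ s, c k • f k = 0 := by
      have : ∑ k ∈ s, c k • f k = (g i)⁻¹ • ∑ k ∈ s, g k • f k := by
        rw [Finset.smul_sum]
        refine Finset.sum_congr rfl (fun k _ => ?_)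
        rw [smul_smul]
      rw [this, hg, smul_zero]
    have hfix : ∀ σ : AlgebraicClosure ℚ ≃ₐ[ℚ] AlgebraicClosure ℚ, ∀ k ∈ s, σ (c k) = c k := by
      intro σ
      have h1 : ∑ k ∈ s, σ (c k) • f k = 0 := by
        funext m
        obtain ⟨m', rfl⟩ := hact σ m
        have h := congrArg σ (congrFun hsum m')
        simp only [Finset.sum_apply, Pi.smul_apply, smul_eq_mul, map_sum, map_mul, map_zero,
          Pi.zero_apply] at h ⊢
        rw [← h]
        refine Finset.sum_congr rfl (fun k _ => ?_)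
        rw [hf]
      have h3 : ∑ k ∈ s, (σ (c k) - c k) • f k = 0 := by
        simp only [sub_smul, Finset.sum_sub_distrib, h1, hsum, sub_zero]
      have h2 : ∑ k ∈ s.erase i, (σ (c k) - c k) • f k = 0 := by
        rw [← Finset.add_sum_erase s _ hi] at h3
        simpa [hci] using h3
      intro k hk
      by_cases hki : k = i
      · subst hki
        rw [hci, map_one]
      · have := ih (s.erase i) (Finset.erase_ssubset hi) (fun k => σ (c k) - c k) h2 k
          (Finset.mem_erase.mpr ⟨hki, hk⟩)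
        exact sub_eq_zero.mp this
    have hrat : ∀ k ∈ s, ∃ q : ℚ, algebraMap ℚ (AlgebraicClosure ℚ) q = c k :=
      fun k hk => exists_rat_of_fixed (fun σ => hfix σ k hk)
    choose! q hq using hrat
    have hsumq : ∑ k ∈ s, q k • f k = 0 := by
      rw [← hsum]
      refine Finset.sum_congr rfl (fun k hk => ?_)
      rw [← hq k hk, algebraMap_smul]
    have hqi := linearIndependent_iff'.mp hli s q hsumq i hi
    have h1 : c i = 0 := by rw [← hq i hi, hqi, map_zero]
    rw [hci] at h1
    exact one_ne_zero h1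

end Indep

section Lattice

variable {ℓ : ℕ} [Fact ℓ.Prime] {M : Type}

omit [Fact ℓ.Prime] in
theorem isTorsionFree_fun_h135
    (N : Submodule (GaloisRep.ratLocalizedAt ℓ) (M → AlgebraicClosure ℚ)) :
    Module.IsTorsionFree (GaloisRep.ratLocalizedAt ℓ) N := by
  refine Module.IsTorsionFree.of_smul_eq_zero ?_
  intro r f hrf
  by_cases hr : r = 0
  · exact Or.inl hr
  · right
    apply Subtype.ext
    funext m
    have h1 : (r • (f : M → AlgebraicClosure ℚ)) m = 0 := by
      have := congrArg (fun x : N => (x : M → AlgebraicClosure ℚ) m) hrf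
      simpa using this
    rw [Pi.smul_apply, Algebra.smul_def, mul_eq_zero] at h1
    rcases h1 with h1 | h1
    · exfalso
      apply hr
      exact algebraMap_ratLocalizedAt_injective ℓ (by rw [h1, map_zero])
    · exact h1

/-- A finitely generated `ℤ_(ℓ)`-module of equivariant functions has a finite basis that is
linearly independent over `ℚ̄`. -/
theorem exists_basis_of_fg_equivariant
    (act : (AlgebraicClosure ℚ ≃ₐ[ℚ] AlgebraicClosure ℚ) → M → M)
    (hact : ∀ σ, Function.Surjective (act σ))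
    (N : Submodule (GaloisRep.ratLocalizedAt ℓ) (M → AlgebraicClosure ℚ)) (hfg : N.FG)
    (heq : ∀ f ∈ N, ∀ σ m, f (act σ m) = σ (f m)) :
    ∃ (n : ℕ) (b : Fin n → M → AlgebraicClosure ℚ), (∀ i, b i ∈ N) ∧
      LinearIndependent (AlgebraicClosure ℚ) b ∧
      Submodule.span (GaloisRep.ratLocalizedAt ℓ) (Set.range b) = N := by
  have hfin : Module.Finite (GaloisRep.ratLocalizedAt ℓ) N := Module.Finite.iff_fg.mpr hfg
  have htf : Module.IsTorsionFree (GaloisRep.ratLocalizedAt ℓ) N := isTorsionFree_fun_h135 N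
  have hfree : Module.Free (GaloisRep.ratLocalizedAt ℓ) N := inferInstance
  let B := Module.finBasis (GaloisRep.ratLocalizedAt ℓ) N
  refine ⟨_, fun i => (B i : M → AlgebraicClosure ℚ), fun i => (B i).2, ?_, ?_⟩
  · have h1 : LinearIndependent (GaloisRep.ratLocalizedAt ℓ)
        (fun i => (B i : M → AlgebraicClosure ℚ)) :=
      B.linearIndependent.map' N.subtype (Submodule.ker_subtype N)
    have hfr := isFractionRing_ratLocalizedAt ℓ
    have h2 : LinearIndependent ℚ (fun i => (B i : M → AlgebraicClosure ℚ)) :=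
      (LinearIndependent.iff_fractionRing (GaloisRep.ratLocalizedAt ℓ) ℚ).mp h1
    exact linearIndependent_Qb_of_equivariant act hact _ (fun i σ m => heq _ (B i).2 σ m) h2
  · have h1 : Set.range (fun i => (B i : M → AlgebraicClosure ℚ)) = N.subtype '' Set.range B := by
      rw [← Set.range_comp]
      rfl
    rw [h1, ← Submodule.map_span, B.span_eq, Submodule.map_subtype_top]

/-- Descent of coefficients: an equivariant combination of a `ℚ̄`-independent family of
equivariant functions with coefficients integral over `ℤ_(ℓ)` has coefficients in `ℤ_(ℓ)`. -/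
theorem mem_of_integral_combination
    (act : (AlgebraicClosure ℚ ≃ₐ[ℚ] AlgebraicClosure ℚ) → M → M)
    (hact : ∀ σ, Function.Surjective (act σ))
    {n : ℕ} (b : Fin n → M → AlgebraicClosure ℚ)
    (hb : ∀ i σ m, b i (act σ m) = σ (b i m))
    (hli : LinearIndependent (AlgebraicClosure ℚ) b)
    (z : Fin n → AlgebraicClosure ℚ) (hz : ∀ i, IsIntegral (GaloisRep.ratLocalizedAt ℓ) (z i))
    (hF : ∀ σ m, (∑ i, z i • b i) (act σ m) = σ ((∑ i, z i • b i) m)) :
    ∑ i, z i • b i ∈ Submodule.span (GaloisRep.ratLocalizedAt ℓ) (Set.range b) := by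
  have hfix : ∀ σ : AlgebraicClosure ℚ ≃ₐ[ℚ] AlgebraicClosure ℚ, ∀ i, σ (z i) = z i := by
    intro σ
    have h1 : ∑ i, (σ (z i) - z i) • b i = 0 := by
      funext m
      obtain ⟨m', rfl⟩ := hact σ m
      have h := hF σ m'
      simp only [Finset.sum_apply, Pi.smul_apply, smul_eq_mul, map_sum, map_mul, hb] at h
      simp only [Finset.sum_apply, Pi.smul_apply, smul_eq_mul, sub_mul, Finset.sum_sub_distrib,
        Pi.zero_apply, hb]
      rw [h, sub_self]
    intro i
    have := linearIndependent_iff'.mp hli Finset.univ _ h1 i (Finset.mem_univ i)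
    exact sub_eq_zero.mp this
  have hr : ∀ i, ∃ r : GaloisRep.ratLocalizedAt ℓ,
      algebraMap _ (AlgebraicClosure ℚ) r = z i :=
    fun i => exists_ratLocalizedAt_of_fixed_of_isIntegral ℓ (fun σ => hfix σ i) (hz i)
  choose r hr using hr
  have : ∑ i, z i • b i = ∑ i, r i • b i := by
    refine Finset.sum_congr rfl (fun i _ => ?_)
    rw [← hr i, algebraMap_smul]
  rw [this]
  exact Submodule.sum_mem _ (fun i _ => Submodule.smul_mem _ _ (Submodule.subset_span ⟨i, rfl⟩))

end Lattice

end Fermat.Agent.S19.H135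

end
-- ===== PACK-END S19/H135/Indep.lean

-- ===== PACK-BEGIN S59/G4/H109/Points.lean
section



/-!
# Row S59, layer G4, piece POINTS — part 3, assembly (helper109)

`points : PointsStatement`.  For a reduced local ring `T`, finite free over a complete DVR `𝒪` of
characteristic zero with fraction field `K`, the algebra `E = K ⊗[𝒪] T` is a finite reduced
`K`-algebra, hence (Artinian decomposition) the product of the finitely many fields `L_J = E ⧸ J`,
finite over `K`.  The rings of integers `integralClosure 𝒪 L_J` are complete discrete valuation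
rings of characteristic zero with finite residue field (`PointsDVR.lean`), the points
`T → integralClosure 𝒪 L_J` are jointly strict (`PointsStrict.lean`) and local homomorphisms
(integrality of `T` over `𝒪`).
(Port of `S31/H262/Points.lean` (helper262) from `ℤ_[p]` to a general `𝒪`.)
-/

set_option autoImplicit false
set_option linter.unusedSectionVars false
set_option linter.style.haveILetI false

noncomputable section

namespace Fermat.Agent.S59.G4.H109

open scoped TensorProduct
open IsLocalRing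

section Local

/-- A ring homomorphism of local rings over a local base `𝒪`, with integral source and with
target a local `𝒪`-algebra, is local. -/
theorem isLocalHom_of_isIntegral (𝒪 T O : Type) [CommRing 𝒪] [IsLocalRing 𝒪] [CommRing T]
    [IsLocalRing T] [Algebra 𝒪 T] [Algebra.IsIntegral 𝒪 T] [CommRing O] [IsLocalRing O]
    [Algebra 𝒪 O] [IsLocalHom (algebraMap 𝒪 O)] (χ : T →+* O)
    (hχ : ∀ a, χ (algebraMap 𝒪 T a) = algebraMap 𝒪 O a) : IsLocalHom χ := by
  set q : Ideal T := (maximalIdeal O).comap χ with hq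
  haveI : q.IsPrime := Ideal.comap_isPrime χ _
  have hcomap : q.comap (algebraMap 𝒪 T) = maximalIdeal 𝒪 := by
    have h1 : q.comap (algebraMap 𝒪 T) = (maximalIdeal O).comap (algebraMap 𝒪 O) := by
      ext a
      simp only [hq, Ideal.mem_comap, hχ]
    rw [h1]
    exact IsLocalRing.maximalIdeal_comap (algebraMap 𝒪 O)
  have hmax : q.IsMaximal := by
    apply Ideal.isMaximal_of_isIntegral_of_isMaximal_comap (R := 𝒪) q
    rw [hcomap]
    exact IsLocalRing.maximalIdeal.isMaximal 𝒪
  have hqm : q = maximalIdeal T := IsLocalRing.eq_maximalIdeal hmax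
  exact ((IsLocalRing.local_hom_TFAE χ).out 0 4).mpr hqm

/-- The structure map of a local integral algebra over a local ring is local. -/
theorem algebraMap_mem_maximalIdeal (𝒪 T : Type) [CommRing 𝒪] [IsLocalRing 𝒪] [CommRing T]
    [IsLocalRing T] [Algebra 𝒪 T] [Algebra.IsIntegral 𝒪 T] (a : 𝒪) (ha : a ∈ maximalIdeal 𝒪) :
    algebraMap 𝒪 T a ∈ maximalIdeal T := by
  have hmax : ((maximalIdeal T).comap (algebraMap 𝒪 T)).IsMaximal :=
    Ideal.isMaximal_comap_of_isIntegral_of_isMaximal (R := 𝒪) (maximalIdeal T)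
  have h : (maximalIdeal T).comap (algebraMap 𝒪 T) = maximalIdeal 𝒪 :=
    IsLocalRing.eq_maximalIdeal hmax
  rw [← h] at ha
  exact ha

end Local

section Points

variable (p : ℕ)
variable (𝒪 : Type) [CommRing 𝒪] [IsDomain 𝒪] [IsDiscreteValuationRing 𝒪]
  [IsAdicComplete (maximalIdeal 𝒪) 𝒪] [Finite (ResidueField 𝒪)] [CharZero 𝒪]
variable (K : Type) [Field K] [Algebra 𝒪 K] [IsFractionRing 𝒪 K]
variable (T : Type) [CommRing T] [Algebra 𝒪 T] [Module.Finite 𝒪 T] [Module.Free 𝒪 T]

attribute [local instance] IsArtinianRing.fieldOfSubtypeIsMaximal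

theorem isArtinianRing_tensorO : IsArtinianRing (K ⊗[𝒪] T) :=
  isArtinian_of_tower K inferInstance

attribute [local instance] Algebra.TensorProduct.rightAlgebra in
theorem isReduced_tensorO [IsReduced T] : IsReduced (K ⊗[𝒪] T) := by
  haveI : IsLocalization (Algebra.algebraMapSubmonoid T (nonZeroDivisors 𝒪)) (K ⊗[𝒪] T) :=
    IsLocalization.tensorRight (R := 𝒪) (S := T) K (nonZeroDivisors 𝒪)
  exact isReduced_localizationPreserves
    (Algebra.algebraMapSubmonoid T (nonZeroDivisors 𝒪)) (K ⊗[𝒪] T) inferInstance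

include K in
/-- **Strict points** (unbundled form, generic fraction field). -/
theorem exists_points_aux [IsLocalRing T] [IsReduced T] (hp𝒪 : (p : 𝒪) ∈ maximalIdeal 𝒪) :
    ∃ (ι : Type) (_ : Finite ι) (O : ι → Type) (_ : ∀ j, CommRing (O j))
      (_ : ∀ j, IsDomain (O j)) (_ : ∀ j, IsDiscreteValuationRing (O j))
      (_ : ∀ j, IsAdicComplete (maximalIdeal (O j)) (O j))
      (_ : ∀ j, Finite (ResidueField (O j))) (_ : ∀ j, CharZero (O j))
      (χ : ∀ j, T →+* O j),
      (∀ j, ((p : ℕ) : O j) ∈ maximalIdeal (O j)) ∧ (∀ j, IsLocalHom (χ j)) ∧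
      ∀ n : ℕ, ∃ m : ℕ, ∀ t : T, (∀ j, χ j t ∈ maximalIdeal (O j) ^ m) →
        t ∈ maximalIdeal T ^ n := by
  haveI := isArtinianRing_tensorO 𝒪 K T
  haveI := isReduced_tensorO 𝒪 K T
  let E := K ⊗[𝒪] T
  let L : MaximalSpectrum E → Type := fun J => E ⧸ J.asIdeal
  let Φ : E →ₐ[K] (∀ J, L J) := ((IsArtinianRing.equivPi E).restrictScalars K).toAlgHom
  have hΦ : Function.Injective Φ := ((IsArtinianRing.equivPi E).restrictScalars K).injective
  haveI hloc : ∀ J, IsLocalRing (intRingO 𝒪 (L J)) := fun J => intRingO_isLocalRing 𝒪 K (L J)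
  haveI hlh : ∀ J, IsLocalHom (algebraMap 𝒪 (intRingO 𝒪 (L J))) :=
    fun J => intRingO_isLocalHom 𝒪 K (L J)
  obtain ⟨ϖ, hϖ⟩ := IsDiscreteValuationRing.exists_irreducible 𝒪
  refine ⟨MaximalSpectrum E, inferInstance, fun J => intRingO 𝒪 (L J), fun J => inferInstance,
    fun J => inferInstance, fun J => intRingO_isDiscreteValuationRing 𝒪 K (L J),
    fun J => intRingO_isAdicComplete 𝒪 K (L J),
    fun J => intRingO_finite_residueField 𝒪 K (L J),
    fun J => intRingO_charZero 𝒪 K (L J), fun J => pt 𝒪 K T L Φ J, ?_, ?_, ?_⟩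
  · intro J
    have h1 : ((p : ℕ) : intRingO 𝒪 (L J)) = algebraMap 𝒪 (intRingO 𝒪 (L J)) (p : 𝒪) :=
      (map_natCast _ p).symm
    rw [h1]
    exact algebraMap_mem_maximalIdeal 𝒪 (intRingO 𝒪 (L J)) _ hp𝒪
  · intro J
    exact isLocalHom_of_isIntegral 𝒪 T (intRingO 𝒪 (L J)) (pt 𝒪 K T L Φ J)
      (pt_algebraMap 𝒪 K T L Φ J)
  · intro n
    obtain ⟨m, hm⟩ := strict_of_injective hΦ hϖ n
    refine ⟨m, fun t ht => ?_⟩
    have h1 : t ∈ Ideal.span {algebraMap 𝒪 T ϖ ^ n} := hm t ht
    have h2 : Ideal.span {algebraMap 𝒪 T ϖ ^ n} ≤ maximalIdeal T ^ n := by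
      rw [Ideal.span_le, Set.singleton_subset_iff]
      exact Ideal.pow_mem_pow (algebraMap_mem_maximalIdeal 𝒪 T ϖ
        ((IsLocalRing.mem_maximalIdeal _).mpr hϖ.not_isUnit)) n
    exact h2 h1

end Points

section Statement

open Fermat.Agent.S31

/-- **Piece POINTS of row S59, layer G4.** -/
theorem points : Fermat.Agent.S59.G4.PointsStatement := by
  classical
  intro p _ 𝒪 _ _ _ _ _ _ hp𝒪 T _ _ _ _ _ _
  obtain ⟨ι, hι, O, i1, i2, i3, i4, i5, i6, χ, hpm, hloc, hstrict⟩ :=
    exists_points_aux p 𝒪 (FractionRing 𝒪) T hp𝒪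
  haveI : Fintype ι := Fintype.ofFinite ι
  refine ⟨(Finset.univ : Finset ι).toList.map
    (fun j => (⟨O j, hpm j, χ j⟩ : PadicPoint p T)), ?_, ?_⟩
  · intro n
    obtain ⟨n', hn'⟩ := hstrict n
    refine ⟨n', fun t ht => ?_⟩
    apply hn'
    intro j
    exact ht ⟨O j, hpm j, χ j⟩ (List.mem_map.mpr ⟨j, by simp, rfl⟩)
  · intro P hP
    obtain ⟨j, -, rfl⟩ := List.mem_map.mp hP
    exact hloc j

end Statement

end Fermat.Agent.S59.G4.H109

end
end
-- ===== PACK-END S59/G4/H109/Points.lean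

-- ===== PACK-BEGIN A3/H619/Lattice.lean
section
/-
A3 / piece ORD (helper619): "good" lattices of functions and their tensor products.

A linear map `φ : M → (X → ℚ̄)` from an `R`-module is *good* if a finite `R`-basis of `M` is mapped
to a `ℚ̄`-linearly independent family.  Good maps are injective and `φ ⊠ ψ : M ⊗ N → (X × Y → ℚ̄)`
is good if `φ` and `ψ` are.
-/


set_option autoImplicit false

noncomputable section

namespace Fermat.Agent.A3.H619

open GaloisRep TensorProduct Module

variable {p : ℕ}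

section Good

variable {M N : Type} [AddCommGroup M] [Module (ratLocalizedAt p) M]
  [AddCommGroup N] [Module (ratLocalizedAt p) N] {X Y : Type}

/-- A linear map into a function space is *good* if some finite basis is mapped to a
`ℚ̄`-linearly independent family. -/
def IsGood (φ : M →ₗ[ratLocalizedAt p] (X → Qb)) : Prop :=
  ∃ (ι : Type) (_ : Fintype ι) (b : Basis ι (ratLocalizedAt p) M),
    LinearIndependent Qb (fun i => φ (b i))

theorem IsGood.injective {φ : M →ₗ[ratLocalizedAt p] (X → Qb)} (h : IsGood φ) :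
    Function.Injective φ := by
  classical
  obtain ⟨ι, _, b, hb⟩ := h
  rw [← LinearMap.ker_eq_bot, LinearMap.ker_eq_bot']
  intro m hm
  have h1 : φ m = ∑ i, (algebraMap (ratLocalizedAt p) Qb (b.repr m i)) • φ (b i) := by
    conv_lhs => rw [← b.sum_repr m]
    rw [map_sum]
    refine Finset.sum_congr rfl fun i _ => ?_
    rw [map_smul, algebraMap_smul]
  rw [hm] at h1
  have h2 := (Fintype.linearIndependent_iff.mp hb) _ h1.symm
  apply b.repr.injective
  refine Finsupp.ext fun i => ?_
  have := h2 i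
  rw [map_zero, Finsupp.zero_apply]
  exact algebraMap_ratLoc_Qb_injective p (this.trans (map_zero _).symm)

/-- The external product of two linear maps into function spaces. -/
def boxLin (φ : M →ₗ[ratLocalizedAt p] (X → Qb)) (ψ : N →ₗ[ratLocalizedAt p] (Y → Qb)) :
    M ⊗[ratLocalizedAt p] N →ₗ[ratLocalizedAt p] (X × Y → Qb) :=
  TensorProduct.lift
    (LinearMap.mk₂ (ratLocalizedAt p) (fun m n => fun xy : X × Y => φ m xy.1 * ψ n xy.2)
      (fun m₁ m₂ n => by funext xy; simp [add_mul])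
      (fun c m n => by funext xy; simp [Algebra.smul_def, mul_assoc])
      (fun m n₁ n₂ => by funext xy; simp [mul_add])
      (fun c m n => by funext xy; simp [Algebra.smul_def, mul_left_comm]))

@[simp]
theorem boxLin_tmul (φ : M →ₗ[ratLocalizedAt p] (X → Qb)) (ψ : N →ₗ[ratLocalizedAt p] (Y → Qb))
    (m : M) (n : N) (xy : X × Y) : boxLin φ ψ (m ⊗ₜ n) xy = φ m xy.1 * ψ n xy.2 := by
  simp [boxLin]

/-- Products of `ℚ̄`-independent families of functions are independent. -/
theorem linearIndependent_box {ι κ : Type} [Fintype ι] [Fintype κ] (u : ι → (X → Qb))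
    (v : κ → (Y → Qb)) (hu : LinearIndependent Qb u) (hv : LinearIndependent Qb v) :
    LinearIndependent Qb (fun ij : ι × κ => fun xy : X × Y => u ij.1 xy.1 * v ij.2 xy.2) := by
  classical
  rw [Fintype.linearIndependent_iff]
  intro c hc
  -- fix `y`; get a relation between the `u i`
  have key : ∀ (y : Y) (i : ι), ∑ j, c (i, j) * v j y = 0 := by
    intro y
    apply Fintype.linearIndependent_iff.mp hu (fun i => ∑ j, c (i, j) * v j y)
    funext x
    have := congrFun hc (x, y)
    simp only [Finset.sum_apply, Pi.smul_apply, smul_eq_mul, Pi.zero_apply] at this ⊢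
    rw [Fintype.sum_prod_type] at this
    rw [← this]
    refine Finset.sum_congr rfl fun i _ => ?_
    rw [Finset.sum_mul]
    refine Finset.sum_congr rfl fun j _ => ?_
    ring
  rintro ⟨i, j⟩
  apply Fintype.linearIndependent_iff.mp hv (fun j => c (i, j))
  funext y
  have := key y i
  simpa using this

theorem IsGood.box {φ : M →ₗ[ratLocalizedAt p] (X → Qb)} {ψ : N →ₗ[ratLocalizedAt p] (Y → Qb)}
    (hφ : IsGood φ) (hψ : IsGood ψ) : IsGood (boxLin φ ψ) := by
  obtain ⟨ι, _, b, hb⟩ := hφ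
  obtain ⟨κ, _, c, hc⟩ := hψ
  refine ⟨ι × κ, inferInstance, b.tensorProduct c, ?_⟩
  have := linearIndependent_box _ _ hb hc
  convert this using 1
  funext ij xy
  rw [Basis.tensorProduct_apply', boxLin_tmul]

end Good

end Fermat.Agent.A3.H619

end
end
-- ===== PACK-END A3/H619/Lattice.lean

-- ===== PACK-BEGIN A3/H619/Order.lean
section
/-
A3 / piece ORD (helper619): the hypotheses (O0)-(O3) on an order `H` of equivariant functions on a
finite Galois module `T`, and their first consequences: `H` is free over `R = ratLocalizedAt p`,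
an `R`-basis of `H` is a `ℚ̄`-basis of `T → ℚ̄`, the tensor powers of `H` embed into function
algebras.
-/


set_option autoImplicit false

noncomputable section

namespace Fermat.Agent.A3.H619

open GaloisRep TensorProduct Module

variable {p : ℕ} {T : Type} [AddCommGroup T]

/-- The part of the hypotheses of piece ORD which does not involve the group law. -/
structure PreOrderHyp (p : ℕ) (T : Type) (act : GQ → T → T)
    (H : Subalgebra (ratLocalizedAt p) (T → Qb)) : Prop where
  act_one : ∀ t, act 1 t = t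
  act_mul : ∀ (σ τ : GQ) (t : T), act (σ * τ) t = act σ (act τ t)
  /-- (O0) the functions in `H` are Galois-equivariant -/
  equiv : ∀ f ∈ H, IsEquivFun act f
  /-- (O1) `H` is a finitely generated `R`-module -/
  fg : H.toSubmodule.FG
  /-- (O2) `H` separates the points of `T` -/
  sep : ∀ s t : T, s ≠ t → ∃ f ∈ H, f s ≠ f t

/-- The hypotheses of piece ORD on an `R`-algebra `H` of functions on `T`. -/
structure OrderHyp (p : ℕ) (T : Type) [AddCommGroup T] (act : GQ → T → T)
    (H : Subalgebra (ratLocalizedAt p) (T → Qb)) : Prop extends PreOrderHyp p T act H where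
  act_zero : ∀ σ, act σ 0 = 0
  /-- (O3) `H` is stable under the comultiplication `f ↦ ((s, t) ↦ f (s + t))` -/
  comul : ∀ f ∈ H, ∃ (n : ℕ) (a b : Fin n → (T → Qb)), (∀ i, a i ∈ H) ∧ (∀ i, b i ∈ H) ∧
    ∀ s t, f (s + t) = ∑ i, a i s * b i t

namespace PreOrderHyp

variable {T' : Type} {act : GQ → T' → T'} {H : Subalgebra (ratLocalizedAt p) (T' → Qb)}

theorem finite (h : PreOrderHyp p T' act H) : Module.Finite (ratLocalizedAt p) ↥H :=
  Module.Finite.iff_fg.mpr h.fg

theorem isTorsionFree (_h : PreOrderHyp p T' act H) :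
    Module.IsTorsionFree (ratLocalizedAt p) ↥H := by
  refine Module.IsTorsionFree.of_smul_eq_zero fun r f hrf => ?_
  by_cases hr : r = 0
  · exact Or.inl hr
  · right
    apply Subtype.ext
    funext t
    have h1 : (r • (f : T' → Qb)) t = 0 := by
      have := congrArg (fun g : ↥H => (g : T' → Qb) t) hrf
      simpa using this
    rw [Pi.smul_apply, Algebra.smul_def, mul_eq_zero] at h1
    rcases h1 with h1 | h1
    · exact absurd (algebraMap_ratLoc_Qb_injective p (h1.trans (map_zero _).symm)) hr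
    · exact h1

theorem free (h : PreOrderHyp p T' act H) : Module.Free (ratLocalizedAt p) ↥H := by
  have := h.finite
  have := h.isTorsionFree
  exact Module.free_of_finite_type_torsion_free'

/-- The inclusion of `H` into the function algebra is good. -/
theorem isGood_val (h : PreOrderHyp p T' act H) : IsGood (H.val.toLinearMap) := by
  have := h.finite
  have := h.free
  let b := Module.Free.chooseBasis (ratLocalizedAt p) ↥H
  have hfin : Fintype (Module.Free.ChooseBasisIndex (ratLocalizedAt p) ↥H) := inferInstance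
  refine ⟨_, hfin, b, ?_⟩
  apply linearIndependent_Qb_of_equivariant (p := p) act h.act_one h.act_mul
  · intro i
    exact h.equiv _ (b i).2
  · have h1 : LinearIndependent (ratLocalizedAt p) b := b.linearIndependent
    exact h1.map' H.val.toLinearMap (LinearMap.ker_eq_bot.mpr Subtype.val_injective)

end PreOrderHyp

namespace OrderHyp

variable {act : GQ → T → T} {H : Subalgebra (ratLocalizedAt p) (T → Qb)}

theorem finite (h : OrderHyp p T act H) : Module.Finite (ratLocalizedAt p) ↥H :=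
  h.toPreOrderHyp.finite

theorem isTorsionFree (h : OrderHyp p T act H) : Module.IsTorsionFree (ratLocalizedAt p) ↥H :=
  h.toPreOrderHyp.isTorsionFree

theorem free (h : OrderHyp p T act H) : Module.Free (ratLocalizedAt p) ↥H :=
  h.toPreOrderHyp.free

/-- The inclusion of `H` into the function algebra is good. -/
theorem isGood_val (h : OrderHyp p T act H) : IsGood (H.val.toLinearMap) :=
  h.toPreOrderHyp.isGood_val

end OrderHyp

section Span

variable [Finite T]

omit [AddCommGroup T] in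
/-- A subalgebra of `T → ℚ̄` (over a subring) which separates points spans `T → ℚ̄` over `ℚ̄`. -/
theorem span_eq_top_of_separates (H : Subalgebra (ratLocalizedAt p) (T → Qb))
    (hsep : ∀ s t : T, s ≠ t → ∃ f ∈ H, f s ≠ f t) :
    Submodule.span Qb (H : Set (T → Qb)) = ⊤ := by
  classical
  cases nonempty_fintype T
  set A : Submodule Qb (T → Qb) := Submodule.span Qb (H : Set (T → Qb)) with hA
  have hone : (1 : T → Qb) ∈ A := Submodule.subset_span H.one_mem
  have hmul : ∀ x ∈ A, ∀ y ∈ A, x * y ∈ A := by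
    intro x hx y hy
    have h1 : x * y ∈ A * A := Submodule.mul_mem_mul hx hy
    have h2 : A * A ≤ A := by
      rw [hA, Submodule.span_mul_span]
      apply Submodule.span_mono
      rintro _ ⟨a, ha, b, hb, rfl⟩
      exact H.mul_mem ha hb
    exact h2 h1
  have hconst : ∀ c : Qb, (fun _ : T => c) ∈ A := by
    intro c
    have : (fun _ : T => c) = c • (1 : T → Qb) := by funext t; simp
    rw [this]
    exact A.smul_mem c hone
  have hprod : ∀ (s : Finset T) (g : T → (T → Qb)), (∀ i ∈ s, g i ∈ A) → ∏ i ∈ s, g i ∈ A := by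
    intro s g
    induction s using Finset.induction_on with
    | empty => intro _; simpa using hone
    | insert a s ha ih =>
      intro hg
      rw [Finset.prod_insert ha]
      exact hmul _ (hg a (Finset.mem_insert_self a s)) _
        (ih fun i hi => hg i (Finset.mem_insert_of_mem hi))
  -- indicator functions
  have hind : ∀ t : T, (Pi.single t (1 : Qb) : T → Qb) ∈ A := by
    intro t
    have hch : ∀ s : T, s ≠ t → ∃ f ∈ H, f s ≠ f t := fun s hs => hsep s t hs
    choose! f hfH hfne using hch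
    let g : T → (T → Qb) := fun s => (f s t - f s s)⁻¹ • (f s - fun _ => f s s)
    have hg : ∀ s ∈ Finset.univ.erase t, g s ∈ A := by
      intro s hs
      have hst : s ≠ t := (Finset.mem_erase.mp hs).1
      exact A.smul_mem _ (A.sub_mem (Submodule.subset_span (hfH s hst)) (hconst _))
    have hP := hprod (Finset.univ.erase t) g hg
    have : (∏ s ∈ Finset.univ.erase t, g s) = Pi.single t (1 : Qb) := by
      funext u
      rw [Finset.prod_apply]
      by_cases hu : u = t
      · subst hu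
        rw [Pi.single_eq_same]
        apply Finset.prod_eq_one
        intro s hs
        have hst : s ≠ u := (Finset.mem_erase.mp hs).1
        have : f s u - f s s ≠ 0 := sub_ne_zero.mpr (hfne s hst).symm
        simp [g, inv_mul_cancel₀ this]
      · rw [Pi.single_eq_of_ne hu]
        apply Finset.prod_eq_zero (Finset.mem_erase.mpr ⟨hu, Finset.mem_univ u⟩)
        simp [g]
    rwa [this] at hP
  rw [eq_top_iff]
  intro x _
  have hx : x = ∑ t, x t • (Pi.single t (1 : Qb) : T → Qb) := by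
    funext u
    simp [Finset.sum_apply, Pi.single_apply]
  rw [hx]
  exact A.sum_mem fun t _ => A.smul_mem _ (hind t)

end Span

end Fermat.Agent.A3.H619

end
end
-- ===== PACK-END A3/H619/Order.lean

-- ===== PACK-BEGIN A3/H619/Coeff.lean
section
/-
A3 / piece ORD (helper619): coefficients of equivariant functions with respect to a `ℚ̄`-independent
family of equivariant functions are rational; if they are integral over `R`, they lie in `R`.
-/


set_option autoImplicit false

noncomputable section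

namespace Fermat.Agent.A3.H619

open GaloisRep Module

variable {p : ℕ} {X : Type}

instance isAlgebraic_ratLoc_Qb : Algebra.IsAlgebraic (ratLocalizedAt p) Qb :=
  ⟨fun x => (IsFractionRing.isAlgebraic_iff (ratLocalizedAt p) ℚ Qb).mpr
    ((AlgebraicClosure.isAlgebraic ℚ).isAlgebraic x)⟩

theorem isIntegral_ratLoc_of_rat {q : ℚ} (h : IsIntegral (ratLocalizedAt p) (algebraMap ℚ Qb q)) :
    q ∈ ratLocalizedAt p :=
  mem_ratLoc_of_isIntegral p ((isIntegral_algebraMap_iff (algebraMap ℚ Qb).injective).mp h)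

section

variable (act : GQ → X → X) (hact1 : ∀ t, act 1 t = t)
  (hactmul : ∀ (σ τ : GQ) (t : X), act (σ * τ) t = act σ (act τ t))

include hact1 hactmul

/-- Conjugating the coefficients of a linear combination of equivariant functions representing an
equivariant function. -/
theorem combination_conj {κ : Type} [Fintype κ] (e : κ → (X → Qb))
    (he : ∀ k, IsEquivFun act (e k)) (F : X → Qb) (hF : IsEquivFun act F) (c : κ → Qb)
    (hFc : F = ∑ k, c k • e k) (σ : GQ) : F = ∑ k, σ (c k) • e k := by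
  funext t
  have ht : act σ (act σ⁻¹ t) = t := by rw [← hactmul, mul_inv_cancel, hact1]
  have h0 := congrFun hFc (act σ⁻¹ t)
  simp only [Finset.sum_apply, Pi.smul_apply, smul_eq_mul] at h0 ⊢
  have h1 := congrArg σ h0
  rw [map_sum, ← hF σ (act σ⁻¹ t), ht] at h1
  rw [h1]
  refine Finset.sum_congr rfl fun i _ => ?_
  rw [map_mul, ← he i σ (act σ⁻¹ t), ht]

/-- The coefficients are Galois-fixed. -/
theorem coeff_fixed {κ : Type} [Fintype κ] (e : κ → (X → Qb))
    (he : ∀ k, IsEquivFun act (e k)) (hind : LinearIndependent Qb e)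
    (F : X → Qb) (hF : IsEquivFun act F) (c : κ → Qb)
    (hFc : F = ∑ k, c k • e k) (σ : GQ) (k : κ) : σ (c k) = c k := by
  have h1 := combination_conj act hact1 hactmul e he F hF c hFc σ
  have h2 : ∑ k, (σ (c k) - c k) • e k = 0 := by
    simp only [sub_smul, Finset.sum_sub_distrib]
    rw [← h1, ← hFc, sub_self]
  exact sub_eq_zero.mp (Fintype.linearIndependent_iff.mp hind _ h2 k)

/-- The coefficients are rational. -/
theorem coeff_rat {κ : Type} [Fintype κ] (e : κ → (X → Qb))
    (he : ∀ k, IsEquivFun act (e k)) (hind : LinearIndependent Qb e)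
    (F : X → Qb) (hF : IsEquivFun act F) (c : κ → Qb)
    (hFc : F = ∑ k, c k • e k) (k : κ) : ∃ q : ℚ, algebraMap ℚ Qb q = c k :=
  exists_rat_of_fixed _ fun σ => coeff_fixed act hact1 hactmul e he hind F hF c hFc σ k

/-- Integral coefficients lie in `R`. -/
theorem coeff_int {κ : Type} [Fintype κ] (e : κ → (X → Qb))
    (he : ∀ k, IsEquivFun act (e k)) (hind : LinearIndependent Qb e)
    (F : X → Qb) (hF : IsEquivFun act F) (c : κ → Qb)
    (hFc : F = ∑ k, c k • e k) (hc : ∀ k, IsIntegral (ratLocalizedAt p) (c k)) :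
    ∃ r : κ → ratLocalizedAt p, F = ∑ k, r k • e k := by
  have h1 : ∀ k, ∃ r : ratLocalizedAt p, algebraMap (ratLocalizedAt p) Qb r = c k := by
    intro k
    obtain ⟨q, hq⟩ := coeff_rat act hact1 hactmul e he hind F hF c hFc k
    have hk := hc k
    rw [← hq] at hk
    exact ⟨⟨q, isIntegral_ratLoc_of_rat hk⟩, hq⟩
  choose r hr using h1
  refine ⟨r, ?_⟩
  rw [hFc]
  refine Finset.sum_congr rfl fun k _ => ?_
  rw [← hr k, algebraMap_smul]

end

end Fermat.Agent.A3.H619

end
end
-- ===== PACK-END A3/H619/Coeff.lean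

-- ===== PACK-BEGIN S29/H509/TwistedMF.lean
section


/-!
# Twisted Eisenstein series: modular forms and twisted quotients (helper509, S29 piece TES, file 3)

For a finite index subgroup `Γ ≤ SL(2, ℤ)` and a character `χ : Γ →* ℂˣ` with `χ ^ p = 1`,
trivial on the stabiliser of `∞` in `Γ`:

* `twEisPowMF` : the `p`-th power of the twisted Eisenstein series as a `ModularForm Γ (k * p)`;
* `twEisOneMF` : the untwisted Eisenstein series of `Γ` as a `ModularForm Γ k`;
* `exists_twisted_pair` : the summary statement used downstream.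
-/

set_option autoImplicit false

namespace Fermat.Agent.S29.H509

open ModularForm UpperHalfPlane Matrix CongruenceSubgroup EisensteinSeries Filter Topology
open scoped MatrixGroups Manifold

noncomputable section

/-- Slash action on powers. -/
lemma pow_slash_SL2 (f : ℍ → ℂ) (k : ℤ) (n : ℕ) (A : SL(2, ℤ)) :
    (f ^ n) ∣[k * n] A = (f ∣[k] A) ^ n := by
  ext z
  simp only [SL_slash_apply, Pi.pow_apply, mul_pow]
  congr 1
  rw [← zpow_natCast, ← _root_.zpow_mul, neg_mul]

lemma isBoundedAtImInfty_pow {f : ℍ → ℂ} (hf : IsBoundedAtImInfty f) (n : ℕ) :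
    IsBoundedAtImInfty (f ^ n) := by
  induction n with
  | zero =>
    simp only [pow_zero]
    exact Filter.const_boundedAtFilter _ (1 : ℂ)
  | succ n ih =>
    rw [pow_succ]
    exact Filter.BoundedAtFilter.mul ih hf

lemma norm_eq_one_of_pow_eq_one' {u : ℂˣ} {p : ℕ} (hp : p ≠ 0) (h : u ^ p = 1) :
    ‖(u : ℂ)‖ = 1 := by
  have h1 : (u : ℂ) ^ p = 1 := by
    have := congrArg (fun x : ℂˣ => (x : ℂ)) h
    simpa using this
  exact Complex.norm_eq_one_of_pow_eq_one h1 hp

variable {Γ : Subgroup SL(2, ℤ)}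

/-- The `p`-th power of the twisted Eisenstein series is slash invariant under `Γ`. -/
lemma twEis_pow_slash {χ : Γ →* ℂˣ} (hχ : TrivOnUnip χ) {p : ℕ} (hχp : ∀ γ, χ γ ^ p = 1)
    (k : ℤ) (δ : Γ) :
    (twEis χ k ^ p) ∣[k * p] (δ : SL(2, ℤ)) = twEis χ k ^ p := by
  rw [pow_slash_SL2, twEis_slash hχ]
  ext z
  simp only [Pi.pow_apply, Pi.smul_apply, smul_eq_mul, mul_pow]
  have h1 : (χ δ : ℂ) ^ p = 1 := by
    have := congrArg (fun x : ℂˣ => (x : ℂ)) (hχp δ)
    simpa using this
  rw [h1, one_mul]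

/-- The `p`-th power of the twisted Eisenstein series, as a modular form of weight `k * p`. -/
def twEisPowMF [Γ.FiniteIndex] (χ : Γ →* ℂˣ) (hχ : TrivOnUnip χ) {p : ℕ} (hp : p ≠ 0)
    (hχp : ∀ γ, χ γ ^ p = 1) {k : ℤ} (hk : 3 ≤ k) :
    ModularForm (Γ : Subgroup (GL (Fin 2) ℝ)) (k * p) where
  toFun := twEis χ k ^ p
  slash_action_eq' A hA := by
    obtain ⟨A, hA, rfl⟩ := hA
    exact twEis_pow_slash hχ hχp k ⟨A, hA⟩
  holo' := (twEis_mdifferentiable (fun γ => norm_eq_one_of_pow_eq_one' hp (hχp γ)) hk).pow p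
  bdd_at_cusps' {c} hc := by
    rw [Subgroup.IsArithmetic.isCusp_iff_isCusp_SL2Z] at hc
    rw [OnePoint.isBoundedAt_iff_forall_SL2Z hc]
    intro γ _
    rw [pow_slash_SL2]
    exact isBoundedAtImInfty_pow
      (isBoundedAtImInfty_twEis_slash (fun γ => norm_eq_one_of_pow_eq_one' hp (hχp γ)) hk γ) p

@[simp] lemma twEisPowMF_apply [Γ.FiniteIndex] (χ : Γ →* ℂˣ) (hχ : TrivOnUnip χ) {p : ℕ}
    (hp : p ≠ 0) (hχp : ∀ γ, χ γ ^ p = 1) {k : ℤ} (hk : 3 ≤ k) (z : ℍ) :
    twEisPowMF χ hχ hp hχp hk z = twEis χ k z ^ p := rfl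

lemma twEisPowMF_ne_zero [Γ.FiniteIndex] (χ : Γ →* ℂˣ) (hχ : TrivOnStabInfty χ) {p : ℕ}
    (hp : p ≠ 0) (hχp : ∀ γ, χ γ ^ p = 1) {k : ℤ} (hk : 3 ≤ k) (heven : Even k) :
    twEisPowMF χ hχ.trivOnUnip hp hχp hk ≠ 0 := by
  intro h0
  have hne := twEis_ne_zero (fun γ => norm_eq_one_of_pow_eq_one' hp (hχp γ)) hχ hk heven
  apply hne
  funext z
  have h1 : twEisPowMF χ hχ.trivOnUnip hp hχp hk z = 0 := by rw [h0]; rfl
  rw [twEisPowMF_apply] at h1
  exact pow_eq_zero_iff hp |>.mp h1

/-- Summary: existence of the twisted Eisenstein series with all the properties used downstream.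
For a character `χ` of `Γ` of order dividing `p`, trivial on the stabiliser of `∞`, and every even
weight `k ≥ 4` there is a nonzero holomorphic `E : ℍ → ℂ` with `E ∣[k] δ = χ δ • E` on `Γ`, all
of whose `SL(2, ℤ)`-translates are bounded at `i∞`, and such that `E ^ p` is a modular form of
weight `k * p` on `Γ`. -/
theorem exists_twisted_eisenstein [Γ.FiniteIndex] (χ : Γ →* ℂˣ) (hχ : TrivOnStabInfty χ)
    {p : ℕ} (hp : p ≠ 0) (hχp : ∀ γ, χ γ ^ p = 1) {k : ℤ} (hk : 3 ≤ k) (heven : Even k) :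
    ∃ (E : ℍ → ℂ) (F : ModularForm (Γ : Subgroup (GL (Fin 2) ℝ)) (k * p)),
      MDiff E ∧ E ≠ 0 ∧
      (∀ δ : Γ, E ∣[k] (δ : SL(2, ℤ)) = (χ δ : ℂ) • E) ∧
      (∀ (δ : Γ) (z : ℍ), E ((δ : SL(2, ℤ)) • z) =
        (χ δ : ℂ) * denom (δ : SL(2, ℤ)) z ^ k * E z) ∧
      (∀ A : SL(2, ℤ), IsBoundedAtImInfty (E ∣[k] A)) ∧
      (∀ z, F z = E z ^ p) ∧ F ≠ 0 :=
  ⟨twEis χ k, twEisPowMF χ hχ.trivOnUnip hp hχp hk,
    twEis_mdifferentiable (fun γ => norm_eq_one_of_pow_eq_one' hp (hχp γ)) hk,
    twEis_ne_zero (fun γ => norm_eq_one_of_pow_eq_one' hp (hχp γ)) hχ hk heven,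
    twEis_slash hχ.trivOnUnip k,
    twEis_smul_apply hχ.trivOnUnip k,
    isBoundedAtImInfty_twEis_slash (fun γ => norm_eq_one_of_pow_eq_one' hp (hχp γ)) hk,
    fun _ => rfl,
    twEisPowMF_ne_zero χ hχ hp hχp hk heven⟩

end

end Fermat.Agent.S29.H509

end
-- ===== PACK-END S29/H509/TwistedMF.lean

-- ===== PACK-BEGIN S37/H940/Core.lean
section




/-!
# S37 / RIM (helper940): the place reduction map, fibre-local core

Abstract setting.  `K ⊇ A` a valued field with residue map `π : A → k`;  `F / K` and `F_k / k`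
function fields (Prelude `Place`);  `V ⊆ F` a subring ("Gauss valuation ring") with a ring
homomorphism `ρ : V → F_k` extending `π`, such that every `u ∈ V` with `ρ u ≠ 0` is a unit of `V`.

A *fibre* is a set `𝔉` of places of `F` ("the tube") and a finite set `𝔊` of places of `F_k`
such that
* `FC`  (conservation of number in the fibre): `∑_{P ∈ 𝔉} ord_P u = ∑_{Q ∈ 𝔊} ord_Q (ρ u)`
  for every `u ∈ V` with `ρ u ≠ 0`;
* `LP`  (smoothness 1): every `Q ∈ 𝔊` has a local parameter which lifts to an element of `V`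
  regular on `𝔉`, and is a unit at the other points of `𝔊`;
* `SEP` (smoothness 2): some element of `V`, regular on `𝔉`, has a reduction separating `𝔊`.

Main result `Fibre.exists_red`: there is a surjective map `r : 𝔉 → 𝔊`, compatible with values
(`(ρ b)(r P) = π (b(P))`), with the conservation law
`∑_{P ∈ 𝔉, r P = Q} ord_P u = ord_Q (ρ u)` for every `u ∈ V` with `ρ u ≠ 0`.

No Zariski main theorem, no unique factorisation, no completions: only `FC`, used for the
functions `1 - b/c`, `b - b(P)` and for the local parameters.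
-/

set_option autoImplicit false

noncomputable section

namespace Fermat.Agent.S37.H940

open AlgebraicCurve
open Fermat.Agent.S24.FF

/-- The abstract reduction context. -/
structure Ctx (K F k Fk : Type*) [Field K] [Field F] [Algebra K F] [Field k] [Field Fk]
    [Algebra k Fk] where
  /-- the valuation ring of the base field -/
  A : ValuationSubring K
  /-- the residue map -/
  π : A →+* k
  π_surj : Function.Surjective π
  π_eq_zero : ∀ a : A, π a = 0 ↔ ¬ IsUnit a
  /-- the ring of functions with a reduction -/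
  V : Subring F
  /-- the reduction map -/
  ρ : V →+* Fk
  A_mem : ∀ a : A, algebraMap K F (a : K) ∈ V
  ρ_A : ∀ a : A, ρ ⟨algebraMap K F (a : K), A_mem a⟩ = algebraMap k Fk (π a)
  inv_mem : ∀ u : V, ρ u ≠ 0 → ((u : F))⁻¹ ∈ V

variable {K F k Fk : Type*} [Field K] [Field F] [Algebra K F] [Field k] [Field Fk]
  [Algebra k Fk]

namespace Ctx

variable (C : Ctx K F k Fk)

/-- a constant of `A` as an element of `V` -/
def const (a : C.A) : C.V := ⟨algebraMap K F (a : K), C.A_mem a⟩

@[simp] theorem coe_const (a : C.A) : ((C.const a : C.V) : F) = algebraMap K F (a : K) := rfl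

@[simp] theorem ρ_const (a : C.A) : C.ρ (C.const a) = algebraMap k Fk (C.π a) := C.ρ_A a

theorem ne_zero_of_ρ_ne_zero {u : C.V} (h : C.ρ u ≠ 0) : (u : F) ≠ 0 := by
  intro h0
  apply h
  have : u = 0 := Subtype.ext h0
  rw [this, map_zero]

/-- the inverse of an element with nonzero reduction -/
def inv (u : C.V) (h : C.ρ u ≠ 0) : C.V := ⟨((u : F))⁻¹, C.inv_mem u h⟩

@[simp] theorem coe_inv (u : C.V) (h : C.ρ u ≠ 0) : ((C.inv u h : C.V) : F) = ((u : F))⁻¹ := rfl

theorem mul_inv (u : C.V) (h : C.ρ u ≠ 0) : u * C.inv u h = 1 := by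
  apply Subtype.ext
  simp [mul_inv_cancel₀ (C.ne_zero_of_ρ_ne_zero h)]

theorem ρ_inv (u : C.V) (h : C.ρ u ≠ 0) : C.ρ (C.inv u h) = (C.ρ u)⁻¹ := by
  have := congrArg C.ρ (C.mul_inv u h)
  rw [map_mul, map_one] at this
  exact eq_inv_of_mul_eq_one_right this

theorem ρ_inv_ne_zero (u : C.V) (h : C.ρ u ≠ 0) : C.ρ (C.inv u h) ≠ 0 := by
  rw [C.ρ_inv u h]
  exact inv_ne_zero h

/-- an element of `K` outside `A` has its inverse in the maximal ideal of `A` -/
theorem exists_inv_of_not_mem {c : K} (hc : c ∉ C.A) :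
    ∃ a : C.A, (a : K) = c⁻¹ ∧ C.π a = 0 := by
  have hinv : c⁻¹ ∈ C.A := (C.A.mem_or_inv_mem c).resolve_left hc
  refine ⟨⟨c⁻¹, hinv⟩, rfl, ?_⟩
  rw [C.π_eq_zero]
  intro hu
  apply hc
  obtain ⟨b, hb⟩ := isUnit_iff_exists_inv.mp hu
  have hb' : c⁻¹ * (b : K) = 1 := by
    have := congrArg (fun x : C.A => (x : K)) hb
    simpa using this
  have hc0 : c ≠ 0 := by
    rintro rfl
    exact hc (zero_mem _)
  have : (b : K) = c := by
    field_simp at hb'
    exact hb'
  rw [← this]
  exact b.2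

end Ctx

/-- A fibre of the reduction: a tube `𝔉` of places of `F` over a finite set `𝔊` of places of
`F_k`, with conservation of number and smoothness. -/
structure Fibre (C : Ctx K F k Fk) where
  /-- the tube -/
  𝔉 : Set (Place K F)
  /-- the points of the special fibre -/
  𝔊 : Finset (Place k Fk)
  ne : 𝔊.Nonempty
  res : ∀ P ∈ 𝔉, ∀ f : F, 0 ≤ P.ord f → ∃ c : K, InMax P (f - algebraMap K F c)
  fin : ∀ u : F, u ≠ 0 → {P | P ∈ 𝔉 ∧ P.ord u ≠ 0}.Finite
  FC : ∀ u : C.V, C.ρ u ≠ 0 → ∑ᶠ P ∈ 𝔉, P.ord (u : F) = ∑ Q ∈ 𝔊, Q.ord (C.ρ u)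
  LP : ∀ Q ∈ 𝔊, ∃ t : C.V, (∀ P ∈ 𝔉, 0 ≤ P.ord (t : F)) ∧ Q.ord (C.ρ t) = 1 ∧
    ∀ Q' ∈ 𝔊, Q' ≠ Q → Q'.ord (C.ρ t) = 0
  SEP : ∃ s : C.V, (∀ P ∈ 𝔉, 0 ≤ P.ord (s : F)) ∧
    ∀ Q ∈ 𝔊, ∀ Q' ∈ 𝔊, ∀ a : k, InMax Q (C.ρ s - algebraMap k Fk a) →
      InMax Q' (C.ρ s - algebraMap k Fk a) → Q = Q'

namespace Fibre

variable {C : Ctx K F k Fk} (Φ : Fibre C)

/-- the sum over the tube as a finite sum -/
theorem finsum_eq_sum (u : F) (hu : u ≠ 0) :
    ∑ᶠ P ∈ Φ.𝔉, P.ord u = ∑ P ∈ (Φ.fin u hu).toFinset, P.ord u := by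
  rw [finsum_mem_eq_sum_of_inter_support_eq]
  ext P
  simp only [Set.mem_inter_iff, Function.mem_support, ne_eq, Set.Finite.coe_toFinset]
  constructor
  · rintro ⟨h1, h2⟩
    exact ⟨⟨h1, h2⟩, h2⟩
  · rintro ⟨⟨h1, h2⟩, -⟩
    exact ⟨h1, h2⟩

/-- if `u` is regular on the tube and vanishes at `P`, the sum over the tube is positive -/
theorem finsum_pos {u : F} (hu : u ≠ 0) (hreg : ∀ P ∈ Φ.𝔉, 0 ≤ P.ord u) {P : Place K F}
    (hP : P ∈ Φ.𝔉) (hpos : 0 < P.ord u) : 0 < ∑ᶠ P ∈ Φ.𝔉, P.ord u := by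
  rw [Φ.finsum_eq_sum u hu]
  have hmem : P ∈ (Φ.fin u hu).toFinset := by
    rw [Set.Finite.mem_toFinset]
    exact ⟨hP, hpos.ne'⟩
  refine lt_of_lt_of_le hpos
    (Finset.single_le_sum (f := fun P : Place K F => P.ord u) (fun Q hQ => ?_) hmem)
  rw [Set.Finite.mem_toFinset] at hQ
  exact hreg Q hQ.1

/-- if `u` is regular on the tube and the sum over the tube is `≤ ord_P u`,
then `u` has no zero on the tube besides `P` -/
theorem ord_eq_zero_of_finsum_le {u : F} (hu : u ≠ 0) (hreg : ∀ P ∈ Φ.𝔉, 0 ≤ P.ord u)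
    {P : Place K F} (hP : P ∈ Φ.𝔉) (hle : ∑ᶠ P ∈ Φ.𝔉, P.ord u ≤ P.ord u)
    {P' : Place K F} (hP' : P' ∈ Φ.𝔉) (hne : P' ≠ P) : P'.ord u = 0 := by
  classical
  by_contra h0
  have hpos : 0 < P'.ord u := lt_of_le_of_ne (hreg P' hP') (Ne.symm h0)
  rw [Φ.finsum_eq_sum u hu] at hle
  have hmem' : P' ∈ (Φ.fin u hu).toFinset := by
    rw [Set.Finite.mem_toFinset]
    exact ⟨hP', h0⟩
  have hnn : ∀ Q ∈ (Φ.fin u hu).toFinset, 0 ≤ Q.ord u := fun Q hQ => by
    rw [Set.Finite.mem_toFinset] at hQ
    exact hreg Q hQ.1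
  by_cases hPm : P ∈ (Φ.fin u hu).toFinset
  · have h2 : P.ord u + P'.ord u ≤ ∑ Q ∈ (Φ.fin u hu).toFinset, Q.ord u := by
      have hsub : ({P, P'} : Finset (Place K F)) ⊆ (Φ.fin u hu).toFinset := by
        intro Q hQ
        rw [Finset.mem_insert, Finset.mem_singleton] at hQ
        rcases hQ with rfl | rfl
        · exact hPm
        · exact hmem'
      have := Finset.sum_le_sum_of_subset_of_nonneg (f := fun Q : Place K F => Q.ord u) hsub
        (fun Q hQ _ => hnn Q hQ)
      rwa [Finset.sum_pair (Ne.symm hne)] at this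
    omega
  · have hP0 : P.ord u = 0 := by
      by_contra h
      exact hPm (by rw [Set.Finite.mem_toFinset]; exact ⟨hP, h⟩)
    have := Finset.single_le_sum (f := fun Q : Place K F => Q.ord u) hnn hmem'
    omega

/-- **value lemma, integrality**: the value at a point of the tube of a function of `V`
regular on the tube lies in `A`. -/
theorem value_mem (b : C.V) (hreg : ∀ P ∈ Φ.𝔉, 0 ≤ P.ord (b : F)) {P : Place K F}
    (hP : P ∈ Φ.𝔉) {c : K} (hc : InMax P ((b : F) - algebraMap K F c)) : c ∈ C.A := by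
  by_contra hcA
  obtain ⟨a, ha, hπ⟩ := C.exists_inv_of_not_mem hcA
  have hc0 : c ≠ 0 := by
    rintro rfl
    exact hcA (zero_mem _)
  -- `u = 1 - b / c`
  set u : C.V := 1 - C.const a * b with hu
  have hρ : C.ρ u = 1 := by
    rw [hu, map_sub, map_one, map_mul, C.ρ_const, hπ, map_zero, zero_mul, sub_zero]
  have hρ0 : C.ρ u ≠ 0 := by rw [hρ]; exact one_ne_zero
  have hu0 : (u : F) ≠ 0 := C.ne_zero_of_ρ_ne_zero hρ0
  have hcoe : (u : F) = 1 - algebraMap K F c⁻¹ * (b : F) := by
    rw [hu, ← ha]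
    rfl
  have hureg : ∀ P ∈ Φ.𝔉, 0 ≤ P.ord (u : F) := by
    intro P hP
    rw [hcoe]
    refine ord_nonneg_sub (by simp) (ord_nonneg_mul (ord_nonneg_const P _) (hreg P hP))
  have hmax : InMax P (u : F) := by
    have e : (u : F) = algebraMap K F (-c⁻¹) * ((b : F) - algebraMap K F c) := by
      have h1 : algebraMap K F c⁻¹ * algebraMap K F c = 1 := by
        rw [← map_mul, inv_mul_cancel₀ hc0, map_one]
      rw [hcoe, map_neg]
      linear_combination (-1 : F) * h1
    rw [e]
    exact hc.const_mul _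
  have hpos := Φ.finsum_pos hu0 hureg hP (hmax.ord_pos hu0)
  rw [Φ.FC u hρ0, hρ] at hpos
  simp at hpos

/-- the value of a function regular on the tube, as an element of `A` -/
theorem exists_value (b : C.V) (hreg : ∀ P ∈ Φ.𝔉, 0 ≤ P.ord (b : F)) {P : Place K F}
    (hP : P ∈ Φ.𝔉) : ∃ c : C.A, InMax P ((b : F) - algebraMap K F (c : K)) := by
  obtain ⟨c, hc⟩ := Φ.res P hP b (hreg P hP)
  exact ⟨⟨c, Φ.value_mem b hreg hP hc⟩, hc⟩

/-- **zeros specialise to zeros**: if `b` has the value `c` at `P`, then `ρ b` has the value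
`π c` at some point of `𝔊`. -/
theorem exists_point (b : C.V) (hreg : ∀ P ∈ Φ.𝔉, 0 ≤ P.ord (b : F)) {P : Place K F}
    (hP : P ∈ Φ.𝔉) {c : C.A} (hc : InMax P ((b : F) - algebraMap K F (c : K))) :
    ∃ Q ∈ Φ.𝔊, InMax Q (C.ρ b - algebraMap k Fk (C.π c)) := by
  set u : C.V := b - C.const c with hu
  have hρ : C.ρ u = C.ρ b - algebraMap k Fk (C.π c) := by
    rw [hu, map_sub, C.ρ_const]
  rw [← hρ]
  by_cases h0 : C.ρ u = 0
  · obtain ⟨Q, hQ⟩ := Φ.ne
    exact ⟨Q, hQ, by rw [h0]; exact inMax_zero Q⟩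
  · have hu0 : (u : F) ≠ 0 := C.ne_zero_of_ρ_ne_zero h0
    have hcoe : (u : F) = (b : F) - algebraMap K F (c : K) := by
      rw [hu]
      rfl
    have hureg : ∀ P ∈ Φ.𝔉, 0 ≤ P.ord (u : F) := fun P hP => by
      rw [hcoe]
      exact ord_nonneg_sub (hreg P hP) (ord_nonneg_const P _)
    have hpos := Φ.finsum_pos hu0 hureg hP (by rw [hcoe]; exact hc.ord_pos (hcoe ▸ hu0))
    rw [Φ.FC u h0] at hpos
    obtain ⟨Q, hQ, hQpos⟩ := Finset.exists_lt_of_sum_lt (f := fun _ => (0 : ℤ))
      (g := fun Q : Place k Fk => Q.ord (C.ρ u)) (s := Φ.𝔊) (by simpa using hpos)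
    exact ⟨Q, hQ, inMax_of_ord_pos hQpos⟩

/-! ### The reduction map on the tube -/

/-- the separating function -/
def sepFun : C.V := Φ.SEP.choose

theorem sepFun_reg : ∀ P ∈ Φ.𝔉, 0 ≤ P.ord (Φ.sepFun : F) := Φ.SEP.choose_spec.1

theorem sepFun_sep : ∀ Q ∈ Φ.𝔊, ∀ Q' ∈ Φ.𝔊, ∀ a : k,
    InMax Q (C.ρ Φ.sepFun - algebraMap k Fk a) →
      InMax Q' (C.ρ Φ.sepFun - algebraMap k Fk a) → Q = Q' :=
  Φ.SEP.choose_spec.2

/-- the value of the separating function at a point of the tube -/
def sepValue {P : Place K F} (hP : P ∈ Φ.𝔉) : C.A :=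
  (Φ.exists_value Φ.sepFun Φ.sepFun_reg hP).choose

theorem sepValue_spec {P : Place K F} (hP : P ∈ Φ.𝔉) :
    InMax P ((Φ.sepFun : F) - algebraMap K F (Φ.sepValue hP : K)) :=
  (Φ.exists_value Φ.sepFun Φ.sepFun_reg hP).choose_spec

theorem exists_red_point {P : Place K F} (hP : P ∈ Φ.𝔉) :
    ∃ Q ∈ Φ.𝔊, InMax Q (C.ρ Φ.sepFun - algebraMap k Fk (C.π (Φ.sepValue hP))) :=
  Φ.exists_point Φ.sepFun Φ.sepFun_reg hP (Φ.sepValue_spec hP)

open Classical in
/-- **The reduction map** of the fibre (junk outside the tube). -/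
def red (P : Place K F) : Place k Fk :=
  if hP : P ∈ Φ.𝔉 then (Φ.exists_red_point hP).choose else Φ.ne.choose

theorem red_mem (P : Place K F) : Φ.red P ∈ Φ.𝔊 := by
  unfold red
  split_ifs with hP
  · exact (Φ.exists_red_point hP).choose_spec.1
  · exact Φ.ne.choose_spec

theorem red_sepFun {P : Place K F} (hP : P ∈ Φ.𝔉) :
    InMax (Φ.red P) (C.ρ Φ.sepFun - algebraMap k Fk (C.π (Φ.sepValue hP))) := by
  unfold red
  rw [dif_pos hP]
  exact (Φ.exists_red_point hP).choose_spec.2

/-- **value compatibility**: `(ρ b)(r P) = π (b(P))` for `b ∈ V` regular on the tube. -/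
theorem red_value [Infinite k] (b : C.V) (hreg : ∀ P ∈ Φ.𝔉, 0 ≤ P.ord (b : F))
    {P : Place K F} (hP : P ∈ Φ.𝔉) {c : C.A}
    (hc : InMax P ((b : F) - algebraMap K F (c : K))) :
    InMax (Φ.red P) (C.ρ b - algebraMap k Fk (C.π c)) := by
  classical
  set s := Φ.sepFun with hs
  set cs := Φ.sepValue hP with hcs
  have hsP := Φ.sepValue_spec hP
  -- for every `a : k` a point `Q_a` where `(ρ s - π cs) + a (ρ b - π c)` vanishes
  have key : ∀ a : k, ∃ Q ∈ Φ.𝔊,
      InMax Q ((C.ρ s - algebraMap k Fk (C.π cs)) +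
        algebraMap k Fk a * (C.ρ b - algebraMap k Fk (C.π c))) := by
    intro a
    obtain ⟨l, hl⟩ := C.π_surj a
    have hreg' : ∀ P ∈ Φ.𝔉, 0 ≤ P.ord ((s + C.const l * b : C.V) : F) := fun P hP =>
      ord_nonneg_add (Φ.sepFun_reg P hP) (ord_nonneg_mul (ord_nonneg_const P _) (hreg P hP))
    have hval : InMax P (((s + C.const l * b : C.V) : F) -
        algebraMap K F ((cs + l * c : C.A) : K)) := by
      have e : ((s + C.const l * b : C.V) : F) - algebraMap K F ((cs + l * c : C.A) : K)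
          = ((s : F) - algebraMap K F (cs : K)) +
            algebraMap K F (l : K) * ((b : F) - algebraMap K F (c : K)) := by
        have h1 : ((s + C.const l * b : C.V) : F)
            = (s : F) + algebraMap K F (l : K) * (b : F) := rfl
        have h2 : ((cs + l * c : C.A) : K) = (cs : K) + (l : K) * (c : K) := rfl
        rw [h1, h2, map_add, map_mul]
        ring
      rw [e]
      exact hsP.add (hc.const_mul _)
    obtain ⟨Q, hQ, hQm⟩ := Φ.exists_point _ hreg' hP hval
    refine ⟨Q, hQ, ?_⟩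
    have e : C.ρ (s + C.const l * b) - algebraMap k Fk (C.π (cs + l * c))
        = (C.ρ s - algebraMap k Fk (C.π cs)) +
          algebraMap k Fk a * (C.ρ b - algebraMap k Fk (C.π c)) := by
      rw [map_add, map_mul, C.ρ_const, map_add, map_mul, hl, map_add, map_mul]
      ring
    rw [← e]
    exact hQm
  choose Qf hQf hQm using key
  -- pigeonhole
  let f : k → Φ.𝔊 := fun a => ⟨Qf a, hQf a⟩
  obtain ⟨a₁, a₂, hne, heq⟩ := Finite.exists_ne_map_eq_of_infinite f
  have heq' : Qf a₁ = Qf a₂ := congrArg Subtype.val heq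
  have h1 := hQm a₁
  have h2 := hQm a₂
  rw [← heq'] at h2
  set g := C.ρ b - algebraMap k Fk (C.π c) with hg
  set h := C.ρ s - algebraMap k Fk (C.π cs) with hh
  have h3 : InMax (Qf a₁) (algebraMap k Fk (a₁ - a₂) * g) := by
    have := h1.sub h2
    have e : h + algebraMap k Fk a₁ * g - (h + algebraMap k Fk a₂ * g)
        = algebraMap k Fk (a₁ - a₂) * g := by
      rw [map_sub]; ring
    rwa [e] at this
  have hg' : InMax (Qf a₁) g := by
    have := h3.const_mul (a₁ - a₂)⁻¹
    have e : algebraMap k Fk (a₁ - a₂)⁻¹ * (algebraMap k Fk (a₁ - a₂) * g) = g := by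
      rw [← mul_assoc, ← map_mul, inv_mul_cancel₀ (sub_ne_zero.mpr hne), map_one, one_mul]
    rwa [e] at this
  have hh' : InMax (Qf a₁) h := by
    have := h1.sub (hg'.const_mul a₁)
    rwa [add_sub_cancel_right] at this
  have hQ : Qf a₁ = Φ.red P :=
    Φ.sepFun_sep _ (hQf a₁) _ (Φ.red_mem P) _ hh' (Φ.red_sepFun hP)
  rw [← hQ]
  exact hg'

/-- the reduction of a function of `V` regular on the tube is regular at `r P` -/
theorem ord_ρ_nonneg_red [Infinite k] (b : C.V) (hreg : ∀ P ∈ Φ.𝔉, 0 ≤ P.ord (b : F))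
    {P : Place K F} (hP : P ∈ Φ.𝔉) : 0 ≤ (Φ.red P).ord (C.ρ b) := by
  obtain ⟨c, hc⟩ := Φ.exists_value b hreg hP
  exact ord_nonneg_of_inMax_sub (Φ.red_value b hreg hP hc)

/-- **local parameters**: at every point `P` of the tube there is `t ∈ V` with a simple zero
at `P`, no other zero on the tube, whose reduction has a simple zero at `r P` and no other
zero on `𝔊`. -/
theorem exists_localParam [Infinite k] {P : Place K F} (hP : P ∈ Φ.𝔉) :
    ∃ t : C.V, C.ρ t ≠ 0 ∧ (∀ P' ∈ Φ.𝔉, 0 ≤ P'.ord (t : F)) ∧ P.ord (t : F) = 1 ∧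
      (∀ P' ∈ Φ.𝔉, P' ≠ P → P'.ord (t : F) = 0) ∧
      (Φ.red P).ord (C.ρ t) = 1 ∧ ∀ Q' ∈ Φ.𝔊, Q' ≠ Φ.red P → Q'.ord (C.ρ t) = 0 := by
  classical
  obtain ⟨t₀, hreg₀, hQ₀, hQ'₀⟩ := Φ.LP (Φ.red P) (Φ.red_mem P)
  obtain ⟨c₀, hc₀⟩ := Φ.exists_value t₀ hreg₀ hP
  have hρ₀ : C.ρ t₀ ≠ 0 := by
    intro h
    rw [h] at hQ₀
    simp at hQ₀
  -- the value of `t₀` at `P` lies in the maximal ideal
  have hπ : C.π c₀ = 0 := by
    have h1 := Φ.red_value t₀ hreg₀ hP hc₀
    have h2 : InMax (Φ.red P) (C.ρ t₀) := inMax_of_ord_pos (by omega)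
    have h3 := h2.sub h1
    rw [sub_sub_cancel, inMax_algebraMap_iff] at h3
    exact h3
  set t : C.V := t₀ - C.const c₀ with ht
  have hρ : C.ρ t = C.ρ t₀ := by
    rw [ht, map_sub, C.ρ_const, hπ, map_zero, sub_zero]
  have hρ0 : C.ρ t ≠ 0 := by rwa [hρ]
  have ht0 : (t : F) ≠ 0 := C.ne_zero_of_ρ_ne_zero hρ0
  have hcoe : (t : F) = (t₀ : F) - algebraMap K F (c₀ : K) := by
    rw [ht]
    rfl
  have hreg : ∀ P' ∈ Φ.𝔉, 0 ≤ P'.ord (t : F) := fun P' hP' => by
    rw [hcoe]
    exact ord_nonneg_sub (hreg₀ P' hP') (ord_nonneg_const P' _)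
  have hpos : 0 < P.ord (t : F) := by
    rw [hcoe]
    exact hc₀.ord_pos (hcoe ▸ ht0)
  have hsum : ∑ᶠ P' ∈ Φ.𝔉, P'.ord (t : F) = 1 := by
    rw [Φ.FC t hρ0, hρ, Finset.sum_eq_single_of_mem (Φ.red P) (Φ.red_mem P)
      (fun Q' hQ' hne => hQ'₀ Q' hQ' hne), hQ₀]
  have hle : P.ord (t : F) ≤ 1 := by
    rw [← hsum, Φ.finsum_eq_sum _ ht0]
    have hmem : P ∈ (Φ.fin _ ht0).toFinset := by
      rw [Set.Finite.mem_toFinset]
      exact ⟨hP, hpos.ne'⟩
    refine Finset.single_le_sum (f := fun P' : Place K F => P'.ord (t : F)) (fun Q hQ => ?_) hmem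
    rw [Set.Finite.mem_toFinset] at hQ
    exact hreg Q hQ.1
  have hone : P.ord (t : F) = 1 := by omega
  refine ⟨t, hρ0, hreg, hone, fun P' hP' hne => ?_, by rw [hρ]; exact hQ₀,
    fun Q' hQ' hne => by rw [hρ]; exact hQ'₀ Q' hQ' hne⟩
  exact Φ.ord_eq_zero_of_finsum_le ht0 hreg hP (by rw [hsum, hone]) hP' hne

/-- **surjectivity** of the reduction map: every point of `𝔊` lifts to the tube. -/
theorem red_surj [Infinite k] {Q : Place k Fk} (hQ : Q ∈ Φ.𝔊) : ∃ P ∈ Φ.𝔉, Φ.red P = Q := by
  classical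
  obtain ⟨t, hreg, hQ1, hQ'⟩ := Φ.LP Q hQ
  have hρ0 : C.ρ t ≠ 0 := by
    intro h
    rw [h] at hQ1
    simp at hQ1
  have ht0 : (t : F) ≠ 0 := C.ne_zero_of_ρ_ne_zero hρ0
  have hsum : ∑ᶠ P' ∈ Φ.𝔉, P'.ord (t : F) = 1 := by
    rw [Φ.FC t hρ0, Finset.sum_eq_single_of_mem Q hQ (fun Q' hQ'' hne => hQ' Q' hQ'' hne), hQ1]
  rw [Φ.finsum_eq_sum _ ht0] at hsum
  obtain ⟨P, hPm, hPpos⟩ := Finset.exists_lt_of_sum_lt (f := fun _ => (0 : ℤ))
    (g := fun P : Place K F => P.ord (t : F)) (s := (Φ.fin _ ht0).toFinset)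
    (by simp [hsum])
  rw [Set.Finite.mem_toFinset] at hPm
  refine ⟨P, hPm.1, ?_⟩
  have hval : InMax P ((t : F) - algebraMap K F ((0 : C.A) : K)) := by
    simpa using inMax_of_ord_pos hPpos
  have h1 := Φ.red_value t hreg hPm.1 hval
  rw [map_zero, map_zero, sub_zero] at h1
  by_contra hne
  have h2 := hQ' (Φ.red P) (Φ.red_mem P) hne
  exact not_inMax_of_ord_eq_zero hρ0 h2 h1

/-- **regularity transfer**: the reduction of a function of `V` regular on the tube is
regular on `𝔊`. -/
theorem ord_ρ_nonneg [Infinite k] (b : C.V) (hreg : ∀ P ∈ Φ.𝔉, 0 ≤ P.ord (b : F))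
    {Q : Place k Fk} (hQ : Q ∈ Φ.𝔊) : 0 ≤ Q.ord (C.ρ b) := by
  obtain ⟨P, hP, rfl⟩ := Φ.red_surj hQ
  exact Φ.ord_ρ_nonneg_red b hreg hP

/-! ### Conservation of number, point by point -/

end Fibre

namespace Ctx

variable (C : Ctx K F k Fk)

theorem isUnit_of_ρ_ne_zero {u : C.V} (h : C.ρ u ≠ 0) : IsUnit u :=
  ⟨⟨u, C.inv u h, C.mul_inv u h, by rw [mul_comm]; exact C.mul_inv u h⟩, rfl⟩

theorem ρ_ne_zero_of_isUnit {u : C.V} (h : IsUnit u) : C.ρ u ≠ 0 :=
  (h.map C.ρ).ne_zero

theorem ρ_unit_ne_zero (w : C.Vˣ) : C.ρ (w : C.V) ≠ 0 := C.ρ_ne_zero_of_isUnit w.isUnit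

theorem coe_unit_ne_zero (w : C.Vˣ) : ((w : C.V) : F) ≠ 0 :=
  C.ne_zero_of_ρ_ne_zero (C.ρ_unit_ne_zero w)

theorem coe_unit_inv (w : C.Vˣ) : (((w⁻¹ : C.Vˣ) : C.V) : F) = (((w : C.V) : F))⁻¹ := by
  have h := congrArg (fun x : C.V => (x : F)) (Units.mul_inv w)
  simp only [Subring.coe_mul, Subring.coe_one] at h
  exact eq_inv_of_mul_eq_one_right h

theorem coe_unit_mul (w w' : C.Vˣ) :
    (((w * w' : C.Vˣ) : C.V) : F) = ((w : C.V) : F) * ((w' : C.V) : F) := rfl

theorem ρ_unit_inv (w : C.Vˣ) : C.ρ ((w⁻¹ : C.Vˣ) : C.V) = (C.ρ (w : C.V))⁻¹ := by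
  have h := congrArg C.ρ (Units.mul_inv w)
  rw [map_mul, map_one] at h
  exact eq_inv_of_mul_eq_one_right h

theorem coe_unit_zpow (w : C.Vˣ) (n : ℤ) :
    (((w ^ n : C.Vˣ) : C.V) : F) = (((w : C.V) : F)) ^ n := by
  induction n using Int.induction_on with
  | zero => simp
  | succ n ih =>
    rw [zpow_add_one, C.coe_unit_mul, ih, zpow_add_one₀ (C.coe_unit_ne_zero w)]
  | pred n ih =>
    rw [zpow_sub_one, C.coe_unit_mul, ih, C.coe_unit_inv, zpow_sub_one₀ (C.coe_unit_ne_zero w)]

theorem ρ_unit_zpow (w : C.Vˣ) (n : ℤ) :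
    C.ρ ((w ^ n : C.Vˣ) : C.V) = (C.ρ (w : C.V)) ^ n := by
  induction n using Int.induction_on with
  | zero => simp
  | succ n ih =>
    rw [zpow_add_one, Units.val_mul, map_mul, ih, zpow_add_one₀ (C.ρ_unit_ne_zero w)]
  | pred n ih =>
    rw [zpow_sub_one, Units.val_mul, map_mul, ih, C.ρ_unit_inv,
      zpow_sub_one₀ (C.ρ_unit_ne_zero w)]

end Ctx

namespace Fibre

variable {C : Ctx K F k Fk} (Φ : Fibre C)

/-- a unit of `V` without zeros and poles on the tube reduces to a unit at every point of `𝔊` -/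
theorem ord_ρ_unit_eq_zero [Infinite k] (w : C.Vˣ)
    (h : ∀ P ∈ Φ.𝔉, P.ord ((w : C.V) : F) = 0) {Q : Place k Fk} (hQ : Q ∈ Φ.𝔊) :
    Q.ord (C.ρ (w : C.V)) = 0 := by
  have h1 := Φ.ord_ρ_nonneg (w : C.V) (fun P hP => (h P hP).ge) hQ
  have h2 := Φ.ord_ρ_nonneg ((w⁻¹ : C.Vˣ) : C.V) (fun P hP => by
    rw [C.coe_unit_inv, P.ord_inv, h P hP]; simp) hQ
  rw [C.ρ_unit_inv, Q.ord_inv] at h2
  omega

open Classical in
/-- conservation of number for units, by induction on the zeros and poles in the tube -/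
theorem ord_ρ_unit_eq_sum [Infinite k] (T : Finset (Place K F)) :
    (∀ P ∈ T, P ∈ Φ.𝔉) → ∀ w : C.Vˣ, (∀ P ∈ Φ.𝔉, P.ord ((w : C.V) : F) ≠ 0 → P ∈ T) →
      ∀ Q ∈ Φ.𝔊, Q.ord (C.ρ (w : C.V)) = ∑ P ∈ T with Φ.red P = Q, P.ord ((w : C.V) : F) := by
  induction T using Finset.induction_on with
  | empty =>
    intro _ w hw Q hQ
    rw [Finset.filter_empty, Finset.sum_empty]
    refine Φ.ord_ρ_unit_eq_zero w (fun P hP => ?_) hQ
    by_contra h
    exact absurd (hw P hP h) (Finset.notMem_empty P)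
  | insert P₀ T hP₀ ih =>
    intro hT w hw Q hQ
    have hP₀𝔉 : P₀ ∈ Φ.𝔉 := hT P₀ (Finset.mem_insert_self _ _)
    have hT' : ∀ P ∈ T, P ∈ Φ.𝔉 := fun P hP => hT P (Finset.mem_insert_of_mem hP)
    obtain ⟨t, hρt, -, ht1, ht0, hQ1, hQ0⟩ := Φ.exists_localParam hP₀𝔉
    set τ : C.Vˣ := (C.isUnit_of_ρ_ne_zero hρt).unit with hτ
    have hτc : (τ : C.V) = t := IsUnit.unit_spec _
    set n : ℤ := P₀.ord ((w : C.V) : F) with hn
    set w' : C.Vˣ := w * τ ^ (-n) with hw'
    have hw0 : ((w : C.V) : F) ≠ 0 := C.coe_unit_ne_zero w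
    have hτ0 : ((τ : C.V) : F) ≠ 0 := C.coe_unit_ne_zero τ
    -- orders of `w'` on the tube
    have hord : ∀ P : Place K F, P.ord ((w' : C.V) : F)
        = P.ord ((w : C.V) : F) - n * P.ord ((τ : C.V) : F) := by
      intro P
      rw [hw', C.coe_unit_mul, C.coe_unit_zpow, P.ord_mul hw0 (zpow_ne_zero _ hτ0), P.ord_zpow]
      ring
    have hordQ : ∀ Q : Place k Fk, Q.ord (C.ρ (w' : C.V))
        = Q.ord (C.ρ (w : C.V)) - n * Q.ord (C.ρ (τ : C.V)) := by
      intro Q
      rw [hw', Units.val_mul, map_mul, C.ρ_unit_zpow,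
        Q.ord_mul (C.ρ_unit_ne_zero w) (zpow_ne_zero _ (C.ρ_unit_ne_zero τ)), Q.ord_zpow]
      ring
    have hw'T : ∀ P ∈ Φ.𝔉, P.ord ((w' : C.V) : F) ≠ 0 → P ∈ T := by
      intro P hP hne
      rw [hord P] at hne
      by_cases hPP : P = P₀
      · subst hPP
        rw [hτc, ht1] at hne
        simp [hn] at hne
      · rw [hτc, ht0 P hP hPP, mul_zero, sub_zero] at hne
        have := hw P hP hne
        rw [Finset.mem_insert] at this
        exact this.resolve_left hPP
    have key := ih hT' w' hw'T Q hQ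
    rw [hordQ Q] at key
    have hsum : ∑ P ∈ T with Φ.red P = Q, P.ord ((w' : C.V) : F)
        = ∑ P ∈ T with Φ.red P = Q, P.ord ((w : C.V) : F) := by
      refine Finset.sum_congr rfl fun P hP => ?_
      rw [Finset.mem_filter] at hP
      have hPP : P ≠ P₀ := fun h => hP₀ (h ▸ hP.1)
      rw [hord P, hτc, ht0 P (hT' P hP.1) hPP, mul_zero, sub_zero]
    rw [hsum] at key
    rw [Finset.filter_insert]
    split_ifs with hred
    · rw [Finset.sum_insert (fun h => hP₀ (Finset.mem_filter.mp h).1)]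
      rw [hτc, ← hred, hQ1] at key
      rw [← hn]
      rw [← hred]
      omega
    · rw [hτc, hQ0 Q hQ (fun h => hred h.symm)] at key
      omega

open Classical in
/-- **Conservation of number, point by point.**  For `u ∈ V` with `ρ u ≠ 0` and `Q ∈ 𝔊`:
`∑_{P ∈ 𝔉, r P = Q} ord_P u = ord_Q (ρ u)`. -/
theorem finsum_red_eq [Infinite k] (u : C.V) (hu : C.ρ u ≠ 0) {Q : Place k Fk} (hQ : Q ∈ Φ.𝔊) :
    ∑ᶠ P ∈ {P | P ∈ Φ.𝔉 ∧ Φ.red P = Q}, P.ord (u : F) = Q.ord (C.ρ u) := by
  have hu0 : (u : F) ≠ 0 := C.ne_zero_of_ρ_ne_zero hu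
  set T := (Φ.fin (u : F) hu0).toFinset with hT
  have hTmem : ∀ P, P ∈ T ↔ P ∈ Φ.𝔉 ∧ P.ord (u : F) ≠ 0 := fun P => by
    rw [hT, Set.Finite.mem_toFinset]
    exact Iff.rfl
  have key := Φ.ord_ρ_unit_eq_sum T (fun P hP => ((hTmem P).mp hP).1)
    (C.isUnit_of_ρ_ne_zero hu).unit (fun P hP hne => (hTmem P).mpr ⟨hP, by
      rwa [IsUnit.unit_spec] at hne⟩) Q hQ
  rw [IsUnit.unit_spec] at key
  rw [key]
  apply finsum_mem_eq_sum_of_inter_support_eq
  ext P
  simp only [Set.mem_inter_iff, Function.mem_support, ne_eq, Finset.coe_filter]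
  constructor
  · rintro ⟨⟨h1, h2⟩, h3⟩
    exact ⟨⟨(hTmem P).mpr ⟨h1, h3⟩, h2⟩, h3⟩
  · rintro ⟨⟨h1, h2⟩, h3⟩
    exact ⟨⟨((hTmem P).mp h1).1, h2⟩, h3⟩

/-- **Main theorem of the fibre-local core.** -/
theorem exists_red [Infinite k] :
    ∃ r : Place K F → Place k Fk,
      (∀ P, r P ∈ Φ.𝔊) ∧
      (∀ Q ∈ Φ.𝔊, ∃ P ∈ Φ.𝔉, r P = Q) ∧
      (∀ b : C.V, (∀ P ∈ Φ.𝔉, 0 ≤ P.ord (b : F)) → ∀ P ∈ Φ.𝔉, ∀ c : C.A,
        InMax P ((b : F) - algebraMap K F (c : K)) →
          InMax (r P) (C.ρ b - algebraMap k Fk (C.π c))) ∧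
      (∀ u : C.V, C.ρ u ≠ 0 → ∀ Q ∈ Φ.𝔊,
        ∑ᶠ P ∈ {P | P ∈ Φ.𝔉 ∧ r P = Q}, P.ord (u : F) = Q.ord (C.ρ u)) :=
  ⟨Φ.red, Φ.red_mem, fun _ hQ => Φ.red_surj hQ,
    fun b hreg _ hP _ hc => Φ.red_value b hreg hP hc,
    fun u hu _ hQ => Φ.finsum_red_eq u hu hQ⟩

end Fibre

end Fermat.Agent.S37.H940

end
end
-- ===== PACK-END S37/H940/Core.lean

-- ===== PACK-BEGIN S37/H940/Assembly.lean
section




/-!
# S37 / RIM (helper940): assembling the fibres into a global place reduction map

If the places of `F` and of `F_k` are partitioned into fibres `(𝔉 i, 𝔊 i)` each satisfying the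
hypotheses of the fibre-local core, the fibre-local reduction maps glue to a map
`r : Place K F → Place k F_k` such that, for every `u ∈ V` with `ρ u ≠ 0` and every divisor `D`
with `D = div u`,  `r_* D = div (ρ u)`  — the shape of clause (ii) of the Prelude's
`ModularCurve.IsPlaceReductionAlong`.  Degrees are preserved as soon as residue fields are trivial.
-/

set_option autoImplicit false

noncomputable section

namespace Fermat.Agent.S37.H940

open AlgebraicCurve
open Fermat.Agent.S24.FF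

variable {K F k Fk : Type*} [Field K] [Field F] [Algebra K F] [Field k] [Field Fk]
  [Algebra k Fk]

/-- `Finsupp.mapDomain` evaluated at a point, as a sum over the support. -/
theorem mapDomain_apply_eq_sum {α β : Type*} [DecidableEq β] (r : α → β) (D : α →₀ ℤ) (Q : β) :
    Finsupp.mapDomain r D Q = ∑ P ∈ D.support, if r P = Q then D P else 0 := by
  rw [Finsupp.mapDomain, Finsupp.sum_apply, Finsupp.sum]
  refine Finset.sum_congr rfl fun P _ => ?_
  rw [Finsupp.single_apply]

/-- a place all of whose regular functions have a value in `K` has degree one -/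
theorem deg_eq_one_of_res (P : Place K F)
    (h : ∀ f : F, 0 ≤ P.ord f → ∃ c : K, InMax P (f - algebraMap K F c)) : P.deg = 1 := by
  unfold Place.deg
  rw [finrank_eq_one_iff_of_nonzero' (1 : P.ResidueField) one_ne_zero]
  intro w
  obtain ⟨f, rfl⟩ := IsLocalRing.residue_surjective (R := P.toValuationSubring) w
  obtain ⟨c, hc⟩ := h (f : F) (ord_nonneg_of_mem P f.2)
  refine ⟨c, ?_⟩
  rw [Algebra.smul_def, mul_one]
  rw [inMax_iff_exists_mem_maximalIdeal] at hc
  obtain ⟨hmem, hmax⟩ := hc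
  have e : (⟨(f : F) - algebraMap K F c, hmem⟩ : P.toValuationSubring)
      = f - algebraMap K P.toValuationSubring c := by
    apply Subtype.ext
    rfl
  rw [e, ← IsLocalRing.residue_eq_zero_iff, map_sub, sub_eq_zero] at hmax
  rw [hmax]
  rfl

/-- A partition of the places of `F` and of `F_k` into fibres. -/
structure Atlas (C : Ctx K F k Fk) (ι : Type*) where
  /-- the fibres -/
  Φ : ι → Fibre C
  cover : ∀ P : Place K F, ∃ i, P ∈ (Φ i).𝔉
  disj : ∀ i j, ∀ P : Place K F, P ∈ (Φ i).𝔉 → P ∈ (Φ j).𝔉 → i = j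
  cover' : ∀ Q : Place k Fk, ∃ i, Q ∈ (Φ i).𝔊
  disj' : ∀ i j, ∀ Q : Place k Fk, Q ∈ (Φ i).𝔊 → Q ∈ (Φ j).𝔊 → i = j

namespace Atlas

variable {C : Ctx K F k Fk} {ι : Type*} (𝔄 : Atlas C ι)

/-- the index of the fibre of a place of `F` -/
def idx (P : Place K F) : ι := (𝔄.cover P).choose

theorem mem_idx (P : Place K F) : P ∈ (𝔄.Φ (𝔄.idx P)).𝔉 := (𝔄.cover P).choose_spec

theorem idx_eq {P : Place K F} {i : ι} (h : P ∈ (𝔄.Φ i).𝔉) : 𝔄.idx P = i :=
  𝔄.disj _ _ P (𝔄.mem_idx P) h

/-- **The global reduction map.** -/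
def red (P : Place K F) : Place k Fk := (𝔄.Φ (𝔄.idx P)).red P

theorem red_eq {P : Place K F} {i : ι} (h : P ∈ (𝔄.Φ i).𝔉) : 𝔄.red P = (𝔄.Φ i).red P := by
  unfold red
  rw [𝔄.idx_eq h]

theorem red_mem {P : Place K F} {i : ι} (h : P ∈ (𝔄.Φ i).𝔉) : 𝔄.red P ∈ (𝔄.Φ i).𝔊 := by
  rw [𝔄.red_eq h]
  exact (𝔄.Φ i).red_mem P

theorem mem_of_red_mem {P : Place K F} {i : ι} (h : 𝔄.red P ∈ (𝔄.Φ i).𝔊) :
    P ∈ (𝔄.Φ i).𝔉 := by
  have h1 := 𝔄.red_mem (𝔄.mem_idx P)
  have := 𝔄.disj' _ _ _ h1 h
  rw [← this]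
  exact 𝔄.mem_idx P

theorem red_surj [Infinite k] (Q : Place k Fk) : ∃ P, 𝔄.red P = Q := by
  obtain ⟨i, hi⟩ := 𝔄.cover' Q
  obtain ⟨P, hP, hPQ⟩ := (𝔄.Φ i).red_surj hi
  exact ⟨P, by rw [𝔄.red_eq hP, hPQ]⟩

/-- value compatibility of the global reduction map -/
theorem red_value [Infinite k] {i : ι} (b : C.V)
    (hreg : ∀ P ∈ (𝔄.Φ i).𝔉, 0 ≤ P.ord (b : F)) {P : Place K F} (hP : P ∈ (𝔄.Φ i).𝔉)
    {c : C.A} (hc : InMax P ((b : F) - algebraMap K F (c : K))) :
    InMax (𝔄.red P) (C.ρ b - algebraMap k Fk (C.π c)) := by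
  rw [𝔄.red_eq hP]
  exact (𝔄.Φ i).red_value b hreg hP hc

open Classical in
/-- **Specialisation of principal divisors** (clause (ii) of `IsPlaceReductionAlong`):
`r_* div u = div (ρ u)` for every `u ∈ V` with `ρ u ≠ 0`. -/
theorem mapDomain_red [Infinite k] (u : C.V) (hu : C.ρ u ≠ 0) (D : Divisor K F)
    (hD : ∀ P, D P = P.ord (u : F)) (Q : Place k Fk) :
    Finsupp.mapDomain 𝔄.red D Q = Q.ord (C.ρ u) := by
  obtain ⟨i, hi⟩ := 𝔄.cover' Q
  rw [← (𝔄.Φ i).finsum_red_eq u hu hi, mapDomain_apply_eq_sum]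
  symm
  rw [← Finset.sum_filter]
  have hsum : ∑ P ∈ D.support with 𝔄.red P = Q, D P
      = ∑ P ∈ D.support with 𝔄.red P = Q, P.ord (u : F) :=
    Finset.sum_congr rfl fun P _ => hD P
  rw [hsum]
  apply finsum_mem_eq_sum_of_inter_support_eq
  ext P
  simp only [Set.mem_inter_iff, Function.mem_support, ne_eq, Finset.coe_filter,
    Finsupp.mem_support_iff]
  constructor
  · rintro ⟨⟨h1, h2⟩, h3⟩
    refine ⟨⟨?_, ?_⟩, h3⟩
    · rw [hD P]; exact h3
    · rw [𝔄.red_eq h1]; exact h2
  · rintro ⟨⟨h1, h2⟩, h3⟩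
    have hP : P ∈ (𝔄.Φ i).𝔉 := 𝔄.mem_of_red_mem (by rw [h2]; exact hi)
    refine ⟨⟨hP, ?_⟩, h3⟩
    rw [← 𝔄.red_eq hP]; exact h2

/-- **Existence of the place reduction map** from an atlas of fibres. -/
theorem exists_red [Infinite k] (𝔄 : Atlas C ι)
    (hresK : ∀ (P : Place K F) (f : F), 0 ≤ P.ord f → ∃ c : K, InMax P (f - algebraMap K F c))
    (hresk : ∀ (Q : Place k Fk) (g : Fk), 0 ≤ Q.ord g →
      ∃ a : k, InMax Q (g - algebraMap k Fk a)) :
    ∃ r : Place K F → Place k Fk,
      (∀ P, (r P).deg = P.deg) ∧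
      (∀ u : C.V, C.ρ u ≠ 0 → ∀ D : Divisor K F, (∀ P, D P = P.ord (u : F)) →
        ∀ Q, Finsupp.mapDomain r D Q = Q.ord (C.ρ u)) :=
  ⟨𝔄.red, fun P => by
      rw [deg_eq_one_of_res P (hresK P), deg_eq_one_of_res (𝔄.red P) (hresk _)],
    fun u hu D hD Q => 𝔄.mapDomain_red u hu D hD Q⟩

end Atlas

end Fermat.Agent.S37.H940

end
end
-- ===== PACK-END S37/H940/Assembly.lean

-- ===== PACK-BEGIN Lib/RR/H623/WeakApprox.lean
section




/-!
# Shared library RR (helper623): the weak approximation theorem for places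

Prelude language (`AlgebraicCurve.Place`).  For finitely many places `v ∈ s`, targets `x v : F`
and orders `r v : ℤ` there is `z : F` with `ord_v (z - x v) = r v` for all `v ∈ s`
(Stichtenoth, Thm. 1.3.1).  No hypothesis on `K`, `F`.

* `Big v r f` : `f = 0 ∨ r ≤ ord_v f` with its calculus
* `exists_near_one`, `exists_approx`, `weak_approximation`, `weak_approximation_ge`
-/

set_option autoImplicit false

noncomputable section

namespace Fermat.Agent.Lib.RR.H623

open AlgebraicCurve Fermat.Agent.S24.H117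

variable {K F : Type*} [Field K] [Field F] [Algebra K F]

/-- `f = 0` or `r ≤ ord_v f`. -/
def Big (v : Place K F) (r : ℤ) (f : F) : Prop := f = 0 ∨ r ≤ v.ord f

namespace Big

variable {v : Place K F} {r s : ℤ} {f g : F}

theorem zero (v : Place K F) (r : ℤ) : Big v r (0 : F) := Or.inl rfl

theorem of_le (hf : r ≤ v.ord f) : Big v r f := Or.inr hf

theorem le_ord (h : Big v r f) (hf : f ≠ 0) : r ≤ v.ord f := h.resolve_left hf

theorem mono (h : Big v r f) (hsr : s ≤ r) : Big v s f := by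
  rcases h with h | h
  · exact Or.inl h
  · exact Or.inr (hsr.trans h)

theorem neg (h : Big v r f) : Big v r (-f) := by
  rcases h with h | h
  · exact Or.inl (by rw [h, neg_zero])
  · exact Or.inr (by rwa [_root_.Fermat.Agent.S24.H117.ord_neg])

theorem add (hf : Big v r f) (hg : Big v r g) : Big v r (f + g) := by
  rcases eq_or_ne (f + g) 0 with h0 | h0
  · exact Or.inl h0
  rcases hf with rfl | hf
  · rwa [zero_add]
  rcases hg with rfl | hg
  · rw [add_zero]; exact Or.inr hf
  exact Or.inr ((le_min hf hg).trans (ord_add_ge v h0))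

theorem sub (hf : Big v r f) (hg : Big v r g) : Big v r (f - g) := by
  rw [sub_eq_add_neg]; exact hf.add hg.neg

theorem mul (hf : Big v r f) (hg : Big v s g) : Big v (r + s) (f * g) := by
  rcases hf with rfl | hf
  · exact Or.inl (zero_mul _)
  rcases hg with rfl | hg
  · exact Or.inl (mul_zero _)
  rcases eq_or_ne f 0 with rfl | hf0
  · exact Or.inl (zero_mul _)
  rcases eq_or_ne g 0 with rfl | hg0
  · exact Or.inl (mul_zero _)
  refine Or.inr ?_
  rw [v.ord_mul hf0 hg0]
  omega

theorem sum {ι : Type*} (t : Finset ι) (φ : ι → F) (h : ∀ i ∈ t, Big v r (φ i)) :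
    Big v r (∑ i ∈ t, φ i) := by
  classical
  induction t using Finset.induction_on with
  | empty => simp [zero]
  | insert a t ha ih =>
    rw [Finset.sum_insert ha]
    exact (h a (Finset.mem_insert_self _ _)).add
      (ih fun i hi => h i (Finset.mem_insert_of_mem hi))

theorem self (v : Place K F) (f : F) : Big v (v.ord f) f := Or.inr le_rfl

end Big

theorem big_iff_adicValuation_le {v : Place K F} {r : ℤ} {f : F} :
    Big v r f ↔ v.adicValuation f ≤ WithZero.exp (-r) := by
  rw [Place.adicValuation_le_exp_iff, neg_neg]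
  rfl

/-- **Step 2**: an element close to `1` at `v` and close to `0` at the places of `s`. -/
theorem exists_near_one (v : Place K F) (s : Finset (Place K F)) (hv : v ∉ s) (r : ℤ) :
    ∃ w : F, Big v r (w - 1) ∧ ∀ w' ∈ s, Big w' r w := by
  obtain ⟨u, hu1, hu2⟩ := exists_ord_pos_forall_neg v s hv
  obtain ⟨n, hn1, hnr⟩ : ∃ n : ℕ, 1 ≤ n ∧ r ≤ (n : ℤ) :=
    ⟨r.toNat + 1, by omega, by have := Int.self_le_toNat r; push_cast; omega⟩
  have hn1' : (1 : ℤ) ≤ n := by exact_mod_cast hn1
  have hu0 : u ≠ 0 := _root_.Fermat.Agent.S24.H117.ne_zero_of_ord_ne_zero v hu1.ne'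
  set t : F := u ^ n with ht
  have ht0 : t ≠ 0 := pow_ne_zero _ hu0
  have hvt : (n : ℤ) ≤ v.ord t := by
    rw [ht, _root_.Fermat.Agent.S24.H117.ord_pow]
    nlinarith
  have h1t : v.ord (1 + t) = 0 := by
    have := _root_.Fermat.Agent.S24.H117.ord_add_eq_of_lt v (f := (1 : F)) (g := t) (by rw [v.ord_one]; omega) one_ne_zero
    rw [this, v.ord_one]
  have hne : (1 : F) + t ≠ 0 := by
    intro h0
    have ht1 : t = -1 := eq_neg_of_add_eq_zero_right h0
    have : v.ord t = 0 := by rw [ht1, _root_.Fermat.Agent.S24.H117.ord_neg, v.ord_one]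
    omega
  refine ⟨(1 + t)⁻¹, ?_, ?_⟩
  · have hw : (1 + t)⁻¹ - 1 = -(t / (1 + t)) := by
      field_simp
      ring
    rw [hw]
    apply Big.neg
    apply Big.of_le
    rw [ord_div v ht0 hne, h1t]
    omega
  · intro w' hw'
    have hw't : w'.ord t ≤ -(n : ℤ) := by
      rw [ht, _root_.Fermat.Agent.S24.H117.ord_pow]
      have := hu2 w' hw'
      nlinarith
    have h1 : w'.ord (t + 1) = w'.ord t :=
      _root_.Fermat.Agent.S24.H117.ord_add_eq_of_lt w' (by rw [w'.ord_one]; omega) ht0
    apply Big.of_le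
    rw [w'.ord_inv, add_comm, h1]
    omega

/-- **Step 3**: simultaneous approximation of arbitrary targets to arbitrary precision. -/
theorem exists_approx (s : Finset (Place K F)) (y : Place K F → F) (r : ℤ) :
    ∃ z : F, ∀ v ∈ s, Big v r (z - y v) := by
  classical
  -- a uniform lower bound for the orders of the targets
  set M : ℤ := ∑ v ∈ s, ∑ v' ∈ s, |v.ord (y v')| with hM
  have hMbound : ∀ v ∈ s, ∀ v' ∈ s, Big v (-M) (y v') := by
    intro v hv v' hv'
    apply Big.of_le
    have h1 : |v.ord (y v')| ≤ ∑ v'' ∈ s, |v.ord (y v'')| :=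
      Finset.single_le_sum (f := fun v'' => |v.ord (y v'')|) (fun _ _ => abs_nonneg _) hv'
    have h2 : ∑ v'' ∈ s, |v.ord (y v'')| ≤ M :=
      Finset.single_le_sum (f := fun v₀ : Place K F => ∑ v'' ∈ s, |v₀.ord (y v'')|)
        (fun _ _ => Finset.sum_nonneg fun _ _ => abs_nonneg _) hv
    have h3 := neg_abs_le (v.ord (y v'))
    omega
  have hex : ∀ v : Place K F, ∃ w : F, Big v (r + M) (w - 1) ∧
      ∀ w' ∈ s.erase v, Big w' (r + M) w :=
    fun v => exists_near_one v (s.erase v) (Finset.notMem_erase v s) (r + M)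
  choose w hw1 hw2 using hex
  refine ⟨∑ v' ∈ s, y v' * w v', fun v hv => ?_⟩
  have hsplit : ∑ v' ∈ s, y v' * w v' - y v =
      y v * (w v - 1) + ∑ v' ∈ s.erase v, y v' * w v' := by
    rw [← Finset.add_sum_erase s _ hv]
    ring
  rw [hsplit]
  refine Big.add ?_ (Big.sum _ _ fun v' hv' => ?_)
  · have := (hMbound v hv v hv).mul (hw1 v)
    exact this.mono (by omega)
  · have hv's : v' ∈ s := Finset.mem_of_mem_erase hv'
    have hvv' : v ∈ s.erase v' :=
      Finset.mem_erase.mpr ⟨(Finset.ne_of_mem_erase hv').symm, hv⟩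
    have := (hMbound v hv v' hv's).mul (hw2 v' v hvv')
    exact this.mono (by omega)

theorem exists_ord_eq' (v : Place K F) (n : ℤ) : ∃ c : F, c ≠ 0 ∧ v.ord c = n := by
  obtain ⟨π, hπ0, hπ1⟩ := _root_.Fermat.Agent.S24.H117.exists_ord_eq_one v
  refine ⟨π ^ n, zpow_ne_zero _ hπ0, ?_⟩
  rw [v.ord_zpow, hπ1, mul_one]

/-- **Weak approximation theorem**, exact orders. -/
theorem weak_approximation (s : Finset (Place K F)) (x : Place K F → F) (r : Place K F → ℤ) :
    ∃ z : F, ∀ v ∈ s, z - x v ≠ 0 ∧ v.ord (z - x v) = r v := by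
  classical
  choose c hc0 hc using fun v : Place K F => exists_ord_eq' v (r v)
  set R : ℤ := ∑ v ∈ s, |r v| + 1 with hR
  have hRbound : ∀ v ∈ s, r v < R := by
    intro v hv
    have h1 : |r v| ≤ ∑ v' ∈ s, |r v'| :=
      Finset.single_le_sum (f := fun v' => |r v'|) (fun _ _ => abs_nonneg _) hv
    have h2 := le_abs_self (r v)
    omega
  obtain ⟨z, hz⟩ := exists_approx s (fun v => x v + c v) R
  refine ⟨z, fun v hv => ?_⟩
  have hdecomp : z - x v = c v + (z - (x v + c v)) := by ring
  have hlt : ∀ e : F, Big v R e → v.ord (c v + e) = v.ord (c v) := by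
    intro e he
    rcases eq_or_ne e 0 with rfl | he0
    · rw [add_zero]
    · exact _root_.Fermat.Agent.S24.H117.ord_add_eq_of_lt v (by have := he.le_ord he0; have := hRbound v hv; rw [hc v]; omega)
        (hc0 v)
  have hord : v.ord (z - x v) = r v := by
    rw [hdecomp, hlt _ (hz v hv), hc v]
  refine ⟨?_, hord⟩
  intro h0
  rcases hz v hv with h | h
  · have : z - x v = c v := by rw [hdecomp, h, add_zero]
    exact hc0 v (this ▸ h0)
  · have h1 : z - (x v + c v) = -(c v) := by
      have : z - (x v + c v) = (z - x v) - c v := by ring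
      rw [this, h0, zero_sub]
    rw [h1, _root_.Fermat.Agent.S24.H117.ord_neg, hc v] at h
    have := hRbound v hv
    omega

/-- **Weak approximation theorem**, `≥` form. -/
theorem weak_approximation_ge (s : Finset (Place K F)) (x : Place K F → F)
    (r : Place K F → ℤ) : ∃ z : F, ∀ v ∈ s, Big v (r v) (z - x v) := by
  obtain ⟨z, hz⟩ := weak_approximation s x r
  exact ⟨z, fun v hv => Big.of_le (hz v hv).2.ge⟩

end Fermat.Agent.Lib.RR.H623

end
end
-- ===== PACK-END Lib/RR/H623/WeakApprox.lean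

-- ===== PACK-BEGIN S37/H697/Unique.lean
section



/-!
# S37 (helper697): uniqueness of place reductions from a Riemann bound

`RiemannBound K F` : every divisor class of degree `0` of `F/K` contains a divisor of bounded
`ℓ¹`-norm (a consequence of Riemann's inequality: every class of degree `0` contains `E - g • P₀`
with `E ≥ 0` of degree `g`).

Under a Riemann bound, an additive map on divisors which kills principal divisors and is bounded
on places vanishes on divisors of degree zero (`eq_zero_of_kills_principal`).  This gives the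
uniqueness statement of the Prelude (`IsPlaceReductionAlong.eq_or_const_of_agree`,
`IsPlaceReductionAlong.eq_of_agree`) WITHOUT the divisibility hypothesis `hdiv` on `Pic⁰`.
-/

set_option autoImplicit false

noncomputable section

open HahnSeries IntermediateField AlgebraicCurve ModularCurve

namespace Fermat.Agent.S37.H697

section General

variable (K F : Type*) [Field K] [Field F] [Algebra K F]

/-- Every divisor of degree `0` is linearly equivalent to a divisor of `ℓ¹`-norm `≤ B`. -/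
def RiemannBound : Prop :=
  ∃ B : ℕ, ∀ D : Divisor K F, Divisor.degree D = 0 →
    ∃ E : Divisor K F, l1norm E ≤ B ∧ D - E ∈ Divisor.principal (K := K) (F := F)

variable {K F}

/-- Under a Riemann bound, a bounded additive map on divisors killing principal divisors kills
all divisors of degree zero. -/
theorem eq_zero_of_kills_principal {Y : Type*} (hR : RiemannBound K F)
    (δ : Divisor K F →+ (Y →₀ ℤ))
    (hprin : ∀ D ∈ Divisor.principal (K := K) (F := F), δ D = 0)
    (C : ℕ) (hC : ∀ P : Place K F, l1norm (δ (Finsupp.single P 1)) ≤ C)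
    (D : Divisor K F) (hD : Divisor.degree D = 0) : δ D = 0 := by
  obtain ⟨B, hB⟩ := hR
  refine eq_zero_of_bounded δ (Divisor.principal (K := K) (F := F)) hprin C hC D B ?_
  intro n
  have hn : Divisor.degree (n • D) = 0 := by rw [map_nsmul, hD, smul_zero]
  exact hB (n • D) hn

end General

section Uniqueness

variable {L : Type*} [Field L] [Algebra ℚ L] {A : ValuationSubring L}
variable {k : Type*} [Field k] {π : A →+* k} {N : ℕ}

/-- Two maps on places which agree (after push-forward) on integral principal divisors agree on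
all divisors of degree zero.  No divisibility of `Pic⁰` is needed, only a Riemann bound. -/
theorem mapDomain_eq_of_agree
    {r₁ r₂ : Place L (laurentBaseChange L (modularFunctionFieldFull N)) →
      Place k (modularFunctionFieldFullC k N)}
    (hgen : PrincipalGeneratedByIntegral A π N)
    (hagree : ∀ D ∈ integralPrincipalDivisors A π N,
      Finsupp.mapDomain r₁ D = Finsupp.mapDomain r₂ D)
    (hR : RiemannBound L (laurentBaseChange L (modularFunctionFieldFull N)))
    (D : Divisor L (laurentBaseChange L (modularFunctionFieldFull N)))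
    (hD : Divisor.degree D = 0) :
    Finsupp.mapDomain r₁ D = Finsupp.mapDomain r₂ D := by
  classical
  set δ : Divisor L (laurentBaseChange L (modularFunctionFieldFull N)) →+
      Divisor k (modularFunctionFieldFullC k N) :=
    Finsupp.mapDomain.addMonoidHom r₁ - Finsupp.mapDomain.addMonoidHom r₂ with hδ
  have hδapp : ∀ D, δ D = Finsupp.mapDomain r₁ D - Finsupp.mapDomain r₂ D := fun D => rfl
  have hδprin : ∀ D ∈ Divisor.principal (K := L)
      (F := laurentBaseChange L (modularFunctionFieldFull N)), δ D = 0 := by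
    intro D hD
    have hD' := hgen hD
    clear hD
    induction hD' using AddSubgroup.closure_induction with
    | mem E hE => rw [hδapp, hagree E hE, sub_self]
    | zero => exact map_zero δ
    | add E E' _ _ hE hE' => rw [map_add, hE, hE', add_zero]
    | neg E _ hE => rw [map_neg, hE, neg_zero]
  have hC : ∀ P : Place L (laurentBaseChange L (modularFunctionFieldFull N)),
      l1norm (δ (Finsupp.single P 1)) ≤ 2 := by
    intro P
    rw [hδapp, Finsupp.mapDomain_single, Finsupp.mapDomain_single]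
    refine (l1norm_sub_le _ _).trans ?_
    rw [l1norm_single, l1norm_single]
    simp
  have h0 := eq_zero_of_kills_principal hR δ hδprin 2 hC D hD
  rw [hδapp, sub_eq_zero] at h0
  exact h0

/-- Variant of the Prelude's `IsPlaceReductionAlong.eq_or_const_of_agree` with a Riemann bound
instead of divisibility of `Pic⁰`. -/
theorem eq_or_const_of_agree
    {r₁ r₂ : Place L (laurentBaseChange L (modularFunctionFieldFull N)) →
      Place k (modularFunctionFieldFullC k N)}
    (hgen : PrincipalGeneratedByIntegral A π N)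
    (hagree : ∀ D ∈ integralPrincipalDivisors A π N,
      Finsupp.mapDomain r₁ D = Finsupp.mapDomain r₂ D)
    (hdeg : ∀ P : Place L (laurentBaseChange L (modularFunctionFieldFull N)), P.deg = 1)
    (hR : RiemannBound L (laurentBaseChange L (modularFunctionFieldFull N))) :
    r₁ = r₂ ∨ ∀ P Q, r₁ P = r₁ Q := by
  classical
  have hconst : ∀ P Q : Place L (laurentBaseChange L (modularFunctionFieldFull N)),
      Finsupp.single (r₁ P) (1 : ℤ) - Finsupp.single (r₂ P) 1 =
        Finsupp.single (r₁ Q) 1 - Finsupp.single (r₂ Q) 1 := by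
    intro P Q
    have hPQ : Divisor.degree (Finsupp.single P (1 : ℤ) - Finsupp.single Q 1 :
        Divisor L (laurentBaseChange L (modularFunctionFieldFull N))) = 0 := by
      rw [map_sub, Divisor.degree_single, Divisor.degree_single, hdeg, hdeg, sub_self]
    have h := mapDomain_eq_of_agree hgen hagree hR _ hPQ
    rw [Finsupp.mapDomain_sub, Finsupp.mapDomain_sub, Finsupp.mapDomain_single,
      Finsupp.mapDomain_single, Finsupp.mapDomain_single, Finsupp.mapDomain_single] at h
    exact sub_eq_sub_iff_sub_eq_sub.mpr h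
  rw [or_iff_not_imp_left]
  intro hne
  obtain ⟨P₀, hP₀⟩ : ∃ P₀, r₁ P₀ ≠ r₂ P₀ := by
    by_contra hall
    push Not at hall
    exact hne (funext hall)
  have hr₁const : ∀ Q, r₁ Q = r₁ P₀ := by
    intro Q
    have h := congrArg (fun E => E (r₁ P₀)) (hconst Q P₀)
    simp only [Finsupp.sub_apply, Finsupp.single_apply, if_neg (Ne.symm hP₀)] at h
    by_contra hQ
    rw [if_neg hQ] at h
    split_ifs at h <;> omega
  exact fun P Q => (hr₁const P).trans (hr₁const Q).symm

/-- Variant of the Prelude's `IsPlaceReductionAlong.eq_of_agree` with a Riemann bound instead of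
divisibility of `Pic⁰`. -/
theorem eq_of_agree
    {r₁ r₂ : Place L (laurentBaseChange L (modularFunctionFieldFull N)) →
      Place k (modularFunctionFieldFullC k N)}
    (hgen : PrincipalGeneratedByIntegral A π N)
    (hagree : ∀ D ∈ integralPrincipalDivisors A π N,
      Finsupp.mapDomain r₁ D = Finsupp.mapDomain r₂ D)
    (hdeg : ∀ P : Place L (laurentBaseChange L (modularFunctionFieldFull N)), P.deg = 1)
    (hprin0 : ∀ D ∈ Divisor.principal (K := L)
      (F := laurentBaseChange L (modularFunctionFieldFull N)), Divisor.degree D = 0)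
    (hR : RiemannBound L (laurentBaseChange L (modularFunctionFieldFull N)))
    (hnc : ∃ D ∈ Divisor.principal (K := L)
      (F := laurentBaseChange L (modularFunctionFieldFull N)), Finsupp.mapDomain r₁ D ≠ 0) :
    r₁ = r₂ := by
  rcases eq_or_const_of_agree hgen hagree hdeg hR with h | hconst
  · exact h
  obtain ⟨D, hDprin, hDne⟩ := hnc
  obtain ⟨P₀⟩ : Nonempty (Place L (laurentBaseChange L (modularFunctionFieldFull N))) := by
    by_contra hempty
    rw [not_nonempty_iff] at hempty
    exact hDne (by rw [Subsingleton.elim D 0, Finsupp.mapDomain_zero])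
  exfalso
  apply hDne
  have hmapconst : ∀ D : Divisor L (laurentBaseChange L (modularFunctionFieldFull N)),
      Finsupp.mapDomain r₁ D = Finsupp.single (r₁ P₀) (Divisor.degree D) := by
    intro D
    induction D using Finsupp.induction with
    | zero => simp
    | single_add P n D _ _ ih =>
      rw [Finsupp.mapDomain_add, ih, Finsupp.mapDomain_single, hconst P P₀, map_add,
        Divisor.degree_single, hdeg, Nat.cast_one, mul_one, ← Finsupp.single_add, add_comm]
  rw [hmapconst D, hprin0 D hDprin, Finsupp.single_zero]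

end Uniqueness

end Fermat.Agent.S37.H697

end
end
-- ===== PACK-END S37/H697/Unique.lean

-- ===== PACK-BEGIN S37/H697/Equivariant.lean
section



/-!
# S37 (helper697): Galois-equivariance of place reductions

Let `r` be a place reduction (`IsPlaceReductionAlong` + `PrincipalGeneratedByIntegral`) and let
`σ` be an automorphism of `L` preserving the valuation ring `A` and inducing the automorphism `φ`
on the residue field.  Then `r (σ • P) = Φ_φ • r P` for every place `P`, where `Φ_φ = coeffSL N φ`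
is the coefficientwise action of `φ`.  (Inertia: `φ = id`; Frobenius: `φ = Frob`.)

The proof uses the uniqueness of place reductions under a Riemann bound (`Unique.lean`);
no explicit description of `r` is needed.
-/

set_option autoImplicit false

noncomputable section

open HahnSeries IntermediateField AlgebraicCurve ModularCurve

namespace Fermat.Agent.S37.H697

variable {L : Type*} [Field L] [Algebra ℚ L] {A : ValuationSubring L}
variable {k : Type*} [Field k] {π : A →+* k} {N : ℕ}

/-- The restriction to `A` of an automorphism of `L` preserving `A`. -/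
def restrictHom (σ : L ≃ₐ[ℚ] L) (hσ : ∀ a ∈ A, σ a ∈ A) : A →+* A where
  toFun a := ⟨σ a, hσ a a.2⟩
  map_one' := Subtype.ext (map_one σ)
  map_mul' a b := Subtype.ext (map_mul σ (a : L) (b : L))
  map_zero' := Subtype.ext (map_zero σ)
  map_add' a b := Subtype.ext (map_add σ (a : L) (b : L))

theorem coeffMap_injective_of_injective {R S : Type*} [CommRing R] [CommRing S] (f : R →+* S)
    (hf : Function.Injective f) : Function.Injective (coeffMap f) := by
  intro x y h
  ext n
  apply hf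
  have := congrArg (fun z => z.coeff n) h
  simpa using this

/-- Transport of integral principal divisors by an automorphism preserving `A`. -/
theorem smul_integral_divisor
    {r : Place L (laurentBaseChange L (modularFunctionFieldFull N)) →
      Place k (modularFunctionFieldFullC k N)}
    (hr : IsPlaceReductionAlong A π N r)
    (σ : L ≃ₐ[ℚ] L) (hσ : ∀ a ∈ A, σ a ∈ A)
    (φ : k ≃+* k) (hφ : ∀ a : A, π ⟨σ a, hσ a a.2⟩ = φ (π a))
    {D : Divisor L (laurentBaseChange L (modularFunctionFieldFull N))}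
    (hD : D ∈ integralPrincipalDivisors A π N) :
    Finsupp.mapDomain r (arithmeticGalois (modularFunctionFieldFull N) σ • D)
      = coeffSL N φ • Finsupp.mapDomain r D := by
  obtain ⟨y, hy, hyk, hne, hDy⟩ := hD
  set g := arithmeticGalois (modularFunctionFieldFull N) σ with hg
  set Φ := coeffSL N φ with hΦ
  -- the transported integral function
  set y' : LaurentSeries A := coeffMap (restrictHom σ hσ) y with hy'def
  have h1 : coeffMap A.subtype y' = coeffMap (σ : L →+* L) (coeffMap A.subtype y) := by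
    rw [hy'def, coeffMap_coeffMap, coeffMap_coeffMap]
    exact coeffMap_congr (RingHom.ext fun a => rfl) y
  have hy' : coeffMap A.subtype y' ∈ laurentBaseChange L (modularFunctionFieldFull N) := by
    rw [h1]; exact coeffMap_mem_laurentBaseChange σ hy
  have h2 : coeffMap π y' = coeffMap (φ : k →+* k) (coeffMap π y) := by
    rw [hy'def, coeffMap_coeffMap, coeffMap_coeffMap]
    exact coeffMap_congr (RingHom.ext fun a => hφ a) y
  have hyk' : coeffMap π y' ∈ modularFunctionFieldFullC k N := by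
    rw [h2]; exact coeffMap_mem_fullC N _ hyk
  have hne' : coeffMap π y' ≠ 0 := by
    rw [h2]
    intro h0
    apply hne
    apply coeffMap_injective_of_injective (φ : k →+* k) φ.injective
    rw [h0, map_zero]
  have hD' : ∀ P, (g • D) P = P.ord (⟨coeffMap A.subtype y', hy'⟩ :
      laurentBaseChange L (modularFunctionFieldFull N)) := by
    intro P
    rw [SemilinearAut.divisor_smul_apply, hDy]
    have h3 := SemilinearAut.ord_smul g (g⁻¹ • P)
      (⟨coeffMap A.subtype y, hy⟩ : laurentBaseChange L (modularFunctionFieldFull N))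
    rw [smul_inv_smul] at h3
    have h5 : (g • (⟨coeffMap A.subtype y, hy⟩ :
        laurentBaseChange L (modularFunctionFieldFull N)))
        = ⟨coeffMap A.subtype y', hy'⟩ := Subtype.ext h1.symm
    rw [← h3, h5]
  have key1 := hr.2 y' hy' hyk' hne' (g • D) hD'
  have key0 := hr.2 y hy hyk hne D hDy
  ext Q
  rw [key1 Q, SemilinearAut.divisor_smul_apply, key0]
  have h4 := SemilinearAut.ord_smul Φ (Φ⁻¹ • Q)
    (⟨coeffMap π y, hyk⟩ : modularFunctionFieldFullC k N)
  rw [smul_inv_smul] at h4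
  have h6 : (Φ • (⟨coeffMap π y, hyk⟩ : modularFunctionFieldFullC k N))
      = ⟨coeffMap π y', hyk'⟩ := Subtype.ext h2.symm
  rw [← h4, h6]

/-- **Equivariance of place reductions.** -/
theorem placeReduction_equivariant
    {r : Place L (laurentBaseChange L (modularFunctionFieldFull N)) →
      Place k (modularFunctionFieldFullC k N)}
    (hr : IsPlaceReductionAlong A π N r) (hgen : PrincipalGeneratedByIntegral A π N)
    (hdeg : ∀ P : Place L (laurentBaseChange L (modularFunctionFieldFull N)), P.deg = 1)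
    (hprin0 : ∀ D ∈ Divisor.principal (K := L)
      (F := laurentBaseChange L (modularFunctionFieldFull N)), Divisor.degree D = 0)
    (hR : RiemannBound L (laurentBaseChange L (modularFunctionFieldFull N)))
    (hnc : ∃ D ∈ Divisor.principal (K := L)
      (F := laurentBaseChange L (modularFunctionFieldFull N)), Finsupp.mapDomain r D ≠ 0)
    (σ : L ≃ₐ[ℚ] L) (hσ : ∀ a ∈ A, σ a ∈ A)
    (φ : k ≃+* k) (hφ : ∀ a : A, π ⟨σ a, hσ a a.2⟩ = φ (π a))
    (P : Place L (laurentBaseChange L (modularFunctionFieldFull N))) :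
    r (arithmeticGalois (modularFunctionFieldFull N) σ • P) = coeffSL N φ • r P := by
  set g := arithmeticGalois (modularFunctionFieldFull N) σ with hg
  set Φ := coeffSL N φ with hΦ
  set r₂ : Place L (laurentBaseChange L (modularFunctionFieldFull N)) →
      Place k (modularFunctionFieldFullC k N) := fun P => Φ⁻¹ • r (g • P) with hr₂
  have hcomp : ∀ D : Divisor L (laurentBaseChange L (modularFunctionFieldFull N)),
      Finsupp.mapDomain r₂ D = Φ⁻¹ • Finsupp.mapDomain r (g • D) := by
    intro D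
    have : r₂ = (fun Q => Φ⁻¹ • Q) ∘ r ∘ (fun P => g • P) := rfl
    rw [this, Finsupp.mapDomain_comp, Finsupp.mapDomain_comp]
    rfl
  have hagree : ∀ D ∈ integralPrincipalDivisors A π N,
      Finsupp.mapDomain r D = Finsupp.mapDomain r₂ D := by
    intro D hD
    rw [hcomp, smul_integral_divisor hr σ hσ φ hφ hD, inv_smul_smul]
  have heq : r = r₂ := eq_of_agree hgen hagree hdeg hprin0 hR hnc
  have hP : r P = Φ⁻¹ • r (g • P) := congrFun heq P
  rw [hP, smul_inv_smul]

/-- Equivariance on divisors. -/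
theorem mapDomain_smul
    {r : Place L (laurentBaseChange L (modularFunctionFieldFull N)) →
      Place k (modularFunctionFieldFullC k N)}
    (hr : IsPlaceReductionAlong A π N r) (hgen : PrincipalGeneratedByIntegral A π N)
    (hdeg : ∀ P : Place L (laurentBaseChange L (modularFunctionFieldFull N)), P.deg = 1)
    (hprin0 : ∀ D ∈ Divisor.principal (K := L)
      (F := laurentBaseChange L (modularFunctionFieldFull N)), Divisor.degree D = 0)
    (hR : RiemannBound L (laurentBaseChange L (modularFunctionFieldFull N)))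
    (hnc : ∃ D ∈ Divisor.principal (K := L)
      (F := laurentBaseChange L (modularFunctionFieldFull N)), Finsupp.mapDomain r D ≠ 0)
    (σ : L ≃ₐ[ℚ] L) (hσ : ∀ a ∈ A, σ a ∈ A)
    (φ : k ≃+* k) (hφ : ∀ a : A, π ⟨σ a, hσ a a.2⟩ = φ (π a))
    (D : Divisor L (laurentBaseChange L (modularFunctionFieldFull N))) :
    Finsupp.mapDomain r (arithmeticGalois (modularFunctionFieldFull N) σ • D)
      = coeffSL N φ • Finsupp.mapDomain r D := by
  induction D using Finsupp.induction with
  | zero => simp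
  | single_add P n D _ _ ih =>
    rw [smul_add, Finsupp.mapDomain_add, Finsupp.mapDomain_add, smul_add, ih,
      SemilinearAut.smul_single, Finsupp.mapDomain_single, Finsupp.mapDomain_single,
      SemilinearAut.smul_single,
      placeReduction_equivariant hr hgen hdeg hprin0 hR hnc σ hσ φ hφ P]

end Fermat.Agent.S37.H697

end
end
-- ===== PACK-END S37/H697/Equivariant.lean

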