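import Mathlib
import Fermat.Prelude.Def_GaloisRep_Adic
import Fermat.Prelude.Def_ModularCurve_ReductionModL
import Fermat.Prelude.Def_ModularCurve_X0ModL
import Mathlib.LinearAlgebra.Matrix.Rank
import Mathlib.RingTheory.Valuation.Basic
import Mathlib.RingTheory.LocalRing.ResidueField.Basic
import Mathlib.LinearAlgebra.Matrix.NonsingularInverse
import Mathlib.LinearAlgebra.Matrix.Determinant.Basic
import Fermat.Agent.Pack.S3234.G0E0L1
import Fermat.Agent.Pack.S3234.G0E3L1
import Fermat.Agent.Pack.S3234.G4E0L0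
import Fermat.Agent.Pack.S3234.G0E0L2
import Fermat.Agent.Pack.S3234.G0E3L2
import Fermat.Agent.Pack.S3234.G4E0L3
import Fermat.Agent.Pack.S3234.G4E0L1

-- ===== PACK-BEGIN S30/H529/HomTate.lean
section





/-!
# S30 helper (helper529): the adic module `Hom(L/O, J)` — piece 1 of the adic module layer

`adicModule_of_torsion`: the statement of the piece `adicModule_of_torsion` of the adic module
layer (interface of helper330), proved from `TateCore` applied to the `O`-module
`X = Hom_ℤ(O, J)` (`O` acting by precomposition).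
-/

set_option autoImplicit false
set_option linter.unusedSectionVars false

namespace Fermat.Agent.S30.H529

open IsLocalRing

noncomputable section

/-- `Hom_ℤ(O, J)` with `O` acting by precomposition. -/
def PreHom (O J : Type*) [CommRing O] [AddCommGroup J] : Type _ := O →+ J

namespace PreHom

variable {O J : Type*} [CommRing O] [AddCommGroup J]

instance : AddCommGroup (PreHom O J) := inferInstanceAs (AddCommGroup (O →+ J))

/-- The underlying homomorphism. -/
def toHom (h : PreHom O J) : O →+ J := h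

/-- The element attached to a homomorphism. -/
def ofHom (h : O →+ J) : PreHom O J := h

@[simp] theorem toHom_ofHom (h : O →+ J) : toHom (ofHom h) = h := rfl

@[simp] theorem toHom_add (h h' : PreHom O J) : toHom (h + h') = toHom h + toHom h' := rfl

@[simp] theorem toHom_zero : toHom (0 : PreHom O J) = 0 := rfl

@[simp] theorem toHom_sub (h h' : PreHom O J) : toHom (h - h') = toHom h - toHom h' := rfl

@[simp] theorem toHom_neg (h : PreHom O J) : toHom (-h) = -toHom h := rfl

theorem ext {h h' : PreHom O J} (H : ∀ x, toHom h x = toHom h' x) : h = h' :=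
  AddMonoidHom.ext H

theorem ext_iff' {h h' : PreHom O J} : h = h' ↔ ∀ x, toHom h x = toHom h' x :=
  ⟨fun H _ => by rw [H], ext⟩

instance : SMul O (PreHom O J) where
  smul a h := ofHom ((toHom h).comp (AddMonoidHom.mulLeft a))

@[simp] theorem smul_apply (a : O) (h : PreHom O J) (x : O) :
    toHom (a • h) x = toHom h (a * x) := rfl

instance : Module O (PreHom O J) where
  one_smul h := ext fun x => by simp
  mul_smul a b h := ext fun x => by
    simp only [smul_apply]
    congr 1
    ring
  smul_zero a := ext fun x => by simp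
  smul_add a h h' := ext fun x => by simp
  add_smul a b h := ext fun x => by
    simp only [smul_apply, toHom_add, AddMonoidHom.add_apply, add_mul, map_add]
  zero_smul h := ext fun x => by simp

/-- Postcomposition with an endomorphism of `J`. -/
def post (φ : J →+ J) : PreHom O J →ₗ[O] PreHom O J where
  toFun h := ofHom (φ.comp (toHom h))
  map_add' h h' := ext fun x => by simp
  map_smul' a h := ext fun x => by simp

@[simp] theorem post_apply (φ : J →+ J) (h : PreHom O J) (x : O) :
    toHom (post φ h) x = φ (toHom h x) := rfl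

theorem natCast_pow_smul_apply (p n : ℕ) (h : PreHom O J) (x : O) :
    toHom (((p : O)) ^ n • h) x = p ^ n • toHom h x := by
  rw [smul_apply]
  have h1 : ((p : O)) ^ n * x = (p ^ n) • x := by
    rw [nsmul_eq_mul]
    push_cast
    rfl
  rw [h1, map_nsmul]

theorem natCast_smul_apply (n : ℕ) (h : PreHom O J) (x : O) :
    toHom ((n : O) • h) x = n • toHom h x := by
  rw [smul_apply]
  have h1 : (n : O) * x = n • x := by
    rw [nsmul_eq_mul]
  rw [h1, map_nsmul]

end PreHom

section Finiteness

variable {O : Type*} [CommRing O] [IsDomain O] [IsDiscreteValuationRing O]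
  [Finite (ResidueField O)]
variable {J : Type*} [AddCommGroup J]

theorem finite_quotient_maximalIdeal_pow (N : ℕ) : Finite (O ⧸ maximalIdeal O ^ N) := by
  have h1 : Finite (O ⧸ maximalIdeal O) := inferInstanceAs (Finite (ResidueField O))
  exact Ideal.finite_quotient_pow (IsNoetherian.noetherian _) N

/-- The `p`-torsion of `Hom(O, J)` is finite. -/
theorem preHom_torsion_finite (p : ℕ) (hp0 : (p : O) ≠ 0)
    (hfin : {x : J | p • x = 0}.Finite) :
    {h : PreHom O J | (p : O) • h = 0}.Finite := by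
  obtain ⟨N, hN⟩ := exists_pow_maximalIdeal_le_span hp0
  have hQ : Finite (O ⧸ maximalIdeal O ^ N) := finite_quotient_maximalIdeal_pow N
  have hJ : Finite {x : J // p • x = 0} := Set.finite_coe_iff.mpr hfin
  have hval : ∀ (h : PreHom O J), (p : O) • h = 0 → ∀ y : O, p • PreHom.toHom h y = 0 := by
    intro h hh y
    have h1 := PreHom.natCast_smul_apply p h y
    rw [hh] at h1
    rw [← h1]
    rfl
  let Φ : {h : PreHom O J // (p : O) • h = 0} →
      ((O ⧸ maximalIdeal O ^ N) → {x : J // p • x = 0}) :=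
    fun h q => ⟨PreHom.toHom h.1 (Quotient.out q), hval h.1 h.2 _⟩
  have hΦ : Function.Injective Φ := by
    intro h h' hh
    apply Subtype.ext
    apply PreHom.ext
    intro x
    have hx : x - Quotient.out (Ideal.Quotient.mk (maximalIdeal O ^ N) x)
        ∈ maximalIdeal O ^ N := by
      rw [← Ideal.Quotient.eq]
      exact (Quotient.out_eq _).symm
    obtain ⟨y, hy⟩ := Ideal.mem_span_singleton'.mp (hN hx)
    have key : ∀ g : {h : PreHom O J // (p : O) • h = 0},
        PreHom.toHom g.1 x
          = PreHom.toHom g.1 (Quotient.out (Ideal.Quotient.mk (maximalIdeal O ^ N) x)) := by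
      intro g
      have h2 : x = Quotient.out (Ideal.Quotient.mk (maximalIdeal O ^ N) x) + (p : O) * y := by
        rw [mul_comm, hy]
        ring
      have h3 : PreHom.toHom g.1 ((p : O) * y) = 0 := by
        have := PreHom.smul_apply (p : O) g.1 y
        rw [g.2] at this
        exact this.symm
      conv_lhs => rw [h2]
      rw [map_add, h3, add_zero]
    rw [key h, key h']
    have := congrFun hh (Ideal.Quotient.mk (maximalIdeal O ^ N) x)
    exact congrArg Subtype.val this
  have : Finite {h : PreHom O J // (p : O) • h = 0} := Finite.of_injective Φ hΦ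
  exact Set.finite_coe_iff.mp this

end Finiteness

section Main

open Fermat.Agent.S29

variable {O : Type} [CommRing O] [IsDomain O]
variable {J : Type} [AddCommGroup J] [DistribMulAction GQ J]

/-- The action of the Galois group on `Hom(O, J)`. -/
def preHomRep (O : Type) [CommRing O] (J : Type) [AddCommGroup J] [DistribMulAction GQ J] :
    GQ →* Module.End O (PreHom O J) where
  toFun σ := PreHom.post (DistribSMul.toAddMonoidHom J σ)
  map_one' := by
    apply LinearMap.ext
    intro h
    apply PreHom.ext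
    intro x
    simp
  map_mul' σ τ := by
    apply LinearMap.ext
    intro h
    apply PreHom.ext
    intro x
    simp [mul_smul]

@[simp] theorem preHomRep_apply (σ : GQ) (h : PreHom O J) (x : O) :
    PreHom.toHom (preHomRep O J σ h) x = σ • PreHom.toHom h x := rfl

/-- The sequence attached to a homomorphism `L/O → J`. -/
def seqOfHom (p : ℕ) (f : FractionRing O →+ J) (n : ℕ) : PreHom O J :=
  PreHom.ofHom (f.comp ((AddMonoidHom.mulRight
    ((algebraMap O (FractionRing O) (p : O) ^ (n + 1))⁻¹)).comp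
      (algebraMap O (FractionRing O)).toAddMonoidHom))

theorem seqOfHom_apply (p : ℕ) (f : FractionRing O →+ J) (n : ℕ) (x : O) :
    PreHom.toHom (seqOfHom p f n) x
      = f (algebraMap O (FractionRing O) x
          * (algebraMap O (FractionRing O) (p : O) ^ (n + 1))⁻¹) := rfl

/-- **Piece 1 of the adic module layer** (statement of helper330's `adicModule_of_torsion`). -/
theorem adicModule_of_torsion
    {p : ℕ} (hp : p.Prime)
    {O : Type} [CommRing O] [IsDomain O] [IsDiscreteValuationRing O]
    [IsAdicComplete (IsLocalRing.maximalIdeal O) O] [Finite (IsLocalRing.ResidueField O)]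
    [CharZero O] (hpO : (p : O) ∈ IsLocalRing.maximalIdeal O)
    {J : Type} [AddCommGroup J] [DistribMulAction GQ J]
    (hsm : ∀ x : J, ∃ L : IntermediateField ℚ (AlgebraicClosure ℚ), FiniteDimensional ℚ L ∧
      ∀ σ : GQ, (∀ y ∈ L, σ y = y) → σ • x = x)
    (hfin : {x : J | p • x = 0}.Finite)
    {ι : Type} (t : ι → J →+ J) (ht : ∀ i (σ : GQ) (x : J), σ • t i x = t i (σ • x))
    (a : ι → O)
    (f : FractionRing O →+ J) (hf0 : ∀ r : O, f (algebraMap O (FractionRing O) r) = 0)
    (hf : f ≠ 0)
    (hfe : ∀ i x, t i (f x) = f (algebraMap O (FractionRing O) (a i) * x)) :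
    ∃ (M : Type) (_ : AddCommGroup M) (_ : Module O M) (_ : Module.Free O M)
      (_ : Module.Finite O M) (ρ : GQ →* Module.End O M),
      Nontrivial M ∧ GaloisActionIsAdicContinuous O ρ ∧
      (∀ σ : GQ, (∀ x : J, (∃ n : ℕ, p ^ n • x = 0) → σ • x = x) → ρ σ = 1) ∧
      (∀ (i : ι) (n : ℕ) (σ : GQ),
        (∀ x : J, (∃ k : ℕ, p ^ k • x = 0) → σ • σ • x - t i (σ • x) + n • x = 0) →
        ρ σ * ρ σ - a i • ρ σ + (n : O) • (1 : Module.End O M) = 0) := by
  have hϖ0 : (p : O) ≠ 0 := by exact_mod_cast hp.ne_zero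
  have hpL : algebraMap O (FractionRing O) (p : O) ≠ 0 := by
    intro h
    exact hϖ0 ((IsFractionRing.injective O (FractionRing O)) (by rw [h, map_zero]))
  -- operators
  set t' : ι → PreHom O J →ₗ[O] PreHom O J := fun i => PreHom.post (t i) with ht'
  have hρ : ∀ (σ : GQ) (i : ι) (h : PreHom O J),
      preHomRep O J σ (t' i h) = t' i (preHomRep O J σ h) := by
    intro σ i h
    apply PreHom.ext
    intro x
    simp only [ht', preHomRep_apply, PreHom.post_apply]
    exact ht i σ _
  -- finiteness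
  have hX : ∃ Y : Submodule O (PreHom O J), Y.FG ∧
      ∀ h : PreHom O J, (p : O) • h = 0 → h ∈ Y := by
    have hfinX := preHom_torsion_finite (O := O) (J := J) p hϖ0 hfin
    exact ⟨Submodule.span O {h : PreHom O J | (p : O) • h = 0},
      Submodule.fg_span hfinX, fun h hh => Submodule.subset_span hh⟩
  have hfree := tateEigen_free (t := t') (a := a) hpO hϖ0 hX
  have hfinite := tateEigen_finite (t := t') (a := a) hpO hϖ0 hX
  -- torsion values
  have hval : ∀ (k : ℕ) (h : PreHom O J), (p : O) ^ k • h = 0 →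
      ∀ x : O, p ^ k • PreHom.toHom h x = 0 := by
    intro k h hh x
    rw [← PreHom.natCast_pow_smul_apply, hh]
    rfl
  refine ⟨tateEigen (p : O) t' a, inferInstance, inferInstance, hfree, hfinite,
    tateRep (preHomRep O J) hρ, ?_, ?_, ?_, ?_⟩
  · -- nontrivial
    have hmem : seqOfHom p f ∈ tateEigen (p : O) t' a := by
      refine ⟨?_, ?_, ?_⟩
      · apply PreHom.ext
        intro x
        rw [PreHom.smul_apply, seqOfHom_apply, (algebraMap O (FractionRing O)).map_mul]
        have : algebraMap O (FractionRing O) (p : O) * algebraMap O (FractionRing O) x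
            * (algebraMap O (FractionRing O) (p : O) ^ (0 + 1))⁻¹
            = algebraMap O (FractionRing O) x := by
          field_simp
          ring
        rw [this, hf0]
        rfl
      · intro n
        apply PreHom.ext
        intro x
        rw [PreHom.smul_apply, seqOfHom_apply, seqOfHom_apply,
          (algebraMap O (FractionRing O)).map_mul]
        congr 1
        field_simp
        ring
      · intro i n
        apply PreHom.ext
        intro x
        rw [PreHom.smul_apply, seqOfHom_apply]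
        simp only [ht', PreHom.post_apply]
        rw [seqOfHom_apply, hfe, (algebraMap O (FractionRing O)).map_mul, mul_assoc]
    have hne : seqOfHom p f ≠ 0 := by
      intro h0
      apply hf
      apply AddMonoidHom.ext
      intro y
      obtain ⟨x, s, hs, rfl⟩ := IsFractionRing.div_surjective (A := O) y
      have hs0 : s ≠ 0 := nonZeroDivisors.ne_zero hs
      obtain ⟨k, c, hc⟩ := exists_dvd_pow_of_mem_maximalIdeal hpO hs0
      have h1 := congrArg (fun h => PreHom.toHom h (x * c * (p : O))) (congrFun h0 k)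
      simp only [seqOfHom_apply] at h1
      have hsL : algebraMap O (FractionRing O) s ≠ 0 := by
        intro h
        exact hs0 ((IsFractionRing.injective O (FractionRing O)) (by rw [h, map_zero]))
      have h2 : algebraMap O (FractionRing O) (x * c * (p : O))
          * (algebraMap O (FractionRing O) (p : O) ^ (k + 1))⁻¹
          = algebraMap O (FractionRing O) x / algebraMap O (FractionRing O) s := by
        have h3 : algebraMap O (FractionRing O) (p : O) ^ k
            = algebraMap O (FractionRing O) s * algebraMap O (FractionRing O) c := by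
          rw [← map_pow, hc, map_mul]
        rw [pow_succ, h3, (algebraMap O (FractionRing O)).map_mul,
          (algebraMap O (FractionRing O)).map_mul]
        have hcL : algebraMap O (FractionRing O) c ≠ 0 := by
          intro h
          rw [h, mul_zero] at h3
          exact hpL (pow_eq_zero_iff (by
            intro hk
            subst hk
            simp at h3) |>.mp h3)
        field_simp
      rw [h2] at h1
      rw [h1]
      rfl
    refine ⟨⟨⟨seqOfHom p f, hmem⟩, 0, ?_⟩⟩
    intro h
    exact hne (congrArg Subtype.val h)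
  · -- continuity
    intro n
    obtain ⟨L, hL, hLfix⟩ := exists_common_level {x : J | p ^ n • x = 0}
      (finite_torsion_pow J p hfin n) (fun x _ => hsm x)
    refine ⟨L, hL, fun σ hσ m => ?_⟩
    apply tateRep_sub_mem (preHomRep O J) hρ hpO n σ
    intro h hh
    apply PreHom.ext
    intro x
    rw [preHomRep_apply]
    exact hLfix σ hσ _ (hval n h hh x)
  · -- trivial action
    intro σ hσ
    apply tateRep_eq_one
    rintro h ⟨k, hh⟩
    apply PreHom.ext
    intro x
    rw [preHomRep_apply]
    exact hσ _ ⟨k, hval k h hh x⟩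
  · -- quadratic relations
    intro i n σ hσ
    apply tateRep_quadratic
    rintro h ⟨k, hh⟩
    apply PreHom.ext
    intro x
    have h1 := hσ (PreHom.toHom h x) ⟨k, hval k h hh x⟩
    simp only [ht', PreHom.toHom_add, PreHom.toHom_sub, AddMonoidHom.add_apply,
      AddMonoidHom.sub_apply, preHomRep_apply, PreHom.post_apply, PreHom.natCast_smul_apply,
      PreHom.toHom_zero, AddMonoidHom.zero_apply]
    exact h1

end Main

end

end Fermat.Agent.S30.H529

end
-- ===== PACK-END S30/H529/HomTate.lean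

-- ===== PACK-BEGIN S37/Red/H160/DatumBasic.lean
section




/-!
# S37-RED (helper160): basic facts on a reduction datum `G : Datum A π F Fk`

* `ker_π`, `ρ_eq_zero_iff` : kernels of `π` and `ρ` are the maximal ideals;
* `inv_mem` : elements of `O` with nonzero reduction are units of `O`;
* `mem_of_algebraMap_mem` : `O ∩ K = A`;
* `aeval_mem`, `ρ_aeval` : polynomials over `A` in `t ∈ O` lie in `O`, and reduce coefficientwise;
* `valAt_iff_ord_pos`, `valAt_unique` : on helper40's `ValAt`.
-/

set_option autoImplicit false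

noncomputable section

namespace Fermat.Agent.S37.Red.H160

open AlgebraicCurve Polynomial IntermediateField
open Fermat.Agent.S37.Red

universe u

section Datum

variable {K k F Fk : Type u} [Field K] [Field k] [Field F] [Field Fk]
  [Algebra K F] [Algebra k Fk] {A : ValuationSubring K} {π : A →+* k} (G : Datum A π F Fk)

include G in
theorem ker_π (a : A) : π a = 0 ↔ a ∈ IsLocalRing.maximalIdeal A := by
  have hmax := RingHom.ker_isMaximal_of_surjective π G.π_surj
  rw [← IsLocalRing.eq_maximalIdeal hmax, RingHom.mem_ker]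

theorem ρ_eq_zero_iff (f : G.O) : G.ρ f = 0 ↔ f ∈ IsLocalRing.maximalIdeal G.O := by
  have hmax := RingHom.ker_isMaximal_of_surjective G.ρ G.ρ_surj
  rw [← IsLocalRing.eq_maximalIdeal hmax, RingHom.mem_ker]

theorem isUnit_of_ρ_ne_zero {f : G.O} (h : G.ρ f ≠ 0) : IsUnit f := by
  by_contra hu
  exact h ((ρ_eq_zero_iff G f).mpr ((IsLocalRing.mem_maximalIdeal f).mpr hu))

theorem inv_mem {y : F} (hy : y ∈ G.O) (h : G.ρ ⟨y, hy⟩ ≠ 0) : y⁻¹ ∈ G.O := by
  obtain ⟨u, hu⟩ := isUnit_of_ρ_ne_zero G h
  have h1 : ((u⁻¹ : G.Oˣ) : G.O) * ⟨y, hy⟩ = 1 := by rw [← hu]; simp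
  have h2 : (((u⁻¹ : G.Oˣ) : G.O) : F) * y = 1 := by
    have := congrArg Subtype.val h1
    simpa using this
  have hy0 : y ≠ 0 := by
    rintro rfl
    rw [mul_zero] at h2
    exact zero_ne_one h2
  have h3 : y⁻¹ = (((u⁻¹ : G.Oˣ) : G.O) : F) := by
    field_simp
    rw [mul_comm]
    exact h2.symm
  rw [h3]
  exact ((u⁻¹ : G.Oˣ) : G.O).2

theorem ρ_inv {y : F} (hy : y ∈ G.O) (h : G.ρ ⟨y, hy⟩ ≠ 0) :
    G.ρ ⟨y⁻¹, inv_mem G hy h⟩ = (G.ρ ⟨y, hy⟩)⁻¹ := by
  have hy0 : y ≠ 0 := by
    rintro rfl
    apply h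
    have : (⟨0, hy⟩ : G.O) = 0 := rfl
    rw [this, map_zero]
  have h1 : (⟨y⁻¹, inv_mem G hy h⟩ : G.O) * ⟨y, hy⟩ = 1 := by
    apply Subtype.ext
    simp [hy0]
  have h2 := congrArg G.ρ h1
  rw [map_mul, map_one] at h2
  exact eq_inv_of_mul_eq_one_left h2

/-- `O ∩ K = A`. -/
theorem mem_of_algebraMap_mem {u : K} (h : algebraMap K F u ∈ G.O) : u ∈ A := by
  by_contra hu
  have hinv : u⁻¹ ∈ A := (A.mem_or_inv_mem u).resolve_left hu
  have hu0 : u ≠ 0 := by
    rintro rfl
    exact hu A.zero_mem
  have hker : π ⟨u⁻¹, hinv⟩ = 0 := by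
    rw [ker_π G, IsLocalRing.mem_maximalIdeal, mem_nonunits_iff]
    rintro ⟨w, hw⟩
    apply hu
    have h1 : ((w⁻¹ : Aˣ) : A) * ⟨u⁻¹, hinv⟩ = 1 := by rw [← hw]; simp
    have h2 : (((w⁻¹ : Aˣ) : A) : K) * u⁻¹ = 1 := by
      have := congrArg Subtype.val h1
      simpa using this
    have h3 : (((w⁻¹ : Aˣ) : A) : K) = u := by
      field_simp at h2
      exact h2
    rw [← h3]
    exact ((w⁻¹ : Aˣ) : A).2
  have h1 := G.ρ_const ⟨u⁻¹, hinv⟩
  rw [hker, map_zero] at h1
  have h2 : (⟨algebraMap K F u, h⟩ : G.O) * ⟨algebraMap K F (u⁻¹), G.const_mem ⟨u⁻¹, hinv⟩⟩ = 1 := by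
    apply Subtype.ext
    simp [hu0]
  have h3 := congrArg G.ρ h2
  rw [map_mul, h1, mul_zero, map_one] at h3
  exact zero_ne_one h3

/-- The inclusion `A → O`. -/
def constHom : A →+* G.O where
  toFun a := ⟨algebraMap K F (a : K), G.const_mem a⟩
  map_one' := by apply Subtype.ext; simp
  map_mul' a b := by apply Subtype.ext; simp
  map_zero' := by apply Subtype.ext; simp
  map_add' a b := by apply Subtype.ext; simp

theorem ρ_comp_constHom : G.ρ.comp (constHom G) = (algebraMap k Fk).comp π := by
  ext a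
  exact G.ρ_const a

theorem coe_eval₂_constHom {t : F} (ht : t ∈ G.O) (p : A[X]) :
    ((eval₂ (constHom G) ⟨t, ht⟩ p : G.O) : F) = aeval t (p.map A.subtype) := by
  have h := hom_eval₂ p (constHom G) G.O.subtype ⟨t, ht⟩
  rw [aeval_def, eval₂_map]
  exact h

theorem aeval_mem {t : F} (ht : t ∈ G.O) (p : A[X]) : aeval t (p.map A.subtype) ∈ G.O := by
  rw [← coe_eval₂_constHom G ht p]
  exact (eval₂ (constHom G) ⟨t, ht⟩ p).2

theorem ρ_aeval {t : F} (ht : t ∈ G.O) (p : A[X]) :
    G.ρ ⟨aeval t (p.map A.subtype), aeval_mem G ht p⟩ = aeval (G.ρ ⟨t, ht⟩) (p.map π) := by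
  have h1 : (⟨aeval t (p.map A.subtype), aeval_mem G ht p⟩ : G.O)
      = eval₂ (constHom G) ⟨t, ht⟩ p := Subtype.ext (coe_eval₂_constHom G ht p).symm
  rw [h1, hom_eval₂, ρ_comp_constHom, aeval_def, eval₂_map]

theorem red_of_mem {f : F} (hf : f ∈ G.O) : G.red f = G.ρ ⟨f, hf⟩ := by
  simp [Datum.red, hf]

/-- A coordinate with transcendental reduction is transcendental. -/
theorem transcendental_of_red [IsAlgClosed K] {t : F} (ht : t ∈ G.O)
    (htb : Transcendental k (G.red t)) : Transcendental K t := by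
  intro halg
  obtain ⟨u, hu⟩ := Fermat.Agent.S24.FF.mem_range_of_isAlgebraic halg
  apply htb
  have hu' : algebraMap K F u = t := hu
  have huO : algebraMap K F u ∈ G.O := hu' ▸ ht
  have huA := mem_of_algebraMap_mem G huO
  have h1 := G.ρ_const ⟨u, huA⟩
  have h2 : G.red t = algebraMap k Fk (π ⟨u, huA⟩) := by
    rw [red_of_mem G ht, ← h1]
    congr 1
    exact Subtype.ext hu'.symm
  rw [h2]
  exact isAlgebraic_algebraMap _

end Datum

section ValAt

variable {K F : Type u} [Field K] [Field F] [Algebra K F]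

theorem valAt_iff_mem_nonunits (P : Place K F) (f : F) (a : K) :
    ValAt P f a ↔ f - algebraMap K F a ∈ P.toValuationSubring.nonunits :=
  (ValuationSubring.mem_nonunits_iff _).symm

theorem valAt_iff_ord_pos (P : Place K F) {f : F} {a : K} (h : f - algebraMap K F a ≠ 0) :
    ValAt P f a ↔ 0 < P.ord (f - algebraMap K F a) := by
  rw [valAt_iff_mem_nonunits, Fermat.Agent.S24.FF.ord_pos_iff_mem_nonunits P h]

theorem valAt_unique (P : Place K F) {f : F} {a a' : K} (h : ValAt P f a) (h' : ValAt P f a') :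
    a = a' := by
  by_contra hne
  rw [valAt_iff_mem_nonunits] at h h'
  have h1 : algebraMap K F (a - a') ∈ P.toValuationSubring.nonunits := by
    have h2 : algebraMap K F (a - a') = (f - algebraMap K F a') - (f - algebraMap K F a) := by
      rw [map_sub]; ring
    rw [h2, ValuationSubring.mem_nonunits_iff] at *
    calc P.toValuationSubring.valuation ((f - algebraMap K F a') - (f - algebraMap K F a))
        ≤ max (P.toValuationSubring.valuation (f - algebraMap K F a'))
            (P.toValuationSubring.valuation (f - algebraMap K F a)) :=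
          Valuation.map_sub _ _ _
      _ < 1 := max_lt h' h
  have hne' : algebraMap K F (a - a') ≠ 0 := by
    rw [Ne, map_eq_zero, sub_eq_zero]
    exact hne
  have h3 := (Fermat.Agent.S24.FF.ord_pos_iff_mem_nonunits P hne').mpr h1
  rw [Fermat.Agent.S24.FF.ord_algebraMap] at h3
  exact lt_irrefl _ h3

end ValAt

end Fermat.Agent.S37.Red.H160

end
end
-- ===== PACK-END S37/Red/H160/DatumBasic.lean

-- ===== PACK-BEGIN S37/Red/H759/Passage.lean
section
/-
S37-RED, piece E4(c) "passage R_E → A" for (H3) (helper759).  Mathlib + Prelude only.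

`A ⊆ Q̄` a valuation subring, `k = A/𝔪`.  The number fields `E ⊆ Q̄` form a directed family,
`A = ⋃ (A ∩ E)`, `k = ⋃ κ_E` (`κ_E` = image of `A ∩ E` in `k`).

* `constk A E`  : the constants of `k((q))` coming from `A ∩ E`   (`= κ_E ⊆ k((q))`)
* `constA A E`  : the constants of `Q̄((q))` coming from `A ∩ E`
* `constE E`    : the constants of `Q̄((q))` coming from `E`
* `exists_numberField_k` : `c ∈ F_{N,k}` integral over `k[s]` ⟹ for some number field `E ⊇ E₀`:
      `c ∈ κ_E(j(q^d) : d ∣ N)` and `c` is integral over `κ_E[s]`.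
* `exists_numberField_A` : `b ∈ F_N` integral over `A[t]` ⟹ for some number field `E ⊇ E₀`:
      `b ∈ E(j(q^d) : d ∣ N)` and `b` is integral over `(A ∩ E)[t]`.      (`B_A = ⋃ B_{R_E}`)
* `LiftAtLevel N A E t s` : (H3) at the level of a number field `E` (normality of the special fibre
      of the model over the DVR `A ∩ E`), in `q`-expansion language.
* `lift_of_levels` : (H3) for all number fields ⟹ (H3) over `A`.
-/




set_option autoImplicit false

noncomputable section

namespace Fermat.Agent.S37.Red.H759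

open ModularCurve HahnSeries IsLocalRing IntermediateField

/-- `Q̄` -/
abbrev Qbar : Type := AlgebraicClosure ℚ

/-- The index set: number fields inside `Q̄`. -/
abbrev NumberFieldIn : Type := {E : IntermediateField ℚ Qbar // FiniteDimensional ℚ E}

instance : Nonempty NumberFieldIn :=
  ⟨⟨⊥, inferInstanceAs (FiniteDimensional ℚ (⊥ : IntermediateField ℚ Qbar))⟩⟩

instance : IsDirected NumberFieldIn (· ≤ ·) :=
  ⟨fun E E' => by
    have := E.2
    have := E'.2
    exact ⟨⟨E.1 ⊔ E'.1, IntermediateField.finiteDimensional_sup E.1 E'.1⟩,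
      (le_sup_left : E.1 ≤ E.1 ⊔ E'.1), (le_sup_right : E'.1 ≤ E.1 ⊔ E'.1)⟩⟩

/-- every element of `Q̄` lies in a number field -/
theorem exists_numberField_mem (a : Qbar) : ∃ E : NumberFieldIn, a ∈ E.1 := by
  have halg : Algebra.IsAlgebraic ℚ Qbar := AlgebraicClosure.isAlgebraic ℚ
  have ha : IsIntegral ℚ a := (halg.isAlgebraic a).isIntegral
  exact ⟨⟨ℚ⟮a⟯, IntermediateField.adjoin.finiteDimensional ha⟩,
    IntermediateField.mem_adjoin_simple_self ℚ a⟩

variable (A : ValuationSubring Qbar)

/-- the constants of `k((q))` coming from `A ∩ E` -/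
def constk (E : IntermediateField ℚ Qbar) : Set (LaurentSeries (ResidueField A)) :=
  {c | ∃ a : A, (a : Qbar) ∈ E ∧
    c = algebraMap (ResidueField A) (LaurentSeries (ResidueField A)) (residue A a)}

/-- the constants of `Q̄((q))` coming from `A ∩ E` -/
def constA (E : IntermediateField ℚ Qbar) : Set (LaurentSeries Qbar) :=
  {c | ∃ a : A, (a : Qbar) ∈ E ∧ c = algebraMap Qbar (LaurentSeries Qbar) (a : Qbar)}

/-- the constants of `Q̄((q))` coming from `E` -/
def constE (E : IntermediateField ℚ Qbar) : Set (LaurentSeries Qbar) :=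
  {c | ∃ a : Qbar, a ∈ E ∧ c = algebraMap Qbar (LaurentSeries Qbar) a}

/-- all constants of `Q̄((q))` coming from `A` -/
def constAll : Set (LaurentSeries Qbar) :=
  {c | ∃ a : A, c = algebraMap Qbar (LaurentSeries Qbar) (a : Qbar)}

theorem constk_mono : Monotone fun E : NumberFieldIn => constk A E.1 := by
  rintro E E' h c ⟨a, ha, rfl⟩
  exact ⟨a, h ha, rfl⟩

theorem constA_mono : Monotone fun E : NumberFieldIn => constA A E.1 := by
  rintro E E' h c ⟨a, ha, rfl⟩
  exact ⟨a, h ha, rfl⟩

theorem constE_mono : Monotone fun E : NumberFieldIn => constE E.1 := by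
  rintro E E' h c ⟨a, ha, rfl⟩
  exact ⟨a, h ha, rfl⟩

theorem constA_subset_constAll (E : IntermediateField ℚ Qbar) : constA A E ⊆ constAll A := by
  rintro c ⟨a, -, rfl⟩
  exact ⟨a, rfl⟩

theorem constA_subset_constE (E : IntermediateField ℚ Qbar) : constA A E ⊆ constE E := by
  rintro c ⟨a, ha, rfl⟩
  exact ⟨a, ha, rfl⟩

theorem range_subset_iUnion_constk :
    Set.range (algebraMap (ResidueField A) (LaurentSeries (ResidueField A))) ⊆
      ⋃ E : NumberFieldIn, constk A E.1 := by
  rintro c ⟨x, rfl⟩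
  obtain ⟨a, rfl⟩ := IsLocalRing.residue_surjective x
  obtain ⟨E, hE⟩ := exists_numberField_mem (a : Qbar)
  exact Set.mem_iUnion.mpr ⟨E, a, hE, rfl⟩

theorem constAll_subset_iUnion_constA :
    constAll A ⊆ ⋃ E : NumberFieldIn, constA A E.1 := by
  rintro c ⟨a, rfl⟩
  obtain ⟨E, hE⟩ := exists_numberField_mem (a : Qbar)
  exact Set.mem_iUnion.mpr ⟨E, a, hE, rfl⟩

theorem range_subset_iUnion_constE :
    Set.range (algebraMap Qbar (LaurentSeries Qbar)) ⊆ ⋃ E : NumberFieldIn, constE E.1 := by
  rintro c ⟨a, rfl⟩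
  obtain ⟨E, hE⟩ := exists_numberField_mem a
  exact Set.mem_iUnion.mpr ⟨E, a, hE, rfl⟩

/-- **Finite level in characteristic `ℓ`.**  An element of `F_{N,k}` integral over `k[s]` lies in
`κ_E(j(q^d) : d ∣ N)` and is integral over `κ_E[s]`, for some number field `E ⊇ E₀`. -/
theorem exists_numberField_k (N : ℕ) (s : LaurentSeries (ResidueField A))
    (E₀ : NumberFieldIn) {c : LaurentSeries (ResidueField A)}
    (hc : c ∈ modularFunctionFieldFullC (ResidueField A) N)
    (hint : IsIntegral (Subring.closure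
      (Set.range (algebraMap (ResidueField A) (LaurentSeries (ResidueField A))) ∪ {s})) c) :
    ∃ E : NumberFieldIn, E₀ ≤ E ∧
      c ∈ Subfield.closure (constk A E.1 ∪ divisorExpansionsC (ResidueField A) N) ∧
      IsIntegral (Subring.closure (constk A E.1 ∪ {s})) c :=
  exists_level_ge (fun E : NumberFieldIn => constk A E.1) (constk_mono A)
    (divisorExpansionsC (ResidueField A) N) {s} (range_subset_iUnion_constk A) E₀ hc hint

/-- **Finite level in characteristic `0`** (`B_A = ⋃ B_{R_E}`).  An element of `F_N` integral over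
`A[t]` lies in `E(j(q^d) : d ∣ N)` and is integral over `(A ∩ E)[t]`, for some number field
`E ⊇ E₀`. -/
theorem exists_numberField_A (N : ℕ) (t : LaurentSeries Qbar)
    (E₀ : NumberFieldIn) {b : LaurentSeries Qbar}
    (hb : b ∈ Subfield.closure (Set.range (algebraMap Qbar (LaurentSeries Qbar)) ∪
      divisorExpansionsC Qbar N))
    (hint : IsIntegral (Subring.closure (constAll A ∪ {t})) b) :
    ∃ E : NumberFieldIn, E₀ ≤ E ∧
      b ∈ Subfield.closure (constE E.1 ∪ divisorExpansionsC Qbar N) ∧
      IsIntegral (Subring.closure (constA A E.1 ∪ {t})) b := by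
  obtain ⟨E₁, h₁⟩ := exists_mem_subfield_closure (fun E : NumberFieldIn => constE E.1)
    (directed_of_monotone _ constE_mono) (divisorExpansionsC Qbar N)
    range_subset_iUnion_constE hb
  obtain ⟨E₂, h₂⟩ := exists_isIntegral (fun E : NumberFieldIn => constA A E.1)
    (directed_of_monotone _ (constA_mono A)) {t} (constAll_subset_iUnion_constA A) hint
  obtain ⟨E₃, h₁₃, h₂₃⟩ := exists_ge_ge E₁ E₂
  obtain ⟨E, h₃, h₀⟩ := exists_ge_ge E₃ E₀
  refine ⟨E, h₀, ?_, ?_⟩
  · exact Subfield.closure_mono
      (Set.union_subset_union_left _ (constE_mono (h₁₃.trans h₃))) h₁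
  · exact isIntegral_subring_mono (Subring.closure_mono
      (Set.union_subset_union_left _ (constA_mono A (h₂₃.trans h₃)))) h₂

/-- **(H3) at the level of a number field `E`** (finite chart w.r.t. the coordinate `t`, with
reduction `s`): every element of `κ_E(j(q^d) : d ∣ N)` integral over `κ_E[s]` is the
coefficientwise reduction of a series `U ∈ A((q))` lying in `F_N` and integral over `A[t]`.
(Producers over the DVR `R = A ∩ E` prove more: `U ∈ R((q))`, `U ∈ E(j(q^d))`, integral over
`R[t]`; see `LiftAtLevel.of_strong`.) -/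
def LiftAtLevel (N : ℕ) (E : IntermediateField ℚ Qbar) (t : LaurentSeries Qbar)
    (s : LaurentSeries (ResidueField A)) : Prop :=
  ∀ c : LaurentSeries (ResidueField A),
    c ∈ Subfield.closure (constk A E ∪ divisorExpansionsC (ResidueField A) N) →
    IsIntegral (Subring.closure (constk A E ∪ {s})) c →
    ∃ U : LaurentSeries A, coeffMap A.subtype U ∈ modularFunctionFieldBar N ∧
      IsIntegral (Subring.closure (constAll A ∪ {t})) (coeffMap A.subtype U) ∧
      coeffMap (residue A) U = c

/-- The strong form of (H3) at level `E` (what the model over the DVR `A ∩ E` gives). -/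
def StrongLiftAtLevel (N : ℕ) (E : IntermediateField ℚ Qbar) (t : LaurentSeries Qbar)
    (s : LaurentSeries (ResidueField A)) : Prop :=
  ∀ c : LaurentSeries (ResidueField A),
    c ∈ Subfield.closure (constk A E ∪ divisorExpansionsC (ResidueField A) N) →
    IsIntegral (Subring.closure (constk A E ∪ {s})) c →
    ∃ U : LaurentSeries A, (∀ n : ℤ, ((U.coeff n : A) : Qbar) ∈ E) ∧
      coeffMap A.subtype U ∈ Subfield.closure (constE E ∪ divisorExpansionsC Qbar N) ∧
      IsIntegral (Subring.closure (constA A E ∪ {t})) (coeffMap A.subtype U) ∧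
      coeffMap (residue A) U = c

/-- **Passage `R_E → A` for (H3)**: (H3) at the level of all number fields `E ⊇ E₀` gives (H3)
over `A`: every element of `F_{N,k}` integral over `k[s]` is the coefficientwise reduction of a
series `U ∈ A((q))` lying in `F_N` and integral over `A[t]`. -/
theorem lift_of_levels (N : ℕ) (t : LaurentSeries Qbar) (s : LaurentSeries (ResidueField A))
    (E₀ : NumberFieldIn) (h : ∀ E : NumberFieldIn, E₀ ≤ E → LiftAtLevel A N E.1 t s)
    {c : LaurentSeries (ResidueField A)}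
    (hc : c ∈ modularFunctionFieldFullC (ResidueField A) N)
    (hint : IsIntegral (Subring.closure
      (Set.range (algebraMap (ResidueField A) (LaurentSeries (ResidueField A))) ∪ {s})) c) :
    ∃ U : LaurentSeries A, coeffMap A.subtype U ∈ modularFunctionFieldBar N ∧
      IsIntegral (Subring.closure (constAll A ∪ {t})) (coeffMap A.subtype U) ∧
      coeffMap (residue A) U = c := by
  obtain ⟨E, hE, hcE, hintE⟩ := exists_numberField_k A N s E₀ hc hint
  exact h E hE c hcE hintE

theorem subfield_closure_constE_le (N : ℕ) (E : IntermediateField ℚ Qbar) :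
    Subfield.closure (constE E ∪ divisorExpansionsC Qbar N) ≤
      (modularFunctionFieldFullC Qbar N).toSubfield := by
  rw [Subfield.closure_le]
  rintro x (⟨a, -, rfl⟩ | hx)
  · exact (modularFunctionFieldFullC Qbar N).algebraMap_mem a
  · exact IntermediateField.subset_adjoin _ _ hx

end Fermat.Agent.S37.Red.H759

end

end
-- ===== PACK-END S37/Red/H759/Passage.lean

-- ===== PACK-BEGIN S37/Red/H759/PassageDatum.lean
section
/-
S37-RED, piece E4(c) "passage R_E → A" for (H3), in the language of helper40's `Red/Spec.lean`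
(helper759).

* `lift_chart_of_levels` : for a reduction datum `G` on `(F_N, F_{N,k})` satisfying the `link`
  property of `Red.ModDatum`, (H3) at the level of all number fields `E ⊇ E₀`
  (`H759.LiftAtLevel`, `q`-expansion language) implies
      `∀ c ∈ G.chartk s, ∃ b ∈ G.chart t, ∃ hb : b ∈ G.O, G.ρ ⟨b, hb⟩ = c`.
* `lift_fin_of_levels`, `lift_inf_of_levels` : the fields `lift_fin`, `lift_inf` of `G.Good`.
-/




set_option autoImplicit false
set_option synthInstance.maxHeartbeats 400000

noncomputable section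

namespace Fermat.Agent.S37.Red.H759

open ModularCurve HahnSeries IsLocalRing IntermediateField

section Transfer

variable {R Ω : Type*} [CommRing R] [CommRing Ω]

/-- integrality is preserved by ring homomorphisms (subring form) -/
theorem isIntegral_map_subring (φ : R →+* Ω) (B : Subring R) {c : R} (hc : IsIntegral B c) :
    IsIntegral (B.map φ) (φ c) := by
  rw [isIntegral_subring_iff] at hc ⊢
  obtain ⟨P, hP, hcoeff, hPc⟩ := hc
  refine ⟨P.map φ, hP.map φ, fun i => ?_, ?_⟩
  · rw [Polynomial.coeff_map]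
    exact Subring.mem_map.mpr ⟨P.coeff i, hcoeff i, rfl⟩
  · rw [Polynomial.eval_map, Polynomial.eval₂_hom, hPc, map_zero]

/-- integrality is reflected by injective ring homomorphisms (subring form) -/
theorem isIntegral_of_map_subring (φ : R →+* Ω) (hφ : Function.Injective φ) (B : Subring R)
    {c : R} (hc : IsIntegral (B.map φ) (φ c)) : IsIntegral B c := by
  classical
  rw [isIntegral_subring_iff] at hc ⊢
  obtain ⟨P, hP, hcoeff, hPc⟩ := hc
  have hex : ∀ i, ∃ r : R, r ∈ B ∧ φ r = P.coeff i := fun i => Subring.mem_map.mp (hcoeff i)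
  choose g hgB hg using hex
  let Q : Polynomial R := Polynomial.X ^ P.natDegree +
    ∑ i ∈ Finset.range P.natDegree, Polynomial.C (g i) * Polynomial.X ^ i
  have hQmap : Q.map φ = P := by
    simp only [Q, Polynomial.map_add, Polynomial.map_pow, Polynomial.map_X,
      Polynomial.map_sum, Polynomial.map_mul, Polynomial.map_C, hg]
    exact (hP.as_sum).symm
  have hQmonic : Q.Monic := by
    apply Polynomial.monic_X_pow_add
    refine lt_of_le_of_lt (Polynomial.degree_sum_le _ _) ?_
    rw [Finset.sup_lt_iff (WithBot.bot_lt_coe _)]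
    intro i hi
    refine lt_of_le_of_lt (Polynomial.degree_C_mul_X_pow_le i (g i)) ?_
    exact_mod_cast Finset.mem_range.mp hi
  refine ⟨Q, hQmonic, fun i => ?_, ?_⟩
  · simp only [Q, Polynomial.coeff_add, Polynomial.coeff_X_pow, Polynomial.finsetSum_coeff,
      Polynomial.coeff_C_mul]
    refine add_mem ?_ (sum_mem fun j _ => ?_)
    · split_ifs
      · exact one_mem _
      · exact zero_mem _
    · split_ifs
      · simpa using hgB j
      · simp
  · apply hφ
    rw [map_zero, ← Polynomial.eval₂_hom, ← Polynomial.eval_map, hQmap, hPc]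

end Transfer

section Datum

variable {N : ℕ} {A : ValuationSubring Qbar}
  (G : Datum A (residue A) (modularFunctionFieldBar N)
    (modularFunctionFieldFullC (ResidueField A) N))

/-- the `link` property of `Red.ModDatum`, for a raw datum -/
def Link : Prop :=
  ∀ (y : LaurentSeries A) (hy : coeffMap A.subtype y ∈ modularFunctionFieldBar N)
    (hyk : coeffMap (residue A) y ∈ modularFunctionFieldFullC (ResidueField A) N),
    coeffMap (residue A) y ≠ 0 →
    ∃ h : (⟨coeffMap A.subtype y, hy⟩ : modularFunctionFieldBar N) ∈ G.O,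
      G.ρ ⟨⟨coeffMap A.subtype y, hy⟩, h⟩ = ⟨coeffMap (residue A) y, hyk⟩

/-- `c ∈ G.chartk s` in `q`-expansion language -/
theorem isIntegral_coe_of_mem_chartk {s c : modularFunctionFieldFullC (ResidueField A) N}
    (hc : c ∈ G.chartk s) :
    IsIntegral (Subring.closure
      (Set.range (algebraMap (ResidueField A) (LaurentSeries (ResidueField A))) ∪
        {(s : LaurentSeries (ResidueField A))})) (c : LaurentSeries (ResidueField A)) := by
  have h1 : IsIntegral (Algebra.adjoin (ResidueField A) {s}) c := hc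
  rw [isIntegral_subalgebra_iff, Algebra.adjoin_eq_ring_closure] at h1
  have h2 := isIntegral_map_subring
    (algebraMap (modularFunctionFieldFullC (ResidueField A) N)
      (LaurentSeries (ResidueField A))) _ h1
  refine isIntegral_subring_mono ?_ h2
  rw [Subring.map_le_iff_le_comap, Subring.closure_le]
  rintro x (⟨a, rfl⟩ | hx)
  · exact Subring.subset_closure (Or.inl ⟨a, rfl⟩)
  · rw [Set.mem_singleton_iff] at hx
    subst hx
    exact Subring.subset_closure (Or.inr rfl)

/-- `b ∈ G.chart t` from `q`-expansion language -/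
theorem mem_chart_of_isIntegral_coe {t b : modularFunctionFieldBar N}
    (hb : IsIntegral (Subring.closure (constAll A ∪ {(t : LaurentSeries Qbar)}))
      (b : LaurentSeries Qbar)) : b ∈ G.chart t := by
  show IsIntegral (G.polyRing t) b
  refine isIntegral_of_map_subring
    (algebraMap (modularFunctionFieldBar N) (LaurentSeries Qbar))
    (algebraMap (modularFunctionFieldBar N) (LaurentSeries Qbar)).injective _ ?_
  refine isIntegral_subring_mono ?_ hb
  rw [Subring.closure_le]
  rintro x (⟨a, rfl⟩ | hx)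
  · refine Subring.mem_map.mpr ⟨algebraMap Qbar (modularFunctionFieldBar N) (a : Qbar), ?_, rfl⟩
    exact (le_sup_left : G.constRing ≤ G.polyRing t)
      (Subring.mem_map.mpr ⟨(a : Qbar), a.2, rfl⟩)
  · rw [Set.mem_singleton_iff] at hx
    subst hx
    exact Subring.mem_map.mpr ⟨t, (le_sup_right : Subring.closure {t} ≤ G.polyRing t)
      (Subring.subset_closure rfl), rfl⟩

/-- **Passage `R_E → A` for (H3), datum form.** -/
theorem lift_chart_of_levels (hlink : Link G)
    (t : modularFunctionFieldBar N) (s : modularFunctionFieldFullC (ResidueField A) N)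
    (E₀ : NumberFieldIn)
    (h : ∀ E : NumberFieldIn, E₀ ≤ E →
      LiftAtLevel A N E.1 (t : LaurentSeries Qbar) (s : LaurentSeries (ResidueField A))) :
    ∀ c ∈ G.chartk s, ∃ b ∈ G.chart t, ∃ hb : b ∈ G.O, G.ρ ⟨b, hb⟩ = c := by
  intro c hc
  rcases eq_or_ne c 0 with rfl | hc0
  · exact ⟨0, zero_mem _, zero_mem _, map_zero G.ρ⟩
  obtain ⟨U, hU, hUint, hUc⟩ := lift_of_levels A N _ _ E₀ h c.2
    (isIntegral_coe_of_mem_chartk G hc)
  have hyk : coeffMap (residue A) U ∈ modularFunctionFieldFullC (ResidueField A) N := by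
    rw [hUc]; exact c.2
  have hne : coeffMap (residue A) U ≠ 0 := by
    rw [hUc]
    exact fun h0 => hc0 (Subtype.ext h0)
  obtain ⟨hO, hρ⟩ := hlink U hU hyk hne
  refine ⟨⟨coeffMap A.subtype U, hU⟩, mem_chart_of_isIntegral_coe G hUint, hO, ?_⟩
  rw [hρ]
  exact Subtype.ext hUc

/-- field `lift_fin` of `G.Good` from (H3) at all number-field levels -/
theorem lift_fin_of_levels (hlink : Link G) (E₀ : NumberFieldIn)
    (h : ∀ E : NumberFieldIn, E₀ ≤ E →
      LiftAtLevel A N E.1 (G.x : LaurentSeries Qbar) (G.xk : LaurentSeries (ResidueField A))) :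
    ∀ c ∈ G.chartk G.xk, ∃ b ∈ G.chart G.x, ∃ hb : b ∈ G.O, G.ρ ⟨b, hb⟩ = c :=
  lift_chart_of_levels G hlink G.x G.xk E₀ h

/-- field `lift_inf` of `G.Good` from (H3) at all number-field levels (chart at infinity) -/
theorem lift_inf_of_levels (hlink : Link G) (E₀ : NumberFieldIn)
    (h : ∀ E : NumberFieldIn, E₀ ≤ E →
      LiftAtLevel A N E.1 ((G.x : LaurentSeries Qbar))⁻¹
        ((G.xk : LaurentSeries (ResidueField A)))⁻¹) :
    ∀ c ∈ G.chartk G.xk⁻¹, ∃ b ∈ G.chart G.x⁻¹, ∃ hb : b ∈ G.O, G.ρ ⟨b, hb⟩ = c :=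
  lift_chart_of_levels G hlink G.x⁻¹ G.xk⁻¹ E₀ (by simpa using h)

end Datum

end Fermat.Agent.S37.Red.H759

end

end
-- ===== PACK-END S37/Red/H759/PassageDatum.lean

-- ===== PACK-BEGIN S28/H988/Purity.lean
section
/-
S28 / [L.UP] upper bound, helper988.
Newton-polygon purity for monic polynomials over `k⸨X⸩` (Mathlib only):
* `IsPure G s`: `G` is monic and its Newton polygon is the single segment of slope `s`.
* `IsPure.isCoprime`: pure polynomials of different slopes are coprime.
* `isPure_of_root`: a monic polynomial of degree `p` with coefficients of order divisible by `p`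
  and with a root of order `-1` is pure of slope `-1`.
-/



set_option autoImplicit false

noncomputable section

open Polynomial

namespace Fermat.Agent.S28.H988

variable {k : Type*} [Field k]

/-- A Laurent series of non-negative order is a power series. -/
theorem mem_range_algebraMap_of_orderTop_nonneg (f : LaurentSeries k) (h : 0 ≤ f.orderTop) :
    f ∈ Set.range (algebraMap (PowerSeries k) (LaurentSeries k)) := by
  refine ⟨PowerSeries.mk fun n => f.coeff n, ?_⟩
  rw [LaurentSeries.coe_algebraMap]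
  ext n
  rcases le_or_gt 0 n with hn | hn
  · lift n to ℕ using hn
    rw [HahnSeries.ofPowerSeries_apply_coeff, PowerSeries.coeff_mk]
  · have h1 : ((HahnSeries.ofPowerSeries ℤ k) (PowerSeries.mk fun n => f.coeff n)).coeff n = 0 := by
      rw [HahnSeries.ofPowerSeries_apply]
      apply HahnSeries.embDomain_of_notMem_range
      rintro ⟨m, hm⟩
      have : (0 : ℤ) ≤ n := by rw [← hm]; exact Int.natCast_nonneg m
      omega
    rw [h1]
    symm
    apply HahnSeries.coeff_eq_zero_of_lt_orderTop
    refine lt_of_lt_of_le ?_ h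
    exact_mod_cast hn

/-- `G` is pure of slope `s`: monic, the coefficient of `X ^ i` has order at least
`(deg G - i) * s`, with equality for `i = 0`. -/
structure IsPure (G : Polynomial (LaurentSeries k)) (s : ℤ) : Prop where
  monic : G.Monic
  le_coeff : ∀ i : ℕ, ((((G.natDegree : ℤ) - i) * s : ℤ) : WithTop ℤ) ≤ (G.coeff i).orderTop
  coeff_zero : (G.coeff 0).orderTop = (((G.natDegree : ℤ) * s : ℤ) : WithTop ℤ)

theorem orderTop_single_one (n : ℤ) :
    (HahnSeries.single n (1 : k)).orderTop = (n : WithTop ℤ) :=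
  HahnSeries.orderTop_single one_ne_zero

theorem single_pow_one (n : ℤ) (m : ℕ) :
    (HahnSeries.single n (1 : k)) ^ m = HahnSeries.single ((m : ℤ) * n) (1 : k) := by
  induction m with
  | zero => simp
  | succ m ih =>
    rw [pow_succ, ih, HahnSeries.single_mul_single, mul_one]
    congr 1
    push_cast
    ring_nf

theorem isUnit_single_one (n : ℤ) : IsUnit (HahnSeries.single n (1 : k)) := by
  refine IsUnit.of_mul_eq_one (HahnSeries.single (-n) (1 : k)) ?_
  rw [HahnSeries.single_mul_single, mul_one, add_neg_cancel]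
  rfl

/-- order of the coefficients of the rescaled polynomial -/
theorem orderTop_coeff_scaleRoots (G : Polynomial (LaurentSeries k)) (t : ℤ) (i : ℕ)
    (hi : i ≤ G.natDegree) :
    ((G.scaleRoots (HahnSeries.single t (1 : k))).coeff i).orderTop =
      (G.coeff i).orderTop + ((((G.natDegree : ℤ) - i) * t : ℤ) : WithTop ℤ) := by
  rw [coeff_scaleRoots, HahnSeries.orderTop_mul, single_pow_one, orderTop_single_one]
  congr 2
  push_cast [Nat.cast_sub hi]
  ring

/-- Pure polynomials of different slopes are coprime (auxiliary ordered version). -/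
theorem IsPure.isCoprime_of_lt {G₁ G₂ : Polynomial (LaurentSeries k)} {s₁ s₂ : ℤ}
    (h₁ : IsPure G₁ s₁) (h₂ : IsPure G₂ s₂) (hs : s₁ < s₂) : IsCoprime G₁ G₂ := by
  set u : LaurentSeries k := HahnSeries.single (-s₁) (1 : k) with hu
  set u' : LaurentSeries k := HahnSeries.single s₁ (1 : k) with hu'
  have huu' : u * u' = 1 := by
    rw [hu, hu', HahnSeries.single_mul_single, mul_one, neg_add_cancel]; rfl
  suffices h : IsCoprime (G₁.scaleRoots u) (G₂.scaleRoots u) by
    have := isCoprime_scaleRoots _ _ u' (isUnit_single_one s₁) h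
    rwa [← scaleRoots_mul, ← scaleRoots_mul, huu', scaleRoots_one, scaleRoots_one] at this
  -- orders of the coefficients
  have o1 : ∀ i, (0 : WithTop ℤ) ≤ ((G₁.scaleRoots u).coeff i).orderTop := by
    intro i
    rcases le_or_gt i G₁.natDegree with hi | hi
    · rw [orderTop_coeff_scaleRoots G₁ (-s₁) i hi]
      have := h₁.le_coeff i
      calc (0 : WithTop ℤ) = (((((G₁.natDegree : ℤ) - i) * s₁ : ℤ)) : WithTop ℤ)
            + ((((G₁.natDegree : ℤ) - i) * (-s₁) : ℤ) : WithTop ℤ) := by
              rw [← WithTop.coe_add]; norm_cast; ring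
        _ ≤ _ := by gcongr
    · rw [coeff_eq_zero_of_natDegree_lt (by rwa [natDegree_scaleRoots]), HahnSeries.orderTop_zero]
      exact le_top
  have o1' : ((G₁.scaleRoots u).coeff 0).orderTop = 0 := by
    rw [orderTop_coeff_scaleRoots G₁ (-s₁) 0 (Nat.zero_le _), h₁.coeff_zero, ← WithTop.coe_add]
    have h0 : ((G₁.natDegree : ℤ) * s₁ + ((G₁.natDegree : ℤ) - ((0 : ℕ) : ℤ)) * (-s₁)) = 0 := by
      push_cast; ring
    rw [h0]
    rfl
  have o2 : ∀ i, i < G₂.natDegree → (0 : WithTop ℤ) < ((G₂.scaleRoots u).coeff i).orderTop := by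
    intro i hi
    rw [orderTop_coeff_scaleRoots G₂ (-s₁) i hi.le]
    have := h₂.le_coeff i
    have hpos : (0 : ℤ) < ((G₂.natDegree : ℤ) - i) * s₂ + ((G₂.natDegree : ℤ) - i) * (-s₁) := by
      have h1 : (0 : ℤ) < (G₂.natDegree : ℤ) - i := by
        have : (i : ℤ) < G₂.natDegree := by exact_mod_cast hi
        linarith
      have h2 : (0 : ℤ) < s₂ - s₁ := by linarith
      nlinarith [mul_pos h1 h2]
    calc (0 : WithTop ℤ) < (((((G₂.natDegree : ℤ) - i) * s₂
            + ((G₂.natDegree : ℤ) - i) * (-s₁) : ℤ)) : WithTop ℤ) := by exact_mod_cast hpos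
      _ = (((((G₂.natDegree : ℤ) - i) * s₂ : ℤ)) : WithTop ℤ)
            + ((((G₂.natDegree : ℤ) - i) * (-s₁) : ℤ) : WithTop ℤ) := by
              rw [← WithTop.coe_add]
      _ ≤ _ := by gcongr
  have o2' : ∀ i, (0 : WithTop ℤ) ≤ ((G₂.scaleRoots u).coeff i).orderTop := by
    intro i
    rcases lt_trichotomy i G₂.natDegree with hi | hi | hi
    · exact (o2 i hi).le
    · have hm : (G₂.scaleRoots u).Monic := (monic_scaleRoots_iff u).mpr h₂.monic
      have : (G₂.scaleRoots u).coeff i = 1 := by
        rw [hi, ← natDegree_scaleRoots G₂ u]; exact hm.coeff_natDegree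
      rw [this, HahnSeries.orderTop_one]
    · rw [coeff_eq_zero_of_natDegree_lt (by rwa [natDegree_scaleRoots]), HahnSeries.orderTop_zero]
      exact le_top
  -- lift to power series
  have l1 : G₁.scaleRoots u ∈ lifts (algebraMap (PowerSeries k) (LaurentSeries k)) :=
    (lifts_iff_coeff_lifts _).mpr fun i => mem_range_algebraMap_of_orderTop_nonneg _ (o1 i)
  have l2 : G₂.scaleRoots u ∈ lifts (algebraMap (PowerSeries k) (LaurentSeries k)) :=
    (lifts_iff_coeff_lifts _).mpr fun i => mem_range_algebraMap_of_orderTop_nonneg _ (o2' i)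
  obtain ⟨g₁, hg₁, hd₁, hm₁⟩ :=
    lifts_and_natDegree_eq_and_monic l1 ((monic_scaleRoots_iff u).mpr h₁.monic)
  obtain ⟨g₂, hg₂, hd₂, hm₂⟩ :=
    lifts_and_natDegree_eq_and_monic l2 ((monic_scaleRoots_iff u).mpr h₂.monic)
  have key : ∀ (g : Polynomial (PowerSeries k)) (i : ℕ),
      PowerSeries.constantCoeff (g.coeff i) =
        ((g.map (algebraMap (PowerSeries k) (LaurentSeries k))).coeff i).coeff 0 := by
    intro g i
    rw [coeff_map, LaurentSeries.coe_algebraMap]
    have := HahnSeries.ofPowerSeries_apply_coeff (Γ := ℤ) (g.coeff i) 0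
    rw [Nat.cast_zero] at this
    rw [this, PowerSeries.coeff_zero_eq_constantCoeff]
  rw [← hg₁, ← hg₂]
  refine isCoprime_map_of_reduction g₁ g₂ hm₁ hm₂ ?_ ?_
  · rw [key, hg₁]
    exact HahnSeries.coeff_orderTop_ne (by rw [o1']; rfl)
  · intro i hi
    rw [key, hg₂]
    apply HahnSeries.coeff_eq_zero_of_lt_orderTop
    have := o2 i (by rwa [hd₂, natDegree_scaleRoots] at hi)
    exact_mod_cast this

/-- Pure polynomials of different slopes are coprime. -/
theorem IsPure.isCoprime {G₁ G₂ : Polynomial (LaurentSeries k)} {s₁ s₂ : ℤ}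
    (h₁ : IsPure G₁ s₁) (h₂ : IsPure G₂ s₂) (hs : s₁ ≠ s₂) : IsCoprime G₁ G₂ := by
  rcases lt_or_gt_of_ne hs with h | h
  · exact h₁.isCoprime_of_lt h₂ h
  · exact (h₂.isCoprime_of_lt h₁ h).symm

/-- order of a nonzero element as an integer -/
theorem exists_orderTop_eq (f : LaurentSeries k) (hf : f ≠ 0) :
    ∃ m : ℤ, f.orderTop = (m : WithTop ℤ) := by
  have : f.orderTop ≠ ⊤ := HahnSeries.orderTop_ne_top.mpr hf
  obtain ⟨m, hm⟩ := WithTop.ne_top_iff_exists.mp this
  exact ⟨m, hm.symm⟩

theorem orderTop_pow_of_eq (y : LaurentSeries k) (a : ℤ) (hy : y.orderTop = (a : WithTop ℤ))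
    (i : ℕ) : (y ^ i).orderTop = (((i : ℤ) * a : ℤ) : WithTop ℤ) := by
  induction i with
  | zero => simp
  | succ i ih =>
    rw [pow_succ, HahnSeries.orderTop_mul, ih, hy, ← WithTop.coe_add]
    congr 1
    push_cast
    ring

/-- **Purity from a root of order `-1`.** A monic polynomial of degree `p` whose coefficients
have order divisible by `p` and which has a root of order `-1` is pure of slope `-1`. -/
theorem isPure_of_root (p : ℕ) (P : Polynomial (LaurentSeries k)) (hmonic : P.Monic)
    (hdeg : P.natDegree = p)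
    (hrange : ∀ i, P.coeff i ≠ 0 → ∃ n : ℤ, (P.coeff i).orderTop = (((p : ℤ) * n : ℤ) : WithTop ℤ))
    (y : LaurentSeries k) (hy : y.orderTop = ((-1 : ℤ) : WithTop ℤ)) (hroot : P.eval y = 0) :
    IsPure P (-1) := by
  classical
  set a : ℕ → LaurentSeries k := fun i => P.coeff i * y ^ i with ha
  have hsum : ∑ i ∈ Finset.range (p + 1), a i = 0 := by
    rw [← hroot, eval_eq_sum_range, hdeg]
  have hypow : ∀ i : ℕ, (y ^ i).orderTop = ((-(i : ℤ) : ℤ) : WithTop ℤ) := by
    intro i
    rw [orderTop_pow_of_eq y (-1) hy i]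
    congr 1
    ring
  have hord : ∀ i, (a i).orderTop = (P.coeff i).orderTop + ((-(i : ℤ) : ℤ) : WithTop ℤ) := by
    intro i
    rw [ha, HahnSeries.orderTop_mul, hypow]
  have hva : ∀ i, a i ≠ 0 → ∃ n : ℤ, (a i).orderTop = (((p : ℤ) * n - i : ℤ) : WithTop ℤ) := by
    intro i hi
    have hc : P.coeff i ≠ 0 := by
      intro h0
      apply hi
      rw [ha]
      simp only [h0, zero_mul]
    obtain ⟨n, hn⟩ := hrange i hc
    refine ⟨n, ?_⟩
    rw [hord, hn, ← WithTop.coe_add]
    congr 1
  have hap : (a p).orderTop = ((-(p : ℤ) : ℤ) : WithTop ℤ) := by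
    have h1 : P.coeff p = 1 := by rw [← hdeg]; exact hmonic.coeff_natDegree
    rw [ha]
    simp only [h1, one_mul]
    exact hypow p
  -- a minimal index
  obtain ⟨i₀, hi₀, hmin⟩ := Finset.exists_min_image (Finset.range (p + 1))
    (fun i => (a i).orderTop) ⟨p, Finset.mem_range.mpr (Nat.lt_succ_self p)⟩
  have hpmem : p ∈ Finset.range (p + 1) := Finset.mem_range.mpr (Nat.lt_succ_self p)
  have hg_le : (a i₀).orderTop ≤ ((-(p : ℤ) : ℤ) : WithTop ℤ) := by
    rw [← hap]; exact hmin p hpmem
  have hg_ne_top : (a i₀).orderTop ≠ ⊤ := by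
    intro h
    rw [h] at hg_le
    exact absurd hg_le (by simp)
  have hai₀ : a i₀ ≠ 0 := HahnSeries.orderTop_ne_top.mp hg_ne_top
  -- a second index with the same order
  have hex : ∃ i₁ ∈ Finset.range (p + 1), i₁ ≠ i₀ ∧ (a i₁).orderTop = (a i₀).orderTop := by
    by_contra hcon
    push Not at hcon
    have hlt : ∀ i ∈ (Finset.range (p + 1)).erase i₀, (a i₀).orderTop < (a i).orderTop := by
      intro i hi
      have hi' := Finset.mem_erase.mp hi
      exact lt_of_le_of_ne (hmin i hi'.2) (fun h => hcon i hi'.2 hi'.1 h.symm)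
    have h1 := (HahnSeries.addVal ℤ k).map_lt_sum hg_ne_top
      (s := (Finset.range (p + 1)).erase i₀) (f := a) (by
        intro i hi
        rw [HahnSeries.addVal_apply]
        exact hlt i hi)
    have h2 : ∑ i ∈ (Finset.range (p + 1)).erase i₀, a i = - a i₀ := by
      have := Finset.add_sum_erase (Finset.range (p + 1)) a hi₀
      rw [hsum] at this
      exact eq_neg_of_add_eq_zero_right this
    rw [h2, HahnSeries.addVal_apply, HahnSeries.orderTop_neg] at h1
    exact lt_irrefl _ h1
  obtain ⟨i₁, hi₁, hne, heq⟩ := hex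
  have hai₁ : a i₁ ≠ 0 := by
    apply HahnSeries.orderTop_ne_top.mp
    rw [heq]; exact hg_ne_top
  obtain ⟨n₀, hn₀⟩ := hva i₀ hai₀
  obtain ⟨n₁, hn₁⟩ := hva i₁ hai₁
  have hi₀le : i₀ ≤ p := Nat.lt_succ_iff.mp (Finset.mem_range.mp hi₀)
  have hi₁le : i₁ ≤ p := Nat.lt_succ_iff.mp (Finset.mem_range.mp hi₁)
  have hrel : (p : ℤ) * n₁ - i₁ = (p : ℤ) * n₀ - i₀ := by
    have := heq
    rw [hn₀, hn₁] at this
    exact_mod_cast this
  have hcases : (i₀ = 0 ∧ i₁ = p) ∨ (i₀ = p ∧ i₁ = 0) := by
    have hd : (p : ℤ) * (n₁ - n₀) = (i₁ : ℤ) - i₀ := by linarith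
    have h0 : (0 : ℤ) ≤ i₀ := Int.natCast_nonneg _
    have h1 : (0 : ℤ) ≤ i₁ := Int.natCast_nonneg _
    have h0' : (i₀ : ℤ) ≤ p := by exact_mod_cast hi₀le
    have h1' : (i₁ : ℤ) ≤ p := by exact_mod_cast hi₁le
    have hne' : (i₁ : ℤ) ≠ i₀ := by exact_mod_cast hne
    have hp0 : (0 : ℤ) ≤ p := Int.natCast_nonneg _
    rcases lt_trichotomy (n₁ - n₀) 0 with hneg | hzero | hpos
    · have : (p : ℤ) * (n₁ - n₀) ≤ -(p : ℤ) := by nlinarith
      right
      constructor
      · have : (i₀ : ℤ) = p := by linarith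
        exact_mod_cast this
      · have : (i₁ : ℤ) = 0 := by linarith
        exact_mod_cast this
    · rw [hzero, mul_zero] at hd
      exact absurd (by linarith) hne'
    · have : (p : ℤ) ≤ (p : ℤ) * (n₁ - n₀) := by nlinarith
      left
      constructor
      · have : (i₀ : ℤ) = 0 := by linarith
        exact_mod_cast this
      · have : (i₁ : ℤ) = p := by linarith
        exact_mod_cast this
  have hg : (a i₀).orderTop = ((-(p : ℤ) : ℤ) : WithTop ℤ) := by
    rcases hcases with ⟨_, h⟩ | ⟨h, _⟩
    · rw [← heq, h, hap]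
    · rw [h, hap]
  have ha0 : (a 0).orderTop = ((-(p : ℤ) : ℤ) : WithTop ℤ) := by
    rcases hcases with ⟨h, _⟩ | ⟨_, h⟩
    · rw [← h, hg]
    · rw [← h, heq, hg]
  refine ⟨hmonic, ?_, ?_⟩
  · intro i
    rcases le_or_gt i p with hi | hi
    · by_cases hc : P.coeff i = 0
      · rw [hc, HahnSeries.orderTop_zero]; exact le_top
      · obtain ⟨m, hm⟩ := exists_orderTop_eq _ hc
        have h1 : (a i₀).orderTop ≤ (a i).orderTop :=
          hmin i (Finset.mem_range.mpr (Nat.lt_succ_of_le hi))
        rw [hg, hord, hm, ← WithTop.coe_add] at h1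
        have h2 : -(p : ℤ) ≤ m + -(i : ℤ) := by exact_mod_cast h1
        rw [hm, hdeg]
        have h3 : ((p : ℤ) - i) * (-1) ≤ m := by linarith
        exact_mod_cast h3
    · rw [coeff_eq_zero_of_natDegree_lt (by rwa [hdeg]), HahnSeries.orderTop_zero]
      exact le_top
  · have h0 : a 0 = P.coeff 0 := by rw [ha]; simp
    rw [← h0, ha0, hdeg]
    congr 1
    ring

end Fermat.Agent.S28.H988

end

end
-- ===== PACK-END S28/H988/Purity.lean

-- ===== PACK-BEGIN S28/H988/Gen.lean
section
/-
S28 / [L.UP] upper bound, helper988.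
The generation step (zeta-free): for distinct `p ≠ r` with modular relations
`Φ_p`, `Φ_r` and `e ≠ 0`:  `j(q^{epr}) ∈ k(j(q^{er}), j(q^{ep}))`.
-/




set_option autoImplicit false

noncomputable section

open Polynomial ModularCurve

namespace Fermat.Agent.S28.H988

/-! ### Total versions of `qExpand` and `j(q^e)` -/

section Basic

variable (k : Type*) [Field k]

/-- `q ↦ q^m`, total in `m` (identity for `m = 0`). -/
def Vm (m : ℕ) : LaurentSeries k →+* LaurentSeries k :=
  if h : m = 0 then RingHom.id _ else @qExpand k _ m ⟨h⟩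

theorem Vm_eq (m : ℕ) [NeZero m] : Vm k m = qExpand k m := by
  unfold Vm
  rw [dif_neg (NeZero.ne m)]

theorem Vm_of_ne {m : ℕ} (hm : m ≠ 0) : Vm k m = @qExpand k _ m ⟨hm⟩ := by
  unfold Vm
  rw [dif_neg hm]

theorem Vm_one : Vm k 1 = RingHom.id _ := by
  ext1 f
  rw [Vm_eq k 1]
  exact qExpand_one_apply f

theorem Vm_injective (m : ℕ) : Function.Injective (Vm k m) := by
  by_cases h : m = 0
  · subst h
    unfold Vm
    rw [dif_pos rfl]
    exact fun _ _ h => h
  · rw [Vm_of_ne k h]
    exact @qExpand_injective k _ m ⟨h⟩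

theorem Vm_Vm {m n : ℕ} (hm : m ≠ 0) (hn : n ≠ 0) (f : LaurentSeries k) :
    Vm k m (Vm k n f) = Vm k (m * n) f := by
  have : NeZero m := ⟨hm⟩
  have : NeZero n := ⟨hn⟩
  have : NeZero (m * n) := ⟨Nat.mul_ne_zero hm hn⟩
  rw [Vm_eq k m, Vm_eq k n, Vm_eq k (m * n)]
  exact qExpand_qExpand n m f

/-- `j(q^e)`, total in `e`. -/
def jd (e : ℕ) : LaurentSeries k := Vm k e (jqModC k)

theorem jd_eq (e : ℕ) [NeZero e] : jd k e = qExpand k e (jqModC k) := by
  unfold jd
  rw [Vm_eq]

theorem jd_one : jd k 1 = jqModC k := by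
  unfold jd
  rw [Vm_one]
  rfl

theorem Vm_jd {m e : ℕ} (hm : m ≠ 0) (he : e ≠ 0) : Vm k m (jd k e) = jd k (m * e) := by
  unfold jd
  exact Vm_Vm k hm he _

theorem orderTop_Vm {m : ℕ} (hm : m ≠ 0) (f : LaurentSeries k) (a : ℤ)
    (h : f.orderTop = (a : WithTop ℤ)) :
    (Vm k m f).orderTop = (((m : ℤ) * a : ℤ) : WithTop ℤ) := by
  have : NeZero m := ⟨hm⟩
  rw [Vm_eq k m]
  have hmpos : (0 : ℤ) < m := by exact_mod_cast Nat.pos_of_ne_zero hm
  apply HahnSeries.orderTop_eq_of_le
  · rw [HahnSeries.mem_support, qExpand_coeff_mul]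
    exact HahnSeries.coeff_orderTop_ne h
  · intro g hg
    rw [HahnSeries.mem_support] at hg
    by_cases hdvd : (m : ℤ) ∣ g
    · obtain ⟨c, rfl⟩ := hdvd
      rw [qExpand_coeff_mul] at hg
      have : (a : WithTop ℤ) ≤ c := by
        rw [← h]; exact HahnSeries.orderTop_le_of_coeff_ne_zero hg
      have hac : a ≤ c := by exact_mod_cast this
      exact mul_le_mul_of_nonneg_left hac hmpos.le
    · exact absurd (qExpand_coeff_of_not_dvd m f hdvd) hg

theorem orderTop_jq : (jqModC k).orderTop = ((-1 : ℤ) : WithTop ℤ) := by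
  apply HahnSeries.orderTop_eq_of_le
  · rw [HahnSeries.mem_support, coeff_jqModC_neg_one]
    exact one_ne_zero
  · intro g hg
    rw [HahnSeries.mem_support] at hg
    by_contra hlt
    exact hg (coeff_jqModC_of_lt k (not_le.mp hlt))

theorem orderTop_jd {e : ℕ} (he : e ≠ 0) :
    (jd k e).orderTop = ((-(e : ℤ) : ℤ) : WithTop ℤ) := by
  unfold jd
  rw [orderTop_Vm k he _ (-1) (orderTop_jq k)]
  congr 1
  ring

theorem jd_ne {e e' : ℕ} (he : e ≠ 0) (he' : e' ≠ 0) (h : e ≠ e') : jd k e ≠ jd k e' := by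
  intro heq
  have h1 := orderTop_jd k he
  rw [heq, orderTop_jd k he'] at h1
  have : (-(e' : ℤ)) = -(e : ℤ) := by exact_mod_cast h1
  apply h
  have : (e' : ℤ) = e := by linarith
  exact_mod_cast this.symm

/-- `Vm` scales orders of nonzero elements. -/
theorem exists_orderTop_Vm (m : ℕ) (hm : m ≠ 0) (c : LaurentSeries k) (hc : Vm k m c ≠ 0) :
    ∃ n : ℤ, (Vm k m c).orderTop = (((m : ℤ) * n : ℤ) : WithTop ℤ) := by
  have hc' : c ≠ 0 := by
    rintro rfl
    exact hc (map_zero _)
  obtain ⟨n, hn⟩ := exists_orderTop_eq c hc'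
  exact ⟨n, orderTop_Vm k hm c n hn⟩

/-- `Vm` scales slopes. -/
theorem IsPure.map_Vm {G : Polynomial (LaurentSeries k)} {s : ℤ} (h : IsPure G s) {m : ℕ}
    (hm : m ≠ 0) : IsPure (G.map (Vm k m)) ((m : ℤ) * s) := by
  have hdeg : (G.map (Vm k m)).natDegree = G.natDegree :=
    natDegree_map_eq_of_injective (Vm_injective k m) G
  have hmpos : (0 : ℤ) < m := by exact_mod_cast Nat.pos_of_ne_zero hm
  refine ⟨h.monic.map _, ?_, ?_⟩
  · intro i
    rw [coeff_map, hdeg]
    by_cases hc : G.coeff i = 0
    · rw [hc, map_zero, HahnSeries.orderTop_zero]; exact le_top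
    · obtain ⟨n, hn⟩ := exists_orderTop_eq _ hc
      rw [orderTop_Vm k hm _ n hn]
      have := h.le_coeff i
      rw [hn] at this
      have h1 : ((G.natDegree : ℤ) - i) * s ≤ n := by exact_mod_cast this
      have h2 : ((G.natDegree : ℤ) - i) * ((m : ℤ) * s) ≤ (m : ℤ) * n := by
        have := mul_le_mul_of_nonneg_left h1 hmpos.le
        linarith
      exact_mod_cast h2
  · rw [coeff_map, hdeg, orderTop_Vm k hm _ _ h.coeff_zero]
    congr 1
    ring

end Basic

/-! ### Specialising a two-variable integral polynomial -/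

section PhiAt

variable {S T : Type*} [CommRing S] [CommRing T]

/-- `Φ(X, y)` for `Φ ∈ ℤ[Y][X]`. -/
def PhiAt (Φ : Polynomial (Polynomial ℤ)) (y : S) : Polynomial S :=
  Φ.map (eval₂RingHom (Int.castRingHom S) y)

theorem PhiAt_map (Φ : Polynomial (Polynomial ℤ)) (y : S) (σ : S →+* T) :
    (PhiAt Φ y).map σ = PhiAt Φ (σ y) := by
  unfold PhiAt
  rw [Polynomial.map_map]
  congr 1
  apply Polynomial.ringHom_ext
  · intro a
    simp
  · simp

theorem PhiAt_monic {Φ : Polynomial (Polynomial ℤ)} (hΦ : Φ.Monic) (y : S) :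
    (PhiAt Φ y).Monic := hΦ.map _

theorem PhiAt_natDegree [Nontrivial S] {Φ : Polynomial (Polynomial ℤ)} (hΦ : Φ.Monic) (y : S) :
    (PhiAt Φ y).natDegree = Φ.natDegree := hΦ.natDegree_map _

end PhiAt

/-! ### Modular relations and the quotient polynomial -/

section Rel

variable (k : Type*) [Field k]

/-- The two modular relations of level `p` over the field `k`:
`Φ(j(q^p), j) = 0` and `Φ(j, j(q^p)) = 0`, for a monic `Φ ∈ ℤ[Y][X]` of degree `p + 1`. -/
structure PhiRel (p : ℕ) (Φ : Polynomial (Polynomial ℤ)) : Prop where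
  monic : Φ.Monic
  natDegree_eq : Φ.natDegree = p + 1
  root_jp : (PhiAt Φ (jqModC k)).IsRoot (jd k p)
  root_j : (PhiAt Φ (jd k p)).IsRoot (jqModC k)

variable {k} {p : ℕ} {Φ : Polynomial (Polynomial ℤ)}

theorem PhiRel.root1 (h : PhiRel k p Φ) (hp : p ≠ 0) {e : ℕ} (he : e ≠ 0) :
    (PhiAt Φ (jd k e)).IsRoot (jd k (e * p)) := by
  have := h.root_jp.map (f := Vm k e)
  rwa [PhiAt_map, Vm_jd k he hp] at this

theorem PhiRel.root2 (h : PhiRel k p Φ) (hp : p ≠ 0) {e : ℕ} (he : e ≠ 0) :
    (PhiAt Φ (jd k (e * p))).IsRoot (jd k e) := by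
  have := h.root_j.map (f := Vm k e)
  rwa [PhiAt_map, Vm_jd k he hp] at this

variable (k) in
/-- The quotient `Φ(X, j(q^e)) / (X - j(q^{ep}))`. -/
def quot (Φ : Polynomial (Polynomial ℤ)) (p e : ℕ) : Polynomial (LaurentSeries k) :=
  PhiAt Φ (jd k e) /ₘ (X - C (jd k (e * p)))

theorem quot_map_Vm (Φ : Polynomial (Polynomial ℤ)) (hp : p ≠ 0) {e m : ℕ} (he : e ≠ 0)
    (hm : m ≠ 0) : (quot k Φ p e).map (Vm k m) = quot k Φ p (m * e) := by
  unfold quot
  rw [map_divByMonic _ (monic_X_sub_C _), PhiAt_map, Polynomial.map_sub, map_X, map_C,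
    Vm_jd k hm he, Vm_jd k hm (Nat.mul_ne_zero he hp), mul_assoc]

theorem PhiRel.quot_spec (h : PhiRel k p Φ) (hp : p ≠ 0) {e : ℕ} (he : e ≠ 0) :
    (X - C (jd k (e * p))) * quot k Φ p e = PhiAt Φ (jd k e) :=
  mul_divByMonic_eq_iff_isRoot.mpr (h.root1 hp he)

theorem PhiRel.quot_monic (h : PhiRel k p Φ) (e : ℕ) : (quot k Φ p e).Monic := by
  unfold quot
  have hm : (PhiAt Φ (jd k e)).Monic := PhiAt_monic h.monic _
  have hd : (X - C (jd k (e * p)) : Polynomial (LaurentSeries k)).degree
      ≤ (PhiAt Φ (jd k e)).degree := by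
    rw [degree_X_sub_C, degree_eq_natDegree hm.ne_zero, PhiAt_natDegree h.monic, h.natDegree_eq]
    exact_mod_cast Nat.le_add_left 1 p
  rw [Monic, leadingCoeff_divByMonic_of_monic (monic_X_sub_C _) hd]
  exact hm

theorem PhiRel.quot_natDegree (h : PhiRel k p Φ) (e : ℕ) : (quot k Φ p e).natDegree = p := by
  unfold quot
  rw [natDegree_divByMonic _ (monic_X_sub_C _), natDegree_X_sub_C, PhiAt_natDegree h.monic,
    h.natDegree_eq]
  rfl

theorem PhiRel.isPure_quot_self (h : PhiRel k p Φ) (hp : 1 < p) : IsPure (quot k Φ p p) (-1) := by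
  have hp0 : p ≠ 0 := by omega
  have hmap : quot k Φ p p = (quot k Φ p 1).map (Vm k p) := by
    rw [quot_map_Vm Φ hp0 one_ne_zero hp0, mul_one]
  refine isPure_of_root p _ (h.quot_monic p) (h.quot_natDegree p) ?_ (jqModC k) (orderTop_jq k) ?_
  · intro i hi
    rw [hmap, coeff_map] at hi ⊢
    exact exists_orderTop_Vm k p hp0 _ hi
  · have h1 := h.root2 hp0 one_ne_zero
    rw [one_mul, jd_one] at h1
    have h2 := h.quot_spec hp0 hp0
    rw [IsRoot.def, ← h2, eval_mul, eval_sub, eval_X, eval_C] at h1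
    rcases mul_eq_zero.mp h1 with h3 | h3
    · exfalso
      have h4 : jd k 1 = jd k (p * p) := by
        rw [jd_one]; exact sub_eq_zero.mp h3
      refine jd_ne k one_ne_zero (Nat.mul_ne_zero hp0 hp0) ?_ h4
      intro h5
      have : 1 < p * p := by nlinarith
      omega
    · exact h3

theorem PhiRel.isPure_quot (h : PhiRel k p Φ) (hp : 1 < p) {m : ℕ} (hm : m ≠ 0) :
    IsPure (quot k Φ p (m * p)) (-(m : ℤ)) := by
  have hp0 : p ≠ 0 := by omega
  have := (h.isPure_quot_self hp).map_Vm k hm
  rw [quot_map_Vm Φ hp0 hp0 hm] at this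
  have e : (m : ℤ) * (-1) = -(m : ℤ) := by ring
  rwa [e] at this

/-- Coprimality of the two quotient polynomials (zeta-free, via Newton polygons). -/
theorem isCoprime_quot {r : ℕ} {Φr : Polynomial (Polynomial ℤ)}
    (hΦ : PhiRel k p Φ) (hΦr : PhiRel k r Φr) (hp : 1 < p) (hr : 1 < r) (hpr : p ≠ r)
    {e : ℕ} (he : e ≠ 0) :
    IsCoprime (quot k Φ p (e * r)) (quot k Φr r (e * p)) := by
  have hp0 : p ≠ 0 := by omega
  have hr0 : r ≠ 0 := by omega
  have hpr0 : p * r ≠ 0 := Nat.mul_ne_zero hp0 hr0
  rw [← isCoprime_map (Vm k (p * r))]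
  rw [quot_map_Vm Φ hp0 (Nat.mul_ne_zero he hr0) hpr0,
    quot_map_Vm Φr hr0 (Nat.mul_ne_zero he hp0) hpr0]
  have e1 : p * r * (e * r) = (e * r * r) * p := by ring
  have e2 : p * r * (e * p) = (e * p * p) * r := by ring
  rw [e1, e2]
  have hm1 : e * r * r ≠ 0 := Nat.mul_ne_zero (Nat.mul_ne_zero he hr0) hr0
  have hm2 : e * p * p ≠ 0 := Nat.mul_ne_zero (Nat.mul_ne_zero he hp0) hp0
  refine (hΦ.isPure_quot hp hm1).isCoprime (hΦr.isPure_quot hr hm2) ?_
  intro hcon
  have h1 : ((e * r * r : ℕ) : ℤ) = ((e * p * p : ℕ) : ℤ) := by linarith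
  have h2 : e * r * r = e * p * p := by exact_mod_cast h1
  have h3 : r * r = p * p := by
    have : e * (r * r) = e * (p * p) := by rw [← mul_assoc, ← mul_assoc]; exact h2
    exact Nat.eq_of_mul_eq_mul_left (Nat.pos_of_ne_zero he) this
  have h4 : r = p := by
    rcases lt_trichotomy r p with hlt | heq | hgt
    · exact absurd h3 (ne_of_lt (Nat.mul_lt_mul'' hlt hlt))
    · exact heq
    · exact absurd h3 (ne_of_gt (Nat.mul_lt_mul'' hgt hgt))
  exact hpr h4.symm

/-- **Generation step.** If an intermediate field contains `j(q^{er})` and `j(q^{ep})`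
(`p ≠ r`), then it contains `j(q^{epr})`. -/
theorem jd_mem_of_mem {r : ℕ} {Φr : Polynomial (Polynomial ℤ)}
    (hΦ : PhiRel k p Φ) (hΦr : PhiRel k r Φr) (hp : 1 < p) (hr : 1 < r) (hpr : p ≠ r)
    {e : ℕ} (he : e ≠ 0) (F : IntermediateField k (LaurentSeries k))
    (h1 : jd k (e * r) ∈ F) (h2 : jd k (e * p) ∈ F) : jd k (e * p * r) ∈ F := by
  have hp0 : p ≠ 0 := by omega
  have hr0 : r ≠ 0 := by omega
  have hcomm : e * r * p = e * p * r := Nat.mul_right_comm e r p
  set A : Polynomial F := PhiAt Φ (⟨jd k (e * r), h1⟩ : F) with hA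
  set B : Polynomial F := PhiAt Φr (⟨jd k (e * p), h2⟩ : F) with hB
  have hAmap : A.map (algebraMap F (LaurentSeries k)) = PhiAt Φ (jd k (e * r)) := by
    rw [hA, PhiAt_map]; rfl
  have hBmap : B.map (algebraMap F (LaurentSeries k)) = PhiAt Φr (jd k (e * p)) := by
    rw [hB, PhiAt_map]; rfl
  have hAne : A ≠ 0 := (PhiAt_monic hΦ.monic _).ne_zero
  have hrootA : (A.map (algebraMap F (LaurentSeries k))).IsRoot (jd k (e * p * r)) := by
    rw [hAmap, ← hcomm]
    exact hΦ.root1 hp0 (Nat.mul_ne_zero he hr0)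
  have hrootB : (B.map (algebraMap F (LaurentSeries k))).IsRoot (jd k (e * p * r)) := by
    rw [hBmap]
    exact hΦr.root1 hr0 (Nat.mul_ne_zero he hp0)
  have hcop : IsCoprime ((A.map (algebraMap F (LaurentSeries k))) /ₘ (X - C (jd k (e * p * r))))
      ((B.map (algebraMap F (LaurentSeries k))) /ₘ (X - C (jd k (e * p * r)))) := by
    have := isCoprime_quot hΦ hΦr hp hr hpr he
    unfold quot at this
    rw [hcomm] at this
    rwa [hAmap, hBmap]
  obtain ⟨y, hy⟩ := mem_range_of_common_root A B hAne _ hrootA hrootB hcop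
  rw [← hy]
  exact y.2

end Rel

end Fermat.Agent.S28.H988

end

end
-- ===== PACK-END S28/H988/Gen.lean

-- ===== PACK-BEGIN S19/H495/FieldRank.lean
section
/-
A3 / S19 — WP-W6alg (helper495): rank and minors over a field.

* minors of size larger than the rank vanish;
* a matrix of rank `r` has a nonzero `r × r` minor, and has constant rank at that pivot;
* a matrix over a ring mapping injectively to a field has constant rank at a unit pivot as soon
  as the size of the pivot is the rank over the field.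
-/



set_option linter.unusedSectionVars false
set_option linter.unusedSimpArgs false
set_option linter.style.longLine false
set_option linter.style.haveILetI false

namespace Fermat.Agent.S19.H495

open Matrix Module

variable {K : Type*} [Field K]
variable {m n ι : Type*} [Fintype m] [Fintype n] [Fintype ι] [DecidableEq m] [DecidableEq n]
  [DecidableEq ι]

/-- Minors of size larger than the rank vanish. -/
theorem det_submatrix_eq_zero_of_rank_lt (A : Matrix m n K) (p : ι → m) (q : ι → n)
    (h : A.rank < Fintype.card ι) : (A.submatrix p q).det = 0 := by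
  by_contra hne
  have h1 : (A.submatrix p q).rank = Fintype.card ι := Matrix.rank_of_det_ne_zero hne
  have h2 := Matrix.rank_submatrix_le A p q
  omega

/-- If the columns `q` of `A` are linearly independent, some square block on these columns has
nonzero determinant. -/
theorem exists_rows_of_linearIndependent_cols (A : Matrix m n K) (q : ι → n)
    (hq : LinearIndependent K (fun a => A.col (q a))) :
    ∃ p : ι → m, (A.submatrix p q).det ≠ 0 := by
  -- C = A[·, q], an `m × ι` matrix with independent columns, so of rank `card ι`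
  set C : Matrix m ι K := A.submatrix id q with hC
  have hCcol : C.col = fun a => A.col (q a) := rfl
  have hrank : C.rank = Fintype.card ι := by
    rw [← Matrix.rank_transpose]
    apply LinearIndependent.rank_matrix
    rw [Matrix.row_transpose, hCcol]
    exact hq
  -- choose independent rows of C
  obtain ⟨κ, a, ha, hspan, hli⟩ := exists_linearIndependent' K C.row
  have : Finite κ := Finite.of_injective a ha
  let _ : Fintype κ := Fintype.ofFinite κ
  have hcard : Fintype.card κ = Fintype.card ι := by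
    rw [← finrank_span_eq_card hli, hspan, ← hrank, Matrix.rank_eq_finrank_span_row]
  let e : ι ≃ κ := (Fintype.equivOfCardEq hcard).symm
  refine ⟨a ∘ e, ?_⟩
  have hG : A.submatrix (a ∘ e) q = (C.submatrix a id).submatrix e id := rfl
  have hrows : LinearIndependent K (A.submatrix (a ∘ e) q).row := by
    have : (A.submatrix (a ∘ e) q).row = (C.row ∘ a) ∘ e := rfl
    rw [this]
    exact hli.comp e e.injective
  have := Matrix.linearIndependent_rows_iff_isUnit.mp hrows
  exact ((Matrix.isUnit_iff_isUnit_det _).mp this).ne_zero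

/-- A matrix of rank `r` over a field has a nonzero `r × r` minor. -/
theorem exists_det_submatrix_ne_zero (A : Matrix m n K) :
    ∃ (p : Fin A.rank → m) (q : Fin A.rank → n), (A.submatrix p q).det ≠ 0 := by
  obtain ⟨κ, a, ha, hspan, hli⟩ := exists_linearIndependent' K A.col
  have : Finite κ := Finite.of_injective a ha
  let _ : Fintype κ := Fintype.ofFinite κ
  have hcard : Fintype.card κ = A.rank := by
    rw [← finrank_span_eq_card hli, hspan, Matrix.rank_eq_finrank_span_cols]
  let e : Fin A.rank ≃ κ := (Fintype.equivFinOfCardEq hcard).symm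
  have hq : LinearIndependent K (fun b : Fin A.rank => A.col ((a ∘ e) b)) :=
    hli.comp e e.injective
  obtain ⟨p, hp⟩ := exists_rows_of_linearIndependent_cols A (a ∘ e) hq
  exact ⟨p, a ∘ e, hp⟩

/-- Over a field, a nonzero minor whose size is at least the rank is a pivot of constant rank. -/
theorem constRankAt_of_rank_le (A : Matrix m n K) (p : ι → m) (q : ι → n)
    (hr : A.rank ≤ Fintype.card ι) (hu : (A.submatrix p q).det ≠ 0) : ConstRankAt A p q := by
  refine ⟨hu.isUnit, fun i j => ?_⟩
  unfold borderedMinor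
  apply det_submatrix_eq_zero_of_rank_lt
  simp only [Fintype.card_sum, Fintype.card_unit]
  omega

/-- Every matrix over a field has constant rank at some pivot of size its rank. -/
theorem exists_constRankAt (A : Matrix m n K) :
    ∃ (p : Fin A.rank → m) (q : Fin A.rank → n), ConstRankAt A p q := by
  obtain ⟨p, q, h⟩ := exists_det_submatrix_ne_zero A
  exact ⟨p, q, constRankAt_of_rank_le A p q (by simp) h⟩

/-- The rank of a matrix of constant rank (over a nontrivial commutative ring) is the size of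
the pivot. -/
theorem ConstRankAt.rank_eq {R : Type*} [CommRing R] [Nontrivial R] {A : Matrix m n R}
    {p : ι → m} {q : ι → n} (h : ConstRankAt A p q) : A.rank = Fintype.card ι := by
  unfold Matrix.rank
  rw [← h.rangeEquiv.finrank_eq, Module.finrank_pi]

/-- Over a field, a nonzero minor is a pivot of constant rank iff its size is the rank. -/
theorem constRankAt_iff_rank_eq (A : Matrix m n K) (p : ι → m) (q : ι → n)
    (hu : (A.submatrix p q).det ≠ 0) : ConstRankAt A p q ↔ A.rank = Fintype.card ι :=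
  ⟨fun h => h.rank_eq, fun h => constRankAt_of_rank_le A p q h.le hu⟩

/-- **Generic rank + unit pivot ⇒ constant rank.**  Let `R` be a commutative ring mapping
injectively to a field `K` (e.g. a valuation ring and its fraction field).  If the rank of `A`
over `K` is at most the size of a pivot with unit determinant in `R`, then `A` has constant rank
at this pivot over `R` — hence over every `R`-algebra, in particular over the residue field. -/
theorem constRankAt_of_rank_map_le {R : Type*} [CommRing R] (f : R →+* K)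
    (hf : Function.Injective f) (A : Matrix m n R) (p : ι → m) (q : ι → n)
    (hr : (A.map f).rank ≤ Fintype.card ι) (hu : IsUnit (A.submatrix p q).det) :
    ConstRankAt A p q := by
  refine ⟨hu, fun i j => ?_⟩
  apply hf
  rw [← borderedMinor_map, map_zero]
  have hK : ConstRankAt (A.map f) p q := by
    apply constRankAt_of_rank_le _ _ _ hr
    rw [det_submatrix_map]
    exact (hu.map f).ne_zero
  exact hK.2 i j

/-- In the situation of `constRankAt_of_rank_map_le`, the rank is the same over every nontrivial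
`R`-algebra `S` (e.g. the residue field): rank is constant. -/
theorem rank_map_eq_of_unit_pivot {R S : Type*} [CommRing R] [CommRing S] [Nontrivial S]
    (f : R →+* K) (hf : Function.Injective f) (g : R →+* S) (A : Matrix m n R) (p : ι → m)
    (q : ι → n) (hr : (A.map f).rank ≤ Fintype.card ι) (hu : IsUnit (A.submatrix p q).det) :
    (A.map g).rank = Fintype.card ι :=
  ((constRankAt_of_rank_map_le f hf A p q hr hu).map g).rank_eq

end Fermat.Agent.S19.H495

end
-- ===== PACK-END S19/H495/FieldRank.lean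

-- ===== PACK-BEGIN S19/H495/Saturated.lean
section
/-
A3 / S19 — WP-W6alg (helper495): saturated sublattices over a valuation ring, in the language
"field `K` with a valuation `v`; integral means `v x ≤ 1`".

* `chart B p = B * B[p, ·]⁻¹`: the affine Grassmannian chart of the column space of `B` at the
  rows `p`; its entries are the ratios of maximal minors (affine Plücker coordinates)
  `det B[p with a ↦ i] / det B[p]`  (`chart_apply`).
* `exists_integral_chart`: choosing the maximal minor of largest valuation gives a chart with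
  integral entries (the "unit pivot").
* `exists_integral_basis_matrix`: every subspace `W ⊆ Kⁿ` of dimension `d` is the column space of
  an integral `n × d` matrix containing the identity block; hence `W ∩ Oⁿ` is the free
  `O`-module on its columns (`integral_iff_of_submatrix_eq_one`) — a saturated sublattice, and a
  direct summand of `Oⁿ`.
* `exists_constRankAt_of_rank_eq_residue_rank`: over a local ring `O ⊆ K`, a matrix whose generic
  rank equals its residual rank has constant rank at a unit pivot.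
-/




set_option linter.unusedSectionVars false
set_option linter.unusedSimpArgs false
set_option linter.style.longLine false
set_option linter.style.haveILetI false

namespace Fermat.Agent.S19.H495

open Matrix Module

variable {K : Type*} [Field K]
variable {m n ι : Type*} [Fintype m] [Fintype n] [Fintype ι] [DecidableEq m] [DecidableEq n]
  [DecidableEq ι]

/-- The affine chart of the column space of `B` at the rows `p`: the matrix `B * B[p, ·]⁻¹`,
which has the same column space as `B` and the identity block at the rows `p` (when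
`det B[p, ·] ≠ 0`). -/
noncomputable def chart (B : Matrix n ι K) (p : ι → n) : Matrix n ι K :=
  B * (B.submatrix p id)⁻¹

theorem chart_eq_coechelon (B : Matrix n ι K) (p : ι → n) : chart B p = coechelon B p id := rfl

theorem chart_submatrix (B : Matrix n ι K) (p : ι → n) (h : (B.submatrix p id).det ≠ 0) :
    (chart B p).submatrix p id = 1 :=
  coechelon_submatrix (A := B) (p := p) (q := id) h.isUnit

theorem chart_mul_submatrix (B : Matrix n ι K) (p : ι → n) (h : (B.submatrix p id).det ≠ 0) :
    chart B p * B.submatrix p id = B := by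
  rw [chart, Matrix.mul_assoc, nonsing_inv_mul _ h.isUnit, Matrix.mul_one]

theorem submatrix_update_eq_updateRow (B : Matrix n ι K) (p : ι → n) (a : ι) (i : n) :
    B.submatrix (Function.update p a i) id = (B.submatrix p id).updateRow a (B i) := by
  ext b c
  by_cases hb : b = a
  · subst hb; simp
  · simp [Matrix.updateRow_ne hb, Function.update_of_ne hb]

/-- **Cramer's rule for charts**: the entries of the chart are ratios of maximal minors. -/
theorem det_mul_chart_apply (B : Matrix n ι K) (p : ι → n) (h : (B.submatrix p id).det ≠ 0)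
    (i : n) (a : ι) :
    (B.submatrix p id).det * chart B p i a = (B.submatrix (Function.update p a i) id).det := by
  have h1 := congrFun (Matrix.det_smul_inv_vecMul_eq_cramer_transpose (B.submatrix p id) (B i)
    h.isUnit) a
  rw [Matrix.cramer_transpose_apply, ← submatrix_update_eq_updateRow] at h1
  rw [← h1]
  simp only [Pi.smul_apply, smul_eq_mul, chart, Matrix.mul_apply, Matrix.vecMul, dotProduct]

theorem chart_apply (B : Matrix n ι K) (p : ι → n) (h : (B.submatrix p id).det ≠ 0)
    (i : n) (a : ι) :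
    chart B p i a = (B.submatrix (Function.update p a i) id).det / (B.submatrix p id).det := by
  rw [← det_mul_chart_apply B p h, mul_div_cancel_left₀ _ h]

/-- The column space of a chart is the column space of the matrix. -/
theorem range_chart (B : Matrix n ι K) (p : ι → n) (h : (B.submatrix p id).det ≠ 0) :
    LinearMap.range (chart B p).mulVecLin = LinearMap.range B.mulVecLin := by
  apply le_antisymm
  · rintro _ ⟨c, rfl⟩
    refine ⟨(B.submatrix p id)⁻¹ *ᵥ c, ?_⟩
    simp only [Matrix.mulVecLin_apply, Matrix.mulVec_mulVec, chart]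
  · rintro _ ⟨c, rfl⟩
    refine ⟨B.submatrix p id *ᵥ c, ?_⟩
    simp only [Matrix.mulVecLin_apply, Matrix.mulVec_mulVec, chart_mul_submatrix B p h]

section Valuation

variable {Γ₀ : Type*} [LinearOrderedCommGroupWithZero Γ₀] (v : Valuation K Γ₀)

/-- **Unit pivot.**  If some maximal minor of `B` is nonzero, the maximal minor of largest
valuation gives a chart all of whose entries are integral. -/
theorem exists_integral_chart (B : Matrix n ι K) (h : ∃ p : ι → n, (B.submatrix p id).det ≠ 0) :
    ∃ p : ι → n, (B.submatrix p id).det ≠ 0 ∧ ∀ i a, v (chart B p i a) ≤ 1 := by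
  obtain ⟨p₀, hp₀⟩ := h
  haveI : Nonempty (ι → n) := ⟨p₀⟩
  obtain ⟨p, hp⟩ := Finite.exists_max (fun p : ι → n => v (B.submatrix p id).det)
  have hpne : (B.submatrix p id).det ≠ 0 := by
    intro h0
    have := hp p₀
    simp only [h0, map_zero] at this
    exact hp₀ ((map_eq_zero v).mp (le_antisymm this zero_le))
  refine ⟨p, hpne, fun i a => ?_⟩
  rw [chart_apply B p hpne, map_div₀]
  have hv : v (B.submatrix p id).det ≠ 0 := (Valuation.ne_zero_iff v).mpr hpne
  rw [div_le_iff₀ (zero_lt_iff.mpr hv), one_mul]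
  exact hp _

/-- Integral combinations of integral vectors are integral. -/
theorem integral_mulVec {k : Type*} [Fintype k] (B : Matrix n k K) (hB : ∀ i a, v (B i a) ≤ 1)
    (c : k → K) (hc : ∀ a, v (c a) ≤ 1) (i : n) : v ((B *ᵥ c) i) ≤ 1 := by
  simp only [Matrix.mulVec, dotProduct]
  apply Valuation.map_sum_le
  intro a _
  rw [map_mul]
  exact mul_le_one' (hB i a) (hc a)

/-- **Saturation.**  If `B` contains the identity block at the rows `p`, then a combination of
the columns of `B` is integral iff its coefficients are; the coefficients are the coordinates at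
the rows `p`. -/
theorem coeff_eq_of_submatrix_eq_one (B : Matrix n ι K) (p : ι → n)
    (hB : B.submatrix p id = 1) (c : ι → K) (a : ι) : c a = (B *ᵥ c) (p a) := by
  have : (B *ᵥ c) (p a) = (B.submatrix p id *ᵥ c) a := rfl
  rw [this, hB, Matrix.one_mulVec]

theorem integral_iff_of_submatrix_eq_one (B : Matrix n ι K) (p : ι → n)
    (hint : ∀ i a, v (B i a) ≤ 1) (hB : B.submatrix p id = 1) (c : ι → K) :
    (∀ i, v ((B *ᵥ c) i) ≤ 1) ↔ ∀ a, v (c a) ≤ 1 := by
  constructor
  · intro h a
    rw [coeff_eq_of_submatrix_eq_one B p hB c a]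
    exact h _
  · intro h i
    exact integral_mulVec v B hint c h i

/-- **Saturated sublattices over a valuation ring are free direct summands with a unit pivot.**
Every subspace `W ⊆ Kⁿ` is the column space of an integral matrix `B` containing an identity
block; consequently `W ∩ Oⁿ = B · O^d` (see `integral_iff_of_submatrix_eq_one`). -/
theorem exists_integral_basis_matrix (W : Submodule K (n → K)) :
    ∃ (B : Matrix n (Fin (finrank K W)) K) (p : Fin (finrank K W) → n),
      (∀ i a, v (B i a) ≤ 1) ∧ B.submatrix p id = 1 ∧ LinearMap.range B.mulVecLin = W := by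
  let b : Basis (Fin (finrank K W)) K W := Module.finBasis K W
  let B₀ : Matrix n (Fin (finrank K W)) K := Matrix.of fun i a => (b a : n → K) i
  have hcol : B₀.col = fun a => (b a : n → K) := rfl
  have hli : LinearIndependent K (fun a => B₀.col (id a)) := by
    show LinearIndependent K B₀.col
    rw [hcol]
    exact b.linearIndependent.map' W.subtype (Submodule.ker_subtype W)
  obtain ⟨p₀, hp₀⟩ := exists_rows_of_linearIndependent_cols B₀ id hli
  obtain ⟨p, hp, hint⟩ := exists_integral_chart v B₀ ⟨p₀, hp₀⟩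
  refine ⟨chart B₀ p, p, hint, chart_submatrix B₀ p hp, ?_⟩
  rw [range_chart B₀ p hp, Matrix.range_mulVecLin, hcol]
  have : Set.range (fun a => (b a : n → K)) = W.subtype '' Set.range b := by
    rw [← Set.range_comp]; rfl
  rw [this, Submodule.span_image, b.span_eq, Submodule.map_top, Submodule.range_subtype]

end Valuation

/-! ### Local rings: generic rank = residual rank ⇒ constant rank at a unit pivot -/

section Local

variable {O : Type*} [CommRing O] [IsLocalRing O]

/-- Let `O` be a local ring mapping injectively to the field `K`.  If a matrix over `O` has the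
same rank `r` over `K` and over the residue field of `O`, then it has constant rank at some
`r × r` pivot: a unit minor exists and all larger minors vanish.  Consequently (see
`ConstRankAt.kerEquiv`, `ConstRankAt.rangeEquiv`, `ConstRankAt.map`) the kernel and image over `O`
are free direct summands commuting with every base change. -/
theorem exists_constRankAt_of_rank_eq_residue_rank (f : O →+* K) (hf : Function.Injective f)
    (A : Matrix m n O) (r : ℕ) (hK : (A.map f).rank ≤ r)
    (hk : (A.map (IsLocalRing.residue O)).rank = r) :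
    ∃ (p : Fin r → m) (q : Fin r → n), ConstRankAt A p q := by
  subst hk
  obtain ⟨p, q, hpq⟩ := exists_det_submatrix_ne_zero (A.map (IsLocalRing.residue O))
  refine ⟨p, q, constRankAt_of_rank_map_le f hf A p q (by simpa using hK) ?_⟩
  rw [det_submatrix_map] at hpq
  exact (IsLocalRing.residue_ne_zero_iff_isUnit _).mp hpq

/-- Converse: constant rank at a pivot forces generic rank = residual rank = size of the pivot. -/
theorem ConstRankAt.rank_map_eq {R S : Type*} [CommRing R] [CommRing S] [Nontrivial S]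
    (g : R →+* S) {A : Matrix m n R} {p : ι → m} {q : ι → n} (h : ConstRankAt A p q) :
    (A.map g).rank = Fintype.card ι :=
  (h.map g).rank_eq

end Local

end Fermat.Agent.S19.H495

end
-- ===== PACK-END S19/H495/Saturated.lean

-- ===== PACK-BEGIN S19/Glue.lean
section


/-!
# Cell A3 (S19) — top glue: frozen S19 from the three blocks ORD, FIN, ORDER
-/

set_option autoImplicit false

namespace Fermat.Agent.S19

open ModularCurve

/-- The frozen S19 conclusion, for fixed `N, ℓ, k`. -/
def FrozenConclusion (p : ℕ) (ℓ : ℕ) (k : ℕ) : Prop :=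
  ∃ (H : Type) (_ : CommRing H) (_ : HopfAlgebra (GaloisRep.ratLocalizedAt ℓ) H),
    Module.Finite (GaloisRep.ratLocalizedAt ℓ) H ∧ Module.Flat (GaloisRep.ratLocalizedAt ℓ) H ∧
    Coalgebra.IsCocomm (GaloisRep.ratLocalizedAt ℓ) H ∧
    ∃ e : WithConv (H →ₐ[GaloisRep.ratLocalizedAt ℓ] AlgebraicClosure ℚ) ≃
        ↥(Submodule.torsionBy ℤ (JZero p) ((ℓ : ℤ) ^ k)),
      (∀ f g, e (f * g) = e f + e g) ∧
      ∀ (σ : AlgebraicClosure ℚ ≃ₐ[ℚ] AlgebraicClosure ℚ)
        (f g : WithConv (H →ₐ[GaloisRep.ratLocalizedAt ℓ] AlgebraicClosure ℚ)),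
        (∀ h : H, g h = σ (f h)) → ((e g : JZero p)) = σ • (e f : JZero p)

theorem frozen_of_hopfModel (p ℓ k : ℕ) (h : HopfModel ℓ (Tors p ℓ k) (torsAct p ℓ k)) :
    FrozenConclusion p ℓ k := by
  obtain ⟨H, i1, i2, hfin, hflat, hco, e, hmul, hgal⟩ := h
  refine ⟨H, i1, i2, hfin, hflat, hco, e, hmul, ?_⟩
  intro σ f g hfg
  have := hgal σ f g hfg
  rw [this]
  rfl

/-- **Top glue**: frozen S19 from ORD + FIN + ORDER. -/
theorem S19_of_blocks (hord : OrdStatement) (hfin : FinStatement) (horder : OrderStatement)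
    (p : ℕ) [NeZero p] (ℓ : ℕ) [Fact ℓ.Prime] (hℓp : ¬ ℓ ∣ p) (k : ℕ) :
    FrozenConclusion p ℓ k := by
  haveI : Finite (Tors p ℓ k) := hfin p ℓ k
  exact frozen_of_hopfModel p ℓ k (hord ℓ (Tors p ℓ k) (torsAct p ℓ k) (horder p ℓ hℓp k))

end Fermat.Agent.S19

end
-- ===== PACK-END S19/Glue.lean

-- ===== PACK-BEGIN A3/H799/Root.lean
section



/-!
# A3 / LOCAL — the root lemma  (helper799)

`A` local ring, `T` finite, `Λ ≤ (T → A)` an `A`-algebra of functions, `𝒪` a disc algebra.
Let `W_τ = Σ_j v_j(τ) f_j ∈ 𝒪` be a family of disc functions with fixed `f_j ∈ 𝒪` and coefficients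
`v_j ∈ Λ`.  If, for every `τ`,

  `W_τ = ∏_{y ∈ ys} (t - y(τ)) * (t - c(τ)) * u_τ`,   `u_τ(c(τ))` a unit,

with known roots `ys ⊆ Λ` (values in `𝔪`), then the remaining root `c : T → 𝔪` lies in `Λ`.
(`root_mem`.)  This is "Weierstrass preparation + Hensel" for algebraic families, with no
completeness and no power series.
-/

set_option autoImplicit false

namespace Fermat.Agent.A3.H799

open Polynomial

section EvAt

variable {A : Type*} [CommRing A] {T : Type*}

/-- Evaluation of a function in `Λ` at a parameter value `τ`. -/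
def evAt (Λ : Subalgebra A (T → A)) (τ : T) : Λ →ₐ[A] A :=
  (Pi.evalAlgHom A (fun _ : T => A) τ).comp Λ.val

@[simp] theorem evAt_apply (Λ : Subalgebra A (T → A)) (τ : T) (x : Λ) :
    evAt Λ τ x = (x : T → A) τ := rfl

theorem ext_evAt {Λ : Subalgebra A (T → A)} {x y : Λ} (h : ∀ τ, evAt Λ τ x = evAt Λ τ y) :
    x = y := Subtype.ext (funext h)

/-- Polynomials over `Λ` are determined by their specialisations. -/
theorem poly_ext_evAt {Λ : Subalgebra A (T → A)} {P Q : Λ[X]}
    (h : ∀ τ, P.map (evAt Λ τ : Λ →+* A) = Q.map (evAt Λ τ : Λ →+* A)) : P = Q := by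
  ext n : 1
  refine ext_evAt fun τ => ?_
  have := congrArg (fun p => p.coeff n) (h τ)
  simpa using this

/-- Pointwise value of `aeval y P`. -/
theorem aeval_apply_eq (Λ : Subalgebra A (T → A)) (P : Λ[X]) (y : T → A) (τ : T) :
    (aeval y P) τ = (P.map (evAt Λ τ : Λ →+* A)).eval (y τ) := by
  have h1 : (aeval y P) τ = (Pi.evalRingHom (fun _ : T => A) τ) (eval₂ (algebraMap Λ (T → A)) y P) :=
    rfl
  rw [h1, Polynomial.hom_eval₂, eval_map]
  rfl

end EvAt

section Root

variable {A : Type*} [CommRing A] [IsLocalRing A] {T : Type*} [Finite T]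
variable {𝒪 : Type*} [CommRing 𝒪] [Algebra A 𝒪]

/-- The value at `τ` of a `Λ`-point of the disc. -/
def ptAt (Λ : Subalgebra A (T → A)) (τ : T) (y : radIdeal Λ) : IsLocalRing.maximalIdeal A :=
  ⟨((y : Λ) : T → A) τ, y.2 τ⟩

omit [Finite T] in
@[simp] theorem coe_ptAt (Λ : Subalgebra A (T → A)) (τ : T) (y : radIdeal Λ) :
    ((ptAt Λ τ y : IsLocalRing.maximalIdeal A) : A) = ((y : Λ) : T → A) τ := rfl

/-- The monic polynomial `∏ (X - y)` over `Λ` attached to a list of `Λ`-points. -/
noncomputable def nodalΛ (Λ : Subalgebra A (T → A)) (ys : List (radIdeal Λ)) : Λ[X] :=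
  (ys.map fun y => X - C (y : Λ)).prod

omit [Finite T] in
theorem nodalΛ_monic (Λ : Subalgebra A (T → A)) (ys : List (radIdeal Λ)) :
    (nodalΛ Λ ys).Monic := by
  induction ys with
  | nil => simp [nodalΛ]
  | cons a l ih =>
    have : nodalΛ Λ (a :: l) = (X - C (a : Λ)) * nodalΛ Λ l := by simp [nodalΛ]
    rw [this]; exact (monic_X_sub_C _).mul ih

omit [Finite T] in
theorem map_nodalΛ (Λ : Subalgebra A (T → A)) (ys : List (radIdeal Λ)) (τ : T) :
    (nodalΛ Λ ys).map (evAt Λ τ : Λ →+* A) = DiscAlg.nodal (ys.map (ptAt Λ τ)) := by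
  induction ys with
  | nil => simp [nodalΛ]
  | cons a l ih =>
    have h1 : nodalΛ Λ (a :: l) = (X - C (a : Λ)) * nodalΛ Λ l := by simp [nodalΛ]
    rw [h1, Polynomial.map_mul, ih, List.map_cons, DiscAlg.nodal_cons]
    simp

/-- Auxiliary: the list of all nodes `∏_τ (ys(τ) ++ [c τ, c τ])`. -/
private noncomputable def allNodes (Λ : Subalgebra A (T → A)) (ys : List (radIdeal Λ))
    (c : T → IsLocalRing.maximalIdeal A) (ts : List T) : List (IsLocalRing.maximalIdeal A) :=
  ts.flatMap fun τ => ys.map (ptAt Λ τ) ++ [c τ, c τ]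

omit [Finite T] in
private theorem nodal_allNodes_dvd (Λ : Subalgebra A (T → A)) (ys : List (radIdeal Λ))
    (c : T → IsLocalRing.maximalIdeal A) (ts : List T) (τ : T) (hτ : τ ∈ ts) :
    ∃ R : A[X], DiscAlg.nodal (allNodes Λ ys c ts) =
      DiscAlg.nodal (ys.map (ptAt Λ τ) ++ [c τ]) * (X - C ((c τ : IsLocalRing.maximalIdeal A) : A))
        * R := by
  induction ts with
  | nil => simp at hτ
  | cons σ ts ih =>
    have hcons : allNodes Λ ys c (σ :: ts) =
        (ys.map (ptAt Λ σ) ++ [c σ, c σ]) ++ allNodes Λ ys c ts := by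
      simp [allNodes]
    rw [hcons, DiscAlg.nodal_append]
    rcases List.mem_cons.mp hτ with h | h
    · subst h
      refine ⟨DiscAlg.nodal (allNodes Λ ys c ts), ?_⟩
      have : ys.map (ptAt Λ τ) ++ [c τ, c τ] = (ys.map (ptAt Λ τ) ++ [c τ]) ++ [c τ] := by simp
      rw [this, DiscAlg.nodal_append_singleton]
    · obtain ⟨R, hR⟩ := ih h
      refine ⟨DiscAlg.nodal (ys.map (ptAt Λ σ) ++ [c σ, c σ]) * R, ?_⟩
      rw [hR]; ring

/-- **Root lemma.**  See the module docstring. -/
theorem root_mem (Λ : Subalgebra A (T → A)) (D : DiscAlg A 𝒪) {κ : Type*} [Fintype κ]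
    (f : κ → 𝒪) (v : κ → Λ) (ys : List (radIdeal Λ)) (c : T → IsLocalRing.maximalIdeal A)
    (hW : ∀ τ, ∃ u : 𝒪, IsUnit (D.ev (c τ) u) ∧
      ∑ j, ((v j : Λ) : T → A) τ • f j =
        aeval D.t (DiscAlg.nodal (ys.map (ptAt Λ τ))) *
          (D.t - algebraMap A 𝒪 ((c τ : IsLocalRing.maximalIdeal A) : A)) * u) :
    (fun τ => ((c τ : IsLocalRing.maximalIdeal A) : A)) ∈ Λ := by
  classical
  have : Fintype T := Fintype.ofFinite T
  set ts : List T := (Finset.univ : Finset T).toList with hts
  have hmem : ∀ τ, τ ∈ ts := fun τ => by simp [hts]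
  set S := allNodes Λ ys c ts with hS
  -- interpolation of the `f j`
  choose p h hp using fun j => D.exists_interp S (f j)
  -- the polynomial with coefficients in `Λ`
  set Φ : Λ[X] := ∑ j, C (v j) * (p j).map (algebraMap A Λ) with hΦ
  set G : Λ[X] := nodalΛ Λ ys with hG
  have hGm : G.Monic := nodalΛ_monic Λ ys
  set Φ₂ : Λ[X] := Φ /ₘ G with hΦ₂
  -- pointwise factorisation of `Φ`
  have hΦτ : ∀ τ, Φ.map (evAt Λ τ : Λ →+* A) = ∑ j, C (((v j : Λ) : T → A) τ) * p j := by
    intro τ
    rw [hΦ, Polynomial.map_sum]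
    refine Finset.sum_congr rfl fun j _ => ?_
    rw [Polynomial.map_mul, Polynomial.map_C, Polynomial.map_map]
    have : ((evAt Λ τ : Λ →+* A).comp (algebraMap A Λ)) = RingHom.id A := by
      ext a; simp
    rw [this, Polynomial.map_id]
    rfl
  have hfac : ∀ τ, ∃ q : A[X], IsUnit (q.eval ((c τ : IsLocalRing.maximalIdeal A) : A)) ∧
      Φ.map (evAt Λ τ : Λ →+* A) =
        DiscAlg.nodal (ys.map (ptAt Λ τ)) * ((X - C ((c τ : IsLocalRing.maximalIdeal A) : A)) * q) := by
    intro τ
    obtain ⟨u, hu, hWτ⟩ := hW τ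
    obtain ⟨R, hR⟩ := nodal_allNodes_dvd Λ ys c ts τ (hmem τ)
    -- aeval of Φ_τ
    have h1 : aeval D.t (Φ.map (evAt Λ τ : Λ →+* A)) =
        ∑ j, ((v j : Λ) : T → A) τ • f j -
          aeval D.t (DiscAlg.nodal S) * ∑ j, ((v j : Λ) : T → A) τ • h j := by
      rw [hΦτ τ, map_sum, Finset.mul_sum, ← Finset.sum_sub_distrib]
      refine Finset.sum_congr rfl fun j _ => ?_
      rw [map_mul, aeval_C, hp j, Algebra.smul_def, Algebra.smul_def]
      ring
    set u' : 𝒪 := u - (D.t - algebraMap A 𝒪 ((c τ : IsLocalRing.maximalIdeal A) : A)) *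
        (aeval D.t R * ∑ j, ((v j : Λ) : T → A) τ • h j) with hu'
    have hR' : aeval D.t (DiscAlg.nodal S) =
        aeval D.t (DiscAlg.nodal (ys.map (ptAt Λ τ))) *
          (D.t - algebraMap A 𝒪 ((c τ : IsLocalRing.maximalIdeal A) : A)) *
          (D.t - algebraMap A 𝒪 ((c τ : IsLocalRing.maximalIdeal A) : A)) * aeval D.t R := by
      rw [hS, hR, DiscAlg.nodal_append_singleton]
      simp only [map_mul, map_sub, aeval_X, aeval_C]
    have h2 : aeval D.t (Φ.map (evAt Λ τ : Λ →+* A)) =
        aeval D.t (DiscAlg.nodal (ys.map (ptAt Λ τ) ++ [c τ])) * u' := by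
      rw [h1, hWτ, hR', DiscAlg.nodal_append_singleton, hu']
      simp only [map_mul, map_sub, aeval_X, aeval_C]
      ring
    obtain ⟨q, hq⟩ := D.nodal_dvd_of_aeval _ _ _ h2
    refine ⟨q, ?_, ?_⟩
    · -- q(t) = u'
      have h3 : aeval D.t (DiscAlg.nodal (ys.map (ptAt Λ τ) ++ [c τ])) * (aeval D.t q - u') = 0 := by
        rw [mul_sub, ← h2, hq, map_mul]; ring
      have h4 : aeval D.t q = u' := sub_eq_zero.mp (D.nodal_cancel _ _ h3)
      have h5 : q.eval ((c τ : IsLocalRing.maximalIdeal A) : A) = D.ev (c τ) u := by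
        rw [← D.ev_aeval, h4, hu', map_sub, map_mul, map_sub, D.ev_t]
        simp
      rw [h5]; exact hu
    · rw [hq, DiscAlg.nodal_append_singleton]
      ring
  -- specialisation of Φ₂
  have hΦ₂τ : ∀ τ, ∃ q : A[X], IsUnit (q.eval ((c τ : IsLocalRing.maximalIdeal A) : A)) ∧
      Φ₂.map (evAt Λ τ : Λ →+* A) = (X - C ((c τ : IsLocalRing.maximalIdeal A) : A)) * q := by
    intro τ
    obtain ⟨q, hq, hfac'⟩ := hfac τ
    refine ⟨q, hq, ?_⟩
    rw [hΦ₂, Polynomial.map_divByMonic _ hGm, hfac', hG, map_nodalΛ]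
    exact Polynomial.mul_divByMonic_cancel_left _ (DiscAlg.nodal_monic _)
  -- apply Hensel
  refine hensel_mem Λ Φ₂ _ (fun τ => (c τ).2) ?_ ?_
  · funext τ
    rw [aeval_apply_eq]
    obtain ⟨q, -, hq⟩ := hΦ₂τ τ
    rw [hq]
    simp
  · intro τ
    rw [aeval_apply_eq, ← Polynomial.derivative_map]
    obtain ⟨q, hqu, hq⟩ := hΦ₂τ τ
    rw [hq]
    simpa [derivative_mul] using hqu

end Root

end Fermat.Agent.A3.H799

end
-- ===== PACK-END A3/H799/Root.lean

-- ===== PACK-BEGIN A3/H799/Comb.lean
section





/-!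
# A3 / LOCAL — linear systems with parameters  (helper799)

`A` local, `T` finite, `Λ ≤ (T → A)`.  Given finitely many disc algebras `𝒪 i`, `Λ`-points
`ys i r` (`r < s i`) of the `i`-th disc, and disc functions `f₀ i`, `f j i` (as many unknowns `j`
as conditions `(i, r)`), such that the matrix of the first `s i` Taylor coefficients at `0` of the
`f j i` is invertible, there are `v j ∈ Λ` such that for every parameter value `τ` the function
`f₀ i + Σ_j v_j(τ) f j i` vanishes on the divisor `Σ_r [ys i r (τ)]` of the `i`-th disc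
(`exists_comb`).  This is "Riemann–Roch with parameters": Cramer's rule over `Λ`.
-/

set_option autoImplicit false

namespace Fermat.Agent.A3.H799

open Polynomial

section Congr

variable {A : Type*} [CommRing A] [IsLocalRing A] {𝒪 : Type*} [CommRing 𝒪] [Algebra A 𝒪]

theorem map_residue_nodal (l : List (IsLocalRing.maximalIdeal A)) :
    (DiscAlg.nodal l).map (IsLocalRing.residue A) = X ^ l.length := by
  induction l with
  | nil => simp
  | cons a l ih =>
    rw [DiscAlg.nodal_cons, Polynomial.map_mul, ih, Polynomial.map_sub, Polynomial.map_X,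
      Polynomial.map_C, (IsLocalRing.residue_eq_zero_iff _).mpr a.2, map_zero, sub_zero,
      List.length_cons, pow_succ, mul_comm]

theorem coeff_nodal_mul_mem (l : List (IsLocalRing.maximalIdeal A)) (q : A[X]) (r : ℕ)
    (hr : r < l.length) : (DiscAlg.nodal l * q).coeff r ∈ IsLocalRing.maximalIdeal A := by
  rw [← IsLocalRing.residue_eq_zero_iff, ← Polynomial.coeff_map, Polynomial.map_mul,
    map_residue_nodal, Polynomial.coeff_X_pow_mul']
  simp [Nat.not_le.mpr hr]

theorem nodal_replicate_zero (n : ℕ) :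
    DiscAlg.nodal (List.replicate n (0 : IsLocalRing.maximalIdeal A)) = X ^ n := by
  induction n with
  | zero => simp
  | succ n ih => rw [List.replicate_succ, DiscAlg.nodal_cons, ih]; simp [pow_succ, mul_comm]

/-- Two interpolation polynomials of the same disc function have the same low coefficients
modulo the maximal ideal. -/
theorem DiscAlg.coeff_sub_mem (D : DiscAlg A 𝒪) (l l' : List (IsLocalRing.maximalIdeal A))
    (f : 𝒪) (p p' : A[X]) (h h' : 𝒪)
    (hp : f = aeval D.t p + aeval D.t (DiscAlg.nodal l) * h)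
    (hp' : f = aeval D.t p' + aeval D.t (DiscAlg.nodal l') * h')
    (r : ℕ) (hr : r < l.length) (hr' : r < l'.length) :
    p.coeff r - p'.coeff r ∈ IsLocalRing.maximalIdeal A := by
  set Z : List (IsLocalRing.maximalIdeal A) := List.replicate (r + 1) 0 with hZ
  obtain ⟨q, g, hq⟩ := D.exists_interp Z h
  obtain ⟨q', g', hq'⟩ := D.exists_interp Z h'
  set Δ : A[X] := p - p' + DiscAlg.nodal l * q - DiscAlg.nodal l' * q' with hΔ
  have h1 : aeval D.t Δ = aeval D.t (DiscAlg.nodal Z) *
      (aeval D.t (DiscAlg.nodal l') * g' - aeval D.t (DiscAlg.nodal l) * g) := by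
    have e1 : aeval D.t p - aeval D.t p' =
        aeval D.t (DiscAlg.nodal l') * h' - aeval D.t (DiscAlg.nodal l) * h := by
      have := hp.symm.trans hp'
      linear_combination this
    rw [hΔ]
    simp only [map_add, map_sub, map_mul]
    rw [hq, hq'] at e1
    linear_combination e1
  obtain ⟨w, hw⟩ := D.nodal_dvd_of_aeval Z Δ _ h1
  have h2 : Δ.coeff r = 0 := by
    rw [hw, hZ, nodal_replicate_zero, Polynomial.coeff_X_pow_mul']
    simp
  have h3 : p.coeff r - p'.coeff r =
      (DiscAlg.nodal l' * q').coeff r - (DiscAlg.nodal l * q).coeff r := by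
    have : Δ.coeff r = p.coeff r - p'.coeff r + (DiscAlg.nodal l * q).coeff r
        - (DiscAlg.nodal l' * q').coeff r := by
      rw [hΔ]; simp
    rw [this] at h2
    linear_combination h2
  rw [h3]
  exact (IsLocalRing.maximalIdeal A).sub_mem (coeff_nodal_mul_mem l' q' r hr')
    (coeff_nodal_mul_mem l q r hr)

end Congr

section Comb

variable {A : Type*} [CommRing A] [IsLocalRing A] {T : Type*} [Finite T]

omit [Finite T] in
theorem natDegree_nodalΛ [Nonempty T] (Λ : Subalgebra A (T → A)) (ys : List (radIdeal Λ)) :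
    (nodalΛ Λ ys).natDegree = ys.length := by
  have hnt : Nontrivial Λ := by
    obtain ⟨τ⟩ := ‹Nonempty T›
    exact RingHom.domain_nontrivial (evAt Λ τ : Λ →+* A)
  induction ys with
  | nil => simp [nodalΛ]
  | cons a l ih =>
    have h1 : nodalΛ Λ (a :: l) = (X - C (a : Λ)) * nodalΛ Λ l := by simp [nodalΛ]
    rw [h1, ((monic_X_sub_C _).natDegree_mul (nodalΛ_monic Λ l)), ih, natDegree_X_sub_C]
    simp [add_comm]

/-- Auxiliary: the list of all values of the `Λ`-points `ys` over a list of parameters. -/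
private noncomputable def allVals (Λ : Subalgebra A (T → A)) (ys : List (radIdeal Λ))
    (ts : List T) : List (IsLocalRing.maximalIdeal A) :=
  ts.flatMap fun τ => ys.map (ptAt Λ τ)

omit [Finite T] in
private theorem nodal_allVals_dvd (Λ : Subalgebra A (T → A)) (ys : List (radIdeal Λ))
    (ts : List T) (τ : T) (hτ : τ ∈ ts) :
    ∃ R : A[X], DiscAlg.nodal (allVals Λ ys ts) = DiscAlg.nodal (ys.map (ptAt Λ τ)) * R := by
  induction ts with
  | nil => simp at hτ
  | cons σ ts ih =>
    have hcons : allVals Λ ys (σ :: ts) = ys.map (ptAt Λ σ) ++ allVals Λ ys ts := by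
      simp [allVals]
    rw [hcons, DiscAlg.nodal_append]
    rcases List.mem_cons.mp hτ with h | h
    · subst h
      exact ⟨_, rfl⟩
    · obtain ⟨R, hR⟩ := ih h
      exact ⟨DiscAlg.nodal (ys.map (ptAt Λ σ)) * R, by rw [hR]; ring⟩

omit [Finite T] in
/-- One disc, one function: reduction of an interpolation polynomial modulo the moving nodes is
again an interpolation polynomial, pointwise. -/
private theorem interp_mod (Λ : Subalgebra A (T → A)) {𝒪 : Type*} [CommRing 𝒪] [Algebra A 𝒪]
    (D : DiscAlg A 𝒪) (ys : List (radIdeal Λ)) (ts : List T) (τ : T) (hτ : τ ∈ ts)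
    (f : 𝒪) (p : A[X]) (h : 𝒪)
    (hp : f = aeval D.t p + aeval D.t (DiscAlg.nodal (allVals Λ ys ts)) * h) :
    ∃ h' : 𝒪, f = aeval D.t ((p.map (algebraMap A Λ) %ₘ nodalΛ Λ ys).map (evAt Λ τ : Λ →+* A)) +
      aeval D.t (DiscAlg.nodal (ys.map (ptAt Λ τ))) * h' := by
  obtain ⟨R, hR⟩ := nodal_allVals_dvd Λ ys ts τ hτ
  have hcomp : ((evAt Λ τ : Λ →+* A).comp (algebraMap A Λ)) = RingHom.id A := by
    ext a; simp
  have h1 : (p.map (algebraMap A Λ) %ₘ nodalΛ Λ ys).map (evAt Λ τ : Λ →+* A) =
      p %ₘ DiscAlg.nodal (ys.map (ptAt Λ τ)) := by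
    rw [Polynomial.map_modByMonic _ (nodalΛ_monic Λ ys), map_nodalΛ, Polynomial.map_map, hcomp,
      Polynomial.map_id]
  refine ⟨aeval D.t (p /ₘ DiscAlg.nodal (ys.map (ptAt Λ τ))) + aeval D.t R * h, ?_⟩
  rw [h1, hp, hR]
  have h2 := Polynomial.modByMonic_add_div p (DiscAlg.nodal (ys.map (ptAt Λ τ)))
  have h3 : aeval D.t p = aeval D.t (p %ₘ DiscAlg.nodal (ys.map (ptAt Λ τ))) +
      aeval D.t (DiscAlg.nodal (ys.map (ptAt Λ τ))) *
        aeval D.t (p /ₘ DiscAlg.nodal (ys.map (ptAt Λ τ))) := by
    conv_lhs => rw [← h2]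
    simp
  rw [h3, map_mul]
  ring

/-- **Riemann–Roch with parameters (Cramer over `Λ`).**  See the module docstring. -/
theorem exists_comb {ι : Type*} [Fintype ι] {𝒪 : ι → Type*}
    [∀ i, CommRing (𝒪 i)] [∀ i, Algebra A (𝒪 i)]
    (Λ : Subalgebra A (T → A)) (D : ∀ i, DiscAlg A (𝒪 i)) (s : ι → ℕ)
    (ys : ∀ i, Fin (s i) → radIdeal Λ)
    (f₀ : ∀ i, 𝒪 i) (f : (Σ i, Fin (s i)) → ∀ i, 𝒪 i)
    (P₀ : ∀ i, A[X]) (H₀ : ∀ i, 𝒪 i)
    (hf₀ : ∀ i, f₀ i = aeval (D i).t (P₀ i) + (D i).t ^ s i * H₀ i)
    (P : (Σ i, Fin (s i)) → ∀ i, A[X]) (H : (Σ i, Fin (s i)) → ∀ i, 𝒪 i)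
    (hf : ∀ j i, f j i = aeval (D i).t (P j i) + (D i).t ^ s i * H j i)
    (hdet : ∀ [DecidableEq (Σ i, Fin (s i))],
      IsUnit (Matrix.of fun (c j : Σ i, Fin (s i)) => (P j c.1).coeff (c.2 : ℕ)).det)
    (h₀ : ∀ i (r : Fin (s i)), (P₀ i).coeff (r : ℕ) ∈ IsLocalRing.maximalIdeal A) :
    ∃ v : (Σ i, Fin (s i)) → Λ, (∀ j, v j ∈ radIdeal Λ) ∧
      ∀ τ i, ∃ h : 𝒪 i, f₀ i + ∑ j, ((v j : Λ) : T → A) τ • f j i =
        aeval (D i).t (DiscAlg.nodal ((List.ofFn (ys i)).map (ptAt Λ τ))) * h := by
  classical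
  rcases isEmpty_or_nonempty T with hT | hT
  · exact ⟨fun _ => 0, fun j => (radIdeal Λ).zero_mem, fun τ => (hT.false τ).elim⟩
  have hnt : Nontrivial Λ := by
    obtain ⟨τ⟩ := hT
    exact RingHom.domain_nontrivial (evAt Λ τ : Λ →+* A)
  have : Fintype T := Fintype.ofFinite T
  set ts : List T := (Finset.univ : Finset T).toList with hts
  have hmem : ∀ τ, τ ∈ ts := fun τ => by simp [hts]
  have ht0 : ∀ i, (D i).t ^ s i =
      aeval (D i).t (DiscAlg.nodal (List.replicate (s i) (0 : IsLocalRing.maximalIdeal A))) := by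
    intro i; rw [nodal_replicate_zero]; simp
  -- interpolation on all the nodes
  choose p₀ g₀ hp₀ using fun (i : ι) =>
    (D i).exists_interp (allVals Λ (List.ofFn (ys i)) ts) (f₀ i)
  choose p g hp using fun (j : Σ i, Fin (s i)) (i : ι) =>
    (D i).exists_interp (allVals Λ (List.ofFn (ys i)) ts) (f j i)
  -- the polynomials over Λ
  set G : ∀ i, Λ[X] := fun i => nodalΛ Λ (List.ofFn (ys i)) with hG
  have hGm : ∀ i, (G i).Monic := fun i => nodalΛ_monic Λ _
  have hGdeg : ∀ i, (G i).degree = (s i : ℕ) := by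
    intro i
    rw [degree_eq_natDegree (hGm i).ne_zero, hG, natDegree_nodalΛ]
    simp
  set B₀ : ∀ i, Λ[X] := fun i => (p₀ i).map (algebraMap A Λ) %ₘ G i with hB₀
  set B : (Σ i, Fin (s i)) → ∀ i, Λ[X] := fun j i => (p j i).map (algebraMap A Λ) %ₘ G i with hB
  set M : Matrix (Σ i, Fin (s i)) (Σ i, Fin (s i)) Λ :=
    Matrix.of fun c j => (B j c.1).coeff (c.2 : ℕ) with hM
  set b : (Σ i, Fin (s i)) → Λ := fun c => (B₀ c.1).coeff (c.2 : ℕ) with hb
  -- congruences modulo the maximal ideal
  have hMτ : ∀ τ c j, evAt Λ τ (M c j) - (P j c.1).coeff (c.2 : ℕ) ∈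
      IsLocalRing.maximalIdeal A := by
    intro τ c j
    obtain ⟨h', hh'⟩ := interp_mod Λ (D c.1) (List.ofFn (ys c.1)) ts τ (hmem τ) (f j c.1)
      (p j c.1) (g j c.1) (hp j c.1)
    have hh2 : f j c.1 = aeval (D c.1).t (P j c.1) +
        aeval (D c.1).t (DiscAlg.nodal (List.replicate (s c.1) (0 : IsLocalRing.maximalIdeal A))) * H j c.1 := by
      rw [← ht0]; exact hf j c.1
    have := (D c.1).coeff_sub_mem _ _ (f j c.1) _ (P j c.1) h' (H j c.1) hh' hh2 (c.2 : ℕ)
      (by simp) (by simp)
    simpa [hM, hB, Polynomial.coeff_map] using this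
  have hbτ : ∀ τ c, evAt Λ τ (b c) ∈ IsLocalRing.maximalIdeal A := by
    intro τ c
    obtain ⟨h', hh'⟩ := interp_mod Λ (D c.1) (List.ofFn (ys c.1)) ts τ (hmem τ) (f₀ c.1)
      (p₀ c.1) (g₀ c.1) (hp₀ c.1)
    have hh2 : f₀ c.1 = aeval (D c.1).t (P₀ c.1) +
        aeval (D c.1).t (DiscAlg.nodal (List.replicate (s c.1) (0 : IsLocalRing.maximalIdeal A))) * H₀ c.1 := by
      rw [← ht0]; exact hf₀ c.1
    have := (D c.1).coeff_sub_mem _ _ (f₀ c.1) _ (P₀ c.1) h' (H₀ c.1) hh' hh2 (c.2 : ℕ)
      (by simp) (by simp)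
    have h2 := (IsLocalRing.maximalIdeal A).add_mem this (h₀ c.1 c.2)
    simpa [hb, hB₀, Polynomial.coeff_map] using h2
  -- the determinant is a unit
  have hdetM : IsUnit M.det := by
    have hpt : ∀ τ, IsUnit (((M.det : Λ) : T → A) τ) := by
      intro τ
      refine (IsLocalRing.residue_ne_zero_iff_isUnit (R := A) _).mp ?_
      set φ : Λ →+* IsLocalRing.ResidueField A :=
        (IsLocalRing.residue A).comp (evAt Λ τ : Λ →+* A) with hφ
      have h1 : IsLocalRing.residue A (((M.det : Λ) : T → A) τ) = φ M.det := rfl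
      rw [h1, RingHom.map_det]
      have h2 : φ.mapMatrix M = (IsLocalRing.residue A).mapMatrix
          (Matrix.of fun (c j : Σ i, Fin (s i)) => (P j c.1).coeff (c.2 : ℕ)) := by
        ext c j
        simp only [RingHom.mapMatrix_apply, Matrix.map_apply, Matrix.of_apply, hφ,
          RingHom.comp_apply]
        have := hMτ τ c j
        rw [← IsLocalRing.residue_eq_zero_iff, map_sub, sub_eq_zero] at this
        exact this
      rw [h2, ← RingHom.map_det]
      exact (IsLocalRing.residue_ne_zero_iff_isUnit (R := A) _).mpr hdet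
    obtain ⟨w, hw, hfw⟩ := exists_inv_mem Λ M.det.2 hpt
    exact IsUnit.of_mul_eq_one (⟨w, hw⟩ : Λ) (Subtype.ext hfw)
  -- the solution
  set v : (Σ i, Fin (s i)) → Λ := fun j => -(M⁻¹.mulVec b) j with hv
  have hMv : M.mulVec v = -b := by
    have h1 : v = -(M⁻¹.mulVec b) := rfl
    rw [h1, Matrix.mulVec_neg, Matrix.mulVec_mulVec, Matrix.mul_nonsing_inv M hdetM,
      Matrix.one_mulVec]
  have hbI : ∀ c, b c ∈ radIdeal Λ := fun c τ => hbτ τ c
  have hvI : ∀ j, v j ∈ radIdeal Λ := by
    intro j
    rw [hv]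
    refine (radIdeal Λ).neg_mem ?_
    simp only [Matrix.mulVec, dotProduct]
    exact (radIdeal Λ).sum_mem fun c _ => (radIdeal Λ).mul_mem_left _ (hbI c)
  refine ⟨v, hvI, fun τ i => ?_⟩
  -- divisibility in Λ[X]
  set Ψ : Λ[X] := (p₀ i).map (algebraMap A Λ) + ∑ j, C (v j) * (p j i).map (algebraMap A Λ)
    with hΨ
  have hΨmod : Ψ %ₘ G i = B₀ i + ∑ j, v j • B j i := by
    rw [hΨ, Polynomial.add_modByMonic]
    congr 1
    have : ∀ q : Λ[X], q %ₘ G i = Polynomial.modByMonicHom (G i) q := fun q => rfl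
    rw [this, map_sum]
    refine Finset.sum_congr rfl fun j _ => ?_
    rw [Polynomial.C_mul', map_smul]
    rfl
  have hdeglt : ∀ q : Λ[X], ∀ r : ℕ, s i ≤ r → (q %ₘ G i).coeff r = 0 := by
    intro q r hr
    refine Polynomial.coeff_eq_zero_of_degree_lt ?_
    refine lt_of_lt_of_le (Polynomial.degree_modByMonic_lt q (hGm i)) ?_
    rw [hGdeg i]
    exact_mod_cast hr
  have hΨ0 : Ψ %ₘ G i = 0 := by
    ext r
    rw [hΨmod, Polynomial.coeff_zero, Polynomial.coeff_add, Polynomial.finsetSum_coeff]
    simp only [Polynomial.coeff_smul, smul_eq_mul]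
    by_cases hr : r < s i
    · have h1 := congrFun hMv ⟨i, ⟨r, hr⟩⟩
      simp only [Matrix.mulVec, dotProduct, hM, Matrix.of_apply, Pi.neg_apply, hb] at h1
      have h2 : ∑ j, v j * (B j i).coeff r = ∑ j, (B j i).coeff r * v j :=
        Finset.sum_congr rfl fun j _ => mul_comm _ _
      rw [h2, h1]
      exact add_neg_cancel _
    · push Not at hr
      rw [hB₀, hdeglt _ r hr]
      have : ∀ j, (B j i).coeff r = 0 := fun j => hdeglt _ r hr
      simp [this]
  obtain ⟨Q, hQ⟩ := (Polynomial.modByMonic_eq_zero_iff_dvd (hGm i)).mp hΨ0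
  -- specialise at τ
  have hcomp : ((evAt Λ τ : Λ →+* A).comp (algebraMap A Λ)) = RingHom.id A := by
    ext a; simp
  have hΨτ : Ψ.map (evAt Λ τ : Λ →+* A) = p₀ i + ∑ j, C (((v j : Λ) : T → A) τ) * p j i := by
    rw [hΨ, Polynomial.map_add, Polynomial.map_sum, Polynomial.map_map, hcomp, Polynomial.map_id]
    congr 1
    refine Finset.sum_congr rfl fun j _ => ?_
    rw [Polynomial.map_mul, Polynomial.map_C, Polynomial.map_map, hcomp, Polynomial.map_id]
    rfl
  have hQτ : p₀ i + ∑ j, C (((v j : Λ) : T → A) τ) * p j i =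
      DiscAlg.nodal ((List.ofFn (ys i)).map (ptAt Λ τ)) * Q.map (evAt Λ τ : Λ →+* A) := by
    rw [← hΨτ, hQ, Polynomial.map_mul, hG, map_nodalΛ]
  obtain ⟨R, hR⟩ := nodal_allVals_dvd Λ (List.ofFn (ys i)) ts τ (hmem τ)
  refine ⟨aeval (D i).t (Q.map (evAt Λ τ : Λ →+* A)) +
    aeval (D i).t R * (g₀ i + ∑ j, ((v j : Λ) : T → A) τ • g j i), ?_⟩
  have h1 : f₀ i + ∑ j, ((v j : Λ) : T → A) τ • f j i =
      aeval (D i).t (p₀ i + ∑ j, C (((v j : Λ) : T → A) τ) * p j i) +
        aeval (D i).t (DiscAlg.nodal (allVals Λ (List.ofFn (ys i)) ts)) *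
          (g₀ i + ∑ j, ((v j : Λ) : T → A) τ • g j i) := by
    rw [map_add, map_sum, mul_add, Finset.mul_sum]
    have : ∀ j, ((v j : Λ) : T → A) τ • f j i =
        aeval (D i).t (C (((v j : Λ) : T → A) τ) * p j i) +
          aeval (D i).t (DiscAlg.nodal (allVals Λ (List.ofFn (ys i)) ts)) *
            (((v j : Λ) : T → A) τ • g j i) := by
      intro j
      conv_lhs => rw [hp j i]
      rw [map_mul, aeval_C, Algebra.smul_def, Algebra.smul_def]
      ring
    rw [Finset.sum_congr rfl fun j _ => this j, Finset.sum_add_distrib]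
    conv_lhs => rw [hp₀ i]
    ring
  rw [h1, hQτ, hR, map_mul, map_mul]
  ring

end Comb

end Fermat.Agent.A3.H799

end
-- ===== PACK-END A3/H799/Comb.lean

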