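import Mathlib
import Fermat.Agent.Pack.S3234.G4E0L0
import Fermat.Agent.Pack.S3234.G4E0L2
import Fermat.Agent.Pack.S3234.G4E0L1
import Fermat.Agent.Pack.S3234.G4E0L3
import Fermat.Agent.Pack.S3234.G0E0L3
import Fermat.Agent.Pack.S3234.G0E0L1

-- ===== PACK-BEGIN S24/Alg/LocUniq.lean
section




/-!
# S24 / ALG-LOC: local uniqueness of embeddings

Two embeddings `σ τ : F → C((z))` inducing the same place `v` (with residue field `K`), agreeing
on `K` and on some `t` with `ord_v t > 0`, and having the same leading coefficient on a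
uniformizer, are equal.  No completion, no Hensel.
-/

set_option autoImplicit false

noncomputable section

open AlgebraicCurve

namespace Fermat.Agent.S24.H144

variable {K F : Type*} [Field K] [Field F] [Algebra K F] {C : Type*} [Field C]

/-- The residue field of `v` is `K`: every element of the valuation ring is congruent to a
constant modulo the maximal ideal. -/
def ResidueTrivial (v : Place K F) : Prop :=
  ∀ f ∈ v.toValuationSubring, ∃ a : K, f = algebraMap K F a ∨ 0 < v.ord (f - algebraMap K F a)

/-- First step of the `π`-adic expansion. -/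
theorem loc_exists_expand {v : Place K F} (hres : ResidueTrivial v) {π : F} (hπ : v.ord π = 1)
    {f : F} (hf : f ∈ v.toValuationSubring) :
    ∃ a : K, ∃ f₁ ∈ v.toValuationSubring, f = algebraMap K F a + π * f₁ := by
  have hπ0 : π ≠ 0 := by rintro rfl; simp at hπ
  obtain ⟨a, h | h⟩ := hres f hf
  · exact ⟨a, 0, zero_mem _, by rw [h]; simp⟩
  · have h0 : f - algebraMap K F a ≠ 0 := by
      intro h0; rw [h0, v.ord_zero] at h; exact lt_irrefl _ h
    refine ⟨a, (f - algebraMap K F a) * π⁻¹, ?_, ?_⟩
    · apply loc_mem_of_ord_nonneg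
      rw [v.ord_mul h0 (inv_ne_zero hπ0), v.ord_inv, hπ]; omega
    · field_simp; ring

theorem loc_sub_mul (σ τ : F →+* LaurentSeries C) (f h : F) :
    σ (f * h) - τ (f * h) = (σ f - τ f) * σ h + τ f * (σ h - τ h) := by
  rw [map_mul, map_mul]; ring

/-- Main induction: if `σ π - τ π` has order at least `d`, so has `σ f - τ f` for every `f` in
the valuation ring (up to any bound `r`). -/
theorem loc_sub_big {v : Place K F} (hres : ResidueTrivial v) {π : F} (hπ : v.ord π = 1)
    (ι : K →+* C) (σ τ : F →+* LaurentSeries C)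
    (hσK : ∀ c, σ (algebraMap K F c) = HahnSeries.C (ι c))
    (hτK : ∀ c, τ (algebraMap K F c) = HahnSeries.C (ι c))
    (hσ : Induces σ v) (hτ : Induces τ v)
    (d : ℤ) (hd : LocBig d (σ π - τ π)) :
    ∀ r : ℕ, ∀ f ∈ v.toValuationSubring, LocBig (min d r) (σ f - τ f) := by
  obtain ⟨gτ, hgτ, hτord⟩ := loc_exists_mult v τ hτ
  have hτπ : LocBig 1 (τ π) := by
    refine LocBig.of_le_order ?_
    rw [hτord, hπ, mul_one]; exact_mod_cast hgτ
  intro r
  induction r with
  | zero =>
    intro f hf
    have h1 : LocBig 0 (σ f) := LocBig.of_le_order ((hσ f).mp hf)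
    have h2 : LocBig 0 (τ f) := LocBig.of_le_order ((hτ f).mp hf)
    exact (h1.sub h2).mono (by simp)
  | succ r ih =>
    intro f hf
    obtain ⟨a, f₁, hf₁, rfl⟩ := loc_exists_expand hres hπ hf
    have h1 : σ (algebraMap K F a + π * f₁) - τ (algebraMap K F a + π * f₁)
        = (σ π - τ π) * σ f₁ + τ π * (σ f₁ - τ f₁) := by
      rw [map_add, map_add, hσK, hτK, ← loc_sub_mul]; ring
    rw [h1]
    have h2 : LocBig 0 (σ f₁) := LocBig.of_le_order ((hσ f₁).mp hf₁)
    have h3 : LocBig (d + 0) ((σ π - τ π) * σ f₁) := hd.mul h2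
    have h4 : LocBig (1 + min d r) (τ π * (σ f₁ - τ f₁)) := hτπ.mul (ih f₁ hf₁)
    refine (h3.mono ?_).add (h4.mono ?_)
    · simp
    · push_cast
      rcases le_total d (r : ℤ) with h | h
      · rw [min_eq_left h, min_eq_left (by omega)]; omega
      · rw [min_eq_right h]; exact le_trans (min_le_right _ _) (by omega)

/-- If `σ π = τ π` then `σ = τ`. -/
theorem loc_emb_eq_of_uniformizer_eq {v : Place K F} (hres : ResidueTrivial v) {π : F}
    (hπ : v.ord π = 1) (ι : K →+* C) (σ τ : F →+* LaurentSeries C)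
    (hσK : ∀ c, σ (algebraMap K F c) = HahnSeries.C (ι c))
    (hτK : ∀ c, τ (algebraMap K F c) = HahnSeries.C (ι c))
    (hσ : Induces σ v) (hτ : Induces τ v) (h : σ π = τ π) : σ = τ := by
  have key : ∀ f ∈ v.toValuationSubring, σ f = τ f := by
    intro f hf
    rw [← sub_eq_zero]
    apply LocBig.eq_zero_of_forall
    intro k
    have := loc_sub_big hres hπ ι σ τ hσK hτK hσ hτ k (by rw [h, sub_self]; exact LocBig.zero _)
      k f hf
    rwa [min_self] at this
  ext1 f
  rcases v.toValuationSubring.mem_or_inv_mem f with hf | hf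
  · exact key f hf
  · have := key f⁻¹ hf
    rw [map_inv₀, map_inv₀] at this
    exact inv_injective this

/-- The coefficient at the bound of a power. -/
theorem LocBig.coeff_pow {n : ℤ} {a : LaurentSeries C} (ha : LocBig n a) (k : ℕ) :
    (a ^ k).coeff (k * n) = (a.coeff n) ^ k := by
  induction k with
  | zero => simp [HahnSeries.coeff_one]
  | succ k ih =>
    have h := (ha.pow k).coeff_mul ha
    rw [pow_succ, pow_succ, ← ih, ← h]
    congr 1
    push_cast; ring

/-- Expansion of `a ^ (k+1) - b ^ (k+1)` to first order in `a - b`. -/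
theorem loc_pow_sub_pow_big {g d : ℤ} {a b : LaurentSeries C} (ha : LocBig g a)
    (hb : LocBig g b) (hab : a.coeff g = b.coeff g) (hd : LocBig d (a - b)) (k : ℕ) :
    LocBig (d + k * g) (a ^ (k + 1) - b ^ (k + 1)) ∧
      (a ^ (k + 1) - b ^ (k + 1)).coeff (d + k * g)
        = (k + 1) * (a.coeff g) ^ k * (a - b).coeff d := by
  induction k with
  | zero => simpa using hd
  | succ k ih =>
    obtain ⟨ih1, ih2⟩ := ih
    have hid : a ^ (k + 1 + 1) - b ^ (k + 1 + 1)
        = (a - b) * a ^ (k + 1) + b * (a ^ (k + 1) - b ^ (k + 1)) := by ring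
    have h1 : LocBig (d + ((k + 1 : ℕ) : ℤ) * g) ((a - b) * a ^ (k + 1)) := hd.mul (ha.pow (k + 1))
    have h2 : LocBig (g + (d + k * g)) (b * (a ^ (k + 1) - b ^ (k + 1))) := hb.mul ih1
    have hidx : g + (d + (k : ℤ) * g) = d + ((k + 1 : ℕ) : ℤ) * g := by push_cast; ring
    rw [hidx] at h2
    have c1 : ((a - b) * a ^ (k + 1)).coeff (d + ((k + 1 : ℕ) : ℤ) * g)
        = (a - b).coeff d * (a.coeff g) ^ (k + 1) := by
      rw [hd.coeff_mul (ha.pow (k + 1)), ha.coeff_pow]
    have c2 : (b * (a ^ (k + 1) - b ^ (k + 1))).coeff (d + ((k + 1 : ℕ) : ℤ) * g)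
        = b.coeff g * ((k + 1) * (a.coeff g) ^ k * (a - b).coeff d) := by
      rw [← hidx, hb.coeff_mul ih1, ih2]
    refine ⟨by rw [hid]; exact h1.add h2, ?_⟩
    rw [hid, HahnSeries.coeff_add, c1, c2, ← hab]
    push_cast; ring

/-- **Local uniqueness.** Two embeddings inducing the same place, agreeing on `K` and on `t`
(`ord_v t > 0`), with the same leading coefficient at a uniformizer, are equal. -/
theorem loc_emb_eq_of_leadingCoeff_eq [CharZero C] {v : Place K F} (hres : ResidueTrivial v)
    {t : F} (ht : 0 < v.ord t) {π : F} (hπ : v.ord π = 1)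
    (ι : K →+* C) (σ τ : F →+* LaurentSeries C)
    (hσK : ∀ c, σ (algebraMap K F c) = HahnSeries.C (ι c))
    (hτK : ∀ c, τ (algebraMap K F c) = HahnSeries.C (ι c))
    (hσ : Induces σ v) (hτ : Induces τ v) (hσt : σ t = τ t)
    (hlc : (σ π).leadingCoeff = (τ π).leadingCoeff) : σ = τ := by
  apply loc_emb_eq_of_uniformizer_eq hres hπ ι σ τ hσK hτK hσ hτ
  by_contra hne
  have hδ : σ π - τ π ≠ 0 := sub_ne_zero.mpr hne
  have hπ0 : π ≠ 0 := by rintro rfl; simp at hπ
  have ht0 : t ≠ 0 := by rintro rfl; simp at ht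
  obtain ⟨gσ, hgσ, hσord⟩ := loc_exists_mult v σ hσ
  obtain ⟨gτ, hgτ, hτord⟩ := loc_exists_mult v τ hτ
  -- the two multiplicities agree
  have hg : gσ = gτ := by
    have h1 := hσord t
    rw [hσt, hτord t] at h1
    have h2 : (gτ : ℤ) = gσ := mul_right_cancel₀ ht.ne' h1
    exact_mod_cast h2.symm
  subst hg
  set g : ℤ := (gσ : ℤ) with hgdef
  have hgpos : 0 < g := Int.natCast_pos.mpr hgσ
  have hoσ : (σ π).order = g := by rw [hσord, hπ, mul_one]
  have hoτ : (τ π).order = g := by rw [hτord, hπ, mul_one]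
  have hbσ : LocBig g (σ π) := LocBig.of_le_order hoσ.ge
  have hbτ : LocBig g (τ π) := LocBig.of_le_order hoτ.ge
  have hcoef : (σ π).coeff g = (τ π).coeff g := by
    rw [← hoσ, ← HahnSeries.leadingCoeff_eq, hlc, HahnSeries.leadingCoeff_eq, hoτ, hoσ]
  have ha0 : (σ π).coeff g ≠ 0 := by
    rw [← hoσ]
    exact HahnSeries.coeff_order_eq_zero.not.mpr ((map_ne_zero σ).mpr hπ0)
  -- the difference `δ`
  set d : ℤ := (σ π - τ π).order with hddef
  have hdbig : LocBig d (σ π - τ π) := LocBig.self_order _
  have hdge : g + 1 ≤ d := by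
    have := LocBig.sub_of_leadingCoeff_eq (hoσ.trans hoτ.symm) hlc
    rw [hoσ] at this
    exact this.resolve_left hδ
  have hc0 : (σ π - τ π).coeff d ≠ 0 := HahnSeries.coeff_order_eq_zero.not.mpr hδ
  -- the exponent
  obtain ⟨k, hk⟩ : ∃ k : ℕ, v.ord t = (k : ℤ) + 1 := ⟨(v.ord t - 1).toNat, by omega⟩
  -- the unit part of `t`
  set u : F := t * (π ^ (k + 1))⁻¹ with hu
  have hpk : π ^ (k + 1) ≠ 0 := pow_ne_zero _ hπ0
  have hu0 : u ≠ 0 := mul_ne_zero ht0 (inv_ne_zero hpk)
  have hut : t = u * π ^ (k + 1) := by rw [hu]; field_simp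
  have hordu : v.ord u = 0 := by
    rw [hu, v.ord_mul ht0 (inv_ne_zero hpk), v.ord_inv, loc_ord_pow, hπ, hk]
    push_cast; ring
  have humem : u ∈ v.toValuationSubring := loc_mem_of_ord_nonneg v hordu.ge
  have hτu : (τ u).order = 0 := by rw [hτord, hordu, mul_zero]
  have hτu0 : (τ u).coeff 0 ≠ 0 := by
    rw [← hτu]
    exact HahnSeries.coeff_order_eq_zero.not.mpr ((map_ne_zero τ).mpr hu0)
  -- `σ u - τ u` has order at least `d`
  have hΔu : LocBig d (σ u - τ u) := by
    have := loc_sub_big hres hπ ι σ τ hσK hτK hσ hτ d hdbig d.toNat u humem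
    rwa [Int.toNat_of_nonneg (by omega), min_self] at this
  -- expand `0 = σ t - τ t`
  have hzero : (σ u - τ u) * σ (π ^ (k + 1)) + τ u * (σ (π ^ (k + 1)) - τ (π ^ (k + 1))) = 0 := by
    rw [← loc_sub_mul, ← hut, hσt, sub_self]
  obtain ⟨hD1, hD2⟩ := loc_pow_sub_pow_big hbσ hbτ hcoef hdbig k
  have hcoeff := congrArg (fun s : LaurentSeries C => s.coeff (d + k * g)) hzero
  simp only [HahnSeries.coeff_add, HahnSeries.coeff_zero] at hcoeff
  -- first term vanishes
  have hfirst : ((σ u - τ u) * σ (π ^ (k + 1))).coeff (d + k * g) = 0 := by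
    have hb : LocBig (d + ((k + 1 : ℕ) : ℤ) * g) ((σ u - τ u) * σ (π ^ (k + 1))) := by
      rw [map_pow]
      exact hΔu.mul (hbσ.pow (k + 1))
    apply hb.coeff_eq_zero
    push_cast
    nlinarith
  -- second term does not
  have hsecond : (τ u * (σ (π ^ (k + 1)) - τ (π ^ (k + 1)))).coeff (d + k * g)
      = (τ u).coeff 0 * ((k + 1) * ((σ π).coeff g) ^ k * (σ π - τ π).coeff d) := by
    have hτu' : LocBig 0 (τ u) := LocBig.of_le_order hτu.ge
    rw [map_pow, map_pow]
    have := hτu'.coeff_mul hD1
    rw [zero_add] at this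
    rw [this, hD2]
  rw [hfirst, hsecond, zero_add] at hcoeff
  have hk1 : ((k : C) + 1) ≠ 0 := by exact_mod_cast Nat.succ_ne_zero k
  exact (mul_ne_zero hτu0 (mul_ne_zero (mul_ne_zero hk1 (pow_ne_zero k ha0)) hc0)) hcoeff

end Fermat.Agent.S24.H144

end
end
-- ===== PACK-END S24/Alg/LocUniq.lean

-- ===== PACK-BEGIN S24/Alg/LocPlace.lean
section


/-!
# S24 / ALG-LOC, part 2: the place cut out by an embedding into Laurent series
-/

set_option autoImplicit false

noncomputable section

open AlgebraicCurve

namespace Fermat.Agent.S24.H144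

variable {K F : Type*} [Field K] [Field F] [Algebra K F]
variable {C : Type*} [Field C]

/-- The valuation subring of `F` cut out by an embedding `σ : F → C((z))`. -/
def locValSubring (σ : F →+* LaurentSeries C) : ValuationSubring F where
  carrier := {f | 0 ≤ (σ f).order}
  mul_mem' := by
    intro a b ha hb
    simp only [Set.mem_setOf_eq] at ha hb ⊢
    rcases eq_or_ne a 0 with rfl | ha0
    · simp
    rcases eq_or_ne b 0 with rfl | hb0
    · simp
    rw [loc_order_map_mul σ ha0 hb0]; omega
  one_mem' := by simp [loc_order_map_one]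
  add_mem' := by
    intro a b ha hb
    simp only [Set.mem_setOf_eq] at ha hb ⊢
    rcases eq_or_ne (a + b) 0 with h | h
    · rw [h]; simp
    · have := loc_order_map_add_le σ h
      exact le_trans (le_min ha hb) this
  zero_mem' := by simp
  neg_mem' := by
    intro a ha
    simp only [Set.mem_setOf_eq] at ha ⊢
    rw [map_neg, HahnSeries.order_neg]; exact ha
  mem_or_inv_mem' := by
    intro a
    simp only [Set.mem_setOf_eq]
    rw [loc_order_map_inv]
    omega

@[simp]
theorem mem_locValSubring (σ : F →+* LaurentSeries C) (f : F) :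
    f ∈ locValSubring σ ↔ 0 ≤ (σ f).order := Iff.rfl

theorem locValSubring_isPrincipalIdealRing (σ : F →+* LaurentSeries C) :
    IsPrincipalIdealRing (locValSubring σ) := by
  classical
  refine ⟨fun I => ?_⟩
  by_cases hI : I = ⊥
  · rw [hI]; exact ⟨⟨0, by simp⟩⟩
  -- pick a nonzero element of minimal order
  have hne : ∃ n : ℕ, ∃ a ∈ I, a ≠ 0 ∧ (σ (a : F)).order.toNat = n := by
    obtain ⟨a, ha, ha0⟩ := Submodule.exists_mem_ne_zero_of_ne_bot hI
    exact ⟨_, a, ha, ha0, rfl⟩
  obtain ⟨a, haI, ha0, han⟩ := Nat.find_spec hne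
  have hmin : ∀ b ∈ I, b ≠ 0 → (σ (a : F)).order ≤ (σ (b : F)).order := by
    intro b hb hb0
    have h1 : Nat.find hne ≤ (σ (b : F)).order.toNat := Nat.find_min' hne ⟨b, hb, hb0, rfl⟩
    have h2 : 0 ≤ (σ (a : F)).order := a.2
    have h3 : 0 ≤ (σ (b : F)).order := b.2
    omega
  have haF : (a : F) ≠ 0 := by simpa using ha0
  refine ⟨⟨a, le_antisymm ?_ ?_⟩⟩
  · intro b hb
    rw [Submodule.mem_span_singleton]
    rcases eq_or_ne b 0 with rfl | hb0
    · exact ⟨0, by simp⟩
    have hbF : (b : F) ≠ 0 := by simpa using hb0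
    have hq : (b : F) * (a : F)⁻¹ ∈ locValSubring σ := by
      rw [mem_locValSubring, loc_order_map_mul σ hbF (inv_ne_zero haF), loc_order_map_inv]
      have := hmin b hb hb0
      omega
    refine ⟨⟨_, hq⟩, ?_⟩
    ext
    simp [haF]
  · rw [Submodule.span_le]
    intro b hb
    rw [Set.mem_singleton_iff] at hb
    rw [hb]; exact haI

/-- The place of `F` cut out by an embedding `σ : F → C((z))` which is constant on `K`
and has some element of negative order. -/
def placeOfEmb (σ : F →+* LaurentSeries C)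
    (hK : ∀ c : K, 0 ≤ (σ (algebraMap K F c)).order)
    (hneg : ∃ f : F, (σ f).order < 0) : Place K F where
  toValuationSubring := locValSubring σ
  algebraMap_mem' := hK
  ne_top' := by
    obtain ⟨f, hf⟩ := hneg
    intro h
    have : f ∈ locValSubring σ := by rw [h]; exact ValuationSubring.mem_top f
    rw [mem_locValSubring] at this
    omega
  isPrincipalIdealRing' := locValSubring_isPrincipalIdealRing σ

theorem induces_placeOfEmb (σ : F →+* LaurentSeries C)
    (hK : ∀ c : K, 0 ≤ (σ (algebraMap K F c)).order)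
    (hneg : ∃ f : F, (σ f).order < 0) : Induces σ (placeOfEmb σ hK hneg) :=
  fun _ => Iff.rfl

/-- Two places induced by the same embedding coincide. -/
theorem Induces.unique {σ : F →+* LaurentSeries C} {v w : Place K F}
    (hv : Induces σ v) (hw : Induces σ w) : v = w := by
  apply Place.ext
  ext f
  rw [hv f, hw f]

/-- If two embeddings have the same order function, they induce the same places. -/
theorem Induces.of_order_eq {σ τ : F →+* LaurentSeries C} {v : Place K F}
    (hv : Induces σ v) (h : ∀ f, (τ f).order = (σ f).order) : Induces τ v :=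
  fun f => by rw [hv f, h f]

end Fermat.Agent.S24.H144

end
end
-- ===== PACK-END S24/Alg/LocPlace.lean

-- ===== PACK-BEGIN S24/Alg/LocApprox.lean
section


/-!
# S24 / ALG-LOC: approximation for finitely many places

Distinct places are incomparable; for a place `v` outside a finite set `S` of places there is a
function with a pole at `v` and zeros at all places of `S`.
-/

set_option autoImplicit false

noncomputable section

open AlgebraicCurve

namespace Fermat.Agent.S24.H144

variable {K F : Type*} [Field K] [Field F] [Algebra K F]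

/-- Every place has an element of order `1`. -/
theorem loc_exists_ord_eq_one (v : Place K F) : ∃ h : F, v.ord h = 1 := by
  obtain ⟨π, hπ⟩ := IsDiscreteValuationRing.exists_irreducible v.toValuationSubring
  exact ⟨π, v.ord_coe_irreducible hπ⟩

theorem loc_ne_zero_of_ord_ne_zero (v : Place K F) {f : F} (h : v.ord f ≠ 0) : f ≠ 0 := by
  rintro rfl; exact h v.ord_zero

/-- The valuation rings of two places are comparable only if the places are equal. -/
theorem loc_eq_of_le {v w : Place K F} (h : v.toValuationSubring ≤ w.toValuationSubring) :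
    v = w := by
  apply Place.ext
  refine le_antisymm h ?_
  intro f hf
  by_contra hfv
  have hfw : 0 ≤ w.ord f := loc_ord_nonneg_of_mem w hf
  have hfv' : v.ord f < 0 := by
    by_contra h0
    exact hfv (loc_mem_of_ord_nonneg v (not_lt.mp h0))
  have hf0 : f ≠ 0 := loc_ne_zero_of_ord_ne_zero v hfv'.ne
  obtain ⟨h1, hh1⟩ := loc_exists_ord_eq_one w
  have hh0 : h1 ≠ 0 := loc_ne_zero_of_ord_ne_zero w (by omega)
  -- choose `r` large
  set r : ℕ := (v.ord h1).toNat + 1 with hr
  have hfr : f ^ r ≠ 0 := pow_ne_zero r hf0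
  have hv : v.ord (f ^ r * h1) < 0 := by
    rw [v.ord_mul hfr hh0, loc_ord_pow]
    have : (r : ℤ) * v.ord f ≤ -(r : ℤ) := by nlinarith
    have : v.ord h1 ≤ (v.ord h1).toNat := Int.self_le_toNat _
    have : (r : ℤ) = (v.ord h1).toNat + 1 := by rw [hr]; push_cast; ring
    omega
  have hmem : (f ^ r * h1)⁻¹ ∈ w.toValuationSubring := by
    apply h
    apply loc_mem_of_ord_nonneg
    rw [v.ord_inv]; omega
  have hw := loc_ord_nonneg_of_mem w hmem
  rw [w.ord_inv, w.ord_mul hfr hh0, loc_ord_pow, hh1] at hw
  have : 0 ≤ (r : ℤ) * w.ord f := mul_nonneg (Int.natCast_nonneg r) hfw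
  omega

/-- Two distinct places are separated by a function. -/
theorem loc_exists_sep {v w : Place K F} (hvw : v ≠ w) :
    ∃ c : F, 0 < v.ord c ∧ w.ord c < 0 := by
  have h1 : ¬ v.toValuationSubring ≤ w.toValuationSubring := fun h => hvw (loc_eq_of_le h)
  have h2 : ¬ w.toValuationSubring ≤ v.toValuationSubring :=
    fun h => hvw (loc_eq_of_le h).symm
  obtain ⟨a, hav, haw⟩ := SetLike.not_le_iff_exists.mp h1
  obtain ⟨b, hbw, hbv⟩ := SetLike.not_le_iff_exists.mp h2
  have hav' : 0 ≤ v.ord a := loc_ord_nonneg_of_mem v hav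
  have hbw' : 0 ≤ w.ord b := loc_ord_nonneg_of_mem w hbw
  have haw' : w.ord a < 0 := by
    by_contra h0; exact haw (loc_mem_of_ord_nonneg w (not_lt.mp h0))
  have hbv' : v.ord b < 0 := by
    by_contra h0; exact hbv (loc_mem_of_ord_nonneg v (not_lt.mp h0))
  have ha0 : a ≠ 0 := loc_ne_zero_of_ord_ne_zero w haw'.ne
  have hb0 : b ≠ 0 := loc_ne_zero_of_ord_ne_zero v hbv'.ne
  refine ⟨a * b⁻¹, ?_, ?_⟩
  · rw [v.ord_mul ha0 (inv_ne_zero hb0), v.ord_inv]; omega
  · rw [w.ord_mul ha0 (inv_ne_zero hb0), w.ord_inv]; omega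

/-- **Approximation.** For a place `v` outside a finite set `S` of places there is a function
with a zero at `v` and poles at all places of `S`. -/
theorem loc_exists_zero_poles (v : Place K F) (S : Finset (Place K F)) (hv : v ∉ S) :
    ∃ g : F, 0 < v.ord g ∧ ∀ w ∈ S, w.ord g < 0 := by
  classical
  induction S using Finset.induction_on with
  | empty =>
    obtain ⟨h, hh⟩ := loc_exists_ord_eq_one v
    exact ⟨h, by omega, by simp⟩
  | insert w₀ S' hw₀ ih =>
    have hv' : v ∉ S' := fun h => hv (Finset.mem_insert_of_mem h)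
    have hvw₀ : v ≠ w₀ := fun h => hv (h ▸ Finset.mem_insert_self _ _)
    obtain ⟨g, hgv, hgS⟩ := ih hv'
    obtain ⟨c, hcv, hcw⟩ := loc_exists_sep hvw₀
    have hg0 : g ≠ 0 := loc_ne_zero_of_ord_ne_zero v hgv.ne'
    have hc0 : c ≠ 0 := loc_ne_zero_of_ord_ne_zero v hcv.ne'
    by_cases hgw : w₀.ord g < 0
    · refine ⟨g, hgv, ?_⟩
      intro w hw
      rcases Finset.mem_insert.mp hw with rfl | hw
      · exact hgw
      · exact hgS w hw
    · have hgw := not_lt.mp hgw
      -- choose `r` large
      set r : ℕ := (∑ w ∈ S', (w.ord c).natAbs) + 1 with hr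
      have hrS : ∀ w ∈ S', -(r : ℤ) < w.ord c := by
        intro w hw
        have h1 : (w.ord c).natAbs ≤ ∑ w ∈ S', (w.ord c).natAbs :=
          Finset.single_le_sum (f := fun w : Place K F => (w.ord c).natAbs)
            (fun _ _ => Nat.zero_le _) hw
        have h2 : (r : ℤ) = ((∑ w ∈ S', (w.ord c).natAbs : ℕ) : ℤ) + 1 := by
          rw [hr]; push_cast; ring
        have h3 : ((w.ord c).natAbs : ℤ) ≤ ((∑ w ∈ S', (w.ord c).natAbs : ℕ) : ℤ) := by
          exact_mod_cast h1
        omega
      have hr1 : 1 ≤ r := by omega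
      have hgr0 : g ^ r ≠ 0 := pow_ne_zero r hg0
      have hw₀ : w₀.ord (c + g ^ r) = w₀.ord c := by
        apply loc_ord_add_eq_of_lt w₀ hc0 hgr0
        rw [loc_ord_pow]
        have : 0 ≤ (r : ℤ) * w₀.ord g := mul_nonneg (Int.natCast_nonneg r) hgw
        omega
      have hsum0 : c + g ^ r ≠ 0 := loc_ne_zero_of_ord_ne_zero w₀ (by rw [hw₀]; omega)
      refine ⟨c + g ^ r, ?_, ?_⟩
      · have h1 := loc_ord_add v hc0 hgr0 hsum0
        rw [loc_ord_pow] at h1
        have h2 : 0 < (r : ℤ) * v.ord g := mul_pos (by exact_mod_cast hr1) hgv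
        have h3 : 0 < min (v.ord c) ((r : ℤ) * v.ord g) := lt_min hcv h2
        omega
      · intro w hw
        rcases Finset.mem_insert.mp hw with rfl | hw
        · rw [hw₀]; exact hcw
        · have h1 : w.ord (g ^ r) < w.ord c := by
            rw [loc_ord_pow]
            have h2 := hgS w hw
            have h3 := hrS w hw
            have h4 : (r : ℤ) * w.ord g ≤ -(r : ℤ) := by nlinarith
            omega
          rw [add_comm, loc_ord_add_eq_of_lt w hgr0 hc0 h1, loc_ord_pow]
          have h2 := hgS w hw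
          have : (r : ℤ) * w.ord g < 0 := by
            have hrpos : (0 : ℤ) < r := by exact_mod_cast hr1
            exact mul_neg_of_pos_of_neg hrpos h2
          exact this

/-- **Approximation**, pole version: for a place `v` outside a finite set `S` of places there is
a function with a pole at `v` and zeros at all places of `S`. -/
theorem loc_exists_pole_zeros (v : Place K F) (S : Finset (Place K F)) (hv : v ∉ S) :
    ∃ u : F, v.ord u < 0 ∧ ∀ w ∈ S, 0 < w.ord u := by
  obtain ⟨g, hg, hgS⟩ := loc_exists_zero_poles v S hv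
  refine ⟨g⁻¹, ?_, ?_⟩
  · rw [v.ord_inv]; omega
  · intro w hw
    rw [w.ord_inv]
    have := hgS w hw
    omega

end Fermat.Agent.S24.H144

end
end
-- ===== PACK-END S24/Alg/LocApprox.lean

-- ===== PACK-BEGIN S24/Alg/LocRat.lean
section



/-!
# S24 / ALG-LOC: valuations on the rational subfield `K(t)`

Any two "valuations" of `F` which are trivial on `K` and positive on `t` are proportional on
`K(t)`: on `K(t)` each of them is a multiple of the `t`-adic order.
-/

set_option autoImplicit false

noncomputable section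

open AlgebraicCurve Polynomial IntermediateField

namespace Fermat.Agent.S24.H144

variable {K F : Type*} [Field K] [Field F] [Algebra K F]

/-- An integer valued discrete valuation (with the convention `w 0 = 0`) which is trivial on
`K` and positive at `t`. -/
structure IsTVal (K : Type*) {F : Type*} [Field K] [Field F] [Algebra K F] (t : F)
    (w : F → ℤ) : Prop where
  map_zero : w 0 = 0
  map_mul : ∀ f g : F, f ≠ 0 → g ≠ 0 → w (f * g) = w f + w g
  map_add : ∀ f g : F, f ≠ 0 → g ≠ 0 → f + g ≠ 0 → min (w f) (w g) ≤ w (f + g)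
  map_neg : ∀ f : F, w (-f) = w f
  map_const : ∀ c : K, w (algebraMap K F c) = 0
  pos : 0 < w t

namespace IsTVal

variable {t : F} {w : F → ℤ}

theorem ne_zero_of_ne (hw : IsTVal K t w) {f : F} (h : w f ≠ 0) : f ≠ 0 := by
  rintro rfl; exact h hw.map_zero

theorem t_ne_zero (hw : IsTVal K t w) : t ≠ 0 := hw.ne_zero_of_ne hw.pos.ne'

theorem map_one (hw : IsTVal K t w) : w 1 = 0 := by
  have := hw.map_const 1
  rwa [_root_.map_one] at this

theorem map_inv (hw : IsTVal K t w) (f : F) : w f⁻¹ = -w f := by
  rcases eq_or_ne f 0 with rfl | hf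
  · simp [hw.map_zero]
  have h := hw.map_mul f f⁻¹ hf (inv_ne_zero hf)
  rw [mul_inv_cancel₀ hf, hw.map_one] at h
  omega

theorem map_div (hw : IsTVal K t w) {f g : F} (hf : f ≠ 0) (hg : g ≠ 0) :
    w (f / g) = w f - w g := by
  rw [div_eq_mul_inv, hw.map_mul f g⁻¹ hf (inv_ne_zero hg), hw.map_inv]; ring

/-- Strict case of the ultrametric inequality. -/
theorem map_add_of_lt (hw : IsTVal K t w) {f g : F} (hf : f ≠ 0) (hg : g ≠ 0)
    (h : w f < w g) : f + g ≠ 0 ∧ w (f + g) = w f := by
  have hfg : f + g ≠ 0 := by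
    intro h0
    have : g = -f := by rw [← sub_eq_zero]; rw [sub_neg_eq_add, add_comm]; exact h0
    rw [this, hw.map_neg] at h
    exact lt_irrefl _ h
  refine ⟨hfg, ?_⟩
  have h1 := hw.map_add f g hf hg hfg
  rw [min_eq_left h.le] at h1
  have hng : -g ≠ 0 := neg_ne_zero.mpr hg
  have h2 := hw.map_add (f + g) (-g) hfg hng (by simpa using hf)
  rw [add_neg_cancel_right, hw.map_neg] at h2
  rcases le_total (w (f + g)) (w g) with h3 | h3
  · rw [min_eq_left h3] at h2; omega
  · rw [min_eq_right h3] at h2; omega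

end IsTVal

/-- The order of vanishing of a place at which `t` vanishes is a `t`-valuation. -/
theorem isTVal_ord (v : Place K F) {t : F} (ht : 0 < v.ord t) : IsTVal K t v.ord where
  map_zero := v.ord_zero
  map_mul := fun _ _ hf hg => v.ord_mul hf hg
  map_add := fun _ _ hf hg hfg => loc_ord_add v hf hg hfg
  map_neg := loc_ord_neg v
  map_const := loc_ord_algebraMap v
  pos := ht

/-- The order of an embedding into Laurent series, constant on `K`, is a `t`-valuation. -/
theorem isTVal_order {C : Type*} [Field C] (σ : F →+* LaurentSeries C) {t : F}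
    (hK : ∀ c : K, (σ (algebraMap K F c)).order = 0) (ht : 0 < (σ t).order) :
    IsTVal K t (fun f => (σ f).order) where
  map_zero := by simp
  map_mul := fun _ _ hf hg => loc_order_map_mul σ hf hg
  map_add := fun _ _ _ _ hfg => loc_order_map_add_le σ hfg
  map_neg := fun f => by simp only [map_neg, HahnSeries.order_neg]
  map_const := hK
  pos := ht

/-- For a nonzero polynomial `p` over `K`, every `t`-valuation of `p(t)` is the same multiple
of the valuation of `t`. -/
theorem loc_exists_mult_aeval (t : F) (p : K[X]) (hp : p ≠ 0) :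
    ∃ k : ℕ, (p.coeff 0 = 0 → 0 < k) ∧
      ∀ w : F → ℤ, IsTVal K t w → aeval t p ≠ 0 ∧ w (aeval t p) = k * w t := by
  induction p using Polynomial.recOnHorner with
  | M0 => exact absurd rfl hp
  | MC p a hp0 ha ih =>
    refine ⟨0, ?_, ?_⟩
    · intro h
      rw [coeff_add, hp0, coeff_C_zero, zero_add] at h
      exact absurd h ha
    · intro w hw
      have haF : algebraMap K F a ≠ 0 := by
        simpa using ha
      rcases eq_or_ne p 0 with rfl | hpne
      · simp only [zero_add, aeval_C]
        exact ⟨haF, by rw [hw.map_const]; simp⟩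
      obtain ⟨k, hk, hkw⟩ := ih hpne
      obtain ⟨hne, hval⟩ := hkw w hw
      have hkpos := hk hp0
      have hlt : w (algebraMap K F a) < w (aeval t p) := by
        rw [hw.map_const, hval]
        exact mul_pos (by exact_mod_cast hkpos) hw.pos
      obtain ⟨h1, h2⟩ := hw.map_add_of_lt haF hne hlt
      rw [map_add, aeval_C, add_comm]
      refine ⟨h1, ?_⟩
      rw [h2, hw.map_const]; simp
  | MX p hpne ih =>
    obtain ⟨k, _, hkw⟩ := ih hpne
    refine ⟨k + 1, fun _ => Nat.succ_pos k, ?_⟩
    intro w hw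
    obtain ⟨hne, hval⟩ := hkw w hw
    rw [map_mul, aeval_X]
    refine ⟨mul_ne_zero hne hw.t_ne_zero, ?_⟩
    rw [hw.map_mul _ _ hne hw.t_ne_zero, hval]
    push_cast; ring

/-- **Valuations on `K(t)`.** For `y ∈ K(t)` there is an integer `n` (the `t`-adic order of `y`)
such that `w y = n * w t` for every `t`-valuation `w`. -/
theorem loc_exists_mult_of_mem_adjoin (t : F) {y : F} (hy : y ∈ K⟮t⟯) :
    ∃ n : ℤ, ∀ w : F → ℤ, IsTVal K t w → w y = n * w t := by
  obtain ⟨r, s, rfl⟩ := (mem_adjoin_simple_iff K y).mp hy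
  rcases eq_or_ne r 0 with rfl | hr
  · exact ⟨0, fun w hw => by simp [hw.map_zero]⟩
  rcases eq_or_ne s 0 with rfl | hs
  · exact ⟨0, fun w hw => by simp [hw.map_zero]⟩
  obtain ⟨kr, _, hkr⟩ := loc_exists_mult_aeval t r hr
  obtain ⟨ks, _, hks⟩ := loc_exists_mult_aeval t s hs
  refine ⟨(kr : ℤ) - ks, fun w hw => ?_⟩
  obtain ⟨hr0, hrv⟩ := hkr w hw
  obtain ⟨hs0, hsv⟩ := hks w hw
  rw [hw.map_div hr0 hs0, hrv, hsv]; ring

/-- Two `t`-valuations are proportional on `K(t)`. -/
theorem loc_tval_proportional (t : F) {y : F} (hy : y ∈ K⟮t⟯) {w₁ w₂ : F → ℤ}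
    (h₁ : IsTVal K t w₁) (h₂ : IsTVal K t w₂) : w₂ t * w₁ y = w₁ t * w₂ y := by
  obtain ⟨n, hn⟩ := loc_exists_mult_of_mem_adjoin (K := K) t hy
  rw [hn w₁ h₁, hn w₂ h₂]; ring

/-- Sign transfer on `K(t)`. -/
theorem loc_tval_nonneg (t : F) {y : F} (hy : y ∈ K⟮t⟯) {w₁ w₂ : F → ℤ}
    (h₁ : IsTVal K t w₁) (h₂ : IsTVal K t w₂) (h : 0 ≤ w₁ y) : 0 ≤ w₂ y := by
  have hprop := loc_tval_proportional t hy h₁ h₂
  have hp1 := h₁.pos
  have hp2 := h₂.pos
  by_contra hneg
  have hneg' : w₂ y < 0 := not_le.mp hneg
  have h3 : w₁ t * w₂ y < 0 := mul_neg_of_pos_of_neg hp1 hneg'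
  have h4 : 0 ≤ w₂ t * w₁ y := mul_nonneg hp2.le h
  omega

end Fermat.Agent.S24.H144

end
end
-- ===== PACK-END S24/Alg/LocRat.lean

-- ===== PACK-BEGIN S24/Alg/LocSurj.lean
section





/-!
# S24 / ALG-LOC, part 2 (LOC2): every place over `t = 0` is induced by an embedding

For local data `L : LocalData K F C X t` with `[F : F₀] = |X|` (`F₀ ⊆ K(t)`), every place `v` of
`F/K` with `ord_v t > 0` is the place cut out by one of the embeddings `L.σ x`.
-/

set_option autoImplicit false

noncomputable section

open AlgebraicCurve Polynomial IntermediateField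

namespace Fermat.Agent.S24.H144

variable {K F : Type*} [Field K] [Field F] [Algebra K F]
variable {C : Type*} [Field C] {X : Type*} {t : F}

theorem loc_order_const (L : LocalData K F C X t) (x : X) (c : K) :
    (L.σ x (algebraMap K F c)).order = 0 := by
  rw [L.σ_const]; exact HahnSeries.order_C

theorem loc_order_t_pos (L : LocalData K F C X t) (x : X) : 0 < (L.σ x t).order := by
  rw [L.σ_t_order]; exact_mod_cast L.m_pos

theorem loc_isTVal (L : LocalData K F C X t) (x : X) :
    IsTVal K t (fun f => (L.σ x f).order) :=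
  isTVal_order (L.σ x) (loc_order_const L x) (loc_order_t_pos L x)

/-- The place of `F` cut out by the embedding `L.σ x`. -/
def locPlace (L : LocalData K F C X t) (x : X) : Place K F :=
  placeOfEmb (L.σ x) (fun c => (loc_order_const L x c).ge)
    ⟨t⁻¹, by rw [loc_order_map_inv]; have := loc_order_t_pos L x; omega⟩

theorem loc_induces_locPlace (L : LocalData K F C X t) (x : X) :
    Induces (L.σ x) (locPlace L x) :=
  induces_placeOfEmb _ _ _

theorem loc_mem_locPlace (L : LocalData K F C X t) (x : X) (f : F) :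
    f ∈ (locPlace L x).toValuationSubring ↔ 0 ≤ (L.σ x f).order :=
  loc_induces_locPlace L x f

/-- All the embeddings `L.σ x` agree on `K(t)`. -/
theorem loc_agree (L : LocalData K F C X t) (x y : X) {c : F} (hc : c ∈ K⟮t⟯) :
    L.σ x c = L.σ y c := by
  induction hc using IntermediateField.adjoin_induction with
  | mem c hc =>
    rw [Set.mem_singleton_iff] at hc
    rw [hc]; exact L.σ_t_eq x y
  | algebraMap c => rw [L.σ_const, L.σ_const]
  | add a b _ _ iha ihb => rw [map_add, map_add, iha, ihb]
  | inv a _ iha => rw [map_inv₀, map_inv₀, iha]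
  | mul a b _ _ iha ihb => rw [map_mul, map_mul, iha, ihb]

/-- The subring of Laurent series of non-negative order. -/
def locPowerSubring (C : Type*) [Field C] : Subring (LaurentSeries C) :=
  (locValSubring (RingHom.id (LaurentSeries C))).toSubring

theorem mem_locPowerSubring {s : LaurentSeries C} : s ∈ locPowerSubring C ↔ 0 ≤ s.order :=
  Iff.rfl

/-- **Integrality criterion.** If all conjugates `L.σ x u` have non-negative order, then `u` lies
in the valuation ring of every place `v` at which `t` vanishes. -/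
theorem loc_mem_of_forall_order_nonneg [CharZero K] [Finite X] (L : LocalData K F C X t)
    (F₀ : IntermediateField K F) (hF₀ : F₀ ≤ K⟮t⟯) [FiniteDimensional F₀ F]
    (hrank : Module.finrank F₀ F = Nat.card X)
    (v : Place K F) (hv : 0 < v.ord t) (u : F) (hu : ∀ x, 0 ≤ (L.σ x u).order) :
    u ∈ v.toValuationSubring := by
  classical
  -- `X` is nonempty
  have hX : Nonempty X := by
    have hpos : 0 < Module.finrank F₀ F := Module.finrank_pos
    rw [hrank] at hpos
    exact (Nat.card_pos_iff.mp hpos).1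
  obtain ⟨x₀⟩ := hX
  have hagree : ∀ (x y : X) (c : F₀), L.σ x (algebraMap F₀ F c) = L.σ y (algebraMap F₀ F c) :=
    fun x y c => loc_agree L x y (hF₀ c.2)
  -- coefficients of the minimal polynomial have non-negative order
  have hcoeff : ∀ i, (algebraMap F₀ F ((minpoly F₀ u).coeff i)) ∈ v.toValuationSubring := by
    intro i
    have h1 := loc_minpoly_coeff_mem (F₀ := F₀) L.σ L.σ_inj hagree hrank (locPowerSubring C) u
      (fun x => mem_locPowerSubring.mpr (hu x)) x₀ i
    rw [mem_locPowerSubring] at h1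
    apply loc_mem_of_ord_nonneg
    exact loc_tval_nonneg (K := K) t (hF₀ ((minpoly F₀ u).coeff i).2) (loc_isTVal L x₀)
      (isTVal_ord v hv) h1
  -- hence `u` is integral over the valuation ring
  have hint : IsIntegral F₀ u := Algebra.IsIntegral.isIntegral u
  have hmonic : ((minpoly F₀ u).map (algebraMap F₀ F)).Monic := (minpoly.monic hint).map _
  have hlift : (minpoly F₀ u).map (algebraMap F₀ F)
      ∈ Polynomial.lifts (algebraMap v.toValuationSubring F) := by
    rw [lifts_iff_coeff_lifts]
    intro i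
    rw [coeff_map]
    exact ⟨⟨_, hcoeff i⟩, rfl⟩
  obtain ⟨q, hq, _, hqm⟩ := lifts_and_degree_eq_and_monic hlift hmonic
  have hroot : eval₂ (algebraMap v.toValuationSubring F) u q = 0 := by
    rw [← eval_map, hq, eval_map, ← aeval_def]
    exact minpoly.aeval F₀ u
  have hintv : IsIntegral v.toValuationSubring u := ⟨q, hqm, hroot⟩
  obtain ⟨y, hy⟩ := IsIntegrallyClosed.isIntegral_iff.mp hintv
  rw [← hy]; exact y.2

/-- **LOC2.** Every place at which `t` vanishes is induced by one of the embeddings. -/
theorem loc_exists_emb [CharZero K] [Finite X] (L : LocalData K F C X t)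
    (F₀ : IntermediateField K F) (hF₀ : F₀ ≤ K⟮t⟯) [FiniteDimensional F₀ F]
    (hrank : Module.finrank F₀ F = Nat.card X)
    (v : Place K F) (hv : 0 < v.ord t) : ∃ x, Induces (L.σ x) v := by
  classical
  by_contra hno
  have hne : ∀ x, v ≠ locPlace L x := by
    intro x hx
    exact hno ⟨x, hx ▸ loc_induces_locPlace L x⟩
  have : Fintype X := Fintype.ofFinite X
  have hvS : v ∉ Finset.univ.image (locPlace L) := by
    intro h
    obtain ⟨x, _, hx⟩ := Finset.mem_image.mp h
    exact hne x hx.symm
  obtain ⟨u, huv, huS⟩ := loc_exists_pole_zeros v _ hvS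
  have hu : ∀ x, 0 ≤ (L.σ x u).order := by
    intro x
    have h1 := huS (locPlace L x) (Finset.mem_image_of_mem _ (Finset.mem_univ x))
    exact (loc_mem_locPlace L x u).mp (loc_mem_of_ord_nonneg _ h1.le)
  have := loc_ord_nonneg_of_mem v (loc_mem_of_forall_order_nonneg L F₀ hF₀ hrank v hv u hu)
  omega

end Fermat.Agent.S24.H144

end
end
-- ===== PACK-END S24/Alg/LocSurj.lean

-- ===== PACK-BEGIN S19/Spec.lean
section


/-!
# Cell A3 (S19) — FROZEN second-level interface (row-lead helper15, after deputy helper979)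

    OrderStatement  <==  LEVEL  +  OrderStatementGood
    OrderStatementGood  <==  FIN + CONT + UNR + LOCAL

* `IsContAddAction`, `CoordDatum`, `IsInertiaAt`, `LocalCoordDatum` are taken verbatim from the
  deputy's spec `origin/helper979:Fermat/Agent/S19/H979/Spec.lean` (namespace changed).
* `UnrStatement`   (UNR, pure algebra)  : local coordinates at ONE place, equivariant under
                   inertia only  ==>  global coordinates.
* `LocalStatement` (LOCAL = DISC + GR)  : the torsion of `J₀(N)` at a GOOD level has local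
                   coordinates.  Its decomposition into DISC (abstract `RedDatum`) and GR (the
                   instance for `X₀(N)`) is frozen by helper979 / helper799 in their own spec files.
* `LevelStatement` (LEVEL, only needed for `ℓ = 2, 3`): the torsion at level `N` embeds
                   Galois-equivariantly into the torsion at a good level.

Proved here (no holes): `orderDatum_of_coordDatum`, `OrderDatum.comap`, `orderStatement_of_good`,
`orderStatementGood_of`.
-/

set_option autoImplicit false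

noncomputable section

namespace Fermat.Agent.S19

/-- The action is by additive automorphisms and every point has an open stabiliser. -/
structure IsContAddAction {M : Type} [AddCommGroup M] (act : GalQ → M → M) : Prop where
  act_one : ∀ m, act 1 m = m
  act_mul : ∀ σ τ m, act (σ * τ) m = act σ (act τ m)
  act_add : ∀ σ m m', act σ (m + m') = act σ m + act σ m'
  cont : ∀ m, ∃ L : IntermediateField ℚ Qb, FiniteDimensional ℚ L ∧
    ∀ σ : GalQ, (∀ a ∈ L, σ a = a) → act σ m = m

/-- Global integral Galois-equivariant coordinates with `Zbar`-polynomial addition. -/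
structure CoordDatum (ℓ : ℕ) (M : Type) [AddCommGroup M] (act : GalQ → M → M) where
  ι : Type
  fin : Finite ι
  Φ : M → ι → Qb
  inj : Function.Injective Φ
  equivariant : ∀ σ m i, Φ (act σ m) i = σ (Φ m i)
  integral : ∀ m i, IsIntegral (Rl ℓ) (Φ m i)
  add_mem : ∀ i, (fun p : M × M => Φ (p.1 + p.2) i) ∈
      Algebra.adjoin (Zb ℓ) ({f | ∃ j, f = fun p : M × M => Φ p.1 j} ∪
        {f | ∃ j, f = fun p : M × M => Φ p.2 j})

/-- `σ` lies in the inertia group of the valuation ring `V`. -/
def IsInertiaAt (V : ValuationSubring Qb) (σ : GalQ) : Prop :=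
  ∀ a : Qb, a ∈ V → σ a - a ∈ V.nonunits

/-- Integral coordinates at ONE place above `ℓ`, equivariant under inertia only; the addition
polynomials may have arbitrary coefficients in `V`. -/
structure LocalCoordDatum (ℓ : ℕ) (M : Type) [AddCommGroup M] (act : GalQ → M → M) where
  V : ValuationSubring Qb
  ell_mem : (ℓ : Qb) ∈ V.nonunits
  ι : Type
  fin : Finite ι
  Ψ : M → ι → Qb
  inj : Function.Injective Ψ
  integral : ∀ m i, Ψ m i ∈ V
  equivariant : ∀ σ, IsInertiaAt V σ → ∀ m i, Ψ (act σ m) i = σ (Ψ m i)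
  add_mem : ∀ i, (fun p : M × M => Ψ (p.1 + p.2) i) ∈
      Algebra.adjoin V ({f | ∃ j, f = fun p : M × M => Ψ p.1 j} ∪
        {f | ∃ j, f = fun p : M × M => Ψ p.2 j})

/-- **UNR** (unramified descent; pure algebra). -/
def UnrStatement : Prop :=
  ∀ (ℓ : ℕ) [Fact ℓ.Prime] (M : Type) [AddCommGroup M] [Finite M] (act : GalQ → M → M),
    IsContAddAction act → LocalCoordDatum ℓ M act → Nonempty (CoordDatum ℓ M act)

/-- Levels at which the S18 cell proves good reduction of the coordinate-line model. -/
def GoodLevel (N ℓ : ℕ) : Prop := 5 ≤ ℓ ∨ (ℓ = 3 ∧ 2 ∣ N) ∨ (ℓ = 2 ∧ 3 ∣ N)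

/-- **LOCAL** (= DISC + GR): local coordinates on the torsion at a good level. -/
def LocalStatement : Prop :=
  ∀ (N : ℕ) [NeZero N] (ℓ : ℕ) [Fact ℓ.Prime], ¬ ℓ ∣ N → GoodLevel N ℓ → ∀ k : ℕ,
    Finite (Tors N ℓ k) → Nonempty (LocalCoordDatum ℓ (Tors N ℓ k) (torsAct N ℓ k))

/-- **CONT**: the Galois action on the torsion is additive with open stabilisers. -/
def ContStatement : Prop :=
  ∀ (N : ℕ) [NeZero N] (ℓ : ℕ) [Fact ℓ.Prime] (k : ℕ), IsContAddAction (torsAct N ℓ k)

/-- **ORDER at good levels.** -/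
def OrderStatementGood : Prop :=
  ∀ (N : ℕ) [NeZero N] (ℓ : ℕ) [Fact ℓ.Prime], ¬ ℓ ∣ N → GoodLevel N ℓ → ∀ k : ℕ,
    Nonempty (OrderDatum ℓ (Tors N ℓ k) (torsAct N ℓ k))

/-- **LEVEL**: the torsion at level `N` embeds equivariantly into the torsion at a good level
(`M = N` if `ℓ ≥ 5`; `M = lcm(N,2)` if `ℓ = 3`; `M = lcm(N,3)` if `ℓ = 2`; the map is the
conorm). -/
def LevelStatement : Prop :=
  ∀ (N : ℕ) [NeZero N] (ℓ : ℕ) [Fact ℓ.Prime], ¬ ℓ ∣ N → ∀ k : ℕ,
    ∃ (M : ℕ) (_ : NeZero M) (k' : ℕ), ¬ ℓ ∣ M ∧ GoodLevel M ℓ ∧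
      ∃ j : Tors N ℓ k →+ Tors M ℓ k', Function.Injective j ∧
        ∀ (σ : GalQ) (x : Tors N ℓ k), j (torsAct N ℓ k σ x) = torsAct M ℓ k' σ (j x)

/-! ## Proved glue -/

/-- Global coordinates give an order datum. -/
theorem orderDatum_of_coordDatum {ℓ : ℕ} {M : Type} [AddCommGroup M] {act : GalQ → M → M}
    (hadd : ∀ (σ : GalQ) (a b : M), act σ (a + b) = act σ a + act σ b)
    (D : CoordDatum ℓ M act) : Nonempty (OrderDatum ℓ M act) := by
  refine ⟨{ act_add := hadd
            gens := Set.range fun (i : D.ι) (m : M) => D.Φ m i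
            equivariant := ?_
            integral := ?_
            separates := ?_
            add_mem := ?_ }⟩
  · rintro f ⟨i, rfl⟩ σ m
    exact D.equivariant σ m i
  · rintro f ⟨i, rfl⟩ m
    exact D.integral m i
  · intro m m' h
    apply D.inj
    funext i
    exact h _ ⟨i, rfl⟩
  · rintro f ⟨i, rfl⟩
    refine Algebra.adjoin_mono ?_ (D.add_mem i)
    rintro g (⟨j, rfl⟩ | ⟨j, rfl⟩)
    · exact Or.inl ⟨_, ⟨j, rfl⟩, rfl⟩
    · exact Or.inr ⟨_, ⟨j, rfl⟩, rfl⟩

/-- Restriction of an order datum along an injective equivariant additive map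
(closure under Galois submodules). -/
theorem OrderDatum.comap {ℓ : ℕ} {M M' : Type} [AddCommGroup M] [AddCommGroup M']
    {act : GalQ → M → M} {act' : GalQ → M' → M'} (D : OrderDatum ℓ M act)
    (hadd' : ∀ (σ : GalQ) (a b : M'), act' σ (a + b) = act' σ a + act' σ b)
    (j : M' →+ M) (hj : Function.Injective j)
    (hjσ : ∀ (σ : GalQ) (x : M'), j (act' σ x) = act σ (j x)) :
    Nonempty (OrderDatum ℓ M' act') := by
  refine ⟨{ act_add := hadd'
            gens := (fun f : M → Qb => f ∘ j) '' D.gens
            equivariant := ?_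
            integral := ?_
            separates := ?_
            add_mem := ?_ }⟩
  · rintro _ ⟨f, hf, rfl⟩ σ m
    show f (j (act' σ m)) = σ (f (j m))
    rw [hjσ]
    exact D.equivariant f hf σ (j m)
  · rintro _ ⟨f, hf, rfl⟩ m
    exact D.integral f hf (j m)
  · intro m m' h
    apply hj
    apply D.separates
    intro f hf
    exact h _ ⟨f, hf, rfl⟩
  · rintro _ ⟨f, hf, rfl⟩
    -- pull back along `j × j`
    let φ : (M × M → Qb) →ₐ[Zb ℓ] (M' × M' → Qb) :=
      { toFun := fun F p => F (j p.1, j p.2)
        map_one' := rfl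
        map_mul' := fun _ _ => rfl
        map_zero' := rfl
        map_add' := fun _ _ => rfl
        commutes' := fun _ => rfl }
    have h1 : φ (fun p : M × M => f (p.1 + p.2)) ∈
        (Algebra.adjoin (Zb ℓ) (coordFunctions D.gens)).map φ :=
      ⟨_, D.add_mem f hf, rfl⟩
    have h2 : (fun p : M' × M' => (f ∘ j) (p.1 + p.2)) = φ (fun p : M × M => f (p.1 + p.2)) := by
      funext p
      show f (j (p.1 + p.2)) = f (j p.1 + j p.2)
      rw [map_add]
    rw [h2]
    rw [AlgHom.map_adjoin] at h1
    refine Algebra.adjoin_mono ?_ h1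
    rintro _ ⟨g, (⟨h, hh, rfl⟩ | ⟨h, hh, rfl⟩), rfl⟩
    · exact Or.inl ⟨h ∘ j, ⟨h, hh, rfl⟩, rfl⟩
    · exact Or.inr ⟨h ∘ j, ⟨h, hh, rfl⟩, rfl⟩

/-- ORDER at all levels from ORDER at good levels and LEVEL. -/
theorem orderStatement_of_good (hgood : OrderStatementGood) (hlevel : LevelStatement) :
    OrderStatement := by
  intro N _ ℓ _ hℓN k
  obtain ⟨M, hM, k', hℓM, hg, j, hj, hjσ⟩ := hlevel N ℓ hℓN k
  obtain ⟨D⟩ := hgood M ℓ hℓM hg k'
  exact D.comap (torsAct_add N ℓ k) j hj hjσ

/-- ORDER at good levels from FIN, CONT, UNR and LOCAL. -/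
theorem orderStatementGood_of (hfin : FinStatement) (hcont : ContStatement)
    (hunr : UnrStatement) (hlocal : LocalStatement) : OrderStatementGood := by
  intro N _ ℓ _ hℓN hg k
  have hF : Finite (Tors N ℓ k) := hfin N ℓ k
  obtain ⟨L⟩ := hlocal N ℓ hℓN hg k hF
  obtain ⟨C⟩ := hunr ℓ (Tors N ℓ k) (torsAct N ℓ k) (hcont N ℓ k) L
  exact orderDatum_of_coordDatum (torsAct_add N ℓ k) C

end Fermat.Agent.S19

end

end
-- ===== PACK-END S19/Spec.lean

-- ===== PACK-BEGIN S37/H939/Fibre.lean
section



/-!
# Fibres of a finite free `k[X]`-algebra over rational points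
(row S37 / S18, piece b2 = R2; seat helper939)
-/

set_option autoImplicit false
set_option linter.unusedSectionVars false

namespace Fermat.Agent.S37.H939

open Polynomial Matrix

variable {k : Type*} [Field k]

section Defs

variable (T : Type*) [CommRing T] [Algebra k[X] T]

/-- The ideal of the fibre of `T` over `X = c`. -/
def fibreIdeal (c : k) : Ideal T := Ideal.span {algebraMap k[X] T (X - C c)}

variable [Algebra k T]

/-- The dimension of the reduced fibre over `X = c`
(the number of geometric points of the fibre when `k` is perfect). -/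
noncomputable def redRank (c : k) : ℕ := Module.finrank k (T ⧸ (fibreIdeal T c).radical)

end Defs

section Coord

variable {T : Type*} [CommRing T] [Algebra k[X] T] [Algebra k T] [IsScalarTower k k[X] T]
variable {ι : Type*} [Fintype ι] [DecidableEq ι] (b : Module.Basis ι k[X] T)

lemma mem_fibreIdeal_iff (c : k) (z : T) :
    z ∈ fibreIdeal T c ↔ ∀ i, (X - C c) ∣ b.repr z i := by
  rw [fibreIdeal, Ideal.mem_span_singleton]
  constructor
  · rintro ⟨y, rfl⟩ i
    rw [← Algebra.smul_def, map_smul]
    exact ⟨b.repr y i, by simp⟩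
  · intro h
    choose q hq using h
    refine ⟨∑ i, q i • b i, ?_⟩
    rw [← Algebra.smul_def, Finset.smul_sum]
    conv_lhs => rw [← b.sum_repr z]
    refine Finset.sum_congr rfl fun i _ => ?_
    rw [hq i, mul_smul]

/-- Coordinates modulo `X - c`. -/
noncomputable def coord (c : k) : T →ₗ[k] (ι → k) where
  toFun z i := (b.repr z i).eval c
  map_add' x y := by ext i; simp
  map_smul' a z := by
    ext i
    have : a • z = (C a : k[X]) • z := by
      rw [← Polynomial.algebraMap_eq, algebraMap_smul]
    simp [this]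

@[simp] lemma coord_apply (c : k) (z : T) (i : ι) : coord b c z i = (b.repr z i).eval c := rfl

/-- The constant lift of a coordinate vector. -/
noncomputable def lift : (ι → k) →ₗ[k] T where
  toFun v := ∑ i, (C (v i) : k[X]) • b i
  map_add' x y := by simp [add_smul, Finset.sum_add_distrib]
  map_smul' a v := by
    simp only [Pi.smul_apply, smul_eq_mul, RingHom.id_apply, Finset.smul_sum]
    refine Finset.sum_congr rfl fun i _ => ?_
    rw [C_mul, mul_smul, ← Polynomial.algebraMap_eq, algebraMap_smul]

lemma lift_apply (v : ι → k) : lift b v = ∑ i, (C (v i) : k[X]) • b i := rfl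

@[simp] lemma repr_lift (v : ι → k) (i : ι) : b.repr (lift b v) i = C (v i) := by
  simp [lift_apply, Finsupp.single_apply, Finset.sum_apply']

@[simp] lemma coord_lift (c : k) (v : ι → k) : coord b c (lift b v) = v := by
  ext i; simp

lemma coord_eq_zero_iff (c : k) (z : T) : coord b c z = 0 ↔ z ∈ fibreIdeal T c := by
  rw [mem_fibreIdeal_iff b]
  constructor
  · intro h i
    rw [Polynomial.dvd_iff_isRoot]
    exact congrFun h i
  · intro h
    ext i
    exact Polynomial.dvd_iff_isRoot.mp (h i)

lemma sub_lift_coord_mem (c : k) (z : T) : z - lift b (coord b c z) ∈ fibreIdeal T c := by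
  rw [← coord_eq_zero_iff b, map_sub, coord_lift, sub_self]

lemma coord_surjective (c : k) : Function.Surjective (coord b c) :=
  fun v => ⟨lift b v, coord_lift b c v⟩

end Coord

end Fermat.Agent.S37.H939

namespace Fermat.Agent.S37.H939

open Polynomial Matrix

variable {k : Type*} [Field k]

section Trace

variable {T : Type*} [CommRing T] [Algebra k[X] T] [Algebra k T] [IsScalarTower k k[X] T]
variable {ι : Type*} [Fintype ι] [DecidableEq ι] (b : Module.Basis ι k[X] T)

include b in
/-- The trace of an element which is nilpotent on the fibre vanishes at `c`. -/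
lemma eval_trace_eq_zero_of_mem_radical (c : k) {y : T} (hy : y ∈ (fibreIdeal T c).radical) :
    (Algebra.trace k[X] T y).eval c = 0 := by
  obtain ⟨m, hm⟩ := hy
  rw [fibreIdeal, Ideal.mem_span_singleton] at hm
  obtain ⟨z, hz⟩ := hm
  set A : Matrix ι ι k[X] := Algebra.leftMulMatrix b y with hA
  have h1 : A ^ m = (X - C c) • Algebra.leftMulMatrix b z := by
    rw [hA, ← map_pow, hz, map_mul, AlgHom.commutes, Matrix.algebraMap_eq_diagonal]
    ext i j
    simp [Matrix.diagonal_mul]
  have h2 : ((evalRingHom c).mapMatrix A) ^ m = 0 := by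
    rw [← map_pow, h1]
    ext i j
    simp
  have h3 : IsNilpotent ((evalRingHom c).mapMatrix A).trace :=
    Matrix.isNilpotent_trace_of_isNilpotent ⟨m, h2⟩
  have h4 : ((evalRingHom c).mapMatrix A).trace = 0 := h3.eq_zero
  rw [Algebra.trace_eq_matrix_trace b, ← hA]
  have h5 : ((evalRingHom c).mapMatrix A).trace = (evalRingHom c) A.trace := by
    simp [Matrix.trace, map_sum]
  rw [h5] at h4
  exact h4

/-- The rank of the trace matrix evaluated at `c` is at most the dimension of the reduced
fibre. -/
theorem rank_traceMatrix_eval_le (c : k) :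
    ((Algebra.traceMatrix k[X] b).map (evalRingHom c)).rank ≤ redRank T c := by
  classical
  set G : Matrix ι ι k := (Algebra.traceMatrix k[X] b).map (evalRingHom c) with hG
  let Rad : Ideal T := (fibreIdeal T c).radical
  let Ψ : (ι → k) →ₗ[k] T ⧸ Rad := (Ideal.Quotient.mkₐ k Rad).toLinearMap ∘ₗ lift b
  have hΨsurj : Function.Surjective Ψ := by
    intro q
    obtain ⟨z, rfl⟩ := Ideal.Quotient.mk_surjective q
    refine ⟨coord b c z, ?_⟩
    show Ideal.Quotient.mk Rad (lift b (coord b c z)) = Ideal.Quotient.mk Rad z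
    rw [eq_comm, Ideal.Quotient.eq]
    exact Ideal.le_radical (sub_lift_coord_mem b c z)
  have hker : LinearMap.ker Ψ ≤ LinearMap.ker G.mulVecLin := by
    intro v hv
    rw [LinearMap.mem_ker] at hv ⊢
    have hv' : lift b v ∈ Rad := by
      have : Ideal.Quotient.mk Rad (lift b v) = 0 := hv
      exact Ideal.Quotient.eq_zero_iff_mem.mp this
    ext i
    rw [Matrix.mulVecLin_apply, Pi.zero_apply]
    have hmem : b i * lift b v ∈ Rad := Rad.mul_mem_left _ hv'
    have h0 := eval_trace_eq_zero_of_mem_radical b c hmem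
    rw [lift_apply, Finset.mul_sum, map_sum, eval_finsetSum] at h0
    rw [← h0, Matrix.mulVec, dotProduct]
    refine Finset.sum_congr rfl fun j _ => ?_
    rw [hG, Matrix.map_apply, Algebra.traceMatrix_apply, Algebra.traceForm_apply,
      mul_smul_comm, map_smul, smul_eq_mul, eval_mul, eval_C, coe_evalRingHom, mul_comm]
  have h1 := LinearMap.finrank_range_add_finrank_ker G.mulVecLin
  have h2 := LinearMap.finrank_range_add_finrank_ker Ψ
  have h3 : Module.finrank k (LinearMap.ker Ψ) ≤ Module.finrank k (LinearMap.ker G.mulVecLin) :=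
    Submodule.finrank_mono hker
  have h4 : Module.finrank k (LinearMap.range Ψ) = redRank T c := by
    rw [LinearMap.range_eq_top.mpr hΨsurj, finrank_top]
    rfl
  have h5 : G.rank = Module.finrank k (LinearMap.range G.mulVecLin) := rfl
  omega

/-- **(II)** `(X - c) ^ (n - redRank)` divides the discriminant. -/
theorem pow_dvd_discr (c : k) :
    (X - C c) ^ (Fintype.card ι - redRank T c) ∣ Algebra.discr k[X] b := by
  have h := pow_corank_dvd_det (evalRingHom c)
    (fun a => ⟨C a, by simp⟩) (X - C c)
    (fun s hs => Polynomial.dvd_iff_isRoot.mpr hs) (Algebra.traceMatrix k[X] b)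
  rw [Algebra.discr_def]
  refine dvd_trans (pow_dvd_pow _ ?_) h
  have := rank_traceMatrix_eval_le b c
  omega

end Trace

end Fermat.Agent.S37.H939

end
-- ===== PACK-END S37/H939/Fibre.lean

-- ===== PACK-BEGIN S37/H939/Order.lean
section



/-!
# Comparison of two orders over `k[X]` and the discriminant criterion
(row S37 / S18, piece b2 = R2; seat helper939)

`f : T₁ →ₐ[k[X]] T₂` an injective homomorphism of finite free `k[X]`-algebras of the same rank
(think: an order inside a bigger order).  If
`rootMultiplicity c (discr b₁) + redRank T₁ c ≤ n`, then `X - c` does not divide the index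
`det M` of `T₁` in `T₂`.
-/

set_option autoImplicit false
set_option linter.unusedSectionVars false

namespace Fermat.Agent.S37.H939

open Polynomial Matrix

variable {k : Type*} [Field k]
variable {T₁ T₂ : Type*} [CommRing T₁] [CommRing T₂]
  [Algebra k[X] T₁] [Algebra k T₁] [IsScalarTower k k[X] T₁]
  [Algebra k[X] T₂] [Algebra k T₂] [IsScalarTower k k[X] T₂]
variable {ι : Type*} [Fintype ι] [DecidableEq ι]
  (b₁ : Module.Basis ι k[X] T₁) (b₂ : Module.Basis ι k[X] T₂) (f : T₁ →ₐ[k[X]] T₂)

/-- The matrix of the inclusion. -/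
noncomputable abbrev incMatrix : Matrix ι ι k[X] := LinearMap.toMatrix b₁ b₂ f.toLinearMap

lemma incMatrix_det_ne_zero (hf : Function.Injective f) : (incMatrix b₁ b₂ f).det ≠ 0 := by
  intro h0
  obtain ⟨v, hv, hMv⟩ := Matrix.exists_mulVec_eq_zero_iff.mpr h0
  apply hv
  have h2 : (b₁.repr (b₁.equivFun.symm v) : ι → k[X]) = v := by
    have := b₁.equivFun.apply_symm_apply v
    funext j
    exact congrFun this j
  have h1 : f (b₁.equivFun.symm v) = 0 := by
    apply b₂.repr.injective
    rw [map_zero]
    apply DFunLike.coe_injective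
    have := LinearMap.toMatrix_mulVec_repr b₁ b₂ f.toLinearMap (b₁.equivFun.symm v)
    rw [h2, hMv] at this
    exact this.symm
  have h3 : b₁.equivFun.symm v = 0 := hf (by rw [h1, map_zero])
  exact (LinearEquiv.map_eq_zero_iff b₁.equivFun.symm).mp h3

lemma leftMulMatrix_mul_incMatrix (z : T₁) :
    Algebra.leftMulMatrix b₂ (f z) * incMatrix b₁ b₂ f =
      incMatrix b₁ b₂ f * Algebra.leftMulMatrix b₁ z := by
  rw [← Algebra.toMatrix_lmul_eq, ← Algebra.toMatrix_lmul_eq, incMatrix,
    ← LinearMap.toMatrix_comp, ← LinearMap.toMatrix_comp]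
  congr 1
  ext x
  simp

include b₁ b₂ in
lemma trace_map_eq (hf : Function.Injective f) (z : T₁) :
    Algebra.trace k[X] T₂ (f z) = Algebra.trace k[X] T₁ z := by
  rw [Algebra.trace_eq_matrix_trace b₂, Algebra.trace_eq_matrix_trace b₁]
  set M := incMatrix b₁ b₂ f
  set A := Algebra.leftMulMatrix b₂ (f z)
  set B := Algebra.leftMulMatrix b₁ z
  have hAM : A * M = M * B := leftMulMatrix_mul_incMatrix b₁ b₂ f z
  have hdet : M.det ≠ 0 := incMatrix_det_ne_zero b₁ b₂ f hf
  have h1 : M.det • A = M * B * M.adjugate := by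
    rw [← hAM, Matrix.mul_assoc, Matrix.mul_adjugate, Matrix.mul_smul, Matrix.mul_one]
  have h2 : M.det * A.trace = M.det * B.trace := by
    have := congrArg Matrix.trace h1
    rw [Matrix.trace_smul, smul_eq_mul, Matrix.trace_mul_comm, ← Matrix.mul_assoc,
      Matrix.adjugate_mul, Matrix.smul_mul, Matrix.one_mul, Matrix.trace_smul, smul_eq_mul] at this
    exact this
  exact mul_left_cancel₀ hdet h2

/-- **Index formula.** -/
theorem discr_eq_det_sq_mul (hf : Function.Injective f) :
    Algebra.discr k[X] b₁ = (incMatrix b₁ b₂ f).det ^ 2 * Algebra.discr k[X] b₂ := by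
  have h1 : Algebra.discr k[X] b₁ = Algebra.discr k[X] (fun i => f (b₁ i)) := by
    rw [Algebra.discr_def, Algebra.discr_def]
    congr 1
    refine Matrix.ext fun i j => ?_
    rw [Algebra.traceMatrix_apply, Algebra.traceMatrix_apply, Algebra.traceForm_apply,
      Algebra.traceForm_apply]
    have := trace_map_eq b₁ b₂ f hf (b₁ i * b₁ j)
    rw [map_mul f] at this
    exact this.symm
  have h2 : (fun i => f (b₁ i)) =
      ((incMatrix b₁ b₂ f).transpose.map (algebraMap k[X] T₂)).mulVec b₂ := by
    funext j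
    rw [Matrix.mulVec, dotProduct]
    conv_lhs => rw [← b₂.sum_repr (f (b₁ j))]
    refine Finset.sum_congr rfl fun i _ => ?_
    rw [Matrix.map_apply, Matrix.transpose_apply, incMatrix, LinearMap.toMatrix_apply,
      Algebra.smul_def]
    rfl
  rw [h1, h2, Algebra.discr_of_matrix_mulVec, Matrix.det_transpose]

/-- Coordinates of `f z` modulo `X - c`. -/
lemma coord_map (c : k) (z : T₁) :
    coord b₂ c (f z) = ((incMatrix b₁ b₂ f).map (evalRingHom c)).mulVec (coord b₁ c z) := by
  funext i
  have h := congrFun (LinearMap.toMatrix_mulVec_repr b₁ b₂ f.toLinearMap z) i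
  rw [coord_apply]
  have h' : b₂.repr (f z) i = ∑ j, incMatrix b₁ b₂ f i j * b₁.repr z j := by
    rw [← AlgHom.toLinearMap_apply, ← h]
    rfl
  rw [h', eval_finsetSum, Matrix.mulVec, dotProduct]
  refine Finset.sum_congr rfl fun j _ => ?_
  rw [eval_mul, Matrix.map_apply, coord_apply, coe_evalRingHom]

lemma map_mem_fibreIdeal (c : k) {z : T₁} (hz : z ∈ fibreIdeal T₁ c) :
    f z ∈ fibreIdeal T₂ c := by
  rw [fibreIdeal, Ideal.mem_span_singleton] at hz ⊢
  obtain ⟨y, rfl⟩ := hz
  exact ⟨f y, by rw [map_mul, AlgHom.commutes]⟩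

lemma map_mem_radical (c : k) {z : T₁} (hz : z ∈ (fibreIdeal T₁ c).radical) :
    f z ∈ (fibreIdeal T₂ c).radical := by
  obtain ⟨m, hm⟩ := hz
  exact ⟨m, by rw [← map_pow]; exact map_mem_fibreIdeal f c hm⟩

include b₁ in
lemma finite_quot_radical (c : k) : Module.Finite k (T₁ ⧸ (fibreIdeal T₁ c).radical) := by
  let Rad : Ideal T₁ := (fibreIdeal T₁ c).radical
  let Ψ : (ι → k) →ₗ[k] T₁ ⧸ Rad := (Ideal.Quotient.mkₐ k Rad).toLinearMap ∘ₗ lift b₁
  have hΨsurj : Function.Surjective Ψ := by
    intro q
    obtain ⟨z, rfl⟩ := Ideal.Quotient.mk_surjective q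
    refine ⟨coord b₁ c z, ?_⟩
    show Ideal.Quotient.mk Rad (lift b₁ (coord b₁ c z)) = Ideal.Quotient.mk Rad z
    rw [eq_comm, Ideal.Quotient.eq]
    exact Ideal.le_radical (sub_lift_coord_mem b₁ c z)
  exact Module.Finite.of_surjective Ψ hΨsurj

/-- **(d)** The reduced rank of the bigger order is bounded by that of the smaller order plus
the corank of the inclusion matrix modulo `X - c`. -/
theorem redRank_le_add_corank (c : k) :
    redRank T₂ c ≤ redRank T₁ c +
      (Fintype.card ι - ((incMatrix b₁ b₂ f).map (evalRingHom c)).rank) := by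
  classical
  set Mbar : Matrix ι ι k := (incMatrix b₁ b₂ f).map (evalRingHom c) with hMbar
  let Rad₁ : Ideal T₁ := (fibreIdeal T₁ c).radical
  let Rad₂ : Ideal T₂ := (fibreIdeal T₂ c).radical
  have : Module.Finite k (T₁ ⧸ Rad₁) := finite_quot_radical b₁ c
  have : Module.Finite k (T₂ ⧸ Rad₂) := finite_quot_radical b₂ c
  let Ψ : (ι → k) →ₗ[k] T₂ ⧸ Rad₂ := (Ideal.Quotient.mkₐ k Rad₂).toLinearMap ∘ₗ lift b₂
  have hΨsurj : Function.Surjective Ψ := by
    intro q
    obtain ⟨z, rfl⟩ := Ideal.Quotient.mk_surjective q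
    refine ⟨coord b₂ c z, ?_⟩
    show Ideal.Quotient.mk Rad₂ (lift b₂ (coord b₂ c z)) = Ideal.Quotient.mk Rad₂ z
    rw [eq_comm, Ideal.Quotient.eq]
    exact Ideal.le_radical (sub_lift_coord_mem b₂ c z)
  let U : Submodule k (ι → k) := LinearMap.range Mbar.mulVecLin
  let V : Submodule k (T₂ ⧸ Rad₂) := U.map Ψ
  -- the induced map on reduced fibres
  let g : (T₁ ⧸ Rad₁) →ₗ[k] (T₂ ⧸ Rad₂) :=
    (Ideal.quotientMapₐ Rad₂ (f.restrictScalars k)
      (fun z hz => map_mem_radical f c hz)).toLinearMap
  have hVg : V ≤ LinearMap.range g := by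
    rintro _ ⟨u, ⟨w, rfl⟩, rfl⟩
    refine ⟨Ideal.Quotient.mk Rad₁ (lift b₁ w), ?_⟩
    show Ideal.Quotient.mk Rad₂ (f (lift b₁ w)) =
      Ideal.Quotient.mk Rad₂ (lift b₂ (Mbar.mulVec w))
    rw [Ideal.Quotient.eq]
    apply Ideal.le_radical
    rw [← coord_eq_zero_iff b₂, map_sub, coord_lift, coord_map b₁ b₂ f c, coord_lift, sub_self]
  have h1 : Module.finrank k V ≤ redRank T₁ c :=
    (Submodule.finrank_mono hVg).trans (LinearMap.finrank_range_le g)
  -- the quotient estimate
  have hUV : U ≤ V.comap Ψ := Submodule.le_comap_map Ψ U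
  have hsurj : Function.Surjective (U.mapQ V Ψ hUV) := by
    intro q
    obtain ⟨y, rfl⟩ := Submodule.mkQ_surjective V q
    obtain ⟨x, rfl⟩ := hΨsurj y
    exact ⟨U.mkQ x, rfl⟩
  have h2 : Module.finrank k ((T₂ ⧸ Rad₂) ⧸ V) ≤ Module.finrank k ((ι → k) ⧸ U) :=
    LinearMap.finrank_le_finrank_of_surjective hsurj
  have h3 := Submodule.finrank_quotient_add_finrank U
  have h4 := Submodule.finrank_quotient_add_finrank V
  have h5 : Module.finrank k (ι → k) = Fintype.card ι := Module.finrank_fintype_fun_eq_card k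
  have h6 : Mbar.rank = Module.finrank k U := rfl
  have h7 : redRank T₂ c = Module.finrank k (T₂ ⧸ Rad₂) := rfl
  omega

/-- **Core theorem (discriminant criterion).**  If the order `T₁` satisfies
`ord_c (discr T₁) + redRank T₁ c ≤ n`, then `X - c` does not divide the index of `T₁` in any
overorder `T₂`. -/
theorem not_dvd_det_incMatrix (hf : Function.Injective f) (c : k)
    (hd : Algebra.discr k[X] b₁ ≠ 0)
    (h : (Algebra.discr k[X] b₁).rootMultiplicity c + redRank T₁ c ≤ Fintype.card ι) :
    ¬ (X - C c) ∣ (incMatrix b₁ b₂ f).det := by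
  classical
  set d := (incMatrix b₁ b₂ f).det with hd_def
  have hidx := discr_eq_det_sq_mul b₁ b₂ f hf
  rw [← hd_def] at hidx
  have hd0 : d ≠ 0 := incMatrix_det_ne_zero b₁ b₂ f hf
  have hD2 : Algebra.discr k[X] b₂ ≠ 0 := by
    intro h0
    rw [h0, mul_zero] at hidx
    exact hd hidx
  -- multiplicities
  have ha : (Algebra.discr k[X] b₁).rootMultiplicity c =
      2 * d.rootMultiplicity c + (Algebra.discr k[X] b₂).rootMultiplicity c := by
    rw [hidx, rootMultiplicity_mul (mul_ne_zero (pow_ne_zero 2 hd0) hD2), pow_two,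
      rootMultiplicity_mul (mul_ne_zero hd0 hd0)]
    ring
  have ht : Fintype.card ι - redRank T₂ c ≤ (Algebra.discr k[X] b₂).rootMultiplicity c :=
    (le_rootMultiplicity_iff hD2).mpr (pow_dvd_discr b₂ c)
  have hr := redRank_le_add_corank b₁ b₂ f c
  have hm : Fintype.card ι - ((incMatrix b₁ b₂ f).map (evalRingHom c)).rank ≤
      d.rootMultiplicity c :=
    (le_rootMultiplicity_iff hd0).mpr
      (pow_corank_dvd_det (evalRingHom c) (fun a => ⟨C a, by simp⟩) (X - C c)
        (fun s hs => Polynomial.dvd_iff_isRoot.mpr hs) (incMatrix b₁ b₂ f))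
  have hm0 : d.rootMultiplicity c = 0 := by omega
  intro hdvd
  have := (rootMultiplicity_eq_zero_iff.mp hm0) (Polynomial.dvd_iff_isRoot.mp hdvd)
  exact hd0 this

/-- **Global form.**  If the discriminant of `T₁` splits and the criterion holds at each of its
roots, then the index of `T₁` in any overorder is a unit. -/
theorem isUnit_det_incMatrix (hf : Function.Injective f)
    (hd : Algebra.discr k[X] b₁ ≠ 0) (hs : (Algebra.discr k[X] b₁).Splits)
    (h : ∀ c : k, (Algebra.discr k[X] b₁).IsRoot c →
      (Algebra.discr k[X] b₁).rootMultiplicity c + redRank T₁ c ≤ Fintype.card ι) :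
    IsUnit (incMatrix b₁ b₂ f).det := by
  classical
  set d := (incMatrix b₁ b₂ f).det with hd_def
  have hidx := discr_eq_det_sq_mul b₁ b₂ f hf
  rw [← hd_def] at hidx
  have hdvd : d ∣ Algebra.discr k[X] b₁ := ⟨d * Algebra.discr k[X] b₂, by rw [hidx]; ring⟩
  have hsd : d.Splits := hs.of_dvd hd hdvd
  rw [Polynomial.isUnit_iff_degree_eq_zero]
  by_contra hdeg
  obtain ⟨c, hc⟩ := hsd.exists_eval_eq_zero hdeg
  have hroot : (Algebra.discr k[X] b₁).IsRoot c := by
    obtain ⟨e, he⟩ := hdvd
    rw [IsRoot, he, eval_mul, hc, zero_mul]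
  exact not_dvd_det_incMatrix b₁ b₂ f hf c hd (h c hroot) (Polynomial.dvd_iff_isRoot.mpr hc)

include b₂ in
/-- Under the hypotheses of `isUnit_det_incMatrix`, every injective algebra map into an
overorder of the same rank is bijective. -/
theorem bijective_of_discr_criterion (hf : Function.Injective f)
    (hd : Algebra.discr k[X] b₁ ≠ 0) (hs : (Algebra.discr k[X] b₁).Splits)
    (h : ∀ c : k, (Algebra.discr k[X] b₁).IsRoot c →
      (Algebra.discr k[X] b₁).rootMultiplicity c + redRank T₁ c ≤ Fintype.card ι) :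
    Function.Bijective f := by
  classical
  refine ⟨hf, ?_⟩
  have hu := isUnit_det_incMatrix b₁ b₂ f hf hd hs h
  have hM : IsUnit (incMatrix b₁ b₂ f) := (Matrix.isUnit_iff_isUnit_det _).mpr hu
  have hbij : Function.Bijective f.toLinearMap := by
    let e := LinearEquiv.ofIsUnitDet (f := f.toLinearMap) (v := b₁) (v' := b₂) hu
    exact e.bijective
  exact hbij.2

end Fermat.Agent.S37.H939

end
-- ===== PACK-END S37/H939/Order.lean

-- ===== PACK-BEGIN S18/H213/Tame.lean
section



/-!
# S18 / b2.3 — the tame discriminant bound (helper213)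

`O` a PID, `π` a prime element with residue field `κ = O/π` of characteristic zero, `C` a Dedekind
domain, finite and torsion-free over `O`, with `O`-basis `b` (`n` elements).  Then

  `ord_π (disc b) ≤ n - dim_κ (C/πC)_red`,

stated as: `r ≤ dim_κ (C/πC)_red → ¬ π ^ (n - r + 1) ∣ disc b`  (`tame_discr_bound`).

Proof.  For a prime `P ∣ πC`, `πC = P ^ e * Q`, the idempotent of `C/πC` cut out by `Q` has trace
`e f ≠ 0` in `κ`, hence `P ^ e ∤ 𝔇` (Mathlib `not_dvd_differentIdeal_of_intTrace_not_mem`).
Ideal arithmetic then gives `s ∉ (π)` with `s π C^∨ ⊆ rad(πC)`, i.e. a matrix `H` over `O` with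
`H * G = s π • 1` (`G` the Gram matrix of `b`) whose rows reduce into the coordinates of
`rad(πC)/πC`, a subspace of codimension `dim (C/πC)_red`.  The determinant–rank lemma
(`DetRank.lean`) gives `π ^ r ∣ det H`, and `det H * disc b = (s π) ^ n`.
-/

set_option autoImplicit false
set_option linter.style.haveILetI false
set_option linter.unusedSectionVars false

open Module
open scoped nonZeroDivisors

namespace Fermat.Agent.S18.H213

attribute [local instance] FractionRing.liftAlgebra FractionRing.isScalarTower_liftAlgebra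
  Ideal.Quotient.field

/-- The trace of a nonzero idempotent of a finite-dimensional algebra over a field of
characteristic zero is nonzero. -/
theorem trace_idempotent_ne_zero {κ V : Type*} [Field κ] [CharZero κ] [CommRing V] [Algebra κ V]
    [Module.Finite κ V] (x : V) (hx : x * x = x) (hx0 : x ≠ 0) : Algebra.trace κ V x ≠ 0 := by
  rw [Algebra.trace_apply]
  have hid : IsIdempotentElem (Algebra.lmul κ V x) := by
    show Algebra.lmul κ V x * Algebra.lmul κ V x = Algebra.lmul κ V x
    rw [← map_mul, hx]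
  have hproj := LinearMap.IsIdempotentElem.isProj_range _ hid
  rw [hproj.trace]
  have hpos : 0 < finrank κ (LinearMap.range (Algebra.lmul κ V x)) := by
    rw [Module.finrank_pos_iff_exists_ne_zero]
    refine ⟨⟨x, ⟨1, by simp⟩⟩, ?_⟩
    intro h
    exact hx0 (congrArg Subtype.val h)
  exact_mod_cast hpos.ne'

section
variable {O C : Type*} [CommRing O] [IsDomain O] [IsPrincipalIdealRing O]
    [CommRing C] [IsDedekindDomain C] [Algebra O C] [Module.Finite O C] [IsTorsionFree O C]
    {π : O}

/-- **Tameness** (residue characteristic zero): if `π C = P ^ e * Q` with `P ^ e` and `Q`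
comaximal and `P ^ e ≠ ⊤`, then `P ^ e` does not divide the different. -/
theorem not_pow_dvd_differentIdeal (hπ : Prime π) [CharZero (O ⧸ Ideal.span {π})]
    [Algebra.IsSeparable (FractionRing O) (FractionRing C)]
    (Pe Q : Ideal C) (hPQ : Pe * Q = (Ideal.span {π}).map (algebraMap O C))
    (hcop : Pe ⊔ Q = ⊤) (hPe : Pe ≠ ⊤) : ¬ Pe ∣ differentIdeal O C := by
  have hmax : (Ideal.span {π}).IsMaximal :=
    PrincipalIdealRing.isMaximal_of_irreducible hπ.irreducible
  obtain ⟨a, ha, x, hxQ, hax⟩ := Submodule.mem_sup.mp (hcop ▸ Submodule.mem_top : (1 : C) ∈ Pe ⊔ Q)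
  refine not_dvd_differentIdeal_of_intTrace_not_mem O Pe Q hPQ x hxQ ?_
  rw [← Ideal.Quotient.eq_zero_iff_mem, ← Algebra.trace_quotient_eq_of_isDedekindDomain]
  apply trace_idempotent_ne_zero
  · rw [← map_mul, Ideal.Quotient.eq, ← hPQ]
    have : x * x - x = -(a * x) := by
      have : a = 1 - x := by rw [← hax]; ring
      rw [this]; ring
    rw [this]
    exact neg_mem (Ideal.mul_mem_mul ha hxQ)
  · intro h
    rw [Ideal.Quotient.eq_zero_iff_mem, ← hPQ] at h
    have hxP : x ∈ Pe := (Ideal.mul_le_left : Pe * Q ≤ Pe) h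
    apply hPe
    rw [Ideal.eq_top_iff_one, ← hax]
    exact add_mem ha hxP

/-- Key ideal arithmetic. -/
theorem exists_ideal_le_radical (hπ : Prime π) [CharZero (O ⧸ Ideal.span {π})]
    [Algebra.IsSeparable (FractionRing O) (FractionRing C)] :
    ∃ (I' : Ideal C) (s : O), ¬ π ∣ s ∧ I' ≤ ((Ideal.span {π}).map (algebraMap O C)).radical ∧
      algebraMap O C (s * π) ∈ differentIdeal O C * I' := by
  have hinj : Function.Injective (algebraMap O C) := FaithfulSMul.algebraMap_injective O C
  set pC := (Ideal.span {π}).map (algebraMap O C) with hpC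
  set D := differentIdeal O C with hD
  have hD0 : D ≠ ⊥ := differentIdeal_ne_bot
  have hπC : algebraMap O C π ∈ pC := Ideal.mem_map_of_mem _ (Ideal.mem_span_singleton_self π)
  have hpC0 : pC ≠ ⊥ := by
    intro h
    rw [h, Ideal.mem_bot] at hπC
    exact hπ.ne_zero (hinj (by rw [hπC, map_zero]))
  set a := D ⊔ pC with ha
  have ha0 : a ≠ ⊥ := fun h => hD0 (le_bot_iff.mp (h ▸ le_sup_left))
  obtain ⟨D', hD'⟩ : a ∣ D := Ideal.dvd_iff_le.mpr le_sup_left
  obtain ⟨I', hI'⟩ : a ∣ pC := Ideal.dvd_iff_le.mpr le_sup_right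
  have hcop : D' ⊔ I' = ⊤ := by
    have h1 : a * (D' ⊔ I') = a * ⊤ := by
      rw [Ideal.mul_sup, ← hD', ← hI', Ideal.mul_top]
    exact mul_left_cancel₀ ha0 h1
  -- key lemma
  have key : ∀ P : Ideal C, P.IsPrime → pC ≤ P → I' ≤ P := by
    intro P hP hle
    by_contra hnot
    have hPmax : P.IsMaximal := hP.isMaximal (ne_bot_of_le_ne_bot hpC0 hle)
    obtain ⟨Q, hPQ, hfac⟩ := Ideal.eq_prime_pow_mul_coprime hpC0 P
    set e := Multiset.count P (UniqueFactorizationMonoid.normalizedFactors pC)
    have h1 : P ^ e ⊔ Q = ⊤ := Ideal.pow_sup_eq_top hPQ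
    have h2 : P ^ e ≠ ⊤ := by
      intro h
      rw [h, Ideal.top_mul] at hfac
      rw [← hfac, sup_eq_left.mpr hle] at hPQ
      exact hPmax.ne_top hPQ
    have h3 := not_pow_dvd_differentIdeal hπ (P ^ e) Q hfac.symm h1 h2
    apply h3
    have h4 : P ^ e ∣ a := by
      have hc : IsCoprime (P ^ e) I' := by
        rw [Ideal.isCoprime_iff_sup_eq]
        apply Ideal.pow_sup_eq_top
        by_contra hne
        apply hnot
        have := hPmax.eq_of_le hne le_sup_left
        rw [this]
        exact le_sup_right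
      refine hc.dvd_of_dvd_mul_right ?_
      rw [← hI']
      exact ⟨Q, hfac⟩
    exact h4.trans ⟨D', hD'⟩
  -- the element `s`
  have hs : ∃ s : O, ¬ π ∣ s ∧ algebraMap O C s ∈ D' := by
    by_contra hcon
    push Not at hcon
    have hcomap : Ideal.comap (algebraMap O C) D' ≤ Ideal.span {π} := by
      intro s hs
      rw [Ideal.mem_span_singleton]
      by_contra hdiv
      exact hcon s hdiv hs
    haveI : (Ideal.span {π}).IsPrime := (Ideal.span_singleton_prime hπ.ne_zero).mpr hπ
    obtain ⟨Q, hQD, hQp, hQc⟩ :=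
      Ideal.exists_ideal_over_prime_of_isIntegral (Ideal.span {π}) D' hcomap
    have hle : pC ≤ Q := by
      rw [hpC, Ideal.map_le_iff_le_comap, hQc]
    have := key Q hQp hle
    have htop : (⊤ : Ideal C) ≤ Q := by
      rw [← hcop]
      exact sup_le hQD this
    exact hQp.ne_top (top_le_iff.mp htop)
  obtain ⟨s, hsπ, hsD⟩ := hs
  refine ⟨I', s, hsπ, ?_, ?_⟩
  · rw [Ideal.radical_eq_sInf]
    exact le_sInf fun P hP => key P hP.2 hP.1
  · rw [map_mul, hD', mul_comm a D', mul_assoc, ← hI']
    exact Ideal.mul_mem_mul hsD hπC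

/-- Multiples of the trace-dual basis land in the radical of `π C`. -/
theorem exists_dual_multiple (hπ : Prime π) [CharZero (O ⧸ Ideal.span {π})]
    {ι : Type*} [Fintype ι] [DecidableEq ι] (b : Basis ι O C) :
    ∃ (s : O) (z : ι → C), ¬ π ∣ s ∧
      (∀ j, z j ∈ ((Ideal.span {π}).map (algebraMap O C)).radical) ∧
      ∀ j i, Algebra.trace O C (z j * b i) = if i = j then s * π else 0 := by
  haveI : CharZero O := RingHom.charZero (Ideal.Quotient.mk (Ideal.span {π}))
  let K := FractionRing O
  let L := FractionRing C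
  haveI : CharZero K := charZero_of_injective_algebraMap (IsFractionRing.injective O K)
  haveI : IsLocalization (Algebra.algebraMapSubmonoid C O⁰) L :=
    IsIntegralClosure.isLocalization _ K _ _
  haveI : FiniteDimensional K L := .of_isLocalization O C O⁰
  haveI : Algebra.IsSeparable K L := inferInstance
  obtain ⟨I', s, hsπ, hI', hmem⟩ := exists_ideal_le_radical (C := C) hπ
  let bL : Basis ι K L := b.localizationLocalization K O⁰ L
  have hspan := Submodule.traceDual_span_of_basis O (1 : Submodule C L) bL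
    (by rw [Basis.localizationLocalization_span K O⁰ L]; ext; simp)
  have hz : ∀ j, ∃ z ∈ I', algebraMap C L z =
      algebraMap C L (algebraMap O C (s * π)) * bL.traceDual j := by
    intro j
    have hdual : bL.traceDual j ∈ FractionalIdeal.dual O K (1 : FractionalIdeal C⁰ L) := by
      rw [← FractionalIdeal.mem_coe, FractionalIdeal.coe_dual_one]
      have : bL.traceDual j ∈ (Submodule.traceDual O K (1 : Submodule C L)).restrictScalars O := by
        rw [hspan]; exact Submodule.subset_span ⟨j, rfl⟩
      exact this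
    have h1 : algebraMap C L (algebraMap O C (s * π)) ∈
        ((differentIdeal O C * I' : Ideal C) : FractionalIdeal C⁰ L) :=
      (FractionalIdeal.mem_coeIdeal _).mpr ⟨_, hmem, rfl⟩
    have h2 := FractionalIdeal.mul_mem_mul h1 hdual
    have hne : FractionalIdeal.dual O K (1 : FractionalIdeal C⁰ L) ≠ 0 :=
      FractionalIdeal.dual_ne_zero O K one_ne_zero
    rw [FractionalIdeal.coeIdeal_mul, mul_comm (↑(differentIdeal O C) : FractionalIdeal C⁰ L) _,
      mul_assoc, coeIdeal_differentIdeal O K L C, inv_mul_cancel₀ hne, mul_one] at h2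
    exact (FractionalIdeal.mem_coeIdeal _).mp h2
  choose z hzI hzeq using hz
  refine ⟨s, z, hsπ, fun j => hI' (hzI j), ?_⟩
  intro j i
  apply IsFractionRing.injective O K
  rw [← Algebra.trace_localization O O⁰ (Rₘ := K) (Sₘ := L), map_mul, hzeq, mul_assoc,
    ← Basis.localizationLocalization_apply K O⁰ L b i]
  rw [← IsScalarTower.algebraMap_apply O C L, IsScalarTower.algebraMap_apply O K L,
    ← Algebra.smul_def, map_smul, Basis.trace_traceDual_mul, Algebra.smul_def]
  split_ifs <;> simp

/-- **Tame discriminant bound.** -/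
theorem tame_discr_bound (hπ : Prime π) [CharZero (O ⧸ Ideal.span {π})]
    {ι : Type*} [Fintype ι] [DecidableEq ι] (b : Basis ι O C) (r : ℕ)
    (hr : r ≤ Module.finrank (O ⧸ Ideal.span {π})
      ((C ⧸ (Ideal.span {π}).map (algebraMap O C)) ⧸
        nilradical (C ⧸ (Ideal.span {π}).map (algebraMap O C)))) :
    ¬ π ^ (Fintype.card ι - r + 1) ∣ Algebra.discr O b := by
  have hmax : (Ideal.span {π}).IsMaximal :=
    PrincipalIdealRing.isMaximal_of_irreducible hπ.irreducible
  obtain ⟨s, z, hsπ, hzJ, hztr⟩ := exists_dual_multiple hπ b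
  set pC := (Ideal.span {π}).map (algebraMap O C) with hpC
  -- the coordinate matrix of `z`
  let H : Matrix ι ι O := Matrix.of fun j k => b.repr (z j) k
  have hHz : ∀ j, ∑ k, H j k • b k = z j := fun j => b.sum_repr (z j)
  -- matrix identity
  have hHG : H * Algebra.traceMatrix O b = (s * π) • (1 : Matrix ι ι O) := by
    ext j i
    rw [Matrix.mul_apply]
    simp only [Algebra.traceMatrix_apply, Algebra.traceForm_apply]
    have h1 : ∑ k, H j k * Algebra.trace O C (b k * b i) = Algebra.trace O C (z j * b i) := by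
      rw [← hHz j, Finset.sum_mul, map_sum]
      refine Finset.sum_congr rfl fun k _ => ?_
      rw [smul_mul_assoc, map_smul, smul_eq_mul]
    rw [h1, hztr, Matrix.smul_apply, Matrix.one_apply]
    by_cases hij : j = i
    · subst hij; simp
    · rw [if_neg (Ne.symm hij), if_neg hij]; simp
  have hdet : H.det * Algebra.discr O b = (s * π) ^ Fintype.card ι := by
    rw [Algebra.discr_def, ← Matrix.det_mul, hHG, Matrix.det_smul, Matrix.det_one, mul_one]
  -- the reduction map
  let κ := O ⧸ Ideal.span {π}
  let V := C ⧸ pC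
  let Vred := V ⧸ nilradical V
  let v : ι → Vred := fun k => Ideal.Quotient.mk (nilradical V) (Ideal.Quotient.mk pC (b k))
  let g : (ι → κ) →ₗ[κ] Vred := Fintype.linearCombination κ v
  have hgred : ∀ w : ι → O, g (redRow π w) =
      Ideal.Quotient.mk (nilradical V) (Ideal.Quotient.mk pC (∑ k, w k • b k)) := by
    intro w
    simp only [g, Fintype.linearCombination_apply, redRow, v, map_sum]
    refine Finset.sum_congr rfl fun k _ => ?_
    rw [Algebra.smul_def, Algebra.smul_def, map_mul, map_mul]
    rfl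
  have hgsurj : Function.Surjective g := by
    intro x
    obtain ⟨y, rfl⟩ := Ideal.Quotient.mk_surjective x
    obtain ⟨c, rfl⟩ := Ideal.Quotient.mk_surjective y
    refine ⟨redRow π (fun k => b.repr c k), ?_⟩
    rw [hgred, b.sum_repr]
  have hgH : ∀ j, g (redRow π (H j)) = 0 := by
    intro j
    rw [hgred, hHz, Ideal.Quotient.eq_zero_iff_mem, mem_nilradical]
    obtain ⟨m, hm⟩ := hzJ j
    refine ⟨m, ?_⟩
    rw [← map_pow, Ideal.Quotient.eq_zero_iff_mem]
    exact hm
  -- DET–RANK
  set n := Fintype.card ι with hn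
  have hrank := pow_dvd_det_of_rows_ker hπ g hgsurj (min r n) ((min_le_left _ _).trans hr) H hgH
  intro hdvd
  have h1 : π ^ (min r n) * π ^ (n - r + 1) ∣ (s * π) ^ n := by
    rw [← hdet]
    exact mul_dvd_mul hrank hdvd
  have h2 : min r n + (n - r + 1) = n + 1 := by
    rcases le_total r n with h | h
    · rw [min_eq_left h]; omega
    · rw [min_eq_right h]; omega
  rw [← pow_add, h2, mul_pow, pow_succ, mul_comm (s ^ n)] at h1
  have h3 : π ∣ s ^ n := (mul_dvd_mul_iff_left (pow_ne_zero n hπ.ne_zero)).mp h1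
  exact hsπ (hπ.dvd_of_dvd_pow h3)

end

set_option linter.overlappingInstances false in
/-- **Tame discriminant bound, witness form** (the shape of `B12.TameDiscrStatement`). -/
theorem tame_discr_witness {Λ : Type*} [CommRing Λ] [IsDomain Λ] [IsPrincipalIdealRing Λ]
    [Algebra ℚ Λ] (t : Λ) (ht : Prime t)
    {C₀ : Type*} [CommRing C₀] [IsDomain C₀] [IsDedekindDomain C₀] [Algebra Λ C₀]
    [Module.IsTorsionFree Λ C₀]
    (n : ℕ) (β : Module.Basis (Fin n) Λ C₀) (r : ℕ) (y : Fin r → C₀)
    (hy : ∀ a : Fin r → Λ,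
        (∑ i, a i • y i) ∈ (Ideal.span {algebraMap Λ C₀ t}).radical → ∀ i, t ∣ a i) :
    ¬ t ^ (n - r + 1) ∣ Algebra.discr Λ β := by
  have hmax : (Ideal.span {t}).IsMaximal :=
    PrincipalIdealRing.isMaximal_of_irreducible ht.irreducible
  haveI : Module.Finite Λ C₀ := Module.Finite.of_basis β
  haveI : CharZero (Λ ⧸ Ideal.span {t}) := algebraRat.charZero _
  have hmap : (Ideal.span {t}).map (algebraMap Λ C₀) = Ideal.span {algebraMap Λ C₀ t} := by
    rw [Ideal.map_span, Set.image_singleton]
  set pC := (Ideal.span {t}).map (algebraMap Λ C₀) with hpC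
  have key : r ≤ Module.finrank (Λ ⧸ Ideal.span {t}) ((C₀ ⧸ pC) ⧸ nilradical (C₀ ⧸ pC)) := by
    let v : Fin r → (C₀ ⧸ pC) ⧸ nilradical (C₀ ⧸ pC) :=
      fun i => Ideal.Quotient.mk _ (Ideal.Quotient.mk pC (y i))
    have hli : LinearIndependent (Λ ⧸ Ideal.span {t}) v := by
      rw [Fintype.linearIndependent_iff]
      intro g hg i
      choose a ha using fun i => Ideal.Quotient.mk_surjective (g i)
      have h1 : ∑ i, g i • v i =
          Ideal.Quotient.mk _ (Ideal.Quotient.mk pC (∑ i, a i • y i)) := by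
        simp only [v, map_sum]
        refine Finset.sum_congr rfl fun k _ => ?_
        rw [← ha k, Algebra.smul_def, Algebra.smul_def, map_mul, map_mul]
        rfl
      rw [h1, Ideal.Quotient.eq_zero_iff_mem, mem_nilradical] at hg
      obtain ⟨m, hm⟩ := hg
      rw [← map_pow, Ideal.Quotient.eq_zero_iff_mem] at hm
      have h2 : (∑ i, a i • y i) ∈ (Ideal.span {algebraMap Λ C₀ t}).radical := by
        rw [← hmap]; exact ⟨m, hm⟩
      have h3 := hy a h2 i
      rw [← ha i, Ideal.Quotient.eq_zero_iff_mem, Ideal.mem_span_singleton]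
      exact h3
    simpa using hli.fintype_card_le_finrank
  have := tame_discr_bound ht β r key
  simpa using this

end Fermat.Agent.S18.H213

end
-- ===== PACK-END S18/H213/Tame.lean

-- ===== PACK-BEGIN S19/Cont.lean
section



/-!
# Cell A3 (S19) — block CONT: the Galois action on the torsion of `J₀(N)` is additive with open
stabilisers.  Uses FINLEVEL of helper571 (S29 route, on main).
-/

set_option autoImplicit false

noncomputable section

namespace Fermat.Agent.S19

open ModularCurve

/-- **CONT** (proved). -/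
theorem contStatement : ContStatement := by
  intro N _ ℓ hℓ k
  refine ⟨fun m => ?_, fun σ τ m => ?_, torsAct_add N ℓ k, fun m => ?_⟩
  · exact Subtype.ext (one_smul GalQ (m : JZero N))
  · exact Subtype.ext (mul_smul σ τ (m : JZero N))
  · have hn : ((ℓ : ℤ) ^ k) ≠ 0 := pow_ne_zero _ (by exact_mod_cast hℓ.out.ne_zero)
    have hx : ((ℓ : ℤ) ^ k) • (m : JZero N) = 0 := by
      have := m.2
      rwa [Submodule.mem_torsionBy_iff] at this
    obtain ⟨L, hL, h⟩ := Fermat.Agent.S29.H571.exists_finiteLevel_of_zsmul_eq_zero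
      (modularFunctionFieldFull N) (m : JZero N) hn hx
    exact ⟨L, hL, fun σ hσ => Subtype.ext (h σ hσ)⟩

end Fermat.Agent.S19

end

end
-- ===== PACK-END S19/Cont.lean

-- ===== PACK-BEGIN S19/H19/Order.lean
section
/-
A3 / S19, helper19 — piece ORD, part 3: the Hopf algebra structure on an order of functions.

`M` an abelian group, `K` a field, `R → K` injective, `H ⊂ (M → K)` an `R`-subalgebra which is
"good" (finite free with `K`-independent basis) and closed under `f ↦ f(s+t)` (with values in the
image of `H ⊗ H`), `f ↦ f 0` (with values in `R`) and `f ↦ f(-t)`.  Then `H` is a commutative,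
cocommutative Hopf algebra over `R`.  Mathlib only.
-/


set_option autoImplicit false
set_option linter.unusedSectionVars false
set_option linter.style.haveILetI false

noncomputable section

namespace Fermat.Agent.S19.H19

open scoped BigOperators TensorProduct

variable {R : Type} [CommRing R] {K : Type} [Field K] [Algebra R K]
variable {M : Type} [AddCommGroup M]

/-- An `R`-subalgebra of functions on an abelian group which is a "Hopf order". -/
structure IsOrder (H : Subalgebra R (M → K)) : Prop where
  alg_inj : Function.Injective (algebraMap R K)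
  good : Good H.val
  comul_mem : ∀ f ∈ H, (fun p : M × M => f (p.1 + p.2)) ∈ (prodMap H.val H.val).range
  counit_mem : ∀ f ∈ H, f 0 ∈ (Algebra.ofId R K).range
  anti_mem : ∀ f ∈ H, (fun m => f (-m)) ∈ H

namespace IsOrder

variable {H : Subalgebra R (M → K)} (hH : IsOrder H)

/-- Evaluation `H ⊗ H → (M × M → K)`. -/
abbrev E₂ (H : Subalgebra R (M → K)) : H ⊗[R] H →ₐ[R] (M × M → K) := prodMap H.val H.val

/-- Evaluation `H ⊗ (H ⊗ H) → (M × (M × M) → K)`. -/
abbrev E₃ (H : Subalgebra R (M → K)) : H ⊗[R] (H ⊗[R] H) →ₐ[R] (M × (M × M) → K) :=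
  prodMap H.val (E₂ H)

include hH in
theorem E₂_injective : Function.Injective (E₂ H) := (hH.good.prod hH.good).injective hH.alg_inj

include hH in
theorem E₃_injective : Function.Injective (E₃ H) :=
  (hH.good.prod (hH.good.prod hH.good)).injective hH.alg_inj

/-- `f ↦ ((s,t) ↦ f (s+t))`. -/
def addFun (H : Subalgebra R (M → K)) : H →ₐ[R] (M × M → K) :=
  (pullback R K (fun p : M × M => p.1 + p.2)).comp H.val

/-- The comultiplication. -/
def comul : H →ₐ[R] H ⊗[R] H :=
  ((AlgEquiv.ofInjective (E₂ H) hH.E₂_injective).symm : (E₂ H).range →ₐ[R] H ⊗[R] H).comp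
    ((addFun H).codRestrict (E₂ H).range (fun f => hH.comul_mem f f.2))

theorem E₂_comul (h : H) (p : M × M) : E₂ H (hH.comul h) p = (h : M → K) (p.1 + p.2) := by
  have h1 : E₂ H (hH.comul h) = ((addFun H).codRestrict (E₂ H).range
      (fun f => hH.comul_mem f f.2) h : M × M → K) := by
    have := (AlgEquiv.ofInjective (E₂ H) hH.E₂_injective).apply_symm_apply
      ((addFun H).codRestrict (E₂ H).range (fun f => hH.comul_mem f f.2) h)
    exact congrArg Subtype.val this
  rw [h1]
  rfl

/-- The counit. -/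
def counit : H →ₐ[R] R :=
  ((AlgEquiv.ofInjective (Algebra.ofId R K) hH.alg_inj).symm :
      (Algebra.ofId R K).range →ₐ[R] R).comp
    (((Pi.evalAlgHom R (fun _ : M => K) 0).comp H.val).codRestrict (Algebra.ofId R K).range
      (fun f => hH.counit_mem f f.2))

theorem algebraMap_counit (h : H) : algebraMap R K (hH.counit h) = (h : M → K) 0 := by
  have := (AlgEquiv.ofInjective (Algebra.ofId R K) hH.alg_inj).apply_symm_apply
      (((Pi.evalAlgHom R (fun _ : M => K) 0).comp H.val).codRestrict (Algebra.ofId R K).range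
      (fun f => hH.counit_mem f f.2) h)
  exact congrArg Subtype.val this

/-- The antipode. -/
def antipode : H →ₐ[R] H :=
  ((pullback R K (fun m : M => -m)).comp H.val).codRestrict H (fun f => hH.anti_mem f f.2)

theorem antipode_apply (h : H) (m : M) : (hH.antipode h : M → K) m = (h : M → K) (-m) := rfl

/-! ### Naturality lemmas -/

theorem E₂_tmul (a b : H) (p : M × M) :
    E₂ H (a ⊗ₜ[R] b) p = (a : M → K) p.1 * (b : M → K) p.2 := by
  simp [E₂]

theorem E₃_tmul (a : H) (y : H ⊗[R] H) (p : M × (M × M)) :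
    E₃ H (a ⊗ₜ[R] y) p = (a : M → K) p.1 * E₂ H y p.2 := by
  simp [E₃]

theorem E₃_assoc_tmul (y : H ⊗[R] H) (b : H) (p : M × (M × M)) :
    E₃ H (Algebra.TensorProduct.assoc R R R H H H (y ⊗ₜ[R] b)) p =
      E₂ H y (p.1, p.2.1) * (b : M → K) p.2.2 := by
  induction y using TensorProduct.induction_on with
  | zero => simp
  | tmul a a' =>
    rw [Algebra.TensorProduct.assoc_tmul, E₃_tmul, E₂_tmul, E₂_tmul, mul_assoc]
  | add x y hx hy =>
    rw [TensorProduct.add_tmul, map_add, map_add, map_add, Pi.add_apply, Pi.add_apply, hx, hy,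
      add_mul]

theorem E₃_assoc_map (x : H ⊗[R] H) (p : M × (M × M)) :
    E₃ H (Algebra.TensorProduct.assoc R R R H H H
        (Algebra.TensorProduct.map hH.comul (AlgHom.id R H) x)) p =
      E₂ H x (p.1 + p.2.1, p.2.2) := by
  induction x using TensorProduct.induction_on with
  | zero => simp
  | tmul a b =>
    rw [Algebra.TensorProduct.map_tmul, E₃_assoc_tmul, hH.E₂_comul, E₂_tmul]
    rfl
  | add x y hx hy =>
    rw [map_add, map_add, map_add, map_add, Pi.add_apply, Pi.add_apply, hx, hy]

theorem E₃_map (x : H ⊗[R] H) (p : M × (M × M)) :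
    E₃ H (Algebra.TensorProduct.map (AlgHom.id R H) hH.comul x) p =
      E₂ H x (p.1, p.2.1 + p.2.2) := by
  induction x using TensorProduct.induction_on with
  | zero => simp
  | tmul a b =>
    rw [Algebra.TensorProduct.map_tmul, E₃_tmul, hH.E₂_comul, E₂_tmul]
    rfl
  | add x y hx hy =>
    rw [map_add, map_add, map_add, Pi.add_apply, Pi.add_apply, hx, hy]

theorem lid_map (x : H ⊗[R] H) (m : M) :
    ((Algebra.TensorProduct.lid R H
        (Algebra.TensorProduct.map hH.counit (AlgHom.id R H) x) : H) : M → K) m =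
      E₂ H x (0, m) := by
  induction x using TensorProduct.induction_on with
  | zero => simp
  | tmul a b =>
    rw [Algebra.TensorProduct.map_tmul, Algebra.TensorProduct.lid_tmul, E₂_tmul,
      ← hH.algebraMap_counit]
    simp [Algebra.smul_def]
  | add x y hx hy =>
    rw [map_add, map_add, map_add]
    simp only [Subalgebra.coe_add, Pi.add_apply]
    rw [hx, hy]

theorem rid_map (x : H ⊗[R] H) (m : M) :
    ((Algebra.TensorProduct.rid R R H
        (Algebra.TensorProduct.map (AlgHom.id R H) hH.counit x) : H) : M → K) m =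
      E₂ H x (m, 0) := by
  induction x using TensorProduct.induction_on with
  | zero => simp
  | tmul a b =>
    rw [Algebra.TensorProduct.map_tmul, Algebra.TensorProduct.rid_tmul, E₂_tmul,
      ← hH.algebraMap_counit]
    simp [Algebra.smul_def, mul_comm]
  | add x y hx hy =>
    rw [map_add, map_add, map_add]
    simp only [Subalgebra.coe_add, Pi.add_apply]
    rw [hx, hy]

theorem E₂_comm (x : H ⊗[R] H) (p : M × M) :
    E₂ H (TensorProduct.comm R H H x) p = E₂ H x (p.2, p.1) := by
  induction x using TensorProduct.induction_on with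
  | zero => simp
  | tmul a b =>
    rw [TensorProduct.comm_tmul, E₂_tmul, E₂_tmul, mul_comm]
  | add x y hx hy =>
    rw [map_add, map_add, map_add, Pi.add_apply, Pi.add_apply, hx, hy]

theorem lift_tmul_apply (f g : H →ₐ[R] H) (x : H ⊗[R] H) (m : M) :
    ((Algebra.TensorProduct.lift f g (fun _ _ => Commute.all _ _) x : H) : M → K) m =
      E₂ H (Algebra.TensorProduct.map f g x) (m, m) := by
  induction x using TensorProduct.induction_on with
  | zero => simp
  | tmul a b =>
    rw [Algebra.TensorProduct.lift_tmul, Algebra.TensorProduct.map_tmul, E₂_tmul]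
    rfl
  | add x y hx hy =>
    rw [map_add, map_add, map_add]
    simp only [Subalgebra.coe_add, Pi.add_apply]
    rw [hx, hy]

theorem E₂_map_antipode_id (x : H ⊗[R] H) (p : M × M) :
    E₂ H (Algebra.TensorProduct.map hH.antipode (AlgHom.id R H) x) p = E₂ H x (-p.1, p.2) := by
  induction x using TensorProduct.induction_on with
  | zero => simp
  | tmul a b =>
    rw [Algebra.TensorProduct.map_tmul, E₂_tmul, E₂_tmul]
    rfl
  | add x y hx hy =>
    rw [map_add, map_add, map_add, Pi.add_apply, Pi.add_apply, hx, hy]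

theorem E₂_map_id_antipode (x : H ⊗[R] H) (p : M × M) :
    E₂ H (Algebra.TensorProduct.map (AlgHom.id R H) hH.antipode x) p = E₂ H x (p.1, -p.2) := by
  induction x using TensorProduct.induction_on with
  | zero => simp
  | tmul a b =>
    rw [Algebra.TensorProduct.map_tmul, E₂_tmul, E₂_tmul]
    rfl
  | add x y hx hy =>
    rw [map_add, map_add, map_add, Pi.add_apply, Pi.add_apply, hx, hy]

/-! ### The structures -/

/-- The bialgebra structure on an order. -/
@[reducible] def bialgebra : Bialgebra R H :=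
  Bialgebra.ofAlgHom hH.comul hH.counit
    (by
      refine AlgHom.ext fun h => hH.E₃_injective (funext fun p => ?_)
      refine (hH.E₃_assoc_map (hH.comul h) p).trans ?_
      refine Eq.trans ?_ (hH.E₃_map (hH.comul h) p).symm
      rw [hH.E₂_comul, hH.E₂_comul, add_assoc])
    (by
      refine AlgHom.ext fun h => (Algebra.TensorProduct.lid R H).injective
        (Subtype.ext (funext fun m => ?_))
      have h1 : (Algebra.TensorProduct.lid R H) ((Algebra.TensorProduct.lid R H).symm h) = h :=
        AlgEquiv.apply_symm_apply _ _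
      refine (hH.lid_map (hH.comul h) m).trans ?_
      refine Eq.trans ?_ (congrArg (fun x : H => (x : M → K) m) h1).symm
      rw [hH.E₂_comul]
      simp only [zero_add])
    (by
      refine AlgHom.ext fun h => (Algebra.TensorProduct.rid R R H).injective
        (Subtype.ext (funext fun m => ?_))
      have h1 : (Algebra.TensorProduct.rid R R H) ((Algebra.TensorProduct.rid R R H).symm h) = h :=
        AlgEquiv.apply_symm_apply _ _
      refine (hH.rid_map (hH.comul h) m).trans ?_
      refine Eq.trans ?_ (congrArg (fun x : H => (x : M → K) m) h1).symm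
      rw [hH.E₂_comul]
      simp only [add_zero])

theorem bialgebra_comul (h : H) :
    letI := hH.bialgebra
    Coalgebra.comul (R := R) h = hH.comul h := rfl

theorem bialgebra_counit (h : H) :
    letI := hH.bialgebra
    Coalgebra.counit (R := R) h = hH.counit h := rfl

/-- The Hopf algebra structure on an order. -/
@[reducible] def hopfAlgebra : HopfAlgebra R H :=
  letI := hH.bialgebra
  HopfAlgebra.ofAlgHom hH.antipode
    (by
      refine AlgHom.ext fun h => Subtype.ext (funext fun m => ?_)
      simp only [AlgHom.comp_apply, Bialgebra.comulAlgHom_apply, Bialgebra.counitAlgHom_apply]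
      rw [lift_tmul_apply, hH.bialgebra_comul, hH.bialgebra_counit, hH.E₂_map_antipode_id,
        hH.E₂_comul]
      simp only [neg_add_cancel]
      rw [← hH.algebraMap_counit]
      rfl)
    (by
      refine AlgHom.ext fun h => Subtype.ext (funext fun m => ?_)
      simp only [AlgHom.comp_apply, Bialgebra.comulAlgHom_apply, Bialgebra.counitAlgHom_apply]
      rw [lift_tmul_apply, hH.bialgebra_comul, hH.bialgebra_counit, hH.E₂_map_id_antipode,
        hH.E₂_comul]
      simp only [add_neg_cancel]
      rw [← hH.algebraMap_counit]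
      rfl)

theorem isCocomm :
    letI := hH.bialgebra
    Coalgebra.IsCocomm R H := by
  let _ := hH.bialgebra
  refine ⟨LinearMap.ext fun h => hH.E₂_injective (funext fun p => ?_)⟩
  simp only [LinearMap.comp_apply, LinearEquiv.coe_coe]
  rw [hH.bialgebra_comul, E₂_comm, hH.E₂_comul, hH.E₂_comul, add_comm]

end IsOrder

end Fermat.Agent.S19.H19

end

end
-- ===== PACK-END S19/H19/Order.lean

-- ===== PACK-BEGIN S19/H19/Points.lean
section
/-
A3 / S19, helper19 — piece ORD, part 4: the points of an order of functions.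

For an order `H ⊂ (M → K)` (`M` finite) separating points, the `R`-algebra maps `H → K` are
exactly the evaluations at the points of `M`, convolution is addition, and semilinear twists
correspond to the action on `M`.  Final packaging `exists_hopf_of_isOrder`.  Mathlib only.
-/



set_option autoImplicit false
set_option linter.unusedSectionVars false
set_option linter.style.haveILetI false

noncomputable section

namespace Fermat.Agent.S19.H19

open scoped BigOperators TensorProduct

variable {R : Type} [CommRing R] {K : Type} [Field K] [Algebra R K]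
variable {M : Type} [AddCommGroup M]

namespace IsOrder

variable {H : Subalgebra R (M → K)} (hH : IsOrder H)

/-- Evaluation at a point, as an algebra map `H → K`. -/
def evPt (H : Subalgebra R (M → K)) (m : M) : H →ₐ[R] K :=
  (Pi.evalAlgHom R (fun _ : M => K) m).comp H.val

@[simp] theorem evPt_apply (m : M) (h : H) : evPt H m h = (h : M → K) m := rfl

theorem evPt_injective (hsep : ∀ m m' : M, m ≠ m' → ∃ f ∈ H, f m ≠ f m') :
    Function.Injective (evPt H) := by
  intro m m' hmm
  by_contra hne
  obtain ⟨f, hf, hfm⟩ := hsep m m' hne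
  exact hfm (congrArg (fun χ : H →ₐ[R] K => χ ⟨f, hf⟩) hmm)

include hH in
/-- The `K`-span of a separating order is everything. -/
theorem span_eq_top [Finite M] (hsep : ∀ m m' : M, m ≠ m' → ∃ f ∈ H, f m ≠ f m') :
    Submodule.span K (H : Set (M → K)) = ⊤ := by
  have h1 : Algebra.adjoin K (H : Set (M → K)) = ⊤ := by
    apply subalgebra_eq_top_of_separates
    intro m m' hne
    obtain ⟨f, hf, hfm⟩ := hsep m m' hne
    exact ⟨f, Algebra.subset_adjoin hf, hfm⟩
  have h2 := Algebra.adjoin_eq_span K (H : Set (M → K))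
  have h3 : Submonoid.closure (H : Set (M → K)) = H.toSubmonoid :=
    Submonoid.closure_eq H.toSubmonoid
  rw [h3, h1] at h2
  rw [eq_top_iff]
  intro x _
  have : x ∈ Subalgebra.toSubmodule (⊤ : Subalgebra K (M → K)) := by simp
  rw [h2] at this
  exact this

include hH in
theorem evPt_surjective [Finite M] (hsep : ∀ m m' : M, m ≠ m' → ∃ f ∈ H, f m ≠ f m') :
    Function.Surjective (evPt H) := by
  classical
  have := Fintype.ofFinite M
  intro χ
  obtain ⟨ι, hι, b, hb⟩ := hH.good
  have := Fintype.ofFinite ι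
  -- expansion of elements of `H`
  have key : ∀ x : H, (x : M → K) = ∑ i, algebraMap R K (b.repr x i) • ((b i : H) : M → K) := by
    intro x
    change H.val x = _
    conv_lhs => rw [← b.sum_repr x]
    rw [map_sum]
    refine Finset.sum_congr rfl fun i _ => ?_
    rw [map_smul]
    funext m
    simp [Algebra.smul_def]
  have keyχ : ∀ x : H, χ x = ∑ i, algebraMap R K (b.repr x i) * χ (b i) := by
    intro x
    conv_lhs => rw [← b.sum_repr x]
    rw [map_sum]
    refine Finset.sum_congr rfl fun i _ => ?_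
    rw [map_smul, Algebra.smul_def]
  have hspan : ⊤ ≤ Submodule.span K (Set.range fun i => H.val (b i)) := by
    rw [← hH.span_eq_top hsep]
    apply Submodule.span_le.mpr
    intro x hx
    have := key ⟨x, hx⟩
    simp only at this
    rw [SetLike.mem_coe, this]
    exact Submodule.sum_mem _ fun i _ =>
      Submodule.smul_mem _ _ (Submodule.subset_span ⟨i, rfl⟩)
  let B : Module.Basis ι K (M → K) := Module.Basis.mk hb hspan
  have hB : ∀ i, B i = ((b i : H) : M → K) := fun i => by
    simp [B]
  let χ' : (M → K) →ₗ[K] K := B.constr K (fun i => χ (b i))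
  have hχ'B : ∀ i, χ' (B i) = χ (b i) := fun i => by
    simp [χ']
  have hχ' : ∀ x : H, χ' (x : M → K) = χ x := by
    intro x
    rw [key x, keyχ x, map_sum]
    refine Finset.sum_congr rfl fun i _ => ?_
    rw [map_smul, ← hB, hχ'B, smul_eq_mul]
  -- multiplicativity
  have hmul1 : ∀ j, χ' ∘ₗ LinearMap.mulRight K (B j) = LinearMap.mulRight K (χ' (B j)) ∘ₗ χ' := by
    intro j
    apply B.ext
    intro i
    simp only [LinearMap.comp_apply, LinearMap.mulRight_apply]
    rw [hB, hB]
    have : ((b i : H) : M → K) * ((b j : H) : M → K) = ((b i * b j : H) : M → K) := rfl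
    rw [this, hχ', hχ', hχ', map_mul]
  have hmul2 : ∀ f : M → K, χ' ∘ₗ LinearMap.mulLeft K f = LinearMap.mulLeft K (χ' f) ∘ₗ χ' := by
    intro f
    apply B.ext
    intro j
    simp only [LinearMap.comp_apply, LinearMap.mulLeft_apply]
    have := congrArg (fun L : (M → K) →ₗ[K] K => L f) (hmul1 j)
    simpa only [LinearMap.comp_apply, LinearMap.mulRight_apply] using this
  have hmul : ∀ f g : M → K, χ' (f * g) = χ' f * χ' g := by
    intro f g
    have := congrArg (fun L : (M → K) →ₗ[K] K => L g) (hmul2 f)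
    simpa only [LinearMap.comp_apply, LinearMap.mulLeft_apply] using this
  have hone : χ' 1 = 1 := by
    have := hχ' 1
    rw [map_one] at this
    exact this
  -- find the point
  have hsum : ∑ m : M, χ' (Pi.single m (1 : K)) = 1 := by
    have h1 : (∑ m : M, Pi.single m (1 : K)) = (1 : M → K) := by
      funext x
      simp [Finset.sum_apply, Pi.single_apply]
    rw [← map_sum, h1, hone]
  have hex : ∃ m : M, χ' (Pi.single m (1 : K)) ≠ 0 := by
    by_contra hcon
    push Not at hcon
    rw [Finset.sum_eq_zero fun m _ => hcon m] at hsum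
    exact zero_ne_one hsum
  obtain ⟨m, hm⟩ := hex
  refine ⟨m, ?_⟩
  apply AlgHom.ext
  intro x
  rw [evPt_apply, ← hχ']
  have h1 : (x : M → K) * Pi.single m (1 : K) = ((x : M → K) m) • Pi.single m (1 : K) := by
    funext y
    by_cases hy : y = m
    · subst hy; simp
    · simp [Pi.single_eq_of_ne hy]
  have h2 := hmul (x : M → K) (Pi.single m (1 : K))
  rw [h1, map_smul, smul_eq_mul] at h2
  exact (mul_right_cancel₀ hm h2)

theorem lift_evPt (s t : M) (x : H ⊗[R] H) :
    Algebra.TensorProduct.lift (evPt H s) (evPt H t) (fun _ _ => Commute.all _ _) x =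
      E₂ H x (s, t) := by
  induction x using TensorProduct.induction_on with
  | zero => simp
  | tmul a b =>
    rw [Algebra.TensorProduct.lift_tmul, E₂_tmul]
    rfl
  | add x y hx hy =>
    rw [map_add, map_add, Pi.add_apply, hx, hy]

theorem evPt_add (s t : M) :
    letI := hH.hopfAlgebra
    (WithConv.toConv (evPt H s) * WithConv.toConv (evPt H t) : WithConv (H →ₐ[R] K)) =
      WithConv.toConv (evPt H (s + t)) := by
  letI := hH.hopfAlgebra
  apply WithConv.ext
  apply AlgHom.ext
  intro h
  have := AlgHom.convMul_apply (WithConv.toConv (evPt H s)) (WithConv.toConv (evPt H t)) h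
  refine this.trans ?_
  rw [lift_evPt]
  exact hH.E₂_comul h (s, t)

end IsOrder

/-- **Piece ORD.**  A separating Hopf order of functions on a finite abelian group `M` is a
finite flat commutative cocommutative Hopf algebra over `R` whose `K`-points are `M`. -/
theorem exists_hopf_of_isOrder [Finite M] {H : Subalgebra R (M → K)} (hH : IsOrder H)
    (hsep : ∀ m m' : M, m ≠ m' → ∃ f ∈ H, f m ≠ f m') :
    ∃ (H' : Type) (_ : CommRing H') (_ : HopfAlgebra R H'),
      Module.Finite R H' ∧ Module.Flat R H' ∧ Coalgebra.IsCocomm R H' ∧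
      ∃ e : WithConv (H' →ₐ[R] K) ≃ M, (∀ f g, e (f * g) = e f + e g) ∧
        ∀ (τ : K → K) (a : M → M), (∀ h ∈ H, ∀ m, h (a m) = τ (h m)) →
          ∀ f g : WithConv (H' →ₐ[R] K), (∀ h : H', g h = τ (f h)) → e g = a (e f) := by
  have hbij : Function.Bijective (fun m : M => WithConv.toConv (IsOrder.evPt H m)) := by
    constructor
    · intro m m' hmm
      exact IsOrder.evPt_injective hsep (congrArg WithConv.ofConv hmm)
    · intro χ
      obtain ⟨m, hm⟩ := hH.evPt_surjective hsep χ.ofConv
      exact ⟨m, by simp only [hm, WithConv.toConv_ofConv]⟩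
  refine ⟨H, H.toCommRing, hH.hopfAlgebra, hH.good.finite, ?_, hH.isCocomm,
    (Equiv.ofBijective _ hbij).symm, ?_, ?_⟩
  · haveI := hH.good.free
    infer_instance
  · intro f g
    rw [Equiv.symm_apply_eq]
    have h1 := hH.evPt_add ((Equiv.ofBijective _ hbij).symm f) ((Equiv.ofBijective _ hbij).symm g)
    have hf : WithConv.toConv (IsOrder.evPt H ((Equiv.ofBijective _ hbij).symm f)) = f :=
      (Equiv.ofBijective _ hbij).apply_symm_apply f
    have hg : WithConv.toConv (IsOrder.evPt H ((Equiv.ofBijective _ hbij).symm g)) = g :=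
      (Equiv.ofBijective _ hbij).apply_symm_apply g
    rw [hf, hg] at h1
    exact h1
  · intro τ a ha f g hfg
    rw [Equiv.symm_apply_eq]
    have hf : WithConv.toConv (IsOrder.evPt H ((Equiv.ofBijective _ hbij).symm f)) = f :=
      (Equiv.ofBijective _ hbij).apply_symm_apply f
    apply WithConv.ext
    apply AlgHom.ext
    intro h
    have h1 : g.ofConv h = τ (f.ofConv h) := hfg h
    rw [h1]
    have h2 : f.ofConv h = (h : M → K) ((Equiv.ofBijective _ hbij).symm f) := by
      conv_lhs => rw [← hf]
      rfl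
    rw [h2, ← ha h h.2]
    rfl

end Fermat.Agent.S19.H19

end

end
-- ===== PACK-END S19/H19/Points.lean

-- ===== PACK-BEGIN S19/H19/Anti.lean
section
/-
A3 / S19, helper19 — piece ORD, part 5: the antipode is automatic on a finite group.
Mathlib only.
-/


set_option autoImplicit false
set_option linter.unusedSectionVars false

noncomputable section

namespace Fermat.Agent.S19.H19

open scoped BigOperators TensorProduct

variable {R : Type} [CommRing R] {K : Type} [Field K] [Algebra R K]
variable {M : Type} [AddCommGroup M]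

theorem nsmul_mem_of_comul_mem (H : Subalgebra R (M → K))
    (hcomul : ∀ f ∈ H, (fun p : M × M => f (p.1 + p.2)) ∈ (prodMap H.val H.val).range)
    (hcounit : ∀ f ∈ H, f 0 ∈ (Algebra.ofId R K).range) (k : ℕ) :
    ∀ f ∈ H, (fun m : M => f (k • m)) ∈ H := by
  induction k with
  | zero =>
    intro f hf
    obtain ⟨r, hr⟩ := hcounit f hf
    have : (fun m : M => f (0 • m)) = algebraMap R (M → K) r := by
      funext m
      rw [zero_smul, ← hr]
      rfl
    rw [this]
    exact H.algebraMap_mem r
  | succ k ih =>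
    intro f hf
    obtain ⟨x, hx⟩ := hcomul f hf
    replace hx : prodMap H.val H.val x = fun p : M × M => f (p.1 + p.2) := hx
    have key : ∀ y : H ⊗[R] H, (fun m : M => prodMap H.val H.val y (k • m, m)) ∈ H := by
      intro y
      induction y using TensorProduct.induction_on with
      | zero =>
        simp only [map_zero, Pi.zero_apply]
        exact H.zero_mem
      | tmul a b =>
        have h1 : (fun m : M => prodMap H.val H.val (a ⊗ₜ[R] b) (k • m, m)) =
            (fun m : M => (a : M → K) (k • m)) * (b : M → K) := by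
          funext m
          rw [prodMap_tmul]
          rfl
        rw [h1]
        exact H.mul_mem (ih _ a.2) b.2
      | add y z hy hz =>
        have h1 : (fun m : M => prodMap H.val H.val (y + z) (k • m, m)) =
            (fun m : M => prodMap H.val H.val y (k • m, m)) +
              (fun m : M => prodMap H.val H.val z (k • m, m)) := by
          funext m
          rw [map_add]
          rfl
        rw [h1]
        exact H.add_mem hy hz
    have h2 : (fun m : M => f ((k + 1) • m)) = fun m : M => prodMap H.val H.val x (k • m, m) := by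
      funext m
      rw [hx, succ_nsmul]
    rw [h2]
    exact key x

theorem neg_mem_of_comul_mem [Finite M] (H : Subalgebra R (M → K))
    (hcomul : ∀ f ∈ H, (fun p : M × M => f (p.1 + p.2)) ∈ (prodMap H.val H.val).range)
    (hcounit : ∀ f ∈ H, f 0 ∈ (Algebra.ofId R K).range) :
    ∀ f ∈ H, (fun m : M => f (-m)) ∈ H := by
  intro f hf
  have hpos : 0 < Nat.card M := Nat.card_pos
  have h1 : ∀ m : M, -m = (Nat.card M - 1) • m := by
    intro m
    have h2 : (Nat.card M - 1) • m + m = 0 := by
      rw [← succ_nsmul, Nat.sub_add_cancel hpos]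
      exact card_nsmul_eq_zero'
    exact (eq_neg_of_add_eq_zero_left h2).symm
  have h3 : (fun m : M => f (-m)) = fun m : M => f ((Nat.card M - 1) • m) := by
    funext m
    rw [h1]
  rw [h3]
  exact nsmul_mem_of_comul_mem H hcomul hcounit _ f hf

end Fermat.Agent.S19.H19

end

end
-- ===== PACK-END S19/H19/Anti.lean

-- ===== PACK-BEGIN A3/H319/LevelPull.lean
section



/-!
# A3 / LEVEL (helper319), part 1: the pull-back (conorm) on `Pic⁰` along an algebra map

Generic (Prelude language).  For `φ : F →ₐ[K] F'` integral with the fundamental identity: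

* `pic0Pull φ hφ hFI : Pic0 K F →+ Pic0 K F'`, `pic0Pull_mk`;
* `pic0Pull_smul` : it commutes with semilinear automorphisms intertwined by `φ`;
* `isKummerClass_pic0Pull` : it sends the Kummer class of `f` to the Kummer class of `φ f`.
-/

set_option autoImplicit false
set_option linter.style.haveILetI false

noncomputable section

namespace Fermat.Agent.A3.H319

open AlgebraicCurve Fermat.Agent.S29

variable {K F F' : Type*} [Field K] [Field F] [Field F'] [Algebra K F] [Algebra K F']
variable [HasPrincipalDivisors K F']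
variable (φ : F →ₐ[K] F') (hφ : φ.toRingHom.IsIntegral)
variable (hFI : FundamentalIdentityAlong K φ hφ)

/-- Pull-back of degree-zero divisors along `φ`. -/
def degZeroPull :
    Divisor.degZero (K := K) (F := F) →+ Divisor.degZero (K := K) (F := F') :=
  ((Divisor.pullbackAlong φ hφ).domRestrict (Divisor.degZero (K := K) (F := F))).codRestrict _
    (fun D => Divisor.pullbackAlong_mem_degZero φ hφ hFI D.2)

@[simp]
theorem coe_degZeroPull (D : Divisor.degZero (K := K) (F := F)) :
    (degZeroPull φ hφ hFI D : Divisor K F') = Divisor.pullbackAlong φ hφ (D : Divisor K F) :=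
  rfl

/-- The pull-back (conorm) `Pic⁰(F) → Pic⁰(F')` along `φ`. -/
def pic0Pull : Pic0 K F →+ Pic0 K F' :=
  QuotientAddGroup.map _ _ (degZeroPull φ hφ hFI) (by
    rintro ⟨D, hD0⟩ hD
    simp only [AddSubgroup.mem_addSubgroupOf] at hD ⊢
    exact Divisor.isPrincipal_pullbackAlong φ hφ hD)

theorem pic0Pull_mk (D : Divisor.degZero (K := K) (F := F)) :
    pic0Pull φ hφ hFI (Pic0.mk D) = Pic0.mk (degZeroPull φ hφ hFI D) :=
  rfl

/-- The pull-back commutes with semilinear automorphisms intertwined by `φ`. -/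
theorem pic0Pull_smul {g : SemilinearAut K F} {g' : SemilinearAut K F'}
    (h : SemilinearAut.IntertwinesAlong (φ : F →+* F') g g') (x : Pic0 K F) :
    pic0Pull φ hφ hFI (g • x) = g' • pic0Pull φ hφ hFI x := by
  obtain ⟨D, rfl⟩ := Pic0.mk_surjective x
  rw [SemilinearAut.pic0_smul_mk, pic0Pull_mk, pic0Pull_mk, SemilinearAut.pic0_smul_mk]
  refine congrArg Pic0.mk (Subtype.ext ?_)
  rw [coe_degZeroPull, SemilinearAut.coe_degZeroSMulHom, SemilinearAut.coe_degZeroSMulHom,
    coe_degZeroPull]
  exact H571.pullbackAlong_smul φ hφ h (D : Divisor K F)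

/-- The pull-back sends the Kummer class of `f` to the Kummer class of `φ f`. -/
theorem isKummerClass_pic0Pull {n : ℤ} {f : F} {x : Pic0 K F}
    (hx : H455.IsKummerClass n f x) :
    H455.IsKummerClass n (φ f) (pic0Pull φ hφ hFI x) := by
  obtain ⟨hf, D, rfl, hD⟩ := hx
  refine ⟨(map_ne_zero φ).mpr hf, degZeroPull φ hφ hFI D, (pic0Pull_mk φ hφ hFI D).symm,
    fun w => ?_⟩
  rw [coe_degZeroPull, Divisor.pullbackAlong_apply, Place.ord_restrictAlong φ hφ w f,
    ← hD (w.restrictAlong φ hφ)]
  ring

end Fermat.Agent.A3.H319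

end
end
-- ===== PACK-END A3/H319/LevelPull.lean

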