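import Mathlib
import Fermat.Prelude.Def_AlgebraicCurve_DivisorClassGroup
import Fermat.Prelude.Def_ModularCurve_ReductionModL
import Fermat.Prelude.Def_AlgebraicCurve_Correspondence
import Fermat.Prelude.Def_ModularCurve_HeckeModule
import Fermat.Agent.Pack.S3234.G4E1L1
import Fermat.Agent.Pack.S3234.G4E0L0
import Fermat.Agent.Pack.S3234.G4E1L0
import Fermat.Agent.Pack.S3234.G0E3L2
import Fermat.Agent.Pack.S3234.G0E2L0
import Fermat.Agent.Pack.S3234.G0E5L3
import Fermat.Agent.Pack.S3234.G0E4L1
import Fermat.Agent.Pack.S3234.G0E5L0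
import Fermat.Agent.Pack.S3234.G4E1L2
import Fermat.Agent.Pack.S3234.G4E1L3

-- ===== PACK-BEGIN A3/H619/Hopf.lean
section
/-
A3 / piece ORD (helper619): the Hopf algebra structure on an order `H` satisfying `OrderHyp`.
-/


set_option autoImplicit false

noncomputable section

namespace Fermat.Agent.A3.H619

open GaloisRep TensorProduct Module

variable {p : ℕ} {T : Type}

/-- Precomposition with a map, as an algebra homomorphism of function algebras. -/
def pullAlg (p : ℕ) {X Y : Type} (g : X → Y) : (Y → Qb) →ₐ[ratLocalizedAt p] (X → Qb) :=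
  AlgHom.pi (fun x => Pi.evalAlgHom (ratLocalizedAt p) (fun _ : Y => Qb) (g x))

@[simp]
theorem pullAlg_apply {X Y : Type} (g : X → Y) (F : Y → Qb) (x : X) :
    pullAlg p g F x = F (g x) := rfl

variable (H : Subalgebra (ratLocalizedAt p) (T → Qb))

/-- `H ⊗ H → functions on T × T`. -/
def mu : ↥H ⊗[ratLocalizedAt p] ↥H →ₐ[ratLocalizedAt p] (T × T → Qb) :=
  Algebra.TensorProduct.lift ((pullAlg p Prod.fst).comp H.val) ((pullAlg p Prod.snd).comp H.val)
    (fun _ _ => Commute.all _ _)

@[simp]
theorem mu_tmul (a b : ↥H) (st : T × T) :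
    mu H (a ⊗ₜ b) st = (a : T → Qb) st.1 * (b : T → Qb) st.2 := by
  simp [mu]

theorem mu_toLinearMap :
    (mu H).toLinearMap = boxLin H.val.toLinearMap H.val.toLinearMap := by
  apply TensorProduct.ext'
  intro a b
  funext st
  simp

/-- `H ⊗ (H ⊗ H) → functions on T × (T × T)`. -/
def mu3 : ↥H ⊗[ratLocalizedAt p] (↥H ⊗[ratLocalizedAt p] ↥H) →ₐ[ratLocalizedAt p]
    (T × (T × T) → Qb) :=
  Algebra.TensorProduct.lift ((pullAlg p Prod.fst).comp H.val) ((pullAlg p Prod.snd).comp (mu H))
    (fun _ _ => Commute.all _ _)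

@[simp]
theorem mu3_tmul (a : ↥H) (y : ↥H ⊗[ratLocalizedAt p] ↥H) (x : T × (T × T)) :
    mu3 H (a ⊗ₜ y) x = (a : T → Qb) x.1 * mu H y x.2 := by
  simp [mu3]

theorem mu3_toLinearMap :
    (mu3 H).toLinearMap =
      boxLin (M := ↥H) (N := ↥H ⊗[ratLocalizedAt p] ↥H) H.val.toLinearMap (mu H).toLinearMap := by
  apply TensorProduct.ext'
  intro a b
  funext st
  simp

variable [AddCommGroup T]

/-- `f ↦ ((s, t) ↦ f (s + t))`. -/
def alpha : ↥H →ₐ[ratLocalizedAt p] (T × T → Qb) :=
  (pullAlg p (fun st : T × T => st.1 + st.2)).comp H.val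

@[simp]
theorem alpha_apply (f : ↥H) (st : T × T) : alpha H f st = (f : T → Qb) (st.1 + st.2) := rfl

/-- evaluation at `0`. -/
def ev0 : ↥H →ₐ[ratLocalizedAt p] Qb :=
  (Pi.evalAlgHom (ratLocalizedAt p) (fun _ : T => Qb) 0).comp H.val

@[simp]
theorem ev0_apply (f : ↥H) : ev0 H f = (f : T → Qb) 0 := rfl

variable {H} {act : GQ → T → T}

namespace OrderHyp

variable (h : OrderHyp p T act H)
include h

theorem mu_injective : Function.Injective (mu H) := by
  have h1 : Function.Injective (mu H).toLinearMap := by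
    rw [mu_toLinearMap]
    exact (h.isGood_val.box h.isGood_val).injective
  exact h1

theorem mu3_injective : Function.Injective (mu3 H) := by
  have h1 : Function.Injective (mu3 H).toLinearMap := by
    rw [mu3_toLinearMap, mu_toLinearMap]
    exact (h.isGood_val.box (h.isGood_val.box h.isGood_val)).injective
  exact h1

theorem alpha_mem_range (f : ↥H) : alpha H f ∈ (mu H).range := by
  obtain ⟨n, a, b, ha, hb, hab⟩ := h.comul f.1 f.2
  refine (AlgHom.mem_range _).mpr
    ⟨∑ i, (⟨a i, ha i⟩ : ↥H) ⊗ₜ[ratLocalizedAt p] (⟨b i, hb i⟩ : ↥H), ?_⟩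
  funext st
  rw [map_sum, Finset.sum_apply, alpha_apply, hab]
  refine Finset.sum_congr rfl fun i _ => ?_
  rw [mu_tmul]

/-- The comultiplication of `H`. -/
def comulAlg : ↥H →ₐ[ratLocalizedAt p] ↥H ⊗[ratLocalizedAt p] ↥H :=
  ((AlgEquiv.ofInjective (mu H) h.mu_injective).symm :
      (mu H).range →ₐ[ratLocalizedAt p] ↥H ⊗[ratLocalizedAt p] ↥H).comp
    ((alpha H).codRestrict (mu H).range h.alpha_mem_range)

theorem mu_comulAlg (f : ↥H) : mu H (h.comulAlg f) = alpha H f := by
  have := (AlgEquiv.ofInjective (mu H) h.mu_injective).apply_symm_apply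
    ((alpha H).codRestrict (mu H).range h.alpha_mem_range f)
  exact congrArg Subtype.val this

theorem mu_comulAlg_apply (f : ↥H) (s t : T) :
    mu H (h.comulAlg f) (s, t) = (f : T → Qb) (s + t) := by
  rw [h.mu_comulAlg]; rfl

end OrderHyp

end Fermat.Agent.A3.H619

end
end
-- ===== PACK-END A3/H619/Hopf.lean

-- ===== PACK-BEGIN A3/H619/Counit.lean
section
/-
A3 / piece ORD (helper619): counit and antipode of an order `H` satisfying `OrderHyp`.
-/


set_option autoImplicit false

noncomputable section

namespace Fermat.Agent.A3.H619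

open GaloisRep TensorProduct Module

variable {p : ℕ} {T : Type} [AddCommGroup T]
variable {H : Subalgebra (ratLocalizedAt p) (T → Qb)} {act : GQ → T → T}

namespace OrderHyp

variable (h : OrderHyp p T act H)
include h

/-- Values at `0` of functions in `H` lie in `R`. -/
theorem ev0_mem_range (f : ↥H) : ev0 H f ∈ (Algebra.ofId (ratLocalizedAt p) Qb).range := by
  -- rationality
  have hfix : ∀ σ : GQ, σ ((f : T → Qb) 0) = (f : T → Qb) 0 := by
    intro σ
    rw [← h.equiv f.1 f.2 σ 0, h.act_zero]
  obtain ⟨q, hq⟩ := exists_rat_of_fixed _ hfix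
  -- integrality
  have := h.finite
  have hint : IsIntegral (ratLocalizedAt p) f := IsIntegral.of_finite (ratLocalizedAt p) f
  have hint2 : IsIntegral (ratLocalizedAt p) (ev0 H f) := hint.map (ev0 H)
  rw [ev0_apply, ← hq] at hint2
  have hint3 : IsIntegral (ratLocalizedAt p) q :=
    (isIntegral_algebraMap_iff (algebraMap ℚ Qb).injective).mp hint2
  have hmem := mem_ratLoc_of_isIntegral p hint3
  refine (AlgHom.mem_range _).mpr ⟨⟨q, hmem⟩, ?_⟩
  rw [ev0_apply, ← hq]
  rfl

/-- The counit of `H`. -/
def counitAlg : ↥H →ₐ[ratLocalizedAt p] ratLocalizedAt p :=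
  ((AlgEquiv.ofInjective (Algebra.ofId (ratLocalizedAt p) Qb)
      (algebraMap_ratLoc_Qb_injective p)).symm :
      (Algebra.ofId (ratLocalizedAt p) Qb).range →ₐ[ratLocalizedAt p] ratLocalizedAt p).comp
    ((ev0 H).codRestrict _ h.ev0_mem_range)

theorem algebraMap_counitAlg (f : ↥H) :
    algebraMap (ratLocalizedAt p) Qb (h.counitAlg f) = (f : T → Qb) 0 := by
  have := (AlgEquiv.ofInjective (Algebra.ofId (ratLocalizedAt p) Qb)
      (algebraMap_ratLoc_Qb_injective p)).apply_symm_apply
    ((ev0 H).codRestrict _ h.ev0_mem_range f)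
  exact congrArg Subtype.val this

/-- `H` is stable under `f ↦ f ∘ (m • ·)` for `m ≥ 1`. -/
theorem comp_nsmul_mem (m : ℕ) : ∀ f ∈ H, (fun t : T => f ((m + 1) • t)) ∈ H := by
  induction m with
  | zero => intro f hf; simpa using hf
  | succ m ih =>
    intro f hf
    obtain ⟨n, a, b, ha, hb, hab⟩ := h.comul f hf
    have : (fun t : T => f ((m + 1 + 1) • t))
        = ∑ i, (fun t : T => a i ((m + 1) • t)) * b i := by
      funext t
      rw [succ_nsmul, hab, Finset.sum_apply]
      rfl
    rw [this]
    exact H.sum_mem fun i _ => H.mul_mem (ih _ (ha i)) (hb i)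

/-- `H` is stable under `f ↦ f ∘ neg`. -/
theorem comp_neg_mem [Finite T] (f : ↥H) :
    (pullAlg p (Neg.neg : T → T)).comp H.val f ∈ H := by
  have hc : 0 < Nat.card T := Nat.card_pos
  have := h.comp_nsmul_mem (2 * Nat.card T - 2) f.1 f.2
  convert this using 1
  funext t
  show (f : T → Qb) (-t) = (f : T → Qb) ((2 * Nat.card T - 2 + 1) • t)
  have h1 : (2 * Nat.card T - 2 + 1) + 1 = 2 * Nat.card T := by omega
  have h2 : (2 * Nat.card T) • t = 0 := by
    rw [mul_smul, card_nsmul_eq_zero', smul_zero]
  have h3 : ((2 * Nat.card T - 2 + 1) + 1) • t = 0 := by rw [h1, h2]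
  rw [succ_nsmul] at h3
  exact (eq_neg_of_add_eq_zero_left h3).symm ▸ rfl

/-- The antipode of `H`. -/
def antipodeAlg [Finite T] : ↥H →ₐ[ratLocalizedAt p] ↥H :=
  ((pullAlg p (Neg.neg : T → T)).comp H.val).codRestrict H h.comp_neg_mem

@[simp]
theorem antipodeAlg_apply [Finite T] (f : ↥H) (t : T) :
    ((h.antipodeAlg f : ↥H) : T → Qb) t = (f : T → Qb) (-t) := rfl

end OrderHyp

end Fermat.Agent.A3.H619

end
end
-- ===== PACK-END A3/H619/Counit.lean

-- ===== PACK-BEGIN S37/Red/H217/Sat.lean
section



/-!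
# S37-RED, (H4') saturation is a CONSEQUENCE of (H1)  (helper217)

For a reduction datum `G : Red.Datum A π F Fk` (helper40's `Red/Spec.lean`), the two saturation
fields `sat_fin`, `sat_inf` of `Datum.Good` follow from the degree equality
`[F : K(x)] = [F_k : k(x̄)] < ∞` alone (`sat_fin_of_finrank_eq`, `sat_inf_of_finrank_eq`);
`good_of` assembles `G.Good` from (H1) and (H3).  No noetherian hypothesis, no descent.
-/

set_option autoImplicit false

namespace Fermat.Agent.S37.Red.H217

open AlgebraicCurve IntermediateField Fermat.Agent.S37.H217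

universe u

variable {K k : Type u} [Field K] [Field k] {A : ValuationSubring K} {π : A →+* k}
  {F Fk : Type u} [Field F] [Field Fk] [Algebra K F] [Algebra k Fk]

/-- the abstract Gauss context underlying a datum -/
def toRedCtx (G : Datum A π F Fk) : RedCtx A π F Fk where
  π_surj := G.π_surj
  O := G.O
  ρ := G.ρ
  ρ_surj := G.ρ_surj
  const_mem := G.const_mem
  ρ_const := G.ρ_const

theorem mem_chart_iff (G : Datum A π F Fk) (t f : F) :
    f ∈ G.chart t ↔ IsIntegral (G.polyRing t) f := Iff.rfl

theorem mem_chartK_iff (G : Datum A π F Fk) (t f : F) :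
    f ∈ G.chartK t ↔ IsIntegral (Algebra.adjoin K {t}) f := Iff.rfl

/-- saturation for an arbitrary coordinate `t ∈ O` with transcendental reduction and equal
degrees -/
theorem sat_of_finrank_eq (G : Datum A π F Fk) {t : F} (ht : t ∈ G.O)
    (htr : Transcendental k (G.ρ ⟨t, ht⟩))
    [FiniteDimensional K⟮t⟯ F] [hk : FiniteDimensional k⟮G.ρ ⟨t, ht⟩⟯ Fk]
    (hfr : Module.finrank K⟮t⟯ F = Module.finrank k⟮G.ρ ⟨t, ht⟩⟯ Fk) :
    ∀ f ∈ G.O, f ∈ G.chartK t → f ∈ G.chart t := by
  intro f hfO hf
  rw [mem_chart_iff]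
  rw [mem_chartK_iff] at hf
  have hk' : FiniteDimensional k⟮(toRedCtx G).ρ ⟨t, ht⟩⟯ Fk := hk
  exact (toRedCtx G).isIntegral_polyRing_of_isIntegral ht htr hfr hfO hf

/-- **(H4') at the finite chart from (H1).** -/
theorem sat_fin_of_finrank_eq (G : Datum A π F Fk)
    [FiniteDimensional K⟮G.x⟯ F] [hk : FiniteDimensional k⟮G.xk⟯ Fk]
    (hfr : Module.finrank K⟮G.x⟯ F = Module.finrank k⟮G.xk⟯ Fk) :
    ∀ f ∈ G.O, f ∈ G.chartK G.x → f ∈ G.chart G.x := by
  have hk' : FiniteDimensional k⟮G.ρ ⟨G.x, G.x_mem⟩⟯ Fk := hk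
  exact sat_of_finrank_eq G G.x_mem G.xk_transc hfr

theorem adjoin_inv_eq' {K F : Type*} [Field K] [Field F] [Algebra K F] (f : F) :
    K⟮f⁻¹⟯ = K⟮f⟯ := by
  apply le_antisymm
  · rw [adjoin_simple_le_iff]
    exact inv_mem (mem_adjoin_simple_self K f)
  · rw [adjoin_simple_le_iff]
    have := inv_mem (mem_adjoin_simple_self K f⁻¹)
    rwa [inv_inv] at this

theorem xk_ne_zero (G : Datum A π F Fk) : G.xk ≠ 0 := by
  intro h
  have := G.xk_transc
  rw [show G.ρ ⟨G.x, G.x_mem⟩ = 0 from h] at this
  exact this (isAlgebraic_zero)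

theorem x_inv_mem (G : Datum A π F Fk) : G.x⁻¹ ∈ G.O := by
  rcases G.O.mem_or_inv_mem G.x with h | h
  · by_contra hn
    have hnon : G.x ∈ G.O.nonunits := by
      rw [ValuationSubring.mem_nonunits_iff_or]
      exact Or.inr hn
    have := ((toRedCtx G).ρ_eq_zero_iff ⟨G.x, G.x_mem⟩).mpr hnon
    exact xk_ne_zero G this
  · exact h

theorem ρ_x_inv (G : Datum A π F Fk) : G.ρ ⟨G.x⁻¹, x_inv_mem G⟩ = G.xk⁻¹ := by
  have hx0 : G.x ≠ 0 := by
    intro h
    apply xk_ne_zero G
    have : (⟨G.x, G.x_mem⟩ : G.O) = 0 := Subtype.ext h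
    show G.ρ ⟨G.x, G.x_mem⟩ = 0
    rw [this, map_zero]
  have h1 : (⟨G.x⁻¹, x_inv_mem G⟩ : G.O) * ⟨G.x, G.x_mem⟩ = 1 :=
    Subtype.ext (inv_mul_cancel₀ hx0)
  have h2 := congrArg G.ρ h1
  rw [map_mul, map_one] at h2
  exact eq_inv_of_mul_eq_one_left h2

/-- **(H4') at the chart at infinity from (H1).** -/
theorem sat_inf_of_finrank_eq (G : Datum A π F Fk)
    [hfin : FiniteDimensional K⟮G.x⟯ F] [hfink : FiniteDimensional k⟮G.xk⟯ Fk]
    (hfr : Module.finrank K⟮G.x⟯ F = Module.finrank k⟮G.xk⟯ Fk) :
    ∀ f ∈ G.O, f ∈ G.chartK G.x⁻¹ → f ∈ G.chart G.x⁻¹ := by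
  have hρ := ρ_x_inv G
  have htr : Transcendental k (G.ρ ⟨G.x⁻¹, x_inv_mem G⟩) := by
    rw [hρ]
    intro h
    apply G.xk_transc
    have := h.inv
    rwa [inv_inv] at this
  have : FiniteDimensional K⟮G.x⁻¹⟯ F := by
    rw [adjoin_inv_eq']; exact hfin
  have : FiniteDimensional k⟮G.ρ ⟨G.x⁻¹, x_inv_mem G⟩⟯ Fk := by
    rw [hρ, adjoin_inv_eq']; exact hfink
  have hfr' : Module.finrank K⟮G.x⁻¹⟯ F =
      Module.finrank k⟮G.ρ ⟨G.x⁻¹, x_inv_mem G⟩⟯ Fk := by
    rw [hρ, adjoin_inv_eq', adjoin_inv_eq']
    exact hfr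
  exact sat_of_finrank_eq G (x_inv_mem G) htr hfr'

/-- `G.Good` from (H1) and (H3) alone. -/
theorem good_of (G : Datum A π F Fk)
    (finite : FiniteDimensional K⟮G.x⟯ F) (finite_k : FiniteDimensional k⟮G.xk⟯ Fk)
    (sep_k : Algebra.IsSeparable k⟮G.xk⟯ Fk)
    (finrank_eq : Module.finrank K⟮G.x⟯ F = Module.finrank k⟮G.xk⟯ Fk)
    (lift_fin : ∀ c ∈ G.chartk G.xk, ∃ b ∈ G.chart G.x, ∃ hb : b ∈ G.O, G.ρ ⟨b, hb⟩ = c)
    (lift_inf : ∀ c ∈ G.chartk G.xk⁻¹, ∃ b ∈ G.chart G.x⁻¹, ∃ hb : b ∈ G.O, G.ρ ⟨b, hb⟩ = c) :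
    G.Good where
  finite := finite
  finite_k := finite_k
  sep_k := sep_k
  finrank_eq := finrank_eq
  lift_fin := lift_fin
  lift_inf := lift_inf
  sat_fin := sat_fin_of_finrank_eq G finrank_eq
  sat_inf := sat_inf_of_finrank_eq G finrank_eq

end Fermat.Agent.S37.Red.H217

end
-- ===== PACK-END S37/Red/H217/Sat.lean

-- ===== PACK-BEGIN Lib/RR/H383/ValRing.lean
section





/-!
# RR library (helper383): valuation rings of a function field are discrete (any characteristic)

`K` any field, `F / K` a field extension which is finite over `K(y)` for every transcendental `y`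
(equivalently for one).  Then every valuation subring `V` of `F` containing `K` is a principal ideal
ring (Stichtenoth, Thm 1.1.6), and every transcendental `t` has a zero: there is a
`Place K F` with `0 < ord t` (Chevalley's extension theorem, Stichtenoth Cor. 1.1.20).
No separability, no characteristic assumption.

Main statements
* `isPrincipalIdealRing_of_finite`
* `exists_place_ord_pos`, `exists_place_ord_neg`
-/

set_option autoImplicit false

noncomputable section

open AlgebraicCurve Polynomial IntermediateField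

namespace Fermat.Agent.Lib.RR.H383

variable {K F : Type*} [Field K] [Field F] [Algebra K F]

section Val

variable (V : ValuationSubring F)

theorem valuation_algebraMap_eq_one (hK : ∀ a : K, algebraMap K F a ∈ V) {a : K} (ha : a ≠ 0) :
    V.valuation (algebraMap K F a) = 1 := by
  have h1 : V.valuation (algebraMap K F a) ≤ 1 := (V.valuation_le_one_iff _).mpr (hK a)
  have h2 : V.valuation (algebraMap K F a⁻¹) ≤ 1 := (V.valuation_le_one_iff _).mpr (hK a⁻¹)
  have hne : V.valuation (algebraMap K F a) ≠ 0 :=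
    (Valuation.ne_zero_iff _).mpr (by simpa using ha)
  rw [map_inv₀, map_inv₀] at h2
  have h3 : 1 ≤ V.valuation (algebraMap K F a) :=
    (inv_le_one₀ (zero_lt_iff.mpr hne)).mp h2
  exact le_antisymm h1 h3

theorem valuation_algebraMap_le_one (hK : ∀ a : K, algebraMap K F a ∈ V) (a : K) :
    V.valuation (algebraMap K F a) ≤ 1 :=
  (V.valuation_le_one_iff _).mpr (hK a)

/-- A finite sum of terms, the nonzero ones having pairwise distinct valuations and at least one
being nonzero, is nonzero. -/
theorem sum_ne_zero_of_valuation_injOn {ι : Type*} (s : Finset ι) (f : ι → F)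
    (hne : ∃ i ∈ s, f i ≠ 0)
    (hinj : ∀ i ∈ s, ∀ j ∈ s, f i ≠ 0 → f j ≠ 0 → V.valuation (f i) = V.valuation (f j) → i = j) :
    ∑ i ∈ s, f i ≠ 0 := by
  classical
  set s' := s.filter (fun i => f i ≠ 0) with hs'
  have hsum : ∑ i ∈ s, f i = ∑ i ∈ s', f i := by
    rw [hs', Finset.sum_filter]
    refine Finset.sum_congr rfl fun i _ => ?_
    by_cases h : f i = 0
    · simp [h]
    · simp [h]
  have hne' : s'.Nonempty := by
    obtain ⟨i, hi, hfi⟩ := hne
    exact ⟨i, Finset.mem_filter.mpr ⟨hi, hfi⟩⟩
  obtain ⟨i₀, hi₀, hmax⟩ := Finset.exists_max_image s' (fun i => V.valuation (f i)) hne'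
  have hi₀' := Finset.mem_filter.mp hi₀
  have hv0 : V.valuation (f i₀) ≠ 0 := (Valuation.ne_zero_iff _).mpr hi₀'.2
  have hlt : V.valuation (∑ i ∈ s'.erase i₀, f i) < V.valuation (f i₀) := by
    refine Valuation.map_sum_lt _ hv0 fun i hi => ?_
    have hi' := Finset.mem_erase.mp hi
    have hi'' := Finset.mem_filter.mp hi'.2
    refine lt_of_le_of_ne (hmax i hi'.2) fun heq => ?_
    exact hi'.1 (hinj i hi''.1 i₀ hi₀'.1 hi''.2 hi₀'.2 heq)
  rw [hsum, ← Finset.add_sum_erase s' f hi₀]
  intro h0
  have := Valuation.map_add_eq_of_lt_left V.valuation hlt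
  rw [h0, map_zero] at this
  exact hv0 this.symm

/-- The valuation of a nonzero polynomial in a nonzero non-unit `x`, with coefficients in `K`,
is a power of the valuation of `x`. -/
theorem valuation_aeval (hK : ∀ a : K, algebraMap K F a ∈ V) {x : F} (hx0 : x ≠ 0)
    (hx : V.valuation x < 1) {p : K[X]} (hp : p ≠ 0) :
    V.valuation (aeval x p) = V.valuation x ^ p.natTrailingDegree := by
  classical
  have hvx0 : V.valuation x ≠ 0 := (Valuation.ne_zero_iff _).mpr hx0
  have hk : p.natTrailingDegree ∈ p.support :=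
    Polynomial.natTrailingDegree_mem_support_of_nonzero hp
  have hck : p.coeff p.natTrailingDegree ≠ 0 := Polynomial.mem_support_iff.mp hk
  rw [aeval_def, eval₂_eq_sum, Polynomial.sum_def, ← Finset.add_sum_erase _ _ hk]
  have hmain : V.valuation (algebraMap K F (p.coeff p.natTrailingDegree) * x ^ p.natTrailingDegree)
      = V.valuation x ^ p.natTrailingDegree := by
    rw [map_mul, valuation_algebraMap_eq_one V hK hck, one_mul, map_pow]
  have hpow0 : V.valuation x ^ p.natTrailingDegree ≠ 0 := pow_ne_zero _ hvx0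
  have hlt : V.valuation (∑ i ∈ p.support.erase p.natTrailingDegree,
      algebraMap K F (p.coeff i) * x ^ i) < V.valuation x ^ p.natTrailingDegree := by
    refine Valuation.map_sum_lt _ hpow0 fun i hi => ?_
    have hi' := Finset.mem_erase.mp hi
    have hle : p.natTrailingDegree ≤ i := Polynomial.natTrailingDegree_le_of_mem_supp i hi'.2
    have hlt' : p.natTrailingDegree < i := lt_of_le_of_ne hle (Ne.symm hi'.1)
    rw [map_mul, map_pow]
    calc V.valuation (algebraMap K F (p.coeff i)) * V.valuation x ^ i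
        ≤ 1 * V.valuation x ^ i :=
          mul_le_mul_left (valuation_algebraMap_le_one V hK _) _
      _ = V.valuation x ^ i := one_mul _
      _ < V.valuation x ^ p.natTrailingDegree :=
          pow_lt_pow_right_of_lt_one₀ (zero_lt_iff.mpr hvx0) hx hlt'
  rw [Valuation.map_add_eq_of_lt_left V.valuation (by rw [hmain]; exact hlt), hmain]

/-- The valuation of a nonzero element of `K(x)` is an integral power of the valuation of `x`. -/
theorem exists_valuation_eq_zpow (hK : ∀ a : K, algebraMap K F a ∈ V) {x : F} (hx0 : x ≠ 0)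
    (hx : V.valuation x < 1) {φ : F} (hφ : φ ∈ K⟮x⟯) (hφ0 : φ ≠ 0) :
    ∃ m : ℤ, V.valuation φ = V.valuation x ^ m := by
  obtain ⟨r, s, hrs⟩ := (IntermediateField.mem_adjoin_simple_iff K φ).mp hφ
  have hr : aeval x r ≠ 0 := by
    intro h
    rw [hrs, h, zero_div] at hφ0
    exact hφ0 rfl
  have hs : aeval x s ≠ 0 := by
    intro h
    rw [hrs, h, div_zero] at hφ0
    exact hφ0 rfl
  have hr0 : r ≠ 0 := fun h => hr (by rw [h, map_zero])
  have hs0 : s ≠ 0 := fun h => hs (by rw [h, map_zero])
  refine ⟨(r.natTrailingDegree : ℤ) - s.natTrailingDegree, ?_⟩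
  have hvx0 : V.valuation x ≠ 0 := (Valuation.ne_zero_iff _).mpr hx0
  rw [hrs, map_div₀, valuation_aeval V hK hx0 hx hr0, valuation_aeval V hK hx0 hx hs0,
    zpow_sub₀ hvx0, zpow_natCast, zpow_natCast]

/-- No integral power of `γ < 1` lies strictly between `γ` and `1`. -/
theorem zpow_ne_of_lt_of_lt {Γ : Type*} [LinearOrderedCommGroupWithZero Γ] {γ r : Γ}
    (hγ0 : γ ≠ 0) (hγ : γ < 1) (h1 : γ < r) (h2 : r < 1) (m : ℤ) : r ≠ γ ^ m := by
  intro h
  rcases le_or_gt m 0 with hm | hm
  · -- γ^m ≥ 1
    have : (1 : Γ) ≤ γ ^ m := by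
      obtain ⟨n, rfl⟩ : ∃ n : ℕ, m = -n := ⟨(-m).toNat, by omega⟩
      rw [zpow_neg, zpow_natCast]
      exact (one_le_inv₀ (pow_pos (zero_lt_iff.mpr hγ0) n)).mpr (pow_le_one₀ zero_le hγ.le)
    rw [← h] at this
    exact absurd h2 (not_lt.mpr this)
  · -- γ^m ≤ γ
    have : γ ^ m ≤ γ := by
      obtain ⟨n, rfl⟩ : ∃ n : ℕ, m = (n + 1 : ℕ) := ⟨(m - 1).toNat, by omega⟩
      rw [zpow_natCast, pow_succ]
      exact mul_le_of_le_one_left' (pow_le_one₀ zero_le hγ.le)
    rw [← h] at this
    exact absurd h1 (not_lt.mpr this)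

/-- Elements whose valuations increase strictly inside `[v x, 1)` are linearly independent
over `K(x)`. -/
theorem linearIndependent_of_strictMono (hK : ∀ a : K, algebraMap K F a ∈ V) {x : F} (hx0 : x ≠ 0)
    (hx : V.valuation x < 1) {n : ℕ} (y : Fin n → F)
    (hmono : StrictMono fun i => V.valuation (y i))
    (hlow : ∀ i, V.valuation x ≤ V.valuation (y i))
    (hhigh : ∀ i, V.valuation (y i) < 1) :
    LinearIndependent K⟮x⟯ y := by
  classical
  have hvx0 : V.valuation x ≠ 0 := (Valuation.ne_zero_iff _).mpr hx0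
  have hy0 : ∀ i, y i ≠ 0 := fun i h => by
    have := hlow i
    rw [h, map_zero] at this
    exact hvx0 (le_antisymm this zero_le)
  rw [Fintype.linearIndependent_iff]
  intro g hg
  by_contra hcon
  push Not at hcon
  obtain ⟨i₁, hi₁⟩ := hcon
  have hsum : ∑ i ∈ (Finset.univ : Finset (Fin n)), (g i : F) * y i ≠ 0 := by
    refine sum_ne_zero_of_valuation_injOn V Finset.univ (fun i => (g i : F) * y i)
      ⟨i₁, Finset.mem_univ _, mul_ne_zero (by simpa using hi₁) (hy0 i₁)⟩ ?_
    intro i _ j _ hi hj hij
    by_contra hne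
    have hgi : (g i : F) ≠ 0 := left_ne_zero_of_mul hi
    have hgj : (g j : F) ≠ 0 := left_ne_zero_of_mul hj
    obtain ⟨a, ha⟩ := exists_valuation_eq_zpow V hK hx0 hx (g i).2 hgi
    obtain ⟨b, hb⟩ := exists_valuation_eq_zpow V hK hx0 hx (g j).2 hgj
    simp only [map_mul] at hij
    rw [ha, hb] at hij
    have hvi0 : V.valuation (y i) ≠ 0 := (Valuation.ne_zero_iff _).mpr (hy0 i)
    have hvj0 : V.valuation (y j) ≠ 0 := (Valuation.ne_zero_iff _).mpr (hy0 j)
    -- wlog i < j
    have key : ∀ (i j : Fin n) (a b : ℤ), i < j →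
        V.valuation x ^ a * V.valuation (y i) = V.valuation x ^ b * V.valuation (y j) →
        False := by
      intro i j a b hlt h
      have hvi0 : V.valuation (y i) ≠ 0 := (Valuation.ne_zero_iff _).mpr (hy0 i)
      have hvj0 : V.valuation (y j) ≠ 0 := (Valuation.ne_zero_iff _).mpr (hy0 j)
      have hr : V.valuation (y i) * (V.valuation (y j))⁻¹ = V.valuation x ^ (b - a) := by
        rw [zpow_sub₀ hvx0]
        field_simp
        rw [mul_comm, h, mul_comm]
      have hlt' : V.valuation (y i) < V.valuation (y j) := hmono hlt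
      have h2 : V.valuation (y i) * (V.valuation (y j))⁻¹ < 1 := by
        rw [mul_inv_lt_iff₀ (zero_lt_iff.mpr hvj0), one_mul]
        exact hlt'
      have h1 : V.valuation x < V.valuation (y i) * (V.valuation (y j))⁻¹ := by
        rw [lt_mul_inv_iff₀ (zero_lt_iff.mpr hvj0)]
        calc V.valuation x * V.valuation (y j) < V.valuation x * 1 :=
              mul_lt_mul_of_pos_left (hhigh j) (zero_lt_iff.mpr hvx0)
          _ = V.valuation x := mul_one _
          _ ≤ V.valuation (y i) := hlow i
      exact zpow_ne_of_lt_of_lt hvx0 hx h1 h2 (b - a) hr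
    rcases lt_or_gt_of_ne hne with h | h
    · exact key i j a b h hij
    · exact key j i b a h hij.symm
  apply hsum
  have : ∑ i, g i • y i = ∑ i ∈ (Finset.univ : Finset (Fin n)), (g i : F) * y i := by
    refine Finset.sum_congr rfl fun i _ => ?_
    rfl
  rw [← this]
  exact hg

/-- A nonzero non-unit of a valuation ring containing `K` is transcendental over `K`. -/
theorem transcendental_of_valuation_lt_one (hK : ∀ a : K, algebraMap K F a ∈ V) {x : F}
    (hx0 : x ≠ 0) (hx : V.valuation x < 1) : Transcendental K x := by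
  intro halg
  have hint : IsIntegral K x := halg.isIntegral
  have hxV : x ∈ V := (V.valuation_le_one_iff x).mp hx.le
  let S : Subalgebra K F :=
    { V.toSubring with
      algebraMap_mem' := fun a => hK a }
  have hxS : x ∈ S := hxV
  have hinv : x⁻¹ ∈ S := hint.inv_mem hxS
  have hinvV : x⁻¹ ∈ V := hinv
  have h1 : V.valuation x⁻¹ ≤ 1 := (V.valuation_le_one_iff _).mpr hinvV
  rw [map_inv₀] at h1
  have hvx0 : V.valuation x ≠ 0 := (Valuation.ne_zero_iff _).mpr hx0
  have h2 : 1 ≤ V.valuation x := (inv_le_one₀ (zero_lt_iff.mpr hvx0)).mp h1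
  exact absurd hx (not_lt.mpr h2)

/-- **Stichtenoth 1.1.6.** A valuation ring of a function field (containing the constants) is a
principal ideal ring. -/
theorem isPrincipalIdealRing_of_finite (hK : ∀ a : K, algebraMap K F a ∈ V)
    (hfin : ∀ y : F, Transcendental K y → FiniteDimensional K⟮y⟯ F) :
    IsPrincipalIdealRing V := by
  classical
  have hwf : WfDvdMonoid V := by
    refine ⟨wellFounded_iff_isEmpty_descending_chain.mpr ⟨?_⟩⟩
    rintro ⟨f, hf⟩
    -- y i := f (i + 1), nonzero, with strictly increasing valuations < 1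
    have hne : ∀ i, f (i + 1) ≠ 0 := fun i => (hf i).1
    have hstep : ∀ i, V.valuation (f i : F) < V.valuation (f (i + 1) : F) := by
      intro i
      obtain ⟨-, c, hc, hfc⟩ := hf i
      have hc' : V.valuation (c : F) < 1 := by
        rcases V.valuation_lt_one_or_eq_one c with h | h
        · exact h
        · exact absurd ((V.valuation_eq_one_iff c).mpr h) hc
      have hv0 : V.valuation (f (i + 1) : F) ≠ 0 :=
        (Valuation.ne_zero_iff _).mpr (by simpa using hne i)
      rw [hfc]
      push_cast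
      rw [map_mul]
      calc V.valuation (f (i + 1) : F) * V.valuation (c : F)
          < V.valuation (f (i + 1) : F) * 1 :=
            mul_lt_mul_of_pos_left hc' (zero_lt_iff.mpr hv0)
        _ = _ := mul_one _
    have hmonoN : StrictMono fun i : ℕ => V.valuation (f i : F) := strictMono_nat_of_lt_succ hstep
    have hlt1 : ∀ i, V.valuation (f i : F) < 1 := fun i =>
      lt_of_lt_of_le (hstep i) (V.valuation_le_one _)
    set x : F := (f 1 : F) with hxdef
    have hx0 : x ≠ 0 := fun h => hne 0 (Subtype.ext (by simpa [hxdef] using h))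
    have hx : V.valuation x < 1 := hlt1 1
    have hxt : Transcendental K x := transcendental_of_valuation_lt_one V hK hx0 hx
    have := hfin x hxt
    set n := Module.finrank K⟮x⟯ F with hn
    let y : Fin (n + 1) → F := fun i => (f (i + 1) : F)
    have hli : LinearIndependent K⟮x⟯ y := by
      refine linearIndependent_of_strictMono V hK hx0 hx y ?_ ?_ ?_
      · intro i j hij
        exact hmonoN (by simpa using hij)
      · intro i
        exact hmonoN.monotone (by omega)
      · intro i
        exact hlt1 _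
    have := hli.fintype_card_le_finrank
    rw [Fintype.card_fin] at this
    omega
  exact ((IsBezout.TFAE (R := V)).out 3 1).mp hwf

end Val

section Exists

/-- In `K[t]`, `t` transcendental, the ideal generated by `t` is proper. -/
theorem span_ne_top_of_transcendental {t : F} (ht : Transcendental K t) :
    Ideal.span {(⟨t, Algebra.subset_adjoin (Set.mem_singleton t)⟩ :
      (Algebra.adjoin K {t}).toSubring)} ≠ ⊤ := by
  intro h
  rw [Ideal.span_singleton_eq_top] at h
  obtain ⟨⟨s, hs⟩, hts⟩ := isUnit_iff_exists_inv.mp h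
  have hs' : s ∈ Algebra.adjoin K {t} := hs
  rw [Algebra.adjoin_singleton_eq_range_aeval] at hs'
  obtain ⟨p, rfl⟩ := hs'
  have h1 : t * aeval t p = 1 := congrArg Subtype.val hts
  have h2 : aeval t (X * p - 1 : K[X]) = 0 := by
    rw [map_sub, map_mul, aeval_X, map_one, h1, sub_self]
  have h3 : (X * p - 1 : K[X]) = 0 := by
    by_contra hne
    exact ht ⟨_, hne, h2⟩
  have h4 := congrArg (Polynomial.eval 0) h3
  simp at h4

/-- **Existence of a zero** (Chevalley + discreteness): every transcendental function has a zero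
at some place. -/
theorem exists_place_ord_pos (hfin : ∀ y : F, Transcendental K y → FiniteDimensional K⟮y⟯ F)
    {t : F} (ht : Transcendental K t) : ∃ v : Place K F, 0 < v.ord t := by
  classical
  have ht0 : t ≠ 0 := fun h => ht (h ▸ isAlgebraic_zero)
  obtain ⟨B, hAB, hIB⟩ :=
    Ideal.image_subset_nonunits_valuationSubring _ (span_ne_top_of_transcendental ht)
  have hK : ∀ a : K, algebraMap K F a ∈ B := fun a =>
    hAB (show algebraMap K F a ∈ (Algebra.adjoin K {t}).toSubring from
      (Algebra.adjoin K {t}).algebraMap_mem a)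
  have htB : t ∈ B.nonunits := by
    apply hIB
    exact ⟨⟨t, Algebra.subset_adjoin (Set.mem_singleton t)⟩,
      Ideal.subset_span (Set.mem_singleton _), rfl⟩
  have hvt : B.valuation t < 1 := (ValuationSubring.mem_nonunits_iff B).mp htB
  have htop : B ≠ ⊤ := by
    intro h
    have hinv : t⁻¹ ∈ B := h ▸ ValuationSubring.mem_top _
    have h1 : B.valuation t⁻¹ ≤ 1 := (B.valuation_le_one_iff _).mpr hinv
    rw [map_inv₀] at h1
    have hv0 : B.valuation t ≠ 0 := (Valuation.ne_zero_iff _).mpr ht0
    have h2 : 1 ≤ B.valuation t := (inv_le_one₀ (zero_lt_iff.mpr hv0)).mp h1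
    exact absurd hvt (not_lt.mpr h2)
  let v : Place K F :=
    { toValuationSubring := B
      algebraMap_mem' := hK
      ne_top' := htop
      isPrincipalIdealRing' := isPrincipalIdealRing_of_finite B hK hfin }
  refine ⟨v, ?_⟩
  have htV : t ∈ v.toValuationSubring := (B.valuation_le_one_iff t).mp hvt.le
  have hmem : (⟨t, htV⟩ : v.toValuationSubring) ∈
      IsLocalRing.maximalIdeal v.toValuationSubring :=
    ValuationSubring.coe_mem_nonunits_iff.mp htB
  rcases (Fermat.Agent.Lib.RR.mem_maximalIdeal_iff v _).mp hmem with h | h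
  · exact absurd h ht0
  · exact h

/-- **Existence of a pole**: every transcendental function has a pole at some place. -/
theorem exists_place_ord_neg (hfin : ∀ y : F, Transcendental K y → FiniteDimensional K⟮y⟯ F)
    {t : F} (ht : Transcendental K t) : ∃ v : Place K F, v.ord t < 0 := by
  have ht' : Transcendental K t⁻¹ := fun h => ht (by simpa using h.inv)
  obtain ⟨v, hv⟩ := exists_place_ord_pos hfin ht'
  refine ⟨v, ?_⟩
  rw [v.ord_inv] at hv
  omega

end Exists

end Fermat.Agent.Lib.RR.H383

end
end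
-- ===== PACK-END Lib/RR/H383/ValRing.lean

-- ===== PACK-BEGIN Lib/RR/H383/Fundamental.lean
section



/-!
# RR library (helper383): the fundamental equality `deg (x)₀ = deg (x)_∞ = [F : K(x)]`,
# in any characteristic

`K` algebraically closed, `F / K` finite over `K(x)` for one transcendental `x`.
Following Stichtenoth, *Algebraic function fields and codes*, Thm 1.4.11 (no separability):

* `eq_algebraMap_of_forall_ord_nonneg` : a function without poles is constant;
* `finite_and_ell_le` : `L(D)` is finite-dimensional and `ℓ(D) ≤ deg D + 1` for `D ≥ 0`;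
* `finite_setOf_ord_neg`, `finite_setOf_ord_pos`, `finite_setOf_ord_ne_zero`;
* `sum_neg_ord_eq_finrank`, `sum_ord_eq_finrank` : the fundamental equality;
* `hasPrincipalDivisors_of_finite` : `HasPrincipalDivisors K F`.
-/

set_option autoImplicit false

noncomputable section

open AlgebraicCurve Polynomial IntermediateField

namespace Fermat.Agent.Lib.RR.H383

open Fermat.Agent.Lib.RR

variable {K F : Type*} [Field K] [Field F] [Algebra K F]

/-- `F` is finite over `K(y)` for every transcendental `y` as soon as it is for one. -/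
theorem finite_of_finite {x : F} (hx : Transcendental K x) [FiniteDimensional K⟮x⟯ F] :
    ∀ y : F, Transcendental K y → FiniteDimensional K⟮y⟯ F := fun _ hy =>
  Fermat.Agent.S24.FF.finiteDimensional_adjoin_of_transcendental hx hy

section AlgClosed

variable [IsAlgClosed K]

/-- All places have degree one. -/
theorem deg_eq_one_of_finite {x : F} (hx : Transcendental K x) [FiniteDimensional K⟮x⟯ F]
    (v : Place K F) : v.deg = 1 :=
  Fermat.Agent.S24.FF.deg_eq_one v hx

/-- A function without poles is constant. -/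
theorem eq_algebraMap_of_forall_ord_nonneg
    (hfin : ∀ y : F, Transcendental K y → FiniteDimensional K⟮y⟯ F) {f : F}
    (hf : ∀ v : Place K F, 0 ≤ v.ord f) : f ∈ (algebraMap K F).range := by
  by_contra hcon
  have ht : Transcendental K f := Fermat.Agent.S24.FF.transcendental_of_not_mem_range hcon
  obtain ⟨v, hv⟩ := exists_place_ord_neg hfin ht
  have := hf v
  omega

/-- `L(0) = K`. -/
theorem L_zero_eq (hfin : ∀ y : F, Transcendental K y → FiniteDimensional K⟮y⟯ F) :
    riemannRochSpace (0 : Divisor K F) = LinearMap.range (Algebra.linearMap K F) := by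
  ext f
  rw [mem_L_iff]
  constructor
  · intro h
    have hf : ∀ v : Place K F, 0 ≤ v.ord f := by
      intro v
      rcases h v with h0 | h0
      · rw [h0]; simp
      · simpa using h0
    obtain ⟨c, hc⟩ := eq_algebraMap_of_forall_ord_nonneg hfin hf
    exact ⟨c, hc⟩
  · rintro ⟨c, rfl⟩ v
    right
    rw [Algebra.linearMap_apply, ord_algebraMap]
    simp

theorem finite_L_zero (hfin : ∀ y : F, Transcendental K y → FiniteDimensional K⟮y⟯ F) :
    Module.Finite K (riemannRochSpace (0 : Divisor K F)) := by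
  rw [L_zero_eq hfin]
  exact LinearMap.finiteDimensional_range _

theorem ell_zero_le (hfin : ∀ y : F, Transcendental K y → FiniteDimensional K⟮y⟯ F) :
    ell (0 : Divisor K F) ≤ 1 := by
  unfold ell
  rw [L_zero_eq hfin]
  calc Module.finrank K (LinearMap.range (Algebra.linearMap K F))
      ≤ Module.finrank K K := LinearMap.finrank_range_le _
    _ = 1 := Module.finrank_self K

/-- `ℓ(D) ≤ deg D + 1` for effective `D`. -/
theorem finite_and_ell_le (hfin : ∀ y : F, Transcendental K y → FiniteDimensional K⟮y⟯ F)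
    (hdeg : ∀ v : Place K F, v.deg = 1) :
    ∀ (m : ℕ) (D : Divisor K F), 0 ≤ D → Divisor.degree D = m →
      Module.Finite K (riemannRochSpace D) ∧ ell D ≤ m + 1 := by
  classical
  intro m
  induction m with
  | zero =>
    intro D hD hm
    have hD0 : D = 0 := by
      by_contra hne
      obtain ⟨v, hv⟩ := Finsupp.support_nonempty_iff.mpr hne
      have hDv : D v ≠ 0 := Finsupp.mem_support_iff.mp hv
      have hDv' : 0 < D v := lt_of_le_of_ne (by simpa using Finsupp.le_def.mp hD v) (Ne.symm hDv)
      have h1 : prim v ≤ D := by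
        rw [Finsupp.le_def]
        intro w
        by_cases hw : w = v
        · subst hw; simp only [prim_apply_self]; omega
        · rw [prim_apply_of_ne hw]; simpa using Finsupp.le_def.mp hD w
      have h2 := degree_mono h1
      rw [degree_prim v (hdeg v), hm] at h2
      simp at h2
    subst hD0
    exact ⟨finite_L_zero hfin, by simpa using ell_zero_le hfin⟩
  | succ m ih =>
    intro D hD hm
    have hne : D ≠ 0 := by
      rintro rfl
      simp at hm
      omega
    obtain ⟨v, hv⟩ := Finsupp.support_nonempty_iff.mpr hne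
    have hDv : D v ≠ 0 := Finsupp.mem_support_iff.mp hv
    have hDv' : 0 < D v := lt_of_le_of_ne (by simpa using Finsupp.le_def.mp hD v) (Ne.symm hDv)
    set D' : Divisor K F := D - prim v with hD'
    have hD'0 : 0 ≤ D' := by
      rw [Finsupp.le_def]
      intro w
      by_cases hw : w = v
      · subst hw
        simp only [hD', Finsupp.coe_sub, Pi.sub_apply, prim_apply_self, Finsupp.coe_zero,
          Pi.zero_apply]
        omega
      · simp only [hD', Finsupp.coe_sub, Pi.sub_apply, prim_apply_of_ne hw, Finsupp.coe_zero,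
          Pi.zero_apply, sub_zero]
        simpa using Finsupp.le_def.mp hD w
    have hm' : Divisor.degree D' = m := by
      rw [hD', map_sub, degree_prim v (hdeg v), hm]
      push_cast
      ring
    obtain ⟨h1, h2⟩ := ih D' hD'0 hm'
    have key := L_add_prim_finite v (hdeg v) D'
    have hDD : D' + prim v = D := by rw [hD']; abel
    rw [hDD] at key
    exact ⟨key.1, key.2.trans (by omega)⟩

theorem finite_L_of_nonneg (hfin : ∀ y : F, Transcendental K y → FiniteDimensional K⟮y⟯ F)
    (hdeg : ∀ v : Place K F, v.deg = 1) {D : Divisor K F} (hD : 0 ≤ D) :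
    Module.Finite K (riemannRochSpace D) :=
  (_root_.Fermat.Agent.Lib.RR.H383.finite_and_ell_le hfin hdeg (Divisor.degree D).toNat D hD
    (Int.toNat_of_nonneg (degree_nonneg hD)).symm).1

theorem ell_le_of_nonneg (hfin : ∀ y : F, Transcendental K y → FiniteDimensional K⟮y⟯ F)
    (hdeg : ∀ v : Place K F, v.deg = 1) {D : Divisor K F} (hD : 0 ≤ D) :
    (ell D : ℤ) ≤ Divisor.degree D + 1 := by
  have := (_root_.Fermat.Agent.Lib.RR.H383.finite_and_ell_le hfin hdeg (Divisor.degree D).toNat D hD
    (Int.toNat_of_nonneg (degree_nonneg hD)).symm).2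
  have h2 := Int.toNat_of_nonneg (degree_nonneg hD)
  omega

end AlgClosed

/-! ### Finiteness of zeros and poles -/

theorem finite_setOf_ord_pos' (hdeg : ∀ v : Place K F, v.deg = 1) (x : F)
    [FiniteDimensional K⟮x⟯ F] : {v : Place K F | 0 < v.ord x}.Finite := by
  classical
  by_contra hinf
  obtain ⟨t, hts, htc⟩ :=
    (Set.not_finite.mp hinf).exists_subset_card_eq (Module.finrank K⟮x⟯ F + 1)
  have h1 := sum_ord_le_finrank hdeg x t (fun v hv => hts hv)
  have h2 : (t.card : ℤ) ≤ ∑ v ∈ t, v.ord x := by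
    have : ∑ _v ∈ t, (1 : ℤ) ≤ ∑ v ∈ t, v.ord x :=
      Finset.sum_le_sum fun v hv => by
        have : 0 < v.ord x := hts hv
        omega
    simpa using this
  rw [htc] at h2
  push_cast at h2
  omega

theorem finite_setOf_ord_neg' (hdeg : ∀ v : Place K F, v.deg = 1) (x : F)
    [FiniteDimensional K⟮x⟯ F] : {v : Place K F | v.ord x < 0}.Finite := by
  have h : FiniteDimensional K⟮x⁻¹⟯ F := by
    rw [← adjoin_inv_eq x]
    infer_instance
  refine (finite_setOf_ord_pos' hdeg x⁻¹).subset ?_
  intro v hv
  have hv' : v.ord x < 0 := hv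
  show 0 < v.ord x⁻¹
  rw [v.ord_inv]
  omega

section AlgClosed

variable [IsAlgClosed K]

theorem finite_setOf_ord_neg (hfin : ∀ y : F, Transcendental K y → FiniteDimensional K⟮y⟯ F)
    (hdeg : ∀ v : Place K F, v.deg = 1) (f : F) : {v : Place K F | v.ord f < 0}.Finite := by
  by_cases hf : f ∈ (algebraMap K F).range
  · obtain ⟨c, rfl⟩ := hf
    convert Set.finite_empty (α := Place K F)
    ext v
    simp [ord_algebraMap]
  · have ht : Transcendental K f := Fermat.Agent.S24.FF.transcendental_of_not_mem_range hf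
    have := hfin f ht
    exact finite_setOf_ord_neg' hdeg f

theorem finite_setOf_ord_pos (hfin : ∀ y : F, Transcendental K y → FiniteDimensional K⟮y⟯ F)
    (hdeg : ∀ v : Place K F, v.deg = 1) (f : F) : {v : Place K F | 0 < v.ord f}.Finite := by
  refine (finite_setOf_ord_neg hfin hdeg f⁻¹).subset ?_
  intro v hv
  have hv' : 0 < v.ord f := hv
  show v.ord f⁻¹ < 0
  rw [v.ord_inv]
  omega

theorem finite_setOf_ord_ne_zero (hfin : ∀ y : F, Transcendental K y → FiniteDimensional K⟮y⟯ F)
    (hdeg : ∀ v : Place K F, v.deg = 1) (f : F) : {v : Place K F | v.ord f ≠ 0}.Finite := by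
  refine ((finite_setOf_ord_pos hfin hdeg f).union (finite_setOf_ord_neg hfin hdeg f)).subset ?_
  intro v hv
  have hv' : v.ord f ≠ 0 := hv
  rcases lt_or_gt_of_ne hv' with h | h
  · exact Or.inr h
  · exact Or.inl h

/-- The pole divisor `(f)_∞`. -/
def poleDiv (hfin : ∀ y : F, Transcendental K y → FiniteDimensional K⟮y⟯ F)
    (hdeg : ∀ v : Place K F, v.deg = 1) (f : F) : Divisor K F :=
  Finsupp.ofSupportFinite (fun v => max (-v.ord f) 0) <| by
    refine (finite_setOf_ord_neg hfin hdeg f).subset ?_
    intro v hv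
    have hv' : max (-v.ord f) 0 ≠ 0 := hv
    show v.ord f < 0
    by_contra h
    apply hv'
    rw [max_eq_right]
    omega

theorem poleDiv_apply (hfin : ∀ y : F, Transcendental K y → FiniteDimensional K⟮y⟯ F)
    (hdeg : ∀ v : Place K F, v.deg = 1) (f : F) (v : Place K F) :
    poleDiv hfin hdeg f v = max (-v.ord f) 0 := rfl

theorem poleDiv_nonneg (hfin : ∀ y : F, Transcendental K y → FiniteDimensional K⟮y⟯ F)
    (hdeg : ∀ v : Place K F, v.deg = 1) (f : F) : 0 ≤ poleDiv hfin hdeg f := by
  rw [Finsupp.le_def]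
  intro v
  rw [poleDiv_apply]
  simp

theorem poleDiv_support (hfin : ∀ y : F, Transcendental K y → FiniteDimensional K⟮y⟯ F)
    (hdeg : ∀ v : Place K F, v.deg = 1) (f : F) (S : Finset (Place K F))
    (hS : ∀ v, v ∈ S ↔ v.ord f < 0) : (poleDiv hfin hdeg f).support = S := by
  ext v
  rw [Finsupp.mem_support_iff, poleDiv_apply, hS]
  constructor
  · intro h
    by_contra hcon
    apply h
    rw [max_eq_right]
    omega
  · intro h h0
    have := le_max_left (-v.ord f) 0
    omega

theorem degree_poleDiv (hfin : ∀ y : F, Transcendental K y → FiniteDimensional K⟮y⟯ F)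
    (hdeg : ∀ v : Place K F, v.deg = 1) (f : F) (S : Finset (Place K F))
    (hS : ∀ v, v ∈ S ↔ v.ord f < 0) :
    Divisor.degree (poleDiv hfin hdeg f) = ∑ v ∈ S, -v.ord f := by
  rw [degree_eq_sum, poleDiv_support hfin hdeg f S hS]
  refine Finset.sum_congr rfl fun v hv => ?_
  have hv' : v.ord f < 0 := (hS v).mp hv
  rw [poleDiv_apply, hdeg v, max_eq_left (by omega)]
  simp

omit [IsAlgClosed K] in
omit [IsAlgClosed K] in
/-- Powers of a transcendental element are linearly independent. -/
theorem linearIndependent_pow_of_transcendental {x : F} (hx : Transcendental K x) :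
    LinearIndependent K (fun i : ℕ => x ^ i) := by
  have h1 := (Polynomial.basisMonomials K).linearIndependent.map' (aeval x).toLinearMap
    (LinearMap.ker_eq_bot.mpr (transcendental_iff_injective.mp hx))
  have h2 : (⇑(aeval x).toLinearMap ∘ ⇑(Polynomial.basisMonomials K)) = fun i : ℕ => x ^ i := by
    funext i
    simp [Polynomial.coe_basisMonomials]
  rwa [h2] at h1

/-- **Stichtenoth 1.4.11, lower bound**: `[F : K(x)] ≤ deg (x)_∞`. -/
theorem finrank_le_degree_poleDiv
    (hfin : ∀ y : F, Transcendental K y → FiniteDimensional K⟮y⟯ F)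
    (hdeg : ∀ v : Place K F, v.deg = 1) {x : F} (hx : Transcendental K x)
    [FiniteDimensional K⟮x⟯ F] :
    (Module.finrank K⟮x⟯ F : ℤ) ≤ Divisor.degree (poleDiv hfin hdeg x) := by
  classical
  set n := Module.finrank K⟮x⟯ F with hn
  let b := Module.finBasis K⟮x⟯ F
  set B := poleDiv hfin hdeg x with hB
  let C : Divisor K F := ∑ j : Fin n, poleDiv hfin hdeg (b j)
  have hC0 : 0 ≤ C := Finset.sum_nonneg fun j _ => poleDiv_nonneg hfin hdeg (b j)
  have hCv : ∀ (j : Fin n) (v : Place K F), -C v ≤ v.ord (b j) := by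
    intro j v
    have h1 : poleDiv hfin hdeg (b j) ≤ C :=
      Finset.single_le_sum (f := fun i => poleDiv hfin hdeg (b i))
        (fun i _ => poleDiv_nonneg hfin hdeg (b i)) (Finset.mem_univ j)
    have h2 := Finsupp.le_def.mp h1 v
    rw [poleDiv_apply] at h2
    have := le_max_left (-v.ord (b j)) 0
    omega
  have hx0 : x ≠ 0 := fun h => hx (h ▸ isAlgebraic_zero)
  have key : ∀ l : ℕ, ((l : ℤ) + 1) * n ≤ l * Divisor.degree B + Divisor.degree C + 1 := by
    intro l
    set D : Divisor K F := l • B + C with hD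
    have hD0 : 0 ≤ D := add_nonneg (nsmul_nonneg (poleDiv_nonneg hfin hdeg x) l) hC0
    have hfinD := finite_L_of_nonneg hfin hdeg hD0
    have hell := ell_le_of_nonneg hfin hdeg hD0
    let g : Fin (l + 1) → K⟮x⟯ := fun i => (AdjoinSimple.gen K x) ^ (i : ℕ)
    have hg : LinearIndependent K g := by
      have h1 : LinearIndependent K (fun i : Fin (l + 1) => x ^ (i : ℕ)) :=
        (linearIndependent_pow_of_transcendental hx).comp _ Fin.val_injective
      refine LinearIndependent.of_comp (K⟮x⟯.val.toLinearMap) ?_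
      have h2 : (⇑(K⟮x⟯.val.toLinearMap) ∘ g) = fun i : Fin (l + 1) => x ^ (i : ℕ) := by
        funext i
        simp [g]
      rw [h2]
      exact h1
    have hli : LinearIndependent K (fun p : Fin (l + 1) × Fin n => g p.1 • b p.2) :=
      linearIndependent_smul hg b.linearIndependent
    have hval : ∀ p : Fin (l + 1) × Fin n, g p.1 • b p.2 = x ^ (p.1 : ℕ) * b p.2 := by
      intro p
      rw [IntermediateField.smul_def]
      simp [g]
    have hmem : ∀ p : Fin (l + 1) × Fin n, g p.1 • b p.2 ∈ riemannRochSpace D := by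
      intro p
      rw [hval, mem_L_iff]
      intro v
      right
      have hb0 : b p.2 ≠ 0 := b.ne_zero p.2
      rw [v.ord_mul (pow_ne_zero _ hx0) hb0, ord_pow]
      have hDv : D v = l * B v + C v := by
        simp [hD]
      rw [hDv, hB, poleDiv_apply]
      have h1 := hCv p.2 v
      have hi : ((p.1 : ℕ) : ℤ) ≤ l := by
        have := p.1.2
        omega
      have hi0 : (0 : ℤ) ≤ ((p.1 : ℕ) : ℤ) := Int.natCast_nonneg _
      rcases le_or_gt 0 (v.ord x) with h | h
      · rw [max_eq_right (by omega)]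
        have := mul_nonneg hi0 h
        omega
      · rw [max_eq_left (by omega)]
        have : ((l : ℤ) - (p.1 : ℕ)) * v.ord x ≤ 0 :=
          mul_nonpos_of_nonneg_of_nonpos (by omega) h.le
        nlinarith
    let w : Fin (l + 1) × Fin n → riemannRochSpace D := fun p => ⟨g p.1 • b p.2, hmem p⟩
    have hliw : LinearIndependent K w := by
      refine LinearIndependent.of_comp (riemannRochSpace D).subtype ?_
      exact hli
    have hcard := hliw.fintype_card_le_finrank
    rw [Fintype.card_prod, Fintype.card_fin, Fintype.card_fin] at hcard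
    have hdegD : Divisor.degree D = l * Divisor.degree B + Divisor.degree C := by
      rw [hD, map_add, map_nsmul]
      simp
    unfold ell at hell
    have h3 : (((l + 1) * n : ℕ) : ℤ) ≤ (Module.finrank K (riemannRochSpace D) : ℤ) := by
      exact_mod_cast hcard
    push_cast at h3
    rw [hdegD] at hell
    linarith
  by_contra hlt
  push Not at hlt
  have hB0 : 0 ≤ Divisor.degree B := degree_nonneg (poleDiv_nonneg hfin hdeg x)
  have hCdeg : 0 ≤ Divisor.degree C := degree_nonneg hC0
  have hk := key ((Divisor.degree C).toNat + 1)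
  have hl : (((Divisor.degree C).toNat + 1 : ℕ) : ℤ) = Divisor.degree C + 1 := by
    push_cast
    rw [Int.toNat_of_nonneg hCdeg]
  rw [hl] at hk
  have h4 : (Divisor.degree C + 1) * Divisor.degree B ≤ (Divisor.degree C + 1) * ((n : ℤ) - 1) :=
    mul_le_mul_of_nonneg_left (by omega) (by omega)
  nlinarith

/-- **Fundamental equality at the poles**, any characteristic. -/
theorem sum_neg_ord_eq_finrank
    (hfin : ∀ y : F, Transcendental K y → FiniteDimensional K⟮y⟯ F)
    (hdeg : ∀ v : Place K F, v.deg = 1) {x : F} (hx : Transcendental K x)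
    [FiniteDimensional K⟮x⟯ F] (S : Finset (Place K F)) (hS : ∀ v, v ∈ S ↔ v.ord x < 0) :
    ∑ v ∈ S, -v.ord x = (Module.finrank K⟮x⟯ F : ℤ) := by
  refine le_antisymm (sum_neg_ord_le_finrank hdeg x S fun v hv => (hS v).mp hv) ?_
  rw [← degree_poleDiv hfin hdeg x S hS]
  exact finrank_le_degree_poleDiv hfin hdeg hx

theorem sum_neg_ord_eq_finrank_of_eq
    (hfin : ∀ y : F, Transcendental K y → FiniteDimensional K⟮y⟯ F)
    (hdeg : ∀ v : Place K F, v.deg = 1) {x : F} (hx : Transcendental K x)
    (L : IntermediateField K F) (hL : L = K⟮x⟯) [FiniteDimensional L F]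
    (S : Finset (Place K F)) (hS : ∀ v, v ∈ S ↔ v.ord x < 0) :
    ∑ v ∈ S, -v.ord x = (Module.finrank L F : ℤ) := by
  subst hL
  exact sum_neg_ord_eq_finrank hfin hdeg hx S hS

/-- **Fundamental equality at the zeros**, any characteristic. -/
theorem sum_ord_eq_finrank
    (hfin : ∀ y : F, Transcendental K y → FiniteDimensional K⟮y⟯ F)
    (hdeg : ∀ v : Place K F, v.deg = 1) {x : F} (hx : Transcendental K x)
    [FiniteDimensional K⟮x⟯ F] (S : Finset (Place K F)) (hS : ∀ v, v ∈ S ↔ 0 < v.ord x) :
    ∑ v ∈ S, v.ord x = (Module.finrank K⟮x⟯ F : ℤ) := by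
  have hx' : Transcendental K x⁻¹ := fun h => hx (by simpa using h.inv)
  have h := sum_neg_ord_eq_finrank_of_eq hfin hdeg hx' K⟮x⟯ (adjoin_inv_eq x) S
    (fun v => by rw [hS, v.ord_inv]; omega)
  rw [← h]
  refine Finset.sum_congr rfl fun v _ => ?_
  rw [v.ord_inv, neg_neg]

/-- **Principal divisors have degree zero**, any characteristic. -/
theorem hasPrincipalDivisors_of_finite {x : F} (hx : Transcendental K x)
    [FiniteDimensional K⟮x⟯ F] : HasPrincipalDivisors K F := by
  classical
  have hfin := finite_of_finite hx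
  have hdeg : ∀ v : Place K F, v.deg = 1 := deg_eq_one_of_finite hx
  refine ⟨fun f hf0 => ?_⟩
  by_cases hf : f ∈ (algebraMap K F).range
  · obtain ⟨c, rfl⟩ := hf
    refine ⟨0, fun v => ?_, map_zero _⟩
    rw [ord_algebraMap]
    rfl
  have ht : Transcendental K f := Fermat.Agent.S24.FF.transcendental_of_not_mem_range hf
  have := hfin f ht
  let D : Divisor K F := Finsupp.ofSupportFinite (fun v => v.ord f)
    (finite_setOf_ord_ne_zero hfin hdeg f)
  have hDv : ∀ v, D v = v.ord f := fun v => rfl
  refine ⟨D, hDv, ?_⟩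
  rw [degree_eq_sum]
  have hsupp : ∀ v, v ∈ D.support ↔ v.ord f ≠ 0 := fun v => by
    rw [Finsupp.mem_support_iff, hDv]
  have h1 : ∑ v ∈ D.support, D v * (v.deg : ℤ) = ∑ v ∈ D.support, v.ord f := by
    refine Finset.sum_congr rfl fun v _ => ?_
    rw [hDv, hdeg v]
    simp
  rw [h1, ← Finset.sum_filter_add_sum_filter_not D.support (fun v => 0 < v.ord f)]
  have hP := sum_ord_eq_finrank hfin hdeg ht (D.support.filter fun v => 0 < v.ord f)
    (fun v => by
      rw [Finset.mem_filter, hsupp]
      constructor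
      · exact fun h => h.2
      · exact fun h => ⟨h.ne', h⟩)
  have hN := sum_neg_ord_eq_finrank hfin hdeg ht (D.support.filter fun v => ¬ 0 < v.ord f)
    (fun v => by
      rw [Finset.mem_filter, hsupp]
      constructor
      · rintro ⟨h1, h2⟩
        omega
      · intro h
        exact ⟨h.ne, by omega⟩)
  rw [Finset.sum_neg_distrib] at hN
  rw [hP]
  linarith

end AlgClosed

end Fermat.Agent.Lib.RR.H383

end
end
-- ===== PACK-END Lib/RR/H383/Fundamental.lean

-- ===== PACK-BEGIN Lib/RR/H383/FF1OfFinite.lean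
section


/-!
# RR library (helper383): the standing hypotheses `FF1 K F` in any characteristic

`K` algebraically closed (any characteristic), `x ∈ F` transcendental over `K`, `F` finite over
`K(x)`.  Then `FF1 K F` holds: principal divisors have degree zero, all places have degree one,
there is a place, and `F` is finite over a rational function field.
No separability hypothesis is needed.

* `ff1_of_finite` : the bridge.
* `eq_algebraMap_of_forall_ord_eq_zero` : a function of order zero everywhere is constant.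
-/

set_option autoImplicit false

noncomputable section

open AlgebraicCurve IntermediateField

namespace Fermat.Agent.Lib.RR.H383

open Fermat.Agent.Lib.RR

variable {K F : Type*} [Field K] [Field F] [Algebra K F] [IsAlgClosed K]

/-- **Bridge**: a field finite over `K(x)`, `K` algebraically closed of any characteristic,
satisfies the standing hypotheses of the RR library. -/
theorem ff1_of_finite {x : F} (hx : Transcendental K x) [FiniteDimensional K⟮x⟯ F] :
    FF1 K F where
  hpd := hasPrincipalDivisors_of_finite hx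
  deg_eq_one := deg_eq_one_of_finite hx
  nonempty_place := by
    obtain ⟨v, -⟩ := exists_place_ord_pos (finite_of_finite hx) hx
    exact ⟨v⟩
  exists_finite := ⟨x, hx, inferInstance⟩

/-- A function whose order vanishes at every place is constant. -/
theorem eq_algebraMap_of_forall_ord_eq_zero {x : F} (hx : Transcendental K x)
    [FiniteDimensional K⟮x⟯ F] {f : F} (hf : ∀ v : Place K F, v.ord f = 0) :
    f ∈ (algebraMap K F).range :=
  eq_algebraMap_of_forall_ord_nonneg (finite_of_finite hx) fun v => (hf v).ge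

end Fermat.Agent.Lib.RR.H383

end
end
-- ===== PACK-END Lib/RR/H383/FF1OfFinite.lean

-- ===== PACK-BEGIN Lib/RR/H80/Weil.lean
section


/-!
# RR library, layer L5 (helper80): Weil differentials

`𝔸 = repartitions K F`, `AF D = 𝔸(D) + F`, `Om D = (AF D)^⊥ ⊆ Hom_K(𝔸, K)` the space of Weil
differentials vanishing on `𝔸(D) + F`; `smulD x ω = ω (x • ·)` the action of `F`.

This file: basic API (no Riemann–Roch input).
-/

set_option autoImplicit false

noncomputable section

open AlgebraicCurve

namespace Fermat.Agent.Lib.RR.H80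

open Fermat.Agent.Lib.RR

variable {K F : Type*} [Field K] [Field F] [Algebra K F]

/-- `𝔸(D) + F`. -/
def AF (D : Divisor K F) : Submodule K ↥(repartitions K F) :=
  repartitionsOf D ⊔ principalRepartitions K F

/-- Weil differentials vanishing on `𝔸(D) + F`. -/
def Om (D : Divisor K F) : Submodule K (Module.Dual K ↥(repartitions K F)) :=
  (AF D).dualAnnihilator

theorem mem_Om_iff {D : Divisor K F} {ω : Module.Dual K ↥(repartitions K F)} :
    ω ∈ Om D ↔ (∀ α ∈ repartitionsOf D, ω α = 0) ∧
      ∀ α ∈ principalRepartitions K F, ω α = 0 := by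
  unfold Om AF
  rw [Submodule.dualAnnihilator_sup_eq, Submodule.mem_inf, Submodule.mem_dualAnnihilator,
    Submodule.mem_dualAnnihilator]

/-- `dim Ω(D) = dim H¹(D)` (both sides are `0` in the infinite-dimensional case). -/
theorem finrank_Om (D : Divisor K F) :
    Module.finrank K (Om D) = Module.finrank K (H1 D) := by
  have e : Module.Dual K (H1 D) ≃ₗ[K] Om D :=
    Submodule.dualQuotEquivDualAnnihilator (AF D)
  rw [← e.finrank_eq, Subspace.dual_finrank_eq]

theorem finite_Om (D : Divisor K F) [Module.Finite K (H1 D)] : Module.Finite K (Om D) := by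
  have e : Module.Dual K (H1 D) ≃ₗ[K] Om D :=
    Submodule.dualQuotEquivDualAnnihilator (AF D)
  exact Module.Finite.equiv e

theorem AF_mono {D D' : Divisor K F} (h : D ≤ D') : AF D ≤ AF D' :=
  sup_le_sup_right (repartitionsOf_mono h) _

theorem Om_anti {D D' : Divisor K F} (h : D ≤ D') : Om D' ≤ Om D :=
  Submodule.dualAnnihilator_anti (AF_mono h)

/-- Multiplication by `x ∈ F` on repartitions, as a `K`-linear map. -/
def mulA (x : F) : ↥(repartitions K F) →ₗ[K] ↥(repartitions K F) :=
  (LinearMap.lsmul F ↥(repartitions K F) x).restrictScalars K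

@[simp] theorem mulA_apply (x : F) (α : ↥(repartitions K F)) : mulA (K := K) x α = x • α := rfl

theorem coe_smul_apply (x : F) (α : ↥(repartitions K F)) (v : Place K F) :
    ((x • α : ↥(repartitions K F)) : Place K F → F) v = x * (α : Place K F → F) v := rfl

theorem mulA_mul (x y : F) (α : ↥(repartitions K F)) :
    mulA (K := K) x (mulA y α) = mulA (x * y) α := by
  simp [mulA_apply, mul_smul]

theorem mulA_one (α : ↥(repartitions K F)) : mulA (K := K) (1 : F) α = α := by
  simp [mulA_apply]

/-- The action of `F` on `Hom_K(𝔸, K)`: `(x ω)(α) = ω (x α)`. -/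
def smulD (x : F) (ω : Module.Dual K ↥(repartitions K F)) : Module.Dual K ↥(repartitions K F) :=
  ω.comp (mulA x)

@[simp] theorem smulD_apply (x : F) (ω : Module.Dual K ↥(repartitions K F))
    (α : ↥(repartitions K F)) : smulD x ω α = ω (x • α) := rfl

theorem smulD_smulD (x y : F) (ω : Module.Dual K ↥(repartitions K F)) :
    smulD x (smulD y ω) = smulD (x * y) ω := by
  ext α
  simp only [smulD_apply]
  rw [← mul_smul, mul_comm]

theorem smulD_one (ω : Module.Dual K ↥(repartitions K F)) : smulD (1 : F) ω = ω := by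
  ext α; simp

theorem smulD_zero_left (ω : Module.Dual K ↥(repartitions K F)) : smulD (0 : F) ω = 0 := by
  ext α; simp

theorem smulD_zero_right (x : F) : smulD x (0 : Module.Dual K ↥(repartitions K F)) = 0 := by
  ext α; simp

/-- `x ↦ x ω`, as a `K`-linear map `F → Hom_K(𝔸, K)`. -/
def muMap (ω : Module.Dual K ↥(repartitions K F)) :
    F →ₗ[K] Module.Dual K ↥(repartitions K F) where
  toFun x := smulD x ω
  map_add' x y := by
    ext α
    simp only [smulD_apply, LinearMap.add_apply, add_smul, map_add]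
  map_smul' c x := by
    ext α
    simp only [smulD_apply, RingHom.id_apply, LinearMap.smul_apply]
    rw [smul_assoc, map_smul]

@[simp] theorem muMap_apply (ω : Module.Dual K ↥(repartitions K F)) (x : F) :
    muMap ω x = smulD x ω := rfl

theorem muMap_injective {ω : Module.Dual K ↥(repartitions K F)} (hω : ω ≠ 0) :
    Function.Injective (muMap ω) := by
  rw [← LinearMap.ker_eq_bot, eq_bot_iff]
  intro x hx
  rw [LinearMap.mem_ker, muMap_apply] at hx
  rw [Submodule.mem_bot]
  by_contra hx0
  apply hω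
  have := congrArg (smulD x⁻¹) hx
  rwa [smulD_smulD, inv_mul_cancel₀ hx0, smulD_one, smulD_zero_right] at this

/-! ### Action on `𝔸(D)` and on principal repartitions -/

theorem smul_mem_principal (x : F) {α : ↥(repartitions K F)}
    (hα : α ∈ principalRepartitions K F) : x • α ∈ principalRepartitions K F := by
  rw [mem_principalRepartitions_iff] at hα ⊢
  obtain ⟨f, hf⟩ := hα
  refine ⟨x * f, ?_⟩
  funext v
  rw [coe_smul_apply, hf]

/-- If `E = div x` then `x • 𝔸(D + E) ⊆ 𝔸(D)`. -/
theorem smul_mem_repartitionsOf {x : F} (hx : x ≠ 0) {D E : Divisor K F}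
    (hE : ∀ v : Place K F, E v = v.ord x) {α : ↥(repartitions K F)}
    (hα : α ∈ repartitionsOf (D + E)) : x • α ∈ repartitionsOf D := by
  rw [mem_repartitionsOf_iff] at hα ⊢
  intro v
  rw [coe_smul_apply]
  rcases hα v with h | h
  · left; rw [h, mul_zero]
  · rcases eq_or_ne ((α : Place K F → F) v) 0 with h0 | h0
    · left; rw [h0, mul_zero]
    right
    rw [v.ord_mul hx h0]
    simp only [Finsupp.coe_add, Pi.add_apply, hE v] at h
    omega

theorem smul_mem_AF {x : F} (hx : x ≠ 0) {D E : Divisor K F}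
    (hE : ∀ v : Place K F, E v = v.ord x) {α : ↥(repartitions K F)}
    (hα : α ∈ AF (D + E)) : x • α ∈ AF D := by
  unfold AF at hα ⊢
  rw [Submodule.mem_sup] at hα ⊢
  obtain ⟨β, hβ, γ, hγ, rfl⟩ := hα
  exact ⟨x • β, smul_mem_repartitionsOf hx hE hβ, x • γ, smul_mem_principal x hγ,
    (smul_add x β γ).symm⟩

/-- If `ω` vanishes on `𝔸(D) + F` and `E = div x`, then `x ω` vanishes on `𝔸(D + E) + F`. -/
theorem smulD_mem_Om {x : F} (hx : x ≠ 0) {D E : Divisor K F}
    (hE : ∀ v : Place K F, E v = v.ord x) {ω : Module.Dual K ↥(repartitions K F)}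
    (hω : ω ∈ Om D) : smulD x ω ∈ Om (D + E) := by
  unfold Om at hω ⊢
  rw [Submodule.mem_dualAnnihilator] at hω ⊢
  intro α hα
  rw [smulD_apply]
  exact hω _ (smul_mem_AF hx hE hα)

end Fermat.Agent.Lib.RR.H80

end
end
-- ===== PACK-END Lib/RR/H80/Weil.lean

-- ===== PACK-BEGIN Lib/RR/H80/OneDim.lean
section


/-!
# RR library, layer L5 (helper80): the Weil differentials form a one-dimensional `F`-space

Inputs from layers L3/L4 are taken as explicit hypotheses:
* `hfin : ∀ D, Module.Finite K (H1 D)`,
* `hrr  : ∀ D, ℓ(D) - dim H¹(D) = deg D + 1 - g`.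
-/

set_option autoImplicit false

noncomputable section

open AlgebraicCurve

namespace Fermat.Agent.Lib.RR.H80

open Fermat.Agent.Lib.RR

variable {K F : Type*} [Field K] [Field F] [Algebra K F]

/-- For `x ∈ L(A + B)`, `x ω ∈ Ω(-B)` whenever `ω ∈ Ω(A)`. -/
theorem smulD_mem_Om_neg [HasPrincipalDivisors K F] {A B : Divisor K F}
    {ω : Module.Dual K ↥(repartitions K F)} (hω : ω ∈ Om A) {x : F}
    (hx : x ∈ riemannRochSpace (A + B)) : smulD x ω ∈ Om (-B) := by
  rcases eq_or_ne x 0 with rfl | hx0
  · rw [smulD_zero_left]; exact Submodule.zero_mem _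
  obtain ⟨E, hE, -⟩ := HasPrincipalDivisors.exists_divisor (K := K) x hx0
  have h1 : smulD x ω ∈ Om (A + E) := smulD_mem_Om hx0 hE hω
  refine Om_anti ?_ h1
  rw [Finsupp.le_def]
  intro v
  have := (mem_L_iff.mp hx v).resolve_left hx0
  simp only [Finsupp.coe_add, Pi.add_apply, Finsupp.coe_neg, Pi.neg_apply, hE v] at this ⊢
  omega

theorem map_muMap_le [HasPrincipalDivisors K F] {A B : Divisor K F}
    {ω : Module.Dual K ↥(repartitions K F)} (hω : ω ∈ Om A) :
    Submodule.map (muMap ω) (riemannRochSpace (A + B)) ≤ Om (-B) := by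
  rintro _ ⟨x, hx, rfl⟩
  exact smulD_mem_Om_neg hω hx

theorem finrank_map_muMap {ω : Module.Dual K ↥(repartitions K F)} (hω : ω ≠ 0)
    (D : Divisor K F) :
    Module.finrank K (Submodule.map (muMap ω) (riemannRochSpace D)) = ell D :=
  (Submodule.equivMapOfInjective (muMap ω) (muMap_injective hω)
    (riemannRochSpace D)).finrank_eq.symm

section Input

variable [FF1 K F] {g : ℤ}

theorem genus_eq_of_rr
    (hrr : ∀ D : Divisor K F,
      (ell D : ℤ) - Module.finrank K (H1 D) = Divisor.degree D + 1 - g) :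
    g = Module.finrank K (H1 (0 : Divisor K F)) := by
  have h := hrr 0
  rw [ell_zero, map_zero] at h
  push_cast at h
  omega

theorem genus_nonneg_of_rr
    (hrr : ∀ D : Divisor K F,
      (ell D : ℤ) - Module.finrank K (H1 D) = Divisor.degree D + 1 - g) : 0 ≤ g := by
  rw [genus_eq_of_rr hrr]
  exact Int.natCast_nonneg _

omit [FF1 K F] in
theorem finrank_Om_eq
    (hrr : ∀ D : Divisor K F,
      (ell D : ℤ) - Module.finrank K (H1 D) = Divisor.degree D + 1 - g) (D : Divisor K F) :
    (Module.finrank K (Om D) : ℤ) = ell D - Divisor.degree D - 1 + g := by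
  rw [finrank_Om]
  have := hrr D
  omega

omit [FF1 K F] in
theorem ell_ge_of_rr
    (hrr : ∀ D : Divisor K F,
      (ell D : ℤ) - Module.finrank K (H1 D) = Divisor.degree D + 1 - g) (D : Divisor K F) :
    Divisor.degree D + 1 - g ≤ ell D := by
  have := hrr D
  have h2 : (0 : ℤ) ≤ Module.finrank K (H1 D) := Int.natCast_nonneg _
  omega

/-- **Existence of a nonzero Weil differential.** -/
theorem exists_ne_zero_mem_Om
    (hrr : ∀ D : Divisor K F,
      (ell D : ℤ) - Module.finrank K (H1 D) = Divisor.degree D + 1 - g) :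
    ∃ (A : Divisor K F) (ω : Module.Dual K ↥(repartitions K F)), ω ∈ Om A ∧ ω ≠ 0 := by
  obtain ⟨P⟩ := (FF1.nonempty_place : Nonempty (Place K F))
  let A : Divisor K F := -(prim P + prim P)
  have hdeg : Divisor.degree A = -2 := by
    simp only [A, map_neg, map_add, degree_prim']; norm_num
  have hell : ell A = 0 := ell_eq_zero_of_degree_neg (by rw [hdeg]; norm_num)
  have hfr := finrank_Om_eq hrr A
  rw [hell, hdeg] at hfr
  have hg := genus_nonneg_of_rr hrr
  have hpos : 0 < Module.finrank K (Om A) := by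
    have : (0 : ℤ) < Module.finrank K (Om A) := by rw [hfr]; push_cast; omega
    exact_mod_cast this
  have : Nontrivial (Om A) := Module.nontrivial_of_finrank_pos hpos
  obtain ⟨ω, hω⟩ := exists_ne (0 : Om A)
  exact ⟨A, ω, ω.2, fun h => hω (Subtype.ext h)⟩

/-- **One-dimensionality**: any Weil differential is an `F`-multiple of a given nonzero one. -/
theorem exists_smulD_eq
    (hfin : ∀ D : Divisor K F, Module.Finite K (H1 D))
    (hrr : ∀ D : Divisor K F,
      (ell D : ℤ) - Module.finrank K (H1 D) = Divisor.degree D + 1 - g)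
    {A₁ A₂ : Divisor K F} {ω₁ ω₂ : Module.Dual K ↥(repartitions K F)}
    (h₁ : ω₁ ∈ Om A₁) (h₁0 : ω₁ ≠ 0) (h₂ : ω₂ ∈ Om A₂) :
    ∃ z : F, ω₂ = smulD z ω₁ := by
  classical
  rcases eq_or_ne ω₂ 0 with rfl | h₂0
  · exact ⟨0, (smulD_zero_left _).symm⟩
  obtain ⟨P⟩ := (FF1.nonempty_place : Nonempty (Place K F))
  -- choose `B = n P` with `n` large
  let N : ℤ := 3 * g - 3 - Divisor.degree A₁ - Divisor.degree A₂
  let n : ℕ := (max N 0 + 1).toNat
  have hn : (n : ℤ) = max N 0 + 1 := Int.toNat_of_nonneg (by positivity)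
  have hnN : N < n := by rw [hn]; have := le_max_left N 0; omega
  have hn1 : (1 : ℤ) ≤ n := by rw [hn]; have := le_max_right N 0; omega
  let B : Divisor K F := n • prim P
  have hdegB : Divisor.degree B = n := by
    simp only [B, map_nsmul, degree_prim']; simp
  let U₁ := Submodule.map (muMap ω₁) (riemannRochSpace (A₁ + B))
  let U₂ := Submodule.map (muMap ω₂) (riemannRochSpace (A₂ + B))
  have hU₁ : U₁ ≤ Om (-B) := map_muMap_le h₁
  have hU₂ : U₂ ≤ Om (-B) := map_muMap_le h₂
  have := hfin (-B)
  have : Module.Finite K (Om (-B)) := finite_Om (-B)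
  have : Module.Finite K U₁ := Submodule.finiteDimensional_of_le hU₁
  have : Module.Finite K U₂ := Submodule.finiteDimensional_of_le hU₂
  have hinter : U₁ ⊓ U₂ ≠ ⊥ := by
    intro hbot
    have hsum := Submodule.finrank_sup_add_finrank_inf_eq U₁ U₂
    rw [hbot, finrank_bot, add_zero] at hsum
    have hle : Module.finrank K ↥(U₁ ⊔ U₂) ≤ Module.finrank K (Om (-B)) :=
      Submodule.finrank_mono (sup_le hU₁ hU₂)
    have e1 : Module.finrank K U₁ = ell (A₁ + B) := finrank_map_muMap h₁0 _
    have e2 : Module.finrank K U₂ = ell (A₂ + B) := finrank_map_muMap h₂0 _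
    have e3 := finrank_Om_eq hrr (-B)
    have hellB : ell (-B) = 0 :=
      ell_eq_zero_of_degree_neg (by rw [map_neg, hdegB]; omega)
    rw [hellB, map_neg, hdegB] at e3
    have g1 := ell_ge_of_rr hrr (A₁ + B)
    have g2 := ell_ge_of_rr hrr (A₂ + B)
    rw [map_add, hdegB] at g1 g2
    have hsumZ : (Module.finrank K ↥(U₁ ⊔ U₂) : ℤ) = ell (A₁ + B) + ell (A₂ + B) := by
      rw [hsum, e1, e2]; push_cast; ring
    have hleZ : (Module.finrank K ↥(U₁ ⊔ U₂) : ℤ) ≤ Module.finrank K (Om (-B)) := by
      exact_mod_cast hle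
    push_cast at e3
    simp only [N] at hnN
    omega
  obtain ⟨η, hη, hη0⟩ := Submodule.exists_mem_ne_zero_of_ne_bot hinter
  obtain ⟨⟨x₁, -, hx₁⟩, ⟨x₂, -, hx₂⟩⟩ := Submodule.mem_inf.mp hη
  rw [muMap_apply] at hx₁ hx₂
  have hx₂0 : x₂ ≠ 0 := by
    rintro rfl
    rw [smulD_zero_left] at hx₂
    exact hη0 hx₂.symm
  refine ⟨x₂⁻¹ * x₁, ?_⟩
  rw [← smulD_smulD, hx₁, ← hx₂, smulD_smulD, inv_mul_cancel₀ hx₂0, smulD_one]

end Input

end Fermat.Agent.Lib.RR.H80

end
end
-- ===== PACK-END Lib/RR/H80/OneDim.lean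

-- ===== PACK-BEGIN Lib/RR/H80/Canonical.lean
section


/-!
# RR library, layer L5 (helper80): the divisor of a Weil differential and the duality theorem

Inputs from layers L3/L4 are explicit hypotheses:
* `hfin : ∀ D, Module.Finite K (H1 D)`,
* `hrr  : ∀ D, ℓ(D) - dim H¹(D) = deg D + 1 - g`,
* `hvan : ∃ c, ∀ D, c ≤ deg D → ℓ(D) = deg D + 1 - g`.

Main result: `exists_canonical_of : ∃ W, ∀ D, dim H¹(D) = ℓ(W - D)`.
-/

set_option autoImplicit false

noncomputable section

open AlgebraicCurve

namespace Fermat.Agent.Lib.RR.H80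

open Fermat.Agent.Lib.RR

variable {K F : Type*} [Field K] [Field F] [Algebra K F]

/-- The repartition with a single nonzero component. -/
def singleA (Q : Place K F) (a : F) : ↥(repartitions K F) :=
  ⟨fun v => by classical exact if v = Q then a else 0,
    mem_repartitions_of_finite_ord <| (Set.finite_singleton Q).subset fun v hv => by
      classical
      have hv : v.ord (if v = Q then a else 0) < 0 := hv
      rw [Set.mem_singleton_iff]
      by_contra hne
      rw [if_neg hne, Place.ord_zero] at hv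
      exact lt_irrefl _ hv⟩

theorem singleA_apply_self (Q : Place K F) (a : F) :
    ((singleA Q a : ↥(repartitions K F)) : Place K F → F) Q = a := by
  classical
  simp [singleA]

theorem singleA_apply_of_ne (Q : Place K F) (a : F) {v : Place K F} (h : v ≠ Q) :
    ((singleA Q a : ↥(repartitions K F)) : Place K F → F) v = 0 := by
  classical
  simp [singleA, h]

/-- Key step: if `ω` vanishes on `𝔸(W) + F` and on `𝔸(D) + F` with `W Q < D Q`, then it vanishes
on `𝔸(W + Q) + F`. -/
theorem mem_Om_add_prim {W D : Divisor K F} {Q : Place K F} (hQ : W Q < D Q)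
    {ω : Module.Dual K ↥(repartitions K F)} (hW : ω ∈ Om W) (hD : ω ∈ Om D) :
    ω ∈ Om (W + prim Q) := by
  rw [mem_Om_iff] at hW hD ⊢
  refine ⟨fun α hα => ?_, hW.2⟩
  rw [mem_repartitionsOf_iff] at hα
  set β : ↥(repartitions K F) := singleA Q ((α : Place K F → F) Q) with hβ
  have h1 : β ∈ repartitionsOf D := by
    rw [mem_repartitionsOf_iff]
    intro v
    by_cases hv : v = Q
    · subst hv
      rw [hβ, singleA_apply_self]
      rcases hα v with h | h
      · exact Or.inl h
      · right
        simp only [Finsupp.coe_add, Pi.add_apply, prim_apply_self] at h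
        omega
    · left
      rw [hβ, singleA_apply_of_ne _ _ hv]
  have h2 : α - β ∈ repartitionsOf W := by
    rw [mem_repartitionsOf_iff]
    intro v
    have hsub : ((α - β : ↥(repartitions K F)) : Place K F → F) v
        = (α : Place K F → F) v - (β : Place K F → F) v := rfl
    by_cases hv : v = Q
    · subst hv
      left
      rw [hsub, hβ, singleA_apply_self, sub_self]
    · rw [hsub, hβ, singleA_apply_of_ne _ _ hv, sub_zero]
      rcases hα v with h | h
      · exact Or.inl h
      · right
        simpa [prim_apply_of_ne hv] using h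
  have h3 : ω α = ω (α - β) + ω β := by rw [← map_add, sub_add_cancel]
  rw [h3, hW.1 _ h2, hD.1 _ h1, add_zero]

section Input

variable [FF1 K F] {g : ℤ}

omit [FF1 K F] in
/-- Weil differentials vanishing on `𝔸(D) + F` with `deg D` large are zero. -/
theorem Om_eq_bot_of_degree_ge
    (hfin : ∀ D : Divisor K F, Module.Finite K (H1 D))
    (hrr : ∀ D : Divisor K F,
      (ell D : ℤ) - Module.finrank K (H1 D) = Divisor.degree D + 1 - g)
    {c : ℤ} (hc : ∀ D : Divisor K F, c ≤ Divisor.degree D →
      (ell D : ℤ) = Divisor.degree D + 1 - g)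
    {D : Divisor K F} (hD : c ≤ Divisor.degree D) : Om D = ⊥ := by
  have := hfin D
  have : Module.Finite K (Om D) := finite_Om D
  have h1 := finrank_Om_eq hrr D
  rw [hc D hD] at h1
  have h2 : Module.finrank K (Om D) = 0 := by
    have : (Module.finrank K (Om D) : ℤ) = 0 := by rw [h1]; ring
    exact_mod_cast this
  exact Submodule.finrank_eq_zero.mp h2

/-- **The divisor of a Weil differential**: a nonzero Weil differential `ω` has a divisor `W`
such that `ω` vanishes on `𝔸(D) + F` iff `D ≤ W`. -/
theorem exists_divisor_of_ne_zero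
    (hfin : ∀ D : Divisor K F, Module.Finite K (H1 D))
    (hrr : ∀ D : Divisor K F,
      (ell D : ℤ) - Module.finrank K (H1 D) = Divisor.degree D + 1 - g)
    (hvan : ∃ c : ℤ, ∀ D : Divisor K F, c ≤ Divisor.degree D →
      (ell D : ℤ) = Divisor.degree D + 1 - g)
    {A : Divisor K F} {ω : Module.Dual K ↥(repartitions K F)} (hA : ω ∈ Om A) (hω : ω ≠ 0) :
    ∃ W : Divisor K F, ∀ D : Divisor K F, ω ∈ Om D ↔ D ≤ W := by
  obtain ⟨c, hc⟩ := hvan
  have hbdd : ∀ D : Divisor K F, ω ∈ Om D → Divisor.degree D < c := by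
    intro D hD
    by_contra hlt
    have := Om_eq_bot_of_degree_ge hfin hrr hc (not_lt.mp hlt)
    rw [this, Submodule.mem_bot] at hD
    exact hω hD
  obtain ⟨d, ⟨W, hW, rfl⟩, hmax⟩ :=
    Int.exists_greatest_of_bdd (P := fun d => ∃ D : Divisor K F, ω ∈ Om D ∧ Divisor.degree D = d)
      ⟨c, fun z ⟨D, hD, hz⟩ => hz ▸ (hbdd D hD).le⟩ ⟨_, A, hA, rfl⟩
  refine ⟨W, fun D => ⟨fun hD => ?_, fun hle => Om_anti hle hW⟩⟩
  by_contra hnle
  rw [Finsupp.le_def] at hnle
  simp only [not_forall, not_le] at hnle
  obtain ⟨Q, hQ⟩ := hnle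
  have h1 := mem_Om_add_prim hQ hW hD
  have h2 := hmax _ ⟨W + prim Q, h1, rfl⟩
  rw [map_add, degree_prim'] at h2
  omega

/-- **Duality theorem** (Stichtenoth 1.5.14): `x ↦ x ω` maps `L(W - D)` onto `Ω(D)`. -/
theorem map_muMap_eq_Om
    (hfin : ∀ D : Divisor K F, Module.Finite K (H1 D))
    (hrr : ∀ D : Divisor K F,
      (ell D : ℤ) - Module.finrank K (H1 D) = Divisor.degree D + 1 - g)
    {W : Divisor K F} {ω : Module.Dual K ↥(repartitions K F)} (hω : ω ≠ 0)
    (hW : ∀ D : Divisor K F, ω ∈ Om D ↔ D ≤ W) (D : Divisor K F) :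
    Submodule.map (muMap ω) (riemannRochSpace (W - D)) = Om D := by
  have hWW : ω ∈ Om W := (hW W).mpr le_rfl
  apply le_antisymm
  · have := map_muMap_le (B := -D) hWW
    rwa [neg_neg, ← sub_eq_add_neg] at this
  · intro η hη
    obtain ⟨z, rfl⟩ := exists_smulD_eq hfin hrr hWW hω hη
    refine ⟨z, ?_, rfl⟩
    rcases eq_or_ne z 0 with rfl | hz
    · exact Submodule.zero_mem (riemannRochSpace (W - D))
    obtain ⟨E, hE, -⟩ := HasPrincipalDivisors.exists_divisor (K := K) z⁻¹ (inv_ne_zero hz)
    have h1 : smulD z⁻¹ (smulD z ω) ∈ Om (D + E) := smulD_mem_Om (inv_ne_zero hz) hE hη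
    rw [smulD_smulD, inv_mul_cancel₀ hz, smulD_one] at h1
    have h2 := (hW _).mp h1
    show z ∈ riemannRochSpace (W - D)
    rw [mem_L_iff]
    intro v
    right
    have h3 := Finsupp.le_def.mp h2 v
    simp only [Finsupp.coe_add, Pi.add_apply, hE v, v.ord_inv, Finsupp.coe_sub,
      Pi.sub_apply] at h3 ⊢
    omega

/-- **L5, hypothesis-explicit form**: existence of a canonical divisor. -/
theorem exists_canonical_of
    (hfin : ∀ D : Divisor K F, Module.Finite K (H1 D))
    (hrr : ∀ D : Divisor K F,
      (ell D : ℤ) - Module.finrank K (H1 D) = Divisor.degree D + 1 - g)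
    (hvan : ∃ c : ℤ, ∀ D : Divisor K F, c ≤ Divisor.degree D →
      (ell D : ℤ) = Divisor.degree D + 1 - g) :
    ∃ W : Divisor K F, ∀ D : Divisor K F, Module.finrank K (H1 D) = ell (W - D) := by
  obtain ⟨A, ω, hA, hω⟩ := exists_ne_zero_mem_Om (K := K) (F := F) hrr
  obtain ⟨W, hW⟩ := exists_divisor_of_ne_zero hfin hrr hvan hA hω
  refine ⟨W, fun D => ?_⟩
  rw [← finrank_Om, ← map_muMap_eq_Om hfin hrr hω hW D, finrank_map_muMap hω]

end Input

end Fermat.Agent.Lib.RR.H80

end
end
-- ===== PACK-END Lib/RR/H80/Canonical.lean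

-- ===== PACK-BEGIN S37/Red/SpecMod.lean
section




/-!
# S37-RED — frozen interfaces at the modular level (architect: helper40)        v1

* `ModDatum N A`   : a reduction datum (`Spec.lean`) on `(F_N, F_{N,k})` with good charts, linked
                     to the `q`-expansion integrality of the Prelude and Galois-stable.
* `PlaceRed N A ℓ` : everything about the place map `r` that the assembly needs.
* `AssemblyStatement` : `PlaceRed` + `HeckeInputsAlong`  ⟹  `H99.RedData`  (⟹ frozen S37 by
                     `H99.result_of_redData`, already on main).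

Documentation: `coord/S37-red.md` on `origin/helper40`.
-/

set_option autoImplicit false
set_option synthInstance.maxHeartbeats 400000

noncomputable section

namespace Fermat.Agent.S37.Red

open ModularCurve AlgebraicCurve HahnSeries IsLocalRing

/-- `Q̄` -/
abbrev Qb : Type := AlgebraicClosure ℚ

/-- the function field `F_N = Q̄(j(q^d) : d ∣ N)` of `X₀(N)` over `Q̄` -/
abbrev FN (N : ℕ) : Type := modularFunctionFieldBar N

/-- the residue field `k = A/𝔪` -/
abbrev kA (A : ValuationSubring Qb) : Type := ResidueField A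

/-- the function field `F_{N,k} = k(j(q^d) : d ∣ N)` -/
abbrev FNk (A : ValuationSubring Qb) (N : ℕ) : Type := modularFunctionFieldFullC (kA A) N

/-- **RED-E (instantiation)**: a reduction datum on `(F_N, F_{N,k})` with good charts such that
* (link) every Prelude-integral series `y` (i.e. `y ∈ A((q)) ∩ F_N`, `ȳ ∈ F_{N,k}`, `ȳ ≠ 0`) lies
  in `O` and `ρ y = ȳ`;
* (galois) the decomposition group of `A` preserves `O` and fixes the coordinate `x`. -/
structure ModDatum (N : ℕ) (A : ValuationSubring Qb) where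
  /-- the datum -/
  G : Datum A (residue A) (FN N) (FNk A N)
  good : G.Good
  link : ∀ (y : LaurentSeries A) (hy : coeffMap A.subtype y ∈ modularFunctionFieldBar N)
    (hyk : coeffMap (residue A) y ∈ modularFunctionFieldFullC (kA A) N),
    coeffMap (residue A) y ≠ 0 →
    ∃ h : (⟨coeffMap A.subtype y, hy⟩ : FN N) ∈ G.O,
      G.ρ ⟨⟨coeffMap A.subtype y, hy⟩, h⟩ = ⟨coeffMap (residue A) y, hyk⟩
  galois_mem : ∀ σ ∈ A.decompositionSubgroup ℚ, ∀ f : FN N, f ∈ G.O →
    arithmeticGalois (modularFunctionFieldFull N) σ • f ∈ G.O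
  galois_x : ∀ σ : Qb ≃ₐ[ℚ] Qb, arithmeticGalois (modularFunctionFieldFull N) σ • G.x = G.x

/-- **RED-E1**: the abstract (i)+(ii) for a `ModDatum` give the Prelude's
`IsPlaceReductionModL`. -/
def IsPlaceReductionOfIsRedStatement : Prop :=
  ∀ (N : ℕ) (A : ValuationSubring Qb) (M : ModDatum N A)
    (r : Place Qb (FN N) → Place (kA A) (FNk A N)),
    IsRed M.G r → IsPlaceReductionModL A N r

/-- Everything the assembly needs to know about the place map `r` (level `N`). -/
structure PlaceRed (N : ℕ) [NeZero N] (A : ValuationSubring Qb) (ℓ : ℕ) [NeZero ℓ] where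
  /-- the place map -/
  r : Place Qb (FN N) → Place (kA A) (FNk A N)
  /-- (i), (ii) -/
  isRed : IsPlaceReductionModL A N r
  /-- (iii) -/
  pgi : PrincipalGeneratedByIntegral A (residue A) N
  /-- (III) inertia acts trivially after reduction -/
  inertia : ∀ τ ∈ A.inertiaSubgroupIn ℚ, ∀ P : Place Qb (FN N),
    r (arithmeticGalois (modularFunctionFieldFull N) τ • P) = r P
  /-- the coefficientwise Frobenius of `F_{N,k}` -/
  φ : SemilinearAut (kA A) (FNk A N)
  /-- (IV) Frobenius elements reduce to `φ` -/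
  frob : ∀ σ : Qb ≃ₐ[ℚ] Qb, A.IsFrobeniusAt σ ℓ → ∀ P : Place Qb (FN N),
    r (arithmeticGalois (modularFunctionFieldFull N) σ • P) = φ • r P
  /-- (V) pointwise Eichler–Shimura: `r_*(T_ℓ P) = φ(rP) + ℓ·φ⁻¹(rP)` -/
  es : ∀ (hα : HeckeAlphaBarIntegral Qb N ℓ) (hβ : HeckeBetaBarIntegral Qb N ℓ)
    [HasPrincipalDivisors Qb (laurentBaseChange Qb (modularFunctionFieldFull (N * ℓ)))]
    (P : Place Qb (FN N)),
    Finsupp.mapDomain r (heckeDivBar hα hβ (Finsupp.single P 1)) =
      Finsupp.single (φ • r P) 1 + Finsupp.single (φ⁻¹ • r P) (ℓ : ℤ)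
  /-- (S18 core, in the `r`-general form `DivisorCore` of helper94) -/
  inj : ∀ m : ℕ, m.Coprime ℓ → ∀ D : Divisor Qb (FN N),
    Divisor.degree D = 0 → Divisor.IsPrincipal (m • D) →
      Divisor.IsPrincipal (Finsupp.mapDomain r D) → Divisor.IsPrincipal D

/-- **RED-H (assembly, level `N`)**: reduction data for the frozen S37 from `PlaceRed` and
`HeckeInputsAlong` (`red := reductionPic0Along r`). -/
def AssemblyStatement : Prop :=
  ∀ (N : ℕ) [NeZero N] (A : ValuationSubring Qb) (ℓ : ℕ) (hℓ : ℓ.Prime),
    haveI : NeZero ℓ := ⟨hℓ.ne_zero⟩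
    HeckeInputsAlong Qb N ℓ → PlaceRed N A ℓ → Nonempty (H99.RedData N A ℓ hℓ)

end Fermat.Agent.S37.Red

end
end
-- ===== PACK-END S37/Red/SpecMod.lean

-- ===== PACK-BEGIN S37/H818/LocalGen.lean
section
/-
S37 / LEVEL TRANSFER (helper818), part 4: local generators exist (weak approximation), so the
hypothesis `HasLocalGenerators` of `BaseChange.lean` is automatic.
-/





set_option autoImplicit false
set_option linter.style.haveILetI false

noncomputable section

namespace Fermat.Agent.S37.H818

open AlgebraicCurve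

variable {K F F₁ : Type*} [Field K] [Field F] [Field F₁] [Algebra K F] [Algebra K F₁]

/-- Local generators always exist, by weak approximation on the (finite) fibre. -/
theorem hasLocalGenerators [HasPrincipalDivisors K F₁] (a : F →ₐ[K] F₁)
    (ha : a.toRingHom.IsIntegral) : HasLocalGenerators a ha := by
  classical
  intro w
  set S : Finset (Place K F₁) := Place.fiberAlong a ha (w.restrictAlong a ha) with hS
  have hwS : w ∈ S := Place.mem_fiberAlong.mpr rfl
  obtain ⟨z, hz⟩ := Fermat.Agent.Lib.RR.H623.weak_approximation S (fun _ => (0 : F₁))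
    (fun v => if v = w then 1 else 0)
  have hzw := hz w hwS
  simp only [sub_zero, if_true] at hzw
  refine ⟨z, hzw.1, by rw [hzw.2]; exact one_ne_zero, fun w' hw' hfib => ?_⟩
  have hw'S : w' ∈ S := Place.mem_fiberAlong.mpr hfib
  have := (hz w' hw'S).2
  simpa [sub_zero, if_neg hw'] using this

end Fermat.Agent.S37.H818

end

end
-- ===== PACK-END S37/H818/LocalGen.lean

-- ===== PACK-BEGIN S37/H818/PushPull.lean
section
/-
S37 / LEVEL TRANSFER (helper818), part 6: `i_* i^* = [G : F]` on divisors, from the norm formula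
alone; consequences: `SumRamificationInertia`, `FundamentalIdentityAlong`, and
`π^* x = 0 → [G:F] • x = 0` on `Pic0`.
-/




set_option autoImplicit false
set_option linter.style.haveILetI false

noncomputable section

namespace Fermat.Agent.S37.H818

open AlgebraicCurve

variable {K F G : Type*} [Field K] [Field F] [Field G] [Algebra K F] [Algebra K G]

section

variable (i : F →ₐ[K] G) (hi : i.toRingHom.IsIntegral)
variable [HasPrincipalDivisors K G]

/-- The defect of `i_* i^* = d`. -/
def ppDefect : Divisor K F →+ Divisor K F :=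
  (Divisor.pushforwardAlong i hi).comp (Divisor.pullbackAlong i hi) -
    (finrankAlong K i : ℤ) • AddMonoidHom.id (Divisor K F)

theorem ppDefect_apply (D : Divisor K F) :
    ppDefect i hi D =
      Divisor.pushforwardAlong i hi (Divisor.pullbackAlong i hi D) - (finrankAlong K i : ℤ) • D :=
  rfl

theorem ppDefect_single_apply_of_ne (v : Place K F) (n : ℤ) (u : Place K F) (hu : u ≠ v) :
    ppDefect i hi (Finsupp.single v n) u = 0 := by
  classical
  rw [ppDefect_apply, Finsupp.sub_apply, Finsupp.smul_apply, Finsupp.single_eq_of_ne hu,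
    smul_zero, sub_zero, Divisor.pullbackAlong_single, map_sum, Finset.sum_apply']
  refine Finset.sum_eq_zero fun W hW => ?_
  rw [Divisor.pushforwardAlong_single]
  refine Finsupp.single_eq_of_ne ?_
  rw [Place.mem_fiberAlong.mp hW]
  exact hu

theorem ppDefect_principal (hfin : FiniteAlong K i) (hN : NormFormulaAlong K i hfin)
    {f : F} (hf : f ≠ 0) {D : Divisor K F} (hD : ∀ v, D v = v.ord f) :
    ppDefect i hi D = 0 := by
  rw [ppDefect_apply, sub_eq_zero]
  ext u
  have hD' : ∀ W : Place K G, Divisor.pullbackAlong i hi D W = W.ord (i f) := by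
    intro W
    letI := algebraAlong i
    haveI := isScalarTower_along i
    haveI := isIntegral_along i hi
    exact Divisor.pullback_apply_eq_ord (F' := G) hD W
  have h1 : Divisor.pushforwardAlong i hi (Divisor.pullbackAlong i hi D) u =
      u.ord (f ^ finrankAlong K i) := by
    letI := algebraAlong i
    haveI := isScalarTower_along i
    haveI := isIntegral_along i hi
    haveI : Module.Finite F G := hfin
    have hf' : i f ≠ 0 := by simpa using hf
    have := hN (i f) hf' _ hD' u
    rw [show Divisor.pushforwardAlong i hi (Divisor.pullbackAlong i hi D) =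
      Divisor.pushforward F (Divisor.pullbackAlong i hi D) from rfl, this]
    have hnorm : Algebra.norm F (i f) = f ^ Module.finrank F G :=
      Algebra.norm_algebraMap (S := G) f
    rw [hnorm]
    rfl
  rw [h1, Finsupp.smul_apply, hD, smul_eq_mul]
  have := u.ord_zpow f (finrankAlong K i : ℤ)
  rwa [zpow_natCast] at this

variable [HasPrincipalDivisors K F]

/-- `i_* i^* = [G : F]` on divisors. -/
theorem pushforward_pullback_eq (hfin : FiniteAlong K i) (hN : NormFormulaAlong K i hfin)
    (D : Divisor K F) :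
    Divisor.pushforwardAlong i hi (Divisor.pullbackAlong i hi D) = (finrankAlong K i : ℤ) • D := by
  classical
  rw [← sub_eq_zero, ← ppDefect_apply]
  set δ := ppDefect i hi with hδ
  suffices h : ∀ w : Place K F, δ (Finsupp.single w 1) = 0 by
    induction D using Finsupp.induction with
    | zero => simp
    | single_add w n D _ _ ih =>
      rw [map_add, ih, add_zero]
      have : Finsupp.single w n = n • Finsupp.single w (1 : ℤ) := by
        rw [Finsupp.smul_single, smul_eq_mul, mul_one]
      rw [this, map_zsmul, h w, smul_zero]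
  intro w₀
  ext u
  rw [Finsupp.zero_apply]
  by_cases hu : u = w₀
  swap
  · exact ppDefect_single_apply_of_ne i hi w₀ 1 u hu
  subst hu
  obtain ⟨f, hf0, hfu⟩ := exists_ord_eq_one u
  obtain ⟨D, hD, -⟩ := HasPrincipalDivisors.exists_divisor (K := K) f hf0
  have h0 : δ D = 0 := ppDefect_principal i hi hfin hN hf0 hD
  have hsum : δ D u = ∑ w ∈ D.support, δ (Finsupp.single w (D w)) u := by
    conv_lhs => rw [← Finsupp.sum_single D]
    rw [Finsupp.sum, map_sum, Finset.sum_apply']
  have hu₀ : u ∈ D.support := by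
    rw [Finsupp.mem_support_iff, hD, hfu]
    exact one_ne_zero
  rw [Finset.sum_eq_single_of_mem u hu₀ (fun w _ hw =>
    ppDefect_single_apply_of_ne i hi w (D w) u (Ne.symm hw)), h0, Finsupp.zero_apply, hD,
    hfu] at hsum
  exact hsum.symm

/-- The fundamental identity `∑ e f = n` follows from the norm formula. -/
theorem fundamentalIdentityAlong_of_normFormula (hfin : FiniteAlong K i)
    (hN : NormFormulaAlong K i hfin) : FundamentalIdentityAlong K i hi := by
  classical
  letI := algebraAlong i
  haveI := isScalarTower_along i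
  haveI := isIntegral_along i hi
  refine ⟨fun v => ?_⟩
  have h := congrArg Divisor.degree (pushforward_pullback_eq i hi hfin hN (Finsupp.single v 1))
  rw [Divisor.degree_pushforwardAlong, map_zsmul, Divisor.degree_single, one_mul,
    show Divisor.pullbackAlong i hi (Finsupp.single v 1) =
      Divisor.pullback G (Finsupp.single v 1) from rfl,
    Divisor.pullback_single, map_sum] at h
  simp only [Divisor.degree_single, one_mul, smul_eq_mul] at h
  rw [h]
  rfl

/-- `π^* x = 0` implies `[G : F] • x = 0`. -/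
theorem nsmul_eq_zero_of_pullbackPic0Along_eq_zero (hfin : FiniteAlong K i)
    (hN : NormFormulaAlong K i hfin) (hFI : FundamentalIdentityAlong K i hi)
    (x : Pic0 K F) (hx : pullbackPic0Along i hi hFI x = 0) :
    (finrankAlong K i) • x = 0 := by
  obtain ⟨D, rfl⟩ := Pic0.mk_surjective x
  rw [pullbackPic0Along_mk] at hx
  have hprin : Divisor.IsPrincipal (Divisor.pullbackAlong i hi (D : Divisor K F)) := by
    have := (QuotientAddGroup.eq_zero_iff _).mp hx
    rw [AddSubgroup.mem_addSubgroupOf] at this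
    exact this
  have hpush := Divisor.isPrincipal_pushforwardAlong i hi hfin hN hprin
  rw [pushforward_pullback_eq i hi hfin hN] at hpush
  have : (finrankAlong K i) • (Pic0.mk D) = Pic0.mk ((finrankAlong K i) • D) := rfl
  rw [this]
  refine (QuotientAddGroup.eq_zero_iff _).mpr ?_
  rw [AddSubgroup.mem_addSubgroupOf]
  have hcoe : (((finrankAlong K i) • D : Divisor.degZero (K := K) (F := F)) : Divisor K F) =
      (finrankAlong K i : ℤ) • (D : Divisor K F) := by
    rw [AddSubgroupClass.coe_nsmul, natCast_zsmul]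
  rw [hcoe]
  exact hpush

end

end Fermat.Agent.S37.H818

end

end
-- ===== PACK-END S37/H818/PushPull.lean

-- ===== PACK-BEGIN S37/H818/GaloisEquiv.lean
section
/-
S37 / LEVEL TRANSFER (helper818), part 7: pullback of divisors / `Pic0` classes along `i`
commutes with intertwined semilinear automorphisms (Galois equivariance of `π^*`).
-/




set_option autoImplicit false
set_option linter.style.haveILetI false

noncomputable section

namespace Fermat.Agent.S37.H818

open AlgebraicCurve
open scoped Pointwise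

variable {K F G : Type*} [Field K] [Field F] [Field G] [Algebra K F] [Algebra K G]

section

variable (i : F →ₐ[K] G) (hi : i.toRingHom.IsIntegral)
  {g : SemilinearAut K F} {g' : SemilinearAut K G}
  (h : SemilinearAut.IntertwinesAlong (i : F →+* G) g g')

theorem mem_restrictAlong_iff (W : Place K G) (x : F) :
    x ∈ (W.restrictAlong i hi).toValuationSubring ↔ i x ∈ W.toValuationSubring := Iff.rfl

include h in
theorem restrictAlong_smul (W : Place K G) :
    (g' • W).restrictAlong i hi = g • (W.restrictAlong i hi) := by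
  apply Place.ext
  ext x
  rw [mem_restrictAlong_iff, SemilinearAut.smul_toValuationSubring,
    SemilinearAut.smul_toValuationSubring,
    ValuationSubring.mem_pointwise_smul_iff_inv_smul_mem,
    ValuationSubring.mem_pointwise_smul_iff_inv_smul_mem, mem_restrictAlong_iff]
  have := h.inv x
  simp only [RingHom.coe_coe] at this
  rw [this]

include h hi in
theorem ramificationIndexAlong_smul (W : Place K G) :
    Place.ramificationIndexAlong i (g' • W) = Place.ramificationIndexAlong i W := by
  obtain ⟨f, -, hf⟩ := exists_ord_eq_one (W.restrictAlong i hi)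
  have h1 := Place.ord_restrictAlong i hi W f
  rw [hf, mul_one] at h1
  have h2 := Place.ord_restrictAlong i hi (g' • W) (g • f)
  rw [restrictAlong_smul i hi h W, SemilinearAut.ord_smul, hf, mul_one] at h2
  have h3 : i (g • f) = g' • (i f) := by
    have := h f
    simp only [RingHom.coe_coe] at this
    exact this.symm
  rw [h3, SemilinearAut.ord_smul, h1] at h2
  exact_mod_cast h2.symm

variable [HasPrincipalDivisors K G]

include h in
/-- Pullback of divisors is equivariant. -/
theorem pullbackAlong_smul (D : Divisor K F) :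
    Divisor.pullbackAlong i hi (g • D) = g' • Divisor.pullbackAlong i hi D := by
  ext W
  rw [Divisor.pullbackAlong_apply, SemilinearAut.divisor_smul_apply,
    SemilinearAut.divisor_smul_apply, Divisor.pullbackAlong_apply,
    restrictAlong_smul i hi h.inv W, ramificationIndexAlong_smul i hi h.inv W]

include h in
/-- `π^*` is equivariant on `Pic0`. -/
theorem pullbackPic0Along_smul (hFI : FundamentalIdentityAlong K i hi) (x : Pic0 K F) :
    pullbackPic0Along i hi hFI (g • x) = g' • pullbackPic0Along i hi hFI x := by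
  obtain ⟨D, rfl⟩ := Pic0.mk_surjective x
  rw [SemilinearAut.pic0_smul_mk, pullbackPic0Along_mk, pullbackPic0Along_mk,
    SemilinearAut.pic0_smul_mk]
  congr 1
  apply Subtype.ext
  simp only [coe_pullbackDegZeroAlong, SemilinearAut.coe_degZeroSMulHom]
  exact pullbackAlong_smul i hi h D

end

end Fermat.Agent.S37.H818

end

end
-- ===== PACK-END S37/H818/GaloisEquiv.lean

-- ===== PACK-BEGIN S37/H818/Modular.lean
section
/-
S37 / LEVEL TRANSFER (helper818), part 8: instantiation at the modular function fields.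

Levels `N`, `M = N * k`, Hecke prime `ℓ`.  `π^* : Pic0(F_N) → Pic0(F_{N k})` is the pullback
along the Prelude's `heckeAlphaBar L N k` (inclusion of function fields).
-/








set_option autoImplicit false
set_option linter.style.haveILetI false

noncomputable section

namespace Fermat.Agent.S37.H818

open AlgebraicCurve ModularCurve IntermediateField

variable (L : Type*) [Field L] [Algebra ℚ L]

/-- Monotonicity of `laurentBaseChange` (the Prelude's version is private). -/
theorem laurentBaseChange_mono {F₀ F₁ : IntermediateField ℚ (LaurentSeries ℚ)}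
    (h : F₀ ≤ F₁) : laurentBaseChange L F₀ ≤ laurentBaseChange L F₁ := by
  rw [laurentBaseChange, IntermediateField.adjoin_le_iff]
  rintro _ ⟨y, hy, rfl⟩
  exact coeffEmb_mem_laurentBaseChange L (h hy)

/-- The function field of level `N` over `L`. -/
abbrev FB (N : ℕ) : IntermediateField L (LaurentSeries L) :=
  laurentBaseChange L (modularFunctionFieldFull N)

/-- Inclusion of function fields for `N ∣ M`. -/
def degenIncl {N M : ℕ} [NeZero N] [NeZero M] (h : N ∣ M) : FB L N →ₐ[L] FB L M :=
  IntermediateField.inclusion (laurentBaseChange_mono L (full_degeneracy_le h))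

@[simp]
theorem coe_degenIncl {N M : ℕ} [NeZero N] [NeZero M] (h : N ∣ M) (x : FB L N) :
    (degenIncl L h x : LaurentSeries L) = (x : LaurentSeries L) :=
  IntermediateField.coe_inclusion _ x

variable (N k ℓ : ℕ) [NeZero N] [NeZero k] [NeZero ℓ]

omit [NeZero N] [NeZero k] [NeZero ℓ] in
theorem dvd_aux : N * ℓ ∣ N * k * ℓ := ⟨k, by ring⟩

/-- The degeneracy map at level `N ℓ`:  `F_{Nℓ} ⊂ F_{(N k) ℓ}`. -/
def degenTop : FB L (N * ℓ) →ₐ[L] FB L (N * k * ℓ) := degenIncl L (dvd_aux N k ℓ)

theorem square_alpha :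
    (degenTop L N k ℓ).comp (heckeAlphaBar L N ℓ) =
      (heckeAlphaBar L (N * k) ℓ).comp (heckeAlphaBar L N k) := by
  refine AlgHom.ext fun x => Subtype.ext ?_
  rw [AlgHom.comp_apply, AlgHom.comp_apply, degenTop, coe_degenIncl, coe_heckeAlphaBar,
    coe_heckeAlphaBar, coe_heckeAlphaBar]

theorem square_beta :
    (degenTop L N k ℓ).comp (heckeBetaBar L N ℓ) =
      (heckeBetaBar L (N * k) ℓ).comp (heckeAlphaBar L N k) := by
  refine AlgHom.ext fun x => Subtype.ext ?_
  rw [AlgHom.comp_apply, AlgHom.comp_apply, degenTop, coe_degenIncl, coe_heckeBetaBar,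
    coe_heckeBetaBar, coe_heckeAlphaBar]

variable {L N k ℓ}

/-- **`π^* ∘ T_ℓ^{(N)} = T_ℓ^{(N k)} ∘ π^*`** for the Prelude's Hecke operators, given the Hecke
inputs at both levels and norm compatibility of the `α`-square. -/
theorem pullback_heckeOperatorAlong
    (hN : HeckeInputsAlong L N ℓ) (hM : HeckeInputsAlong L (N * k) ℓ)
    [HasPrincipalDivisors L (FB L (N * k))]
    (hi : (heckeAlphaBar L N k).toRingHom.IsIntegral)
    (hFIi : FundamentalIdentityAlong L (heckeAlphaBar L N k) hi)
    (hi₁ : (degenTop L N k ℓ).toRingHom.IsIntegral)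
    (hnorm : NormCompat (heckeAlphaBar L N ℓ) (heckeAlphaBar L N k)
      (heckeAlphaBar L (N * k) ℓ) (degenTop L N k ℓ))
    (x : Pic0 L (FB L N)) :
    pullbackPic0Along (heckeAlphaBar L N k) hi hFIi (heckeOperatorAlong L N ℓ x) =
      heckeOperatorAlong L (N * k) ℓ (pullbackPic0Along (heckeAlphaBar L N k) hi hFIi x) := by
  obtain ⟨hα, hβ, hP, hfin, hFI, hNF⟩ := hN
  obtain ⟨hα', hβ', hP', hfin', hFI', hNF'⟩ := hM
  haveI := hP
  haveI := hP'
  rw [heckeOperatorAlong_eq hα hβ hFI hfin hNF, heckeOperatorAlong_eq hα' hβ' hFI' hfin' hNF']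
  exact pullbackPic0Along_correspondence (heckeAlphaBar L N ℓ) (heckeBetaBar L N ℓ)
    (heckeAlphaBar L N k) (heckeAlphaBar L (N * k) ℓ) (heckeBetaBar L (N * k) ℓ)
    (degenTop L N k ℓ) hα hβ hi hα' hβ' hi₁ (square_alpha L N k ℓ) (square_beta L N k ℓ)
    hFI hfin hNF hFI' hfin' hNF' hFIi hnorm (hasLocalGenerators _ hα) x

/-- The arithmetic Galois actions at levels `N` and `M` are intertwined by the inclusion. -/
theorem intertwines_degenIncl {N M : ℕ} [NeZero N] [NeZero M] (h : N ∣ M) (σ : L ≃ₐ[ℚ] L) :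
    SemilinearAut.IntertwinesAlong (degenIncl L h : FB L N →+* FB L M)
      (arithmeticGalois (modularFunctionFieldFull N) σ)
      (arithmeticGalois (modularFunctionFieldFull M) σ) := by
  intro x
  apply Subtype.ext
  rw [RingHom.coe_coe, coe_arithmeticGalois_smul, coe_degenIncl, coe_degenIncl,
    coe_arithmeticGalois_smul]

theorem intertwines_heckeAlphaBar (σ : L ≃ₐ[ℚ] L) :
    SemilinearAut.IntertwinesAlong (heckeAlphaBar L N k : FB L N →+* FB L (N * k))
      (arithmeticGalois (modularFunctionFieldFull N) σ)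
      (arithmeticGalois (modularFunctionFieldFull (N * k)) σ) := by
  intro x
  apply Subtype.ext
  rw [RingHom.coe_coe, coe_arithmeticGalois_smul, coe_heckeAlphaBar, coe_heckeAlphaBar,
    coe_arithmeticGalois_smul]

/-- `π^*` is Galois equivariant. -/
theorem pullbackPic0Along_galois [HasPrincipalDivisors L (FB L (N * k))]
    (hi : (heckeAlphaBar L N k).toRingHom.IsIntegral)
    (hFIi : FundamentalIdentityAlong L (heckeAlphaBar L N k) hi)
    (σ : L ≃ₐ[ℚ] L) (x : Pic0 L (FB L N)) :
    pullbackPic0Along (heckeAlphaBar L N k) hi hFIi (σ • x) =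
      σ • pullbackPic0Along (heckeAlphaBar L N k) hi hFIi x :=
  pullbackPic0Along_smul (heckeAlphaBar L N k) hi (intertwines_heckeAlphaBar σ) hFIi x

end Fermat.Agent.S37.H818

end

end
-- ===== PACK-END S37/H818/Modular.lean

-- ===== PACK-BEGIN S19/Top.lean
section



/-!
# Cell A3 (S19) — top assembly: frozen S19 from the five open blocks

    ORD   : OrdStatement      (pure algebra:  OrderDatum ==> Hopf model)
    FIN   : FinStatement      (torsion finite)
    UNR   : UnrStatement      (pure algebra:  local coordinates ==> global coordinates)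
    LOCAL : LocalStatement    (DISC + GR: local coordinates at good levels)
    LEVEL : LevelStatement    (ℓ = 2, 3: conorm embedding into a good level)

CONT is proved (`contStatement`, from FINLEVEL of helper571).
-/

set_option autoImplicit false

namespace Fermat.Agent.S19

/-- ORDER from the open blocks. -/
theorem orderStatement_of_blocks (hfin : FinStatement) (hunr : UnrStatement)
    (hlocal : LocalStatement) (hlevel : LevelStatement) : OrderStatement :=
  orderStatement_of_good (orderStatementGood_of hfin contStatement hunr hlocal) hlevel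

/-- **Top assembly**: frozen S19 from ORD, FIN, UNR, LOCAL, LEVEL. -/
theorem S19_of_five (hord : OrdStatement) (hfin : FinStatement) (hunr : UnrStatement)
    (hlocal : LocalStatement) (hlevel : LevelStatement)
    (p : ℕ) [NeZero p] (ℓ : ℕ) [Fact ℓ.Prime] (hℓp : ¬ ℓ ∣ p) (k : ℕ) :
    FrozenConclusion p ℓ k :=
  S19_of_blocks hord hfin (orderStatement_of_blocks hfin hunr hlocal hlevel) p ℓ hℓp k

end Fermat.Agent.S19

end
-- ===== PACK-END S19/Top.lean

-- ===== PACK-BEGIN S19/H19/Equivariant.lean
section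
/-
A3 / S19, helper19 — piece ORD, part 6: Galois-equivariant orders over a subring of `ℚ`.

`R ⊂ ℚ` a principal ideal ring which is integrally closed in `ℚ`; `M` a finite abelian group with
an action of `G_ℚ` fixing `0`; `H ⊂ (M → ℚ̄)` a finitely generated `R`-subalgebra of equivariant
functions, separating points, with `f(s+t) ∈ im (H ⊗ H)`.  Then `H` is a finite flat commutative
cocommutative Hopf algebra over `R` with `H(ℚ̄) = M`, Galois-equivariantly.  Mathlib only.
-/



set_option autoImplicit false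
set_option linter.unusedSectionVars false
set_option linter.style.haveILetI false

noncomputable section

namespace Fermat.Agent.S19.H19

open scoped BigOperators TensorProduct

variable (R : Subring ℚ)

theorem algebraMap_subring_injective : Function.Injective (algebraMap R _root_.Fermat.Agent.S19.H19.Qb) := by
  have h1 : (algebraMap R _root_.Fermat.Agent.S19.H19.Qb : R → _root_.Fermat.Agent.S19.H19.Qb) = (algebraMap ℚ _root_.Fermat.Agent.S19.H19.Qb) ∘ (Subtype.val : R → ℚ) := by
    funext x
    rfl
  rw [h1]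
  exact (algebraMap ℚ _root_.Fermat.Agent.S19.H19.Qb).injective.comp Subtype.val_injective

theorem mem_range_of_fixed_of_isIntegral (hR : ∀ q : ℚ, IsIntegral R q → q ∈ R) (x : _root_.Fermat.Agent.S19.H19.Qb)
    (hfix : ∀ σ : _root_.Fermat.Agent.S19.H19.GalQ, σ x = x) (hint : IsIntegral R x) : x ∈ (Algebra.ofId R _root_.Fermat.Agent.S19.H19.Qb).range := by
  obtain ⟨q, hq⟩ := exists_rat_of_fixed x hfix
  have h1 : IsIntegral R q := by
    rw [← hq] at hint
    exact (isIntegral_algebraMap_iff (algebraMap ℚ _root_.Fermat.Agent.S19.H19.Qb).injective).mp hint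
  exact ⟨⟨q, hR q h1⟩, hq⟩

variable {M : Type}

section Good

variable {act : _root_.Fermat.Agent.S19.H19.GalQ → M → M}

theorem isTorsionFree_subalgebra (H : Subalgebra R (M → _root_.Fermat.Agent.S19.H19.Qb)) : Module.IsTorsionFree R H := by
  rw [Module.isTorsionFree_iff_smul_eq_zero]
  intro r f hrf
  by_cases hr : r = 0
  · exact Or.inl hr
  · right
    apply Subtype.ext
    funext m
    have h1 : (r • (f : M → _root_.Fermat.Agent.S19.H19.Qb)) m = 0 := by
      have := congrArg (fun g : H => (g : M → _root_.Fermat.Agent.S19.H19.Qb) m) hrf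
      exact this
    rw [Pi.smul_apply, Algebra.smul_def, mul_eq_zero] at h1
    rcases h1 with h1 | h1
    · exact absurd (algebraMap_subring_injective R (h1.trans (map_zero _).symm)) hr
    · exact h1

theorem good_of_equivariant [IsPrincipalIdealRing R]
    (hone : ∀ m, act 1 m = m) (hact : ∀ σ τ m, act σ (act τ m) = act (σ * τ) m)
    (H : Subalgebra R (M → _root_.Fermat.Agent.S19.H19.Qb)) (hequiv : ∀ f ∈ H, IsEquivariant act f)
    (hfg : (Subalgebra.toSubmodule H).FG) : Good H.val := by
  haveI : Module.Finite R H := Module.Finite.iff_fg.mpr hfg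
  haveI : Module.IsTorsionFree R H := isTorsionFree_subalgebra R H
  haveI : Module.Free R H := Module.free_of_finite_type_torsion_free'
  let b := Module.Free.chooseBasis R H
  refine ⟨Module.Free.ChooseBasisIndex R H, inferInstance, b, ?_⟩
  apply linearIndependent_of_equivariant hone hact
  · intro i
    exact hequiv _ (b i).2
  · -- `ℚ`-linear independence
    have h1 : LinearIndependent R (fun i => H.val (b i)) :=
      b.linearIndependent.map' H.val.toLinearMap (LinearMap.ker_eq_bot.mpr Subtype.val_injective)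
    have h2 : LinearIndependent ℤ (fun i => H.val (b i)) := by
      refine LinearIndependent.restrict_scalars (K := R) ?_ h1
      intro x y hxy
      simp only [zsmul_eq_mul, mul_one] at hxy
      exact_mod_cast hxy
    exact LinearIndependent.localization ℚ (nonZeroDivisors ℤ) h2

end Good

section Main

variable [AddCommGroup M] [Finite M] {act : _root_.Fermat.Agent.S19.H19.GalQ → M → M}

theorem counit_mem_of_equivariant (hR : ∀ q : ℚ, IsIntegral R q → q ∈ R)
    (hzero : ∀ σ, act σ 0 = 0)
    (H : Subalgebra R (M → _root_.Fermat.Agent.S19.H19.Qb)) (hequiv : ∀ f ∈ H, IsEquivariant act f)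
    (hfg : (Subalgebra.toSubmodule H).FG) :
    ∀ f ∈ H, f 0 ∈ (Algebra.ofId R _root_.Fermat.Agent.S19.H19.Qb).range := by
  intro f hf
  haveI : Module.Finite R H := Module.Finite.iff_fg.mpr hfg
  apply mem_range_of_fixed_of_isIntegral R hR
  · intro σ
    rw [← hequiv f hf σ 0, hzero]
  · have h1 : IsIntegral R (⟨f, hf⟩ : H) := Algebra.IsIntegral.isIntegral _
    exact h1.map (IsOrder.evPt H 0)

/-- A finitely generated, equivariant subalgebra closed under `f ↦ f(s+t)` is an order. -/
theorem isOrder_of_equivariant [IsPrincipalIdealRing R]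
    (hR : ∀ q : ℚ, IsIntegral R q → q ∈ R)
    (hone : ∀ m, act 1 m = m) (hact : ∀ σ τ m, act σ (act τ m) = act (σ * τ) m)
    (hzero : ∀ σ, act σ 0 = 0)
    (H : Subalgebra R (M → _root_.Fermat.Agent.S19.H19.Qb)) (hequiv : ∀ f ∈ H, IsEquivariant act f)
    (hfg : (Subalgebra.toSubmodule H).FG)
    (hcomul : ∀ f ∈ H, (fun p : M × M => f (p.1 + p.2)) ∈ (prodMap H.val H.val).range) :
    IsOrder H where
  alg_inj := algebraMap_subring_injective R
  good := good_of_equivariant R hone hact H hequiv hfg
  comul_mem := hcomul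
  counit_mem := counit_mem_of_equivariant R hR hzero H hequiv hfg
  anti_mem := neg_mem_of_comul_mem H hcomul (counit_mem_of_equivariant R hR hzero H hequiv hfg)

/-- **Piece ORD, Galois form.** -/
theorem exists_hopf_of_equivariant_order [IsPrincipalIdealRing R]
    (hR : ∀ q : ℚ, IsIntegral R q → q ∈ R)
    (hone : ∀ m, act 1 m = m) (hact : ∀ σ τ m, act σ (act τ m) = act (σ * τ) m)
    (hzero : ∀ σ, act σ 0 = 0)
    (H : Subalgebra R (M → _root_.Fermat.Agent.S19.H19.Qb)) (hequiv : ∀ f ∈ H, IsEquivariant act f)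
    (hfg : (Subalgebra.toSubmodule H).FG)
    (hsep : ∀ m m' : M, m ≠ m' → ∃ f ∈ H, f m ≠ f m')
    (hcomul : ∀ f ∈ H, (fun p : M × M => f (p.1 + p.2)) ∈ (prodMap H.val H.val).range) :
    ∃ (H' : Type) (_ : CommRing H') (_ : HopfAlgebra R H'),
      Module.Finite R H' ∧ Module.Flat R H' ∧ Coalgebra.IsCocomm R H' ∧
      ∃ e : WithConv (H' →ₐ[R] _root_.Fermat.Agent.S19.H19.Qb) ≃ M, (∀ f g, e (f * g) = e f + e g) ∧
        ∀ (σ : _root_.Fermat.Agent.S19.H19.GalQ) (f g : WithConv (H' →ₐ[R] _root_.Fermat.Agent.S19.H19.Qb)),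
          (∀ h : H', g h = σ (f h)) → e g = act σ (e f) := by
  obtain ⟨H', i1, i2, h1, h2, h3, e, he1, he2⟩ := exists_hopf_of_isOrder
    (isOrder_of_equivariant R hR hone hact hzero H hequiv hfg hcomul) hsep
  exact ⟨H', i1, i2, h1, h2, h3, e, he1, fun σ f g hfg =>
    he2 σ (act σ) (fun h hh m => hequiv h hh σ m) f g hfg⟩

end Main

end Fermat.Agent.S19.H19

end

end
-- ===== PACK-END S19/H19/Equivariant.lean

-- ===== PACK-BEGIN S19/H19/Torsion.lean
section
/-
A3 / S19, helper19 — piece ORD, part 7: orders on the torsion of a Galois module.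

`J` an abelian group with an additive action of `G_ℚ`, `T = J[n]`.  A finitely generated
equivariant `R`-subalgebra of functions `T → ℚ̄` separating points and closed under
`f ↦ f(s+t)` yields exactly the conclusion of the frozen statement S19 (for `J = J₀(N)`,
`R = ℤ_(ℓ)`).  Mathlib only.
-/


set_option autoImplicit false
set_option linter.unusedSectionVars false
set_option linter.style.haveILetI false

noncomputable section

namespace Fermat.Agent.S19.H19

open scoped BigOperators TensorProduct

/-- A principal ideal subring of `ℚ` is integrally closed in `ℚ`. -/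
theorem mem_of_isIntegral_of_pid (R : Subring ℚ) [IsPrincipalIdealRing R] (q : ℚ)
    (hq : IsIntegral R q) : q ∈ R := by
  haveI : FaithfulSMul R ℚ :=
    (faithfulSMul_iff_algebraMap_injective R ℚ).mpr Subtype.val_injective
  haveI : IsFractionRing R ℚ := by
    apply IsFractionRing.of_field
    intro z
    refine ⟨⟨(z.num : ℚ), intCast_mem R z.num⟩, ⟨(z.den : ℚ), natCast_mem R z.den⟩, ?_⟩
    exact (Rat.num_div_den z).symm
  obtain ⟨y, hy⟩ := (IsIntegrallyClosed.isIntegral_iff (R := R) (K := ℚ)).mp hq
  rw [← hy]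
  exact y.2

section Torsion

variable {J : Type} [AddCommGroup J] [DistribMulAction _root_.Fermat.Agent.S19.H19.GalQ J] (n : ℤ)

/-- The Galois action on the `n`-torsion. -/
def torsionAct (σ : _root_.Fermat.Agent.S19.H19.GalQ) (m : Submodule.torsionBy ℤ J n) : Submodule.torsionBy ℤ J n :=
  ⟨σ • (m : J), by
    have hm := m.2
    rw [Submodule.mem_torsionBy_iff] at hm ⊢
    have h1 : n • (σ • (m : J)) = σ • (n • (m : J)) :=
      (map_zsmul (DistribSMul.toAddMonoidHom J σ) n (m : J)).symm
    rw [h1, hm, smul_zero]⟩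

@[simp] theorem coe_torsionAct (σ : _root_.Fermat.Agent.S19.H19.GalQ) (m : Submodule.torsionBy ℤ J n) :
    ((torsionAct n σ m : Submodule.torsionBy ℤ J n) : J) = σ • (m : J) := rfl

/-- **Piece ORD for torsion modules**: the S19-shaped conclusion from an order. -/
theorem exists_hopf_torsion (R : Subring ℚ) [IsPrincipalIdealRing R]
    [Finite (Submodule.torsionBy ℤ J n)]
    (H : Subalgebra R (Submodule.torsionBy ℤ J n → _root_.Fermat.Agent.S19.H19.Qb))
    (hequiv : ∀ f ∈ H, ∀ (σ : _root_.Fermat.Agent.S19.H19.GalQ) (m : Submodule.torsionBy ℤ J n),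
      f (torsionAct n σ m) = σ (f m))
    (hfg : (Subalgebra.toSubmodule H).FG)
    (hsep : ∀ m m' : Submodule.torsionBy ℤ J n, m ≠ m' → ∃ f ∈ H, f m ≠ f m')
    (hcomul : ∀ f ∈ H, (fun p : Submodule.torsionBy ℤ J n × Submodule.torsionBy ℤ J n =>
      f (p.1 + p.2)) ∈ (prodMap H.val H.val).range) :
    ∃ (H' : Type) (_ : CommRing H') (_ : HopfAlgebra R H'),
      Module.Finite R H' ∧ Module.Flat R H' ∧ Coalgebra.IsCocomm R H' ∧
      ∃ e : WithConv (H' →ₐ[R] AlgebraicClosure ℚ) ≃ ↥(Submodule.torsionBy ℤ J n),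
        (∀ f g, e (f * g) = e f + e g) ∧
        ∀ (σ : AlgebraicClosure ℚ ≃ₐ[ℚ] AlgebraicClosure ℚ)
          (f g : WithConv (H' →ₐ[R] AlgebraicClosure ℚ)),
          (∀ h : H', g h = σ (f h)) → ((e g : J)) = σ • (e f : J) := by
  obtain ⟨H', i1, i2, h1, h2, h3, e, he1, he2⟩ :=
    exists_hopf_of_equivariant_order (act := torsionAct (J := J) n) R
      (mem_of_isIntegral_of_pid R)
      (fun m => Subtype.ext (one_smul _root_.Fermat.Agent.S19.H19.GalQ (m : J)))
      (fun σ τ m => Subtype.ext (mul_smul σ τ (m : J)).symm)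
      (fun σ => Subtype.ext (smul_zero σ))
      H hequiv hfg hsep hcomul
  exact ⟨H', i1, i2, h1, h2, h3, e, he1, fun σ f g hfg =>
    congrArg Subtype.val (he2 σ f g hfg)⟩

end Torsion

end Fermat.Agent.S19.H19

end

end
-- ===== PACK-END S19/H19/Torsion.lean

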