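import Mathlib
import Fermat.Prelude.Def_ModularCurve_X0ModL
import Fermat.Agent.Pack.S3234.G4E1L1
import Fermat.Agent.Pack.S3234.G0E3L2
import Fermat.Agent.Pack.S3234.G4E1L0
import Fermat.Agent.Pack.S3234.G4E0L1
import Fermat.Agent.Pack.S3234.G0E4L1
import Fermat.Agent.Pack.S3234.G0E5L3
import Fermat.Agent.Pack.S3234.G4E1L2
import Fermat.Agent.Pack.S3234.G0E1L3
import Fermat.Agent.Pack.S3234.G4E0L2
import Fermat.Agent.Pack.S3234.G4E1L3
import Fermat.Agent.Pack.S3234.G0E5L2
import Fermat.Agent.Pack.S3234.G4E0L3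

-- ===== PACK-BEGIN S32/H692/RelCore.lean
section
/-
Row S32 (flat at `p`), piece REL (helper692) — core.

`rel_of_chebWeak : S30.H990.ChebWeak → RelStatement`.

At a local `p`-adic point `P` of the coefficient ring `T` of a Hecke–Galois datum `H`, EVERY
`g ∈ G_ℚ` satisfies on an adic eigenmodule `E` of `P.χ ∘ H.π` the characteristic polynomial of
`H.ρ g`, specialised at `P`:
`E.ρ g ^ 2 - P.χ (tr H.ρ g) • E.ρ g + P.χ (det H.ρ g) = 0`.

Proof: modulo `𝔪 ^ n` (Frobenius division on a common finite level of `E.ρ mod 𝔪 ^ n` and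
`H.ρ mod 𝔪_T ^ n`, explicit Lucas sequence `powTr`, `H.charpoly_frob`), then Krull.
-/





set_option autoImplicit false

namespace Fermat.Agent.S32.H692

open IsLocalRing Polynomial Fermat.Agent.S19 Fermat.Agent.S31 Fermat.Agent.S31.H982

section Lucas

variable {R A : Type*} [CommRing R] [Ring A] [Algebra R A]

/-- Explicit Lucas: if `h` satisfies `X² - aX + b`, then `h ^ j` satisfies
`X² - (powTr a b j) X + b ^ j`. -/
theorem lucas_powTr (h : A) (a b : R) (hrel : h * h - a • h + b • (1 : A) = 0) (j : ℕ) :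
    h ^ j * h ^ j - powTr a b j • h ^ j + (b ^ j) • (1 : A) = 0 := by
  set k : A := a • (1 : A) - h with hk
  have hcomm : Commute h k := by
    have : Commute h (a • (1 : A)) := (Commute.one_right h).smul_right a
    exact this.sub_right (Commute.refl h)
  have hhk : h * k = b • (1 : A) := by
    have : h * k = a • h - h * h := by
      rw [hk, mul_sub, mul_smul_comm, mul_one]
    rw [this]
    calc a • h - h * h = b • (1 : A) - (h * h - a • h + b • (1 : A)) := by abel
      _ = b • (1 : A) := by rw [hrel, sub_zero]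
  have hsum : h + k = a • (1 : A) := by rw [hk]; abel
  have key : ∀ n : ℕ, h ^ n + k ^ n = powTr a b n • (1 : A) := by
    intro n
    induction n using Nat.strong_induction_on with
    | _ n ih =>
      match n, ih with
      | 0, _ => rw [pow_zero, pow_zero, powTr_zero, two_smul]
      | 1, _ => rw [pow_one, pow_one, powTr_one, hsum]
      | (n + 2), ih =>
        have h1 := ih (n + 1) (by omega)
        have h0 := ih n (by omega)
        have e1 : h ^ (n + 1 + 1) + k ^ (n + 1 + 1)
            = (h + k) * (h ^ (n + 1) + k ^ (n + 1)) - (h * k) * (h ^ n + k ^ n) := by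
          have c1 : k * h ^ (n + 1) = (h * k) * h ^ n := by
            rw [pow_succ', ← mul_assoc, hcomm.eq]
          have c2 : h * k ^ (n + 1) = (h * k) * k ^ n := by
            rw [pow_succ', ← mul_assoc]
          rw [add_mul, mul_add, mul_add, mul_add, c1, c2, pow_succ' h (n + 1),
            pow_succ' k (n + 1)]
          abel
        rw [e1, hsum, hhk, h1, h0, powTr_add_two]
        simp only [mul_smul_comm, mul_one, smul_smul, sub_smul]
        rw [mul_comm (powTr a b (n + 1)) a, mul_comm (powTr a b n) b]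
  have hprod : h ^ j * k ^ j = (b ^ j) • (1 : A) := by
    rw [← hcomm.mul_pow, hhk, _root_.smul_pow, one_pow]
  have : h ^ j * h ^ j - powTr a b j • h ^ j + (b ^ j) • (1 : A)
      = h ^ j * (h ^ j + k ^ j - powTr a b j • (1 : A)) := by
    rw [mul_sub, mul_add, hprod, mul_smul_comm, mul_one]
    abel
  rw [this, key j, sub_self, mul_zero]

end Lucas

section Local

/-- A local homomorphism maps `𝔪 ^ n` into `𝔪 ^ n`. -/
theorem map_mem_maximalIdeal_pow {T O : Type*} [CommRing T] [IsLocalRing T] [CommRing O]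
    [IsLocalRing O] (χ : T →+* O) [IsLocalHom χ] (n : ℕ) {t : T}
    (ht : t ∈ maximalIdeal T ^ n) : χ t ∈ maximalIdeal O ^ n := by
  have hmap : (maximalIdeal T ^ n).map χ ≤ maximalIdeal O ^ n := by
    rw [Ideal.map_pow]
    exact Ideal.pow_right_mono (Ideal.map_le_iff_le_comap.mpr fun a ha =>
      Ideal.mem_comap.mpr (map_nonunit χ a ha)) n
  exact hmap (Ideal.mem_map_of_mem χ ht)

end Local

section Main

set_option maxHeartbeats 1000000 in
/-- **REL modulo `𝔪 ^ n`.** -/
theorem rel_mod (hcheb : Fermat.Agent.S30.H990.ChebWeak)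
    {p : ℕ} {N : ℕ} [NeZero N] {S : Finset ℕ}
    (hNS : ∀ q : ℕ, q.Prime → q ∣ N → q ∈ S)
    {𝒪 : Type} [CommRing 𝒪] [IsDomain 𝒪] [IsDiscreteValuationRing 𝒪]
    [IsAdicComplete (maximalIdeal 𝒪) 𝒪]
    {θ : CuspForm.heckeAlgebra N 2 (↑S : Set ℕ) →+* ResidueField 𝒪}
    {T : Type} [CommRing T] [IsLocalRing T] [IsNoetherianRing T]
    [IsAdicComplete (maximalIdeal T) T] [Algebra 𝒪 T] [IsLocalHom (algebraMap 𝒪 T)]
    [Module.Finite 𝒪 T] [Module.Free 𝒪 T]
    (H : CuspForm.HeckeGaloisRepDatum N (↑S : Set ℕ) 𝒪 θ T)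
    (P : PadicPoint p T) (hloc : IsLocalHom P.χ)
    (E : Fermat.Agent.S30.H990.AdicEigenModule p N S P.O (P.χ.comp H.π)) (g : GalQ)
    (n : ℕ) (v : E.M) :
    E.ρ g (E.ρ g v) - P.χ (H.ρ.trace g) • E.ρ g v + P.χ ((H.ρ.det g : Tˣ) : T) • v
      ∈ (maximalIdeal P.O ^ n) • (⊤ : Submodule P.O E.M) := by
  have hlocI : IsLocalHom P.χ := hloc
  -- levels
  obtain ⟨L₁, hL₁fin, hL₁⟩ := E.cont n
  obtain ⟨L₂, hL₂fin, hL₂⟩ := trace_congr_of_agree' H.ρ n
  obtain ⟨L₃, hL₃fin, hL₃⟩ := H.ρ.isAdicContinuous n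
  have hf₁ : FiniteDimensional ℚ L₁ := hL₁fin
  have hf₂ : FiniteDimensional ℚ L₂ := hL₂fin
  have hf₃ : FiniteDimensional ℚ L₃ := hL₃fin
  have h12 : FiniteDimensional ℚ ↥(L₁ ⊔ L₂) := IntermediateField.finiteDimensional_sup L₁ L₂
  have hLfin : FiniteDimensional ℚ ↥(L₁ ⊔ L₂ ⊔ L₃) :=
    IntermediateField.finiteDimensional_sup (L₁ ⊔ L₂) L₃
  have hle₁ : L₁ ≤ L₁ ⊔ L₂ ⊔ L₃ := le_sup_left.trans le_sup_left
  have hle₂ : L₂ ≤ L₁ ⊔ L₂ ⊔ L₃ := le_sup_right.trans le_sup_left
  have hle₃ : L₃ ≤ L₁ ⊔ L₂ ⊔ L₃ := le_sup_right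
  obtain ⟨ℓ, hℓ, hℓS, A, hA, τ, hτ, j, hj⟩ := hcheb (L₁ ⊔ L₂ ⊔ L₃) hLfin g S
  have hℓN : ¬ ℓ ∣ N := fun h => hℓS (hNS ℓ hℓ h)
  have hℓS' : ℓ ∉ (↑S : Set ℕ) := fun h => hℓS (Finset.mem_coe.mp h)
  -- `g = τ ^ j * σ` with `σ` fixing the level
  obtain ⟨σ, hg⟩ : ∃ σ : GalQ, g = τ ^ j * σ :=
    ⟨(τ ^ j)⁻¹ * g, (mul_inv_cancel_left (τ ^ j) g).symm⟩
  have hσfix : ∀ x ∈ L₁ ⊔ L₂ ⊔ L₃, σ x = x := by
    intro x hx
    have h1 : (τ ^ j) (σ x) = (τ ^ j) x := by
      rw [← hj x hx]
      exact (congrArg (fun f : GalQ => f x) hg).symm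
    exact (τ ^ j).injective h1
  -- the eigenmodule side
  have hs : ∀ w : E.M, E.ρ σ w - w ∈ (maximalIdeal P.O ^ n) • (⊤ : Submodule P.O E.M) :=
    hL₁ σ (fun x hx => hσfix x (hle₁ hx))
  have hfrob := E.frob ℓ hℓ hℓN hℓS' A hA τ hτ
  obtain ⟨a₀, ha₀⟩ : ∃ a₀ : P.O, a₀ = P.χ (H.π (CuspForm.heckeAlgebra.T hℓ hℓN hℓS')) :=
    ⟨_, rfl⟩
  have hfrob' : E.ρ τ * E.ρ τ - a₀ • E.ρ τ + (ℓ : P.O) • (1 : Module.End P.O E.M) = 0 := by
    rw [ha₀]; exact hfrob
  have hluc := lucas_powTr (E.ρ τ) a₀ (ℓ : P.O) hfrob' j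
  have key := Fermat.Agent.S30.H990.rel_mod_of_mul (maximalIdeal P.O ^ n) (E.ρ τ ^ j) (E.ρ σ)
    (powTr a₀ (ℓ : P.O) j) ((ℓ : P.O) ^ j) 1 hluc hs (by rw [sub_self]; exact Ideal.zero_mem _) v
  have hρg : E.ρ τ ^ j * E.ρ σ = E.ρ g := by
    have := congrArg E.ρ hg
    rw [map_mul, map_pow] at this
    exact this.symm
  rw [hρg, mul_one] at key
  -- the datum side: trace
  have htr : H.ρ.trace g - H.ρ.trace (τ ^ j) ∈ maximalIdeal T ^ n :=
    hL₂ g (τ ^ j) (fun x hx => hj x (hle₂ hx))
  have hcp := H.charpoly_frob ℓ hℓ hℓN hℓS' A hA τ hτ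
  have htrpow : H.ρ.trace (τ ^ j)
      = powTr (H.π (CuspForm.heckeAlgebra.T hℓ hℓN hℓS')) (ℓ : T) j := by
    have := trace_pow_of_charpoly' H.ρ.finrank_eq (H.ρ.ρ τ) _ _ hcp j
    rw [← this]
    show LinearMap.trace T H.ρ.V (H.ρ.ρ (τ ^ j)) = _
    rw [map_pow]
  have hχtr : P.χ (H.ρ.trace (τ ^ j)) = powTr a₀ (ℓ : P.O) j := by
    rw [htrpow, map_powTr', map_natCast, ha₀]
  have ha : P.χ (H.ρ.trace g) - powTr a₀ (ℓ : P.O) j ∈ maximalIdeal P.O ^ n := by
    rw [← hχtr, ← map_sub]
    exact map_mem_maximalIdeal_pow P.χ n htr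
  -- the datum side: determinant
  have hdetσ : LinearMap.det (H.ρ.ρ σ) - 1 ∈ maximalIdeal T ^ n :=
    Fermat.Agent.S59.H540.det_sub_one_mem _ _ (hL₃ σ (fun x hx => hσfix x (hle₃ hx)))
  have hdetτ : LinearMap.det (H.ρ.ρ τ) = (ℓ : T) :=
    Fermat.Agent.S59.H540.det_eq_of_charpoly H.ρ.finrank_eq (H.ρ.ρ τ) _ _ hcp
  have hdetg : ((H.ρ.det g : Tˣ) : T) = (ℓ : T) ^ j * LinearMap.det (H.ρ.ρ σ) := by
    have h1 : ((H.ρ.det g : Tˣ) : T) = LinearMap.det (H.ρ.ρ g) := rfl
    have h2 : H.ρ.ρ g = H.ρ.ρ τ ^ j * H.ρ.ρ σ := by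
      have := congrArg H.ρ.ρ hg
      rwa [map_mul, map_pow] at this
    rw [h1, h2, map_mul, map_pow, hdetτ]
  have hd : P.χ ((H.ρ.det g : Tˣ) : T) - (ℓ : P.O) ^ j ∈ maximalIdeal P.O ^ n := by
    have h1 : ((H.ρ.det g : Tˣ) : T) - (ℓ : T) ^ j ∈ maximalIdeal T ^ n := by
      rw [hdetg]
      have : (ℓ : T) ^ j * LinearMap.det (H.ρ.ρ σ) - (ℓ : T) ^ j
          = (ℓ : T) ^ j * (LinearMap.det (H.ρ.ρ σ) - 1) := by ring
      rw [this]
      exact Ideal.mul_mem_left _ _ hdetσ
    have h2 := map_mem_maximalIdeal_pow P.χ n h1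
    rwa [map_sub, map_pow, map_natCast] at h2
  -- conclusion
  have hfin : E.ρ g (E.ρ g v) - P.χ (H.ρ.trace g) • E.ρ g v + P.χ ((H.ρ.det g : Tˣ) : T) • v
      = ((E.ρ g) ((E.ρ g) v) - powTr a₀ (ℓ : P.O) j • (E.ρ g) v + ((ℓ : P.O) ^ j) • v)
        - (P.χ (H.ρ.trace g) - powTr a₀ (ℓ : P.O) j) • E.ρ g v
        + (P.χ ((H.ρ.det g : Tˣ) : T) - (ℓ : P.O) ^ j) • v := by
    module
  rw [hfin]
  exact Submodule.add_mem _ (Submodule.sub_mem _ key
    (Submodule.smul_mem_smul ha Submodule.mem_top)) (Submodule.smul_mem_smul hd Submodule.mem_top)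

/-- **REL** from the weak Chebotarev hypothesis. -/
theorem rel_of_chebWeak (hcheb : Fermat.Agent.S30.H990.ChebWeak) : RelStatement := by
  intro p _ N _ S _hpS hNS 𝒪 _ _ _ _ θ T _ _ _ _ _ _ _ _ H P hloc E g
  refine LinearMap.ext fun v => ?_
  have hv : E.ρ g (E.ρ g v) - P.χ (H.ρ.trace g) • E.ρ g v + P.χ ((H.ρ.det g : Tˣ) : T) • v
      ∈ ⨅ i : ℕ, (maximalIdeal P.O ^ i) • (⊤ : Submodule P.O E.M) := by
    rw [Submodule.mem_iInf]
    exact fun n => rel_mod hcheb hNS H P hloc E g n v
  rw [Ideal.iInf_pow_smul_eq_bot_of_isLocalRing _ (maximalIdeal.isMaximal P.O).ne_top,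
    Submodule.mem_bot] at hv
  simpa using hv

end Main

end Fermat.Agent.S32.H692

end
-- ===== PACK-END S32/H692/RelCore.lean

-- ===== PACK-BEGIN S31/H862/Nice.lean
section



/-!
# S31 / SS (helper862) — weight-2 invariant norm, "nice" functions, weighted Petersson integrals
-/

set_option autoImplicit false

open UpperHalfPlane CongruenceSubgroup MeasureTheory
open scoped MatrixGroups ENNReal NNReal ModularForm ComplexConjugate

namespace Fermat.Agent.S31.H862

/-- The weight-2 invariant norm `|f(z)| · Im z`. -/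
noncomputable def nrm (f : ℍ → ℂ) (z : ℍ) : ℝ := ‖f z‖ * z.im

theorem nrm_nonneg (f : ℍ → ℂ) (z : ℍ) : 0 ≤ nrm f z :=
  mul_nonneg (norm_nonneg _) z.im_pos.le

theorem norm_petersson_eq (f g : ℍ → ℂ) (z : ℍ) :
    ‖petersson 2 f g z‖ = nrm f z * nrm g z := by
  simp only [petersson, nrm, norm_mul, Complex.norm_conj, norm_zpow, Complex.norm_real,
    Real.norm_of_nonneg z.im_pos.le]
  rw [zpow_ofNat]
  ring

theorem slash_two_apply (f : ℍ → ℂ) (δ : GL (Fin 2) ℝ) (z : ℍ) :
    (f ∣[(2 : ℤ)] δ) z = σ δ (f (δ • z)) * ((|δ.det.val| : ℝ) : ℂ) * (denom δ z ^ 2)⁻¹ := by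
  rw [ModularForm.slash_def]
  simp only [show (2 : ℤ) - 1 = 1 by norm_num, zpow_one, zpow_neg]
  rw [zpow_ofNat]

theorem nrm_slash (f : ℍ → ℂ) (δ : GL (Fin 2) ℝ) (z : ℍ) :
    nrm (f ∣[(2 : ℤ)] δ) z = nrm f (δ • z) := by
  have hd : denom δ z ≠ 0 := denom_ne_zero δ z
  have hn : (0 : ℝ) < Complex.normSq (denom δ z) := Complex.normSq_pos.mpr hd
  simp only [nrm, slash_two_apply, norm_mul, norm_σ, norm_inv, norm_pow, Complex.norm_real,
    Real.norm_eq_abs, abs_abs]
  rw [UpperHalfPlane.im_smul_eq_div_normSq, Complex.normSq_eq_norm_sq]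
  field_simp

/-- Continuous functions on `ℍ` with bounded weight-2 invariant norm. -/
structure Nice (f : ℍ → ℂ) : Prop where
  cont : Continuous f
  bdd : ∃ C : ℝ, ∀ z, nrm f z ≤ C

theorem continuous_slash_two {f : ℍ → ℂ} (hf : Continuous f) (δ : GL (Fin 2) ℝ) :
    Continuous (f ∣[(2 : ℤ)] δ) := by
  have h : (f ∣[(2 : ℤ)] δ) =
      fun z : ℍ => σ δ (f (δ • z)) * ((|δ.det.val| : ℝ) : ℂ) * (denom δ z ^ 2)⁻¹ :=
    funext fun z => slash_two_apply f δ z
  rw [h]
  have h1 : Continuous fun z : ℍ => δ • z := continuous_const_smul δ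
  have h2 : Continuous fun z : ℍ => denom δ z := by
    unfold denom
    fun_prop
  have h3 : Continuous fun z : ℍ => σ δ (f (δ • z)) :=
    (σ δ).continuous.comp (hf.comp h1)
  refine (h3.mul continuous_const).mul (Continuous.inv₀ (h2.pow 2) fun z => ?_)
  exact pow_ne_zero 2 (denom_ne_zero δ z)

theorem Nice.slash {f : ℍ → ℂ} (hf : Nice f) (δ : GL (Fin 2) ℝ) : Nice (f ∣[(2 : ℤ)] δ) := by
  obtain ⟨C, hC⟩ := hf.bdd
  exact ⟨continuous_slash_two hf.cont δ, C, fun z => by rw [nrm_slash]; exact hC _⟩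

theorem Nice.add {f g : ℍ → ℂ} (hf : Nice f) (hg : Nice g) : Nice (f + g) := by
  obtain ⟨C, hC⟩ := hf.bdd
  obtain ⟨D, hD⟩ := hg.bdd
  refine ⟨hf.cont.add hg.cont, C + D, fun z => ?_⟩
  have h := norm_add_le (f z) (g z)
  have := hC z
  have := hD z
  simp only [nrm, Pi.add_apply] at *
  nlinarith [z.im_pos]

theorem Nice.zero : Nice (0 : ℍ → ℂ) :=
  ⟨continuous_const, 0, fun z => by simp [nrm]⟩

theorem Nice.sum {ι : Type*} (s : Finset ι) {f : ι → ℍ → ℂ} (hf : ∀ i ∈ s, Nice (f i)) :
    Nice (∑ i ∈ s, f i) := by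
  classical
  induction s using Finset.induction_on with
  | empty => simpa using Nice.zero
  | insert a s ha ih =>
    rw [Finset.sum_insert ha]
    exact (hf a (Finset.mem_insert_self a s)).add
      (ih fun i hi => hf i (Finset.mem_insert_of_mem hi))

theorem nice_cuspForm {Γ : Subgroup (GL (Fin 2) ℝ)} [Γ.IsArithmetic] (f : CuspForm Γ 2) :
    Nice (f : ℍ → ℂ) := by
  obtain ⟨C, hC⟩ := CuspFormClass.exists_bound (k := 2) (Γ := Γ) f
  refine ⟨(CuspFormClass.holo f).continuous, C, fun z => ?_⟩
  have h := hC z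
  have h1 : (z.im : ℝ) ^ (((2 : ℤ) : ℝ) / 2) = z.im := by
    norm_num
  rw [h1] at h
  rw [nrm]
  exact (le_div_iff₀ z.im_pos).mp h

/-- The weighted Petersson integral. -/
noncomputable def pint (w : ℍ → ℝ) (f g : ℍ → ℂ) : ℂ :=
  ∫ z : ℍ, petersson 2 f g z * (w z : ℂ)

theorem integrable_pint {w : ℍ → ℝ} (hw : Integrable w volume) {f g : ℍ → ℂ}
    (hf : Nice f) (hg : Nice g) :
    Integrable (fun z : ℍ => petersson 2 f g z * (w z : ℂ)) volume := by
  obtain ⟨C, hC⟩ := hf.bdd
  obtain ⟨D, hD⟩ := hg.bdd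
  have hcont : Continuous (petersson 2 f g) := petersson_continuous 2 hf.cont hg.cont
  have hwC : Integrable (fun z : ℍ => (w z : ℂ)) volume := hw.ofReal
  refine hwC.bdd_mul (c := C * D) hcont.aestronglyMeasurable
    (Filter.Eventually.of_forall fun z => ?_)
  rw [norm_petersson_eq]
  exact mul_le_mul (hC z) (hD z) (nrm_nonneg _ _) ((nrm_nonneg f z).trans (hC z))

end Fermat.Agent.S31.H862

end
-- ===== PACK-END S31/H862/Nice.lean

-- ===== PACK-BEGIN S31/H862/Unfold.lean
section



/-!
# S31 / SS (helper862) — the Petersson pairing and the double unfolding identities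
-/

set_option autoImplicit false

open UpperHalfPlane CongruenceSubgroup MeasureTheory Matrix.SpecialLinearGroup
open scoped MatrixGroups ENNReal NNReal ModularForm ComplexConjugate

namespace Fermat.Agent.S31.H862

/-- The Petersson pairing (weight 2, level `Γ₀(N)`), on functions. -/
noncomputable def pet (N : ℕ) (f g : ℍ → ℂ) : ℂ := pint (wt N) f g

/-- The doubly weighted kernel. -/
noncomputable def kern (N : ℕ) (f g : ℍ → ℂ) (δ : GL (Fin 2) ℝ) : ℂ :=
  pint (fun z => wt N z * wt N (δ • z)) f (g ∣[(2 : ℤ)] δ)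

theorem countable_SL2Z : Countable SL(2, ℤ) := by
  have : Countable (Matrix (Fin 2) (Fin 2) ℤ) := by unfold Matrix; infer_instance
  unfold Matrix.SpecialLinearGroup; infer_instance

theorem countable_Gamma0 (N : ℕ) : Countable (Gamma0 N) := by
  have := countable_SL2Z
  infer_instance

section

variable (N : ℕ) [NeZero N]

theorem integrable_wt_mul (δ : GL (Fin 2) ℝ) :
    Integrable (fun z : ℍ => wt N z * wt N (δ • z)) volume := by
  have hc : Continuous fun z : ℍ => wt N (δ • z) :=
    (continuous_wt N).comp (continuous_const_smul δ)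
  refine (integrable_wt N).mul_bdd (c := 1) hc.aestronglyMeasurable
    (Filter.Eventually.of_forall fun z => ?_)
  rw [Real.norm_of_nonneg (wt_nonneg N _)]
  exact wt_le_one N _

theorem petersson_add_right (f g₁ g₂ : ℍ → ℂ) (z : ℍ) :
    petersson 2 f (g₁ + g₂) z = petersson 2 f g₁ z + petersson 2 f g₂ z := by
  simp only [petersson, Pi.add_apply]
  ring

theorem petersson_sum_right {ι : Type*} (s : Finset ι) (f : ℍ → ℂ) (g : ι → ℍ → ℂ) (z : ℍ) :
    petersson 2 f (∑ i ∈ s, g i) z = ∑ i ∈ s, petersson 2 f (g i) z := by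
  simp only [petersson, Finset.sum_apply, Finset.mul_sum, Finset.sum_mul]

theorem pint_sum_right {w : ℍ → ℝ} (hw : Integrable w volume) {ι : Type*} (s : Finset ι)
    {f : ℍ → ℂ} {g : ι → ℍ → ℂ} (hf : Nice f) (hg : ∀ i ∈ s, Nice (g i)) :
    pint w f (∑ i ∈ s, g i) = ∑ i ∈ s, pint w f (g i) := by
  unfold pint
  rw [← integral_finset_sum s fun i hi => integrable_pint hw hf (hg i hi)]
  refine integral_congr_ae (Filter.Eventually.of_forall fun z => ?_)
  simp only [petersson_sum_right, Finset.sum_mul]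

theorem pint_conj (w : ℍ → ℝ) (f g : ℍ → ℂ) : conj (pint w f g) = pint w g f := by
  unfold pint
  rw [← integral_conj]
  refine integral_congr_ae (Filter.Eventually.of_forall fun z => ?_)
  simp only [map_mul, Complex.conj_ofReal]
  rw [← petersson_symm]

theorem pet_conj (f g : ℍ → ℂ) : conj (pet N f g) = pet N g f := pint_conj _ f g

/-- **Unfolding.**  For `g` invariant under `Γ₀(N)`. -/
theorem hasSum_kern {f g : ℍ → ℂ} (hf : Nice f) (hg : Nice g)
    (hinv : ∀ γ : Gamma0 N, g ∣[(2 : ℤ)] (mapGL ℝ (γ : SL(2, ℤ))) = g) (δ : GL (Fin 2) ℝ) :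
    HasSum (fun γ : Gamma0 N => kern N f g (mapGL ℝ (γ : SL(2, ℤ)) * δ))
      (pet N f (g ∣[(2 : ℤ)] δ)) := by
  haveI := countable_Gamma0 N
  obtain ⟨C, hC⟩ := hf.bdd
  obtain ⟨D, hD⟩ := (hg.slash δ).bdd
  have hslash : ∀ γ : Gamma0 N, g ∣[(2 : ℤ)] (mapGL ℝ (γ : SL(2, ℤ)) * δ) = g ∣[(2 : ℤ)] δ := by
    intro γ
    rw [SlashAction.slash_mul, hinv]
  have hcont : Continuous (petersson 2 f (g ∣[(2 : ℤ)] δ)) :=
    petersson_continuous 2 hf.cont (hg.slash δ).cont
  have hsmul : ∀ (γ : Gamma0 N) (z : ℍ),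
      (mapGL ℝ (γ : SL(2, ℤ)) * δ) • z = (γ : SL(2, ℤ)) • (δ • z) := by
    intro γ z
    rw [mul_smul]
    rfl
  unfold kern pet pint
  simp only [hslash]
  refine hasSum_integral_of_dominated_convergence
    (fun (γ : Gamma0 N) (z : ℍ) => C * D * (wt N z * wt N ((mapGL ℝ (γ : SL(2, ℤ)) * δ) • z)))
    (fun γ => ?_) (fun γ => Filter.Eventually.of_forall fun z => ?_)
    (Filter.Eventually.of_forall fun z => ?_) ?_ (Filter.Eventually.of_forall fun z => ?_)
  · exact (integrable_pint (integrable_wt_mul N _) hf (hg.slash δ)).aestronglyMeasurable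
  · rw [norm_mul, norm_petersson_eq, Complex.norm_real,
      Real.norm_of_nonneg (mul_nonneg (wt_nonneg N _) (wt_nonneg N _))]
    exact mul_le_mul_of_nonneg_right
      (mul_le_mul (hC z) (hD z) (nrm_nonneg _ _) ((nrm_nonneg f z).trans (hC z)))
      (mul_nonneg (wt_nonneg N _) (wt_nonneg N _))
  · simp only [hsmul]
    exact (((hasSum_wt N (δ • z)).mul_left (wt N z)).mul_left (C * D)).summable
  · have h : (fun z : ℍ => ∑' γ : Gamma0 N,
        C * D * (wt N z * wt N ((mapGL ℝ (γ : SL(2, ℤ)) * δ) • z))) =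
        fun z : ℍ => C * D * wt N z := by
      funext z
      simp only [hsmul]
      rw [(((hasSum_wt N (δ • z)).mul_left (wt N z)).mul_left (C * D)).tsum_eq, mul_one]
    rw [h]
    exact (integrable_wt N).const_mul _
  · simp only [hsmul]
    have h := ((hasSum_wt N (δ • z)).mul_left (wt N z))
    rw [mul_one] at h
    have h2 := (Complex.hasSum_ofReal.mpr h).mul_left (petersson 2 f (g ∣[(2 : ℤ)] δ) z)
    simpa using h2

/-- **Key symmetry.** -/
theorem conj_kern {f g : ℍ → ℂ} (δ δ' : GL (Fin 2) ℝ) (hdet : 0 < δ.det.val)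
    (h1 : ∀ z : ℍ, δ' • (δ • z) = z) (h2 : (g ∣[(2 : ℤ)] δ') ∣[(2 : ℤ)] δ = g) :
    conj (kern N g f δ) = kern N f g δ' := by
  unfold kern
  rw [pint_conj]
  unfold pint
  have hσ : σ δ = ContinuousAlgEquiv.refl ℝ ℂ := by
    rw [σ, if_pos hdet]
  have hp : ∀ z : ℍ, petersson 2 (f ∣[(2 : ℤ)] δ) g z =
      petersson 2 f (g ∣[(2 : ℤ)] δ') (δ • z) := by
    intro z
    conv_lhs => rw [← h2]
    rw [petersson_slash, hσ]
    simp
  have hE : ∀ z : ℍ, petersson 2 (f ∣[(2 : ℤ)] δ) g z * ((wt N z * wt N (δ • z) : ℝ) : ℂ) =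
      (fun u : ℍ => petersson 2 f (g ∣[(2 : ℤ)] δ') u * ((wt N u * wt N (δ' • u) : ℝ) : ℂ))
        (δ • z) := by
    intro z
    simp only [hp, h1]
    rw [mul_comm (wt N z)]
  simp only [hE]
  exact integral_smul_eq_self
    (fun u : ℍ => petersson 2 f (g ∣[(2 : ℤ)] δ') u * ((wt N u * wt N (δ' • u) : ℝ) : ℂ)) 

end

end Fermat.Agent.S31.H862

end
-- ===== PACK-END S31/H862/Unfold.lean

-- ===== PACK-BEGIN Lib/RR/H409/RiemannOf.lean
section


/-!
# RR library, layer L3.1: Riemann's theorem, with the pole bound (L2) as an explicit hypothesis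

`exists_riemann_bound_of`: if for every `x` with `F` finite over `K(x)` the poles of `x`, counted
with multiplicity, number at most `[F : K(x)]`, then `deg D - ℓ(D)` is bounded above.
(Stichtenoth 1.4.17.)
-/

set_option autoImplicit false

noncomputable section

open AlgebraicCurve

namespace Fermat.Agent.Lib.RR.H409

open Fermat.Agent.Lib.RR

variable {K F : Type*} [Field K] [Field F] [Algebra K F]

/-- The negative part `v ↦ max 0 (-(D v))` of a divisor. -/
def negPartDiv (D : Divisor K F) : Divisor K F :=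
  Finsupp.mapRange (fun n : ℤ => max 0 (-n)) (by simp) D

@[simp] theorem negPartDiv_apply (D : Divisor K F) (v : Place K F) :
    negPartDiv D v = max 0 (-(D v)) := by
  simp [negPartDiv]

/-- The positive part `v ↦ max 0 (D v)` of a divisor. -/
def posPartDiv (D : Divisor K F) : Divisor K F :=
  Finsupp.mapRange (fun n : ℤ => max 0 n) (by simp) D

@[simp] theorem posPartDiv_apply (D : Divisor K F) (v : Place K F) :
    posPartDiv D v = max 0 (D v) := by
  simp [posPartDiv]

theorem negPartDiv_nonneg (D : Divisor K F) : 0 ≤ negPartDiv D := by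
  rw [Finsupp.le_def]; intro v; simp

theorem posPartDiv_nonneg (D : Divisor K F) : 0 ≤ posPartDiv D := by
  rw [Finsupp.le_def]; intro v; simp

theorem le_posPartDiv (D : Divisor K F) : D ≤ posPartDiv D := by
  rw [Finsupp.le_def]; intro v; simp

/-- The `K`-linear independence of the powers of a transcendental element. -/
theorem linearIndependent_pow_of_transcendental {x : F} (hx : Transcendental K x) :
    LinearIndependent K (fun i : ℕ => x ^ i) := by
  have h1 := (Polynomial.basisMonomials K).linearIndependent.map'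
    (Polynomial.aeval x).toLinearMap
    (LinearMap.ker_eq_bot.mpr (transcendental_iff_injective.mp hx))
  have h2 : (fun i : ℕ => x ^ i)
      = (Polynomial.aeval x).toLinearMap ∘ (Polynomial.basisMonomials K) := by
    ext i
    simp [Polynomial.coe_basisMonomials]
  rw [h2]
  exact h1

/-- Key independence: `x ^ i * u j` are `K`-linearly independent. -/
theorem linearIndependent_pow_mul {x : F} (hx : Transcendental K x) {n : ℕ}
    (u : Fin n → F) (hu : LinearIndependent (IntermediateField.adjoin K {x}) u) (l : ℕ) :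
    LinearIndependent K (fun p : Fin (l + 1) × Fin n => x ^ (p.1 : ℕ) * u p.2) := by
  let x' : IntermediateField.adjoin K {x} := IntermediateField.AdjoinSimple.gen K x
  have hx' : ∀ i : ℕ, ((x' ^ i : IntermediateField.adjoin K {x}) : F) = x ^ i := by
    intro i; simp [x']
  have hb : LinearIndependent K (fun i : Fin (l + 1) => x' ^ (i : ℕ)) := by
    have h0 : LinearIndependent K (fun i : ℕ => x' ^ i) := by
      apply LinearIndependent.of_comp
        (IsScalarTower.toAlgHom K (IntermediateField.adjoin K {x}) F).toLinearMap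
      have h3 := linearIndependent_pow_of_transcendental (K := K) hx
      have h4 : (⇑(IsScalarTower.toAlgHom K (IntermediateField.adjoin K {x}) F).toLinearMap ∘
          fun i : ℕ => x' ^ i) = fun i : ℕ => x ^ i := by
        ext i
        simp [x']
      rw [h4]
      exact h3
    exact h0.comp _ Fin.val_injective
  have h := linearIndependent_smul hb hu
  have h5 : (fun p : Fin (l + 1) × Fin n => x ^ (p.1 : ℕ) * u p.2)
      = fun p : Fin (l + 1) × Fin n => x' ^ (p.1 : ℕ) • u p.2 := by
    ext p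
    rw [IntermediateField.smul_def, smul_eq_mul, hx']
  rw [h5]
  exact h

section FF1

variable [hFF : FF1 K F]

/-- The pole divisor `(z)_∞` of a nonzero function. -/
def poleDiv (z : F) (hz : z ≠ 0) : Divisor K F := negPartDiv (divOf z hz)

theorem poleDiv_apply (z : F) (hz : z ≠ 0) (v : Place K F) :
    poleDiv z hz v = max 0 (-(v.ord z)) := by
  simp [poleDiv, divOf_apply]

theorem poleDiv_nonneg (z : F) (hz : z ≠ 0) : 0 ≤ poleDiv (K := K) z hz := negPartDiv_nonneg _

theorem neg_poleDiv_le_ord (z : F) (hz : z ≠ 0) (v : Place K F) :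
    -(poleDiv z hz v) ≤ v.ord z := by
  rw [poleDiv_apply]
  have := le_max_right 0 (-(v.ord z))
  omega

/-- The degree of the pole divisor, as the sum of the pole orders. -/
theorem degree_poleDiv_le (z : F) (hz : z ≠ 0) (n : ℤ)
    (h : ∀ S : Finset (Place K F), (∀ v ∈ S, v.ord z < 0) → ∑ v ∈ S, -v.ord z ≤ n) :
    Divisor.degree (poleDiv (K := K) z hz) ≤ n := by
  rw [degree_eq_sum]
  have hS : ∀ v ∈ (poleDiv (K := K) z hz).support, v.ord z < 0 := by
    intro v hv
    rw [Finsupp.mem_support_iff, poleDiv_apply] at hv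
    by_contra hcon
    apply hv
    rw [max_eq_left (by omega)]
  refine le_trans (le_of_eq ?_) (h _ hS)
  refine Finset.sum_congr rfl fun v hv => ?_
  have := hS v hv
  rw [poleDiv_apply, deg_eq_one v, max_eq_right (by omega)]
  simp

/-- Step 1: the `n (l + 1)` functions `x ^ i * u j` lie in `L(l B + C)`. -/
theorem le_ell_of_basis {x : F} (hx : Transcendental K x) {n : ℕ} (u : Fin n → F)
    (hu : LinearIndependent (IntermediateField.adjoin K {x}) u)
    (B C : Divisor K F) (hB0 : 0 ≤ B) (hB : ∀ v : Place K F, -(B v) ≤ v.ord x)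
    (hC : ∀ (j : Fin n) (v : Place K F), -(C v) ≤ v.ord (u j)) (l : ℕ) :
    n * (l + 1) ≤ ell (l • B + C) := by
  classical
  have hx0 : x ≠ 0 := fun h => hx (h ▸ isAlgebraic_zero)
  have hli := linearIndependent_pow_mul hx u hu l
  have hmem : ∀ p : Fin (l + 1) × Fin n,
      x ^ (p.1 : ℕ) * u p.2 ∈ riemannRochSpace (l • B + C) := by
    intro p
    rw [mem_L_iff]
    intro v
    right
    rw [v.ord_mul (pow_ne_zero _ hx0) (hu.ne_zero p.2), ord_pow]
    have h1 := hB v
    have h2 := hC p.2 v
    have h3 : 0 ≤ B v := by simpa using Finsupp.le_def.mp hB0 v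
    have h4 : ((p.1 : ℕ) : ℤ) ≤ (l : ℤ) := by exact_mod_cast Nat.lt_succ_iff.mp p.1.2
    have h5 : (0 : ℤ) ≤ ((p.1 : ℕ) : ℤ) := Nat.cast_nonneg _
    rw [Finsupp.add_apply, Finsupp.smul_apply, nsmul_eq_mul]
    nlinarith [mul_nonneg h5 (show (0 : ℤ) ≤ v.ord x + B v by omega),
      mul_nonneg (show (0 : ℤ) ≤ (l : ℤ) - ((p.1 : ℕ) : ℤ) by omega) h3]
  have hspan : Submodule.span K
      (Set.range fun p : Fin (l + 1) × Fin n => x ^ (p.1 : ℕ) * u p.2)
        ≤ riemannRochSpace (l • B + C) :=
    Submodule.span_le.mpr (by rintro _ ⟨p, rfl⟩; exact hmem p)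
  have h1 := Submodule.finrank_mono hspan
  rw [finrank_span_eq_card hli] at h1
  simpa [ell, Fintype.card_prod, mul_comm] using h1

/-- **Riemann's theorem**, with the pole bound (layer L2) as an explicit hypothesis. -/
theorem exists_riemann_bound_of
    (hL2 : ∀ (x : F) [FiniteDimensional (IntermediateField.adjoin K {x}) F]
      (S : Finset (Place K F)), (∀ v ∈ S, v.ord x < 0) →
      ∑ v ∈ S, -v.ord x ≤ (Module.finrank (IntermediateField.adjoin K {x}) F : ℤ)) :
    ∃ γ : ℤ, ∀ D : Divisor K F, Divisor.degree D - ell D ≤ γ := by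
  classical
  obtain ⟨x, hx, hfin⟩ := hFF.exists_finite
  have hfin' : FiniteDimensional (IntermediateField.adjoin K {x}) F := hfin
  have hx0 : x ≠ 0 := fun h => hx (h ▸ isAlgebraic_zero)
  obtain ⟨n, hn⟩ : ∃ n : ℕ, n = Module.finrank (IntermediateField.adjoin K {x}) F := ⟨_, rfl⟩
  have hnpos : 0 < n := hn ▸ Module.finrank_pos
  let b := Module.finBasis (IntermediateField.adjoin K {x}) F
  have hu : LinearIndependent (IntermediateField.adjoin K {x}) (fun j => b j) :=
    b.linearIndependent
  let B : Divisor K F := poleDiv x hx0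
  let C : Divisor K F := ∑ j, poleDiv (b j) (hu.ne_zero j)
  have hC0 : 0 ≤ C := Finset.sum_nonneg fun j _ => poleDiv_nonneg _ _
  have hC : ∀ (j : Fin (Module.finrank (IntermediateField.adjoin K {x}) F)) (v : Place K F),
      -(C v) ≤ v.ord (b j) := by
    intro j v
    have h1 : poleDiv (b j) (hu.ne_zero j) ≤ C :=
      Finset.single_le_sum (f := fun j => poleDiv (K := K) (b j) (hu.ne_zero j))
        (fun i _ => poleDiv_nonneg _ _) (Finset.mem_univ j)
    have h2 := Finsupp.le_def.mp h1 v
    have h3 := neg_poleDiv_le_ord (K := K) (b j) (hu.ne_zero j) v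
    omega
  have hdegB : Divisor.degree B ≤ n :=
    degree_poleDiv_le x hx0 n (fun S hS => hn ▸ hL2 x S hS)
  have key : ∀ l : ℕ, (n : ℤ) * (l + 1) - Divisor.degree C ≤ ell (l • B) := by
    intro l
    have h1 := le_ell_of_basis hx (fun j => b j) hu B C (poleDiv_nonneg _ _)
      (neg_poleDiv_le_ord _ _) hC l
    have h2 := degree_sub_ell_mono (D := l • B) (D' := l • B + C) (le_add_of_nonneg_right hC0)
    rw [map_add] at h2
    have h3 : ((Module.finrank (IntermediateField.adjoin K {x}) F * (l + 1) : ℕ) : ℤ)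
        ≤ ell (l • B + C) := by exact_mod_cast h1
    rw [← hn] at h3
    push_cast at h3
    linarith
  have keyB : ∀ l : ℕ, Divisor.degree (l • B) - ell (l • B) ≤ Divisor.degree C - n := by
    intro l
    have h1 := key l
    have h2 : Divisor.degree (l • B) = l * Divisor.degree B := by
      rw [map_nsmul, nsmul_eq_mul]
    have h3 : (l : ℤ) * Divisor.degree B ≤ l * n :=
      mul_le_mul_of_nonneg_left hdegB (Nat.cast_nonneg l)
    rw [h2]
    linarith
  refine ⟨Divisor.degree C - n, fun A => ?_⟩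
  have hA : Divisor.degree A - ell A
      ≤ Divisor.degree (posPartDiv A) - ell (posPartDiv A) :=
    degree_sub_ell_mono (le_posPartDiv A)
  obtain ⟨A₁, hA₁, hA₁0⟩ : ∃ A₁ : Divisor K F, A₁ = posPartDiv A ∧ 0 ≤ A₁ :=
    ⟨_, rfl, posPartDiv_nonneg A⟩
  rw [← hA₁] at hA
  refine hA.trans ?_
  obtain ⟨l, hl⟩ : ∃ l : ℕ, l = (Divisor.degree C + Divisor.degree A₁).toNat := ⟨_, rfl⟩
  have hl1 : Divisor.degree C + Divisor.degree A₁ ≤ l := hl ▸ Int.self_le_toNat _
  have hpos : 0 < ell (l • B - A₁) := by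
    have h1 := degree_sub_ell_mono (D := l • B - A₁) (D' := l • B)
      (sub_le_self _ hA₁0)
    rw [map_sub] at h1
    have h2 := key l
    have h3 : (l : ℤ) + 1 ≤ (n : ℤ) * (l + 1) := by
      have : (1 : ℤ) ≤ n := by exact_mod_cast hnpos
      nlinarith
    have h4 : (0 : ℤ) < ell (l • B - A₁) := by linarith
    exact_mod_cast h4
  obtain ⟨⟨z, hzL⟩, hz⟩ := Module.finrank_pos_iff_exists_ne_zero.mp hpos
  have hz0 : z ≠ 0 := fun h => hz (Subtype.ext h)
  have hD' : A₁ + divOf z⁻¹ (inv_ne_zero hz0) ≤ l • B := by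
    rw [Finsupp.le_def]
    intro v
    have h1 := (mem_L_iff.mp hzL v).resolve_left hz0
    rw [Finsupp.sub_apply, Finsupp.smul_apply, nsmul_eq_mul] at h1
    rw [Finsupp.add_apply, Finsupp.smul_apply, nsmul_eq_mul, divOf_apply, v.ord_inv]
    omega
  have h5 := degree_sub_ell_mono hD'
  rw [map_add, degree_divOf, add_zero, ell_add_divOf] at h5
  exact h5.trans (keyB l)

end FF1

end Fermat.Agent.Lib.RR.H409

end
end
-- ===== PACK-END Lib/RR/H409/RiemannOf.lean

-- ===== PACK-BEGIN Lib/RR/H409/Riemann.lean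
section



/-!
# RR library, layer L3.1: Riemann's theorem (exact skeleton statement)

Obtained from `exists_riemann_bound_of` (file `RiemannOf.lean`, which does not depend on layer
L2) and the pole bound `sum_neg_ord_le_finrank` of layer L2.
-/

set_option autoImplicit false

noncomputable section

open AlgebraicCurve

namespace Fermat.Agent.Lib.RR.H409

open Fermat.Agent.Lib.RR

variable (K F : Type*) [Field K] [Field F] [Algebra K F]

/-- **L3.1** Riemann's theorem: `deg D - ℓ(D)` is bounded above. -/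
theorem exists_riemann_bound [FF1 K F] :
    ∃ γ : ℤ, ∀ D : Divisor K F, Divisor.degree D - ell D ≤ γ :=
  exists_riemann_bound_of fun x _ S hS => sum_neg_ord_le_finrank FF1.deg_eq_one x S hS

end Fermat.Agent.Lib.RR.H409

end
end
-- ===== PACK-END Lib/RR/H409/Riemann.lean

-- ===== PACK-BEGIN Lib/RR/H98/DegreeBoundCore.lean
section


/-!
# RR library, L3.2 (helper98): `ℓ(D) = deg D + 1 - g` for all divisors of large degree

Stichtenoth 1.4.17(b).  Take `D₀` attaining Riemann's bound (`exists_ell_eq`) and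
`c := deg D₀ + g`.  If `deg D ≥ c`, Riemann's inequality gives `ℓ(D - D₀) ≥ 1`, so there is
`z ≠ 0` in `L(D - D₀)`; then `D₀ ≤ D + div z`, hence the bound is attained at `D + div z`
(`ell_eq_of_le`), and `ℓ`, `deg` do not change when adding `div z`.

`ell_eq_of_degree_ge` is the hypothesis-explicit form (any `g` satisfying Riemann's inequality
and attained at some `D₀`); it only needs layer L1 (`Lib/RR/Basic`, on main).  The frozen skeleton
statement `exists_degree_bound` is deduced from it in `H98/DegreeBound.lean`.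
-/

set_option autoImplicit false

noncomputable section

open AlgebraicCurve

namespace Fermat.Agent.Lib.RR.H98

open Fermat.Agent.Lib.RR

variable {K F : Type*} [Field K] [Field F] [Algebra K F]

/-- A nonzero element of `L(D)` exists as soon as `ℓ(D) ≥ 1`. -/
theorem exists_ne_zero_mem_L_of_ell_pos {D : Divisor K F} (h : 0 < ell D) :
    ∃ z : F, z ≠ 0 ∧ z ∈ riemannRochSpace D := by
  have hne : riemannRochSpace D ≠ ⊥ := by
    intro hbot
    unfold ell at h
    rw [hbot, finrank_bot] at h
    exact lt_irrefl _ h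
  obtain ⟨z, hz, hz0⟩ := Submodule.exists_mem_ne_zero_of_ne_bot hne
  exact ⟨z, hz0, hz⟩

/-- If `z ≠ 0` lies in `L(D - D₀)` then `D₀ ≤ D + div z`. -/
theorem le_add_divOf_of_mem_L [FF1 K F] {D D₀ : Divisor K F} {z : F}
    (hz : z ≠ 0) (hmem : z ∈ riemannRochSpace (D - D₀)) : D₀ ≤ D + divOf (K := K) z hz := by
  rw [Finsupp.le_def]
  intro v
  rw [mem_L_iff] at hmem
  rcases hmem v with h0 | h
  · exact absurd h0 hz
  · have h1 : (D + divOf (K := K) z hz : Divisor K F) v = D v + v.ord z := by
      rw [Finsupp.add_apply, divOf_apply]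
    have h2 : (D - D₀) v = D v - D₀ v := Finsupp.sub_apply (g₁ := D) (g₂ := D₀) (a := v)
    rw [h1]
    rw [h2] at h
    omega

/-- Hypothesis-explicit form of L3.2: if `g` satisfies Riemann's inequality
`deg D + 1 - g ≤ ℓ(D)` for all `D`, and `D₀` attains it, then `ℓ(D) = deg D + 1 - g` for all `D`
with `deg D ≥ deg D₀ + g`. -/
theorem ell_eq_of_degree_ge [FF1 K F] (g : ℤ)
    (hR : ∀ D : Divisor K F, Divisor.degree D + 1 - g ≤ ell D)
    {D₀ : Divisor K F} (h₀ : (ell D₀ : ℤ) = Divisor.degree D₀ + 1 - g)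
    {D : Divisor K F} (hD : Divisor.degree D₀ + g ≤ Divisor.degree D) :
    (ell D : ℤ) = Divisor.degree D + 1 - g := by
  -- `ℓ(D - D₀) ≥ 1`
  have h1 := hR (D - D₀)
  rw [map_sub] at h1
  have hpos : 0 < ell (D - D₀) := by
    have : (0 : ℤ) < ell (D - D₀) := by omega
    exact_mod_cast this
  obtain ⟨z, hz, hmem⟩ := exists_ne_zero_mem_L_of_ell_pos hpos
  have hle : D₀ ≤ D + divOf z hz := le_add_divOf_of_mem_L hz hmem
  -- the bound is attained above `D₀`
  have h2 := degree_sub_ell_mono hle
  have h3 := hR (D + divOf z hz)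
  rw [ell_add_divOf] at h2 h3
  rw [map_add, degree_divOf, add_zero] at h2 h3
  have h4 := hR D
  omega

end Fermat.Agent.Lib.RR.H98

end
end
-- ===== PACK-END Lib/RR/H98/DegreeBoundCore.lean

-- ===== PACK-BEGIN Lib/RR/Riemann.lean
section




/-!
# RR library, layer L3: Riemann's theorem  (Stichtenoth 1.4.17)

Integration file (helper320).  `exists_riemann_bound` is proved in `H409/` (helper409), the core
of `exists_degree_bound` in `H98/` (helper98).

Proof sketch.  Let `x` be as in `FF1.exists_finite`, `n = [F : K(x)]`, `B = (x)_∞`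
(`deg B ≤ n` by L2), `u_1, …, u_n` a `K(x)`-basis of `F`, `C ≥ 0` with `div u_j ≥ -C`.  The
`n (l + 1)` elements `x ^ i * u_j` (`i ≤ l`) lie in `L(l B + C)` and are `K`-independent, so
`ℓ(l B) ≥ ℓ(l B + C) - deg C ≥ n (l + 1) - deg C`, i.e. `deg (l B) - ℓ(l B) ≤ deg C - n`.
For arbitrary `A`: `ℓ(l B - A⁺) > 0` for `l ≫ 0`; take `z ≠ 0` in it; then
`A - div z ≤ l B` and `deg A - ℓ(A) = deg (A - div z) - ℓ(A - div z) ≤ deg (l B) - ℓ(l B)`.
-/

set_option autoImplicit false

noncomputable section

open AlgebraicCurve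

namespace Fermat.Agent.Lib.RR

variable (K F : Type*) [Field K] [Field F] [Algebra K F]

/-- **L3.1** Riemann's theorem: `deg D - ℓ(D)` is bounded above. -/
theorem exists_riemann_bound [FF1 K F] :
    ∃ γ : ℤ, ∀ D : Divisor K F, Divisor.degree D - ell D ≤ γ :=
  H409.exists_riemann_bound K F

theorem exists_nat_riemann_bound [FF1 K F] :
    ∃ g : ℕ, ∀ D : Divisor K F, Divisor.degree D + 1 - (g : ℤ) ≤ ell D := by
  obtain ⟨γ, hγ⟩ := exists_riemann_bound K F
  refine ⟨(γ + 1).toNat, fun D => ?_⟩
  have h1 := hγ D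
  have h2 : γ + 1 ≤ ((γ + 1).toNat : ℤ) := Int.self_le_toNat _
  omega

open Classical in
/-- The genus in the sense of Riemann's theorem: the least `g` with
`ℓ(D) ≥ deg D + 1 - g` for all `D`. -/
def genusR [FF1 K F] : ℕ := Nat.find (exists_nat_riemann_bound K F)

variable {K F}

/-- **Riemann's inequality**. -/
theorem riemann_inequality [FF1 K F] (D : Divisor K F) :
    Divisor.degree D + 1 - (genusR K F : ℤ) ≤ ell D := by
  classical
  exact Nat.find_spec (exists_nat_riemann_bound K F) D

/-- The bound is attained. -/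
theorem exists_ell_eq [FF1 K F] :
    ∃ D : Divisor K F, (ell D : ℤ) = Divisor.degree D + 1 - (genusR K F : ℤ) := by
  classical
  by_cases hg : genusR K F = 0
  · refine ⟨0, ?_⟩
    rw [ell_zero, hg]; simp
  · have hlt : genusR K F - 1 < genusR K F := by omega
    have hmin := Nat.find_min (exists_nat_riemann_bound K F) hlt
    simp only [not_forall, not_le] at hmin
    obtain ⟨D, hD⟩ := hmin
    refine ⟨D, le_antisymm ?_ (riemann_inequality D)⟩
    have hcast : ((genusR K F - 1 : ℕ) : ℤ) = (genusR K F : ℤ) - 1 := by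
      rw [Nat.cast_sub (by omega)]; simp
    rw [hcast] at hD
    omega

/-- Above a divisor attaining the bound, the bound is attained. -/
theorem ell_eq_of_le [FF1 K F] {D₀ D : Divisor K F}
    (h₀ : (ell D₀ : ℤ) = Divisor.degree D₀ + 1 - (genusR K F : ℤ)) (h : D₀ ≤ D) :
    (ell D : ℤ) = Divisor.degree D + 1 - (genusR K F : ℤ) := by
  have h1 := degree_sub_ell_mono h
  have h2 := riemann_inequality D
  omega

/-- **L3.2**: `ℓ(D) = deg D + 1 - g` for all divisors of large degree. -/
theorem exists_degree_bound [FF1 K F] :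
    ∃ c : ℤ, ∀ D : Divisor K F, c ≤ Divisor.degree D →
      (ell D : ℤ) = Divisor.degree D + 1 - (genusR K F : ℤ) := by
  obtain ⟨D₀, h₀⟩ := exists_ell_eq (K := K) (F := F)
  exact ⟨Divisor.degree D₀ + (genusR K F : ℤ), fun D hD =>
    H98.ell_eq_of_degree_ge (genusR K F : ℤ) (fun D' => riemann_inequality D') h₀ hD⟩

end Fermat.Agent.Lib.RR

end
end
-- ===== PACK-END Lib/RR/Riemann.lean

-- ===== PACK-BEGIN S28/H988/Tower.lean
section
/-
S28 / [L.UP] upper bound, helper988.
The tower step over ANY field `k`:  `E_{Mp} = E_M(j(q^{p^{a+1}}))` and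
`[E_{Mp} : E_M] ≤ p + 1` (`p ∤ M`), `≤ p` (`p ∣ M`), where `E_N = k(j(q^d) : d ∣ N)`.
Input: the modular relations `PhiRel k r (Φ r)` for the primes `r ∣ M p`.
-/




set_option autoImplicit false

noncomputable section

open Polynomial ModularCurve

namespace Fermat.Agent.S28.H988

variable (k : Type*) [Field k]

/-! ### The fields `E_N` -/

theorem jd_mem_full {N d : ℕ} (hN : N ≠ 0) (hd : d ∣ N) :
    jd k d ∈ modularFunctionFieldFullC k N := by
  have hd0 : d ≠ 0 := fun h => hN (by rw [h] at hd; exact Nat.eq_zero_of_zero_dvd hd)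
  have : NeZero d := ⟨hd0⟩
  rw [jd_eq k d]
  exact jqModCd_mem_full k N hd

theorem full_le_iff {N : ℕ} (hN : N ≠ 0) (F : IntermediateField k (LaurentSeries k)) :
    modularFunctionFieldFullC k N ≤ F ↔ ∀ d, d ∣ N → jd k d ∈ F := by
  constructor
  · intro h d hd
    exact h (jd_mem_full k hN hd)
  · intro h
    rw [modularFunctionFieldFullC, IntermediateField.adjoin_le_iff]
    rintro x ⟨d, hne, hdvd, rfl⟩
    have := h d hdvd
    rwa [jd_eq k d] at this

theorem full_mono {M N : ℕ} (hN : N ≠ 0) (h : M ∣ N) :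
    modularFunctionFieldFullC k M ≤ modularFunctionFieldFullC k N := by
  have hM : M ≠ 0 := fun h0 => hN (by rw [h0] at h; exact Nat.eq_zero_of_zero_dvd h)
  rw [full_le_iff k hM]
  intro d hd
  exact jd_mem_full k hN (hd.trans h)

/-! ### Generation -/

variable {k}

/-- **Generation.** If `F ⊇ E_M` contains `j(q^{p^b})` for all `p^b ∣ M p`, then `F ⊇ E_{Mp}`. -/
theorem jd_mem_of_dvd_mul (Φ : ℕ → Polynomial (Polynomial ℤ)) {M p : ℕ} (hM : M ≠ 0)
    (hp : p.Prime) (hΦ : ∀ r, r.Prime → r ∣ M * p → PhiRel k r (Φ r))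
    (F : IntermediateField k (LaurentSeries k)) (hF : ∀ d, d ∣ M → jd k d ∈ F)
    (hpow : ∀ b, p ^ b ∣ M * p → jd k (p ^ b) ∈ F) :
    ∀ d, d ∣ M * p → jd k d ∈ F := by
  intro d
  induction d using Nat.strong_induction_on with
  | _ d ih =>
    intro hd
    have hMp : M * p ≠ 0 := Nat.mul_ne_zero hM hp.ne_zero
    have hd0 : d ≠ 0 := fun h => hMp (by rw [h] at hd; exact Nat.eq_zero_of_zero_dvd hd)
    by_cases hdM : d ∣ M
    · exact hF d hdM
    have hpd : p ∣ d := by
      by_contra hnp
      have hcop : Nat.Coprime d p := (Nat.Coprime.symm ((Nat.Prime.coprime_iff_not_dvd hp).mpr hnp))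
      exact hdM (hcop.dvd_of_dvd_mul_right hd)
    by_cases hex : ∃ r, r.Prime ∧ r ∣ d ∧ r ≠ p
    · obtain ⟨r, hr, hrd, hrp⟩ := hex
      have hcop : Nat.Coprime p r := (Nat.coprime_primes hp hr).mpr (Ne.symm hrp)
      have hprd : p * r ∣ d := hcop.mul_dvd_of_dvd_of_dvd hpd hrd
      obtain ⟨e, he⟩ := hprd
      have hde : d = e * p * r := by rw [he]; ring
      have he0 : e ≠ 0 := by
        rintro rfl
        apply hd0
        rw [hde]; simp
      have h1 : jd k (e * r) ∈ F := by
        apply hF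
        have : e * r * p ∣ M * p := by
          rw [show e * r * p = d by rw [hde]; ring]; exact hd
        exact (Nat.mul_dvd_mul_iff_right hp.pos).mp this
      have h2 : jd k (e * p) ∈ F := by
        apply ih (e * p)
        · rw [hde]
          have : 1 < r := hr.one_lt
          have hpos : 0 < e * p := Nat.pos_of_ne_zero (Nat.mul_ne_zero he0 hp.ne_zero)
          nlinarith
        · exact (Dvd.intro r hde.symm).trans hd
      rw [hde]
      exact jd_mem_of_mem (hΦ p hp (Dvd.intro_left M rfl)) (hΦ r hr (hrd.trans hd))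
        hp.one_lt hr.one_lt (Ne.symm hrp) he0 F h1 h2
    · push Not at hex
      have hdpow : d = p ^ d.primeFactorsList.length :=
        Nat.eq_prime_pow_of_unique_prime_dvd hd0 (fun {r} hr hrd => hex r hr hrd)
      rw [hdpow]
      apply hpow
      rw [← hdpow]
      exact hd

/-! ### The top generator and its polynomial -/

/-- The exponent of the top `p`-power: `p ^ (topExp M p) ∣ M * p` exactly. -/
def topExp (M p : ℕ) : ℕ := M.factorization p + 1

theorem pow_dvd_mul_iff {M p : ℕ} (hM : M ≠ 0) (hp : p.Prime) (b : ℕ) :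
    p ^ b ∣ M * p ↔ b ≤ topExp M p := by
  have hMp : M * p ≠ 0 := Nat.mul_ne_zero hM hp.ne_zero
  rw [hp.pow_dvd_iff_le_factorization hMp, Nat.factorization_mul hM hp.ne_zero]
  simp only [Finsupp.coe_add, Pi.add_apply, hp.factorization_self, topExp]

theorem pow_dvd_iff' {M p : ℕ} (hM : M ≠ 0) (hp : p.Prime) (b : ℕ) :
    p ^ b ∣ M ↔ b + 1 ≤ topExp M p := by
  rw [hp.pow_dvd_iff_le_factorization hM, topExp]
  omega

variable (k) in
/-- The top generator `j(q^{p^{a+1}})`, `a = v_p(M)`. -/
def topGen (M p : ℕ) : LaurentSeries k := jd k (p ^ topExp M p)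

theorem topGen_mem {M p : ℕ} (hM : M ≠ 0) (hp : p.Prime) :
    topGen k M p ∈ modularFunctionFieldFullC k (M * p) :=
  jd_mem_full k (Nat.mul_ne_zero hM hp.ne_zero) ((pow_dvd_mul_iff hM hp _).mpr le_rfl)

/-- **Generation, packaged**: `E_{Mp} = E_M(topGen)`. -/
theorem full_mul_eq (Φ : ℕ → Polynomial (Polynomial ℤ)) {M p : ℕ} (hM : M ≠ 0)
    (hp : p.Prime) (hΦ : ∀ r, r.Prime → r ∣ M * p → PhiRel k r (Φ r)) :
    modularFunctionFieldFullC k (M * p) =
      (IntermediateField.adjoin (modularFunctionFieldFullC k M) {topGen k M p}).restrictScalars k := by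
  have hMp : M * p ≠ 0 := Nat.mul_ne_zero hM hp.ne_zero
  set L' := IntermediateField.adjoin (modularFunctionFieldFullC k M) {topGen k M p} with hL'
  have hsub : ∀ x ∈ modularFunctionFieldFullC k M, x ∈ L'.restrictScalars k := by
    intro x hx
    rw [IntermediateField.mem_restrictScalars]
    exact L'.algebraMap_mem ⟨x, hx⟩
  have htop : topGen k M p ∈ L'.restrictScalars k := by
    rw [IntermediateField.mem_restrictScalars]
    exact IntermediateField.mem_adjoin_simple_self _ _
  apply le_antisymm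
  · rw [full_le_iff k hMp]
    refine jd_mem_of_dvd_mul Φ hM hp hΦ _ (fun d hd => hsub _ (jd_mem_full k hM hd)) ?_
    intro b hb
    rw [pow_dvd_mul_iff hM hp] at hb
    rcases Nat.lt_or_ge b (topExp M p) with hlt | hge
    · exact hsub _ (jd_mem_full k hM ((pow_dvd_iff' hM hp b).mpr hlt))
    · have : b = topExp M p := le_antisymm hb hge
      rw [this]
      exact htop
  · intro x hx
    rw [IntermediateField.mem_restrictScalars] at hx
    have hle : L' ≤ IntermediateField.extendScalars
        (full_mono k hMp (Dvd.intro p rfl) :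
          modularFunctionFieldFullC k M ≤ modularFunctionFieldFullC k (M * p)) := by
      rw [hL', IntermediateField.adjoin_le_iff]
      rintro y hy
      rw [Set.mem_singleton_iff] at hy
      rw [hy]
      exact (IntermediateField.mem_extendScalars _).mpr (topGen_mem hM hp)
    exact (IntermediateField.mem_extendScalars _).mp (hle hx)

/-! ### The degree of the top generator -/

/-- `topGen` is a root of a monic polynomial over `E_M` of degree `p + 1`, and of degree `p`
if `p ∣ M`. -/
theorem exists_monic_root_topGen (Φ : Polynomial (Polynomial ℤ)) {M p : ℕ} (hM : M ≠ 0)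
    (hp : p.Prime) (hΦ : PhiRel k p Φ) :
    ∃ Q : Polynomial (modularFunctionFieldFullC k M), Q.Monic ∧
      Q.natDegree = (if p ∣ M then p else p + 1) ∧ aeval (topGen k M p) Q = 0 := by
  set E := modularFunctionFieldFullC k M with hE
  have hp0 : p ≠ 0 := hp.ne_zero
  by_cases hpM : p ∣ M
  · rw [if_pos hpM]
    -- `a ≥ 1`
    obtain ⟨a, ha⟩ : ∃ a, topExp M p = a + 2 := by
      have h1 : 1 + 1 ≤ topExp M p := (pow_dvd_iff' hM hp 1).mp (by rwa [pow_one])
      exact ⟨topExp M p - 2, by omega⟩
    have hmemy : jd k (p ^ (a + 1)) ∈ E :=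
      jd_mem_full k hM ((pow_dvd_iff' hM hp (a + 1)).mpr (by omega))
    have hmemc : jd k (p ^ a) ∈ E :=
      jd_mem_full k hM ((pow_dvd_iff' hM hp a).mpr (by omega))
    set y : E := ⟨jd k (p ^ (a + 1)), hmemy⟩ with hy
    set c : E := ⟨jd k (p ^ a), hmemc⟩ with hc
    set A : Polynomial E := PhiAt Φ y with hA
    have hAmap : A.map (algebraMap E (LaurentSeries k)) = PhiAt Φ (jd k (p ^ (a + 1))) := by
      rw [hA, PhiAt_map]; rfl
    have hpa0 : p ^ a ≠ 0 := pow_ne_zero _ hp0
    have hpa1 : p ^ (a + 1) ≠ 0 := pow_ne_zero _ hp0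
    have hrootc : A.IsRoot c := by
      have h1 : (A.map (algebraMap E (LaurentSeries k))).IsRoot
          (algebraMap E (LaurentSeries k) c) := by
        rw [hAmap]
        have := hΦ.root2 hp0 hpa0
        rwa [← pow_succ] at this
      exact IsRoot.of_map h1 (algebraMap E (LaurentSeries k)).injective
    have hAeq : (X - C c) * (A /ₘ (X - C c)) = A := mul_divByMonic_eq_iff_isRoot.mpr hrootc
    have hAmonic : A.Monic := PhiAt_monic hΦ.monic _
    have hAdeg : A.natDegree = p + 1 := by rw [hA, PhiAt_natDegree hΦ.monic, hΦ.natDegree_eq]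
    refine ⟨A /ₘ (X - C c), ?_, ?_, ?_⟩
    · have hd : (X - C c : Polynomial E).degree ≤ A.degree := by
        rw [degree_X_sub_C, degree_eq_natDegree hAmonic.ne_zero, hAdeg]
        exact_mod_cast Nat.le_add_left 1 p
      rw [Monic, leadingCoeff_divByMonic_of_monic (monic_X_sub_C _) hd]
      exact hAmonic
    · rw [natDegree_divByMonic _ (monic_X_sub_C _), natDegree_X_sub_C, hAdeg]
      rfl
    · have hrootA : aeval (topGen k M p) A = 0 := by
        rw [aeval_def, eval₂_eq_eval_map, hAmap]
        have := hΦ.root1 hp0 hpa1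
        rw [← pow_succ] at this
        unfold topGen
        rw [ha]
        exact this
      rw [← hAeq, map_mul, map_sub, aeval_X, aeval_C] at hrootA
      rcases mul_eq_zero.mp hrootA with h | h
      · exfalso
        have h' : topGen k M p = jd k (p ^ a) := sub_eq_zero.mp h
        unfold topGen at h'
        rw [ha] at h'
        refine jd_ne k (pow_ne_zero _ hp0) hpa0 ?_ h'
        intro hcon
        have := Nat.pow_right_injective hp.two_le hcon
        omega
      · exact h
  · rw [if_neg hpM]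
    have htop : topExp M p = 1 := by
      unfold topExp
      rw [Nat.factorization_eq_zero_of_not_dvd hpM]
    have hmemy : jd k 1 ∈ E := jd_mem_full k hM (one_dvd M)
    set y : E := ⟨jd k 1, hmemy⟩ with hy
    set A : Polynomial E := PhiAt Φ y with hA
    have hAmap : A.map (algebraMap E (LaurentSeries k)) = PhiAt Φ (jd k 1) := by
      rw [hA, PhiAt_map]; rfl
    refine ⟨A, PhiAt_monic hΦ.monic _, ?_, ?_⟩
    · rw [hA, PhiAt_natDegree hΦ.monic, hΦ.natDegree_eq]
    · rw [aeval_def, eval₂_eq_eval_map, hAmap]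
      have := hΦ.root1 hp0 one_ne_zero
      rw [one_mul] at this
      unfold topGen
      rw [htop, pow_one]
      exact this

/-- **Tower step.** `0 < [E_{Mp} : E_M] ≤ p + 1`, and `≤ p` if `p ∣ M`. -/
theorem relfinrank_step (Φ : ℕ → Polynomial (Polynomial ℤ)) {M p : ℕ} (hM : M ≠ 0)
    (hp : p.Prime) (hΦ : ∀ r, r.Prime → r ∣ M * p → PhiRel k r (Φ r)) :
    0 < IntermediateField.relfinrank (modularFunctionFieldFullC k M)
        (modularFunctionFieldFullC k (M * p)) ∧
    IntermediateField.relfinrank (modularFunctionFieldFullC k M)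
        (modularFunctionFieldFullC k (M * p)) ≤ (if p ∣ M then p else p + 1) := by
  have hMp : M * p ≠ 0 := Nat.mul_ne_zero hM hp.ne_zero
  have hle : modularFunctionFieldFullC k M ≤ modularFunctionFieldFullC k (M * p) :=
    full_mono k hMp (Dvd.intro p rfl)
  obtain ⟨Q, hQm, hQd, hQr⟩ :=
    exists_monic_root_topGen (Φ p) hM hp (hΦ p hp (Dvd.intro_left M rfl))
  have hint : IsIntegral (modularFunctionFieldFullC k M) (topGen k M p) := ⟨Q, hQm, by
    rwa [← aeval_def]⟩
  have heq : IntermediateField.extendScalars hle =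
      IntermediateField.adjoin (modularFunctionFieldFullC k M) {topGen k M p} := by
    ext x
    rw [IntermediateField.mem_extendScalars, full_mul_eq Φ hM hp hΦ,
      IntermediateField.mem_restrictScalars]
  rw [IntermediateField.relfinrank_eq_finrank_of_le hle, heq,
    IntermediateField.adjoin.finrank hint]
  refine ⟨minpoly.natDegree_pos hint, ?_⟩
  rw [← hQd]
  exact natDegree_le_of_dvd (minpoly.dvd _ _ hQr) hQm.ne_zero

end Fermat.Agent.S28.H988

end

end
-- ===== PACK-END S28/H988/Tower.lean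

-- ===== PACK-BEGIN S28/H988/Upper.lean
section
/-
S28 / [L.UP] upper bound, helper988.
`[E_N : k(j)] ≤ ψ(N)` over ANY field `k`, from the modular relations at the primes dividing `N`;
adapter from the captain's `ModPolyData`.
-/






set_option autoImplicit false

noncomputable section

open Polynomial ModularCurve

namespace Fermat.Agent.S28.H988

variable (k : Type*) [Field k]

/-- Adapter: the captain's `ModPolyData p` gives the relations over every field. -/
theorem phiRel_of_modPolyData (p : ℕ) [NeZero p] (D : Fermat.Agent.S28.ModPolyData p) :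
    PhiRel k p D.Φ := by
  set c : LaurentSeries ℤ →+* LaurentSeries k := coeffMap (Int.castRingHom k) with hc
  have hcj : c (jqModC ℤ) = jqModC k := coeffMap_jqModC _
  have hcjp : c (qExpand ℤ p (jqModC ℤ)) = jd k p := by
    rw [hc, coeffMap_qExpand, coeffMap_jqModC, jd_eq]
  have hcomp : ∀ y : LaurentSeries ℤ,
      c.comp (Fermat.Agent.S28.evalAt y) = eval₂RingHom (Int.castRingHom (LaurentSeries k)) (c y) := by
    intro y
    apply Polynomial.ringHom_ext
    · intro a
      simp [Fermat.Agent.S28.evalAt]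
    · simp [Fermat.Agent.S28.evalAt]
  refine ⟨D.monic, D.natDegree_eq, ?_, ?_⟩
  · have := congrArg c D.eval_jp
    rw [map_zero, Polynomial.hom_eval₂, hcomp, hcj, hcjp, eval₂_eq_eval_map] at this
    exact this
  · have := congrArg c D.eval_j
    rw [map_zero, Polynomial.hom_eval₂, hcomp, hcj, hcjp, eval₂_eq_eval_map] at this
    exact this

theorem full_one : modularFunctionFieldFullC k 1 = IntermediateField.adjoin k {jqModC k} := by
  apply le_antisymm
  · rw [full_le_iff k one_ne_zero]
    intro d hd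
    rw [Nat.dvd_one.mp hd, jd_one]
    exact IntermediateField.mem_adjoin_simple_self k _
  · rw [IntermediateField.adjoin_le_iff]
    rintro x hx
    rw [Set.mem_singleton_iff] at hx
    rw [hx]
    exact jqModC_mem_full k 1

variable {k}

/-- **Upper bound.** `0 < [E_N : E_1] ≤ ψ(N)`. -/
theorem relfinrank_full_le (Φ : ℕ → Polynomial (Polynomial ℤ)) (N : ℕ) (hN : N ≠ 0)
    (hΦ : ∀ r, r.Prime → r ∣ N → PhiRel k r (Φ r)) :
    0 < IntermediateField.relfinrank (modularFunctionFieldFullC k 1)
        (modularFunctionFieldFullC k N) ∧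
    IntermediateField.relfinrank (modularFunctionFieldFullC k 1)
        (modularFunctionFieldFullC k N) ≤ dedekindPsi N := by
  induction N using induction_on_primes with
  | zero => exact absurd rfl hN
  | one =>
    rw [IntermediateField.relfinrank_self, dedekindPsi_one]
    exact ⟨Nat.one_pos, le_rfl⟩
  | prime_mul p M hp ih =>
    have hM : M ≠ 0 := by rintro rfl; simp at hN
    rw [mul_comm p M] at hΦ ⊢
    have ih' := ih hM (fun r hr hrM => hΦ r hr (hrM.trans (Dvd.intro p rfl)))
    have hstep := relfinrank_step Φ hM hp hΦ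
    have hMp : M * p ≠ 0 := Nat.mul_ne_zero hM hp.ne_zero
    have h1 : modularFunctionFieldFullC k 1 ≤ modularFunctionFieldFullC k M :=
      full_mono k hM (one_dvd M)
    have h2 : modularFunctionFieldFullC k M ≤ modularFunctionFieldFullC k (M * p) :=
      full_mono k hMp (Dvd.intro p rfl)
    rw [← IntermediateField.relfinrank_mul_relfinrank h1 h2]
    refine ⟨Nat.mul_pos ih'.1 hstep.1, ?_⟩
    by_cases hpM : p ∣ M
    · rw [if_pos hpM] at hstep
      rw [Fermat.Agent.S20.H872.dedekindPsi_mul_prime_of_dvd hM hp hpM, mul_comm]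
      exact Nat.mul_le_mul hstep.2 ih'.2
    · rw [if_neg hpM] at hstep
      rw [Fermat.Agent.S20.H872.dedekindPsi_mul_prime_of_not_dvd hM hp hpM, mul_comm]
      exact Nat.mul_le_mul hstep.2 ih'.2

/-- **Upper bound**, existential form of the hypothesis. -/
theorem relfinrank_full_le' (N : ℕ) (hN : N ≠ 0)
    (hΦ : ∀ r : ℕ, r.Prime → r ∣ N → ∃ Φ : Polynomial (Polynomial ℤ), PhiRel k r Φ) :
    0 < IntermediateField.relfinrank (modularFunctionFieldFullC k 1)
        (modularFunctionFieldFullC k N) ∧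
    IntermediateField.relfinrank (modularFunctionFieldFullC k 1)
        (modularFunctionFieldFullC k N) ≤ dedekindPsi N := by
  classical
  set Φ : ℕ → Polynomial (Polynomial ℤ) := fun r =>
    if h : r.Prime ∧ r ∣ N then (hΦ r h.1 h.2).choose else 0 with hΦdef
  refine relfinrank_full_le Φ N hN ?_
  intro r hr hrN
  have hΦr : Φ r = (hΦ r hr hrN).choose := by
    rw [hΦdef]
    simp only
    rw [dif_pos ⟨hr, hrN⟩]
  rw [hΦr]
  exact (hΦ r hr hrN).choose_spec

/-- **Upper bound from the captain's interface**, over any field `k`: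
`0 < [k(j(q^d) : d ∣ N) : k(j)] ≤ ψ(N)`. -/
theorem relfinrank_jField_full_le (N : ℕ) (hN : N ≠ 0)
    (hΦ : ∀ (r : ℕ) (hr : r.Prime), r ∣ N →
      Nonempty (@Fermat.Agent.S28.ModPolyData r ⟨hr.ne_zero⟩)) :
    0 < IntermediateField.relfinrank (Fermat.Agent.S28.jField k)
        (modularFunctionFieldFullC k N) ∧
    IntermediateField.relfinrank (Fermat.Agent.S28.jField k)
        (modularFunctionFieldFullC k N) ≤ dedekindPsi N := by
  have hj : Fermat.Agent.S28.jField k = modularFunctionFieldFullC k 1 := (full_one k).symm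
  rw [hj]
  refine relfinrank_full_le' N hN ?_
  intro r hr hrN
  have : NeZero r := ⟨hr.ne_zero⟩
  obtain ⟨D⟩ := hΦ r hr hrN
  exact ⟨D.Φ, phiRel_of_modPolyData k r D⟩

/-- The same over `ℚ`, for the Prelude's `modularFunctionFieldFull`. -/
theorem relfinrank_jField_modularFunctionFieldFull_le (N : ℕ) (hN : N ≠ 0)
    (hΦ : ∀ (r : ℕ) (hr : r.Prime), r ∣ N →
      Nonempty (@Fermat.Agent.S28.ModPolyData r ⟨hr.ne_zero⟩)) :
    0 < IntermediateField.relfinrank (Fermat.Agent.S28.jField ℚ) (modularFunctionFieldFull N) ∧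
    IntermediateField.relfinrank (Fermat.Agent.S28.jField ℚ) (modularFunctionFieldFull N)
      ≤ dedekindPsi N :=
  relfinrank_jField_full_le (k := ℚ) N hN hΦ

end Fermat.Agent.S28.H988

end

end
-- ===== PACK-END S28/H988/Upper.lean

-- ===== PACK-BEGIN S37/H28/NCGen.lean
section



/-!
# S37 / node_rim, NC producer (helper28), part 1: generic form

`K` a field of characteristic `0`, `F` a field with `[Algebra K[X] F]` (the coordinate is
`x = algebraMap K[X] F X`), finite over `L₀ = Frac K[X]`.  `B_η = integralClosure K[X] F`.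

* `isRadical_span_X_sub_C` : if `F` is unramified over `x = c` (in the valuation-subring shape
  of the field `unramified` of `S18.Alg.GoodModel`), then `(X - C c)` generates a radical ideal
  of `B_η`.  This is the hypothesis `hNC` of `S37.H159.RedCtx.lift_integral` (Theorem M).
* `isIntegralElem_div_of_pow` : the elementwise form.
* `unramified_inv` : the `unramified` shape for the coordinate `x⁻¹`.
-/

set_option autoImplicit false
set_option linter.unusedSectionVars false
set_option linter.style.haveILetI false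

noncomputable section

namespace Fermat.Agent.S37.H28

open Polynomial

section Generic

variable {K : Type*} [Field K] [CharZero K] {F : Type*} [Field F] [Algebra K[X] F]
variable (L₀ : Type*) [Field L₀] [Algebra K[X] L₀] [IsFractionRing K[X] L₀] [Algebra L₀ F]
  [IsScalarTower K[X] L₀ F] [FiniteDimensional L₀ F]

include L₀ in
theorem algebraMap_polynomial_injective : Function.Injective (algebraMap K[X] F) := by
  rw [IsScalarTower.algebraMap_eq K[X] L₀ F]
  exact (algebraMap L₀ F).injective.comp (IsFractionRing.injective K[X] L₀)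

omit [Algebra K[X] F] [Algebra L₀ F] [IsScalarTower K[X] L₀ F] [FiniteDimensional L₀ F] in
theorem charZero_of_fractionRing (K : Type*) [Field K] [CharZero K] (L₀ : Type*) [Field L₀]
    [Algebra K[X] L₀] [IsFractionRing K[X] L₀] : CharZero L₀ := by
  have h : Function.Injective ((algebraMap K[X] L₀).comp (C : K →+* K[X])) :=
    (IsFractionRing.injective K[X] L₀).comp Polynomial.C_injective
  exact charZero_of_injective_ringHom h

include L₀ in
theorem isNoetherianRing_integralClosure : IsNoetherianRing (integralClosure K[X] F) := by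
  haveI : CharZero L₀ := charZero_of_fractionRing K L₀
  exact IsIntegralClosure.isNoetherianRing K[X] L₀ F (integralClosure K[X] F)

include L₀ in
theorem isIntegrallyClosed_integralClosure : IsIntegrallyClosed (integralClosure K[X] F) :=
  integralClosure.isIntegrallyClosedOfFiniteExtension L₀

include L₀ in
/-- **NC, typed form** (= `hNC` of Theorem M): unramified over `x = c` implies that `X - C c`
generates a radical ideal of `B_η`. -/
theorem isRadical_span_X_sub_C (Lc : Subfield F)
    (hLc : ∀ a ∈ Lc, ∃ a₀ : K, algebraMap K[X] F (C a₀) = a)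
    (S : Finset F)
    (hunr : ∀ O : ValuationSubring F, (∀ a ∈ Lc, a ∈ O) → ∀ c ∈ Lc, c ∉ S →
      algebraMap K[X] F X - c ∈ O → (algebraMap K[X] F X - c)⁻¹ ∉ O →
        ∀ t ∈ O, t⁻¹ ∉ O → t * (algebraMap K[X] F X - c)⁻¹ ∈ O)
    (c : K) (hcL : algebraMap K[X] F (C c) ∈ Lc) (hcS : algebraMap K[X] F (C c) ∉ S) :
    (Ideal.span {algebraMap K[X] (integralClosure K[X] F) (X - C c)}).IsRadical := by
  classical
  haveI := isNoetherianRing_integralClosure (K := K) (F := F) L₀
  haveI := isIntegrallyClosed_integralClosure (K := K) (F := F) L₀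
  have hinj := algebraMap_polynomial_injective (K := K) (F := F) L₀
  have hπ : algebraMap K[X] (integralClosure K[X] F) (X - C c) ≠ 0 := by
    intro h0
    have h1 : algebraMap K[X] F (X - C c) = 0 := by
      have := congrArg (algebraMap (integralClosure K[X] F) F) h0
      rwa [← IsScalarTower.algebraMap_apply, map_zero] at this
    have h2 : (X - C c : K[X]) = 0 := hinj (by rw [h1, map_zero])
    exact Polynomial.X_sub_C_ne_zero c h2
  refine Fermat.Agent.S18.H754.isRadical_span_of_unramified (Ω := F) Lc _ hπ 1 ?_ ?_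
    (algebraMap K[X] F X) S {algebraMap K[X] F (C c)} ?_ 1 (one_mem _) one_ne_zero ?_ hunr
  · intro 𝔓 h𝔓 _ _ h1
    exact h𝔓.ne_top ((Ideal.eq_top_iff_one _).2 h1)
  · intro a ha
    obtain ⟨a₀, rfl⟩ := hLc a ha
    refine ⟨0, ?_⟩
    rw [pow_zero, one_mul]
    have : algebraMap K[X] F (C a₀) =
        algebraMap (integralClosure K[X] F) F (algebraMap K[X] (integralClosure K[X] F) (C a₀)) := by
      rw [← IsScalarTower.algebraMap_apply]
    rw [this]
    exact isIntegral_algebraMap
  · intro c' hc'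
    rw [Finset.mem_singleton] at hc'
    subst hc'
    exact ⟨hcL, hcS⟩
  · rw [Finset.prod_singleton, one_mul, ← IsScalarTower.algebraMap_apply, map_sub]

end Generic

end Fermat.Agent.S37.H28

end
end
-- ===== PACK-END S37/H28/NCGen.lean

-- ===== PACK-BEGIN S37/H939/Normal.lean
section



/-!
# Normality from the discriminant criterion
(row S37 / S18, piece b2 = R-b; seat helper939)

`T` a domain, free of rank `n` over `k[X]` with basis `b`.  If the discriminant of `b` is nonzero,
splits, and `ord_c (discr b) + redRank T c ≤ n` at each root `c`, then `T` is integrally closed.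
-/

set_option autoImplicit false
set_option linter.unusedSectionVars false
set_option linter.style.haveILetI false

namespace Fermat.Agent.S37.H939

open Polynomial Matrix

variable {k : Type*} [Field k]
variable {T : Type*} [CommRing T] [IsDomain T]
  [Algebra k[X] T] [Algebra k T] [IsScalarTower k k[X] T]
variable {ι : Type*} [Fintype ι] [DecidableEq ι] (b : Module.Basis ι k[X] T)

include b in
/-- An overorder `T₂ ⊆ Frac T` which is a finite `T`-module has the same rank as `T`. -/
lemma finrank_overorder_eq (L : Type*) [Field L] [Algebra T L] [IsFractionRing T L]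
    [Algebra k[X] L] [IsScalarTower k[X] T L]
    (T₂ : Subalgebra k[X] L) [Module.Finite k[X] T₂]
    (hT : ∀ t : T, algebraMap T L t ∈ T₂)
    (hfrac : ∃ s : T, s ≠ 0 ∧ ∀ z ∈ T₂, ∃ t : T, algebraMap T L t = algebraMap T L s * z) :
    Module.finrank k[X] T₂ = Fintype.card ι := by
  classical
  haveI : Module.Finite k[X] T := Module.Finite.of_basis b
  have hn : Module.finrank k[X] T = Fintype.card ι := Module.finrank_eq_card_basis b
  have hinj : Function.Injective (algebraMap T L) := IsFractionRing.injective T L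
  -- the inclusion `T → T₂`
  let f : T →ₗ[k[X]] T₂ :=
    ((IsScalarTower.toAlgHom k[X] T L).toLinearMap).codRestrict (Subalgebra.toSubmodule T₂)
      (fun t => hT t)
  have hf : Function.Injective f := by
    intro x y hxy
    apply hinj
    exact congrArg (fun z : T₂ => (z : L)) hxy
  have h1 : Module.finrank k[X] T ≤ Module.finrank k[X] T₂ :=
    LinearMap.finrank_le_finrank_of_injective hf
  -- multiplication by the denominator `T₂ → T`
  obtain ⟨s, hs0, hs⟩ := hfrac
  choose! g hg using hs
  let φ : T₂ →ₗ[k[X]] T :=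
    { toFun := fun z => g z
      map_add' := by
        intro x y
        apply hinj
        rw [map_add, hg _ x.2, hg _ y.2, hg _ (x + y).2]
        push_cast
        ring
      map_smul' := by
        intro a x
        apply hinj
        have e1 : ((a • x : T₂) : L) = algebraMap k[X] L a * (x : L) := by
          rw [Subalgebra.coe_smul, Algebra.smul_def]
        have e2 : algebraMap T L (a • g x) = algebraMap k[X] L a * algebraMap T L (g x) := by
          rw [Algebra.smul_def, map_mul, ← IsScalarTower.algebraMap_apply]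
        rw [RingHom.id_apply, e2, hg _ (a • x).2, hg _ x.2, e1]
        ring }
  have hφ : Function.Injective φ := by
    intro x y hxy
    have h2 : algebraMap T L (g x) = algebraMap T L (g y) := congrArg _ hxy
    rw [hg _ x.2, hg _ y.2] at h2
    have hs' : algebraMap T L s ≠ 0 := fun h0 => hs0 (hinj (by rw [h0, map_zero]))
    exact Subtype.ext (mul_left_cancel₀ hs' h2)
  have h2 : Module.finrank k[X] T₂ ≤ Module.finrank k[X] T :=
    LinearMap.finrank_le_finrank_of_injective hφ
  omega

/-- **Normality criterion.** -/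
theorem isIntegrallyClosed_of_discr_criterion
    (hd : Algebra.discr k[X] b ≠ 0) (hs : (Algebra.discr k[X] b).Splits)
    (h : ∀ c : k, (Algebra.discr k[X] b).IsRoot c →
      (Algebra.discr k[X] b).rootMultiplicity c + redRank T c ≤ Fintype.card ι) :
    IsIntegrallyClosed T := by
  classical
  haveI : Module.Finite k[X] T := Module.Finite.of_basis b
  haveI : Module.Free k[X] T := Module.Free.of_basis b
  refine (isIntegrallyClosed_iff (FractionRing T)).mpr ?_
  intro y hy
  let L := FractionRing T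
  have hinj : Function.Injective (algebraMap T L) := IsFractionRing.injective T L
  have hinjX : Function.Injective (algebraMap k[X] T) := FaithfulSMul.algebraMap_injective _ _
  have hinjXL : Function.Injective (algebraMap k[X] L) := by
    rw [IsScalarTower.algebraMap_eq k[X] T L]
    exact hinj.comp hinjX
  let T₂' : Subalgebra T L := Algebra.adjoin T {y}
  let T₂ : Subalgebra k[X] L := T₂'.restrictScalars k[X]
  haveI hfin' : Module.Finite T T₂' := by
    have := Module.Finite.of_fg hy.fg_adjoin_singleton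
    exact this
  haveI hfinT₂ : Module.Finite k[X] T₂ := by
    have : Module.Finite k[X] T₂' := Module.Finite.trans T T₂'
    exact this
  haveI : Module.IsTorsionFree k[X] L := Module.isTorsionFree_iff_algebraMap_injective.mpr hinjXL
  haveI : Module.IsTorsionFree k[X] T₂ := inferInstance
  haveI : Module.Free k[X] T₂ := inferInstance
  -- denominators
  have hfrac : ∃ s : T, s ≠ 0 ∧ ∀ z ∈ T₂, ∃ t : T, algebraMap T L t = algebraMap T L s * z := by
    obtain ⟨s, hs, hs'⟩ := FractionalIdeal.isFractional_adjoin_integral (nonZeroDivisors T) y hy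
    refine ⟨s, nonZeroDivisors.ne_zero hs, fun z hz => ?_⟩
    obtain ⟨t, ht⟩ := hs' z hz
    exact ⟨t, by rw [ht, Algebra.smul_def]⟩
  have hT : ∀ t : T, algebraMap T L t ∈ T₂ := fun t => T₂'.algebraMap_mem t
  have hrank : Module.finrank k[X] T₂ = Fintype.card ι :=
    finrank_overorder_eq b L T₂ hT hfrac
  -- a basis of the overorder
  let b₂ : Module.Basis ι k[X] T₂ :=
    (Module.finBasisOfFinrankEq k[X] T₂ hrank).reindex (Fintype.equivFin ι).symm
  let f : T →ₐ[k[X]] T₂ := (IsScalarTower.toAlgHom k[X] T L).codRestrict T₂ hT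
  have hf : Function.Injective f := by
    intro x x' hxx
    apply hinj
    exact congrArg (fun z : T₂ => (z : L)) hxx
  obtain ⟨-, hsurj⟩ := bijective_of_discr_criterion b b₂ f hf hd hs h
  obtain ⟨t, ht⟩ := hsurj ⟨y, Algebra.self_mem_adjoin_singleton T y⟩
  exact ⟨t, congrArg (fun z : T₂ => (z : L)) ht⟩

end Fermat.Agent.S37.H939

end
-- ===== PACK-END S37/H939/Normal.lean

-- ===== PACK-BEGIN Lib/RR/H560/Hpd.lean
section





/-!
# RR library, bridge (helper560): `HasPrincipalDivisors` and `FF1`, CHARACTERISTIC-FREE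

For `K` algebraically closed (any characteristic) and `F` finite over `K(x)`, `x` transcendental:

* every nonzero `f` has finitely many zeros and poles (`finite_ord_ne_zero`);
* `deg (t)_∞ = [F : K(t)] = deg (t)_0` for transcendental `t` (`degree_poleD`, Stichtenoth 1.4.11:
  `≤` is layer L2 of the RR library, `≥` is the counting argument in `L(l B + C)` which uses only
  `dim L(D) ≤ deg D + 1` for `D ≥ 0`);
* hence `HasPrincipalDivisors K F` (`hasPrincipalDivisors`) and `FF1 K F` (`ff1`).

No separability, no Dedekind domains.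

Main statements:
```
theorem hasPrincipalDivisors [IsAlgClosed K] (x : F) (hx : Transcendental K x)
    [FiniteDimensional K⟮x⟯ F] : HasPrincipalDivisors K F
theorem ff1 [IsAlgClosed K] (x : F) (hx : Transcendental K x)
    [FiniteDimensional K⟮x⟯ F] : FF1 K F
```
-/

set_option autoImplicit false

noncomputable section

open AlgebraicCurve IntermediateField

namespace Fermat.Agent.Lib.RR.H560

open Fermat.Agent.Lib.RR

variable {K F : Type*} [Field K] [Field F] [Algebra K F]

/-! ### Finiteness of zeros and poles -/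

/-- The zeros of `t` are finite in number, if `F` is finite over `K(t)`. -/
theorem finite_zeros (hdeg : ∀ v : Place K F, v.deg = 1) (t : F)
    [FiniteDimensional K⟮t⟯ F] : {v : Place K F | 0 < v.ord t}.Finite := by
  classical
  by_contra hinf
  have hinf' : Set.Infinite {v : Place K F | 0 < v.ord t} := hinf
  obtain ⟨S, hS, hcard⟩ := hinf'.exists_subset_card_eq (Module.finrank K⟮t⟯ F + 1)
  have hS' : ∀ v ∈ S, 0 < v.ord t := fun v hv => hS hv
  have h1 := sum_ord_le_finrank hdeg t S hS'
  have h2 : ∑ _v ∈ S, (1 : ℤ) ≤ ∑ v ∈ S, v.ord t :=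
    Finset.sum_le_sum fun v hv => by have := hS' v hv; omega
  rw [Finset.sum_const, hcard] at h2
  simp only [nsmul_eq_mul, mul_one] at h2
  push_cast at h2
  omega

/-- The poles of `t` are finite in number, if `F` is finite over `K(t)`. -/
theorem finite_poles (hdeg : ∀ v : Place K F, v.deg = 1) (t : F)
    [FiniteDimensional K⟮t⟯ F] : {v : Place K F | v.ord t < 0}.Finite := by
  classical
  by_contra hinf
  have hinf' : Set.Infinite {v : Place K F | v.ord t < 0} := hinf
  obtain ⟨S, hS, hcard⟩ := hinf'.exists_subset_card_eq (Module.finrank K⟮t⟯ F + 1)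
  have hS' : ∀ v ∈ S, v.ord t < 0 := fun v hv => hS hv
  have h1 := sum_neg_ord_le_finrank hdeg t S hS'
  have h2 : ∑ _v ∈ S, (1 : ℤ) ≤ ∑ v ∈ S, -v.ord t :=
    Finset.sum_le_sum fun v hv => by have := hS' v hv; omega
  rw [Finset.sum_const, hcard] at h2
  simp only [nsmul_eq_mul, mul_one] at h2
  push_cast at h2
  omega

section AlgClosed

variable [IsAlgClosed K] (x : F) (hx : Transcendental K x) [hfinx : FiniteDimensional K⟮x⟯ F]

include hx hfinx

theorem hdeg_all (v : Place K F) : v.deg = 1 := S24.FF.deg_eq_one v hx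

theorem hfin_all (t : F) (ht : Transcendental K t) : FiniteDimensional K⟮t⟯ F :=
  S24.FF.finiteDimensional_adjoin_of_transcendental hx ht

/-- Every function has finitely many zeros and poles. -/
theorem finite_ord_ne_zero (f : F) : {v : Place K F | v.ord f ≠ 0}.Finite := by
  by_cases hfK : f ∈ (algebraMap K F).range
  · obtain ⟨c, rfl⟩ := hfK
    have : {v : Place K F | v.ord (algebraMap K F c) ≠ 0} = ∅ := by
      ext v
      simp [ord_algebraMap v c]
    rw [this]
    exact Set.finite_empty
  · have hft : Transcendental K f := S24.FF.transcendental_of_not_mem_range hfK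
    haveI : FiniteDimensional K⟮f⟯ F := hfin_all x hx f hft
    refine ((finite_zeros (hdeg_all x hx) f).union (finite_poles (hdeg_all x hx) f)).subset ?_
    intro v hv
    simp only [Set.mem_ofPred_eq, Set.mem_union] at hv ⊢
    omega

/-- The divisor of a function (`0` for `f = 0`). -/
def divF (f : F) : Divisor K F :=
  Finsupp.onFinset (finite_ord_ne_zero x hx f).toFinset (fun v => v.ord f)
    (fun v hv => by simpa using hv)

theorem divF_apply (f : F) (v : Place K F) : divF x hx f v = v.ord f := rfl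

/-- The pole divisor of a function. -/
def poleD (f : F) : Divisor K F := H409.negPartDiv (divF x hx f)

theorem poleD_apply (f : F) (v : Place K F) : poleD x hx f v = max 0 (-(v.ord f)) := by
  simp [poleD, divF_apply]

theorem poleD_nonneg (f : F) : 0 ≤ poleD x hx f := H409.negPartDiv_nonneg _

theorem neg_poleD_le_ord (f : F) (v : Place K F) : -(poleD x hx f v) ≤ v.ord f := by
  rw [poleD_apply]
  have := le_max_right 0 (-(v.ord f))
  omega

theorem divF_eq_sub (f : F) : divF x hx f = poleD x hx f⁻¹ - poleD x hx f := by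
  ext v
  rw [Finsupp.sub_apply, poleD_apply, poleD_apply, divF_apply, v.ord_inv, neg_neg]
  rcases le_total 0 (v.ord f) with h | h
  · rw [max_eq_right h, max_eq_left (by omega)]; ring
  · rw [max_eq_left h, max_eq_right (by omega)]; ring

/-! ### The upper bound `ℓ(D) ≤ deg D + 1` for effective divisors -/

/-- A function without poles is constant. -/
theorem L_zero_le :
    riemannRochSpace (0 : Divisor K F) ≤ LinearMap.range (Algebra.linearMap K F) := by
  intro f hf
  by_cases hfK : f ∈ (algebraMap K F).range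
  · obtain ⟨c, rfl⟩ := hfK
    exact ⟨c, rfl⟩
  · exfalso
    have hft : Transcendental K f := S24.FF.transcendental_of_not_mem_range hfK
    obtain ⟨v, hv⟩ := H443.exists_place_ord_neg (hfin_all x hx) hft
    have hf0 : f ≠ 0 := fun h => hft (h ▸ isAlgebraic_zero)
    have := (mem_L_iff.mp hf v).resolve_left hf0
    simp at this
    omega

theorem finite_L_zero : Module.Finite K (riemannRochSpace (0 : Divisor K F)) :=
  Submodule.finiteDimensional_of_le (L_zero_le x hx)

theorem ell_zero_le : ell (0 : Divisor K F) ≤ 1 := by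
  have h1 := Submodule.finrank_mono (L_zero_le x hx)
  have h2 : Module.finrank K (LinearMap.range (Algebra.linearMap K F)) ≤ 1 := by
    have := LinearMap.finrank_range_le (Algebra.linearMap K F)
    rwa [Module.finrank_self] at this
  exact h1.trans h2

/-- `L(D)` is finite-dimensional of dimension `≤ deg D + 1` for `D ≥ 0`. -/
theorem finite_and_ell_le_of_nonneg : ∀ (n : ℕ) (D : Divisor K F), 0 ≤ D →
    Divisor.degree D = n → Module.Finite K (riemannRochSpace D) ∧ ell D ≤ n + 1 := by
  classical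
  have hstep : ∀ (n : ℕ) (D : Divisor K F), 0 ≤ D → Divisor.degree D = n → D ≠ 0 →
      ∃ (v : Place K F) (m : ℕ), n = m + 1 ∧ 0 ≤ D - prim v ∧
        Divisor.degree (D - prim v) = m := by
    intro n D hD hdegD hD0
    obtain ⟨v, hv⟩ : ∃ v, D v ≠ 0 := by
      by_contra hcon
      push Not at hcon
      exact hD0 (Finsupp.ext hcon)
    have hDv : 0 ≤ D v := by simpa using Finsupp.le_def.mp hD v
    have hD' : 0 ≤ D - prim v := by
      rw [Finsupp.le_def]
      intro w
      rw [Finsupp.sub_apply]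
      by_cases hw : w = v
      · subst hw
        rw [prim_apply_self]
        simp only [Finsupp.coe_zero, Pi.zero_apply]
        omega
      · rw [prim_apply_of_ne hw]
        have := Finsupp.le_def.mp hD w
        simpa using this
    have hdeg' : Divisor.degree (D - prim v) = n - 1 := by
      rw [map_sub, degree_prim v (hdeg_all x hx v), hdegD]
    have hnn := degree_nonneg hD'
    rw [hdeg'] at hnn
    obtain ⟨m, rfl⟩ : ∃ m, n = m + 1 := ⟨n - 1, by omega⟩
    refine ⟨v, m, rfl, hD', ?_⟩
    rw [hdeg']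
    push_cast
    ring
  intro n
  induction n with
  | zero =>
    intro D hD hdegD
    by_cases hD0 : D = 0
    · subst hD0
      exact ⟨finite_L_zero x hx, by have := ell_zero_le x hx; omega⟩
    · obtain ⟨v, m, hm, -, -⟩ := hstep 0 D hD hdegD hD0
      omega
  | succ n ih =>
    intro D hD hdegD
    by_cases hD0 : D = 0
    · subst hD0
      exact ⟨finite_L_zero x hx, by have := ell_zero_le x hx; omega⟩
    · obtain ⟨v, m, hm, hD', hdeg'⟩ := hstep (n + 1) D hD hdegD hD0
      have hmn : m = n := by omega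
      subst hmn
      obtain ⟨hfin, hle⟩ := ih (D - prim v) hD' hdeg'
      have := L_add_prim_finite v (hdeg_all x hx v) (D - prim v)
      rw [sub_add_cancel] at this
      exact ⟨this.1, this.2.trans (by omega)⟩

theorem finite_L_of_nonneg {D : Divisor K F} (hD : 0 ≤ D) :
    Module.Finite K (riemannRochSpace D) := by
  have h0 := degree_nonneg hD
  obtain ⟨n, hn⟩ := Int.eq_ofNat_of_zero_le h0
  exact (finite_and_ell_le_of_nonneg x hx n D hD hn).1

theorem ell_le_of_nonneg {D : Divisor K F} (hD : 0 ≤ D) :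
    (ell D : ℤ) ≤ Divisor.degree D + 1 := by
  have h0 := degree_nonneg hD
  obtain ⟨n, hn⟩ := Int.eq_ofNat_of_zero_le h0
  have := (finite_and_ell_le_of_nonneg x hx n D hD hn).2
  rw [hn]
  exact_mod_cast this

/-! ### The lower bound: counting in `L(l B + C)` -/

omit hfinx in
/-- The `n (l + 1)` functions `t ^ i * u j` lie in `L(l B + C)` and are independent. -/
theorem le_ell_of_basis {t : F} (ht : Transcendental K t) {n : ℕ} (u : Fin n → F)
    (hu : LinearIndependent K⟮t⟯ u)
    (B C : Divisor K F) (hB0 : 0 ≤ B) (hB : ∀ v : Place K F, -(B v) ≤ v.ord t)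
    (hC : ∀ (j : Fin n) (v : Place K F), -(C v) ≤ v.ord (u j)) (l : ℕ)
    [Module.Finite K (riemannRochSpace (l • B + C))] :
    n * (l + 1) ≤ ell (l • B + C) := by
  classical
  have _ := hx
  have ht0 : t ≠ 0 := fun h => ht (h ▸ isAlgebraic_zero)
  have hli := H409.linearIndependent_pow_mul ht u hu l
  have hmem : ∀ p : Fin (l + 1) × Fin n,
      t ^ (p.1 : ℕ) * u p.2 ∈ riemannRochSpace (l • B + C) := by
    intro p
    rw [mem_L_iff]
    intro v
    right
    rw [v.ord_mul (pow_ne_zero _ ht0) (hu.ne_zero p.2), ord_pow]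
    have h1 := hB v
    have h2 := hC p.2 v
    have h3 : 0 ≤ B v := by simpa using Finsupp.le_def.mp hB0 v
    have h4 : ((p.1 : ℕ) : ℤ) ≤ (l : ℤ) := by exact_mod_cast Nat.lt_succ_iff.mp p.1.2
    have h5 : (0 : ℤ) ≤ ((p.1 : ℕ) : ℤ) := Nat.cast_nonneg _
    rw [Finsupp.add_apply, Finsupp.smul_apply, nsmul_eq_mul]
    nlinarith [mul_nonneg h5 (show (0 : ℤ) ≤ v.ord t + B v by omega),
      mul_nonneg (show (0 : ℤ) ≤ (l : ℤ) - ((p.1 : ℕ) : ℤ) by omega) h3]
  have hspan : Submodule.span K
      (Set.range fun p : Fin (l + 1) × Fin n => t ^ (p.1 : ℕ) * u p.2)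
        ≤ riemannRochSpace (l • B + C) :=
    Submodule.span_le.mpr (by rintro _ ⟨p, rfl⟩; exact hmem p)
  have h1 := Submodule.finrank_mono hspan
  rw [finrank_span_eq_card hli] at h1
  simpa [ell, Fintype.card_prod, mul_comm] using h1

/-- The degree of the pole divisor is the sum of the pole orders, hence `≤ [F : K(t)]`. -/
theorem degree_poleD_le (t : F) [FiniteDimensional K⟮t⟯ F] :
    Divisor.degree (poleD x hx t) ≤ (Module.finrank K⟮t⟯ F : ℤ) := by
  classical
  rw [degree_eq_sum]
  have hS : ∀ v ∈ (poleD x hx t).support, v.ord t < 0 := by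
    intro v hv
    rw [Finsupp.mem_support_iff, poleD_apply] at hv
    by_contra hcon
    apply hv
    rw [max_eq_left (by omega)]
  refine le_trans (le_of_eq ?_) (sum_neg_ord_le_finrank (hdeg_all x hx) t _ hS)
  refine Finset.sum_congr rfl fun v hv => ?_
  have := hS v hv
  rw [poleD_apply, hdeg_all x hx v, max_eq_right (by omega)]
  simp

/-- **Stichtenoth 1.4.11**, `≥`: `deg (t)_∞ ≥ [F : K(t)]`. -/
theorem le_degree_poleD (t : F) (ht : Transcendental K t) [FiniteDimensional K⟮t⟯ F] :
    (Module.finrank K⟮t⟯ F : ℤ) ≤ Divisor.degree (poleD x hx t) := by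
  classical
  obtain ⟨n, hn⟩ : ∃ n : ℕ, n = Module.finrank K⟮t⟯ F := ⟨_, rfl⟩
  have hnpos : 0 < n := hn ▸ Module.finrank_pos
  let b := Module.finBasis K⟮t⟯ F
  have hu : LinearIndependent K⟮t⟯ (fun j => b j) := b.linearIndependent
  set B : Divisor K F := poleD x hx t with hBdef
  set C : Divisor K F := ∑ j, poleD x hx (b j) with hCdef
  have hB0 : 0 ≤ B := poleD_nonneg x hx t
  have hC0 : 0 ≤ C := Finset.sum_nonneg fun j _ => poleD_nonneg x hx _
  have hC : ∀ (j : Fin (Module.finrank K⟮t⟯ F)) (v : Place K F), -(C v) ≤ v.ord (b j) := by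
    intro j v
    have h1 : poleD x hx (b j) ≤ C :=
      Finset.single_le_sum (f := fun j => poleD x hx (b j))
        (fun i _ => poleD_nonneg x hx _) (Finset.mem_univ j)
    have h2 := Finsupp.le_def.mp h1 v
    have h3 := neg_poleD_le_ord x hx (b j) v
    omega
  by_contra hlt
  push Not at hlt
  rw [← hn] at hlt
  -- choose `l` large
  obtain ⟨l, hl⟩ : ∃ l : ℕ, Divisor.degree C + 1 ≤ l :=
    ⟨(Divisor.degree C + 1).toNat, Int.self_le_toNat _⟩
  have hD0 : 0 ≤ l • B + C := add_nonneg (nsmul_nonneg hB0 l) hC0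
  haveI : Module.Finite K (riemannRochSpace (l • B + C)) := finite_L_of_nonneg x hx hD0
  have h1 := le_ell_of_basis x hx ht (fun j => b j) hu B C hB0 (neg_poleD_le_ord x hx t) hC l
  have h2 := ell_le_of_nonneg x hx hD0
  rw [map_add, map_nsmul, nsmul_eq_mul] at h2
  have h3 : ((Module.finrank K⟮t⟯ F * (l + 1) : ℕ) : ℤ) ≤ ell (l • B + C) := by
    exact_mod_cast h1
  rw [← hn] at h3
  push_cast at h3
  have h4 : (l : ℤ) * Divisor.degree B ≤ l * ((n : ℤ) - 1) :=
    mul_le_mul_of_nonneg_left (by omega) (Nat.cast_nonneg l)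
  have h5 : (1 : ℤ) ≤ n := by exact_mod_cast hnpos
  nlinarith

theorem degree_poleD (t : F) (ht : Transcendental K t) [FiniteDimensional K⟮t⟯ F] :
    Divisor.degree (poleD x hx t) = (Module.finrank K⟮t⟯ F : ℤ) :=
  le_antisymm (degree_poleD_le x hx t) (le_degree_poleD x hx t ht)

theorem degree_poleD_of_eq (t : F) (ht : Transcendental K t) (L : IntermediateField K F)
    (hL : L = K⟮t⟯) [FiniteDimensional L F] :
    Divisor.degree (poleD x hx t) = (Module.finrank L F : ℤ) := by
  subst hL
  exact degree_poleD x hx t ht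

/-- **The product formula**: a principal divisor has degree zero. -/
theorem degree_divF (f : F) : Divisor.degree (divF x hx f) = 0 := by
  by_cases hfK : f ∈ (algebraMap K F).range
  · obtain ⟨c, rfl⟩ := hfK
    have : divF x hx (algebraMap K F c) = 0 := by
      ext v
      rw [divF_apply, ord_algebraMap v c]
      rfl
    rw [this, map_zero]
  · have hft : Transcendental K f := S24.FF.transcendental_of_not_mem_range hfK
    have hft' : Transcendental K f⁻¹ := fun h => hft (by simpa using h.inv)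
    haveI : FiniteDimensional K⟮f⟯ F := hfin_all x hx f hft
    rw [divF_eq_sub, map_sub, degree_poleD x hx f hft,
      degree_poleD_of_eq x hx f⁻¹ hft' K⟮f⟯ (adjoin_inv_eq f), sub_self]

/-- **HPD, characteristic-free**: divisors of functions exist and have degree zero. -/
theorem hasPrincipalDivisors : HasPrincipalDivisors K F :=
  ⟨fun f _ => ⟨divF x hx f, fun v => divF_apply x hx f v, degree_divF x hx f⟩⟩

/-- **Bridge, characteristic-free**: `FF1 K F` for a function field of one variable over an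
algebraically closed field. -/
theorem ff1 : FF1 K F where
  hpd := hasPrincipalDivisors x hx
  deg_eq_one := hdeg_all x hx
  nonempty_place := by
    obtain ⟨v, -⟩ := H443.exists_place_ord_pos (hfin_all x hx) hx
    exact ⟨v⟩
  exists_finite := ⟨x, hx, hfinx⟩

/-- The degree of the zero divisor of a transcendental function is `[F : K(t)]`. -/
theorem degree_zeroD (t : F) (ht : Transcendental K t) [FiniteDimensional K⟮t⟯ F] :
    Divisor.degree (poleD x hx t⁻¹) = (Module.finrank K⟮t⟯ F : ℤ) :=
  degree_poleD_of_eq x hx t⁻¹ (fun h => ht (by simpa using h.inv)) K⟮t⟯ (adjoin_inv_eq t)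

end AlgClosed

/-- Exactly (definitionally) `Fermat.Agent.S18.Sq05.HpdStatement` of squad S18/S05. -/
theorem hpdStatement :
    ∀ (K F : Type) [Field K] [Field F] [Algebra K F] [IsAlgClosed K] (x : F),
      Transcendental K x → FiniteDimensional K⟮x⟯ F → HasPrincipalDivisors K F :=
  fun _ _ _ _ _ _ x hx _ => hasPrincipalDivisors x hx

end Fermat.Agent.Lib.RR.H560

end

end
-- ===== PACK-END Lib/RR/H560/Hpd.lean

-- ===== PACK-BEGIN A3/H75/DiscValue.lean
section


/-!
# A3 / LOCAL / DISC (helper75): values of functions at places, and sums of orders over a fibre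

Language: the Prelude's `AlgebraicCurve.Place`, Lib/RR's `FF1`.

* `HasVal P f b` : `f` is regular at the place `P` with value `b ∈ K` (the same predicate as
  `S37.Core.HasValue`, restated here to keep the import closure small);
* calculus: `HasVal.unique`, `.add`, `.mul`, `.sub`, `.neg`, `hasVal_algebraMap`,
  `exists_hasVal` (places of degree one);
* `mapDomain_apply_eq_sum` : `(r_* D)(Q) = ∑_{P ∈ supp D, r P = Q} D(P)`;
* `ord_le_mapDomain` : a nonnegative term is bounded by the sum.
-/

set_option autoImplicit false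

noncomputable section

namespace Fermat.Agent.A3.H75

open AlgebraicCurve Fermat.Agent.Lib.RR

section Nonunits

variable {F : Type*} [Field F] (V : ValuationSubring F)

theorem nonunits_add {x y : F} (hx : x ∈ V.nonunits) (hy : y ∈ V.nonunits) :
    x + y ∈ V.nonunits := by
  rw [ValuationSubring.mem_nonunits_iff] at hx hy ⊢
  exact V.valuation.map_add_lt hx hy

theorem nonunits_neg {x : F} (hx : x ∈ V.nonunits) : -x ∈ V.nonunits := by
  rw [ValuationSubring.mem_nonunits_iff] at hx ⊢
  rwa [Valuation.map_neg]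

theorem nonunits_sub {x y : F} (hx : x ∈ V.nonunits) (hy : y ∈ V.nonunits) :
    x - y ∈ V.nonunits := by
  rw [sub_eq_add_neg]
  exact nonunits_add V hx (nonunits_neg V hy)

theorem nonunits_mul {m x : F} (hm : m ∈ V.nonunits) (hx : x ∈ V) : m * x ∈ V.nonunits := by
  rw [ValuationSubring.mem_nonunits_iff] at hm ⊢
  rw [map_mul]
  have hx' := (V.valuation_le_one_iff x).mpr hx
  exact mul_lt_one_of_lt_of_le hm hx'

theorem nonunits_mul' {m x : F} (hx : x ∈ V) (hm : m ∈ V.nonunits) : x * m ∈ V.nonunits := by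
  rw [mul_comm]
  exact nonunits_mul V hm hx

theorem mem_of_mem_nonunits {x : F} (hx : x ∈ V.nonunits) : x ∈ V := by
  rw [ValuationSubring.mem_nonunits_iff] at hx
  exact (V.valuation_le_one_iff x).mp hx.le

theorem zero_mem_nonunits : (0 : F) ∈ V.nonunits := by
  rw [ValuationSubring.mem_nonunits_iff, map_zero]
  exact zero_lt_one

theorem one_not_mem_nonunits : (1 : F) ∉ V.nonunits := by
  rw [ValuationSubring.mem_nonunits_iff, map_one]
  exact lt_irrefl _

theorem inv_mem_of_not_mem_nonunits {x : F} (hx : x ∉ V.nonunits) : x ≠ 0 ∧ x⁻¹ ∈ V := by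
  rw [ValuationSubring.mem_nonunits_iff_or] at hx
  push Not at hx
  exact hx

theorem not_mem_nonunits_of_inv_mem {x : F} (hx0 : x ≠ 0) (hx : x⁻¹ ∈ V) : x ∉ V.nonunits := by
  rw [ValuationSubring.mem_nonunits_iff_or]
  push Not
  exact ⟨hx0, hx⟩

/-- an element outside the valuation ring has its inverse in the maximal ideal -/
theorem inv_mem_nonunits_of_not_mem {x : F} (hx : x ∉ V) : x⁻¹ ∈ V.nonunits := by
  rw [ValuationSubring.mem_nonunits_iff_or, inv_inv]
  exact Or.inr hx

end Nonunits

variable {K : Type*} [Field K] {F : Type*} [Field F] [Algebra K F]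

/-- nonzero constants are units at every place -/
theorem algebraMap_not_mem_nonunits (P : Place K F) {c : K} (hc : c ≠ 0) :
    algebraMap K F c ∉ P.toValuationSubring.nonunits := by
  apply not_mem_nonunits_of_inv_mem
  · exact (map_ne_zero _).mpr hc
  · rw [← map_inv₀]
    exact P.algebraMap_mem' _

theorem mem_nonunits_iff_ord (P : Place K F) (x : F) :
    x ∈ P.toValuationSubring.nonunits ↔ x = 0 ∨ 0 < P.ord x := by
  constructor
  · intro hx
    have hmem : x ∈ P.toValuationSubring := mem_of_mem_nonunits _ hx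
    have h1 : (⟨x, hmem⟩ : P.toValuationSubring) ∈
        IsLocalRing.maximalIdeal P.toValuationSubring := by
      rw [IsLocalRing.mem_maximalIdeal]
      exact (ValuationSubring.coe_mem_nonunits_iff (A := P.toValuationSubring)).mp hx
    exact (mem_maximalIdeal_iff P _).mp h1
  · rintro (rfl | h)
    · exact zero_mem_nonunits _
    · have hmem : x ∈ P.toValuationSubring := mem_of_ord_nonneg P h.le
      have h1 : (⟨x, hmem⟩ : P.toValuationSubring) ∈
          IsLocalRing.maximalIdeal P.toValuationSubring :=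
        (mem_maximalIdeal_iff P _).mpr (Or.inr h)
      rw [IsLocalRing.mem_maximalIdeal] at h1
      exact (ValuationSubring.coe_mem_nonunits_iff (A := P.toValuationSubring)).mpr h1

/-- `f` is regular at the place `P` with value `b`. -/
def HasVal (P : Place K F) (f : F) (b : K) : Prop :=
  f - algebraMap K F b ∈ P.toValuationSubring.nonunits

namespace HasVal

variable {P : Place K F} {f g : F} {b c : K}

theorem mem (h : HasVal P f b) : f ∈ P.toValuationSubring := by
  have h1 := mem_of_mem_nonunits _ h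
  have h2 := P.toValuationSubring.add_mem _ _ h1 (P.algebraMap_mem' b)
  simpa using h2

theorem unique (h : HasVal P f b) (h' : HasVal P f c) : b = c := by
  by_contra hne
  have h1 : algebraMap K F (c - b) ∈ P.toValuationSubring.nonunits := by
    have := nonunits_sub _ h h'
    rw [map_sub]
    have e : f - algebraMap K F b - (f - algebraMap K F c) =
        algebraMap K F c - algebraMap K F b := by ring
    rwa [e] at this
  exact algebraMap_not_mem_nonunits P (sub_ne_zero.mpr (Ne.symm hne)) h1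

theorem add (h : HasVal P f b) (h' : HasVal P g c) : HasVal P (f + g) (b + c) := by
  unfold HasVal at h h' ⊢
  have := nonunits_add _ h h'
  rw [map_add]
  have e : f + g - (algebraMap K F b + algebraMap K F c) =
      f - algebraMap K F b + (g - algebraMap K F c) := by ring
  rwa [e]

theorem neg (h : HasVal P f b) : HasVal P (-f) (-b) := by
  unfold HasVal at h ⊢
  have := nonunits_neg _ h
  rw [map_neg]
  have e : -f - -algebraMap K F b = -(f - algebraMap K F b) := by ring
  rwa [e]

theorem sub (h : HasVal P f b) (h' : HasVal P g c) : HasVal P (f - g) (b - c) := by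
  rw [sub_eq_add_neg, sub_eq_add_neg]
  exact h.add h'.neg

theorem mul (h : HasVal P f b) (h' : HasVal P g c) : HasVal P (f * g) (b * c) := by
  have hg := h'.mem
  unfold HasVal at h h' ⊢
  rw [map_mul]
  have e : f * g - algebraMap K F b * algebraMap K F c =
      (f - algebraMap K F b) * g + algebraMap K F b * (g - algebraMap K F c) := by ring
  rw [e]
  exact nonunits_add _ (nonunits_mul _ h hg) (nonunits_mul' _ (P.algebraMap_mem' b) h')

end HasVal

theorem hasVal_algebraMap (P : Place K F) (b : K) : HasVal P (algebraMap K F b) b := by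
  unfold HasVal
  rw [sub_self]
  exact zero_mem_nonunits _

theorem hasVal_zero (P : Place K F) : HasVal P (0 : F) 0 := by
  have := hasVal_algebraMap P (0 : K)
  rwa [map_zero] at this

theorem hasVal_one (P : Place K F) : HasVal P (1 : F) 1 := by
  have := hasVal_algebraMap P (1 : K)
  rwa [map_one] at this

/-- at a place of degree one every regular function has a value -/
theorem exists_hasVal (P : Place K F) (hP : P.deg = 1) {f : F} (hf : f ∈ P.toValuationSubring) :
    ∃ b : K, HasVal P f b := by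
  obtain ⟨c, hc⟩ := exists_const_sub P hP (ord_nonneg_of_mem P hf)
  exact ⟨c, (mem_nonunits_iff_ord P _).mpr hc⟩

theorem hasVal_zero_iff (P : Place K F) (f : F) : HasVal P f 0 ↔ f = 0 ∨ 0 < P.ord f := by
  unfold HasVal
  rw [map_zero, sub_zero]
  exact mem_nonunits_iff_ord P f

section Sum

variable {k : Type*} [Field k] {Fk : Type*} [Field Fk] [Algebra k Fk]

open Classical in
theorem mapDomain_apply_eq_sum (r : Place K F → Place k Fk) (D : Divisor K F)
    (Q : Place k Fk) :
    Finsupp.mapDomain r D Q = ∑ P ∈ D.support.filter (fun P => r P = Q), D P := by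
  rw [Finsupp.mapDomain, Finsupp.sum, Finsupp.finsetSum_apply, Finset.sum_filter]
  refine Finset.sum_congr rfl fun P _ => ?_
  rw [Finsupp.single_apply]

/-- If `D ≥ 0` on the fibre of `r` over `Q`, every coefficient on the fibre is bounded by the
coefficient of `r_* D` at `Q`. -/
theorem apply_le_mapDomain (r : Place K F → Place k Fk) (D : Divisor K F) (Q : Place k Fk)
    (hD : ∀ P, r P = Q → 0 ≤ D P) (P₀ : Place K F) (hP₀ : r P₀ = Q) :
    D P₀ ≤ Finsupp.mapDomain r D Q := by
  classical
  rw [mapDomain_apply_eq_sum]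
  by_cases h : P₀ ∈ D.support
  · have hmem : P₀ ∈ D.support.filter (fun P => r P = Q) := Finset.mem_filter.mpr ⟨h, hP₀⟩
    exact Finset.single_le_sum (f := fun P => D P)
      (fun P hP => hD P (Finset.mem_filter.mp hP).2) hmem
  · rw [Finsupp.notMem_support_iff.mp h]
    exact Finset.sum_nonneg fun P hP => hD P (Finset.mem_filter.mp hP).2

/-- Two distinct points of the fibre: the sum of their coefficients is bounded by the
coefficient of `r_* D` at `Q`. -/
theorem apply_add_apply_le_mapDomain (r : Place K F → Place k Fk) (D : Divisor K F)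
    (Q : Place k Fk) (hD : ∀ P, r P = Q → 0 ≤ D P) (P₀ P₁ : Place K F) (hne : P₀ ≠ P₁)
    (hP₀ : r P₀ = Q) (hP₁ : r P₁ = Q) :
    D P₀ + D P₁ ≤ Finsupp.mapDomain r D Q := by
  classical
  rw [mapDomain_apply_eq_sum]
  set s := D.support.filter (fun P => r P = Q) with hs
  have hnn : ∀ P ∈ s, 0 ≤ D P := fun P hP => hD P (Finset.mem_filter.mp hP).2
  have key : ∀ t : Finset (Place K F), t ⊆ {P₀, P₁} → (∀ P ∈ t, r P = Q) →
      ∑ P ∈ t, D P ≤ ∑ P ∈ s, D P := by
    intro t _ htQ
    have h1 : ∑ P ∈ t, D P = ∑ P ∈ t.filter (fun P => P ∈ D.support), D P := by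
      rw [Finset.sum_filter]
      refine Finset.sum_congr rfl fun P _ => ?_
      split_ifs with h
      · rfl
      · exact Finsupp.notMem_support_iff.mp h
    rw [h1]
    refine Finset.sum_le_sum_of_subset_of_nonneg ?_ fun P hP _ => hnn P hP
    intro P hP
    rw [Finset.mem_filter] at hP
    exact Finset.mem_filter.mpr ⟨hP.2, htQ P hP.1⟩
  have h2 := key {P₀, P₁} (Finset.Subset.refl _) (by
    intro P hP
    rw [Finset.mem_insert, Finset.mem_singleton] at hP
    rcases hP with rfl | rfl
    · exact hP₀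
    · exact hP₁)
  rwa [Finset.sum_pair hne] at h2

/-- If the coefficient of `r_* D` at `Q` is positive, some point of the fibre has a positive
coefficient. -/
theorem exists_pos_of_mapDomain_pos (r : Place K F → Place k Fk) (D : Divisor K F)
    (Q : Place k Fk) (h : 0 < Finsupp.mapDomain r D Q) : ∃ P, r P = Q ∧ 0 < D P := by
  classical
  rw [mapDomain_apply_eq_sum] at h
  obtain ⟨P, hP, hpos⟩ := Finset.exists_lt_of_sum_lt (f := fun _ => (0 : ℤ)) (g := fun P => D P)
    (by simpa using h)
  exact ⟨P, (Finset.mem_filter.mp hP).2, hpos⟩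

end Sum

end Fermat.Agent.A3.H75

end
end
-- ===== PACK-END A3/H75/DiscValue.lean

-- ===== PACK-BEGIN A3/H75/DiscOfCons.lean
section



/-!
# A3 / LOCAL / DISC (helper75): the disc algebra of a residue disc, from conservation of zeros

Dictionary (i) of `coord/A3-LOCAL-helper799.md` §3'.

Input (`ConsInput A F k Fk`): `A` a valuation subring of `K`, `F/K` a function field (`FF1`),
`V` a valuation subring of `F` with `A ⊆ V`, `𝔪_A ⊆ 𝔪_V` (the Gauss valuation), a reduction map
`ρ : V → F_k` with kernel `𝔪_V`, compatible with a residue map `π : A → k`, a map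
`r : Place K F → Place k F_k` and **conservation of zeros** (CONS, in the Prelude form of
`IsPlaceReductionAlong`): `r_* (div u) = div (ρ u)` for `u ∈ V`, `ρ u ≠ 0`.

For a place `Q` of `F_k` and a parameter `t ∈ V`, regular on the residue disc `r⁻¹ Q`, with
`ord_Q (ρ t) = 1` (`DiscParam`):

* `exists_unique_center` : for `a ∈ 𝔪_A` there is exactly one place `P` in the disc with
  `t(P) = a`, and `ord_P (t - a) = 1`;
* `exists_hasVal_mem` : a function of `V` regular on the disc has values in `A` on the disc;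
* `hasVal_red` : value compatibility, `(ρ f)(Q) = π (f(P))`;
* `hasVal_t_mem_nonunits` : `t(P) ∈ 𝔪_A` for `P` in the disc  (so `disc ≃ 𝔪_A` via `t`);
* `discAlg` : the ring `discRing` of functions of `V` regular on the disc is a `DiscAlg`
  (helper799), with `ev a f = f(P_a)`  (`ev_eq_of_hasVal`).
-/

set_option autoImplicit false
set_option linter.unusedSectionVars false

noncomputable section

namespace Fermat.Agent.A3.H75

open AlgebraicCurve Fermat.Agent.Lib.RR Fermat.Agent.A3.H799

variable {K : Type*} [Field K] (A : ValuationSubring K) (F : Type*) [Field F] [Algebra K F]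
variable (k : Type*) [Field k] (Fk : Type*) [Field Fk] [Algebra k Fk]

/-- Minimal reduction input for the calculus on residue discs. -/
structure ConsInput where
  /-- the Gauss valuation ring -/
  V : ValuationSubring F
  algebraMap_mem : ∀ a : K, a ∈ A → algebraMap K F a ∈ V
  algebraMap_mem_nonunits : ∀ a : K, a ∈ A.nonunits → algebraMap K F a ∈ V.nonunits
  /-- the residue map of `A` -/
  π : A →+* k
  π_eq_zero : ∀ a : A, π a = 0 → (a : K) ∈ A.nonunits
  /-- reduction of functions -/
  ρ : V →+* Fk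
  ρ_eq_zero : ∀ x : V, ρ x = 0 ↔ (x : F) ∈ V.nonunits
  ρ_algebraMap : ∀ (a : K) (ha : a ∈ A),
    ρ ⟨algebraMap K F a, algebraMap_mem a ha⟩ = algebraMap k Fk (π ⟨a, ha⟩)
  /-- reduction of places -/
  r : Place K F → Place k Fk
  /-- conservation of zeros -/
  cons : ∀ u : V, ρ u ≠ 0 → ∀ D : Divisor K F, (∀ P, D P = P.ord (u : F)) →
    ∀ Q, Finsupp.mapDomain r D Q = Q.ord (ρ u)

variable {A F k Fk}

namespace ConsInput

variable (I : ConsInput A F k Fk) (Q : Place k Fk)

/-- `f` is regular on the residue disc of `Q`. -/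
def RegOn (f : F) : Prop := ∀ P, I.r P = Q → f ∈ P.toValuationSubring

theorem regOn_algebraMap (c : K) : I.RegOn Q (algebraMap K F c) := fun P _ => P.algebraMap_mem' c

section
variable {I Q}

theorem RegOn.add {f g : F} (hf : I.RegOn Q f) (hg : I.RegOn Q g) : I.RegOn Q (f + g) :=
  fun P hP => P.toValuationSubring.add_mem _ _ (hf P hP) (hg P hP)

theorem RegOn.mul {f g : F} (hf : I.RegOn Q f) (hg : I.RegOn Q g) : I.RegOn Q (f * g) :=
  fun P hP => P.toValuationSubring.mul_mem _ _ (hf P hP) (hg P hP)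

theorem RegOn.sub {f g : F} (hf : I.RegOn Q f) (hg : I.RegOn Q g) : I.RegOn Q (f - g) :=
  fun P hP => sub_mem (hf P hP) (hg P hP)

end

variable [FF1 K F]

theorem coe_ne_zero_of_ρ_ne_zero {u : I.V} (hρ : I.ρ u ≠ 0) : (u : F) ≠ 0 := by
  intro h0
  apply hρ
  have : u = 0 := Subtype.ext h0
  rw [this, map_zero]

/-- **Conservation, pointwise bound.**  For `u ∈ V` with `ρ u ≠ 0`, regular on the disc of `Q`,
the order of `u` at any point of the disc is at most `ord_Q (ρ u)`. -/
theorem ord_le_of_cons (u : I.V) (hρ : I.ρ u ≠ 0) (hreg : I.RegOn Q (u : F))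
    (P : Place K F) (hP : I.r P = Q) : P.ord (u : F) ≤ Q.ord (I.ρ u) := by
  have hu0 := I.coe_ne_zero_of_ρ_ne_zero hρ
  have hc := I.cons u hρ (divOf (u : F) hu0) (fun P => divOf_apply (u : F) hu0 P) Q
  rw [← hc, ← divOf_apply (u : F) hu0 P]
  refine apply_le_mapDomain I.r _ Q (fun P' hP' => ?_) P hP
  rw [divOf_apply]
  exact ord_nonneg_of_mem P' (hreg P' hP')

/-- **Conservation, two points.** -/
theorem ord_add_ord_le_of_cons (u : I.V) (hρ : I.ρ u ≠ 0)
    (hreg : I.RegOn Q (u : F)) (P P' : Place K F) (hne : P ≠ P') (hP : I.r P = Q)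
    (hP' : I.r P' = Q) : P.ord (u : F) + P'.ord (u : F) ≤ Q.ord (I.ρ u) := by
  have hu0 := I.coe_ne_zero_of_ρ_ne_zero hρ
  have hc := I.cons u hρ (divOf (u : F) hu0) (fun P => divOf_apply (u : F) hu0 P) Q
  rw [← hc, ← divOf_apply (u : F) hu0 P, ← divOf_apply (u : F) hu0 P']
  refine apply_add_apply_le_mapDomain I.r _ Q (fun P'' hP'' => ?_) P P' hne hP hP'
  rw [divOf_apply]
  exact ord_nonneg_of_mem P'' (hreg P'' hP'')

/-- **Conservation, existence of a zero.** -/
theorem exists_ord_pos_of_cons (u : I.V) (hρ : I.ρ u ≠ 0)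
    (hpos : 0 < Q.ord (I.ρ u)) : ∃ P, I.r P = Q ∧ 0 < P.ord (u : F) := by
  have hu0 := I.coe_ne_zero_of_ρ_ne_zero hρ
  have hc := I.cons u hρ (divOf (u : F) hu0) (fun P => divOf_apply (u : F) hu0 P) Q
  rw [← hc] at hpos
  obtain ⟨P, hP, h⟩ := exists_pos_of_mapDomain_pos I.r _ Q hpos
  rw [divOf_apply] at h
  exact ⟨P, hP, h⟩

/-- the constants of `A`, as elements of `V` -/
def const (a : A) : I.V := ⟨algebraMap K F (a : K), I.algebraMap_mem _ a.2⟩

@[simp] theorem coe_const (a : A) : ((I.const a : I.V) : F) = algebraMap K F (a : K) := rfl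

theorem ρ_const (a : A) : I.ρ (I.const a) = algebraMap k Fk (I.π a) :=
  I.ρ_algebraMap (a : K) a.2

theorem ρ_const_of_mem_nonunits (a : A) (ha : (a : K) ∈ A.nonunits) : I.ρ (I.const a) = 0 :=
  (I.ρ_eq_zero _).mpr (I.algebraMap_mem_nonunits _ ha)

/-- **Values on the disc are integral.**  A function of `V` regular on the disc of `Q` takes
values in `A` at the points of the disc. -/
theorem exists_hasVal_mem (f : I.V) (hreg : I.RegOn Q (f : F)) (P : Place K F)
    (hP : I.r P = Q) : ∃ b : A, HasVal P (f : F) (b : K) := by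
  obtain ⟨c, hc⟩ := exists_hasVal P (deg_eq_one P) (hreg P hP)
  by_cases hcA : c ∈ A
  · exact ⟨⟨c, hcA⟩, hc⟩
  exfalso
  have hc0 : c ≠ 0 := by
    rintro rfl
    exact hcA A.zero_mem
  have hinv : c⁻¹ ∈ A.nonunits := inv_mem_nonunits_of_not_mem A hcA
  have hinvA : c⁻¹ ∈ A := mem_of_mem_nonunits A hinv
  set u : I.V := I.const ⟨c⁻¹, hinvA⟩ * f - 1 with hu
  have hρu : I.ρ u = -1 := by
    rw [hu, map_sub, map_mul, map_one, I.ρ_const_of_mem_nonunits _ hinv, zero_mul, zero_sub]
  have hρne : I.ρ u ≠ 0 := by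
    rw [hρu]
    exact neg_ne_zero.mpr one_ne_zero
  have hcoe : (u : F) = algebraMap K F c⁻¹ * (f : F) - 1 := rfl
  have hregu : I.RegOn Q (u : F) := by
    rw [hcoe]
    refine ((I.regOn_algebraMap Q c⁻¹).mul hreg).sub ?_
    have := I.regOn_algebraMap Q (1 : K)
    rwa [map_one] at this
  have hle := I.ord_le_of_cons Q u hρne hregu P hP
  rw [hρu, ord_neg, Place.ord_one] at hle
  have hval : HasVal P (u : F) 0 := by
    have h1 := ((hasVal_algebraMap P c⁻¹).mul hc).sub (hasVal_one P)
    rw [inv_mul_cancel₀ hc0, sub_self] at h1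
    rw [hcoe]
    exact h1
  rcases (hasVal_zero_iff P _).mp hval with h0 | hpos
  · exact I.coe_ne_zero_of_ρ_ne_zero hρne h0
  · omega

/-- **Value compatibility.**  `(ρ f)(Q) = π (f(P))` for `P` in the disc of `Q`. -/
theorem hasVal_red (f : I.V) (hreg : I.RegOn Q (f : F)) (P : Place K F) (hP : I.r P = Q)
    (b : A) (hb : HasVal P (f : F) (b : K)) : HasVal Q (I.ρ f) (I.π b) := by
  set u : I.V := f - I.const b with hu
  have hρu : I.ρ u = I.ρ f - algebraMap k Fk (I.π b) := by
    rw [hu, map_sub, I.ρ_const]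
  unfold HasVal
  rw [← hρu]
  by_cases hρ0 : I.ρ u = 0
  · rw [hρ0]
    exact zero_mem_nonunits _
  have hcoe : (u : F) = (f : F) - algebraMap K F (b : K) := rfl
  have hregu : I.RegOn Q (u : F) := by
    rw [hcoe]
    exact hreg.sub (I.regOn_algebraMap Q _)
  have hle := I.ord_le_of_cons Q u hρ0 hregu P hP
  have hb' : (u : F) ∈ P.toValuationSubring.nonunits := hb
  rcases (mem_nonunits_iff_ord P _).mp hb' with h0 | hpos
  · exact absurd h0 (I.coe_ne_zero_of_ρ_ne_zero hρ0)
  · exact (mem_nonunits_iff_ord Q _).mpr (Or.inr (lt_of_lt_of_le hpos hle))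

end ConsInput

/-- A parameter at the place `Q` of the special fibre: a function of `V`, regular on the residue
disc of `Q`, whose reduction has a simple zero at `Q`. -/
structure DiscParam (I : ConsInput A F k Fk) (Q : Place k Fk) where
  /-- the parameter -/
  t : I.V
  t_reg : I.RegOn Q (t : F)
  ord_t : Q.ord (I.ρ t) = 1

namespace DiscParam

variable {I : ConsInput A F k Fk} {Q : Place k Fk} (T : DiscParam I Q) [FF1 K F]

theorem ρ_t_ne_zero : I.ρ T.t ≠ 0 := by
  intro h0
  have := T.ord_t
  rw [h0, Place.ord_zero] at this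
  exact zero_ne_one this

/-- the function `t - a` -/
def shift (a : A) : I.V := T.t - I.const a

@[simp] theorem coe_shift (a : A) : ((T.shift a : I.V) : F) = (T.t : F) - algebraMap K F (a : K) :=
  rfl

theorem ρ_shift (a : A) (ha : (a : K) ∈ A.nonunits) : I.ρ (T.shift a) = I.ρ T.t := by
  rw [shift, map_sub, I.ρ_const_of_mem_nonunits a ha, sub_zero]

theorem ρ_shift_ne_zero (a : A) (ha : (a : K) ∈ A.nonunits) : I.ρ (T.shift a) ≠ 0 := by
  rw [T.ρ_shift a ha]
  exact T.ρ_t_ne_zero

theorem shift_ne_zero (a : A) (ha : (a : K) ∈ A.nonunits) : ((T.shift a : I.V) : F) ≠ 0 :=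
  I.coe_ne_zero_of_ρ_ne_zero (T.ρ_shift_ne_zero a ha)

theorem regOn_shift (a : A) : I.RegOn Q ((T.shift a : I.V) : F) := by
  rw [coe_shift]
  exact T.t_reg.sub (I.regOn_algebraMap Q _)

theorem ord_shift_le_one (a : A) (ha : (a : K) ∈ A.nonunits) (P : Place K F) (hP : I.r P = Q) :
    P.ord ((T.shift a : I.V) : F) ≤ 1 := by
  have := I.ord_le_of_cons Q (T.shift a) (T.ρ_shift_ne_zero a ha) (T.regOn_shift a) P hP
  rwa [T.ρ_shift a ha, T.ord_t] at this

theorem hasVal_iff_ord_shift (a : A) (ha : (a : K) ∈ A.nonunits) (P : Place K F) :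
    HasVal P (T.t : F) (a : K) ↔ 0 < P.ord ((T.shift a : I.V) : F) := by
  unfold HasVal
  rw [← coe_shift, mem_nonunits_iff_ord]
  constructor
  · rintro (h | h)
    · exact absurd h (T.shift_ne_zero a ha)
    · exact h
  · exact Or.inr

/-- **The disc is parametrised by `𝔪_A`, existence.** -/
theorem exists_center (a : A) (ha : (a : K) ∈ A.nonunits) :
    ∃ P, I.r P = Q ∧ HasVal P (T.t : F) (a : K) := by
  obtain ⟨P, hP, hpos⟩ := I.exists_ord_pos_of_cons Q (T.shift a) (T.ρ_shift_ne_zero a ha) (by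
    rw [T.ρ_shift a ha, T.ord_t]
    exact one_pos)
  exact ⟨P, hP, (T.hasVal_iff_ord_shift a ha P).mpr hpos⟩

/-- **The disc is parametrised by `𝔪_A`, uniqueness.** -/
theorem center_unique (a : A) (ha : (a : K) ∈ A.nonunits) (P P' : Place K F) (hP : I.r P = Q)
    (hP' : I.r P' = Q) (h : HasVal P (T.t : F) (a : K)) (h' : HasVal P' (T.t : F) (a : K)) :
    P = P' := by
  by_contra hne
  have h1 := (T.hasVal_iff_ord_shift a ha P).mp h
  have h2 := (T.hasVal_iff_ord_shift a ha P').mp h'
  have h3 := I.ord_add_ord_le_of_cons Q (T.shift a) (T.ρ_shift_ne_zero a ha) (T.regOn_shift a)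
    P P' hne hP hP'
  rw [T.ρ_shift a ha, T.ord_t] at h3
  omega

/-- `t - a` does not vanish on the disc away from its centre. -/
theorem ord_shift_eq_zero (a : A) (ha : (a : K) ∈ A.nonunits) (P P' : Place K F)
    (hP : I.r P = Q) (hP' : I.r P' = Q) (h : HasVal P (T.t : F) (a : K)) (hne : P' ≠ P) :
    P'.ord ((T.shift a : I.V) : F) = 0 := by
  have h1 := (T.hasVal_iff_ord_shift a ha P).mp h
  have h3 := I.ord_add_ord_le_of_cons Q (T.shift a) (T.ρ_shift_ne_zero a ha) (T.regOn_shift a)
    P' P hne hP' hP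
  rw [T.ρ_shift a ha, T.ord_t] at h3
  have h4 := ord_nonneg_of_mem P' (T.regOn_shift a P' hP')
  omega

/-- **`t` maps the disc into `𝔪_A`.** -/
theorem mem_nonunits_of_hasVal (P : Place K F) (hP : I.r P = Q) (a : A)
    (h : HasVal P (T.t : F) (a : K)) : (a : K) ∈ A.nonunits := by
  have h1 := I.hasVal_red Q T.t T.t_reg P hP a h
  have h2 : HasVal Q (I.ρ T.t) 0 := by
    rw [hasVal_zero_iff]
    right
    rw [T.ord_t]
    exact one_pos
  exact I.π_eq_zero a (h1.unique h2)

end DiscParam

end Fermat.Agent.A3.H75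

end
end
-- ===== PACK-END A3/H75/DiscOfCons.lean

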