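import Mathlib.FieldTheory.IsAlgClosed.Basic
import Mathlib.Algebra.Polynomial.Reverse
import Mathlib
import Fermat.Prelude.Def_AlgebraicCurve_DivisorClassGroup
import Fermat.Prelude.Def_ModularCurve_ReductionModL
import Fermat.Agent.Pack.S3234.G4E0L1
import Fermat.Agent.Pack.S3234.G4E1L1
import Fermat.Agent.Pack.S3234.G4E1L3
import Fermat.Agent.Pack.S3234.G0E3L2
import Fermat.Agent.Pack.S3234.G0E3L3
import Fermat.Agent.Pack.S3234.G0E4L1
import Fermat.Agent.Pack.S3234.G0E5L2

-- ===== PACK-BEGIN S19/H135/QuotPrep.lean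
section
/-
Cell A3 / WP-C (helper135): preparations for quotients of Hopf lattices:
expansion of box elements in a spanning family, swap, finite generation of sublattices,
descent of kernel-invariant functions along a surjection.
-/



set_option autoImplicit false

namespace Fermat.Agent.S19.H135

section BoxExpand

variable {R : Type*} [CommRing R] {K : Type*} [CommRing K] [Algebra R K]
variable {X Y : Type*}

/-- Elements of the box product can be expanded along a spanning family of the first factor. -/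
theorem box_expand {Λ₁ : Subalgebra R (X → K)} {Λ₂ : Subalgebra R (Y → K)}
    {n : ℕ} (b : Fin n → X → K)
    (hspan : Submodule.span R (Set.range b) = Subalgebra.toSubmodule Λ₁)
    {F : X × Y → K}
    (hF : F ∈ Λ₁.map (pull R K (Prod.fst : X × Y → X)) ⊔
      Λ₂.map (pull R K (Prod.snd : X × Y → Y))) :
    ∃ g : Fin n → Y → K, (∀ i, g i ∈ Λ₂) ∧ ∀ x y, F (x, y) = ∑ i, b i x * g i y := by
  refine box_induction (C := fun F => ∃ g : Fin n → Y → K, (∀ i, g i ∈ Λ₂) ∧
    ∀ x y, F (x, y) = ∑ i, b i x * g i y) hF ?_ ?_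
  · intro a ha c hc
    have ha' : a ∈ Submodule.span R (Set.range b) := by rw [hspan]; exact ha
    obtain ⟨r, rfl⟩ := (Submodule.mem_span_range_iff_exists_fun R).mp ha'
    refine ⟨fun i => r i • c, fun i => Λ₂.smul_mem hc _, fun x y => ?_⟩
    simp only [Finset.sum_apply, Pi.smul_apply, Finset.sum_mul]
    refine Finset.sum_congr rfl (fun i _ => ?_)
    rw [Algebra.smul_def, Algebra.smul_def]
    ring
  · rintro F₁ F₂ ⟨g₁, hg₁, e₁⟩ ⟨g₂, hg₂, e₂⟩
    refine ⟨fun i => g₁ i + g₂ i, fun i => Λ₂.add_mem (hg₁ i) (hg₂ i), fun x y => ?_⟩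
    simp only [Pi.add_apply, e₁, e₂, mul_add, Finset.sum_add_distrib]

theorem box_swap {Λ₁ : Subalgebra R (X → K)} {Λ₂ : Subalgebra R (Y → K)} {F : X × Y → K}
    (hF : F ∈ Λ₁.map (pull R K (Prod.fst : X × Y → X)) ⊔
      Λ₂.map (pull R K (Prod.snd : X × Y → Y))) :
    (fun p : Y × X => F (p.2, p.1)) ∈ Λ₂.map (pull R K (Prod.fst : Y × X → Y)) ⊔
      Λ₁.map (pull R K (Prod.snd : Y × X → X)) := by
  refine box_induction (C := fun F => (fun p : Y × X => F (p.2, p.1)) ∈
    Λ₂.map (pull R K (Prod.fst : Y × X → Y)) ⊔ Λ₁.map (pull R K (Prod.snd : Y × X → X))) hF ?_ ?_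
  · intro a ha c hc
    have := mul_mem_box (Λ₁ := Λ₂) (Λ₂ := Λ₁) hc ha
    convert this using 1
    funext p
    exact mul_comm _ _
  · intro F₁ F₂ h₁ h₂
    exact Subalgebra.add_mem _ h₁ h₂

/-- Expansion along a spanning family of the second factor. -/
theorem box_expand' {Λ₁ : Subalgebra R (X → K)} {Λ₂ : Subalgebra R (Y → K)}
    {n : ℕ} (u : Fin n → Y → K)
    (hspan : Submodule.span R (Set.range u) = Subalgebra.toSubmodule Λ₂)
    {F : X × Y → K}
    (hF : F ∈ Λ₁.map (pull R K (Prod.fst : X × Y → X)) ⊔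
      Λ₂.map (pull R K (Prod.snd : X × Y → Y))) :
    ∃ k : Fin n → X → K, (∀ i, k i ∈ Λ₁) ∧ ∀ x y, F (x, y) = ∑ i, k i x * u i y := by
  obtain ⟨k, hk, e⟩ := box_expand u hspan (box_swap hF)
  refine ⟨k, hk, fun x y => ?_⟩
  rw [e y x]
  exact Finset.sum_congr rfl (fun i _ => mul_comm _ _)

theorem sum_mul_mem_box {Λ₁ : Subalgebra R (X → K)} {Λ₂ : Subalgebra R (Y → K)}
    {n : ℕ} (a : Fin n → X → K) (c : Fin n → Y → K) (ha : ∀ i, a i ∈ Λ₁) (hc : ∀ i, c i ∈ Λ₂) :
    (fun p : X × Y => ∑ i, a i p.1 * c i p.2) ∈ Λ₁.map (pull R K (Prod.fst : X × Y → X)) ⊔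
      Λ₂.map (pull R K (Prod.snd : X × Y → Y)) := by
  have h : (fun p : X × Y => ∑ i, a i p.1 * c i p.2) =
      ∑ i, (fun p : X × Y => a i p.1 * c i p.2) := by
    funext p
    simp only [Finset.sum_apply]
  rw [h]
  exact Subalgebra.sum_mem _ (fun i _ => mul_mem_box (ha i) (hc i))

end BoxExpand

section FG

variable {R : Type*} [CommRing R] [IsNoetherianRing R] {V : Type*} [AddCommGroup V] [Module R V]

theorem fg_of_le_of_fg_h135 {N P : Submodule R V} (hN : N.FG) (hle : P ≤ N) : P.FG := by
  have : IsNoetherian R N := isNoetherian_of_fg_of_noetherian N hN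
  have h1 : (P.comap N.subtype).FG := IsNoetherian.noetherian _
  have h2 : (P.comap N.subtype).map N.subtype = P := by
    rw [Submodule.map_comap_subtype]
    exact inf_eq_right.mpr hle
  rw [← h2]
  exact h1.map _

end FG

section Descend

variable {M M₂ : Type*} [AddCommGroup M] [AddCommGroup M₂] {K : Type*}

/-- A function invariant under translation by the kernel of a surjection `q` factors through
`q`. -/
theorem exists_factor_of_ker_invariant (q : M →+ M₂) (hq : Function.Surjective q)
    (f : M → K) (hf : ∀ m k : M, q k = 0 → f (m + k) = f m) :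
    ∃ g : M₂ → K, ∀ m, g (q m) = f m := by
  refine ⟨fun y => f (Function.surjInv hq y), fun m => ?_⟩
  have h1 : q (Function.surjInv hq (q m)) = q m := Function.surjInv_eq hq (q m)
  have h2 : q (m - Function.surjInv hq (q m)) = 0 := by rw [map_sub, h1, sub_self]
  have := hf (Function.surjInv hq (q m)) _ h2
  rw [add_sub_cancel] at this
  exact this.symm

end Descend

end Fermat.Agent.S19.H135

end
-- ===== PACK-END S19/H135/QuotPrep.lean

-- ===== PACK-BEGIN S19/H135/Quotient.lean
section
/-
Cell A3 / WP-C (helper135): Hopf lattices pass to quotients by stable subgroups, WITHOUT Cartier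
duality.  For an equivariant surjection `q : M →+ M₂` the lattice on `M₂` is
`Λ₂ = {g | g ∘ q ∈ Λ}`.
* comultiplication: expansion in `ℚ̄`-independent bases + invariance under the kernel;
* separation of points: traces `m ↦ ∑_{k ∈ ker q} h (m + k)` lie in `Λ` (descent of
  coefficients) and Dedekind independence of the evaluation characters.
-/


set_option autoImplicit false

namespace Fermat.Agent.S19.H135

section Quot

variable {ℓ : ℕ} [Fact ℓ.Prime] {M M₂ : Type} [AddCommGroup M] [AddCommGroup M₂]
  {act : (AlgebraicClosure ℚ ≃ₐ[ℚ] AlgebraicClosure ℚ) → M → M}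
  {act₂ : (AlgebraicClosure ℚ ≃ₐ[ℚ] AlgebraicClosure ℚ) → M₂ → M₂}
  {Λ : Subalgebra (GaloisRep.ratLocalizedAt ℓ) (M → AlgebraicClosure ℚ)}

omit [Fact ℓ.Prime] in
/-- Translates of elements of a Hopf lattice, expanded in a spanning family: the coefficients
are values of elements of the lattice. -/
theorem IsHopfLattice.exists_translate_expansion (hΛ : IsHopfLattice ℓ act Λ)
    {n : ℕ} (b : Fin n → M → AlgebraicClosure ℚ)
    (hspan : Submodule.span (GaloisRep.ratLocalizedAt ℓ) (Set.range b) =
      Subalgebra.toSubmodule Λ)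
    {h : M → AlgebraicClosure ℚ} (hh : h ∈ Λ) :
    ∃ g : Fin n → M → AlgebraicClosure ℚ, (∀ i, g i ∈ Λ) ∧
      ∀ m k, h (m + k) = ∑ i, b i m * g i k :=
  box_expand b hspan (hΛ.comul_mem hh)

/-- The trace of an element of a Hopf lattice over a finite stable set of translations lies in
the lattice. -/
theorem IsHopfLattice.trace_mem (hΛ : IsHopfLattice ℓ act Λ) (K : Finset M)
    (hK : ∀ σ, ∀ k, k ∈ K ↔ act σ k ∈ K)
    {h : M → AlgebraicClosure ℚ} (hh : h ∈ Λ) :
    (fun m => ∑ k ∈ K, h (m + k)) ∈ Λ := by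
  have hact : ∀ σ, Function.Surjective (act σ) := fun σ => (hΛ.act_bijective σ).2
  obtain ⟨n, b, hbΛ, hbli, hbspan⟩ := exists_basis_of_fg_equivariant act hact
    (Subalgebra.toSubmodule Λ) hΛ.fg hΛ.equivariant
  obtain ⟨g, hg, hexp⟩ := hΛ.exists_translate_expansion b hbspan hh
  have hrepr : (fun m => ∑ k ∈ K, h (m + k)) = ∑ i, (∑ k ∈ K, g i k) • b i := by
    funext m
    simp only [Finset.sum_apply, Pi.smul_apply, smul_eq_mul, hexp]
    rw [Finset.sum_comm]
    refine Finset.sum_congr rfl (fun i _ => ?_)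
    rw [Finset.sum_mul]
    exact Finset.sum_congr rfl (fun k _ => mul_comm _ _)
  have hmem : ∑ i, (∑ k ∈ K, g i k) • b i ∈
      Submodule.span (GaloisRep.ratLocalizedAt ℓ) (Set.range b) := by
    refine mem_of_integral_combination act hact b (fun i σ m => hΛ.equivariant _ (hbΛ i) σ m)
      hbli _ (fun i => IsIntegral.sum _ (fun k _ => hΛ.isIntegral_apply (hg i) k)) ?_
    intro σ m
    rw [← hrepr]
    show ∑ k ∈ K, h (act σ m + k) = σ (∑ k ∈ K, h (m + k))
    rw [map_sum]
    refine Finset.sum_nbij' (fun k => act σ⁻¹ k) (fun k => act σ k) ?_ ?_ ?_ ?_ ?_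
    · intro k hk
      rw [hK σ, ← hΛ.act_mul, mul_inv_cancel, hΛ.act_one]
      exact hk
    · intro k hk
      exact (hK σ k).mp hk
    · intro k _
      rw [← hΛ.act_mul, mul_inv_cancel, hΛ.act_one]
    · intro k _
      rw [← hΛ.act_mul, inv_mul_cancel, hΛ.act_one]
    · intro k _
      rw [← hΛ.equivariant h hh, hΛ.act_add, ← hΛ.act_mul, mul_inv_cancel, hΛ.act_one]
  rw [hrepr]
  rw [hbspan] at hmem
  exact hmem

variable (q : M →+ M₂)

omit [Fact ℓ.Prime] in
theorem IsHopfLattice.quot_equivariant (hΛ : IsHopfLattice ℓ act Λ)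
    (hq : Function.Surjective q) (heq : ∀ σ m, q (act σ m) = act₂ σ (q m))
    (g : M₂ → AlgebraicClosure ℚ)
    (hg : g ∈ Λ.comap (pull (GaloisRep.ratLocalizedAt ℓ) (AlgebraicClosure ℚ) q))
    (σ : AlgebraicClosure ℚ ≃ₐ[ℚ] AlgebraicClosure ℚ) (y : M₂) :
    g (act₂ σ y) = σ (g y) := by
  obtain ⟨m, rfl⟩ := hq y
  rw [← heq]
  exact hΛ.equivariant _ hg σ m

theorem IsHopfLattice.quot_fg (hΛ : IsHopfLattice ℓ act Λ) (hq : Function.Surjective q) :
    (Subalgebra.toSubmodule
      (Λ.comap (pull (GaloisRep.ratLocalizedAt ℓ) (AlgebraicClosure ℚ) q))).FG := by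
  refine Submodule.fg_of_fg_map_injective
    (pull (GaloisRep.ratLocalizedAt ℓ) (AlgebraicClosure ℚ) q).toLinearMap
    (pull_injective (GaloisRep.ratLocalizedAt ℓ) (AlgebraicClosure ℚ) hq) ?_
  refine fg_of_le_of_fg_h135 hΛ.fg ?_
  rintro _ ⟨g, hg, rfl⟩
  exact hg

omit [Fact ℓ.Prime] in
theorem IsHopfLattice.quot_act_surjective (hΛ : IsHopfLattice ℓ act Λ)
    (hq : Function.Surjective q) (heq : ∀ σ m, q (act σ m) = act₂ σ (q m))
    (σ : AlgebraicClosure ℚ ≃ₐ[ℚ] AlgebraicClosure ℚ) : Function.Surjective (act₂ σ) := by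
  intro y
  obtain ⟨m, rfl⟩ := hq y
  obtain ⟨m', rfl⟩ := (hΛ.act_bijective σ).2 m
  exact ⟨q m', (heq σ m').symm⟩

/-- Comultiplication on the quotient lattice. -/
theorem IsHopfLattice.quot_comul (hΛ : IsHopfLattice ℓ act Λ)
    (hq : Function.Surjective q) (heq : ∀ σ m, q (act σ m) = act₂ σ (q m))
    {g : M₂ → AlgebraicClosure ℚ}
    (hg : g ∈ Λ.comap (pull (GaloisRep.ratLocalizedAt ℓ) (AlgebraicClosure ℚ) q)) :
    (fun p : M₂ × M₂ => g (p.1 + p.2)) ∈
      (Λ.comap (pull (GaloisRep.ratLocalizedAt ℓ) (AlgebraicClosure ℚ) q)).map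
        (pull (GaloisRep.ratLocalizedAt ℓ) (AlgebraicClosure ℚ) (Prod.fst : M₂ × M₂ → M₂)) ⊔
      (Λ.comap (pull (GaloisRep.ratLocalizedAt ℓ) (AlgebraicClosure ℚ) q)).map
        (pull (GaloisRep.ratLocalizedAt ℓ) (AlgebraicClosure ℚ) (Prod.snd : M₂ × M₂ → M₂)) := by
  set Λ₂ := Λ.comap (pull (GaloisRep.ratLocalizedAt ℓ) (AlgebraicClosure ℚ) q) with hΛ₂
  have hact : ∀ σ, Function.Surjective (act σ) := fun σ => (hΛ.act_bijective σ).2
  have hact₂ : ∀ σ, Function.Surjective (act₂ σ) := hΛ.quot_act_surjective q hq heq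
  obtain ⟨n, b, hbΛ, hbli, hbspan⟩ := exists_basis_of_fg_equivariant act hact
    (Subalgebra.toSubmodule Λ) hΛ.fg hΛ.equivariant
  obtain ⟨n₂, u, huΛ, huli, huspan⟩ := exists_basis_of_fg_equivariant act₂ hact₂
    (Subalgebra.toSubmodule Λ₂) (hΛ.quot_fg q hq) (hΛ.quot_equivariant q hq heq)
  -- Step 1: expand `f (m + n)`, `f = g ∘ q`, along the basis `b` in the first variable
  have hf : (fun m => g (q m)) ∈ Λ := hg
  obtain ⟨c, hc, hexp⟩ := hΛ.exists_translate_expansion b hbspan hf
  -- Step 2: the `c i` are invariant under the kernel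
  have hcinv : ∀ i, ∀ m k : M, q k = 0 → c i (m + k) = c i m := by
    intro i m k hk
    have h1 : ∑ j, (c j (m + k) - c j m) • b j = 0 := by
      funext x
      simp only [Finset.sum_apply, Pi.smul_apply, smul_eq_mul, Pi.zero_apply, sub_mul,
        Finset.sum_sub_distrib]
      have e1 := hexp x (m + k)
      have e2 := hexp x m
      have e3 : g (q (x + (m + k))) = g (q (x + m)) := by
        simp only [map_add, hk, add_zero]
      rw [e1, e2] at e3
      rw [sub_eq_zero]
      calc ∑ j, c j (m + k) * b j x = ∑ j, b j x * c j (m + k) :=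
            Finset.sum_congr rfl (fun j _ => mul_comm _ _)
        _ = ∑ j, b j x * c j m := e3
        _ = ∑ j, c j m * b j x := Finset.sum_congr rfl (fun j _ => mul_comm _ _)
    have := linearIndependent_iff'.mp hbli Finset.univ _ h1 i (Finset.mem_univ i)
    exact sub_eq_zero.mp this
  have hcbar : ∀ i, ∃ cb : M₂ → AlgebraicClosure ℚ, ∀ m, cb (q m) = c i m :=
    fun i => exists_factor_of_ker_invariant q hq (c i) (hcinv i)
  choose cb hcb using hcbar
  have hcbΛ : ∀ i, cb i ∈ Λ₂ := by
    intro i
    show (fun m => cb i (q m)) ∈ Λ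
    have : (fun m => cb i (q m)) = c i := funext (hcb i)
    rw [this]
    exact hc i
  -- Step 3: the mixed function on `M × M₂`, expanded along `u` in the second variable
  have hmixed : (fun p : M × M₂ => ∑ i, b i p.1 * cb i p.2) ∈
      Λ.map (pull (GaloisRep.ratLocalizedAt ℓ) (AlgebraicClosure ℚ) (Prod.fst : M × M₂ → M)) ⊔
      Λ₂.map (pull (GaloisRep.ratLocalizedAt ℓ) (AlgebraicClosure ℚ)
        (Prod.snd : M × M₂ → M₂)) :=
    sum_mul_mem_box b cb hbΛ hcbΛ
  obtain ⟨d, hd, hexp₂⟩ := box_expand' u huspan hmixed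
  have hmix_eq : ∀ m m' : M, ∑ i, d i m * u i (q m') = g (q m + q m') := by
    intro m m'
    rw [← hexp₂ m (q m')]
    simp only [hcb]
    rw [← hexp m m', map_add]
  -- Step 4: the `d i` are invariant under the kernel
  have hdinv : ∀ i, ∀ m k : M, q k = 0 → d i (m + k) = d i m := by
    intro i m k hk
    have h1 : ∑ j, (d j (m + k) - d j m) • u j = 0 := by
      funext y
      obtain ⟨m', rfl⟩ := hq y
      simp only [Finset.sum_apply, Pi.smul_apply, smul_eq_mul, Pi.zero_apply, sub_mul,
        Finset.sum_sub_distrib]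
      rw [hmix_eq, hmix_eq, map_add, hk, add_zero, sub_self]
    have := linearIndependent_iff'.mp huli Finset.univ _ h1 i (Finset.mem_univ i)
    exact sub_eq_zero.mp this
  have hdbar : ∀ i, ∃ db : M₂ → AlgebraicClosure ℚ, ∀ m, db (q m) = d i m :=
    fun i => exists_factor_of_ker_invariant q hq (d i) (hdinv i)
  choose db hdb using hdbar
  have hdbΛ : ∀ i, db i ∈ Λ₂ := by
    intro i
    show (fun m => db i (q m)) ∈ Λ
    have : (fun m => db i (q m)) = d i := funext (hdb i)
    rw [this]
    exact hd i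
  -- Step 5: conclusion
  have hfinal : (fun p : M₂ × M₂ => g (p.1 + p.2)) =
      fun p : M₂ × M₂ => ∑ i, db i p.1 * u i p.2 := by
    funext p
    obtain ⟨m, hm⟩ := hq p.1
    obtain ⟨m', hm'⟩ := hq p.2
    rw [← hm, ← hm']
    simp only [hdb]
    exact (hmix_eq m m').symm
  rw [hfinal]
  exact sum_mul_mem_box db u hdbΛ huΛ

/-- Separation of points on the quotient. -/
theorem IsHopfLattice.quot_separates (hΛ : IsHopfLattice ℓ act Λ)
    (hq : Function.Surjective q) (heq : ∀ σ m, q (act σ m) = act₂ σ (q m))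
    (x y : M₂)
    (hxy : ∀ g ∈ Λ.comap (pull (GaloisRep.ratLocalizedAt ℓ) (AlgebraicClosure ℚ) q),
      g x = g y) : x = y := by
  classical
  have hfinM : Finite M := hΛ.finite
  let _ : Fintype M := Fintype.ofFinite M
  obtain ⟨m₁, rfl⟩ := hq x
  obtain ⟨m₂, rfl⟩ := hq y
  have hact₂0 : ∀ σ, act₂ σ 0 = 0 := by
    intro σ
    have := heq σ 0
    rw [hΛ.act_zero, map_zero] at this
    exact this.symm
  set K : Finset M := Finset.univ.filter (fun k => q k = 0) with hKdef
  have hKmem : ∀ k, k ∈ K ↔ q k = 0 := fun k => by simp [hKdef]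
  have hK : ∀ σ, ∀ k, k ∈ K ↔ act σ k ∈ K := by
    intro σ k
    rw [hKmem, hKmem, heq]
    constructor
    · intro h
      rw [h, hact₂0]
    · intro h
      have h2 := congrArg (act₂ σ⁻¹) h
      rw [← heq, ← heq, ← hΛ.act_mul, inv_mul_cancel, hΛ.act_one, hact₂0] at h2
      exact h2
  -- traces agree
  have htr : ∀ h ∈ Λ, ∑ k ∈ K, h (m₁ + k) = ∑ k ∈ K, h (m₂ + k) := by
    intro h hh
    have hT := hΛ.trace_mem K hK hh
    have hinv : ∀ m k : M, q k = 0 →
        (fun m => ∑ k ∈ K, h (m + k)) (m + k) = (fun m => ∑ k ∈ K, h (m + k)) m := by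
      intro m k hk
      show ∑ k' ∈ K, h (m + k + k') = ∑ k' ∈ K, h (m + k')
      refine Finset.sum_nbij' (fun k' => k + k') (fun k' => -k + k') ?_ ?_ ?_ ?_ ?_
      · intro k' hk'
        rw [hKmem] at hk' ⊢
        rw [map_add, hk, hk', add_zero]
      · intro k' hk'
        rw [hKmem] at hk' ⊢
        rw [map_add, map_neg, hk, hk', neg_zero, add_zero]
      · intro k' _
        simp
      · intro k' _
        simp
      · intro k' _
        rw [add_assoc]
    obtain ⟨T, hT'⟩ := exists_factor_of_ker_invariant q hq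
      (fun m => ∑ k ∈ K, h (m + k)) hinv
    have hTΛ : T ∈ Λ.comap (pull (GaloisRep.ratLocalizedAt ℓ) (AlgebraicClosure ℚ) q) := by
      show (fun m => T (q m)) ∈ Λ
      have : (fun m => T (q m)) = fun m => ∑ k ∈ K, h (m + k) := funext hT'
      rw [this]
      exact hT
    have := hxy T hTΛ
    rw [hT', hT'] at this
    exact this
  -- Dedekind independence of the evaluation characters of `Λ`
  let ev : M → (Λ →* AlgebraicClosure ℚ) := fun m =>
    ((Pi.evalRingHom (fun _ : M => AlgebraicClosure ℚ) m).comp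
      (Λ.val : Λ →+* (M → AlgebraicClosure ℚ)) : Λ →+* AlgebraicClosure ℚ).toMonoidHom
  have hev : ∀ m (h : Λ), ev m h = (h : M → AlgebraicClosure ℚ) m := fun _ _ => rfl
  have hevinj : Function.Injective ev := by
    intro a a' haa
    apply hΛ.separates
    intro h hh
    have := congrArg (fun φ : Λ →* AlgebraicClosure ℚ => φ ⟨h, hh⟩) haa
    exact this
  have hli : LinearIndependent (AlgebraicClosure ℚ)
      (fun m : M => (ev m : Λ → AlgebraicClosure ℚ)) :=
    (linearIndependent_monoidHom Λ (AlgebraicClosure ℚ)).comp ev hevinj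
  let coef : M → AlgebraicClosure ℚ := fun m =>
    (if m - m₁ ∈ K then 1 else 0) - (if m - m₂ ∈ K then 1 else 0)
  have hsum : ∑ m, coef m • (ev m : Λ → AlgebraicClosure ℚ) = 0 := by
    funext h
    simp only [Finset.sum_apply, Pi.smul_apply, smul_eq_mul, Pi.zero_apply, coef, sub_mul,
      Finset.sum_sub_distrib, ite_mul, one_mul, zero_mul, hev]
    rw [sub_eq_zero]
    have key : ∀ m₀ : M, ∑ m, (if m - m₀ ∈ K then (h : M → AlgebraicClosure ℚ) m else 0) =
        ∑ k ∈ K, (h : M → AlgebraicClosure ℚ) (m₀ + k) := by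
      intro m₀
      rw [← Finset.sum_filter]
      refine Finset.sum_nbij' (fun m => m - m₀) (fun k => m₀ + k) ?_ ?_ ?_ ?_ ?_
      · intro m hm
        exact (Finset.mem_filter.mp hm).2
      · intro k hk
        simp only [Finset.mem_filter, Finset.mem_univ, true_and, add_sub_cancel_left]
        exact hk
      · intro m _
        simp
      · intro k _
        simp
      · intro m _
        simp
    rw [key m₁, key m₂]
    exact htr h h.2
  have hcoef := linearIndependent_iff'.mp hli Finset.univ coef hsum m₁ (Finset.mem_univ m₁)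
  have h0K : (0 : M) ∈ K := (hKmem 0).mpr (map_zero q)
  simp only [coef, sub_self, h0K, if_true] at hcoef
  by_cases hmem : m₁ - m₂ ∈ K
  · have := (hKmem _).mp hmem
    rw [map_sub, sub_eq_zero] at this
    exact this
  · rw [if_neg hmem, sub_zero] at hcoef
    exact absurd hcoef one_ne_zero

/-- **Quotients of Hopf lattices.** -/
theorem IsHopfLattice.quot (hΛ : IsHopfLattice ℓ act Λ)
    (hq : Function.Surjective q) (heq : ∀ σ m, q (act σ m) = act₂ σ (q m)) :
    IsHopfLattice ℓ act₂
      (Λ.comap (pull (GaloisRep.ratLocalizedAt ℓ) (AlgebraicClosure ℚ) q)) := by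
  refine ⟨hΛ.quot_fg q hq, hΛ.quot_equivariant q hq heq, hΛ.quot_separates q hq heq, ?_⟩
  rintro _ ⟨g, hg, rfl⟩
  exact hΛ.quot_comul q hq heq hg

theorem HasHopfLattice.of_surjective (h : HasHopfLattice ℓ M act)
    (hq : Function.Surjective q) (heq : ∀ σ m, q (act σ m) = act₂ σ (q m)) :
    HasHopfLattice ℓ M₂ act₂ := by
  obtain ⟨Λ, hΛ⟩ := h
  exact ⟨_, hΛ.quot q hq heq⟩

end Quot

end Fermat.Agent.S19.H135

end
-- ===== PACK-END S19/H135/Quotient.lean

-- ===== PACK-BEGIN A3/H619/MaxOrder.lean
section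
/-
A3 / piece ORD (helper619): finiteness.  An `R`-module of Galois-equivariant functions
`T → ℚ̄` (`T` finite) with values integral over `R = ratLocalizedAt p` is finitely generated.
-/


set_option autoImplicit false

noncomputable section

namespace Fermat.Agent.A3.H619

open GaloisRep Module

variable {p : ℕ} {T : Type}

/-- Multiplication by a nonzero element of `R` is injective on functions. -/
theorem lsmul_injective_of_ne_zero (d : ratLocalizedAt p) (hd : d ≠ 0) :
    Function.Injective (LinearMap.lsmul (ratLocalizedAt p) (T → Qb) d) := by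
  intro f g hfg
  funext t
  have h1 := congrFun hfg t
  simp only [LinearMap.lsmul_apply, Pi.smul_apply, Algebra.smul_def] at h1
  have h2 : algebraMap (ratLocalizedAt p) Qb d ≠ 0 := fun h =>
    hd (algebraMap_ratLoc_Qb_injective p (h.trans (map_zero _).symm))
  exact mul_left_cancel₀ h2 h1

variable [Finite T] (act : GQ → T → T) (hact1 : ∀ t, act 1 t = t)
  (hactmul : ∀ (σ τ : GQ) (t : T), act (σ * τ) t = act σ (act τ t))

include hact1 hactmul

/-- **Finiteness.**  An `R`-submodule of `T → ℚ̄` consisting of equivariant functions with integral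
values is finitely generated. -/
theorem fg_of_equivariant_integral (N : Submodule (ratLocalizedAt p) (T → Qb))
    (hequiv : ∀ f ∈ N, IsEquivFun act f)
    (hint : ∀ f ∈ N, ∀ t, IsIntegral (ratLocalizedAt p) (f t)) : N.FG := by
  classical
  cases nonempty_fintype T
  -- a maximal `ℚ̄`-independent subset
  obtain ⟨b, hbN, hspan, hb⟩ := exists_linearIndependent Qb (N : Set (T → Qb))
  have hbfin : b.Finite := hb.setFinite
  let _ : Fintype ↥b := hbfin.fintype
  let e : ↥b → (T → Qb) := Subtype.val
  have he : ∀ k, IsEquivFun act (e k) := fun k => hequiv _ (hbN k.2)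
  -- a left inverse of the linear combination map
  let L : (↥b → Qb) →ₗ[Qb] (T → Qb) := Fintype.linearCombination Qb e
  have hL : Function.Injective L := hb.fintypeLinearCombination_injective
  obtain ⟨G, hG⟩ := LinearMap.exists_leftInverse_of_injective L (LinearMap.ker_eq_bot.mpr hL)
  -- clear the denominators of the matrix of `G`
  let w : T × ↥b → Qb := fun tk => G (Pi.single tk.1 (1 : Qb)) tk.2
  obtain ⟨d, hd0, hd⟩ := Algebra.IsAlgebraic.exists_integral_multiples (ratLocalizedAt p)
    (Finset.univ.image w)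
  have hdw : ∀ t k, IsIntegral (ratLocalizedAt p) (d • w (t, k)) := fun t k =>
    hd _ (Finset.mem_image_of_mem w (Finset.mem_univ (t, k)))
  -- `d • N` is contained in the `R`-span of `b`
  have hle : N.map (LinearMap.lsmul (ratLocalizedAt p) (T → Qb) d)
      ≤ Submodule.span (ratLocalizedAt p) (Set.range e) := by
    rintro _ ⟨F, hF, rfl⟩
    have hFspan : F ∈ Submodule.span Qb (Set.range e) := by
      have : Set.range e = b := Subtype.range_coe
      rw [this, hspan]
      exact Submodule.subset_span hF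
    obtain ⟨c, hc⟩ := (Submodule.mem_span_range_iff_exists_fun Qb).mp hFspan
    have hcG : c = G F := by
      have h1 : L c = F := by
        rw [← hc]
        simp [L, Fintype.linearCombination_apply]
      have h2 := congrArg (fun g => g c) hG
      simp only [LinearMap.comp_apply, LinearMap.id_apply] at h2
      rw [← h1]
      exact h2.symm
    have hFsum : F = ∑ t, F t • (Pi.single t (1 : Qb) : T → Qb) := by
      funext u
      simp [Finset.sum_apply, Pi.single_apply]
    have hck : ∀ k, c k = ∑ t, F t * w (t, k) := by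
      intro k
      rw [hcG]
      conv_lhs => rw [hFsum]
      rw [map_sum, Finset.sum_apply]
      refine Finset.sum_congr rfl fun t _ => ?_
      rw [map_smul, Pi.smul_apply, smul_eq_mul]
    -- `d • F = ∑ (d • c k) • e k` with integral coefficients
    have hdF : (d • F : T → Qb) = ∑ k, (d • c k) • e k := by
      rw [← hc, Finset.smul_sum]
      refine Finset.sum_congr rfl fun k _ => ?_
      rw [smul_assoc]
    have hdFeq : IsEquivFun act (d • F : T → Qb) := hequiv _ (N.smul_mem d hF)
    have hcint : ∀ k, IsIntegral (ratLocalizedAt p) (d • c k) := by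
      intro k
      rw [hck k, Finset.smul_sum]
      refine IsIntegral.sum _ fun t _ => ?_
      have h3 : d • (F t * w (t, k)) = F t * (d • w (t, k)) := by
        rw [Algebra.smul_def, Algebra.smul_def]; ring
      rw [h3]
      exact (hint F hF t).mul (hdw t k)
    obtain ⟨r, hr⟩ := coeff_int act hact1 hactmul e he hb (d • F) hdFeq _ hdF hcint
    show d • F ∈ _
    rw [hr]
    exact Submodule.sum_mem _ fun k _ =>
      Submodule.smul_mem _ _ (Submodule.subset_span (Set.mem_range_self k))
  have hfg : (Submodule.span (ratLocalizedAt p) (Set.range e)).FG :=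
    Submodule.fg_span (Set.finite_range e)
  exact Submodule.fg_of_fg_map_injective _ (lsmul_injective_of_ne_zero d hd0) (hfg.of_le hle)

end Fermat.Agent.A3.H619

end
end
-- ===== PACK-END A3/H619/MaxOrder.lean

-- ===== PACK-BEGIN S24/Alg/LocFund.lean
section



/-!
# S24 / ALG-LOC: the fundamental inequality from local data (no Dedekind theory)

For `L : LocalData K F C X t`: at most `ord_v t` of the embeddings `L.σ x` induce a given
place `v` (with residue field `K`).  Hence `|X| ≤ ∑_{v | t} ord_v t`.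
-/

set_option autoImplicit false

noncomputable section

open AlgebraicCurve Polynomial

namespace Fermat.Agent.S24.H144

variable {K F : Type*} [Field K] [Field F] [Algebra K F]
variable {C : Type*} [Field C] {X : Type*} {t : F}

theorem loc_coeff_zero_C (c : C) : (HahnSeries.C c : LaurentSeries C).coeff 0 = c := by
  simp [HahnSeries.C, HahnSeries.coeff_single_same]

/-- The place induced by `L.σ x` lies over `t = 0`. -/
theorem loc_ord_t_pos_of_induces (L : LocalData K F C X t) {x : X} {v : Place K F}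
    (hx : Induces (L.σ x) v) : 0 < v.ord t := by
  obtain ⟨g, hg, hord⟩ := loc_exists_mult v (L.σ x) hx
  have h1 := hord t
  have h2 := loc_order_t_pos L x
  rw [h1] at h2
  have hg' : (0 : ℤ) < g := Int.natCast_pos.mpr hg
  exact (mul_pos_iff_of_pos_left hg').mp h2

/-- **Fibre bound.** At most `ord_v t` of the embeddings induce the place `v`. -/
theorem loc_fibre_card_le [CharZero C] (L : LocalData K F C X t) (v : Place K F)
    (hv : 0 < v.ord t) (hres : ResidueTrivial v) (T : Finset X)
    (hT : ∀ x ∈ T, Induces (L.σ x) v) : (T.card : ℤ) ≤ v.ord t := by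
  classical
  obtain ⟨π, hπ⟩ := loc_exists_ord_eq_one v
  have hπ0 : π ≠ 0 := by rintro rfl; simp at hπ
  have ht0 : t ≠ 0 := by rintro rfl; simp at hv
  obtain ⟨k, hk⟩ : ∃ k : ℕ, v.ord t = (k : ℤ) + 1 := ⟨(v.ord t - 1).toNat, by omega⟩
  -- the unit part of `t`
  set u : F := t * (π ^ (k + 1))⁻¹ with hu
  have hpk : π ^ (k + 1) ≠ 0 := pow_ne_zero _ hπ0
  have hu0 : u ≠ 0 := mul_ne_zero ht0 (inv_ne_zero hpk)
  have hut : t = u * π ^ (k + 1) := by rw [hu]; field_simp
  have hordu : v.ord u = 0 := by
    rw [hu, v.ord_mul ht0 (inv_ne_zero hpk), v.ord_inv, loc_ord_pow, hπ, hk]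
    push_cast; ring
  have humem : u ∈ v.toValuationSubring := loc_mem_of_ord_nonneg v hordu.ge
  -- the residue of `u`
  obtain ⟨c, hc⟩ := hres u humem
  have hucoeff : ∀ x ∈ T, (L.σ x u).coeff 0 = L.ι c := by
    intro x hx
    rcases hc with hc | hc
    · rw [hc, L.σ_const, loc_coeff_zero_C]
    · obtain ⟨g, hg, hord⟩ := loc_exists_mult v (L.σ x) (hT x hx)
      have h1 : 0 < (L.σ x (u - algebraMap K F c)).order := by
        rw [hord]
        exact mul_pos (Int.natCast_pos.mpr hg) hc
      have h2 : (L.σ x (u - algebraMap K F c)).coeff 0 = 0 :=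
        HahnSeries.coeff_eq_zero_of_lt_order h1
      rw [map_sub, HahnSeries.coeff_sub, L.σ_const, loc_coeff_zero_C, sub_eq_zero] at h2
      exact h2
  -- the key relation
  have hrel : ∀ x ∈ T, L.ι c * ((L.σ x π).leadingCoeff) ^ (k + 1) = (L.σ x t).leadingCoeff := by
    intro x hx
    obtain ⟨g, hg, hord⟩ := loc_exists_mult v (L.σ x) (hT x hx)
    have hou : LocBig 0 (L.σ x u) := LocBig.of_le_order (by rw [hord, hordu, mul_zero])
    have hoπ : (L.σ x π).order = g := by rw [hord, hπ, mul_one]
    have hbπ : LocBig (g : ℤ) (L.σ x π) := LocBig.of_le_order hoπ.ge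
    have hot : (L.σ x t).order = ((k + 1 : ℕ) : ℤ) * g := by
      rw [hord, hk]; push_cast; ring
    have h1 := hou.coeff_mul (hbπ.pow (k + 1))
    rw [hbπ.coeff_pow, zero_add, ← map_pow, ← map_mul, ← hut, hucoeff x hx] at h1
    have e1 : (L.σ x π).leadingCoeff = (L.σ x π).coeff g := by
      rw [HahnSeries.leadingCoeff_eq, hoπ]
    have e2 : (L.σ x t).leadingCoeff = (L.σ x t).coeff (((k + 1 : ℕ) : ℤ) * g) := by
      rw [HahnSeries.leadingCoeff_eq, hot]
    rw [e1, e2, h1]
  have hιc : ∀ x ∈ T, L.ι c ≠ 0 := by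
    intro x hx
    rw [← hucoeff x hx]
    obtain ⟨g, hg, hord⟩ := loc_exists_mult v (L.σ x) (hT x hx)
    have ho : (L.σ x u).order = 0 := by rw [hord, hordu, mul_zero]
    rw [← ho]
    exact HahnSeries.coeff_order_eq_zero.not.mpr ((map_ne_zero (L.σ x)).mpr hu0)
  rcases T.eq_empty_or_nonempty with rfl | ⟨x₀, hx₀⟩
  · simp only [Finset.card_empty, Nat.cast_zero]; exact hv.le
  -- all leading coefficients are `(k+1)`-th roots of the same element
  set A : C := (L.σ x₀ t).leadingCoeff * (L.ι c)⁻¹ with hA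
  have hroot : ∀ x ∈ T, (L.σ x π).leadingCoeff ∈ (nthRoots (k + 1) A).toFinset := by
    intro x hx
    rw [Multiset.mem_toFinset, mem_nthRoots (Nat.succ_pos k), hA, L.σ_t_eq x₀ x, ← hrel x hx]
    field_simp [hιc x hx]
  have hinj : Set.InjOn (fun x => (L.σ x π).leadingCoeff) (T : Set X) := by
    intro x hx y hy hxy
    apply L.σ_inj
    exact loc_emb_eq_of_leadingCoeff_eq hres hv hπ L.ι (L.σ x) (L.σ y) (L.σ_const x)
      (L.σ_const y) (hT x hx) (hT y hy) (L.σ_t_eq x y) hxy
  have h1 : T.card ≤ (nthRoots (k + 1) A).toFinset.card :=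
    Finset.card_le_card_of_injOn _ hroot hinj
  have h2 : (nthRoots (k + 1) A).toFinset.card ≤ k + 1 :=
    (Multiset.toFinset_card_le _).trans (card_nthRoots _ _)
  rw [hk]
  have : T.card ≤ k + 1 := h1.trans h2
  exact_mod_cast this

/-- **Fundamental inequality** `|X| ≤ ∑_{v | t} ord_v t`, hypothesis-explicit version. -/
theorem loc_card_le_sum_of_residueTrivial [CharZero C] [Finite X] (L : LocalData K F C X t)
    (hres : ∀ v : Place K F, 0 < v.ord t → ResidueTrivial v)
    (s : Finset (Place K F)) (hs : ∀ v, v ∈ s ↔ 0 < v.ord t) :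
    (Nat.card X : ℤ) ≤ ∑ v ∈ s, v.ord t := by
  classical
  have : Fintype X := Fintype.ofFinite X
  rw [Nat.card_eq_fintype_card, ← Finset.card_univ,
    Finset.card_eq_sum_card_image (locPlace L) Finset.univ]
  push_cast
  have himg : Finset.univ.image (locPlace L) ⊆ s := by
    intro v hv
    obtain ⟨x, _, rfl⟩ := Finset.mem_image.mp hv
    exact (hs _).mpr (loc_ord_t_pos_of_induces L (loc_induces_locPlace L x))
  refine le_trans (Finset.sum_le_sum fun v hv => ?_)
    (Finset.sum_le_sum_of_subset_of_nonneg himg fun v hv _ => ((hs v).mp hv).le)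
  have hvpos : 0 < v.ord t := (hs v).mp (himg hv)
  apply loc_fibre_card_le L v hvpos (hres v hvpos)
  intro x hx
  rw [Finset.mem_filter] at hx
  rw [← hx.2]
  exact loc_induces_locPlace L x

end Fermat.Agent.S24.H144

end
end
-- ===== PACK-END S24/Alg/LocFund.lean

-- ===== PACK-BEGIN S24/Alg/LocFundFF.lean
section



/-!
# S24 / ALG-LOC: the fundamental inequality `|X| ≤ ∑_{v | t} ord_v t` (final form)

Combines the local uniqueness argument (`LocFund.lean`) with "residue field `= K`"
(helper804, `FFFinite.lean`).  No Dedekind theory.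
-/

set_option autoImplicit false

noncomputable section

open AlgebraicCurve IntermediateField

namespace Fermat.Agent.S24.H144

variable {K F : Type*} [Field K] [Field F] [Algebra K F]
variable {C : Type*} [Field C] {X : Type*} {t : F}

/-- Over an algebraically closed constant field the residue field of every place is `K`. -/
theorem loc_residueTrivial [IsAlgClosed K] (v : Place K F) (ht : 0 < v.ord t)
    [FiniteDimensional K⟮t⟯ F] : ResidueTrivial v := by
  have htr : Transcendental K t := by
    apply FF.transcendental_of_not_mem_range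
    rintro ⟨c, rfl⟩
    rw [loc_ord_algebraMap] at ht
    exact lt_irrefl _ ht
  intro f hf
  obtain ⟨a, ha⟩ := FF.exists_const_sub_mem_nonunits v htr hf
  refine ⟨a, ?_⟩
  rcases eq_or_ne (f - algebraMap K F a) 0 with h0 | h0
  · exact Or.inl (sub_eq_zero.mp h0)
  · exact Or.inr ((FF.ord_pos_iff_mem_nonunits v h0).mpr ha)

/-- **Fundamental inequality from local data.** -/
theorem loc_fundamental_inequality [IsAlgClosed K] [CharZero C] [Finite X]
    [FiniteDimensional K⟮t⟯ F] (L : LocalData K F C X t)
    (s : Finset (Place K F)) (hs : ∀ v, v ∈ s ↔ 0 < v.ord t) :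
    (Nat.card X : ℤ) ≤ ∑ v ∈ s, v.ord t :=
  loc_card_le_sum_of_residueTrivial L (fun v hv => loc_residueTrivial v hv) s hs

end Fermat.Agent.S24.H144

end
end
-- ===== PACK-END S24/Alg/LocFundFF.lean

-- ===== PACK-BEGIN S24/H324/RatOrd.lean
section




/-!
# S24 / ALG (helper324) — orders of elements of `K(j)` at the places of `F`; the divisor of a
rational function on `ℙ¹` has degree zero

For `r ∈ K(j)`, `r ≠ 0` (`K` algebraically closed) there are integers `ν a` (`a : K`, almost all
zero) and `νinf` with `νinf + ∑ ν a = 0` such that for every place `v` of `F`: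
`v.ord r = ν a * v.ord (j - a)` if `v` lies over `a`, and `v.ord r = νinf * v.ord j⁻¹` if `v` is a
pole of `j`.
-/

set_option autoImplicit false

noncomputable section

open AlgebraicCurve Polynomial IntermediateField
open Fermat.Agent.S24.H117

namespace Fermat.Agent.S24.H324

variable {K F : Type*} [Field K] [Field F] [Algebra K F]

/-- Order of `P(j)` at a place over `j = a`. -/
theorem ord_aeval_at (v : Place K F) (j : F) (a : K)
    (hv : 0 < v.ord (j - algebraMap K F a)) (P : K[X]) (hP : P ≠ 0) :
    aeval j P ≠ 0 ∧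
      v.ord (aeval j P) = (P.rootMultiplicity a : ℤ) * v.ord (j - algebraMap K F a) := by
  have hcomp : P.comp (X + C a) ≠ 0 := fun h => hP (comp_X_add_C_eq_zero_iff.mp h)
  have h := ord_aeval_eq v hv (P.comp (X + C a)) hcomp
  have he : aeval (j - algebraMap K F a) (P.comp (X + C a)) = aeval j P := by
    rw [aeval_comp]
    congr 1
    simp
  rw [he, ← rootMultiplicity_eq_rootMultiplicity] at h
  exact h

/-- Order of `P(j)` at a pole of `j`. -/
theorem ord_aeval_at_inf (v : Place K F) (j : F) (hv : v.ord j < 0) (P : K[X]) (hP : P ≠ 0) :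
    aeval j P ≠ 0 ∧ v.ord (aeval j P) = (P.natDegree : ℤ) * v.ord j := by
  have hj0 : j ≠ 0 := ne_zero_of_ord_ne_zero v hv.ne
  have hinv : 0 < v.ord j⁻¹ := by rw [v.ord_inv]; omega
  letI : Invertible j := invertibleOfNonzero hj0
  have hrev := eval₂_reverse_mul_pow (algebraMap K F) j P
  rw [invOf_eq_inv] at hrev
  have hq : P.reverse.coeff 0 ≠ 0 := by
    rw [coeff_zero_reverse]
    exact leadingCoeff_ne_zero.mpr hP
  have hrev0 : P.reverse ≠ 0 := fun h => hq (by rw [h, coeff_zero])
  have h1 := ord_aeval_of_coeff_zero_ne v hinv P.reverse hq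
  have h2 := (ord_aeval_eq v hinv P.reverse hrev0).1
  have he : aeval j P = aeval j⁻¹ P.reverse * j ^ P.natDegree := hrev.symm
  refine ⟨?_, ?_⟩
  · rw [he]
    exact mul_ne_zero h2 (pow_ne_zero _ hj0)
  · rw [he, v.ord_mul h2 (pow_ne_zero _ hj0), h1, ord_pow, zero_add]

/-- Sum of the root multiplicities over any finite set containing the roots. -/
theorem sum_rootMultiplicity [IsAlgClosed K] [DecidableEq K] (P : K[X]) (T : Finset K)
    (hT : ∀ a ∈ P.roots, a ∈ T) :
    ∑ a ∈ T, (P.rootMultiplicity a : ℤ) = P.natDegree := by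
  have h := Multiset.sum_count_eq_card hT
  rw [IsAlgClosed.card_roots_eq_natDegree] at h
  simp only [count_roots] at h
  exact_mod_cast h

/-- **The divisor of a rational function on `ℙ¹`**, read on the places of `F`. -/
theorem exists_pointOrd [IsAlgClosed K] (j r : F) (hr : r ∈ K⟮j⟯) (hr0 : r ≠ 0) :
    ∃ (ν : K → ℤ) (νinf : ℤ) (T : Finset K), (∀ a, a ∉ T → ν a = 0) ∧
      νinf + ∑ a ∈ T, ν a = 0 ∧
      (∀ (v : Place K F) (a : K), 0 < v.ord (j - algebraMap K F a) →
        v.ord r = ν a * v.ord (j - algebraMap K F a)) ∧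
      (∀ v : Place K F, 0 < v.ord j⁻¹ → v.ord r = νinf * v.ord j⁻¹) := by
  classical
  obtain ⟨P, Q, rfl⟩ := (mem_adjoin_simple_iff K r).mp hr
  have hP0 : aeval j P ≠ 0 := fun h => hr0 (by rw [h, zero_div])
  have hQ0 : aeval j Q ≠ 0 := fun h => hr0 (by rw [h, div_zero])
  have hP : P ≠ 0 := fun h => hP0 (by rw [h, map_zero])
  have hQ : Q ≠ 0 := fun h => hQ0 (by rw [h, map_zero])
  refine ⟨fun a => (P.rootMultiplicity a : ℤ) - Q.rootMultiplicity a,
    (Q.natDegree : ℤ) - P.natDegree, P.roots.toFinset ∪ Q.roots.toFinset, ?_, ?_, ?_, ?_⟩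
  · intro a ha
    have haP : ¬ P.IsRoot a := fun h =>
      ha (Finset.mem_union_left _ (Multiset.mem_toFinset.mpr ((mem_roots hP).mpr h)))
    have haQ : ¬ Q.IsRoot a := fun h =>
      ha (Finset.mem_union_right _ (Multiset.mem_toFinset.mpr ((mem_roots hQ).mpr h)))
    simp only [rootMultiplicity_eq_zero haP, rootMultiplicity_eq_zero haQ]
    simp
  · rw [Finset.sum_sub_distrib,
      sum_rootMultiplicity P _ (fun a ha => Finset.mem_union_left _ (Multiset.mem_toFinset.mpr ha)),
      sum_rootMultiplicity Q _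
        (fun a ha => Finset.mem_union_right _ (Multiset.mem_toFinset.mpr ha))]
    ring
  · intro v a hv
    obtain ⟨-, h1⟩ := ord_aeval_at v j a hv P hP
    obtain ⟨-, h2⟩ := ord_aeval_at v j a hv Q hQ
    rw [ord_div v hP0 hQ0, h1, h2]
    ring
  · intro v hv
    have hj : v.ord j < 0 := by
      rw [v.ord_inv] at hv
      omega
    obtain ⟨-, h1⟩ := ord_aeval_at_inf v j hj P hP
    obtain ⟨-, h2⟩ := ord_aeval_at_inf v j hj Q hQ
    rw [ord_div v hP0 hQ0, h1, h2, v.ord_inv]
    ring

end Fermat.Agent.S24.H324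

end
end
-- ===== PACK-END S24/H324/RatOrd.lean

-- ===== PACK-BEGIN Lib/RR/H742/AdelesCore.lean
section


/-!
# RR library, layer L4 (core, hypothesis-explicit): repartitions and `H¹(D)`

Everything here depends only on layer L1 (`Basic.lean`).  The input from Riemann's theorem is
taken as explicit hypotheses `hg` (Riemann's inequality with constant `g`) and `h₀` (the bound is
attained at `D₀`).
-/

set_option autoImplicit false

noncomputable section

open AlgebraicCurve

namespace Fermat.Agent.Lib.RR.H742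

open Fermat.Agent.Lib.RR

variable {K F : Type*} [Field K] [Field F] [Algebra K F]

/-! ### L4.0 : repartitions = families with finitely many poles -/

theorem finite_poles [HasPrincipalDivisors K F] (f : F) :
    {v : Place K F | v.ord f < 0}.Finite := by
  rcases eq_or_ne f 0 with rfl | hf
  · simp
  obtain ⟨D, hD, -⟩ := HasPrincipalDivisors.exists_divisor (K := K) f hf
  refine D.support.finite_toSet.subset fun v hv => ?_
  simp only [Set.mem_ofPred_eq] at hv
  rw [Finset.mem_coe, Finsupp.mem_support_iff, hD v]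
  omega

theorem ord_add_nonneg (v : Place K F) {a b : F} (ha : 0 ≤ v.ord a) (hb : 0 ≤ v.ord b) :
    0 ≤ v.ord (a + b) :=
  ord_nonneg_of_mem v (add_mem (mem_of_ord_nonneg v ha) (mem_of_ord_nonneg v hb))

theorem ord_mul_nonneg (v : Place K F) {a b : F} (ha : 0 ≤ v.ord a) (hb : 0 ≤ v.ord b) :
    0 ≤ v.ord (a * b) :=
  ord_nonneg_of_mem v (mul_mem (mem_of_ord_nonneg v ha) (mem_of_ord_nonneg v hb))

theorem finite_poles_of_mem_repartitions [HasPrincipalDivisors K F] {α : Place K F → F}
    (hα : α ∈ repartitions K F) : {v : Place K F | v.ord (α v) < 0}.Finite := by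
  unfold repartitions at hα
  induction hα using Algebra.adjoin_induction with
  | mem x hx =>
    have : {v : Place K F | v.ord (x v) < 0} = {v : Place K F | ¬v.adicValuation (x v) ≤ 1} :=
      Set.ext fun v => (v.not_adicValuation_le_one_iff).symm
    rw [this]; exact hx
  | algebraMap f => exact finite_poles f
  | add x y _ _ hx hy =>
    refine (hx.union hy).subset fun v hv => ?_
    simp only [Set.mem_ofPred_eq, Pi.add_apply, Set.mem_union] at hv ⊢
    by_contra hcon
    push Not at hcon
    have := ord_add_nonneg v hcon.1 hcon.2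
    omega
  | mul x y _ _ hx hy =>
    refine (hx.union hy).subset fun v hv => ?_
    simp only [Set.mem_ofPred_eq, Pi.mul_apply, Set.mem_union] at hv ⊢
    by_contra hcon
    push Not at hcon
    have := ord_mul_nonneg v hcon.1 hcon.2
    omega

/-- **L4.0** -/
theorem mem_repartitions_iff' [HasPrincipalDivisors K F] {α : Place K F → F} :
    α ∈ repartitions K F ↔ {v : Place K F | v.ord (α v) < 0}.Finite :=
  ⟨finite_poles_of_mem_repartitions, mem_repartitions_of_finite_ord⟩

/-! ### Single-place repartitions -/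

/-- The repartition which is `x` at `v` and `0` elsewhere. -/
def single (v : Place K F) (x : F) : ↥(repartitions K F) :=
  ⟨fun w => by classical exact if w = v then x else 0,
    mem_repartitions_of_finite_ord <| (Set.finite_singleton v).subset fun w hw => by
      classical
      simp only [Set.mem_ofPred_eq] at hw
      by_contra hne
      rw [Set.mem_singleton_iff] at hne
      simp [hne] at hw⟩

@[simp] theorem single_apply_self (v : Place K F) (x : F) :
    (single v x : Place K F → F) v = x := by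
  simp [single]

theorem single_apply_of_ne {v w : Place K F} (h : w ≠ v) (x : F) :
    (single v x : Place K F → F) w = 0 := by
  simp [single, h]

/-- The principal repartition of `f`. -/
def iota (f : F) : ↥(repartitions K F) := algebraMap F ↥(repartitions K F) f

@[simp] theorem iota_apply (f : F) (v : Place K F) :
    (iota (K := K) f : Place K F → F) v = f := rfl

theorem iota_mem_principal (f : F) : iota (K := K) f ∈ principalRepartitions K F :=
  mem_principalRepartitions_iff.mpr ⟨f, rfl⟩

theorem iota_mem_repartitionsOf_iff {D : Divisor K F} {f : F} :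
    iota (K := K) f ∈ repartitionsOf D ↔ f ∈ riemannRochSpace D := by
  rw [mem_repartitionsOf_iff, mem_riemannRochSpace_iff]
  rfl

@[simp] theorem coe_smul_apply (c : K) (α : ↥(repartitions K F)) (v : Place K F) :
    ((c • α : ↥(repartitions K F)) : Place K F → F) v =
      algebraMap K F c * (α : Place K F → F) v := by
  show c • ((α : Place K F → F) v) = _
  rw [Algebra.smul_def]

@[simp] theorem coe_sub_apply (α β : ↥(repartitions K F)) (v : Place K F) :
    ((α - β : ↥(repartitions K F)) : Place K F → F) v =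
      (α : Place K F → F) v - (β : Place K F → F) v := rfl

@[simp] theorem coe_add_apply (α β : ↥(repartitions K F)) (v : Place K F) :
    ((α + β : ↥(repartitions K F)) : Place K F → F) v =
      (α : Place K F → F) v + (β : Place K F → F) v := rfl

/-! ### One step -/

/-- One step for repartitions: `𝔸(D + P) ⊆ 𝔸(D) + K α₀` whenever `α₀` has order exactly
`-(D P + 1)` at `P`. -/
theorem repartitionsOf_add_prim_le (v : Place K F) (hv : v.deg = 1) (D : Divisor K F)
    {α₀ : ↥(repartitions K F)} (hα₀ : α₀ ∈ repartitionsOf (D + prim v))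
    (h0 : (α₀ : Place K F → F) v ≠ 0) (hord : v.ord ((α₀ : Place K F → F) v) = -(D v + 1)) :
    repartitionsOf (D + prim v) ≤ repartitionsOf D ⊔ Submodule.span K {α₀} := by
  intro α hα
  have hg : 0 ≤ v.ord ((α : Place K F → F) v * ((α₀ : Place K F → F) v)⁻¹) := by
    rcases eq_or_ne ((α : Place K F → F) v) 0 with h | h
    · simp [h]
    · have h1 := ((mem_repartitionsOf_iff.mp hα) v).resolve_left h
      simp only [Finsupp.coe_add, Pi.add_apply, prim_apply_self] at h1
      rw [v.ord_mul h (inv_ne_zero h0), v.ord_inv, hord]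
      omega
  obtain ⟨c, hc⟩ := exists_const_sub v hv hg
  have hdecomp : α = (α - c • α₀) + c • α₀ := by abel
  rw [hdecomp]
  refine Submodule.add_mem _ (Submodule.mem_sup_left ?_)
    (Submodule.mem_sup_right (Submodule.smul_mem _ _ (Submodule.mem_span_singleton_self _)))
  have hmem' : α - c • α₀ ∈ repartitionsOf (D + prim v) :=
    Submodule.sub_mem _ hα (Submodule.smul_mem _ _ hα₀)
  rw [mem_repartitionsOf_iff]
  intro w
  by_cases hw : w = v
  · subst hw
    have hfac : ((α - c • α₀ : ↥(repartitions K F)) : Place K F → F) w =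
        ((α : Place K F → F) w * ((α₀ : Place K F → F) w)⁻¹ - algebraMap K F c) *
          (α₀ : Place K F → F) w := by
      rw [coe_sub_apply, coe_smul_apply]
      field_simp
    rcases hc with hc | hc
    · left; rw [hfac, hc, zero_mul]
    · rcases eq_or_ne (((α - c • α₀ : ↥(repartitions K F)) : Place K F → F) w) 0 with h0' | h0'
      · exact Or.inl h0'
      right
      have hne : (α : Place K F → F) w * ((α₀ : Place K F → F) w)⁻¹ - algebraMap K F c ≠ 0 := by
        intro h; rw [hfac, h, zero_mul] at h0'; exact h0' rfl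
      rw [hfac, w.ord_mul hne h0, hord]
      omega
  · have h2 := mem_repartitionsOf_iff.mp hmem' w
    simpa [prim_apply_of_ne hw] using h2

/-- A repartition in `𝔸(D + P)` of exact order `-(D P + 1)` at `P`. -/
theorem exists_alpha0 (v : Place K F) (D : Divisor K F) :
    ∃ α₀ : ↥(repartitions K F), α₀ ∈ repartitionsOf (D + prim v) ∧
      (α₀ : Place K F → F) v ≠ 0 ∧ v.ord ((α₀ : Place K F → F) v) = -(D v + 1) := by
  obtain ⟨t, ht⟩ := exists_ord_eq_one v
  have ht0 : t ≠ 0 := ne_zero_of_ord_ne_zero v (by omega)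
  refine ⟨single v (t ^ (-(D v + 1))), ?_, ?_, ?_⟩
  · rw [mem_repartitionsOf_iff]
    intro w
    by_cases hw : w = v
    · subst hw
      right
      rw [single_apply_self, w.ord_zpow, ht]
      simp
    · left; exact single_apply_of_ne hw _
  · rw [single_apply_self]; exact zpow_ne_zero _ ht0
  · rw [single_apply_self, v.ord_zpow, ht, mul_one]

/-- `𝔸(D) + F`. -/
abbrev SS (D : Divisor K F) : Submodule K ↥(repartitions K F) :=
  repartitionsOf D ⊔ principalRepartitions K F

theorem SS_mono {D D' : Divisor K F} (h : D ≤ D') : SS D ≤ SS D' :=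
  sup_le_sup_right (repartitionsOf_mono h) _

theorem not_mem_repartitionsOf_of_ord (v : Place K F) (D : Divisor K F)
    {α₀ : ↥(repartitions K F)} (h0 : (α₀ : Place K F → F) v ≠ 0)
    (hord : v.ord ((α₀ : Place K F → F) v) = -(D v + 1)) : α₀ ∉ repartitionsOf D := by
  intro h
  have := ((mem_repartitionsOf_iff.mp h) v).resolve_left h0
  omega

theorem mem_SS_iff {D : Divisor K F} {α : ↥(repartitions K F)} :
    α ∈ SS D ↔ ∃ f : F, α - iota f ∈ repartitionsOf D := by
  constructor
  · intro h
    obtain ⟨β, hβ, γ, hγ, rfl⟩ := Submodule.mem_sup.mp h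
    obtain ⟨f, hf⟩ := mem_principalRepartitions_iff.mp hγ
    refine ⟨f, ?_⟩
    have : γ = iota f := Subtype.ext hf
    rw [this, add_sub_cancel_right]
    exact hβ
  · rintro ⟨f, hf⟩
    have : α = (α - iota f) + iota f := by abel
    rw [this]
    exact Submodule.add_mem _ (Submodule.mem_sup_left hf)
      (Submodule.mem_sup_right (iota_mem_principal f))

section FF1

variable [hFF : FF1 K F]

/-- Case A of the step: if `ℓ` jumps, `𝔸(D + P) + F = 𝔸(D) + F`. -/
theorem SS_add_prim_of_ell (D : Divisor K F) (v : Place K F)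
    (h : ell (D + prim v) = ell D + 1) : SS (D + prim v) = SS D := by
  apply le_antisymm _ (SS_mono (le_add_of_nonneg_right (by simp [prim])))
  have hle : riemannRochSpace D ≤ riemannRochSpace (D + prim v) :=
    L_mono (le_add_of_nonneg_right (by simp [prim]))
  have hne : ¬ riemannRochSpace (D + prim v) ≤ riemannRochSpace D := by
    intro hcon
    have := Submodule.finrank_mono hcon
    unfold ell at h
    omega
  obtain ⟨f, hf, hf'⟩ := SetLike.not_le_iff_exists.mp hne
  have hf0 : f ≠ 0 := fun h => hf' (h ▸ Submodule.zero_mem _)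
  have hord : v.ord f = -(D v + 1) := by
    have h1 := (mem_L_iff.mp hf v).resolve_left hf0
    simp only [Finsupp.coe_add, Pi.add_apply, prim_apply_self] at h1
    by_contra hne'
    apply hf'
    rw [mem_L_iff]
    intro w
    right
    by_cases hw : w = v
    · subst hw; omega
    · have h2 := (mem_L_iff.mp hf w).resolve_left hf0
      simpa [prim_apply_of_ne hw] using h2
  have hstep := repartitionsOf_add_prim_le v (deg_eq_one v) D
    (α₀ := iota f) (iota_mem_repartitionsOf_iff.mpr hf) (by simpa using hf0)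
    (by simpa using hord)
  refine sup_le (hstep.trans (sup_le le_sup_left ?_)) le_sup_right
  rw [Submodule.span_singleton_le_iff_mem]
  exact Submodule.mem_sup_right (iota_mem_principal f)

/-- Case B of the step: if `ℓ` does not jump, `α₀ ∉ 𝔸(D) + F`. -/
theorem not_mem_SS_of_ell (D : Divisor K F) (v : Place K F)
    (h : ell (D + prim v) = ell D) {α₀ : ↥(repartitions K F)}
    (hα₀ : α₀ ∈ repartitionsOf (D + prim v))
    (h0 : (α₀ : Place K F → F) v ≠ 0) (hord : v.ord ((α₀ : Place K F → F) v) = -(D v + 1)) :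
    α₀ ∉ SS D := by
  intro hmem
  obtain ⟨f, hf⟩ := mem_SS_iff.mp hmem
  have hle : riemannRochSpace D ≤ riemannRochSpace (D + prim v) :=
    L_mono (le_add_of_nonneg_right (by simp [prim]))
  have heq : riemannRochSpace D = riemannRochSpace (D + prim v) :=
    Submodule.eq_of_le_of_finrank_eq hle h.symm
  have hf' : α₀ - iota f ∈ repartitionsOf (D + prim v) :=
    repartitionsOf_mono (le_add_of_nonneg_right (by simp [prim])) hf
  have hif : iota (K := K) f ∈ repartitionsOf (D + prim v) := by
    have := Submodule.sub_mem _ hα₀ hf'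
    rwa [sub_sub_cancel] at this
  have hfL : f ∈ riemannRochSpace D := by
    rw [heq]; exact iota_mem_repartitionsOf_iff.mp hif
  have : α₀ ∈ repartitionsOf D := by
    have := Submodule.add_mem _ hf (iota_mem_repartitionsOf_iff.mpr hfL)
    rwa [sub_add_cancel] at this
  exact not_mem_repartitionsOf_of_ord v D h0 hord this

theorem SS_add_prim_eq_sup (D : Divisor K F) (v : Place K F) {α₀ : ↥(repartitions K F)}
    (hα₀ : α₀ ∈ repartitionsOf (D + prim v))
    (h0 : (α₀ : Place K F → F) v ≠ 0) (hord : v.ord ((α₀ : Place K F → F) v) = -(D v + 1)) :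
    SS (D + prim v) = SS D ⊔ Submodule.span K {α₀} := by
  apply le_antisymm
  · refine sup_le ((repartitionsOf_add_prim_le v (deg_eq_one v) D hα₀ h0 hord).trans ?_) ?_
    · exact sup_le (le_sup_left.trans le_sup_left) le_sup_right
    · exact le_sup_right.trans le_sup_left
  · refine sup_le (SS_mono (le_add_of_nonneg_right (by simp [prim]))) ?_
    rw [Submodule.span_singleton_le_iff_mem]
    exact Submodule.mem_sup_left hα₀

/-- Linear algebra: extending a complement by one vector. -/
theorem ext_step {A : Type*} [AddCommGroup A] [Module K A] (S W : Submodule K A)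
    [Module.Finite K W] (hd : Disjoint S W) {a : A} (ha : a ∉ S ⊔ W) :
    Disjoint S (W ⊔ Submodule.span K {a}) ∧ Module.Finite K ↥(W ⊔ Submodule.span K {a}) ∧
      Module.finrank K ↥(W ⊔ Submodule.span K {a}) = Module.finrank K W + 1 := by
  have haW : a ∉ W := fun h => ha (Submodule.mem_sup_right h)
  have ha0 : a ≠ 0 := fun h => haW (h ▸ Submodule.zero_mem _)
  refine ⟨?_, inferInstance, ?_⟩
  · rw [Submodule.disjoint_def]
    intro x hxS hx
    obtain ⟨w, hw, y, hy, rfl⟩ := Submodule.mem_sup.mp hx
    obtain ⟨c, rfl⟩ := Submodule.mem_span_singleton.mp hy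
    by_cases hc : c = 0
    · subst hc
      rw [zero_smul, add_zero] at hxS ⊢
      exact (Submodule.disjoint_def.mp hd) w hxS hw
    · exfalso
      apply ha
      have : a = c⁻¹ • (w + c • a) + (-(c⁻¹ • w)) := by
        rw [smul_add, smul_smul, inv_mul_cancel₀ hc, one_smul]; abel
      rw [this]
      exact Submodule.add_mem _ (Submodule.mem_sup_left (Submodule.smul_mem _ _ hxS))
        (Submodule.mem_sup_right (Submodule.neg_mem _ (Submodule.smul_mem _ _ hw)))
  · have h1 := Submodule.finrank_sup_add_finrank_inf_eq W (Submodule.span K {a})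
    have h2 : W ⊓ Submodule.span K {a} = ⊥ := by
      rw [← disjoint_iff, Submodule.disjoint_span_singleton]
      intro h; exact absurd h haW
    rw [h2, finrank_bot, add_zero, finrank_span_singleton ha0] at h1
    exact h1

/-- For `D ≤ D'`, the space `𝔸(D') + F` is the direct sum of `𝔸(D) + F` and a finite-dimensional
space of dimension `(deg D' - ℓ(D')) - (deg D - ℓ(D))`. -/
theorem exists_compl_of_le (D : Divisor K F) : ∀ D' : Divisor K F, D ≤ D' →
    ∃ W : Submodule K ↥(repartitions K F), Module.Finite K W ∧ Disjoint (SS D) W ∧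
      SS D ⊔ W = SS D' ∧
      (Module.finrank K W : ℤ) =
        (Divisor.degree D' - ell D') - (Divisor.degree D - ell D) := by
  refine induction_ge D ?_ ?_
  · exact ⟨⊥, inferInstance, disjoint_bot_right, sup_bot_eq _, by simp⟩
  · rintro D'' v - ⟨W, hfin, hdisj, hsup, hrank⟩
    have h1 := ell_add_prim_le D'' v
    have h2 : ell D'' ≤ ell (D'' + prim v) :=
      ell_mono (le_add_of_nonneg_right (by simp [prim]))
    have hdeg : Divisor.degree (D'' + prim v) = Divisor.degree D'' + 1 := by
      rw [map_add, degree_prim']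
    by_cases hA : ell (D'' + prim v) = ell D'' + 1
    · refine ⟨W, hfin, hdisj, ?_, ?_⟩
      · rw [hsup, SS_add_prim_of_ell D'' v hA]
      · rw [hrank, hdeg, hA]; push_cast; ring
    · have hB : ell (D'' + prim v) = ell D'' := by omega
      obtain ⟨α₀, hα₀, h0, hord⟩ := exists_alpha0 v D''
      have hnot : α₀ ∉ SS D ⊔ W := by
        rw [hsup]; exact not_mem_SS_of_ell D'' v hB hα₀ h0 hord
      obtain ⟨hd', hfin', hrank'⟩ := ext_step (SS D) W hdisj hnot
      refine ⟨W ⊔ Submodule.span K {α₀}, hfin', hd', ?_, ?_⟩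
      · rw [← sup_assoc, hsup, SS_add_prim_eq_sup D'' v hα₀ h0 hord]
      · rw [hrank', hdeg, hB]; push_cast; rw [hrank]; ring

/-- Every repartition lies in some `𝔸(E)`. -/
theorem exists_mem_repartitionsOf (α : ↥(repartitions K F)) :
    ∃ E : Divisor K F, α ∈ repartitionsOf E := by
  classical
  have hfin := finite_poles_of_mem_repartitions α.2
  let E : Divisor K F := Finsupp.ofSupportFinite
    (fun v => if v.ord ((α : Place K F → F) v) < 0 then -v.ord ((α : Place K F → F) v) else 0)
    (hfin.subset fun v hv => by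
      simp only [Function.mem_support, ne_eq, ite_eq_right_iff, not_forall] at hv
      exact hv.1)
  refine ⟨E, mem_repartitionsOf_iff.mpr fun v => Or.inr ?_⟩
  show -(if v.ord ((α : Place K F → F) v) < 0 then -v.ord ((α : Place K F → F) v) else 0) ≤ _
  split_ifs with h
  · omega
  · omega

/-- If Riemann's bound is attained at `D₀` then `𝔸 = 𝔸(D₀) + F`. -/
theorem SS_eq_top_of_attained (g : ℤ)
    (hg : ∀ D : Divisor K F, Divisor.degree D + 1 - g ≤ ell D) {D₀ : Divisor K F}
    (h₀ : (ell D₀ : ℤ) = Divisor.degree D₀ + 1 - g) : SS D₀ = ⊤ := by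
  rw [eq_top_iff]
  intro α _
  obtain ⟨E, hE⟩ := exists_mem_repartitionsOf α
  obtain ⟨W, hfin, -, hsup, hrank⟩ := exists_compl_of_le D₀ (D₀ ⊔ E) le_sup_left
  have h1 := hg (D₀ ⊔ E)
  have h2 : Module.finrank K W = 0 := by omega
  have h3 : W = ⊥ := Submodule.finrank_eq_zero.mp h2
  rw [h3, sup_bot_eq] at hsup
  rw [hsup]
  exact Submodule.mem_sup_left (repartitionsOf_mono le_sup_right hE)

/-- **L4.1 + L4.2, hypothesis-explicit**: `H¹(D)` is finite-dimensional and
`ℓ(D) - dim H¹(D) = deg D + 1 - g`, where `g` is the constant of Riemann's inequality,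
attained at some `D₀`. -/
theorem H1_core (g : ℤ)
    (hg : ∀ D : Divisor K F, Divisor.degree D + 1 - g ≤ ell D) {D₀ : Divisor K F}
    (h₀ : (ell D₀ : ℤ) = Divisor.degree D₀ + 1 - g) (D : Divisor K F) :
    Module.Finite K (H1 D) ∧
      (ell D : ℤ) - Module.finrank K (H1 D) = Divisor.degree D + 1 - g := by
  have hmono := degree_sub_ell_mono (le_sup_right : D₀ ≤ D ⊔ D₀)
  have h1 := hg (D ⊔ D₀)
  have hatt : (ell (D ⊔ D₀) : ℤ) = Divisor.degree (D ⊔ D₀) + 1 - g := by omega
  have htop := SS_eq_top_of_attained g hg hatt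
  obtain ⟨W, hfin, hdisj, hsup, hrank⟩ := exists_compl_of_le D (D ⊔ D₀) le_sup_left
  rw [htop] at hsup
  have hcompl : IsCompl (SS D) W := ⟨hdisj, codisjoint_iff.mpr hsup⟩
  let e : (↥(repartitions K F) ⧸ SS D) ≃ₗ[K] W := Submodule.quotientEquivOfIsCompl _ _ hcompl
  have hfinH : Module.Finite K (H1 D) := Module.Finite.equiv e.symm
  refine ⟨hfinH, ?_⟩
  have hr : Module.finrank K (H1 D) = Module.finrank K W := e.finrank_eq
  rw [hr, hrank]
  omega

end FF1

end Fermat.Agent.Lib.RR.H742

end
end
-- ===== PACK-END Lib/RR/H742/AdelesCore.lean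

-- ===== PACK-BEGIN S37/H940/Frac.lean
section




/-!
# S37 / RIM (helper940): the reduction context of fractions

Given a subring `O ⊆ F` ("integral functions") with a ring homomorphism `ρ₀ : O → F_k`
extending the residue map `π : A → k`, the ring `V` of fractions `a / b` (`a, b ∈ O`,
`ρ₀ b ≠ 0`) carries the reduction map `ρ (a / b) = ρ₀ a / ρ₀ b`, and `(A, π, V, ρ)` is a
reduction context in the sense of `Core.lean`.
-/

set_option autoImplicit false

noncomputable section

namespace Fermat.Agent.S37.H940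

open AlgebraicCurve

variable {K F k Fk : Type*} [Field K] [Field F] [Algebra K F] [Field k] [Field Fk]
  [Algebra k Fk]

/-- Input data for the context of fractions. -/
structure FracData (K F k Fk : Type*) [Field K] [Field F] [Algebra K F] [Field k] [Field Fk]
    [Algebra k Fk] where
  /-- the valuation ring of the base field -/
  A : ValuationSubring K
  /-- the residue map -/
  π : A →+* k
  π_surj : Function.Surjective π
  π_eq_zero : ∀ a : A, π a = 0 ↔ ¬ IsUnit a
  /-- the integral functions -/
  O : Subring F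
  /-- the reduction of integral functions -/
  ρ₀ : O →+* Fk
  A_mem : ∀ a : A, algebraMap K F (a : K) ∈ O
  ρ₀_A : ∀ a : A, ρ₀ ⟨algebraMap K F (a : K), A_mem a⟩ = algebraMap k Fk (π a)

namespace FracData

variable (𝔇 : FracData K F k Fk)

/-- `f` is a fraction `a / b` with `a, b` integral and `ρ₀ b ≠ 0`. -/
def IsFrac (f : F) : Prop := ∃ a b : 𝔇.O, 𝔇.ρ₀ b ≠ 0 ∧ f * (b : F) = (a : F)

theorem coe_ne_zero {b : 𝔇.O} (hb : 𝔇.ρ₀ b ≠ 0) : (b : F) ≠ 0 := by
  intro h
  apply hb
  have : b = 0 := Subtype.ext h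
  rw [this, map_zero]

theorem isFrac_of_mem (a : 𝔇.O) : 𝔇.IsFrac (a : F) :=
  ⟨a, 1, by rw [map_one]; exact one_ne_zero, by simp⟩

theorem IsFrac.add {f g : F} (hf : 𝔇.IsFrac f) (hg : 𝔇.IsFrac g) : 𝔇.IsFrac (f + g) := by
  obtain ⟨a, b, hb, hab⟩ := hf
  obtain ⟨c, d, hd, hcd⟩ := hg
  refine ⟨a * d + c * b, b * d, by rw [map_mul]; exact mul_ne_zero hb hd, ?_⟩
  push_cast
  rw [← hab, ← hcd]
  ring

theorem IsFrac.mul {f g : F} (hf : 𝔇.IsFrac f) (hg : 𝔇.IsFrac g) : 𝔇.IsFrac (f * g) := by
  obtain ⟨a, b, hb, hab⟩ := hf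
  obtain ⟨c, d, hd, hcd⟩ := hg
  refine ⟨a * c, b * d, by rw [map_mul]; exact mul_ne_zero hb hd, ?_⟩
  push_cast
  rw [← hab, ← hcd]
  ring

theorem IsFrac.neg {f : F} (hf : 𝔇.IsFrac f) : 𝔇.IsFrac (-f) := by
  obtain ⟨a, b, hb, hab⟩ := hf
  refine ⟨-a, b, hb, ?_⟩
  push_cast
  rw [← hab]
  ring

/-- the ring of fractions -/
def V : Subring F where
  carrier := {f | 𝔇.IsFrac f}
  mul_mem' := fun hf hg => hf.mul 𝔇 hg
  one_mem' := by
    have := 𝔇.isFrac_of_mem 1
    simpa using this
  add_mem' := fun hf hg => hf.add 𝔇 hg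
  zero_mem' := by
    have := 𝔇.isFrac_of_mem 0
    simpa using this
  neg_mem' := fun hf => hf.neg 𝔇

theorem mem_V {f : F} : f ∈ 𝔇.V ↔ 𝔇.IsFrac f := Iff.rfl

/-- numerator of a fraction -/
def num (f : 𝔇.V) : 𝔇.O := (f.2 : 𝔇.IsFrac f).choose

/-- denominator of a fraction -/
def den (f : 𝔇.V) : 𝔇.O := (f.2 : 𝔇.IsFrac f).choose_spec.choose

theorem ρ₀_den_ne_zero (f : 𝔇.V) : 𝔇.ρ₀ (𝔇.den f) ≠ 0 :=
  (f.2 : 𝔇.IsFrac f).choose_spec.choose_spec.1

theorem mul_den (f : 𝔇.V) : (f : F) * (𝔇.den f : F) = (𝔇.num f : F) :=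
  (f.2 : 𝔇.IsFrac f).choose_spec.choose_spec.2

/-- the reduction of a fraction, as a function -/
def ρfun (f : 𝔇.V) : Fk := 𝔇.ρ₀ (𝔇.num f) / 𝔇.ρ₀ (𝔇.den f)

/-- the reduction of a fraction does not depend on the representation -/
theorem ρfun_eq (f : 𝔇.V) {a b : 𝔇.O} (hb : 𝔇.ρ₀ b ≠ 0) (hab : (f : F) * (b : F) = (a : F)) :
    𝔇.ρfun f = 𝔇.ρ₀ a / 𝔇.ρ₀ b := by
  unfold ρfun
  rw [div_eq_div_iff (𝔇.ρ₀_den_ne_zero f) hb, ← map_mul, ← map_mul]
  congr 1
  apply Subtype.ext
  push_cast
  rw [← 𝔇.mul_den f, ← hab]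
  ring

/-- the reduction map on fractions -/
def ρ : 𝔇.V →+* Fk where
  toFun := 𝔇.ρfun
  map_one' := by
    rw [𝔇.ρfun_eq 1 (a := 1) (b := 1) (by rw [map_one]; exact one_ne_zero) (by simp)]
    simp
  map_mul' f g := by
    rw [𝔇.ρfun_eq (f * g) (a := 𝔇.num f * 𝔇.num g) (b := 𝔇.den f * 𝔇.den g)
      (by rw [map_mul]; exact mul_ne_zero (𝔇.ρ₀_den_ne_zero f) (𝔇.ρ₀_den_ne_zero g))
      (by push_cast; rw [← 𝔇.mul_den f, ← 𝔇.mul_den g]; ring)]
    unfold ρfun
    rw [map_mul, map_mul, mul_div_mul_comm]
  map_zero' := by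
    rw [𝔇.ρfun_eq 0 (a := 0) (b := 1) (by rw [map_one]; exact one_ne_zero) (by simp)]
    simp
  map_add' f g := by
    rw [𝔇.ρfun_eq (f + g) (a := 𝔇.num f * 𝔇.den g + 𝔇.num g * 𝔇.den f)
      (b := 𝔇.den f * 𝔇.den g)
      (by rw [map_mul]; exact mul_ne_zero (𝔇.ρ₀_den_ne_zero f) (𝔇.ρ₀_den_ne_zero g))
      (by push_cast; rw [← 𝔇.mul_den f, ← 𝔇.mul_den g]; ring)]
    unfold ρfun
    rw [map_add, map_mul, map_mul, map_mul, div_add_div _ _ (𝔇.ρ₀_den_ne_zero f)
      (𝔇.ρ₀_den_ne_zero g)]
    ring

theorem ρ_apply (f : 𝔇.V) {a b : 𝔇.O} (hb : 𝔇.ρ₀ b ≠ 0) (hab : (f : F) * (b : F) = (a : F)) :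
    𝔇.ρ f = 𝔇.ρ₀ a / 𝔇.ρ₀ b :=
  𝔇.ρfun_eq f hb hab

/-- integral functions as fractions -/
def ofO (a : 𝔇.O) : 𝔇.V := ⟨(a : F), 𝔇.isFrac_of_mem a⟩

@[simp] theorem coe_ofO (a : 𝔇.O) : ((𝔇.ofO a : 𝔇.V) : F) = (a : F) := rfl

@[simp] theorem ρ_ofO (a : 𝔇.O) : 𝔇.ρ (𝔇.ofO a) = 𝔇.ρ₀ a := by
  rw [𝔇.ρ_apply (𝔇.ofO a) (a := a) (b := 1) (by rw [map_one]; exact one_ne_zero) (by simp)]
  simp

/-- **The reduction context of fractions.** -/
def ctx : Ctx K F k Fk where
  A := 𝔇.A
  π := 𝔇.π
  π_surj := 𝔇.π_surj
  π_eq_zero := 𝔇.π_eq_zero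
  V := 𝔇.V
  ρ := 𝔇.ρ
  A_mem a := 𝔇.isFrac_of_mem ⟨_, 𝔇.A_mem a⟩
  ρ_A a := by
    have := 𝔇.ρ_ofO ⟨_, 𝔇.A_mem a⟩
    rw [𝔇.ρ₀_A] at this
    exact this
  inv_mem u hu := by
    have hnum : 𝔇.ρ₀ (𝔇.num u) ≠ 0 := by
      intro h
      apply hu
      show 𝔇.ρfun u = 0
      unfold ρfun
      rw [h, zero_div]
    refine ⟨𝔇.den u, 𝔇.num u, hnum, ?_⟩
    have hu0 : (u : F) ≠ 0 := by
      intro h
      apply 𝔇.coe_ne_zero hnum
      rw [← 𝔇.mul_den u, h, zero_mul]
    rw [← 𝔇.mul_den u]
    field_simp

@[simp] theorem ctx_V : 𝔇.ctx.V = 𝔇.V := rfl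

@[simp] theorem ctx_ρ : 𝔇.ctx.ρ = 𝔇.ρ := rfl

@[simp] theorem ctx_A : 𝔇.ctx.A = 𝔇.A := rfl

@[simp] theorem ctx_π : 𝔇.ctx.π = 𝔇.π := rfl

end FracData

end Fermat.Agent.S37.H940

end
end
-- ===== PACK-END S37/H940/Frac.lean

-- ===== PACK-BEGIN S37/H940/QSeries.lean
section





/-!
# S37 / RIM (helper940): from an atlas of fibres to the Prelude's `ReductionInputsAlong`

For subfields `F ⊆ L((q))`, `F_k ⊆ k((q))` and a valuation ring `A ⊆ L` with residue map
`π : A → k`, the integral `q`-series of `F` with reduction in `F_k` form a subring `O` with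
a reduction map; `qData` is the associated context of fractions.

`reductionInputsAlong_of_atlas`: an atlas of fibres for this context (+ trivial residue
fields, `HasPrincipalDivisors`, and "every function is a constant times a fraction of integral
series with nonzero reduction") gives the Prelude's `ModularCurve.ReductionInputsAlong A π N`,
i.e. the hypothesis `h` of the frozen statement S18.
-/

set_option autoImplicit false

noncomputable section

namespace Fermat.Agent.S37.H940

open AlgebraicCurve ModularCurve HahnSeries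

variable {L : Type*} [Field L] (A : ValuationSubring L) {k : Type*} [Field k] (π : A →+* k)
variable (F : IntermediateField L (LaurentSeries L)) (Fk : IntermediateField k (LaurentSeries k))

theorem coeffMap_subtype_injective : Function.Injective (coeffMap A.subtype) := by
  intro x y h
  ext n
  have := congrArg (fun z : LaurentSeries L => z.coeff n) h
  simp only [coeffMap_coeff] at this
  exact this

/-- `f ∈ F` is an integral `q`-series whose reduction lies in `F_k`. -/
def IsIntQ (f : F) : Prop :=
  ∃ y : LaurentSeries A, coeffMap A.subtype y = (f : LaurentSeries L) ∧ coeffMap π y ∈ Fk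

/-- the ring of integral `q`-series of `F` with reduction in `F_k` -/
def intQ : Subring F where
  carrier := {f | IsIntQ A π F Fk f}
  mul_mem' := by
    rintro f g ⟨y, hy, hyk⟩ ⟨z, hz, hzk⟩
    refine ⟨y * z, ?_, ?_⟩
    · rw [map_mul, hy, hz]; rfl
    · rw [map_mul]; exact mul_mem hyk hzk
  one_mem' := ⟨1, by rw [map_one]; rfl, by rw [map_one]; exact one_mem _⟩
  add_mem' := by
    rintro f g ⟨y, hy, hyk⟩ ⟨z, hz, hzk⟩
    refine ⟨y + z, ?_, ?_⟩
    · rw [map_add, hy, hz]; rfl
    · rw [map_add]; exact add_mem hyk hzk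
  zero_mem' := ⟨0, by rw [map_zero]; rfl, by rw [map_zero]; exact zero_mem _⟩
  neg_mem' := by
    rintro f ⟨y, hy, hyk⟩
    refine ⟨-y, ?_, ?_⟩
    · rw [map_neg, hy]; rfl
    · rw [map_neg]; exact neg_mem hyk

/-- the integral series representing an element of `intQ` -/
def series (f : intQ A π F Fk) : LaurentSeries A := (f.2 : IsIntQ A π F Fk f).choose

theorem coeffMap_series (f : intQ A π F Fk) :
    coeffMap A.subtype (series A π F Fk f) = ((f : F) : LaurentSeries L) :=
  (f.2 : IsIntQ A π F Fk f).choose_spec.1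

theorem coeffMap_series_mem (f : intQ A π F Fk) : coeffMap π (series A π F Fk f) ∈ Fk :=
  (f.2 : IsIntQ A π F Fk f).choose_spec.2

theorem series_eq (f : intQ A π F Fk) {y : LaurentSeries A}
    (hy : coeffMap A.subtype y = ((f : F) : LaurentSeries L)) : series A π F Fk f = y :=
  coeffMap_subtype_injective A ((coeffMap_series A π F Fk f).trans hy.symm)

/-- the reduction of integral series -/
def redQ : intQ A π F Fk →+* Fk where
  toFun f := ⟨coeffMap π (series A π F Fk f), coeffMap_series_mem A π F Fk f⟩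
  map_one' := by
    apply Subtype.ext
    show coeffMap π (series A π F Fk 1) = 1
    rw [series_eq A π F Fk 1 (y := 1) (by rw [map_one]; rfl), map_one]
  map_mul' f g := by
    apply Subtype.ext
    show coeffMap π (series A π F Fk (f * g))
      = coeffMap π (series A π F Fk f) * coeffMap π (series A π F Fk g)
    rw [series_eq A π F Fk (f * g) (y := series A π F Fk f * series A π F Fk g)
      (by rw [map_mul, coeffMap_series, coeffMap_series]; rfl), map_mul]
  map_zero' := by
    apply Subtype.ext
    show coeffMap π (series A π F Fk 0) = 0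
    rw [series_eq A π F Fk 0 (y := 0) (by rw [map_zero]; rfl), map_zero]
  map_add' f g := by
    apply Subtype.ext
    show coeffMap π (series A π F Fk (f + g))
      = coeffMap π (series A π F Fk f) + coeffMap π (series A π F Fk g)
    rw [series_eq A π F Fk (f + g) (y := series A π F Fk f + series A π F Fk g)
      (by rw [map_add, coeffMap_series, coeffMap_series]; rfl), map_add]

theorem coe_redQ (f : intQ A π F Fk) {y : LaurentSeries A}
    (hy : coeffMap A.subtype y = ((f : F) : LaurentSeries L)) :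
    ((redQ A π F Fk f : Fk) : LaurentSeries k) = coeffMap π y := by
  show coeffMap π (series A π F Fk f) = coeffMap π y
  rw [series_eq A π F Fk f hy]

theorem const_isIntQ (a : A) : IsIntQ A π F Fk (algebraMap L F (a : L)) := by
  refine ⟨HahnSeries.single 0 a, ?_, ?_⟩
  · rw [coeffMap_single]
    show HahnSeries.single 0 (a : L) = algebraMap L (LaurentSeries L) (a : L)
    rw [algebraMap_laurentSeries_eq_single]
  · rw [coeffMap_single, ← algebraMap_laurentSeries_eq_single]
    exact Fk.algebraMap_mem _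

/-- the data of integral `q`-series -/
def qData (hsurj : Function.Surjective π) (hker : ∀ a : A, π a = 0 ↔ ¬ IsUnit a) :
    FracData L F k Fk where
  A := A
  π := π
  π_surj := hsurj
  π_eq_zero := hker
  O := intQ A π F Fk
  ρ₀ := redQ A π F Fk
  A_mem := const_isIntQ A π F Fk
  ρ₀_A a := by
    apply Subtype.ext
    rw [coe_redQ A π F Fk ⟨_, const_isIntQ A π F Fk a⟩ (y := HahnSeries.single 0 a)]
    · rw [coeffMap_single, ← algebraMap_laurentSeries_eq_single]
      rfl
    · rw [coeffMap_single]
      show HahnSeries.single 0 (a : L) = algebraMap L (LaurentSeries L) (a : L)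
      rw [algebraMap_laurentSeries_eq_single]

section Main

variable (hsurj : Function.Surjective π) (hker : ∀ a : A, π a = 0 ↔ ¬ IsUnit a)

/-- "Value group" hypothesis: every nonzero function is a constant times a fraction of
integral series with nonzero reductions. -/
def ValueGroupHyp : Prop :=
  ∀ f : F, f ≠ 0 → ∃ c : L, c ≠ 0 ∧ ∃ y₁ y₂ : intQ A π F Fk,
    redQ A π F Fk y₁ ≠ 0 ∧ redQ A π F Fk y₂ ≠ 0 ∧
      f * (y₂ : F) = algebraMap L F c * (y₁ : F)

/-- clause (ii) of `IsPlaceReductionAlong`, for general `F`, `F_k` -/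
def SpecialisesDivisors (r : Place L F → Place k Fk) : Prop :=
  ∀ (y : LaurentSeries A) (hy : coeffMap A.subtype y ∈ F) (hyk : coeffMap π y ∈ Fk),
    coeffMap π y ≠ 0 → ∀ D : Divisor L F,
      (∀ P, D P = P.ord (⟨coeffMap A.subtype y, hy⟩ : F)) →
        ∀ Q, Finsupp.mapDomain r D Q = Q.ord (⟨coeffMap π y, hyk⟩ : Fk)

/-- the integral principal divisors, for general `F`, `F_k` -/
def intPrincipal : Set (Divisor L F) :=
  {D | ∃ (y : LaurentSeries A) (hy : coeffMap A.subtype y ∈ F),
    coeffMap π y ∈ Fk ∧ coeffMap π y ≠ 0 ∧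
      ∀ P, D P = P.ord (⟨coeffMap A.subtype y, hy⟩ : F)}

/-- **Specialisation of divisors from an atlas.** -/
theorem exists_specialisesDivisors [Infinite k] {ι : Type*}
    (𝔄 : Atlas (qData A π F Fk hsurj hker).ctx ι)
    (hresK : ∀ (P : Place L F) (f : F), 0 ≤ P.ord f → ∃ c : L, InMax P (f - algebraMap L F c))
    (hresk : ∀ (Q : Place k Fk) (g : Fk), 0 ≤ Q.ord g →
      ∃ a : k, InMax Q (g - algebraMap k Fk a)) :
    ∃ r : Place L F → Place k Fk, (∀ P, (r P).deg = P.deg) ∧ SpecialisesDivisors A π F Fk r := by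
  obtain ⟨r, hdeg, hr⟩ := Atlas.exists_red 𝔄 hresK hresk
  refine ⟨r, hdeg, ?_⟩
  intro y hy hyk hne D hD Q
  set 𝔇 := qData A π F Fk hsurj hker with h𝔇
  have hint : IsIntQ A π F Fk ⟨coeffMap A.subtype y, hy⟩ := ⟨y, rfl, hyk⟩
  set a : 𝔇.O := ⟨⟨coeffMap A.subtype y, hy⟩, hint⟩ with ha
  set u : 𝔇.ctx.V := 𝔇.ofO a with hu
  have hρ : 𝔇.ctx.ρ u = ⟨coeffMap π y, hyk⟩ := by
    show 𝔇.ρ (𝔇.ofO a) = _
    rw [𝔇.ρ_ofO]
    apply Subtype.ext
    exact coe_redQ A π F Fk _ (y := y) rfl
  have hu0 : 𝔇.ctx.ρ u ≠ 0 := by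
    rw [hρ]
    intro h
    exact hne (congrArg Subtype.val h)
  have := hr u hu0 D hD Q
  rw [hρ] at this
  exact this

/-- **Principal divisors are generated by integral ones**, from the value group hypothesis. -/
theorem principal_le_closure_intPrincipal [HasPrincipalDivisors L F]
    (hVG : ValueGroupHyp A π F Fk) :
    Divisor.principal (K := L) (F := F) ≤ AddSubgroup.closure (intPrincipal A π F Fk) := by
  rintro D ⟨f, hf, hD⟩
  obtain ⟨c, hc, y₁, y₂, h₁, h₂, hfy⟩ := hVG f hf
  have hy₁ : (y₁ : F) ≠ 0 := fun h => h₁ (by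
    have : y₁ = 0 := Subtype.ext h
    rw [this, map_zero])
  have hy₂ : (y₂ : F) ≠ 0 := fun h => h₂ (by
    have : y₂ = 0 := Subtype.ext h
    rw [this, map_zero])
  obtain ⟨D₁, hD₁, -⟩ := HasPrincipalDivisors.exists_divisor (K := L) (y₁ : F) hy₁
  obtain ⟨D₂, hD₂, -⟩ := HasPrincipalDivisors.exists_divisor (K := L) (y₂ : F) hy₂
  have hmem : ∀ (y : intQ A π F Fk) (E : Divisor L F), redQ A π F Fk y ≠ 0 →
      (∀ P, E P = P.ord (y : F)) → E ∈ intPrincipal A π F Fk := by
    intro y E hy hE
    obtain ⟨s, hs, hsk⟩ := (y.2 : IsIntQ A π F Fk y)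
    refine ⟨s, by rw [hs]; exact (y : F).2, hsk, ?_, ?_⟩
    · intro h0
      apply hy
      apply Subtype.ext
      rw [coe_redQ A π F Fk y hs, h0]
      rfl
    · intro P
      rw [hE P]
      congr 1
      apply Subtype.ext
      exact hs.symm
  have hDeq : D = D₁ - D₂ := by
    ext P
    rw [Finsupp.sub_apply, hD P, hD₁ P, hD₂ P]
    have hc' : algebraMap L F c ≠ 0 := by
      rwa [Ne, map_eq_zero_iff _ (algebraMap L F).injective]
    have h := congrArg P.ord hfy
    rw [P.ord_mul hf hy₂, P.ord_mul hc' hy₁, Fermat.Agent.S24.FF.ord_algebraMap] at h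
    omega
  rw [hDeq]
  exact AddSubgroup.sub_mem _ (AddSubgroup.subset_closure (hmem y₁ D₁ h₁ hD₁))
    (AddSubgroup.subset_closure (hmem y₂ D₂ h₂ hD₂))

end Main

section Prelude

variable {L : Type*} [Field L] [Algebra ℚ L] (A : ValuationSubring L) {k : Type*} [Field k]
  (π : A →+* k) (N : ℕ)
variable (hsurj : Function.Surjective π) (hker : ∀ a : A, π a = 0 ↔ ¬ IsUnit a)

/-- **The Prelude's `ReductionInputsAlong` from an atlas of fibres** (the hypothesis `h` of the
frozen statement S18 when `π` is the residue map of `A ⊆ ℚ̄`). -/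
theorem reductionInputsAlong_of_atlas [Infinite k] {ι : Type*}
    [HasPrincipalDivisors L (laurentBaseChange L (modularFunctionFieldFull N))]
    (𝔄 : Atlas (qData A π (laurentBaseChange L (modularFunctionFieldFull N))
      (modularFunctionFieldFullC k N) hsurj hker).ctx ι)
    (hresK : ∀ (P : Place L (laurentBaseChange L (modularFunctionFieldFull N)))
      (f : laurentBaseChange L (modularFunctionFieldFull N)), 0 ≤ P.ord f →
        ∃ c : L, InMax P (f - algebraMap L _ c))
    (hresk : ∀ (Q : Place k (modularFunctionFieldFullC k N))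
      (g : modularFunctionFieldFullC k N), 0 ≤ Q.ord g →
        ∃ a : k, InMax Q (g - algebraMap k _ a))
    (hVG : ValueGroupHyp A π (laurentBaseChange L (modularFunctionFieldFull N))
      (modularFunctionFieldFullC k N)) :
    ReductionInputsAlong A π N := by
  obtain ⟨r, hdeg, hr⟩ := exists_specialisesDivisors A π _ _ hsurj hker 𝔄 hresK hresk
  exact ⟨r, ⟨hdeg, hr⟩, principal_le_closure_intPrincipal A π _ _ hVG⟩

end Prelude

end Fermat.Agent.S37.H940

end
end
-- ===== PACK-END S37/H940/QSeries.lean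

-- ===== PACK-BEGIN S37/H568/ValueGroup.lean
section



/-!
# S37 / node_rim, leaf VG (helper568): `ValueGroupHyp` for the modular function fields

Input `hVG` of helper940's `H940.reductionInputsAlong_of_atlas`, for
`F = modularFunctionFieldBar N`, `F_k = modularFunctionFieldFullC k N`, `π = residue A`:

    theorem valueGroupHyp_modular (hcore : CoreData N (IsLocalRing.ResidueField A)) :
        H940.ValueGroupHyp A (IsLocalRing.residue A) (modularFunctionFieldBar N)
          (modularFunctionFieldFullC (IsLocalRing.ResidueField A) N)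

(every `f ≠ 0` of `F` is a constant times a quotient of two integral `q`-series with nonzero
reduction in `F_k`).  Same mathematics as helper700's `pgi` (normal form + normalisation), from
the output `CoreData` of row S28.
-/

set_option autoImplicit false

noncomputable section

namespace Fermat.Agent.S37.H568

open ModularCurve HahnSeries Polynomial AlgebraicCurve
open Fermat.Agent.S28 (jField intDivisorExpansions CoreData)
open Fermat.Agent.S37.H700 Fermat.Agent.S37.H940

variable {N : ℕ} [NeZero N] {A : ValuationSubring (AlgebraicClosure ℚ)}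

/-- **`ValueGroupHyp` for `ℚ̄(X₀(N))`.** -/
theorem valueGroupHyp_modular (hcore : CoreData N (IsLocalRing.ResidueField A)) :
    ValueGroupHyp A (IsLocalRing.residue A) (modularFunctionFieldBar N)
      (modularFunctionFieldFullC (IsLocalRing.ResidueField A) N) := by
  classical
  obtain ⟨n, y, hy_mem, hy_span, hy_ind⟩ := hcore.exists_basis
  intro f hf0
  have hfU : (f : LaurentSeries Qb) ≠ 0 := fun h => hf0 (Subtype.ext h)
  obtain ⟨Q₀, P₀, hQ₀, h₀⟩ := exists_denominator Qb y
    (mem_spanL_of_mem_baseChange Qb y N hy_mem hy_span f.2)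
  have hQ₀e : evalJ Qb Q₀ ≠ 0 := fun h => hQ₀ ((evalJ_eq_zero_iff Qb).mp h)
  have hP₀ : ∃ i, P₀ i ≠ 0 := by
    by_contra hcon
    push Not at hcon
    have : evalJ Qb Q₀ * (f : LaurentSeries Qb) = 0 := by
      rw [h₀]
      exact Finset.sum_eq_zero fun i _ => by rw [hcon i, evalJ_zero, zero_mul]
    exact (mul_ne_zero hQ₀e hfU) this
  obtain ⟨cQ, hcQ, Q', hQ', u₀, hQ'red⟩ := normalize_family A (fun _ : Unit => Q₀) ⟨(), hQ₀⟩
  obtain ⟨cP, hcP, P', hP', i₀, hi₀⟩ := normalize_family A P₀ hP₀
  set b : LaurentSeries A := evalJ A (Q' ()) with hb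
  set a : LaurentSeries A := ∑ i, evalJ A (P' i) * coeffMap (Int.castRingHom A) (y i) with ha
  have hbL : coeffMap A.subtype b = HahnSeries.C cQ * evalJ Qb Q₀ := by
    rw [hb, coeffMap_evalJ, hQ' (), evalJ_mul, evalJ_C]
  have haL : coeffMap A.subtype a = HahnSeries.C cP * (evalJ Qb Q₀ * (f : LaurentSeries Qb)) := by
    rw [ha, map_sum, h₀, Finset.mul_sum]
    refine Finset.sum_congr rfl fun i _ => ?_
    rw [map_mul, coeffMap_evalJ, hP' i, evalJ_mul, evalJ_C, coeffMap_coeffMap, mul_assoc]
    congr 2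
  have hQmem : evalJ Qb Q₀ ∈ modularFunctionFieldBar N := jField_le_bar (evalJ_mem_jField Qb Q₀)
  have hbmem : coeffMap A.subtype b ∈ modularFunctionFieldBar N := by
    rw [hbL]; exact mul_mem (C_mem_bar cQ) hQmem
  have hamem : coeffMap A.subtype a ∈ modularFunctionFieldBar N := by
    rw [haL]; exact mul_mem (C_mem_bar cP) (mul_mem hQmem f.2)
  have hbred : coeffMap (IsLocalRing.residue A) b ≠ 0 := by
    rw [hb, coeffMap_evalJ]
    exact fun h => hQ'red ((evalJ_eq_zero_iff _).mp h)
  have hared : coeffMap (IsLocalRing.residue A) a ≠ 0 := by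
    intro h
    rw [ha, map_sum] at h
    have h' : ∑ i, evalJ (IsLocalRing.ResidueField A) ((P' i).map (IsLocalRing.residue A)) *
        coeffMap (Int.castRingHom (IsLocalRing.ResidueField A)) (y i) = 0 := by
      rw [← h]
      refine Finset.sum_congr rfl fun i _ => ?_
      rw [map_mul, coeffMap_evalJ, coeffMap_coeffMap]
      congr 1
    exact hi₀ (eq_zero_of_sum_evalJ_eq_zero _ hy_ind _ h' i₀)
  -- the two integral series as elements of `intQ`
  have haI : IsIntQ A (IsLocalRing.residue A) (modularFunctionFieldBar N)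
      (modularFunctionFieldFullC (IsLocalRing.ResidueField A) N) ⟨coeffMap A.subtype a, hamem⟩ :=
    ⟨a, rfl, reduction_mem hcore a hamem⟩
  have hbI : IsIntQ A (IsLocalRing.residue A) (modularFunctionFieldBar N)
      (modularFunctionFieldFullC (IsLocalRing.ResidueField A) N) ⟨coeffMap A.subtype b, hbmem⟩ :=
    ⟨b, rfl, reduction_mem hcore b hbmem⟩
  refine ⟨cQ / cP, div_ne_zero hcQ hcP, ⟨⟨coeffMap A.subtype a, hamem⟩, haI⟩,
    ⟨⟨coeffMap A.subtype b, hbmem⟩, hbI⟩, ?_, ?_, ?_⟩
  · intro h
    apply hared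
    have := congrArg (fun z : modularFunctionFieldFullC (IsLocalRing.ResidueField A) N =>
      (z : LaurentSeries (IsLocalRing.ResidueField A))) h
    rw [coe_redQ A (IsLocalRing.residue A) _ _ ⟨⟨coeffMap A.subtype a, hamem⟩, haI⟩ (y := a) rfl]
      at this
    exact this
  · intro h
    apply hbred
    have := congrArg (fun z : modularFunctionFieldFullC (IsLocalRing.ResidueField A) N =>
      (z : LaurentSeries (IsLocalRing.ResidueField A))) h
    rw [coe_redQ A (IsLocalRing.residue A) _ _ ⟨⟨coeffMap A.subtype b, hbmem⟩, hbI⟩ (y := b) rfl]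
      at this
    exact this
  · apply Subtype.ext
    show (f : LaurentSeries Qb) * coeffMap A.subtype b =
      algebraMap Qb (LaurentSeries Qb) (cQ / cP) * coeffMap A.subtype a
    rw [hbL, haL, algebraMap_laurentSeries_eq_single]
    have hC : (HahnSeries.single 0 (cQ / cP) : LaurentSeries Qb) * HahnSeries.C cP =
        HahnSeries.C cQ := by
      show (HahnSeries.C (cQ / cP) : LaurentSeries Qb) * HahnSeries.C cP = HahnSeries.C cQ
      rw [← map_mul, div_mul_cancel₀ _ hcP]
    calc (f : LaurentSeries Qb) * (HahnSeries.C cQ * evalJ Qb Q₀)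
        = HahnSeries.C cQ * (evalJ Qb Q₀ * (f : LaurentSeries Qb)) := by ring
      _ = (HahnSeries.single 0 (cQ / cP) * HahnSeries.C cP) *
            (evalJ Qb Q₀ * (f : LaurentSeries Qb)) := by rw [hC]
      _ = _ := by ring

end Fermat.Agent.S37.H568

end

end
-- ===== PACK-END S37/H568/ValueGroup.lean

-- ===== PACK-BEGIN S37/Rim/Spec.lean
section


/-!
# S37 / node_rim — frozen leaf statements (squad-lead helper39)

`node_rim` = `ModularCurve.ReductionInputsModL A M` (existence of the place reduction map).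
ONE assembly: helper940's landed core `H940.Atlas.exists_red` (fibres with conservation `FC`,
local parameters `LP`, separation `SEP`), applied to the fibres of the coordinate `x = j`:

* tube over `c ∈ k`   : places `P` of `F_M` with `j(P) ∈ A`, `j(P) ≡ c`;
* tube over `∞`       : all other places (`j` has a pole at `P` or `j(P) ∉ A`);
* points over `c ∈ k` : places `Q` of `F_{M,k}` with `j̄(Q) = c`;  over `∞`: the poles of `j̄`.

The leaves are `FCStatement`, `LPStatement`, `SEPStatement` (this file);
`Rim/Assembly.lean` proves `ReductionInputsModL A M` from them (complete proof).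

Notation: `ctx A M` is helper940's context of fractions of integral `q`-series,
`V = (ctx A M).V ⊆ F_M` (fractions `a/b`, `a, b` integral `q`-series in `F_M`, `b̄ ≠ 0`),
`ρ = (ctx A M).ρ : V → F_{M,k}` the coefficientwise reduction.
-/

set_option autoImplicit false
set_option synthInstance.maxHeartbeats 400000

noncomputable section

namespace Fermat.Agent.S37.Rim

open AlgebraicCurve ModularCurve HahnSeries IsLocalRing Fermat.Agent.S37.H940

/-- `ℚ̄` -/
abbrev Qb : Type := AlgebraicClosure ℚ

/-- the residue field `k = A/𝔪` -/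
abbrev kA (A : ValuationSubring Qb) : Type := ResidueField A

/-- `F_M = ℚ̄(X₀(M))` -/
abbrev FM (M : ℕ) : IntermediateField Qb (LaurentSeries Qb) :=
  laurentBaseChange Qb (modularFunctionFieldFull M)

/-- `F_{M,k} = k(X₀(M))` -/
abbrev FkM (A : ValuationSubring Qb) (M : ℕ) : IntermediateField (kA A) (LaurentSeries (kA A)) :=
  modularFunctionFieldFullC (kA A) M

theorem residue_eq_zero_iff_not_isUnit (A : ValuationSubring Qb) (a : A) :
    residue A a = 0 ↔ ¬ IsUnit a := by
  rw [residue_eq_zero_iff, mem_maximalIdeal, mem_nonunits_iff]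

/-- helper940's reduction context for `(F_M, F_{M,k})`. -/
def ctx (A : ValuationSubring Qb) (M : ℕ) : Ctx Qb (FM M) (kA A) (FkM A M) :=
  (qData A (residue A) (FM M) (FkM A M) residue_surjective
    (residue_eq_zero_iff_not_isUnit A)).ctx

/-- the coordinate `j ∈ F_M` (the same term as `Fermat.Agent.S24.jF M`) -/
def xF (M : ℕ) [NeZero M] : FM M :=
  ⟨coeffEmb Qb jq,
    coeffEmb_mem_laurentBaseChange Qb (modularFunctionField_le_full M (jq_mem M))⟩

/-- the coordinate `j̄ ∈ F_{M,k}` -/
def xk (A : ValuationSubring Qb) (M : ℕ) : FkM A M :=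
  ⟨jqModC (kA A), jqModC_mem_full (kA A) M⟩

/-- the tube over `c ∈ k ∪ {∞}` (`none = ∞`) -/
def tube (A : ValuationSubring Qb) (M : ℕ) [NeZero M] : Option (kA A) → Set (Place Qb (FM M))
  | some c => {P | ∃ a : A, residue A a = c ∧ InMax P (xF M - algebraMap Qb (FM M) (a : Qb))}
  | none => {P | ¬ ∃ a : A, InMax P (xF M - algebraMap Qb (FM M) (a : Qb))}

/-- `Q` is a point of the special fibre over `c ∈ k ∪ {∞}` -/
def IsPt (A : ValuationSubring Qb) (M : ℕ) : Option (kA A) → Place (kA A) (FkM A M) → Prop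
  | some c => fun Q => InMax Q (xk A M - algebraMap (kA A) (FkM A M) c)
  | none => fun Q => Q.ord (xk A M) < 0

/-- **LEAF FC (conservation of number in the fibres of `j`)**: for `u ∈ V` with `ρ u ≠ 0` and
`c ∈ k ∪ {∞}`: the number of zeros minus poles of `u` in the tube over `c` equals the number of
zeros minus poles of `ρ u` over `c`.  (Norms commute with reduction + Gauss lemma for the roots
of `N_{F/K(j)}(u)`; NO smoothness needed.) -/
def FCStatement (A : ValuationSubring Qb) (M : ℕ) [NeZero M] : Prop :=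
  ∀ (c : Option (kA A)) (𝔊 : Finset (Place (kA A) (FkM A M))), (∀ Q, Q ∈ 𝔊 ↔ IsPt A M c Q) →
    ∀ u : (ctx A M).V, (ctx A M).ρ u ≠ 0 →
      ∑ᶠ P ∈ tube A M c, P.ord (u : FM M) = ∑ Q ∈ 𝔊, Q.ord ((ctx A M).ρ u)

/-- **LEAF LP (local parameters lift)**: every point `Q` over `c` has a local parameter which is
the reduction of an element of `V` regular on the tube over `c` and is a unit at the other points
over `c`.  (Normality of the special fibre + CRT.) -/
def LPStatement (A : ValuationSubring Qb) (M : ℕ) [NeZero M] : Prop :=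
  ∀ (c : Option (kA A)) (Q : Place (kA A) (FkM A M)), IsPt A M c Q →
    ∃ t : (ctx A M).V, (∀ P ∈ tube A M c, 0 ≤ P.ord (t : FM M)) ∧ Q.ord ((ctx A M).ρ t) = 1 ∧
      ∀ Q', IsPt A M c Q' → Q' ≠ Q → Q'.ord ((ctx A M).ρ t) = 0

/-- **LEAF SEP (separation)**: some element of `V` regular on the tube over `c` has a reduction
taking pairwise distinct values at the points over `c`.  (Normality of the special fibre + CRT.) -/
def SEPStatement (A : ValuationSubring Qb) (M : ℕ) [NeZero M] : Prop :=
  ∀ c : Option (kA A), ∃ s : (ctx A M).V, (∀ P ∈ tube A M c, 0 ≤ P.ord (s : FM M)) ∧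
    ∀ Q Q', IsPt A M c Q → IsPt A M c Q' → ∀ a : kA A,
      InMax Q ((ctx A M).ρ s - algebraMap (kA A) (FkM A M) a) →
      InMax Q' ((ctx A M).ρ s - algebraMap (kA A) (FkM A M) a) → Q = Q'

end Fermat.Agent.S37.Rim

end
end
-- ===== PACK-END S37/Rim/Spec.lean

-- ===== PACK-BEGIN Lib/RR/H439/Adeles.lean
section


/-!
# RR library, layer L4 (repartitions and `H¹(D)`), hypothesis-explicit version (helper439)

Everything is proved on top of layer L1 (`Fermat.Agent.Lib.RR.Basic`, on main).  The two inputs
from layer L3 (Riemann's theorem) enter as explicit hypotheses: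

* `hR : ∀ D, deg D + 1 - g ≤ ℓ(D)`         (Riemann's inequality for the constant `g`),
* `h₀ : ℓ(D₀) = deg D₀ + 1 - g`            (the bound is attained at some `D₀`).

Main results (namespace `Fermat.Agent.Lib.RR.H439`):

* `mem_repartitions_iff`   : `α ∈ repartitions K F ↔ {v | ord_v (α v) < 0}.Finite`;
* `H1_step`                : `H¹(D + P)` finite ⇒ `H¹(D)` finite and
                             `i(D) + ℓ(D + P) = i(D + P) + ℓ(D) + 1`;
* `sup_eq_top_of_attains`  : `ℓ(B) = deg B + 1 - g` ⇒ `𝔸 = 𝔸(B) + F`;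
* `finite_H1_and_formula`  : `H¹(D)` is finite-dimensional and
                             `ℓ(D) - dim H¹(D) = deg D + 1 - g` for every divisor `D`.
-/

set_option autoImplicit false

noncomputable section

open AlgebraicCurve

namespace Fermat.Agent.Lib.RR.H439

open Fermat.Agent.Lib.RR

variable {K F : Type*} [Field K] [Field F] [Algebra K F]

/-! ### L4.0: repartitions = families with finitely many poles -/

/-- A constant has finitely many poles. -/
theorem finite_poles_const [HasPrincipalDivisors K F] (f : F) :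
    {v : Place K F | v.ord f < 0}.Finite := by
  rcases eq_or_ne f 0 with rfl | hf
  · simp
  obtain ⟨D, hD, -⟩ := HasPrincipalDivisors.exists_divisor (K := K) f hf
  refine D.support.finite_toSet.subset fun v hv => ?_
  have hv' : v.ord f < 0 := hv
  rw [Finset.mem_coe, Finsupp.mem_support_iff, hD v]
  omega

theorem ord_add_nonneg (v : Place K F) {f g : F} (hf : 0 ≤ v.ord f) (hg : 0 ≤ v.ord g) :
    0 ≤ v.ord (f + g) :=
  ord_nonneg_of_mem v (add_mem (mem_of_ord_nonneg v hf) (mem_of_ord_nonneg v hg))

theorem ord_mul_nonneg (v : Place K F) {f g : F} (hf : 0 ≤ v.ord f) (hg : 0 ≤ v.ord g) :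
    0 ≤ v.ord (f * g) :=
  ord_nonneg_of_mem v (mul_mem (mem_of_ord_nonneg v hf) (mem_of_ord_nonneg v hg))

/-- **L4.0**: the repartitions are exactly the families with finitely many poles. -/
theorem mem_repartitions_iff [HasPrincipalDivisors K F] {α : Place K F → F} :
    α ∈ repartitions K F ↔ {v : Place K F | v.ord (α v) < 0}.Finite := by
  refine ⟨fun h => ?_, mem_repartitions_of_finite_ord⟩
  unfold repartitions at h
  induction h using Algebra.adjoin_induction with
  | mem x hx =>
    have hx' : {v : Place K F | ¬v.adicValuation (x v) ≤ 1}.Finite := hx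
    rwa [show {v : Place K F | ¬v.adicValuation (x v) ≤ 1}
        = {v : Place K F | v.ord (x v) < 0} from
      Set.ext fun v => v.not_adicValuation_le_one_iff] at hx'
  | algebraMap f => exact finite_poles_const f
  | add x y _ _ hx hy =>
    refine (hx.union hy).subset fun v hv => ?_
    have hv' : v.ord (x v + y v) < 0 := hv
    by_contra hcon
    rw [Set.mem_union, not_or] at hcon
    have h1 : 0 ≤ v.ord (x v) := not_lt.mp hcon.1
    have h2 : 0 ≤ v.ord (y v) := not_lt.mp hcon.2
    have := ord_add_nonneg v h1 h2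
    omega
  | mul x y _ _ hx hy =>
    refine (hx.union hy).subset fun v hv => ?_
    have hv' : v.ord (x v * y v) < 0 := hv
    by_contra hcon
    rw [Set.mem_union, not_or] at hcon
    have h1 : 0 ≤ v.ord (x v) := not_lt.mp hcon.1
    have h2 : 0 ≤ v.ord (y v) := not_lt.mp hcon.2
    have := ord_mul_nonneg v h1 h2
    omega

/-! ### The repartition supported at one place -/

open scoped Classical in
/-- The repartition with value `t` at `v` and `0` elsewhere. -/
def single (v : Place K F) (t : F) : ↥(repartitions K F) :=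
  ⟨Pi.single v t, mem_repartitions_of_finite_ord <|
    (Set.finite_singleton v).subset fun w hw => by
      have hw' : w.ord ((Pi.single v t : Place K F → F) w) < 0 := hw
      by_contra hne
      rw [Set.mem_singleton_iff] at hne
      rw [Pi.single_eq_of_ne hne, Place.ord_zero] at hw'
      exact lt_irrefl _ hw'⟩

@[simp] theorem single_apply_self (v : Place K F) (t : F) :
    (single v t : Place K F → F) v = t := by
  classical
  simp [single]

theorem single_apply_of_ne {v w : Place K F} (h : w ≠ v) (t : F) :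
    (single v t : Place K F → F) w = 0 := by
  classical
  simp [single, Pi.single_eq_of_ne h]

theorem coe_smul_apply (c : K) (α : ↥(repartitions K F)) (w : Place K F) :
    ((c • α : ↥(repartitions K F)) : Place K F → F) w
      = algebraMap K F c * (α : Place K F → F) w := by
  show (c • (α : Place K F → F)) w = _
  rw [Pi.smul_apply, Algebra.smul_def]

theorem coe_sub_apply (α β : ↥(repartitions K F)) (w : Place K F) :
    ((α - β : ↥(repartitions K F)) : Place K F → F) w
      = (α : Place K F → F) w - (β : Place K F → F) w := rfl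

theorem coe_add_apply (α β : ↥(repartitions K F)) (w : Place K F) :
    ((α + β : ↥(repartitions K F)) : Place K F → F) w
      = (α : Place K F → F) w + (β : Place K F → F) w := rfl

theorem single_mem_repartitionsOf (v : Place K F) (D : Divisor K F) {t : F}
    (ht : v.ord t = -(D v + 1)) : single v t ∈ repartitionsOf (D + prim v) := by
  rw [mem_repartitionsOf_iff]
  intro w
  by_cases hw : w = v
  · subst hw
    right
    rw [single_apply_self, ht]
    simp only [Finsupp.coe_add, Pi.add_apply, prim_apply_self]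
    omega
  · left
    exact single_apply_of_ne hw t

/-! ### Lemma A: `𝔸(D + P) = 𝔸(D) + K α₀` -/

theorem repartitionsOf_add_prim_le (v : Place K F) (hv : v.deg = 1) (D : Divisor K F) {t : F}
    (ht0 : t ≠ 0) (ht : v.ord t = -(D v + 1)) :
    repartitionsOf (D + prim v) ≤ repartitionsOf D ⊔ Submodule.span K {single v t} := by
  intro β hβ
  rw [mem_repartitionsOf_iff] at hβ
  obtain ⟨b, hb⟩ : ∃ b : F, b = (β : Place K F → F) v := ⟨_, rfl⟩
  have hg : 0 ≤ v.ord (b * t⁻¹) := by
    rcases eq_or_ne b 0 with h0 | h0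
    · rw [h0, zero_mul, Place.ord_zero]
    · have h1 := (hβ v).resolve_left (hb ▸ h0)
      simp only [Finsupp.coe_add, Pi.add_apply, prim_apply_self] at h1
      rw [← hb] at h1
      rw [v.ord_mul h0 (inv_ne_zero ht0), v.ord_inv, ht]
      omega
  obtain ⟨c, hc⟩ := exists_const_sub v hv hg
  have hdecomp : β = (β - c • single v t) + c • single v t := by abel
  rw [hdecomp]
  refine Submodule.add_mem _ (Submodule.mem_sup_left ?_)
    (Submodule.mem_sup_right (Submodule.smul_mem _ _ (Submodule.mem_span_singleton_self _)))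
  rw [mem_repartitionsOf_iff]
  intro w
  rw [coe_sub_apply, coe_smul_apply]
  by_cases hw : w = v
  · subst hw
    rw [single_apply_self]
    have hfac : b - algebraMap K F c * t = (b * t⁻¹ - algebraMap K F c) * t := by
      field_simp
    rw [← hb, hfac]
    rcases hc with hc | hc
    · left; rw [hc, zero_mul]
    · rcases eq_or_ne (b * t⁻¹ - algebraMap K F c) 0 with h0 | h0
      · left; rw [h0, zero_mul]
      right
      rw [w.ord_mul h0 ht0, ht]
      omega
  · rw [single_apply_of_ne hw, mul_zero, sub_zero]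
    have := hβ w
    simpa [prim_apply_of_ne hw] using this

/-! ### Lemma B: `α₀ ∈ 𝔸(D) + F` iff `L(D + P) ≠ L(D)` -/

theorem ord_eq_of_mem_of_not_mem (v : Place K F) (D : Divisor K F) {f₀ : F}
    (hf₀ : f₀ ∈ riemannRochSpace (D + prim v)) (hf₀' : f₀ ∉ riemannRochSpace D) :
    f₀ ≠ 0 ∧ v.ord f₀ = -(D v + 1) := by
  have hf₀0 : f₀ ≠ 0 := fun h => hf₀' (h ▸ Submodule.zero_mem _)
  refine ⟨hf₀0, ?_⟩
  have h1 := (mem_L_iff.mp hf₀ v).resolve_left hf₀0
  simp only [Finsupp.coe_add, Pi.add_apply, prim_apply_self] at h1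
  by_contra hne
  apply hf₀'
  rw [mem_L_iff]
  intro w
  right
  by_cases hw : w = v
  · subst hw; omega
  · have h2 := (mem_L_iff.mp hf₀ w).resolve_left hf₀0
    simpa [prim_apply_of_ne hw] using h2

/-- The constant repartition attached to `f`. -/
def const (f : F) : ↥(repartitions K F) := algebraMap F ↥(repartitions K F) f

@[simp] theorem const_apply (f : F) (w : Place K F) :
    (const (K := K) f : Place K F → F) w = f := rfl

theorem const_mem_principal (f : F) : const (K := K) f ∈ principalRepartitions K F :=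
  mem_principalRepartitions_iff.mpr ⟨f, rfl⟩

theorem single_mem_sup_of_not_le (v : Place K F) (hv : v.deg = 1) (D : Divisor K F) {t : F}
    (ht0 : t ≠ 0) (ht : v.ord t = -(D v + 1))
    (h : ¬ riemannRochSpace (D + prim v) ≤ riemannRochSpace D) :
    single v t ∈ repartitionsOf D ⊔ principalRepartitions K F := by
  obtain ⟨f₀, hf₀, hf₀'⟩ := SetLike.not_le_iff_exists.mp h
  obtain ⟨hf₀0, hord⟩ := ord_eq_of_mem_of_not_mem v D hf₀ hf₀'
  have hg0 : v.ord (f₀ * t⁻¹) = 0 := by
    rw [v.ord_mul hf₀0 (inv_ne_zero ht0), v.ord_inv, ht, hord]; omega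
  obtain ⟨c, hc⟩ := exists_const_sub v hv (le_of_eq hg0.symm)
  have hc0 : c ≠ 0 := by
    rintro rfl
    rw [map_zero, sub_zero] at hc
    rcases hc with hc | hc
    · exact (mul_ne_zero hf₀0 (inv_ne_zero ht0)) hc
    · omega
  have hcF : algebraMap K F c ≠ 0 := by simpa using hc0
  -- `α₀ = c⁻¹ f₀ - (c⁻¹ f₀ - α₀)`
  have hdecomp : single v t
      = (single v t - c⁻¹ • const (K := K) f₀) + c⁻¹ • const (K := K) f₀ := by abel
  rw [hdecomp]
  refine Submodule.add_mem _ (Submodule.mem_sup_left ?_)
    (Submodule.mem_sup_right (Submodule.smul_mem _ _ (const_mem_principal f₀)))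
  rw [mem_repartitionsOf_iff]
  intro w
  rw [coe_sub_apply, coe_smul_apply, const_apply]
  by_cases hw : w = v
  · subst hw
    rw [single_apply_self]
    have hfac : t - algebraMap K F c⁻¹ * f₀
        = -(algebraMap K F c⁻¹ * ((f₀ * t⁻¹ - algebraMap K F c) * t)) := by
      rw [map_inv₀]
      field_simp
      ring
    rw [hfac]
    rcases hc with hc | hc
    · left; rw [hc, zero_mul, mul_zero, neg_zero]
    · right
      have hne : f₀ * t⁻¹ - algebraMap K F c ≠ 0 := by
        intro h0; rw [h0, Place.ord_zero] at hc; exact lt_irrefl _ hc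
      have hcinv : algebraMap K F c⁻¹ ≠ 0 := by simpa using hc0
      rw [ord_neg, w.ord_mul hcinv (mul_ne_zero hne ht0), ord_algebraMap, w.ord_mul hne ht0, ht]
      omega
  · rw [single_apply_of_ne hw, zero_sub]
    have h2 := (mem_L_iff.mp hf₀ w).resolve_left hf₀0
    right
    have hcinv : algebraMap K F c⁻¹ ≠ 0 := by simpa using hc0
    rw [ord_neg, w.ord_mul hcinv hf₀0, ord_algebraMap]
    simpa [prim_apply_of_ne hw] using h2

theorem not_le_of_single_mem_sup (v : Place K F) (D : Divisor K F) {t : F}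
    (ht0 : t ≠ 0) (ht : v.ord t = -(D v + 1))
    (h : single v t ∈ repartitionsOf D ⊔ principalRepartitions K F) :
    ¬ riemannRochSpace (D + prim v) ≤ riemannRochSpace D := by
  obtain ⟨β, hβ, γ, hγ, hsum⟩ := Submodule.mem_sup.mp h
  obtain ⟨f, hf⟩ := mem_principalRepartitions_iff.mp hγ
  rw [mem_repartitionsOf_iff] at hβ
  -- values
  have hval : ∀ w, (single v t : Place K F → F) w = (β : Place K F → F) w + f := by
    intro w
    have := congrArg (fun x : ↥(repartitions K F) => (x : Place K F → F) w) hsum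
    simp only [coe_add_apply, hf] at this
    exact this.symm
  have hv := hval v
  rw [single_apply_self] at hv
  -- `f = t - β v` has order exactly `-(D v + 1)` at `v`
  have hfv : f = t + -(β : Place K F → F) v := by rw [hv]; ring
  have hford : f ≠ 0 ∧ v.ord f = -(D v + 1) := by
    rcases eq_or_ne ((β : Place K F → F) v) 0 with h0 | h0
    · rw [hfv, h0, neg_zero, add_zero]; exact ⟨ht0, ht⟩
    · have h1 := (hβ v).resolve_left h0
      have hlt : v.ord t < v.ord (-(β : Place K F → F) v) := by rw [ord_neg, ht]; omega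
      have := ord_add_eq_of_lt v ht0 (neg_ne_zero.mpr h0) hlt
      rw [← hfv] at this
      refine ⟨?_, this.trans ht⟩
      intro hf0
      rw [hf0, Place.ord_zero, ht] at this
      rw [hf0] at hfv
      have h2 : (β : Place K F → F) v = t := by
        have := congrArg (fun x => x + (β : Place K F → F) v) hfv
        simpa using this
      rw [h2, ht] at h1
      omega
  intro hle
  have hfL : f ∈ riemannRochSpace (D + prim v) := by
    rw [mem_L_iff]
    intro w
    right
    by_cases hw : w = v
    · subst hw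
      simp only [Finsupp.coe_add, Pi.add_apply, prim_apply_self]
      have := hford.2
      omega
    · have hw' := hval w
      rw [single_apply_of_ne hw] at hw'
      have hβw : (β : Place K F → F) w = -f := by
        have := congrArg (fun x => x - f) hw'
        simpa using this.symm
      have hβ0 : (β : Place K F → F) w ≠ 0 := by rw [hβw]; exact neg_ne_zero.mpr hford.1
      have h1 := (hβ w).resolve_left hβ0
      rw [hβw, ord_neg] at h1
      simpa [prim_apply_of_ne hw] using h1
  have := (mem_L_iff.mp (hle hfL) v).resolve_left hford.1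
  rw [hford.2] at this
  omega

theorem single_mem_sup_iff (v : Place K F) (hv : v.deg = 1) (D : Divisor K F) {t : F}
    (ht0 : t ≠ 0) (ht : v.ord t = -(D v + 1)) :
    single v t ∈ repartitionsOf D ⊔ principalRepartitions K F ↔
      ¬ riemannRochSpace (D + prim v) ≤ riemannRochSpace D :=
  ⟨not_le_of_single_mem_sup v D ht0 ht, single_mem_sup_of_not_le v hv D ht0 ht⟩

/-- A function with prescribed order at `v`. -/
theorem exists_ord_eq (v : Place K F) (n : ℤ) : ∃ t : F, t ≠ 0 ∧ v.ord t = n := by
  obtain ⟨π, hπ⟩ := exists_ord_eq_one v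
  have hπ0 : π ≠ 0 := ne_zero_of_ord_ne_zero v (by rw [hπ]; exact one_ne_zero)
  exact ⟨π ^ n, zpow_ne_zero n hπ0, by rw [v.ord_zpow, hπ, mul_one]⟩

end Fermat.Agent.Lib.RR.H439

end
end
-- ===== PACK-END Lib/RR/H439/Adeles.lean

-- ===== PACK-BEGIN Lib/RR/H439/H1.lean
section


/-!
# RR library, layer L4: `H¹(D)` is finite-dimensional, `ℓ(D) - i(D) = deg D + 1 - g` (helper439)

Hypothesis-explicit on Riemann's theorem (layer L3): see `finite_H1_and_formula`.
-/

set_option autoImplicit false

noncomputable section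

open AlgebraicCurve

namespace Fermat.Agent.Lib.RR.H439

open Fermat.Agent.Lib.RR

variable {K F : Type*} [Field K] [Field F] [Algebra K F]

/-! ### Linear algebra: one step in a chain of quotients -/

/-- If `φ : V → W` is onto with kernel spanned by one vector `x` and `W` is finite-dimensional,
then so is `V`, and `dim V = dim W + (0 or 1)`. -/
theorem finrank_of_ker_eq_span {V W : Type*} [AddCommGroup V] [Module K V] [AddCommGroup W]
    [Module K W] (φ : V →ₗ[K] W) (hφ : Function.Surjective φ) (x : V)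
    (hker : LinearMap.ker φ = Submodule.span K {x}) [Module.Finite K W] :
    Module.Finite K V ∧
      (x = 0 → Module.finrank K V = Module.finrank K W) ∧
      (x ≠ 0 → Module.finrank K V = Module.finrank K W + 1) := by
  have hexact : Function.Exact (Submodule.span K {x}).subtype φ := by
    rw [LinearMap.exact_iff, hker, Submodule.range_subtype]
  have hfin : Module.Finite K V := Module.Finite.of_exact hexact hφ
  refine ⟨hfin, ?_, ?_⟩
  · intro hx
    have h1 := LinearMap.finrank_range_add_finrank_ker φ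
    rw [LinearMap.range_eq_top.mpr hφ, finrank_top, hker, hx, Submodule.span_zero_singleton,
      finrank_bot, add_zero] at h1
    exact h1.symm
  · intro hx
    have h1 := LinearMap.finrank_range_add_finrank_ker φ
    rw [LinearMap.range_eq_top.mpr hφ, finrank_top, hker, finrank_span_singleton hx] at h1
    exact h1.symm

/-- One step for quotients by submodules: `S' = S ⊔ K a`. -/
theorem finrank_quotient_step {M : Type*} [AddCommGroup M] [Module K M] (S S' : Submodule K M)
    (a : M) (hle : S ≤ S') (ha : a ∈ S') (hle' : S' ≤ S ⊔ Submodule.span K {a})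
    [Module.Finite K (M ⧸ S')] :
    Module.Finite K (M ⧸ S) ∧
      (a ∈ S → Module.finrank K (M ⧸ S) = Module.finrank K (M ⧸ S')) ∧
      (a ∉ S → Module.finrank K (M ⧸ S) = Module.finrank K (M ⧸ S') + 1) := by
  have hS' : S' = S ⊔ Submodule.span K {a} :=
    le_antisymm hle' (sup_le hle ((Submodule.span_singleton_le_iff_mem a S').mpr ha))
  have hcomap : S ≤ Submodule.comap (LinearMap.id : M →ₗ[K] M) S' := by
    rw [Submodule.comap_id]; exact hle
  set φ : (M ⧸ S) →ₗ[K] (M ⧸ S') := S.mapQ S' LinearMap.id hcomap with hφdef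
  have hφ : Function.Surjective φ := by
    intro y
    obtain ⟨m, rfl⟩ := Submodule.Quotient.mk_surjective S' y
    exact ⟨Submodule.Quotient.mk m, by simp [hφdef]⟩
  have hker : LinearMap.ker φ = Submodule.span K {S.mkQ a} := by
    rw [hφdef, Submodule.ker_mapQ, Submodule.comap_id, hS', Submodule.map_sup,
      Submodule.map_span, Set.image_singleton]
    rw [Submodule.mkQ_map_self, bot_sup_eq]
  obtain ⟨h1, h2, h3⟩ := finrank_of_ker_eq_span φ hφ (S.mkQ a) hker
  have hiff : (S.mkQ a = 0) ↔ a ∈ S := by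
    rw [Submodule.mkQ_apply, Submodule.Quotient.mk_eq_zero]
  exact ⟨h1, fun h => h2 (hiff.mpr h), fun h => h3 (fun h0 => h (hiff.mp h0))⟩

/-! ### One step for `H¹` -/

section FF1

variable [hFF : FF1 K F]

/-- **One step**: if `H¹(D + P)` is finite-dimensional then so is `H¹(D)` and
`i(D) + ℓ(D + P) = i(D + P) + ℓ(D) + 1`. -/
theorem H1_step (D : Divisor K F) (v : Place K F) [Module.Finite K (H1 (D + prim v))] :
    Module.Finite K (H1 D) ∧
      Module.finrank K (H1 D) + ell (D + prim v)
        = Module.finrank K (H1 (D + prim v)) + ell D + 1 := by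
  classical
  obtain ⟨t, ht0, ht⟩ := exists_ord_eq v (-(D v + 1))
  have hv := deg_eq_one v
  have hDle : D ≤ D + prim v := by
    rw [Finsupp.le_def]
    intro w
    by_cases hw : w = v
    · subst hw; simp
    · simp [prim_apply_of_ne hw]
  have hle : repartitionsOf D ⊔ principalRepartitions K F
      ≤ repartitionsOf (D + prim v) ⊔ principalRepartitions K F :=
    sup_le_sup_right (repartitionsOf_mono hDle) _
  have ha : single v t ∈ repartitionsOf (D + prim v) ⊔ principalRepartitions K F :=
    Submodule.mem_sup_left (single_mem_repartitionsOf v D ht)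
  have hle' : repartitionsOf (D + prim v) ⊔ principalRepartitions K F
      ≤ (repartitionsOf D ⊔ principalRepartitions K F) ⊔ Submodule.span K {single v t} := by
    refine sup_le ?_ (le_sup_of_le_left le_sup_right)
    refine (repartitionsOf_add_prim_le v hv D ht0 ht).trans ?_
    exact sup_le (le_sup_of_le_left le_sup_left) le_sup_right
  obtain ⟨hfin, hrank0, hrank1⟩ := finrank_quotient_step
    (repartitionsOf D ⊔ principalRepartitions K F)
    (repartitionsOf (D + prim v) ⊔ principalRepartitions K F) (single v t) hle ha hle'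
  refine ⟨hfin, ?_⟩
  have hLle : riemannRochSpace D ≤ riemannRochSpace (D + prim v) := L_mono hDle
  by_cases hL : riemannRochSpace (D + prim v) ≤ riemannRochSpace D
  · have hnot : single v t ∉ repartitionsOf D ⊔ principalRepartitions K F := fun h =>
      (not_le_of_single_mem_sup v D ht0 ht h) hL
    have hell : ell (D + prim v) = ell D := by
      unfold ell; rw [le_antisymm hL hLle]
    have : Module.finrank K (H1 D) = Module.finrank K (H1 (D + prim v)) + 1 := hrank1 hnot
    omega
  · have hmem := single_mem_sup_of_not_le v hv D ht0 ht hL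
    have hlt : ell D < ell (D + prim v) := by
      unfold ell
      exact Submodule.finrank_lt_finrank_of_lt (lt_of_le_not_ge hLle hL)
    have hle2 := ell_add_prim_le D v
    have : Module.finrank K (H1 D) = Module.finrank K (H1 (D + prim v)) := hrank0 hmem
    omega

/-! ### Vanishing of `H¹` above a divisor attaining Riemann's bound -/

/-- Every repartition lies in `𝔸(B₁)` for some `B₁ ≥ B`. -/
theorem exists_ge_mem_repartitionsOf (B : Divisor K F) (α : ↥(repartitions K F)) :
    ∃ B₁ : Divisor K F, B ≤ B₁ ∧ α ∈ repartitionsOf B₁ := by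
  classical
  have hfin : {v : Place K F | v.ord ((α : Place K F → F) v) < 0}.Finite :=
    _root_.Fermat.Agent.Lib.RR.H439.mem_repartitions_iff.mp α.2
  set T : Finset (Place K F) := hfin.toFinset ∪ B.support with hT
  have hsupp : ∀ w : Place K F,
      max (B w) (-w.ord ((α : Place K F → F) w)) ≠ 0 → w ∈ T := by
    intro w hw
    by_contra hwT
    rw [hT, Finset.mem_union, not_or, Set.Finite.mem_toFinset, Finsupp.mem_support_iff,
      not_not] at hwT
    have h1 : 0 ≤ w.ord ((α : Place K F → F) w) := not_lt.mp hwT.1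
    apply hw
    rw [hwT.2]
    exact max_eq_left (by omega)
  refine ⟨Finsupp.onFinset T (fun w => max (B w) (-w.ord ((α : Place K F → F) w))) hsupp,
    ?_, ?_⟩
  · rw [Finsupp.le_def]
    intro w
    rw [Finsupp.onFinset_apply]
    exact le_max_left _ _
  · rw [mem_repartitionsOf_iff]
    intro w
    right
    rw [Finsupp.onFinset_apply]
    have := le_max_right (B w) (-w.ord ((α : Place K F → F) w))
    omega

/-- If `B` attains Riemann's bound, then so does every `D ≥ B`. -/
theorem ell_eq_of_attains (g : ℤ)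
    (hR : ∀ D : Divisor K F, Divisor.degree D + 1 - g ≤ ell D)
    {B D : Divisor K F} (hB : (ell B : ℤ) = Divisor.degree B + 1 - g) (h : B ≤ D) :
    (ell D : ℤ) = Divisor.degree D + 1 - g := by
  have h1 := degree_sub_ell_mono h
  have h2 := hR D
  omega

/-- **Vanishing**: if `B` attains Riemann's bound then `𝔸 = 𝔸(B) + F`. -/
theorem sup_eq_top_of_attains (g : ℤ)
    (hR : ∀ D : Divisor K F, Divisor.degree D + 1 - g ≤ ell D)
    (B : Divisor K F) (hB : (ell B : ℤ) = Divisor.degree B + 1 - g) :
    repartitionsOf B ⊔ principalRepartitions K F = ⊤ := by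
  have key : ∀ D', B ≤ D' →
      repartitionsOf D' ≤ repartitionsOf B ⊔ principalRepartitions K F := by
    refine induction_ge B le_sup_left ?_
    intro D' v hle ih
    obtain ⟨t, ht0, ht⟩ := exists_ord_eq v (-(D' v + 1))
    have hv := deg_eq_one v
    have hD'le : D' ≤ D' + prim v := by
      rw [Finsupp.le_def]
      intro w
      by_cases hw : w = v
      · subst hw; simp
      · simp [prim_apply_of_ne hw]
    have hl1 := ell_eq_of_attains g hR hB hle
    have hl2 := ell_eq_of_attains g hR hB (hle.trans hD'le)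
    rw [map_add, degree_prim'] at hl2
    have hnot : ¬ riemannRochSpace (D' + prim v) ≤ riemannRochSpace D' := by
      intro hL
      have : ell (D' + prim v) ≤ ell D' := Submodule.finrank_mono hL
      omega
    have hmem := single_mem_sup_of_not_le v hv D' ht0 ht hnot
    refine (repartitionsOf_add_prim_le v hv D' ht0 ht).trans (sup_le ih ?_)
    rw [Submodule.span_singleton_le_iff_mem]
    exact (sup_le ih le_sup_right : repartitionsOf D' ⊔ principalRepartitions K F ≤ _) hmem
  rw [eq_top_iff]
  intro α _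
  obtain ⟨B₁, hB₁, hα⟩ := exists_ge_mem_repartitionsOf B α
  exact key B₁ hB₁ hα

/-! ### The main theorem of layer L4 -/

/-- Step down: from `D + P` to `D`. -/
theorem step_down (g : ℤ) (X Y : Divisor K F) (v : Place K F) (hY : Y = X + prim v)
    (h : Module.Finite K (H1 Y) ∧
      (ell Y : ℤ) - Module.finrank K (H1 Y) = Divisor.degree Y + 1 - g) :
    Module.Finite K (H1 X) ∧
      (ell X : ℤ) - Module.finrank K (H1 X) = Divisor.degree X + 1 - g := by
  subst hY
  obtain ⟨hfin, hform⟩ := h
  obtain ⟨hfin', hstep⟩ := H1_step X v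
  refine ⟨hfin', ?_⟩
  rw [map_add, degree_prim'] at hform
  omega

/-- **L4.1 + L4.2** (hypothesis-explicit): if `g` is a constant for which Riemann's inequality
holds and is attained, then for every divisor `D` the space `H¹(D)` is finite-dimensional and
`ℓ(D) - dim H¹(D) = deg D + 1 - g`. -/
theorem finite_H1_and_formula (g : ℤ)
    (hR : ∀ D : Divisor K F, Divisor.degree D + 1 - g ≤ ell D)
    (D₀ : Divisor K F) (h₀ : (ell D₀ : ℤ) = Divisor.degree D₀ + 1 - g) (D : Divisor K F) :
    Module.Finite K (H1 D) ∧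
      (ell D : ℤ) - Module.finrank K (H1 D) = Divisor.degree D + 1 - g := by
  -- a divisor above `D` attaining the bound
  set B : Divisor K F := D ⊔ D₀ with hBdef
  have hDB : D ≤ B := le_sup_left
  have hB : (ell B : ℤ) = Divisor.degree B + 1 - g := ell_eq_of_attains g hR h₀ le_sup_right
  have htop := sup_eq_top_of_attains g hR B hB
  have hsub : Subsingleton (H1 B) := by
    rw [Submodule.Quotient.subsingleton_iff]
    exact htop
  have hPB : Module.Finite K (H1 B) ∧
      (ell B : ℤ) - Module.finrank K (H1 B) = Divisor.degree B + 1 - g := by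
    refine ⟨inferInstance, ?_⟩
    rw [Module.finrank_zero_of_subsingleton, hB]
    simp
  -- descend from `B` to `D`
  have key : ∀ E, D ≤ E →
      (Module.Finite K (H1 (B + D - E)) ∧
        (ell (B + D - E) : ℤ) - Module.finrank K (H1 (B + D - E))
          = Divisor.degree (B + D - E) + 1 - g) := by
    refine induction_ge D ?_ ?_
    · rw [add_sub_cancel_right]; exact hPB
    · intro E v _ ih
      exact step_down g (B + D - (E + prim v)) (B + D - E) v (by abel) ih
  have := key B hDB
  rwa [add_sub_cancel_left] at this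

end FF1

end Fermat.Agent.Lib.RR.H439

end
end
-- ===== PACK-END Lib/RR/H439/H1.lean

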