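import Mathlib
import Fermat.Prelude.Def_ModularCurve_X0ModL
import Fermat.Prelude.Thm_ModularCurve_coeffMap_qExpand
import Fermat.Prelude.Def_ModularCurve_HeckeModule
import Fermat.Agent.Pack.S3234.G4E1L1
import Fermat.Agent.Pack.S3234.G4E0L1
import Fermat.Agent.Pack.S3234.G0E5L1
import Fermat.Agent.Pack.S3234.G0E1L3
import Fermat.Agent.Pack.S3234.G0E2L0
import Fermat.Agent.Pack.S3234.G0E4L1
import Fermat.Agent.Pack.S3234.G4E1L0
import Fermat.Agent.Pack.S3234.G4E1L3
import Fermat.Agent.Pack.S3234.G4E0L0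
import Fermat.Agent.Pack.S3234.G4E1L2

-- ===== PACK-BEGIN S32/H152/Emb.lean
section
/-
S32 / piece EMB (helper152) — `embedStatement : Fermat.Agent.S32.EmbedStatement`.

Let `ρ` be a two-dimensional representation over a local ring `T` whose image spans `End_T V`,
`ψ : T → 𝒪'` a point with values in a DVR with `2 ≠ 0`, and `M ≠ 0` a finite free `𝒪'`-module with
Galois action on which every `g` satisfies the characteristic polynomial of `ρ g` specialised along
`ψ`.  Then there is a strict `ψ`-semilinear equivariant map `φ : V → M`.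

Proof.  `K = Frac 𝒪'`.  In coordinates (bases `b` of `V`, `c` of `M`), `ρ₀ = ρ ⊗_ψ K` on `K²` has
`K[G] → M₂(K)` onto, and `π = ρM ⊗ K` on `Kⁿ` satisfies the quadratic relations; Boston–Lenstra–
Ribet over the field `K` (landed `Lib.Ribet.H223.blr_exists_embedding`) gives an injective
equivariant `φ₀ : K² → Kⁿ`.  Clearing denominators of `φ₀ (e_i)` gives `m_i ∈ M`, and
`φ (∑ tᵢ bᵢ) = ∑ ψ(tᵢ) mᵢ`.  A `K`-linear retraction of `φ₀` with cleared denominators shows
`δ ψ(tᵢ) ∈ 𝔪^N` whenever `φ v ∈ 𝔪^N M` (`δ ≠ 0` fixed), which gives strictness.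
-/





set_option autoImplicit false

noncomputable section

namespace Fermat.Agent.S32.H152

open Matrix IsLocalRing Fermat.Agent.S19 Fermat.Agent.Lib.Ribet.H223

/-- Clearing denominators of finitely many vectors. -/
theorem emb_exists_clear {O K : Type*} [CommRing O] [IsDomain O] [Field K] [Algebra O K]
    [IsFractionRing O K] {ι κ : Type*} [Finite ι] [Finite κ] (x : ι → κ → K) :
    ∃ a : O, a ≠ 0 ∧ ∀ i j, ∃ y : O, algebraMap O K y = algebraMap O K a * x i j := by
  classical
  have := Fintype.ofFinite ι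
  have := Fintype.ofFinite κ
  obtain ⟨a, ha⟩ := IsLocalization.exist_integer_multiples_of_finset (nonZeroDivisors O)
    (Finset.univ.image (fun p : ι × κ => x p.1 p.2))
  refine ⟨a, nonZeroDivisors.ne_zero a.2, fun i j => ?_⟩
  obtain ⟨y, hy⟩ := ha (x i j) (Finset.mem_image.mpr ⟨(i, j), Finset.mem_univ _, rfl⟩)
  refine ⟨y, ?_⟩
  rw [hy, Algebra.smul_def]

/-- **Piece EMB of row S32.** -/
theorem embedStatement : EmbedStatement := by
  intro T _ _ ρ hspan 𝒪' _ _ _ h2 ψ M _ _ _ _ _ ρM hrel
  classical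
  set K := FractionRing 𝒪' with hK
  set ι : 𝒪' →+* K := algebraMap 𝒪' K with hιdef
  have hι : Function.Injective ι := IsFractionRing.injective 𝒪' K
  set f : T →+* K := ι.comp ψ with hf
  set b : Module.Basis (Fin 2) T ρ.V := Module.finBasisOfFinrankEq T ρ.V ρ.finrank_eq with hb
  set c := Module.Free.chooseBasis 𝒪' M with hc
  -- the two representations over `K`
  set ρ₀ : GalQ →* Module.End K (Fin 2 → K) :=
    ((embEnd f b : Module.End T ρ.V →+* _) : Module.End T ρ.V →* _).comp ρ.ρ with hρ₀
  set π : GalQ →* Module.End K (Module.Free.ChooseBasisIndex 𝒪' M → K) :=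
    ((embEnd ι c : Module.End 𝒪' M →+* _) : Module.End 𝒪' M →* _).comp ρM with hπdef
  set d : GalQ →* K := ((f : T →* K).comp (Units.coeHom T)).comp ρ.det with hd
  have hρ₀g : ∀ g, ρ₀ g = embEnd f b (ρ.ρ g) := fun g => rfl
  have hπg : ∀ g, π g = embEnd ι c (ρM g) := fun g => rfl
  have hdg : ∀ g, d g = f ((ρ.det g : Tˣ) : T) := fun g => rfl
  have hK2 : (2 : K) ≠ 0 := by
    intro h0
    apply h2
    apply hι
    rw [map_zero, map_ofNat]
    exact h0
  have hfin2 : Module.finrank K (Fin 2 → K) = 2 := by simp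
  -- surjectivity of `K[G] → End (K²)`
  have hsurj : Function.Surjective (MonoidAlgebra.lift K (Module.End K (Fin 2 → K)) GalQ ρ₀) := by
    set A₀ := (MonoidAlgebra.lift K (Module.End K (Fin 2 → K)) GalQ ρ₀).range with hA₀
    have hg : ∀ g, ρ₀ g ∈ A₀ := fun g =>
      ⟨MonoidAlgebra.of K GalQ g, MonoidAlgebra.lift_of _ _⟩
    have hall : ∀ E : Module.End T ρ.V, embEnd f b E ∈ A₀ := by
      intro E
      have hE : E ∈ Submodule.span T (Set.range ρ.ρ) := by
        rw [hspan]
        exact Submodule.mem_top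
      induction hE using Submodule.span_induction with
      | mem x hx =>
        obtain ⟨g, rfl⟩ := hx
        exact hg g
      | zero =>
        rw [map_zero]
        exact zero_mem _
      | add x y _ _ hx hy =>
        rw [map_add]
        exact add_mem hx hy
      | smul t x _ hx =>
        rw [embEnd_smul]
        exact Subalgebra.smul_mem _ hx _
    intro y
    have hy : y ∈ A₀ := by
      obtain ⟨Y, rfl⟩ := (Matrix.toLinAlgEquiv' : Matrix (Fin 2) (Fin 2) K ≃ₐ[K] _).surjective y
      rw [Matrix.matrix_eq_sum_single Y]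
      simp only [map_sum]
      refine Subalgebra.sum_mem _ fun i _ => Subalgebra.sum_mem _ fun j _ => ?_
      have e1 : (Matrix.single i j (Y i j) : Matrix (Fin 2) (Fin 2) K)
          = Y i j • Matrix.single i j (1 : K) := by
        rw [Matrix.smul_single, smul_eq_mul, mul_one]
      rw [e1, map_smul]
      refine Subalgebra.smul_mem _ ?_ _
      have e2 := embEnd_single f b i j
      have e3 : (Matrix.toLinAlgEquiv' : Matrix (Fin 2) (Fin 2) K ≃ₐ[K] _)
          (Matrix.single i j (1 : K)) = Matrix.toLin' (Matrix.single i j (1 : K)) := rfl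
      rw [e3, ← e2]
      exact hall _
    exact hy
  -- the quadratic relations
  have hπ : ∀ g, π g * π g - LinearMap.trace K (Fin 2 → K) (ρ₀ g) • π g + d g • 1 = 0 := by
    intro g
    have h := congrArg (embEnd ι c) (hrel g)
    rw [map_zero, map_add, map_sub, map_mul, embEnd_smul, embEnd_smul, map_one] at h
    rw [hπg, hρ₀g, embEnd_trace, hdg]
    exact h
  have : Nonempty (Module.Free.ChooseBasisIndex 𝒪' M) := by
    by_contra hne
    rw [not_nonempty_iff] at hne
    obtain ⟨x, y, hxy⟩ := exists_pair_ne M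
    apply hxy
    apply c.repr.injective
    ext j
    exact (hne.false j).elim
  have : Nontrivial (Module.Free.ChooseBasisIndex 𝒪' M → K) := inferInstance
  obtain ⟨φ₀, hφ₀inj, hφ₀eq⟩ := blr_exists_embedding hK2 hfin2 ρ₀ π d hsurj hπ
  -- retraction
  obtain ⟨r₀, hr₀⟩ := LinearMap.exists_leftInverse_of_injective φ₀
    (LinearMap.ker_eq_bot.mpr hφ₀inj)
  -- clearing denominators
  obtain ⟨a, ha0, ha⟩ := emb_exists_clear (O := 𝒪') (K := K)
    (fun (i : Fin 2) (j : Module.Free.ChooseBasisIndex 𝒪' M) => φ₀ (Pi.single i 1) j)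
  obtain ⟨a', ha'0, ha'⟩ := emb_exists_clear (O := 𝒪') (K := K)
    (fun (i : Fin 2) (j : Module.Free.ChooseBasisIndex 𝒪' M) => r₀ (Pi.single j 1) i)
  choose y hy using ha
  choose z hz using ha'
  -- the vectors `m i`
  set mvec : Fin 2 → M := fun i => ∑ j, y i j • c j with hmvec
  have hmcoord : ∀ i, embCoord ι c (mvec i) = ι a • φ₀ (Pi.single i 1) := by
    intro i
    funext j
    rw [embCoord_apply, hmvec]
    simp only [map_sum, map_smul, Module.Basis.repr_self, Finsupp.coe_finsetSum,
      Finset.sum_apply, Finsupp.smul_apply, Finsupp.single_apply, smul_eq_mul, mul_ite, mul_one,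
      mul_zero, Finset.sum_ite_eq', Finset.mem_univ, if_true, Pi.smul_apply]
    exact hy i j
  -- the map `φ`
  set φ : ρ.V →+ M :=
    { toFun := fun v => ∑ i, ψ (b.repr v i) • mvec i
      map_zero' := by simp
      map_add' := fun v w => by
        simp only [map_add, Finsupp.add_apply, add_smul, Finset.sum_add_distrib] } with hφ
  have hφv : ∀ v, φ v = ∑ i, ψ (b.repr v i) • mvec i := fun v => rfl
  have hφcoord : ∀ v, embCoord ι c (φ v) = ι a • φ₀ (embCoord f b v) := by
    intro v
    have e1 : embCoord f b v = ∑ i, f (b.repr v i) • (Pi.single i 1 : Fin 2 → K) := by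
      funext j
      simp [embCoord_apply, Finset.sum_apply, Pi.single_apply]
    rw [hφv, map_sum, e1, map_sum, Finset.smul_sum]
    refine Finset.sum_congr rfl fun i _ => ?_
    rw [embCoord_smul, hmcoord, map_smul, smul_comm]
    rfl
  refine ⟨φ, fun t v => ?_, fun g v => ?_, ?_⟩
  · -- semilinear
    rw [hφv, hφv, Finset.smul_sum]
    refine Finset.sum_congr rfl fun i _ => ?_
    rw [map_smul, Finsupp.smul_apply, smul_eq_mul, map_mul, mul_smul]
  · -- equivariant
    apply embCoord_injective ι c hι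
    rw [hφcoord, ← embEnd_coord ι c (ρM g) (φ v), hφcoord, ← embEnd_coord f b (ρ.ρ g) v,
      ← hρ₀g, hφ₀eq, map_smul, hπg]
  · -- strict
    have hδ : a' * a ≠ 0 := mul_ne_zero ha'0 ha0
    obtain ⟨k, hk⟩ := embCoord_dvr_cancel hδ
    refine ⟨k, fun m v hv => ?_⟩
    -- coordinates of `φ v` lie in `𝔪 ^ (m + k)`
    have hcoord : ∀ j, c.repr (φ v) j ∈ maximalIdeal 𝒪' ^ (m + k) :=
      fun j => embCoord_repr_mem c _ hv j
    -- `ι (a' a ψ(tᵢ)) = ∑ⱼ ι (z i j) ι (coord j)`
    have hkey : ∀ i, ι (a' * a * ψ (b.repr v i))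
        = ∑ j, ι (z i j) * ι (c.repr (φ v) j) := by
      intro i
      have e1 : r₀ (embCoord ι c (φ v)) = ι a • embCoord f b v := by
        rw [hφcoord, map_smul]
        have := congrArg (fun L : (Fin 2 → K) →ₗ[K] (Fin 2 → K) => L (embCoord f b v)) hr₀
        simp only [LinearMap.comp_apply, LinearMap.id_apply] at this
        rw [this]
      have e2 : embCoord ι c (φ v)
          = ∑ j, ι (c.repr (φ v) j) • (Pi.single j 1 : Module.Free.ChooseBasisIndex 𝒪' M → K) := by
        funext j
        simp [embCoord_apply, Finset.sum_apply, Pi.single_apply]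
      have e3 := congrFun e1 i
      rw [e2, map_sum, Finset.sum_apply] at e3
      simp only [map_smul, Pi.smul_apply, smul_eq_mul] at e3
      have e4 : ι (a' * a * ψ (b.repr v i)) = ι a' * (ι a * embCoord f b v i) := by
        rw [map_mul, map_mul, embCoord_apply, mul_assoc]
        rfl
      rw [e4, ← e3, Finset.mul_sum]
      refine Finset.sum_congr rfl fun j _ => ?_
      rw [hz i j]
      ring
    have hmem : ∀ i, a' * a * ψ (b.repr v i) ∈ maximalIdeal 𝒪' ^ (m + k) := by
      intro i
      have e : a' * a * ψ (b.repr v i) = ∑ j, z i j * c.repr (φ v) j := by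
        apply hι
        rw [hkey i, map_sum]
        refine Finset.sum_congr rfl fun j _ => ?_
        rw [map_mul]
      rw [e]
      exact Ideal.sum_mem _ fun j _ => Ideal.mul_mem_left _ _ (hcoord j)
    have hti : ∀ i, b.repr v i ∈ Ideal.comap ψ (maximalIdeal 𝒪' ^ m) :=
      fun i => Ideal.mem_comap.mpr (hk m _ (hmem i))
    have hv' : v = ∑ i, b.repr v i • b i := (b.sum_repr v).symm
    rw [hv']
    exact Submodule.sum_mem _ fun i _ => Submodule.smul_mem_smul (hti i) Submodule.mem_top

end Fermat.Agent.S32.H152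

end
end
-- ===== PACK-END S32/H152/Emb.lean

-- ===== PACK-BEGIN S28/H685/JIntegral.lean
section




/-!
# S28 helper (helper685): integrality in the `j`-polynomial principle (J4)

If `P(j)` has all its Laurent coefficients in a subring `C₀ ⊆ ℂ`, then so has `P`.
Combined with `exists_polynomial_of_S_invariant` this gives the polynomial principle with
coefficients in `C₀`.  Also the versions for the parameter `q^(1/N)`.
-/

set_option autoImplicit false

namespace Fermat.Agent.S28.H685

open UpperHalfPlane Function Complex Filter HahnSeries ModularForm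
open scoped Topology Manifold MatrixGroups

noncomputable section

local notation "𝕢" => Periodic.qParam

theorem jqModC_pow_eq (n : ℕ) : ModularCurve.jqModC ℂ ^ n =
    HahnSeries.single (-(n : ℤ)) (1 : ℂ) * HahnSeries.ofPowerSeries ℤ ℂ (jNumC ^ n) := by
  rw [jqModC_eq, hauptmodul_pow]

/-- The coefficients of the powers of `j` are integers. -/
theorem coeff_jqModC_pow_mem (C₀ : Subring ℂ) (n : ℕ) (k : ℤ) :
    (ModularCurve.jqModC ℂ ^ n).coeff k ∈ C₀ := by
  have h : (ModularCurve.jqModC ℂ ^ n).coeff k =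
      (((ModularCurve.jqModC ℤ ^ n).coeff k : ℤ) : ℂ) := by
    rw [← ModularCurve.map_jqModC (Int.castRingHom ℂ)]
    have hpow : ((ModularCurve.jqModC ℤ).map (Int.castRingHom ℂ)) ^ n =
        (ModularCurve.jqModC ℤ ^ n).map (Int.castRingHom ℂ) := by
      induction n with
      | zero =>
        ext g
        simp only [pow_zero, HahnSeries.map_coeff, HahnSeries.coeff_one]
        split_ifs <;> simp
      | succ n ih =>
        rw [pow_succ, pow_succ, ih]
        exact (HahnSeries.map_mul (Int.castRingHom ℂ).toNonUnitalRingHom).symm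
    rw [hpow, HahnSeries.map_coeff]
    rfl
  rw [h]
  exact intCast_mem C₀ _

/-- **(J4)** If `P(j)` has all its coefficients in the subring `C₀`, so has `P`. -/
theorem coeff_mem_of_aeval_jqModC (C₀ : Subring ℂ) :
    ∀ (m : ℕ) (P : Polynomial ℂ), P.natDegree ≤ m →
      (∀ k : ℤ, (Polynomial.aeval (ModularCurve.jqModC ℂ) P).coeff k ∈ C₀) →
      ∀ i, P.coeff i ∈ C₀ := by
  intro m
  induction m with
  | zero =>
    intro P hP hc i
    rw [Polynomial.eq_C_of_natDegree_le_zero hP] at hc ⊢
    have h0 := hc 0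
    rw [Polynomial.aeval_C, algebraMap_eq_C] at h0
    have h1 : (HahnSeries.C (P.coeff 0) : LaurentSeries ℂ).coeff 0 = P.coeff 0 := by
      simp
    rw [h1] at h0
    rw [Polynomial.coeff_C]
    split_ifs
    · exact h0
    · exact C₀.zero_mem
  | succ m ih =>
    intro P hP hc i
    set a := P.coeff (m + 1) with ha
    set Q := P - Polynomial.C a * Polynomial.X ^ (m + 1) with hQ
    have hQdeg : Q.natDegree ≤ m := by
      rw [Polynomial.natDegree_le_iff_coeff_eq_zero]
      intro N hN
      rw [hQ, Polynomial.coeff_sub, Polynomial.coeff_C_mul, Polynomial.coeff_X_pow]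
      rcases Nat.lt_or_ge (m + 1) N with h1 | h1
      · rw [Polynomial.coeff_eq_zero_of_natDegree_lt (lt_of_le_of_lt hP h1),
          if_neg (by omega), mul_zero, sub_zero]
      · have : N = m + 1 := by omega
        rw [if_pos this, this, mul_one, sub_self]
    -- the coefficient `a` is the coefficient of `q^{-(m+1)}` in `P(j)`
    have haeval : Polynomial.aeval (ModularCurve.jqModC ℂ) P =
        Polynomial.aeval (ModularCurve.jqModC ℂ) Q +
          HahnSeries.C a * ModularCurve.jqModC ℂ ^ (m + 1) := by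
      rw [hQ, map_sub, map_mul, map_pow, Polynomial.aeval_X, Polynomial.aeval_C,
        algebraMap_eq_C]
      ring
    have hQlow : ∀ k : ℤ, k < -(m : ℤ) →
        (Polynomial.aeval (ModularCurve.jqModC ℂ) Q).coeff k = 0 := by
      intro k hk
      rw [Polynomial.aeval_eq_sum_range' (Nat.lt_succ_of_le hQdeg)]
      rw [HahnSeries.coeff_sum]
      refine Finset.sum_eq_zero fun n hn => ?_
      have hn' : n ≤ m := Nat.lt_succ_iff.mp (Finset.mem_range.mp hn)
      rw [Algebra.smul_def, algebraMap_eq_C, HahnSeries.C_mul_eq_smul, HahnSeries.coeff_smul,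
        jqModC_pow_eq, coeff_single_mul_ofPS_of_lt _ _ (by omega), smul_zero]
    have haC : a ∈ C₀ := by
      have h1 := hc (-((m + 1 : ℕ) : ℤ))
      rw [haeval, HahnSeries.coeff_add, hQlow _ (by push_cast; omega), zero_add,
        HahnSeries.C_mul_eq_smul, HahnSeries.coeff_smul, jqModC_eq,
        coeff_hauptmodul_pow_self _ constantCoeff_jNumC, smul_eq_mul, mul_one] at h1
      exact h1
    have hQc : ∀ k : ℤ, (Polynomial.aeval (ModularCurve.jqModC ℂ) Q).coeff k ∈ C₀ := by
      intro k
      have h1 := hc k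
      rw [haeval, HahnSeries.coeff_add, HahnSeries.C_mul_eq_smul, HahnSeries.coeff_smul,
        smul_eq_mul] at h1
      have h2 : a * (ModularCurve.jqModC ℂ ^ (m + 1)).coeff k ∈ C₀ :=
        C₀.mul_mem haC (coeff_jqModC_pow_mem C₀ _ _)
      have := C₀.sub_mem h1 h2
      simpa using this
    have hQi := ih Q hQdeg hQc i
    have hPi : P.coeff i = Q.coeff i + (Polynomial.C a * Polynomial.X ^ (m + 1)).coeff i := by
      rw [hQ, Polynomial.coeff_sub]
      ring
    rw [hPi]
    refine C₀.add_mem hQi ?_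
    rw [Polynomial.coeff_C_mul, Polynomial.coeff_X_pow]
    split_ifs
    · simpa using haC
    · simp

/-- **The `j`-polynomial principle with coefficients in a subring.** -/
theorem exists_polynomial_of_S_invariant_of_mem (C₀ : Subring ℂ) (F : ℍ → ℂ)
    (φ : LaurentSeries ℂ) (hφ : ∀ n : ℤ, φ.coeff n ∈ C₀) (hF : HasQLaurent 1 F φ)
    (hS : ∀ τ, F (ModularGroup.S • τ) = F τ) :
    ∃ P : Polynomial ℂ, (∀ i, P.coeff i ∈ C₀) ∧
      φ = Polynomial.aeval (ModularCurve.jqModC ℂ) P ∧ ∀ τ, F τ = P.eval (jFun τ) := by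
  obtain ⟨P, h1, h2⟩ := exists_polynomial_of_S_invariant' F φ hF hS
  exact ⟨P, coeff_mem_of_aeval_jqModC C₀ P.natDegree P le_rfl (fun k => h1 ▸ hφ k), h1, h2⟩

end

end Fermat.Agent.S28.H685

end
-- ===== PACK-END S28/H685/JIntegral.lean

-- ===== PACK-BEGIN S28/H589/Descent.lean
section








/-!
# S28 / A-Φ, A-W descent, formal part 2 (helper589): from `ℂ[Y][X]` to `ℤ[Y][X]`

`descent`: let `Φ ∈ ℂ[Y][X]` be monic of degree `p+1` in `X`, and `g, f ∈ ℤ((q))` with
`ord f` prime to `p`, `f ≠ V_p g`, such that in `ℂ((q))`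
`Φ(X := g, Y := j) = 0` and `Φ(X := f, Y := V_p j) = 0`.
Then `Φ` has integer coefficients: `Φ(X, j) = (X - g) · χ` where `χ` is the characteristic
polynomial of the section matrix of `f` (which lives over `ℤ((q))`).
-/

set_option autoImplicit false

noncomputable section

open ModularCurve HahnSeries Polynomial

namespace Fermat.Agent.S28.H589

/-- Base change of coefficients `ℤ((q)) → ℂ((q))`. -/
abbrev iotaC : LaurentSeries ℤ →+* LaurentSeries ℂ := coeffMap (Int.castRingHom ℂ)

theorem iotaC_injective : Function.Injective iotaC := by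
  intro x y h
  ext k
  have := congrArg (fun z => z.coeff k) h
  simp only [coeffMap_coeff, Int.coe_castRingHom] at this
  exact_mod_cast this

theorem iotaC_eq_zero_iff (x : LaurentSeries ℤ) : iotaC x = 0 ↔ x = 0 := by
  constructor
  · intro h
    exact iotaC_injective (by rw [h, map_zero])
  · rintro rfl
    exact map_zero _

theorem iotaC_coeff_eq_zero_iff (x : LaurentSeries ℤ) (n : ℤ) :
    (iotaC x).coeff n = 0 ↔ x.coeff n = 0 := by
  simp only [coeffMap_coeff, Int.coe_castRingHom, Int.cast_eq_zero]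

theorem order_iotaC (x : LaurentSeries ℤ) : (iotaC x).order = x.order := by
  by_cases hx : x = 0
  · subst hx
    simp
  · have hx' : iotaC x ≠ 0 := fun h => hx ((iotaC_eq_zero_iff x).mp h)
    apply le_antisymm
    · apply HahnSeries.order_le_of_coeff_ne_zero
      rw [Ne, iotaC_coeff_eq_zero_iff]
      exact fun h => hx (HahnSeries.coeff_order_eq_zero.mp h)
    · apply HahnSeries.order_le_of_coeff_ne_zero
      rw [Ne, ← iotaC_coeff_eq_zero_iff]
      exact fun h => hx' (HahnSeries.coeff_order_eq_zero.mp h)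

/-- Evaluation `ℂ[Y] → ℂ((q))`, `Y ↦ y`. -/
def evC (y : LaurentSeries ℂ) : Polynomial ℂ →+* LaurentSeries ℂ :=
  Polynomial.eval₂RingHom HahnSeries.C y

theorem evC_apply (y : LaurentSeries ℂ) (P : Polynomial ℂ) :
    evC y P = Polynomial.eval₂ HahnSeries.C y P := rfl

theorem evC_eq_aeval (y : LaurentSeries ℂ) (P : Polynomial ℂ) :
    evC y P = Polynomial.aeval y P := by
  rw [evC_apply, Polynomial.aeval_def]
  congr 1
  ext c : 1
  exact (Fermat.Agent.S28.H685.algebraMap_eq_C c).symm

theorem qExpand_comp_evC (p : ℕ) [NeZero p] (y : LaurentSeries ℂ) :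
    (qExpand ℂ p).comp (evC y) = evC (qExpand ℂ p y) := by
  refine Polynomial.ringHom_ext (fun c => ?_) ?_
  · simp [evC]
  · simp [evC]

theorem iotaC_comp_evalAt (y : LaurentSeries ℤ) :
    iotaC.comp (evalAt y) = (evC (iotaC y)).comp (Polynomial.mapRingHom (Int.castRingHom ℂ)) := by
  refine Polynomial.ringHom_ext' (Subsingleton.elim _ _) ?_
  simp [evalAt, evC]

/-- Transfer of a vanishing relation from `ℂ((q))` to `ℤ((q))`. -/
theorem eval₂_evalAt_eq_zero_of (Ψ : Polynomial (Polynomial ℤ)) (y x : LaurentSeries ℤ)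
    (h : (Ψ.map (Polynomial.mapRingHom (Int.castRingHom ℂ))).eval₂ (evC (iotaC y)) (iotaC x) = 0) :
    Ψ.eval₂ (evalAt y) x = 0 := by
  apply iotaC_injective
  rw [Polynomial.hom_eval₂, iotaC_comp_evalAt, ← Polynomial.eval₂_map, h, map_zero]

/-- **Descent.** -/
theorem descent (p : ℕ) [NeZero p]
    (Φ : Polynomial (Polynomial ℂ)) (hΦ : Φ.Monic) (n : ℕ) (hdeg : Φ.natDegree = n)
    (hn : n = p + 1)
    (g f : LaurentSeries ℤ) (hf0 : f ≠ 0) (hford : IsCoprime f.order (p : ℤ))
    (hne : f ≠ qExpand ℤ p g)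
    (h1 : Φ.eval₂ (evC (jqModC ℂ)) (iotaC g) = 0)
    (h2 : Φ.eval₂ (evC (qExpand ℂ p (jqModC ℂ))) (iotaC f) = 0) :
    ∃ Ψ : Polynomial (Polynomial ℤ), Ψ.Monic ∧ Ψ.natDegree = n ∧
      Ψ.eval₂ (evalAt (jqModC ℤ)) g = 0 ∧
      Ψ.eval₂ (evalAt (qExpand ℤ p (jqModC ℤ))) f = 0 := by
  classical
  subst hn
  set V : LaurentSeries ℂ →+* LaurentSeries ℂ := qExpand ℂ p with hV
  set a : LaurentSeries ℂ := iotaC g with ha
  set x : LaurentSeries ℂ := iotaC f with hx
  -- the polynomial over `ℂ((q))`
  set Φ₁ : Polynomial (LaurentSeries ℂ) := Φ.map (evC (jqModC ℂ)) with hΦ₁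
  have hΦ₁m : Φ₁.Monic := hΦ.map _
  have hΦ₁d : Φ₁.natDegree = p + 1 := by rw [hΦ₁, hΦ.natDegree_map, hdeg]
  have hroot : Φ₁.IsRoot a := by
    rw [Polynomial.IsRoot, hΦ₁, Polynomial.eval_map]; exact h1
  obtain ⟨G, hG⟩ := Polynomial.dvd_iff_isRoot.mpr hroot
  have hGm : G.Monic := by
    have : ((X - Polynomial.C a) * G).Monic := hG ▸ hΦ₁m
    exact (Polynomial.monic_X_sub_C a).of_mul_monic_left this
  have hGd : G.natDegree = p := by
    have h := congrArg Polynomial.natDegree hG
    rw [hΦ₁d, (Polynomial.monic_X_sub_C a).natDegree_mul hGm, Polynomial.natDegree_X_sub_C] at h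
    omega
  -- apply `V` to the coefficients
  have hmapV : Φ.map (evC (V (jqModC ℂ))) = (X - Polynomial.C (V a)) * G.map V := by
    have h := congrArg (Polynomial.map V) hG
    rw [hΦ₁, Polynomial.map_map, qExpand_comp_evC] at h
    rw [h, Polynomial.map_mul, Polynomial.map_sub, Polynomial.map_X, Polynomial.map_C]
  have hxa : x - V a ≠ 0 := by
    intro h
    apply hne
    apply iotaC_injective
    rw [coeffMap_qExpand]
    exact sub_eq_zero.mp h
  have hGV : (G.map V).eval x = 0 := by
    have h := h2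
    rw [← Polynomial.eval_map, hmapV, Polynomial.eval_mul, Polynomial.eval_sub,
      Polynomial.eval_X, Polynomial.eval_C] at h
    exact (mul_eq_zero.mp h).resolve_left hxa
  -- the section charpoly
  obtain ⟨χ, hχm, hχd, hχ⟩ := exists_section_charpoly p f
  set χ' : Polynomial (LaurentSeries ℂ) := χ.map iotaC with hχ'
  have hχ'm : χ'.Monic := hχm.map _
  have hχ'd : χ'.natDegree = p := by rw [hχ', hχm.natDegree_map, hχd]
  have hχ'V : (χ'.map V).eval x = 0 := by
    have h := congrArg iotaC hχ
    rw [Polynomial.eval_map, Polynomial.hom_eval₂, map_zero] at h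
    rw [hχ', Polynomial.map_map, Polynomial.eval_map]
    have hcomp : V.comp iotaC = iotaC.comp (qExpand ℤ p) := by
      ext y : 1
      exact (coeffMap_qExpand (Int.castRingHom ℂ) p y).symm
    rw [hcomp]
    exact h
  -- `G = χ'`
  have hD : G - χ' = 0 := by
    have hVinj : Function.Injective (Polynomial.map V) :=
      Polynomial.map_injective V (qExpand_injective p)
    apply hVinj
    rw [Polynomial.map_zero]
    have hx0 : x ≠ 0 := fun h => hf0 ((iotaC_eq_zero_iff f).mp h)
    have hxord : IsCoprime x.order (p : ℤ) := by rw [hx, order_iotaC]; exact hford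
    refine Fermat.Agent.S28.H145.eq_zero_of_eval_eq_zero_of_natDegree_lt p x hx0 hxord _
      (fun m => ?_) ?_ ?_
    · rw [Polynomial.coeff_map]
      exact ⟨_, rfl⟩
    · refine lt_of_le_of_lt Polynomial.natDegree_map_le ?_
      by_cases hz : G - χ' = 0
      · rw [hz, Polynomial.natDegree_zero]
        exact Nat.pos_of_ne_zero (NeZero.ne p)
      · have hdeg' : (G - χ').degree < G.degree := by
          apply Polynomial.degree_sub_lt_left
          · rw [Polynomial.degree_eq_natDegree hGm.ne_zero,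
              Polynomial.degree_eq_natDegree hχ'm.ne_zero, hGd, hχ'd]
          · exact hGm.ne_zero
          · rw [hGm.leadingCoeff, hχ'm.leadingCoeff]
        rw [Polynomial.degree_eq_natDegree hGm.ne_zero, hGd] at hdeg'
        exact (Polynomial.natDegree_lt_iff_degree_lt hz).mpr hdeg'
    · rw [Polynomial.map_sub, Polynomial.eval_sub, hGV, hχ'V, sub_zero]
  have hGχ : G = χ' := sub_eq_zero.mp hD
  -- coefficients of `Φ₁` are in the image of `ℤ((q))`
  set Θ : Polynomial (LaurentSeries ℤ) := (X - Polynomial.C g) * χ with hΘ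
  have hΦ₁Θ : Φ₁ = Θ.map iotaC := by
    rw [hG, hGχ, hΘ, Polynomial.map_mul, Polynomial.map_sub, Polynomial.map_X, Polynomial.map_C]
  -- every coefficient of `Φ` has integer coefficients
  set C₀ : Subring ℂ := (Int.castRingHom ℂ).range with hC₀
  have hcoef : ∀ k i, (Φ.coeff k).coeff i ∈ C₀ := by
    intro k
    refine Fermat.Agent.S28.H685.coeff_mem_of_aeval_jqModC C₀ (Φ.coeff k).natDegree (Φ.coeff k)
      le_rfl (fun m => ?_)
    have h : Polynomial.aeval (jqModC ℂ) (Φ.coeff k) = iotaC (Θ.coeff k) := by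
      rw [← evC_eq_aeval, ← Polynomial.coeff_map, ← hΦ₁, hΦ₁Θ, Polynomial.coeff_map]
    rw [h, coeffMap_coeff]
    exact ⟨_, rfl⟩
  -- lift `Φ`
  have hlift : Φ ∈ Polynomial.lifts (Polynomial.mapRingHom (Int.castRingHom ℂ)) := by
    rw [Polynomial.lifts_iff_coeff_lifts]
    intro k
    have hk : Φ.coeff k ∈ Polynomial.lifts (Int.castRingHom ℂ) := by
      rw [Polynomial.lifts_iff_coeff_lifts]
      intro i
      exact hcoef k i
    obtain ⟨q, hq⟩ := (Polynomial.mem_lifts _).mp hk
    exact ⟨q, hq⟩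
  obtain ⟨Ψ, hΨ, hΨd, hΨm⟩ := Polynomial.lifts_and_natDegree_eq_and_monic hlift hΦ
  refine ⟨Ψ, hΨm, by rw [hΨd, hdeg], ?_, ?_⟩
  · apply eval₂_evalAt_eq_zero_of
    rw [hΨ, coeffMap_jqModC]
    exact h1
  · apply eval₂_evalAt_eq_zero_of
    rw [hΨ, coeffMap_qExpand, coeffMap_jqModC]
    exact h2

end Fermat.Agent.S28.H589

end

end
-- ===== PACK-END S28/H589/Descent.lean

-- ===== PACK-BEGIN Lib/RR/H653/MemRepartitions.lean
section


/-!
# RR library, piece L4.0: the repartitions are exactly the families with finitely many poles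

`repartitions K F` is defined in the Prelude as the `F`-subalgebra of `Place K F → F` generated by
the families with finitely many poles.  Under `HasPrincipalDivisors` (constants have finitely many
poles) this generating set is already a subalgebra.
-/

set_option autoImplicit false

noncomputable section

open AlgebraicCurve

namespace Fermat.Agent.Lib.RR.H653

variable {K F : Type*} [Field K] [Field F] [Algebra K F]

/-- The poles of a nonzero function are finitely many (from `HasPrincipalDivisors`). -/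
theorem finite_poles_const [HasPrincipalDivisors K F] (f : F) :
    {v : Place K F | v.ord f < 0}.Finite := by
  rcases eq_or_ne f 0 with rfl | hf
  · simp
  obtain ⟨D, hD, -⟩ := HasPrincipalDivisors.exists_divisor (K := K) f hf
  refine D.support.finite_toSet.subset fun v hv => ?_
  rw [Finset.mem_coe, Finsupp.mem_support_iff, hD v]
  exact ne_of_lt hv

/-- Poles of a sum are among the poles of the summands. -/
theorem poles_add_subset (α β : Place K F → F) :
    {v : Place K F | v.ord ((α + β) v) < 0} ⊆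
      {v : Place K F | v.ord (α v) < 0} ∪ {v : Place K F | v.ord (β v) < 0} := by
  intro v hv
  simp only [Set.mem_ofPred_eq, Pi.add_apply, Set.mem_union] at hv ⊢
  by_contra hcon
  rw [not_or, not_lt, not_lt] at hcon
  have h := Fermat.Agent.Lib.RR.ord_add_of_le v (n := 0) (Or.inr hcon.1) (Or.inr hcon.2)
  rcases h with h | h
  · rw [h, v.ord_zero] at hv; exact lt_irrefl _ hv
  · exact absurd hv (not_lt.mpr h)

/-- Poles of a product are among the poles of the factors. -/
theorem poles_mul_subset (α β : Place K F → F) :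
    {v : Place K F | v.ord ((α * β) v) < 0} ⊆
      {v : Place K F | v.ord (α v) < 0} ∪ {v : Place K F | v.ord (β v) < 0} := by
  intro v hv
  simp only [Set.mem_ofPred_eq, Pi.mul_apply, Set.mem_union] at hv ⊢
  by_contra hcon
  rw [not_or, not_lt, not_lt] at hcon
  rcases eq_or_ne (α v) 0 with h0 | h0
  · rw [h0, zero_mul, v.ord_zero] at hv; exact lt_irrefl _ hv
  rcases eq_or_ne (β v) 0 with h1 | h1
  · rw [h1, mul_zero, v.ord_zero] at hv; exact lt_irrefl _ hv
  rw [v.ord_mul h0 h1] at hv
  omega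

/-- **L4.0**: the repartitions are exactly the families with finitely many poles. -/
theorem mem_repartitions_iff [HasPrincipalDivisors K F] {α : Place K F → F} :
    α ∈ repartitions K F ↔ {v : Place K F | v.ord (α v) < 0}.Finite := by
  refine ⟨fun h => ?_, mem_repartitions_of_finite_ord⟩
  unfold repartitions at h
  induction h using Algebra.adjoin_induction with
  | mem x hx =>
    have hx' : {v : Place K F | ¬v.adicValuation (x v) ≤ 1}.Finite := hx
    rwa [show {v : Place K F | ¬v.adicValuation (x v) ≤ 1}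
        = {v : Place K F | v.ord (x v) < 0} from
      Set.ext fun v => v.not_adicValuation_le_one_iff] at hx'
  | algebraMap r => exact finite_poles_const r
  | add x y _ _ hx hy => exact (hx.union hy).subset (poles_add_subset x y)
  | mul x y _ _ hx hy => exact (hx.union hy).subset (poles_mul_subset x y)

end Fermat.Agent.Lib.RR.H653

end
end
-- ===== PACK-END Lib/RR/H653/MemRepartitions.lean

-- ===== PACK-BEGIN S37/H697/Relation.lean
section



/-!
# S37 (helper697): the Eichler–Shimura relation on divisors, from the Kronecker congruence for norms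

`r` a place reduction, `Tdiv = heckeDivBar = pushforwardAlong α ∘ pullbackAlong β` the Hecke
correspondence on divisors, `Φ = coeffSL N φ` (`φ` an automorphism of the residue field — the
Frobenius in the application).  If for every integral `y` the norm `Nm_α (β y)` is integral with
reduction `(Φ⁻¹ ȳ) ^ ℓ * Φ ȳ` (`KroneckerNorm`), then

  `r_* (Tdiv D) = Φ • r_* D + ℓ • Φ⁻¹ • r_* D`    for every divisor `D` of degree `0`.

No pointwise description of `Tdiv` or of `r` is used: the difference of the two sides kills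
principal divisors and is bounded, hence vanishes in degree zero by the Riemann bound.
-/

set_option autoImplicit false
set_option linter.style.haveILetI false

noncomputable section

open HahnSeries IntermediateField AlgebraicCurve ModularCurve

namespace Fermat.Agent.S37.H697

section AlongLemmas

variable {K F F' : Type*} [Field K] [Field F] [Field F'] [Algebra K F] [Algebra K F']

/-- The norm along an algebra homomorphism `φ : F → F'`. -/
def normAlong (φ : F →ₐ[K] F') : F' → F :=
  letI := algebraAlong φ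
  Algebra.norm F

theorem pullbackAlong_apply_eq_ord [HasPrincipalDivisors K F'] (φ : F →ₐ[K] F')
    (hφ : φ.toRingHom.IsIntegral) {f : F} {D : Divisor K F}
    (hD : ∀ v : Place K F, D v = v.ord f) (w : Place K F') :
    Divisor.pullbackAlong φ hφ D w = w.ord (φ f) := by
  letI := algebraAlong φ
  haveI := isScalarTower_along φ
  haveI := isIntegral_along φ hφ
  exact Divisor.pullback_apply_eq_ord hD w

theorem pushforwardAlong_apply_eq_ord (φ : F →ₐ[K] F') (hφ : φ.toRingHom.IsIntegral)
    (hfin : FiniteAlong K φ) (hN : NormFormulaAlong K φ hfin) {f : F'} (hf : f ≠ 0)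
    {D : Divisor K F'} (hD : ∀ w : Place K F', D w = w.ord f) (v : Place K F) :
    Divisor.pushforwardAlong φ hφ D v = v.ord (normAlong φ f) := by
  letI := algebraAlong φ
  haveI := isScalarTower_along φ
  haveI := isIntegral_along φ hφ
  haveI : Module.Finite F F' := hfin
  exact hN f hf D hD v

theorem normAlong_ne_zero (φ : F →ₐ[K] F') (hfin : FiniteAlong K φ) {f : F'} (hf : f ≠ 0) :
    normAlong φ f ≠ 0 := by
  letI := algebraAlong φ
  haveI : Module.Finite F F' := hfin
  exact Algebra.norm_ne_zero_iff.mpr hf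

end AlongLemmas

section Relation

variable {L : Type*} [Field L] [Algebra ℚ L] {A : ValuationSubring L}
variable {k : Type*} [Field k] {π : A →+* k} {N ℓ : ℕ} [NeZero N] [NeZero ℓ]

/-- **Kronecker congruence for norms** (hypothesis of the relation): for every integral `y` with
nonzero reduction `ȳ`, the norm of `β y = y(q^ℓ)` along `α` is integral, with reduction
`(Φ⁻¹ ȳ) ^ ℓ * Φ ȳ`. -/
def KroneckerNorm (A : ValuationSubring L) (π : A →+* k) (N ℓ : ℕ) [NeZero N] [NeZero ℓ]
    (φ : k ≃+* k) : Prop :=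
  ∀ (y : LaurentSeries A)
    (hy : coeffMap A.subtype y ∈ laurentBaseChange L (modularFunctionFieldFull N)),
    coeffMap π y ∈ modularFunctionFieldFullC k N → coeffMap π y ≠ 0 →
    ∃ (z : LaurentSeries A)
      (hz : coeffMap A.subtype z ∈ laurentBaseChange L (modularFunctionFieldFull N)),
      normAlong (heckeAlphaBar L N ℓ) (heckeBetaBar L N ℓ ⟨coeffMap A.subtype y, hy⟩)
          = ⟨coeffMap A.subtype z, hz⟩ ∧
        coeffMap π z = (coeffMap (φ.symm : k →+* k) (coeffMap π y)) ^ ℓ
          * coeffMap (φ : k →+* k) (coeffMap π y)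

variable (hα : HeckeAlphaBarIntegral L N ℓ) (hβ : HeckeBetaBarIntegral L N ℓ)
variable [HasPrincipalDivisors L (laurentBaseChange L (modularFunctionFieldFull (N * ℓ)))]

/-- The relation on integral principal divisors. -/
theorem relation_integral
    {r : Place L (laurentBaseChange L (modularFunctionFieldFull N)) →
      Place k (modularFunctionFieldFullC k N)}
    (hr : IsPlaceReductionAlong A π N r)
    (hfin : FiniteAlong L (heckeAlphaBar L N ℓ))
    (hN : NormFormulaAlong L (heckeAlphaBar L N ℓ) hfin)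
    (φ : k ≃+* k) (hK : KroneckerNorm A π N ℓ φ)
    {D : Divisor L (laurentBaseChange L (modularFunctionFieldFull N))}
    (hD : D ∈ integralPrincipalDivisors A π N) :
    Finsupp.mapDomain r (heckeDivBar hα hβ D)
      = coeffSL N φ • Finsupp.mapDomain r D
        + ℓ • ((coeffSL N φ)⁻¹ • Finsupp.mapDomain r D) := by
  obtain ⟨y, hy, hyk, hne, hDy⟩ := hD
  set Φ := coeffSL N φ with hΦ
  obtain ⟨z, hz, hnorm, hzred⟩ := hK y hy hyk hne
  -- the reduction of `y`
  set ybar : modularFunctionFieldFullC k N := ⟨coeffMap π y, hyk⟩ with hybar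
  have hybar0 : ybar ≠ 0 := fun h => hne (congrArg Subtype.val h)
  have hΦy0 : Φ • ybar ≠ 0 := by simpa using hybar0
  have hΦiy0 : Φ⁻¹ • ybar ≠ 0 := by simpa using hybar0
  -- the reduction of `z`
  have hzk_eq : coeffMap π z = (((Φ⁻¹ • ybar) ^ ℓ * (Φ • ybar) :
      modularFunctionFieldFullC k N) : LaurentSeries k) := by
    rw [hzred]
    rfl
  have hzk : coeffMap π z ∈ modularFunctionFieldFullC k N := by
    rw [hzk_eq]; exact Subtype.property _
  have hzbar : (⟨coeffMap π z, hzk⟩ : modularFunctionFieldFullC k N)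
      = (Φ⁻¹ • ybar) ^ ℓ * (Φ • ybar) := Subtype.ext hzk_eq
  have hzne : coeffMap π z ≠ 0 := by
    intro h0
    have : ((Φ⁻¹ • ybar) ^ ℓ * (Φ • ybar) : modularFunctionFieldFullC k N) = 0 := by
      rw [← hzbar]; exact Subtype.ext h0
    exact mul_ne_zero (pow_ne_zero _ hΦiy0) hΦy0 this
  -- the divisor `Tdiv D` is the divisor of the norm
  have hy0 : (⟨coeffMap A.subtype y, hy⟩ : laurentBaseChange L (modularFunctionFieldFull N)) ≠ 0 := by
    intro h0
    apply hne
    have h1 : coeffMap A.subtype y = 0 := congrArg Subtype.val h0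
    have h2 : y = 0 := by
      apply coeffMap_injective_of_injective A.subtype Subtype.val_injective
      rw [h1, map_zero]
    rw [h2, map_zero]
  have hβy0 : heckeBetaBar L N ℓ ⟨coeffMap A.subtype y, hy⟩ ≠ 0 := by
    simpa using hy0
  have hT : ∀ P, (heckeDivBar hα hβ D) P
      = P.ord (⟨coeffMap A.subtype z, hz⟩ : laurentBaseChange L (modularFunctionFieldFull N)) := by
    intro P
    show Divisor.pushforwardAlong (heckeAlphaBar L N ℓ) hα
      (Divisor.pullbackAlong (heckeBetaBar L N ℓ) hβ D) P = _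
    rw [pushforwardAlong_apply_eq_ord (heckeAlphaBar L N ℓ) hα hfin hN hβy0
        (fun w => pullbackAlong_apply_eq_ord (heckeBetaBar L N ℓ) hβ hDy w) P, hnorm]
  have key1 := hr.2 z hz hzk hzne (heckeDivBar hα hβ D) hT
  have key0 := hr.2 y hy hyk hne D hDy
  ext Q
  rw [key1 Q, Finsupp.add_apply, Finsupp.smul_apply, SemilinearAut.divisor_smul_apply,
    SemilinearAut.divisor_smul_apply, inv_inv, key0, key0, hzbar,
    Place.ord_mul _ (pow_ne_zero _ hΦiy0) hΦy0]
  have h1 : Q.ord ((Φ⁻¹ • ybar) ^ ℓ) = ℓ * Q.ord (Φ⁻¹ • ybar) := by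
    have := Q.ord_zpow (Φ⁻¹ • ybar) (ℓ : ℤ)
    rwa [zpow_natCast] at this
  have h2 : Q.ord (Φ⁻¹ • ybar) = (Φ • Q).ord ybar := by
    have := SemilinearAut.ord_smul Φ⁻¹ (Φ • Q) ybar
    rwa [inv_smul_smul] at this
  have h3 : Q.ord (Φ • ybar) = (Φ⁻¹ • Q).ord ybar := by
    have := SemilinearAut.ord_smul Φ (Φ⁻¹ • Q) ybar
    rwa [smul_inv_smul] at this
  rw [h1, h2, h3, nsmul_eq_mul]
  ring

/-- **Eichler–Shimura relation on divisors of degree zero.** -/
theorem relation_divisor
    {r : Place L (laurentBaseChange L (modularFunctionFieldFull N)) →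
      Place k (modularFunctionFieldFullC k N)}
    (hr : IsPlaceReductionAlong A π N r) (hgen : PrincipalGeneratedByIntegral A π N)
    (hR : RiemannBound L (laurentBaseChange L (modularFunctionFieldFull N)))
    (hfin : FiniteAlong L (heckeAlphaBar L N ℓ))
    (hN : NormFormulaAlong L (heckeAlphaBar L N ℓ) hfin)
    (φ : k ≃+* k) (hK : KroneckerNorm A π N ℓ φ)
    (C : ℕ) (hC : ∀ P : Place L (laurentBaseChange L (modularFunctionFieldFull N)),
      l1norm (heckeDivBar hα hβ (Finsupp.single P 1)) ≤ C)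
    (D : Divisor L (laurentBaseChange L (modularFunctionFieldFull N)))
    (hD : Divisor.degree D = 0) :
    Finsupp.mapDomain r (heckeDivBar hα hβ D)
      = coeffSL N φ • Finsupp.mapDomain r D
        + ℓ • ((coeffSL N φ)⁻¹ • Finsupp.mapDomain r D) := by
  classical
  set Φ := coeffSL N φ with hΦ
  set T := heckeDivBar (L := L) hα hβ with hTdef
  set δ : Divisor L (laurentBaseChange L (modularFunctionFieldFull N)) →+
      Divisor k (modularFunctionFieldFullC k N) :=
    (Finsupp.mapDomain.addMonoidHom r).comp T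
      - (DistribSMul.toAddMonoidHom (Divisor k (modularFunctionFieldFullC k N)) Φ
          + ℓ • DistribSMul.toAddMonoidHom (Divisor k (modularFunctionFieldFullC k N)) Φ⁻¹).comp
        (Finsupp.mapDomain.addMonoidHom r) with hδ
  have hδapp : ∀ E, δ E = Finsupp.mapDomain r (T E)
      - (Φ • Finsupp.mapDomain r E + ℓ • (Φ⁻¹ • Finsupp.mapDomain r E)) := fun E => rfl
  have hδprin : ∀ E ∈ Divisor.principal (K := L)
      (F := laurentBaseChange L (modularFunctionFieldFull N)), δ E = 0 := by
    intro E hE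
    have hE' := hgen hE
    clear hE
    induction hE' using AddSubgroup.closure_induction with
    | mem E hE => rw [hδapp, relation_integral hα hβ hr hfin hN φ hK hE, sub_self]
    | zero => exact map_zero δ
    | add E E' _ _ hE hE' => rw [map_add, hE, hE', add_zero]
    | neg E _ hE => rw [map_neg, hE, neg_zero]
  have hl1map : ∀ (E : Divisor L (laurentBaseChange L (modularFunctionFieldFull N))),
      l1norm (Finsupp.mapDomain r E) ≤ l1norm E := by
    intro E
    induction E using Finsupp.induction with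
    | zero => simp
    | single_add P n E hP hn ih =>
      rw [Finsupp.mapDomain_add, Finsupp.mapDomain_single]
      refine (l1norm_add_le _ _).trans ?_
      have : l1norm (Finsupp.single P n + E) = n.natAbs + l1norm E := by
        unfold l1norm
        rw [Finsupp.sum_add_index_of_disjoint]
        · simp
        · rw [Finset.disjoint_left]
          intro x hx hx'
          have : x = P := by
            have := Finsupp.support_single_subset hx
            simpa using this
          exact hP (this ▸ hx')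
      rw [this, l1norm_single]
      exact Nat.add_le_add_left ih _
  have hδC : ∀ P : Place L (laurentBaseChange L (modularFunctionFieldFull N)),
      l1norm (δ (Finsupp.single P 1)) ≤ C + (1 + ℓ) := by
    intro P
    rw [hδapp]
    refine (l1norm_sub_le _ _).trans (Nat.add_le_add ((hl1map _).trans (hC P)) ?_)
    rw [Finsupp.mapDomain_single, SemilinearAut.smul_single, SemilinearAut.smul_single,
      Finsupp.smul_single]
    refine (l1norm_add_le _ _).trans ?_
    rw [l1norm_single, l1norm_single]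
    simp
  have h0 := eq_zero_of_kills_principal hR δ hδprin _ hδC D hD
  rw [hδapp, sub_eq_zero] at h0
  exact h0

end Relation

end Fermat.Agent.S37.H697

end
end
-- ===== PACK-END S37/H697/Relation.lean

-- ===== PACK-BEGIN S37/H697/Pic0Level.lean
section


/-!
# S37 (helper697): equivariance and the Eichler–Shimura relation on `Pic⁰`

Consequences of `Equivariant.lean` / `Relation.lean` for the reduction map
`reductionPic0Along r hr hgen : Pic⁰(F_N ⊗ L) → Pic⁰(F_{N,k})`:

* `reductionPic0Along_galois_smul` : `red (σ • x) = Φ_φ • red x` if `σ` preserves `A` and induces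
  `φ` on the residue field (only a Riemann bound is used: no non-constancy, no degree hypotheses);
* `reductionPic0Along_hecke` : `red (T_ℓ x) = Φ • red x + ℓ • Φ⁻¹ • red x` from the Kronecker
  congruence for norms.
-/

set_option autoImplicit false
set_option linter.style.haveILetI false

noncomputable section

open HahnSeries IntermediateField AlgebraicCurve ModularCurve

namespace Fermat.Agent.S37.H697

section Equivariance

variable {L : Type*} [Field L] [Algebra ℚ L] {A : ValuationSubring L}
variable {k : Type*} [Field k] {π : A →+* k} {N : ℕ}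

/-- Equivariance on divisors of degree zero, from a Riemann bound only. -/
theorem mapDomain_smul_of_degree_eq_zero
    {r : Place L (laurentBaseChange L (modularFunctionFieldFull N)) →
      Place k (modularFunctionFieldFullC k N)}
    (hr : IsPlaceReductionAlong A π N r) (hgen : PrincipalGeneratedByIntegral A π N)
    (hR : RiemannBound L (laurentBaseChange L (modularFunctionFieldFull N)))
    (σ : L ≃ₐ[ℚ] L) (hσ : ∀ a ∈ A, σ a ∈ A)
    (φ : k ≃+* k) (hφ : ∀ a : A, π ⟨σ a, hσ a a.2⟩ = φ (π a))
    (D : Divisor L (laurentBaseChange L (modularFunctionFieldFull N)))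
    (hD : Divisor.degree D = 0) :
    Finsupp.mapDomain r (arithmeticGalois (modularFunctionFieldFull N) σ • D)
      = coeffSL N φ • Finsupp.mapDomain r D := by
  set g := arithmeticGalois (modularFunctionFieldFull N) σ with hg
  set Φ := coeffSL N φ with hΦ
  set r₂ : Place L (laurentBaseChange L (modularFunctionFieldFull N)) →
      Place k (modularFunctionFieldFullC k N) := fun P => Φ⁻¹ • r (g • P) with hr₂
  have hcomp : ∀ D : Divisor L (laurentBaseChange L (modularFunctionFieldFull N)),
      Finsupp.mapDomain r₂ D = Φ⁻¹ • Finsupp.mapDomain r (g • D) := by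
    intro D
    have : r₂ = (fun Q => Φ⁻¹ • Q) ∘ r ∘ (fun P => g • P) := rfl
    rw [this, Finsupp.mapDomain_comp, Finsupp.mapDomain_comp]
    rfl
  have hagree : ∀ D ∈ integralPrincipalDivisors A π N,
      Finsupp.mapDomain r D = Finsupp.mapDomain r₂ D := by
    intro D hD
    rw [hcomp, smul_integral_divisor hr σ hσ φ hφ hD, inv_smul_smul]
  have h := mapDomain_eq_of_agree hgen hagree hR D hD
  rw [hcomp] at h
  rw [h, smul_inv_smul]

/-- **Equivariance of the reduction map on `Pic⁰`.** -/
theorem reductionPic0Along_galois_smul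
    {r : Place L (laurentBaseChange L (modularFunctionFieldFull N)) →
      Place k (modularFunctionFieldFullC k N)}
    (hr : IsPlaceReductionAlong A π N r) (hgen : PrincipalGeneratedByIntegral A π N)
    (hR : RiemannBound L (laurentBaseChange L (modularFunctionFieldFull N)))
    (σ : L ≃ₐ[ℚ] L) (hσ : ∀ a ∈ A, σ a ∈ A)
    (φ : k ≃+* k) (hφ : ∀ a : A, π ⟨σ a, hσ a a.2⟩ = φ (π a))
    (x : Pic0 L (laurentBaseChange L (modularFunctionFieldFull N))) :
    reductionPic0Along r hr hgen (σ • x) = coeffSL N φ • reductionPic0Along r hr hgen x := by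
  obtain ⟨D, rfl⟩ := Pic0.mk_surjective x
  rw [galois_smul_pic0_def, SemilinearAut.pic0_smul_mk, reductionPic0Along_mk,
    reductionPic0Along_mk, SemilinearAut.pic0_smul_mk]
  refine congrArg Pic0.mk (Subtype.ext ?_)
  rw [coe_reductionDegZeroAlong, SemilinearAut.coe_degZeroSMulHom,
    SemilinearAut.coe_degZeroSMulHom, coe_reductionDegZeroAlong]
  exact mapDomain_smul_of_degree_eq_zero hr hgen hR σ hσ φ hφ _ (Divisor.mem_degZero.mp D.2)

end Equivariance

section Hecke

variable {L : Type*} [Field L] [Algebra ℚ L] {A : ValuationSubring L}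
variable {k : Type*} [Field k] {π : A →+* k} {N ℓ : ℕ} [NeZero N] [NeZero ℓ]
variable (hα : HeckeAlphaBarIntegral L N ℓ) (hβ : HeckeBetaBarIntegral L N ℓ)
variable [HasPrincipalDivisors L (laurentBaseChange L (modularFunctionFieldFull (N * ℓ)))]

/-- **Eichler–Shimura relation on `Pic⁰`.** -/
theorem reductionPic0Along_hecke
    {r : Place L (laurentBaseChange L (modularFunctionFieldFull N)) →
      Place k (modularFunctionFieldFullC k N)}
    (hr : IsPlaceReductionAlong A π N r) (hgen : PrincipalGeneratedByIntegral A π N)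
    (hR : RiemannBound L (laurentBaseChange L (modularFunctionFieldFull N)))
    (hFI : FundamentalIdentityAlong L (heckeBetaBar L N ℓ) hβ)
    (hfin : FiniteAlong L (heckeAlphaBar L N ℓ))
    (hN : NormFormulaAlong L (heckeAlphaBar L N ℓ) hfin)
    (φ : k ≃+* k) (hK : KroneckerNorm A π N ℓ φ)
    (C : ℕ) (hC : ∀ P : Place L (laurentBaseChange L (modularFunctionFieldFull N)),
      l1norm (heckeDivBar hα hβ (Finsupp.single P 1)) ≤ C)
    (x : Pic0 L (laurentBaseChange L (modularFunctionFieldFull N))) :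
    reductionPic0Along r hr hgen (heckePic0Bar hα hβ hFI hfin hN x)
      = coeffSL N φ • reductionPic0Along r hr hgen x
        + ℓ • ((coeffSL N φ)⁻¹ • reductionPic0Along r hr hgen x) := by
  obtain ⟨D, rfl⟩ := Pic0.mk_surjective x
  have h1 : heckePic0Bar hα hβ hFI hfin hN (Pic0.mk D)
      = Pic0.mk (Pic0.degZeroCorrespondence (heckeBetaBar L N ℓ) (heckeAlphaBar L N ℓ) hβ hα hFI D) :=
    rfl
  have hmk : ∀ (n : ℕ) (E : Divisor.degZero (K := k) (F := modularFunctionFieldFullC k N)),
      n • Pic0.mk E = Pic0.mk (n • E) := fun n E => (QuotientAddGroup.mk_nsmul _ E n).symm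
  rw [h1, reductionPic0Along_mk, reductionPic0Along_mk, SemilinearAut.pic0_smul_mk,
    SemilinearAut.pic0_smul_mk, hmk, ← Pic0.mk_add]
  refine congrArg Pic0.mk (Subtype.ext ?_)
  exact relation_divisor hα hβ hr hgen hR hfin hN φ hK C hC D (Divisor.mem_degZero.mp D.2)

end Hecke

end Fermat.Agent.S37.H697

end
end
-- ===== PACK-END S37/H697/Pic0Level.lean

-- ===== PACK-BEGIN S37/H697/HeckeBound.lean
section


/-!
# S37 (helper697): the Hecke correspondence is bounded on prime divisors

If all places of `F_N ⊗ L` have degree one, then `T (P)` is an effective divisor of degree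
`[F_{Nℓ} : β F_N]`, hence of `ℓ¹`-norm `[F_{Nℓ} : β F_N]`.  This discharges the boundedness
hypothesis `hC` of `relation_divisor`.
-/

set_option autoImplicit false
set_option linter.style.haveILetI false

noncomputable section

open HahnSeries IntermediateField AlgebraicCurve ModularCurve

namespace Fermat.Agent.S37.H697

section General

variable {K F F' : Type*} [Field K] [Field F] [Field F'] [Algebra K F] [Algebra K F']

theorem l1norm_eq_degree_of_nonneg (hdeg : ∀ v : Place K F, v.deg = 1) (D : Divisor K F)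
    (hD : ∀ v, 0 ≤ D v) : (l1norm D : ℤ) = Divisor.degree D := by
  unfold l1norm Divisor.degree
  rw [Finsupp.liftAddHom_apply, Finsupp.sum, Finsupp.sum, Nat.cast_sum]
  refine Finset.sum_congr rfl fun v _ => ?_
  rw [AddMonoidHom.mulRight_apply, hdeg v, Nat.cast_one, mul_one]
  exact Int.natAbs_of_nonneg (hD v)

theorem pullbackAlong_nonneg [HasPrincipalDivisors K F'] (φ : F →ₐ[K] F')
    (hφ : φ.toRingHom.IsIntegral) (D : Divisor K F) (hD : ∀ v, 0 ≤ D v) (w : Place K F') :
    0 ≤ Divisor.pullbackAlong φ hφ D w := by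
  letI := algebraAlong φ
  haveI := isScalarTower_along φ
  haveI := isIntegral_along φ hφ
  show 0 ≤ Divisor.pullback F' D w
  rw [Divisor.pullback_apply]
  exact mul_nonneg (Int.natCast_nonneg _) (hD _)

theorem pushforwardAlong_nonneg (φ : F →ₐ[K] F')
    (hφ : φ.toRingHom.IsIntegral) (D : Divisor K F') (hD : ∀ w, 0 ≤ D w) (v : Place K F) :
    0 ≤ Divisor.pushforwardAlong φ hφ D v := by
  classical
  letI := algebraAlong φ
  haveI := isScalarTower_along φ
  haveI := isIntegral_along φ hφ
  show 0 ≤ Divisor.pushforward F D v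
  rw [Divisor.pushforward_apply]
  refine Finset.sum_nonneg fun w _ => ?_
  split_ifs
  · exact mul_nonneg (hD w) (Int.natCast_nonneg _)
  · exact le_rfl

end General

section Hecke

variable {L : Type*} [Field L] [Algebra ℚ L] {N ℓ : ℕ} [NeZero N] [NeZero ℓ]
variable (hα : HeckeAlphaBarIntegral L N ℓ) (hβ : HeckeBetaBarIntegral L N ℓ)
variable [HasPrincipalDivisors L (laurentBaseChange L (modularFunctionFieldFull (N * ℓ)))]

/-- `T (P)` has `ℓ¹`-norm `[F_{Nℓ} : β F_N]`. -/
theorem l1norm_heckeDivBar_single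
    (hdeg : ∀ P : Place L (laurentBaseChange L (modularFunctionFieldFull N)), P.deg = 1)
    (hFI : FundamentalIdentityAlong L (heckeBetaBar L N ℓ) hβ)
    (P : Place L (laurentBaseChange L (modularFunctionFieldFull N))) :
    l1norm (heckeDivBar hα hβ (Finsupp.single P 1)) = finrankAlong L (heckeBetaBar L N ℓ) := by
  classical
  have hnn : ∀ v, 0 ≤ heckeDivBar hα hβ (Finsupp.single P 1) v := by
    intro v
    refine pushforwardAlong_nonneg (heckeAlphaBar L N ℓ) hα _ (fun w => ?_) v
    refine pullbackAlong_nonneg (heckeBetaBar L N ℓ) hβ _ (fun u => ?_) w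
    rw [Finsupp.single_apply]
    split_ifs <;> norm_num
  have h1 := l1norm_eq_degree_of_nonneg hdeg _ hnn
  have h2 : Divisor.degree (heckeDivBar hα hβ (Finsupp.single P 1))
      = (finrankAlong L (heckeBetaBar L N ℓ) : ℤ) * Divisor.degree (Finsupp.single P (1 : ℤ)) :=
    Divisor.degree_correspondence (heckeBetaBar L N ℓ) (heckeAlphaBar L N ℓ) hβ hα hFI _
  rw [h2, Divisor.degree_single, hdeg P, Nat.cast_one, mul_one, mul_one] at h1
  exact_mod_cast h1

end Hecke

end Fermat.Agent.S37.H697

end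
end
-- ===== PACK-END S37/H697/HeckeBound.lean

-- ===== PACK-BEGIN S37/H159/MOrder.lean
section



/-!
# Theorem M, part 3: the order `T = ρ(O ∩ B_η)` of the special fibre
(row S37, piece R-b; seat helper159)

`B_η` = integral closure of `K[x]` in `F`, `B = O ∩ B_η`, `T = ρ(B) ⊆ F_k`.
`T` is a `k[X]`-subalgebra of `F_k`, integral over `k[X]`, with fraction field `F_k`, finite free
of rank `n = [F_k : k(x̄)]` over `k[X]`.
-/

set_option autoImplicit false
set_option linter.unusedSectionVars false
set_option linter.style.haveILetI false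

namespace Fermat.Agent.S37.H159

open Polynomial

namespace RedCtx

variable {K : Type*} [Field K] {A : ValuationSubring K} {k : Type*} [Field k]
  {F : Type*} [Field F] [Algebra K[X] F] {Fk : Type*} [Field Fk] [Algebra k[X] Fk]
  (G : RedCtx A k F Fk)

/-- `B = O ∩ B_η` as a subring of `O`. -/
noncomputable def Bsub : Subring G.O := (integralClosure K[X] F).toSubring.comap G.O.subtype

theorem mem_Bsub (f : G.O) : f ∈ G.Bsub ↔ IsIntegral K[X] (f : F) := Iff.rfl

/-- the order `T = ρ(B)` of the special fibre -/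
noncomputable def Tk : Subalgebra k[X] Fk :=
  { (G.Bsub.map G.ρ).toSubsemiring with
    algebraMap_mem' := fun p => by
      obtain ⟨P, rfl⟩ := Polynomial.map_surjective G.π G.π_surj p
      exact ⟨G.polyO P, (isIntegral_algebraMap : IsIntegral K[X] (algebraMap K[X] F _)),
        G.ρ_polyO P⟩ }

theorem mem_Tk (z : Fk) : z ∈ G.Tk ↔ ∃ f : G.O, IsIntegral K[X] (f : F) ∧ G.ρ f = z :=
  Iff.rfl

theorem ρ_mem_Tk (f : G.O) (hf : IsIntegral K[X] (f : F)) : G.ρ f ∈ G.Tk := ⟨f, hf, rfl⟩

section Rational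

variable (L₀ : Type*) [Field L₀] [Algebra K[X] L₀] [IsFractionRing K[X] L₀] [Algebra L₀ F]
  [IsScalarTower K[X] L₀ F] [FiniteDimensional L₀ F]
variable (L₀k : Type*) [Field L₀k] [Algebra k[X] L₀k] [IsFractionRing k[X] L₀k] [Algebra L₀k Fk]
  [IsScalarTower k[X] L₀k Fk] [FiniteDimensional L₀k Fk]

/-- `T` is contained in the integral closure of `k[x̄]`. -/
theorem Tk_le (hdeg : Module.finrank L₀ F = Module.finrank L₀k Fk) :
    G.Tk ≤ integralClosure k[X] Fk := by
  rintro z ⟨f, hf, rfl⟩
  exact G.isIntegral_ρ L₀ L₀k hdeg f hf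

theorem isIntegral_Tk (hdeg : Module.finrank L₀ F = Module.finrank L₀k Fk) :
    Algebra.IsIntegral k[X] G.Tk := by
  refine ⟨fun z => ?_⟩
  have h := G.Tk_le L₀ L₀k hdeg z.2
  exact (isIntegral_algebraMap_iff (A := G.Tk) (B := Fk) (R := k[X])
    Subtype.coe_injective).mp h

include L₀ L₀k in
/-- Every element of `F_k` is a quotient of two elements of `T`, the denominator being the
image of a nonzero polynomial. -/
theorem exists_eq_div (z : Fk) :
    ∃ (t : G.Tk) (s : k[X]), s ≠ 0 ∧ z * algebraMap k[X] Fk s = t := by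
  classical
  have hinj := algebraMap_injective_k (k := k) (Fk := Fk) L₀k
  obtain ⟨g, rfl⟩ := G.ρ_surj z
  have hgint : IsIntegral L₀ (g : F) := Algebra.IsIntegral.isIntegral _
  obtain ⟨⟨P, hPmem⟩, hP⟩ :=
    IsIntegral.exists_multiple_integral_of_isLocalization (nonZeroDivisors K[X]) (g : F) hgint
  have hP0 : P ≠ 0 := nonZeroDivisors.ne_zero hPmem
  have hP' : IsIntegral K[X] (algebraMap K[X] F P * (g : F)) := by
    have : (⟨P, hPmem⟩ : nonZeroDivisors K[X]) • (g : F) = algebraMap K[X] F P * (g : F) := by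
      rw [Submonoid.smul_def, Algebra.smul_def]
    rwa [this] at hP
  obtain ⟨lam, P₀, m, hlam, hm, hPeq⟩ := exists_primitive A P hP0
  have hne := G.map_π_ne_zero_of_coeff_eq_one P₀ m hm
  -- `P₀(x) * g` is integral over `K[x]`
  have hint : IsIntegral K[X] (algebraMap K[X] F (P₀.map A.subtype) * (g : F)) := by
    have h1 : algebraMap K[X] F (P₀.map A.subtype) * (g : F) =
        algebraMap K[X] F (C lam⁻¹) * (algebraMap K[X] F P * (g : F)) := by
      rw [hPeq, map_mul, ← mul_assoc, ← mul_assoc, ← map_mul, ← C_mul, inv_mul_cancel₀ hlam,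
        C_1, map_one, one_mul]
    rw [h1]
    exact isIntegral_algebraMap.mul hP'
  refine ⟨⟨G.ρ (G.polyO P₀ * g), G.ρ_mem_Tk _ hint⟩, P₀.map G.π, hne, ?_⟩
  show G.ρ g * algebraMap k[X] Fk (P₀.map G.π) = G.ρ (G.polyO P₀ * g)
  rw [map_mul, G.ρ_polyO, mul_comm]

instance instFaithfulSMul_Tk : FaithfulSMul G.Tk Fk :=
  (faithfulSMul_iff_algebraMap_injective _ _).mpr Subtype.coe_injective

include L₀ L₀k in
theorem isFractionRing_Tk : IsFractionRing G.Tk Fk := by
  refine IsFractionRing.of_field (R := G.Tk) Fk fun z => ?_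
  have hinj := algebraMap_injective_k (k := k) (Fk := Fk) L₀k
  obtain ⟨t, s, hs, hz⟩ := G.exists_eq_div L₀ L₀k z
  refine ⟨t, algebraMap k[X] G.Tk s, ?_⟩
  have hs' : algebraMap k[X] Fk s ≠ 0 := fun h0 => hs (hinj (by rw [h0, map_zero]))
  have e : algebraMap G.Tk Fk (algebraMap k[X] G.Tk s) = algebraMap k[X] Fk s := rfl
  rw [e, eq_div_iff hs', hz]
  rfl

variable [Algebra.IsSeparable L₀k Fk]

theorem finite_Tk (hdeg : Module.finrank L₀ F = Module.finrank L₀k Fk) :
    Module.Finite k[X] G.Tk := by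
  have hN : IsNoetherian k[X] (integralClosure k[X] Fk) :=
    IsIntegralClosure.isNoetherian k[X] L₀k Fk (integralClosure k[X] Fk)
  have hle := G.Tk_le L₀ L₀k hdeg
  exact Module.Finite.of_injective (Subalgebra.inclusion hle).toLinearMap
    (Subalgebra.inclusion_injective hle)

include L₀ in
theorem finrank_Tk : Module.finrank k[X] G.Tk = Module.finrank L₀k Fk := by
  haveI := G.isFractionRing_Tk L₀ L₀k
  exact (IsFractionRing.finrank_eq k[X] L₀k G.Tk Fk).symm

include L₀k in
theorem algebraMap_Tk_injective : Function.Injective (algebraMap k[X] G.Tk) := by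
  intro p q hpq
  apply algebraMap_injective_k (k := k) (Fk := Fk) L₀k
  exact congrArg (fun z : G.Tk => (z : Fk)) hpq

include L₀k in
theorem isTorsionFree_Tk : Module.IsTorsionFree k[X] G.Tk :=
  Module.isTorsionFree_iff_algebraMap_injective.mpr (G.algebraMap_Tk_injective L₀k)

/-- A `k[X]`-basis `b` of `T`, together with lifts `y i ∈ B` of the `b i` forming a residually
independent `K(x)`-basis of `F`, and the `k(x̄)`-basis `bk` of `F_k` underlying `b`. -/
theorem exists_basis_Tk (hdeg : Module.finrank L₀ F = Module.finrank L₀k Fk) :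
    ∃ (b : Module.Basis (Fin (Module.finrank L₀k Fk)) k[X] G.Tk)
      (y : Module.Basis (Fin (Module.finrank L₀k Fk)) L₀ F)
      (bk : Module.Basis (Fin (Module.finrank L₀k Fk)) L₀k Fk),
      (∀ i, IsIntegral K[X] (y i)) ∧ H217.ResidIndep (G.V₀ L₀) G.O y ∧
      (∀ i, bk i = (b i : Fk)) ∧ ∃ hyO : ∀ i, y i ∈ G.O, ∀ i, G.ρ ⟨y i, hyO i⟩ = (b i : Fk) := by
  classical
  set n := Module.finrank L₀k Fk with hn
  have hpos : 0 < n := Module.finrank_pos
  have : Nonempty (Fin n) := ⟨⟨0, hpos⟩⟩
  haveI := G.finite_Tk L₀ L₀k hdeg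
  haveI := G.isTorsionFree_Tk L₀k
  haveI : Module.Free k[X] G.Tk := inferInstance
  let b : Module.Basis (Fin n) k[X] G.Tk :=
    Module.finBasisOfFinrankEq k[X] G.Tk (G.finrank_Tk L₀ L₀k)
  -- lifts
  choose u hu using fun i => (G.mem_Tk (b i : Fk)).mp (b i).2
  let y : Fin n → F := fun i => (u i : F)
  have hy : ∀ i, y i ∈ G.O := fun i => (u i).2
  have hρ : ∀ i, G.ρ ⟨y i, hy i⟩ = (b i : Fk) := fun i => (hu i).2
  -- linear independence over `k(x̄)`
  have hli0 : LinearIndependent k[X] (fun i => ((b i : G.Tk) : Fk)) := by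
    have h1 := b.linearIndependent
    have h2 := h1.map' (IsScalarTower.toAlgHom k[X] G.Tk Fk).toLinearMap
      (LinearMap.ker_eq_bot.mpr Subtype.coe_injective)
    exact h2
  have hli : LinearIndependent L₀k (fun i => ((b i : G.Tk) : Fk)) :=
    (LinearIndependent.iff_fractionRing k[X] L₀k).mp hli0
  let bk : Module.Basis (Fin n) L₀k Fk :=
    basisOfLinearIndependentOfCardEqFinrank hli (by rw [Fintype.card_fin])
  have hbk : ∀ i, bk i = (b i : Fk) := fun i => by
    show basisOfLinearIndependentOfCardEqFinrank hli _ i = _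
    rw [coe_basisOfLinearIndependentOfCardEqFinrank]
  have hli' : LinearIndependent L₀k (fun i => G.ρ ⟨y i, hy i⟩) := by
    have : (fun i => G.ρ ⟨y i, hy i⟩) = fun i => ((b i : G.Tk) : Fk) := funext hρ
    rw [this]
    exact hli
  have hR := G.residIndep_of_linearIndependent L₀ L₀k y hy hli'
  obtain ⟨yb, hyb⟩ := H217.exists_basis_of_residIndep hR (by rw [Fintype.card_fin, hdeg])
  refine ⟨b, yb, bk, fun i => ?_, ?_, hbk, fun i => ?_, fun i => ?_⟩
  · rw [hyb]; exact (hu i).1
  · rw [hyb]; exact hR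
  · rw [hyb]; exact hy i
  · simp only [hyb]; exact hρ i

end Rational

end RedCtx

end Fermat.Agent.S37.H159

end
-- ===== PACK-END S37/H159/MOrder.lean

-- ===== PACK-BEGIN S37/H159/MDiscr.lean
section



/-!
# Theorem M, part 4: traces and discriminants reduce
(row S37, piece R-b; seat helper159)

For `f ∈ B = O ∩ B_η` the trace `Tr_{B_η/K[x]} f` is a polynomial with coefficients in `A` whose
reduction is `Tr_{T/k[x̄]} (ρ f)`.  Consequently the discriminant of a lifted basis is a polynomial
`D ∈ A[X]` reducing to the discriminant of the basis of `T`.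
-/

set_option autoImplicit false
set_option linter.unusedSectionVars false
set_option linter.style.haveILetI false

namespace Fermat.Agent.S37.H159

open Polynomial

theorem isSeparable_of_charZero (K : Type*) [Field K] [CharZero K] (L₀ F : Type*) [Field L₀]
    [Field F] [Algebra K[X] L₀] [IsFractionRing K[X] L₀] [Algebra L₀ F]
    [FiniteDimensional L₀ F] : Algebra.IsSeparable L₀ F := by
  haveI : CharZero L₀ := charZero_of_injective_algebraMap (IsFractionRing.injective K[X] L₀)
  exact Algebra.IsSeparable.of_integral L₀ F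

namespace RedCtx

variable {K : Type*} [Field K] [CharZero K] {A : ValuationSubring K} {k : Type*} [Field k]
  {F : Type*} [Field F] [Algebra K[X] F] {Fk : Type*} [Field Fk] [Algebra k[X] Fk]
  (G : RedCtx A k F Fk)

variable (L₀ : Type*) [Field L₀] [Algebra K[X] L₀] [IsFractionRing K[X] L₀] [Algebra L₀ F]
  [IsScalarTower K[X] L₀ F] [FiniteDimensional L₀ F]
variable (L₀k : Type*) [Field L₀k] [Algebra k[X] L₀k] [IsFractionRing k[X] L₀k] [Algebra L₀k Fk]
  [IsScalarTower k[X] L₀k Fk] [FiniteDimensional L₀k Fk] [Algebra.IsSeparable L₀k Fk]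

include L₀ in
theorem algebraMap_injective_K : Function.Injective (algebraMap K[X] F) := by
  rw [IsScalarTower.algebraMap_eq K[X] L₀ F]
  exact (algebraMap L₀ F).injective.comp (IsFractionRing.injective K[X] L₀)

include L₀ in
theorem isTorsionFree_F : Module.IsTorsionFree K[X] F :=
  Module.isTorsionFree_iff_algebraMap_injective.mpr (algebraMap_injective_K (F := F) L₀)

include L₀ in
theorem finite_Tη : Module.Finite K[X] (integralClosure K[X] F) := by
  haveI := isSeparable_of_charZero K L₀ F
  exact IsIntegralClosure.finite K[X] L₀ F (integralClosure K[X] F)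

include L₀ in
theorem free_Tη : Module.Free K[X] (integralClosure K[X] F) := by
  haveI := isSeparable_of_charZero K L₀ F
  haveI := isTorsionFree_F (K := K) (F := F) L₀
  exact IsIntegralClosure.module_free K[X] L₀ F (integralClosure K[X] F)

include L₀ in
theorem finrank_Tη : Module.finrank K[X] (integralClosure K[X] F) = Module.finrank L₀ F := by
  haveI := isSeparable_of_charZero K L₀ F
  haveI := isTorsionFree_F (K := K) (F := F) L₀
  exact IsIntegralClosure.rank K[X] L₀ F (integralClosure K[X] F)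

/-- Trace of `B_η / K[x]` versus trace of `F / K(x)`. -/
theorem algebraMap_trace_Tη (f : integralClosure K[X] F) :
    algebraMap K[X] L₀ (Algebra.trace K[X] (integralClosure K[X] F) f) =
      Algebra.trace L₀ F (f : F) := by
  haveI := finite_Tη (K := K) (F := F) L₀
  haveI := free_Tη (K := K) (F := F) L₀
  haveI : IsLocalization (Algebra.algebraMapSubmonoid (integralClosure K[X] F)
      (nonZeroDivisors K[X])) F :=
    IsIntegralClosure.isLocalization K[X] L₀ F (integralClosure K[X] F)
  exact (Algebra.trace_localization K[X] (nonZeroDivisors K[X]) (Rₘ := L₀) (Sₘ := F) f).symm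

/-- Trace of `T / k[x̄]` versus trace of `F_k / k(x̄)`. -/
theorem algebraMap_trace_Tk (hdeg : Module.finrank L₀ F = Module.finrank L₀k Fk) (t : G.Tk) :
    algebraMap k[X] L₀k (Algebra.trace k[X] G.Tk t) = Algebra.trace L₀k Fk (t : Fk) := by
  haveI := G.finite_Tk L₀ L₀k hdeg
  haveI := G.isTorsionFree_Tk L₀k
  haveI : Module.Free k[X] G.Tk := inferInstance
  haveI := G.isFractionRing_Tk L₀ L₀k
  haveI := G.isIntegral_Tk L₀ L₀k hdeg
  haveI : FaithfulSMul k[X] G.Tk :=
    (faithfulSMul_iff_algebraMap_injective _ _).mpr (G.algebraMap_Tk_injective L₀k)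
  haveI : IsLocalization (Algebra.algebraMapSubmonoid G.Tk (nonZeroDivisors k[X])) Fk :=
    inferInstance
  exact (Algebra.trace_localization k[X] (nonZeroDivisors k[X]) (Rₘ := L₀k) (Sₘ := Fk) t).symm

variable {n : ℕ} (y : Module.Basis (Fin n) L₀ F) (hyO : ∀ i, y i ∈ G.O)
  (hR : H217.ResidIndep (G.V₀ L₀) G.O y) (bk : Module.Basis (Fin n) L₀k Fk)
  (hρy : ∀ i, G.ρ ⟨y i, hyO i⟩ = bk i)

include y hyO hR bk hρy in
/-- **Traces reduce.** -/
theorem exists_trace_lift (hdeg : Module.finrank L₀ F = Module.finrank L₀k Fk)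
    (f : G.O) (hf : IsIntegral K[X] (f : F)) :
    ∃ P₁ : A[X], P₁.map A.subtype = Algebra.trace K[X] (integralClosure K[X] F) ⟨f, hf⟩ ∧
      P₁.map G.π = Algebra.trace k[X] G.Tk ⟨G.ρ f, G.ρ_mem_Tk f hf⟩ := by
  classical
  have hext := G.valExtends L₀
  -- the trace over `K(x)` lies in the Gauss ring
  have h1 : Algebra.trace L₀ F (f : F) = ((H217.intMatrix hext y hR hyO f).trace : L₀) :=
    H217.trace_eq_trace_intMatrix hext y hR hyO f
  have h2 := algebraMap_trace_Tη (K := K) (F := F) L₀ ⟨f, hf⟩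
  have h3 : algebraMap K[X] L₀ (Algebra.trace K[X] (integralClosure K[X] F) ⟨f, hf⟩) ∈ G.V₀ L₀ := by
    rw [h2, h1]
    exact Subtype.property _
  obtain ⟨P₁, hP₁⟩ := G.exists_map_eq_of_mem_V₀ L₀ L₀k _ h3
  refine ⟨P₁, hP₁, ?_⟩
  -- reduction
  have h4 : G.ρ₀ L₀ L₀k (H217.intMatrix hext y hR hyO f).trace = Algebra.trace L₀k Fk (G.ρ f) :=
    H217.map_trace_intMatrix_eq_trace_map hext y hR hyO (G.ρ₀ L₀ L₀k) G.ρ
      (fun a => G.ρ_algebraMap L₀ L₀k a) bk hρy f
  have h5 : (H217.intMatrix hext y hR hyO f).trace = ⟨_, G.poly_mem_V₀ L₀ P₁⟩ := by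
    apply Subtype.ext
    show ((H217.intMatrix hext y hR hyO f).trace : L₀) = algebraMap K[X] L₀ (P₁.map A.subtype)
    rw [hP₁, h2, h1]
  rw [h5, G.ρ₀_poly] at h4
  have h6 := G.algebraMap_trace_Tk L₀ L₀k hdeg ⟨G.ρ f, G.ρ_mem_Tk f hf⟩
  apply IsFractionRing.injective k[X] L₀k
  rw [h4, h6]

variable (b : Module.Basis (Fin n) k[X] G.Tk) (hb : ∀ i, bk i = (b i : Fk))

include L₀ bk hb in
/-- The discriminant of the basis of `T` is nonzero (separability). -/
theorem discr_Tk_ne_zero (hdeg : Module.finrank L₀ F = Module.finrank L₀k Fk) :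
    Algebra.discr k[X] b ≠ 0 := by
  classical
  intro h0
  apply Algebra.discr_not_zero_of_basis L₀k bk
  have h1 : Algebra.traceMatrix L₀k bk =
      (Algebra.traceMatrix k[X] b).map (algebraMap k[X] L₀k) := by
    ext i j
    rw [Matrix.map_apply, Algebra.traceMatrix_apply, Algebra.traceMatrix_apply,
      Algebra.traceForm_apply, Algebra.traceForm_apply, G.algebraMap_trace_Tk L₀ L₀k hdeg,
      hb, hb]
    rfl
  rw [Algebra.discr_def, h1, ← RingHom.mapMatrix_apply, ← RingHom.map_det, ← Algebra.discr_def,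
    h0, map_zero]

include y hyO hR bk hρy hb in
/-- **The discriminant reduces.** -/
theorem exists_discr_lift (hdeg : Module.finrank L₀ F = Module.finrank L₀k Fk)
    (hyint : ∀ i, IsIntegral K[X] (y i)) :
    ∃ D : A[X],
      D.map A.subtype =
        Algebra.discr K[X] (fun i => (⟨y i, hyint i⟩ : integralClosure K[X] F)) ∧
      D.map G.π = Algebra.discr k[X] b := by
  classical
  let u : Fin n → G.O := fun i => ⟨y i, hyO i⟩
  have hu : ∀ i j, IsIntegral K[X] ((u i * u j : G.O) : F) := fun i j =>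
    (hyint i).mul (hyint j)
  choose P hP1 hP2 using fun i j =>
    G.exists_trace_lift L₀ L₀k y hyO hR bk hρy hdeg (u i * u j) (hu i j)
  let M : Matrix (Fin n) (Fin n) A[X] := Matrix.of P
  refine ⟨M.det, ?_, ?_⟩
  · rw [← Polynomial.coe_mapRingHom, RingHom.map_det, Algebra.discr_def]
    congr 1
    ext1 i j
    rw [RingHom.mapMatrix_apply, Matrix.map_apply, Algebra.traceMatrix_apply,
      Algebra.traceForm_apply]
    show (P i j).map A.subtype = _
    rw [hP1]
    rfl
  · rw [← Polynomial.coe_mapRingHom, RingHom.map_det, Algebra.discr_def]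
    congr 1
    ext1 i j
    rw [RingHom.mapMatrix_apply, Matrix.map_apply, Algebra.traceMatrix_apply,
      Algebra.traceForm_apply]
    show (P i j).map G.π = _
    rw [hP2]
    congr 1
    apply Subtype.ext
    show G.ρ (u i * u j) = ((b i : G.Tk) : Fk) * ((b j : G.Tk) : Fk)
    rw [map_mul, ← hb, ← hb, ← hρy, ← hρy]

end RedCtx

end Fermat.Agent.S37.H159

end
-- ===== PACK-END S37/H159/MDiscr.lean

-- ===== PACK-BEGIN S37/H159/MLocal.lean
section




/-!
# Theorem M, part 5: specialisation of fibres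
(row S37, piece R-b; seat helper159)

`B_η` = integral closure of `K[x]` in `F`, `T = ρ(O ∩ B_η)`.  For `c ∈ A` with reduction `c̄`:
elements of `O ∩ B_η` lying in `(x - c) B_η` (resp. in its radical) reduce into `(x̄ - c̄) T`
(resp. its radical).  Hence lifts of families which are `k`-independent modulo `(x̄ - c̄) T`
(resp. its radical) are `K`-independent modulo `(x - c) B_η` (resp. its radical)
(`dvd_of_sum_smul_mem`).
-/

set_option autoImplicit false
set_option linter.unusedSectionVars false
set_option linter.style.haveILetI false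

namespace Fermat.Agent.S37.H159

open Polynomial

namespace RedCtx

variable {K : Type*} [Field K] {A : ValuationSubring K} {k : Type*} [Field k]
  {F : Type*} [Field F] [Algebra K[X] F] {Fk : Type*} [Field Fk] [Algebra k[X] Fk]
  (G : RedCtx A k F Fk)

/-- the `k`-algebra structure of `T` -/
noncomputable instance instAlgebraTk : Algebra k G.Tk :=
  ((algebraMap k[X] G.Tk).comp (C : k →+* k[X])).toAlgebra

instance instIsScalarTowerTk : IsScalarTower k k[X] G.Tk :=
  IsScalarTower.of_algebraMap_eq fun _ => rfl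

variable (hinj : Function.Injective (algebraMap k[X] Fk)) (c : A)

/-- `x - c` as an element of `O` -/
noncomputable def xsub : G.O := G.polyO (X - C c)

theorem xsub_coe : (G.xsub c : F) = algebraMap K[X] F (X - C (c : K)) := by
  show algebraMap K[X] F ((X - C c : A[X]).map A.subtype) = _
  rw [Polynomial.map_sub, Polynomial.map_X, Polynomial.map_C]
  rfl

theorem ρ_xsub : G.ρ (G.xsub c) = algebraMap k[X] Fk (X - C (G.π c)) := by
  rw [xsub, G.ρ_polyO, Polynomial.map_sub, Polynomial.map_X, Polynomial.map_C]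

include hinj in
theorem ρ_xsub_ne_zero : G.ρ (G.xsub c) ≠ 0 := by
  rw [ρ_xsub]
  intro h0
  have := hinj (h0.trans (map_zero _).symm)
  exact Polynomial.X_sub_C_ne_zero _ this

include hinj in
theorem xsub_inv_mem : (G.xsub c : F)⁻¹ ∈ G.O :=
  G.inv_mem_of_ρ_ne_zero _ (G.ρ_xsub_ne_zero hinj c)

include hinj in
theorem xsub_ne_zero : (G.xsub c : F) ≠ 0 :=
  G.ne_zero_of_ρ_ne_zero _ (G.ρ_xsub_ne_zero hinj c)

/-- reduction `O ∩ B_η → T` -/
noncomputable def redT (w : integralClosure K[X] F) (hwO : (w : F) ∈ G.O) : G.Tk :=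
  ⟨G.ρ ⟨w, hwO⟩, G.ρ_mem_Tk ⟨w, hwO⟩ w.2⟩

theorem redT_coe (w : integralClosure K[X] F) (hwO : (w : F) ∈ G.O) :
    (G.redT w hwO : Fk) = G.ρ ⟨w, hwO⟩ := rfl

include hinj in
/-- Elements of `O ∩ (x - c) B_η` reduce into `(x̄ - c̄) T`. -/
theorem redT_mem_fibreIdeal (w : integralClosure K[X] F) (hwO : (w : F) ∈ G.O)
    (hw : w ∈ Ideal.span {algebraMap K[X] (integralClosure K[X] F) (X - C (c : K))}) :
    G.redT w hwO ∈ H939.fibreIdeal G.Tk (G.π c) := by
  rw [Ideal.mem_span_singleton] at hw
  obtain ⟨h, rfl⟩ := hw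
  have hcoe : ((algebraMap K[X] (integralClosure K[X] F) (X - C (c : K)) * h :
      integralClosure K[X] F) : F) = (G.xsub c : F) * (h : F) := by
    rw [G.xsub_coe]
    rfl
  have hhO : (h : F) ∈ G.O := by
    have : (h : F) = (G.xsub c : F)⁻¹ *
        ((algebraMap K[X] (integralClosure K[X] F) (X - C (c : K)) * h :
          integralClosure K[X] F) : F) := by
      rw [hcoe, ← mul_assoc, inv_mul_cancel₀ (G.xsub_ne_zero hinj c), one_mul]
    rw [this]
    exact G.O.mul_mem _ _ (G.xsub_inv_mem hinj c) hwO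
  rw [H939.fibreIdeal, Ideal.mem_span_singleton]
  refine ⟨G.redT h hhO, ?_⟩
  apply Subtype.ext
  show G.ρ ⟨_, hwO⟩ = algebraMap k[X] Fk (X - C (G.π c)) * G.ρ ⟨h, hhO⟩
  rw [← G.ρ_xsub, ← map_mul]
  congr 1
  exact Subtype.ext hcoe

include hinj in
/-- Elements of `O ∩ rad((x - c) B_η)` reduce into `rad((x̄ - c̄) T)`. -/
theorem redT_mem_radical (w : integralClosure K[X] F) (hwO : (w : F) ∈ G.O)
    (hw : w ∈ (Ideal.span
      {algebraMap K[X] (integralClosure K[X] F) (X - C (c : K))}).radical) :
    G.redT w hwO ∈ (H939.fibreIdeal G.Tk (G.π c)).radical := by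
  obtain ⟨N, hN⟩ := hw
  refine ⟨N, ?_⟩
  have hO : ((w ^ N : integralClosure K[X] F) : F) ∈ G.O := by
    rw [SubmonoidClass.coe_pow]
    exact G.O.pow_mem hwO N
  have := G.redT_mem_fibreIdeal hinj c (w ^ N) hO hN
  have e : G.redT (w ^ N) hO = G.redT w hwO ^ N := by
    apply Subtype.ext
    show G.ρ ⟨_, hO⟩ = (G.ρ ⟨w, hwO⟩) ^ N
    rw [← map_pow]
    congr 1
  rwa [e] at this

section Lift

variable {ι : Type*} [Fintype ι] (w : ι → integralClosure K[X] F)
  (hwO : ∀ j, (w j : F) ∈ G.O)

include hwO in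
theorem sum_C_smul_mem (α : ι → A) :
    ((∑ j, (C ((α j : A) : K) : K[X]) • w j : integralClosure K[X] F) : F) ∈ G.O := by
  rw [AddSubmonoidClass.coe_finsetSum]
  refine G.O.toSubring.sum_mem fun j _ => ?_
  have : (((C ((α j : A) : K) : K[X]) • w j : integralClosure K[X] F) : F) =
      algebraMap K[X] F (C ((α j : A) : K)) * (w j : F) := by
    rw [Algebra.smul_def]
    rfl
  rw [this]
  exact G.O.mul_mem _ _ (G.C_mem (α j)) (hwO j)

theorem redT_sum_C_smul (α : ι → A) :
    G.redT (∑ j, (C ((α j : A) : K) : K[X]) • w j) (G.sum_C_smul_mem w hwO α) =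
      ∑ j, (C (G.π (α j)) : k[X]) • G.redT (w j) (hwO j) := by
  apply Subtype.ext
  rw [AddSubmonoidClass.coe_finsetSum]
  have h1 : (⟨_, G.sum_C_smul_mem w hwO α⟩ : G.O) =
      ∑ j, (⟨_, G.C_mem (α j)⟩ : G.O) * ⟨w j, hwO j⟩ := by
    apply Subtype.ext
    show ((∑ j, (C ((α j : A) : K) : K[X]) • w j : integralClosure K[X] F) : F) =
      G.O.subtype (∑ j, (⟨_, G.C_mem (α j)⟩ : G.O) * ⟨w j, hwO j⟩)
    rw [map_sum, AddSubmonoidClass.coe_finsetSum]
    refine Finset.sum_congr rfl fun j _ => ?_
    rw [Algebra.smul_def]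
    rfl
  show G.ρ ⟨_, G.sum_C_smul_mem w hwO α⟩ = _
  rw [h1, map_sum]
  refine Finset.sum_congr rfl fun j _ => ?_
  rw [map_mul, G.ρ_C]
  show _ = (((C (G.π (α j)) : k[X]) • G.redT (w j) (hwO j) : G.Tk) : Fk)
  rw [Algebra.smul_def]
  rfl

include hwO in
/-- **Specialisation of independence** (constant coefficients). -/
theorem eq_zero_of_sum_C_smul_mem (I : Ideal (integralClosure K[X] F)) (Ik : Ideal G.Tk)
    (hI : ∀ (v : integralClosure K[X] F) (hvO : (v : F) ∈ G.O), v ∈ I → G.redT v hvO ∈ Ik)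
    (hind : ∀ a : ι → k,
      (∑ j, (C (a j) : k[X]) • G.redT (w j) (hwO j)) ∈ Ik → ∀ j, a j = 0)
    (α : ι → K) (hα : (∑ j, (C (α j) : K[X]) • w j) ∈ I) : ∀ j, α j = 0 := by
  by_contra hne
  have hα0 : α ≠ 0 := by
    intro h0
    apply hne
    intro j
    rw [h0]
    rfl
  obtain ⟨m, hm0, hm⟩ := H217.exists_scale A α hα0
  let α' : ι → A := fun j => ⟨α j / α m, hm j⟩
  have hg : (∑ j, (C ((α' j : A) : K) : K[X]) • w j) ∈ I := by
    have : (∑ j, (C ((α' j : A) : K) : K[X]) • w j) =
        (C (α m)⁻¹ : K[X]) • ∑ j, (C (α j) : K[X]) • w j := by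
      rw [Finset.smul_sum]
      refine Finset.sum_congr rfl fun j _ => ?_
      rw [smul_smul, ← C_mul]
      congr 2
      show α j / α m = (α m)⁻¹ * α j
      rw [div_eq_inv_mul]
    rw [this, Algebra.smul_def]
    exact I.mul_mem_left _ hα
  have h1 := hI _ (G.sum_C_smul_mem w hwO α') hg
  rw [G.redT_sum_C_smul w hwO α'] at h1
  have h2 := hind (fun j => G.π (α' j)) h1 m
  have h3 : α' m = 1 := Subtype.ext (div_self hm0)
  rw [h3, map_one] at h2
  exact one_ne_zero h2

include hwO in
/-- **Specialisation of independence** (witness form for the tame discriminant bound). -/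
theorem dvd_of_sum_smul_mem (c : A) (I : Ideal (integralClosure K[X] F)) (Ik : Ideal G.Tk)
    (hI : ∀ (v : integralClosure K[X] F) (hvO : (v : F) ∈ G.O), v ∈ I → G.redT v hvO ∈ Ik)
    (hind : ∀ a : ι → k,
      (∑ j, (C (a j) : k[X]) • G.redT (w j) (hwO j)) ∈ Ik → ∀ j, a j = 0)
    (hle : Ideal.span {algebraMap K[X] (integralClosure K[X] F) (X - C (c : K))} ≤ I)
    (a : ι → K[X]) (ha : (∑ j, a j • w j) ∈ I) : ∀ j, (X - C (c : K)) ∣ a j := by
  have hdvd : ∀ j, (X - C (c : K)) ∣ a j - C ((a j).eval (c : K)) := fun j =>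
    Polynomial.X_sub_C_dvd_sub_C_eval
  have h1 : (∑ j, (a j - C ((a j).eval (c : K))) • w j) ∈ I := by
    refine I.sum_mem fun j _ => ?_
    obtain ⟨q, hq⟩ := hdvd j
    rw [hq, mul_smul, Algebra.smul_def]
    exact hle (Ideal.mul_mem_right _ _ (Ideal.subset_span rfl))
  have h2 : (∑ j, (C ((a j).eval (c : K)) : K[X]) • w j) ∈ I := by
    have : (∑ j, (C ((a j).eval (c : K)) : K[X]) • w j) =
        (∑ j, a j • w j) - ∑ j, (a j - C ((a j).eval (c : K))) • w j := by
      rw [← Finset.sum_sub_distrib]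
      refine Finset.sum_congr rfl fun j _ => ?_
      rw [sub_smul, sub_sub_cancel]
    rw [this]
    exact I.sub_mem ha h1
  intro j
  have h3 := G.eq_zero_of_sum_C_smul_mem w hwO I Ik hI hind _ h2 j
  rw [Polynomial.dvd_iff_isRoot]
  exact h3

end Lift

end RedCtx

end Fermat.Agent.S37.H159

end
-- ===== PACK-END S37/H159/MLocal.lean

-- ===== PACK-BEGIN S37/H159/MRoots.lean
section




/-!
# Theorem M, part 7: Gauss root count for an arbitrary residue map; `redRank ≤ n`
(row S37, piece R-b; seat helper159)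
-/

set_option autoImplicit false
set_option linter.unusedSectionVars false
set_option linter.style.haveILetI false

namespace Fermat.Agent.S37.H159

open Polynomial

section Roots

variable {K : Type*} [Field K] [IsAlgClosed K] (A : ValuationSubring K)
  {k : Type*} [Field k] (π : A →+* k) (hπ : Function.Surjective π)

include hπ in
theorem isLocalHom_of_surjective : IsLocalHom π := by
  refine ⟨fun a ha => ?_⟩
  by_contra hna
  have hmax : (RingHom.ker π).IsMaximal := RingHom.ker_isMaximal_of_surjective π hπ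
  have hker := IsLocalRing.eq_maximalIdeal hmax
  have h1 : a ∈ IsLocalRing.maximalIdeal A := (IsLocalRing.mem_maximalIdeal a).mpr hna
  rw [← hker, RingHom.mem_ker] at h1
  rw [h1] at ha
  exact not_isUnit_zero ha

include hπ in
/-- Gauss root count, general residue map. -/
theorem rootMultiplicity_map_eq_card_filter (D : A[X]) (hD : D.map π ≠ 0) (c : A) :
    (D.map π).rootMultiplicity (π c) =
      (open Classical in ((D.map (algebraMap A K)).roots.filter
        (fun c' => ∃ h : c' ∈ A, π ⟨c', h⟩ = π c)).card) := by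
  classical
  haveI := isLocalHom_of_surjective A π hπ
  let φ : IsLocalRing.ResidueField A →+* k := IsLocalRing.ResidueField.lift π
  have hφ : ∀ a : A, φ (IsLocalRing.residue A a) = π a := fun a => rfl
  have hmap : (D.map (IsLocalRing.residue A)).map φ = D.map π := by
    rw [Polynomial.map_map]
    rfl
  have hN : D.map (IsLocalRing.residue A) ≠ 0 := by
    intro h0
    apply hD
    rw [← hmap, h0, Polynomial.map_zero]
  have h1 : (D.map π).rootMultiplicity (π c) =
      (D.map (IsLocalRing.residue A)).rootMultiplicity (IsLocalRing.residue A c) := by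
    rw [← hmap, ← hφ c]
    exact (Polynomial.eq_rootMultiplicity_map φ.injective _).symm
  rw [h1, H217.rootMultiplicity_map_residue_eq_card_filter A D hN]
  congr 1
  refine Multiset.filter_congr fun c' _ => ?_
  constructor
  · rintro ⟨h, hc'⟩
    exact ⟨h, by rw [← hφ, hc', hφ]⟩
  · rintro ⟨h, hc'⟩
    exact ⟨h, φ.injective (by rw [hφ, hφ, hc'])⟩

include hπ in
/-- A root of the reduction lifts to a root in `A`. -/
theorem exists_root_of_isRoot_map (D : A[X]) (hD : D.map π ≠ 0) (cbar : k)
    (h : (D.map π).IsRoot cbar) :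
    ∃ c : A, π c = cbar ∧ (D.map (algebraMap A K)).IsRoot (c : K) := by
  classical
  obtain ⟨c₀, rfl⟩ := hπ cbar
  have h1 : 0 < (D.map π).rootMultiplicity (π c₀) := (Polynomial.rootMultiplicity_pos hD).mpr h
  rw [rootMultiplicity_map_eq_card_filter A π hπ D hD c₀, Multiset.card_pos_iff_exists_mem] at h1
  obtain ⟨c', hc'⟩ := h1
  rw [Multiset.mem_filter] at hc'
  obtain ⟨hroot, hA, hπc⟩ := hc'
  exact ⟨⟨c', hA⟩, hπc, Polynomial.isRoot_of_mem_roots hroot⟩

include hπ in
/-- Gauss + uniqueness of the root in the residue disc. -/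
theorem rootMultiplicity_map_le (D : A[X]) (hD : D.map π ≠ 0) (c : A)
    (huniq : ∀ c' : A, (D.map (algebraMap A K)).IsRoot (c' : K) → π c' = π c → c' = c) :
    (D.map π).rootMultiplicity (π c) ≤ (D.map (algebraMap A K)).rootMultiplicity (c : K) := by
  classical
  rw [rootMultiplicity_map_eq_card_filter A π hπ D hD c]
  set s := (D.map (algebraMap A K)).roots.filter (fun c' => ∃ h : c' ∈ A, π ⟨c', h⟩ = π c)
    with hs
  have hall : ∀ c' ∈ s, c' = (c : K) := by
    intro c' hc'
    rw [hs, Multiset.mem_filter] at hc'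
    obtain ⟨hroot, hA, hπc⟩ := hc'
    have := huniq ⟨c', hA⟩ (Polynomial.isRoot_of_mem_roots hroot) hπc
    exact congrArg Subtype.val this
  have h1 : s = Multiset.replicate (Multiset.card s) (c : K) :=
    Multiset.eq_replicate.mpr ⟨rfl, hall⟩
  have h2 : Multiset.count (c : K) s = Multiset.card s := by
    conv_lhs => rw [h1]
    rw [Multiset.count_replicate_self]
  rw [← h2, ← Polynomial.count_roots]
  exact Multiset.count_le_of_le _ (Multiset.filter_le _ _)

end Roots

section RedRank

variable {k : Type*} [Field k] {T : Type*} [CommRing T] [Algebra k[X] T] [Algebra k T]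
  [IsScalarTower k k[X] T] {ι : Type*} [Fintype ι] [DecidableEq ι] (b : Module.Basis ι k[X] T)

include b in
theorem redRank_le_card (c : k) : H939.redRank T c ≤ Fintype.card ι := by
  let Rad : Ideal T := (H939.fibreIdeal T c).radical
  let Ψ : (ι → k) →ₗ[k] T ⧸ Rad := (Ideal.Quotient.mkₐ k Rad).toLinearMap ∘ₗ H939.lift b
  have hΨsurj : Function.Surjective Ψ := by
    intro q
    obtain ⟨z, rfl⟩ := Ideal.Quotient.mk_surjective q
    refine ⟨H939.coord b c z, ?_⟩
    show Ideal.Quotient.mk Rad (H939.lift b (H939.coord b c z)) = Ideal.Quotient.mk Rad z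
    rw [eq_comm, Ideal.Quotient.eq]
    exact Ideal.le_radical (H939.sub_lift_coord_mem b c z)
  have := LinearMap.finrank_le_finrank_of_surjective hΨsurj
  rw [Module.finrank_pi] at this
  exact this

end RedRank

end Fermat.Agent.S37.H159

end
-- ===== PACK-END S37/H159/MRoots.lean

-- ===== PACK-BEGIN A3/H799/Local.lean
section


/-!
# A3 / LOCAL — the abstract LOCAL theorem  (helper799)

Combination of `exists_comb` (Cramer over `Λ`) and `root_mem` (Weierstrass + Hensel for algebraic
families).  In the application (addition law of the Jacobian in disc coordinates):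

* `ι = Fin g`, `𝒪 i` = integral functions on the residue disc of `Q_i`, `E = Σ P_i`, `Ē = Σ Q_i`
  non-special, `s i = 2`, `ys i = (z_i(x), z_i(y))`, `f₀ i = t_i³ · 1`, `f j i = t_i³ · φ_j` with
  `1, φ_j` an integral basis of `L(3E)`; the unique `φ = 1 + Σ v_j φ_j` vanishing on `D_x + D_y`
  has divisor `D_x + D_y + D_{-(x+y)} - 3E`, so `c i = z_i(-(x+y))`;
* negation: `s i = 1`, `L(2E)`, `c i = z_i(-x)`.

The hypothesis `hgeo` is the only geometric input and it is POINTWISE (one parameter value `τ`,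
honest functions over the valuation ring `A`).
-/

set_option autoImplicit false

namespace Fermat.Agent.A3.H799

open Polynomial

variable {A : Type*} [CommRing A] [IsLocalRing A] {T : Type*} [Finite T]

/-- **Abstract LOCAL theorem.**  If the linear system "`f₀ + Σ a_j f_j` vanishes on the moving
nodes" is non-degenerate modulo `𝔪` and every solution has exactly one further zero `c i τ` in the
`i`-th disc, then `τ ↦ c i τ` lies in every algebra `Λ` of functions containing the nodes. -/
theorem local_mem {ι : Type*} [Fintype ι] {𝒪 : ι → Type*}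
    [∀ i, CommRing (𝒪 i)] [∀ i, Algebra A (𝒪 i)]
    (Λ : Subalgebra A (T → A)) (D : ∀ i, DiscAlg A (𝒪 i)) (s : ι → ℕ)
    (ys : ∀ i, Fin (s i) → radIdeal Λ)
    (f₀ : ∀ i, 𝒪 i) (f : (Σ i, Fin (s i)) → ∀ i, 𝒪 i)
    (P₀ : ∀ i, A[X]) (H₀ : ∀ i, 𝒪 i)
    (hf₀ : ∀ i, f₀ i = aeval (D i).t (P₀ i) + (D i).t ^ s i * H₀ i)
    (P : (Σ i, Fin (s i)) → ∀ i, A[X]) (H : (Σ i, Fin (s i)) → ∀ i, 𝒪 i)
    (hf : ∀ j i, f j i = aeval (D i).t (P j i) + (D i).t ^ s i * H j i)
    (hdet : ∀ [DecidableEq (Σ i, Fin (s i))],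
      IsUnit (Matrix.of fun (c j : Σ i, Fin (s i)) => (P j c.1).coeff (c.2 : ℕ)).det)
    (h₀ : ∀ i (r : Fin (s i)), (P₀ i).coeff (r : ℕ) ∈ IsLocalRing.maximalIdeal A)
    (c : ι → T → IsLocalRing.maximalIdeal A)
    (hgeo : ∀ (τ : T) (a : (Σ i, Fin (s i)) → IsLocalRing.maximalIdeal A),
      (∀ i, ∃ h : 𝒪 i, f₀ i + ∑ j, ((a j : IsLocalRing.maximalIdeal A) : A) • f j i =
        aeval (D i).t (DiscAlg.nodal ((List.ofFn (ys i)).map (ptAt Λ τ))) * h) →
      ∀ i, ∃ u : 𝒪 i, IsUnit ((D i).ev (c i τ) u) ∧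
        f₀ i + ∑ j, ((a j : IsLocalRing.maximalIdeal A) : A) • f j i =
          aeval (D i).t (DiscAlg.nodal ((List.ofFn (ys i)).map (ptAt Λ τ))) *
            ((D i).t - algebraMap A (𝒪 i) ((c i τ : IsLocalRing.maximalIdeal A) : A)) * u) :
    ∀ i, (fun τ => ((c i τ : IsLocalRing.maximalIdeal A) : A)) ∈ Λ := by
  classical
  obtain ⟨v, hvI, hv⟩ := exists_comb Λ D s ys f₀ f P₀ H₀ hf₀ P H hf hdet h₀
  intro i
  refine root_mem Λ (D i) (κ := Option (Σ i, Fin (s i)))
    (fun o => o.elim (f₀ i) fun j => f j i) (fun o => o.elim 1 v) (List.ofFn (ys i)) (c i) ?_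
  intro τ
  obtain ⟨u, hu, hW⟩ := hgeo τ (fun j => ⟨((v j : Λ) : T → A) τ, hvI j τ⟩) (hv τ) i
  refine ⟨u, hu, ?_⟩
  rw [← hW, Fintype.sum_option]
  simp

end Fermat.Agent.A3.H799
end
-- ===== PACK-END A3/H799/Local.lean

-- ===== PACK-BEGIN Lib/RR/H638/Cech.lean
section



/-!
# Čech formula for the Riemann genus (helper638)

For a function field `F / K` satisfying the standing hypotheses `FF1 K F` of the RR library and two
disjoint nonempty finite sets of places `Tz`, `Ti` ("zeros" and "poles"), put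

* `B₀ = holOff Ti` (functions regular outside `Ti`),
* `B∞ = holOff Tz`,
* `Bm = holOff (Tz ∪ Ti)`.

Then `Bm / (B₀ + B∞)` is finite-dimensional of dimension `g`, the genus in the sense of
Riemann's theorem (`IsRiemannGenus K F g`; for `g = genusR K F` this is `exists_degree_bound` of
the RR library, see `CechGenusR.lean`).
(`H¹` of the structure sheaf computed on the cover `{X ∖ Ti, X ∖ Tz}`).

Main results: `finrank_cech_map`, `finrank_cech_quot`, `genus_le_of_span`, `le_genus_of_indep`,
and the versions for the zeros and poles of a nonconstant function `x` (`zerosOf`, `polesOf`,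
`finrank_cech_of_fun`).
-/

set_option autoImplicit false

noncomputable section

open AlgebraicCurve

namespace Fermat.Agent.Lib.RR.H638

open Fermat.Agent.Lib.RR

variable {K F : Type*} [Field K] [Field F] [Algebra K F]

variable (K F) in
/-- `g` is the genus of `F / K` in the sense of Riemann's theorem:
`ℓ(D) = deg D + 1 - g` for all divisors of sufficiently large degree. -/
def IsRiemannGenus (g : ℕ) : Prop :=
  ∃ c : ℤ, ∀ D : Divisor K F, c ≤ Divisor.degree D →
    (ell D : ℤ) = Divisor.degree D + 1 - (g : ℤ)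

/-- Functions regular outside the set `T` of places. -/
def holOff (T : Set (Place K F)) : Subalgebra K F where
  carrier := {f | ∀ v : Place K F, v ∉ T → 0 ≤ v.ord f}
  mul_mem' := by
    intro f g hf hg v hv
    rw [← mem_iff_ord_nonneg] at *
    exact mul_mem ((mem_iff_ord_nonneg v f).mpr (hf v hv)) ((mem_iff_ord_nonneg v g).mpr (hg v hv))
  add_mem' := by
    intro f g hf hg v hv
    rw [← mem_iff_ord_nonneg] at *
    exact add_mem ((mem_iff_ord_nonneg v f).mpr (hf v hv)) ((mem_iff_ord_nonneg v g).mpr (hg v hv))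
  algebraMap_mem' := by
    intro c v _
    rw [ord_algebraMap]

theorem mem_holOff {T : Set (Place K F)} {f : F} :
    f ∈ holOff T ↔ ∀ v : Place K F, v ∉ T → 0 ≤ v.ord f := Iff.rfl

theorem holOff_mono {T T' : Set (Place K F)} (h : T ⊆ T') : holOff T ≤ holOff T' :=
  fun _ hf v hv => hf v (fun hvT => hv (h hvT))

/-- The reduced divisor `∑_{v ∈ T} v`. -/
def divT (T : Finset (Place K F)) : Divisor K F := ∑ v ∈ T, prim v

open scoped Classical in
theorem divT_apply (T : Finset (Place K F)) (v : Place K F) :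
    divT T v = if v ∈ T then 1 else 0 := by
  unfold divT
  rw [Finsupp.finsetSum_apply]
  by_cases hv : v ∈ T
  · rw [if_pos hv, Finset.sum_eq_single v]
    · exact prim_apply_self v
    · intro w _ hw; exact prim_apply_of_ne (Ne.symm hw)
    · intro h; exact absurd hv h
  · rw [if_neg hv]
    refine Finset.sum_eq_zero fun w hw => prim_apply_of_ne ?_
    rintro rfl; exact hv hw

theorem divT_apply_mem {T : Finset (Place K F)} {v : Place K F} (hv : v ∈ T) : divT T v = 1 := by
  classical
  rw [divT_apply, if_pos hv]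

theorem divT_apply_not_mem {T : Finset (Place K F)} {v : Place K F} (hv : v ∉ T) :
    divT T v = 0 := by
  classical
  rw [divT_apply, if_neg hv]

theorem divT_nonneg (T : Finset (Place K F)) (v : Place K F) : 0 ≤ divT T v := by
  by_cases hv : v ∈ T
  · rw [divT_apply_mem hv]; exact zero_le_one
  · rw [divT_apply_not_mem hv]

theorem degree_divT [FF1 K F] (T : Finset (Place K F)) : Divisor.degree (divT T) = T.card := by
  unfold divT
  rw [map_sum]
  simp

/-- `L(n T) ⊆ holOff T`. -/
theorem L_le_holOff (T : Finset (Place K F)) (n : ℕ) :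
    riemannRochSpace (n • divT T) ≤ Subalgebra.toSubmodule (holOff (T : Set (Place K F))) := by
  intro f hf v hv
  have hv' : v ∉ T := fun h => hv (Finset.mem_coe.mpr h)
  rcases mem_L_iff.mp hf v with h | h
  · rw [h, v.ord_zero]
  · simpa [divT_apply_not_mem hv'] using h

/-- `holOff T = ⋃ₙ L(n T)`. -/
theorem exists_mem_L_of_mem_holOff (T : Finset (Place K F)) {f : F}
    (hf : f ∈ holOff (T : Set (Place K F))) :
    ∃ n : ℕ, f ∈ riemannRochSpace (n • divT T) := by
  classical
  refine ⟨∑ v ∈ T, (v.ord f).natAbs, ?_⟩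
  rw [mem_L_iff]
  intro v
  right
  by_cases hv : v ∈ T
  · have h1 : (v.ord f).natAbs ≤ ∑ w ∈ T, (w.ord f).natAbs :=
      Finset.single_le_sum (f := fun w => (w.ord f).natAbs) (fun _ _ => Nat.zero_le _) hv
    simp only [Finsupp.coe_smul, Pi.smul_apply, divT_apply_mem hv, mul_one, nsmul_eq_mul]
    omega
  · have := hf v (fun h => hv (Finset.mem_coe.mp h))
    simp only [Finsupp.coe_smul, Pi.smul_apply, divT_apply_not_mem hv, nsmul_eq_mul, mul_zero,
      neg_zero]
    exact this

theorem nsmul_divT_mono (T : Finset (Place K F)) {m n : ℕ} (h : m ≤ n) :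
    m • divT T ≤ n • divT T := by
  rw [Finsupp.le_def]
  intro v
  simp only [Finsupp.coe_smul, Pi.smul_apply, nsmul_eq_mul]
  exact mul_le_mul_of_nonneg_right (by exact_mod_cast h) (divT_nonneg T v)

/-! ### The two-chart computation -/

section Cech

variable (Tz Ti : Finset (Place K F))

/-- The divisor `n (Tz + Ti)`. -/
def divM (n : ℕ) : Divisor K F := n • divT Tz + n • divT Ti

theorem divM_apply (n : ℕ) (v : Place K F) :
    divM Tz Ti n v = n * divT Tz v + n * divT Ti v := by
  simp [divM]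

theorem divM_mono {m n : ℕ} (h : m ≤ n) : divM Tz Ti m ≤ divM Tz Ti n :=
  add_le_add (nsmul_divT_mono Tz h) (nsmul_divT_mono Ti h)

theorem nsmul_divT_le_divM_right (n : ℕ) : n • divT Ti ≤ divM Tz Ti n := by
  rw [Finsupp.le_def]; intro v
  have := divT_nonneg Tz v
  rw [divM_apply]
  simp only [Finsupp.coe_smul, Pi.smul_apply, nsmul_eq_mul]
  nlinarith [Nat.cast_nonneg (α := ℤ) n]

theorem nsmul_divT_le_divM_left (n : ℕ) : n • divT Tz ≤ divM Tz Ti n := by
  rw [Finsupp.le_def]; intro v
  have := divT_nonneg Ti v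
  rw [divM_apply]
  simp only [Finsupp.coe_smul, Pi.smul_apply, nsmul_eq_mul]
  nlinarith [Nat.cast_nonneg (α := ℤ) n]

theorem L_sup_le (n : ℕ) :
    riemannRochSpace (n • divT Ti) ⊔ riemannRochSpace (n • divT Tz) ≤
      riemannRochSpace (divM Tz Ti n) :=
  sup_le (L_mono (nsmul_divT_le_divM_right Tz Ti n)) (L_mono (nsmul_divT_le_divM_left Tz Ti n))

theorem LM_le_holOff (n : ℕ) :
    riemannRochSpace (divM Tz Ti n) ≤
      Subalgebra.toSubmodule (holOff ((Tz : Set (Place K F)) ∪ Ti)) := by
  intro f hf v hv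
  have hvz : v ∉ Tz := fun h => hv (Or.inl (Finset.mem_coe.mpr h))
  have hvi : v ∉ Ti := fun h => hv (Or.inr (Finset.mem_coe.mpr h))
  rcases mem_L_iff.mp hf v with h | h
  · rw [h, v.ord_zero]
  · simpa [divM_apply, divT_apply_not_mem hvz, divT_apply_not_mem hvi] using h

theorem exists_mem_LM_of_mem_holOff {f : F}
    (hf : f ∈ holOff ((Tz : Set (Place K F)) ∪ Ti)) :
    ∃ n : ℕ, f ∈ riemannRochSpace (divM Tz Ti n) := by
  classical
  refine ⟨∑ v ∈ Tz, (v.ord f).natAbs + ∑ v ∈ Ti, (v.ord f).natAbs, ?_⟩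
  rw [mem_L_iff]
  intro v
  right
  rw [divM_apply]
  have hz := divT_nonneg Tz v
  have hi := divT_nonneg Ti v
  by_cases hvz : v ∈ Tz
  · have h1 : (v.ord f).natAbs ≤ ∑ w ∈ Tz, (w.ord f).natAbs :=
      Finset.single_le_sum (f := fun w => (w.ord f).natAbs) (fun _ _ => Nat.zero_le _) hvz
    rw [divT_apply_mem hvz]
    push_cast
    have h2 : (0 : ℤ) ≤ ∑ x ∈ Ti, |x.ord f| := Finset.sum_nonneg fun _ _ => abs_nonneg _
    have h3 : (|v.ord f| : ℤ) ≤ ∑ x ∈ Tz, |x.ord f| :=
      Finset.single_le_sum (f := fun w => |w.ord f|) (fun _ _ => abs_nonneg _) hvz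
    have h4 := neg_abs_le (v.ord f)
    have h5 : (0 : ℤ) ≤ (∑ x ∈ Tz, |x.ord f| + ∑ x ∈ Ti, |x.ord f|) * divT Ti v :=
      mul_nonneg (by linarith [abs_nonneg (v.ord f)]) hi
    linarith
  · by_cases hvi : v ∈ Ti
    · rw [divT_apply_mem hvi, divT_apply_not_mem hvz]
      push_cast
      have h2 : (0 : ℤ) ≤ ∑ x ∈ Tz, |x.ord f| := Finset.sum_nonneg fun _ _ => abs_nonneg _
      have h3 : (|v.ord f| : ℤ) ≤ ∑ x ∈ Ti, |x.ord f| :=
        Finset.single_le_sum (f := fun w => |w.ord f|) (fun _ _ => abs_nonneg _) hvi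
      have h4 := neg_abs_le (v.ord f)
      linarith
    · have := hf v (by
        rintro (h | h)
        · exact hvz (Finset.mem_coe.mp h)
        · exact hvi (Finset.mem_coe.mp h))
      rw [divT_apply_not_mem hvz, divT_apply_not_mem hvi]
      simpa using this

/-- `m ≤ ord (f - g)` if `m ≤ 0`, `m ≤ ord f`, `m ≤ ord g` (no nonvanishing needed). -/
theorem le_ord_sub (v : Place K F) {f g : F} {m : ℤ} (hm : m ≤ 0) (hf : m ≤ v.ord f)
    (hg : m ≤ v.ord g) : m ≤ v.ord (f - g) := by
  have h := ord_add_of_le v (f := f) (g := -g) (n := m) (Or.inr hf)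
    (Or.inr (by rw [ord_neg]; exact hg))
  rw [← sub_eq_add_neg] at h
  rcases h with h | h
  · rw [h, v.ord_zero]; exact hm
  · exact h

/-- Key separation: an element of `B₀ + B∞` lying in `L(n(Tz + Ti))` lies in
`L(n Ti) + L(n Tz)`. -/
theorem sup_inf_L_le (hdisj : Disjoint Tz Ti) (n : ℕ) :
    (Subalgebra.toSubmodule (holOff (Ti : Set (Place K F))) ⊔
        Subalgebra.toSubmodule (holOff (Tz : Set (Place K F)))) ⊓
        riemannRochSpace (divM Tz Ti n) ≤
      riemannRochSpace (n • divT Ti) ⊔ riemannRochSpace (n • divT Tz) := by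
  classical
  rintro f ⟨hf1, hf2⟩
  obtain ⟨a, ha, b, hb, rfl⟩ := Submodule.mem_sup.mp hf1
  have ha' : ∀ v : Place K F, v ∉ Ti → 0 ≤ v.ord a := fun v hv =>
    ha v (fun h => hv (Finset.mem_coe.mp h))
  have hb' : ∀ v : Place K F, v ∉ Tz → 0 ≤ v.ord b := fun v hv =>
    hb v (fun h => hv (Finset.mem_coe.mp h))
  have hab : ∀ v : Place K F, -(divM Tz Ti n v) ≤ v.ord (a + b) := by
    intro v
    rcases mem_L_iff.mp hf2 v with h | h
    · rw [h, v.ord_zero, divM_apply]
      have hz := divT_nonneg Tz v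
      have hi := divT_nonneg Ti v
      nlinarith [Nat.cast_nonneg (α := ℤ) n]
    · exact h
  refine Submodule.add_mem_sup ?_ ?_
  · rw [mem_L_iff]; intro v; right
    by_cases hv : v ∈ Ti
    · have hv0 : v ∉ Tz := Finset.disjoint_right.mp hdisj hv
      have h1 := hab v
      rw [divM_apply, divT_apply_mem hv, divT_apply_not_mem hv0] at h1
      simp only [Finsupp.coe_smul, Pi.smul_apply, nsmul_eq_mul, divT_apply_mem hv, mul_one]
      have h2 := le_ord_sub v (f := a + b) (g := b) (m := -(n : ℤ)) (by omega) (by omega)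
        (by have := hb' v hv0; omega)
      simpa using h2
    · have := ha' v hv
      simp only [Finsupp.coe_smul, Pi.smul_apply, nsmul_eq_mul, divT_apply_not_mem hv, mul_zero,
        neg_zero]
      exact this
  · rw [mem_L_iff]; intro v; right
    by_cases hv : v ∈ Tz
    · have hv0 : v ∉ Ti := Finset.disjoint_left.mp hdisj hv
      have h1 := hab v
      rw [divM_apply, divT_apply_mem hv, divT_apply_not_mem hv0] at h1
      simp only [Finsupp.coe_smul, Pi.smul_apply, nsmul_eq_mul, divT_apply_mem hv, mul_one]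
      have h2 := le_ord_sub v (f := a + b) (g := a) (m := -(n : ℤ)) (by omega) (by omega)
        (by have := ha' v hv0; omega)
      simpa using h2
    · have := hb' v hv
      simp only [Finsupp.coe_smul, Pi.smul_apply, nsmul_eq_mul, divT_apply_not_mem hv, mul_zero,
        neg_zero]
      exact this

theorem sup_inf_L_eq (hdisj : Disjoint Tz Ti) (n : ℕ) :
    (Subalgebra.toSubmodule (holOff (Ti : Set (Place K F))) ⊔
        Subalgebra.toSubmodule (holOff (Tz : Set (Place K F)))) ⊓
        riemannRochSpace (divM Tz Ti n) =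
      riemannRochSpace (n • divT Ti) ⊔ riemannRochSpace (n • divT Tz) := by
  apply le_antisymm (sup_inf_L_le Tz Ti hdisj n)
  exact le_inf (sup_le_sup (L_le_holOff Ti n) (L_le_holOff Tz n)) (L_sup_le Tz Ti n)

/-- `L(n Ti) ∩ L(n Tz) = L(0)`. -/
theorem L_inf_eq (hdisj : Disjoint Tz Ti) (n : ℕ) :
    riemannRochSpace (n • divT Ti) ⊓ riemannRochSpace (n • divT Tz) =
      riemannRochSpace (0 : Divisor K F) := by
  classical
  apply le_antisymm
  · rintro f ⟨h1, h2⟩
    rw [mem_L_iff]
    intro v
    by_cases hv : v ∈ Ti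
    · have hv0 : v ∉ Tz := Finset.disjoint_right.mp hdisj hv
      have := mem_L_iff.mp h2 v
      simpa [divT_apply_not_mem hv0] using this
    · have := mem_L_iff.mp h1 v
      simpa [divT_apply_not_mem hv] using this
  · refine le_inf (L_mono ?_) (L_mono ?_)
    · rw [Finsupp.le_def]; intro v
      have := divT_nonneg Ti v
      simp only [Finsupp.coe_zero, Pi.zero_apply, Finsupp.coe_smul, Pi.smul_apply, nsmul_eq_mul]
      positivity
    · rw [Finsupp.le_def]; intro v
      have := divT_nonneg Tz v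
      simp only [Finsupp.coe_zero, Pi.zero_apply, Finsupp.coe_smul, Pi.smul_apply, nsmul_eq_mul]
      positivity

end Cech

/-! ### Dimension count and the main theorem -/

section Main

variable [FF1 K F] (Tz Ti : Finset (Place K F))

theorem degree_nsmul_divT (T : Finset (Place K F)) (n : ℕ) :
    Divisor.degree (n • divT T) = n * T.card := by
  rw [map_nsmul, degree_divT]; simp

theorem degree_divM (n : ℕ) :
    Divisor.degree (divM Tz Ti n) = n * Tz.card + n * Ti.card := by
  rw [divM, map_add, degree_nsmul_divT, degree_nsmul_divT]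

/-- **Čech formula for the genus** (image form): the image of `Bm = holOff (Tz ∪ Ti)` in
`F ⧸ (B₀ + B∞)`, `B₀ = holOff Ti`, `B∞ = holOff Tz`, has dimension `g`. -/
theorem finrank_cech_map {g : ℕ} (hg : IsRiemannGenus K F g)
    (hdisj : Disjoint Tz Ti) (hz : Tz.Nonempty) (hi : Ti.Nonempty) :
    Module.Finite K ↥((Subalgebra.toSubmodule (holOff ((Tz : Set (Place K F)) ∪ Ti))).map
        (Subalgebra.toSubmodule (holOff (Ti : Set (Place K F))) ⊔
          Subalgebra.toSubmodule (holOff (Tz : Set (Place K F)))).mkQ) ∧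
      Module.finrank K ↥((Subalgebra.toSubmodule (holOff ((Tz : Set (Place K F)) ∪ Ti))).map
        (Subalgebra.toSubmodule (holOff (Ti : Set (Place K F))) ⊔
          Subalgebra.toSubmodule (holOff (Tz : Set (Place K F)))).mkQ) = g := by
  obtain ⟨c, hc⟩ := hg
  have hz1 : 1 ≤ Tz.card := Finset.card_pos.mpr hz
  have hi1 : 1 ≤ Ti.card := Finset.card_pos.mpr hi
  refine finrank_map_mkQ_of_exhaust _ _ (fun n => riemannRochSpace (divM Tz Ti n))
    (fun m n h => L_mono (divM_mono Tz Ti h)) (fun n => inferInstance)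
    (fun n => LM_le_holOff Tz Ti n) (fun f hf => exists_mem_LM_of_mem_holOff Tz Ti hf)
    g c.toNat ?_
  intro n hn
  have hcn : c ≤ n := by
    have := Int.self_le_toNat c
    have : ((c.toNat : ℕ) : ℤ) ≤ (n : ℤ) := by exact_mod_cast hn
    omega
  have hnn : (0 : ℤ) ≤ n := Int.natCast_nonneg n
  have hzc : (n : ℤ) ≤ n * Tz.card := by
    have : (1 : ℤ) ≤ Tz.card := by exact_mod_cast hz1
    nlinarith
  have hic : (n : ℤ) ≤ n * Ti.card := by
    have : (1 : ℤ) ≤ Ti.card := by exact_mod_cast hi1
    nlinarith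
  have e1 := hc (n • divT Ti) (by rw [degree_nsmul_divT]; omega)
  have e2 := hc (n • divT Tz) (by rw [degree_nsmul_divT]; omega)
  have e3 := hc (divM Tz Ti n) (by rw [degree_divM]; omega)
  rw [degree_nsmul_divT] at e1 e2
  rw [degree_divM] at e3
  rw [sup_inf_L_eq Tz Ti hdisj n]
  have h4 := Submodule.finrank_sup_add_finrank_inf_eq (riemannRochSpace (n • divT Ti))
    (riemannRochSpace (n • divT Tz))
  rw [L_inf_eq Tz Ti hdisj n] at h4
  have h5 : Module.finrank K ↥(riemannRochSpace (0 : Divisor K F)) = 1 := ell_zero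
  rw [h5] at h4
  unfold ell at e1 e2 e3
  have h6 : (Module.finrank K ↥(riemannRochSpace (n • divT Ti) ⊔ riemannRochSpace (n • divT Tz)) : ℤ)
      + 1 = Module.finrank K ↥(riemannRochSpace (n • divT Ti)) +
        Module.finrank K ↥(riemannRochSpace (n • divT Tz)) := by exact_mod_cast h4
  have h7 : (Module.finrank K ↥(riemannRochSpace (divM Tz Ti n)) : ℤ) =
      Module.finrank K ↥(riemannRochSpace (n • divT Ti) ⊔ riemannRochSpace (n • divT Tz)) +
        g := by
    rw [e3]; linarith
  exact_mod_cast h7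

end Main

/-! ### Packaged form and corollaries -/

section Corollaries

variable (Tz Ti : Finset (Place K F))

/-- `B₀ + B∞`, the sum of the two chart algebras (as a `K`-subspace of `F`). -/
def cechW : Submodule K F :=
  Subalgebra.toSubmodule (holOff (Ti : Set (Place K F))) ⊔
    Subalgebra.toSubmodule (holOff (Tz : Set (Place K F)))

/-- `Bm`, the functions regular on the intersection of the two charts. -/
def cechM : Submodule K F :=
  Subalgebra.toSubmodule (holOff ((Tz : Set (Place K F)) ∪ Ti))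

/-- The Čech `H¹`: the image of `Bm` in `F ⧸ (B₀ + B∞)`. -/
def cechH1 : Submodule K (F ⧸ cechW Tz Ti) := (cechM Tz Ti).map (cechW Tz Ti).mkQ

theorem cechW_le_cechM : cechW Tz Ti ≤ cechM Tz Ti :=
  sup_le (holOff_mono (fun _ h => Or.inr h)) (holOff_mono (fun _ h => Or.inl h))

variable [FF1 K F]

theorem finite_cechH1 {g : ℕ} (hg : IsRiemannGenus K F g)
    (hdisj : Disjoint Tz Ti) (hz : Tz.Nonempty) (hi : Ti.Nonempty) :
    Module.Finite K ↥(cechH1 Tz Ti) :=
  (finrank_cech_map Tz Ti hg hdisj hz hi).1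

/-- **Čech formula for the genus.** -/
theorem finrank_cechH1 {g : ℕ} (hg : IsRiemannGenus K F g)
    (hdisj : Disjoint Tz Ti) (hz : Tz.Nonempty) (hi : Ti.Nonempty) :
    Module.finrank K ↥(cechH1 Tz Ti) = g :=
  (finrank_cech_map Tz Ti hg hdisj hz hi).2

/-- The quotient `Bm ⧸ (B₀ + B∞)` is isomorphic to the Čech `H¹`. -/
def cechQuotEquiv :
    (↥(cechM Tz Ti) ⧸ (cechW Tz Ti).submoduleOf (cechM Tz Ti)) ≃ₗ[K] ↥(cechH1 Tz Ti) :=
  ((Submodule.quotEquivOfEq _ _ (by
      rw [LinearMap.ker_comp, Submodule.ker_mkQ]; rfl)).trans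
    (LinearMap.quotKerEquivRange ((cechW Tz Ti).mkQ.comp (cechM Tz Ti).subtype))).trans
    (LinearEquiv.ofEq _ _ (by
      rw [LinearMap.range_comp, Submodule.range_subtype]; rfl))

/-- **Čech formula for the genus**, quotient form:
`dim_K Bm ⧸ (B₀ + B∞) = g`. -/
theorem finrank_cech_quot {g : ℕ} (hg : IsRiemannGenus K F g)
    (hdisj : Disjoint Tz Ti) (hz : Tz.Nonempty) (hi : Ti.Nonempty) :
    Module.Finite K (↥(cechM Tz Ti) ⧸ (cechW Tz Ti).submoduleOf (cechM Tz Ti)) ∧
      Module.finrank K (↥(cechM Tz Ti) ⧸ (cechW Tz Ti).submoduleOf (cechM Tz Ti)) = g := by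
  have hfin := finite_cechH1 Tz Ti hg hdisj hz hi
  refine ⟨Module.Finite.equiv (cechQuotEquiv Tz Ti).symm, ?_⟩
  rw [(cechQuotEquiv Tz Ti).finrank_eq]
  exact finrank_cechH1 Tz Ti hg hdisj hz hi

/-- Upper bound for the genus: if `Bm` is spanned by `B₀ + B∞` and a finite family `h`, then
`g ≤ #h`. -/
theorem genus_le_of_span {g : ℕ} (hg : IsRiemannGenus K F g)
    (hdisj : Disjoint Tz Ti) (hz : Tz.Nonempty) (hi : Ti.Nonempty)
    {ι : Type*} [Fintype ι] (h : ι → F)
    (hspan : cechM Tz Ti ≤ Submodule.span K (Set.range h) ⊔ cechW Tz Ti) :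
    g ≤ Fintype.card ι := by
  have h1 : cechH1 Tz Ti ≤ (Submodule.span K (Set.range h)).map (cechW Tz Ti).mkQ := by
    unfold cechH1
    refine (Submodule.map_mono hspan).trans ?_
    rw [Submodule.map_sup]
    rw [Submodule.mkQ_map_self, sup_bot_eq]
  have hfs : Module.Finite K ↥(Submodule.span K (Set.range h)) :=
    FiniteDimensional.span_of_finite K (Set.finite_range h)
  have h2 := Submodule.finrank_mono h1
  rw [finrank_cechH1 Tz Ti hg hdisj hz hi] at h2
  have h3 : Module.finrank K ↥((Submodule.span K (Set.range h)).map (cechW Tz Ti).mkQ) ≤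
      Module.finrank K ↥(Submodule.span K (Set.range h)) :=
    Submodule.finrank_map_le _ _
  have h4 : Module.finrank K ↥(Submodule.span K (Set.range h)) ≤ Fintype.card ι :=
    finrank_range_le_card (R := K) h
  omega

/-- Lower bound for the genus: a finite family in `Bm` which is linearly independent modulo
`B₀ + B∞` has at most `g` elements. -/
theorem le_genus_of_indep {g : ℕ} (hg : IsRiemannGenus K F g)
    (hdisj : Disjoint Tz Ti) (hz : Tz.Nonempty) (hi : Ti.Nonempty)
    {ι : Type*} [Fintype ι] (h : ι → F) (hM : ∀ i, h i ∈ cechM Tz Ti)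
    (hind : LinearIndependent K (fun i => (cechW Tz Ti).mkQ (h i))) :
    Fintype.card ι ≤ g := by
  have hfin := finite_cechH1 Tz Ti hg hdisj hz hi
  let b : ι → ↥(cechH1 Tz Ti) := fun i => ⟨(cechW Tz Ti).mkQ (h i), Submodule.mem_map_of_mem (hM i)⟩
  have hb : LinearIndependent K b := by
    apply LinearIndependent.of_comp (cechH1 Tz Ti).subtype
    exact hind
  have := hb.fintype_card_le_finrank
  rwa [finrank_cechH1 Tz Ti hg hdisj hz hi] at this

/-- Elementary form of the independence hypothesis. -/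
theorem le_genus_of_indep' {g : ℕ} (hg : IsRiemannGenus K F g)
    (hdisj : Disjoint Tz Ti) (hz : Tz.Nonempty) (hi : Ti.Nonempty)
    {ι : Type*} [Fintype ι] (h : ι → F) (hM : ∀ i, h i ∈ cechM Tz Ti)
    (hind : ∀ c : ι → K, ∑ i, c i • h i ∈ cechW Tz Ti → c = 0) :
    Fintype.card ι ≤ g := by
  refine le_genus_of_indep Tz Ti hg hdisj hz hi h hM ?_
  rw [Fintype.linearIndependent_iff]
  intro c hc i
  have h1 : (cechW Tz Ti).mkQ (∑ i, c i • h i) = 0 := by
    rw [map_sum]
    simpa [map_smul] using hc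
  have h2 : ∑ i, c i • h i ∈ cechW Tz Ti := by
    rwa [Submodule.mkQ_apply, Submodule.Quotient.mk_eq_zero] at h1
  exact congrFun (hind c h2) i

end Corollaries

end Fermat.Agent.Lib.RR.H638

end
end
-- ===== PACK-END Lib/RR/H638/Cech.lean

-- ===== PACK-BEGIN Lib/RR/H638/CechFun.lean
section


/-!
# Čech formula for the two charts of a nonconstant function (helper638)

For a nonconstant `x : F` the finite sets `zerosOf x`, `polesOf x` are disjoint and nonempty, and

* `holOff (polesOf x) = {f | ∀ v, 0 ≤ ord_v x → 0 ≤ ord_v f}`  (the "finite chart" `B₀`),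
* `holOff (zerosOf x) = {f | ∀ v, ord_v x ≤ 0 → 0 ≤ ord_v f}`  (the "chart at infinity" `B∞`),
* `holOff (zerosOf x ∪ polesOf x) = {f | ∀ v, ord_v x = 0 → 0 ≤ ord_v f}`  (`Bm`).

Hence `dim_K Bm / (B₀ + B∞) = g` (`finrank_cech_of_fun`).
-/

set_option autoImplicit false

noncomputable section

open AlgebraicCurve

namespace Fermat.Agent.Lib.RR.H638

open Fermat.Agent.Lib.RR

variable {K F : Type*} [Field K] [Field F] [Algebra K F] [FF1 K F]

open scoped Classical in
/-- The zeros of a nonzero function. -/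
def zerosOf (x : F) (hx : x ≠ 0) : Finset (Place K F) :=
  (divOf (K := K) x hx).support.filter (fun v => 0 < v.ord x)

open scoped Classical in
/-- The poles of a nonzero function. -/
def polesOf (x : F) (hx : x ≠ 0) : Finset (Place K F) :=
  (divOf (K := K) x hx).support.filter (fun v => v.ord x < 0)

theorem mem_zerosOf {x : F} {hx : x ≠ 0} {v : Place K F} :
    v ∈ zerosOf (K := K) x hx ↔ 0 < v.ord x := by
  classical
  unfold zerosOf
  rw [Finset.mem_filter, Finsupp.mem_support_iff, divOf_apply]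
  exact ⟨fun h => h.2, fun h => ⟨ne_of_gt h, h⟩⟩

theorem mem_polesOf {x : F} {hx : x ≠ 0} {v : Place K F} :
    v ∈ polesOf (K := K) x hx ↔ v.ord x < 0 := by
  classical
  unfold polesOf
  rw [Finset.mem_filter, Finsupp.mem_support_iff, divOf_apply]
  exact ⟨fun h => h.2, fun h => ⟨ne_of_lt h, h⟩⟩

theorem disjoint_zerosOf_polesOf (x : F) (hx : x ≠ 0) :
    Disjoint (zerosOf (K := K) x hx) (polesOf (K := K) x hx) := by
  rw [Finset.disjoint_left]
  intro v hz hp
  rw [mem_zerosOf] at hz
  rw [mem_polesOf] at hp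
  omega

/-- A function without poles is constant. -/
theorem mem_range_of_polesOf_eq_empty {x : F} {hx : x ≠ 0}
    (h : polesOf (K := K) x hx = ∅) : x ∈ Set.range (algebraMap K F) := by
  have hL : x ∈ riemannRochSpace (0 : Divisor K F) := by
    rw [mem_L_iff]
    intro v
    right
    have hv : v ∉ polesOf (K := K) x hx := by rw [h]; exact Finset.notMem_empty v
    rw [mem_polesOf] at hv
    simpa using not_lt.mp hv
  rw [L_zero] at hL
  obtain ⟨c, hc⟩ := hL
  exact ⟨c, hc⟩

theorem polesOf_nonempty {x : F} (hx : x ≠ 0) (hxc : x ∉ Set.range (algebraMap K F)) :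
    (polesOf (K := K) x hx).Nonempty := by
  rw [Finset.nonempty_iff_ne_empty]
  exact fun h => hxc (mem_range_of_polesOf_eq_empty h)

theorem zerosOf_nonempty {x : F} (hx : x ≠ 0) (hxc : x ∉ Set.range (algebraMap K F)) :
    (zerosOf (K := K) x hx).Nonempty := by
  have hinv : x⁻¹ ∉ Set.range (algebraMap K F) := by
    rintro ⟨c, hc⟩
    apply hxc
    refine ⟨c⁻¹, ?_⟩
    rw [map_inv₀, hc, inv_inv]
  obtain ⟨v, hv⟩ := polesOf_nonempty (K := K) (inv_ne_zero hx) hinv
  refine ⟨v, ?_⟩
  rw [mem_polesOf, v.ord_inv] at hv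
  rw [mem_zerosOf]
  omega

theorem mem_holOff_polesOf {x : F} {hx : x ≠ 0} {f : F} :
    f ∈ holOff ((polesOf (K := K) x hx : Finset (Place K F)) : Set (Place K F)) ↔
      ∀ v : Place K F, 0 ≤ v.ord x → 0 ≤ v.ord f := by
  rw [mem_holOff]
  refine forall_congr' fun v => ?_
  rw [Finset.mem_coe, mem_polesOf, not_lt]

theorem mem_holOff_zerosOf {x : F} {hx : x ≠ 0} {f : F} :
    f ∈ holOff ((zerosOf (K := K) x hx : Finset (Place K F)) : Set (Place K F)) ↔
      ∀ v : Place K F, v.ord x ≤ 0 → 0 ≤ v.ord f := by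
  rw [mem_holOff]
  refine forall_congr' fun v => ?_
  rw [Finset.mem_coe, mem_zerosOf, not_lt]

theorem mem_holOff_zerosOf_union_polesOf {x : F} {hx : x ≠ 0} {f : F} :
    f ∈ holOff (((zerosOf (K := K) x hx : Finset (Place K F)) : Set (Place K F)) ∪
        (polesOf (K := K) x hx : Finset (Place K F))) ↔
      ∀ v : Place K F, v.ord x = 0 → 0 ≤ v.ord f := by
  rw [mem_holOff]
  refine forall_congr' fun v => ?_
  rw [Set.mem_union, Finset.mem_coe, Finset.mem_coe, mem_zerosOf, mem_polesOf]
  constructor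
  · intro h h0; exact h (by omega)
  · intro h h0; exact h (by omega)

/-- `B₀ + B∞` for the function `x`. -/
def funW (x : F) (hx : x ≠ 0) : Submodule K F :=
  cechW (zerosOf (K := K) x hx) (polesOf (K := K) x hx)

/-- `Bm` for the function `x`. -/
def funM (x : F) (hx : x ≠ 0) : Submodule K F :=
  cechM (zerosOf (K := K) x hx) (polesOf (K := K) x hx)

theorem mem_funM {x : F} {hx : x ≠ 0} {f : F} :
    f ∈ funM (K := K) x hx ↔ ∀ v : Place K F, v.ord x = 0 → 0 ≤ v.ord f :=
  mem_holOff_zerosOf_union_polesOf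

theorem mem_funW {x : F} {hx : x ≠ 0} {f : F} :
    f ∈ funW (K := K) x hx ↔ ∃ a b : F, (∀ v : Place K F, 0 ≤ v.ord x → 0 ≤ v.ord a) ∧
      (∀ v : Place K F, v.ord x ≤ 0 → 0 ≤ v.ord b) ∧ a + b = f := by
  unfold funW cechW
  rw [Submodule.mem_sup]
  constructor
  · rintro ⟨a, ha, b, hb, rfl⟩
    exact ⟨a, b, mem_holOff_polesOf.mp ha, mem_holOff_zerosOf.mp hb, rfl⟩
  · rintro ⟨a, b, ha, hb, rfl⟩
    exact ⟨a, mem_holOff_polesOf.mpr ha, b, mem_holOff_zerosOf.mpr hb, rfl⟩

/-- **Čech formula for the genus, for the two charts `x ≠ ∞`, `x ≠ 0`** of a nonconstant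
function `x`:  `dim_K Bm ⧸ (B₀ + B∞) = g`. -/
theorem finrank_cech_of_fun {g : ℕ} (hg : IsRiemannGenus K F g) {x : F} (hx : x ≠ 0)
    (hxc : x ∉ Set.range (algebraMap K F)) :
    Module.Finite K (↥(funM (K := K) x hx) ⧸ (funW (K := K) x hx).submoduleOf (funM x hx)) ∧
      Module.finrank K (↥(funM (K := K) x hx) ⧸ (funW (K := K) x hx).submoduleOf (funM x hx))
        = g :=
  finrank_cech_quot _ _ hg (disjoint_zerosOf_polesOf x hx) (zerosOf_nonempty hx hxc)
    (polesOf_nonempty hx hxc)

/-- Upper bound: `g ≤ #h` if `Bm ⊆ span h + B₀ + B∞`. -/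
theorem genus_le_of_span_fun {g : ℕ} (hg : IsRiemannGenus K F g) {x : F} (hx : x ≠ 0)
    (hxc : x ∉ Set.range (algebraMap K F)) {ι : Type*} [Fintype ι] (h : ι → F)
    (hspan : funM (K := K) x hx ≤ Submodule.span K (Set.range h) ⊔ funW x hx) :
    g ≤ Fintype.card ι :=
  genus_le_of_span _ _ hg (disjoint_zerosOf_polesOf x hx) (zerosOf_nonempty hx hxc)
    (polesOf_nonempty hx hxc) h hspan

/-- Lower bound: `#h ≤ g` if the `h i ∈ Bm` are linearly independent modulo `B₀ + B∞`. -/
theorem le_genus_of_indep_fun {g : ℕ} (hg : IsRiemannGenus K F g) {x : F} (hx : x ≠ 0)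
    (hxc : x ∉ Set.range (algebraMap K F)) {ι : Type*} [Fintype ι] (h : ι → F)
    (hM : ∀ i, h i ∈ funM (K := K) x hx)
    (hind : ∀ c : ι → K, ∑ i, c i • h i ∈ funW (K := K) x hx → c = 0) :
    Fintype.card ι ≤ g :=
  le_genus_of_indep' _ _ hg (disjoint_zerosOf_polesOf x hx) (zerosOf_nonempty hx hxc)
    (polesOf_nonempty hx hxc) h hM hind

end Fermat.Agent.Lib.RR.H638

end
end
-- ===== PACK-END Lib/RR/H638/CechFun.lean

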