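import Mathlib
import Fermat.Agent.Pack.S3234.G4E2L1
import Fermat.Agent.Pack.S3234.G4E0L0
import Fermat.Agent.Pack.S3234.G4E1L1
import Fermat.Agent.Pack.S3234.G0E0L3
import Fermat.Agent.Pack.S3234.G0E6L2
import Fermat.Agent.Pack.S3234.G4E2L0
import Fermat.Agent.Pack.S3234.G4E1L3
import Fermat.Agent.Pack.S3234.G4E0L1
import Fermat.Agent.Pack.S3234.G4E2L3

-- ===== PACK-BEGIN S31/H862/SelfAdjoint.lean
section




/-!
# S31 / SS (helper862) — `T_p` (`p ∤ N`) is self-adjoint for the Petersson pairing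
-/

set_option autoImplicit false

open UpperHalfPlane CongruenceSubgroup MeasureTheory Matrix.SpecialLinearGroup
open scoped MatrixGroups ModularForm ComplexConjugate

open P2MW.S_ModularForm_heckeT_slash_eq_self_of_mem_Gamma0.ModularForm.HeckeSlashInvariance

namespace Fermat.Agent.S31.H862

/-- `HasSum` over a product with a finite second factor, from `HasSum` on each fibre. -/
theorem hasSum_prod_of_fintype {α β M : Type*} [Fintype β] [AddCommMonoid M]
    [TopologicalSpace M] [ContinuousAdd M] {f : α × β → M} {a : β → M}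
    (h : ∀ b, HasSum (fun x => f (x, b)) (a b)) : HasSum f (∑ b, a b) := by
  classical
  have h1 : ∀ b : β, HasSum (fun y : α × β => if y.2 = b then f y else 0) (a b) := by
    intro b
    have hinj : Function.Injective (fun x : α => ((x, b) : α × β)) := fun x x' hxx' => by
      simpa using hxx'
    have := (hinj.hasSum_iff (f := fun y : α × β => if y.2 = b then f y else 0) (a := a b)
      (by
        rintro ⟨x, b'⟩ hy
        have hb : b' ≠ b := by
          rintro rfl
          exact hy ⟨x, rfl⟩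
        simp [hb])).mp
    apply this
    simpa [Function.comp_def] using h b
  have h2 := hasSum_sum (s := Finset.univ) fun b _ => h1 b
  have h3 : (fun y : α × β => ∑ i : β, if y.2 = i then f y else 0) = f := by
    funext y
    rw [Finset.sum_ite_eq]
    simp
  rwa [h3] at h2

section

variable {p : ℕ} [Fact p.Prime]

theorem scalarP_smul (z : ℍ) : scalarP p • z = z := by
  rw [scalarP]
  exact glScalar_smul _ z

theorem slash_scalarP (g : ℍ → ℂ) : g ∣[(2 : ℤ)] scalarP p = g := by
  funext z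
  have hp : (p : ℝ) ≠ 0 := Nat.cast_ne_zero.mpr (Fact.out : p.Prime).ne_zero
  have hpc : (p : ℂ) ≠ 0 := Nat.cast_ne_zero.mpr (Fact.out : p.Prime).ne_zero
  have hdet : (scalarP p).det.val = (p : ℝ) ^ 2 := by
    rw [scalarP, Matrix.GeneralLinearGroup.det_scalar]
    simp
  have hσ : σ (scalarP p) = ContinuousAlgEquiv.refl ℝ ℂ := by
    rw [σ, if_pos (by rw [hdet]; positivity)]
  have hden : denom (scalarP p) z = (p : ℂ) := by
    rw [scalarP, denom_scalar]
    simp
  rw [slash_two_apply, scalarP_smul, hσ, hdet, hden]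
  simp only [ContinuousAlgEquiv.refl_apply]
  rw [abs_of_pos (by positivity)]
  push_cast
  field_simp

end

section

variable {N : ℕ} [NeZero N]

theorem cusp_slash_mapGL (g : CuspForm (Gamma0 N) 2) (γ : Gamma0 N) :
    (g : ℍ → ℂ) ∣[(2 : ℤ)] (mapGL ℝ (γ : SL(2, ℤ))) = g :=
  SlashInvariantFormClass.slash_action_eq g _ (Subgroup.mem_map_of_mem (mapGL ℝ) γ.2)

theorem nice_cusp (g : CuspForm (Gamma0 N) 2) : Nice (g : ℍ → ℂ) := nice_cuspForm g

variable {p : ℕ} [Fact p.Prime]

/-- `⟨f, T_p g⟩` as an unfolded sum over the double coset. -/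
theorem hasSum_kern_cosets (f g : CuspForm (Gamma0 N) 2) :
    HasSum (fun y : Gamma0 N × OnePoint (ZMod p) => kern N f g (cosetMap p N y))
      (pet N f (ModularForm.heckeT 2 p g)) := by
  haveI : NeZero p := ⟨(Fact.out : p.Prime).ne_zero⟩
  have h1 : pet N f (ModularForm.heckeT 2 p g) =
      ∑ x : OnePoint (ZMod p), pet N f ((g : ℍ → ℂ) ∣[(2 : ℤ)] heckeRep p x) := by
    rw [heckeT_eq_sum_onePoint]
    exact pint_sum_right (integrable_wt N) Finset.univ (nice_cusp f)
      fun x _ => (nice_cusp g).slash _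
  rw [h1]
  exact hasSum_prod_of_fintype fun x =>
    hasSum_kern N (nice_cusp f) (nice_cusp g) (cusp_slash_mapGL g) (heckeRep p x)

/-- **Self-adjointness of `T_p`, `p ∤ N`** (function level). -/
theorem pet_heckeT_comm (hpN : ¬ p ∣ N) (f g : CuspForm (Gamma0 N) 2) :
    pet N (ModularForm.heckeT 2 p f) g = pet N f (ModularForm.heckeT 2 p g) := by
  have hA := hasSum_kern_cosets (p := p) f g
  have hB := hasSum_kern_cosets (p := p) g f
  have hB' : HasSum (fun y : Gamma0 N × OnePoint (ZMod p) => conj (kern N g f (cosetMap p N y)))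
      (conj (pet N g (ModularForm.heckeT 2 p f))) :=
    hB.map (starRingEnd ℂ) Complex.continuous_conj
  rw [pet_conj] at hB'
  have hkey : ∀ y : Gamma0 N × OnePoint (ZMod p),
      conj (kern N g f (cosetMap p N y)) = kern N f g (cosetMap p N (adjPerm hpN y)) := by
    intro y
    refine conj_kern N _ _ (det_cosetMap_pos y) (fun z => ?_) ?_
    · rw [← mul_smul, adjPerm_apply, adjFun_spec, scalarP_smul]
    · rw [← SlashAction.slash_mul, adjPerm_apply, adjFun_spec, slash_scalarP]
  simp only [hkey] at hB'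
  have hB'' := (Equiv.hasSum_iff (adjPerm (N := N) (p := p) hpN)
    (f := fun y => kern N f g (cosetMap p N y))).mp hB'
  exact hB''.unique hA

end

end Fermat.Agent.S31.H862

end
-- ===== PACK-END S31/H862/SelfAdjoint.lean

-- ===== PACK-BEGIN S31/H862/Positive.lean
section



/-!
# S31 / SS (helper862) — the Petersson pairing is positive definite on cusp forms
-/

set_option autoImplicit false

open UpperHalfPlane CongruenceSubgroup MeasureTheory Matrix.SpecialLinearGroup
open scoped MatrixGroups ModularForm ComplexConjugate ENNReal NNReal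

namespace Fermat.Agent.S31.H862

/-- The invariant measure on `ℍ` is positive on nonempty open sets. -/
theorem isOpenPosMeasure_uhp : (volume : Measure ℍ).IsOpenPosMeasure := by
  refine ⟨fun U hU hne hzero => ?_⟩
  rw [UpperHalfPlane.volume_eq_lintegral] at hzero
  have hopen : IsOpen ((↑) '' U : Set ℂ) := isOpenEmbedding_coe.isOpenMap U hU
  have hmeas : Measurable fun z : ℂ => ((↑((1 / ‖z.im‖₊) ^ 2 : NNReal) : ℝ≥0∞)) := by
    fun_prop
  rw [lintegral_eq_zero_iff hmeas, Filter.EventuallyEq, ae_restrict_iff' hopen.measurableSet]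
    at hzero
  have h2 : ∀ᵐ z : ℂ, z ∉ ((↑) '' U : Set ℂ) := by
    filter_upwards [hzero] with z hz hzU
    have h3 := hz hzU
    obtain ⟨w, -, rfl⟩ := hzU
    have him : (0 : ℝ) < (w : ℂ).im := w.im_pos
    simp only [Pi.zero_apply, ENNReal.coe_eq_zero] at h3
    have h5 := pow_eq_zero_iff (two_ne_zero) |>.mp h3
    rw [one_div, inv_eq_zero, nnnorm_eq_zero] at h5
    exact him.ne' h5
  have h4 : volume ((↑) '' U : Set ℂ) = 0 := by
    rw [← compl_compl ((↑) '' U : Set ℂ)]
    exact h2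
  exact (hopen.measure_ne_zero volume (hne.image _)) h4

section

variable (N : ℕ) [NeZero N]

theorem petersson_self (f : ℍ → ℂ) (z : ℍ) :
    petersson 2 f f z = ((nrm f z ^ 2 : ℝ) : ℂ) := by
  simp only [petersson, nrm]
  rw [zpow_ofNat, mul_comm (conj (f z)), Complex.mul_conj, Complex.normSq_eq_norm_sq]
  push_cast
  ring

theorem continuous_nrm {f : ℍ → ℂ} (hf : Continuous f) : Continuous (nrm f) :=
  (continuous_norm.comp hf).mul UpperHalfPlane.continuous_im

theorem nrm_smul_of_slash_eq {f : ℍ → ℂ} {δ : GL (Fin 2) ℝ} (h : f ∣[(2 : ℤ)] δ = f) (z : ℍ) :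
    nrm f (δ • z) = nrm f z := by
  rw [← nrm_slash, h]

theorem eq_zero_of_pet_self_eq_zero {f : ℍ → ℂ} (hf : Nice f)
    (hinv : ∀ γ : Gamma0 N, f ∣[(2 : ℤ)] (mapGL ℝ (γ : SL(2, ℤ))) = f)
    (h0 : pet N f f = 0) : f = 0 := by
  have := isOpenPosMeasure_uhp
  have hint : Integrable (fun z : ℍ => nrm f z ^ 2 * wt N z) volume := by
    have := integrable_pint (integrable_wt N) hf hf
    have h2 : (fun z : ℍ => petersson 2 f f z * (wt N z : ℂ)) =
        fun z : ℍ => ((nrm f z ^ 2 * wt N z : ℝ) : ℂ) := by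
      funext z
      rw [petersson_self]
      push_cast
      ring
    rw [h2] at this
    exact this.re.congr (Filter.Eventually.of_forall fun z => by
      simp only [RCLike.re_to_complex, Complex.ofReal_re])
  have h1 : ∫ z : ℍ, nrm f z ^ 2 * wt N z = 0 := by
    have h2 : pet N f f = ((∫ z : ℍ, nrm f z ^ 2 * wt N z : ℝ) : ℂ) := by
      unfold pet pint
      rw [← integral_complex_ofReal]
      refine integral_congr_ae (Filter.Eventually.of_forall fun z => ?_)
      simp only [petersson_self]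
      push_cast
      ring
    rw [h2] at h0
    exact_mod_cast h0
  have hnn : 0 ≤ fun z : ℍ => nrm f z ^ 2 * wt N z :=
    fun z => mul_nonneg (sq_nonneg _) (wt_nonneg N z)
  have hae := (integral_eq_zero_iff_of_nonneg hnn hint).mp h1
  have hcont : Continuous fun z : ℍ => nrm f z ^ 2 * wt N z :=
    ((continuous_nrm hf.cont).pow 2).mul (continuous_wt N)
  have hall : (fun z : ℍ => nrm f z ^ 2 * wt N z) = 0 :=
    (Continuous.ae_eq_iff_eq volume hcont continuous_const).mp hae
  funext z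
  obtain ⟨γ, hγ⟩ : ∃ γ : Gamma0 N, wt N ((γ : SL(2, ℤ)) • z) ≠ 0 := by
    by_contra hcon
    push Not at hcon
    have h := hasSum_wt N z
    simp only [hcon] at h
    exact zero_ne_one (h.unique hasSum_zero).symm
  have h3 := congrFun hall ((γ : SL(2, ℤ)) • z)
  simp only [Pi.zero_apply, mul_eq_zero, hγ, or_false] at h3
  replace h3 := pow_eq_zero_iff (two_ne_zero) |>.mp h3
  have h4 : nrm f ((mapGL ℝ (γ : SL(2, ℤ))) • z) = nrm f z := nrm_smul_of_slash_eq (hinv γ) z
  have h5 : nrm f z = 0 := by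
    rw [← h4]
    exact h3
  rw [nrm, mul_eq_zero] at h5
  rcases h5 with h5 | h5
  · simpa using h5
  · exact absurd h5 z.im_pos.ne'

end

end Fermat.Agent.S31.H862

end
-- ===== PACK-END S31/H862/Positive.lean

-- ===== PACK-BEGIN S31/H862/Reduced.lean
section




/-!
# S31 / SS (helper862) — the anemic Hecke algebra of weight 2 is reduced

`heckeAlgebra_isReduced`: if `S` contains all primes dividing `N`, then
`CuspForm.heckeAlgebra N 2 S` is reduced (exact statement of the row skeleton, piece SS).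
-/

set_option autoImplicit false

open UpperHalfPlane CongruenceSubgroup MeasureTheory Matrix.SpecialLinearGroup
open scoped MatrixGroups ModularForm ComplexConjugate

namespace Fermat.Agent.S31.H862

section

variable {N : ℕ} [NeZero N]

/-- The Petersson pairing on cusp forms. -/
noncomputable def petC (f g : CuspForm (Gamma0 N) 2) : ℂ := pet N f g

theorem pet_add_right {f g₁ g₂ : ℍ → ℂ} (hf : Nice f) (hg₁ : Nice g₁) (hg₂ : Nice g₂) :
    pet N f (g₁ + g₂) = pet N f g₁ + pet N f g₂ := by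
  unfold pet pint
  rw [← integral_add (integrable_pint (integrable_wt N) hf hg₁)
    (integrable_pint (integrable_wt N) hf hg₂)]
  refine integral_congr_ae (Filter.Eventually.of_forall fun z => ?_)
  simp only [petersson_add_right]
  ring

theorem petC_add_right (f g₁ g₂ : CuspForm (Gamma0 N) 2) :
    petC f (g₁ + g₂) = petC f g₁ + petC f g₂ := by
  unfold petC
  rw [FunLike.coe_add]
  exact pet_add_right (nice_cusp f) (nice_cusp g₁) (nice_cusp g₂)

theorem petC_conj (f g : CuspForm (Gamma0 N) 2) : conj (petC f g) = petC g f :=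
  pet_conj N _ _

theorem petC_add_left (f₁ f₂ g : CuspForm (Gamma0 N) 2) :
    petC (f₁ + f₂) g = petC f₁ g + petC f₂ g := by
  rw [← petC_conj g, petC_add_right, map_add, petC_conj, petC_conj]

omit [NeZero N] in
theorem petC_zero_right (f : CuspForm (Gamma0 N) 2) : petC f 0 = 0 := by
  unfold petC pet pint
  simp [petersson]

theorem petC_smul_int (n : ℤ) (f g : CuspForm (Gamma0 N) 2) :
    petC (n • f) g = petC f (n • g) := by
  unfold petC pet pint
  refine integral_congr_ae (Filter.Eventually.of_forall fun z => ?_)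
  have h1 : ∀ h : CuspForm (Gamma0 N) 2, ((n • h : CuspForm (Gamma0 N) 2) : ℍ → ℂ) z
      = (n : ℂ) * h z := by
    intro h
    rw [← Int.cast_smul_eq_zsmul ℂ n h]
    simp
  simp only [petersson, h1, map_mul, map_intCast]
  ring

theorem eq_zero_of_petC_self (f : CuspForm (Gamma0 N) 2) (h : petC f f = 0) : f = 0 := by
  have h1 := eq_zero_of_pet_self_eq_zero N (nice_cusp f) (cusp_slash_mapGL f) h
  exact DFunLike.coe_injective h1

/-- Self-adjoint endomorphisms of the space of cusp forms. -/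
def IsSA (t : Module.End ℂ (CuspForm (Gamma0 N) 2)) : Prop :=
  ∀ f g : CuspForm (Gamma0 N) 2, petC (t f) g = petC f (t g)

theorem isSA_heckeTLin {p : ℕ} (hp : p.Prime) (hpN : ¬ p ∣ N) :
    IsSA (CuspForm.heckeTLin (N := N) 2 hp hpN) := by
  intro f g
  have : Fact p.Prime := ⟨hp⟩
  unfold petC
  rw [CuspForm.coe_heckeTLin_apply, CuspForm.coe_heckeTLin_apply]
  exact pet_heckeT_comm hpN f g

theorem isSA_algebraMap (n : ℤ) :
    IsSA (algebraMap ℤ (Module.End ℂ (CuspForm (Gamma0 N) 2)) n) := by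
  intro f g
  have h : ∀ h : CuspForm (Gamma0 N) 2,
      (algebraMap ℤ (Module.End ℂ (CuspForm (Gamma0 N) 2)) n) h = n • h := by
    intro h
    simp
  rw [h, h]
  exact petC_smul_int n f g

theorem IsSA.add {s t : Module.End ℂ (CuspForm (Gamma0 N) 2)} (hs : IsSA s) (ht : IsSA t) :
    IsSA (s + t) := by
  intro f g
  rw [LinearMap.add_apply, LinearMap.add_apply, petC_add_left, petC_add_right, hs f g, ht f g]

omit [NeZero N] in
theorem IsSA.mul {s t : Module.End ℂ (CuspForm (Gamma0 N) 2)} (hs : IsSA s) (ht : IsSA t)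
    (hc : s * t = t * s) : IsSA (s * t) := by
  intro f g
  have h1 : petC ((s * t) f) g = petC f ((t * s) g) := by
    rw [Module.End.mul_apply, Module.End.mul_apply, hs, ht]
  rw [h1, hc]

end

/-- **SS**: the anemic Hecke algebra of weight 2 and level `Γ₀(N)` is reduced. -/
theorem heckeAlgebra_isReduced (N : ℕ) [NeZero N] (S : Set ℕ)
    (hNS : ∀ q : ℕ, q.Prime → q ∣ N → q ∈ S) : IsReduced (CuspForm.heckeAlgebra N 2 S) := by
  have hgen : ∀ t ∈ CuspForm.heckeGenerators N 2 S, IsSA t := by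
    rintro t (⟨ℓ, hℓ, hℓN, -, rfl⟩ | ⟨q, hqN, hq, hqS, rfl⟩)
    · exact isSA_heckeTLin hℓ hℓN
    · exact absurd (hNS q hq hqN) hqS
  have hcomm : ∀ s t : Module.End ℂ (CuspForm (Gamma0 N) 2),
      s ∈ CuspForm.heckeAlgebra N 2 S → t ∈ CuspForm.heckeAlgebra N 2 S → s * t = t * s := by
    intro s t hs ht
    have := mul_comm (⟨s, hs⟩ : CuspForm.heckeAlgebra N 2 S) ⟨t, ht⟩
    exact congrArg Subtype.val this
  have hall : ∀ t ∈ CuspForm.heckeAlgebra N 2 S, IsSA t := by
    intro t ht
    unfold CuspForm.heckeAlgebra at ht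
    induction ht using Algebra.adjoin_induction with
    | mem x hx => exact hgen x hx
    | algebraMap r => exact isSA_algebraMap r
    | add x y hx hy ihx ihy => exact ihx.add ihy
    | mul x y hx hy ihx ihy => exact ihx.mul ihy (hcomm x y hx hy)
  rw [isReduced_iff_pow_one_lt 2 one_lt_two]
  rintro ⟨t, ht⟩ h2
  have h3 : t * t = 0 := by
    have := congrArg Subtype.val h2
    simpa [pow_two] using this
  apply Subtype.ext
  show t = 0
  refine LinearMap.ext fun f => ?_
  apply eq_zero_of_petC_self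
  rw [hall t ht, ← Module.End.mul_apply, h3, LinearMap.zero_apply]
  exact petC_zero_right _

end Fermat.Agent.S31.H862

end
-- ===== PACK-END S31/H862/Reduced.lean

-- ===== PACK-BEGIN S32/H185/Red.lean
section





/-!
# Row S32, piece RED (helper185): the coefficient ring of a Hecke–Galois datum is reduced

`red : Fermat.Agent.S32.RedStatement` (exact `Prop` of `S32/Spec.lean`).

Route.  Let `𝕋 = heckeAlgebra N 2 S`, `K = Frac 𝒪`.  The ring `K ⊗[ℤ] 𝕋` is reduced
(`S31.H862.heckeAlgebra_isReduced` = Petersson, `S31.H262.isReduced_field_tensor`) and artinian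
(`𝕋` is finite over `ℤ`: landed S22), hence semisimple, so every quotient of it is reduced.
`K ⊗[𝒪] T` is such a quotient because `T` is generated over `𝒪` by the image of `π`
(`adjoin_range_π`), and `T ↪ K ⊗[𝒪] T` because `T` is `𝒪`-free.

Abstract, reusable (no modular forms): `isReduced_of_surjective_of_isArtinianRing`,
`compMap`, `compMap_surjective`, `isReduced_of_adjoin_range`.
-/

set_option autoImplicit false
set_option linter.style.haveILetI false
set_option linter.unusedSectionVars false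

open scoped TensorProduct

namespace Fermat.Agent.S32.H185

/-- A quotient of a reduced artinian commutative ring is reduced. -/
theorem isReduced_of_surjective_of_isArtinianRing {R R' : Type*} [CommRing R] [CommRing R']
    [IsArtinianRing R] [IsReduced R] (f : R →+* R') (hf : Function.Surjective f) :
    IsReduced R' := by
  haveI : IsSemisimpleRing R := IsArtinianRing.isSemisimpleRing_of_isReduced R
  haveI : IsSemisimpleRing R' := f.isSemisimpleRing_of_surjective hf
  infer_instance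

section

variable {𝒪 : Type} [CommRing 𝒪] (K : Type) [Field K] [Algebra 𝒪 K]
  {B : Type} [CommRing B] {T : Type} [CommRing T] [Algebra 𝒪 T]

/-- `B → K ⊗[𝒪] T`, as a `ℤ`-algebra homomorphism. -/
noncomputable def rightHom (π : B →+* T) : B →ₐ[ℤ] K ⊗[𝒪] T where
  toRingHom := (Algebra.TensorProduct.includeRight : T →ₐ[𝒪] K ⊗[𝒪] T).toRingHom.comp π
  commutes' n := by
    rw [eq_intCast (algebraMap ℤ B) n, eq_intCast (algebraMap ℤ (K ⊗[𝒪] T)) n]
    simp

/-- `K → K ⊗[𝒪] T`, as a `ℤ`-algebra homomorphism. -/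
noncomputable def leftHom : K →ₐ[ℤ] K ⊗[𝒪] T where
  toRingHom := (Algebra.TensorProduct.includeLeft : K →ₐ[𝒪] K ⊗[𝒪] T).toRingHom
  commutes' n := by
    rw [eq_intCast (algebraMap ℤ K) n, eq_intCast (algebraMap ℤ (K ⊗[𝒪] T)) n]
    simp

/-- The comparison map `K ⊗[ℤ] B → K ⊗[𝒪] T`, `k ⊗ b ↦ k ⊗ π b`. -/
noncomputable def compMap (π : B →+* T) : K ⊗[ℤ] B →ₐ[ℤ] K ⊗[𝒪] T :=
  Algebra.TensorProduct.lift (leftHom (𝒪 := 𝒪) (T := T) K) (rightHom K π)
    (fun _ _ => Commute.all _ _)

theorem compMap_tmul (π : B →+* T) (k : K) (b : B) :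
    compMap K π (k ⊗ₜ b) = k ⊗ₜ[𝒪] π b := by
  unfold compMap
  rw [Algebra.TensorProduct.lift_tmul]
  show (k ⊗ₜ[𝒪] (1 : T)) * ((1 : K) ⊗ₜ[𝒪] π b) = _
  rw [Algebra.TensorProduct.tmul_mul_tmul, one_mul, mul_one]

/-- If `T` is generated over `𝒪` by the image of `π`, the comparison map is surjective. -/
theorem compMap_surjective (π : B →+* T) (hπ : Algebra.adjoin 𝒪 (Set.range π) = ⊤) :
    Function.Surjective (compMap (𝒪 := 𝒪) K π) := by
  have hright : ∀ t : T, (1 : K) ⊗ₜ[𝒪] t ∈ (compMap (𝒪 := 𝒪) K π).range := by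
    intro t
    have ht : t ∈ Algebra.adjoin 𝒪 (Set.range π) := by rw [hπ]; trivial
    induction ht using Algebra.adjoin_induction with
    | mem x hx =>
      obtain ⟨b, rfl⟩ := hx
      exact ⟨1 ⊗ₜ b, compMap_tmul K π 1 b⟩
    | algebraMap r =>
      refine ⟨algebraMap 𝒪 K r ⊗ₜ 1, (compMap_tmul K π _ _).trans ?_⟩
      rw [map_one, Algebra.algebraMap_eq_smul_one, Algebra.algebraMap_eq_smul_one,
        TensorProduct.smul_tmul]
    | add x y _ _ hx hy =>
      rw [TensorProduct.tmul_add]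
      exact (compMap (𝒪 := 𝒪) K π).range.add_mem hx hy
    | mul x y _ _ hx hy =>
      have : (1 : K) ⊗ₜ[𝒪] (x * y) = ((1 : K) ⊗ₜ[𝒪] x) * ((1 : K) ⊗ₜ[𝒪] y) := by
        rw [Algebra.TensorProduct.tmul_mul_tmul, one_mul]
      rw [this]
      exact (compMap (𝒪 := 𝒪) K π).range.mul_mem hx hy
  intro z
  have : z ∈ (compMap (𝒪 := 𝒪) K π).range := by
    induction z using TensorProduct.induction_on with
    | zero => exact (compMap (𝒪 := 𝒪) K π).range.zero_mem
    | tmul k t =>
      have : k ⊗ₜ[𝒪] t = (k ⊗ₜ[𝒪] (1 : T)) * ((1 : K) ⊗ₜ[𝒪] t) := by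
        rw [Algebra.TensorProduct.tmul_mul_tmul, one_mul, mul_one]
      rw [this]
      refine (compMap (𝒪 := 𝒪) K π).range.mul_mem
        ⟨k ⊗ₜ 1, (compMap_tmul K π _ _).trans ?_⟩ (hright t)
      rw [map_one]
    | add x y hx hy => exact (compMap (𝒪 := 𝒪) K π).range.add_mem hx hy
  exact this

/-- **Abstract form of RED.**  `T` a flat `𝒪`-algebra, `𝒪 ⊆ K` a field, `T` generated over `𝒪`
by the image of a ring homomorphism from a ring `B`, finite over `ℤ`, with `K ⊗[ℤ] B` reduced.
Then `T` is reduced. -/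
theorem isReduced_of_adjoin_range [Module.Flat 𝒪 T] [Module.Finite ℤ B]
    (hK : Function.Injective (algebraMap 𝒪 K)) (hB : IsReduced (K ⊗[ℤ] B))
    (π : B →+* T) (hπ : Algebra.adjoin 𝒪 (Set.range π) = ⊤) : IsReduced T := by
  haveI : Module.Finite K (K ⊗[ℤ] B) := inferInstance
  haveI : IsArtinianRing (K ⊗[ℤ] B) := isArtinian_of_tower K inferInstance
  haveI : IsReduced (K ⊗[𝒪] T) :=
    isReduced_of_surjective_of_isArtinianRing (compMap (𝒪 := 𝒪) K π).toRingHom
      (compMap_surjective K π hπ)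
  exact isReduced_of_injective (Algebra.TensorProduct.includeRight : T →ₐ[𝒪] K ⊗[𝒪] T)
    (Algebra.TensorProduct.includeRight_injective hK)

end

/-- **RED** (exact `Prop` of `S32/Spec.lean`): the coefficient ring `T` of a Hecke–Galois datum
is reduced. -/
theorem red : Fermat.Agent.S32.RedStatement := by
  intro N _ S hNS 𝒪 _ _ _ _ _ θ T _ _ _ _ _ _ _ _ H
  haveI : Module.Finite ℤ (CuspForm.heckeAlgebra N 2 (↑S : Set ℕ)) :=
    Fermat.Agent.S22.result N 2 (↑S : Set ℕ)
  haveI : IsReduced (CuspForm.heckeAlgebra N 2 (↑S : Set ℕ)) :=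
    Fermat.Agent.S31.H862.heckeAlgebra_isReduced N (↑S : Set ℕ) hNS
  haveI : CharZero (FractionRing 𝒪) :=
    charZero_of_injective_algebraMap (IsFractionRing.injective 𝒪 (FractionRing 𝒪))
  exact isReduced_of_adjoin_range (FractionRing 𝒪)
    (IsFractionRing.injective 𝒪 (FractionRing 𝒪))
    (Fermat.Agent.S31.H262.isReduced_field_tensor _ (FractionRing 𝒪)) H.π H.adjoin_range_π

end Fermat.Agent.S32.H185

end
-- ===== PACK-END S32/H185/Red.lean

-- ===== PACK-BEGIN A3/H619/Bialg.lean
section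
/-
A3 / piece ORD (helper619): bialgebra and Hopf algebra structure on an order `H` satisfying
`OrderHyp`.
-/


set_option autoImplicit false
set_option linter.unusedSectionVars false

noncomputable section

namespace Fermat.Agent.A3.H619

open GaloisRep TensorProduct Module

variable {p : ℕ} {T : Type} [AddCommGroup T]
variable {H : Subalgebra (ratLocalizedAt p) (T → Qb)} {act : GQ → T → T}

namespace OrderHyp

variable (h : OrderHyp p T act H)
include h

theorem mu3_map_id_comul (x : ↥H ⊗[ratLocalizedAt p] ↥H) (s t u : T) :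
    mu3 H (Algebra.TensorProduct.map (AlgHom.id (ratLocalizedAt p) ↥H) h.comulAlg x) (s, (t, u))
      = mu H x (s, t + u) := by
  induction x using TensorProduct.induction_on with
  | zero => simp
  | tmul a b =>
    rw [Algebra.TensorProduct.map_tmul, mu3_tmul, AlgHom.coe_id, id_eq, mu_tmul]
    show (a : T → Qb) s * mu H (h.comulAlg b) (t, u) = _
    rw [h.mu_comulAlg_apply]
  | add x y hx hy =>
    rw [map_add, map_add, map_add, Pi.add_apply, Pi.add_apply, hx, hy]

theorem mu3_assoc_tmul (y : ↥H ⊗[ratLocalizedAt p] ↥H) (b : ↥H) (s t u : T) :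
    mu3 H (Algebra.TensorProduct.assoc (ratLocalizedAt p) (ratLocalizedAt p) (ratLocalizedAt p)
        ↥H ↥H ↥H (y ⊗ₜ b)) (s, (t, u))
      = mu H y (s, t) * (b : T → Qb) u := by
  induction y using TensorProduct.induction_on with
  | zero => simp
  | tmul a' b' =>
    rw [Algebra.TensorProduct.assoc_tmul, mu3_tmul, mu_tmul, mu_tmul, mul_assoc]
  | add x y hx hy =>
    rw [TensorProduct.add_tmul, map_add, map_add, Pi.add_apply, map_add, Pi.add_apply, hx, hy,
      add_mul]

theorem mu3_assoc_map_comul_id (x : ↥H ⊗[ratLocalizedAt p] ↥H) (s t u : T) :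
    mu3 H (Algebra.TensorProduct.assoc (ratLocalizedAt p) (ratLocalizedAt p) (ratLocalizedAt p)
        ↥H ↥H ↥H
        (Algebra.TensorProduct.map h.comulAlg (AlgHom.id (ratLocalizedAt p) ↥H) x)) (s, (t, u))
      = mu H x (s + t, u) := by
  induction x using TensorProduct.induction_on with
  | zero => simp
  | tmul a b =>
    rw [Algebra.TensorProduct.map_tmul, AlgHom.coe_id, id_eq, h.mu3_assoc_tmul,
      h.mu_comulAlg_apply, mu_tmul]
  | add x y hx hy =>
    rw [map_add, map_add, map_add, Pi.add_apply, map_add, Pi.add_apply, hx, hy]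

theorem coassoc_alg :
    (Algebra.TensorProduct.assoc (ratLocalizedAt p) (ratLocalizedAt p) (ratLocalizedAt p)
        ↥H ↥H ↥H).toAlgHom.comp
      ((Algebra.TensorProduct.map h.comulAlg (.id (ratLocalizedAt p) ↥H)).comp h.comulAlg)
      = (Algebra.TensorProduct.map (.id (ratLocalizedAt p) ↥H) h.comulAlg).comp h.comulAlg := by
  apply AlgHom.ext
  intro f
  apply h.mu3_injective
  funext ⟨s, t, u⟩
  simp only [AlgHom.comp_apply]
  rw [h.mu3_map_id_comul]
  erw [h.mu3_assoc_map_comul_id]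
  rw [h.mu_comulAlg_apply, h.mu_comulAlg_apply, add_assoc]

theorem val_lid_map_counit (x : ↥H ⊗[ratLocalizedAt p] ↥H) (t : T) :
    ((Algebra.TensorProduct.lid (ratLocalizedAt p) ↥H
        (Algebra.TensorProduct.map h.counitAlg (.id (ratLocalizedAt p) ↥H) x) : ↥H) : T → Qb) t
      = mu H x (0, t) := by
  induction x using TensorProduct.induction_on with
  | zero => simp
  | tmul a b =>
    rw [Algebra.TensorProduct.map_tmul, Algebra.TensorProduct.lid_tmul, AlgHom.coe_id, id_eq,
      mu_tmul]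
    show (h.counitAlg a • (b : T → Qb)) t = _
    rw [Pi.smul_apply, Algebra.smul_def, h.algebraMap_counitAlg]
  | add x y hx hy =>
    rw [map_add, map_add, map_add, Pi.add_apply]
    show ((_ : T → Qb) + _) t = _
    rw [Pi.add_apply, hx, hy]

theorem val_rid_map_counit (x : ↥H ⊗[ratLocalizedAt p] ↥H) (t : T) :
    ((Algebra.TensorProduct.rid (ratLocalizedAt p) (ratLocalizedAt p) ↥H
        (Algebra.TensorProduct.map (.id (ratLocalizedAt p) ↥H) h.counitAlg x) : ↥H) : T → Qb) t
      = mu H x (t, 0) := by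
  induction x using TensorProduct.induction_on with
  | zero => simp
  | tmul a b =>
    rw [Algebra.TensorProduct.map_tmul, Algebra.TensorProduct.rid_tmul, AlgHom.coe_id, id_eq,
      mu_tmul]
    show (h.counitAlg b • (a : T → Qb)) t = _
    rw [Pi.smul_apply, Algebra.smul_def, h.algebraMap_counitAlg, mul_comm]
  | add x y hx hy =>
    rw [map_add, map_add, map_add, Pi.add_apply]
    show ((_ : T → Qb) + _) t = _
    rw [Pi.add_apply, hx, hy]

theorem rTensor_alg :
    (Algebra.TensorProduct.map h.counitAlg (.id (ratLocalizedAt p) ↥H)).comp h.comulAlg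
      = (Algebra.TensorProduct.lid (ratLocalizedAt p) ↥H).symm := by
  apply AlgHom.ext
  intro f
  apply (Algebra.TensorProduct.lid (ratLocalizedAt p) ↥H).injective
  rw [AlgHom.comp_apply]
  erw [AlgEquiv.apply_symm_apply]
  apply Subtype.ext
  funext t
  rw [h.val_lid_map_counit, h.mu_comulAlg_apply, zero_add]

theorem lTensor_alg :
    (Algebra.TensorProduct.map (.id (ratLocalizedAt p) ↥H) h.counitAlg).comp h.comulAlg
      = (Algebra.TensorProduct.rid (ratLocalizedAt p) (ratLocalizedAt p) ↥H).symm := by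
  apply AlgHom.ext
  intro f
  apply (Algebra.TensorProduct.rid (ratLocalizedAt p) (ratLocalizedAt p) ↥H).injective
  rw [AlgHom.comp_apply]
  erw [AlgEquiv.apply_symm_apply]
  apply Subtype.ext
  funext t
  rw [h.val_rid_map_counit, h.mu_comulAlg_apply, add_zero]

/-- The bialgebra structure on `H`. -/
@[reducible]
def bialgebra : Bialgebra (ratLocalizedAt p) ↥H :=
  Bialgebra.ofAlgHom h.comulAlg h.counitAlg h.coassoc_alg h.rTensor_alg h.lTensor_alg

end OrderHyp

end Fermat.Agent.A3.H619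

end
end
-- ===== PACK-END A3/H619/Bialg.lean

-- ===== PACK-BEGIN A3/H619/HopfAlg.lean
section
/-
A3 / piece ORD (helper619): Hopf algebra structure on an order `H` satisfying `OrderHyp`,
cocommutativity.
-/


set_option autoImplicit false
set_option linter.unusedSectionVars false

noncomputable section

namespace Fermat.Agent.A3.H619

open GaloisRep TensorProduct Module

variable {p : ℕ} {T : Type} [AddCommGroup T] [Finite T]
variable {H : Subalgebra (ratLocalizedAt p) (T → Qb)} {act : GQ → T → T}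

namespace OrderHyp

variable (h : OrderHyp p T act H)
include h

theorem val_mul_rTensor (x : ↥H ⊗[ratLocalizedAt p] ↥H) (t : T) :
    ((LinearMap.mul' (ratLocalizedAt p) ↥H
        ((h.antipodeAlg.toLinearMap).rTensor ↥H x) : ↥H) : T → Qb) t
      = mu H x (-t, t) := by
  induction x using TensorProduct.induction_on with
  | zero => simp
  | tmul a b =>
    rw [LinearMap.rTensor_tmul, LinearMap.mul'_apply, mu_tmul]
    rfl
  | add x y hx hy =>
    rw [map_add, map_add, map_add, Pi.add_apply]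
    show ((_ : T → Qb) + _) t = _
    rw [Pi.add_apply, hx, hy]

theorem val_mul_lTensor (x : ↥H ⊗[ratLocalizedAt p] ↥H) (t : T) :
    ((LinearMap.mul' (ratLocalizedAt p) ↥H
        ((h.antipodeAlg.toLinearMap).lTensor ↥H x) : ↥H) : T → Qb) t
      = mu H x (t, -t) := by
  induction x using TensorProduct.induction_on with
  | zero => simp
  | tmul a b =>
    rw [LinearMap.lTensor_tmul, LinearMap.mul'_apply, mu_tmul]
    rfl
  | add x y hx hy =>
    rw [map_add, map_add, map_add, Pi.add_apply]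
    show ((_ : T → Qb) + _) t = _
    rw [Pi.add_apply, hx, hy]

/-- The Hopf algebra structure on `H`. -/
@[reducible]
def hopfAlgebra : HopfAlgebra (ratLocalizedAt p) ↥H :=
  letI := h.bialgebra
  { antipode := h.antipodeAlg.toLinearMap
    mul_antipode_rTensor_comul := by
      apply LinearMap.ext
      intro f
      apply Subtype.ext
      funext t
      simp only [LinearMap.comp_apply]
      erw [h.val_mul_rTensor (h.comulAlg f) t]
      rw [h.mu_comulAlg_apply, neg_add_cancel]
      exact (h.algebraMap_counitAlg f).symm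
    mul_antipode_lTensor_comul := by
      apply LinearMap.ext
      intro f
      apply Subtype.ext
      funext t
      simp only [LinearMap.comp_apply]
      erw [h.val_mul_lTensor (h.comulAlg f) t]
      rw [h.mu_comulAlg_apply, add_neg_cancel]
      exact (h.algebraMap_counitAlg f).symm }

theorem mu_comm (x : ↥H ⊗[ratLocalizedAt p] ↥H) (s t : T) :
    mu H (TensorProduct.comm (ratLocalizedAt p) ↥H ↥H x) (s, t) = mu H x (t, s) := by
  induction x using TensorProduct.induction_on with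
  | zero => simp
  | tmul a b =>
    rw [TensorProduct.comm_tmul, mu_tmul, mu_tmul, mul_comm]
  | add x y hx hy =>
    rw [map_add, map_add, map_add, Pi.add_apply, Pi.add_apply, hx, hy]

theorem isCocomm :
    letI := h.bialgebra
    Coalgebra.IsCocomm (ratLocalizedAt p) ↥H := by
  letI := h.bialgebra
  refine ⟨?_⟩
  apply LinearMap.ext
  intro f
  apply h.mu_injective
  funext ⟨s, t⟩
  rw [LinearMap.comp_apply]
  erw [h.mu_comm (h.comulAlg f) s t]
  erw [h.mu_comulAlg_apply, h.mu_comulAlg_apply]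
  rw [add_comm]

end OrderHyp

end Fermat.Agent.A3.H619

end
end
-- ===== PACK-END A3/H619/HopfAlg.lean

-- ===== PACK-BEGIN A3/H619/Points.lean
section
/-
A3 / piece ORD (helper619): the `ℚ̄`-points of an order `H` satisfying `OrderHyp` are the
evaluations at the points of `T`.
-/


set_option autoImplicit false
set_option linter.unusedSectionVars false

noncomputable section

namespace Fermat.Agent.A3.H619

open GaloisRep TensorProduct Module

variable {p : ℕ} {T : Type} [AddCommGroup T] [Finite T]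
variable {H : Subalgebra (ratLocalizedAt p) (T → Qb)} {act : GQ → T → T}

/-- Evaluation at a point of `T`. -/
def evPt (H : Subalgebra (ratLocalizedAt p) (T → Qb)) (t : T) : ↥H →ₐ[ratLocalizedAt p] Qb :=
  (Pi.evalAlgHom (ratLocalizedAt p) (fun _ : T => Qb) t).comp H.val

omit [AddCommGroup T] [Finite T] in
@[simp]
theorem evPt_apply (t : T) (f : ↥H) : evPt H t f = (f : T → Qb) t := rfl

namespace OrderHyp

variable (h : OrderHyp p T act H)
include h

theorem evPt_injective : Function.Injective (evPt H) := by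
  intro s t hst
  by_contra hne
  obtain ⟨f, hf, hfne⟩ := h.sep s t hne
  exact hfne (by simpa using congrArg (fun φ : ↥H →ₐ[ratLocalizedAt p] Qb => φ ⟨f, hf⟩) hst)

/-- A `ℚ̄`-linear, unital, multiplicative functional on `T → ℚ̄` is an evaluation. -/
theorem exists_eval_of_mul (Φ : (T → Qb) →ₗ[Qb] Qb) (h1 : Φ 1 = 1)
    (hmul : ∀ x y, Φ (x * y) = Φ x * Φ y) : ∃ t : T, ∀ f, Φ f = f t := by
  classical
  cases nonempty_fintype T
  have hsum : ∑ t, Φ (Pi.single t (1 : Qb)) = 1 := by
    have h2 : ∑ t, (Pi.single t (1 : Qb) : T → Qb) = 1 := by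
      funext u
      simp [Finset.sum_apply, Pi.single_apply]
    rw [← map_sum, h2, h1]
  obtain ⟨t, ht⟩ : ∃ t, Φ (Pi.single t (1 : Qb)) ≠ 0 := by
    by_contra hcon
    push Not at hcon
    rw [Finset.sum_eq_zero (fun t _ => hcon t)] at hsum
    exact zero_ne_one hsum
  refine ⟨t, fun f => ?_⟩
  have hf : f * Pi.single t (1 : Qb) = f t • Pi.single t (1 : Qb) := by
    funext u
    by_cases hu : u = t
    · subst hu; simp
    · simp [Pi.single_eq_of_ne hu]
  have := hmul f (Pi.single t (1 : Qb))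
  rw [hf, map_smul, smul_eq_mul] at this
  exact (mul_right_cancel₀ ht this).symm

theorem evPt_surjective : Function.Surjective (evPt H) := by
  classical
  intro φ
  obtain ⟨ι, _, b, hb⟩ := h.isGood_val
  have key : ∀ f : ↥H, (f : T → Qb) = ∑ i, (algebraMap (ratLocalizedAt p) Qb (b.repr f i)) •
      H.val.toLinearMap (b i) := by
    intro f
    have hrepr : f = ∑ i, b.repr f i • b i := (b.sum_repr _).symm
    have := congrArg (fun g : ↥H => H.val.toLinearMap g) hrepr
    simp only [map_sum, map_smul] at this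
    refine this.trans ?_
    refine Finset.sum_congr rfl fun i _ => ?_
    rw [algebraMap_smul]
  -- the `ℚ̄`-basis
  have hspan : ⊤ ≤ Submodule.span Qb (Set.range fun i => H.val.toLinearMap (b i)) := by
    rw [← span_eq_top_of_separates H h.sep]
    apply Submodule.span_le.mpr
    intro f hf
    change ((⟨f, hf⟩ : ↥H) : T → Qb) ∈ _
    rw [key]
    exact Submodule.sum_mem _ fun i _ =>
      Submodule.smul_mem _ _ (Submodule.subset_span ⟨i, rfl⟩)
  let 𝔅 : Basis ι Qb (T → Qb) := Basis.mk hb hspan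
  have h𝔅 : ∀ i, 𝔅 i = H.val.toLinearMap (b i) := fun i => Basis.mk_apply hb hspan i
  let Φ : (T → Qb) →ₗ[Qb] Qb := 𝔅.constr Qb (fun i => φ (b i))
  have hΦb : ∀ i, Φ (H.val.toLinearMap (b i)) = φ (b i) := by
    intro i
    rw [← h𝔅 i]
    exact 𝔅.constr_basis Qb _ i
  -- `Φ` extends `φ`
  have hΦ : ∀ f : ↥H, Φ (f : T → Qb) = φ f := by
    intro f
    have hrepr : f = ∑ i, b.repr f i • b i := (b.sum_repr _).symm
    rw [key f, map_sum]
    conv_rhs => rw [hrepr, map_sum]
    refine Finset.sum_congr rfl fun i _ => ?_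
    rw [map_smul, hΦb, map_smul, smul_eq_mul, Algebra.smul_def]
  have hone : Φ 1 = 1 := by
    have := hΦ 1
    rw [map_one] at this
    exact this
  have hmul : ∀ x y, Φ (x * y) = Φ x * Φ y := by
    intro x y
    -- bilinearity: reduce to basis vectors
    have hxy : ∀ i j, Φ (𝔅 i * 𝔅 j) = Φ (𝔅 i) * Φ (𝔅 j) := by
      intro i j
      rw [h𝔅, h𝔅]
      have := hΦ (b i * b j)
      rw [map_mul] at this
      rw [hΦb, hΦb, ← this]
      rfl
    have hy : ∀ i, Φ (𝔅 i * y) = Φ (𝔅 i) * Φ y := by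
      intro i
      have : (Φ ∘ₗ LinearMap.mulLeft Qb (𝔅 i)) = (Φ (𝔅 i)) • Φ := by
        apply 𝔅.ext
        intro j
        simp only [LinearMap.comp_apply, LinearMap.mulLeft_apply, LinearMap.smul_apply,
          smul_eq_mul]
        exact hxy i j
      have := congrArg (fun L : (T → Qb) →ₗ[Qb] Qb => L y) this
      simpa using this
    have : (Φ ∘ₗ LinearMap.mulRight Qb y) = (Φ y) • Φ := by
      apply 𝔅.ext
      intro i
      simp only [LinearMap.comp_apply, LinearMap.mulRight_apply, LinearMap.smul_apply,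
        smul_eq_mul]
      rw [hy i, mul_comm]
    have := congrArg (fun L : (T → Qb) →ₗ[Qb] Qb => L x) this
    simp only [LinearMap.comp_apply, LinearMap.mulRight_apply, LinearMap.smul_apply,
      smul_eq_mul] at this
    rw [this, mul_comm]
  obtain ⟨t, ht⟩ := h.exists_eval_of_mul Φ hone hmul
  refine ⟨t, ?_⟩
  apply AlgHom.ext
  intro f
  rw [evPt_apply, ← hΦ f, ht]

end OrderHyp

end Fermat.Agent.A3.H619

end
end
-- ===== PACK-END A3/H619/Points.lean

-- ===== PACK-BEGIN S19/H679/NT.lean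
section



/-!
# Cell A3 (S19), block UNR (helper679) — number-theoretic inputs

`V` a valuation subring of `ℚ̄` over the prime `ℓ`.  Elementary facts about algebraic integers
and `V` ("rank one" lemmas), orbits under subgroups of the Galois group, and the two existence
lemmas used by the descent:

* `exists_sepH679`  : an inertia-invariant integer of a normal level `E` moved (mod `𝔪_V`) by a
  given decomposition element which is not inertial on `E`;
* `exists_crtH679`  : an inertia-invariant integer `U` of `E`, `U ≡ 1 mod 𝔪_V`, whose conjugates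
  `σ U` are divisible by `ℓ ^ n` for all `σ` not in `D_V · Gal(ℚ̄/E)`.
-/

set_option autoImplicit false

namespace Fermat.Agent.S19.H679

open Fermat.Agent.S54 Fermat.Agent.S55.Bridge Fermat.Agent.S55.Bridge.H594
open Polynomial

attribute [local instance] isAlgebraic_Qbar isGalois_Qbar

variable (V : ValuationSubring Qb)

/-! ## Basic valuation facts -/

theorem mul_mem_nonunitsH679 {a b : Qb} (ha : a ∈ V) (hb : b ∈ V.nonunits) :
    a * b ∈ V.nonunits := by
  rw [ValuationSubring.mem_nonunits_iff] at hb ⊢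
  rw [map_mul]
  have h1 : V.valuation a ≤ 1 := (V.valuation_le_one_iff a).2 ha
  calc V.valuation a * V.valuation b ≤ 1 * V.valuation b := mul_le_mul' h1 le_rfl
    _ = V.valuation b := one_mul _
    _ < 1 := hb

theorem mul_mem_nonunitsH679' {a b : Qb} (ha : a ∈ V.nonunits) (hb : b ∈ V) :
    a * b ∈ V.nonunits := by
  rw [mul_comm]
  exact mul_mem_nonunitsH679 V hb ha

theorem mem_of_mem_nonunitsH679 {a : Qb} (ha : a ∈ V.nonunits) : a ∈ V :=
  V.nonunits_subset ha

theorem inv_mem_of_not_mem_nonunitsH679 {a : Qb} (ha : a ∉ V.nonunits) : a⁻¹ ∈ V := by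
  by_contra h
  exact ha (V.mem_nonunits_iff_or.mpr (Or.inr h))

/-- `𝔪_V` is a prime ideal: a product of elements of `V` in `𝔪_V` has a factor in `𝔪_V`. -/
theorem mem_nonunits_of_mulH679 {a b : Qb} (_ha : a ∈ V) (_hb : b ∈ V)
    (hab : a * b ∈ V.nonunits) : a ∈ V.nonunits ∨ b ∈ V.nonunits := by
  by_contra hcon
  rw [not_or] at hcon
  have h1 := inv_mem_of_not_mem_nonunitsH679 V hcon.1
  have h2 := inv_mem_of_not_mem_nonunitsH679 V hcon.2
  have ha0 : a ≠ 0 := fun h => hcon.1 (h ▸ V.nonunits.zero_mem)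
  have hb0 : b ≠ 0 := fun h => hcon.2 (h ▸ V.nonunits.zero_mem)
  have h3 : (a⁻¹ * b⁻¹) * (a * b) ∈ V.nonunits :=
    mul_mem_nonunitsH679 V (V.mul_mem _ _ h1 h2) hab
  have h4 : (a⁻¹ * b⁻¹) * (a * b) = 1 := by field_simp
  rw [h4, ValuationSubring.mem_nonunits_iff, map_one] at h3
  exact lt_irrefl _ h3

theorem one_not_mem_nonunitsH679 : (1 : Qb) ∉ V.nonunits := by
  rw [ValuationSubring.mem_nonunits_iff, map_one]
  exact lt_irrefl _

theorem prod_mem_nonunitsH679 {ι : Type*} (s : Finset ι) (g : ι → Qb) (hg : ∀ i ∈ s, g i ∈ V)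
    (i₀ : ι) (hi₀ : i₀ ∈ s) (h0 : g i₀ ∈ V.nonunits) : ∏ i ∈ s, g i ∈ V.nonunits := by
  classical
  rw [← Finset.mul_prod_erase s g hi₀]
  refine mul_mem_nonunitsH679' V h0 ?_
  exact Subring.prod_mem V.toSubring fun i hi => hg i (Finset.mem_of_mem_erase hi)

theorem exists_mem_nonunits_of_prodH679 {ι : Type*} (s : Finset ι) (g : ι → Qb)
    (hg : ∀ i ∈ s, g i ∈ V) (h : ∏ i ∈ s, g i ∈ V.nonunits) : ∃ i ∈ s, g i ∈ V.nonunits := by
  classical
  induction s using Finset.induction_on with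
  | empty =>
    rw [Finset.prod_empty] at h
    exact absurd h (one_not_mem_nonunitsH679 V)
  | insert a s ha ih =>
    rw [Finset.prod_insert ha] at h
    have h1 : g a ∈ V := hg a (Finset.mem_insert_self a s)
    have h2 : ∏ i ∈ s, g i ∈ V :=
      Subring.prod_mem V.toSubring fun i hi => hg i (Finset.mem_insert_of_mem hi)
    rcases mem_nonunits_of_mulH679 V h1 h2 h with h3 | h3
    · exact ⟨a, Finset.mem_insert_self a s, h3⟩
    · obtain ⟨i, hi, hi'⟩ := ih (fun i hi => hg i (Finset.mem_insert_of_mem hi)) h3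
      exact ⟨i, Finset.mem_insert_of_mem hi, hi'⟩

variable {ℓ : ℕ} (hℓ : ℓ.Prime) (hV : (ℓ : Qb) ∈ V.nonunits)

include hℓ hV in
/-- Integers prime to `ℓ` are units of `V`. -/
theorem intCast_inv_memH679 (d : ℤ) (hd : ¬ (ℓ : ℤ) ∣ d) : ((d : Qb))⁻¹ ∈ V := by
  apply inv_mem_of_not_mem_nonunitsH679
  intro h
  exact hd (dvd_of_intCast_mem_nonunits V ℓ hℓ hV d h)

include hℓ hV in
/-- **Bounded denominators**: for every `x` some `ℓ ^ a` clears the `V`-denominators of all
conjugates of `x`. -/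
theorem exists_pow_mul_conj_memH679 (x : Qb) : ∃ a : ℕ, ∀ σ : GalQ, (ℓ : Qb) ^ a * σ x ∈ V := by
  have halg : IsAlgebraic ℤ x :=
    (IsFractionRing.isAlgebraic_iff ℤ ℚ Qb).mpr (Algebra.IsAlgebraic.isAlgebraic x)
  obtain ⟨d, hd0, hd⟩ := halg.exists_integral_multiple
  -- `d = ℓ ^ a * d'` with `ℓ ∤ d'`
  obtain ⟨a, d', hd', hdd⟩ : ∃ (a : ℕ) (d' : ℤ), ¬ (ℓ : ℤ) ∣ d' ∧ d = (ℓ : ℤ) ^ a * d' := by
    have hfin : FiniteMultiplicity (ℓ : ℤ) d := by
      rw [Int.finiteMultiplicity_iff]
      refine ⟨?_, hd0⟩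
      have := hℓ.one_lt
      simp only [Int.natAbs_natCast]
      omega
    obtain ⟨c, hc1, hc2⟩ := hfin.exists_eq_pow_mul_and_not_dvd
    exact ⟨_, c, hc2, hc1⟩
  refine ⟨a, fun σ => ?_⟩
  have h1 : IsIntegral ℤ (σ (d • x)) := hd.map σ
  have h2 : σ (d • x) ∈ V := isIntegral_mem_valuationSubring V h1
  have h3 : ((d' : Qb))⁻¹ ∈ V := intCast_inv_memH679 V hℓ hV d' hd'
  have hd'0 : (d' : Qb) ≠ 0 := by
    intro h
    apply hd'
    have : d' = 0 := by exact_mod_cast h
    rw [this]
    exact dvd_zero _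
  have h4 : (ℓ : Qb) ^ a * σ x = σ (d • x) * ((d' : Qb))⁻¹ := by
    rw [zsmul_eq_mul, map_mul, map_intCast, hdd]
    push_cast
    field_simp
  rw [h4]
  exact V.mul_mem _ _ h2 h3

include hℓ hV in
/-- For a nonzero `y` some power of `ℓ` is divisible by `y` in `V`. -/
theorem exists_pow_div_memH679 (y : Qb) : ∃ e : ℕ, (ℓ : Qb) ^ e * y⁻¹ ∈ V := by
  obtain ⟨a, ha⟩ := exists_pow_mul_conj_memH679 V hℓ hV y⁻¹
  exact ⟨a, by simpa using ha 1⟩

include hℓ hV in
/-- **Rank one**: a non-unit algebraic integer has a power divisible by `ℓ`. -/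
theorem exists_pow_eq_mulH679 (y : Qb) (hy : IsIntegral ℤ y) (hyV : y ∈ V.nonunits) :
    ∃ k : ℕ, 0 < k ∧ ∃ z ∈ V, y ^ k = (ℓ : Qb) * z := by
  rcases eq_or_ne y 0 with rfl | hy0
  · exact ⟨1, one_pos, 0, V.zero_mem, by simp⟩
  obtain ⟨p, hpm, hpy⟩ := hy
  have hpy' : aeval y p = 0 := by
    rw [aeval_def]; exact hpy
  -- the least index with coefficient prime to `ℓ`
  have hex : ∃ i, ¬ (ℓ : ℤ) ∣ p.coeff i := by
    refine ⟨p.natDegree, ?_⟩
    rw [hpm.coeff_natDegree]
    intro h
    have h1 := Int.isUnit_iff.mp (isUnit_of_dvd_one h)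
    have := hℓ.one_lt
    omega
  classical
  set i := Nat.find hex with hi
  have hi1 : ¬ (ℓ : ℤ) ∣ p.coeff i := Nat.find_spec hex
  have hi2 : ∀ j < i, (ℓ : ℤ) ∣ p.coeff j := fun j hj => by
    by_contra h
    exact Nat.find_min hex hj h
  -- valuations
  set v := V.valuation with hv
  have hvy : v y < 1 := (ValuationSubring.mem_nonunits_iff V).1 hyV
  have hvy0 : v y ≠ 0 := (Valuation.ne_zero_iff v).2 hy0
  have hvl : v (ℓ : Qb) < 1 := (ValuationSubring.mem_nonunits_iff V).1 hV
  have hvint : ∀ n : ℤ, v (n : Qb) ≤ 1 := fun n =>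
    (V.valuation_le_one_iff _).2 (intCast_mem V n)
  have hvunit : v ((p.coeff i : ℤ) : Qb) = 1 := by
    have h1 := intCast_inv_memH679 V hℓ hV _ hi1
    have h2 : v (((p.coeff i : ℤ) : Qb))⁻¹ ≤ 1 := (V.valuation_le_one_iff _).2 h1
    have h3 := hvint (p.coeff i)
    have hne : ((p.coeff i : ℤ) : Qb) ≠ 0 := by
      intro h
      apply hi1
      have : p.coeff i = 0 := by exact_mod_cast h
      rw [this]; exact dvd_zero _
    rw [map_inv₀] at h2
    have h4 : v ((p.coeff i : ℤ) : Qb) ≠ 0 := (Valuation.ne_zero_iff v).2 hne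
    have h5 : 1 ≤ v ((p.coeff i : ℤ) : Qb) := by
      rwa [inv_le_one₀ (zero_lt_iff.2 h4)] at h2
    exact le_antisymm h3 h5
  -- the relation
  have hsum : aeval y p = ∑ j ∈ Finset.range (p.natDegree + 1), ((p.coeff j : ℤ) : Qb) * y ^ j := by
    rw [aeval_eq_sum_range]
    refine Finset.sum_congr rfl fun j _ => ?_
    rw [zsmul_eq_mul]
  have hile : i ≤ p.natDegree := by
    by_contra h
    rw [not_le] at h
    exact hi1 (by rw [coeff_eq_zero_of_natDegree_lt h]; exact dvd_zero _)
  have himem : i ∈ Finset.range (p.natDegree + 1) := Finset.mem_range.2 (by omega)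
  rw [hpy', ← Finset.add_sum_erase _ _ himem] at hsum
  have hrel : ((p.coeff i : ℤ) : Qb) * y ^ i
      = - ∑ j ∈ (Finset.range (p.natDegree + 1)).erase i, ((p.coeff j : ℤ) : Qb) * y ^ j := by
    rw [eq_neg_iff_add_eq_zero]
    exact hsum.symm
  have hvi : v (y ^ i) = v (∑ j ∈ (Finset.range (p.natDegree + 1)).erase i,
      ((p.coeff j : ℤ) : Qb) * y ^ j) := by
    have := congrArg v hrel
    rw [map_mul, hvunit, one_mul, Valuation.map_neg] at this
    exact this
  -- bound each term by `max (v ℓ) (v y ^ (i+1))`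
  have hbound : v (∑ j ∈ (Finset.range (p.natDegree + 1)).erase i,
      ((p.coeff j : ℤ) : Qb) * y ^ j) ≤ max (v (ℓ : Qb)) (v y ^ (i + 1)) := by
    apply Valuation.map_sum_le
    intro j hj
    have hji : j ≠ i := Finset.ne_of_mem_erase hj
    rcases lt_or_gt_of_ne hji with hlt | hgt
    · obtain ⟨c, hc⟩ := hi2 j hlt
      refine le_trans ?_ (le_max_left _ _)
      rw [hc]
      push_cast
      rw [map_mul, map_mul, map_pow]
      have h1 : v (c : Qb) ≤ 1 := hvint c
      have h2 : v y ^ j ≤ 1 := pow_le_one₀ zero_le hvy.le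
      calc v (ℓ : Qb) * v (c : Qb) * v y ^ j ≤ v (ℓ : Qb) * 1 * 1 := by
            gcongr
        _ = v (ℓ : Qb) := by rw [mul_one, mul_one]
    · refine le_trans ?_ (le_max_right _ _)
      rw [map_mul, map_pow]
      have h1 : v ((p.coeff j : ℤ) : Qb) ≤ 1 := hvint _
      have h2 : v y ^ j ≤ v y ^ (i + 1) := pow_le_pow_of_le_one zero_le hvy.le (by omega)
      calc v ((p.coeff j : ℤ) : Qb) * v y ^ j ≤ 1 * v y ^ (i + 1) := by
            gcongr
        _ = v y ^ (i + 1) := one_mul _
  rw [← hvi, map_pow] at hbound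
  have hstrict : v y ^ (i + 1) < v y ^ i := by
    rw [pow_succ]
    calc v y ^ i * v y < v y ^ i * 1 := by
          apply mul_lt_mul_of_pos_left hvy
          exact zero_lt_iff.2 (pow_ne_zero _ hvy0)
      _ = v y ^ i := mul_one _
  have hle : v y ^ i ≤ v (ℓ : Qb) := by
    rcases le_max_iff.1 hbound with h | h
    · exact h
    · exact absurd h (not_le.2 hstrict)
  have hipos : 0 < i := by
    rcases Nat.eq_zero_or_pos i with h0 | h0
    · rw [h0, pow_zero] at hle
      exact absurd hvl (not_lt.2 hle)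
    · exact h0
  refine ⟨i, hipos, y ^ i * ((ℓ : Qb))⁻¹, ?_, ?_⟩
  · rw [← V.valuation_le_one_iff, map_mul, map_inv₀, map_pow]
    have hl0 : v (ℓ : Qb) ≠ 0 := by
      rw [Valuation.ne_zero_iff]
      exact_mod_cast hℓ.ne_zero
    rw [← div_eq_mul_inv, div_le_one₀ (zero_lt_iff.2 hl0)]
    exact hle
  · have hl0 : (ℓ : Qb) ≠ 0 := by exact_mod_cast hℓ.ne_zero
    field_simp

/-! ## Orbits of subgroups of the Galois group -/

/-- Orbits of elements of `ℚ̄` under any set of automorphisms are finite. -/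
theorem finite_orbH679 (H : Set GalQ) (x : Qb) : {y : Qb | ∃ h ∈ H, h x = y}.Finite := by
  refine Set.Finite.subset (Polynomial.rootSet_finite (minpoly ℚ x) Qb) ?_
  rintro y ⟨h, -, rfl⟩
  rw [Polynomial.mem_rootSet]
  refine ⟨minpoly.ne_zero (Algebra.IsIntegral.isIntegral x), ?_⟩
  exact minpoly.aeval_algHom ℚ (h : Qb →ₐ[ℚ] Qb) x

/-- The orbit of `x` under a subgroup, as a finset. -/
noncomputable def orbH679 (H : Subgroup GalQ) (x : Qb) : Finset Qb :=
  (finite_orbH679 (H : Set GalQ) x).toFinset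

theorem mem_orbH679 {H : Subgroup GalQ} {x y : Qb} :
    y ∈ orbH679 H x ↔ ∃ h ∈ H, h x = y := by
  rw [orbH679, Set.Finite.mem_toFinset]
  rfl

theorem self_mem_orbH679 (H : Subgroup GalQ) (x : Qb) : x ∈ orbH679 H x :=
  mem_orbH679.2 ⟨1, H.one_mem, rfl⟩

theorem apply_mem_orbH679 {H : Subgroup GalQ} {x y : Qb} {h : GalQ} (hh : h ∈ H)
    (hy : y ∈ orbH679 H x) : h y ∈ orbH679 H x := by
  obtain ⟨g, hg, rfl⟩ := mem_orbH679.1 hy
  exact mem_orbH679.2 ⟨h * g, H.mul_mem hh hg, rfl⟩

theorem galH679_inv_apply (h : GalQ) (y : Qb) : h⁻¹ (h y) = y := by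
  show (h⁻¹ * h) y = y
  rw [inv_mul_cancel]; rfl

theorem galH679_apply_inv (h : GalQ) (y : Qb) : h (h⁻¹ y) = y := by
  show (h * h⁻¹) y = y
  rw [mul_inv_cancel]; rfl

/-- Products over an orbit are invariant. -/
theorem apply_prod_orbH679 {H : Subgroup GalQ} (x : Qb) {h : GalQ} (hh : h ∈ H) :
    h (∏ y ∈ orbH679 H x, y) = ∏ y ∈ orbH679 H x, y := by
  rw [map_prod]
  refine Finset.prod_nbij' (fun y => h y) (fun y => h⁻¹ y)
    (fun y hy => apply_mem_orbH679 hh hy) (fun y hy => apply_mem_orbH679 (H.inv_mem hh) hy)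
    (fun y _ => galH679_inv_apply h y) (fun y _ => galH679_apply_inv h y) (fun y _ => rfl)

/-- The orbit polynomial. -/
noncomputable def orbPolyH679 (H : Subgroup GalQ) (x : Qb) : Qb[X] :=
  ∏ y ∈ orbH679 H x, (X - C y)

theorem map_orbPolyH679 {H : Subgroup GalQ} (x : Qb) {h : GalQ} (hh : h ∈ H) :
    (orbPolyH679 H x).map (h : Qb →+* Qb) = orbPolyH679 H x := by
  unfold orbPolyH679
  rw [Polynomial.map_prod]
  refine Finset.prod_nbij' (fun y => h y) (fun y => h⁻¹ y)
    (fun y hy => apply_mem_orbH679 hh hy) (fun y hy => apply_mem_orbH679 (H.inv_mem hh) hy)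
    (fun y _ => galH679_inv_apply h y) (fun y _ => galH679_apply_inv h y) ?_
  intro y _
  simp

theorem apply_coeff_orbPolyH679 {H : Subgroup GalQ} (x : Qb) {h : GalQ} (hh : h ∈ H) (j : ℕ) :
    h ((orbPolyH679 H x).coeff j) = (orbPolyH679 H x).coeff j := by
  conv_rhs => rw [← map_orbPolyH679 x hh]
  rw [Polynomial.coeff_map]
  rfl

/-- Coefficients of `∏ (X - y)` lie in any subring containing the `y`. -/
theorem coeff_prod_X_sub_C_memH679 (A : Subring Qb) (s : Finset Qb) (hs : ∀ y ∈ s, y ∈ A)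
    (j : ℕ) : (∏ y ∈ s, (X - C y)).coeff j ∈ A := by
  classical
  induction s using Finset.induction_on generalizing j with
  | empty =>
    rw [Finset.prod_empty, Polynomial.coeff_one]
    split_ifs
    · exact A.one_mem
    · exact A.zero_mem
  | insert a s ha ih =>
    rw [Finset.prod_insert ha, mul_comm]
    have hsa : ∀ y ∈ s, y ∈ A := fun y hy => hs y (Finset.mem_insert_of_mem hy)
    have haA : a ∈ A := hs a (Finset.mem_insert_self a s)
    rcases j with _ | j
    · rw [Polynomial.mul_coeff_zero]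
      refine A.mul_mem (ih hsa 0) ?_
      simp only [coeff_sub, coeff_X_zero, coeff_C_zero, zero_sub]
      exact A.neg_mem haA
    · rw [Polynomial.coeff_mul_X_sub_C]
      exact A.sub_mem (ih hsa j) (A.mul_mem (ih hsa (j + 1)) haA)

theorem orbPolyH679_eval_self (H : Subgroup GalQ) (x : Qb) : (orbPolyH679 H x).eval x = 0 := by
  unfold orbPolyH679
  rw [Polynomial.eval_prod]
  exact Finset.prod_eq_zero (self_mem_orbH679 H x) (by simp)

/-! ## Decomposition and inertia, elementwise -/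

theorem mem_decompH679 {V : ValuationSubring Qb} {δ : GalQ}
    (hδ : δ ∈ V.decompositionSubgroup ℚ) (x : Qb) : δ x ∈ V ↔ x ∈ V :=
  (mem_decompositionSubgroup_iff V δ).1 hδ x

theorem mem_nonunits_decompH679 {V : ValuationSubring Qb} {δ : GalQ}
    (hδ : δ ∈ V.decompositionSubgroup ℚ) (x : Qb) : δ x ∈ V.nonunits ↔ x ∈ V.nonunits := by
  rw [V.mem_nonunits_iff_or, V.mem_nonunits_iff_or, ← map_inv₀, mem_decompH679 hδ,
    map_eq_zero_iff _ δ.injective]

theorem inertia_le_decompH679 {V : ValuationSubring Qb} {ι : GalQ}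
    (hι : ι ∈ V.inertiaSubgroupIn ℚ) : ι ∈ V.decompositionSubgroup ℚ :=
  ((mem_inertiaSubgroupIn_iff V ι).1 hι).1

theorem inertia_sub_memH679 {V : ValuationSubring Qb} {ι : GalQ}
    (hι : ι ∈ V.inertiaSubgroupIn ℚ) {z : Qb} (hz : z ∈ V) : ι z - z ∈ V.nonunits :=
  ((mem_inertiaSubgroupIn_iff V ι).1 hι).2 z hz

/-- The `S19` inertia predicate follows from membership in the inertia group. -/
theorem isInertiaAt_of_memH679 {V : ValuationSubring Qb} {ι : GalQ}
    (hι : ι ∈ V.inertiaSubgroupIn ℚ) : IsInertiaAt V ι :=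
  fun _ hz => inertia_sub_memH679 hι hz

/-- Inertia is normal in the decomposition group. -/
theorem conj_mem_inertiaH679 {V : ValuationSubring Qb} {δ ι : GalQ}
    (hδ : δ ∈ V.decompositionSubgroup ℚ) (hι : ι ∈ V.inertiaSubgroupIn ℚ) :
    δ * ι * δ⁻¹ ∈ V.inertiaSubgroupIn ℚ := by
  rw [mem_inertiaSubgroupIn_iff]
  refine ⟨(V.decompositionSubgroup ℚ).mul_mem
    ((V.decompositionSubgroup ℚ).mul_mem hδ (inertia_le_decompH679 hι))
    ((V.decompositionSubgroup ℚ).inv_mem hδ), fun z hz => ?_⟩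
  have h1 : δ⁻¹ z ∈ V := (mem_decompH679 ((V.decompositionSubgroup ℚ).inv_mem hδ) z).2 hz
  have h2 := inertia_sub_memH679 hι h1
  have h3 : (δ * ι * δ⁻¹) z - z = δ (ι (δ⁻¹ z) - δ⁻¹ z) := by
    rw [map_sub, galH679_apply_inv]
    rfl
  rw [h3]
  exact (mem_nonunits_decompH679 hδ _).2 h2

theorem prod_sub_one_mem_nonunitsH679 {ι : Type*} (s : Finset ι) (g : ι → Qb)
    (hg : ∀ i ∈ s, g i - 1 ∈ V.nonunits) : ∏ i ∈ s, g i - 1 ∈ V.nonunits := by
  classical
  induction s using Finset.induction_on with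
  | empty => simpa using V.nonunits.zero_mem
  | insert a s ha ih =>
    rw [Finset.prod_insert ha]
    have h1 := hg a (Finset.mem_insert_self a s)
    have h2 := ih fun i hi => hg i (Finset.mem_insert_of_mem hi)
    have h3 : g a ∈ V := by
      have := V.add_mem _ _ (mem_of_mem_nonunitsH679 V h1) V.one_mem
      simpa using this
    have h4 : g a * ∏ i ∈ s, g i - 1 = g a * (∏ i ∈ s, g i - 1) + (g a - 1) := by ring
    rw [h4]
    exact V.nonunits.add_mem (mul_mem_nonunitsH679 V h3 h2) h1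

/-! ## Finite order of residues -/

include hℓ hV in
/-- A unit of `V` which is an algebraic integer has finite order modulo `𝔪_V`. -/
theorem exists_pow_sub_one_memH679 (x : Qb) (hx : IsIntegral ℤ x) (hxu : x ∉ V.nonunits) :
    ∃ N : ℕ, 0 < N ∧ x ^ N - 1 ∈ V.nonunits := by
  have hprime := primeBelow_isPrime V
  have hQ : (ℓ : integralClosure ℤ Qb) ∈ primeBelow V := by
    rw [mem_primeBelow]
    simpa using hV
  obtain ⟨σ, -, hσ⟩ := exists_frob_integralClosure ℓ hℓ (primeBelow V) hQ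
  have hσ' : ∀ z : Qb, IsIntegral ℤ z → σ z - z ^ ℓ ∈ V.nonunits := by
    intro z hz
    have := hσ ⟨z, hz⟩
    rw [mem_primeBelow] at this
    simpa using this
  have hintV : ∀ z : Qb, IsIntegral ℤ z → z ∈ V := fun z hz =>
    isIntegral_mem_valuationSubring V hz
  -- iterate
  have hiter : ∀ k : ℕ, ∀ z : Qb, IsIntegral ℤ z → (σ ^ k) z - z ^ (ℓ ^ k) ∈ V.nonunits := by
    intro k
    induction k with
    | zero =>
      intro z _
      simpa using V.nonunits.zero_mem
    | succ k ih =>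
      intro z hz
      have h1 := ih (σ z) (hz.map σ)
      have h2 : (σ z) ^ (ℓ ^ k) - (z ^ ℓ) ^ (ℓ ^ k) ∈ V.nonunits := by
        have hgeom := Commute.mul_geom_sum₂ (Commute.all (σ z) (z ^ ℓ)) (ℓ ^ k)
        have hne : IsIntegral ℤ (∑ i ∈ Finset.range (ℓ ^ k),
            (σ z) ^ i * (z ^ ℓ) ^ (ℓ ^ k - 1 - i)) :=
          IsIntegral.sum _ fun i _ => ((hz.map σ).pow _).mul ((hz.pow _).pow _)
        rw [← hgeom]
        exact mul_mem_nonunitsH679' V (hσ' z hz) (hintV _ hne)
      have h3 : (σ ^ (k + 1)) z - z ^ (ℓ ^ (k + 1))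
          = ((σ ^ k) (σ z) - (σ z) ^ (ℓ ^ k)) + ((σ z) ^ (ℓ ^ k) - (z ^ ℓ) ^ (ℓ ^ k)) := by
        rw [pow_succ σ k, pow_succ ℓ k, mul_comm (ℓ ^ k) ℓ, pow_mul]
        show (σ ^ k) (σ z) - _ = _
        ring
      rw [h3]
      exact V.nonunits.add_mem h1 h2
  -- pigeonhole on the (finite) orbit of `x`
  have hfin : {y : Qb | ∃ h ∈ (Set.univ : Set GalQ), h x = y}.Finite := finite_orbH679 _ x
  haveI : Finite ↥{y : Qb | ∃ h ∈ (Set.univ : Set GalQ), h x = y} := hfin.to_subtype
  obtain ⟨a, b, hab, heq⟩ := Finite.exists_ne_map_eq_of_infinite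
    (fun n : ℕ => (⟨(σ ^ n) x, ⟨σ ^ n, trivial, rfl⟩⟩ :
      ↥{y : Qb | ∃ h ∈ (Set.univ : Set GalQ), h x = y}))
  have heq' : (σ ^ a) x = (σ ^ b) x := congrArg Subtype.val heq
  have key : ∀ a b : ℕ, a < b → (σ ^ a) x = (σ ^ b) x → ∃ k : ℕ, 0 < k ∧ (σ ^ k) x = x := by
    intro a b hlt h1
    refine ⟨b - a, by omega, ?_⟩
    have h2 : σ ^ b = σ ^ a * σ ^ (b - a) := by
      rw [← pow_add]; congr 1; omega
    rw [h2] at h1
    exact ((σ ^ a).injective h1).symm
  obtain ⟨k, hk, hkx⟩ : ∃ k : ℕ, 0 < k ∧ (σ ^ k) x = x := by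
    rcases lt_or_gt_of_ne hab with h | h
    · exact key a b h heq'
    · exact key b a h heq'.symm
  have h1 := hiter k x hx
  rw [hkx] at h1
  have hℓk : 2 ≤ ℓ ^ k := by
    calc 2 ≤ ℓ := hℓ.two_le
      _ = ℓ ^ 1 := (pow_one ℓ).symm
      _ ≤ ℓ ^ k := Nat.pow_le_pow_right hℓ.pos hk
  refine ⟨ℓ ^ k - 1, by omega, ?_⟩
  have h2 : x - x ^ (ℓ ^ k) = x * (-(x ^ (ℓ ^ k - 1) - 1)) := by
    have : ℓ ^ k = (ℓ ^ k - 1) + 1 := by omega
    conv_lhs => rw [this, pow_succ]
    ring
  rw [h2] at h1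
  have hxV : x ∈ V := hintV x hx
  have hpV : -(x ^ (ℓ ^ k - 1) - 1) ∈ V :=
    neg_mem (sub_mem (pow_mem hxV _) (one_mem V))
  rcases mem_nonunits_of_mulH679 V hxV hpV h1 with h | h
  · exact absurd h hxu
  · have := V.nonunits.neg_mem h
    simpa using this

end Fermat.Agent.S19.H679

end
-- ===== PACK-END S19/H679/NT.lean

-- ===== PACK-BEGIN S19/H679/Level.lean
section


/-!
# Cell A3 (S19), block UNR (helper679) — elements at a finite normal level `E`

`V` a valuation subring of `ℚ̄` over `ℓ`, `D_V ⊇ I_V` its decomposition and inertia groups,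
`E ⊂ ℚ̄` a finite normal extension of `ℚ`.

* `exists_repsH679`     : finitely many automorphisms represent all restrictions to `E`;
* `exists_crtH679`      : for every `n` an inertia-invariant integer `U ∈ E`, `U ≡ 1 mod 𝔪_V`,
                          with `σ U ∈ ℓ ^ n V` for all `σ` not agreeing on `E` with an element of
                          `D_V`;
* `exists_weightsH679`  : inertia-invariant integers `c_j ∈ E` and weights `a_j ∈ V` with
                          `∑ a_j δ(c_j) = 1` or `0` for `δ ∈ D_V`, according to whether `δ`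
                          agrees on `E` with an inertia element or not.
-/

set_option autoImplicit false

namespace Fermat.Agent.S19.H679

open Fermat.Agent.S54 Fermat.Agent.S55.Bridge Fermat.Agent.S55.Bridge.H594
open Polynomial

attribute [local instance] isAlgebraic_Qbar isGalois_Qbar

variable (V : ValuationSubring Qb) (E : IntermediateField ℚ Qb)

/-- Elements of `E` which are algebraic integers fixed by the inertia group of `V`. -/
def IsGoodEltH679 (c : Qb) : Prop :=
  c ∈ E ∧ IsIntegral ℤ c ∧ ∀ ι ∈ V.inertiaSubgroupIn ℚ, ι c = c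

theorem IsGoodEltH679.one : IsGoodEltH679 V E 1 :=
  ⟨E.one_mem, isIntegral_one, fun ι _ => map_one ι⟩

theorem IsGoodEltH679.mul {a b : Qb} (ha : IsGoodEltH679 V E a) (hb : IsGoodEltH679 V E b) :
    IsGoodEltH679 V E (a * b) :=
  ⟨E.mul_mem ha.1 hb.1, ha.2.1.mul hb.2.1, fun ι hι => by rw [map_mul, ha.2.2 ι hι, hb.2.2 ι hι]⟩

theorem IsGoodEltH679.prod {ι : Type*} (s : Finset ι) (g : ι → Qb)
    (hg : ∀ i ∈ s, IsGoodEltH679 V E (g i)) : IsGoodEltH679 V E (∏ i ∈ s, g i) := by
  classical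
  induction s using Finset.induction_on with
  | empty => simpa using IsGoodEltH679.one V E
  | insert a s ha ih =>
    rw [Finset.prod_insert ha]
    exact (hg a (Finset.mem_insert_self a s)).mul V E
      (ih fun i hi => hg i (Finset.mem_insert_of_mem hi))

theorem IsGoodEltH679.mem_V {c : Qb} (hc : IsGoodEltH679 V E c) : c ∈ V :=
  isIntegral_mem_valuationSubring V hc.2.1

theorem IsGoodEltH679.apply_mem_V {c : Qb} (hc : IsGoodEltH679 V E c) (σ : GalQ) : σ c ∈ V :=
  isIntegral_mem_valuationSubring V (hc.2.1.map σ)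

section normal

variable [Normal ℚ E]

theorem apply_mem_levelH679 (σ : GalQ) {x : Qb} (hx : x ∈ E) : σ x ∈ E := by
  have := restrictNormalHom_apply E σ ⟨x, hx⟩
  rw [← this]
  exact (AlgEquiv.restrictNormalHom E σ ⟨x, hx⟩).2

theorem agree_iff_restrictH679 (σ τ : GalQ) :
    (∀ x ∈ E, σ x = τ x) ↔ AlgEquiv.restrictNormalHom E σ = AlgEquiv.restrictNormalHom E τ := by
  constructor
  · intro h
    apply AlgEquiv.ext
    intro x
    apply Subtype.ext
    rw [restrictNormalHom_apply, restrictNormalHom_apply]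
    exact h x x.2
  · intro h x hx
    have h1 := restrictNormalHom_apply E σ ⟨x, hx⟩
    have h2 := restrictNormalHom_apply E τ ⟨x, hx⟩
    rw [← h1, ← h2, h]

variable [FiniteDimensional ℚ E]

/-- Finitely many automorphisms represent all restrictions to `E`. -/
theorem exists_repsH679 :
    ∃ reps : Finset GalQ, ∀ σ : GalQ, ∃ ρ ∈ reps, ∀ x ∈ E, σ x = ρ x := by
  classical
  haveI : Fintype (E ≃ₐ[ℚ] E) := Fintype.ofFinite _
  have hsurj := AlgEquiv.restrictNormalHom_surjective (F := ℚ) (K₁ := E) Qb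
  refine ⟨Finset.univ.image (Function.surjInv hsurj), fun σ => ?_⟩
  refine ⟨Function.surjInv hsurj (AlgEquiv.restrictNormalHom E σ),
    Finset.mem_image_of_mem _ (Finset.mem_univ _), ?_⟩
  rw [agree_iff_restrictH679, Function.surjInv_eq hsurj]

end normal

variable {ℓ : ℕ} (hℓ : ℓ.Prime) (hV : (ℓ : Qb) ∈ V.nonunits)

section crt

variable [Normal ℚ E]

include hℓ hV in
/-- One bad automorphism: an integer of `E`, `≡ 1 mod 𝔪_V`, sent into `𝔪_V`. -/
theorem exists_crt1H679 (σ : GalQ)
    (hσ : ¬ ∃ δ ∈ V.decompositionSubgroup ℚ, ∀ x ∈ E, δ x = σ x) :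
    ∃ w : Qb, w ∈ E ∧ IsIntegral ℤ w ∧ w - 1 ∈ V.nonunits ∧ σ w ∈ V.nonunits := by
  have hex : ∃ x : E, IsIntegral ℤ x ∧
      ¬ ((σ (x : Qb)) ∈ V.nonunits ↔ (x : Qb) ∈ V.nonunits) := by
    by_contra hcon
    push Not at hcon
    apply hσ
    obtain ⟨δ, hδ, hδr⟩ := exists_decomposition_lift E V hℓ hV (AlgEquiv.restrictNormalHom E σ)
      (fun x hx => by
        rw [restrictNormalHom_apply]
        exact hcon x hx)
    exact ⟨δ, hδ, (agree_iff_restrictH679 E δ σ).2 hδr⟩
  obtain ⟨x, hxint, hx⟩ := hex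
  have hxint' : IsIntegral ℤ (x : Qb) := hxint.map (IntermediateField.val E)
  have hxV : (x : Qb) ∈ V := isIntegral_mem_valuationSubring V hxint'
  have hσxint : IsIntegral ℤ (σ (x : Qb)) := hxint'.map σ
  have hσxV : σ (x : Qb) ∈ V := isIntegral_mem_valuationSubring V hσxint
  by_cases h1 : (x : Qb) ∈ V.nonunits
  · -- `x ∈ 𝔪`, `σ x ∉ 𝔪`
    have h2 : σ (x : Qb) ∉ V.nonunits := fun h => hx ⟨fun _ => h1, fun _ => h⟩
    obtain ⟨N, hN, hN'⟩ := exists_pow_sub_one_memH679 V hℓ hV _ hσxint h2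
    refine ⟨1 - (x : Qb) ^ N, E.sub_mem E.one_mem (pow_mem x.2 N),
      isIntegral_one.sub (hxint'.pow N), ?_, ?_⟩
    · have : (1 - (x : Qb) ^ N) - 1 = -((x : Qb) ^ (N - 1) * (x : Qb)) := by
        rw [← pow_succ, Nat.sub_add_cancel hN]; ring
      rw [this]
      exact V.nonunits.neg_mem (mul_mem_nonunitsH679 V (pow_mem hxV _) h1)
    · have : σ (1 - (x : Qb) ^ N) = -((σ (x : Qb)) ^ N - 1) := by
        rw [map_sub, map_one, map_pow]; ring
      rw [this]
      exact V.nonunits.neg_mem hN'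
  · -- `x ∉ 𝔪`, `σ x ∈ 𝔪`
    have h2 : σ (x : Qb) ∈ V.nonunits := by
      by_contra h
      exact hx ⟨fun h' => absurd h' h, fun h' => absurd h' h1⟩
    obtain ⟨N, hN, hN'⟩ := exists_pow_sub_one_memH679 V hℓ hV _ hxint' h1
    refine ⟨(x : Qb) ^ N, pow_mem x.2 N, hxint'.pow N, hN', ?_⟩
    rw [map_pow]
    have : (σ (x : Qb)) ^ N = (σ (x : Qb)) ^ (N - 1) * σ (x : Qb) := by
      rw [← pow_succ, Nat.sub_add_cancel hN]
    rw [this]
    exact mul_mem_nonunitsH679 V (pow_mem hσxV _) h2

include hℓ hV in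
/-- One bad automorphism, with divisibility by `ℓ ^ n`. -/
theorem exists_crt2H679 (n : ℕ) (σ : GalQ)
    (hσ : ¬ ∃ δ ∈ V.decompositionSubgroup ℚ, ∀ x ∈ E, δ x = σ x) :
    ∃ w : Qb, w ∈ E ∧ IsIntegral ℤ w ∧ w - 1 ∈ V.nonunits ∧
      ∃ z ∈ V, σ w = (ℓ : Qb) ^ n * z := by
  obtain ⟨w, hwE, hwint, hw1, hσw⟩ := exists_crt1H679 V E hℓ hV σ hσ
  obtain ⟨k, -, z, hz, hk⟩ := exists_pow_eq_mulH679 V hℓ hV (σ w) (hwint.map σ) hσw
  refine ⟨w ^ (k * n), pow_mem hwE _, hwint.pow _, ?_, z ^ n, pow_mem hz n, ?_⟩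
  · have := prod_sub_one_mem_nonunitsH679 V (Finset.range (k * n)) (fun _ => w) (fun _ _ => hw1)
    simpa using this
  · rw [map_pow, pow_mul, hk, mul_pow]

variable [FiniteDimensional ℚ E]

include hℓ hV in
/-- **CRT element**: an inertia-invariant integer `U ∈ E`, `U ≡ 1 mod 𝔪_V`, all of whose bad
conjugates are divisible by `ℓ ^ n`. -/
theorem exists_crtH679 (n : ℕ) :
    ∃ U : Qb, IsGoodEltH679 V E U ∧ U - 1 ∈ V.nonunits ∧
      ∀ σ : GalQ, (¬ ∃ δ ∈ V.decompositionSubgroup ℚ, ∀ x ∈ E, δ x = σ x) →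
        ∃ z ∈ V, σ U = (ℓ : Qb) ^ n * z := by
  classical
  obtain ⟨reps, hreps⟩ := exists_repsH679 E
  -- the bad representatives
  set bad : Finset GalQ := reps.filter fun ρ =>
    ¬ ∃ δ ∈ V.decompositionSubgroup ℚ, ∀ x ∈ E, δ x = ρ x with hbad
  have hchoose : ∀ ρ : GalQ, ∃ w : Qb, ρ ∈ bad → (w ∈ E ∧ IsIntegral ℤ w ∧ w - 1 ∈ V.nonunits ∧
      ∃ z ∈ V, ρ w = (ℓ : Qb) ^ n * z) := by
    intro ρ
    by_cases hρ : ρ ∈ bad
    · obtain ⟨w, hw⟩ := exists_crt2H679 V E hℓ hV n ρ (Finset.mem_filter.1 hρ).2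
      exact ⟨w, fun _ => hw⟩
    · exact ⟨0, fun h => absurd h hρ⟩
  choose w hw using hchoose
  set U₀ : Qb := ∏ ρ ∈ bad, w ρ with hU₀
  have hU₀E : U₀ ∈ E := Subring.prod_mem E.toSubfield.toSubring fun ρ hρ => (hw ρ hρ).1
  have hU₀int : IsIntegral ℤ U₀ := IsIntegral.prod _ fun ρ hρ => (hw ρ hρ).2.1
  have hU₀1 : U₀ - 1 ∈ V.nonunits :=
    prod_sub_one_mem_nonunitsH679 V bad w fun ρ hρ => (hw ρ hρ).2.2.1
  have hU₀bad : ∀ σ : GalQ, (¬ ∃ δ ∈ V.decompositionSubgroup ℚ, ∀ x ∈ E, δ x = σ x) →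
      ∃ z ∈ V, σ U₀ = (ℓ : Qb) ^ n * z := by
    intro σ hσ
    obtain ⟨ρ, hρ, hσρ⟩ := hreps σ
    have hρbad : ρ ∈ bad := by
      rw [hbad, Finset.mem_filter]
      refine ⟨hρ, ?_⟩
      rintro ⟨δ, hδ, hδρ⟩
      exact hσ ⟨δ, hδ, fun x hx => (hδρ x hx).trans (hσρ x hx).symm⟩
    obtain ⟨z, hz, hρw⟩ := (hw ρ hρbad).2.2.2
    refine ⟨z * ∏ ρ' ∈ bad.erase ρ, σ (w ρ'), ?_, ?_⟩
    · refine V.mul_mem _ _ hz (Subring.prod_mem V.toSubring fun ρ' hρ' => ?_)
      exact isIntegral_mem_valuationSubring V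
        (((hw ρ' (Finset.mem_of_mem_erase hρ')).2.1).map σ)
    · rw [hU₀, map_prod, ← Finset.mul_prod_erase bad _ hρbad, hσρ _ (hw ρ hρbad).1, hρw]
      ring
  -- make it inertia-invariant
  set I := V.inertiaSubgroupIn ℚ with hI
  refine ⟨∏ y ∈ orbH679 I U₀, y, ⟨?_, ?_, ?_⟩, ?_, ?_⟩
  · refine Subring.prod_mem E.toSubfield.toSubring fun y hy => ?_
    obtain ⟨ι, -, rfl⟩ := mem_orbH679.1 hy
    exact apply_mem_levelH679 E ι hU₀E
  · refine IsIntegral.prod _ fun y hy => ?_
    obtain ⟨ι, -, rfl⟩ := mem_orbH679.1 hy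
    exact hU₀int.map ι
  · intro ι hι
    exact apply_prod_orbH679 U₀ hι
  · refine prod_sub_one_mem_nonunitsH679 V _ _ fun y hy => ?_
    obtain ⟨ι, hι, rfl⟩ := mem_orbH679.1 hy
    have h1 := inertia_sub_memH679 hι (isIntegral_mem_valuationSubring V hU₀int)
    have : ι U₀ - 1 = (ι U₀ - U₀) + (U₀ - 1) := by ring
    rw [this]
    exact V.nonunits.add_mem h1 hU₀1
  · intro σ hσ
    obtain ⟨z, hz, hσU⟩ := hU₀bad σ hσ
    refine ⟨z * ∏ y ∈ (orbH679 I U₀).erase U₀, σ y, ?_, ?_⟩
    · refine V.mul_mem _ _ hz (Subring.prod_mem V.toSubring fun y hy => ?_)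
      obtain ⟨ι, -, rfl⟩ := mem_orbH679.1 (Finset.mem_of_mem_erase hy)
      exact isIntegral_mem_valuationSubring V ((hU₀int.map ι).map σ)
    · rw [map_prod, ← Finset.mul_prod_erase _ _ (self_mem_orbH679 I U₀), hσU]
      ring

end crt

section sep

variable [Normal ℚ E]

include hℓ hV in
/-- **Separating element**: a decomposition element which is not inertial on `E` moves the
residue of some inertia-invariant integer of `E`. -/
theorem exists_sep1H679 (δ : GalQ) (hδ : δ ∈ V.decompositionSubgroup ℚ)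
    (hδI : ¬ ∃ ι ∈ V.inertiaSubgroupIn ℚ, ∀ x ∈ E, δ x = ι x) :
    ∃ t : Qb, IsGoodEltH679 V E t ∧ δ t - t ∉ V.nonunits := by
  have hex : ∃ x : E, IsIntegral ℤ x ∧ δ (x : Qb) - (x : Qb) ∉ V.nonunits := by
    by_contra hcon
    push Not at hcon
    apply hδI
    obtain ⟨ι, hι, hιr⟩ := exists_inertia_lift E V hℓ hV (AlgEquiv.restrictNormalHom E δ)
      (fun x hx => by
        rw [restrictNormalHom_apply]
        exact hcon x hx)
    exact ⟨ι, hι, fun x hx => ((agree_iff_restrictH679 E ι δ).2 hιr x hx).symm⟩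
  obtain ⟨x, hxint, hx⟩ := hex
  have hxint' : IsIntegral ℤ (x : Qb) := hxint.map (IntermediateField.val E)
  have hxV : (x : Qb) ∈ V := isIntegral_mem_valuationSubring V hxint'
  set I := V.inertiaSubgroupIn ℚ with hI
  set Q := orbPolyH679 I (x : Qb) with hQ
  have horbE : ∀ y ∈ orbH679 I (x : Qb), y ∈ E := by
    intro y hy
    obtain ⟨ι, -, rfl⟩ := mem_orbH679.1 hy
    exact apply_mem_levelH679 E ι x.2
  have horbint : ∀ y ∈ orbH679 I (x : Qb), IsIntegral ℤ y := by
    intro y hy
    obtain ⟨ι, -, rfl⟩ := mem_orbH679.1 hy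
    exact hxint'.map ι
  have hgood : ∀ j, IsGoodEltH679 V E (Q.coeff j) := by
    intro j
    refine ⟨?_, ?_, fun ι hι => apply_coeff_orbPolyH679 (x : Qb) hι j⟩
    · exact coeff_prod_X_sub_C_memH679 E.toSubfield.toSubring _ horbE j
    · exact coeff_prod_X_sub_C_memH679 (integralClosure ℤ Qb).toSubring _ horbint j
  by_contra hcon
  push Not at hcon
  have hall : ∀ j, δ (Q.coeff j) - Q.coeff j ∈ V.nonunits := fun j =>
    hcon (Q.coeff j) (hgood j)
  -- evaluate `Q^δ - Q` at `x`
  have hdeg : (Q.map (δ : Qb →+* Qb)).natDegree = Q.natDegree :=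
    Polynomial.natDegree_map_eq_of_injective δ.injective Q
  have h1 : (Q.map (δ : Qb →+* Qb)).eval (x : Qb) - Q.eval (x : Qb)
      = ∑ i ∈ Finset.range (Q.natDegree + 1), (δ (Q.coeff i) - Q.coeff i) * (x : Qb) ^ i := by
    rw [Polynomial.eval_eq_sum_range, Polynomial.eval_eq_sum_range, hdeg, ← Finset.sum_sub_distrib]
    refine Finset.sum_congr rfl fun i _ => ?_
    rw [Polynomial.coeff_map, sub_mul]
    rfl
  have h2 : (Q.map (δ : Qb →+* Qb)).eval (x : Qb) ∈ V.nonunits := by
    have h3 : Q.eval (x : Qb) = 0 := orbPolyH679_eval_self I (x : Qb)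
    rw [h3, sub_zero] at h1
    rw [h1]
    refine V.nonunits.sum_mem fun i _ => ?_
    exact mul_mem_nonunitsH679' V (hall i) (pow_mem hxV i)
  have h4 : (Q.map (δ : Qb →+* Qb)).eval (x : Qb)
      = ∏ y ∈ orbH679 I (x : Qb), ((x : Qb) - δ y) := by
    rw [hQ, orbPolyH679, Polynomial.map_prod, Polynomial.eval_prod]
    refine Finset.prod_congr rfl fun y _ => ?_
    simp
  rw [h4] at h2
  obtain ⟨y, hy, hy'⟩ := exists_mem_nonunits_of_prodH679 V _ _ (fun y hy =>
    sub_mem hxV (isIntegral_mem_valuationSubring V ((horbint y hy).map δ))) h2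
  obtain ⟨ι, hι, rfl⟩ := mem_orbH679.1 hy
  have h5 : δ (ι (x : Qb)) - δ (x : Qb) ∈ V.nonunits := by
    rw [← map_sub]
    exact (mem_nonunits_decompH679 hδ _).2 (inertia_sub_memH679 hι hxV)
  apply hx
  have h6 : δ (x : Qb) - (x : Qb) = -(((x : Qb) - δ (ι (x : Qb))) + (δ (ι (x : Qb)) - δ (x : Qb))) := by
    ring
  rw [h6]
  exact V.nonunits.neg_mem (V.nonunits.add_mem hy' h5)

variable [FiniteDimensional ℚ E]

include hℓ hV in
/-- **Lagrange weights** for the unramified part of the descent. -/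
theorem exists_weightsH679 :
    ∃ (J : Type) (_ : Fintype J) (c : J → Qb) (a : J → V),
      (∀ j, IsGoodEltH679 V E (c j)) ∧
      (∀ δ ∈ V.decompositionSubgroup ℚ, (∃ ι ∈ V.inertiaSubgroupIn ℚ, ∀ x ∈ E, δ x = ι x) →
        ∑ j, (a j : Qb) * δ (c j) = 1) ∧
      (∀ δ ∈ V.decompositionSubgroup ℚ, (¬ ∃ ι ∈ V.inertiaSubgroupIn ℚ, ∀ x ∈ E, δ x = ι x) →
        ∑ j, (a j : Qb) * δ (c j) = 0) := by
  classical
  obtain ⟨reps, hreps⟩ := exists_repsH679 E
  set B : Finset GalQ := reps.filter fun ρ =>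
    ∃ δ ∈ V.decompositionSubgroup ℚ, (∀ x ∈ E, δ x = ρ x) ∧
      ¬ ∃ ι ∈ V.inertiaSubgroupIn ℚ, ∀ x ∈ E, δ x = ι x with hB
  have hchoose : ∀ ρ : GalQ, ∃ (δ : GalQ) (t : Qb), ρ ∈ B →
      ((∀ x ∈ E, δ x = ρ x) ∧ IsGoodEltH679 V E t ∧ δ t - t ∉ V.nonunits) := by
    intro ρ
    by_cases hρ : ρ ∈ B
    · obtain ⟨δ, hδ, hδρ, hδI⟩ := (Finset.mem_filter.1 hρ).2
      obtain ⟨t, ht, ht'⟩ := exists_sep1H679 V E hℓ hV δ hδ hδI
      exact ⟨δ, t, fun _ => ⟨hδρ, ht, ht'⟩⟩
    · exact ⟨1, 0, fun h => absurd h hρ⟩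
  choose d t hdt using hchoose
  set β : GalQ → Qb := fun ρ => d ρ (t ρ) with hβ
  have hβV : ∀ ρ ∈ B, β ρ ∈ V := fun ρ hρ => (hdt ρ hρ).2.1.apply_mem_V V E (d ρ)
  have hunit : ∀ ρ ∈ B, (t ρ - β ρ)⁻¹ ∈ V := by
    intro ρ hρ
    apply inv_mem_of_not_mem_nonunitsH679
    intro h
    apply (hdt ρ hρ).2.2
    have : d ρ (t ρ) - t ρ = -(t ρ - β ρ) := by rw [hβ]; ring
    rw [this]
    exact V.nonunits.neg_mem h
  have hne : ∀ ρ ∈ B, t ρ - β ρ ≠ 0 := by
    intro ρ hρ h
    apply (hdt ρ hρ).2.2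
    have : d ρ (t ρ) - t ρ = -(t ρ - β ρ) := by rw [hβ]; ring
    rw [this, h, neg_zero]
    exact V.nonunits.zero_mem
  set κ : Qb := ∏ ρ ∈ B, (t ρ - β ρ)⁻¹ with hκ
  have hκV : κ ∈ V := Subring.prod_mem V.toSubring hunit
  have haV : ∀ S : Finset GalQ, S ∈ B.powerset → κ * ∏ ρ ∈ B \ S, (-β ρ) ∈ V := by
    intro S _
    refine V.mul_mem _ _ hκV (Subring.prod_mem V.toSubring fun ρ hρ => ?_)
    exact V.neg_mem _ (hβV ρ (Finset.mem_sdiff.1 hρ).1)
  -- the key identity
  have hkey : ∀ δ : GalQ, ∑ S ∈ B.powerset, (κ * ∏ ρ ∈ B \ S, (-β ρ)) * δ (∏ ρ ∈ S, t ρ)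
      = κ * ∏ ρ ∈ B, (δ (t ρ) - β ρ) := by
    intro δ
    have h1 : ∏ ρ ∈ B, (δ (t ρ) - β ρ) = ∏ ρ ∈ B, (δ (t ρ) + (-β ρ)) :=
      Finset.prod_congr rfl fun ρ _ => sub_eq_add_neg _ _
    rw [h1, Finset.prod_add, Finset.mul_sum]
    refine Finset.sum_congr rfl fun S _ => ?_
    rw [map_prod]
    ring
  refine ⟨↥B.powerset, inferInstance, fun S => ∏ ρ ∈ S.1, t ρ,
    fun S => ⟨κ * ∏ ρ ∈ B \ S.1, (-β ρ), haV S.1 S.2⟩, ?_, ?_, ?_⟩
  · intro S
    refine IsGoodEltH679.prod V E _ _ fun ρ hρ => (hdt ρ ?_).2.1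
    exact Finset.mem_powerset.1 S.2 hρ
  · intro δ _ hδI
    obtain ⟨ι, hι, hδι⟩ := hδI
    have hsum := Finset.sum_coe_sort B.powerset
      (fun S => (κ * ∏ ρ ∈ B \ S, (-β ρ)) * δ (∏ ρ ∈ S, t ρ))
    rw [hkey] at hsum
    show ∑ S : ↥B.powerset, (κ * ∏ ρ ∈ B \ S.1, (-β ρ)) * δ (∏ ρ ∈ S.1, t ρ) = 1
    rw [hsum]
    have h2 : ∀ ρ ∈ B, δ (t ρ) = t ρ := by
      intro ρ hρ
      rw [hδι _ (hdt ρ hρ).2.1.1]
      exact (hdt ρ hρ).2.1.2.2 ι hι
    rw [Finset.prod_congr rfl fun ρ hρ => by rw [h2 ρ hρ], hκ, ← Finset.prod_mul_distrib]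
    exact Finset.prod_eq_one fun ρ hρ => inv_mul_cancel₀ (hne ρ hρ)
  · intro δ hδ hδI
    have hsum := Finset.sum_coe_sort B.powerset
      (fun S => (κ * ∏ ρ ∈ B \ S, (-β ρ)) * δ (∏ ρ ∈ S, t ρ))
    rw [hkey] at hsum
    show ∑ S : ↥B.powerset, (κ * ∏ ρ ∈ B \ S.1, (-β ρ)) * δ (∏ ρ ∈ S.1, t ρ) = 0
    rw [hsum]
    obtain ⟨ρ, hρ, hδρ⟩ := hreps δ
    have hρB : ρ ∈ B := by
      rw [hB, Finset.mem_filter]
      exact ⟨hρ, δ, hδ, hδρ, hδI⟩
    have h3 : δ (t ρ) - β ρ = 0 := by
      rw [hβ, sub_eq_zero, hδρ _ (hdt ρ hρB).2.1.1, ← (hdt ρ hρB).1 _ (hdt ρ hρB).2.1.1]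
    rw [Finset.prod_eq_zero hρB h3, mul_zero]

end sep

end Fermat.Agent.S19.H679

end
-- ===== PACK-END S19/H679/Level.lean

-- ===== PACK-BEGIN S19/H679/Conj.lean
section



/-!
# Cell A3 (S19), block UNR (helper679) — the conjugate family and the local algebra `Hloc`

For a `LocalCoordDatum` `L` (valuation ring `V`, coordinates `Ψ_i`, equivariant under inertia):

* `conjFamH679 L`  : the functions `δ ⋆ Ψ_i`, `δ ∈ D_V` (a finite set);
* `HlocH679 L`     : the `V`-subalgebra of `M → ℚ̄` generated by them.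

Proved here: the generators are `V`-valued and inertia-invariant, `Hloc` is stable under `D_V`,
finitely generated as a `V`-module, contains `ℓ ^ e • 1_m` for some `e` (conductor), and there
is a finite normal level `E` containing all values, over which the action on `M` is trivial.
-/

set_option autoImplicit false

namespace Fermat.Agent.S19.H679

open Fermat.Agent.S54 Fermat.Agent.S55.Bridge Fermat.Agent.S55.Bridge.H594
open Polynomial

attribute [local instance] isAlgebraic_Qbar isGalois_Qbar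

variable {ℓ : ℕ} {M : Type} [AddCommGroup M] {act : GalQ → M → M}

theorem isActH679_of_cont (hact : IsContAddAction act) : IsActH679 act :=
  ⟨hact.act_one, hact.act_mul⟩

/-- The `i`-th coordinate as a function on `M`. -/
def psiH679 (L : LocalCoordDatum ℓ M act) (i : L.ι) : M → Qb := fun m => L.Ψ m i

/-- The conjugates of the coordinates under the decomposition group. -/
def conjFamH679 (L : LocalCoordDatum ℓ M act) : Set (M → Qb) :=
  {φ | ∃ δ ∈ L.V.decompositionSubgroup ℚ, ∃ i, φ = starH679 act δ (psiH679 L i)}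

/-- The local algebra. -/
noncomputable def HlocH679 (L : LocalCoordDatum ℓ M act) : Subalgebra L.V (M → Qb) :=
  Algebra.adjoin L.V (conjFamH679 L)

/-- Functions with values in `V`. -/
noncomputable def valuedH679 (V : ValuationSubring Qb) (N : Type*) : Subalgebra V (N → Qb) where
  carrier := {f | ∀ m, f m ∈ V}
  mul_mem' := fun hf hg m => V.mul_mem _ _ (hf m) (hg m)
  add_mem' := fun hf hg m => V.add_mem _ _ (hf m) (hg m)
  algebraMap_mem' := fun r _ => r.2

theorem mem_valuedH679 {V : ValuationSubring Qb} {N : Type*} {f : N → Qb} :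
    f ∈ valuedH679 V N ↔ ∀ m, f m ∈ V := Iff.rfl

section basic

variable (hact : IsContAddAction act) (L : LocalCoordDatum ℓ M act)

include hact in
theorem psi_mem_conjFamH679 (i : L.ι) : psiH679 L i ∈ conjFamH679 L :=
  ⟨1, (L.V.decompositionSubgroup ℚ).one_mem, i, (starH679_one (isActH679_of_cont hact) _).symm⟩

include hact in
theorem psi_mem_HlocH679 (i : L.ι) : psiH679 L i ∈ HlocH679 L :=
  Algebra.subset_adjoin (psi_mem_conjFamH679 hact L i)

include hact in
/-- The coordinates are inertia-invariant. -/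
theorem star_psiH679 {ι : GalQ} (hι : ι ∈ L.V.inertiaSubgroupIn ℚ) (i : L.ι) :
    starH679 act ι (psiH679 L i) = psiH679 L i := by
  rw [starH679_eq_self_iff (isActH679_of_cont hact)]
  intro m
  exact L.equivariant ι (isInertiaAt_of_memH679 hι) m i

theorem conjFam_valuedH679 {φ : M → Qb} (hφ : φ ∈ conjFamH679 L) (m : M) : φ m ∈ L.V := by
  obtain ⟨δ, hδ, i, rfl⟩ := hφ
  exact (mem_decompH679 hδ _).2 (L.integral _ i)

include hact in
theorem conjFam_inertiaH679 {φ : M → Qb} (hφ : φ ∈ conjFamH679 L) {ι : GalQ}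
    (hι : ι ∈ L.V.inertiaSubgroupIn ℚ) : starH679 act ι φ = φ := by
  obtain ⟨δ, hδ, i, rfl⟩ := hφ
  have hA := isActH679_of_cont hact
  have h1 : δ⁻¹ * ι * δ ∈ L.V.inertiaSubgroupIn ℚ := by
    have := conj_mem_inertiaH679 ((L.V.decompositionSubgroup ℚ).inv_mem hδ) hι
    rwa [inv_inv] at this
  have h2 : ι * δ = δ * (δ⁻¹ * ι * δ) := by group
  rw [← starH679_mul hA, h2, starH679_mul hA, star_psiH679 hact L h1]

include hact in
theorem conjFam_stableH679 {φ : M → Qb} (hφ : φ ∈ conjFamH679 L) {δ : GalQ}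
    (hδ : δ ∈ L.V.decompositionSubgroup ℚ) : starH679 act δ φ ∈ conjFamH679 L := by
  obtain ⟨δ', hδ', i, rfl⟩ := hφ
  exact ⟨δ * δ', (L.V.decompositionSubgroup ℚ).mul_mem hδ hδ', i,
    (starH679_mul (isActH679_of_cont hact) _ _ _).symm⟩

theorem Hloc_le_valuedH679 : HlocH679 L ≤ valuedH679 L.V M :=
  Algebra.adjoin_le fun _ hφ => conjFam_valuedH679 L hφ

end basic

/-- Transport of membership in an adjoin along the semilinear action of a decomposition
element. -/
theorem star_mem_adjoinH679 {V : ValuationSubring Qb} {N : Type*} (act' : GalQ → N → N)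
    {δ : GalQ} (hδ : δ ∈ V.decompositionSubgroup ℚ) (S S' : Set (N → Qb))
    (hS : ∀ g ∈ S, starH679 act' δ g ∈ Algebra.adjoin V S') {h : N → Qb}
    (hh : h ∈ Algebra.adjoin V S) : starH679 act' δ h ∈ Algebra.adjoin V S' := by
  induction hh using Algebra.adjoin_induction with
  | mem x hx => exact hS x hx
  | algebraMap r =>
    have : starH679 act' δ (algebraMap V (N → Qb) r)
        = algebraMap V (N → Qb) ⟨δ (r : Qb), (mem_decompH679 hδ _).2 r.2⟩ := by
      funext m
      rfl
    rw [this]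
    exact Subalgebra.algebraMap_mem _ _
  | add x y _ _ hx hy =>
    rw [starH679_add]
    exact add_mem hx hy
  | mul x y _ _ hx hy =>
    have : starH679 act' δ (x * y) = starH679 act' δ x * starH679 act' δ y :=
      map_mul (starRingHomH679 act' δ) x y
    rw [this]
    exact mul_mem hx hy

theorem Hloc_stableH679 (hact : IsContAddAction act) (L : LocalCoordDatum ℓ M act)
    {δ : GalQ} (hδ : δ ∈ L.V.decompositionSubgroup ℚ) {h : M → Qb} (hh : h ∈ HlocH679 L) :
    starH679 act δ h ∈ HlocH679 L :=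
  star_mem_adjoinH679 act hδ _ _
    (fun _ hg => Algebra.subset_adjoin (conjFam_stableH679 hact L hg hδ)) hh

/-! ## The level -/

section level

variable [Finite M]

/-- A finite normal level containing a given finite set, over which the action is trivial. -/
theorem exists_levelH679 (hact : IsContAddAction act) (s : Finset Qb) :
    ∃ E : IntermediateField ℚ Qb, FiniteDimensional ℚ E ∧ Normal ℚ E ∧ (∀ x ∈ s, x ∈ E) ∧
      ∀ ρ : GalQ, (∀ x ∈ E, ρ x = x) → ∀ m, act ρ m = m := by
  classical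
  choose Lm hLfin hLfix using hact.cont
  haveI : ∀ m, FiniteDimensional ℚ (Lm m) := hLfin
  haveI : FiniteDimensional ℚ (IntermediateField.adjoin ℚ (s : Set Qb)) :=
    IntermediateField.finiteDimensional_adjoin fun x _ => Algebra.IsIntegral.isIntegral x
  set E₀ : IntermediateField ℚ Qb := (⨆ m, Lm m) ⊔ IntermediateField.adjoin ℚ (s : Set Qb)
    with hE₀
  haveI : FiniteDimensional ℚ E₀ := by
    rw [hE₀]
    exact IntermediateField.finiteDimensional_sup _ _
  refine ⟨IntermediateField.normalClosure ℚ E₀ Qb,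
    normalClosure.is_finiteDimensional ℚ E₀ Qb, normalClosure.normal ℚ E₀ Qb, ?_, ?_⟩
  · intro x hx
    apply IntermediateField.le_normalClosure E₀
    exact (le_sup_right : _ ≤ E₀) (IntermediateField.subset_adjoin ℚ _ hx)
  · intro ρ hρ m
    apply hLfix m ρ
    intro a ha
    apply hρ
    apply IntermediateField.le_normalClosure E₀
    exact (le_sup_left : _ ≤ E₀) ((le_iSup Lm m) ha)

end level

/-- `E` is a level for the action: automorphisms fixing `E` act trivially on `M`. -/
def IsLevelH679 (act : GalQ → M → M) (E : IntermediateField ℚ Qb) : Prop :=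
  ∀ ρ : GalQ, (∀ x ∈ E, ρ x = x) → ∀ m, act ρ m = m

section ratfun

variable (hact : IsContAddAction act) {E : IntermediateField ℚ Qb} (hE : IsLevelH679 act E)

include hact hE in
/-- Automorphisms agreeing on `E` act in the same way on `M`. -/
theorem act_eq_of_agreeH679 {σ ρ : GalQ} (h : ∀ x ∈ E, σ x = ρ x) (m : M) :
    act σ m = act ρ m := by
  have h1 : ∀ x ∈ E, (ρ⁻¹ * σ) x = x := by
    intro x hx
    show ρ⁻¹ (σ x) = x
    rw [h x hx]
    exact galH679_inv_apply ρ x
  have h2 := hE _ h1 m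
  have h3 : act σ m = act ρ (act (ρ⁻¹ * σ) m) := by
    rw [← hact.act_mul, mul_inv_cancel_left]
  rw [h3, h2]

include hact hE in
/-- Automorphisms agreeing on `E` act in the same way on `E`-valued functions. -/
theorem star_eq_of_agreeH679 [Normal ℚ E] {σ ρ : GalQ} (h : ∀ x ∈ E, σ x = ρ x) {f : M → Qb}
    (hf : ∀ m, f m ∈ E) : starH679 act σ f = starH679 act ρ f := by
  funext m
  have h1 : ∀ x ∈ E, σ⁻¹ x = ρ⁻¹ x := by
    intro x hx
    have hx' : ρ⁻¹ x ∈ E := apply_mem_levelH679 E ρ⁻¹ hx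
    have h2 := h _ hx'
    rw [galH679_apply_inv] at h2
    calc σ⁻¹ x = σ⁻¹ (σ (ρ⁻¹ x)) := by rw [h2]
      _ = ρ⁻¹ x := galH679_inv_apply σ _
  rw [starH679_apply, starH679_apply, act_eq_of_agreeH679 hact hE h1 m]
  exact h _ (hf _)

end ratfun

theorem smul_applyH679 {V : ValuationSubring Qb} {N : Type*} (r : V) (f : N → Qb) (n : N) :
    (r • f) n = (r : Qb) * f n := rfl

/-! ## Integrality and finite generation -/

/-- A `V`-valued function on a finite set is integral over `V`. -/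
theorem isIntegral_of_valuedH679 {N : Type*} [Finite N] (V : ValuationSubring Qb) (f : N → Qb)
    (hf : ∀ n, f n ∈ V) : IsIntegral V f := by
  classical
  haveI := Fintype.ofFinite N
  refine ⟨∏ n : N, (X - C (⟨f n, hf n⟩ : V)), monic_prod_of_monic _ _ fun n _ => monic_X_sub_C _,
    ?_⟩
  funext n
  have h1 := Polynomial.hom_eval₂ (∏ n : N, (X - C (⟨f n, hf n⟩ : V)))
    (algebraMap V (N → Qb)) (Pi.evalRingHom (fun _ : N => Qb) n) f
  show Pi.evalRingHom (fun _ : N => Qb) n (eval₂ (algebraMap V (N → Qb)) f _) = 0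
  rw [h1, Polynomial.eval₂_finsetProd]
  refine Finset.prod_eq_zero (Finset.mem_univ n) ?_
  rw [eval₂_sub, eval₂_X, eval₂_C]
  show f n - f n = 0
  exact sub_self _

/-- Data of a finite normal level for a local coordinate datum. -/
structure LevelDataH679 (L : LocalCoordDatum ℓ M act) where
  E : IntermediateField ℚ Qb
  fin : FiniteDimensional ℚ E
  normal : Normal ℚ E
  level : IsLevelH679 act E
  psi_mem : ∀ m i, L.Ψ m i ∈ E

theorem exists_levelDataH679 [Finite M] (hact : IsContAddAction act)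
    (L : LocalCoordDatum ℓ M act) : Nonempty (LevelDataH679 L) := by
  classical
  haveI := L.fin
  haveI := Fintype.ofFinite M
  haveI := Fintype.ofFinite L.ι
  obtain ⟨E, h1, h2, h3, h4⟩ := exists_levelH679 hact
    (Finset.univ.image fun p : M × L.ι => L.Ψ p.1 p.2)
  exact ⟨⟨E, h1, h2, h4, fun m i => h3 _ (Finset.mem_image_of_mem _ (Finset.mem_univ (m, i)))⟩⟩

section withLevel

variable (hact : IsContAddAction act) (L : LocalCoordDatum ℓ M act) (Λ : LevelDataH679 L)

theorem conjFam_mem_levelH679 {φ : M → Qb} (hφ : φ ∈ conjFamH679 L) (m : M) : φ m ∈ Λ.E := by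
  haveI := Λ.normal
  obtain ⟨δ, -, i, rfl⟩ := hφ
  exact apply_mem_levelH679 Λ.E δ (Λ.psi_mem _ i)

include hact Λ in
theorem conjFam_finiteH679 : (conjFamH679 L).Finite := by
  classical
  haveI := Λ.normal
  haveI := Λ.fin
  haveI := L.fin
  haveI := Fintype.ofFinite L.ι
  obtain ⟨reps, hreps⟩ := exists_repsH679 Λ.E
  refine Set.Finite.subset
    ((reps ×ˢ (Finset.univ : Finset L.ι)).image
      fun p : GalQ × L.ι => starH679 act p.1 (psiH679 L p.2)).finite_toSet ?_
  rintro φ ⟨δ, -, i, rfl⟩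
  obtain ⟨ρ, hρ, hδρ⟩ := hreps δ
  rw [Finset.mem_coe, Finset.mem_image]
  refine ⟨(ρ, i), Finset.mem_product.2 ⟨hρ, Finset.mem_univ i⟩, ?_⟩
  exact (star_eq_of_agreeH679 hact Λ.level hδρ fun m => Λ.psi_mem m i).symm

include hact Λ in
/-- `Hloc` is a finitely generated `V`-module. -/
theorem Hloc_fgH679 [Finite M] : (Subalgebra.toSubmodule (HlocH679 L)).FG :=
  fg_adjoin_of_finite (conjFam_finiteH679 hact L Λ) fun φ hφ =>
    isIntegral_of_valuedH679 L.V φ (conjFam_valuedH679 L hφ)

/-- The functions used as module generators of `Hloc`: `E`-valued, inertia-invariant elements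
of `Hloc`. -/
def IsGoodFunH679 (f : M → Qb) : Prop :=
  (∀ m, f m ∈ Λ.E) ∧ (∀ ι ∈ L.V.inertiaSubgroupIn ℚ, starH679 act ι f = f) ∧ f ∈ HlocH679 L

include hact in
theorem isGoodFun_of_mem_closureH679 {f : M → Qb}
    (hf : f ∈ Submonoid.closure (conjFamH679 L)) : IsGoodFunH679 L Λ f := by
  induction hf using Submonoid.closure_induction with
  | mem x hx =>
    exact ⟨conjFam_mem_levelH679 L Λ hx, fun ι hι => conjFam_inertiaH679 hact L hx hι,
      Algebra.subset_adjoin hx⟩
  | one =>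
    refine ⟨fun m => Λ.E.one_mem, fun ι _ => ?_, one_mem _⟩
    exact map_one (starRingHomH679 (Ω := Qb) act ι)
  | mul x y _ _ hx hy =>
    refine ⟨fun m => Λ.E.mul_mem (hx.1 m) (hy.1 m), fun ι hι => ?_, mul_mem hx.2.2 hy.2.2⟩
    have : starH679 act ι (x * y) = starH679 act ι x * starH679 act ι y :=
      map_mul (starRingHomH679 act ι) x y
    rw [this, hx.2.1 ι hι, hy.2.1 ι hι]

include hact in
/-- `Hloc` is spanned by good functions. -/
theorem Hloc_le_span_goodH679 :
    Subalgebra.toSubmodule (HlocH679 L) ≤ Submodule.span L.V {f | IsGoodFunH679 L Λ f} := by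
  rw [HlocH679, Algebra.adjoin_eq_span]
  exact Submodule.span_mono fun f hf => isGoodFun_of_mem_closureH679 hact L Λ hf

end withLevel

/-! ## The conductor -/

section conductor

variable [Finite M] (hℓ : ℓ.Prime) (hact : IsContAddAction act) (L : LocalCoordDatum ℓ M act)

include hℓ hact in
/-- Multiples of the indicator functions lie in `Hloc`. -/
theorem exists_single_memH679 (m : M) :
    ∃ (e : ℕ) (P : M → Qb), P ∈ HlocH679 L ∧ P m = (ℓ : Qb) ^ e ∧ ∀ m', m' ≠ m → P m' = 0 := by
  classical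
  haveI := Fintype.ofFinite M
  have hsep : ∀ m' : M, ∃ g : M → Qb, g ∈ HlocH679 L ∧ (m' ≠ m → g m' = 0) ∧ g m ≠ 0 := by
    intro m'
    by_cases h : m' = m
    · exact ⟨1, one_mem _, fun h' => absurd h h', one_ne_zero⟩
    · have hex : ∃ i : L.ι, L.Ψ m i ≠ L.Ψ m' i := by
        by_contra hcon
        push Not at hcon
        apply h
        apply L.inj
        funext i
        exact (hcon i).symm
      obtain ⟨i, hi⟩ := hex
      refine ⟨psiH679 L i - algebraMap L.V (M → Qb) ⟨L.Ψ m' i, L.integral m' i⟩,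
        sub_mem (psi_mem_HlocH679 hact L i) (Subalgebra.algebraMap_mem _ _), fun _ => ?_, ?_⟩
      · show L.Ψ m' i - L.Ψ m' i = 0
        exact sub_self _
      · show L.Ψ m i - L.Ψ m' i ≠ 0
        exact sub_ne_zero.2 hi
  choose g hg1 hg2 hg3 using hsep
  set P : M → Qb := ∏ m', g m' with hP
  have hPmem : P ∈ HlocH679 L := prod_mem fun m' _ => hg1 m'
  have hPval : ∀ n, P n = ∏ m', g m' n := fun n => by
    rw [hP, Finset.prod_apply]
  have hP0 : ∀ m', m' ≠ m → P m' = 0 := by
    intro m' hm'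
    rw [hPval]
    exact Finset.prod_eq_zero (Finset.mem_univ m') (hg2 m' hm')
  have hPm : P m ≠ 0 := by
    rw [hPval]
    exact Finset.prod_ne_zero_iff.2 fun m' _ => hg3 m'
  obtain ⟨e, he⟩ := exists_pow_div_memH679 L.V hℓ L.ell_mem (P m)
  refine ⟨e, (⟨(ℓ : Qb) ^ e * (P m)⁻¹, he⟩ : L.V) • P, Subalgebra.smul_mem _ hPmem _, ?_, ?_⟩
  · rw [smul_applyH679]
    show (ℓ : Qb) ^ e * (P m)⁻¹ * P m = (ℓ : Qb) ^ e
    rw [mul_assoc, inv_mul_cancel₀ hPm, mul_one]
  · intro m' hm'
    rw [smul_applyH679, hP0 m' hm', mul_zero]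

include hℓ hact in
/-- **Conductor**: functions with values in `ℓ ^ (e+1) V` lie in `𝔪_V • Hloc`. -/
theorem exists_conductorH679 :
    ∃ e : ℕ, ∀ F : M → Qb, (∀ m, ∃ z ∈ L.V, F m = (ℓ : Qb) ^ (e + 1) * z) →
      F ∈ IsLocalRing.maximalIdeal L.V • Subalgebra.toSubmodule (HlocH679 L) := by
  classical
  haveI := Fintype.ofFinite M
  choose em P hP1 hP2 hP3 using exists_single_memH679 hℓ hact L
  refine ⟨∑ m, em m, fun F hF => ?_⟩
  choose z hz hFz using hF
  have hle : ∀ m, em m ≤ ∑ m, em m := fun m =>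
    Finset.single_le_sum (fun _ _ => Nat.zero_le _) (Finset.mem_univ m)
  have hℓV : (ℓ : Qb) ∈ L.V := mem_of_mem_nonunitsH679 L.V L.ell_mem
  set lV : L.V := ⟨(ℓ : Qb), hℓV⟩ with hlV
  have hlm : lV ∈ IsLocalRing.maximalIdeal L.V :=
    (ValuationSubring.coe_mem_nonunits_iff).1 L.ell_mem
  have hcoef : ∀ m, (ℓ : Qb) ^ ((∑ m, em m) - em m) * z m ∈ L.V := fun m =>
    L.V.mul_mem _ _ (pow_mem hℓV _) (hz m)
  have hF' : F = ∑ m, lV • ((⟨_, hcoef m⟩ : L.V) • P m) := by
    funext n
    rw [Finset.sum_apply, Finset.sum_eq_single n]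
    · rw [smul_applyH679, smul_applyH679, hP2, hFz n]
      show _ = (ℓ : Qb) * ((ℓ : Qb) ^ ((∑ m, em m) - em n) * z n * (ℓ : Qb) ^ em n)
      have : (∑ m, em m) + 1 = 1 + ((∑ m, em m) - em n) + em n := by
        have := hle n
        omega
      rw [this, pow_add, pow_add, pow_one]
      ring
    · intro m _ hmn
      rw [smul_applyH679, smul_applyH679, hP3 m n (Ne.symm hmn), mul_zero, mul_zero]
    · intro h
      exact absurd (Finset.mem_univ n) h
  rw [hF']
  refine Submodule.sum_mem _ fun m _ => ?_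
  exact Submodule.smul_mem_smul hlm (Submodule.smul_mem _ _ (hP1 m))

end conductor

end Fermat.Agent.S19.H679

end
-- ===== PACK-END S19/H679/Conj.lean

-- ===== PACK-BEGIN S19/H679/Basis.lean
section


/-!
# Cell A3 (S19), block UNR (helper679) — minimal spanning sets over a valuation ring

* `exists_minimal_spanningH679` : a finitely generated module spanned by a set `S` is spanned
  by a finite subset of `S` none of whose elements is in the span of the others;
* `indep_of_minimalH679`        : over a valuation ring `V` of `ℚ̄` such a set is linearly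
  independent over `ℚ̄`;
* `tensor_indepH679`            : products `f(x) g(y)` of an independent family of functions are
  independent;
* `mem_ratLocalizedAtH679`      : `ℚ ∩ V = ℤ_(ℓ)`;
* `isIntegral_of_conj_memH679`  : an element all of whose conjugates lie in `V` is integral
  over `ℤ_(ℓ)`.
-/

set_option autoImplicit false

namespace Fermat.Agent.S19.H679

open Fermat.Agent.S54 Fermat.Agent.S55.Bridge
open Polynomial

attribute [local instance] isAlgebraic_Qbar isGalois_Qbar

/-- A finite generating subset of `S` with no redundant element. -/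
theorem exists_minimal_spanningH679 {A W : Type*} [CommRing A] [AddCommGroup W] [Module A W]
    (S : Set W) (N : Submodule A W) (hN : N.FG) (hS : Submodule.span A S = N) :
    ∃ F : Finset W, (F : Set W) ⊆ S ∧ Submodule.span A (F : Set W) = N ∧
      ∀ f ∈ F, f ∉ Submodule.span A ((F : Set W) \ {f}) := by
  classical
  have hex : ∃ n : ℕ, ∃ F : Finset W, (F : Set W) ⊆ S ∧ Submodule.span A (F : Set W) = N ∧
      F.card = n := by
    rw [← hS] at hN
    obtain ⟨F, hF1, hF2⟩ := (Submodule.fg_span_iff_fg_span_finset_subset S).1 hN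
    exact ⟨F.card, F, hF1, by rw [← hF2, hS], rfl⟩
  obtain ⟨F, hF1, hF2, hF3⟩ := Nat.find_spec hex
  refine ⟨F, hF1, hF2, fun f hf hmem => ?_⟩
  rw [← Finset.coe_erase] at hmem
  have hlt : (F.erase f).card < Nat.find hex := by
    rw [← hF3]
    exact Finset.card_erase_lt_of_mem hf
  apply Nat.find_min hex hlt
  refine ⟨F.erase f, ?_, ?_, rfl⟩
  · exact fun x hx => hF1 (Finset.mem_of_mem_erase (Finset.mem_coe.1 hx))
  · rw [← hF2]
    apply le_antisymm
    · exact Submodule.span_mono fun x hx => Finset.mem_of_mem_erase (Finset.mem_coe.1 hx)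
    · rw [Submodule.span_le]
      intro x hx
      by_cases hxf : x = f
      · rw [hxf]; exact hmem
      · exact Submodule.subset_span (Finset.mem_coe.2 (Finset.mem_erase.2 ⟨hxf, hx⟩))

/-- Over a valuation ring, a spanning set without redundant elements is independent over the
fraction field. -/
theorem indep_of_minimalH679 (V : ValuationSubring Qb) {N : Type*} (F : Finset (N → Qb))
    (hmin : ∀ f ∈ F, f ∉ Submodule.span V ((F : Set (N → Qb)) \ {f}))
    (g : (N → Qb) → Qb) (hg : ∑ f ∈ F, g f • f = 0) : ∀ f ∈ F, g f = 0 := by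
  classical
  by_contra hcon
  push Not at hcon
  obtain ⟨f₀, hf₀, hgf₀⟩ := hcon
  obtain ⟨f₁, hf₁, hmax⟩ := Finset.exists_max_image F (fun f => V.valuation (g f)) ⟨f₀, hf₀⟩
  have hg1 : g f₁ ≠ 0 := by
    intro h
    have h1 := hmax f₀ hf₀
    rw [h, map_zero] at h1
    exact hgf₀ ((Valuation.zero_iff _).1 (le_antisymm h1 zero_le))
  have hcoef : ∀ f ∈ F, g f * (g f₁)⁻¹ ∈ V := by
    intro f hf
    rw [← V.valuation_le_one_iff, map_mul, map_inv₀, ← div_eq_mul_inv]
    have hpos : 0 < V.valuation (g f₁) := zero_lt_iff.2 ((Valuation.ne_zero_iff _).2 hg1)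
    rw [div_le_one₀ hpos]
    exact hmax f hf
  apply hmin f₁ hf₁
  rw [← Finset.coe_erase]
  have hrel : f₁ = ∑ f ∈ F.erase f₁, (-(g f * (g f₁)⁻¹)) • f := by
    rw [← Finset.add_sum_erase F _ hf₁] at hg
    have h1 : g f₁ • f₁ = -∑ f ∈ F.erase f₁, g f • f := eq_neg_of_add_eq_zero_left hg
    calc f₁ = (g f₁)⁻¹ • (g f₁ • f₁) := by rw [smul_smul, inv_mul_cancel₀ hg1, one_smul]
      _ = (g f₁)⁻¹ • (-∑ f ∈ F.erase f₁, g f • f) := by rw [h1]
      _ = ∑ f ∈ F.erase f₁, (-(g f * (g f₁)⁻¹)) • f := by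
        rw [smul_neg, Finset.smul_sum, ← Finset.sum_neg_distrib]
        refine Finset.sum_congr rfl fun f _ => ?_
        rw [smul_smul, neg_smul, mul_comm]
  have hgoal : ∑ f ∈ F.erase f₁, (-(g f * (g f₁)⁻¹)) • f
      ∈ Submodule.span V ((F.erase f₁ : Finset (N → Qb)) : Set (N → Qb)) := by
    refine Submodule.sum_mem _ fun f hf => ?_
    have hfF : f ∈ F := Finset.mem_of_mem_erase hf
    have h3 : (-(g f * (g f₁)⁻¹)) • f
        = (⟨-(g f * (g f₁)⁻¹), V.neg_mem _ (hcoef f hfF)⟩ : V) • f := rfl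
    rw [h3]
    exact Submodule.smul_mem _ _ (Submodule.subset_span (Finset.mem_coe.2 hf))
  have key : ∀ S : Submodule V (N → Qb),
      ∑ f ∈ F.erase f₁, (-(g f * (g f₁)⁻¹)) • f ∈ S → f₁ ∈ S := by
    intro S h
    rw [hrel]
    exact h
  exact key _ hgoal

/-- Independence of the products `f(x) g(y)`. -/
theorem tensor_indepH679 {N : Type*} (F : Finset (N → Qb))
    (hind : ∀ g : (N → Qb) → Qb, ∑ f ∈ F, g f • f = 0 → ∀ f ∈ F, g f = 0)
    (c : (N → Qb) → (N → Qb) → Qb)
    (hc : ∀ x y : N, ∑ f ∈ F, ∑ g ∈ F, c f g * (f x * g y) = 0) :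
    ∀ f ∈ F, ∀ g ∈ F, c f g = 0 := by
  classical
  -- first in the variable `x`
  have h1 : ∀ y : N, ∀ f ∈ F, ∑ g ∈ F, c f g * g y = 0 := by
    intro y
    apply hind (fun f => ∑ g ∈ F, c f g * g y)
    funext x
    rw [Finset.sum_apply, Pi.zero_apply, ← hc x y]
    refine Finset.sum_congr rfl fun f _ => ?_
    rw [Pi.smul_apply, smul_eq_mul, Finset.sum_mul]
    refine Finset.sum_congr rfl fun g _ => ?_
    ring
  intro f hf
  apply hind (fun g => c f g)
  funext y
  rw [Finset.sum_apply, Pi.zero_apply, ← h1 y f hf]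
  refine Finset.sum_congr rfl fun g _ => ?_
  rw [Pi.smul_apply, smul_eq_mul]

variable (V : ValuationSubring Qb) {ℓ : ℕ} (hℓ : ℓ.Prime) (hV : (ℓ : Qb) ∈ V.nonunits)

include hℓ hV in
/-- `ℚ ∩ V = ℤ_(ℓ)`. -/
theorem mem_ratLocalizedAtH679 (q : ℚ) (hq : (algebraMap ℚ Qb q) ∈ V) : q ∈ Rl ℓ := by
  show q.den.Coprime ℓ
  rw [Nat.coprime_comm, hℓ.coprime_iff_not_dvd]
  intro hdvd
  obtain ⟨k, hk⟩ := hdvd
  -- `num = q * den ∈ 𝔪`
  have h1 : ((q.num : ℤ) : Qb) = algebraMap ℚ Qb q * ((q.den : ℕ) : Qb) := by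
    have h2 : (q.num : ℚ) = q * (q.den : ℚ) := (Rat.mul_den_eq_num q).symm
    have h3 := congrArg (algebraMap ℚ Qb) h2
    rw [map_mul, map_intCast, map_natCast] at h3
    exact h3
  have h4 : ((q.den : ℕ) : Qb) ∈ V.nonunits := by
    rw [hk]
    push_cast
    exact mul_mem_nonunitsH679' V hV (natCast_mem V k)
  have h5 : ((q.num : ℤ) : Qb) ∈ V.nonunits := by
    rw [h1]
    exact mul_mem_nonunitsH679 V hq h4
  have h6 := dvd_of_intCast_mem_nonunits V ℓ hℓ hV _ h5
  have h7 : (ℓ : ℤ) ∣ (q.den : ℤ) := ⟨k, by exact_mod_cast hk⟩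
  have h8 : IsCoprime q.num (q.den : ℤ) := by
    rw [Int.isCoprime_iff_gcd_eq_one]
    have := q.reduced
    rw [Nat.Coprime] at this
    rw [Int.gcd]
    simpa using this
  have h9 : IsUnit (ℓ : ℤ) := h8.isUnit_of_dvd' h6 h7
  rw [Int.isUnit_iff] at h9
  have := hℓ.one_lt
  omega

/-- Elements of `ℚ̄` fixed by the whole Galois group are rational. -/
theorem mem_range_of_fixedH679 (x : Qb) (hx : ∀ σ : GalQ, σ x = x) :
    ∃ q : ℚ, algebraMap ℚ Qb q = x := by
  have hfix : x ∈ IntermediateField.fixedField (⊤ : Subgroup GalQ) := by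
    rintro ⟨g, -⟩
    exact hx g
  rw [InfiniteGalois.fixedField_bot, IntermediateField.mem_bot] at hfix
  exact hfix

include hℓ hV in
/-- An element all of whose conjugates lie in `V` is integral over `ℤ_(ℓ)`. -/
theorem isIntegral_of_conj_memH679 (x : Qb) (hx : ∀ σ : GalQ, σ x ∈ V) :
    IsIntegral (Rl ℓ) x := by
  set Q := orbPolyH679 (⊤ : Subgroup GalQ) x with hQ
  have hmonic : Q.Monic := monic_prod_of_monic _ _ fun y _ => monic_X_sub_C y
  have hcoefV : ∀ j, Q.coeff j ∈ V := fun j =>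
    coeff_prod_X_sub_C_memH679 V.toSubring _ (fun y hy => by
      obtain ⟨σ, -, rfl⟩ := mem_orbH679.1 hy
      exact hx σ) j
  have hcoefQ : ∀ j, ∃ r : Rl ℓ, algebraMap (Rl ℓ) Qb r = Q.coeff j := by
    intro j
    obtain ⟨q, hq⟩ := mem_range_of_fixedH679 (Q.coeff j) fun σ =>
      apply_coeff_orbPolyH679 x (Subgroup.mem_top σ) j
    exact ⟨⟨q, mem_ratLocalizedAtH679 V hℓ hV q (hq ▸ hcoefV j)⟩, hq⟩
  have hlift : Q ∈ Polynomial.lifts (algebraMap (Rl ℓ) Qb) := by
    rw [Polynomial.lifts_iff_coeff_lifts]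
    intro j
    obtain ⟨r, hr⟩ := hcoefQ j
    exact ⟨r, hr⟩
  obtain ⟨P, hP, -, hPm⟩ := Polynomial.lifts_and_degree_eq_and_monic hlift hmonic
  refine ⟨P, hPm, ?_⟩
  rw [← Polynomial.eval_map, hP]
  exact orbPolyH679_eval_self _ x

end Fermat.Agent.S19.H679

end
-- ===== PACK-END S19/H679/Basis.lean

-- ===== PACK-BEGIN Lib/RR/H638/NonSpecial.lean
section


/-!
# Non-special effective divisors (helper638)

From Riemann's theorem (`IsRiemannGenus K F g`) alone — no duality, no canonical divisor: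

`exists_nonspecial`: if `F / K` has infinitely many places (e.g. `K` infinite), then for every
finite set `S` of places and every `d ≤ g` there are `d` distinct places `P₁, …, P_d ∉ S` with
`ℓ(P₁ + ⋯ + P_d) = 1`, i.e. `L(P₁ + ⋯ + P_d) = K`.

This is input (G2) of the S18 endgames (origin/helper573:coord/S18-endgame-helper573.md).
-/

set_option autoImplicit false

noncomputable section

open AlgebraicCurve

namespace Fermat.Agent.Lib.RR.H638

open Fermat.Agent.Lib.RR

variable {K F : Type*} [Field K] [Field F] [Algebra K F]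

/-- An element of `L(E + P) ∖ L(E)` has order exactly `-(E P + 1)` at `P`. -/
theorem ord_eq_of_mem_of_not_mem (E : Divisor K F) (v : Place K F) {f : F}
    (hf : f ∈ riemannRochSpace (E + prim v)) (hf' : f ∉ riemannRochSpace E) :
    v.ord f = -(E v + 1) := by
  have hf0 : f ≠ 0 := fun h => hf' (h ▸ Submodule.zero_mem _)
  have h1 := (mem_L_iff.mp hf v).resolve_left hf0
  simp only [Finsupp.coe_add, Pi.add_apply, prim_apply_self] at h1
  by_contra hne
  apply hf'
  rw [mem_L_iff]
  intro w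
  right
  by_cases hw : w = v
  · subst hw; omega
  · have h2 := (mem_L_iff.mp hf w).resolve_left hf0
    simpa [prim_apply_of_ne hw] using h2

section

variable [FF1 K F]

/-- If `ℓ(E + P) > ℓ(E)` for all `P` in a finset `T` of places outside the support of `E`, then
`ℓ(E + ∑_{P ∈ T} P) ≥ ℓ(E) + #T`. -/
theorem ell_add_divT_ge (E : Divisor K F) (T : Finset (Place K F))
    (hT : ∀ v ∈ T, ell E < ell (E + prim v)) :
    ell E + T.card ≤ ell (E + divT T) := by
  classical
  induction T using Finset.induction_on with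
  | empty => simp [divT]
  | insert v T hv ih =>
    have ih' := ih (fun w hw => hT w (Finset.mem_insert_of_mem hw))
    have hvT := hT v (Finset.mem_insert_self v T)
    -- an element of L(E + v) not in L(E)
    have hne : ¬ riemannRochSpace (E + prim v) ≤ riemannRochSpace E := by
      intro hle
      have := Submodule.finrank_mono hle
      unfold ell at hvT
      omega
    obtain ⟨f, hf, hf'⟩ := SetLike.not_le_iff_exists.mp hne
    have hford := ord_eq_of_mem_of_not_mem E v hf hf'
    have hdiv : divT (insert v T) = divT T + prim v := by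
      unfold divT
      rw [Finset.sum_insert hv, add_comm]
    rw [hdiv, ← add_assoc, Finset.card_insert_of_notMem hv]
    -- f ∈ L(E + T + v) \ L(E + T)
    have hle : E + prim v ≤ E + divT T + prim v := by
      rw [Finsupp.le_def]; intro w
      have := divT_nonneg T w
      simp only [Finsupp.coe_add, Pi.add_apply]
      omega
    have hf1 : f ∈ riemannRochSpace (E + divT T + prim v) := L_mono hle hf
    have hf2 : f ∉ riemannRochSpace (E + divT T) := by
      intro hmem
      have hf0 : f ≠ 0 := fun h => hf' (h ▸ Submodule.zero_mem _)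
      have := (mem_L_iff.mp hmem v).resolve_left hf0
      simp only [Finsupp.coe_add, Pi.add_apply, divT_apply_not_mem hv] at this
      omega
    have hlt : ell (E + divT T) < ell (E + divT T + prim v) := by
      unfold ell
      apply Submodule.finrank_lt_finrank_of_lt
      refine lt_of_le_of_ne (L_mono ?_) ?_
      · rw [Finsupp.le_def]; intro w
        simp only [Finsupp.coe_add, Pi.add_apply]
        by_cases hw : w = v
        · subst hw; rw [prim_apply_self]; omega
        · rw [prim_apply_of_ne hw]; omega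
      · intro heq
        exact hf2 (heq ▸ hf1)
    omega

/-- One step: if `ℓ(E) = 1`-type bound `deg E + 1 - ℓ(E) < g`, then only finitely many places
`P ∉ supp E` can have `ℓ(E + P) > ℓ(E)`; quantitatively, any finset `T` of such places, disjoint
from the support of `E`, has `#T` bounded. -/
theorem card_le_of_ell_lt {g : ℕ} (hg : IsRiemannGenus K F g) (E : Divisor K F) :
    ∃ N : ℕ, ∀ T : Finset (Place K F), (∀ v ∈ T, ell E < ell (E + prim v)) →
      (Divisor.degree E + 1 - (ell E : ℤ) < g) → T.card < N := by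
  obtain ⟨c, hc⟩ := hg
  refine ⟨(c - Divisor.degree E).toNat + 1, fun T hT hlt => ?_⟩
  by_contra hcard
  push Not at hcard
  have h1 := ell_add_divT_ge E T hT
  have hdeg : Divisor.degree (E + divT T) = Divisor.degree E + T.card := by
    rw [map_add, degree_divT]
  have hc' : c ≤ Divisor.degree (E + divT T) := by
    rw [hdeg]
    have := Int.self_le_toNat (c - Divisor.degree E)
    have : ((c - Divisor.degree E).toNat : ℤ) + 1 ≤ (T.card : ℤ) := by exact_mod_cast hcard
    omega
  have h2 := hc _ hc'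
  rw [hdeg] at h2
  have h3 : (ell E : ℤ) + T.card ≤ ell (E + divT T) := by exact_mod_cast h1
  omega

/-- **Existence of non-special effective divisors.**  Assume `F / K` has infinitely many places.
For every finite set `S` of places and every `d ≤ g` there is a set `T` of `d` places outside `S`
with `ℓ(∑_{P ∈ T} P) = 1`. -/
theorem exists_nonspecial {g : ℕ} (hg : IsRiemannGenus K F g) [Infinite (Place K F)]
    (S : Finset (Place K F)) (d : ℕ) (hd : d ≤ g) :
    ∃ T : Finset (Place K F), T.card = d ∧ Disjoint T S ∧ ell (divT T) = 1 := by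
  classical
  induction d with
  | zero => exact ⟨∅, rfl, Finset.disjoint_empty_left S, by simp [divT, ell_zero]⟩
  | succ d ih =>
    obtain ⟨T, hTc, hTS, hTl⟩ := ih (by omega)
    obtain ⟨N, hN⟩ := card_le_of_ell_lt hg (divT T)
    have hdeg : Divisor.degree (divT T) + 1 - (ell (divT T) : ℤ) < g := by
      rw [degree_divT, hTl, hTc]
      push_cast
      omega
    -- choose N fresh places outside `S ∪ T`
    have hinf : (((S ∪ T : Finset (Place K F)) : Set (Place K F))ᶜ).Infinite :=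
      Set.Finite.infinite_compl (Finset.finite_toSet _)
    obtain ⟨U, hUsub, hUcard⟩ := hinf.exists_subset_card_eq N
    have hex : ∃ v ∈ U, ¬ ell (divT T) < ell (divT T + prim v) := by
      by_contra hall
      push Not at hall
      have := hN U hall hdeg
      omega
    obtain ⟨v, hvU, hv⟩ := hex
    have hvST : v ∉ S ∪ T := by
      have := hUsub (Finset.mem_coe.mpr hvU)
      simpa using this
    have hvS : v ∉ S := fun h => hvST (Finset.mem_union_left _ h)
    have hvT : v ∉ T := fun h => hvST (Finset.mem_union_right _ h)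
    refine ⟨insert v T, ?_, ?_, ?_⟩
    · rw [Finset.card_insert_of_notMem hvT, hTc]
    · rw [Finset.disjoint_insert_left]
      exact ⟨hvS, hTS⟩
    · have hdiv : divT (insert v T) = divT T + prim v := by
        unfold divT
        rw [Finset.sum_insert hvT, add_comm]
      rw [hdiv]
      have hle : divT T ≤ divT T + prim v := by
        rw [Finsupp.le_def]; intro w
        simp only [Finsupp.coe_add, Pi.add_apply]
        by_cases hw : w = v
        · subst hw; rw [prim_apply_self]; omega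
        · rw [prim_apply_of_ne hw]; omega
      have := ell_mono hle
      omega

/-- Over an infinite constant field there are infinitely many places: the zeros of `x - c`,
`c ∈ K`, are pairwise distinct. -/
theorem infinite_place [Infinite K] : Infinite (Place K F) := by
  obtain ⟨x, hxt, -⟩ := FF1.exists_finite (K := K) (F := F)
  have hnc : ∀ c : K, x - algebraMap K F c ∉ Set.range (algebraMap K F) := by
    rintro c ⟨b, hb⟩
    apply hxt
    have hx : x = algebraMap K F (b + c) := by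
      rw [map_add, hb]; ring
    rw [hx]
    exact isAlgebraic_algebraMap _
  have hne : ∀ c : K, x - algebraMap K F c ≠ 0 := by
    intro c h0
    exact hnc c ⟨0, by rw [map_zero, h0]⟩
  have hz : ∀ c : K, ∃ v : Place K F, 0 < v.ord (x - algebraMap K F c) := by
    intro c
    obtain ⟨v, hv⟩ := zerosOf_nonempty (K := K) (hne c) (hnc c)
    exact ⟨v, mem_zerosOf.mp hv⟩
  choose z hz using hz
  refine Infinite.of_injective z ?_
  intro c c' hcc
  by_contra hne'
  have h1 := hz c
  have h2 := hz c'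
  rw [hcc] at h1
  have hsub : (x - algebraMap K F c') - (x - algebraMap K F c) = algebraMap K F (c - c') := by
    rw [map_sub]; ring
  have hcne : algebraMap K F (c - c') ≠ 0 := by
    rw [Ne, map_eq_zero, sub_eq_zero]; exact hne'
  -- strict version: the difference has positive order
  have h4 : 0 < (z c').ord ((x - algebraMap K F c') - (x - algebraMap K F c)) := by
    have := ord_add_of_le (z c') (f := x - algebraMap K F c') (g := -(x - algebraMap K F c))
      (n := 1) (Or.inr (by omega)) (Or.inr (by rw [ord_neg]; omega))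
    rw [← sub_eq_add_neg] at this
    rcases this with h | h
    · rw [hsub] at h; exact absurd h hcne
    · omega
  rw [hsub, ord_algebraMap] at h4
  exact lt_irrefl _ h4

/-- `L(∑_{P ∈ T} P) = K` for the divisors of `exists_nonspecial`. -/
theorem L_eq_range_of_ell_eq_one {E : Divisor K F} (hE : 0 ≤ E) (h : ell E = 1) :
    riemannRochSpace E = LinearMap.range (Algebra.linearMap K F) := by
  have hle : riemannRochSpace (0 : Divisor K F) ≤ riemannRochSpace E := L_mono hE
  have heq : riemannRochSpace (0 : Divisor K F) = riemannRochSpace E := by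
    apply Submodule.eq_of_le_of_finrank_eq hle
    have h0 : ell (0 : Divisor K F) = 1 := ell_zero
    unfold ell at h h0
    rw [h, h0]
  rw [← heq, L_zero]

/-- Version of `exists_nonspecial` in terms of `L`: `d ≤ g` places outside `S` such that every
function with at most simple poles at these places (and no other poles) is constant. -/
theorem exists_nonspecial' {g : ℕ} (hg : IsRiemannGenus K F g) [Infinite (Place K F)]
    (S : Finset (Place K F)) (d : ℕ) (hd : d ≤ g) :
    ∃ T : Finset (Place K F), T.card = d ∧ Disjoint T S ∧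
      ∀ f : F, (∀ v : Place K F, v ∉ T → 0 ≤ v.ord f) → (∀ v ∈ T, -1 ≤ v.ord f) →
        f ∈ Set.range (algebraMap K F) := by
  obtain ⟨T, hc, hdisj, hl⟩ := exists_nonspecial hg S d hd
  refine ⟨T, hc, hdisj, fun f h1 h2 => ?_⟩
  have hE : (0 : Divisor K F) ≤ divT T := by
    rw [Finsupp.le_def]; intro v; exact divT_nonneg T v
  have hf : f ∈ riemannRochSpace (divT T) := by
    rw [mem_L_iff]
    intro v
    right
    by_cases hv : v ∈ T
    · rw [divT_apply_mem hv]; exact h2 v hv
    · rw [divT_apply_not_mem hv]; simpa using h1 v hv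
  rw [L_eq_range_of_ell_eq_one hE hl] at hf
  obtain ⟨c, hc⟩ := hf
  exact ⟨c, hc⟩

end

end Fermat.Agent.Lib.RR.H638

end
end
-- ===== PACK-END Lib/RR/H638/NonSpecial.lean

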