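import Mathlib
import Fermat.Prelude.Def_AlgebraicCurve_DivisorPushPull
import Fermat.Prelude.Def_AlgebraicCurve_BaseChangeGalois
import Fermat.Agent.Pack.S3234.G4E2L1
import Fermat.Agent.Pack.S3234.G0E1L1
import Fermat.Agent.Pack.S3234.G0E6L0
import Fermat.Agent.Pack.S3234.G0E0L2
import Fermat.Agent.Pack.S3234.G0E2L2
import Fermat.Agent.Pack.S3234.G0E6L1
import Fermat.Agent.Pack.S3234.G0E2L0
import Fermat.Agent.Pack.S3234.G4E2L2
import Fermat.Agent.Pack.S3234.G4E1L2
import Fermat.Agent.Pack.S3234.G4E0L2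
import Fermat.Agent.Pack.S3234.G4E2L3
import Fermat.Agent.Pack.S3234.G4E2L0
import Fermat.Agent.Pack.S3234.G4E0L3
import Fermat.Agent.Pack.S3234.G4E0L0

-- ===== PACK-BEGIN S32/H692/Rel.lean
section
/-
Row S32 (flat at `p`), piece REL (helper692) — unconditional form.

`rel : Fermat.Agent.S32.RelStatement` (exact Prop of `Fermat/Agent/S32/Spec.lean`), from
`RelCore.rel_of_chebWeak` and Tier 1 of the shared CHEB library (`Lib.Cheb.frobeniusDivision`).
-/




set_option autoImplicit false

namespace Fermat.Agent.S32.H692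

/-- **REL.**  At a local point `P` of the coefficient ring of a datum, every element of `G_ℚ`
satisfies on the eigenmodule of `P.χ ∘ π` the characteristic polynomial of `H.ρ`. -/
theorem rel : Fermat.Agent.S32.RelStatement :=
  rel_of_chebWeak
    (Fermat.Agent.S30.H990.chebWeak_of_frobeniusDivision Fermat.Agent.Lib.Cheb.frobeniusDivision)

end Fermat.Agent.S32.H692

end
-- ===== PACK-END S32/H692/Rel.lean

-- ===== PACK-BEGIN S37/H160/SepFF.lean
section







/-!
# Separable port (helper160) of `Lib/FF398/Local.lean` (helper398): relative theory of places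

For a place `v` of `F` and a finite extension `F'/F` (characteristic zero) we use the integral
closure `S` of `O_v` in `F'` (a semi-local Dedekind domain) as a dictionary:
places of `F'` over `v`  ↔  height-one primes of `S`.

Main results of this file (helper398):
* `placeOf v q` : the place of `F'` attached to a height one prime `q` of `S`;
* `restrict_placeOf`, `exists_placeOf_eq`, `placeOf_injective` : the dictionary;
* `ord_placeOf` : `ord` of `placeOf v q` is the `q`-adic valuation.
-/

set_option autoImplicit false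
set_option linter.unusedSectionVars false

open AlgebraicCurve IsDedekindDomain

namespace Fermat.Agent.S37.H160.SepFF

section Max

variable {K F : Type*} [Field K] [Field F] [Algebra K F]

/-- Discrete valuation rings are maximal subrings: comparable places are equal. -/
theorem place_eq_of_le {v w : Place K F} (h : v.toValuationSubring ≤ w.toValuationSubring) :
    v = w :=
  Place.ext (ValuationSubring.eq_of_le_of_ne_top _ h w.ne_top')

end Max

section Local

variable {K F F' : Type*} [Field K] [Field F] [Field F'] [Algebra K F] [Algebra K F']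
  [Algebra F F'] [IsScalarTower K F F'] [FiniteDimensional F F'] [Algebra.IsSeparable F F']
variable (v : Place K F)

variable (F') in
/-- The integral closure of `O_v` in `F'`. -/
abbrev intCl : Subalgebra v.toValuationSubring F' := integralClosure v.toValuationSubring F'

omit [Algebra K F'] [IsScalarTower K F F'] [FiniteDimensional F F'] [Algebra.IsSeparable F F'] in
theorem algebraMap_OF'_injective :
    Function.Injective (algebraMap v.toValuationSubring F') := by
  intro a b h
  apply Subtype.ext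
  exact (algebraMap F F').injective h

instance (priority := 2000) instFaithfulOF' : FaithfulSMul v.toValuationSubring F' :=
  (faithfulSMul_iff_algebraMap_injective _ _).mpr (algebraMap_OF'_injective v)

instance (priority := 2000) instTorsionFreeOF' :
    Module.IsTorsionFree v.toValuationSubring F' :=
  FaithfulSMul.to_isTorsionFree _ _

instance (priority := 2000) instTorsionFreeIntCl :
    Module.IsTorsionFree v.toValuationSubring (intCl F' v) :=
  Subalgebra.instIsTorsionFree (intCl F' v)

instance instTowerKOF' : IsScalarTower K v.toValuationSubring F' :=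
  IsScalarTower.of_algebraMap_eq fun a => by
    show algebraMap K F' a = algebraMap F F' (algebraMap K F a)
    rw [← IsScalarTower.algebraMap_apply]

instance instDedekindIntCl : IsDedekindDomain (intCl F' v) :=
  integralClosure.isDedekindDomain v.toValuationSubring F F'

instance instFracIntCl : IsFractionRing (intCl F' v) F' :=
  IsIntegralClosure.isFractionRing_of_finite_extension v.toValuationSubring F F' (intCl F' v)

instance instFiniteIntCl : Module.Finite v.toValuationSubring (intCl F' v) :=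
  IsIntegralClosure.finite v.toValuationSubring F F' (intCl F' v)

instance instFreeIntCl : Module.Free v.toValuationSubring (intCl F' v) :=
  Module.free_of_finite_type_torsion_free'

/-- The place of `F'` attached to a height-one prime of the integral closure of `O_v`. -/
noncomputable def placeOf (q : HeightOneSpectrum (intCl F' v)) : Place K F' :=
  Place.ofHeightOneSpectrum (K := K) q

theorem placeOf_toValuationSubring (q : HeightOneSpectrum (intCl F' v)) :
    (placeOf v q).toValuationSubring = (q.valuation F').valuationSubring := rfl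

theorem mem_placeOf_iff (q : HeightOneSpectrum (intCl F' v)) (g : F') :
    g ∈ (placeOf v q).toValuationSubring ↔ q.valuation F' g ≤ 1 := Iff.rfl

/-- `placeOf v q` lies over `v`. -/
theorem restrict_placeOf (q : HeightOneSpectrum (intCl F' v)) :
    (placeOf v q).restrict F = v := by
  symm
  apply place_eq_of_le
  intro a ha
  rw [Place.restrict_toValuationSubring, ValuationSubring.mem_comap, mem_placeOf_iff]
  have : algebraMap F F' a = algebraMap (intCl F' v) F'
      (algebraMap v.toValuationSubring (intCl F' v) ⟨a, ha⟩) := rfl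
  rw [this]
  exact q.valuation_le_one _

/-- The order function of `placeOf v q` is the `q`-adic valuation. -/
theorem ord_placeOf (q : HeightOneSpectrum (intCl F' v)) (g : F') :
    (placeOf v q).ord g = -(WithZero.log (q.valuation F' g)) := by
  rcases eq_or_ne g 0 with rfl | hg
  · simp
  symm
  obtain ⟨π, hπ⟩ := q.valuation_exists_uniformizer F'
  have hπ0 : π ≠ 0 := by
    rintro rfl
    rw [map_zero] at hπ
    exact WithZero.exp_ne_zero hπ.symm
  refine Fermat.Agent.S24.FF.ordLike_eq_ord (fun g => -(WithZero.log (q.valuation F' g)))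
    (fun f g hf hg => ?_) (placeOf v q) (fun f hf => ?_) hπ0 ?_ hg
  · rw [map_mul, WithZero.log_mul ((Valuation.ne_zero_iff _).mpr hf)
      ((Valuation.ne_zero_iff _).mpr hg)]
    ring
  · rw [mem_placeOf_iff, neg_nonneg,
      WithZero.log_le_iff_le_exp ((Valuation.ne_zero_iff _).mpr hf)]
    rfl
  · rw [hπ, WithZero.log_exp]
    ring

/-- Membership in a height-one prime, read off from the valuation subring. -/
theorem mem_asIdeal_iff (q : HeightOneSpectrum (intCl F' v)) (s : intCl F' v) :
    s ∈ q.asIdeal ↔ s = 0 ∨ ((s : F'))⁻¹ ∉ (placeOf v q).toValuationSubring := by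
  rw [mem_placeOf_iff, ← q.valuation_lt_one_iff_mem (K := F')]
  show q.valuation F' (s : F') < 1 ↔ s = 0 ∨ ¬ q.valuation F' ((s : F'))⁻¹ ≤ 1
  rcases eq_or_ne s 0 with rfl | hs
  · simp
  have hs' : (s : F') ≠ 0 := fun h => hs (Subtype.ext h)
  have hv0 : q.valuation F' (s : F') ≠ 0 := (Valuation.ne_zero_iff _).mpr hs'
  rw [map_inv₀, not_le, one_lt_inv₀ (zero_lt_iff.mpr hv0)]
  simp [hs]

theorem placeOf_injective : Function.Injective (placeOf (F' := F') v) := by
  intro q q' h
  apply HeightOneSpectrum.ext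
  ext s
  rw [mem_asIdeal_iff, mem_asIdeal_iff, h]

/-- The integral closure of `O_{w|F}` is contained in `O_w`. -/
theorem coe_intCl_mem (w : Place K F') (s : intCl F' (w.restrict F)) :
    (s : F') ∈ w.toValuationSubring := by
  obtain ⟨p, hp, hps⟩ := s.2
  have hint : IsIntegral w.toValuationSubring (s : F') := by
    refine ⟨p.map (Place.restrictInclusion F w), hp.map _, ?_⟩
    rw [Polynomial.eval₂_map]
    exact hps
  obtain ⟨y, hy⟩ := IsIntegrallyClosed.isIntegral_iff.mp hint
  rw [← hy]
  exact y.2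

/-- The inclusion of the integral closure of `O_{w|F}` into `O_w`. -/
def intClInclusion (w : Place K F') : intCl F' (w.restrict F) →+* w.toValuationSubring where
  toFun s := ⟨(s : F'), coe_intCl_mem w s⟩
  map_one' := rfl
  map_mul' _ _ := rfl
  map_zero' := rfl
  map_add' _ _ := rfl

@[simp]
theorem coe_intClInclusion (w : Place K F') (s : intCl F' (w.restrict F)) :
    ((intClInclusion w s : w.toValuationSubring) : F') = (s : F') := rfl

/-- The centre of `w` on the integral closure of `O_{w|F}`. -/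
def centre (w : Place K F') : Ideal (intCl F' (w.restrict F)) :=
  Ideal.comap (intClInclusion w) (IsLocalRing.maximalIdeal w.toValuationSubring)

instance centre_isPrime (w : Place K F') : (centre (F := F) w).IsPrime :=
  Ideal.comap_isPrime _ _

theorem centre_ne_bot (w : Place K F') : centre (F := F) w ≠ ⊥ := by
  obtain ⟨π, hπ⟩ := IsDiscreteValuationRing.exists_irreducible (w.restrict F).toValuationSubring
  intro h
  have hmem : algebraMap (w.restrict F).toValuationSubring (intCl F' (w.restrict F)) π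
      ∈ centre (F := F) w := by
    rw [centre, Ideal.mem_comap, IsLocalRing.mem_maximalIdeal, mem_nonunits_iff]
    intro hu
    have hu' : IsUnit (Place.restrictInclusion F w π) := hu
    exact hπ.not_isUnit (isUnit_of_map_unit (Place.restrictInclusion F w) π hu')
  rw [h, Ideal.mem_bot] at hmem
  have hinj : Function.Injective
      (algebraMap (w.restrict F).toValuationSubring (intCl F' (w.restrict F))) :=
    FaithfulSMul.algebraMap_injective _ _
  exact hπ.ne_zero (hinj (by rw [hmem, map_zero]))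

/-- The centre of `w` as a height-one prime. -/
def centrePrime (w : Place K F') : HeightOneSpectrum (intCl F' (w.restrict F)) :=
  ⟨centre w, centre_isPrime w, centre_ne_bot w⟩

theorem placeOf_centrePrime (w : Place K F') : placeOf (w.restrict F) (centrePrime w) = w := by
  apply place_eq_of_le
  intro g hg
  rw [mem_placeOf_iff] at hg
  obtain ⟨n, d, hnd⟩ := (centrePrime w).exists_primeCompl_mul_eq_of_integer g hg
  have hd : (d : intCl F' (w.restrict F)) ∉ centre (F := F) w := d.2
  rw [centre, Ideal.mem_comap, IsLocalRing.mem_maximalIdeal, mem_nonunits_iff, not_not] at hd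
  obtain ⟨b, hb⟩ := isUnit_iff_exists_inv.mp hd
  have hb' : ((d : intCl F' (w.restrict F)) : F') * (b : F') = 1 := congrArg Subtype.val hb
  have hd0 : ((d : intCl F' (w.restrict F)) : F') ≠ 0 := left_ne_zero_of_mul_eq_one hb'
  have hg' : g = ((n : F')) * (b : F') := by
    have h1 : g * ((d : intCl F' (w.restrict F)) : F') = (n : F') := hnd
    calc g = g * (((d : intCl F' (w.restrict F)) : F') * (b : F')) := by rw [hb', mul_one]
      _ = (n : F') * (b : F') := by rw [← mul_assoc, h1]
  rw [hg']
  exact mul_mem (coe_intCl_mem w n) b.2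

/-- Every place of `F'` over `v` comes from a height-one prime of the integral closure. -/
theorem exists_placeOf_eq (w : Place K F') (hw : w.restrict F = v) :
    ∃ q : HeightOneSpectrum (intCl F' v), placeOf v q = w := by
  subst hw
  exact ⟨centrePrime w, placeOf_centrePrime w⟩

theorem range_placeOf : Set.range (placeOf (F' := F') v) = {w : Place K F' | w.restrict F = v} := by
  ext w
  constructor
  · rintro ⟨q, rfl⟩
    exact restrict_placeOf v q
  · intro hw
    exact exists_placeOf_eq v w hw

/-! ### Primes over the maximal ideal of `O_v` -/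

/-- The maximal ideal of `O_v`. -/
abbrev pv : Ideal v.toValuationSubring := IsLocalRing.maximalIdeal v.toValuationSubring

theorem pv_ne_bot : pv v ≠ ⊥ := IsDiscreteValuationRing.not_a_field _

theorem algebraMap_O_intCl_injective :
    Function.Injective (algebraMap v.toValuationSubring (intCl F' v)) :=
  FaithfulSMul.algebraMap_injective _ _

theorem map_pv_ne_bot : (pv v).map (algebraMap v.toValuationSubring (intCl F' v)) ≠ ⊥ := by
  rw [Ne, Ideal.map_eq_bot_iff_of_injective (algebraMap_O_intCl_injective v)]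
  exact pv_ne_bot v

instance liesOver_pv (q : HeightOneSpectrum (intCl F' v)) : q.asIdeal.LiesOver (pv v) := by
  constructor
  have hprime : (q.asIdeal.under v.toValuationSubring).IsPrime := Ideal.IsPrime.under _ _
  have hne : q.asIdeal.under v.toValuationSubring ≠ ⊥ :=
    Ideal.under_ne_bot v.toValuationSubring q.ne_bot
  have hmax : (q.asIdeal.under v.toValuationSubring).IsMaximal := hprime.isMaximal hne
  exact (IsLocalRing.eq_maximalIdeal hmax).symm

instance isMaximal_asIdeal (q : HeightOneSpectrum (intCl F' v)) : q.asIdeal.IsMaximal :=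
  q.isPrime.isMaximal q.ne_bot

/-- The height-one prime attached to a prime over `𝔪_v`. -/
def primeOfOver (q : (pv v).primesOver (intCl F' v)) : HeightOneSpectrum (intCl F' v) :=
  ⟨q.1, q.2.1, by
    have := q.2.2
    exact Ideal.ne_bot_of_liesOver_of_ne_bot (pv_ne_bot v) q.1⟩

@[simp]
theorem primeOfOver_asIdeal (q : (pv v).primesOver (intCl F' v)) :
    (primeOfOver v q).asIdeal = q.1 := rfl

theorem primeOfOver_injective : Function.Injective (primeOfOver (F' := F') v) := by
  intro q q' h
  apply Subtype.ext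
  exact congrArg HeightOneSpectrum.asIdeal h

theorem primeOfOver_surjective : Function.Surjective (primeOfOver (F' := F') v) := by
  intro q
  exact ⟨⟨q.asIdeal, q.isPrime, liesOver_pv v q⟩, rfl⟩

instance finite_primesOver : Finite ((pv v).primesOver (intCl F' v)) :=
  (Algebra.QuasiFinite.finite_primesOver (pv v)).to_subtype

instance finite_heightOneSpectrum : Finite (HeightOneSpectrum (intCl F' v)) :=
  Finite.of_surjective _ (primeOfOver_surjective v)

/-- The fibre over `v` is finite (no `HasPrincipalDivisors` needed). -/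
theorem finite_fibre : {w : Place K F' | w.restrict F = v}.Finite := by
  rw [← range_placeOf]
  exact Set.finite_range _

/-! ### Ramification index and residue degree -/

theorem mem_asIdeal_iff_ord (q : HeightOneSpectrum (intCl F' v)) (s : intCl F' v) :
    s ∈ q.asIdeal ↔ s = 0 ∨ 0 < (placeOf v q).ord (s : F') := by
  rcases eq_or_ne s 0 with rfl | hs
  · simp
  have hs' : (s : F') ≠ 0 := fun h => hs (Subtype.ext h)
  have hv0 : q.valuation F' (s : F') ≠ 0 := (Valuation.ne_zero_iff _).mpr hs'
  rw [ord_placeOf, neg_pos, WithZero.log_lt_iff_lt_exp hv0, ← q.valuation_lt_one_iff_mem (K := F')]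
  simp only [hs, false_or]
  rfl

theorem ord_placeOf_coe_nonneg (q : HeightOneSpectrum (intCl F' v)) (s : intCl F' v) :
    0 ≤ (placeOf v q).ord (s : F') :=
  (Fermat.Agent.S24.FF.mem_iff_ord_nonneg _).mp
    ((mem_placeOf_iff v q _).mpr (q.valuation_le_one s))

/-- The ramification index of `placeOf v q` (in the sense of the Prelude) is Mathlib's
ramification index of `q` over `O_v`. -/
theorem ramificationIndex_placeOf (q : HeightOneSpectrum (intCl F' v)) :
    ((placeOf v q).ramificationIndex F : ℤ)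
      = (q.asIdeal.ramificationIdx v.toValuationSubring : ℤ) := by
  obtain ⟨π, hπ, hπ1⟩ := Fermat.Agent.S24.FF.exists_irreducible_coe v
  have h1 := (placeOf v q).ord_restrict (F := F) (π : F)
  rw [restrict_placeOf, hπ1, mul_one] at h1
  rw [← h1, ord_placeOf]
  have hπS : algebraMap v.toValuationSubring (intCl F' v) π ≠ 0 := fun h =>
    hπ.ne_zero (algebraMap_O_intCl_injective v (by rw [h, map_zero]))
  have h2 : q.valuation F' (algebraMap F F' (π : F))
      = q.intValuation (algebraMap v.toValuationSubring (intCl F' v) π) :=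
    q.valuation_of_algebraMap (algebraMap v.toValuationSubring (intCl F' v) π)
  rw [h2, q.intValuation_eq_exp_neg_multiplicity hπS, WithZero.log_exp, neg_neg,
    Ideal.IsDedekindDomain.ramificationIdx_eq_multiplicity (pv v) q.asIdeal (map_pv_ne_bot v)]
  have h3 : (pv v).map (algebraMap v.toValuationSubring (intCl F' v))
      = Ideal.span {algebraMap v.toValuationSubring (intCl F' v) π} := by
    rw [pv, hπ.maximalIdeal_eq, Ideal.map_span, Set.image_singleton]
  rw [h3]

/-- If all places of `F'` have degree one, residue degrees over `O_v` are one. -/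
theorem inertiaDeg_intCl_eq_one (hdeg' : ∀ w : Place K F', w.deg = 1)
    (q : HeightOneSpectrum (intCl F' v)) :
    q.asIdeal.inertiaDeg v.toValuationSubring = 1 := by
  refine Fermat.Agent.S24.FF.inertiaDeg_eq_one_of_forall_exists (pv v) q.asIdeal fun s => ?_
  obtain ⟨c, hc⟩ := Fermat.Agent.Lib.RR.exists_const_sub (placeOf v q) (hdeg' _)
    (ord_placeOf_coe_nonneg v q s)
  refine ⟨algebraMap K v.toValuationSubring c, ?_⟩
  rw [mem_asIdeal_iff_ord]
  have hcoe : ((s - algebraMap v.toValuationSubring (intCl F' v)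
      (algebraMap K v.toValuationSubring c) : intCl F' v) : F') = (s : F') - algebraMap K F' c := by
    rw [IsScalarTower.algebraMap_apply K F F']
    rfl
  rcases hc with hc | hc
  · left
    apply Subtype.ext
    rw [hcoe]
    exact hc
  · right
    rw [hcoe]
    exact hc

omit [Algebra.IsSeparable F F'] [FiniteDimensional F F'] in
/-- If all places of `F'` have degree one, the Prelude's residue degrees are one. -/
theorem inertiaDeg_eq_one [Algebra.IsIntegral F F'] (hdeg' : ∀ w : Place K F', w.deg = 1)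
    (w : Place K F') : w.inertiaDeg F = 1 := by
  have h := w.deg_restrict_mul_inertiaDeg (F := F)
  rw [hdeg' w] at h
  exact (mul_eq_one.mp h).2

omit [Algebra.IsSeparable F F'] [FiniteDimensional F F'] in
theorem deg_restrict_eq_one [Algebra.IsIntegral F F'] (hdeg' : ∀ w : Place K F', w.deg = 1)
    (w : Place K F') : (w.restrict F).deg = 1 := by
  have h := w.deg_restrict_mul_inertiaDeg (F := F)
  rw [hdeg' w] at h
  exact (mul_eq_one.mp h).1

/-- **Local fundamental identity** `∑_{w | v} e(w|v) = [F' : F]`. -/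
theorem sum_ramificationIndex (hdeg' : ∀ w : Place K F', w.deg = 1)
    (s : Finset (Place K F')) (hs : ∀ w, w ∈ s ↔ w.restrict F = v) :
    ∑ w ∈ s, (w.ramificationIndex F : ℤ) = (Module.finrank F F' : ℤ) := by
  let _ : Fintype ((pv v).primesOver (intCl F' v)) := Fintype.ofFinite _
  have h := Ideal.sum_ramification_inertia_eq_finrank (pv v) (intCl F' v)
  rw [IsFractionRing.finrank_eq v.toValuationSubring F (intCl F' v) F', ← h]
  push_cast
  symm
  refine Finset.sum_bij (fun q _ => placeOf v (primeOfOver v q)) ?_ ?_ ?_ ?_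
  · intro q _
    exact (hs _).mpr (restrict_placeOf v _)
  · intro q _ q' _ h
    exact primeOfOver_injective v (placeOf_injective v h)
  · intro w hw
    obtain ⟨q, hq⟩ := exists_placeOf_eq v w ((hs w).mp hw)
    obtain ⟨q', rfl⟩ := primeOfOver_surjective v q
    exact ⟨q', Finset.mem_univ _, hq⟩
  · intro q _
    have h1 := inertiaDeg_intCl_eq_one v hdeg' (primeOfOver v q)
    rw [primeOfOver_asIdeal] at h1
    rw [ramificationIndex_placeOf, primeOfOver_asIdeal, h1]
    simp

/-! ### Norm formula -/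

open UniqueFactorizationMonoid

theorem ord_coe_eq_multiplicity (a : v.toValuationSubring) (ha : a ≠ 0) :
    v.ord (a : F) = (multiplicity (pv v) (Ideal.span {a}) : ℤ) := by
  rw [Place.ord, v.adicValuation_coe, v.heightOneSpectrum.intValuation_eq_exp_neg_multiplicity ha,
    WithZero.log_exp, neg_neg]
  rfl

theorem ord_placeOf_coe_eq_multiplicity (q : HeightOneSpectrum (intCl F' v)) (x : intCl F' v)
    (hx : x ≠ 0) :
    (placeOf v q).ord (x : F') = (multiplicity q.asIdeal (Ideal.span {x}) : ℤ) := by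
  rw [ord_placeOf]
  have h2 : q.valuation F' (x : F') = q.intValuation x := q.valuation_of_algebraMap x
  rw [h2, q.intValuation_eq_exp_neg_multiplicity hx, WithZero.log_exp, neg_neg]

theorem multiplicity_eq_count (q : HeightOneSpectrum (intCl F' v)) (I : Ideal (intCl F' v))
    (hI : I ≠ ⊥) :
    multiplicity q.asIdeal I = (normalizedFactors I).count q.asIdeal := by
  have hq : Prime q.asIdeal := Ideal.prime_of_isPrime q.ne_bot q.isPrime
  rw [multiplicity_eq_of_emultiplicity_eq_some
    (emultiplicity_eq_count_normalizedFactors hq.irreducible hI), normalize_eq]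

theorem sum_count_eq_card [Fintype (HeightOneSpectrum (intCl F' v))] (I : Ideal (intCl F' v))
    (hI : I ≠ ⊥) :
    ∑ q : HeightOneSpectrum (intCl F' v), (normalizedFactors I).count q.asIdeal
      = Multiset.card (normalizedFactors I) := by
  classical
  rw [← Multiset.toFinset_sum_count_eq]
  have hinj : Function.Injective
      (fun q : HeightOneSpectrum (intCl F' v) => q.asIdeal) := fun q q' h =>
    HeightOneSpectrum.ext h
  rw [← Finset.sum_image (s := Finset.univ)
    (f := fun P : Ideal (intCl F' v) => (normalizedFactors I).count P)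
    (g := fun q : HeightOneSpectrum (intCl F' v) => q.asIdeal) (fun q _ q' _ h => hinj h)]
  symm
  refine Finset.sum_subset ?_ ?_
  · intro P hP
    rw [Multiset.mem_toFinset, Ideal.mem_normalizedFactors_iff hI] at hP
    have hPne : P ≠ ⊥ := fun h => hI (le_bot_iff.mp (h ▸ hP.2))
    exact Finset.mem_image.mpr ⟨⟨P, hP.1, hPne⟩, Finset.mem_univ _, rfl⟩
  · intro P _ hP
    rw [Multiset.mem_toFinset] at hP
    exact Multiset.count_eq_zero_of_notMem hP

/-- Replacement (helper160) for Mathlib's `Ideal.relNorm_eq_pow_of_isMaximal`, which needs a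
perfect fraction field: when all residue degrees are one, `N(q) = p` follows by counting
(`N(q) = p ^ s_q` with `s_q ≥ 1`, `∑ e_q s_q = n = ∑ e_q`). -/
theorem relNorm_asIdeal_eq (hdeg' : ∀ w : Place K F', w.deg = 1)
    (q₀ : HeightOneSpectrum (intCl F' v)) :
    Ideal.relNorm v.toValuationSubring q₀.asIdeal = pv v := by
  classical
  let _ : Fintype ((pv v).primesOver (intCl F' v)) := Fintype.ofFinite _
  have hptop : pv v ≠ ⊤ := (IsLocalRing.maximalIdeal.isMaximal _).ne_top
  have hs : ∀ Q : (pv v).primesOver (intCl F' v), ∃ s : ℕ, 1 ≤ s ∧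
      Ideal.relNorm v.toValuationSubring Q.1 = pv v ^ s := by
    intro Q
    have : Q.1.IsPrime := Q.2.1
    have : Q.1.LiesOver (pv v) := Q.2.2
    obtain ⟨s, hs⟩ := Ideal.exists_relNorm_eq_pow_of_isPrime Q.1 (pv v)
    refine ⟨s, ?_, hs⟩
    by_contra h
    have h0 : s = 0 := by omega
    rw [h0, pow_zero, Ideal.one_eq_top] at hs
    have hle := Ideal.relNorm_le_comap v.toValuationSubring Q.1
    rw [hs, top_le_iff] at hle
    have hover : Q.1.comap (algebraMap v.toValuationSubring (intCl F' v)) = pv v :=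
      (Ideal.LiesOver.over (P := Q.1) (p := pv v)).symm
    exact hptop (hover ▸ hle)
  choose s hs1 hs2 using hs
  have hmap := Ideal.map_algebraMap_eq_finsetProd_pow (R := intCl F' v)
    (p := pv v) (pv_ne_bot v)
  have hN := Ideal.relNorm_algebraMap (intCl F' v) (pv v)
  rw [hmap, map_prod] at hN
  have hN' : ∏ Q : (pv v).primesOver (intCl F' v),
      (pv v) ^ (s Q * Q.1.ramificationIdx v.toValuationSubring)
      = pv v ^ Module.finrank v.toValuationSubring (intCl F' v) := by
    rw [← hN, ← Finset.prod_set_coe]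
    refine Finset.prod_congr (by ext; simp) fun Q _ => ?_
    rw [map_pow, hs2 Q, ← pow_mul]
  rw [Finset.prod_pow_eq_pow_sum] at hN'
  have hinj : Function.Injective (fun n : ℕ => pv v ^ n) := by
    have hprime : Prime (pv v) :=
      Ideal.prime_of_isPrime (pv_ne_bot v) (IsLocalRing.maximalIdeal.isMaximal _).isPrime
    exact pow_injective_of_not_isUnit hprime.not_isUnit (pv_ne_bot v)
  have hsum1 := hinj hN'
  have hsum2 := Ideal.sum_ramification_inertia_eq_finrank (pv v) (intCl F' v)
  have hf : ∀ Q : (pv v).primesOver (intCl F' v), Q.1.inertiaDeg v.toValuationSubring = 1 := by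
    intro Q
    have := inertiaDeg_intCl_eq_one v hdeg' (primeOfOver v Q)
    rwa [primeOfOver_asIdeal] at this
  simp only [hf, mul_one] at hsum2
  have he : ∀ Q : (pv v).primesOver (intCl F' v),
      Q.1.ramificationIdx v.toValuationSubring ≠ 0 := by
    intro Q
    have : Q.1.IsPrime := Q.2.1
    exact (Ideal.ramificationIdx_pos (R := v.toValuationSubring) Q.1).ne'
  -- all `s Q = 1`
  have hall : ∀ Q : (pv v).primesOver (intCl F' v), s Q = 1 := by
    by_contra hne
    push Not at hne
    obtain ⟨Q₁, hQ₁⟩ := hne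
    have hlt : ∑ Q : (pv v).primesOver (intCl F' v), Q.1.ramificationIdx v.toValuationSubring
        < ∑ Q : (pv v).primesOver (intCl F' v),
          s Q * Q.1.ramificationIdx v.toValuationSubring := by
      refine Finset.sum_lt_sum (fun Q _ => ?_) ⟨Q₁, Finset.mem_univ _, ?_⟩
      · exact Nat.le_mul_of_pos_left _ (hs1 Q)
      · have h2 : 2 ≤ s Q₁ := by have := hs1 Q₁; omega
        have := Nat.pos_of_ne_zero (he Q₁)
        nlinarith
    omega
  obtain ⟨Q, rfl⟩ := primeOfOver_surjective v q₀
  rw [primeOfOver_asIdeal, hs2 Q, hall Q, pow_one]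

theorem relNorm_eq_pow (hdeg' : ∀ w : Place K F', w.deg = 1) (I : Ideal (intCl F' v))
    (hI : I ≠ ⊥) :
    Ideal.relNorm v.toValuationSubring I = (pv v) ^ Multiset.card (normalizedFactors I) := by
  conv_lhs => rw [← Ideal.prod_normalizedFactors_eq_self hI]
  rw [map_multiset_prod]
  have hconst : (normalizedFactors I).map (Ideal.relNorm v.toValuationSubring)
      = (normalizedFactors I).map (fun _ => pv v) := by
    refine Multiset.map_congr rfl fun P hP => ?_
    rw [Ideal.mem_normalizedFactors_iff hI] at hP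
    have hPne : P ≠ ⊥ := fun h => hI (le_bot_iff.mp (h ▸ hP.2))
    exact relNorm_asIdeal_eq v hdeg' ⟨P, hP.1, hPne⟩
  rw [hconst, Multiset.map_const', Multiset.prod_replicate]

theorem sum_ord_coe_eq_ord_intNorm [Fintype (HeightOneSpectrum (intCl F' v))]
    (hdeg' : ∀ w : Place K F', w.deg = 1) (x : intCl F' v) (hx : x ≠ 0) :
    ∑ q : HeightOneSpectrum (intCl F' v), (placeOf v q).ord (x : F')
      = v.ord ((Algebra.intNorm v.toValuationSubring (intCl F' v) x : v.toValuationSubring) : F) := by
  have hI : Ideal.span {x} ≠ (⊥ : Ideal (intCl F' v)) := by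
    rw [Ne, Ideal.span_singleton_eq_bot]
    exact hx
  have hN : Algebra.intNorm v.toValuationSubring (intCl F' v) x ≠ 0 :=
    Algebra.intNorm_ne_zero.mpr hx
  rw [ord_coe_eq_multiplicity v _ hN, ← Ideal.relNorm_singleton, relNorm_eq_pow v hdeg' _ hI,
    multiplicity_pow_self_of_prime
      (Ideal.prime_of_isPrime (pv_ne_bot v) (IsLocalRing.maximalIdeal.isMaximal _).isPrime),
    ← sum_count_eq_card v _ hI]
  push_cast
  refine Finset.sum_congr rfl fun q _ => ?_
  rw [ord_placeOf_coe_eq_multiplicity v q x hx, multiplicity_eq_count v q _ hI]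

omit [FiniteDimensional F F'] [Algebra.IsSeparable F F'] [Algebra K F'] [IsScalarTower K F F'] [Algebra F F'] in
theorem ord_div' (u : Place K F) {f g : F} (hf : f ≠ 0) (hg : g ≠ 0) :
    u.ord (f / g) = u.ord f - u.ord g := by
  rw [div_eq_mul_inv, u.ord_mul hf (inv_ne_zero hg), u.ord_inv]
  ring

theorem sum_ord_eq_ord_norm_of_mem (hdeg' : ∀ w : Place K F', w.deg = 1)
    (s : Finset (Place K F')) (hs : ∀ w, w ∈ s ↔ w.restrict F = v)
    (x : intCl F' v) (hx : x ≠ 0) :
    ∑ w ∈ s, w.ord (x : F') = v.ord (Algebra.norm F (x : F')) := by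
  let _ : Fintype (HeightOneSpectrum (intCl F' v)) := Fintype.ofFinite _
  have h1 := sum_ord_coe_eq_ord_intNorm v hdeg' x hx
  have h2 : ((Algebra.intNorm v.toValuationSubring (intCl F' v) x : v.toValuationSubring) : F)
      = Algebra.norm F (x : F') :=
    Algebra.algebraMap_intNorm (A := v.toValuationSubring) (K := F) (L := F')
      (B := intCl F' v) x
  rw [← h2, ← h1]
  symm
  refine Finset.sum_bij (fun q _ => placeOf v q) ?_ ?_ ?_ ?_
  · intro q _
    exact (hs _).mpr (restrict_placeOf v _)
  · intro q _ q' _ h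
    exact placeOf_injective v h
  · intro w hw
    obtain ⟨q, hq⟩ := exists_placeOf_eq v w ((hs w).mp hw)
    exact ⟨q, Finset.mem_univ _, hq⟩
  · intro q _
    rfl

/-- **Local norm formula** `∑_{w | v} ord_w(g) = ord_v(N_{F'/F} g)`. -/
theorem sum_ord_eq_ord_norm (hdeg' : ∀ w : Place K F', w.deg = 1)
    (s : Finset (Place K F')) (hs : ∀ w, w ∈ s ↔ w.restrict F = v)
    (g : F') (hg : g ≠ 0) :
    ∑ w ∈ s, w.ord g = v.ord (Algebra.norm F g) := by
  obtain ⟨a, b, hb, rfl⟩ := IsFractionRing.div_surjective (A := intCl F' v) g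
  have hb0 : b ≠ 0 := nonZeroDivisors.ne_zero hb
  have ha0 : a ≠ 0 := by
    rintro rfl
    simp at hg
  have ha' : (a : F') ≠ 0 := fun h => ha0 (Subtype.ext h)
  have hb' : (b : F') ≠ 0 := fun h => hb0 (Subtype.ext h)
  have hcoea : algebraMap (intCl F' v) F' a = (a : F') := rfl
  have hcoeb : algebraMap (intCl F' v) F' b = (b : F') := rfl
  have hnorm : Algebra.norm F ((a : F') / (b : F'))
      = Algebra.norm F (a : F') / Algebra.norm F (b : F') := by
    rw [eq_div_iff (Algebra.norm_ne_zero_iff.mpr hb'), ← map_mul, div_mul_cancel₀ _ hb']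
  rw [hcoea, hcoeb, hnorm,
    ord_div' v (Algebra.norm_ne_zero_iff.mpr ha') (Algebra.norm_ne_zero_iff.mpr hb'),
    ← sum_ord_eq_ord_norm_of_mem v hdeg' s hs a ha0,
    ← sum_ord_eq_ord_norm_of_mem v hdeg' s hs b hb0, ← Finset.sum_sub_distrib]
  refine Finset.sum_congr rfl fun w _ => ?_
  exact ord_div' w ha' hb'

end Local

end Fermat.Agent.S37.H160.SepFF

end
-- ===== PACK-END S37/H160/SepFF.lean

-- ===== PACK-BEGIN S37/Red/H160/RatFibre.lean
section




/-!
# S37-RED, piece A (helper160): fibre sums over a rational point of the `t`-line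

`K` algebraically closed (any characteristic), `F / K(t)` finite separable.  For `f ∈ Fˣ` with
`N_{F/K(t)}(f) = p(t)/q(t)` and `a ∈ K`:

  `∑_{P : t(P) = a} ord_P f = mult_a(p) - mult_a(q)`            (`sum_ord_fibre`)

(sum over any finite set of places over `t = a` containing the zeros and poles of `f` there).
Uses the separable local norm formula `SepFF.sum_ord_eq_ord_norm` and the description of the
places of `K(t)`.
-/

set_option autoImplicit false
set_option linter.unusedSectionVars false

noncomputable section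

namespace Fermat.Agent.S37.Red.H160

open AlgebraicCurve Polynomial IntermediateField
open Fermat.Agent.S37.H160

variable {K F : Type*} [Field K] [Field F] [Algebra K F]

section RatPlace

variable {t : F}

/-- Every element of `K(t)` is a quotient of polynomials in `t`. -/
theorem exists_aeval_div (ht : Transcendental K t) (g : K⟮t⟯) :
    ∃ r s : K[X], s ≠ 0 ∧ g * aeval (AdjoinSimple.gen K t) s = aeval (AdjoinSimple.gen K t) r := by
  obtain ⟨r, s, hrs⟩ := (mem_adjoin_simple_iff K (g : F)).mp g.2
  have hcoe : ∀ p : K[X], ((aeval (AdjoinSimple.gen K t) p : K⟮t⟯) : F) = aeval t p := fun p => by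
    rw [← AdjoinSimple.algebraMap_gen K t, aeval_algebraMap_apply]
    rfl
  by_cases hs : s = 0
  · refine ⟨0, 1, one_ne_zero, ?_⟩
    apply Subtype.ext
    rw [hs, map_zero, div_zero] at hrs
    simp [hrs]
  · refine ⟨r, s, hs, ?_⟩
    have hs' : aeval t s ≠ 0 := fun h => hs ((transcendental_iff.mp ht) s h)
    apply Subtype.ext
    rw [MulMemClass.coe_mul, hcoe, hcoe, hrs, div_mul_cancel₀ _ hs']

theorem aeval_gen_ne_zero (ht : Transcendental K t) {p : K[X]} (hp : p ≠ 0) :
    aeval (AdjoinSimple.gen K t) p ≠ 0 := by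
  intro h
  have h1 : ((aeval (AdjoinSimple.gen K t) p : K⟮t⟯) : F) = aeval t p := by
    rw [← AdjoinSimple.algebraMap_gen K t, aeval_algebraMap_apply]
    rfl
  rw [h] at h1
  exact hp ((transcendental_iff.mp ht) p h1.symm)

variable (v : Place K K⟮t⟯) (a : K)

/-- At a place of `K(t)` over `t = a`, `t - a` is a uniformizer. -/
theorem ord_gen_sub_eq_one (ht : Transcendental K t)
    (hv : 0 < v.ord (AdjoinSimple.gen K t - algebraMap K K⟮t⟯ a)) :
    v.ord (AdjoinSimple.gen K t - algebraMap K K⟮t⟯ a) = 1 := by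
  obtain ⟨π, hπ, hπ1⟩ := Fermat.Agent.S24.FF.exists_irreducible_coe v
  obtain ⟨r, s, hs, hrs⟩ := exists_aeval_div ht (π : K⟮t⟯)
  have hπ0 : (π : K⟮t⟯) ≠ 0 := by
    intro h
    rw [h, v.ord_zero] at hπ1
    exact zero_ne_one hπ1
  have hs0 := aeval_gen_ne_zero ht hs
  have hr : r ≠ 0 := by
    rintro rfl
    rw [map_zero] at hrs
    rcases mul_eq_zero.mp hrs with h | h
    · exact hπ0 h
    · exact hs0 h
  have h1 := (Fermat.Agent.S24.H324.ord_aeval_at v _ a hv r hr).2
  have h2 := (Fermat.Agent.S24.H324.ord_aeval_at v _ a hv s hs).2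
  have h3 := congrArg v.ord hrs
  rw [v.ord_mul hπ0 hs0, hπ1, h1, h2] at h3
  set e := v.ord (AdjoinSimple.gen K t - algebraMap K K⟮t⟯ a) with he
  have h4 : ((r.rootMultiplicity a : ℤ) - s.rootMultiplicity a) * e = 1 := by linarith
  have h5 : e ∣ 1 := Dvd.intro_left _ h4
  have h6 := Int.eq_one_or_neg_one_of_mul_eq_one' h4
  rcases Int.isUnit_iff.mp (isUnit_of_dvd_one h5) with h | h
  · exact h
  · omega

/-- Order of a rational function at a place of `K(t)` over `t = a`. -/
theorem ord_of_mul_aeval (ht : Transcendental K t)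
    (hv : 0 < v.ord (AdjoinSimple.gen K t - algebraMap K K⟮t⟯ a))
    {g : K⟮t⟯} (hg : g ≠ 0) {r s : K[X]} (hs : s ≠ 0)
    (hrs : g * aeval (AdjoinSimple.gen K t) s = aeval (AdjoinSimple.gen K t) r) :
    v.ord g = (r.rootMultiplicity a : ℤ) - s.rootMultiplicity a := by
  have hs0 := aeval_gen_ne_zero ht hs
  have hr : r ≠ 0 := by
    rintro rfl
    rw [map_zero] at hrs
    rcases mul_eq_zero.mp hrs with h | h
    · exact hg h
    · exact hs0 h
  have h1 := (Fermat.Agent.S24.H324.ord_aeval_at v _ a hv r hr).2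
  have h2 := (Fermat.Agent.S24.H324.ord_aeval_at v _ a hv s hs).2
  have h3 := congrArg v.ord hrs
  rw [v.ord_mul hg hs0, h1, h2, ord_gen_sub_eq_one v a ht hv] at h3
  linarith

/-- A place of `K(t)` is determined by the value of `t`. -/
theorem ratPlace_unique (ht : Transcendental K t) {v v' : Place K K⟮t⟯} {a : K}
    (hv : 0 < v.ord (AdjoinSimple.gen K t - algebraMap K K⟮t⟯ a))
    (hv' : 0 < v'.ord (AdjoinSimple.gen K t - algebraMap K K⟮t⟯ a)) : v = v' := by
  apply Place.ext
  ext g
  rw [Fermat.Agent.S24.FF.mem_iff_ord_nonneg, Fermat.Agent.S24.FF.mem_iff_ord_nonneg]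
  rcases eq_or_ne g 0 with rfl | hg
  · simp
  obtain ⟨r, s, hs, hrs⟩ := exists_aeval_div ht g
  rw [ord_of_mul_aeval v a ht hv hg hs hrs, ord_of_mul_aeval v' a ht hv' hg hs hrs]

end RatPlace

section Fibre

variable [IsAlgClosed K] {t : F} [FiniteDimensional K⟮t⟯ F] [Algebra.IsSeparable K⟮t⟯ F]

theorem coe_gen_sub (a : K) :
    algebraMap K⟮t⟯ F (AdjoinSimple.gen K t - algebraMap K K⟮t⟯ a) = t - algebraMap K F a := by
  rw [map_sub, AdjoinSimple.algebraMap_gen, ← IsScalarTower.algebraMap_apply]

/-- A place of `F` lies over `t = a` iff its restriction to `K(t)` does. -/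
theorem ord_restrict_gen_sub_pos_iff (w : Place K F) (a : K) :
    0 < (w.restrict K⟮t⟯).ord (AdjoinSimple.gen K t - algebraMap K K⟮t⟯ a) ↔
      0 < w.ord (t - algebraMap K F a) := by
  have h := w.ord_restrict (F := K⟮t⟯) (AdjoinSimple.gen K t - algebraMap K K⟮t⟯ a)
  rw [coe_gen_sub] at h
  have he : 0 < (w.ramificationIndex K⟮t⟯ : ℤ) := by
    exact_mod_cast w.ramificationIndex_pos (F := K⟮t⟯)
  rw [h]
  constructor
  · intro h1
    exact mul_pos he h1
  · intro h1
    exact (mul_pos_iff_of_pos_left he).mp h1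

/-- **Fibre sum over a rational point.** -/
theorem sum_ord_fibre (ht : Transcendental K t) (a : K) (f : F) (hf : f ≠ 0)
    (p q : K[X]) (hq : q ≠ 0)
    (hN : algebraMap K⟮t⟯ F (Algebra.norm K⟮t⟯ f) * aeval t q = aeval t p)
    (S : Finset (Place K F)) (hS1 : ∀ P ∈ S, 0 < P.ord (t - algebraMap K F a))
    (hS2 : ∀ P : Place K F, P.ord f ≠ 0 → 0 < P.ord (t - algebraMap K F a) → P ∈ S) :
    ∑ P ∈ S, P.ord f = (p.rootMultiplicity a : ℤ) - q.rootMultiplicity a := by
  classical
  have hta : Transcendental K (t - algebraMap K F a) := by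
    intro halg
    apply ht
    have := halg.add (isAlgebraic_algebraMap (R := K) (A := F) a)
    simpa using this
  obtain ⟨P₀, hP₀⟩ := Fermat.Agent.Lib.RR.H443.exists_place_ord_pos' ht hta
  set v := P₀.restrict K⟮t⟯ with hvdef
  have hv : 0 < v.ord (AdjoinSimple.gen K t - algebraMap K K⟮t⟯ a) :=
    (ord_restrict_gen_sub_pos_iff P₀ a).mpr hP₀
  have hfib : ∀ w : Place K F, w.restrict K⟮t⟯ = v ↔ 0 < w.ord (t - algebraMap K F a) := by
    intro w
    constructor
    · intro h
      rw [← ord_restrict_gen_sub_pos_iff, h]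
      exact hv
    · intro h
      exact ratPlace_unique ht ((ord_restrict_gen_sub_pos_iff w a).mpr h) hv
  have hfin := SepFF.finite_fibre (F' := F) v
  set s := hfin.toFinset with hsdef
  have hs : ∀ w, w ∈ s ↔ w.restrict K⟮t⟯ = v := fun w => by
    rw [hsdef, Set.Finite.mem_toFinset]
    rfl
  have hdeg : ∀ w : Place K F, w.deg = 1 := fun w => Fermat.Agent.S24.FF.deg_eq_one w ht
  have hsum := SepFF.sum_ord_eq_ord_norm v hdeg s hs f hf
  have hSs : S ⊆ s := fun P hP => (hs P).mpr ((hfib P).mpr (hS1 P hP))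
  have h1 : ∑ P ∈ S, P.ord f = ∑ P ∈ s, P.ord f := by
    refine Finset.sum_subset hSs fun P hPs hPS => ?_
    by_contra hne
    exact hPS (hS2 P hne ((hfib P).mp ((hs P).mp hPs)))
  rw [h1, hsum]
  have hNne : Algebra.norm K⟮t⟯ f ≠ 0 := Algebra.norm_ne_zero_iff.mpr hf
  refine ord_of_mul_aeval v a ht hv hNne hq ?_
  apply (algebraMap K⟮t⟯ F).injective
  rw [map_mul, ← aeval_algebraMap_apply, ← aeval_algebraMap_apply, AdjoinSimple.algebraMap_gen]
  exact hN

end Fibre

end Fermat.Agent.S37.Red.H160

end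
end
-- ===== PACK-END S37/Red/H160/RatFibre.lean

-- ===== PACK-BEGIN S37/Red/H160/FibreSum.lean
section




/-!
# S37-RED, piece A (helper160): `FibreSumStatement` from `NormRedStatement`

`fibreSum G (hA1 : NormRedStatement G) : FibreSumStatement G`   (exact shapes of `Red/Spec.lean`).

Proof: `g := N_{F/K(t)}(y) = w · r₀(t)/s₀(t)` with `r₀, s₀ ∈ A[X]` primitive and `w ∈ Aˣ`
(`normRep`, from RED-A1); the norm formula on both sides (`sum_ord_fibre`, separable version) and
Gauss' lemma for roots (`rootMultiplicity_map_residue`).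
-/

set_option autoImplicit false
set_option linter.unusedSectionVars false

noncomputable section

namespace Fermat.Agent.S37.Red.H160

open AlgebraicCurve Polynomial IntermediateField
open Fermat.Agent.S37.Red Fermat.Agent.S37.H160

universe u

variable {K k F Fk : Type u} [Field K] [Field k] [Field F] [Field Fk]
  [Algebra K F] [Algebra k Fk] [IsAlgClosed K] [CharZero K] [IsAlgClosed k]
  {A : ValuationSubring K} {π : A →+* k} (G : Datum A π F Fk)

/-- A polynomial over `A` with a coefficient `1`, evaluated at `t ∈ O` with transcendental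
reduction, is a unit of `O`. -/
theorem ρ_aeval_ne_zero {t : F} (ht : t ∈ G.O) (htb : Transcendental k (G.ρ ⟨t, ht⟩))
    {p : A[X]} {n : ℕ} (hp : p.coeff n = 1) :
    G.ρ ⟨aeval t (p.map A.subtype), aeval_mem G ht p⟩ ≠ 0 := by
  rw [ρ_aeval G ht]
  intro h
  exact map_ne_zero_of_coeff_eq_one π hp ((transcendental_iff.mp htb) _ h)

/-- **Normal form of the norm** of a unit `y` of `O`:
`N(y) · s₀(t) = w · r₀(t)` and `N(ȳ) · s̄₀(t̄) = w̄ · r̄₀(t̄)` with `r₀, s₀ ∈ A[X]` primitive,
`w ∈ Aˣ`. -/
theorem normRep (hA1 : NormRedStatement G) {t : F} (ht : G.AuxCoord t) {y : F} (hy : y ∈ G.O)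
    (hρy : G.ρ ⟨y, hy⟩ ≠ 0) :
    ∃ (r₀ s₀ : A[X]) (w : A), (∃ n, r₀.coeff n = 1) ∧ (∃ n, s₀.coeff n = 1) ∧ π w ≠ 0 ∧
      algebraMap K⟮t⟯ F (Algebra.norm K⟮t⟯ y) * aeval t (s₀.map A.subtype)
        = aeval t (C (w : K) * r₀.map A.subtype) ∧
      algebraMap k⟮G.red t⟯ Fk (Algebra.norm k⟮G.red t⟯ (G.ρ ⟨y, hy⟩)) * aeval (G.red t) (s₀.map π)
        = aeval (G.red t) (C (π w) * r₀.map π) := by
  have htO := ht.mem
  have htb : Transcendental k (G.ρ ⟨t, htO⟩) := by
    have := ht.transc
    rwa [red_of_mem G htO] at this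
  have htK : Transcendental K t := transcendental_of_red G htO ht.transc
  haveI := ht.finite
  haveI := ht.finite_k
  obtain ⟨hgO, hgred⟩ := hA1 t ht y hy
  have hy0 : y ≠ 0 := by
    rintro rfl
    apply hρy
    have : (⟨0, hy⟩ : G.O) = 0 := rfl
    rw [this, map_zero]
  set g : K⟮t⟯ := Algebra.norm K⟮t⟯ y with hg
  have hg0 : g ≠ 0 := Algebra.norm_ne_zero_iff.mpr hy0
  -- reduction of the norm
  have hredy : G.red y = G.ρ ⟨y, hy⟩ := red_of_mem G hy
  have hρg : G.ρ ⟨(g : F), hgO⟩
      = algebraMap k⟮G.red t⟯ Fk (Algebra.norm k⟮G.red t⟯ (G.ρ ⟨y, hy⟩)) := by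
    rw [← red_of_mem G hgO, hgred, hredy]
    rfl
  have hρg0 : G.ρ ⟨(g : F), hgO⟩ ≠ 0 := by
    rw [hρg]
    intro h
    have h1 : Algebra.norm k⟮G.red t⟯ (G.ρ ⟨y, hy⟩) = 0 :=
      (algebraMap k⟮G.red t⟯ Fk).injective (by rw [h, map_zero])
    exact hρy (Algebra.norm_eq_zero_iff.mp h1)
  -- rational representation
  obtain ⟨r, s, hs, hrs⟩ := exists_aeval_div htK g
  have hcoe : ∀ p : K[X], ((aeval (AdjoinSimple.gen K t) p : K⟮t⟯) : F) = aeval t p := fun p => by
    rw [← AdjoinSimple.algebraMap_gen K t, aeval_algebraMap_apply]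
    rfl
  have hrsF : (g : F) * aeval t s = aeval t r := by
    have := congrArg (fun z : K⟮t⟯ => (z : F)) hrs
    simpa only [MulMemClass.coe_mul, hcoe] using this
  have hr : r ≠ 0 := by
    rintro rfl
    rw [map_zero] at hrs
    rcases mul_eq_zero.mp hrs with h | h
    · exact hg0 h
    · exact aeval_gen_ne_zero htK hs h
  obtain ⟨u₁, r₀, hu₁, hr₀, n₁, hn₁⟩ := exists_primitive_scale_one A r hr
  obtain ⟨u₂, s₀, hu₂, hs₀, n₂, hn₂⟩ := exists_primitive_scale_one A s hs
  -- values in `O`
  have hrO := aeval_mem G htO r₀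
  have hsO := aeval_mem G htO s₀
  have hρr := ρ_aeval_ne_zero G htO htb hn₁
  have hρs := ρ_aeval_ne_zero G htO htb hn₂
  have hr0 : aeval t (r₀.map A.subtype) ≠ 0 := by
    intro h
    apply hρr
    have : (⟨aeval t (r₀.map A.subtype), hrO⟩ : G.O) = 0 := Subtype.ext h
    rw [this, map_zero]
  -- the constant
  set w : K := u₁ / u₂ with hw
  have hw0 : w ≠ 0 := div_ne_zero hu₁ hu₂
  have hmain : (g : F) * aeval t (s₀.map A.subtype) = algebraMap K F w * aeval t (r₀.map A.subtype) := by
    have h1 : (g : F) * (algebraMap K F u₂ * aeval t (s₀.map A.subtype))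
        = algebraMap K F u₁ * aeval t (r₀.map A.subtype) := by
      have := hrsF
      rw [hr₀, hs₀] at this
      simpa only [map_mul, aeval_C] using this
    have hu₂' : algebraMap K F u₂ ≠ 0 := by simpa using hu₂
    rw [hw, map_div₀]
    field_simp
    linear_combination h1
  have hwO : algebraMap K F w ∈ G.O := by
    have hinv := inv_mem G hrO hρr
    have h1 : algebraMap K F w = (g : F) * aeval t (s₀.map A.subtype)
        * (aeval t (r₀.map A.subtype))⁻¹ := by
      rw [hmain]
      field_simp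
    rw [h1]
    exact mul_mem (mul_mem hgO hsO) hinv
  have hwA : w ∈ A := mem_of_algebraMap_mem G hwO
  -- the identity in `O` and its reduction
  have hO : (⟨(g : F), hgO⟩ : G.O) * ⟨aeval t (s₀.map A.subtype), hsO⟩
      = ⟨algebraMap K F ((⟨w, hwA⟩ : A) : K), G.const_mem ⟨w, hwA⟩⟩
        * ⟨aeval t (r₀.map A.subtype), hrO⟩ := Subtype.ext hmain
  have hρ := congrArg G.ρ hO
  rw [map_mul, map_mul, G.ρ_const, ρ_aeval G htO, ρ_aeval G htO, hρg] at hρ
  have hπw : π ⟨w, hwA⟩ ≠ 0 := by
    intro h
    rw [h, map_zero, zero_mul] at hρ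
    rcases mul_eq_zero.mp hρ with h1 | h1
    · rw [← hρg] at h1
      exact hρg0 h1
    · have := ρ_aeval_ne_zero G htO htb hn₂
      rw [ρ_aeval G htO] at this
      exact this h1
  refine ⟨r₀, s₀, ⟨w, hwA⟩, ⟨n₁, hn₁⟩, ⟨n₂, hn₂⟩, hπw, ?_, ?_⟩
  · rw [map_mul, aeval_C]
    exact hmain
  · rw [map_mul, aeval_C]
    rw [← red_of_mem G htO] at hρ
    exact hρ

/-- **RED-A**: fibre sums, from RED-A1. -/
theorem fibreSum (hA1 : NormRedStatement G) : FibreSumStatement G := by
  classical
  intro t ht y hy hρy c S T hS2 hS1 hT2 hT1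
  have htO := ht.mem
  have htbT : Transcendental k (G.red t) := ht.transc
  have htK : Transcendental K t := transcendental_of_red G htO ht.transc
  haveI := ht.finite
  haveI := ht.finite_k
  haveI := ht.sep_k
  haveI : CharZero F := charZero_of_injective_algebraMap (algebraMap K F).injective
  have hπ := ker_π G
  have hy0 : y ≠ 0 := by
    rintro rfl
    apply hρy
    have : (⟨0, hy⟩ : G.O) = 0 := rfl
    rw [this, map_zero]
  obtain ⟨r₀, s₀, w, ⟨n₁, hn₁⟩, ⟨n₂, hn₂⟩, hπw, hNK, hNk⟩ := normRep G hA1 ht hy hρy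
  have hw0 : (w : K) ≠ 0 := by
    intro h
    apply hπw
    have : w = 0 := Subtype.ext h
    rw [this, map_zero]
  have hr₀π : r₀.map π ≠ 0 := map_ne_zero_of_coeff_eq_one π hn₁
  have hs₀π : s₀.map π ≠ 0 := map_ne_zero_of_coeff_eq_one π hn₂
  have hr₀K : r₀.map A.subtype ≠ 0 := map_ne_zero_of_coeff_eq_one A.subtype hn₁
  have hs₀K : s₀.map A.subtype ≠ 0 := map_ne_zero_of_coeff_eq_one A.subtype hn₂
  have hsubK : ∀ a : K, t - algebraMap K F a ≠ 0 := by
    intro a h
    apply htK
    rw [sub_eq_zero.mp h]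
    exact isAlgebraic_algebraMap _
  have hsubk : ∀ a : k, G.red t - algebraMap k Fk a ≠ 0 := by
    intro a h
    apply htbT
    rw [sub_eq_zero.mp h]
    exact isAlgebraic_algebraMap _
  -- `k`-side
  have hkside : ∑ Q ∈ T, Q.ord (G.ρ ⟨y, hy⟩)
      = ((r₀.map π).rootMultiplicity (π c) : ℤ) - (s₀.map π).rootMultiplicity (π c) := by
    have h := sum_ord_fibre htbT (π c) (G.ρ ⟨y, hy⟩) hρy (C (π w) * r₀.map π) (s₀.map π) hs₀π hNk T
      (fun Q hQ => (valAt_iff_ord_pos Q (hsubk _)).mp (hT1 Q hQ))
      (fun Q hQ hpos => hT2 Q hQ ((valAt_iff_ord_pos Q (hsubk _)).mpr hpos))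
    rw [h, rootMultiplicity_mul (mul_ne_zero (by rwa [Ne, C_eq_zero]) hr₀π), rootMultiplicity_C]
    simp
  -- `K`-side, one value at a time
  have hKside : ∀ (a : K) (Sa : Finset (Place K F)),
      (∀ P ∈ Sa, 0 < P.ord (t - algebraMap K F a)) →
      (∀ P : Place K F, P.ord y ≠ 0 → 0 < P.ord (t - algebraMap K F a) → P ∈ Sa) →
      ∑ P ∈ Sa, P.ord y = ((r₀.map A.subtype).roots.count a : ℤ)
        - (s₀.map A.subtype).roots.count a := by
    intro a Sa h1 h2
    have h := sum_ord_fibre htK a y hy0 (C (w : K) * r₀.map A.subtype) (s₀.map A.subtype) hs₀K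
      hNK Sa h1 h2
    rw [h, rootMultiplicity_mul (mul_ne_zero (by rwa [Ne, C_eq_zero]) hr₀K), rootMultiplicity_C,
      count_roots, count_roots]
    simp
  -- the value map
  let pred : K → Prop := fun a => a ∈ A ∧ redK π a = π c
  let val : Place K F → K := fun P =>
    if h : ∃ a : A, π a = π c ∧ ValAt P t (a : K) then (h.choose : K) else 0
  have hval : ∀ P : Place K F, (∃ a : A, π a = π c ∧ ValAt P t (a : K)) →
      pred (val P) ∧ ValAt P t (val P) := by
    intro P h
    have hv : val P = (h.choose : K) := dif_pos h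
    rw [hv]
    refine ⟨⟨h.choose.2, ?_⟩, h.choose_spec.2⟩
    rw [redK_coe]
    exact h.choose_spec.1
  let Z : Finset K := ((r₀.map A.subtype).roots.filter pred).toFinset ∪
    ((s₀.map A.subtype).roots.filter pred).toFinset
  let U : Finset K := S.image val ∪ Z
  have hU : ∀ a ∈ U, pred a := by
    intro a ha
    rcases Finset.mem_union.mp ha with h | h
    · obtain ⟨P, hP, rfl⟩ := Finset.mem_image.mp h
      exact (hval P (hS1 P hP)).1
    · rcases Finset.mem_union.mp h with h | h
      · exact (Multiset.mem_filter.mp (Multiset.mem_toFinset.mp h)).2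
      · exact (Multiset.mem_filter.mp (Multiset.mem_toFinset.mp h)).2
  -- Gauss' lemma as a sum over `U`
  have hcard : ∀ m : Multiset K, (m.filter pred).toFinset ⊆ U →
      ((m.filter pred).card : ℤ) = ∑ a ∈ U, (m.count a : ℤ) := by
    intro m hm
    rw [← Multiset.toFinset_sum_count_eq, Nat.cast_sum]
    rw [Finset.sum_subset hm]
    · refine Finset.sum_congr rfl fun a ha => ?_
      rw [Multiset.count_filter, if_pos (hU a ha)]
    · intro a _ ha
      rw [Multiset.mem_toFinset] at ha
      exact_mod_cast Multiset.count_eq_zero_of_notMem ha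
  have hGr := rootMultiplicity_map_residue π hπ r₀ hr₀π (π c)
  have hGs := rootMultiplicity_map_residue π hπ s₀ hs₀π (π c)
  have hZr : ((r₀.map A.subtype).roots.filter pred).toFinset ⊆ U := fun a ha =>
    Finset.mem_union_right _ (Finset.mem_union_left _ ha)
  have hZs : ((s₀.map A.subtype).roots.filter pred).toFinset ⊆ U := fun a ha =>
    Finset.mem_union_right _ (Finset.mem_union_right _ ha)
  rw [hkside, hGr, hGs, hcard _ hZr, hcard _ hZs, ← Finset.sum_sub_distrib]
  -- fibrewise decomposition of the `K`-side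
  have hmaps : ∀ P ∈ S, val P ∈ U := fun P hP =>
    Finset.mem_union_left _ (Finset.mem_image_of_mem _ hP)
  rw [← Finset.sum_fiberwise_of_maps_to hmaps]
  refine Finset.sum_congr rfl fun a ha => ?_
  symm
  have hpa := hU a ha
  refine hKside a _ ?_ ?_
  · intro P hP
    obtain ⟨hPS, hPa⟩ := Finset.mem_filter.mp hP
    have := (hval P (hS1 P hPS)).2
    rw [hPa] at this
    exact (valAt_iff_ord_pos P (hsubK _)).mp this
  · intro P hP hpos
    have hva : ValAt P t a := (valAt_iff_ord_pos P (hsubK _)).mpr hpos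
    have hex : ∃ a' : A, π a' = π c ∧ ValAt P t (a' : K) :=
      ⟨⟨a, hpa.1⟩, by rw [← redK_of_mem π hpa.1]; exact hpa.2, hva⟩
    have hPS := hS2 P hP hex
    refine Finset.mem_filter.mpr ⟨hPS, ?_⟩
    exact valAt_unique P (hval P hex).2 hva

end Fermat.Agent.S37.Red.H160

end
end
-- ===== PACK-END S37/Red/H160/FibreSum.lean

-- ===== PACK-BEGIN Lib/RR/Adeles.lean
section




/-!
# RR library, layer L4: repartitions and `H¹(D)`  (Stichtenoth 1.5.4)

Integration file (helper320).  `mem_repartitions_iff` is proved in `H653/` (helper653), the core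
of `finite_H1` / `ell_sub_finrank_H1` in `H742/` (helper742).

`𝔸 = repartitions K F`, `𝔸(D) = repartitionsOf D`, `H¹(D) = 𝔸 / (𝔸(D) + F)`.

Proof sketch.  (1) One step: `𝔸(D + P) = 𝔸(D) + K α₀` for any `α₀ ∈ 𝔸(D + P) \ 𝔸(D)`, and
`𝔸(D + P) ⊆ 𝔸(D) + F` iff `ℓ(D + P) = ℓ(D) + 1`.  Hence the surjection `H¹(D) → H¹(D + P)` has
kernel of dimension `1 - (ℓ(D + P) - ℓ(D))`.  (2) If `ℓ(D) = deg D + 1 - g` then
`𝔸 = 𝔸(D) + F`, i.e. `H¹(D) = 0`.  (3) Descend from a divisor attaining the bound.
-/

set_option autoImplicit false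

noncomputable section

open AlgebraicCurve

namespace Fermat.Agent.Lib.RR

variable {K F : Type*} [Field K] [Field F] [Algebra K F]

/-- **L4.0**: the repartitions are exactly the families with finitely many poles. -/
theorem mem_repartitions_iff [HasPrincipalDivisors K F] {α : Place K F → F} :
    α ∈ repartitions K F ↔ {v : Place K F | v.ord (α v) < 0}.Finite :=
  H653.mem_repartitions_iff

/-- **L4.1**: `H¹(D)` is finite-dimensional. -/
theorem finite_H1 [FF1 K F] (D : Divisor K F) : Module.Finite K (H1 D) := by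
  obtain ⟨D₀, h₀⟩ := exists_ell_eq (K := K) (F := F)
  exact (H742.H1_core (genusR K F : ℤ) (fun D' => riemann_inequality D') h₀ D).1

/-- **L4.2**: Riemann–Roch, first form. -/
theorem ell_sub_finrank_H1 [FF1 K F] (D : Divisor K F) :
    (ell D : ℤ) - Module.finrank K (H1 D) = Divisor.degree D + 1 - (genusR K F : ℤ) := by
  obtain ⟨D₀, h₀⟩ := exists_ell_eq (K := K) (F := F)
  exact (H742.H1_core (genusR K F : ℤ) (fun D' => riemann_inequality D') h₀ D).2

/-- The Prelude's genus `genusFF = dim H¹(0)` is the genus of Riemann's theorem. -/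
theorem genusFF_eq_genusR [FF1 K F] : genusFF K F = genusR K F := by
  have h := ell_sub_finrank_H1 (0 : Divisor K F)
  rw [ell_zero, map_zero] at h
  have : (Module.finrank K (H1 (0 : Divisor K F)) : ℤ) = genusR K F := by
    push_cast at h; omega
  unfold genusFF
  exact_mod_cast this

/-- **Riemann–Roch, first form**, with the Prelude's genus. -/
theorem riemann_roch_H1 [FF1 K F] (D : Divisor K F) :
    (ell D : ℤ) - Module.finrank K (H1 D) = Divisor.degree D + 1 - (genusFF K F : ℤ) := by
  rw [genusFF_eq_genusR]; exact ell_sub_finrank_H1 D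

/-- **Riemann's inequality** with the Prelude's genus. -/
theorem riemann_inequality_genusFF [FF1 K F] (D : Divisor K F) :
    Divisor.degree D + 1 - (genusFF K F : ℤ) ≤ ell D := by
  rw [genusFF_eq_genusR]; exact riemann_inequality D

end Fermat.Agent.Lib.RR

end
end
-- ===== PACK-END Lib/RR/Adeles.lean

-- ===== PACK-BEGIN Lib/RR/Duality.lean
section



/-!
# RR library, layer L5: Weil differentials, canonical divisor, duality  (Stichtenoth 1.5.5–1.5.16)

A Weil differential is a `K`-linear map `ω : 𝔸 → K` vanishing on `𝔸(A) + F` for some divisor `A`.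
They form a one-dimensional `F`-vector space; a nonzero `ω` has a largest such `A =: (ω)`, and
`x ↦ x ω` is an isomorphism `L((ω) - A) ≅ (𝔸 / (𝔸(A) + F))^*`.

The proof of `exists_canonical` is in `H80/{Weil,OneDim,Canonical}.lean` (helper80); the statements
are those of the frozen skeleton of helper320.
-/

set_option autoImplicit false

noncomputable section

open AlgebraicCurve

namespace Fermat.Agent.Lib.RR

variable {K F : Type*} [Field K] [Field F] [Algebra K F]

/-- **L5**: existence of a canonical divisor (duality theorem). -/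
theorem exists_canonical [FF1 K F] :
    ∃ W : Divisor K F, ∀ D : Divisor K F, Module.finrank K (H1 D) = ell (W - D) :=
  H80.exists_canonical_of (g := (genusR K F : ℤ)) finite_H1 ell_sub_finrank_H1
    exists_degree_bound

/-- **Riemann–Roch**. -/
theorem riemann_roch [FF1 K F] :
    ∃ W : Divisor K F, Divisor.degree W = 2 * (genusFF K F : ℤ) - 2 ∧ ell W = genusFF K F ∧
      ∀ D : Divisor K F,
        (ell D : ℤ) = Divisor.degree D + 1 - (genusFF K F : ℤ) + ell (W - D) := by
  obtain ⟨W, hW⟩ := exists_canonical (K := K) (F := F)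
  have hRR : ∀ D : Divisor K F,
      (ell D : ℤ) = Divisor.degree D + 1 - (genusFF K F : ℤ) + ell (W - D) := by
    intro D
    have := riemann_roch_H1 D
    rw [hW D] at this
    omega
  have h0 := hRR 0
  rw [ell_zero, map_zero, sub_zero] at h0
  have hW1 : (ell W : ℤ) = genusFF K F := by push_cast at h0; omega
  have h1 := hRR W
  rw [sub_self, ell_zero] at h1
  refine ⟨W, ?_, by exact_mod_cast hW1, hRR⟩
  push_cast at h1
  omega

/-- `ℓ(D) = deg D + 1 - g` as soon as `deg D > 2g - 2`. -/
theorem ell_eq_of_degree_gt [FF1 K F] {D : Divisor K F}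
    (h : 2 * (genusFF K F : ℤ) - 2 < Divisor.degree D) :
    (ell D : ℤ) = Divisor.degree D + 1 - (genusFF K F : ℤ) := by
  obtain ⟨W, hW, -, hRR⟩ := riemann_roch (K := K) (F := F)
  have h0 : ell (W - D) = 0 :=
    ell_eq_zero_of_degree_neg (by rw [map_sub, hW]; omega)
  have := hRR D
  rw [h0] at this
  simpa using this

end Fermat.Agent.Lib.RR

end
end
-- ===== PACK-END Lib/RR/Duality.lean

-- ===== PACK-BEGIN A3/H799/GoodRed.lean
section




/-!
# A3 / LOCAL — the FROZEN input interface `GoodRed`  (architect helper799)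

`GoodRed K F k Fk` = abstract good reduction of a function field `F / K` at a valuation ring `V` of
the (algebraically closed) constant field `K`, with special fibre `Fk / k`.  It is helper979's
`RedDatum` (origin/helper979:Fermat/Agent/S19/H979/Spec.lean) VERBATIM; only the name is changed to
the one used on the A3 board.

Instance wanted (block GOODRED-INST): `K = ℚ̄`, `F = modularFunctionFieldBar M`,
`Fk = modularFunctionFieldFullC k M`, `O` = functions with `V`-integral `q`-expansion, `red` =
reduction of `q`-expansions, `r` = the place map of `ReductionInputsModL`, `I` = image of the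
inertia group of `V` under `arithmeticGalois`; level `M = N` (`ℓ ≥ 5`), `lcm(N,2)` (`ℓ = 3`),
`lcm(N,3)` (`ℓ = 2`).

Output of block LOCAL: `LocalStatement` below (= helper979's `disc_localCoords`).
-/

set_option autoImplicit false

noncomputable section

open AlgebraicCurve

namespace Fermat.Agent.A3.H799

/-- Abstract good reduction of a function field `F/K` at a valuation ring `V` of `K`. -/
structure GoodRed (K F k Fk : Type*) [Field K] [Field F] [Algebra K F]
    [Field k] [Field Fk] [Algebra k Fk] where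
  /-- the valuation ring of the constants -/
  V : ValuationSubring K
  /-- the Gauss valuation ring of `F` -/
  O : ValuationSubring F
  /-- the residue map of `V` -/
  res : V →+* k
  /-- reduction of functions -/
  red : O →+* Fk
  /-- reduction of places -/
  r : Place K F → Place k Fk
  /-- the inertia group, acting semilinearly -/
  I : Subgroup (SemilinearAut K F)
  res_surjective : Function.Surjective res
  res_eq_zero : ∀ a : V, res a = 0 ↔ (a : K) ∈ V.nonunits
  algebraMap_mem : ∀ a : K, algebraMap K F a ∈ O ↔ a ∈ V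
  red_algebraMap : ∀ (a : V) (h : algebraMap K F (a : K) ∈ O),
    red ⟨algebraMap K F (a : K), h⟩ = algebraMap k Fk (res a)
  red_surjective : Function.Surjective red
  /-- Gauss: every nonzero function is a constant times a function of norm one. -/
  gauss : ∀ f : F, f ≠ 0 → ∃ a : K, a ≠ 0 ∧ ∃ h : algebraMap K F a * f ∈ O,
    red ⟨algebraMap K F a * f, h⟩ ≠ 0
  /-- the reduction of the divisor of a function of norm one is the divisor of its reduction -/
  div_red : ∀ f : O, red f ≠ 0 → ∀ D : Divisor K F, (∀ P, D P = P.ord (f : F)) →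
    ∀ Q : Place k Fk, Finsupp.mapDomain r D Q = Q.ord (red f)
  /-- Riemann-Roch on both fibres, equal genus -/
  ff1 : Lib.RR.FF1 K F
  ff1k : Lib.RR.FF1 k Fk
  genus_eq : genusFF K F = genusFF k Fk
  /-- every Riemann-Roch space has an orthonormal basis; for an inertia-invariant divisor the
  basis can be chosen inertia-invariant -/
  orthonormal : ∀ D : Divisor K F, ∃ (n : ℕ) (b : Fin n → O),
    LinearIndependent k (fun i => red (b i)) ∧
    (∀ i, ((b i : O) : F) ∈ riemannRochSpace D) ∧
    Submodule.span K (Set.range fun i => ((b i : O) : F)) = riemannRochSpace D ∧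
    ((∀ g ∈ I, g • D = D) → ∀ i, ∀ g ∈ I, g • ((b i : O) : F) = ((b i : O) : F))
  /-- inertia acts trivially on everything residual -/
  I_base : ∀ g ∈ I, ∀ a : V, ∃ h : SemilinearAut.baseAut g (a : K) ∈ V,
    res ⟨SemilinearAut.baseAut g (a : K), h⟩ = res a
  I_red : ∀ g ∈ I, ∀ f : O, ∃ h : g • (f : F) ∈ O, red ⟨g • (f : F), h⟩ = red f
  I_place : ∀ g ∈ I, ∀ P : Place K F, r (g • P) = r P
  /-- every residue constant has an inertia-invariant lift -/
  I_lift_const : ∀ c : k, ∃ a : V, res a = c ∧ ∀ g ∈ I, SemilinearAut.baseAut g (a : K) = (a : K)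
  /-- there is an inertia-invariant place (the cusp `∞`) -/
  I_fixed_place : ∃ P : Place K F, ∀ g ∈ I, g • P = P

/-- **Output of block LOCAL** (frozen; = helper979's `disc_localCoords`).  For a finite
inertia-stable subgroup `T` of `Pic0` there are `V`-integral, inertia-equivariant, injective
coordinates on `T` whose addition is polynomial with `V`-coefficients. -/
def LocalStatement (K F k Fk : Type*) [Field K] [Field F] [Algebra K F]
    [Field k] [Field Fk] [Algebra k Fk] [IsAlgClosed K] [IsAlgClosed k] [CharZero K] : Prop :=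
  ∀ (𝓡 : GoodRed K F k Fk),
    (∀ a b : K, a ∈ 𝓡.V.nonunits → b ≠ 0 → ∃ n : ℕ, a ^ n / b ∈ 𝓡.V) →
    ∀ (T : AddSubgroup (Pic0 K F)) [Finite T]
      (hT : ∀ g ∈ 𝓡.I, ∀ x ∈ T, g • x ∈ T),
      ∃ (ι : Type) (_ : Finite ι) (Ψ : T → ι → K),
        Function.Injective Ψ ∧ (∀ x i, Ψ x i ∈ 𝓡.V) ∧
        (∀ (g : SemilinearAut K F) (hg : g ∈ 𝓡.I) (x : T) (i : ι),
          Ψ ⟨g • (x : Pic0 K F), hT g hg x x.2⟩ i = SemilinearAut.baseAut g (Ψ x i)) ∧
        ∀ i, (fun p : T × T => Ψ (p.1 + p.2) i) ∈
          Algebra.adjoin 𝓡.V ({f | ∃ j, f = fun p : T × T => Ψ p.1 j} ∪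
            {f | ∃ j, f = fun p : T × T => Ψ p.2 j})

end Fermat.Agent.A3.H799

end
end
-- ===== PACK-END A3/H799/GoodRed.lean

-- ===== PACK-BEGIN S37/Red/ModG.lean
section




/-!
# S37 node_rim — RED-E1: the modular reduction datum (architect: helper40)

For `F ⊆ Q̄((q))`, `F_k ⊆ k((q))` the modular function fields and `A ⊆ Q̄` a valuation subring,
we build the reduction datum `modG : Datum A (residue A) F F_k` of `Red/Spec.lean`:

* `O`  = the ring `V` of fractions `a / b` of integral `q`-series (`a, b ∈ A((q)) ∩ F` with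
         reductions in `F_k`, `b̄ ≠ 0`) of helper940 (`H940.qData`, `FracData.V`); it is a
         VALUATION ring by the value-group hypothesis `ModVG` (every `f ≠ 0` is `c · y₁ / y₂`);
* `ρ`  = `ρ (a / b) = ā / b̄`;
* `x`  = any integral coordinate with transcendental reduction (`j`, or a Hauptmodul).

`modG_link` is the `link` of `ModDatum`.  What remains for NODE [RIM] is exactly
`(modG …).Good` (+ `MainStatement` + PGI): see `node_rim_of_modG`.
-/

set_option autoImplicit false
set_option synthInstance.maxHeartbeats 400000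

noncomputable section

namespace Fermat.Agent.S37.Red

open ModularCurve AlgebraicCurve HahnSeries IsLocalRing

variable (N : ℕ) (A : ValuationSubring Qb)

theorem residue_eq_zero_iff_not_isUnit (a : A) : residue A a = 0 ↔ ¬ IsUnit a := by
  rw [IsLocalRing.residue_eq_zero_iff, IsLocalRing.mem_maximalIdeal, mem_nonunits_iff]

/-- helper940's fraction data for the modular function fields -/
def modFrac : H940.FracData Qb (FN N) (kA A) (FNk A N) :=
  H940.qData A (residue A) (modularFunctionFieldBar N)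
    (modularFunctionFieldFullC (kA A) N) IsLocalRing.residue_surjective
    (residue_eq_zero_iff_not_isUnit A)

/-- **Value-group hypothesis** (helper940's `ValueGroupHyp`): every nonzero `f ∈ F` is a constant
times a fraction of integral `q`-series with nonzero reductions in `F_k`. -/
abbrev ModVG : Prop :=
  H940.ValueGroupHyp A (residue A) (modularFunctionFieldBar N)
    (modularFunctionFieldFullC (kA A) N)

variable {N A}

/-- the Gauss valuation ring of `F` -/
def modO (hVG : ModVG N A) : ValuationSubring (FN N) :=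
  { (modFrac N A).V with
    mem_or_inv_mem' := by
      intro f
      rcases eq_or_ne f 0 with rfl | hf
      · exact Or.inl (Subring.zero_mem _)
      obtain ⟨c, hc, y₁, y₂, h₁, h₂, hfy⟩ := hVG f hf
      let z₁ : (modFrac N A).O := y₁
      let z₂ : (modFrac N A).O := y₂
      have hz₁ : (modFrac N A).ρ₀ z₁ ≠ 0 := h₁
      have hz₂ : (modFrac N A).ρ₀ z₂ ≠ 0 := h₂
      have hfz : f * (z₂ : FN N) = algebraMap Qb (FN N) c * (z₁ : FN N) := hfy
      by_cases hcA : c ∈ A
      · left
        refine ⟨⟨algebraMap Qb (FN N) c, (modFrac N A).A_mem ⟨c, hcA⟩⟩ * z₁, z₂, hz₂, ?_⟩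
        rw [hfz]
        rfl
      · right
        have hinv : c⁻¹ ∈ A := (A.mem_or_inv_mem c).resolve_left hcA
        refine ⟨⟨algebraMap Qb (FN N) c⁻¹, (modFrac N A).A_mem ⟨c⁻¹, hinv⟩⟩ * z₂, z₁, hz₁, ?_⟩
        have hy₁ : (z₁ : FN N) ≠ 0 := (modFrac N A).coe_ne_zero hz₁
        have hc' : algebraMap Qb (FN N) c ≠ 0 := by
          rwa [Ne, map_eq_zero_iff _ (algebraMap Qb (FN N)).injective]
        show f⁻¹ * (z₁ : FN N) = algebraMap Qb (FN N) c⁻¹ * (z₂ : FN N)
        rw [map_inv₀, inv_mul_eq_iff_eq_mul₀ hf, ← mul_assoc, mul_comm f, mul_assoc, hfz,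
          ← mul_assoc, inv_mul_cancel₀ hc', one_mul] }

theorem mem_modO (hVG : ModVG N A) {f : FN N} : f ∈ modO hVG ↔ f ∈ (modFrac N A).V := Iff.rfl

/-- the reduction map on the Gauss valuation ring -/
def modρ (hVG : ModVG N A) : modO hVG →+* FNk A N := (modFrac N A).ρ

end Fermat.Agent.S37.Red

namespace Fermat.Agent.S37.Red

open ModularCurve AlgebraicCurve HahnSeries IsLocalRing

variable {N : ℕ} {A : ValuationSubring Qb}

/-- an integral series of `F` with reduction in `F_k`, as an element of the Gauss valuation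
ring -/
def ofSeries (hVG : ModVG N A) (y : LaurentSeries A)
    (hy : coeffMap A.subtype y ∈ modularFunctionFieldBar N)
    (hyk : coeffMap (residue A) y ∈ modularFunctionFieldFullC (kA A) N) : modO hVG :=
  ⟨⟨coeffMap A.subtype y, hy⟩, (modFrac N A).isFrac_of_mem ⟨⟨coeffMap A.subtype y, hy⟩, y, rfl, hyk⟩⟩

@[simp] theorem coe_ofSeries (hVG : ModVG N A) (y : LaurentSeries A)
    (hy : coeffMap A.subtype y ∈ modularFunctionFieldBar N)
    (hyk : coeffMap (residue A) y ∈ modularFunctionFieldFullC (kA A) N) :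
    ((ofSeries hVG y hy hyk : modO hVG) : FN N) = ⟨coeffMap A.subtype y, hy⟩ := rfl

theorem modρ_ofSeries (hVG : ModVG N A) (y : LaurentSeries A)
    (hy : coeffMap A.subtype y ∈ modularFunctionFieldBar N)
    (hyk : coeffMap (residue A) y ∈ modularFunctionFieldFullC (kA A) N) :
    modρ hVG (ofSeries hVG y hy hyk) = ⟨coeffMap (residue A) y, hyk⟩ := by
  have h := (modFrac N A).ρ_ofO ⟨⟨coeffMap A.subtype y, hy⟩, y, rfl, hyk⟩
  refine Eq.trans h ?_
  apply Subtype.ext
  exact H940.coe_redQ A (residue A) _ _ ⟨⟨coeffMap A.subtype y, hy⟩, y, rfl, hyk⟩ (y := y) rfl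

/-- **`link`**: a Prelude-integral series lies in `O` and `ρ` is its coefficientwise
reduction. -/
theorem modG_link (hVG : ModVG N A) (y : LaurentSeries A)
    (hy : coeffMap A.subtype y ∈ modularFunctionFieldBar N)
    (hyk : coeffMap (residue A) y ∈ modularFunctionFieldFullC (kA A) N) :
    ∃ h : (⟨coeffMap A.subtype y, hy⟩ : FN N) ∈ modO hVG,
      modρ hVG ⟨⟨coeffMap A.subtype y, hy⟩, h⟩ = ⟨coeffMap (residue A) y, hyk⟩ :=
  ⟨(ofSeries hVG y hy hyk).2, modρ_ofSeries hVG y hy hyk⟩

/-- units of `O`: nonzero reduction implies the inverse is in `O` -/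
theorem inv_mem_modO (hVG : ModVG N A) (u : modO hVG) (hu : modρ hVG u ≠ 0) :
    ((u : FN N))⁻¹ ∈ modO hVG :=
  (modFrac N A).ctx.inv_mem u hu

/-- the image of `ρ`, as a set of series -/
def ρImage (hVG : ModVG N A) : Set (LaurentSeries (kA A)) :=
  {g | ∃ u : modO hVG, ((modρ hVG u : FNk A N) : LaurentSeries (kA A)) = g}

/-- the image of `ρ` is an intermediate field -/
def ρField (hVG : ModVG N A) : IntermediateField (kA A) (LaurentSeries (kA A)) where
  carrier := ρImage hVG
  mul_mem' := by
    rintro _ _ ⟨u, rfl⟩ ⟨v, rfl⟩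
    exact ⟨u * v, by rw [map_mul]; rfl⟩
  one_mem' := ⟨1, by rw [map_one]; rfl⟩
  add_mem' := by
    rintro _ _ ⟨u, rfl⟩ ⟨v, rfl⟩
    exact ⟨u + v, by rw [map_add]; rfl⟩
  zero_mem' := ⟨0, by rw [map_zero]; rfl⟩
  algebraMap_mem' := by
    intro c
    obtain ⟨a, rfl⟩ := IsLocalRing.residue_surjective (R := A) c
    refine ⟨⟨algebraMap Qb (FN N) (a : Qb), (modFrac N A).ctx.A_mem a⟩, ?_⟩
    have h := (modFrac N A).ctx.ρ_A a
    show ((modρ hVG _ : FNk A N) : LaurentSeries (kA A)) = _
    have h' : modρ hVG ⟨algebraMap Qb (FN N) (a : Qb), (modFrac N A).ctx.A_mem a⟩ =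
        algebraMap (kA A) (FNk A N) (residue A a) := h
    rw [h']
    rfl
  inv_mem' := by
    rintro _ ⟨u, rfl⟩
    by_cases hu : modρ hVG u = 0
    · refine ⟨0, ?_⟩
      rw [hu, map_zero]
      simp
    · refine ⟨⟨((u : FN N))⁻¹, inv_mem_modO hVG u hu⟩, ?_⟩
      have hmul : (⟨((u : FN N))⁻¹, inv_mem_modO hVG u hu⟩ : modO hVG) * u = 1 := by
        apply Subtype.ext
        have hu0 : (u : FN N) ≠ 0 := by
          intro h0
          apply hu
          have : u = 0 := Subtype.ext h0
          rw [this, map_zero]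
        show ((u : FN N))⁻¹ * (u : FN N) = 1
        exact inv_mul_cancel₀ hu0
      have h1 := congrArg (modρ hVG) hmul
      rw [map_mul, map_one] at h1
      have h2 : modρ hVG ⟨((u : FN N))⁻¹, inv_mem_modO hVG u hu⟩ = (modρ hVG u)⁻¹ :=
        eq_inv_of_mul_eq_one_left h1
      rw [h2]
      rfl

end Fermat.Agent.S37.Red

namespace Fermat.Agent.S37.Red

open ModularCurve AlgebraicCurve HahnSeries IsLocalRing

variable {N : ℕ} {A : ValuationSubring Qb}

/-- `j(q^d) ∈ F` for `d ∣ N` -/
theorem jqNModC_mem_bar {d : ℕ} [NeZero d] (hd : d ∣ N) :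
    jqNModC Qb d ∈ modularFunctionFieldBar N := by
  have h1 : jqNModC ℚ d ∈ modularFunctionFieldFull N := by
    rw [← modularFunctionFieldFullC_rat]
    exact jqModCd_mem_full ℚ N hd
  have h2 := coeffEmb_mem_laurentBaseChange Qb h1
  have h3 : coeffEmb Qb (jqNModC ℚ d) = jqNModC Qb d :=
    coeffMap_jqNModC (algebraMap ℚ Qb) d
  rwa [h3] at h2

/-- the generators of `F_k` are reductions -/
theorem generators_mem_ρField (hVG : ModVG N A) :
    divisorExpansionsC (kA A) N ⊆ (ρField hVG : Set (LaurentSeries (kA A))) := by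
  rintro g ⟨d, hne, hd, rfl⟩
  haveI := hne
  have hy : coeffMap A.subtype (jqNModC A d) ∈ modularFunctionFieldBar N := by
    rw [coeffMap_jqNModC]
    exact jqNModC_mem_bar hd
  have hyk : coeffMap (residue A) (jqNModC A d) ∈ modularFunctionFieldFullC (kA A) N := by
    rw [coeffMap_jqNModC]
    exact jqModCd_mem_full (kA A) N hd
  refine ⟨ofSeries hVG (jqNModC A d) hy hyk, ?_⟩
  rw [modρ_ofSeries]
  show coeffMap (residue A) (jqNModC A d) = _
  rw [coeffMap_jqNModC]
  rfl

/-- **`ρ` is surjective** -/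
theorem modρ_surjective (hVG : ModVG N A) : Function.Surjective (modρ hVG) := by
  intro g
  have hle : modularFunctionFieldFullC (kA A) N ≤ ρField hVG :=
    IntermediateField.adjoin_le_iff.mpr (generators_mem_ρField hVG)
  obtain ⟨u, hu⟩ := hle g.2
  exact ⟨u, Subtype.ext hu⟩

/-- **RED-E1: the modular reduction datum** with coordinate `x` (an integral series of `F`
whose reduction lies in `F_k` and is transcendental over `k`). -/
def modG (hVG : ModVG N A) (x : LaurentSeries A)
    (hx : coeffMap A.subtype x ∈ modularFunctionFieldBar N)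
    (hxk : coeffMap (residue A) x ∈ modularFunctionFieldFullC (kA A) N)
    (htr : Transcendental (kA A) (⟨coeffMap (residue A) x, hxk⟩ : FNk A N)) :
    Datum A (residue A) (FN N) (FNk A N) where
  π_surj := IsLocalRing.residue_surjective
  O := modO hVG
  ρ := modρ hVG
  ρ_surj := modρ_surjective hVG
  const_mem := fun a => (modFrac N A).ctx.A_mem a
  ρ_const := fun a => (modFrac N A).ctx.ρ_A a
  x := ⟨coeffMap A.subtype x, hx⟩
  x_mem := (ofSeries hVG x hx hxk).2
  xk_transc := by
    have h := modρ_ofSeries hVG x hx hxk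
    have h' : modρ hVG ⟨⟨coeffMap A.subtype x, hx⟩, (ofSeries hVG x hx hxk).2⟩ =
        ⟨coeffMap (residue A) x, hxk⟩ := h
    rw [h']
    exact htr

/-- `j ∈ F`, as an integral series -/
theorem coeffMap_jqModC_mem_bar (N : ℕ) (A : ValuationSubring Qb) :
    coeffMap A.subtype (jqModC A) ∈ modularFunctionFieldBar N := by
  have h := jqNModC_mem_bar (N := N) (d := 1) (one_dvd N)
  rw [jqNModC_one] at h
  rw [coeffMap_jqModC]
  exact h

/-- `j̄ ∈ F_k` -/
theorem coeffMap_jqModC_mem_fullC (N : ℕ) (A : ValuationSubring Qb) :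
    coeffMap (residue A) (jqModC A) ∈ modularFunctionFieldFullC (kA A) N := by
  rw [coeffMap_jqModC]
  exact jqModC_mem_full (kA A) N

/-- the reduced coordinate `j̄ ∈ F_k` -/
def jk (N : ℕ) (A : ValuationSubring Qb) : FNk A N :=
  ⟨coeffMap (residue A) (jqModC A), coeffMap_jqModC_mem_fullC N A⟩

/-- **The modular reduction datum with coordinate `x = j`.** -/
def modGj (hVG : ModVG N A) (htr : Transcendental (kA A) (jk N A)) :
    Datum A (residue A) (FN N) (FNk A N) :=
  modG hVG (jqModC A) (coeffMap_jqModC_mem_bar N A) (coeffMap_jqModC_mem_fullC N A) htr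

/-- **NODE [RIM] from `MainStatement`, PGI and goodness of the modular datum.** -/
theorem node_rim_of_modG (hMain : MainStatement.{0}) (hVG : ModVG N A) (x : LaurentSeries A)
    (hx : coeffMap A.subtype x ∈ modularFunctionFieldBar N)
    (hxk : coeffMap (residue A) x ∈ modularFunctionFieldFullC (kA A) N)
    (htr : Transcendental (kA A) (⟨coeffMap (residue A) x, hxk⟩ : FNk A N))
    (hgood : (modG hVG x hx hxk htr).Good)
    (hpgi : PrincipalGeneratedByIntegral A (residue A) N) :
    ReductionInputsModL A N := by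
  haveI : IsAlgClosed (kA A) := Fermat.Agent.S18.H9.resAlgClosed Qb A
  obtain ⟨r, hr, -⟩ := hMain Qb (kA A) (FN N) (FNk A N) A (residue A) _ hgood
  refine ⟨r, ⟨hr.1, ?_⟩, hpgi⟩
  intro y hy hyk hne D hD Q
  obtain ⟨h, hρ⟩ := modG_link hVG y hy hyk
  have hne' : (modG hVG x hx hxk htr).ρ ⟨⟨coeffMap A.subtype y, hy⟩, h⟩ ≠ 0 := by
    intro h0
    apply hne
    have := hρ.symm.trans h0
    exact congrArg Subtype.val this
  have key := hr.2 _ h hne' D hD Q
  have hρ' : (modG hVG x hx hxk htr).ρ ⟨⟨coeffMap A.subtype y, hy⟩, h⟩ =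
      ⟨coeffMap (residue A) y, hyk⟩ := hρ
  rw [hρ'] at key
  exact key

end Fermat.Agent.S37.Red

end
end
-- ===== PACK-END S37/Red/ModG.lean

-- ===== PACK-BEGIN Lib/RR/H259/Mult.lean
section


/-!
# RR library, add-on (helper259): multiplication maps of Riemann–Roch spaces

For a function field `F/K` satisfying `FF1` with `K` infinite and genus `g = genusFF K F`:

* `mul_le_L`            : `L(A) * L(B) ≤ L(A + B)`;
* `IsBpfPencil D s₁ s₂` : `s₁, s₂ ∈ L(D)`, `s₁ ≠ 0`, at every place one of them has order exactly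
  `-D v` (a base-point-free pencil);
* `exists_bpfPencil`    : `2g ≤ deg D` ⇒ a base-point-free pencil exists in `L(D)`;
* `pencil_trick`        : (base-point-free pencil trick) if `deg D + 2g - 1 ≤ deg E` then every
  `h ∈ L(E + D)` is `s₁ * a + s₂ * b` with `a, b ∈ L(E)`;
* `L_mul_L_of_le`       : `2g ≤ deg D`, `deg D + 2g - 1 ≤ deg E` ⇒ `L(E) * L(D) = L(E + D)`;
* `L_mul_L`             : `4g ≤ deg A`, `4g ≤ deg B` ⇒ `L(A) * L(B) = L(A + B)`.

(Castelnuovo–Mumford type surjectivity of `L(A) ⊗ L(B) → L(A + B)`; the bound `4g` is not sharp,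
but it is all that Khuri-Makdisi style linear algebra on divisors needs.)
-/

set_option autoImplicit false

noncomputable section

open AlgebraicCurve

namespace Fermat.Agent.Lib.RR.H259

open Fermat.Agent.Lib.RR

variable {K F : Type*} [Field K] [Field F] [Algebra K F]

/-- `L(A) * L(B) ≤ L(A + B)`. -/
theorem mul_le_L (A B : Divisor K F) :
    riemannRochSpace A * riemannRochSpace B ≤ riemannRochSpace (A + B) := by
  rw [Submodule.mul_le]
  intro f hf g hg
  rw [mem_L_iff] at hf hg ⊢
  intro v
  rcases eq_or_ne f 0 with rfl | hf0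
  · left; simp
  rcases eq_or_ne g 0 with rfl | hg0
  · left; simp
  right
  rw [v.ord_mul hf0 hg0]
  have h1 := (hf v).resolve_left hf0
  have h2 := (hg v).resolve_left hg0
  simp only [Finsupp.coe_add, Pi.add_apply]
  omega

/-- A base-point-free pencil in `L(D)`. -/
structure IsBpfPencil (D : Divisor K F) (s₁ s₂ : F) : Prop where
  mem₁ : s₁ ∈ riemannRochSpace D
  mem₂ : s₂ ∈ riemannRochSpace D
  ne_zero : s₁ ≠ 0
  bpf : ∀ v : Place K F, v.ord s₁ = -D v ∨ (s₂ ≠ 0 ∧ v.ord s₂ = -D v)

theorem IsBpfPencil.degree_nonneg [HasPrincipalDivisors K F] {D : Divisor K F} {s₁ s₂ : F}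
    (h : IsBpfPencil D s₁ s₂) : 0 ≤ Divisor.degree D :=
  degree_nonneg_of_mem_L h.mem₁ h.ne_zero


/-- the map `(a, b) ↦ s₁ a + s₂ b` on `L(E) × L(E)` -/
def pencilMap (E : Divisor K F) (s₁ s₂ : F) :
    (riemannRochSpace E × riemannRochSpace E) →ₗ[K] F :=
  ((LinearMap.mulLeft K s₁).comp (riemannRochSpace E).subtype).coprod
    ((LinearMap.mulLeft K s₂).comp (riemannRochSpace E).subtype)

@[simp] theorem pencilMap_apply (E : Divisor K F) (s₁ s₂ : F)
    (p : riemannRochSpace E × riemannRochSpace E) :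
    pencilMap E s₁ s₂ p = s₁ * (p.1 : F) + s₂ * (p.2 : F) := by
  simp [pencilMap]

theorem range_pencilMap_le {D E : Divisor K F} {s₁ s₂ : F} (h : IsBpfPencil D s₁ s₂) :
    LinearMap.range (pencilMap E s₁ s₂) ≤ riemannRochSpace (E + D) := by
  rintro _ ⟨p, rfl⟩
  rw [pencilMap_apply]
  have h1 : s₁ * (p.1 : F) ∈ riemannRochSpace (E + D) := by
    rw [add_comm E D]
    exact mul_le_L D E (Submodule.mul_mem_mul h.mem₁ p.1.2)
  have h2 : s₂ * (p.2 : F) ∈ riemannRochSpace (E + D) := by
    rw [add_comm E D]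
    exact mul_le_L D E (Submodule.mul_mem_mul h.mem₂ p.2.2)
  exact Submodule.add_mem _ h1 h2

/-- the kernel of the pencil map embeds into `L(E - D)` by `(a, b) ↦ -b / s₁` -/
theorem finrank_ker_pencilMap_le [FF1 K F] {D E : Divisor K F} {s₁ s₂ : F}
    (h : IsBpfPencil D s₁ s₂) :
    Module.finrank K (LinearMap.ker (pencilMap E s₁ s₂)) ≤ ell (E - D) := by
  classical
  have hs₁ := h.ne_zero
  -- the map
  let ψ₀ : LinearMap.ker (pencilMap E s₁ s₂) →ₗ[K] F :=
    (LinearMap.mulLeft K (-s₁⁻¹)).comp ((riemannRochSpace E).subtype.comp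
      ((LinearMap.snd K _ _).comp (LinearMap.ker (pencilMap E s₁ s₂)).subtype))
  have hψ₀ : ∀ p : LinearMap.ker (pencilMap E s₁ s₂), ψ₀ p = -s₁⁻¹ * (p.1.2 : F) := by
    intro p; rfl
  have hmem : ∀ p : LinearMap.ker (pencilMap E s₁ s₂), ψ₀ p ∈ riemannRochSpace (E - D) := by
    intro p
    rw [hψ₀, mem_L_iff]
    intro v
    set a : F := (p.1.1 : F) with ha
    set b : F := (p.1.2 : F) with hb
    have hker : s₁ * a + s₂ * b = 0 := by
      have := p.2
      rw [LinearMap.mem_ker, pencilMap_apply] at this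
      exact this
    have haL : a ∈ riemannRochSpace E := p.1.1.2
    have hbL : b ∈ riemannRochSpace E := p.1.2.2
    rw [mem_L_iff] at haL hbL
    rcases eq_or_ne b 0 with hb0 | hb0
    · left; rw [hb0]; simp
    right
    have hc0 : -s₁⁻¹ * b ≠ 0 := mul_ne_zero (neg_ne_zero.mpr (inv_ne_zero hs₁)) hb0
    simp only [Finsupp.coe_sub, Pi.sub_apply]
    rcases h.bpf v with h1 | ⟨hs₂, h2⟩
    · have : v.ord (-s₁⁻¹ * b) = -v.ord s₁ + v.ord b := by
        rw [v.ord_mul (neg_ne_zero.mpr (inv_ne_zero hs₁)) hb0, ord_neg, v.ord_inv]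
      rw [this, h1]
      have := (hbL v).resolve_left hb0
      omega
    · -- `-b / s₁ = a / s₂`
      have ha0 : a ≠ 0 := by
        intro ha0
        rw [ha0, mul_zero, zero_add] at hker
        exact hb0 ((mul_eq_zero.mp hker).resolve_left hs₂)
      have hc : -s₁⁻¹ * b = s₂⁻¹ * a := by
        have e1 : s₁ * a = -(s₂ * b) := by linear_combination hker
        calc -s₁⁻¹ * b = s₂⁻¹ * s₁⁻¹ * (-(s₂ * b)) := by field_simp
          _ = s₂⁻¹ * s₁⁻¹ * (s₁ * a) := by rw [e1]
          _ = s₂⁻¹ * a := by field_simp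
      have : v.ord (s₂⁻¹ * a) = -v.ord s₂ + v.ord a := by
        rw [v.ord_mul (inv_ne_zero hs₂) ha0, v.ord_inv]
      rw [hc, this, h2]
      have := (haL v).resolve_left ha0
      omega
  let ψ : LinearMap.ker (pencilMap E s₁ s₂) →ₗ[K] riemannRochSpace (E - D) :=
    LinearMap.codRestrict _ ψ₀ hmem
  have hker : ∀ p : LinearMap.ker (pencilMap E s₁ s₂),
      s₁ * (p.1.1 : F) + s₂ * (p.1.2 : F) = 0 := by
    intro p
    have := p.2
    rw [LinearMap.mem_ker, pencilMap_apply] at this
    exact this
  have hinj0 : Function.Injective ψ₀ := by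
    intro p q hpq
    rw [hψ₀, hψ₀] at hpq
    have hb : (p.1.2 : F) = (q.1.2 : F) :=
      mul_left_cancel₀ (neg_ne_zero.mpr (inv_ne_zero hs₁)) hpq
    have hkp := hker p
    have hkq := hker q
    have ha : (p.1.1 : F) = (q.1.1 : F) := by
      have : s₁ * (p.1.1 : F) = s₁ * (q.1.1 : F) := by
        rw [hb] at hkp
        linear_combination hkp - hkq
      exact mul_left_cancel₀ hs₁ this
    exact Subtype.ext (Prod.ext (Subtype.ext ha) (Subtype.ext hb))
  have hinj : Function.Injective ψ := by
    intro p q hpq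
    apply hinj0
    have := congrArg (fun x : riemannRochSpace (E - D) => (x : F)) hpq
    simpa [ψ] using this
  exact LinearMap.finrank_le_finrank_of_injective hinj


/-- **Base-point-free pencil trick.** -/
theorem range_pencilMap_eq [FF1 K F] {D E : Divisor K F} {s₁ s₂ : F} (h : IsBpfPencil D s₁ s₂)
    (hdeg : Divisor.degree D + 2 * (genusFF K F : ℤ) - 1 ≤ Divisor.degree E) :
    LinearMap.range (pencilMap E s₁ s₂) = riemannRochSpace (E + D) := by
  have hD0 := h.degree_nonneg
  have hE : (ell E : ℤ) = Divisor.degree E + 1 - (genusFF K F : ℤ) :=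
    ell_eq_of_degree_gt (by omega)
  have hED : (ell (E - D) : ℤ) = Divisor.degree E - Divisor.degree D + 1 - (genusFF K F : ℤ) := by
    have := ell_eq_of_degree_gt (D := E - D) (by rw [map_sub]; omega)
    rwa [map_sub] at this
  have hEpD : (ell (E + D) : ℤ)
      = Divisor.degree E + Divisor.degree D + 1 - (genusFF K F : ℤ) := by
    have := ell_eq_of_degree_gt (D := E + D) (by rw [map_add]; omega)
    rwa [map_add] at this
  have hrn := LinearMap.finrank_range_add_finrank_ker (pencilMap E s₁ s₂)
  have hprod : Module.finrank K (riemannRochSpace E × riemannRochSpace E) = ell E + ell E :=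
    Module.finrank_prod
  have hk := finrank_ker_pencilMap_le (E := E) h
  apply Submodule.eq_of_le_of_finrank_le (range_pencilMap_le h)
  have : Module.finrank K (riemannRochSpace (E + D)) = ell (E + D) := rfl
  omega

/-- every `h ∈ L(E + D)` is `s₁ a + s₂ b` with `a, b ∈ L(E)` -/
theorem pencil_trick [FF1 K F] {D E : Divisor K F} {s₁ s₂ : F} (h : IsBpfPencil D s₁ s₂)
    (hdeg : Divisor.degree D + 2 * (genusFF K F : ℤ) - 1 ≤ Divisor.degree E) {f : F}
    (hf : f ∈ riemannRochSpace (E + D)) :
    ∃ a ∈ riemannRochSpace E, ∃ b ∈ riemannRochSpace E, f = s₁ * a + s₂ * b := by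
  rw [← range_pencilMap_eq h hdeg] at hf
  obtain ⟨p, rfl⟩ := hf
  exact ⟨p.1, p.1.2, p.2, p.2.2, pencilMap_apply E s₁ s₂ p⟩

/-- `L(D)` contains a base-point-free pencil as soon as `deg D ≥ 2g` (`K` infinite). -/
theorem exists_bpfPencil [FF1 K F] [Infinite K] {D : Divisor K F}
    (hD : 2 * (genusFF K F : ℤ) ≤ Divisor.degree D) : ∃ s₁ s₂ : F, IsBpfPencil D s₁ s₂ := by
  classical
  have hell : (ell D : ℤ) = Divisor.degree D + 1 - (genusFF K F : ℤ) :=
    ell_eq_of_degree_gt (by omega)
  have hpos : 0 < Module.finrank K (riemannRochSpace D) := by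
    have : Module.finrank K (riemannRochSpace D) = ell D := rfl
    omega
  obtain ⟨s₁', hs₁'⟩ : ∃ x : riemannRochSpace D, x ≠ 0 :=
    Module.finrank_pos_iff_exists_ne_zero.mp hpos
  have hs₁ : (s₁' : F) ≠ 0 := fun h => hs₁' (Subtype.ext h)
  let S : Finset (Place K F) := (divOf (K := K) (s₁' : F) hs₁ + D).support
  have hS : ∀ v ∉ S, v.ord (s₁' : F) = - D v := by
    intro v hv
    rw [Finsupp.notMem_support_iff] at hv
    simp only [Finsupp.coe_add, Pi.add_apply, divOf_apply] at hv
    omega
  let p : Place K F → Subspace K (riemannRochSpace D) := fun v =>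
    (riemannRochSpace (D - prim v)).comap (riemannRochSpace D).subtype
  have hp : ∀ v, p v ≠ ⊤ := by
    intro v htop
    have hle : riemannRochSpace D ≤ riemannRochSpace (D - prim v) := by
      intro f hf
      have : (⟨f, hf⟩ : riemannRochSpace D) ∈ p v := by rw [htop]; trivial
      exact this
    have h1 : ell D ≤ ell (D - prim v) := Submodule.finrank_mono hle
    have h2 : (ell (D - prim v) : ℤ) = Divisor.degree D - 1 + 1 - (genusFF K F : ℤ) := by
      have := ell_eq_of_degree_gt (D := D - prim v)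
        (by rw [map_sub, degree_prim v (deg_eq_one v)]; omega)
      rw [map_sub, degree_prim v (deg_eq_one v)] at this
      exact this
    omega
  have hnot : (⊤ : Subspace K (riemannRochSpace D)) ∉ S.image p := by
    intro hmem
    obtain ⟨v, -, hv⟩ := Finset.mem_image.mp hmem
    exact hp v hv
  have hne := Subspace.biUnion_ne_univ_of_top_notMem hnot
  obtain ⟨s₂', hs₂'⟩ : ∃ x : riemannRochSpace D,
      x ∉ ⋃ q ∈ S.image p, (q : Set (riemannRochSpace D)) := by
    by_contra hcon
    simp only [not_exists, not_not] at hcon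
    exact hne (Set.eq_univ_of_forall hcon)
  refine ⟨s₁', s₂', ⟨s₁'.2, s₂'.2, hs₁, fun v => ?_⟩⟩
  by_cases hv : v ∈ S
  · right
    have hnm : s₂' ∉ p v := fun hm =>
      hs₂' (Set.mem_biUnion (Finset.mem_image_of_mem p hv) hm)
    have hmem := s₂'.2
    rw [mem_L_iff] at hmem
    have hnm' : ¬ ((s₂' : F) ∈ riemannRochSpace (D - prim v)) := hnm
    rw [mem_L_iff] at hnm'
    simp only [not_forall, not_or, not_le] at hnm'
    obtain ⟨w, hw0, hw⟩ := hnm'
    have hwv : w = v := by
      by_contra hne'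
      have h3 := (hmem w).resolve_left hw0
      simp only [Finsupp.coe_sub, Pi.sub_apply, prim_apply_of_ne hne'] at hw
      omega
    subst hwv
    refine ⟨hw0, ?_⟩
    have h3 := (hmem w).resolve_left hw0
    simp only [Finsupp.coe_sub, Pi.sub_apply, prim_apply_self] at hw
    omega
  · left
    exact hS v hv

/-- `L(E) * L(D) = L(E + D)` if `deg D ≥ 2g` and `deg E ≥ deg D + 2g - 1`. -/
theorem L_mul_L_of_le [FF1 K F] [Infinite K] {D E : Divisor K F}
    (hD : 2 * (genusFF K F : ℤ) ≤ Divisor.degree D)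
    (hE : Divisor.degree D + 2 * (genusFF K F : ℤ) - 1 ≤ Divisor.degree E) :
    riemannRochSpace E * riemannRochSpace D = riemannRochSpace (E + D) := by
  apply le_antisymm (mul_le_L E D)
  obtain ⟨s₁, s₂, h⟩ := exists_bpfPencil hD
  intro f hf
  obtain ⟨a, ha, b, hb, rfl⟩ := pencil_trick h hE hf
  refine Submodule.add_mem _ ?_ ?_
  · exact (mul_comm a s₁) ▸ Submodule.mul_mem_mul ha h.mem₁
  · exact (mul_comm b s₂) ▸ Submodule.mul_mem_mul hb h.mem₂

theorem L_mul_L_aux [FF1 K F] [Infinite K] {A B : Divisor K F}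
    (hA : 4 * (genusFF K F : ℤ) ≤ Divisor.degree A)
    (hB : 4 * (genusFF K F : ℤ) ≤ Divisor.degree B)
    (hAB : Divisor.degree B ≤ Divisor.degree A) :
    riemannRochSpace A * riemannRochSpace B = riemannRochSpace (A + B) := by
  obtain ⟨v₀⟩ := FF1.nonempty_place (K := K) (F := F)
  have hg : (0 : ℤ) ≤ (genusFF K F : ℤ) := Int.natCast_nonneg _
  obtain ⟨n, hn1, hn2⟩ : ∃ n : ℤ, 2 * n ≤ Divisor.degree B ∧ Divisor.degree B ≤ 2 * n + 1 :=
    ⟨Divisor.degree B / 2, by omega, by omega⟩
  set B₂ : Divisor K F := n • prim v₀ with hB₂def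
  set B₁ : Divisor K F := B - B₂ with hB₁def
  have hB₂ : Divisor.degree B₂ = n := by
    rw [hB₂def, map_zsmul, degree_prim v₀ (deg_eq_one v₀)]; simp
  have hB₁ : Divisor.degree B₁ = Divisor.degree B - n := by
    rw [hB₁def, map_sub, hB₂]
  have e3 : B₂ + B₁ = B := by rw [hB₁def]; abel
  have e1 : riemannRochSpace (A + B₂) * riemannRochSpace B₁
      = riemannRochSpace (A + B₂ + B₁) :=
    L_mul_L_of_le (D := B₁) (E := A + B₂) (by omega) (by rw [map_add]; omega)
  have e2 : riemannRochSpace A * riemannRochSpace B₂ = riemannRochSpace (A + B₂) :=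
    L_mul_L_of_le (D := B₂) (E := A) (by omega) (by omega)
  apply le_antisymm (mul_le_L A B)
  have e4 : A + B₂ + B₁ = A + B := by rw [add_assoc, e3]
  rw [← e4, ← e1, ← e2, mul_assoc]
  have h5 : riemannRochSpace B₂ * riemannRochSpace B₁ ≤ riemannRochSpace B := by
    have := mul_le_L B₂ B₁
    rwa [e3] at this
  exact mul_le_mul' le_rfl h5

/-- **Multiplication of Riemann–Roch spaces**: `L(A) * L(B) = L(A + B)` as soon as both degrees
are at least `4g`. -/
theorem L_mul_L [FF1 K F] [Infinite K] {A B : Divisor K F}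
    (hA : 4 * (genusFF K F : ℤ) ≤ Divisor.degree A)
    (hB : 4 * (genusFF K F : ℤ) ≤ Divisor.degree B) :
    riemannRochSpace A * riemannRochSpace B = riemannRochSpace (A + B) := by
  rcases le_total (Divisor.degree B) (Divisor.degree A) with h | h
  · exact L_mul_L_aux hA hB h
  · rw [mul_comm, add_comm]
    exact L_mul_L_aux hB hA h

/-- element form: every `f ∈ L(A + B)` is a finite sum `∑ aᵢ bᵢ`, `aᵢ ∈ L(A)`, `bᵢ ∈ L(B)` -/
theorem exists_sum_mul_eq [FF1 K F] [Infinite K] {A B : Divisor K F}
    (hA : 4 * (genusFF K F : ℤ) ≤ Divisor.degree A)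
    (hB : 4 * (genusFF K F : ℤ) ≤ Divisor.degree B) {f : F}
    (hf : f ∈ riemannRochSpace (A + B)) :
    ∃ (n : ℕ) (a b : Fin n → F), (∀ i, a i ∈ riemannRochSpace A) ∧
      (∀ i, b i ∈ riemannRochSpace B) ∧ f = ∑ i, a i * b i := by
  rw [← L_mul_L hA hB] at hf
  refine Submodule.mul_induction_on hf ?_ ?_
  · intro a ha b hb
    exact ⟨1, fun _ => a, fun _ => b, fun _ => ha, fun _ => hb, by simp⟩
  · intro x y hx hy
    obtain ⟨n, a, b, ha, hb, rfl⟩ := hx
    obtain ⟨m, a', b', ha', hb', rfl⟩ := hy
    refine ⟨n + m, Fin.append a a', Fin.append b b', ?_, ?_, ?_⟩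
    · intro i
      refine Fin.addCases (fun j => ?_) (fun j => ?_) i
      · simpa using ha j
      · simpa using ha' j
    · intro i
      refine Fin.addCases (fun j => ?_) (fun j => ?_) i
      · simpa using hb j
      · simpa using hb' j
    · rw [Fin.sum_univ_add]
      simp

end Fermat.Agent.Lib.RR.H259

end
end
-- ===== PACK-END Lib/RR/H259/Mult.lean

-- ===== PACK-BEGIN S37/Red/H144/Basic.lean
section



/-!
# S37-RED, piece RED-D (route N), part 1: basic lemmas (helper144)

Values at places (`ValAt`), kernels of `π` and `ρ`, the chart dichotomy.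
-/

set_option autoImplicit false

noncomputable section

namespace Fermat.Agent.S37.Red.H144

open AlgebraicCurve IntermediateField Polynomial

universe u

variable {K k F Fk : Type u} [Field K] [Field k] [Field F] [Field Fk]
  [Algebra K F] [Algebra k Fk] {A : ValuationSubring K} {π : A →+* k}

/-! ### Values at places -/

theorem valAt_mem {P : Place K F} {f : F} {a : K} (h : ValAt P f a) :
    f ∈ P.toValuationSubring := by
  have h1 : f - algebraMap K F a ∈ P.toValuationSubring :=
    (P.toValuationSubring.valuation_le_one_iff _).mp (le_of_lt h)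
  have h2 := P.algebraMap_mem' a
  have h3 : f = (f - algebraMap K F a) + algebraMap K F a := by ring
  rw [h3]
  exact add_mem h1 h2

theorem valuation_const (P : Place K F) {a : K} (ha : a ≠ 0) :
    P.toValuationSubring.valuation (algebraMap K F a) = 1 :=
  Lib.RR.H443.valuation_algebraMap_eq_one P.toValuationSubring P.algebraMap_mem' a ha

theorem valAt_unique {P : Place K F} {f : F} {a b : K} (ha : ValAt P f a) (hb : ValAt P f b) :
    a = b := by
  by_contra hne
  have hc : a - b ≠ 0 := sub_ne_zero.mpr hne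
  have h1 : P.toValuationSubring.valuation (algebraMap K F (a - b)) < 1 := by
    have h2 : algebraMap K F (a - b) = (f - algebraMap K F b) - (f - algebraMap K F a) := by
      rw [map_sub]; ring
    rw [h2]
    exact lt_of_le_of_lt (Valuation.map_sub _ _ _) (max_lt hb ha)
  rw [valuation_const P hc] at h1
  exact lt_irrefl _ h1

theorem valAt_zero_iff {P : Place K F} {f : F} :
    ValAt P f 0 ↔ P.toValuationSubring.valuation f < 1 := by
  unfold ValAt
  rw [map_zero, sub_zero]

/-- A nonzero function with `f⁻¹(P) = 0` is not regular at `P`. -/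
theorem not_mem_of_valuation_inv_lt {O : ValuationSubring F} {f : F} (hf0 : f ≠ 0)
    (h : O.valuation f⁻¹ < 1) : f ∉ O := by
  intro hf
  have h1 : O.valuation f ≤ 1 := (O.valuation_le_one_iff _).mpr hf
  have h2 : O.valuation f * O.valuation f⁻¹ = 1 := by
    rw [← map_mul, mul_inv_cancel₀ hf0, map_one]
  have h3 : O.valuation f * O.valuation f⁻¹ < 1 := by
    calc O.valuation f * O.valuation f⁻¹
        ≤ 1 * O.valuation f⁻¹ := mul_le_mul' h1 le_rfl
      _ = O.valuation f⁻¹ := one_mul _
      _ < 1 := h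
  rw [h2] at h3
  exact lt_irrefl _ h3

/-- If `f ∉ O` then `f⁻¹` is a non-unit of `O`. -/
theorem valuation_inv_lt_of_not_mem {O : ValuationSubring F} {f : F} (hf : f ∉ O) :
    O.valuation f⁻¹ < 1 := by
  have h1 : ¬ O.valuation f ≤ 1 := fun h => hf ((O.valuation_le_one_iff _).mp h)
  rw [not_le] at h1
  have hf0 : f ≠ 0 := fun h => hf (h ▸ O.zero_mem)
  have h2 : O.valuation f * O.valuation f⁻¹ = 1 := by
    rw [← map_mul, mul_inv_cancel₀ hf0, map_one]
  by_contra h3
  rw [not_lt] at h3
  have h4 : 1 < O.valuation f * O.valuation f⁻¹ := by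
    calc (1 : _) < O.valuation f := h1
      _ = O.valuation f * 1 := (mul_one _).symm
      _ ≤ O.valuation f * O.valuation f⁻¹ := mul_le_mul' le_rfl h3
  rw [h2] at h4
  exact lt_irrefl _ h4

/-! ### Kernels of surjections onto fields -/

/-- A surjective ring homomorphism from a valuation ring onto a field kills the non-units. -/
theorem map_eq_zero_of_valuation_lt {L E : Type*} [Field L] [Field E] (O : ValuationSubring L)
    (φ : O →+* E) (hφ : Function.Surjective φ) (z : O) (hz : O.valuation (z : L) < 1) :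
    φ z = 0 := by
  by_contra hne
  obtain ⟨w, hw⟩ := hφ (φ z)⁻¹
  have h1 : φ (z * w - 1) = 0 := by
    rw [map_sub, map_mul, hw, mul_inv_cancel₀ hne, map_one, sub_self]
  -- `z w - 1` is a unit of `O`
  have h2 : O.valuation ((z * w : O) : L) < 1 := by
    have hw1 : O.valuation (w : L) ≤ 1 := (O.valuation_le_one_iff _).mpr w.2
    push_cast
    rw [map_mul]
    calc O.valuation (z : L) * O.valuation (w : L) ≤ O.valuation (z : L) * 1 :=
          mul_le_mul' le_rfl hw1
      _ = O.valuation (z : L) := mul_one _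
      _ < 1 := hz
  have h3 : O.valuation (((z * w - 1 : O)) : L) = 1 := by
    have h4 : (((z * w - 1 : O)) : L) = ((z * w : O) : L) + (-1) := by
      push_cast; ring
    rw [h4]
    have h5 : O.valuation (-1 : L) = 1 := by rw [Valuation.map_neg, map_one]
    have := Valuation.map_add_eq_of_lt_right O.valuation (x := ((z * w : O) : L)) (y := (-1 : L))
      (by rw [h5]; exact h2)
    rw [this, h5]
  have h6 : IsUnit (z * w - 1 : O) := (O.valuation_eq_one_iff _).mpr h3
  have h7 : IsUnit (φ (z * w - 1)) := h6.map φ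
  rw [h1] at h7
  exact not_isUnit_zero h7


/-! ### The datum: kernels, inverses of the coordinate -/

section Datum

variable (G : Datum A π F Fk)

/-- `π` kills the non-units of `A`. -/
theorem pi_eq_zero (G : Datum A π F Fk) (a : A) (ha : A.valuation (a : K) < 1) : π a = 0 :=
  map_eq_zero_of_valuation_lt A π G.π_surj a ha

/-- `ρ` kills the non-units of `O`. -/
theorem rho_eq_zero (z : G.O) (hz : G.O.valuation (z : F) < 1) : G.ρ z = 0 :=
  map_eq_zero_of_valuation_lt G.O G.ρ G.ρ_surj z hz

theorem xk_ne_zero : G.xk ≠ 0 := fun h =>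
  G.xk_transc (by rw [show G.ρ ⟨G.x, G.x_mem⟩ = G.xk from rfl, h]; exact isAlgebraic_zero)

theorem x_ne_zero : G.x ≠ 0 := by
  intro h
  apply xk_ne_zero G
  have : (⟨G.x, G.x_mem⟩ : G.O) = 0 := Subtype.ext h
  rw [Datum.xk, this, map_zero]

/-- `x` is a unit of `O`. -/
theorem x_inv_mem : G.x⁻¹ ∈ G.O := by
  by_contra h
  have h1 : G.O.valuation (G.x⁻¹)⁻¹ < 1 := valuation_inv_lt_of_not_mem h
  rw [inv_inv] at h1
  exact xk_ne_zero G (rho_eq_zero G ⟨G.x, G.x_mem⟩ h1)

theorem rho_x_inv : G.ρ ⟨G.x⁻¹, x_inv_mem G⟩ = G.xk⁻¹ := by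
  have h1 : (⟨G.x, G.x_mem⟩ : G.O) * ⟨G.x⁻¹, x_inv_mem G⟩ = 1 :=
    Subtype.ext (mul_inv_cancel₀ (x_ne_zero G))
  have h2 : G.xk * G.ρ ⟨G.x⁻¹, x_inv_mem G⟩ = 1 := by
    rw [Datum.xk, ← map_mul, h1, map_one]
  exact eq_inv_of_mul_eq_one_right h2

theorem red_eq {f : F} (hf : f ∈ G.O) : G.red f = G.ρ ⟨f, hf⟩ := by
  unfold Datum.red
  rw [dif_pos hf]

/-- elements of `A[t]` are integral over `A[t]` -/
theorem polyRing_le_chart (t : F) : G.polyRing t ≤ G.chart t := by
  intro s hs
  show IsIntegral (G.polyRing t) s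
  exact isIntegral_algebraMap (R := G.polyRing t) (x := ⟨s, hs⟩)

theorem self_mem_polyRing (t : F) : t ∈ G.polyRing t := by
  unfold Datum.polyRing
  exact (le_sup_right : Subring.closure {t} ≤ _) (Subring.subset_closure rfl)

theorem const_mem_polyRing (t : F) (a : A) : algebraMap K F (a : K) ∈ G.polyRing t := by
  unfold Datum.polyRing
  refine (le_sup_left : G.constRing ≤ _) ?_
  exact ⟨(a : K), a.2, rfl⟩

theorem self_mem_chart (t : F) : t ∈ G.chart t :=
  polyRing_le_chart G t (self_mem_polyRing G t)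

end Datum

end Fermat.Agent.S37.Red.H144

end
end
-- ===== PACK-END S37/Red/H144/Basic.lean

-- ===== PACK-BEGIN S37/Red/H144/Swap.lean
section


/-!
# S37-RED, piece RED-D (route N), part 2: chart dichotomy and the swapped datum (helper144)
-/

set_option autoImplicit false

noncomputable section

namespace Fermat.Agent.S37.Red.H144

open AlgebraicCurve IntermediateField Polynomial

universe u

variable {K k F Fk : Type u} [Field K] [Field k] [Field F] [Field Fk]
  [Algebra K F] [Algebra k Fk] {A : ValuationSubring K} {π : A →+* k}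

/-! ### The chart dichotomy -/

/-- If `F` has a place at all, the coordinate is transcendental over `K`. -/
theorem transcendental_x [IsAlgClosed K] (G : Datum A π F Fk) (hgood : G.Good)
    (P : Place K F) : Transcendental K G.x := by
  intro halg
  have hfin := hgood.finite
  apply P.ne_top'
  have h1 : Algebra.IsAlgebraic K K⟮G.x⟯ :=
    IntermediateField.isAlgebraic_adjoin_simple halg.isIntegral
  have h2 : Algebra.IsAlgebraic K⟮G.x⟯ F := Algebra.IsAlgebraic.of_finite _ _
  have h3 : Algebra.IsAlgebraic K F := Algebra.IsAlgebraic.trans K K⟮G.x⟯ F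
  rw [eq_top_iff]
  intro f _
  obtain ⟨a, rfl⟩ := S24.FF.mem_range_of_isAlgebraic (h3.isAlgebraic f)
  exact P.algebraMap_mem' a

/-- Every place lies in the finite chart or in the chart at infinity. -/
theorem chart_dichotomy [IsAlgClosed K] (G : Datum A π F Fk) (hgood : G.Good)
    (P : Place K F) :
    (∃ a₀ : A, ValAt P G.x a₀) ∨ (∃ a₀ : A, π a₀ = 0 ∧ ValAt P G.x⁻¹ a₀) := by
  have hx := transcendental_x G hgood P
  have hfin := hgood.finite
  by_cases hmem : G.x ∈ P.toValuationSubring
  · obtain ⟨a, ha⟩ := S24.FF.exists_const_sub_mem_nonunits P hx hmem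
    have hav : P.toValuationSubring.valuation (G.x - algebraMap K F a) < 1 := ha
    by_cases haA : a ∈ A
    · exact Or.inl ⟨⟨a, haA⟩, hav⟩
    · right
      have hinv : A.valuation a⁻¹ < 1 := valuation_inv_lt_of_not_mem haA
      have hinvA : a⁻¹ ∈ A := (A.valuation_le_one_iff _).mp hinv.le
      have ha0 : a ≠ 0 := fun h => haA (h ▸ A.zero_mem)
      refine ⟨⟨a⁻¹, hinvA⟩, pi_eq_zero G _ hinv, ?_⟩
      show P.toValuationSubring.valuation (G.x⁻¹ - algebraMap K F a⁻¹) < 1
      have hx0 := x_ne_zero G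
      have hva : P.toValuationSubring.valuation (algebraMap K F a) = 1 := valuation_const P ha0
      have hvx : P.toValuationSubring.valuation G.x = 1 := by
        have h4 : G.x = algebraMap K F a + (G.x - algebraMap K F a) := by ring
        rw [h4, Valuation.map_add_eq_of_lt_left _ (by rw [hva]; exact hav), hva]
      have haF : algebraMap K F a ≠ 0 := (_root_.map_ne_zero _).mpr ha0
      have h5 : G.x⁻¹ - algebraMap K F a⁻¹ =
          -(G.x - algebraMap K F a) * G.x⁻¹ * (algebraMap K F a)⁻¹ := by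
        rw [map_inv₀]
        field_simp
        ring
      rw [h5, map_mul, map_mul, Valuation.map_neg, map_inv₀, map_inv₀, hvx, hva, inv_one,
        mul_one, mul_one]
      exact hav
  · right
    refine ⟨0, map_zero π, ?_⟩
    show ValAt P G.x⁻¹ (0 : K)
    rw [valAt_zero_iff]
    exact valuation_inv_lt_of_not_mem hmem

/-! ### The swapped datum -/

theorem adjoin_inv_eq' {E L : Type*} [Field E] [Field L] [Algebra E L] (f : L) :
    E⟮f⁻¹⟯ = E⟮f⟯ := by
  apply le_antisymm
  · rw [IntermediateField.adjoin_simple_le_iff]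
    exact inv_mem (IntermediateField.mem_adjoin_simple_self E f)
  · rw [IntermediateField.adjoin_simple_le_iff]
    have h := inv_mem (IntermediateField.mem_adjoin_simple_self E f⁻¹)
    rwa [inv_inv] at h

/-- The datum with coordinate `x⁻¹`. -/
def swap (G : Datum A π F Fk) : Datum A π F Fk :=
  { G with
    x := G.x⁻¹
    x_mem := x_inv_mem G
    xk_transc := by
      rw [rho_x_inv]
      intro h
      apply G.xk_transc
      have := h.inv
      rwa [inv_inv] at this }

@[simp] theorem swap_x (G : Datum A π F Fk) : (swap G).x = G.x⁻¹ := rfl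

theorem swap_xk (G : Datum A π F Fk) : (swap G).xk = G.xk⁻¹ := rho_x_inv G

theorem swap_O (G : Datum A π F Fk) : (swap G).O = G.O := rfl

theorem swap_good (G : Datum A π F Fk) (h : G.Good) : (swap G).Good where
  finite := by
    show FiniteDimensional K⟮G.x⁻¹⟯ F
    rw [adjoin_inv_eq']
    exact h.finite
  finite_k := by
    rw [swap_xk, adjoin_inv_eq']
    exact h.finite_k
  sep_k := by
    rw [swap_xk, adjoin_inv_eq']
    exact h.sep_k
  finrank_eq := by
    show Module.finrank K⟮G.x⁻¹⟯ F = Module.finrank k⟮(swap G).xk⟯ Fk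
    rw [swap_xk, adjoin_inv_eq', adjoin_inv_eq']
    exact h.finrank_eq
  lift_fin := by
    intro c hc
    have hc' : c ∈ G.chartk G.xk⁻¹ := by
      rw [← swap_xk]
      exact hc
    exact h.lift_inf c hc'
  lift_inf := by
    intro c hc
    have hc' : c ∈ G.chartk G.xk := by
      have h1 : c ∈ G.chartk ((swap G).xk)⁻¹ := hc
      rwa [swap_xk, inv_inv] at h1
    obtain ⟨b, hb, hbO, e⟩ := h.lift_fin c hc'
    refine ⟨b, ?_, hbO, e⟩
    show b ∈ G.chart (G.x⁻¹)⁻¹
    rw [inv_inv]
    exact hb
  sat_fin := fun f hf hfK => h.sat_inf f hf hfK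
  sat_inf := by
    intro f hf hfK
    show f ∈ G.chart (G.x⁻¹)⁻¹
    have hfK' : f ∈ G.chartK (G.x⁻¹)⁻¹ := hfK
    rw [inv_inv] at hfK' ⊢
    exact h.sat_fin f hf hfK'

theorem swap_evalCompat (G : Datum A π F Fk) (r : Place K F → Place k Fk)
    (h : EvalCompat G r) : EvalCompat (swap G) r := by
  refine ⟨h.2, ?_⟩
  show EvalCompatAt G r (G.x⁻¹)⁻¹
  rw [inv_inv]
  exact h.1

end Fermat.Agent.S37.Red.H144

end
end
-- ===== PACK-END S37/Red/H144/Swap.lean

-- ===== PACK-BEGIN S37/Red/H144/Monic.lean
section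


/-!
# S37-RED, piece RED-D (route N), part 3: monic-like functions at the poles of `x̄` (helper144)

If `t = x^M (1 + x⁻¹ β)` with `β` integral over `A[x⁻¹]` and `M ≥ 1`, then `t̄` has a pole at
every pole of `x̄`.
-/

set_option autoImplicit false

noncomputable section

namespace Fermat.Agent.S37.Red.H144

open AlgebraicCurve IntermediateField Polynomial

universe u

variable {K k F Fk : Type u} [Field K] [Field k] [Field F] [Field Fk]
  [Algebra K F] [Algebra k Fk] {A : ValuationSubring K} {π : A →+* k}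

/-- An element integral over a subring of a valuation ring lies in the valuation ring. -/
theorem mem_of_isIntegral_subring {L : Type*} [Field L] (O : ValuationSubring L)
    (S : Subring L) (hS : S ≤ O.toSubring) {b : L} (hb : IsIntegral S b) : b ∈ O := by
  obtain ⟨p, hp, hev⟩ := hb
  let φ : S →+* O := Subring.inclusion hS
  have hcomp : (algebraMap O L).comp φ = algebraMap S L := by
    ext s
    rfl
  have hint : IsIntegral O b := by
    refine ⟨p.map φ, hp.map φ, ?_⟩
    rw [Polynomial.eval₂_map, hcomp]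
    exact hev
  obtain ⟨y, hy⟩ := IsIntegrallyClosed.isIntegral_iff.mp hint
  rw [← hy]
  exact y.2

/-- Reduction of integral elements: if `ρ` maps a subring `S ⊆ O` into a valuation ring `Q'`
of `F_k`, it maps the elements of `O` integral over `S` into `Q'`. -/
theorem rho_mem_of_isIntegral (G : Datum A π F Fk) (S : Subring F) (hS : S ≤ G.O.toSubring)
    (Q' : ValuationSubring Fk) (hSQ : ∀ s (hs : s ∈ S), G.ρ ⟨s, hS hs⟩ ∈ Q')
    {b : F} (hb : IsIntegral S b) (hbO : b ∈ G.O) : G.ρ ⟨b, hbO⟩ ∈ Q' := by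
  obtain ⟨p, hp, hev⟩ := hb
  let φ : S →+* G.O := Subring.inclusion hS
  let ψ : S →+* Q' := (G.ρ.comp φ).codRestrict Q'.toSubring (fun s => hSQ s.1 s.2)
  have hcomp : (algebraMap Q' Fk).comp ψ = G.ρ.comp φ := by
    ext s
    rfl
  have hcomp2 : (algebraMap G.O F).comp φ = algebraMap S F := by
    ext s
    rfl
  have hzero : Polynomial.eval₂ φ (⟨b, hbO⟩ : G.O) p = 0 := by
    apply Subtype.ext
    have h1 := Polynomial.hom_eval₂ p φ (algebraMap G.O F) (⟨b, hbO⟩ : G.O)
    rw [hcomp2] at h1
    have h2 : (algebraMap G.O F) (⟨b, hbO⟩ : G.O) = b := rfl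
    rw [h2, hev] at h1
    exact h1
  have hint : IsIntegral Q' (G.ρ ⟨b, hbO⟩) := by
    refine ⟨p.map ψ, hp.map ψ, ?_⟩
    rw [Polynomial.eval₂_map, hcomp, ← Polynomial.hom_eval₂, hzero, map_zero]
  obtain ⟨y, hy⟩ := IsIntegrallyClosed.isIntegral_iff.mp hint
  rw [← hy]
  exact y.2

theorem constRing_le_O (G : Datum A π F Fk) : G.constRing ≤ G.O.toSubring := by
  rintro s ⟨a, ha, rfl⟩
  exact G.const_mem ⟨a, ha⟩

theorem polyRing_le_O (G : Datum A π F Fk) {t : F} (ht : t ∈ G.O) :
    G.polyRing t ≤ G.O.toSubring := by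
  unfold Datum.polyRing
  refine sup_le (constRing_le_O G) ?_
  rw [Subring.closure_le]
  intro s hs
  rw [Set.mem_singleton_iff] at hs
  rw [hs]
  exact ht

/-- The chart `B_t` is contained in `O` as soon as `t ∈ O`. -/
theorem chart_le_O (G : Datum A π F Fk) {t : F} (ht : t ∈ G.O) {b : F}
    (hb : b ∈ G.chart t) : b ∈ G.O :=
  mem_of_isIntegral_subring G.O (G.polyRing t) (polyRing_le_O G ht) hb

/-- If `ρ t` is regular at the valuation ring `Q'` of `F_k` (containing `k`), then `ρ` maps
`B_t` into `Q'`. -/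
theorem rho_chart_mem (G : Datum A π F Fk) {t : F} (ht : t ∈ G.O) (Q' : ValuationSubring Fk)
    (hk : ∀ c : k, algebraMap k Fk c ∈ Q') (htQ : G.ρ ⟨t, ht⟩ ∈ Q')
    {b : F} (hb : b ∈ G.chart t) (hbO : b ∈ G.O) : G.ρ ⟨b, hbO⟩ ∈ Q' := by
  refine rho_mem_of_isIntegral G (G.polyRing t) (polyRing_le_O G ht) Q' ?_ hb hbO
  -- the subring of `F` of elements of `O` whose reduction lies in `Q'`
  let S' : Subring F := (Q'.toSubring.comap G.ρ).map G.O.subtype
  have hS' : G.polyRing t ≤ S' := by
    unfold Datum.polyRing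
    refine sup_le ?_ ?_
    · rintro s ⟨a, ha, rfl⟩
      refine ⟨⟨algebraMap K F a, G.const_mem ⟨a, ha⟩⟩, ?_, rfl⟩
      show G.ρ _ ∈ Q'
      rw [G.ρ_const ⟨a, ha⟩]
      exact hk _
    · rw [Subring.closure_le]
      intro s hs
      rw [Set.mem_singleton_iff] at hs
      rw [hs]
      exact ⟨⟨t, ht⟩, htQ, rfl⟩
  intro s hs
  obtain ⟨z, hz, hzs⟩ := hS' hs
  have : z = ⟨s, polyRing_le_O G ht hs⟩ := Subtype.ext hzs
  rw [← this]
  exact hz

/-- **Monic-like functions have poles at the poles of `x̄`.** -/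
theorem rho_not_mem_of_monicLike (G : Datum A π F Fk) {t : F} {M : ℕ} (hM : 0 < M)
    (hml : G.MonicLike t M) (ht : t ∈ G.O) (Q : Place k Fk)
    (hQ : G.xk ∉ Q.toValuationSubring) : G.ρ ⟨t, ht⟩ ∉ Q.toValuationSubring := by
  obtain ⟨-, β, hβ, heq⟩ := hml
  have hxi := x_inv_mem G
  have hβO : β ∈ G.O := chart_le_O G hxi hβ
  -- the relation after reduction
  have hrel : G.ρ ⟨t, ht⟩ = G.xk ^ M * (1 + G.xk⁻¹ * G.ρ ⟨β, hβO⟩) := by
    have h1 : (⟨t, ht⟩ : G.O) =
        (⟨G.x, G.x_mem⟩ : G.O) ^ M * (1 + ⟨G.x⁻¹, hxi⟩ * ⟨β, hβO⟩) := Subtype.ext heq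
    rw [h1, map_mul, map_pow, map_add, map_one, map_mul, rho_x_inv]
    rfl
  set v := Q.toValuationSubring.valuation with hv
  have hxk : v G.xk⁻¹ < 1 := valuation_inv_lt_of_not_mem hQ
  have hxkQ : G.xk⁻¹ ∈ Q.toValuationSubring :=
    (Q.toValuationSubring.valuation_le_one_iff _).mp hxk.le
  have hβQ : G.ρ ⟨β, hβO⟩ ∈ Q.toValuationSubring := by
    refine rho_chart_mem G hxi Q.toValuationSubring Q.algebraMap_mem' ?_ hβ hβO
    rw [rho_x_inv]
    exact hxkQ
  have hβv : v (G.ρ ⟨β, hβO⟩) ≤ 1 := (Q.toValuationSubring.valuation_le_one_iff _).mpr hβQ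
  have h2 : v (G.xk⁻¹ * G.ρ ⟨β, hβO⟩) < 1 := by
    rw [map_mul]
    calc v G.xk⁻¹ * v (G.ρ ⟨β, hβO⟩) ≤ v G.xk⁻¹ * 1 := mul_le_mul' le_rfl hβv
      _ = v G.xk⁻¹ := mul_one _
      _ < 1 := hxk
  have h3 : v (1 + G.xk⁻¹ * G.ρ ⟨β, hβO⟩) = 1 := by
    rw [Valuation.map_add_eq_of_lt_left _ (by rw [map_one]; exact h2), map_one]
  have h4 : 1 < v G.xk := by
    by_contra h
    rw [not_lt] at h
    exact hQ ((Q.toValuationSubring.valuation_le_one_iff _).mp h)
  have h5 : 1 < v (G.ρ ⟨t, ht⟩) := by
    rw [hrel, map_mul, map_pow, h3, mul_one]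
    exact one_lt_pow₀ h4 (Nat.pos_iff_ne_zero.mp hM)
  intro hmem
  have := (Q.toValuationSubring.valuation_le_one_iff _).mpr hmem
  exact absurd h5 (not_lt.mpr this)

end Fermat.Agent.S37.Red.H144

end
end
-- ===== PACK-END S37/Red/H144/Monic.lean

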