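import Mathlib
import Fermat.Prelude.Def_AlgebraicCurve_BaseChangeGalois
import Fermat.Agent.Pack.S3234.G4E0L1
import Fermat.Agent.Pack.S3234.G4E1L0
import Fermat.Agent.Pack.S3234.G4E2L2
import Fermat.Agent.Pack.S3234.G4E1L1
import Fermat.Agent.Pack.S3234.G0E2L2
import Fermat.Agent.Pack.S3234.G4E0L2
import Fermat.Agent.Pack.S3234.G0E4L2
import Fermat.Agent.Pack.S3234.G0E3L1
import Fermat.Agent.Pack.S3234.G4E2L3
import Fermat.Agent.Pack.S3234.G0E5L1
import Fermat.Agent.Pack.S3234.G4E1L3
import Fermat.Agent.Pack.S3234.G4E2L1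
import Fermat.Agent.Pack.S3234.G4E1L2

-- ===== PACK-BEGIN S19/H135/Closure.lean
section
/-
Cell A3 / WP-C (helper135): closure properties of Hopf models (the S19 / `IsFlatAt`
existential) under equivariant sub-objects, quotients, products, finite powers and
sub-quotients, and the glue to `GaloisRepAdic.IsFlatAt` (piece C4).

Everything is relative to the ORD block `Fermat.Agent.S19.OrdStatement` of the frozen A3
interface (order datum on a finite module gives a Hopf model), taken as a hypothesis.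
-/





set_option autoImplicit false

namespace Fermat.Agent.S19.H135

open Fermat.Agent.S19

section Adapter

variable {ℓ : ℕ} {M : Type} [AddCommGroup M] {act : GalQ → M → M}

/-- `FlatModel` is the frozen `HopfModel`. -/
theorem flatModel_iff_hopfModel : FlatModel ℓ M act ↔ HopfModel ℓ M act := Iff.rfl

/-- A Hopf lattice is an order datum of the frozen A3 interface. -/
def IsHopfLattice.toOrderDatum {Λ : Subalgebra (GaloisRep.ratLocalizedAt ℓ) (M → Qb)}
    (hΛ : IsHopfLattice ℓ act Λ) : OrderDatum ℓ M act where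
  act_add := hΛ.act_add
  gens := (Λ : Set (M → Qb))
  equivariant := fun f hf => hΛ.equivariant f hf
  integral := fun _ hf m => hΛ.isIntegral_apply hf m
  separates := hΛ.separates
  add_mem := fun f hf => by
    refine box_induction (C := fun F => F ∈ Algebra.adjoin (Zb ℓ)
      (coordFunctions (Λ : Set (M → Qb)))) (hΛ.comul_mem hf) ?_ ?_
    · intro a ha b hb
      have h1 : (fun p : M × M => a p.1) ∈ Algebra.adjoin (Zb ℓ)
          (coordFunctions (Λ : Set (M → Qb))) :=
        Algebra.subset_adjoin (Or.inl ⟨a, ha, rfl⟩)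
      have h2 : (fun p : M × M => b p.2) ∈ Algebra.adjoin (Zb ℓ)
          (coordFunctions (Λ : Set (M → Qb))) :=
        Algebra.subset_adjoin (Or.inr ⟨b, hb, rfl⟩)
      exact Subalgebra.mul_mem _ h1 h2
    · intro F₁ F₂ h₁ h₂
      exact Subalgebra.add_mem _ h₁ h₂

/-- A Hopf lattice gives a Hopf model (given the ORD block). -/
theorem HasHopfLattice.hopfModel (hord : OrdStatement) [Fact ℓ.Prime]
    (h : HasHopfLattice ℓ M act) : HopfModel ℓ M act := by
  obtain ⟨Λ, hΛ⟩ := h
  have : Finite M := hΛ.finite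
  exact hord ℓ M act ⟨hΛ.toOrderDatum⟩

/-- The ORD block implies the hypothesis `Layer0` of this library. -/
theorem layer0_of_ordStatement (hord : OrdStatement) [Fact ℓ.Prime] : Layer0 ℓ :=
  fun _ _ _ h => h.hopfModel hord

theorem HopfModel.hasHopfLattice_h135 (h : HopfModel ℓ M act) : HasHopfLattice ℓ M act :=
  FlatModel.hasHopfLattice h

/-- A module carrying a Hopf model is finite. -/
theorem HopfModel.finite_h135 (h : HopfModel ℓ M act) : Finite M := by
  obtain ⟨Λ, hΛ⟩ := HopfModel.hasHopfLattice_h135 h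
  exact hΛ.finite

/-- The Galois action of a module carrying a Hopf model is additive. -/
theorem HopfModel.act_add_h135 (h : HopfModel ℓ M act) (σ : GalQ) (m n : M) :
    act σ (m + n) = act σ m + act σ n := by
  obtain ⟨Λ, hΛ⟩ := HopfModel.hasHopfLattice_h135 h
  exact hΛ.act_add σ m n

/-- The Galois action of a module carrying a Hopf model is an action. -/
theorem HopfModel.act_mul_h135 (h : HopfModel ℓ M act) (σ τ : GalQ) (m : M) :
    act (σ * τ) m = act σ (act τ m) := by
  obtain ⟨Λ, hΛ⟩ := HopfModel.hasHopfLattice_h135 h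
  exact hΛ.act_mul σ τ m

theorem HopfModel.act_one_h135 (h : HopfModel ℓ M act) (m : M) : act 1 m = m := by
  obtain ⟨Λ, hΛ⟩ := HopfModel.hasHopfLattice_h135 h
  exact hΛ.act_one m

end Adapter

section Closure

variable (hord : OrdStatement) {ℓ : ℕ} [Fact ℓ.Prime]
variable {M M₁ M₂ : Type} [AddCommGroup M] [AddCommGroup M₁] [AddCommGroup M₂]
  {act : GalQ → M → M} {act₁ : GalQ → M₁ → M₁} {act₂ : GalQ → M₂ → M₂}

include hord

/-- **Sub-objects**: Hopf models restrict along equivariant additive injections. -/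
theorem hopfModel_of_injective (h : HopfModel ℓ M act) (i : M₁ →+ M)
    (hi : Function.Injective i) (heq : ∀ σ m, i (act₁ σ m) = act σ (i m)) :
    HopfModel ℓ M₁ act₁ :=
  ((HopfModel.hasHopfLattice_h135 h).of_injective i hi heq).hopfModel hord

/-- **Transport** along equivariant additive isomorphisms. -/
theorem hopfModel_of_addEquiv (h : HopfModel ℓ M act) (e : M ≃+ M₁)
    (heq : ∀ σ m, e (act σ m) = act₁ σ (e m)) : HopfModel ℓ M₁ act₁ :=
  ((HopfModel.hasHopfLattice_h135 h).of_addEquiv e heq).hopfModel hord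

/-- **Quotients**: Hopf models descend along equivariant additive surjections. -/
theorem hopfModel_of_surjective (h : HopfModel ℓ M act) (q : M →+ M₂)
    (hq : Function.Surjective q) (heq : ∀ σ m, q (act σ m) = act₂ σ (q m)) :
    HopfModel ℓ M₂ act₂ :=
  ((HopfModel.hasHopfLattice_h135 h).of_surjective q hq heq).hopfModel hord

/-- **Sub-quotients**. -/
theorem hopfModel_of_subquotient (h : HopfModel ℓ M act) (i : M₁ →+ M)
    (hi : Function.Injective i) (hieq : ∀ σ m, i (act₁ σ m) = act σ (i m))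
    (q : M₁ →+ M₂) (hq : Function.Surjective q) (hqeq : ∀ σ m, q (act₁ σ m) = act₂ σ (q m)) :
    HopfModel ℓ M₂ act₂ :=
  (((HopfModel.hasHopfLattice_h135 h).of_injective i hi hieq).of_surjective q hq hqeq).hopfModel
    hord

/-- **Binary products**. -/
theorem hopfModel_prod (h₁ : HopfModel ℓ M₁ act₁) (h₂ : HopfModel ℓ M₂ act₂) :
    HopfModel ℓ (M₁ × M₂) (fun σ m => (act₁ σ m.1, act₂ σ m.2)) :=
  ((HopfModel.hasHopfLattice_h135 h₁).prod (HopfModel.hasHopfLattice_h135 h₂)).hopfModel hord

/-- **Finite powers**. -/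
theorem hopfModel_power (h : HopfModel ℓ M act) (ι : Type) [Finite ι] :
    HopfModel ℓ (ι → M) (fun σ v i => act σ (v i)) :=
  ((HopfModel.hasHopfLattice_h135 h).power ι).hopfModel hord

/-- Stable subgroups. -/
theorem hopfModel_addSubgroup (h : HopfModel ℓ M act) (M' : AddSubgroup M)
    (hM' : ∀ σ, ∀ m ∈ M', act σ m ∈ M') :
    HopfModel ℓ M' (fun σ m => ⟨act σ m.1, hM' σ m.1 m.2⟩) :=
  ((HopfModel.hasHopfLattice_h135 h).addSubgroup M' hM').hopfModel hord

end Closure

section C4

variable (hord : OrdStatement) {p : ℕ} [Fact p.Prime]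
variable {A : Type} [CommRing A] [IsLocalRing A]

include hord

/-- **Piece C4.**  A Galois representation all of whose finite quotients `V / I V` are
equivariant sub-quotients of modules carrying Hopf models is flat at `p`. -/
theorem isFlatAt_of_subquotient (ρ : GaloisRepAdic A)
    (hres : Finite (IsLocalRing.ResidueField A))
    (h : ∀ I : Ideal A, Finite (A ⧸ I) →
      ∃ (M : Type) (_ : AddCommGroup M) (act : GalQ → M → M)
        (M₁ : Type) (_ : AddCommGroup M₁) (act₁ : GalQ → M₁ → M₁)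
        (i : M₁ →+ M) (q : M₁ →+ ρ.V ⧸ (I • (⊤ : Submodule A ρ.V))),
        HopfModel p M act ∧ Function.Injective i ∧ (∀ σ m, i (act₁ σ m) = act σ (i m)) ∧
        Function.Surjective q ∧ ∀ σ m, q (act₁ σ m) = ρ.levelAction I σ (q m)) :
    ρ.IsFlatAt p := by
  refine ⟨hres, fun I hI => ?_⟩
  obtain ⟨M, _, act, M₁, _, act₁, i, q, hM, hi, hieq, hq, hqeq⟩ := h I hI
  exact hopfModel_of_subquotient hord hM i hi hieq q hq hqeq

/-- Variant of C4 with the Hopf models provided by the frozen S19 for the torsion of `J₀(N)`: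
it suffices to present every `V / I V` as a sub-quotient of a finite power of some
`J₀(N)[p^k]`. -/
theorem isFlatAt_of_subquotient_tors (N : ℕ)
    (hS19 : ∀ k : ℕ, HopfModel p (Tors N p k) (torsAct N p k))
    (ρ : GaloisRepAdic A) (hres : Finite (IsLocalRing.ResidueField A))
    (h : ∀ I : Ideal A, Finite (A ⧸ I) →
      ∃ (k r : ℕ) (M₁ : Type) (_ : AddCommGroup M₁) (act₁ : GalQ → M₁ → M₁)
        (i : M₁ →+ (Fin r → Tors N p k)) (q : M₁ →+ ρ.V ⧸ (I • (⊤ : Submodule A ρ.V))),
        Function.Injective i ∧ (∀ σ m, i (act₁ σ m) = fun j => torsAct N p k σ (i m j)) ∧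
        Function.Surjective q ∧ ∀ σ m, q (act₁ σ m) = ρ.levelAction I σ (q m)) :
    ρ.IsFlatAt p := by
  refine isFlatAt_of_subquotient hord ρ hres (fun I hI => ?_)
  obtain ⟨k, r, M₁, _, act₁, i, q, hi, hieq, hq, hqeq⟩ := h I hI
  exact ⟨Fin r → Tors N p k, inferInstance, fun σ v j => torsAct N p k σ (v j), M₁, _, act₁, i, q,
    hopfModel_power hord (hS19 k) (Fin r), hi, hieq, hq, hqeq⟩

end C4

section Frozen

/-- The frozen S19 conclusion gives a Hopf model for the torsion module (converse of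
`Fermat.Agent.S19.frozen_of_hopfModel`). -/
theorem hopfModel_of_frozenShape (N ℓ k : ℕ)
    (h : ∃ (H : Type) (_ : CommRing H) (_ : HopfAlgebra (GaloisRep.ratLocalizedAt ℓ) H),
      Module.Finite (GaloisRep.ratLocalizedAt ℓ) H ∧ Module.Flat (GaloisRep.ratLocalizedAt ℓ) H ∧
      Coalgebra.IsCocomm (GaloisRep.ratLocalizedAt ℓ) H ∧
      ∃ e : WithConv (H →ₐ[GaloisRep.ratLocalizedAt ℓ] AlgebraicClosure ℚ) ≃
          ↥(Submodule.torsionBy ℤ (ModularCurve.JZero N) ((ℓ : ℤ) ^ k)),
        (∀ f g, e (f * g) = e f + e g) ∧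
        ∀ (σ : AlgebraicClosure ℚ ≃ₐ[ℚ] AlgebraicClosure ℚ)
          (f g : WithConv (H →ₐ[GaloisRep.ratLocalizedAt ℓ] AlgebraicClosure ℚ)),
          (∀ h : H, g h = σ (f h)) →
            ((e g : ModularCurve.JZero N)) = σ • (e f : ModularCurve.JZero N)) :
    HopfModel ℓ (Tors N ℓ k) (torsAct N ℓ k) := by
  obtain ⟨H, i1, i2, hfin, hflat, hco, e, hmul, hgal⟩ := h
  refine ⟨H, i1, i2, hfin, hflat, hco, e, hmul, ?_⟩
  intro σ f g hfg
  exact Subtype.ext (hgal σ f g hfg)

end Frozen

end Fermat.Agent.S19.H135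

end
-- ===== PACK-END S19/H135/Closure.lean

-- ===== PACK-BEGIN S32/Top.lean
section
/-
Row S32 (flat at `p`), TOP GLUE — assembly (helper32).

`s32_of_pieces` : the frozen statement S32 from the pieces EIG, REL, EMB, RED of `Spec.lean`,
`S59.G4.PointsStatement` and the (landed) ORD block of cell A3.

Proof.  `T` is reduced (RED), so it has a strict finite family of local `p`-adic points `P_i`
(POINTS).  At each point: a flat eigenmodule `E_i` (EIG) on which every `g` satisfies the
characteristic polynomial of `H.ρ g` (REL), hence a strict semilinear equivariant map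
`φ_i : V → E_i.M` (EMB; `T[G] → End V` is onto by Burnside–Nakayama, `S31.H202`).
For an ideal `I` of finite colength, `𝔪_T ^ n ≤ I`; strictness of the points and of the `φ_i`
gives exponents with `ker (V → ∏ E_i.M / J_i) ≤ I V`.  So `V / I V` is an equivariant
sub-quotient of the finite product `∏ E_i.M / J_i` of Hopf models (closure, `S19.H135`).
-/




set_option autoImplicit false

noncomputable section

namespace Fermat.Agent.S32

open IsLocalRing Fermat.Agent.S19 Fermat.Agent.S31 Fermat.Agent.S59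

/-! ### Finite dependent products of Hopf models -/

section DepProd

variable (hord : OrdStatement) {ℓ : ℕ} [Fact ℓ.Prime]

include hord

theorem hopfModel_piFin (n : ℕ) : ∀ (M : Fin n → Type) [_inst : ∀ i, AddCommGroup (M i)]
    (act : ∀ i, GalQ → M i → M i), (∀ i, HopfModel ℓ (M i) (act i)) →
    HopfModel ℓ (∀ i, M i) (fun σ v i => act i σ (v i)) := by
  induction n with
  | zero =>
    intro M _ act _
    exact (H135.hasHopfLattice_of_subsingleton).hopfModel hord
  | succ n ih =>
    intro M _ act h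
    have h1 := H135.hopfModel_prod hord (h 0)
      (ih (fun i => M i.succ) (fun i => act i.succ) (fun i => h i.succ))
    let e : (M 0 × (∀ i : Fin n, M i.succ)) ≃+ (∀ i, M i) :=
      { toFun := fun q => Fin.cons (α := M) q.1 q.2
        invFun := fun v => (v 0, fun i => v i.succ)
        left_inv := fun q => by simp
        right_inv := fun v => by
          funext i
          refine Fin.cases ?_ (fun i => ?_) i <;> simp
        map_add' := fun q q' => by
          funext i
          refine Fin.cases ?_ (fun i => ?_) i <;> simp }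
    refine H135.hopfModel_of_addEquiv hord h1 e ?_
    intro σ q
    funext i
    refine Fin.cases ?_ (fun i => ?_) i <;> simp [e]

/-- A module `W` which is an equivariant quotient of `V`, such that the kernel of `V → W`
contains the common kernel of finitely many equivariant maps from `V` to Hopf models, is a Hopf
model. -/
theorem hopfModel_of_family {V W : Type} [AddCommGroup V] [AddCommGroup W]
    (actV : GalQ → V →+ V) (actW : GalQ → W → W) (n : ℕ) (M : Fin n → Type)
    [∀ i, AddCommGroup (M i)] (act : ∀ i, GalQ → M i → M i)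
    (hM : ∀ i, HopfModel ℓ (M i) (act i))
    (f : ∀ i, V →+ M i) (hf : ∀ i σ v, f i (actV σ v) = act i σ (f i v))
    (π : V →+ W) (hπ : Function.Surjective π) (hπeq : ∀ σ v, π (actV σ v) = actW σ (π v))
    (hker : ∀ v, (∀ i, f i v = 0) → π v = 0) : HopfModel ℓ W actW := by
  have hprod := hopfModel_piFin hord n M act hM
  have hact0 : ∀ i σ, act i σ 0 = 0 := by
    intro i σ
    have h := H135.HopfModel.act_add_h135 (hM i) σ 0 0
    rw [add_zero] at h
    exact left_eq_add.mp h
  let j : V →+ (∀ i, M i) := AddMonoidHom.pi f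
  have hj : ∀ v i, j v i = f i v := fun _ _ => rfl
  have hjeq : ∀ σ v, j (actV σ v) = fun i => act i σ (j v i) := by
    intro σ v
    funext i
    exact hf i σ v
  have hstab : ∀ σ : GalQ, j.ker ≤ j.ker.comap (actV σ) := by
    intro σ v hv
    rw [AddSubgroup.mem_comap, AddMonoidHom.mem_ker]
    rw [AddMonoidHom.mem_ker] at hv
    rw [hjeq, hv]
    funext i
    exact hact0 i σ
  have hle : j.ker ≤ π.ker := by
    intro v hv
    rw [AddMonoidHom.mem_ker] at hv ⊢
    exact hker v fun i => by rw [← hj, hv]; rfl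
  refine H135.hopfModel_of_subquotient hord (M₁ := V ⧸ j.ker)
    (act₁ := fun σ => QuotientAddGroup.map j.ker j.ker (actV σ) (hstab σ)) hprod
    (QuotientAddGroup.kerLift j) (QuotientAddGroup.kerLift_injective j) ?_
    (QuotientAddGroup.lift j.ker π hle) ?_ ?_
  · intro σ m
    induction m using QuotientAddGroup.induction_on with
    | H v => exact hjeq σ v
  · intro y
    obtain ⟨v, rfl⟩ := hπ y
    exact ⟨QuotientAddGroup.mk v, rfl⟩
  · intro σ m
    induction m using QuotientAddGroup.induction_on with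
    | H v => exact hπeq σ v

end DepProd

/-! ### Auxiliary algebra -/

section Aux

variable {T : Type} [CommRing T] [IsLocalRing T] [IsNoetherianRing T]

/-- An ideal of finite colength in a Noetherian local ring contains a power of the maximal
ideal. -/
theorem exists_pow_le_of_finite_quotient (I : Ideal T) (hI : Finite (T ⧸ I)) :
    ∃ n : ℕ, maximalIdeal T ^ n ≤ I := by
  refine Ideal.exists_pow_le_of_le_radical_of_fg ?_ (IsNoetherian.noetherian _)
  intro x hx
  -- two powers of `x` agree modulo `I`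
  obtain ⟨a, b, hab, hEq⟩ : ∃ a b : ℕ, a < b ∧
      Ideal.Quotient.mk I (x ^ a) = Ideal.Quotient.mk I (x ^ b) := by
    have hninj : ¬ Function.Injective (fun k : ℕ => Ideal.Quotient.mk I (x ^ k)) :=
      not_injective_infinite_finite _
    rw [Function.Injective] at hninj
    push Not at hninj
    obtain ⟨a, b, hEq, hne⟩ := hninj
    rcases Nat.lt_or_gt_of_ne hne with h | h
    · exact ⟨a, b, h, hEq⟩
    · exact ⟨b, a, h, hEq.symm⟩
  obtain ⟨c, rfl⟩ : ∃ c, b = a + (c + 1) := ⟨b - a - 1, by omega⟩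
  have h1 : x ^ a * (1 - x ^ (c + 1)) ∈ I := by
    rw [← Ideal.Quotient.eq_zero_iff_mem, mul_sub, mul_one, ← pow_add, map_sub, hEq, sub_self]
  have hu : IsUnit (1 - x ^ (c + 1)) := by
    have hm : x ^ (c + 1) ∈ maximalIdeal T := Ideal.pow_mem_of_mem _ hx _ (by omega)
    by_contra hnu
    have h2 : 1 - x ^ (c + 1) ∈ maximalIdeal T := (mem_maximalIdeal _).mpr hnu
    have h3 : (1 : T) ∈ maximalIdeal T := by
      have := Ideal.add_mem _ h2 hm
      rwa [sub_add_cancel] at this
    exact (Ideal.ne_top_iff_one _).mp (maximalIdeal.isMaximal T).ne_top h3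
  refine ⟨a, ?_⟩
  obtain ⟨u, hu'⟩ := hu
  have h4 : x ^ a = x ^ a * (1 - x ^ (c + 1)) * ((u⁻¹ : Tˣ) : T) := by
    rw [mul_assoc, ← hu', Units.mul_inv, mul_one]
  rw [h4]
  exact Ideal.mul_mem_right _ _ h1

omit [IsLocalRing T] [IsNoetherianRing T] in
/-- Membership in `J V` for a finite free module is tested on coordinates. -/
theorem mem_smul_top_of_repr {V : Type} [AddCommGroup V] [Module T V] {ι : Type} [Fintype ι]
    (b : Module.Basis ι T V) (J : Ideal T) (v : V) (h : ∀ i, b.repr v i ∈ J) :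
    v ∈ J • (⊤ : Submodule T V) := by
  rw [← b.sum_repr v]
  exact Submodule.sum_mem _ fun i _ => Submodule.smul_mem_smul (h i) Submodule.mem_top

omit [IsLocalRing T] [IsNoetherianRing T] in
theorem repr_mem_of_mem_smul_top' {V : Type} [AddCommGroup V] [Module T V] {ι : Type}
    (b : Module.Basis ι T V) (J : Ideal T) (v : V) (h : v ∈ J • (⊤ : Submodule T V)) (i : ι) :
    b.repr v i ∈ J := by
  refine Submodule.smul_induction_on h ?_ ?_
  · intro r hr w _
    rw [map_smul, Finsupp.smul_apply, smul_eq_mul]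
    exact Ideal.mul_mem_right _ _ hr
  · intro x y hx hy
    rw [map_add, Finsupp.add_apply]
    exact Ideal.add_mem _ hx hy

end Aux

/-! ### The assembly -/

section Asm

open Fermat.Agent.S30.H990 (AdicEigenModule)

/-- **S32 from the pieces.** -/
theorem s32_of_pieces (hord : OrdStatement) (hEig : FlatEigenStatement) (hRel : RelStatement)
    (hEmb : EmbedStatement) (hRed : RedStatement) (hPts : G4.PointsStatement) :
    S32Statement := by
  intro p N _ S 𝒪 _ _ _ _ θ T _ _ _ _ _ _ _ _ _ _ hp _ hp𝒪 hpN hpS hNS H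
  have : Fact p.Prime := ⟨hp⟩
  have : IsReduced T := hRed N S hNS 𝒪 θ T H
  obtain ⟨F, hstrict, hloc⟩ := hPts p 𝒪 hp𝒪 T
  have hspan := H202.span_range_rho_eq_top H.ρ H.residual_absIrr
  -- the residue field of `T` is finite
  have hresT : Finite (ResidueField T) :=
    Finite.of_surjective (fun x : ResidueField 𝒪 =>
      ResidueField.map (algebraMap 𝒪 T) x) (by
        intro y
        obtain ⟨a, rfl⟩ := H.residue_surjective y
        exact ⟨residue 𝒪 a, rfl⟩)
  refine ⟨hresT, fun I hI => ?_⟩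
  obtain ⟨n, hn⟩ := exists_pow_le_of_finite_quotient I hI
  obtain ⟨n', hn'⟩ := hstrict n
  -- the data at the points
  have hpt : ∀ i : Fin F.length, ∃ (E : AdicEigenModule p N S (F.get i).O
      ((F.get i).χ.comp H.π)) (φ : H.ρ.V →+ E.M) (k : ℕ), IsFlatMod p E.ρ ∧
      (∀ (g : GalQ) (v : H.ρ.V), φ (H.ρ.ρ g v) = E.ρ g (φ v)) ∧
      ∀ (m : ℕ) (v : H.ρ.V),
        φ v ∈ (maximalIdeal (F.get i).O ^ (m + k)) • (⊤ : Submodule (F.get i).O E.M) →
          v ∈ (Ideal.comap (F.get i).χ (maximalIdeal (F.get i).O ^ m)) •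
            (⊤ : Submodule T H.ρ.V) := by
    intro i
    have hmem : F.get i ∈ F := List.get_mem F i
    obtain ⟨E, hE⟩ := hEig p N S hpS hNS hpN (F.get i).O (F.get i).hp ((F.get i).χ.comp H.π)
    have hrel := hRel p N S hpS hNS 𝒪 θ T H (F.get i) (hloc _ hmem) E
    have h2 : (2 : (F.get i).O) ≠ 0 := two_ne_zero
    obtain ⟨φ, -, heq, k, hk⟩ := hEmb T H.ρ hspan (F.get i).O h2 (F.get i).χ E.M E.ρ hrel
    exact ⟨E, φ, k, hE, heq, hk⟩
  choose E φ k hflat heq hstr using hpt
  -- the ideals and the finite quotients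
  have hJfin : ∀ i : Fin F.length,
      Finite ((F.get i).O ⧸ maximalIdeal (F.get i).O ^ (n' + k i)) := by
    intro i
    have : Finite ((F.get i).O ⧸ maximalIdeal (F.get i).O) :=
      (inferInstance : Finite (ResidueField (F.get i).O))
    exact Ideal.finite_quotient_pow (IsNoetherian.noetherian _) _
  show HopfModel p (H.ρ.V ⧸ (I • (⊤ : Submodule T H.ρ.V))) (fun σ x => H.ρ.levelAction I σ x)
  refine hopfModel_of_family hord (fun σ => (H.ρ.ρ σ).toAddMonoidHom) _ F.length
    (fun i => (E i).M ⧸ ((maximalIdeal (F.get i).O ^ (n' + k i)) •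
      (⊤ : Submodule (F.get i).O (E i).M)))
    (fun i σ x => modAct (E i).ρ (maximalIdeal (F.get i).O ^ (n' + k i)) σ x)
    (fun i => hflat i _ (hJfin i))
    (fun i => (Submodule.mkQ _).toAddMonoidHom.comp (φ i)) ?_
    (Submodule.mkQ (I • (⊤ : Submodule T H.ρ.V))).toAddMonoidHom
    (Submodule.mkQ_surjective _) (fun _ _ => rfl) ?_
  · intro i σ v
    exact congrArg (Submodule.Quotient.mk (p := (maximalIdeal (F.get i).O ^ (n' + k i)) •
      (⊤ : Submodule (F.get i).O (E i).M))) (heq i σ v)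
  · intro v hv
    refine (Submodule.Quotient.mk_eq_zero _).mpr ?_
    let b := Module.Free.chooseBasis T H.ρ.V
    refine mem_smul_top_of_repr b I v fun c => hn (hn' _ fun P hP => ?_)
    obtain ⟨i, rfl⟩ := List.mem_iff_get.mp hP
    have h1 : φ i v ∈ (maximalIdeal (F.get i).O ^ (n' + k i)) •
        (⊤ : Submodule (F.get i).O (E i).M) :=
      (Submodule.Quotient.mk_eq_zero _).mp (hv i)
    exact repr_mem_of_mem_smul_top' b _ v (hstr i n' v h1) c

end Asm

end Fermat.Agent.S32

end
end
-- ===== PACK-END S32/Top.lean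

-- ===== PACK-BEGIN S28/H589/ModPoly.lean
section






/-!
# S28 / [A-Φ] (helper589): the modular polynomial `Φ_p ∈ ℤ[Y][X]`

Analytic input: helper648's conjugate product (`Fermat.Agent.S24.H648.exists_charPoly_jFun`)
gives `Φ ∈ ℂ[Y][X]`, monic of degree `[SL₂(ℤ) : Γ₀(p)] = p + 1`, with
`Φ(j(pτ), j(τ)) = 0` and `Φ(j(τ), j(pτ)) = 0` as functions on `ℍ`.
helper565's `HasTExp` calculus turns these into identities in `ℂ((q))`, and `descent`
(this directory) shows that `Φ` has integer coefficients.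
-/

set_option autoImplicit false

noncomputable section

open UpperHalfPlane ModularCurve CongruenceSubgroup Function
open scoped MatrixGroups Manifold Real

namespace Fermat.Agent.S28.H589

open Fermat.Agent.S28.H565 (HasTExp)
open Fermat.Agent.S24.H648 (goodRing charPolyAt)

local notation "𝕢" => Periodic.qParam

/-- The scaling map `τ ↦ d τ` on `ℍ`. -/
def scaleH (d : ℕ) (hd : 0 < d) (τ : ℍ) : ℍ :=
  UpperHalfPlane.mk ((d : ℂ) * (τ : ℂ)) (by
    have h : ((d : ℂ) * (τ : ℂ)).im = d * τ.im := by simp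
    rw [h]
    exact mul_pos (by exact_mod_cast hd) τ.im_pos)

@[simp]
theorem scaleH_coe (d : ℕ) (hd : 0 < d) (τ : ℍ) : ((scaleH d hd τ : ℍ) : ℂ) = (d : ℂ) * τ := rfl

theorem qParam_scaleH (d : ℕ) (hd : 0 < d) (τ : ℍ) :
    𝕢 1 ((scaleH d hd τ : ℍ) : ℂ) = 𝕢 1 (τ : ℂ) ^ d := by
  simp only [Periodic.qParam, scaleH_coe]
  rw [← Complex.exp_nat_mul]
  congr 1
  push_cast
  ring

/-- If `f` has `q`-expansion `φ` then `τ ↦ f (d τ)` has `q`-expansion `V_d φ`. -/
theorem hasTExp_comp_scaleH (d : ℕ) [NeZero d] (hd : 0 < d) {f : ℍ → ℂ} {φ : LaurentSeries ℂ}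
    (hf : HasTExp 1 f φ) : HasTExp 1 (fun τ => f (scaleH d hd τ)) (qExpand ℂ d φ) := by
  intro τ
  have hm : (d : ℤ) ≠ 0 := by exact_mod_cast NeZero.ne d
  have hι : Function.Injective (fun k : ℤ => (d : ℤ) * k) := mul_right_injective₀ hm
  have hzero : ∀ n ∉ Set.range (fun k : ℤ => (d : ℤ) * k),
      (qExpand ℂ d φ).coeff n * 𝕢 1 τ ^ n = 0 := by
    intro n hn
    rw [qExpand_coeff_of_not_dvd, zero_mul]
    rintro ⟨c, rfl⟩
    exact hn ⟨c, rfl⟩
  rw [← hι.hasSum_iff hzero]
  have hfun : ((fun n : ℤ => (qExpand ℂ d φ).coeff n * 𝕢 1 τ ^ n) ∘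
      fun k : ℤ => (d : ℤ) * k) = fun k : ℤ => φ.coeff k * 𝕢 1 (scaleH d hd τ) ^ k := by
    funext k
    simp only [Function.comp_apply]
    rw [qExpand_coeff_mul, qParam_scaleH, zpow_mul, zpow_natCast]
  rw [hfun]
  exact hf (scaleH d hd τ)

/-- Two-variable polynomial expressions in functions with `q`-expansions. -/
theorem hasTExp_eval₂ (P : Polynomial (Polynomial ℂ)) {a b : ℍ → ℂ} {α β : LaurentSeries ℂ}
    (ha : HasTExp 1 a α) (hb : HasTExp 1 b β) :
    HasTExp 1 (fun τ => (P.map (Polynomial.evalRingHom (a τ))).eval (b τ))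
      (P.eval₂ (evC α) β) := by
  induction P using Polynomial.induction_on' with
  | add p q hp hq =>
    rw [Polynomial.eval₂_add]
    exact (hp.add hq).congr fun τ => by simp
  | monomial n c =>
    rw [Polynomial.eval₂_monomial, evC_eq_aeval]
    have h1 := (ha.polynomial_aeval c).mul (hb.pow n)
    exact h1.congr fun τ => by simp [Polynomial.eval_monomial]

/-- A function-level identity `P(a(τ))(b(τ)) = 0` gives the formal identity. -/
theorem eval₂_eq_zero_of_forall (P : Polynomial (Polynomial ℂ)) {a b : ℍ → ℂ}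
    {α β : LaurentSeries ℂ} (ha : HasTExp 1 a α) (hb : HasTExp 1 b β)
    (h : ∀ τ, (P.map (Polynomial.evalRingHom (a τ))).eval (b τ) = 0) :
    P.eval₂ (evC α) β = 0 := by
  have h1 := hasTExp_eval₂ P ha hb
  have h2 : HasTExp 1 (0 : ℍ → ℂ) (P.eval₂ (evC α) β) := h1.congr fun τ => by simp [h τ]
  exact h2.eq_zero one_pos

theorem jFun648_eq : (Fermat.Agent.S24.H648.jFun : ℍ → ℂ) = Fermat.Agent.S28.H565.jFun := rfl

theorem scaleH_S_scaleH (p : ℕ) (hp : 0 < p) (w : ℍ) :
    scaleH p hp (ModularGroup.S • scaleH p hp w) = ModularGroup.S • w := by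
  apply UpperHalfPlane.ext
  rw [scaleH_coe, UpperHalfPlane.modular_S_smul, UpperHalfPlane.modular_S_smul]
  simp only [scaleH_coe]
  have hw : (w : ℂ) ≠ 0 := UpperHalfPlane.ne_zero w
  have hp' : (p : ℂ) ≠ 0 := by exact_mod_cast hp.ne'
  field_simp

theorem dedekindPsi_prime (p : ℕ) (hp : p.Prime) : ModularCurve.dedekindPsi p = p + 1 := by
  have h := Fermat.Agent.S20.H872.dedekindPsi_mul_prime_of_not_dvd (N := 1) one_ne_zero hp
    (by
      intro h
      exact hp.one_lt.ne' (Nat.dvd_one.mp h))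
  rwa [one_mul, ModularCurve.dedekindPsi_one, mul_one] at h

theorem finite_quot_Gamma0 (N : ℕ) [NeZero N] : Finite (SL(2, ℤ) ⧸ Gamma0 N) := by
  apply Nat.finite_of_card_ne_zero
  rw [Fermat.Agent.S20.H872.card_quot_Gamma0]
  intro h
  have hpos : 0 < ModularCurve.dedekindPsi N := by
    unfold ModularCurve.dedekindPsi
    apply Finset.sum_pos'
    · intro d _; exact Nat.zero_le _
    · refine ⟨1, ?_, ?_⟩
      · simp [NeZero.ne N]
      · simp [Nat.pos_of_ne_zero (NeZero.ne N)]
  omega

/-- The fintype structure on `SL₂(ℤ) / Γ₀(N)` used for the conjugate product. -/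
@[reducible] def fintypeQuot (N : ℕ) [NeZero N] : Fintype (SL(2, ℤ) ⧸ Gamma0 N) :=
  haveI := finite_quot_Gamma0 N
  Fintype.ofFinite _

theorem card_quot_prime (p : ℕ) [NeZero p] (hp : p.Prime) :
    @Fintype.card (SL(2, ℤ) ⧸ Gamma0 p) (fintypeQuot p) = p + 1 := by
  letI := fintypeQuot p
  rw [← Nat.card_eq_fintype_card, Fermat.Agent.S20.H872.card_quot_Gamma0, dedekindPsi_prime p hp]

/-- The complex modular polynomial with its two formal vanishing relations. -/
theorem exists_modPoly_complex (p : ℕ) [NeZero p] (hp : p.Prime) :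
    ∃ Φ : Polynomial (Polynomial ℂ), Φ.Monic ∧ Φ.natDegree = p + 1 ∧
      Φ.eval₂ (evC (jqModC ℂ)) (qExpand ℂ p (jqModC ℂ)) = 0 ∧
      Φ.eval₂ (evC (qExpand ℂ p (jqModC ℂ))) (jqModC ℂ) = 0 := by
  letI := fintypeQuot p
  set f₀ : ℍ → ℂ := fun τ => Fermat.Agent.S24.H648.jFun (scaleH p hp.pos τ) with hf₀
  have hf : f₀ ∈ goodRing p :=
    Fermat.Agent.S24.H648.jFun_scale_mem_goodRing p p hp.pos dvd_rfl (scaleH p hp.pos)
      (fun τ => rfl)
  obtain ⟨P, hPm, hPd, hP⟩ := Fermat.Agent.S24.H648.exists_charPoly_jFun hf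
  have hj : HasTExp 1 Fermat.Agent.S24.H648.jFun (jqModC ℂ) := by
    rw [jFun648_eq]; exact Fermat.Agent.S28.H565.hasTExp_jFun
  have hjp : HasTExp 1 f₀ (qExpand ℂ p (jqModC ℂ)) := hasTExp_comp_scaleH p hp.pos hj
  refine ⟨P, hPm, ?_, ?_, ?_⟩
  · rw [hPd]; exact card_quot_prime p hp
  · refine eval₂_eq_zero_of_forall P hj hjp fun τ => ?_
    rw [hP]
    exact Fermat.Agent.S24.H648.charPolyAt_eval_self hf.2.1 τ
  · refine eval₂_eq_zero_of_forall P hjp hj fun w => ?_
    show (P.map (Polynomial.evalRingHom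
      (Fermat.Agent.S24.H648.jFun (scaleH p hp.pos w)))).eval (Fermat.Agent.S24.H648.jFun w) = 0
    rw [hP]
    have hconj : Fermat.Agent.S24.H648.conj p f₀
        (((ModularGroup.S)⁻¹ : SL(2, ℤ)) : SL(2, ℤ) ⧸ Gamma0 p) (scaleH p hp.pos w)
        = Fermat.Agent.S24.H648.jFun w := by
      rw [Fermat.Agent.S24.H648.conj_mk hf.2.1, inv_inv]
      show Fermat.Agent.S24.H648.jFun (scaleH p hp.pos (ModularGroup.S • scaleH p hp.pos w)) = _
      rw [scaleH_S_scaleH, Fermat.Agent.S24.H648.jFun_smul]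
    rw [← hconj]
    exact Fermat.Agent.S24.H648.charPolyAt_eval_conj f₀ _ _

theorem jqModC_int_ne_zero : jqModC ℤ ≠ 0 := jqModC_ne_zero_of_nontrivial ℤ

theorem order_jqModC_int : (jqModC ℤ).order = -1 := by
  rw [← order_iotaC, iotaC, coeffMap_jqModC]
  exact Fermat.Agent.S28.H145.order_jqModC ℂ

/-- **[A-Φ]** -/
theorem nonempty_modPolyData (p : ℕ) [NeZero p] (hp : p.Prime) : Nonempty (ModPolyData p) := by
  obtain ⟨Φ, hΦm, hΦd, h1, h2⟩ := exists_modPoly_complex p hp
  have hne : jqModC ℤ ≠ qExpand ℤ p (qExpand ℤ p (jqModC ℤ)) := by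
    intro h
    have hc : (jqModC ℤ).coeff (-1) = (qExpand ℤ p (qExpand ℤ p (jqModC ℤ))).coeff (-1) :=
      congrArg (fun z => z.coeff (-1)) h
    rw [qExpand_coeff_of_not_dvd] at hc
    · have h1 : (jqModC ℤ).coeff (-1) ≠ 0 := by
        have := HahnSeries.coeff_order_eq_zero (x := jqModC ℤ)
        rw [order_jqModC_int] at this
        exact fun h0 => jqModC_int_ne_zero (this.mp h0)
      exact h1 hc
    · intro hdvd
      have h2 : (p : ℤ) ∣ 1 := (Int.dvd_neg).mp hdvd
      have h3 : p ∣ 1 := by exact_mod_cast h2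
      exact hp.one_lt.ne' (Nat.dvd_one.mp h3)
  have hcop : IsCoprime (jqModC ℤ).order (p : ℤ) := by
    rw [order_jqModC_int]
    exact (isCoprime_one_left (x := (p : ℤ))).neg_left
  obtain ⟨Ψ, hΨm, hΨd, hΨ1, hΨ2⟩ := descent p Φ hΦm (p + 1) hΦd rfl
    (qExpand ℤ p (jqModC ℤ)) (jqModC ℤ) jqModC_int_ne_zero hcop hne
    (by rw [iotaC, coeffMap_qExpand, coeffMap_jqModC]; exact h1)
    (by rw [iotaC, coeffMap_jqModC]; exact h2)
  exact ⟨⟨Ψ, hΨm, hΨd, hΨ1, hΨ2⟩⟩

end Fermat.Agent.S28.H589

end

end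
-- ===== PACK-END S28/H589/ModPoly.lean

-- ===== PACK-BEGIN S28/H589/UnitAnalytic.lean
section





/-!
# S28 / [A-W], analytic part (helper589): the unit `p¹² Δ(pτ)/Δ(τ)` is a good function

We show that `u(τ) = p¹² Δ(pτ)/Δ(τ)` belongs to helper648's `goodRing p`
(holomorphic, `Γ₀(p)`-invariant, all `SL₂(ℤ)`-translates of at most exponential growth).
-/

set_option autoImplicit false

noncomputable section

open UpperHalfPlane ModularCurve CongruenceSubgroup Function Filter Asymptotics
open scoped MatrixGroups Manifold Real Modular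

namespace Fermat.Agent.S28.H589

open Fermat.Agent.S24.H648 (goodRing ExpGrowth)

local notation "Δ" => ModularForm.discriminant

/-- The unit `u(τ) = p¹² Δ(pτ)/Δ(τ)`. -/
def unitFun (p : ℕ) (hp : 0 < p) (τ : ℍ) : ℂ :=
  (p : ℂ) ^ 12 * Δ (scaleH p hp τ) * (Δ τ)⁻¹

/-- Its conjugate under `S` evaluated at `pτ`: `Δ(τ)/Δ(pτ)`. -/
def unitFun' (p : ℕ) (hp : 0 < p) (τ : ℍ) : ℂ :=
  Δ τ * (Δ (scaleH p hp τ))⁻¹

theorem continuous_discriminant : Continuous (Δ : ℍ → ℂ) :=
  (Fermat.Agent.S28.H565.mdifferentiable_discriminant).continuous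

/-- `‖Δ τ‖ · (im τ)⁶` is bounded. -/
theorem exists_discriminant_bound : ∃ C : ℝ, ∀ τ : ℍ, ‖Δ τ‖ * τ.im ^ 6 ≤ C := by
  obtain ⟨C, hC⟩ := CuspFormClass.exists_bound (k := 12) (Γ := 𝒮ℒ) CuspForm.discriminant
  refine ⟨C, fun τ => ?_⟩
  have h := hC τ
  have him : 0 < τ.im := τ.im_pos
  have hpow : τ.im ^ (((12 : ℤ) : ℝ) / 2) = τ.im ^ 6 := by
    have : (((12 : ℤ) : ℝ) / 2) = ((6 : ℕ) : ℝ) := by norm_num
    rw [this, Real.rpow_natCast]
  rw [hpow] at h
  have h6 : 0 < τ.im ^ 6 := by positivity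
  have h' : ‖Δ τ‖ ≤ C / τ.im ^ 6 := h
  rwa [le_div_iff₀ h6] at h'

/-- `‖Δ τ‖ · (im τ)⁶` is `SL₂(ℤ)`-invariant. -/
theorem discriminant_norm_mul_im_smul (g : SL(2, ℤ)) (τ : ℍ) :
    ‖Δ (g • τ)‖ * (g • τ).im ^ 6 = ‖Δ τ‖ * τ.im ^ 6 := by
  rw [Fermat.Agent.S24.H648.discriminant_smul, ModularGroup.im_smul_eq_div_normSq, norm_mul,
    norm_zpow]
  have hd : denom g τ ≠ 0 := denom_ne_zero _ _
  have hn : 0 < Complex.normSq (denom g τ) := Complex.normSq_pos.mpr hd
  have h1 : ‖denom g τ‖ ^ (12 : ℤ) = Complex.normSq (denom g τ) ^ 6 := by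
    rw [Complex.normSq_eq_norm_sq, ← pow_mul]
    norm_cast
  rw [h1, div_pow]
  field_simp

/-- `1/Δ` has at most exponential growth on `im τ ≥ 1`. -/
theorem exists_inv_discriminant_bound :
    ∃ C : ℝ, ∀ τ : ℍ, 1 ≤ τ.im → ‖(Δ τ)⁻¹‖ ≤ C * Real.exp (2 * π * τ.im) := by
  have hcont : Continuous (fun τ : ℍ => (Δ τ)⁻¹) :=
    continuous_discriminant.inv₀ fun τ => ModularForm.discriminant_ne_zero τ
  have hinv : (fun τ : ℍ => (Δ τ)⁻¹)
      =O[atImInfty] fun τ : ℍ => Real.exp (2 * π * (1 : ℝ) * τ.im) := by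
    have hΔ := ModularForm.exp_isBigO_discriminant
    have h1 : (fun τ : ℍ => (Δ τ)⁻¹)
        =O[atImInfty] fun τ : ℍ => (Real.exp (-2 * π * τ.im))⁻¹ := by
      refine hΔ.inv_rev ?_
      exact Eventually.of_forall fun τ h => absurd h (Real.exp_pos _).ne'
    refine h1.congr_right fun τ => ?_
    rw [← Real.exp_neg]
    congr 1
    ring
  obtain ⟨C, hC⟩ := Fermat.Agent.S24.H648.exists_bound_fd_of_isBigO_exp hcont 1 hinv
  refine ⟨C, fun τ hτ => ?_⟩
  -- translate into the fundamental domain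
  set n : ℤ := -round τ.re with hn
  set τ' : ℍ := ModularGroup.T ^ n • τ with hτ'
  have hcoe : (τ' : ℂ) = τ + n := ModularGroup.coe_T_zpow_smul_eq τ
  have him : τ'.im = τ.im := by
    have := congrArg Complex.im hcoe
    simpa using this
  have hre : τ'.re = τ.re - round τ.re := by
    have := congrArg Complex.re hcoe
    simp only [Complex.add_re, Complex.intCast_re, hn] at this
    rw [UpperHalfPlane.coe_re, UpperHalfPlane.coe_re] at this
    rw [this]
    push_cast
    ring
  have hfd : τ' ∈ 𝒟 := by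
    refine ⟨?_, ?_⟩
    · rw [Complex.normSq_apply]
      have h1 : (τ' : ℂ).im = τ.im := by rw [UpperHalfPlane.coe_im, him]
      rw [h1]
      nlinarith [mul_self_nonneg (τ' : ℂ).re]
    · rw [hre]
      exact abs_sub_round _
  have hΔ : Δ τ' = Δ τ := by
    rw [hτ', Fermat.Agent.S28.H565.discriminant_smul, ModularGroup.coe_T_zpow]
    simp
  have h := hC τ' hfd
  rw [hΔ, him] at h
  simpa using h

/-- Pure real-number bookkeeping for `expGrowth_unitFun_smul`. -/
theorem unit_real_aux (P X Y D a b C₁ C₂ E : ℝ) (hP : 0 < P) (ha : 0 < a)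
    (hb : 1 ≤ b) (hD : 0 < D) (hY : 0 < Y) (hC₁ : 0 ≤ C₁)
    (hX : X * (P * a) ^ 6 ≤ C₁) (hinv : Y * a ^ 6 = D * b ^ 6) (h2 : D⁻¹ ≤ C₂ * E) :
    P ^ 12 * X * Y⁻¹ ≤ P ^ 6 * C₁ * C₂ * E := by
  have hb0 : 0 < b := lt_of_lt_of_le one_pos hb
  have ha6 : 0 < a ^ 6 := pow_pos ha 6
  have hb6 : 1 ≤ b ^ 6 := one_le_pow₀ hb
  have hP6 : 0 < P ^ 6 := pow_pos hP 6
  have hYinv : Y⁻¹ = a ^ 6 * D⁻¹ * (b ^ 6)⁻¹ := by
    have hY' : Y = D * b ^ 6 / a ^ 6 := by
      rw [eq_div_iff ha6.ne']; exact hinv
    rw [hY', inv_div, div_eq_mul_inv, mul_inv, mul_assoc]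
  have hbinv : (b ^ 6)⁻¹ ≤ 1 := inv_le_one_of_one_le₀ hb6
  have hDinv : 0 < D⁻¹ := inv_pos.mpr hD
  have h3 : P ^ 12 * X * Y⁻¹ = P ^ 6 * (X * (P * a) ^ 6) * D⁻¹ * (b ^ 6)⁻¹ := by
    rw [hYinv]; ring
  rw [h3]
  have h4 : P ^ 6 * (X * (P * a) ^ 6) ≤ P ^ 6 * C₁ := mul_le_mul_of_nonneg_left hX hP6.le
  have h5 : P ^ 6 * (X * (P * a) ^ 6) * D⁻¹ ≤ P ^ 6 * C₁ * D⁻¹ :=
    mul_le_mul_of_nonneg_right h4 hDinv.le
  have h6 : 0 ≤ P ^ 6 * C₁ * D⁻¹ := by positivity
  have h7 : P ^ 6 * (X * (P * a) ^ 6) * D⁻¹ * (b ^ 6)⁻¹ ≤ P ^ 6 * C₁ * D⁻¹ := by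
    have h8 : P ^ 6 * (X * (P * a) ^ 6) * D⁻¹ * (b ^ 6)⁻¹
        ≤ P ^ 6 * C₁ * D⁻¹ * (b ^ 6)⁻¹ :=
      mul_le_mul_of_nonneg_right h5 (inv_nonneg.mpr (by positivity))
    exact h8.trans (mul_le_of_le_one_right h6 hbinv)
  refine h7.trans ?_
  have h9 : P ^ 6 * C₁ * D⁻¹ ≤ P ^ 6 * C₁ * (C₂ * E) :=
    mul_le_mul_of_nonneg_left h2 (by positivity)
  refine h9.trans (le_of_eq ?_)
  ring

theorem im_scaleH (p : ℕ) (hp : 0 < p) (τ : ℍ) : (scaleH p hp τ).im = p * τ.im := by
  have h : ((scaleH p hp τ : ℍ) : ℂ).im = ((p : ℂ) * (τ : ℂ)).im := rfl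
  rw [UpperHalfPlane.coe_im] at h
  rw [h]
  simp

/-- Growth of all translates of the unit. -/
theorem expGrowth_unitFun_smul (p : ℕ) (hp : 0 < p) (g : SL(2, ℤ)) :
    ExpGrowth (fun τ => unitFun p hp (g • τ)) := by
  obtain ⟨C₁, hC₁⟩ := exists_discriminant_bound
  obtain ⟨C₂, hC₂⟩ := exists_inv_discriminant_bound
  have hC₁0 : 0 ≤ C₁ := le_trans (by positivity) (hC₁ UpperHalfPlane.I)
  refine ⟨(p : ℝ) ^ 6 * C₁ * C₂, 1, fun τ hτ => ?_⟩
  have hX := hC₁ (scaleH p hp (g • τ))
  rw [im_scaleH] at hX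
  have h2 := hC₂ τ hτ
  rw [norm_inv] at h2
  have key := unit_real_aux (p : ℝ) ‖Δ (scaleH p hp (g • τ))‖ ‖Δ (g • τ)‖ ‖Δ τ‖ (g • τ).im τ.im
    C₁ C₂ (Real.exp (2 * π * τ.im)) (by exact_mod_cast hp) (g • τ).im_pos hτ
    (norm_pos_iff.mpr (ModularForm.discriminant_ne_zero τ))
    (norm_pos_iff.mpr (ModularForm.discriminant_ne_zero _)) hC₁0 hX
    (discriminant_norm_mul_im_smul g τ) h2
  show ‖unitFun p hp (g • τ)‖ ≤ _
  rw [unitFun, norm_mul, norm_mul, norm_pow, norm_inv, Complex.norm_natCast]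
  refine key.trans (le_of_eq ?_)
  push_cast
  ring_nf

end Fermat.Agent.S28.H589

end

end
-- ===== PACK-END S28/H589/UnitAnalytic.lean

-- ===== PACK-BEGIN S29/H509/KummerFun.lean
section



/-!
# The Kummer function of a character (helper509, S29 piece K1-full)

For `Γ ≤ SL(2, ℤ)` and a unitary character `χ : Γ →* ℂˣ` trivial on the stabiliser of `∞`:
`kumH χ τ = twEis χ 12 τ / Δ τ` is holomorphic on `ℍ`, nonzero, satisfies
`kumH χ (γ • τ) = χ γ * kumH χ τ` for `γ ∈ Γ`, and all its `SL(2, ℤ)`-translates have at most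
exponential growth at `i∞`.  If `χ ^ p = 1` and `Γ = Γ₀(N)`, then `kumH χ ^ p` lies in helper648's
`goodRing N` (so, by helper882's MERO, its `q`-expansion lies in the function field over `ℂ`).
-/

set_option autoImplicit false

namespace Fermat.Agent.S29.H509

open ModularForm UpperHalfPlane Matrix CongruenceSubgroup EisensteinSeries Filter Topology
open scoped MatrixGroups Manifold Real

open Fermat.Agent.S24.H648 (goodRing ExpGrowth)

noncomputable section

local notation "Δ" => ModularForm.discriminant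

/-- A uniform bound for weighted Eisenstein sums on `im z ≥ 1`. -/
theorem exists_bound_wEis {k : ℤ} (hk : 3 ≤ k) :
    ∃ M : ℝ, ∀ (w : (Fin 2 → ℤ) → ℂ), (∀ v, ‖w v‖ ≤ 1) → ∀ z : ℍ, 1 ≤ z.im →
      ‖wEis w k z‖ ≤ M := by
  refine ⟨∑' x : Fin 2 → ℤ, r ⟨⟨1, 1⟩, one_pos⟩ ^ (-k) * ‖x‖ ^ (-k), fun w hw z hz => ?_⟩
  obtain ⟨n, hn⟩ := ModularGroup_T_zpow_mem_verticalStrip z (N := 1) one_pos
  refine (norm_wEis_le_eisMaj hw hk z).trans ?_
  rw [← eisMaj_T_zpow_smul k ((1 : ℕ) * n) z]
  refine eisMaj_le_of_mem_verticalStrip hk one_pos ?_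
  exact verticalStrip_anti_right _ hz (by simpa using hn)

variable {Γ : Subgroup SL(2, ℤ)}

/-- A uniform bound for all `SL(2, ℤ)`-translates of the twisted Eisenstein series on
`im z ≥ 1`. -/
theorem exists_bound_twEis_slash {χ : Γ →* ℂˣ} (hnorm : ∀ γ, ‖(χ γ : ℂ)‖ = 1) {k : ℤ}
    (hk : 3 ≤ k) : ∃ M : ℝ, ∀ (g : SL(2, ℤ)) (z : ℍ), 1 ≤ z.im →
      ‖(twEis χ k ∣[k] g) z‖ ≤ M := by
  obtain ⟨M, hM⟩ := exists_bound_wEis hk
  refine ⟨M, fun g z hz => ?_⟩
  unfold twEis
  rw [wEis_slash]
  exact hM _ (fun v => norm_chiWeight_le hnorm _) z hz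

/-- The Kummer function `E^χ₁₂ / Δ` of a character `χ`. -/
def kumH (χ : Γ →* ℂˣ) : ℍ → ℂ := fun τ => twEis χ 12 τ * (Δ τ)⁻¹

lemma kumH_apply (χ : Γ →* ℂˣ) (τ : ℍ) : kumH χ τ = twEis χ 12 τ * (Δ τ)⁻¹ := rfl

theorem kumH_mdifferentiable {χ : Γ →* ℂˣ} (hnorm : ∀ γ, ‖(χ γ : ℂ)‖ = 1) :
    MDiff (kumH χ) := by
  have h1 : MDiff (twEis χ 12) := twEis_mdifferentiable hnorm (by norm_num)
  have h2 := h1.div Fermat.Agent.S28.H565.mdifferentiable_discriminant
    ModularForm.discriminant_ne_zero
  have h3 : kumH χ = twEis χ 12 / Δ := by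
    funext τ
    simp only [kumH_apply, Pi.div_apply, div_eq_mul_inv]
  rw [h3]
  exact h2

lemma denom_SL_eq (g : SL(2, ℤ)) (τ : ℍ) :
    denom (g : SL(2, ℤ)) τ = ((g 1 0 : ℤ) : ℂ) * τ + ((g 1 1 : ℤ) : ℂ) := by
  simp [UpperHalfPlane.denom]

/-- Translates of the Kummer function by `SL(2, ℤ)`. -/
theorem kumH_smul_SL (χ : Γ →* ℂˣ) (g : SL(2, ℤ)) (τ : ℍ) :
    kumH χ (g • τ) = (twEis χ 12 ∣[(12 : ℤ)] g) τ * (Δ τ)⁻¹ := by
  have hd : denom (g : SL(2, ℤ)) τ ≠ 0 := denom_ne_zero _ τ
  rw [kumH_apply, SL_slash_apply, Fermat.Agent.S28.H565.discriminant_smul, ← denom_SL_eq,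
    mul_inv, _root_.zpow_neg]
  ring

/-- The Kummer function transforms under `Γ` by the character `χ`. -/
theorem kumH_smul {χ : Γ →* ℂˣ} (hχ : TrivOnUnip χ) (γ : Γ) (τ : ℍ) :
    kumH χ ((γ : SL(2, ℤ)) • τ) = (χ γ : ℂ) * kumH χ τ := by
  rw [kumH_smul_SL, twEis_slash hχ, Pi.smul_apply, smul_eq_mul, kumH_apply, mul_assoc]

/-- All translates of the Kummer function have at most exponential growth at `i∞`. -/
theorem kumH_expGrowth {χ : Γ →* ℂˣ} (hnorm : ∀ γ, ‖(χ γ : ℂ)‖ = 1) (g : SL(2, ℤ)) :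
    ExpGrowth (fun τ => kumH χ (g • τ)) := by
  obtain ⟨M, hM⟩ := exists_bound_twEis_slash (χ := χ) hnorm (k := 12) (by norm_num)
  obtain ⟨C, hC⟩ := Fermat.Agent.S28.H589.exists_inv_discriminant_bound
  have hM0 : 0 ≤ M := (norm_nonneg _).trans (hM 1 UpperHalfPlane.I (by simp))
  refine ⟨M * C, 1, fun τ hτ => ?_⟩
  show ‖kumH χ (g • τ)‖ ≤ _
  rw [kumH_smul_SL, norm_mul]
  calc ‖(twEis χ 12 ∣[(12 : ℤ)] g) τ‖ * ‖(Δ τ)⁻¹‖
      ≤ M * (C * Real.exp (2 * π * τ.im)) :=
        mul_le_mul (hM g τ hτ) (hC τ hτ) (norm_nonneg _) hM0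
    _ = M * C * Real.exp (2 * π * (1 : ℕ) * τ.im) := by
        simp only [Nat.cast_one, mul_one]
        ring

/-- The Kummer function is not identically zero. -/
theorem kumH_ne_zero {χ : Γ →* ℂˣ} (hnorm : ∀ γ, ‖(χ γ : ℂ)‖ = 1) (hχ : TrivOnStabInfty χ) :
    kumH χ ≠ 0 := by
  intro h0
  apply twEis_ne_zero hnorm hχ (k := 12) (by norm_num) (by decide)
  funext τ
  have h1 : kumH χ τ = 0 := by rw [h0]; rfl
  rw [kumH_apply] at h1
  rcases mul_eq_zero.mp h1 with h | h
  · exact h
  · exact absurd (inv_eq_zero.mp h) (ModularForm.discriminant_ne_zero τ)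

/-- The `p`-th power of the Kummer function of a character of order dividing `p` is a good
function for `Γ₀(N)`: holomorphic, `Γ₀(N)`-invariant, all translates of exponential growth. -/
theorem kumH_pow_mem_goodRing {N : ℕ} {χ : Gamma0 N →* ℂˣ} (hχ : TrivOnUnip χ) {p : ℕ}
    (hp : p ≠ 0) (hχp : ∀ γ, χ γ ^ p = 1) : kumH χ ^ p ∈ goodRing N := by
  have hnorm : ∀ γ, ‖(χ γ : ℂ)‖ = 1 := fun γ => norm_eq_one_of_pow_eq_one' hp (hχp γ)
  refine ⟨(kumH_mdifferentiable hnorm).pow p, fun γ hγ τ => ?_, fun g => ?_⟩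
  · have h := kumH_smul hχ ⟨γ, hγ⟩ τ
    simp only [Pi.pow_apply]
    change kumH χ (γ • τ) = _ at h
    rw [h, mul_pow]
    have h1 : (χ ⟨γ, hγ⟩ : ℂ) ^ p = 1 := by
      have := congrArg (fun x : ℂˣ => (x : ℂ)) (hχp ⟨γ, hγ⟩)
      simpa using this
    rw [h1, one_mul]
  · have h := kumH_expGrowth (χ := χ) hnorm g
    have hpow : ∀ n : ℕ, ExpGrowth (fun τ => kumH χ (g • τ) ^ n) := by
      intro n
      induction n with
      | zero =>
        simp only [pow_zero]
        exact Fermat.Agent.S24.H648.expGrowth_const 1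
      | succ n ih =>
        have h2 := ih.mul h
        have h3 : ((fun τ => kumH χ (g • τ) ^ n) * fun τ => kumH χ (g • τ))
            = fun τ => kumH χ (g • τ) ^ (n + 1) := by
          funext τ
          simp only [Pi.mul_apply, pow_succ]
        rwa [h3] at h2
    exact hpow p

end

end Fermat.Agent.S29.H509

end
-- ===== PACK-END S29/H509/KummerFun.lean

-- ===== PACK-BEGIN S37/H159/MBound.lean
section





/-!
# Theorem M, part 6: the local discriminant bounds
(row S37, piece R-b; seat helper159)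

`β` a `K[X]`-basis of `B_η`, `y` the lifted basis (of `F / K(x)`), `M` the matrix of `y` in `β`.

* `not_dvd_det` (local basis): `X - c ∤ det M` for every `c ∈ A`;
* `not_dvd_discr_of_isRadical` : `(x - c) B_η` radical implies `X - c ∤ disc β`;
* `not_pow_dvd_discr` : `(X - c)^(n - s + 1) ∤ disc β` for `c ∈ A`, `s = redRank T c̄`.
-/

set_option autoImplicit false
set_option linter.unusedSectionVars false
set_option linter.style.haveILetI false

namespace Fermat.Agent.S37.H159

open Polynomial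

/-- Membership in a principal ideal generated by a scalar, in coordinates. -/
theorem mem_span_algebraMap_iff {R T ι : Type*} [CommRing R] [CommRing T] [Algebra R T]
    [Fintype ι] (b : Module.Basis ι R T) (t : R) (z : T) :
    z ∈ Ideal.span {algebraMap R T t} ↔ ∀ i, t ∣ b.repr z i := by
  rw [Ideal.mem_span_singleton]
  constructor
  · rintro ⟨y, rfl⟩ i
    rw [← Algebra.smul_def, map_smul]
    exact ⟨b.repr y i, by simp⟩
  · intro h
    choose q hq using h
    refine ⟨∑ i, q i • b i, ?_⟩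
    rw [← Algebra.smul_def, Finset.smul_sum]
    conv_lhs => rw [← b.sum_repr z]
    refine Finset.sum_congr rfl fun i _ => ?_
    rw [hq i, mul_smul]

namespace RedCtx

variable {K : Type*} [Field K] [CharZero K] {A : ValuationSubring K} {k : Type*} [Field k]
  {F : Type*} [Field F] [Algebra K[X] F] {Fk : Type*} [Field Fk] [Algebra k[X] Fk]
  (G : RedCtx A k F Fk)

variable (hinj : Function.Injective (algebraMap k[X] Fk))

variable {n : ℕ} (β : Module.Basis (Fin n) K[X] (integralClosure K[X] F))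
  (b : Module.Basis (Fin n) k[X] G.Tk)
  (yη : Fin n → integralClosure K[X] F) (hyO : ∀ i, (yη i : F) ∈ G.O)
  (hρ : ∀ i, G.redT (yη i) (hyO i) = b i)

include hinj b hyO hρ in
/-- **Local basis**: the lifted basis is a basis of `B_η` locally at every `c ∈ A`. -/
theorem not_dvd_det (c : A) :
    ¬ (X - C (c : K)) ∣ (Matrix.of fun i j => β.repr (yη i) j).det := by
  classical
  intro hdvd
  set M : Matrix (Fin n) (Fin n) K[X] := Matrix.of fun i j => β.repr (yη i) j with hM
  have hdet : ((evalRingHom (c : K)).mapMatrix M).det = 0 := by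
    rw [← RingHom.map_det]
    exact Polynomial.dvd_iff_isRoot.mp hdvd
  obtain ⟨v, hv0, hv⟩ := Matrix.exists_vecMul_eq_zero_iff.mpr hdet
  -- the combination `g = ∑ v_i y_i` lies in `(x - c) B_η`
  have hg : (∑ i, (C (v i) : K[X]) • yη i) ∈
      Ideal.span {algebraMap K[X] (integralClosure K[X] F) (X - C (c : K))} := by
    rw [mem_span_algebraMap_iff β]
    intro j
    rw [Polynomial.dvd_iff_isRoot, IsRoot.def, map_sum, Finsupp.coe_finsetSum,
      Finset.sum_apply, eval_finsetSum]
    have := congrFun hv j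
    rw [Matrix.vecMul, dotProduct] at this
    rw [Pi.zero_apply] at this
    rw [← this]
    refine Finset.sum_congr rfl fun i _ => ?_
    rw [map_smul, Finsupp.smul_apply, smul_eq_mul, eval_mul, eval_C]
    rfl
  have hind : ∀ a : Fin n → k,
      (∑ j, (C (a j) : k[X]) • G.redT (yη j) (hyO j)) ∈ H939.fibreIdeal G.Tk (G.π c) →
        ∀ j, a j = 0 := by
    intro a ha j
    rw [H939.mem_fibreIdeal_iff b] at ha
    have h1 := ha j
    have h2 : b.repr (∑ j, (C (a j) : k[X]) • G.redT (yη j) (hyO j)) j = C (a j) := by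
      simp only [hρ, map_sum, map_smul, Module.Basis.repr_self, Finsupp.smul_single,
        smul_eq_mul, mul_one, Finsupp.coe_finsetSum, Finset.sum_apply,
        Finsupp.single_apply, Finset.sum_ite_eq', Finset.mem_univ, if_true]
    rw [h2, Polynomial.dvd_iff_isRoot, IsRoot.def, eval_C] at h1
    exact h1
  have := G.eq_zero_of_sum_C_smul_mem yη hyO _ _
    (fun v hvO hv => G.redT_mem_fibreIdeal hinj c v hvO hv) hind v hg
  exact hv0 (funext this)

section Tame

variable (L₀ : Type*) [Field L₀] [Algebra K[X] L₀] [IsFractionRing K[X] L₀] [Algebra L₀ F]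
  [IsScalarTower K[X] L₀ F] [FiniteDimensional L₀ F]

include L₀ in
theorem isTorsionFree_Tη : Module.IsTorsionFree K[X] (integralClosure K[X] F) := by
  refine Module.isTorsionFree_iff_algebraMap_injective.mpr fun p q hpq => ?_
  apply algebraMap_injective_K (K := K) (F := F) L₀
  exact congrArg (fun z : integralClosure K[X] F => (z : F)) hpq

include L₀ in
/-- **Tame bound at an unramified point**: if `(x - c) B_η` is radical then `X - c ∤ disc β`. -/
theorem not_dvd_discr_of_isRadical (c : K)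
    (hrad : (Ideal.span {algebraMap K[X] (integralClosure K[X] F) (X - C c)}).IsRadical) :
    ¬ (X - C c) ∣ Algebra.discr K[X] β := by
  classical
  haveI := isSeparable_of_charZero K L₀ F
  haveI : IsDedekindDomain (integralClosure K[X] F) :=
    integralClosure.isDedekindDomain K[X] L₀ F
  haveI := isTorsionFree_Tη (K := K) (F := F) L₀
  have h := S18.H213.tame_discr_witness (X - C c) (Polynomial.prime_X_sub_C c) n β n β
    (fun a ha i => by
      rw [hrad.radical] at ha
      have h1 := (mem_span_algebraMap_iff β _ _).mp ha i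
      have h2 : β.repr (∑ i, a i • β i) i = a i := by
        simp only [map_sum, map_smul, Module.Basis.repr_self, Finsupp.smul_single,
          smul_eq_mul, mul_one, Finsupp.coe_finsetSum, Finset.sum_apply,
          Finsupp.single_apply, Finset.sum_ite_eq', Finset.mem_univ, if_true]
      rwa [h2] at h1)
  rw [Nat.sub_self, zero_add, pow_one] at h
  exact h

include L₀ hinj b in
/-- **Tame bound + specialisation of fibres**: for `c ∈ A` and `s = redRank T c̄`,
`(X - c)^(n - s + 1) ∤ disc β`. -/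
theorem not_pow_dvd_discr (c : A) :
    ¬ (X - C (c : K)) ^ (n - H939.redRank G.Tk (G.π c) + 1) ∣ Algebra.discr K[X] β := by
  classical
  haveI := isSeparable_of_charZero K L₀ F
  haveI : IsDedekindDomain (integralClosure K[X] F) :=
    integralClosure.isDedekindDomain K[X] L₀ F
  haveI := isTorsionFree_Tη (K := K) (F := F) L₀
  haveI : Module.Finite k (G.Tk ⧸ (H939.fibreIdeal G.Tk (G.π c)).radical) :=
    H939.finite_quot_radical b (G.π c)
  set Rad : Ideal G.Tk := (H939.fibreIdeal G.Tk (G.π c)).radical with hRad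
  have hs : Module.finrank k (G.Tk ⧸ Rad) = H939.redRank G.Tk (G.π c) := rfl
  haveI : Module.Free k (G.Tk ⧸ Rad) := Module.Free.of_divisionRing k _
  let e : Module.Basis (Fin (H939.redRank G.Tk (G.π c))) k (G.Tk ⧸ Rad) :=
    Module.finBasisOfFinrankEq k _ hs
  choose t ht using fun j => Ideal.Quotient.mk_surjective (e j)
  choose f hf using fun j => (G.mem_Tk (t j : Fk)).mp (t j).2
  let w : Fin (H939.redRank G.Tk (G.π c)) → integralClosure K[X] F := fun j => ⟨f j, (hf j).1⟩
  have hwO : ∀ j, (w j : F) ∈ G.O := fun j => (f j).2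
  have hred : ∀ j, G.redT (w j) (hwO j) = t j := fun j => Subtype.ext (hf j).2
  have hind : ∀ a : Fin (H939.redRank G.Tk (G.π c)) → k,
      (∑ j, (C (a j) : k[X]) • G.redT (w j) (hwO j)) ∈ Rad → ∀ j, a j = 0 := by
    intro a ha
    have h1 : ∑ j, a j • e j = 0 := by
      have h2 : Ideal.Quotient.mk Rad (∑ j, (C (a j) : k[X]) • G.redT (w j) (hwO j)) = 0 :=
        Ideal.Quotient.eq_zero_iff_mem.mpr ha
      rw [map_sum] at h2
      rw [← h2]
      refine Finset.sum_congr rfl fun j _ => ?_
      rw [hred, ← ht j]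
      have h3 : (C (a j) : k[X]) • t j = a j • t j := by
        rw [← Polynomial.algebraMap_eq, algebraMap_smul]
      rw [h3]
      rfl
    exact Fintype.linearIndependent_iff.mp e.linearIndependent a h1
  apply S18.H213.tame_discr_witness (X - C (c : K)) (Polynomial.prime_X_sub_C _) n β _ w
  intro a ha
  exact G.dvd_of_sum_smul_mem w hwO c _ Rad
    (fun v hvO hv => G.redT_mem_radical hinj c v hvO hv) hind Ideal.le_radical a ha

end Tame

end RedCtx

end Fermat.Agent.S37.H159

end
-- ===== PACK-END S37/H159/MBound.lean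

-- ===== PACK-BEGIN S37/H159/MMain.lean
section





/-!
# THEOREM M: normality of the special fibre, directly over a valuation ring
(row S37, piece R-b / RED-E4 (H3); seat helper159)

Setting: `K` algebraically closed of characteristic `0`, `A ⊆ K` a valuation ring with residue
map `π : A ↠ k` (`k` algebraically closed); `F ⊇ K(x)` finite, `O ⊆ F` a valuation ring with
residue map `ρ : O ↠ F_k`, `F_k ⊇ k(x̄)` finite separable with `[F_k : k(x̄)] = [F : K(x)]`,
`ρ(P(x)) = P̄(x̄)` for `P ∈ A[X]` (a `RedCtx`).  `B_η` = integral closure of `K[x]` in `F`.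

Hypothesis (NC): there is a finite set `S ⊆ A`, injective modulo `𝔪_A`, such that
`(x - c) B_η` is a radical ideal for every `c ∈ A \ S` (no ramification over `x = c`).

Conclusion:
* `isIntegrallyClosed_Tk` : `T = ρ(O ∩ B_η)` is integrally closed;
* `lift_integral` : every element of `F_k` integral over `k[x̄]` is the reduction of an element
  of `O` which is integral over `A[x]`.

No noetherian hypothesis on `A`, no descent to a discrete valuation ring.
-/

set_option autoImplicit false
set_option linter.unusedSectionVars false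
set_option linter.style.haveILetI false

namespace Fermat.Agent.S37.H159

open Polynomial

namespace RedCtx

variable {K : Type*} [Field K] [IsAlgClosed K] [CharZero K] {A : ValuationSubring K}
  {k : Type*} [Field k] [IsAlgClosed k]
  {F : Type*} [Field F] [Algebra K[X] F] {Fk : Type*} [Field Fk] [Algebra k[X] Fk]
  (G : RedCtx A k F Fk)

variable (L₀ : Type*) [Field L₀] [Algebra K[X] L₀] [IsFractionRing K[X] L₀] [Algebra L₀ F]
  [IsScalarTower K[X] L₀ F] [FiniteDimensional L₀ F]
variable (L₀k : Type*) [Field L₀k] [Algebra k[X] L₀k] [IsFractionRing k[X] L₀k] [Algebra L₀k Fk]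
  [IsScalarTower k[X] L₀k Fk] [FiniteDimensional L₀k Fk] [Algebra.IsSeparable L₀k Fk]

include L₀ L₀k in
/-- **Theorem M** (ring form): the order `T = ρ(O ∩ B_η)` is integrally closed. -/
theorem isIntegrallyClosed_Tk (hdeg : Module.finrank L₀ F = Module.finrank L₀k Fk)
    (S : Finset A) (hS : Set.InjOn G.π (S : Set A))
    (hNC : ∀ c : A, c ∉ S → (Ideal.span
      {algebraMap K[X] (integralClosure K[X] F) (X - C (c : K))}).IsRadical) :
    IsIntegrallyClosed G.Tk := by
  classical
  obtain ⟨b, y, bk, hyint, hR, hbk, hyO, hρy⟩ := G.exists_basis_Tk L₀ L₀k hdeg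
  have hinj := algebraMap_injective_k (k := k) (Fk := Fk) L₀k
  haveI := finite_Tη (K := K) (F := F) L₀
  haveI := free_Tη (K := K) (F := F) L₀
  let β : Module.Basis (Fin (Module.finrank L₀k Fk)) K[X] (integralClosure K[X] F) :=
    Module.finBasisOfFinrankEq K[X] _ ((finrank_Tη (K := K) (F := F) L₀).trans hdeg)
  let yη : Fin (Module.finrank L₀k Fk) → integralClosure K[X] F := fun i => ⟨y i, hyint i⟩
  have hyηO : ∀ i, (yη i : F) ∈ G.O := hyO
  have hρη : ∀ i, G.redT (yη i) (hyηO i) = b i := fun i => Subtype.ext (hρy i)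
  have hρbk : ∀ i, G.ρ ⟨y i, hyO i⟩ = bk i := fun i => by rw [hbk]; exact hρy i
  obtain ⟨D, hD1, hD2⟩ := G.exists_discr_lift L₀ L₀k y hyO hR bk hρbk b hbk hdeg hyint
  have hdb : Algebra.discr k[X] b ≠ 0 := G.discr_Tk_ne_zero L₀ L₀k bk b hbk hdeg
  -- the matrix of `y` in the basis `β`
  set M : Matrix (Fin (Module.finrank L₀k Fk)) (Fin (Module.finrank L₀k Fk)) K[X] :=
    Matrix.of fun i j => β.repr (yη i) j with hM
  have hyM : yη = Matrix.vecMul (⇑β) (M.transpose.map (algebraMap K[X] (integralClosure K[X] F))) := by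
    funext i
    rw [Matrix.vecMul, dotProduct]
    conv_lhs => rw [← β.sum_repr (yη i)]
    refine Finset.sum_congr rfl fun j _ => ?_
    rw [Matrix.map_apply, Matrix.transpose_apply, Algebra.smul_def, mul_comm]
    rfl
  have hdisc : Algebra.discr K[X] yη = M.det ^ 2 * Algebra.discr K[X] β := by
    rw [hyM, Algebra.discr_of_matrix_vecMul, Matrix.det_transpose]
  have hDK : D.map (algebraMap A K) = M.det ^ 2 * Algebra.discr K[X] β := hD1.trans hdisc
  have hDπ : D.map G.π ≠ 0 := by rw [hD2]; exact hdb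
  have hD0 : D ≠ 0 := fun h0 => hDπ (by rw [h0, Polynomial.map_zero])
  have hDK0 : D.map (algebraMap A K) ≠ 0 := by
    intro h0
    apply hD0
    apply Polynomial.map_injective (algebraMap A K) Subtype.coe_injective
    rw [h0, Polynomial.map_zero]
  have hβ0 : Algebra.discr K[X] β ≠ 0 := by
    intro h0
    apply hDK0
    rw [hDK, h0, mul_zero]
  have hdet : ∀ c : A, ¬ (X - C (c : K)) ∣ M.det := fun c =>
    G.not_dvd_det hinj β b yη hyηO hρη c
  -- all roots of `D` in `A` lie in `S`
  have hroots : ∀ c : A, (D.map (algebraMap A K)).IsRoot (c : K) → c ∈ S := by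
    intro c hc
    by_contra hcS
    have h2 := not_dvd_discr_of_isRadical β L₀ (c : K) (hNC c hcS)
    rw [← Polynomial.dvd_iff_isRoot, hDK] at hc
    rcases (Polynomial.prime_X_sub_C _).dvd_or_dvd hc with h | h
    · exact hdet c ((Polynomial.prime_X_sub_C _).dvd_of_dvd_pow h)
    · exact h2 h
  refine H939.isIntegrallyClosed_of_discr_criterion b hdb (IsAlgClosed.splits _) ?_
  intro cbar hcbar
  rw [← hD2] at hcbar ⊢
  obtain ⟨c, rfl, hc⟩ := exists_root_of_isRoot_map A G.π G.π_surj D hDπ cbar hcbar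
  have hcS := hroots c hc
  have h1 := rootMultiplicity_map_le A G.π G.π_surj D hDπ c
    (fun c' hc' hπ => hS (hroots c' hc') hcS hπ)
  have h2 : (D.map (algebraMap A K)).rootMultiplicity (c : K) =
      (Algebra.discr K[X] β).rootMultiplicity (c : K) := by
    rw [hDK, Polynomial.rootMultiplicity_mul (by rw [← hDK]; exact hDK0),
      Polynomial.rootMultiplicity_eq_zero (p := M.det ^ 2), zero_add]
    intro hroot
    rw [← Polynomial.dvd_iff_isRoot] at hroot
    exact hdet c ((Polynomial.prime_X_sub_C _).dvd_of_dvd_pow hroot)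
  have h3 := G.not_pow_dvd_discr hinj β b L₀ c
  have h4 : (Algebra.discr K[X] β).rootMultiplicity (c : K) ≤
      Module.finrank L₀k Fk - H939.redRank G.Tk (G.π c) := by
    by_contra hlt
    push Not at hlt
    exact h3 ((Polynomial.le_rootMultiplicity_iff hβ0).mp hlt)
  have h5 : H939.redRank G.Tk (G.π c) ≤ Fintype.card (Fin (Module.finrank L₀k Fk)) :=
    redRank_le_card b _
  rw [Fintype.card_fin] at h5 ⊢
  omega

include L₀ L₀k in
/-- **Theorem M** (lifting form, = (H3) of S37-RED): every element of `F_k` integral over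
`k[x̄]` is the reduction of an element of `O` integral over `A[x]`. -/
theorem lift_integral (hdeg : Module.finrank L₀ F = Module.finrank L₀k Fk)
    (S : Finset A) (hS : Set.InjOn G.π (S : Set A))
    (hNC : ∀ c : A, c ∉ S → (Ideal.span
      {algebraMap K[X] (integralClosure K[X] F) (X - C (c : K))}).IsRadical)
    (z : Fk) (hz : IsIntegral k[X] z) :
    ∃ f : G.O, (polyF (A := A) (F := F)).IsIntegralElem (f : F) ∧ G.ρ f = z := by
  haveI := G.isIntegrallyClosed_Tk L₀ L₀k hdeg S hS hNC
  haveI := G.isFractionRing_Tk L₀ L₀k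
  have hzT : IsIntegral G.Tk z := hz.tower_top
  obtain ⟨t, ht⟩ := IsIntegrallyClosed.isIntegral_iff.mp hzT
  obtain ⟨f, hf, hfz⟩ := (G.mem_Tk _).mp t.2
  exact ⟨f, G.isIntegralElem_of_mem L₀ L₀k hdeg f f.2 hf, hfz.trans ht⟩

end RedCtx

end Fermat.Agent.S37.H159

end
-- ===== PACK-END S37/H159/MMain.lean

-- ===== PACK-BEGIN S37/H159/MAdapt.lean
section



/-!
# THEOREM M, concrete form: coordinate `t ∈ F`, `K(t) = K⟮t⟯ ⊆ F`
(row S37, piece R-b / RED-E4 (H3); seat helper159)

`lift_integral_adjoin`: `K` algebraically closed of characteristic `0`, `A ⊆ K` a valuation ring,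
`π : A ↠ k`, `O ⊆ F` a valuation ring with `ρ : O ↠ F_k` extending `π`, `t ∈ O` with `ρ t`
transcendental over `k`, `[F : K(t)] = [F_k : k(t̄)] < ∞`, `F_k / k(t̄)` separable, and

(NC) for `c ∈ A` outside a finite set `S` injective mod `𝔪_A`: for `f` integral over `K[t]`,
     `f² / (t - c)` integral over `K[t]` implies `f / (t - c)` integral over `K[t]`.

Then every `z ∈ F_k` integral over `k[t̄]` is `ρ b` for some `b ∈ O` integral over `A[t]`.
-/

set_option autoImplicit false
set_option linter.unusedSectionVars false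
set_option linter.style.haveILetI false

namespace Fermat.Agent.S37.H159

open Polynomial IntermediateField

/-- Integrality along a composite with a surjective first map. -/
theorem isIntegralElem_comp_of_surjective {R S T : Type*} [CommRing R] [CommRing S]
    [Nontrivial S] [Ring T]
    (f : R →+* S) (hf : Function.Surjective f) (g : S →+* T) {x : T}
    (h : g.IsIntegralElem x) : (g.comp f).IsIntegralElem x := by
  obtain ⟨p, hp, hpx⟩ := h
  have hl : p ∈ Polynomial.lifts f := by
    rw [Polynomial.lifts_iff_coeff_lifts]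
    exact fun i => hf _
  obtain ⟨q, hq, -, hqm⟩ := Polynomial.lifts_and_degree_eq_and_monic hl hp
  refine ⟨q, hqm, ?_⟩
  rw [← Polynomial.eval₂_map, hq]
  exact hpx

section Poly

variable (K : Type*) {F : Type*} [Field K] [Field F] [Algebra K F] (t : F)

/-- `K[X] → F`, `X ↦ t`, as an algebra structure -/
@[reducible] noncomputable def polyAlg : Algebra K[X] F := (aeval t).toRingHom.toAlgebra

/-- `K[X] → K(t)`, `X ↦ t`, as an algebra structure -/
@[reducible] noncomputable def polyAlgAdjoin : Algebra K[X] K⟮t⟯ :=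
  (aeval (AdjoinSimple.gen K t)).toRingHom.toAlgebra

theorem coe_aeval_gen (p : K[X]) : ((aeval (AdjoinSimple.gen K t) p : K⟮t⟯) : F) = aeval t p := by
  rw [← AdjoinSimple.algebraMap_gen K t, aeval_algebraMap_apply]
  rfl

theorem isScalarTower_polyAlg :
    letI := polyAlg K t
    letI := polyAlgAdjoin K t
    IsScalarTower K[X] K⟮t⟯ F := by
  letI := polyAlg K t
  letI := polyAlgAdjoin K t
  exact IsScalarTower.of_algebraMap_eq fun p => (coe_aeval_gen K t p).symm

theorem isFractionRing_polyAlg (ht : Transcendental K t) :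
    letI := polyAlgAdjoin K t
    IsFractionRing K[X] K⟮t⟯ := by
  letI := polyAlgAdjoin K t
  have hinj : Function.Injective (algebraMap K[X] K⟮t⟯) := by
    intro p q hpq
    have h1 : aeval t p = aeval t q := by
      have := congrArg (fun z : K⟮t⟯ => (z : F)) hpq
      exact (coe_aeval_gen K t p).symm.trans (this.trans (coe_aeval_gen K t q))
    exact transcendental_iff_injective.mp ht h1
  haveI : FaithfulSMul K[X] K⟮t⟯ := (faithfulSMul_iff_algebraMap_injective _ _).mpr hinj
  refine IsFractionRing.of_field (R := K[X]) K⟮t⟯ fun z => ?_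
  obtain ⟨r, s, hrs⟩ := (mem_adjoin_simple_iff K (z : F)).mp z.2
  refine ⟨r, s, ?_⟩
  apply Subtype.ext
  rw [hrs]
  show aeval t r / aeval t s = ((aeval (AdjoinSimple.gen K t) r / aeval (AdjoinSimple.gen K t) s :
    K⟮t⟯) : F)
  rw [IntermediateField.coe_div, coe_aeval_gen, coe_aeval_gen]

/-- integrality over `K[X]` (via `X ↦ t`) is integrality over `K[t]` -/
theorem isIntegral_polyAlg_iff (f : F) :
    letI := polyAlg K t
    IsIntegral K[X] f ↔ IsIntegral (Algebra.adjoin K {t}) f := by
  letI := polyAlg K t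
  let φ : K[X] →+* Algebra.adjoin K {t} :=
    RingHom.codRestrict (aeval t).toRingHom (Algebra.adjoin K {t})
      (fun p => by rw [Algebra.adjoin_singleton_eq_range_aeval]; exact ⟨p, rfl⟩)
  have hφ : Function.Surjective φ := by
    rintro ⟨y, hy⟩
    rw [Algebra.adjoin_singleton_eq_range_aeval] at hy
    obtain ⟨p, hp⟩ := hy
    exact ⟨p, Subtype.ext hp⟩
  have hcomp : (algebraMap (Algebra.adjoin K {t}) F).comp φ = algebraMap K[X] F := rfl
  constructor
  · intro h
    have h' : ((algebraMap (Algebra.adjoin K {t}) F).comp φ).IsIntegralElem f := h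
    exact RingHom.IsIntegralElem.of_comp h'
  · intro h
    exact isIntegralElem_comp_of_surjective φ hφ _ h

end Poly

section Main

variable {K k F Fk : Type*} [Field K] [Field k] [Field F] [Field Fk] [Algebra K F] [Algebra k Fk]

/-- the subring `A[t] ⊆ F` generated by the image of `A` and `t` -/
def polySubring (A : ValuationSubring K) (t : F) : Subring F :=
  A.toSubring.map (algebraMap K F) ⊔ Subring.closure {t}

theorem aeval_map_mem_polySubring (A : ValuationSubring K) (t : F) (p : A[X]) :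
    aeval t (p.map A.subtype) ∈ polySubring A t := by
  induction p using Polynomial.induction_on with
  | C a =>
    rw [Polynomial.map_C, aeval_C]
    exact (le_sup_left : _ ≤ polySubring A t) (Subring.mem_map.mpr ⟨a, a.2, rfl⟩)
  | add p q hp hq =>
    rw [Polynomial.map_add, map_add]
    exact Subring.add_mem _ hp hq
  | monomial n a _ =>
    rw [Polynomial.map_mul, Polynomial.map_C, Polynomial.map_pow, Polynomial.map_X, map_mul,
      aeval_C, map_pow, aeval_X]
    refine Subring.mul_mem _ ?_ (Subring.pow_mem _ ?_ _)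
    · exact (le_sup_left : _ ≤ polySubring A t) (Subring.mem_map.mpr ⟨a, a.2, rfl⟩)
    · exact (le_sup_right : _ ≤ polySubring A t) (Subring.subset_closure rfl)

variable [IsAlgClosed K] [CharZero K] [IsAlgClosed k]

/-- **THEOREM M**, concrete form (see the module docstring). -/
theorem lift_integral_adjoin (A : ValuationSubring K) (π : A →+* k)
    (hπ : Function.Surjective π) (O : ValuationSubring F) (ρ : O →+* Fk)
    (hρ : Function.Surjective ρ) (hc : ∀ a : A, algebraMap K F (a : K) ∈ O)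
    (hρc : ∀ a : A, ρ ⟨algebraMap K F (a : K), hc a⟩ = algebraMap k Fk (π a))
    (t : F) (ht : t ∈ O) (htr : Transcendental k (ρ ⟨t, ht⟩))
    [FiniteDimensional K⟮t⟯ F] [FiniteDimensional k⟮ρ ⟨t, ht⟩⟯ Fk]
    [Algebra.IsSeparable k⟮ρ ⟨t, ht⟩⟯ Fk]
    (hdeg : Module.finrank K⟮t⟯ F = Module.finrank k⟮ρ ⟨t, ht⟩⟯ Fk)
    (S : Finset A) (hS : Set.InjOn π (S : Set A))
    (hNC : ∀ c : A, c ∉ S → ∀ f : F, IsIntegral (Algebra.adjoin K {t}) f →
      IsIntegral (Algebra.adjoin K {t}) (f ^ 2 / (t - algebraMap K F (c : K))) →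
      IsIntegral (Algebra.adjoin K {t}) (f / (t - algebraMap K F (c : K))))
    (z : Fk) (hz : IsIntegral (Algebra.adjoin k {ρ ⟨t, ht⟩}) z) :
    ∃ (b : F) (hb : b ∈ O), IsIntegral (polySubring A t) b ∧ ρ ⟨b, hb⟩ = z := by
  classical
  letI algF : Algebra K[X] F := polyAlg K t
  letI algFk : Algebra k[X] Fk := polyAlg k (ρ ⟨t, ht⟩)
  letI algL : Algebra K[X] K⟮t⟯ := polyAlgAdjoin K t
  letI algLk : Algebra k[X] k⟮ρ ⟨t, ht⟩⟯ := polyAlgAdjoin k (ρ ⟨t, ht⟩)
  haveI : IsScalarTower K[X] K⟮t⟯ F := isScalarTower_polyAlg K t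
  haveI : IsScalarTower k[X] k⟮ρ ⟨t, ht⟩⟯ Fk := isScalarTower_polyAlg k (ρ ⟨t, ht⟩)
  haveI : IsFractionRing k[X] k⟮ρ ⟨t, ht⟩⟯ := isFractionRing_polyAlg k (ρ ⟨t, ht⟩) htr
  have hinjk : Function.Injective (algebraMap k[X] Fk) := transcendental_iff_injective.mp htr
  -- evaluation `A[X] → O`
  let constO : A →+* O := RingHom.codRestrict ((algebraMap K F).comp A.subtype) O hc
  let evalO : A[X] →+* O := Polynomial.eval₂RingHom constO ⟨t, ht⟩
  have hev1 : O.subtype.comp evalO = (aeval t).toRingHom.comp (mapRingHom A.subtype) := by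
    refine Polynomial.ringHom_ext (fun a => ?_) ?_
    · show ((Polynomial.eval₂ constO ⟨t, ht⟩ (C a) : O) : F) =
        aeval t ((C a : A[X]).map A.subtype)
      rw [Polynomial.eval₂_C, Polynomial.map_C, aeval_C]
      rfl
    · show ((Polynomial.eval₂ constO ⟨t, ht⟩ X : O) : F) = aeval t ((X : A[X]).map A.subtype)
      rw [Polynomial.eval₂_X, Polynomial.map_X, aeval_X]
  have hev2 : ρ.comp evalO = (aeval (ρ ⟨t, ht⟩)).toRingHom.comp (mapRingHom π) := by
    refine Polynomial.ringHom_ext (fun a => ?_) ?_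
    · show ρ (Polynomial.eval₂ constO ⟨t, ht⟩ (C a)) = aeval (ρ ⟨t, ht⟩) ((C a : A[X]).map π)
      rw [Polynomial.eval₂_C, Polynomial.map_C, aeval_C]
      exact hρc a
    · show ρ (Polynomial.eval₂ constO ⟨t, ht⟩ X) = aeval (ρ ⟨t, ht⟩) ((X : A[X]).map π)
      rw [Polynomial.eval₂_X, Polynomial.map_X, aeval_X]
  have hcoe : ∀ p : A[X], ((evalO p : O) : F) = algebraMap K[X] F (p.map A.subtype) := fun p =>
    congrArg (fun g : A[X] →+* F => g p) hev1
  let G : RedCtx A k F Fk :=
    { π := π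
      π_surj := hπ
      O := O
      ρ := ρ
      ρ_surj := hρ
      mem := fun p => by rw [← hcoe p]; exact (evalO p).2
      ρ_poly := fun p => by
        have h1 := congrArg (fun g : A[X] →+* Fk => g p) hev2
        have h2 : (⟨algebraMap K[X] F (p.map A.subtype), by rw [← hcoe p]; exact (evalO p).2⟩ : O)
            = evalO p := Subtype.ext (hcoe p).symm
        rw [h2]
        exact h1 }
  -- `t` is transcendental over `K`
  have httr : Transcendental K t := by
    rw [transcendental_iff]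
    intro P hP
    by_contra hP0
    obtain ⟨lam, P₀, m, hlam, hm, hPeq⟩ := exists_primitive A P hP0
    have hne := G.map_π_ne_zero_of_coeff_eq_one P₀ m hm
    have h1 := G.ne_zero_of_map_ne_zero hinjk P₀ hne
    apply h1
    have h2 : aeval t P = algebraMap K F lam * algebraMap K[X] F (P₀.map A.subtype) := by
      conv_lhs => rw [hPeq]
      rw [map_mul, aeval_C]
      rfl
    rw [hP] at h2
    rcases mul_eq_zero.mp h2.symm with h | h
    · exact absurd ((_root_.map_eq_zero _).mp h) hlam
    · exact h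
  haveI : IsFractionRing K[X] K⟮t⟯ := isFractionRing_polyAlg K t httr
  -- (NC) in ring form
  have hNC' : ∀ c : A, c ∉ S → (Ideal.span
      {algebraMap K[X] (integralClosure K[X] F) (X - C (c : K))}).IsRadical := by
    intro c hcS
    rw [Ideal.isRadical_iff_pow_one_lt 2 one_lt_two]
    intro r hr
    rw [Ideal.mem_span_singleton] at hr ⊢
    obtain ⟨h, hh⟩ := hr
    have ha : ((algebraMap K[X] (integralClosure K[X] F) (X - C (c : K)) :
        integralClosure K[X] F) : F) = t - algebraMap K F (c : K) := by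
      show aeval t (X - C (c : K)) = _
      rw [map_sub, aeval_X, aeval_C]
    have ha0 : t - algebraMap K F (c : K) ≠ 0 := by
      intro h0
      have h1 : aeval t (X - C (c : K)) = 0 := by rw [map_sub, aeval_X, aeval_C, h0]
      exact Polynomial.X_sub_C_ne_zero _ ((transcendental_iff.mp httr) _ h1)
    have h1 : IsIntegral (Algebra.adjoin K {t}) (r : F) := (isIntegral_polyAlg_iff K t _).mp r.2
    have hh' : (r : F) ^ 2 = (t - algebraMap K F (c : K)) * (h : F) := by
      have := congrArg (fun w : integralClosure K[X] F => (w : F)) hh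
      simp only [SubmonoidClass.coe_pow, MulMemClass.coe_mul] at this
      rw [this, ha]
    have h2 : IsIntegral (Algebra.adjoin K {t}) ((r : F) ^ 2 / (t - algebraMap K F (c : K))) := by
      have : (r : F) ^ 2 / (t - algebraMap K F (c : K)) = (h : F) := by
        rw [hh', mul_div_assoc, mul_comm, div_mul_cancel₀ _ ha0]
      rw [this]
      exact (isIntegral_polyAlg_iff K t _).mp h.2
    have h3 := hNC c hcS (r : F) h1 h2
    refine ⟨⟨(r : F) / (t - algebraMap K F (c : K)), (isIntegral_polyAlg_iff K t _).mpr h3⟩,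
      Subtype.ext ?_⟩
    show (r : F) = ((algebraMap K[X] (integralClosure K[X] F) (X - C (c : K)) :
        integralClosure K[X] F) : F) * ((r : F) / (t - algebraMap K F (c : K)))
    rw [ha, mul_div_cancel₀ _ ha0]
  have hz' : IsIntegral k[X] z := (isIntegral_polyAlg_iff k (ρ ⟨t, ht⟩) z).mpr hz
  obtain ⟨f, hf, hfz⟩ := G.lift_integral K⟮t⟯ k⟮ρ ⟨t, ht⟩⟯ hdeg S hS hNC' z hz'
  refine ⟨f, f.2, ?_, hfz⟩
  let ψ : A[X] →+* polySubring A t :=
    RingHom.codRestrict (RedCtx.polyF (A := A) (F := F)) (polySubring A t)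
      (fun p => aeval_map_mem_polySubring A t p)
  have hψ : (polySubring A t).subtype.comp ψ = RedCtx.polyF (A := A) (F := F) := rfl
  have hf' : ((polySubring A t).subtype.comp ψ).IsIntegralElem (f : F) := hf
  exact RingHom.IsIntegralElem.of_comp hf'

end Main

end Fermat.Agent.S37.H159

end
-- ===== PACK-END S37/H159/MAdapt.lean

-- ===== PACK-BEGIN A3/H499/Orth.lean
section




/-!
# A3 / GR-ORTH (helper499): orthonormal bases of all Riemann–Roch spaces from a base case

Abstract, instance-free.  Setting = the first fields of `A3.H799.GoodRed`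
(`V`, `O`, `res`, `red`, a set `I` of semilinear automorphisms).

* `exists_orthBasis_of_le` (sub-orthonormal lemma): if `e` is an orthonormal family and
  `U ≤ span e` is a `K`-subspace, then `U` has an orthonormal basis; if the `e i` are fixed by
  `I` and `U` is `I`-stable, the basis can be chosen `I`-fixed (the unit-pivot chart of `U` is
  unique, hence has `I`-fixed entries).
* `orthonormal_of_base` : the field `orthonormal` of `GoodRed` for ALL divisors, from the base
  case "`L(m • B₀)` has an `I`-fixed orthonormal basis for arbitrarily large `m`".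
-/

set_option autoImplicit false
set_option linter.unusedSectionVars false
set_option linter.style.longLine false

noncomputable section

open AlgebraicCurve Matrix

namespace Fermat.Agent.A3.H499

variable {K F : Type*} [Field K] [Field F] [Algebra K F]
variable (k : Type*) {Fk : Type*} [Field k] [Field Fk] [Algebra k Fk]

/-- `b` is an orthonormal basis of the `K`-subspace `U` of `F`: it consists of elements of the
valuation ring `O`, spans `U`, and its reductions are `k`-linearly independent. -/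
def IsOrthBasis (O : ValuationSubring F) (red : O →+* Fk) (U : Submodule K F) {n : ℕ}
    (b : Fin n → O) : Prop :=
  LinearIndependent k (fun i => red (b i)) ∧ (∀ i, ((b i : O) : F) ∈ U) ∧
    Submodule.span K (Set.range fun i => ((b i : O) : F)) = U

variable {k}

section Sub

variable (V : ValuationSubring K) (O : ValuationSubring F) (res : V →+* k) (red : O →+* Fk)
variable (algebraMap_mem : ∀ a : K, a ∈ V → algebraMap K F a ∈ O)
variable (red_algebraMap : ∀ (a : V) (h : algebraMap K F (a : K) ∈ O),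
    red ⟨algebraMap K F (a : K), h⟩ = algebraMap k Fk (res a))

include algebraMap_mem red_algebraMap in
/-- **Sub-orthonormal lemma.** -/
theorem exists_orthBasis_of_le {n : ℕ} (e : Fin n → O)
    (he : LinearIndependent k (fun i => red (e i)))
    (U : Submodule K F) (hU : U ≤ Submodule.span K (Set.range fun i => ((e i : O) : F)))
    (I : Set (SemilinearAut K F)) (heI : ∀ g ∈ I, ∀ i, g • ((e i : O) : F) = e i)
    (hUI : ∀ g ∈ I, ∀ f ∈ U, g • f ∈ U) :
    ∃ (d : ℕ) (u : Fin d → O), IsOrthBasis k O red U u ∧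
      ∀ g ∈ I, ∀ a, g • ((u a : O) : F) = u a := by
  classical
  -- coordinates
  let T : (Fin n → K) →ₗ[K] F := Fintype.linearCombination K (fun i => ((e i : O) : F))
  have hT : ∀ c : Fin n → K, T c = ∑ i, c i • ((e i : O) : F) := fun c =>
    Fintype.linearCombination_apply K _ c
  have hrangeT : LinearMap.range T = Submodule.span K (Set.range fun i => ((e i : O) : F)) :=
    Fintype.range_linearCombination K _
  let W : Submodule K (Fin n → K) := U.comap T
  obtain ⟨B, p, hint, hB, hrange⟩ :=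
    Fermat.Agent.S19.H495.exists_integral_basis_matrix V.valuation W
  have hBV : ∀ i a, B i a ∈ V := fun i a => (V.valuation_le_one_iff _).mp (hint i a)
  -- the columns of `B`
  have hcol : ∀ a, B *ᵥ (Pi.single a 1) = fun i => B i a := by
    intro a
    funext i
    simp [Matrix.mulVec, dotProduct, Pi.single_apply]
  have hcolW : ∀ a, (fun i => B i a) ∈ W := by
    intro a
    rw [← hrange, ← hcol a]
    exact ⟨_, rfl⟩
  -- the new basis
  let u : Fin (Module.finrank K W) → O := fun a =>
    ∑ i, (⟨algebraMap K F (B i a), algebraMap_mem _ (hBV i a)⟩ : O) * e i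
  have hu_coe : ∀ a, ((u a : O) : F) = T (fun i => B i a) := by
    intro a
    rw [hT]
    simp only [u]
    push_cast
    refine Finset.sum_congr rfl fun i _ => ?_
    rw [Algebra.smul_def]
  have hu_red : ∀ a, red (u a) = ∑ i, res ⟨B i a, hBV i a⟩ • red (e i) := by
    intro a
    simp only [u]
    rw [map_sum]
    refine Finset.sum_congr rfl fun i _ => ?_
    rw [map_mul, red_algebraMap ⟨B i a, hBV i a⟩, Algebra.smul_def]
  have hpiv : ∀ b a, res ⟨B (p b) a, hBV (p b) a⟩ = if b = a then 1 else 0 := by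
    intro b a
    have h1 : B (p b) a = if b = a then 1 else 0 := by
      have := congrFun (congrFun hB b) a
      simpa [Matrix.submatrix_apply, Matrix.one_apply] using this
    by_cases hba : b = a
    · have h2 : (⟨B (p b) a, hBV (p b) a⟩ : V) = 1 :=
        Subtype.ext (show B (p b) a = 1 by rw [h1, if_pos hba])
      rw [h2, map_one, if_pos hba]
    · have h2 : (⟨B (p b) a, hBV (p b) a⟩ : V) = 0 :=
        Subtype.ext (show B (p b) a = 0 by rw [h1, if_neg hba])
      rw [h2, map_zero, if_neg hba]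
  refine ⟨Module.finrank K W, u, ⟨?_, ?_, ?_⟩, ?_⟩
  · -- independence of the reductions
    rw [Fintype.linearIndependent_iff]
    intro lam hlam b
    have h1 : ∑ i, (∑ a, lam a * res ⟨B i a, hBV i a⟩) • red (e i) = 0 := by
      rw [← hlam]
      simp only [hu_red, Finset.smul_sum, Finset.sum_smul, smul_smul]
      rw [Finset.sum_comm]
    have h2 := Fintype.linearIndependent_iff.mp he _ h1 (p b)
    simp only [hpiv] at h2
    simpa using h2
  · intro a
    rw [hu_coe]
    exact hcolW a
  · apply le_antisymm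
    · rw [Submodule.span_le]
      rintro _ ⟨a, rfl⟩
      show ((u a : O) : F) ∈ U
      rw [hu_coe]
      exact hcolW a
    · intro y hy
      have hy' : y ∈ LinearMap.range T := by
        rw [hrangeT]
        exact hU hy
      obtain ⟨c, rfl⟩ := hy'
      have hc : c ∈ W := hy
      rw [← hrange] at hc
      obtain ⟨x, rfl⟩ := hc
      have h3 : T (B.mulVecLin x) = ∑ a, x a • ((u a : O) : F) := by
        rw [hT]
        simp only [hu_coe, hT, Matrix.mulVecLin_apply, Matrix.mulVec, dotProduct, Finset.smul_sum,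
          Finset.sum_smul, smul_smul]
        rw [Finset.sum_comm]
        refine Finset.sum_congr rfl fun a _ => Finset.sum_congr rfl fun i _ => ?_
        rw [mul_comm]
      rw [h3]
      refine Submodule.sum_mem _ fun a _ => Submodule.smul_mem _ _ ?_
      exact Submodule.subset_span ⟨a, rfl⟩
  · -- invariance
    intro g hg a
    let c' : Fin n → K := fun i => SemilinearAut.baseAut g (B i a)
    have h4 : g • ((u a : O) : F) = T c' := by
      rw [hu_coe, hT, hT, Finset.smul_sum]
      refine Finset.sum_congr rfl fun i _ => ?_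
      rw [Algebra.smul_def, Algebra.smul_def, smul_mul', SemilinearAut.smul_algebraMap, heI g hg]
    have h5 : c' ∈ W := by
      show T c' ∈ U
      rw [← h4]
      refine hUI g hg _ ?_
      rw [hu_coe]
      exact hcolW a
    rw [← hrange] at h5
    obtain ⟨x, hx⟩ := h5
    have hx' : B *ᵥ x = c' := hx
    have h6 : x = Pi.single a 1 := by
      funext b
      rw [Fermat.Agent.S19.H495.coeff_eq_of_submatrix_eq_one B p hB x b, hx']
      have h1 : B (p b) a = if b = a then 1 else 0 := by
        have := congrFun (congrFun hB b) a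
        simpa [Matrix.submatrix_apply, Matrix.one_apply] using this
      show SemilinearAut.baseAut g (B (p b) a) = _
      rw [h1, Pi.single_apply]
      by_cases hba : b = a
      · simp [hba]
      · simp [hba]
    have h7 : c' = fun i => B i a := by
      rw [← hx', h6, hcol]
    rw [h4, h7, ← hu_coe]

end Sub

section Aux

/-- An element of `O` with non-zero reduction is a unit of `O`. -/
theorem inv_mem_of_red_ne_zero (O : ValuationSubring F) (red : O →+* Fk)
    (hsurj : Function.Surjective red) (f : O) (hf : red f ≠ 0) : ((f : O) : F)⁻¹ ∈ O := by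
  have hmax : (RingHom.ker red).IsMaximal := RingHom.ker_isMaximal_of_surjective red hsurj
  have hker : RingHom.ker red = IsLocalRing.maximalIdeal O := IsLocalRing.eq_maximalIdeal hmax
  have hunit : IsUnit f := by
    by_contra h
    have h1 : f ∈ IsLocalRing.maximalIdeal O := (IsLocalRing.mem_maximalIdeal f).mpr h
    rw [← hker] at h1
    exact hf ((RingHom.mem_ker).mp h1)
  obtain ⟨u, hu⟩ := hunit
  have h2 : ((f : O) : F) * (((u⁻¹ : Oˣ) : O) : F) = 1 := by
    rw [← hu]
    calc ((u : O) : F) * (((u⁻¹ : Oˣ) : O) : F) = (((u : O) * ((u⁻¹ : Oˣ) : O) : O) : F) := rfl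
      _ = ((1 : O) : F) := by rw [u.mul_inv]
      _ = 1 := rfl
  rw [← eq_inv_of_mul_eq_one_right h2]
  exact (((u⁻¹ : Oˣ) : O)).2

/-- Semilinear automorphisms map `L(E)` to `L(g • E)`. -/
theorem smul_mem_L (g : SemilinearAut K F) {E : Divisor K F} {f : F}
    (hf : f ∈ riemannRochSpace E) : g • f ∈ riemannRochSpace (g • E) := by
  rw [Fermat.Agent.Lib.RR.mem_L_iff] at hf ⊢
  intro w
  rcases hf (g⁻¹ • w) with h0 | h1
  · left
    rw [h0, smul_zero]
  · right
    have h2 : (g • (g⁻¹ • w)).ord (g • f) = (g⁻¹ • w).ord f := SemilinearAut.ord_smul g _ f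
    rw [smul_inv_smul] at h2
    rw [h2, SemilinearAut.divisor_smul_apply]
    exact h1

/-- The positive part of a divisor. -/
def posPart (D : Divisor K F) : Divisor K F := D ⊔ 0

theorem posPart_apply (D : Divisor K F) (v : Place K F) : posPart D v = max (D v) 0 := by
  simp [posPart, Finsupp.sup_apply]

theorem le_posPart (D : Divisor K F) : D ≤ posPart D := le_sup_left

theorem posPart_nonneg (D : Divisor K F) : 0 ≤ posPart D := le_sup_right

theorem smul_posPart (g : SemilinearAut K F) {D : Divisor K F} (hD : g • D = D) :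
    g • posPart D = posPart D := by
  ext w
  rw [SemilinearAut.divisor_smul_apply, posPart_apply, posPart_apply]
  have h := SemilinearAut.divisor_smul_apply g D w
  rw [hD] at h
  rw [h]

end Aux

section Main

open Fermat.Agent.Lib.RR

variable [FF1 K F]
variable (V : ValuationSubring K) (O : ValuationSubring F) (res : V →+* k) (red : O →+* Fk)
variable (algebraMap_mem : ∀ a : K, a ∈ V → algebraMap K F a ∈ O)
variable (red_algebraMap : ∀ (a : V) (h : algebraMap K F (a : K) ∈ O),
    red ⟨algebraMap K F (a : K), h⟩ = algebraMap k Fk (res a))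
variable (red_surjective : Function.Surjective red)
variable (I : Set (SemilinearAut K F))
variable (B₀ : Divisor K F) (hB₀ : 0 < Divisor.degree B₀) (hB₀I : ∀ g ∈ I, g • B₀ = B₀)
variable (hbase : ∀ m₀ : ℕ, ∃ m, m₀ ≤ m ∧ ∃ (n : ℕ) (e : Fin n → O),
    IsOrthBasis k O red (riemannRochSpace (m • B₀)) e ∧
      ∀ g ∈ I, ∀ i, g • ((e i : O) : F) = e i)

include algebraMap_mem red_algebraMap red_surjective hB₀ hB₀I hbase in
theorem exists_orthBasis_aux (D : Divisor K F) (J : Set (SemilinearAut K F)) (hJ : J ⊆ I)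
    (hDJ : ∀ g ∈ J, g • D = D) :
    ∃ (n : ℕ) (b : Fin n → O), IsOrthBasis k O red (riemannRochSpace D) b ∧
      ∀ g ∈ J, ∀ i, g • ((b i : O) : F) = b i := by
  classical
  set A : Divisor K F := posPart D with hA
  -- choose `m`
  obtain ⟨m, hm, n, e, ⟨he_ind, he_mem, he_span⟩, heI⟩ :=
    hbase ((genusR K F : ℤ) + Divisor.degree A).toNat
  have hdeg : (genusR K F : ℤ) + Divisor.degree A ≤ Divisor.degree ((m : ℕ) • B₀) := by
    rw [map_nsmul, nsmul_eq_mul]
    have h1 : (genusR K F : ℤ) + Divisor.degree A ≤ (m : ℤ) :=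
      (Int.self_le_toNat _).trans (Int.ofNat_le.mpr hm)
    have h2 : (0 : ℤ) ≤ (m : ℤ) := Int.natCast_nonneg m
    nlinarith
  -- the space `U₁ = L(m B₀ - A)` is non-zero
  have hell : 1 ≤ ell ((m : ℕ) • B₀ - A) := by
    have h1 := riemann_inequality (K := K) (F := F) ((m : ℕ) • B₀ - A)
    rw [map_sub] at h1
    have h2 : (1 : ℤ) ≤ (ell ((m : ℕ) • B₀ - A) : ℤ) := by linarith
    exact_mod_cast h2
  have hU₁le : riemannRochSpace ((m : ℕ) • B₀ - A) ≤
      Submodule.span K (Set.range fun i => ((e i : O) : F)) := by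
    rw [he_span]
    apply L_mono
    have := posPart_nonneg D
    rw [← hA] at this
    exact sub_le_self _ this
  have hJI : ∀ g ∈ J, ∀ i, g • ((e i : O) : F) = e i := fun g hg i => heI g (hJ hg) i
  have hAJ : ∀ g ∈ J, g • A = A := fun g hg => smul_posPart g (hDJ g hg)
  have hU₁J : ∀ g ∈ J, ∀ f ∈ riemannRochSpace ((m : ℕ) • B₀ - A),
      g • f ∈ riemannRochSpace ((m : ℕ) • B₀ - A) := by
    intro g hg f hf
    have h1 := smul_mem_L g hf
    rw [smul_sub, smul_comm g m B₀, hB₀I g (hJ hg), hAJ g hg] at h1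
    exact h1
  obtain ⟨d₁, u₁, ⟨hu₁_ind, hu₁_mem, hu₁_span⟩, hu₁J⟩ :=
    exists_orthBasis_of_le V O res red algebraMap_mem red_algebraMap e he_ind _ hU₁le J hJI hU₁J
  have hd₁ : 0 < d₁ := by
    by_contra h0
    have h0' : d₁ = 0 := by omega
    subst h0'
    have h1 : riemannRochSpace ((m : ℕ) • B₀ - A) = ⊥ := by
      rw [← hu₁_span]
      have : (Set.range fun i : Fin 0 => ((u₁ i : O) : F)) = ∅ := Set.range_eq_empty _
      rw [this, Submodule.span_empty]
    have h2 : ell ((m : ℕ) • B₀ - A) = 0 := by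
      unfold ell
      rw [h1]
      exact finrank_bot K F
    omega
  set h : O := u₁ ⟨0, hd₁⟩ with hh
  have hh_red : red h ≠ 0 := hu₁_ind.ne_zero ⟨0, hd₁⟩
  have hh0 : ((h : O) : F) ≠ 0 := by
    intro h0
    apply hh_red
    have : h = 0 := Subtype.ext h0
    rw [this, map_zero]
  have hh_mem : ((h : O) : F) ∈ riemannRochSpace ((m : ℕ) • B₀ - A) := hu₁_mem _
  have hh_inv : ((h : O) : F)⁻¹ ∈ O := inv_mem_of_red_ne_zero O red red_surjective h hh_red
  have hhJ : ∀ g ∈ J, g • ((h : O) : F) = h := fun g hg => hu₁J g hg _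
  -- the twisted space
  set U₂ : Submodule K F := (riemannRochSpace D).map (LinearMap.mulLeft K ((h : O) : F)) with hU₂
  have hU₂le : U₂ ≤ Submodule.span K (Set.range fun i => ((e i : O) : F)) := by
    rw [he_span]
    rintro _ ⟨f, hf', rfl⟩
    have hf : f ∈ riemannRochSpace D := hf'
    show ((h : O) : F) * f ∈ riemannRochSpace ((m : ℕ) • B₀)
    rw [mem_L_iff] at hf hh_mem ⊢
    intro v
    by_cases hf0 : f = 0
    · left
      rw [hf0, mul_zero]
    · right
      have h1 := (hh_mem v).resolve_left hh0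
      have h2 := (hf v).resolve_left hf0
      have h3 : D v ≤ A v := Finsupp.le_def.mp (le_posPart D) v
      rw [v.ord_mul hh0 hf0]
      rw [Finsupp.sub_apply] at h1
      omega
  have hU₂J : ∀ g ∈ J, ∀ f ∈ U₂, g • f ∈ U₂ := by
    rintro g hg _ ⟨f, hf', rfl⟩
    have hf : f ∈ riemannRochSpace D := hf'
    refine ⟨g • f, ?_, ?_⟩
    · have h1 := smul_mem_L g hf
      rw [hDJ g hg] at h1
      exact h1
    · show ((h : O) : F) * (g • f) = g • (((h : O) : F) * f)
      rw [smul_mul', hhJ g hg]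
  obtain ⟨d₂, u₂, ⟨hu₂_ind, hu₂_mem, hu₂_span⟩, hu₂J⟩ :=
    exists_orthBasis_of_le V O res red algebraMap_mem red_algebraMap e he_ind U₂ hU₂le J hJI hU₂J
  -- untwist
  set hinv : O := ⟨((h : O) : F)⁻¹, hh_inv⟩ with hhinv
  have hmul : h * hinv = 1 := Subtype.ext (mul_inv_cancel₀ hh0)
  have hred_inv : red hinv ≠ 0 := by
    intro h0
    have := congrArg red hmul
    rw [map_mul, h0, mul_zero, map_one] at this
    exact zero_ne_one this
  have hb_coe : ∀ i, (((u₂ i * hinv : O) : O) : F) = ((u₂ i : O) : F) * ((h : O) : F)⁻¹ :=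
    fun i => rfl
  have hb_mem : ∀ i, (((u₂ i * hinv : O) : O) : F) ∈ riemannRochSpace D := by
    intro i
    obtain ⟨f, hf, hfi⟩ := hu₂_mem i
    have hfi' : ((h : O) : F) * f = ((u₂ i : O) : F) := hfi
    rw [hb_coe, ← hfi', mul_comm, ← mul_assoc, inv_mul_cancel₀ hh0, one_mul]
    exact hf
  refine ⟨d₂, fun i => u₂ i * hinv, ⟨?_, hb_mem, ?_⟩, ?_⟩
  · have h1 : (fun i => red (u₂ i * hinv)) =
        (LinearMap.mulRight k (red hinv)) ∘ (fun i => red (u₂ i)) := by
      funext i
      simp [map_mul]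
    rw [h1]
    refine hu₂_ind.map' _ ?_
    rw [LinearMap.ker_eq_bot]
    exact mul_left_injective₀ hred_inv
  · apply le_antisymm
    · rw [Submodule.span_le]
      rintro _ ⟨i, rfl⟩
      exact hb_mem i
    · intro f hf
      have h1 : ((h : O) : F) * f ∈ U₂ := ⟨f, hf, rfl⟩
      rw [← hu₂_span] at h1
      obtain ⟨c, hc⟩ := (Submodule.mem_span_range_iff_exists_fun K).mp h1
      have h2 : f = ∑ i, c i • (((u₂ i * hinv : O) : O) : F) := by
        have h3 : f = ((h : O) : F)⁻¹ * (((h : O) : F) * f) := by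
          rw [← mul_assoc, inv_mul_cancel₀ hh0, one_mul]
        rw [h3, ← hc, Finset.mul_sum]
        refine Finset.sum_congr rfl fun i _ => ?_
        rw [hb_coe, Algebra.smul_def, Algebra.smul_def]
        ring
      rw [h2]
      refine Submodule.sum_mem _ fun i _ => Submodule.smul_mem _ _ ?_
      exact Submodule.subset_span ⟨i, rfl⟩
  · intro g hg i
    show g • (((u₂ i * hinv : O) : O) : F) = ((u₂ i * hinv : O) : F)
    rw [hb_coe, smul_mul', smul_inv'', hu₂J g hg i, hhJ g hg]

include algebraMap_mem red_algebraMap red_surjective hB₀ hB₀I hbase in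
/-- **GR-ORTH.**  The field `orthonormal` of `GoodRed`, for all divisors, from the base case. -/
theorem orthonormal_of_base (D : Divisor K F) :
    ∃ (n : ℕ) (b : Fin n → O),
      LinearIndependent k (fun i => red (b i)) ∧
      (∀ i, ((b i : O) : F) ∈ riemannRochSpace D) ∧
      Submodule.span K (Set.range fun i => ((b i : O) : F)) = riemannRochSpace D ∧
      ((∀ g ∈ I, g • D = D) → ∀ i, ∀ g ∈ I, g • ((b i : O) : F) = ((b i : O) : F)) := by
  by_cases hD : ∀ g ∈ I, g • D = D
  · obtain ⟨n, b, ⟨h1, h2, h3⟩, h4⟩ :=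
      exists_orthBasis_aux V O res red algebraMap_mem red_algebraMap red_surjective I B₀ hB₀ hB₀I
        hbase D I subset_rfl hD
    exact ⟨n, b, h1, h2, h3, fun _ i g hg => h4 g hg i⟩
  · obtain ⟨n, b, ⟨h1, h2, h3⟩, -⟩ :=
      exists_orthBasis_aux V O res red algebraMap_mem red_algebraMap red_surjective I B₀ hB₀ hB₀I
        hbase D ∅ (Set.empty_subset _) (fun g hg => absurd hg (Set.notMem_empty g))
    exact ⟨n, b, h1, h2, h3, fun h => absurd h hD⟩

include algebraMap_mem red_algebraMap red_surjective hB₀ in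
/-- `orthonormal_of_base` for a subgroup `I`, verbatim in the shape of the field
`A3.H799.GoodRed.orthonormal`. -/
theorem orthonormal_of_base_subgroup (I' : Subgroup (SemilinearAut K F))
    (hB₀I' : ∀ g ∈ I', g • B₀ = B₀)
    (hbase' : ∀ m₀ : ℕ, ∃ m, m₀ ≤ m ∧ ∃ (n : ℕ) (e : Fin n → O),
      (LinearIndependent k (fun i => red (e i)) ∧
        (∀ i, ((e i : O) : F) ∈ riemannRochSpace (m • B₀)) ∧
        Submodule.span K (Set.range fun i => ((e i : O) : F)) = riemannRochSpace (m • B₀)) ∧
        ∀ g ∈ I', ∀ i, g • ((e i : O) : F) = e i) :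
    ∀ D : Divisor K F, ∃ (n : ℕ) (b : Fin n → O),
      LinearIndependent k (fun i => red (b i)) ∧
      (∀ i, ((b i : O) : F) ∈ riemannRochSpace D) ∧
      Submodule.span K (Set.range fun i => ((b i : O) : F)) = riemannRochSpace D ∧
      ((∀ g ∈ I', g • D = D) → ∀ i, ∀ g ∈ I', g • ((b i : O) : F) = ((b i : O) : F)) :=
  fun D => orthonormal_of_base V O res red algebraMap_mem red_algebraMap red_surjective
    (I' : Set (SemilinearAut K F)) B₀ hB₀ hB₀I' hbase' D

end Main

end Fermat.Agent.A3.H499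

end

end
-- ===== PACK-END A3/H499/Orth.lean

-- ===== PACK-BEGIN A3/H499/OrthGood.lean
section


/-!
# A3 / GR-ORTH, route D (helper499): orthonormal bases from a degree equality (Deuring)

Abstract, instance-free; no places, no `div_red`, no uniformiser.

Setting = the first fields of `A3.H799.GoodRed` (`V`, `O`, `res`, `red`), a coordinate `x ∈ O`
with transcendental reduction and elements `w i ∈ O` such that the reductions of `x ^ j * w i`
are `k`-linearly independent and every `f ∈ F` has a denominator `h ∈ K[x]` with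
`h * f ∈ ∑ K x ^ j w i`  (i.e. the `w i` are a `K(x)`-basis of `F` whose reductions are
`k(x̄)`-independent: the situation `[F : K(x)] = [F_k : k(x̄)]` of `S37.Red.Datum.Good`).

* `exists_orthBasis_of_span` : every finitely generated `K`-subspace `M` of `F` has an
  orthonormal basis; if `x` and the `w i` are fixed by a group `I` of semilinear automorphisms
  and `M` is `I`-stable, the basis can be chosen `I`-fixed.  (The monic denominator of `M` of
  minimal degree is unique, hence `I`-fixed.)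
-/

set_option autoImplicit false
set_option linter.unusedSectionVars false
set_option linter.style.longLine false

noncomputable section

open AlgebraicCurve Polynomial

namespace Fermat.Agent.A3.H499

variable {K F : Type*} [Field K] [Field F] [Algebra K F]
variable {k : Type*} {Fk : Type*} [Field k] [Field Fk] [Algebra k Fk]

section PolyAction

/-- A semilinear automorphism fixing `x` acts on `K[x]` through the coefficients. -/
theorem smul_aeval (g : SemilinearAut K F) (x : F) (hx : g • x = x) (p : K[X]) :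
    g • (aeval x p) = aeval x (p.map (SemilinearAut.baseAut g : K →+* K)) := by
  induction p using Polynomial.induction_on' with
  | add p q hp hq => rw [map_add, smul_add, hp, hq, Polynomial.map_add, map_add]
  | monomial n a =>
    rw [Polynomial.map_monomial, aeval_monomial, aeval_monomial, smul_mul', smul_pow', hx,
      SemilinearAut.smul_algebraMap]
    rfl

/-- semilinearity on scalar multiples -/
theorem smul_smul_semilinear (g : SemilinearAut K F) (a : K) (f : F) :
    g • (a • f) = (SemilinearAut.baseAut g a) • (g • f) := by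
  rw [Algebra.smul_def, Algebra.smul_def, smul_mul', SemilinearAut.smul_algebraMap]

end PolyAction

section Twist

variable (V : ValuationSubring K) (O : ValuationSubring F) (res : V →+* k) (red : O →+* Fk)
variable (algebraMap_mem : ∀ a : K, a ∈ V → algebraMap K F a ∈ O)
variable (red_algebraMap : ∀ (a : V) (h : algebraMap K F (a : K) ∈ O),
    red ⟨algebraMap K F (a : K), h⟩ = algebraMap k Fk (res a))
variable (red_surjective : Function.Surjective red)

include algebraMap_mem red_algebraMap red_surjective in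
/-- **Twist.**  If `h ∈ O` has non-zero reduction and `h • M` lies in the span of an orthonormal
family, then `M` has an orthonormal basis (fixed by `J` if everything is). -/
theorem exists_orthBasis_of_mul_le {n : ℕ} (e : Fin n → O)
    (he : LinearIndependent k (fun i => red (e i)))
    (h : O) (hh_red : red h ≠ 0) (M : Submodule K F)
    (hM : M.map (LinearMap.mulLeft K ((h : O) : F)) ≤
      Submodule.span K (Set.range fun i => ((e i : O) : F)))
    (J : Set (SemilinearAut K F)) (heJ : ∀ g ∈ J, ∀ i, g • ((e i : O) : F) = e i)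
    (hhJ : ∀ g ∈ J, g • ((h : O) : F) = h)
    (hMJ : ∀ g ∈ J, ∀ f ∈ M, g • f ∈ M) :
    ∃ (d : ℕ) (b : Fin d → O), IsOrthBasis k O red M b ∧
      ∀ g ∈ J, ∀ i, g • ((b i : O) : F) = b i := by
  classical
  have hh0 : ((h : O) : F) ≠ 0 := by
    intro h0
    apply hh_red
    have : h = 0 := Subtype.ext h0
    rw [this, map_zero]
  have hh_inv : ((h : O) : F)⁻¹ ∈ O := inv_mem_of_red_ne_zero O red red_surjective h hh_red
  set U₂ : Submodule K F := M.map (LinearMap.mulLeft K ((h : O) : F)) with hU₂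
  have hU₂J : ∀ g ∈ J, ∀ f ∈ U₂, g • f ∈ U₂ := by
    rintro g hg _ ⟨f, hf', rfl⟩
    have hf : f ∈ M := hf'
    refine ⟨g • f, hMJ g hg f hf, ?_⟩
    show ((h : O) : F) * (g • f) = g • (((h : O) : F) * f)
    rw [smul_mul', hhJ g hg]
  obtain ⟨d₂, u₂, ⟨hu₂_ind, hu₂_mem, hu₂_span⟩, hu₂J⟩ :=
    exists_orthBasis_of_le V O res red algebraMap_mem red_algebraMap e he U₂ hM J heJ hU₂J
  -- untwist
  set hinv : O := ⟨((h : O) : F)⁻¹, hh_inv⟩ with hhinv
  have hmul : h * hinv = 1 := Subtype.ext (mul_inv_cancel₀ hh0)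
  have hred_inv : red hinv ≠ 0 := by
    intro h0
    have := congrArg red hmul
    rw [map_mul, h0, mul_zero, map_one] at this
    exact zero_ne_one this
  have hb_coe : ∀ i, (((u₂ i * hinv : O) : O) : F) = ((u₂ i : O) : F) * ((h : O) : F)⁻¹ :=
    fun i => rfl
  have hb_mem : ∀ i, (((u₂ i * hinv : O) : O) : F) ∈ M := by
    intro i
    obtain ⟨f, hf, hfi⟩ := hu₂_mem i
    have hfi' : ((h : O) : F) * f = ((u₂ i : O) : F) := hfi
    rw [hb_coe, ← hfi', mul_comm, ← mul_assoc, inv_mul_cancel₀ hh0, one_mul]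
    exact hf
  refine ⟨d₂, fun i => u₂ i * hinv, ⟨?_, hb_mem, ?_⟩, ?_⟩
  · have h1 : (fun i => red (u₂ i * hinv)) =
        (LinearMap.mulRight k (red hinv)) ∘ (fun i => red (u₂ i)) := by
      funext i
      simp [map_mul]
    rw [h1]
    refine hu₂_ind.map' _ ?_
    rw [LinearMap.ker_eq_bot]
    exact mul_left_injective₀ hred_inv
  · apply le_antisymm
    · rw [Submodule.span_le]
      rintro _ ⟨i, rfl⟩
      exact hb_mem i
    · intro f hf
      have h1 : ((h : O) : F) * f ∈ U₂ := ⟨f, hf, rfl⟩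
      rw [← hu₂_span] at h1
      obtain ⟨c, hc⟩ := (Submodule.mem_span_range_iff_exists_fun K).mp h1
      have h2 : f = ∑ i, c i • (((u₂ i * hinv : O) : O) : F) := by
        have h3 : f = ((h : O) : F)⁻¹ * (((h : O) : F) * f) := by
          rw [← mul_assoc, inv_mul_cancel₀ hh0, one_mul]
        rw [h3, ← hc, Finset.mul_sum]
        refine Finset.sum_congr rfl fun i _ => ?_
        rw [hb_coe, Algebra.smul_def, Algebra.smul_def]
        ring
      rw [h2]
      refine Submodule.sum_mem _ fun i _ => Submodule.smul_mem _ _ ?_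
      exact Submodule.subset_span ⟨i, rfl⟩
  · intro g hg i
    show g • (((u₂ i * hinv : O) : O) : F) = ((u₂ i * hinv : O) : F)
    rw [hb_coe, smul_mul', smul_inv'', hu₂J g hg i, hhJ g hg]

end Twist

section Core

variable {O : ValuationSubring F} (x : O) {n : ℕ} (w : Fin n → O)

/-- the `K`-span of the `x ^ j * w i`, `j ∈ ℕ` -/
def polySpan {O : ValuationSubring F} (x : O) {n : ℕ} (w : Fin n → O) : Submodule K F :=
  Submodule.span K (Set.range fun p : ℕ × Fin n => ((x : O) : F) ^ p.1 * ((w p.2 : O) : F))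

/-- the `K`-span of the `x ^ j * w i`, `j < d` -/
def polySpanLt {O : ValuationSubring F} (x : O) {n : ℕ} (w : Fin n → O) (d : ℕ) :
    Submodule K F :=
  Submodule.span K (Set.range fun p : Fin d × Fin n =>
    ((x : O) : F) ^ (p.1 : ℕ) * ((w p.2 : O) : F))

theorem polySpanLt_mono {d d' : ℕ} (h : d ≤ d') :
    polySpanLt (K := K) x w d ≤ polySpanLt (K := K) x w d' := by
  unfold polySpanLt
  rw [Submodule.span_le]
  rintro _ ⟨p, rfl⟩
  exact Submodule.subset_span ⟨(⟨p.1, lt_of_lt_of_le p.1.2 h⟩, p.2), rfl⟩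

theorem exists_mem_polySpanLt {r : F} (hr : r ∈ polySpan (K := K) x w) :
    ∃ d, r ∈ polySpanLt (K := K) x w d := by
  unfold polySpan at hr
  induction hr using Submodule.span_induction with
  | mem r hr =>
    obtain ⟨p, rfl⟩ := hr
    exact ⟨p.1 + 1, Submodule.subset_span ⟨(⟨p.1, Nat.lt_succ_self _⟩, p.2), rfl⟩⟩
  | zero => exact ⟨0, Submodule.zero_mem _⟩
  | add a b _ _ ha hb =>
    obtain ⟨d₁, h₁⟩ := ha
    obtain ⟨d₂, h₂⟩ := hb
    exact ⟨max d₁ d₂, Submodule.add_mem _ (polySpanLt_mono x w (le_max_left _ _) h₁)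
      (polySpanLt_mono x w (le_max_right _ _) h₂)⟩
  | smul c a _ ha =>
    obtain ⟨d, hd⟩ := ha
    exact ⟨d, Submodule.smul_mem _ _ hd⟩

theorem exists_le_polySpanLt (M : Submodule K F) (hMfg : M.FG)
    (hM : M ≤ polySpan (K := K) x w) : ∃ d, M ≤ polySpanLt (K := K) x w d := by
  classical
  obtain ⟨S, hS⟩ := hMfg
  have h1 : ∀ s ∈ S, ∃ d, s ∈ polySpanLt (K := K) x w d := fun s hs =>
    exists_mem_polySpanLt x w (hM (hS ▸ Submodule.subset_span hs))
  choose! dfun hdfun using h1
  refine ⟨S.sup dfun, ?_⟩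
  rw [← hS, Submodule.span_le]
  intro s hs
  exact polySpanLt_mono x w (Finset.le_sup (f := dfun) hs) (hdfun s hs)

theorem mul_x_mem_polySpan {r : F} (hr : r ∈ polySpan (K := K) x w) :
    ((x : O) : F) * r ∈ polySpan (K := K) x w := by
  unfold polySpan at hr ⊢
  induction hr using Submodule.span_induction with
  | mem r hr =>
    obtain ⟨p, rfl⟩ := hr
    refine Submodule.subset_span ⟨(p.1 + 1, p.2), ?_⟩
    show ((x : O) : F) ^ (p.1 + 1) * ((w p.2 : O) : F) = _
    rw [pow_succ']
    ring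
  | zero => rw [mul_zero]; exact Submodule.zero_mem _
  | add a b _ _ ha hb => rw [mul_add]; exact Submodule.add_mem _ ha hb
  | smul c a _ ha => rw [mul_smul_comm]; exact Submodule.smul_mem _ _ ha

theorem x_pow_mul_mem_polySpan (j : ℕ) {r : F} (hr : r ∈ polySpan (K := K) x w) :
    ((x : O) : F) ^ j * r ∈ polySpan (K := K) x w := by
  induction j with
  | zero => rw [pow_zero, one_mul]; exact hr
  | succ j ih =>
    rw [pow_succ', mul_assoc]
    exact mul_x_mem_polySpan x w ih

theorem aeval_mul_mem_polySpan (p : K[X]) {r : F} (hr : r ∈ polySpan (K := K) x w) :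
    aeval ((x : O) : F) p * r ∈ polySpan (K := K) x w := by
  induction p using Polynomial.induction_on' with
  | add p q hp hq => rw [map_add, add_mul]; exact Submodule.add_mem _ hp hq
  | monomial j a =>
    rw [aeval_monomial, mul_assoc, ← Algebra.smul_def]
    exact Submodule.smul_mem _ _ (x_pow_mul_mem_polySpan x w j hr)

theorem smul_mem_polySpan (g : SemilinearAut K F) (hgx : g • ((x : O) : F) = x)
    (hgw : ∀ i, g • ((w i : O) : F) = w i) {r : F} (hr : r ∈ polySpan (K := K) x w) :
    g • r ∈ polySpan (K := K) x w := by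
  unfold polySpan at hr ⊢
  induction hr using Submodule.span_induction with
  | mem r hr =>
    obtain ⟨p, rfl⟩ := hr
    refine Submodule.subset_span ⟨p, ?_⟩
    show _ = g • (((x : O) : F) ^ p.1 * ((w p.2 : O) : F))
    rw [smul_mul', smul_pow', hgx, hgw]
  | zero => rw [smul_zero]; exact Submodule.zero_mem _
  | add a b _ _ ha hb => rw [smul_add]; exact Submodule.add_mem _ ha hb
  | smul c a _ ha => rw [smul_smul_semilinear]; exact Submodule.smul_mem _ _ ha

/-- `h` is a common denominator of `M` -/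
def IsDen {O : ValuationSubring F} (x : O) {n : ℕ} (w : Fin n → O) (M : Submodule K F)
    (h : K[X]) : Prop :=
  ∀ f ∈ M, aeval ((x : O) : F) h * f ∈ polySpan (K := K) x w

variable {x w}

theorem IsDen.sub {M : Submodule K F} {h h' : K[X]} (hh : IsDen x w M h) (hh' : IsDen x w M h') :
    IsDen x w M (h - h') := by
  intro f hf
  rw [map_sub, sub_mul]
  exact Submodule.sub_mem _ (hh f hf) (hh' f hf)

theorem IsDen.mul_left {M : Submodule K F} {h : K[X]} (hh : IsDen x w M h) (p : K[X]) :
    IsDen x w M (p * h) := by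
  intro f hf
  rw [map_mul, mul_assoc]
  exact aeval_mul_mem_polySpan x w p (hh f hf)

theorem IsDen.map {M : Submodule K F} {h : K[X]} (hh : IsDen x w M h)
    (g : SemilinearAut K F) (hgx : g • ((x : O) : F) = x)
    (hgw : ∀ i, g • ((w i : O) : F) = w i) (hgM : ∀ f ∈ M, g⁻¹ • f ∈ M) :
    IsDen x w M (h.map (SemilinearAut.baseAut g : K →+* K)) := by
  intro f hf
  have h1 := smul_mem_polySpan x w g hgx hgw (hh _ (hgM f hf))
  rw [smul_mul', smul_aeval g _ hgx, smul_inv_smul] at h1
  exact h1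

theorem exists_isDen_ne_zero (M : Submodule K F) (hMfg : M.FG)
    (hspan : ∀ f : F, ∃ h : K[X], h ≠ 0 ∧ aeval ((x : O) : F) h * f ∈ polySpan (K := K) x w) :
    ∃ h : K[X], h ≠ 0 ∧ IsDen x w M h := by
  classical
  obtain ⟨S, hS⟩ := hMfg
  choose hfun hfun0 hfun_mem using hspan
  refine ⟨∏ s ∈ S, hfun s, Finset.prod_ne_zero_iff.mpr fun s _ => hfun0 s, ?_⟩
  intro f hf
  rw [← hS] at hf
  induction hf using Submodule.span_induction with
  | mem s hs =>
    have hs' : s ∈ S := hs
    rw [← Finset.mul_prod_erase S hfun hs', mul_comm (hfun s), map_mul, mul_assoc]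
    exact aeval_mul_mem_polySpan x w _ (hfun_mem s)
  | zero => rw [mul_zero]; exact Submodule.zero_mem _
  | add a b _ _ ha hb => rw [mul_add]; exact Submodule.add_mem _ ha hb
  | smul c a _ ha => rw [mul_smul_comm]; exact Submodule.smul_mem _ _ ha

end Core

section Main

variable (V : ValuationSubring K) (O : ValuationSubring F) (res : V →+* k) (red : O →+* Fk)
variable (algebraMap_mem : ∀ a : K, a ∈ V → algebraMap K F a ∈ O)
variable (red_algebraMap : ∀ (a : V) (h : algebraMap K F (a : K) ∈ O),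
    red ⟨algebraMap K F (a : K), h⟩ = algebraMap k Fk (res a))
variable (red_surjective : Function.Surjective red)

include algebraMap_mem red_algebraMap red_surjective in
/-- **Route D, core.**  Every finitely generated `K`-subspace `M` of `F` has an orthonormal
basis, which is `I`-fixed if `x`, the `w i` are `I`-fixed and `M` is `I`-stable. -/
theorem exists_orthBasis_of_span
    (x : O) (hxtr : Transcendental k (red x)) {n : ℕ} (w : Fin n → O)
    (horth : LinearIndependent k (fun p : ℕ × Fin n => red (x ^ p.1 * w p.2)))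
    (hspan : ∀ f : F, ∃ h : K[X], h ≠ 0 ∧ aeval ((x : O) : F) h * f ∈ polySpan (K := K) x w)
    (I : Subgroup (SemilinearAut K F))
    (hIx : ∀ g ∈ I, g • ((x : O) : F) = x)
    (hIw : ∀ g ∈ I, ∀ i, g • ((w i : O) : F) = w i)
    (M : Submodule K F) (hMfg : M.FG) (hMI : ∀ g ∈ I, ∀ f ∈ M, g • f ∈ M) :
    ∃ (d : ℕ) (u : Fin d → O), IsOrthBasis k O red M u ∧
      ∀ g ∈ I, ∀ a, g • ((u a : O) : F) = u a := by
  classical
  -- Step 1: a non-zero denominator of minimal degree
  obtain ⟨h₀', hh₀'0, hh₀'den⟩ := exists_isDen_ne_zero M hMfg hspan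
  have hex : ∃ d, ∃ h : K[X], h ≠ 0 ∧ IsDen x w M h ∧ h.natDegree = d :=
    ⟨_, h₀', hh₀'0, hh₀'den, rfl⟩
  obtain ⟨h₀, hh₀0, hh₀den, hh₀deg⟩ := Nat.find_spec hex
  have hmin : ∀ h : K[X], h ≠ 0 → IsDen x w M h → Nat.find hex ≤ h.natDegree :=
    fun h h0 hd => Nat.find_min' hex ⟨h, h0, hd, rfl⟩
  -- Step 2: the monic one
  have hlc : h₀.leadingCoeff ≠ 0 := leadingCoeff_ne_zero.mpr hh₀0
  set h₁ : K[X] := C h₀.leadingCoeff⁻¹ * h₀ with hh₁
  have hh₁monic : h₁.Monic := monic_C_mul_of_mul_leadingCoeff_eq_one (inv_mul_cancel₀ hlc)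
  have hh₁den : IsDen x w M h₁ := hh₀den.mul_left _
  have hh₁deg : h₁.natDegree = Nat.find hex := by
    rw [hh₁, natDegree_C_mul (inv_ne_zero hlc), hh₀deg]
  -- Step 3: it is `I`-fixed
  have hh₁I : ∀ g ∈ I, h₁.map (SemilinearAut.baseAut g : K →+* K) = h₁ := by
    intro g hg
    by_contra hne
    have hden' : IsDen x w M (h₁.map (SemilinearAut.baseAut g : K →+* K)) :=
      hh₁den.map g (hIx g hg) (hIw g hg) (fun f hf => hMI g⁻¹ (I.inv_mem hg) f hf)
    have hsub := hh₁den.sub hden'
    have hne' : h₁ - h₁.map (SemilinearAut.baseAut g : K →+* K) ≠ 0 :=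
      sub_ne_zero.mpr (Ne.symm hne)
    have h1 := hmin _ hne' hsub
    have hmonic' : (h₁.map (SemilinearAut.baseAut g : K →+* K)).Monic := hh₁monic.map _
    have hlt : (h₁ - h₁.map (SemilinearAut.baseAut g : K →+* K)).degree < h₁.degree :=
      degree_sub_lt_left (by rw [degree_map]) hh₁monic.ne_zero
        (by rw [hh₁monic.leadingCoeff, hmonic'.leadingCoeff])
    have h2 := natDegree_lt_natDegree hne' hlt
    omega
  -- Step 4: normalise to Gauss norm one
  have hsupp : h₁.support.Nonempty := ⟨h₁.natDegree, by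
    rw [mem_support_iff, coeff_natDegree, hh₁monic.leadingCoeff]; exact one_ne_zero⟩
  obtain ⟨m, hm_mem, hm_max⟩ :=
    Finset.exists_max_image h₁.support (fun i => V.valuation (h₁.coeff i)) hsupp
  set c : K := h₁.coeff m with hc
  have hc0 : c ≠ 0 := mem_support_iff.mp hm_mem
  set h : K[X] := C c⁻¹ * h₁ with hh
  have hcoeff : ∀ i, h.coeff i = c⁻¹ * h₁.coeff i := fun i => by rw [hh, coeff_C_mul]
  have hcoeffV : ∀ i, h.coeff i ∈ V := by
    intro i
    rw [hcoeff, ← ValuationSubring.valuation_le_one_iff, map_mul, map_inv₀]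
    have hv : V.valuation c ≠ 0 := (_root_.map_ne_zero _).mpr hc0
    rw [inv_mul_le_iff₀ (zero_lt_iff.mpr hv), mul_one]
    by_cases hi : i ∈ h₁.support
    · exact hm_max i hi
    · rw [notMem_support_iff.mp hi, map_zero]
      exact zero_le
  have hcoeffm : h.coeff m = 1 := by rw [hcoeff, ← hc, inv_mul_cancel₀ hc0]
  have hden : IsDen x w M h := hh₁den.mul_left _
  have hcI : ∀ g ∈ I, SemilinearAut.baseAut g c = c := by
    intro g hg
    have := congrArg (fun q : K[X] => q.coeff m) (hh₁I g hg)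
    simpa [coeff_map] using this
  have hhI : ∀ g ∈ I, h.map (SemilinearAut.baseAut g : K →+* K) = h := by
    intro g hg
    rw [hh, Polynomial.map_mul, map_C, hh₁I g hg]
    congr 2
    show SemilinearAut.baseAut g c⁻¹ = c⁻¹
    rw [map_inv₀, hcI g hg]
  -- the value `H = h(x) ∈ O`
  set H : O := ∑ i ∈ Finset.range (h.natDegree + 1),
    (⟨algebraMap K F (h.coeff i), algebraMap_mem _ (hcoeffV i)⟩ : O) * x ^ i with hH
  have hHcoe : ((H : O) : F) = aeval ((x : O) : F) h := by
    rw [aeval_eq_sum_range, hH]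
    push_cast
    refine Finset.sum_congr rfl fun i _ => ?_
    rw [Algebra.smul_def]
  set hbar : k[X] := ∑ i ∈ Finset.range (h.natDegree + 1),
    monomial i (res ⟨h.coeff i, hcoeffV i⟩) with hhbar
  have hHred : red H = aeval (red x) hbar := by
    rw [hH, hhbar, map_sum, map_sum]
    refine Finset.sum_congr rfl fun i _ => ?_
    rw [map_mul, map_pow, red_algebraMap ⟨h.coeff i, hcoeffV i⟩, aeval_monomial]
  have hmle : m ≤ h.natDegree := le_natDegree_of_ne_zero (by rw [hcoeffm]; exact one_ne_zero)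
  have hbar_ne : hbar ≠ 0 := by
    intro h0
    have h1 := congrArg (fun q : k[X] => q.coeff m) h0
    simp only [hhbar, finsetSum_coeff, coeff_monomial, coeff_zero] at h1
    rw [Finset.sum_ite_eq' (Finset.range (h.natDegree + 1)) m, if_pos (by
      rw [Finset.mem_range]; omega)] at h1
    have h2 : (⟨h.coeff m, hcoeffV m⟩ : V) = 1 := Subtype.ext hcoeffm
    rw [h2, map_one] at h1
    exact one_ne_zero h1
  have hHred0 : red H ≠ 0 := by
    rw [hHred]
    intro h0
    exact hbar_ne (transcendental_iff.mp hxtr hbar h0)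
  -- Step 5: `H • M` lies in a finite level
  have hU : M.map (LinearMap.mulLeft K ((H : O) : F)) ≤ polySpan (K := K) x w := by
    rintro _ ⟨f, hf, rfl⟩
    show ((H : O) : F) * f ∈ polySpan (K := K) x w
    rw [hHcoe]
    exact hden f hf
  obtain ⟨d, hd⟩ := exists_le_polySpanLt x w _ (hMfg.map _) hU
  -- Step 6: reindex by `Fin (d * n)`
  set ι : Fin (d * n) → ℕ × Fin n := fun a =>
    (((finProdFinEquiv.symm a).1 : ℕ), (finProdFinEquiv.symm a).2) with hι
  have hιinj : Function.Injective ι := by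
    intro a b hab
    have h1 : ((finProdFinEquiv.symm a).1 : ℕ) = ((finProdFinEquiv.symm b).1 : ℕ) :=
      congrArg (fun q : ℕ × Fin n => q.1) hab
    have h2 : (finProdFinEquiv.symm a).2 = (finProdFinEquiv.symm b).2 :=
      congrArg (fun q : ℕ × Fin n => q.2) hab
    exact finProdFinEquiv.symm.injective (Prod.ext (Fin.ext h1) h2)
  set e : Fin (d * n) → O := fun a => x ^ (ι a).1 * w (ι a).2 with he
  have he_ind : LinearIndependent k (fun a => red (e a)) := horth.comp ι hιinj
  have hle : polySpanLt (K := K) x w d ≤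
      Submodule.span K (Set.range fun a => ((e a : O) : F)) := by
    unfold polySpanLt
    rw [Submodule.span_le]
    rintro _ ⟨p, rfl⟩
    refine Submodule.subset_span ⟨finProdFinEquiv p, ?_⟩
    show ((x ^ (ι (finProdFinEquiv p)).1 * w (ι (finProdFinEquiv p)).2 : O) : F) = _
    simp only [hι, Equiv.symm_apply_apply]
    rfl
  have heI : ∀ g ∈ (I : Set (SemilinearAut K F)), ∀ a, g • ((e a : O) : F) = e a := by
    intro g hg a
    show g • (((x : O) : F) ^ (ι a).1 * ((w (ι a).2 : O) : F)) = _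
    rw [smul_mul', smul_pow', hIx g hg, hIw g hg]
    rfl
  have hHI : ∀ g ∈ (I : Set (SemilinearAut K F)), g • ((H : O) : F) = H := by
    intro g hg
    rw [hHcoe, smul_aeval g _ (hIx g hg), hhI g hg]
  exact exists_orthBasis_of_mul_le V O res red algebraMap_mem red_algebraMap red_surjective
    e he_ind H hHred0 M (hd.trans hle) (I : Set (SemilinearAut K F)) heI hHI hMI

end Main

end Fermat.Agent.A3.H499

end

end
-- ===== PACK-END A3/H499/OrthGood.lean

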