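import Mathlib
import Fermat.Prelude.Def_AlgebraicCurve_DivisorClassGroup
import Fermat.Prelude.Def_AlgebraicCurve_BaseChangeGalois
import Fermat.Agent.Pack.S3234.G4E0L1
import Fermat.Agent.Pack.S3234.G0E3L2
import Fermat.Agent.Pack.S3234.G0E6L1
import Fermat.Agent.Pack.S3234.G4E1L1
import Fermat.Agent.Pack.S3234.G4E2L1
import Fermat.Agent.Pack.S3234.G0E6L3
import Fermat.Agent.Pack.S3234.G4E0L0
import Fermat.Agent.Pack.S3234.G4E0L3
import Fermat.Agent.Pack.S3234.G4E2L0

-- ===== PACK-BEGIN S37/H940/Line.lean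
section







/-!
# S37 / RIM (helper940): function fields over a coordinate line, characteristic free

`F / K` a function field (Prelude `Place K F`), `K` algebraically closed, `t ∈ F` transcendental
with `F` finite over `K(t)`.  Characteristic-free facts used to build the fibres of the place
reduction map over the `t`-line:

* `Line.exists_value`      : regular functions have values in `K`;
* `Line.finite_ord_ne_zero`: zeros and poles are finite in number;
* `Line.inMax_aeval_sub`   : `p(t)` has the value `p(c)` where `t` has the value `c`;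
* `Line.mem_integralClosure_of_regular` : a function regular wherever `t` is regular is
  integral over `K[t]`;
* `Line.exists_clear`      : pole clearing by a polynomial in `t` not vanishing at `c`;
* `Line.exists_localParam`, `Line.exists_separating` : elements of the integral closure of `K[t]`
  which are local parameters at a given point of the fibre `t = c` (units at the others), resp.
  which separate the points of the fibre `t = c`.
-/

set_option autoImplicit false

noncomputable section

namespace Fermat.Agent.S37.H940.Line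

open AlgebraicCurve IntermediateField Polynomial
open Fermat.Agent.S37.H940

variable {K F : Type*} [Field K] [Field F] [Algebra K F]

/-- regularity in terms of membership -/
theorem regular_iff_mem (P : Place K F) (f : F) : 0 ≤ P.ord f ↔ f ∈ P.toValuationSubring :=
  (Fermat.Agent.S24.FF.mem_iff_ord_nonneg P).symm

theorem regular_mul (P : Place K F) {f g : F} (hf : 0 ≤ P.ord f) (hg : 0 ≤ P.ord g) :
    0 ≤ P.ord (f * g) := by
  rw [regular_iff_mem] at *
  exact mul_mem hf hg

theorem regular_pow (P : Place K F) {f : F} (hf : 0 ≤ P.ord f) (n : ℕ) : 0 ≤ P.ord (f ^ n) := by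
  rw [regular_iff_mem] at *
  exact pow_mem hf n

theorem regular_sub_const (P : Place K F) {f : F} (hf : 0 ≤ P.ord f) (c : K) :
    0 ≤ P.ord (f - algebraMap K F c) := by
  rw [regular_iff_mem] at *
  exact sub_mem hf (P.algebraMap_mem' c)

theorem regular_aeval (P : Place K F) {t : F} (ht : 0 ≤ P.ord t) (p : K[X]) :
    0 ≤ P.ord (aeval t p) :=
  (regular_iff_mem P _).mpr (Fermat.Agent.Lib.RR.aeval_mem P ht p)

/-- `p(t)` has the value `p(c)` at a place where `t` has the value `c` -/
theorem inMax_aeval_sub (P : Place K F) {t : F} {c : K} (h : InMax P (t - algebraMap K F c))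
    (p : K[X]) : InMax P (aeval t p - algebraMap K F (p.eval c)) := by
  have hreg : 0 ≤ P.ord t := ord_nonneg_of_inMax_sub h
  obtain ⟨q, hq⟩ : (X - C c) ∣ p - C (p.eval c) := by
    rw [Polynomial.dvd_iff_isRoot]
    simp
  have e : aeval t p - algebraMap K F (p.eval c) = (t - algebraMap K F c) * aeval t q := by
    have := congrArg (aeval t) hq
    simpa using this
  rw [e]
  exact h.mul_of_ord_nonneg (regular_aeval P hreg q)

section AlgClosed

variable [IsAlgClosed K] {t : F} (ht : Transcendental K t) [FiniteDimensional K⟮t⟯ F]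

include ht

/-- regular functions have values in `K` -/
theorem exists_value (P : Place K F) {f : F} (hf : 0 ≤ P.ord f) :
    ∃ c : K, InMax P (f - algebraMap K F c) := by
  obtain ⟨a, ha⟩ := Fermat.Agent.S24.FF.exists_const_sub_mem_nonunits P ht
    ((regular_iff_mem P f).mp hf)
  exact ⟨a, inMax_iff_mem_nonunits.mpr ha⟩

theorem deg_eq_one (P : Place K F) : P.deg = 1 := Fermat.Agent.S24.FF.deg_eq_one P ht

theorem hyp : Fermat.Agent.Lib.RR.H443.Hyp K F := Fermat.Agent.Lib.RR.H443.hyp_of_isAlgClosed ht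

theorem zerosBound : Fermat.Agent.Lib.RR.H443.ZerosBound K F :=
  Fermat.Agent.Lib.RR.H443.zerosBound (hyp ht).deg_eq_one

/-- zeros and poles are finite in number -/
theorem finite_ord_ne_zero (u : F) : {P : Place K F | P.ord u ≠ 0}.Finite := by
  refine ((Fermat.Agent.Lib.RR.H443.finite_zeros (hyp ht) (zerosBound ht) u).union
    (Fermat.Agent.Lib.RR.H443.finite_poles (hyp ht) (zerosBound ht) u)).subset fun P hP => ?_
  have hP' : P.ord u ≠ 0 := hP
  rcases lt_or_gt_of_ne hP' with h | h
  · exact Or.inr h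
  · exact Or.inl h

omit [IsAlgClosed K] [FiniteDimensional K⟮t⟯ F] in
theorem sub_const_ne_zero (c : K) : t - algebraMap K F c ≠ 0 := by
  intro h
  apply ht
  rw [sub_eq_zero] at h
  rw [h]
  exact isAlgebraic_algebraMap c

/-- the fibre `t = c` is finite -/
theorem finite_fibre (c : K) : {P : Place K F | InMax P (t - algebraMap K F c)}.Finite := by
  refine (finite_ord_ne_zero ht (t - algebraMap K F c)).subset fun P hP => ?_
  have := InMax.ord_pos hP (sub_const_ne_zero ht c)
  exact ne_of_gt this

/-- the fibre `t = c` is not empty -/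
theorem exists_mem_fibre (c : K) : ∃ P : Place K F, InMax P (t - algebraMap K F c) := by
  have htr : Transcendental K (t - algebraMap K F c) := by
    intro h
    apply ht
    have := h.add (isAlgebraic_algebraMap (R := K) (A := F) c)
    rwa [sub_add_cancel] at this
  obtain ⟨P, hP⟩ := Fermat.Agent.Lib.RR.H443.exists_place_ord_pos (hyp ht).finite htr
  exact ⟨P, inMax_of_ord_pos hP⟩

/-- **Regular functions are integral.**  A function which is regular at every place where `t`
is regular is integral over `K[t]`. -/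
theorem mem_integralClosure_of_regular (f : F)
    (h : ∀ P : Place K F, 0 ≤ P.ord t → 0 ≤ P.ord f) :
    f ∈ integralClosure (Algebra.adjoin K {t}) F := by
  set s : Set F := Set.range (algebraMap K F) ∪ {t} with hs
  have hmem : f ∈ (integralClosure (Subring.closure s) F).toSubring := by
    rw [← iInf_valuationSubring_superset]
    rw [Subring.mem_iInf]
    rintro ⟨V, hV⟩
    by_cases htop : V = ⊤
    · show f ∈ V
      rw [htop]
      exact ValuationSubring.mem_top f
    · have hK : ∀ a : K, algebraMap K F a ∈ V := fun a => hV (Or.inl ⟨a, rfl⟩)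
      have htV : t ∈ V := hV (Or.inr rfl)
      let P : Place K F :=
        Fermat.Agent.Lib.RR.H443.placeOfValuationSubring V hK htop (hyp ht).finite
      have h1 : 0 ≤ P.ord t := (regular_iff_mem P t).mpr htV
      exact (regular_iff_mem P f).mp (h P h1)
  have hint : IsIntegral (Subring.closure s) f := hmem
  obtain ⟨p, hp, hpf⟩ := hint
  have hle : Subring.closure s ≤ (Algebra.adjoin K {t}).toSubring := by
    rw [Subring.closure_le]
    rintro y (⟨a, rfl⟩ | rfl)
    · exact (Algebra.adjoin K {t}).algebraMap_mem a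
    · exact Algebra.self_mem_adjoin_singleton K _
  let ι : Subring.closure s →+* Algebra.adjoin K {t} := Subring.inclusion hle
  refine ⟨p.map ι, hp.map ι, ?_⟩
  rw [Polynomial.eval₂_map]
  exact hpf

/-- **Pole clearing**: a function regular on the fibre `t = c` becomes regular wherever `t` is
regular after multiplication by a polynomial in `t` which does not vanish at `c`. -/
theorem exists_clear (c : K) (f : F)
    (hreg : ∀ P : Place K F, InMax P (t - algebraMap K F c) → 0 ≤ P.ord f) :
    ∃ p : K[X], p.eval c ≠ 0 ∧ ∀ P : Place K F, 0 ≤ P.ord t → 0 ≤ P.ord (f * aeval t p) := by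
  classical
  -- induction on a finite set containing the finite poles
  have key : ∀ (S : Finset (Place K F)) (f : F),
      (∀ P : Place K F, 0 ≤ P.ord t → P.ord f < 0 → P ∈ S) →
      (∀ P ∈ S, ¬ InMax P (t - algebraMap K F c)) → (∀ P ∈ S, 0 ≤ P.ord t) →
      ∃ p : K[X], p.eval c ≠ 0 ∧ ∀ P : Place K F, 0 ≤ P.ord t → 0 ≤ P.ord (f * aeval t p) := by
    intro S
    induction S using Finset.induction_on with
    | empty =>
      intro f h1 _ _
      refine ⟨1, by simp, fun P hP => ?_⟩
      rw [map_one, mul_one]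
      by_contra hneg
      exact absurd (h1 P hP (not_le.mp hneg)) (Finset.notMem_empty P)
    | insert P₀ S' hP₀ ih =>
      intro f h1 h2 h3
      have hP₀t : 0 ≤ P₀.ord t := h3 P₀ (Finset.mem_insert_self _ _)
      obtain ⟨c₀, hc₀⟩ := exists_value ht P₀ hP₀t
      have hne : c₀ ≠ c := by
        rintro rfl
        exact h2 P₀ (Finset.mem_insert_self _ _) hc₀
      set m : ℕ := (-(P₀.ord f)).toNat with hm
      set g : F := t - algebraMap K F c₀ with hg
      have hg0 : g ≠ 0 := sub_const_ne_zero ht c₀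
      have hgreg : ∀ P : Place K F, 0 ≤ P.ord t → 0 ≤ P.ord (g ^ m) := fun P hP =>
        regular_pow P (regular_sub_const P hP c₀) m
      have hpoles : ∀ P : Place K F, 0 ≤ P.ord t → P.ord (f * g ^ m) < 0 → P ∈ S' := by
        intro P hP hneg
        rcases eq_or_ne f 0 with rfl | hf0
        · rw [zero_mul, P.ord_zero] at hneg
          exact absurd hneg (lt_irrefl _)
        have hgm0 : g ^ m ≠ 0 := pow_ne_zero _ hg0
        have hord : P.ord (f * g ^ m) = P.ord f + P.ord (g ^ m) := P.ord_mul hf0 hgm0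
        have hfneg : P.ord f < 0 := by
          have := hgreg P hP
          omega
        have hmem := h1 P hP hfneg
        rcases Finset.mem_insert.mp hmem with rfl | hS
        · exfalso
          have h4 : (m : ℤ) ≤ P.ord (g ^ m) := by
            have h5 : P.ord (g ^ m) = m * P.ord g := by
              have := P.ord_zpow g (m : ℤ)
              rwa [zpow_natCast] at this
            have h6 : 0 < P.ord g := InMax.ord_pos hc₀ hg0
            rw [h5]
            nlinarith
          have h7 : -(P.ord f) ≤ (m : ℤ) := by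
            rw [hm]
            exact Int.self_le_toNat _
          omega
        · exact hS
      obtain ⟨p', hp', hp'reg⟩ := ih (f * g ^ m) hpoles
        (fun P hP => h2 P (Finset.mem_insert_of_mem hP))
        (fun P hP => h3 P (Finset.mem_insert_of_mem hP))
      refine ⟨(X - C c₀) ^ m * p', ?_, fun P hP => ?_⟩
      · rw [eval_mul, eval_pow, eval_sub, eval_X, eval_C]
        exact mul_ne_zero (pow_ne_zero _ (sub_ne_zero.mpr hne.symm)) hp'
      · have e : f * aeval t ((X - C c₀) ^ m * p') = f * g ^ m * aeval t p' := by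
          rw [map_mul, map_pow, map_sub, aeval_X, aeval_C, mul_assoc]
        rw [e]
        exact hp'reg P hP
  have hfin : {P : Place K F | P.ord f < 0}.Finite :=
    Fermat.Agent.Lib.RR.H443.finite_poles (hyp ht) (zerosBound ht) f
  have hfin' : {P : Place K F | P.ord f < 0 ∧ 0 ≤ P.ord t}.Finite :=
    hfin.subset fun P hP => hP.1
  refine key hfin'.toFinset f (fun P hP hneg => ?_) (fun P hP hin => ?_) (fun P hP => ?_)
  · rw [Set.Finite.mem_toFinset]
    exact ⟨hneg, hP⟩
  · rw [Set.Finite.mem_toFinset] at hP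
    have := hreg P hin
    have := hP.1
    omega
  · rw [Set.Finite.mem_toFinset] at hP
    exact hP.2

omit [FiniteDimensional K⟮t⟯ F] [IsAlgClosed K] in
/-- a polynomial in `t` not vanishing at `c` is a unit on the fibre `t = c` -/
theorem aeval_unit_on_fibre {c : K} {p : K[X]} (hp : p.eval c ≠ 0) {P : Place K F}
    (hP : InMax P (t - algebraMap K F c)) : aeval t p ≠ 0 ∧ P.ord (aeval t p) = 0 := by
  have _ := ht
  have h1 := inMax_aeval_sub P hP p
  refine ⟨?_, ord_eq_zero_of_inMax_sub h1 hp⟩
  intro h0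
  rw [h0, zero_sub] at h1
  have h2 := h1.neg
  rw [neg_neg, inMax_algebraMap_iff] at h2
  exact hp h2

/-- **Local parameters.**  Every point of the fibre `t = c` has a local parameter which is
integral over `K[t]` and a unit at the other points of the fibre. -/
theorem exists_localParam (c : K) (P₀ : Place K F) (_hP₀ : InMax P₀ (t - algebraMap K F c)) :
    ∃ τ ∈ integralClosure (Algebra.adjoin K {t}) F, P₀.ord τ = 1 ∧
      ∀ P : Place K F, InMax P (t - algebraMap K F c) → P ≠ P₀ → P.ord τ = 0 := by
  classical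
  set S : Finset (Place K F) := (finite_fibre ht c).toFinset with hS
  have hmemS : ∀ P : Place K F, P ∈ S ↔ InMax P (t - algebraMap K F c) := fun P => by
    rw [hS, Set.Finite.mem_toFinset]; rfl
  obtain ⟨z, hz⟩ := Fermat.Agent.Lib.RR.H623.weak_approximation (insert P₀ S) (fun _ => (0 : F))
    (fun P => if P = P₀ then 1 else 0)
  have hz0 : z ≠ 0 := by
    have := (hz P₀ (Finset.mem_insert_self _ _)).1
    rwa [sub_zero] at this
  have hzord : ∀ P ∈ insert P₀ S, P.ord z = if P = P₀ then 1 else 0 := fun P hP => by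
    have := (hz P hP).2
    rwa [sub_zero] at this
  have hreg : ∀ P : Place K F, InMax P (t - algebraMap K F c) → 0 ≤ P.ord z := by
    intro P hP
    rw [hzord P (Finset.mem_insert_of_mem ((hmemS P).mpr hP))]
    split_ifs <;> norm_num
  obtain ⟨p, hp, hpreg⟩ := exists_clear ht c z hreg
  refine ⟨z * aeval t p, mem_integralClosure_of_regular ht _ hpreg, ?_, fun P hP hne => ?_⟩
  · obtain ⟨h1, h2⟩ := aeval_unit_on_fibre ht hp _hP₀
    rw [P₀.ord_mul hz0 h1, h2, hzord P₀ (Finset.mem_insert_self _ _), if_pos rfl, add_zero]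
  · obtain ⟨h1, h2⟩ := aeval_unit_on_fibre ht hp hP
    rw [P.ord_mul hz0 h1, h2, hzord P (Finset.mem_insert_of_mem ((hmemS P).mpr hP)), if_neg hne,
      add_zero]

/-- **Separating functions.**  Some function integral over `K[t]` takes pairwise different
values at the points of the fibre `t = c`. -/
theorem exists_separating (c : K) :
    ∃ σ ∈ integralClosure (Algebra.adjoin K {t}) F,
      ∀ P P' : Place K F, InMax P (t - algebraMap K F c) → InMax P' (t - algebraMap K F c) →
        ∀ a : K, InMax P (σ - algebraMap K F a) → InMax P' (σ - algebraMap K F a) → P = P' := by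
  classical
  set S : Finset (Place K F) := (finite_fibre ht c).toFinset with hS
  have hmemS : ∀ P : Place K F, P ∈ S ↔ InMax P (t - algebraMap K F c) := fun P => by
    rw [hS, Set.Finite.mem_toFinset]; rfl
  have : Infinite K := IsAlgClosed.instInfinite
  -- distinct target values
  let a : Place K F → K := fun P =>
    if h : P ∈ S then Infinite.natEmbedding K (S.equivFin ⟨P, h⟩ : ℕ) else 0
  have ha_inj : ∀ P ∈ S, ∀ P' ∈ S, a P = a P' → P = P' := by
    intro P hP P' hP' h
    simp only [a, dif_pos hP, dif_pos hP'] at h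
    have h1 := (Infinite.natEmbedding K).injective h
    have h2 := Fin.val_injective h1
    have h3 := S.equivFin.injective h2
    exact congrArg Subtype.val h3
  obtain ⟨z, hz⟩ := Fermat.Agent.Lib.RR.H623.weak_approximation_ge S
    (fun P => algebraMap K F (a P)) (fun _ => 1)
  have hzval : ∀ P : Place K F, InMax P (t - algebraMap K F c) →
      InMax P (z - algebraMap K F (a P)) := by
    intro P hP
    rcases hz P ((hmemS P).mpr hP) with h | h
    · exact Or.inl h
    · exact Or.inr (by omega)
  have hreg : ∀ P : Place K F, InMax P (t - algebraMap K F c) → 0 ≤ P.ord z :=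
    fun P hP => ord_nonneg_of_inMax_sub (hzval P hP)
  obtain ⟨p, hp, hpreg⟩ := exists_clear ht c z hreg
  have hval : ∀ P : Place K F, InMax P (t - algebraMap K F c) →
      InMax P (z * aeval t p - algebraMap K F (a P * p.eval c)) := by
    intro P hP
    have h1 := hzval P hP
    have h2 := inMax_aeval_sub P hP p
    have hregp : 0 ≤ P.ord (aeval t p) := regular_aeval P (ord_nonneg_of_inMax_sub hP) p
    have e : z * aeval t p - algebraMap K F (a P * p.eval c)
        = (z - algebraMap K F (a P)) * aeval t p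
          + algebraMap K F (a P) * (aeval t p - algebraMap K F (p.eval c)) := by
      rw [map_mul]; ring
    rw [e]
    exact (h1.mul_of_ord_nonneg hregp).add (h2.const_mul (a P))
  refine ⟨z * aeval t p, mem_integralClosure_of_regular ht _ hpreg, ?_⟩
  intro P P' hP hP' b hb hb'
  have e1 := value_unique (hval P hP) hb
  have e2 := value_unique (hval P' hP') hb'
  have e3 : a P = a P' := by
    have : a P * p.eval c = a P' * p.eval c := by rw [e1, e2]
    exact mul_right_cancel₀ hp this
  exact ha_inj P ((hmemS P).mpr hP) P' ((hmemS P').mpr hP') e3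

end AlgClosed

end Fermat.Agent.S37.H940.Line

end
end
-- ===== PACK-END S37/H940/Line.lean

-- ===== PACK-BEGIN S37/H940/Chart.lean
section





/-!
# S37 / RIM (helper940): the atlas of a coordinate

Setting: a reduction context `C : Ctx K F k Fk` (constants `A ⊆ K`, `π : A ↠ k`, `V ⊆ F` with
`ρ : V → F_k`), `K` and `k` algebraically closed (any characteristics), and a coordinate `x ∈ V`
with `x̄ = ρ x` transcendental, `F / K(x)` and `F_k / k(x̄)` finite.

For a local coordinate `t ∈ V` (`t = x` or `t = x⁻¹`) and `c̄ ∈ k` the hypothesis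
`LocalCoord C t c̄` consists of
* `FC`   : conservation of number over the residue disc `t ≡ c̄`
  (`∑_{P : t(P) ≡ c̄} ord_P u = ∑_{Q : t̄(Q) = c̄} ord_Q (ρ u)` for `u ∈ V`, `ρ u ≠ 0`);
* `LIFT` : every element of `F_k` integral over `k[t̄]` is the reduction of some `b ∈ V` which is
  regular wherever `t` is regular  (normality of the special fibre).

Main results:
* `fibreOf`            : the fibre (in the sense of `Core.lean`) over `c̄`;
* `atlasOf`            : the atlas indexed by `Option k` (`none` = the point at infinity);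
* `exists_red_of_coord`: the place reduction map `r` with (i) degrees, (ii) specialisation of
  principal divisors, and value compatibility on both charts.

Only `FC` for the two local coordinates `x`, `x⁻¹` is needed: no auxiliary separating
coordinates, no degree computations, no Dedekind domains.
-/

set_option autoImplicit false

noncomputable section

namespace Fermat.Agent.S37.H940

open AlgebraicCurve IntermediateField Polynomial

variable {K F k Fk : Type*} [Field K] [Field F] [Algebra K F] [Field k] [Field Fk]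
  [Algebra k Fk]

namespace Ctx

variable (C : Ctx K F k Fk)

/-- the residue disc `t ≡ c̄` -/
def tube (t : F) (c : k) : Set (Place K F) :=
  {P | ∃ a : C.A, C.π a = c ∧ InMax P (t - algebraMap K F (a : K))}

/-- the points of the special fibre with `s = c̄` -/
def pts (_C : Ctx K F k Fk) (s : Fk) (c : k) : Set (Place k Fk) :=
  {Q | InMax Q (s - algebraMap k Fk c)}

theorem ord_nonneg_of_mem_tube {t : F} {c : k} {P : Place K F} (h : P ∈ C.tube t c) :
    0 ≤ P.ord t := by
  obtain ⟨a, -, ha⟩ := h
  exact ord_nonneg_of_inMax_sub ha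

/-- an element of `V` whose reduction is transcendental is transcendental -/
theorem transcendental_of_ρ [IsAlgClosed K] {t : C.V} (ht : Transcendental k (C.ρ t)) :
    Transcendental K (t : F) := by
  intro halg
  obtain ⟨c, hc⟩ := Fermat.Agent.S24.FF.mem_range_of_isAlgebraic halg
  by_cases hcA : c ∈ C.A
  · apply ht
    have e : t = C.const ⟨c, hcA⟩ := Subtype.ext hc.symm
    rw [e, C.ρ_const]
    exact isAlgebraic_algebraMap _
  · obtain ⟨a, ha, hπ⟩ := C.exists_inv_of_not_mem hcA
    have hc0 : c ≠ 0 := by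
      rintro rfl
      exact hcA (zero_mem _)
    have e : t * C.const a = 1 := by
      apply Subtype.ext
      show (t : F) * algebraMap K F (a : K) = 1
      rw [← hc, ha, ← map_mul, mul_inv_cancel₀ hc0, map_one]
    have := congrArg C.ρ e
    rw [map_mul, C.ρ_const, hπ, map_zero, mul_zero, map_one] at this
    exact zero_ne_one this

end Ctx

/-- The hypotheses on a local coordinate `t` over the point `c̄`. -/
structure LocalCoord (C : Ctx K F k Fk) (t : C.V) (c : k) : Prop where
  /-- conservation of number over the residue disc -/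
  FC : ∀ u : C.V, C.ρ u ≠ 0 → ∀ (S : Finset (Place K F)) (T : Finset (Place k Fk)),
    (∀ P ∈ C.tube (t : F) c, P.ord (u : F) ≠ 0 → P ∈ S) → (∀ P ∈ S, P ∈ C.tube (t : F) c) →
    (∀ Q ∈ C.pts (C.ρ t) c, Q.ord (C.ρ u) ≠ 0 → Q ∈ T) → (∀ Q ∈ T, Q ∈ C.pts (C.ρ t) c) →
    ∑ P ∈ S, P.ord (u : F) = ∑ Q ∈ T, Q.ord (C.ρ u)
  /-- normality of the special fibre: integral functions lift to regular functions -/
  LIFT : ∀ τ ∈ integralClosure (Algebra.adjoin k {C.ρ t}) Fk,
    ∃ b : C.V, C.ρ b = τ ∧ ∀ P : Place K F, 0 ≤ P.ord (t : F) → 0 ≤ P.ord (b : F)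

section Fibre

variable [IsAlgClosed K] [IsAlgClosed k] (C : Ctx K F k Fk) (t : C.V)
  (ht : Transcendental k (C.ρ t)) [FiniteDimensional K⟮(t : F)⟯ F]
  [FiniteDimensional k⟮C.ρ t⟯ Fk] (c : k) (h : LocalCoord C t c)

/-- **The fibre over `c̄`** of a local coordinate. -/
def fibreOf : Fibre C where
  𝔉 := C.tube (t : F) c
  𝔊 := (Line.finite_fibre ht c).toFinset
  ne := by
    obtain ⟨Q, hQ⟩ := Line.exists_mem_fibre ht c
    exact ⟨Q, by rw [Set.Finite.mem_toFinset]; exact hQ⟩
  res := fun P _ f hf => Line.exists_value (C.transcendental_of_ρ ht) P hf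
  fin := fun u _ =>
    (Line.finite_ord_ne_zero (C.transcendental_of_ρ ht) u).subset fun P hP => hP.2
  FC := by
    intro u hu
    have hu0 : (u : F) ≠ 0 := C.ne_zero_of_ρ_ne_zero hu
    have hfin : {P : Place K F | P ∈ C.tube (t : F) c ∧ P.ord (u : F) ≠ 0}.Finite :=
      (Line.finite_ord_ne_zero (C.transcendental_of_ρ ht) (u : F)).subset fun P hP => hP.2
    rw [← h.FC u hu hfin.toFinset (Line.finite_fibre ht c).toFinset
      (fun P hP hne => by rw [Set.Finite.mem_toFinset]; exact ⟨hP, hne⟩)
      (fun P hP => by rw [Set.Finite.mem_toFinset] at hP; exact hP.1)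
      (fun Q hQ _ => by rw [Set.Finite.mem_toFinset]; exact hQ)
      (fun Q hQ => by rw [Set.Finite.mem_toFinset] at hQ; exact hQ)]
    apply finsum_mem_eq_sum_of_inter_support_eq
    ext P
    simp only [Set.mem_inter_iff, Function.mem_support, ne_eq, Set.Finite.coe_toFinset,
      Set.mem_ofPred_eq]
    constructor
    · rintro ⟨h1, h2⟩
      exact ⟨⟨h1, h2⟩, h2⟩
    · rintro ⟨⟨h1, h2⟩, -⟩
      exact ⟨h1, h2⟩
  LP := by
    intro Q hQ
    rw [Set.Finite.mem_toFinset] at hQ
    obtain ⟨τ, hτ, h1, h2⟩ := Line.exists_localParam ht c Q hQ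
    obtain ⟨b, hb, hreg⟩ := h.LIFT τ hτ
    refine ⟨b, fun P hP => hreg P (C.ord_nonneg_of_mem_tube hP), by rw [hb]; exact h1, ?_⟩
    intro Q' hQ' hne
    rw [Set.Finite.mem_toFinset] at hQ'
    rw [hb]
    exact h2 Q' hQ' hne
  SEP := by
    obtain ⟨σ, hσ, hsep⟩ := Line.exists_separating ht c
    obtain ⟨b, hb, hreg⟩ := h.LIFT σ hσ
    refine ⟨b, fun P hP => hreg P (C.ord_nonneg_of_mem_tube hP), ?_⟩
    intro Q hQ Q' hQ' a ha ha'
    rw [Set.Finite.mem_toFinset] at hQ hQ'
    rw [hb] at ha ha'
    exact hsep Q Q' hQ hQ' a ha ha'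

@[simp] theorem fibreOf_𝔉 : (fibreOf C t ht c h).𝔉 = C.tube (t : F) c := rfl

theorem mem_fibreOf_𝔊 (Q : Place k Fk) :
    Q ∈ (fibreOf C t ht c h).𝔊 ↔ InMax Q (C.ρ t - algebraMap k Fk c) := by
  show Q ∈ (Line.finite_fibre ht c).toFinset ↔ _
  rw [Set.Finite.mem_toFinset]
  rfl

end Fibre

section Atlas

variable (C : Ctx K F k Fk) (x : C.V)

theorem ρ_ne_zero_of_transcendental (hx : Transcendental k (C.ρ x)) : C.ρ x ≠ 0 :=
  fun h => hx (h ▸ isAlgebraic_zero)

/-- the inverse of the coordinate -/
def xinv (hx : Transcendental k (C.ρ x)) : C.V := C.inv x (ρ_ne_zero_of_transcendental C x hx)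

@[simp] theorem coe_xinv (hx : Transcendental k (C.ρ x)) :
    ((xinv C x hx : C.V) : F) = ((x : F))⁻¹ := rfl

@[simp] theorem ρ_xinv (hx : Transcendental k (C.ρ x)) : C.ρ (xinv C x hx) = (C.ρ x)⁻¹ :=
  C.ρ_inv x _

theorem transcendental_ρ_xinv (hx : Transcendental k (C.ρ x)) :
    Transcendental k (C.ρ (xinv C x hx)) := by
  rw [ρ_xinv]
  intro h
  apply hx
  simpa using h.inv

theorem finiteDimensional_xinv [IsAlgClosed K] (hx : Transcendental k (C.ρ x))
    [FiniteDimensional K⟮(x : F)⟯ F] :
    FiniteDimensional K⟮((xinv C x hx : C.V) : F)⟯ F :=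
  Fermat.Agent.S24.FF.finiteDimensional_adjoin_of_transcendental (C.transcendental_of_ρ hx)
    (C.transcendental_of_ρ (transcendental_ρ_xinv C x hx))

theorem finiteDimensional_ρ_xinv (hx : Transcendental k (C.ρ x))
    [FiniteDimensional k⟮C.ρ x⟯ Fk] :
    FiniteDimensional k⟮C.ρ (xinv C x hx)⟯ Fk :=
  Fermat.Agent.S24.FF.finiteDimensional_adjoin_of_transcendental hx
    (transcendental_ρ_xinv C x hx)

theorem coe_x_ne_zero (hx : Transcendental k (C.ρ x)) : (x : F) ≠ 0 :=
  C.ne_zero_of_ρ_ne_zero (ρ_ne_zero_of_transcendental C x hx)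

/-- every place of `F` lies in a finite tube or in the tube at infinity -/
theorem cover_tube [IsAlgClosed K] (hx : Transcendental k (C.ρ x))
    [FiniteDimensional K⟮(x : F)⟯ F] (P : Place K F) :
    (∃ c : k, P ∈ C.tube (x : F) c) ∨ P ∈ C.tube ((x : F))⁻¹ 0 := by
  have hx0 : (x : F) ≠ 0 := coe_x_ne_zero C x hx
  by_cases h : 0 ≤ P.ord (x : F)
  · obtain ⟨c, hc⟩ := Line.exists_value (C.transcendental_of_ρ hx) P h
    by_cases hcA : c ∈ C.A
    · exact Or.inl ⟨C.π ⟨c, hcA⟩, ⟨c, hcA⟩, rfl, hc⟩
    · right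
      obtain ⟨a, ha, hπ⟩ := C.exists_inv_of_not_mem hcA
      have hc0 : c ≠ 0 := by
        rintro rfl
        exact hcA (zero_mem _)
      refine ⟨a, hπ, ?_⟩
      have hord : P.ord (x : F) = 0 := ord_eq_zero_of_inMax_sub hc hc0
      have hreg : 0 ≤ P.ord ((x : F)⁻¹ * algebraMap K F c⁻¹) := by
        refine Line.regular_mul P ?_ (ord_nonneg_const P _)
        rw [P.ord_inv, hord]; simp
      have e : (x : F)⁻¹ - algebraMap K F (a : K)
          = -((x : F) - algebraMap K F c) * ((x : F)⁻¹ * algebraMap K F c⁻¹) := by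
        have hcF : algebraMap K F c ≠ 0 := by simpa using hc0
        rw [ha, map_inv₀]
        field_simp
        ring
      rw [e]
      exact hc.neg.mul_of_ord_nonneg hreg
  · right
    refine ⟨0, map_zero _, ?_⟩
    have : 0 < P.ord ((x : F))⁻¹ := by
      rw [P.ord_inv]
      omega
    simpa using inMax_of_ord_pos this

theorem disj_tube_fin (P : Place K F) {c c' : k} (h : P ∈ C.tube (x : F) c)
    (h' : P ∈ C.tube (x : F) c') : c = c' := by
  obtain ⟨a, rfl, ha⟩ := h
  obtain ⟨a', rfl, ha'⟩ := h'
  have := value_unique ha ha'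
  rw [Subtype.ext this]

theorem disj_tube_inf (hx : Transcendental k (C.ρ x)) (P : Place K F) {c : k}
    (h : P ∈ C.tube (x : F) c) (h' : P ∈ C.tube ((x : F))⁻¹ 0) : False := by
  have hx0 : (x : F) ≠ 0 := coe_x_ne_zero C x hx
  obtain ⟨a, -, ha⟩ := h
  obtain ⟨a', hπ, ha'⟩ := h'
  have hreg : 0 ≤ P.ord ((x : F))⁻¹ := ord_nonneg_of_inMax_sub ha'
  have h1 : InMax P (((x : F) - algebraMap K F (a : K)) * (x : F)⁻¹
      + algebraMap K F (a : K) * ((x : F)⁻¹ - algebraMap K F (a' : K))) :=
    (ha.mul_of_ord_nonneg hreg).add (ha'.const_mul _)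
  have e : ((x : F) - algebraMap K F (a : K)) * (x : F)⁻¹
      + algebraMap K F (a : K) * ((x : F)⁻¹ - algebraMap K F (a' : K))
      = algebraMap K F (1 - (a : K) * (a' : K)) := by
    rw [map_sub, map_mul, map_one]
    field_simp
    ring
  rw [e, inMax_algebraMap_iff] at h1
  have h2 : a * a' = 1 := by
    apply Subtype.ext
    show (a : K) * (a' : K) = 1
    exact (sub_eq_zero.mp h1).symm
  have := congrArg C.π h2
  rw [map_mul, hπ, mul_zero, map_one] at this
  exact zero_ne_one this

/-- every place of `F_k` lies over a finite point or over infinity -/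
theorem cover_pts [IsAlgClosed k] (hx : Transcendental k (C.ρ x))
    [FiniteDimensional k⟮C.ρ x⟯ Fk] (Q : Place k Fk) :
    (∃ c : k, Q ∈ C.pts (C.ρ x) c) ∨ Q ∈ C.pts (C.ρ x)⁻¹ 0 := by
  by_cases h : 0 ≤ Q.ord (C.ρ x)
  · obtain ⟨c, hc⟩ := Line.exists_value hx Q h
    exact Or.inl ⟨c, hc⟩
  · right
    have : 0 < Q.ord (C.ρ x)⁻¹ := by
      rw [Q.ord_inv]
      omega
    show InMax Q ((C.ρ x)⁻¹ - algebraMap k Fk 0)
    simpa using inMax_of_ord_pos this

theorem disj_pts_fin (Q : Place k Fk) {c c' : k} (h : Q ∈ C.pts (C.ρ x) c)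
    (h' : Q ∈ C.pts (C.ρ x) c') : c = c' :=
  value_unique h h'

theorem disj_pts_inf (hx : Transcendental k (C.ρ x)) (Q : Place k Fk) {c : k}
    (h : Q ∈ C.pts (C.ρ x) c) (h' : Q ∈ C.pts (C.ρ x)⁻¹ 0) : False := by
  have hx0 : C.ρ x ≠ 0 := ρ_ne_zero_of_transcendental C x hx
  have h1 : 0 ≤ Q.ord (C.ρ x) := ord_nonneg_of_inMax_sub h
  have h2 : InMax Q (C.ρ x)⁻¹ := by
    have : InMax Q ((C.ρ x)⁻¹ - algebraMap k Fk 0) := h'
    simpa using this
  have h3 := h2.ord_pos (inv_ne_zero hx0)
  rw [Q.ord_inv] at h3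
  omega

variable [IsAlgClosed K] [IsAlgClosed k] (hx : Transcendental k (C.ρ x))
  [FiniteDimensional K⟮(x : F)⟯ F] [FiniteDimensional k⟮C.ρ x⟯ Fk]
  (hfin : ∀ c : k, LocalCoord C x c) (hinf : LocalCoord C (xinv C x hx) 0)

/-- the fibre at infinity -/
def fibreInf : Fibre C :=
  haveI := finiteDimensional_xinv C x hx
  haveI := finiteDimensional_ρ_xinv C x hx
  fibreOf C (xinv C x hx) (transcendental_ρ_xinv C x hx) 0 hinf

theorem fibreInf_𝔉 : (fibreInf C x hx hinf).𝔉 = C.tube ((x : F))⁻¹ 0 := rfl

theorem mem_fibreInf_𝔊 (Q : Place k Fk) :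
    Q ∈ (fibreInf C x hx hinf).𝔊 ↔ Q ∈ C.pts (C.ρ x)⁻¹ 0 := by
  have i1 := finiteDimensional_xinv C x hx
  have i2 := finiteDimensional_ρ_xinv C x hx
  have := mem_fibreOf_𝔊 C (xinv C x hx) (transcendental_ρ_xinv C x hx) 0 hinf Q
  rw [ρ_xinv] at this
  exact this

/-- **The atlas of a coordinate**, indexed by the points of the projective line over `k`. -/
def atlasOf : Atlas C (Option k) where
  Φ := fun i => match i with
    | some c => fibreOf C x hx c (hfin c)
    | none => fibreInf C x hx hinf
  cover := fun P => by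
    rcases cover_tube C x hx P with ⟨c, hc⟩ | h
    · exact ⟨some c, hc⟩
    · exact ⟨none, h⟩
  disj := fun i j P hi hj => by
    match i, j with
    | some c, some c' => exact congrArg some (disj_tube_fin C x P hi hj)
    | some c, none => exact (disj_tube_inf C x hx P hi hj).elim
    | none, some c => exact (disj_tube_inf C x hx P hj hi).elim
    | none, none => rfl
  cover' := fun Q => by
    rcases cover_pts C x hx Q with ⟨c, hc⟩ | h
    · exact ⟨some c, (mem_fibreOf_𝔊 C x hx c (hfin c) Q).mpr hc⟩
    · exact ⟨none, (mem_fibreInf_𝔊 C x hx hinf Q).mpr h⟩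
  disj' := fun i j Q hi hj => by
    match i, j with
    | some c, some c' =>
      exact congrArg some (disj_pts_fin C x Q ((mem_fibreOf_𝔊 C x hx c (hfin c) Q).mp hi)
        ((mem_fibreOf_𝔊 C x hx c' (hfin c') Q).mp hj))
    | some c, none =>
      exact (disj_pts_inf C x hx Q ((mem_fibreOf_𝔊 C x hx c (hfin c) Q).mp hi)
        ((mem_fibreInf_𝔊 C x hx hinf Q).mp hj)).elim
    | none, some c =>
      exact (disj_pts_inf C x hx Q ((mem_fibreOf_𝔊 C x hx c (hfin c) Q).mp hj)
        ((mem_fibreInf_𝔊 C x hx hinf Q).mp hi)).elim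
    | none, none => rfl

include hfin hinf in
/-- **Existence of the place reduction map over a coordinate line.**

`K`, `k` algebraically closed; `x ∈ V` with `x̄` transcendental, `F / K(x)` and `F_k / k(x̄)`
finite; conservation of number and normality for the local coordinates `x` (all `c̄ ∈ k`) and
`x⁻¹` (at `0`).  Then there is `r : Pl(F) → Pl(F_k)` with
(i) `deg (r P) = deg P`, (ii) `r_* div u = div (ρ u)` for `u ∈ V`, `ρ u ≠ 0`,
(EC) value compatibility on both charts. -/
theorem exists_red_of_coord :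
    ∃ r : Place K F → Place k Fk,
      (∀ P, (r P).deg = P.deg) ∧
      (∀ u : C.V, C.ρ u ≠ 0 → ∀ D : Divisor K F, (∀ P, D P = P.ord (u : F)) →
        ∀ Q, Finsupp.mapDomain r D Q = Q.ord (C.ρ u)) ∧
      (∀ b : C.V, (∀ P : Place K F, 0 ≤ P.ord (x : F) → 0 ≤ P.ord (b : F)) →
        ∀ (P : Place K F) (a c : C.A), InMax P ((x : F) - algebraMap K F (a : K)) →
          InMax P ((b : F) - algebraMap K F (c : K)) →
          InMax (r P) (C.ρ b - algebraMap k Fk (C.π c))) ∧
      (∀ b : C.V, (∀ P : Place K F, 0 ≤ P.ord ((x : F))⁻¹ → 0 ≤ P.ord (b : F)) →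
        ∀ (P : Place K F) (a c : C.A), InMax P ((x : F)⁻¹ - algebraMap K F (a : K)) →
          InMax P ((b : F) - algebraMap K F (c : K)) →
          InMax (r P) (C.ρ b - algebraMap k Fk (C.π c))) := by
  have hInf : Infinite k := IsAlgClosed.instInfinite
  set 𝔄 := atlasOf C x hx hfin hinf with h𝔄
  have hresK : ∀ (P : Place K F) (f : F), 0 ≤ P.ord f →
      ∃ c : K, InMax P (f - algebraMap K F c) :=
    fun P f hf => Line.exists_value (C.transcendental_of_ρ hx) P hf
  have hresk : ∀ (Q : Place k Fk) (g : Fk), 0 ≤ Q.ord g →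
      ∃ a : k, InMax Q (g - algebraMap k Fk a) :=
    fun Q g hg => Line.exists_value hx Q hg
  refine ⟨𝔄.red, fun P => ?_, fun u hu D hD Q => 𝔄.mapDomain_red u hu D hD Q, ?_, ?_⟩
  · rw [deg_eq_one_of_res P (hresK P), deg_eq_one_of_res (𝔄.red P) (hresk _)]
  · intro b hreg P a c ha hc
    have hP : P ∈ (𝔄.Φ (some (C.π a))).𝔉 := ⟨a, rfl, ha⟩
    exact 𝔄.red_value (i := some (C.π a)) b
      (fun P' hP' => hreg P' (C.ord_nonneg_of_mem_tube (t := (x : F)) hP')) hP hc
  · intro b hreg P a c ha hc
    by_cases hπ : C.π a = 0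
    · have hP : P ∈ (𝔄.Φ none).𝔉 := ⟨a, hπ, ha⟩
      exact 𝔄.red_value (i := none) b
        (fun P' hP' => hreg P' (C.ord_nonneg_of_mem_tube (t := ((x : F))⁻¹) hP')) hP hc
    · -- `a` is a unit: `P` lies in the finite tube over `1 / ā`
      have hau : IsUnit a := by
        by_contra hnu
        exact hπ ((C.π_eq_zero a).mpr hnu)
      obtain ⟨a', ha'⟩ := hau.exists_right_inv
      have ha0 : (a : K) ≠ 0 := by
        intro h0
        have : a = 0 := Subtype.ext h0
        rw [this, zero_mul] at ha'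
        exact zero_ne_one ha'
      have haa' : (a : K) * (a' : K) = 1 := congrArg Subtype.val ha'
      have hx0 : (x : F) ≠ 0 := coe_x_ne_zero C x hx
      have hordinv : P.ord ((x : F))⁻¹ = 0 := ord_eq_zero_of_inMax_sub ha ha0
      have hordx : P.ord (x : F) = 0 := by
        rw [P.ord_inv] at hordinv
        omega
      have hval : InMax P ((x : F) - algebraMap K F (a' : K)) := by
        have e : (x : F) - algebraMap K F (a' : K)
            = -((x : F)⁻¹ - algebraMap K F (a : K)) * ((x : F) * algebraMap K F (a' : K)) := by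
          have h1 : algebraMap K F (a : K) * algebraMap K F (a' : K) = 1 := by
            rw [← map_mul, haa', map_one]
          have : -((x : F)⁻¹ - algebraMap K F (a : K)) * ((x : F) * algebraMap K F (a' : K))
              = (algebraMap K F (a : K) * algebraMap K F (a' : K)) * (x : F)
                - ((x : F)⁻¹ * (x : F)) * algebraMap K F (a' : K) := by ring
          rw [this, h1, inv_mul_cancel₀ hx0, one_mul, one_mul]
        rw [e]
        refine ha.neg.mul_of_ord_nonneg (Line.regular_mul P ?_ (ord_nonneg_const P _))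
        rw [hordx]
      have hP : P ∈ (𝔄.Φ (some (C.π a'))).𝔉 := ⟨a', rfl, hval⟩
      refine 𝔄.red_value (i := some (C.π a')) b (fun P' hP' => hreg P' ?_) hP hc
      -- on the tube over `1 / ā` the function `x⁻¹` is regular
      obtain ⟨a'', ha''π, ha''⟩ := hP'
      have ha''0 : (a'' : K) ≠ 0 := by
        intro h0
        have h1 : a'' = 0 := Subtype.ext h0
        rw [h1, map_zero] at ha''π
        have h2 := congrArg C.π ha'
        rw [map_mul, ← ha''π, mul_zero, map_one] at h2
        exact zero_ne_one h2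
      have := ord_eq_zero_of_inMax_sub ha'' ha''0
      rw [P'.ord_inv, this]
      simp

end Atlas

end Fermat.Agent.S37.H940

end
end
-- ===== PACK-END S37/H940/Chart.lean

-- ===== PACK-BEGIN S17/H680/Descent.lean
section



/-!
# S17 / P2 (helper680): minimal representatives of divisor classes, Galois descent

Let `F / K` be a function field all of whose places have degree one (`FF1 K F`) and let `vinf` be a
place.  Every class `x ∈ Pic⁰(F)` has a unique *minimal representative*: the least `m` with
`ℓ(x + m vinf) ≥ 1` (then `ℓ = 1` and `m ≤ g`), and the unique effective divisor `E` of degree `m`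
with `x = [E - m vinf]`; moreover `E(vinf) = 0`.

The construction is equivariant for every semilinear automorphism fixing `vinf`; hence a class fixed
by a group `Γ` of such automorphisms is represented by the `Γ`-invariant divisor `E - m vinf`.
-/

set_option autoImplicit false

noncomputable section

open AlgebraicCurve

namespace Fermat.Agent.S17.H680

open Fermat.Agent.Lib.RR

variable {K F : Type*} [Field K] [Field F] [Algebra K F]

/-! ### Generalities on divisors -/

section Generalities

variable [FF1 K F]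

theorem apply_le_degree {E : Divisor K F} (h0 : 0 ≤ E) (v : Place K F) :
    E v ≤ Divisor.degree E := by
  classical
  have hge : E v • prim v ≤ E := by
    rw [Finsupp.le_def]
    intro w
    by_cases hw : w = v
    · subst hw
      simp [prim]
    · have : (0 : ℤ) ≤ E w := by simpa using Finsupp.le_def.mp h0 w
      simpa [prim, Finsupp.single_apply, Ne.symm hw] using this
  have := degree_mono hge
  rw [map_zsmul, degree_prim v (deg_eq_one v)] at this
  simpa using this

theorem eq_zero_of_nonneg_of_degree_eq_zero {E : Divisor K F} (h0 : 0 ≤ E)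
    (hd : Divisor.degree E = 0) : E = 0 := by
  ext v
  have h1 := apply_le_degree h0 v
  have h2 : (0 : ℤ) ≤ E v := by simpa using Finsupp.le_def.mp h0 v
  rw [hd] at h1
  simpa using le_antisymm h1 h2

theorem divOf_mul (f g : F) (hf : f ≠ 0) (hg : g ≠ 0) :
    divOf (K := K) (f * g) (mul_ne_zero hf hg) = divOf f hf + divOf g hg := by
  ext v
  simp [divOf_apply, v.ord_mul hf hg]

theorem divOf_inv (f : F) (hf : f ≠ 0) :
    divOf (K := K) f⁻¹ (inv_ne_zero hf) = -divOf f hf := by
  ext v
  simp [divOf_apply, v.ord_inv]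

theorem divOf_algebraMap (c : K) (hc : algebraMap K F c ≠ 0) :
    divOf (K := K) (algebraMap K F c) hc = 0 := by
  ext v
  simp [divOf_apply, ord_algebraMap]

theorem divOf_congr {f g : F} (hf : f ≠ 0) (h : f = g) :
    divOf (K := K) f hf = divOf g (h ▸ hf) := by
  subst h; rfl

theorem divOf_smul (c : K) (hc : c ≠ 0) (f : F) (hf : f ≠ 0) (h : c • f ≠ 0) :
    divOf (K := K) (c • f) h = divOf f hf := by
  ext v
  have hc' : algebraMap K F c ≠ 0 := by
    simpa using hc
  rw [divOf_apply, divOf_apply, Algebra.smul_def, v.ord_mul hc' hf, ord_algebraMap, zero_add]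

theorem mem_L_iff_nonneg {D : Divisor K F} {f : F} (hf : f ≠ 0) :
    f ∈ riemannRochSpace D ↔ 0 ≤ D + divOf f hf := by
  rw [mem_L_iff, Finsupp.le_def]
  constructor
  · intro h v
    have := (h v).resolve_left hf
    simp only [Finsupp.coe_zero, Pi.zero_apply, Finsupp.coe_add, Pi.add_apply, divOf_apply]
    omega
  · intro h v
    right
    have := h v
    simp only [Finsupp.coe_zero, Pi.zero_apply, Finsupp.coe_add, Pi.add_apply,
      divOf_apply] at this
    omega

omit [FF1 K F] in
theorem add_nsmul_prim_apply (D : Divisor K F) (m : ℕ) (v w : Place K F) :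
    (D + m • prim v) w = D w + m * prim v w := by
  simp [Finsupp.add_apply, Finsupp.smul_apply]

theorem isPrincipal_iff {D : Divisor K F} :
    D ∈ Divisor.principal (K := K) (F := F) ↔ ∃ (h : F) (hh : h ≠ 0), D = divOf h hh := by
  rw [Divisor.mem_principal]
  constructor
  · rintro ⟨h, hh, hD⟩
    refine ⟨h, hh, ?_⟩
    ext v
    rw [hD v, divOf_apply]
  · rintro ⟨h, hh, rfl⟩
    exact ⟨h, hh, fun v => divOf_apply h hh v⟩

/-- In a one-dimensional `L(D)`, any two nonzero elements have the same divisor. -/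
theorem divOf_eq_of_ell_eq_one {D : Divisor K F} (h1 : ell D = 1) {f f' : F} (hf : f ≠ 0)
    (hf' : f' ≠ 0) (hfL : f ∈ riemannRochSpace D) (hfL' : f' ∈ riemannRochSpace D) :
    divOf (K := K) f hf = divOf f' hf' := by
  have hfin : Module.finrank K (riemannRochSpace D) = 1 := h1
  have hne : (⟨f, hfL⟩ : riemannRochSpace D) ≠ 0 := fun h => hf (congrArg Subtype.val h)
  obtain ⟨c, hc⟩ := (finrank_eq_one_iff_of_nonzero' ⟨f, hfL⟩ hne).mp hfin ⟨f', hfL'⟩
  have hc' : c • f = f' := congrArg Subtype.val hc
  have hc0 : c ≠ 0 := by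
    rintro rfl
    rw [zero_smul] at hc'
    exact hf' hc'.symm
  have hcf : c • f ≠ 0 := by rw [hc']; exact hf'
  rw [← divOf_smul c hc0 f hf hcf]
  exact divOf_congr hcf hc'

end Generalities

/-! ### Minimal representatives, on the level of divisors -/

section MinRepD

variable [FF1 K F] (vinf : Place K F)

theorem exists_one_le_ell (D : Divisor K F) : ∃ m : ℕ, 1 ≤ ell (D + m • prim vinf) := by
  refine ⟨(genusR K F - Divisor.degree D).toNat, ?_⟩
  have h := riemann_inequality (D + (genusR K F - Divisor.degree D).toNat • prim vinf)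
  rw [map_add, map_nsmul, degree_prim vinf (deg_eq_one vinf), nsmul_eq_mul, mul_one] at h
  have h2 : (genusR K F : ℤ) - Divisor.degree D ≤ ((genusR K F - Divisor.degree D).toNat : ℤ) :=
    Int.self_le_toNat _
  have h3 : (1 : ℤ) ≤ ell (D + (genusR K F - Divisor.degree D).toNat • prim vinf) := by omega
  exact_mod_cast h3

open Classical in
/-- The least `m` with `ℓ(D + m vinf) ≥ 1`. -/
def minDegD (D : Divisor K F) : ℕ := Nat.find (exists_one_le_ell vinf D)

theorem one_le_ell_minDegD (D : Divisor K F) : 1 ≤ ell (D + minDegD vinf D • prim vinf) := by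
  classical
  exact Nat.find_spec (exists_one_le_ell vinf D)

theorem minDegD_le {D : Divisor K F} {m : ℕ} (h : 1 ≤ ell (D + m • prim vinf)) :
    minDegD vinf D ≤ m := by
  classical
  exact Nat.find_min' (exists_one_le_ell vinf D) h

theorem ell_eq_zero_of_lt_minDegD {D : Divisor K F} {m : ℕ} (h : m < minDegD vinf D) :
    ell (D + m • prim vinf) = 0 := by
  classical
  have := Nat.find_min (exists_one_le_ell vinf D) h
  omega

theorem minDegD_le_genus {D : Divisor K F} (hD : Divisor.degree D = 0) :
    minDegD vinf D ≤ genusR K F := by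
  apply minDegD_le
  have h := riemann_inequality (D + genusR K F • prim vinf)
  rw [map_add, map_nsmul, degree_prim vinf (deg_eq_one vinf), nsmul_eq_mul, mul_one, hD] at h
  have h3 : (1 : ℤ) ≤ ell (D + genusR K F • prim vinf) := by omega
  exact_mod_cast h3

theorem ell_minDegD {D : Divisor K F} (hD : Divisor.degree D ≤ 0) :
    ell (D + minDegD vinf D • prim vinf) = 1 := by
  refine le_antisymm ?_ (one_le_ell_minDegD vinf D)
  rcases Nat.eq_zero_or_pos (minDegD vinf D) with h0 | hpos
  · rw [h0, zero_smul, add_zero]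
    have h1 := one_le_ell_minDegD vinf D
    rw [h0, zero_smul, add_zero] at h1
    have h2 := ell_le_toNat D
    have h3 : (Divisor.degree D + 1).toNat ≤ 1 := by omega
    omega
  · have hlt : minDegD vinf D - 1 < minDegD vinf D := by omega
    have h1 := ell_eq_zero_of_lt_minDegD vinf hlt
    have h2 := ell_add_prim_le (D + (minDegD vinf D - 1) • prim vinf) vinf
    have h3 : D + (minDegD vinf D - 1) • prim vinf + prim vinf = D + minDegD vinf D • prim vinf := by
      rw [add_assoc, ← succ_nsmul]
      congr 2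
      omega
    rw [h3, h1] at h2
    exact h2

theorem exists_minFun (D : Divisor K F) :
    ∃ f : F, f ≠ 0 ∧ f ∈ riemannRochSpace (D + minDegD vinf D • prim vinf) := by
  have h := one_le_ell_minDegD vinf D
  have hpos : 0 < Module.finrank K (riemannRochSpace (D + minDegD vinf D • prim vinf)) := h
  obtain ⟨⟨f, hfL⟩, hf⟩ := Module.finrank_pos_iff_exists_ne_zero.mp hpos
  exact ⟨f, fun h => hf (Subtype.ext h), hfL⟩

/-- A nonzero function in `L(D + m vinf)`, `m` minimal. -/
def minFun (D : Divisor K F) : F := (exists_minFun vinf D).choose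

theorem minFun_ne_zero (D : Divisor K F) : minFun vinf D ≠ 0 := (exists_minFun vinf D).choose_spec.1

theorem minFun_mem (D : Divisor K F) :
    minFun vinf D ∈ riemannRochSpace (D + minDegD vinf D • prim vinf) :=
  (exists_minFun vinf D).choose_spec.2

/-- The minimal effective representative of the class of `D + m vinf`. -/
def minRepD (D : Divisor K F) : Divisor K F :=
  D + minDegD vinf D • prim vinf + divOf (minFun vinf D) (minFun_ne_zero vinf D)

theorem minRepD_apply (D : Divisor K F) (w : Place K F) :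
    minRepD vinf D w = D w + minDegD vinf D * prim vinf w + w.ord (minFun vinf D) := by
  rw [minRepD, Finsupp.add_apply, add_nsmul_prim_apply, divOf_apply]

theorem minRepD_nonneg (D : Divisor K F) : 0 ≤ minRepD vinf D :=
  (mem_L_iff_nonneg (minFun_ne_zero vinf D)).mp (minFun_mem vinf D)

theorem degree_minRepD (D : Divisor K F) :
    Divisor.degree (minRepD vinf D) = Divisor.degree D + minDegD vinf D := by
  rw [minRepD, map_add, map_add, degree_divOf, map_nsmul, degree_prim vinf (deg_eq_one vinf)]
  simp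

theorem minRepD_eq {D : Divisor K F} (hD : Divisor.degree D ≤ 0) {f : F} (hf : f ≠ 0)
    (hfL : f ∈ riemannRochSpace (D + minDegD vinf D • prim vinf)) :
    minRepD vinf D = D + minDegD vinf D • prim vinf + divOf f hf := by
  rw [minRepD, divOf_eq_of_ell_eq_one (ell_minDegD vinf hD) (minFun_ne_zero vinf D) hf
    (minFun_mem vinf D) hfL]

/-- The minimal representative does not contain `vinf`. -/
theorem minRepD_apply_infty {D : Divisor K F} (hD : Divisor.degree D = 0) :
    minRepD vinf D vinf = 0 := by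
  rcases Nat.eq_zero_or_pos (minDegD vinf D) with h0 | hpos
  · have hdeg := degree_minRepD vinf D
    rw [h0, hD] at hdeg
    rw [eq_zero_of_nonneg_of_degree_eq_zero (minRepD_nonneg vinf D) (by simpa using hdeg)]
    rfl
  · by_contra hne
    have hnn : (0 : ℤ) ≤ minRepD vinf D vinf := by
      simpa using Finsupp.le_def.mp (minRepD_nonneg vinf D) vinf
    have h1 : (1 : ℤ) ≤ minRepD vinf D vinf := by omega
    -- then `minFun ∈ L(D + (m - 1) vinf)`
    have hlt : minDegD vinf D - 1 < minDegD vinf D := by omega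
    have hz := ell_eq_zero_of_lt_minDegD vinf hlt
    have hmem : minFun vinf D ∈ riemannRochSpace (D + (minDegD vinf D - 1) • prim vinf) := by
      rw [mem_L_iff_nonneg (minFun_ne_zero vinf D), Finsupp.le_def]
      intro w
      have hw : (0 : ℤ) ≤ minRepD vinf D w := by
        simpa using Finsupp.le_def.mp (minRepD_nonneg vinf D) w
      have hcast : ((minDegD vinf D - 1 : ℕ) : ℤ) = (minDegD vinf D : ℤ) - 1 := by
        rw [Nat.cast_sub (by omega)]; simp
      rw [minRepD_apply] at hw h1
      rw [Finsupp.coe_zero, Pi.zero_apply, Finsupp.add_apply, add_nsmul_prim_apply, divOf_apply,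
        hcast]
      by_cases hwv : w = vinf
      · subst hwv
        rw [prim_apply_self] at h1 ⊢
        linarith
      · rw [prim_apply_of_ne hwv] at hw ⊢
        linarith
    have hpos' : 0 < Module.finrank K (riemannRochSpace (D + (minDegD vinf D - 1) • prim vinf)) :=
      Module.finrank_pos_iff_exists_ne_zero.mpr
        ⟨⟨_, hmem⟩, fun h => minFun_ne_zero vinf D (congrArg Subtype.val h)⟩
    have : ell (D + (minDegD vinf D - 1) • prim vinf) = 0 := hz
    unfold ell at this
    omega

/-- Linearly equivalent divisors have the same minimal degree. -/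
theorem minDegD_add_divOf (D : Divisor K F) (h : F) (hh : h ≠ 0) :
    minDegD vinf (D + divOf h hh) = minDegD vinf D := by
  have key : ∀ m : ℕ, ell (D + divOf h hh + m • prim vinf) = ell (D + m • prim vinf) := by
    intro m
    rw [add_right_comm, ell_add_divOf]
  apply le_antisymm
  · apply minDegD_le
    rw [key]
    exact one_le_ell_minDegD vinf D
  · apply minDegD_le
    rw [← key]
    exact one_le_ell_minDegD vinf (D + divOf h hh)

/-- Linearly equivalent divisors (of degree `0`) have the same minimal representative. -/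
theorem minRepD_add_divOf {D : Divisor K F} (hD : Divisor.degree D ≤ 0) (h : F) (hh : h ≠ 0) :
    minRepD vinf (D + divOf h hh) = minRepD vinf D := by
  have hm := minDegD_add_divOf vinf D h hh
  set f := minFun vinf (D + divOf h hh) with hf_def
  have hf0 : f ≠ 0 := minFun_ne_zero vinf _
  have hfL := minFun_mem vinf (D + divOf h hh)
  have hhf : h * f ≠ 0 := mul_ne_zero hh hf0
  have hmem : h * f ∈ riemannRochSpace (D + minDegD vinf D • prim vinf) := by
    rw [mem_L_iff_nonneg hhf, divOf_mul h f hh hf0]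
    rw [mem_L_iff_nonneg hf0, hm] at hfL
    have : D + divOf h hh + minDegD vinf D • prim vinf + divOf f hf0
        = D + minDegD vinf D • prim vinf + (divOf h hh + divOf f hf0) := by abel
    rwa [this] at hfL
  rw [minRepD_eq vinf hD hhf hmem, minRepD, hm, divOf_mul h f hh hf0]
  abel

end MinRepD

/-! ### Semilinear automorphisms -/

section Semilinear

variable [FF1 K F] (g : SemilinearAut K F)

omit [FF1 K F] in
theorem smul_ne_zero {f : F} (hf : f ≠ 0) : g • f ≠ 0 := by
  rw [SemilinearAut.smul_def]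
  exact (map_ne_zero_iff _ (SemilinearAut.toRingAut g).injective).mpr hf

theorem smul_divOf (f : F) (hf : f ≠ 0) :
    g • divOf (K := K) f hf = divOf (g • f) (smul_ne_zero g hf) := by
  ext w
  rw [SemilinearAut.divisor_smul_apply, divOf_apply, divOf_apply]
  have h := SemilinearAut.ord_smul g (g⁻¹ • w) f
  rw [smul_inv_smul] at h
  exact h.symm

omit [FF1 K F] in
theorem smul_prim (v : Place K F) : g • prim v = prim (g • v) := by
  rw [prim, prim, SemilinearAut.smul_single]

omit [FF1 K F] in
theorem smul_nonneg {D : Divisor K F} (h : 0 ≤ D) : 0 ≤ g • D := by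
  rw [Finsupp.le_def] at h ⊢
  intro w
  rw [SemilinearAut.divisor_smul_apply]
  simpa using h (g⁻¹ • w)

theorem smul_mem_L {D : Divisor K F} {f : F} (hf : f ∈ riemannRochSpace D) :
    g • f ∈ riemannRochSpace (g • D) := by
  rcases eq_or_ne f 0 with rfl | hf0
  · rw [smul_zero]; exact Submodule.zero_mem _
  · rw [mem_L_iff_nonneg (smul_ne_zero g hf0), ← smul_divOf g f hf0, ← smul_add]
    exact smul_nonneg g ((mem_L_iff_nonneg hf0).mp hf)

theorem smul_mem_L_iff {D : Divisor K F} {f : F} :
    g • f ∈ riemannRochSpace (g • D) ↔ f ∈ riemannRochSpace D := by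
  refine ⟨fun h => ?_, smul_mem_L g⟩
  have := smul_mem_L g⁻¹ h
  rwa [inv_smul_smul, inv_smul_smul] at this

/-- The semilinear bijection `L(D) ≃ L(g D)`. -/
def smulL (D : Divisor K F) : riemannRochSpace D ≃+ riemannRochSpace (g • D) where
  toFun f := ⟨g • (f : F), smul_mem_L g f.2⟩
  invFun f := ⟨g⁻¹ • (f : F), by
    have := smul_mem_L g⁻¹ f.2
    rwa [inv_smul_smul] at this⟩
  left_inv f := Subtype.ext (inv_smul_smul g (f : F))
  right_inv f := Subtype.ext (smul_inv_smul g (f : F))
  map_add' f f' := Subtype.ext (smul_add g (f : F) (f' : F))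

theorem ell_smul (D : Divisor K F) : ell (g • D) = ell D := by
  have h := rank_eq_of_equiv_equiv (R := K) (R' := K) (SemilinearAut.baseAut g) (smulL g D)
    (SemilinearAut.baseAut g).bijective (fun c f => by
      apply Subtype.ext
      show g • (c • (f : F)) = SemilinearAut.baseAut g c • (g • (f : F))
      rw [Algebra.smul_def, Algebra.smul_def, smul_mul', SemilinearAut.smul_algebraMap])
  unfold ell Module.finrank
  rw [h]

variable {vinf : Place K F} (hg : g • vinf = vinf)

include hg in
theorem minDegD_smul (D : Divisor K F) : minDegD vinf (g • D) = minDegD vinf D := by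
  have key : ∀ m : ℕ, ell (g • D + m • prim vinf) = ell (D + m • prim vinf) := by
    intro m
    rw [← ell_smul g (D + m • prim vinf), smul_add, smul_comm g m (prim vinf), smul_prim, hg]
  apply le_antisymm
  · apply minDegD_le
    rw [key]
    exact one_le_ell_minDegD vinf D
  · apply minDegD_le
    rw [← key]
    exact one_le_ell_minDegD vinf (g • D)

include hg in
/-- The minimal representative is equivariant. -/
theorem minRepD_smul {D : Divisor K F} (hD : Divisor.degree D ≤ 0) :
    minRepD vinf (g • D) = g • minRepD vinf D := by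
  have hm := minDegD_smul g hg D
  have hD' : Divisor.degree (g • D) ≤ 0 := by rwa [SemilinearAut.degree_smul]
  have hf0 := minFun_ne_zero vinf D
  have hmem : g • minFun vinf D ∈ riemannRochSpace (g • D + minDegD vinf (g • D) • prim vinf) := by
    have := smul_mem_L g (minFun_mem vinf D)
    rwa [smul_add, smul_comm g (minDegD vinf D) (prim vinf), smul_prim, hg, ← hm] at this
  rw [minRepD_eq vinf hD' (smul_ne_zero g hf0) hmem, minRepD, smul_add, smul_add,
    smul_comm g (minDegD vinf D) (prim vinf), smul_prim, hg, smul_divOf, hm]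

end Semilinear

/-! ### Minimal representatives of classes in `Pic⁰` -/

section Pic0

variable [FF1 K F] (vinf : Place K F)

omit [FF1 K F] in
theorem mk_eq_mk_iff {D D' : Divisor.degZero (K := K) (F := F)} :
    Pic0.mk D = Pic0.mk D' ↔ (D' : Divisor K F) - D ∈ Divisor.principal (K := K) (F := F) := by
  unfold Pic0.mk
  rw [QuotientAddGroup.eq, AddSubgroup.mem_addSubgroupOf]
  have : ((-D + D' : Divisor.degZero (K := K) (F := F)) : Divisor K F)
      = (D' : Divisor K F) - D := by
    rw [AddSubgroup.coe_add, AddSubgroup.coe_neg]; abel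
  rw [this]

theorem mk_eq_mk_iff' {D D' : Divisor.degZero (K := K) (F := F)} :
    Pic0.mk D = Pic0.mk D' ↔
      ∃ (h : F) (hh : h ≠ 0), (D' : Divisor K F) = (D : Divisor K F) + divOf h hh := by
  rw [mk_eq_mk_iff, isPrincipal_iff]
  constructor
  · rintro ⟨h, hh, e⟩
    exact ⟨h, hh, by rw [← e]; abel⟩
  · rintro ⟨h, hh, e⟩
    exact ⟨h, hh, by rw [e]; abel⟩

/-- A chosen representative of a class. -/
def repD (x : Pic0 K F) : Divisor.degZero (K := K) (F := F) := (Pic0.mk_surjective x).choose

omit [FF1 K F] in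
theorem mk_repD (x : Pic0 K F) : Pic0.mk (repD x) = x := (Pic0.mk_surjective x).choose_spec

omit [FF1 K F] in
theorem degree_coe (D : Divisor.degZero (K := K) (F := F)) :
    Divisor.degree (D : Divisor K F) = 0 := D.2

/-- The least `m` such that `x + m v∞` contains an effective divisor. -/
def minDeg (x : Pic0 K F) : ℕ := minDegD vinf (repD x : Divisor K F)

/-- The effective divisor `E` of degree `minDeg x` with `x = [E - m v∞]`. -/
def minRep (x : Pic0 K F) : Divisor K F := minRepD vinf (repD x : Divisor K F)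

theorem minDeg_mk (D : Divisor.degZero (K := K) (F := F)) :
    minDeg vinf (Pic0.mk D) = minDegD vinf (D : Divisor K F) := by
  obtain ⟨h, hh, e⟩ := mk_eq_mk_iff'.mp (mk_repD (Pic0.mk D)).symm
  rw [minDeg, e, minDegD_add_divOf]

theorem minRep_mk (D : Divisor.degZero (K := K) (F := F)) :
    minRep vinf (Pic0.mk D) = minRepD vinf (D : Divisor K F) := by
  obtain ⟨h, hh, e⟩ := mk_eq_mk_iff'.mp (mk_repD (Pic0.mk D)).symm
  rw [minRep, e, minRepD_add_divOf vinf (le_of_eq (degree_coe D))]

theorem minRep_nonneg (x : Pic0 K F) : 0 ≤ minRep vinf x := minRepD_nonneg vinf _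

theorem degree_minRep (x : Pic0 K F) : Divisor.degree (minRep vinf x) = minDeg vinf x := by
  rw [minRep, degree_minRepD, degree_coe, zero_add, minDeg]

theorem minRep_apply_infty (x : Pic0 K F) : minRep vinf x vinf = 0 :=
  minRepD_apply_infty vinf (degree_coe _)

theorem minDeg_le_genus (x : Pic0 K F) : minDeg vinf x ≤ genusR K F :=
  minDegD_le_genus vinf (degree_coe _)

theorem ell_minRep (x : Pic0 K F) : ell (minRep vinf x) = 1 := by
  rw [minRep, minRepD, ell_add_divOf]
  exact ell_minDegD vinf (le_of_eq (degree_coe _))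

theorem degree_minRep_sub (x : Pic0 K F) :
    Divisor.degree (minRep vinf x - minDeg vinf x • prim vinf) = 0 := by
  rw [map_sub, degree_minRep, map_nsmul, degree_prim vinf (deg_eq_one vinf)]
  simp

/-- The divisor `E - m v∞` of degree zero representing `x`. -/
def minDiv (x : Pic0 K F) : Divisor.degZero (K := K) (F := F) :=
  ⟨minRep vinf x - minDeg vinf x • prim vinf, degree_minRep_sub vinf x⟩

theorem coe_minDiv (x : Pic0 K F) :
    (minDiv vinf x : Divisor K F) = minRep vinf x - minDeg vinf x • prim vinf := rfl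

/-- `x = [E - m v∞]`. -/
theorem mk_minDiv (x : Pic0 K F) : Pic0.mk (minDiv vinf x) = x := by
  conv_rhs => rw [← mk_repD x]
  rw [eq_comm, mk_eq_mk_iff']
  refine ⟨minFun vinf (repD x : Divisor K F), minFun_ne_zero vinf _, ?_⟩
  rw [coe_minDiv, minRep, minRepD, minDeg]
  abel

/-- Uniqueness: an effective divisor `E` of degree `minDeg x` with `x = [E - m v∞]` is the
minimal representative. -/
theorem eq_minRep {x : Pic0 K F} {E : Divisor K F} (hE : 0 ≤ E)
    (hdeg : Divisor.degree (E - minDeg vinf x • prim vinf) = 0)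
    (hx : Pic0.mk ⟨E - minDeg vinf x • prim vinf, hdeg⟩ = x) : E = minRep vinf x := by
  have h1 : Pic0.mk (repD x) = Pic0.mk ⟨E - minDeg vinf x • prim vinf, hdeg⟩ := by
    rw [mk_repD, hx]
  obtain ⟨h, hh, e⟩ := mk_eq_mk_iff'.mp h1
  have e' : E = (repD x : Divisor K F) + minDeg vinf x • prim vinf + divOf h hh := by
    have : E - minDeg vinf x • prim vinf = (repD x : Divisor K F) + divOf h hh := e
    rw [sub_eq_iff_eq_add] at this
    rw [this]; abel
  have hmem : h ∈ riemannRochSpace ((repD x : Divisor K F) + minDeg vinf x • prim vinf) := by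
    rw [mem_L_iff_nonneg hh, ← e']
    exact hE
  rw [minRep, minRepD_eq vinf (le_of_eq (degree_coe _)) hh hmem, e']
  rfl

/-- Any effective divisor `E` of degree `m` with `x = [E - m v∞]` has `m ≥ minDeg x`. -/
theorem minDeg_le_of_rep {x : Pic0 K F} {E : Divisor K F} {m : ℕ} (hE : 0 ≤ E)
    (hdeg : Divisor.degree (E - m • prim vinf) = 0)
    (hx : Pic0.mk ⟨E - m • prim vinf, hdeg⟩ = x) : minDeg vinf x ≤ m := by
  have h1 : Pic0.mk (repD x) = Pic0.mk ⟨E - m • prim vinf, hdeg⟩ := by
    rw [mk_repD, hx]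
  obtain ⟨h, hh, e⟩ := mk_eq_mk_iff'.mp h1
  have e' : E = (repD x : Divisor K F) + m • prim vinf + divOf h hh := by
    have : E - m • prim vinf = (repD x : Divisor K F) + divOf h hh := e
    rw [sub_eq_iff_eq_add] at this
    rw [this]; abel
  have hmem : h ∈ riemannRochSpace ((repD x : Divisor K F) + m • prim vinf) := by
    rw [mem_L_iff_nonneg hh, ← e']
    exact hE
  apply minDegD_le
  have hpos : 0 < Module.finrank K (riemannRochSpace ((repD x : Divisor K F) + m • prim vinf)) :=
    Module.finrank_pos_iff_exists_ne_zero.mpr ⟨⟨h, hmem⟩, fun h0 => hh (congrArg Subtype.val h0)⟩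
  exact hpos

/-! ### Equivariance and descent -/

variable {vinf}

theorem minDeg_smul (g : SemilinearAut K F) (hg : g • vinf = vinf) (x : Pic0 K F) :
    minDeg vinf (g • x) = minDeg vinf x := by
  obtain ⟨D, rfl⟩ := Pic0.mk_surjective x
  rw [SemilinearAut.pic0_smul_mk, minDeg_mk, minDeg_mk, SemilinearAut.coe_degZeroSMulHom,
    minDegD_smul g hg]

theorem minRep_smul (g : SemilinearAut K F) (hg : g • vinf = vinf) (x : Pic0 K F) :
    minRep vinf (g • x) = g • minRep vinf x := by
  obtain ⟨D, rfl⟩ := Pic0.mk_surjective x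
  rw [SemilinearAut.pic0_smul_mk, minRep_mk, minRep_mk, SemilinearAut.coe_degZeroSMulHom,
    minRepD_smul g hg (le_of_eq (degree_coe D))]

/-- **Descent**: the minimal representative of a class fixed by `g` is fixed by `g`. -/
theorem smul_minRep_eq (g : SemilinearAut K F) (hg : g • vinf = vinf) {x : Pic0 K F}
    (hx : g • x = x) : g • minRep vinf x = minRep vinf x := by
  rw [← minRep_smul g hg, hx]

theorem smul_minDiv_eq (g : SemilinearAut K F) (hg : g • vinf = vinf) {x : Pic0 K F}
    (hx : g • x = x) : g • (minDiv vinf x : Divisor K F) = minDiv vinf x := by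
  rw [coe_minDiv, smul_sub, smul_minRep_eq g hg hx, smul_comm g (minDeg vinf x) (prim vinf),
    smul_prim, hg]

/-- A class is determined by its minimal representative. -/
theorem minRep_injective : Function.Injective (minRep (K := K) (F := F) vinf) := by
  intro x y h
  have hd : minDeg vinf x = minDeg vinf y := by
    have h1 := degree_minRep vinf x
    have h2 := degree_minRep vinf y
    rw [h] at h1
    exact_mod_cast h1.symm.trans h2
  rw [← mk_minDiv vinf x, ← mk_minDiv vinf y]
  congr 1
  apply Subtype.ext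
  rw [coe_minDiv, coe_minDiv, h, hd]

end Pic0

end Fermat.Agent.S17.H680

end
end
-- ===== PACK-END S17/H680/Descent.lean

-- ===== PACK-BEGIN S37/Core/Geo.lean
section


/-!
# S37 row (helper37): the Layer-2 interface `GeoRed` (definitions only)

Notation: `A` a valuation subring of `ℚ̄` over `ℓ`, `k = A/𝔪`, `F = ℚ̄(X₀(N))`
(`modularFunctionFieldBar N ⊆ ℚ̄((q))`), `F_k = modularFunctionFieldFullC k N ⊆ k((q))`.

* `HasValue P f b` : the function `f` is regular at the place `P` with value `b`.
* `IntElt A N` : a q-series `y ∈ A((q))` lying in `F` whose reduction lies in `F_k`.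
* `IntElt.IsFin` / `IsInf` : `y` is integral over `A[j]` / over `A[j⁻¹]` (inside `A((q))`).
* `GeoRed A N` : a place reduction map `r` with the Prelude spec (`isRed`, `gen`) and
  - `vc_fin`/`vc_inf` (value compatibility): for `f` integral over `A[j]` and `P` with `j(P) ∈ A`,
    `f(P) = b` implies `f̄(r P) = b̄`; same at infinity;
  - `sep_fin`/`sep_inf` (separation, = normality of the special fibre of the model): two places
    of `F_k` at which all reductions `f̄` take the same values are equal.
-/

set_option autoImplicit false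
set_option synthInstance.maxHeartbeats 400000

noncomputable section

namespace Fermat.Agent.S37.Core

open ModularCurve ValuationSubring AlgebraicCurve HahnSeries

/-- `f` is regular at `P` with value `b` -/
def HasValue {K F : Type*} [Field K] [Field F] [Algebra K F] (P : Place K F) (f : F) (b : K) :
    Prop :=
  f - algebraMap K F b ∈ P.toValuationSubring.nonunits

section

variable (A : ValuationSubring (AlgebraicClosure ℚ)) (N : ℕ)

/-- an `A`-integral q-series lying in `F = ℚ̄(X₀(N))` with reduction in `F_k` -/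
structure IntElt where
  /-- the q-series -/
  y : LaurentSeries A
  mem : coeffMap A.subtype y ∈ modularFunctionFieldBar N
  memk : coeffMap (IsLocalRing.residue A) y ∈
    modularFunctionFieldFullC (IsLocalRing.ResidueField A) N

variable {A N}

/-- the function in characteristic `0` -/
def IntElt.gen (c : IntElt A N) : modularFunctionFieldBar N := ⟨coeffMap A.subtype c.y, c.mem⟩

/-- the reduced function -/
def IntElt.sp (c : IntElt A N) : modularFunctionFieldFullC (IsLocalRing.ResidueField A) N :=
  ⟨coeffMap (IsLocalRing.residue A) c.y, c.memk⟩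

variable (A) in
/-- evaluation `A[X] → A((q))`, `X ↦ u` -/
def evalSeries (u : LaurentSeries A) : Polynomial A →+* LaurentSeries A :=
  Polynomial.eval₂RingHom (HahnSeries.C : A →+* LaurentSeries A) u

/-- `y` is integral over `A[j]` -/
def IntElt.IsFin (c : IntElt A N) : Prop :=
  ∃ p : Polynomial (Polynomial A), p.Monic ∧ p.eval₂ (evalSeries A (jqModC A)) c.y = 0

/-- `y` is integral over `A[j⁻¹]` -/
def IntElt.IsInf (c : IntElt A N) : Prop :=
  ∃ u : LaurentSeries A, u * jqModC A = 1 ∧
    ∃ p : Polynomial (Polynomial A), p.Monic ∧ p.eval₂ (evalSeries A u) c.y = 0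

variable (A N) in
/-- **Layer-2 interface**: a geometric place reduction map. -/
structure GeoRed [NeZero N] : Type where
  /-- the reduction map on places -/
  r : Place (AlgebraicClosure ℚ) (modularFunctionFieldBar N) →
    Place (IsLocalRing.ResidueField A) (modularFunctionFieldFullC (IsLocalRing.ResidueField A) N)
  isRed : IsPlaceReductionModL A N r
  gen : PrincipalGeneratedByIntegral A (IsLocalRing.residue A) N
  vc_fin : ∀ j : IntElt A N, j.y = jqModC A → ∀ c : IntElt A N, c.IsFin →
    ∀ (P : Place (AlgebraicClosure ℚ) (modularFunctionFieldBar N)) (a b : A),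
      HasValue P j.gen a → HasValue P c.gen b → HasValue (r P) c.sp (IsLocalRing.residue A b)
  vc_inf : ∀ j : IntElt A N, j.y * jqModC A = 1 → ∀ c : IntElt A N, c.IsInf →
    ∀ (P : Place (AlgebraicClosure ℚ) (modularFunctionFieldBar N)) (a b : A),
      HasValue P j.gen a → HasValue P c.gen b → HasValue (r P) c.sp (IsLocalRing.residue A b)
  sep_fin : ∀ j : IntElt A N, j.y = jqModC A →
    ∀ (Q Q' : Place (IsLocalRing.ResidueField A)
      (modularFunctionFieldFullC (IsLocalRing.ResidueField A) N)) (a : IsLocalRing.ResidueField A),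
      HasValue Q j.sp a →
      (∀ c : IntElt A N, c.IsFin → ∀ b : IsLocalRing.ResidueField A,
        HasValue Q c.sp b → HasValue Q' c.sp b) → Q = Q'
  sep_inf : ∀ j : IntElt A N, j.y * jqModC A = 1 →
    ∀ (Q Q' : Place (IsLocalRing.ResidueField A)
      (modularFunctionFieldFullC (IsLocalRing.ResidueField A) N)) (a : IsLocalRing.ResidueField A),
      HasValue Q j.sp a →
      (∀ c : IntElt A N, c.IsInf → ∀ b : IsLocalRing.ResidueField A,
        HasValue Q c.sp b → HasValue Q' c.sp b) → Q = Q'

end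

end Fermat.Agent.S37.Core

end
end
-- ===== PACK-END S37/Core/Geo.lean

-- ===== PACK-BEGIN S37/H448/AscentMod.lean
section




/-!
# S37 / RED-E4(c) (helper448): (H3) over `A` from (H3) over `𝔽_ℓ` — modular instance

`A ⊆ ℚ̄` a valuation subring, `k = A/𝔪` (algebraically closed, algebraic over `𝔽_ℓ`),
`F₀ = modularFunctionFieldFullC (ZMod ℓ) N ⊆ 𝔽_ℓ((q))`, `F_k = modularFunctionFieldFullC k N`.

* `mem_fullC_decomp` : every `z ∈ F_k` is `∑ C (e i) * ι (w i)` with `w i ∈ F₀`
  (`F_k = k · ι(F₀)`, because `k / 𝔽_ℓ` is algebraic).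
* `lift_of_base` : for ANY coordinate `X₀ ∈ 𝔽_ℓ((q))`: if every `w ∈ F₀` integral over `𝔽_ℓ[X₀]`
  lifts to an `A`-integral series `y` (in `F̄_N`, integral over `A[X]`, where `X̄ = ι X₀`), then
  every `z ∈ F_k` integral over `k[ι X₀]` lifts as well.
* `lift_fin_of_base`, `lift_inf_of_base` : the two charts, in the language of `Core.IntElt`
  (`IsFin`, `IsInf`), i.e. `(H3)` = `Red.Datum.Good.lift_fin / lift_inf` over `A` from the same
  statement for `w` defined over `𝔽_ℓ` — normality of the special fibre is needed only for the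
  model over `ℤ_(ℓ)`.
* `isAlgebraic_residueField`, `lift_fin_of_base_liesOver`, `lift_inf_of_base_liesOver` :
  the instances for `A` over `ℓ`.
-/

set_option autoImplicit false
set_option linter.style.haveILetI false
set_option linter.unusedSimpArgs false
set_option synthInstance.maxHeartbeats 400000

noncomputable section

namespace Fermat.Agent.S37.H448

open HahnSeries ModularCurve Polynomial AlgebraicCurve Fermat.Agent.S37.Core

section Decomp

variable {k₀ k : Type*} [Field k₀] [Field k] [Algebra k₀ k]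

theorem algebraMap_laurent_eq_C (c : k₀) :
    algebraMap k₀ (LaurentSeries k) c = HahnSeries.C (algebraMap k₀ k c) := by
  rw [HahnSeries.algebraMap_apply']
  have h1 : algebraMap k₀ (PowerSeries k) c = PowerSeries.C (algebraMap k₀ k c) := by
    simp [PowerSeries.algebraMap_apply]
  rw [h1, HahnSeries.ofPowerSeries_C]

theorem isScalarTower_laurent :
    @IsScalarTower k₀ k (LaurentSeries k) Algebra.toSMul Algebra.toSMul Algebra.toSMul := by
  refine IsScalarTower.of_algebraMap_eq (R := k₀) (S := k) (A := LaurentSeries k) fun c => ?_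
  rw [algebraMap_laurent_eq_C (k₀ := k₀) (k := k), algebraMap_laurent_eq_C (k₀ := k) (k := k)]
  rfl

/-- the coefficientwise embedding as a `k₀`-algebra homomorphism -/
def iotaAlg (k₀ k : Type*) [Field k₀] [Field k] [Algebra k₀ k] :
    LaurentSeries k₀ →ₐ[k₀] LaurentSeries k where
  __ := coeffMap (algebraMap k₀ k)
  commutes' c := by
    show coeffMap (algebraMap k₀ k) (algebraMap k₀ (LaurentSeries k₀) c) =
      algebraMap k₀ (LaurentSeries k) c
    rw [algebraMap_laurent_eq_C (k₀ := k₀) (k := k₀), algebraMap_laurent_eq_C (k₀ := k₀) (k := k),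
      coeffMap_C']
    rfl

@[simp]
theorem iotaAlg_apply (x : LaurentSeries k₀) : iotaAlg k₀ k x = coeffMap (algebraMap k₀ k) x :=
  rfl

/-- `F_k = k · ι(F₀)` for `k / k₀` algebraic. -/
theorem mem_fullC_decomp [Algebra.IsAlgebraic k₀ k] (N : ℕ) [NeZero N]
    {z : LaurentSeries k} (hz : z ∈ modularFunctionFieldFullC k N) :
    ∃ (m : ℕ) (e : Fin m → k) (w : Fin m → LaurentSeries k₀),
      (∀ i, w i ∈ modularFunctionFieldFullC k₀ N) ∧
      z = ∑ i, HahnSeries.C (e i) * coeffMap (algebraMap k₀ k) (w i) := by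
  classical
  set L : IntermediateField k₀ (LaurentSeries k) :=
    (modularFunctionFieldFullC k₀ N).map (iotaAlg k₀ k) with hL
  have hle : modularFunctionFieldFullC k N ≤ IntermediateField.adjoin k (L : Set (LaurentSeries k)) := by
    rw [modularFunctionFieldFullC, IntermediateField.adjoin_le_iff]
    rintro x ⟨d, hne, hd, rfl⟩
    haveI := hne
    refine IntermediateField.subset_adjoin k _ ?_
    refine ⟨qExpand k₀ d (jqModC k₀), jqModCd_mem_full k₀ N hd, ?_⟩
    show coeffMap (algebraMap k₀ k) (qExpand k₀ d (jqModC k₀)) = qExpand k d (jqModC k)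
    rw [coeffMap_qExpand, coeffMap_jqModC]
  have hz1 : z ∈ (IntermediateField.adjoin k (L : Set (LaurentSeries k))).toSubalgebra := hle hz
  haveI := isScalarTower_laurent (k₀ := k₀) (k := k)
  rw [IntermediateField.adjoin_intermediateField_toSubalgebra_of_isAlgebraic_left] at hz1
  have hz2 := hz1
  rw [← Subalgebra.mem_toSubmodule, Algebra.adjoin_eq_span] at hz2
  have hcl : (Submonoid.closure (L : Set (LaurentSeries k)) : Set (LaurentSeries k)) =
      (L : Set (LaurentSeries k)) := by
    have : Submonoid.closure (L : Set (LaurentSeries k)) = L.toSubalgebra.toSubmonoid :=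
      Submonoid.closure_eq L.toSubalgebra.toSubmonoid
    rw [this]
    rfl
  rw [hcl] at hz2
  obtain ⟨m, f, g, hfg⟩ :=
    (@Submodule.mem_span_set' k (LaurentSeries k) _ _ Algebra.toModule z
      (L : Set (LaurentSeries k))).mp hz2
  have hg : ∀ i, ∃ w ∈ modularFunctionFieldFullC k₀ N,
      coeffMap (algebraMap k₀ k) w = (g i : LaurentSeries k) := by
    intro i
    obtain ⟨w, hw, hwg⟩ := (g i).2
    exact ⟨w, hw, hwg⟩
  choose w hw hwg using hg
  refine ⟨m, f, w, hw, ?_⟩
  rw [← hfg]
  refine Finset.sum_congr rfl fun i _ => ?_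
  rw [hwg i, Algebra.smul_def, algebraMap_laurent_eq_C (k₀ := k) (k := k)]
  rfl

end Decomp

section Lift

variable {N : ℕ} [NeZero N] {ℓ : ℕ} [Fact ℓ.Prime] (A : ValuationSubring (AlgebraicClosure ℚ))

/-- **Generic lifting statement** (any coordinate): if every `w ∈ F₀` integral over `𝔽_ℓ[X₀]`
is the reduction of an `A`-integral series in `F̄_N` integral over `A[X]` (`X̄ = ι X₀`), then so is
every `z ∈ F_k` integral over `k[ι X₀]`. -/
theorem lift_of_base [IsAlgClosed (IsLocalRing.ResidueField A)]
    (φ : ZMod ℓ →+* IsLocalRing.ResidueField A) (hφ : φ.IsIntegral)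
    (X₀ : LaurentSeries (ZMod ℓ)) (X : LaurentSeries A)
    (hbase : ∀ w : LaurentSeries (ZMod ℓ), w ∈ modularFunctionFieldFullC (ZMod ℓ) N →
      (evalSer (ZMod ℓ) X₀).IsIntegralElem w →
      ∃ y : LaurentSeries A, coeffMap A.subtype y ∈ modularFunctionFieldBar N ∧
        (evalSer A X).IsIntegralElem y ∧ coeffMap (IsLocalRing.residue A) y = coeffMap φ w)
    {z : LaurentSeries (IsLocalRing.ResidueField A)}
    (hz : z ∈ modularFunctionFieldFullC (IsLocalRing.ResidueField A) N)
    (hint : (evalSer (IsLocalRing.ResidueField A) (coeffMap φ X₀)).IsIntegralElem z) :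
    ∃ y : LaurentSeries A, coeffMap A.subtype y ∈ modularFunctionFieldBar N ∧
      (evalSer A X).IsIntegralElem y ∧ coeffMap (IsLocalRing.residue A) y = z := by
  classical
  letI : Algebra (ZMod ℓ) (IsLocalRing.ResidueField A) := φ.toAlgebra
  haveI : Algebra.IsIntegral (ZMod ℓ) (IsLocalRing.ResidueField A) := ⟨hφ⟩
  haveI : Algebra.IsAlgebraic (ZMod ℓ) (IsLocalRing.ResidueField A) :=
    Algebra.IsIntegral.isAlgebraic
  have hφa : algebraMap (ZMod ℓ) (IsLocalRing.ResidueField A) = φ := rfl
  obtain ⟨m, e, w, hw, rfl⟩ := mem_fullC_decomp (k₀ := ZMod ℓ) N hz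
  have hCmem : ∀ (c : ZMod ℓ) (x : LaurentSeries (ZMod ℓ)),
      x ∈ (modularFunctionFieldFullC (ZMod ℓ) N : Set (LaurentSeries (ZMod ℓ))) →
      HahnSeries.C c * x ∈ (modularFunctionFieldFullC (ZMod ℓ) N : Set (LaurentSeries (ZMod ℓ))) := by
    intro c x hx
    refine mul_mem ?_ hx
    have h1 : (HahnSeries.C c : LaurentSeries (ZMod ℓ)) =
        algebraMap (ZMod ℓ) (LaurentSeries (ZMod ℓ)) c := by
      rw [algebraMap_laurentSeries_eq_single]
      rfl
    rw [h1]
    exact (modularFunctionFieldFullC (ZMod ℓ) N).algebraMap_mem _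
  obtain ⟨n, e', w', hw', hint', hzz⟩ := exists_integral_decomp
    (modularFunctionFieldFullC (ZMod ℓ) N : Set (LaurentSeries (ZMod ℓ))) (zero_mem _)
    (fun x y hx hy => add_mem hx hy) hCmem X₀ e w hw hint
  have hy : ∀ j, ∃ y : LaurentSeries A, coeffMap A.subtype y ∈ modularFunctionFieldBar N ∧
      (evalSer A X).IsIntegralElem y ∧ coeffMap (IsLocalRing.residue A) y = coeffMap φ (w' j) :=
    fun j => hbase (w' j) (hw' j) (hint' j)
  choose y hy1 hy2 hy3 using hy
  have ha : ∀ j, ∃ a : A, IsLocalRing.residue A a = e' j := fun j =>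
    IsLocalRing.residue_surjective (e' j)
  choose a ha using ha
  refine ⟨∑ j, HahnSeries.C (a j) * y j, ?_, ?_, ?_⟩
  · rw [map_sum]
    refine sum_mem fun j _ => ?_
    rw [map_mul, coeffMap_C']
    refine mul_mem ?_ (hy1 j)
    have h1 : (HahnSeries.C (A.subtype (a j)) : LaurentSeries (AlgebraicClosure ℚ)) =
        algebraMap (AlgebraicClosure ℚ) (LaurentSeries (AlgebraicClosure ℚ)) (a j : AlgebraicClosure ℚ) := by
      rw [algebraMap_laurentSeries_eq_single]
      rfl
    rw [h1]
    exact (modularFunctionFieldBar N).algebraMap_mem _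
  · exact isIntegralElem_sum _ _ _ fun j _ =>
      RingHom.IsIntegralElem.mul _ (isIntegralElem_C _ _) (hy2 j)
  · rw [hzz, map_sum]
    refine Finset.sum_congr rfl fun j _ => ?_
    rw [map_mul, coeffMap_C', ha j, hy3 j, hφa]

/-- **(H3), finite chart**: lifting of elements of `F_k` integral over `k[j̄]` to
`Core.IntElt A N` with `IsFin`, from the same statement for the elements defined over `𝔽_ℓ`. -/
theorem lift_fin_of_base [IsAlgClosed (IsLocalRing.ResidueField A)]
    (φ : ZMod ℓ →+* IsLocalRing.ResidueField A) (hφ : φ.IsIntegral)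
    (hbase : ∀ w : LaurentSeries (ZMod ℓ), w ∈ modularFunctionFieldFullC (ZMod ℓ) N →
      (evalSer (ZMod ℓ) (jqModC (ZMod ℓ))).IsIntegralElem w →
      ∃ c : IntElt A N, c.IsFin ∧ coeffMap (IsLocalRing.residue A) c.y = coeffMap φ w)
    {z : LaurentSeries (IsLocalRing.ResidueField A)}
    (hz : z ∈ modularFunctionFieldFullC (IsLocalRing.ResidueField A) N)
    (hint : (evalSer (IsLocalRing.ResidueField A)
      (jqModC (IsLocalRing.ResidueField A))).IsIntegralElem z) :
    ∃ c : IntElt A N, c.IsFin ∧ coeffMap (IsLocalRing.residue A) c.y = z := by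
  have hint' : (evalSer (IsLocalRing.ResidueField A)
      (coeffMap φ (jqModC (ZMod ℓ)))).IsIntegralElem z := by
    rwa [coeffMap_jqModC]
  obtain ⟨y, hy1, hy2, hy3⟩ := lift_of_base A φ hφ (jqModC (ZMod ℓ)) (jqModC A)
    (fun w hw hwi => by
      obtain ⟨c, hc, hcw⟩ := hbase w hw hwi
      exact ⟨c.y, c.mem, hc, hcw⟩) hz hint'
  exact ⟨⟨y, hy1, by rw [hy3]; exact hz⟩, hy2, hy3⟩

/-- **(H3), chart at infinity**: the same with `j⁻¹`. -/
theorem lift_inf_of_base [IsAlgClosed (IsLocalRing.ResidueField A)]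
    (φ : ZMod ℓ →+* IsLocalRing.ResidueField A) (hφ : φ.IsIntegral)
    (hbase : ∀ w : LaurentSeries (ZMod ℓ), w ∈ modularFunctionFieldFullC (ZMod ℓ) N →
      (evalSer (ZMod ℓ) (jqModC (ZMod ℓ))⁻¹).IsIntegralElem w →
      ∃ c : IntElt A N, c.IsInf ∧ coeffMap (IsLocalRing.residue A) c.y = coeffMap φ w)
    {z : LaurentSeries (IsLocalRing.ResidueField A)}
    (hz : z ∈ modularFunctionFieldFullC (IsLocalRing.ResidueField A) N)
    (hint : (evalSer (IsLocalRing.ResidueField A)
      (jqModC (IsLocalRing.ResidueField A))⁻¹).IsIntegralElem z) :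
    ∃ c : IntElt A N, c.IsInf ∧ coeffMap (IsLocalRing.residue A) c.y = z := by
  -- the inverse of `j` over `A`
  obtain ⟨c₀, ⟨u, hu, -⟩, -⟩ := hbase 0 (zero_mem _) (RingHom.isIntegralElem_zero _)
  have huniq : ∀ u' : LaurentSeries A, u' * jqModC A = 1 → u' = u := by
    intro u' hu'
    calc u' = u' * (u * jqModC A) := by rw [hu, mul_one]
      _ = (u' * jqModC A) * u := by ring
      _ = u := by rw [hu', one_mul]
  have hint' : (evalSer (IsLocalRing.ResidueField A)
      (coeffMap φ (jqModC (ZMod ℓ))⁻¹)).IsIntegralElem z := by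
    rwa [map_inv₀, coeffMap_jqModC]
  obtain ⟨y, hy1, hy2, hy3⟩ := lift_of_base A φ hφ (jqModC (ZMod ℓ))⁻¹ u
    (fun w hw hwi => by
      obtain ⟨c, ⟨u', hu', hc⟩, hcw⟩ := hbase w hw hwi
      rw [huniq u' hu'] at hc
      exact ⟨c.y, c.mem, hc, hcw⟩) hz hint'
  exact ⟨⟨y, hy1, by rw [hy3]; exact hz⟩, ⟨u, hu, hy2⟩, hy3⟩

end Lift

section Instances

variable {ℓ : ℕ} [Fact ℓ.Prime] (A : ValuationSubring (AlgebraicClosure ℚ))

/-- the residue field of a valuation subring of `ℚ̄` is algebraic over `𝔽_ℓ` (for any ring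
homomorphism `𝔽_ℓ → k`) -/
theorem isIntegral_residueField (φ : ZMod ℓ →+* IsLocalRing.ResidueField A) : φ.IsIntegral := by
  intro x
  obtain ⟨a, rfl⟩ := IsLocalRing.residue_surjective x
  -- an integer polynomial killing `a`
  have halg : IsAlgebraic ℤ (a : AlgebraicClosure ℚ) :=
    (IsFractionRing.isAlgebraic_iff ℤ ℚ (AlgebraicClosure ℚ)).mpr
      ((AlgebraicClosure.isAlgebraic ℚ).isAlgebraic (a : AlgebraicClosure ℚ))
  obtain ⟨P, hP0, hPa⟩ := halg
  -- its primitive part
  have hc0 : (P.content : AlgebraicClosure ℚ) ≠ 0 := by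
    have : P.content ≠ 0 := fun h => hP0 (Polynomial.content_eq_zero_iff.mp h)
    exact_mod_cast this
  have hPa1 : Polynomial.aeval (a : AlgebraicClosure ℚ) P.primPart = 0 := by
    have h1 := hPa
    rw [P.eq_C_content_mul_primPart, map_mul, Polynomial.aeval_C] at h1
    rcases mul_eq_zero.mp h1 with h2 | h2
    · exact absurd (by simpa using h2) hc0
    · exact h2
  have hprim : P.primPart.IsPrimitive := P.isPrimitive_primPart
  have hℓ : (ℓ : ℕ).Prime := Fact.out
  have hred : P.primPart.map (Int.castRingHom (ZMod ℓ)) ≠ 0 := by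
    intro h0
    have hdvd : Polynomial.C ((ℓ : ℕ) : ℤ) ∣ P.primPart := by
      rw [Polynomial.C_dvd_iff_dvd_coeff]
      intro n
      have := congrArg (fun q => q.coeff n) h0
      simp only [Polynomial.coeff_map, Polynomial.coeff_zero, eq_intCast] at this
      exact (ZMod.intCast_zmod_eq_zero_iff_dvd _ _).mp this
    have hu := hprim _ hdvd
    rw [Int.isUnit_iff] at hu
    rcases hu with h | h
    · have : (ℓ : ℤ) = 1 := h
      have : ℓ = 1 := by exact_mod_cast this
      exact hℓ.one_lt.ne' this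
    · have : (ℓ : ℤ) = -1 := h
      have h2 : (0 : ℤ) ≤ (ℓ : ℤ) := Int.natCast_nonneg ℓ
      omega
  -- evaluation in `A`
  have hA0 : Polynomial.eval₂ (Int.castRingHom A) a P.primPart = 0 := by
    apply Subtype.ext
    have h1 : ((Polynomial.eval₂ (Int.castRingHom A) a P.primPart : A) : AlgebraicClosure ℚ) =
        Polynomial.eval₂ (A.subtype.comp (Int.castRingHom A)) (A.subtype a) P.primPart :=
      Polynomial.hom_eval₂ P.primPart (Int.castRingHom A) A.subtype a
    rw [h1, ZeroMemClass.coe_zero, ← hPa1, Polynomial.aeval_def]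
    congr 1
  letI : Algebra (ZMod ℓ) (IsLocalRing.ResidueField A) := φ.toAlgebra
  have halg' : IsAlgebraic (ZMod ℓ) (IsLocalRing.residue A a) := by
    refine ⟨P.primPart.map (Int.castRingHom (ZMod ℓ)), hred, ?_⟩
    rw [Polynomial.aeval_def, Polynomial.eval₂_map]
    have h2 : (algebraMap (ZMod ℓ) (IsLocalRing.ResidueField A)).comp (Int.castRingHom (ZMod ℓ)) =
        (IsLocalRing.residue A).comp (Int.castRingHom A) := RingHom.ext_int _ _
    rw [h2, ← Polynomial.hom_eval₂, hA0, map_zero]
  exact halg'.isIntegral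

/-- the residue field of a valuation subring of `ℚ̄` over `ℓ` has characteristic `ℓ`
(copy of `charP_residueField_of_liesOverPrime`, to keep this file light) -/
theorem charP_resField (hA : A.LiesOverPrime ℓ) : CharP (IsLocalRing.ResidueField A) ℓ := by
  refine (CharP.charP_iff_prime_eq_zero (Fact.out : ℓ.Prime)).mpr ?_
  have h1 : ((ℓ : A) : AlgebraicClosure ℚ) ∈ A.nonunits := by
    have : ((ℓ : A) : AlgebraicClosure ℚ) = (ℓ : AlgebraicClosure ℚ) := by push_cast; rfl
    rw [this]; exact hA
  have h2 : (ℓ : A) ∈ IsLocalRing.maximalIdeal A := ValuationSubring.coe_mem_nonunits_iff.mp h1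
  have h3 := (IsLocalRing.residue_eq_zero_iff (ℓ : A)).mpr h2
  rwa [map_natCast] at h3

/-- there is a ring homomorphism `𝔽_ℓ → k` -/
theorem exists_zmod_hom (hA : A.LiesOverPrime ℓ) :
    Nonempty (ZMod ℓ →+* IsLocalRing.ResidueField A) := by
  haveI := charP_resField A hA
  exact ⟨ZMod.castHom (dvd_refl ℓ) (IsLocalRing.ResidueField A)⟩

variable {N : ℕ} [NeZero N]

/-- **(H3) over `A` from (H3) over `𝔽_ℓ`, finite chart**, `A` over `ℓ`.  (`c.sp` form.) -/
theorem lift_fin_of_base_liesOver (hA : A.LiesOverPrime ℓ)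
    (hbase : ∀ (φ : ZMod ℓ →+* IsLocalRing.ResidueField A) (w : LaurentSeries (ZMod ℓ)),
      w ∈ modularFunctionFieldFullC (ZMod ℓ) N →
      (evalSer (ZMod ℓ) (jqModC (ZMod ℓ))).IsIntegralElem w →
      ∃ c : IntElt A N, c.IsFin ∧ coeffMap (IsLocalRing.residue A) c.y = coeffMap φ w)
    (z : modularFunctionFieldFullC (IsLocalRing.ResidueField A) N)
    (hint : (evalSer (IsLocalRing.ResidueField A)
      (jqModC (IsLocalRing.ResidueField A))).IsIntegralElem (z : LaurentSeries _)) :
    ∃ c : IntElt A N, c.IsFin ∧ c.sp = z := by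
  haveI := Fermat.Agent.S18.H9.resAlgClosed (AlgebraicClosure ℚ) A
  obtain ⟨φ⟩ := exists_zmod_hom A hA
  obtain ⟨c, hc, hcz⟩ := lift_fin_of_base A φ (isIntegral_residueField A φ) (hbase φ) z.2 hint
  exact ⟨c, hc, Subtype.ext hcz⟩

/-- **(H3) over `A` from (H3) over `𝔽_ℓ`, chart at infinity**, `A` over `ℓ`. -/
theorem lift_inf_of_base_liesOver (hA : A.LiesOverPrime ℓ)
    (hbase : ∀ (φ : ZMod ℓ →+* IsLocalRing.ResidueField A) (w : LaurentSeries (ZMod ℓ)),
      w ∈ modularFunctionFieldFullC (ZMod ℓ) N →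
      (evalSer (ZMod ℓ) (jqModC (ZMod ℓ))⁻¹).IsIntegralElem w →
      ∃ c : IntElt A N, c.IsInf ∧ coeffMap (IsLocalRing.residue A) c.y = coeffMap φ w)
    (z : modularFunctionFieldFullC (IsLocalRing.ResidueField A) N)
    (hint : (evalSer (IsLocalRing.ResidueField A)
      (jqModC (IsLocalRing.ResidueField A))⁻¹).IsIntegralElem (z : LaurentSeries _)) :
    ∃ c : IntElt A N, c.IsInf ∧ c.sp = z := by
  haveI := Fermat.Agent.S18.H9.resAlgClosed (AlgebraicClosure ℚ) A
  obtain ⟨φ⟩ := exists_zmod_hom A hA
  obtain ⟨c, hc, hcz⟩ := lift_inf_of_base A φ (isIntegral_residueField A φ) (hbase φ) z.2 hint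
  exact ⟨c, hc, Subtype.ext hcz⟩

end Instances

section BaseRing

variable {N : ℕ} {ℓ : ℕ} [Fact ℓ.Prime] (A : ValuationSubring (AlgebraicClosure ℚ))

/-- **Adapter for the producer of (H3) over a base ring `R₀`** (e.g. `R₀ = ℤ_(ℓ)`): if every
`w ∈ F₀` integral over `𝔽_ℓ[j̄]` is the reduction (along `ρ₀ : R₀ → 𝔽_ℓ`) of a series
`y₀ ∈ R₀((q))`, integral over `R₀[j]`, whose image in `ℚ̄((q))` lies in `F̄_N`, then the hypothesis
`hbase` of `lift_fin_of_base` holds for every `φ` with `residue ∘ ψ = φ ∘ ρ₀`. -/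
theorem base_fin_of_ring {R₀ : Type*} [CommRing R₀] (ψ : R₀ →+* A) (ρ₀ : R₀ →+* ZMod ℓ)
    (φ : ZMod ℓ →+* IsLocalRing.ResidueField A)
    (hcomp : (IsLocalRing.residue A).comp ψ = φ.comp ρ₀)
    (hmemk : ∀ y : LaurentSeries A, coeffMap A.subtype y ∈ modularFunctionFieldBar N →
      coeffMap (IsLocalRing.residue A) y ∈ modularFunctionFieldFullC (IsLocalRing.ResidueField A) N)
    (h0 : ∀ w : LaurentSeries (ZMod ℓ), w ∈ modularFunctionFieldFullC (ZMod ℓ) N →
      (evalSer (ZMod ℓ) (jqModC (ZMod ℓ))).IsIntegralElem w →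
      ∃ y₀ : LaurentSeries R₀,
        coeffMap (A.subtype.comp ψ) y₀ ∈ modularFunctionFieldBar N ∧
        (evalSer R₀ (jqModC R₀)).IsIntegralElem y₀ ∧ coeffMap ρ₀ y₀ = w)
    (w : LaurentSeries (ZMod ℓ)) (hw : w ∈ modularFunctionFieldFullC (ZMod ℓ) N)
    (hwi : (evalSer (ZMod ℓ) (jqModC (ZMod ℓ))).IsIntegralElem w) :
    ∃ c : IntElt A N, c.IsFin ∧ coeffMap (IsLocalRing.residue A) c.y = coeffMap φ w := by
  obtain ⟨y₀, hy1, hy2, hy3⟩ := h0 w hw hwi
  have hmem : coeffMap A.subtype (coeffMap ψ y₀) ∈ modularFunctionFieldBar N := by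
    rw [coeffMap_coeffMap]
    exact hy1
  refine ⟨⟨coeffMap ψ y₀, hmem, hmemk _ hmem⟩, ?_, ?_⟩
  · have h1 := isIntegralElem_coeffMap ψ hy2
    rw [coeffMap_jqModC] at h1
    exact h1
  · show coeffMap (IsLocalRing.residue A) (coeffMap ψ y₀) = coeffMap φ w
    rw [coeffMap_coeffMap, hcomp, ← coeffMap_coeffMap, hy3]

end BaseRing

end Fermat.Agent.S37.H448

end
end
-- ===== PACK-END S37/H448/AscentMod.lean

-- ===== PACK-BEGIN S19/H15/OrdBasic.lean
section





/-!
# Cell A3 (S19) — node ORD, part 1 (helper15): basic consequences of an `OrderDatum`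

From an `OrderDatum ℓ M act` (only axiom on `act`: additivity):
* `act` is automatically a group action fixing `0` (`act_one`, `act_mul`, `act_zero`):
  `act σ m` is the unique point with `f (act σ m) = σ (f m)` for all generators `f`;
* the `ℤ_(ℓ)`-algebra `ordAlg D` generated by the generators consists of equivariant functions
  with integral values and separates points.
-/

set_option autoImplicit false
set_option linter.style.haveILetI false

noncomputable section

namespace Fermat.Agent.S19.H15

open Fermat.Agent.S19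

variable {ℓ : ℕ} {M : Type} [AddCommGroup M] {act : GalQ → M → M}

theorem act_one (D : OrderDatum ℓ M act) (m : M) : act 1 m = m :=
  D.separates _ _ fun f hf => by
    rw [D.equivariant f hf 1 m]
    rfl

theorem act_mul (D : OrderDatum ℓ M act) (σ τ : GalQ) (m : M) :
    act σ (act τ m) = act (σ * τ) m :=
  D.separates _ _ fun f hf => by
    rw [D.equivariant f hf σ, D.equivariant f hf τ, D.equivariant f hf (σ * τ)]
    rfl

theorem act_zero (D : OrderDatum ℓ M act) (σ : GalQ) : act σ 0 = 0 := by
  have h := D.act_add σ 0 0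
  rw [add_zero] at h
  exact left_eq_add.mp h

/-- The `ℤ_(ℓ)`-algebra generated by the generators of an order datum. -/
def ordAlg (D : OrderDatum ℓ M act) : Subalgebra (Rl ℓ) (M → Qb) :=
  Algebra.adjoin (Rl ℓ) D.gens

theorem gens_le_ordAlg (D : OrderDatum ℓ M act) : D.gens ⊆ (ordAlg D : Set (M → Qb)) :=
  Algebra.subset_adjoin

/-- equivariant functions form a subalgebra -/
def equivSubalgebra (ℓ : ℕ) {X : Type} (act : GalQ → X → X) : Subalgebra (Rl ℓ) (X → Qb) where
  carrier := {f | H19.IsEquivariant act f}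
  mul_mem' := fun {f g} hf hg σ m => by
    show f (act σ m) * g (act σ m) = σ (f m * g m)
    rw [hf σ m, hg σ m, map_mul]
  one_mem' := fun σ m => (map_one σ).symm
  add_mem' := fun {f g} hf hg σ m => by
    show f (act σ m) + g (act σ m) = σ (f m + g m)
    rw [hf σ m, hg σ m, map_add]
  zero_mem' := fun σ m => (map_zero σ).symm
  algebraMap_mem' := fun r σ m => by
    show algebraMap (Rl ℓ) Qb r = σ (algebraMap (Rl ℓ) Qb r)
    have h : algebraMap (Rl ℓ) Qb r = algebraMap ℚ Qb (r : ℚ) := rfl
    rw [h, σ.commutes]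

theorem mem_equivSubalgebra {X : Type} {act : GalQ → X → X} {f : X → Qb} :
    f ∈ equivSubalgebra ℓ act ↔ H19.IsEquivariant act f := Iff.rfl

/-- functions with integral values form a subalgebra -/
def intSubalgebra (ℓ : ℕ) (X : Type) : Subalgebra (Rl ℓ) (X → Qb) where
  carrier := {f | ∀ x, IsIntegral (Rl ℓ) (f x)}
  mul_mem' := fun {f g} hf hg x => (hf x).mul (hg x)
  one_mem' := fun _ => isIntegral_one
  add_mem' := fun {f g} hf hg x => (hf x).add (hg x)
  zero_mem' := fun _ => isIntegral_zero
  algebraMap_mem' := fun _ _ => isIntegral_algebraMap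

theorem mem_intSubalgebra {X : Type} {f : X → Qb} :
    f ∈ intSubalgebra ℓ X ↔ ∀ x, IsIntegral (Rl ℓ) (f x) := Iff.rfl

theorem ordAlg_equivariant (D : OrderDatum ℓ M act) :
    ∀ f ∈ ordAlg D, H19.IsEquivariant act f := by
  have h : ordAlg D ≤ equivSubalgebra ℓ act :=
    Algebra.adjoin_le fun f hf => D.equivariant f hf
  exact fun f hf => h hf

theorem ordAlg_integral (D : OrderDatum ℓ M act) :
    ∀ f ∈ ordAlg D, ∀ m, IsIntegral (Rl ℓ) (f m) := by
  have h : ordAlg D ≤ intSubalgebra ℓ M :=
    Algebra.adjoin_le fun f hf => D.integral f hf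
  exact fun f hf => h hf

theorem ordAlg_separates (D : OrderDatum ℓ M act) :
    ∀ m m' : M, m ≠ m' → ∃ f ∈ ordAlg D, f m ≠ f m' := by
  intro m m' hne
  by_contra hcon
  push Not at hcon
  exact hne (D.separates m m' fun f hf => hcon f (gens_le_ordAlg D hf))

end Fermat.Agent.S19.H15

end

end
-- ===== PACK-END S19/H15/OrdBasic.lean

-- ===== PACK-BEGIN S19/H15/OrdDescent.lean
section


/-!
# Cell A3 (S19) — node ORD, part 2 (helper15): descent `Z̄_(ℓ) → ℤ_(ℓ)`

`mem_of_mem_span_of_equivariant`: for a finitely generated `ℤ_(ℓ)`-subalgebra `Λ` of equivariant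
functions `X → Q̄` (any `Gal`-set `X`), an EQUIVARIANT function in the `Z̄_(ℓ)`-span of `Λ` lies
in `Λ`.  (Same proof as helper435's lemma for Hopf lattices, for arbitrary `X`.)
-/

set_option autoImplicit false
set_option linter.style.haveILetI false

noncomputable section

namespace Fermat.Agent.S19.H15

open Fermat.Agent.S19

variable {ℓ : ℕ} [Fact ℓ.Prime]

theorem isIntegrallyClosed_Rl (q : ℚ) (hq : IsIntegral (Rl ℓ) q) : q ∈ Rl ℓ := by
  haveI : IsPrincipalIdealRing ↥(GaloisRep.ratLocalizedAt ℓ) := inferInstance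
  exact H19.mem_of_isIntegral_of_pid (Rl ℓ) q hq

/-- **Descent.** -/
theorem mem_of_mem_span_of_equivariant {X : Type} {act : GalQ → X → X}
    (hone : ∀ m, act 1 m = m) (hact : ∀ σ τ m, act σ (act τ m) = act (σ * τ) m)
    (Λ : Subalgebra (Rl ℓ) (X → Qb)) (hequiv : ∀ f ∈ Λ, H19.IsEquivariant act f)
    (hfg : (Subalgebra.toSubmodule Λ).FG)
    {u : X → Qb} (hu : u ∈ Submodule.span (Zb ℓ) (Λ : Set (X → Qb)))
    (hueq : H19.IsEquivariant act u) : u ∈ Λ := by
  classical
  haveI : IsPrincipalIdealRing ↥(GaloisRep.ratLocalizedAt ℓ) := inferInstance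
  obtain ⟨ι, hι, b, hb⟩ := H19.good_of_equivariant (Rl ℓ) hone hact Λ hequiv hfg
  haveI := Fintype.ofFinite ι
  -- coordinates with integral coefficients
  have hcoord : ∀ v ∈ Submodule.span (Zb ℓ) (Λ : Set (X → Qb)),
      ∃ W : ι → Qb, (∀ i, IsIntegral (Rl ℓ) (W i)) ∧ v = ∑ i, W i • ((b i : Λ) : X → Qb) := by
    intro v hv
    induction hv using Submodule.span_induction with
    | mem f hf =>
      refine ⟨fun i => algebraMap (Rl ℓ) Qb (b.repr ⟨f, hf⟩ i), fun i => isIntegral_algebraMap, ?_⟩
      have h1 := congrArg (fun g : Λ => (g : X → Qb)) (b.sum_repr ⟨f, hf⟩)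
      simp only at h1
      refine h1.symm.trans ?_
      rw [AddSubmonoidClass.coe_finsetSum]
      refine Finset.sum_congr rfl fun i _ => ?_
      show ((b.repr ⟨f, hf⟩ i) • ((b i : Λ) : X → Qb)) = _
      rw [algebraMap_smul]
    | zero => exact ⟨0, fun i => isIntegral_zero, by simp⟩
    | add x y _ _ hx hy =>
      obtain ⟨W, hW, rfl⟩ := hx
      obtain ⟨W', hW', rfl⟩ := hy
      refine ⟨W + W', fun i => (hW i).add (hW' i), ?_⟩
      simp [add_smul, Finset.sum_add_distrib]
    | smul z x _ hx =>
      obtain ⟨W, hW, rfl⟩ := hx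
      refine ⟨fun i => (z : Qb) * W i, fun i => z.2.mul (hW i), ?_⟩
      show (z : Qb) • (∑ i, W i • ((b i : Λ) : X → Qb)) = _
      rw [Finset.smul_sum]
      refine Finset.sum_congr rfl fun i _ => ?_
      rw [smul_smul]
  obtain ⟨W, hW, rfl⟩ := hcoord u hu
  have hpt : ∀ m : X, (∑ i, W i • ((b i : Λ) : X → Qb)) m = ∑ i, W i * ((b i : Λ) : X → Qb) m := by
    intro m
    simp [Finset.sum_apply]
  have hfix : ∀ (σ : GalQ) (i : ι), σ (W i) = W i := by
    intro σ
    have h0 : ∑ i, (σ (W i) - W i) • ((b i : Λ) : X → Qb) = 0 := by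
      funext m
      simp only [Finset.sum_apply, Pi.smul_apply, smul_eq_mul, Pi.zero_apply, sub_mul,
        Finset.sum_sub_distrib]
      have h1 := hueq σ⁻¹ m
      rw [hpt, hpt] at h1
      have h2 := congrArg σ h1
      rw [map_sum] at h2
      have h3 : σ (σ⁻¹ (∑ i, W i * ((b i : Λ) : X → Qb) m)) = ∑ i, W i * ((b i : Λ) : X → Qb) m :=
        AlgEquiv.apply_symm_apply σ _
      rw [h3] at h2
      rw [← h2, sub_eq_zero]
      refine Finset.sum_congr rfl fun i _ => ?_
      rw [map_mul, hequiv _ (b i).2 σ⁻¹ m]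
      congr 1
      exact (AlgEquiv.apply_symm_apply σ (((b i : Λ) : X → Qb) m)).symm
    intro i
    have := (Fintype.linearIndependent_iff.mp hb) _ h0 i
    exact sub_eq_zero.mp this
  have hr : ∀ i, ∃ r : Rl ℓ, algebraMap (Rl ℓ) Qb r = W i := fun i =>
    H19.mem_range_of_fixed_of_isIntegral (Rl ℓ) isIntegrallyClosed_Rl (W i)
      (fun σ => hfix σ i) (hW i)
  choose r hr using hr
  have : ∑ i, W i • ((b i : Λ) : X → Qb) = ∑ i, r i • ((b i : Λ) : X → Qb) := by
    refine Finset.sum_congr rfl fun i _ => ?_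
    rw [← hr i, algebraMap_smul]
  rw [this]
  exact Subalgebra.sum_mem _ fun i _ => Subalgebra.smul_mem _ (b i).2 _

end Fermat.Agent.S19.H15

end

end
-- ===== PACK-END S19/H15/OrdDescent.lean

-- ===== PACK-BEGIN S19/H15/OrdFG.lean
section


/-!
# Cell A3 (S19) — node ORD, part 3 (helper15): finite generation

`exists_bound`: for a finitely generated, separating `ℤ_(ℓ)`-subalgebra `H₀` of equivariant
functions on a finite `Gal`-set `M` there is `d ≠ 0` in `ℤ_(ℓ)` with `d • u ∈ H₀` for EVERY
equivariant function `u` with integral values (Gram matrix of the pairing `Σ_m f(m) g(m)`).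

`ordAlg_fg`: the algebra generated by the generators of an order datum is a finitely generated
`ℤ_(ℓ)`-module.
-/

set_option autoImplicit false
set_option linter.style.haveILetI false

noncomputable section

namespace Fermat.Agent.S19.H15

open Fermat.Agent.S19
open scoped Matrix

variable {ℓ : ℕ} [Fact ℓ.Prime]

omit [Fact ℓ.Prime] in
/-- A function on a finite set with integral values is integral. -/
theorem isIntegral_of_forall_apply {X : Type} [Finite X] (f : X → Qb)
    (hf : ∀ x, IsIntegral (Rl ℓ) (f x)) : IsIntegral (Rl ℓ) f := by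
  classical
  haveI := Fintype.ofFinite X
  choose p hp hp0 using hf
  refine ⟨∏ x, p x, Polynomial.monic_prod_of_monic _ _ fun x _ => hp x, ?_⟩
  funext y
  have h1 : (Polynomial.eval₂ (algebraMap (Rl ℓ) (X → Qb)) f (∏ x, p x)) y =
      Polynomial.eval₂ (algebraMap (Rl ℓ) Qb) (f y) (∏ x, p x) := by
    have := Polynomial.aeval_algHom_apply (Pi.evalAlgHom (Rl ℓ) (fun _ : X => Qb) y) f (∏ x, p x)
    simp only [Polynomial.aeval_def, Pi.evalAlgHom_apply] at this
    exact this.symm
  rw [h1, Polynomial.eval₂_finsetProd]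
  exact Finset.prod_eq_zero (Finset.mem_univ y) (hp0 y)

section Bound

variable {M : Type} {act : GalQ → M → M}

/-- the pairing -/
def pair [Fintype M] (f g : M → Qb) : Qb := ∑ m, f m * g m

theorem pair_fixed [Fintype M] (hone : ∀ m, act 1 m = m)
    (hact : ∀ σ τ m, act σ (act τ m) = act (σ * τ) m)
    {f g : M → Qb} (hf : H19.IsEquivariant act f) (hg : H19.IsEquivariant act g) (σ : GalQ) :
    σ (pair f g) = pair f g := by
  unfold pair
  rw [map_sum]
  let e : M ≃ M :=
    { toFun := act σ
      invFun := act σ⁻¹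
      left_inv := fun m => by rw [hact, inv_mul_cancel, hone]
      right_inv := fun m => by rw [hact, mul_inv_cancel, hone] }
  rw [← Equiv.sum_comp e (fun m => f m * g m)]
  refine Finset.sum_congr rfl fun m _ => ?_
  show σ (f m * g m) = f (act σ m) * g (act σ m)
  rw [map_mul, hf σ m, hg σ m]

omit [Fact ℓ.Prime] in
theorem pair_integral [Fintype M] {f g : M → Qb} (hf : ∀ m, IsIntegral (Rl ℓ) (f m))
    (hg : ∀ m, IsIntegral (Rl ℓ) (g m)) : IsIntegral (Rl ℓ) (pair f g) :=
  IsIntegral.sum _ fun m _ => (hf m).mul (hg m)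

theorem exists_Rl_pair [Fintype M] (hone : ∀ m, act 1 m = m)
    (hact : ∀ σ τ m, act σ (act τ m) = act (σ * τ) m)
    {f g : M → Qb} (hf : H19.IsEquivariant act f) (hg : H19.IsEquivariant act g)
    (hfi : ∀ m, IsIntegral (Rl ℓ) (f m)) (hgi : ∀ m, IsIntegral (Rl ℓ) (g m)) :
    ∃ r : Rl ℓ, algebraMap (Rl ℓ) Qb r = pair f g := by
  haveI : IsPrincipalIdealRing ↥(GaloisRep.ratLocalizedAt ℓ) := inferInstance
  exact H19.mem_range_of_fixed_of_isIntegral (Rl ℓ)
    (fun q hq => H19.mem_of_isIntegral_of_pid (Rl ℓ) q hq) _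
    (fun σ => pair_fixed hone hact hf hg σ) (pair_integral hfi hgi)

omit [Fact ℓ.Prime] in
/-- The `Q̄`-span of a separating subalgebra is everything. -/
theorem span_Qb_eq_top [Finite M] (H₀ : Subalgebra (Rl ℓ) (M → Qb))
    (hsep : ∀ m m' : M, m ≠ m' → ∃ f ∈ H₀, f m ≠ f m') :
    Submodule.span Qb (H₀ : Set (M → Qb)) = ⊤ := by
  have h1 : Algebra.adjoin Qb (H₀ : Set (M → Qb)) = ⊤ := by
    apply H19.subalgebra_eq_top_of_separates
    intro m m' hne
    obtain ⟨f, hf, hfm⟩ := hsep m m' hne
    exact ⟨f, Algebra.subset_adjoin hf, hfm⟩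
  have h2 := Algebra.adjoin_eq_span Qb (H₀ : Set (M → Qb))
  have h3 : Submonoid.closure (H₀ : Set (M → Qb)) = H₀.toSubmonoid :=
    Submonoid.closure_eq H₀.toSubmonoid
  rw [h3, h1] at h2
  rw [eq_top_iff]
  intro x _
  have : x ∈ Subalgebra.toSubmodule (⊤ : Subalgebra Qb (M → Qb)) := by simp
  rw [h2] at this
  exact this

/-- **Bounded denominators.** -/
theorem exists_bound [Finite M] (hone : ∀ m, act 1 m = m)
    (hact : ∀ σ τ m, act σ (act τ m) = act (σ * τ) m)
    (H₀ : Subalgebra (Rl ℓ) (M → Qb)) (hequiv : ∀ f ∈ H₀, H19.IsEquivariant act f)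
    (hfg : (Subalgebra.toSubmodule H₀).FG)
    (hsep : ∀ m m' : M, m ≠ m' → ∃ f ∈ H₀, f m ≠ f m') :
    ∃ d : Rl ℓ, d ≠ 0 ∧ ∀ u : M → Qb, H19.IsEquivariant act u →
      (∀ m, IsIntegral (Rl ℓ) (u m)) → d • u ∈ H₀ := by
  classical
  haveI := Fintype.ofFinite M
  haveI : IsPrincipalIdealRing ↥(GaloisRep.ratLocalizedAt ℓ) := inferInstance
  obtain ⟨ι, hι, b, hb⟩ := H19.good_of_equivariant (Rl ℓ) hone hact H₀ hequiv hfg
  haveI := Fintype.ofFinite ι
  -- the basis functions
  set e : ι → M → Qb := fun i => ((b i : H₀) : M → Qb) with he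
  have hemem : ∀ i, e i ∈ H₀ := fun i => (b i).2
  have heq : ∀ i, H19.IsEquivariant act (e i) := fun i => hequiv _ (hemem i)
  have hint₀ : ∀ f ∈ H₀, ∀ m, IsIntegral (Rl ℓ) (f m) := by
    intro f hf m
    haveI : Module.Finite (Rl ℓ) H₀ := Module.Finite.iff_fg.mpr hfg
    have h1 : IsIntegral (Rl ℓ) (⟨f, hf⟩ : H₀) := Algebra.IsIntegral.isIntegral _
    exact h1.map (H19.IsOrder.evPt H₀ m)
  have hei : ∀ i m, IsIntegral (Rl ℓ) (e i m) := fun i m => hint₀ _ (hemem i) m
  have hli : LinearIndependent Qb e := hb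
  -- every function is a `Q̄`-combination of the `e i`
  have hspan : ∀ u : M → Qb, ∃ c : ι → Qb, u = ∑ i, c i • e i := by
    have h1 : Submodule.span Qb (Set.range e) = ⊤ := by
      rw [eq_top_iff, ← span_Qb_eq_top H₀ hsep]
      refine Submodule.span_le.mpr ?_
      intro f hf
      have h2 := congrArg (fun g : H₀ => (g : M → Qb)) (b.sum_repr ⟨f, hf⟩)
      simp only at h2
      rw [SetLike.mem_coe, ← h2, AddSubmonoidClass.coe_finsetSum]
      refine Submodule.sum_mem _ fun i _ => ?_
      have h3 : (((b.repr ⟨f, hf⟩ i) • b i : H₀) : M → Qb) =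
          (algebraMap (Rl ℓ) Qb (b.repr ⟨f, hf⟩ i)) • e i := by
        rw [algebraMap_smul]
        rfl
      rw [h3]
      exact Submodule.smul_mem _ _ (Submodule.subset_span ⟨i, rfl⟩)
    intro u
    have hu : u ∈ Submodule.span Qb (Set.range e) := by rw [h1]; trivial
    obtain ⟨c, hc⟩ := (Submodule.mem_span_range_iff_exists_fun Qb).mp hu
    exact ⟨c, hc.symm⟩
  -- Gram matrix
  choose g hg using fun i j => exists_Rl_pair (ℓ := ℓ) hone hact (heq i) (heq j) (hei i) (hei j)
  let G : Matrix ι ι (Rl ℓ) := Matrix.of g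
  let GQ : Matrix ι ι Qb := G.map (algebraMap (Rl ℓ) Qb)
  have hGQ : ∀ i j, GQ i j = pair (e i) (e j) := fun i j => hg i j
  have hpair_sum : ∀ (c : ι → Qb) (j : ι), pair (∑ i, c i • e i) (e j) = (c ᵥ* GQ) j := by
    intro c j
    simp only [pair, Matrix.vecMul, dotProduct, hGQ, Finset.sum_apply, Pi.smul_apply,
      smul_eq_mul, Finset.sum_mul, Finset.mul_sum]
    rw [Finset.sum_comm]
    refine Finset.sum_congr rfl fun i _ => Finset.sum_congr rfl fun m _ => by ring
  have hdetQ : GQ.det = algebraMap (Rl ℓ) Qb G.det := (RingHom.map_det _ _).symm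
  have hinj : Function.Injective (algebraMap (Rl ℓ) Qb) := H19.algebraMap_subring_injective (Rl ℓ)
  -- the determinant is nonzero
  have hdet : G.det ≠ 0 := by
    intro h0
    have h1 : GQ.det = 0 := by rw [hdetQ, h0, map_zero]
    obtain ⟨x, hx0, hx⟩ := Matrix.exists_vecMul_eq_zero_iff.mpr h1
    -- `w = Σ x i • e i` is orthogonal to everything
    set w : M → Qb := ∑ i, x i • e i with hw
    have hwe : ∀ j, pair w (e j) = 0 := by
      intro j
      rw [hw, hpair_sum, hx]
      rfl
    have hwall : ∀ f : M → Qb, pair w f = 0 := by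
      intro f
      obtain ⟨c, rfl⟩ := hspan f
      have : pair w (∑ i, c i • e i) = ∑ i, c i * pair w (e i) := by
        simp only [pair, Finset.sum_apply, Pi.smul_apply, smul_eq_mul, Finset.mul_sum]
        rw [Finset.sum_comm]
        refine Finset.sum_congr rfl fun i _ => Finset.sum_congr rfl fun m _ => by ring
      rw [this]
      exact Finset.sum_eq_zero fun i _ => by rw [hwe i, mul_zero]
    have hw0 : w = 0 := by
      funext m
      have := hwall (Pi.single m 1)
      simp only [pair, Pi.single_apply, mul_ite, mul_one, mul_zero, Finset.sum_ite_eq',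
        Finset.mem_univ, if_true] at this
      exact this
    have hx' := (Fintype.linearIndependent_iff.mp hli) x (hw ▸ hw0)
    exact hx0 (funext hx')
  refine ⟨G.det, hdet, fun u hu hui => ?_⟩
  obtain ⟨c, rfl⟩ := hspan u
  -- the pairings with the basis are in `R`
  choose r hr using fun j =>
    exists_Rl_pair (ℓ := ℓ) hone hact hu (heq j) hui (hei j)
  have hv : c ᵥ* GQ = fun j => algebraMap (Rl ℓ) Qb (r j) := by
    funext j
    rw [← hpair_sum, hr j]
  -- multiply by the adjugate
  have hadj : (GQ.det) • c = (fun j => algebraMap (Rl ℓ) Qb (r j)) ᵥ* GQ.adjugate := by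
    rw [← hv, Matrix.vecMul_vecMul, Matrix.mul_adjugate, Matrix.vecMul_smul, Matrix.vecMul_one]
  have hadj' : GQ.adjugate = G.adjugate.map (algebraMap (Rl ℓ) Qb) :=
    (RingHom.map_adjugate _ _).symm
  have hci : ∀ i, algebraMap (Rl ℓ) Qb G.det * c i =
      algebraMap (Rl ℓ) Qb (∑ j, r j * G.adjugate j i) := by
    intro i
    have := congrFun hadj i
    rw [Pi.smul_apply, smul_eq_mul, hdetQ] at this
    rw [this, hadj', map_sum]
    simp only [Matrix.vecMul, dotProduct, Matrix.map_apply, map_mul]
  have hfinal : G.det • (∑ i, c i • e i) = ∑ i, (∑ j, r j * G.adjugate j i) • e i := by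
    rw [Finset.smul_sum]
    refine Finset.sum_congr rfl fun i _ => ?_
    funext m
    simp only [Pi.smul_apply, smul_eq_mul]
    rw [Algebra.smul_def, Algebra.smul_def, ← mul_assoc, hci i]
  rw [hfinal]
  exact Subalgebra.sum_mem _ fun i _ => Subalgebra.smul_mem _ (hemem i) _

end Bound

end Fermat.Agent.S19.H15

end

end
-- ===== PACK-END S19/H15/OrdFG.lean

-- ===== PACK-BEGIN S19/H15/Ord.lean
section



/-!
# Cell A3 (S19) — node ORD (helper15): `ordStatement : OrdStatement`

An `OrderDatum` on a finite module gives a finite flat commutative cocommutative Hopf algebra over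
`ℤ_(ℓ)` with the prescribed points.  The Hopf algebra itself is helper19's
`H19.exists_hopf_of_equivariant_order`; this file supplies its hypotheses for
`H := Algebra.adjoin ℤ_(ℓ) gens`:

* `ordAlg_fg`    : `H` is a finitely generated module (bounded denominators, `exists_bound`);
* `ordAlg_comul` : `f ∘ add` lies in the image of `H ⊗ H` (descent `Z̄_(ℓ) → ℤ_(ℓ)` of `add_mem`).
-/

set_option autoImplicit false
set_option linter.style.haveILetI false

noncomputable section

namespace Fermat.Agent.S19.H15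

open Fermat.Agent.S19
open scoped TensorProduct

variable {ℓ : ℕ} [Fact ℓ.Prime] {M : Type} [AddCommGroup M] [Finite M] {act : GalQ → M → M}

/-- The algebra of an order datum is a finitely generated module. -/
theorem ordAlg_fg (D : OrderDatum ℓ M act) : (Subalgebra.toSubmodule (ordAlg D)).FG := by
  classical
  haveI : IsPrincipalIdealRing ↥(GaloisRep.ratLocalizedAt ℓ) := inferInstance
  haveI : IsNoetherianRing ↥(Rl ℓ) := inferInstance
  -- a finite separating set of generators
  have hex : ∀ p : {p : M × M // p.1 ≠ p.2}, ∃ f ∈ D.gens, f p.1.1 ≠ f p.1.2 := by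
    intro p
    by_contra hcon
    push Not at hcon
    exact p.2 (D.separates _ _ hcon)
  choose F hF hFne using hex
  set H₀ : Subalgebra (Rl ℓ) (M → Qb) := Algebra.adjoin (Rl ℓ) (Set.range F) with hH₀
  have hle : H₀ ≤ ordAlg D := Algebra.adjoin_mono (by rintro _ ⟨p, rfl⟩; exact hF p)
  have hfg₀ : (Subalgebra.toSubmodule H₀).FG :=
    fg_adjoin_of_finite (Set.finite_range F) (by
      rintro _ ⟨p, rfl⟩
      exact isIntegral_of_forall_apply _ (D.integral _ (hF p)))
  have hsep₀ : ∀ m m' : M, m ≠ m' → ∃ f ∈ H₀, f m ≠ f m' := fun m m' hne =>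
    ⟨F ⟨(m, m'), hne⟩, Algebra.subset_adjoin ⟨_, rfl⟩, hFne ⟨(m, m'), hne⟩⟩
  obtain ⟨d, hd0, hd⟩ := exists_bound (act_one D) (act_mul D) H₀
    (fun f hf => ordAlg_equivariant D f (hle hf)) hfg₀ hsep₀
  let φ : (M → Qb) →ₗ[Rl ℓ] (M → Qb) := LinearMap.lsmul (Rl ℓ) (M → Qb) d
  have hφ : Function.Injective φ := by
    intro u v huv
    funext m
    have h1 := congrFun huv m
    simp only [φ, LinearMap.lsmul_apply, Pi.smul_apply, Algebra.smul_def] at h1
    have h2 : algebraMap (Rl ℓ) Qb d ≠ 0 := fun h =>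
      hd0 (H19.algebraMap_subring_injective (Rl ℓ) (h.trans (map_zero _).symm))
    exact mul_left_cancel₀ h2 h1
  have hmap : (Subalgebra.toSubmodule (ordAlg D)).map φ ≤ Subalgebra.toSubmodule H₀ := by
    rintro _ ⟨u, hu, rfl⟩
    exact hd u (ordAlg_equivariant D u hu) (ordAlg_integral D u hu)
  exact Submodule.fg_of_fg_map_injective φ hφ (Submodule.FG.of_le hfg₀ hmap)

/-- the diagonal action on pairs -/
def act₂ (act : GalQ → M → M) (σ : GalQ) (p : M × M) : M × M := (act σ p.1, act σ p.2)

omit [Fact ℓ.Prime] [Finite M] in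
theorem range_prodMap_equivariant (D : OrderDatum ℓ M act) :
    ∀ F ∈ (H19.prodMap (ordAlg D).val (ordAlg D).val).range,
      H19.IsEquivariant (act₂ act) F := by
  rintro _ ⟨t, rfl⟩
  induction t using TensorProduct.induction_on with
  | zero =>
    intro σ p
    simp
  | tmul a b =>
    intro σ p
    show (H19.prodMap (ordAlg D).val (ordAlg D).val) (a ⊗ₜ[Rl ℓ] b) (act₂ act σ p) =
      σ ((H19.prodMap (ordAlg D).val (ordAlg D).val) (a ⊗ₜ[Rl ℓ] b) p)
    rw [H19.prodMap_tmul, H19.prodMap_tmul]
    show (a : M → Qb) (act σ p.1) * (b : M → Qb) (act σ p.2) = _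
    rw [ordAlg_equivariant D _ a.2 σ, ordAlg_equivariant D _ b.2 σ, map_mul]
    rfl
  | add x y hx hy =>
    intro σ p
    rw [map_add, Pi.add_apply, Pi.add_apply, hx σ p, hy σ p, map_add]

theorem range_prodMap_fg (D : OrderDatum ℓ M act) :
    (Subalgebra.toSubmodule (H19.prodMap (ordAlg D).val (ordAlg D).val).range).FG := by
  haveI : Module.Finite (Rl ℓ) (ordAlg D) := Module.Finite.iff_fg.mpr (ordAlg_fg D)
  have h1 : (⊤ : Submodule (Rl ℓ) ((ordAlg D) ⊗[Rl ℓ] (ordAlg D))).FG := Module.Finite.fg_top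
  have h2 := h1.map (H19.prodMap (ordAlg D).val (ordAlg D).val).toLinearMap
  convert h2 using 1
  ext x
  simp [AlgHom.mem_range]

omit [Fact ℓ.Prime] [Finite M] in
theorem coordFunctions_subset_range (D : OrderDatum ℓ M act) :
    coordFunctions D.gens ⊆
      ((H19.prodMap (ordAlg D).val (ordAlg D).val).range : Set (M × M → Qb)) := by
  rintro _ (⟨h, hh, rfl⟩ | ⟨h, hh, rfl⟩)
  · refine ⟨(⟨h, gens_le_ordAlg D hh⟩ : ordAlg D) ⊗ₜ[Rl ℓ] 1, ?_⟩
    funext p
    show (H19.prodMap (ordAlg D).val (ordAlg D).val)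
      ((⟨h, gens_le_ordAlg D hh⟩ : ordAlg D) ⊗ₜ[Rl ℓ] 1) p = h p.1
    rw [H19.prodMap_tmul]
    simp
  · refine ⟨(1 : ordAlg D) ⊗ₜ[Rl ℓ] (⟨h, gens_le_ordAlg D hh⟩ : ordAlg D), ?_⟩
    funext p
    show (H19.prodMap (ordAlg D).val (ordAlg D).val)
      ((1 : ordAlg D) ⊗ₜ[Rl ℓ] (⟨h, gens_le_ordAlg D hh⟩ : ordAlg D)) p = h p.2
    rw [H19.prodMap_tmul]
    simp

/-- `f ∘ add` lies in the image of `H ⊗ H`, for the generators. -/
theorem gens_comul (D : OrderDatum ℓ M act) (f : M → Qb) (hf : f ∈ D.gens) :
    (fun p : M × M => f (p.1 + p.2)) ∈ (H19.prodMap (ordAlg D).val (ordAlg D).val).range := by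
  set Λ₂ := (H19.prodMap (ordAlg D).val (ordAlg D).val).range with hΛ₂
  refine mem_of_mem_span_of_equivariant (act := act₂ act)
    (fun p => Prod.ext (act_one D p.1) (act_one D p.2))
    (fun σ τ p => Prod.ext (act_mul D σ τ p.1) (act_mul D σ τ p.2))
    Λ₂ (range_prodMap_equivariant D) (range_prodMap_fg D) ?_ ?_
  · -- membership in the `Zb`-span
    have h1 : Algebra.adjoin (Zb ℓ) (coordFunctions D.gens) ≤
        Algebra.adjoin (Zb ℓ) (Λ₂ : Set (M × M → Qb)) :=
      Algebra.adjoin_mono (coordFunctions_subset_range D)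
    have h2 := Algebra.adjoin_eq_span (Zb ℓ) (Λ₂ : Set (M × M → Qb))
    have h3 : Submonoid.closure (Λ₂ : Set (M × M → Qb)) = Λ₂.toSubmonoid :=
      Submonoid.closure_eq Λ₂.toSubmonoid
    rw [h3] at h2
    have h4 : (fun p : M × M => f (p.1 + p.2)) ∈
        Subalgebra.toSubmodule (Algebra.adjoin (Zb ℓ) (Λ₂ : Set (M × M → Qb))) :=
      h1 (D.add_mem f hf)
    rw [h2] at h4
    exact h4
  · intro σ p
    show f (act σ p.1 + act σ p.2) = σ (f (p.1 + p.2))
    rw [← D.act_add, D.equivariant f hf]

/-- `f ∘ add` lies in the image of `H ⊗ H`, for all `f ∈ H`. -/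
theorem ordAlg_comul (D : OrderDatum ℓ M act) :
    ∀ f ∈ ordAlg D, (fun p : M × M => f (p.1 + p.2)) ∈
      (H19.prodMap (ordAlg D).val (ordAlg D).val).range := by
  have h : ordAlg D ≤ (H19.prodMap (ordAlg D).val (ordAlg D).val).range.comap
      (H19.pullback (Rl ℓ) Qb (fun p : M × M => p.1 + p.2)) :=
    Algebra.adjoin_le fun f hf => gens_comul D f hf
  exact fun f hf => h hf

/-- **Node ORD.** -/
theorem ordStatement : OrdStatement := by
  intro ℓ _ M _ _ act hD
  obtain ⟨D⟩ := hD
  haveI : IsPrincipalIdealRing ↥(GaloisRep.ratLocalizedAt ℓ) := inferInstance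
  exact H19.exists_hopf_of_equivariant_order (Rl ℓ) isIntegrallyClosed_Rl
    (act_one D) (act_mul D) (act_zero D) (ordAlg D) (ordAlg_equivariant D) (ordAlg_fg D)
    (ordAlg_separates D) (ordAlg_comul D)

end Fermat.Agent.S19.H15

end

end
-- ===== PACK-END S19/H15/Ord.lean

-- ===== PACK-BEGIN A3/H75/DiscAlgOfCons.lean
section


/-!
# A3 / LOCAL / DISC (helper75): `DiscAlg` from conservation of zeros

`ConsInput.discRing I Q` : the `A`-algebra of functions of Gauss norm `≤ 1` regular on the residue
disc of `Q`.  `DiscParam.discAlg T : DiscAlg A (discRing I Q)` : it is a disc algebra in the sense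
of helper799 (`Fermat/Agent/A3/H799/Disc.lean`), with parameter `t`, and evaluation `ev a` = value
at the unique point `center a` of the disc with `t = a`.

Dictionary lemmas: `DiscParam.ev_eq_of_hasVal` (the abstract evaluation is the value at the point),
`DiscParam.hasVal_center`, `DiscParam.center_eq`.
-/

set_option autoImplicit false
set_option linter.unusedSectionVars false

noncomputable section

namespace Fermat.Agent.A3.H75

open AlgebraicCurve Fermat.Agent.Lib.RR Fermat.Agent.A3.H799

variable {K : Type*} [Field K] {A : ValuationSubring K} {F : Type*} [Field F] [Algebra K F]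
variable {k : Type*} [Field k] {Fk : Type*} [Field Fk] [Algebra k Fk]

theorem coe_mem_nonunits_of_mem_maximalIdeal (a : IsLocalRing.maximalIdeal A) :
    (((a : A) : K)) ∈ A.nonunits := by
  have h1 : (a : A) ∈ nonunits A := (IsLocalRing.mem_maximalIdeal _).mp a.2
  exact (ValuationSubring.coe_mem_nonunits_iff (A := A)).mpr h1

namespace ConsInput

variable (I : ConsInput A F k Fk) (Q : Place k Fk)

/-- The ring of functions of Gauss norm `≤ 1` which are regular on the residue disc of `Q`. -/
def discRing : Subalgebra A F where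
  carrier := {f | f ∈ I.V ∧ I.RegOn Q f}
  mul_mem' := fun ha hb => ⟨I.V.mul_mem _ _ ha.1 hb.1, ha.2.mul hb.2⟩
  add_mem' := fun ha hb => ⟨I.V.add_mem _ _ ha.1 hb.1, ha.2.add hb.2⟩
  algebraMap_mem' := fun a => ⟨I.algebraMap_mem _ a.2, I.regOn_algebraMap Q _⟩

theorem mem_discRing {f : F} : f ∈ I.discRing Q ↔ f ∈ I.V ∧ I.RegOn Q f := Iff.rfl

/-- a function of the disc ring, as an element of `V` -/
def toV (f : I.discRing Q) : I.V := ⟨(f : F), f.2.1⟩

@[simp] theorem coe_toV (f : I.discRing Q) : ((I.toV Q f : I.V) : F) = (f : F) := rfl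

theorem regOn_coe (f : I.discRing Q) : I.RegOn Q (f : F) := f.2.2

end ConsInput

namespace DiscParam

variable {I : ConsInput A F k Fk} {Q : Place k Fk} (T : DiscParam I Q) [FF1 K F]

/-- the parameter, as an element of the disc ring -/
def tElt : I.discRing Q := ⟨(T.t : F), T.t.2, T.t_reg⟩

@[simp] theorem coe_tElt : ((T.tElt : I.discRing Q) : F) = (T.t : F) := rfl

/-- the point of the disc with parameter value `a` -/
def center (a : IsLocalRing.maximalIdeal A) : Place K F :=
  (T.exists_center (a : A) (coe_mem_nonunits_of_mem_maximalIdeal a)).choose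

theorem r_center (a : IsLocalRing.maximalIdeal A) : I.r (T.center a) = Q :=
  (T.exists_center (a : A) (coe_mem_nonunits_of_mem_maximalIdeal a)).choose_spec.1

theorem hasVal_center (a : IsLocalRing.maximalIdeal A) :
    HasVal (T.center a) (T.t : F) (((a : A) : K)) :=
  (T.exists_center (a : A) (coe_mem_nonunits_of_mem_maximalIdeal a)).choose_spec.2

/-- a point of the disc is the centre attached to its parameter value -/
theorem center_eq (a : IsLocalRing.maximalIdeal A) (P : Place K F) (hP : I.r P = Q)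
    (h : HasVal P (T.t : F) (((a : A) : K))) : T.center a = P :=
  T.center_unique (a : A) (coe_mem_nonunits_of_mem_maximalIdeal a) _ _ (T.r_center a) hP
    (T.hasVal_center a) h

/-- every point of the disc is a centre -/
theorem exists_center_eq (P : Place K F) (hP : I.r P = Q) :
    ∃ a : IsLocalRing.maximalIdeal A, T.center a = P := by
  obtain ⟨b, hb⟩ := I.exists_hasVal_mem Q T.t T.t_reg P hP
  have hbm := T.mem_nonunits_of_hasVal P hP b hb
  have hb' : b ∈ IsLocalRing.maximalIdeal A := by
    rw [IsLocalRing.mem_maximalIdeal]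
    exact (ValuationSubring.coe_mem_nonunits_iff (A := A)).mp hbm
  exact ⟨⟨b, hb'⟩, T.center_eq ⟨b, hb'⟩ P hP hb⟩

/-- the value of a disc function at the centre `a` -/
def evVal (a : IsLocalRing.maximalIdeal A) (f : I.discRing Q) : A :=
  (I.exists_hasVal_mem Q (I.toV Q f) (I.regOn_coe Q f) (T.center a) (T.r_center a)).choose

theorem hasVal_evVal (a : IsLocalRing.maximalIdeal A) (f : I.discRing Q) :
    HasVal (T.center a) (f : F) ((T.evVal a f : A) : K) :=
  (I.exists_hasVal_mem Q (I.toV Q f) (I.regOn_coe Q f) (T.center a) (T.r_center a)).choose_spec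

theorem evVal_eq (a : IsLocalRing.maximalIdeal A) (f : I.discRing Q) (b : A)
    (h : HasVal (T.center a) (f : F) (b : K)) : T.evVal a f = b :=
  Subtype.ext ((T.hasVal_evVal a f).unique h)

/-- evaluation at the centre `a`, as an algebra homomorphism -/
def ev (a : IsLocalRing.maximalIdeal A) : I.discRing Q →ₐ[A] A where
  toFun := T.evVal a
  map_one' := T.evVal_eq a 1 1 (hasVal_one _)
  map_mul' f g := T.evVal_eq a (f * g) _ ((T.hasVal_evVal a f).mul (T.hasVal_evVal a g))
  map_zero' := T.evVal_eq a 0 0 (hasVal_zero _)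
  map_add' f g := T.evVal_eq a (f + g) _ ((T.hasVal_evVal a f).add (T.hasVal_evVal a g))
  commutes' c := T.evVal_eq a _ c (hasVal_algebraMap _ _)

@[simp] theorem ev_apply (a : IsLocalRing.maximalIdeal A) (f : I.discRing Q) :
    T.ev a f = T.evVal a f := rfl

/-- **Dictionary.**  The abstract evaluation is the value at the point. -/
theorem ev_eq_of_hasVal (a : IsLocalRing.maximalIdeal A) (f : I.discRing Q) (P : Place K F)
    (hP : I.r P = Q) (ht : HasVal P (T.t : F) (((a : A) : K))) (b : A)
    (hf : HasVal P (f : F) (b : K)) : T.ev a f = b := by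
  have hc := T.center_eq a P hP ht
  apply T.evVal_eq
  rw [hc]
  exact hf

theorem ev_tElt (a : IsLocalRing.maximalIdeal A) : T.ev a T.tElt = (a : A) :=
  T.evVal_eq a T.tElt (a : A) (T.hasVal_center a)

/-- **Taylor.**  If `f` vanishes at the centre `a` then `f / (t - a)` is in the disc ring. -/
theorem div_shift_mem (a : IsLocalRing.maximalIdeal A) (f : I.discRing Q)
    (hf : HasVal (T.center a) (f : F) 0) :
    (f : F) * (((T.shift (a : A) : I.V) : F))⁻¹ ∈ I.discRing Q := by
  have ha := coe_mem_nonunits_of_mem_maximalIdeal a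
  have hu0 := T.shift_ne_zero (a : A) ha
  have hunit : ((T.shift (a : A) : I.V) : F) ∉ I.V.nonunits := by
    intro h
    exact T.ρ_shift_ne_zero (a : A) ha ((I.ρ_eq_zero _).mpr h)
  have hinv := (inv_mem_of_not_mem_nonunits I.V hunit).2
  refine ⟨I.V.mul_mem _ _ f.2.1 hinv, fun P hP => ?_⟩
  by_cases hf0 : (f : F) = 0
  · rw [hf0, zero_mul]
    exact P.toValuationSubring.zero_mem
  apply mem_of_ord_nonneg
  rw [P.ord_mul hf0 (inv_ne_zero hu0), P.ord_inv]
  by_cases hPc : P = T.center a
  · subst hPc
    have h1 := T.ord_shift_le_one (a : A) ha _ hP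
    rcases (hasVal_zero_iff _ _).mp hf with h0 | hpos
    · exact absurd h0 hf0
    · omega
  · have h1 := T.ord_shift_eq_zero (a : A) ha (T.center a) P (T.r_center a) hP
      (T.hasVal_center a) hPc
    have h2 := ord_nonneg_of_mem P (f.2.2 P hP)
    omega

/-- **The disc algebra of a residue disc.** -/
def discAlg : DiscAlg A (I.discRing Q) where
  t := T.tElt
  ev := T.ev
  ev_t := T.ev_tElt
  taylor := by
    intro a f
    have ha := coe_mem_nonunits_of_mem_maximalIdeal a
    have hu0 := T.shift_ne_zero (a : A) ha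
    set g : I.discRing Q := f - algebraMap A (I.discRing Q) (T.ev a f) with hg
    have hgval : HasVal (T.center a) (g : F) 0 := by
      have h1 := (T.hasVal_evVal a f).sub (hasVal_algebraMap (T.center a) ((T.evVal a f : A) : K))
      rw [sub_self] at h1
      exact h1
    refine ⟨⟨_, T.div_shift_mem a g hgval⟩, Subtype.ext ?_⟩
    show (f : F) = algebraMap K F ((T.evVal a f : A) : K) +
      ((T.t : F) - algebraMap K F ((a : A) : K)) *
        (((f : F) - algebraMap K F ((T.evVal a f : A) : K)) *
          (((T.shift (a : A) : I.V) : F))⁻¹)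
    rw [coe_shift]
    have hne : (T.t : F) - algebraMap K F ((a : A) : K) ≠ 0 := by
      rw [← coe_shift]
      exact hu0
    field_simp
    ring
  nzd := by
    intro a f hf
    have ha := coe_mem_nonunits_of_mem_maximalIdeal a
    have hu0 := T.shift_ne_zero (a : A) ha
    have h1 := congrArg (Subtype.val) hf
    have h2 : ((T.t : F) - algebraMap K F ((a : A) : K)) * (f : F) = 0 := h1
    rw [← coe_shift] at h2
    rcases mul_eq_zero.mp h2 with h | h
    · exact absurd h hu0
    · exact Subtype.ext h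

@[simp] theorem discAlg_t : T.discAlg.t = T.tElt := rfl

@[simp] theorem discAlg_ev (a : IsLocalRing.maximalIdeal A) : T.discAlg.ev a = T.ev a := rfl

end DiscParam

end Fermat.Agent.A3.H75

end
end
-- ===== PACK-END A3/H75/DiscAlgOfCons.lean

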