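import Fermat.Agent.Pack.S3234.G4E3L1
import Fermat.Agent.Pack.S3234.G4E2L3
import Fermat.Agent.Pack.S3234.G4E3L0
import Fermat.Agent.Pack.S3234.G4E1L1
import Fermat.Agent.Pack.S3234.G4E3L3

-- ===== PACK-BEGIN S19/H195/RedDatum.lean
section


/-!
# A3 / WP-W4 (helper195): integral Riemann–Roch lattices, abstract form

Language: Prelude `AlgebraicCurve` (`Place`, `Divisor`, `riemannRochSpace`, `genusFF`) + `Lib/RR`.

`RedDatum K F k Fk` : an abstract "good reduction datum" of the function field `F / K` with special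
fibre `Fk / k`:

* `V ⊆ F` the Gauss valuation ring (only a subring is required), `red : V → Fk` its reduction;
* the constants `O = V ∩ K` form a valuation ring of `K` with residue field `k`
  (`const_total`, `red_const`, `red_const_surj`, `red_const_unit`);
* `r : Place K F → Place k Fk` the reduction of points, with `r_* div u = div (red u)` for every
  `u ∈ V` with nonzero reduction (`ord_red`, same shape as the Prelude's `IsPlaceReductionAlong`).

`R.OrthOn W` : the finite-dimensional `K`-subspace `W ⊆ F` has a basis in `V` with `k`-linearly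
independent reductions (an "orthonormal basis").

Main results (for `D` a divisor of `F / K`, `L(D) ∩ V` the integral lattice):

* `RedDatum.linearIndependent_of_red`  lifts of `k`-independent reductions are `K`-independent;
* `RedDatum.coeff_mem_of_red`  lattice property: if `∑ cᵢ wᵢ ∈ V` with `red wᵢ` independent then all
  `cᵢ ∈ O`;
* `RedDatum.redL_le`   `red (L(D) ∩ V) ⊆ L(r_* D)`;
* `RedDatum.finrank_redL`  `dim_k red (L(D) ∩ V) = ℓ(D)`;
* `RedDatum.ell_le_ell_mapDomain`  upper semicontinuity `ℓ(D) ≤ ℓ(r_* D)`;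
* `RedDatum.genusFF_le`  `g(Fk) ≤ g(F)`;
* `RedDatum.redL_eq`   **W4**: if `g(F) ≤ g(Fk)` and `deg D > 2 g(Fk) - 2` then
  `red (L(D) ∩ V) = L(r_* D)`;
* `RedDatum.exists_lattice_basis`  **W4, basis form**: a `K`-basis `w` of `L(D)` inside `V` whose
  reductions form a `k`-basis of `L(r_* D)`, and `L(D) ∩ V = ⊕ O wᵢ`.
-/

set_option autoImplicit false

noncomputable section

open AlgebraicCurve Fermat.Agent.Lib.RR

namespace Fermat.Agent.S19.H195

universe u₁ u₂ u₃ u₄

/-- Abstract good-reduction datum for a function field `F / K` with special fibre `Fk / k`. -/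
structure RedDatum (K : Type u₁) (F : Type u₂) (k : Type u₃) (Fk : Type u₄)
    [Field K] [Field F] [Algebra K F] [Field k] [Field Fk] [Algebra k Fk] where
  /-- the Gauss valuation ring -/
  V : Subring F
  /-- reduction modulo the maximal ideal of `V` -/
  red : V →+* Fk
  /-- reduction of places -/
  r : Place K F → Place k Fk
  /-- the constants in `V` form a valuation ring of `K` -/
  const_total : ∀ a : K, algebraMap K F a ∈ V ∨ algebraMap K F a⁻¹ ∈ V
  /-- integral constants reduce to constants -/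
  red_const : ∀ (a : K) (h : algebraMap K F a ∈ V), ∃ b : k, red ⟨_, h⟩ = algebraMap k Fk b
  /-- every constant of the special fibre is a reduction -/
  red_const_surj : ∀ b : k, ∃ (a : K) (h : algebraMap K F a ∈ V), red ⟨_, h⟩ = algebraMap k Fk b
  /-- an integral constant with nonzero reduction is a unit -/
  red_const_unit : ∀ (a : K) (h : algebraMap K F a ∈ V), red ⟨_, h⟩ ≠ 0 →
    algebraMap K F a⁻¹ ∈ V
  /-- principal divisors specialise: `r_* div u = div (red u)` -/
  ord_red : ∀ (u : F) (hu : u ∈ V), red ⟨u, hu⟩ ≠ 0 → ∀ D : Divisor K F,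
    (∀ P, D P = P.ord u) → ∀ Q, Finsupp.mapDomain r D Q = Q.ord (red ⟨u, hu⟩)

variable {K : Type u₁} {F : Type u₂} {k : Type u₃} {Fk : Type u₄}
  [Field K] [Field F] [Algebra K F] [Field k] [Field Fk] [Algebra k Fk]

namespace RedDatum

variable (R : RedDatum K F k Fk)

/-- `W` has a basis in `V` with `k`-linearly independent reductions. -/
def OrthOn (W : Submodule K F) : Prop :=
  ∃ (n : ℕ) (w : Fin n → F) (hw : ∀ i, w i ∈ R.V), (∀ i, w i ∈ W) ∧
    W ≤ Submodule.span K (Set.range w) ∧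
    LinearIndependent k (fun i => R.red ⟨w i, hw i⟩)

/-! ### Constants -/

theorem red_mk_eq {f g : F} (hf : f ∈ R.V) (hg : g ∈ R.V) (h : f = g) :
    R.red ⟨f, hf⟩ = R.red ⟨g, hg⟩ := by
  subst h; rfl

/-- Among finitely many constants, not all zero, one has maximal absolute value. -/
theorem exists_max {ι : Type*} (s : Finset ι) (c : ι → K) (h : ∃ i ∈ s, c i ≠ 0) :
    ∃ j ∈ s, c j ≠ 0 ∧ ∀ i ∈ s, algebraMap K F (c i / c j) ∈ R.V := by
  classical
  induction s using Finset.induction_on with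
  | empty => obtain ⟨i, hi, -⟩ := h; simp at hi
  | insert a s _ ih =>
    by_cases hs : ∃ i ∈ s, c i ≠ 0
    · obtain ⟨j, hj, hj0, hjs⟩ := ih hs
      by_cases hV : algebraMap K F (c a / c j) ∈ R.V
      · refine ⟨j, Finset.mem_insert_of_mem hj, hj0, fun i hi => ?_⟩
        rcases Finset.mem_insert.mp hi with rfl | hi
        · exact hV
        · exact hjs i hi
      · have ha0 : c a ≠ 0 := by
          rintro h0
          apply hV
          rw [h0, zero_div, map_zero]
          exact R.V.zero_mem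
        have hV' : algebraMap K F (c j / c a) ∈ R.V := by
          have := (R.const_total (c a / c j)).resolve_left hV
          rwa [inv_div] at this
        refine ⟨a, Finset.mem_insert_self a s, ha0, fun i hi => ?_⟩
        rcases Finset.mem_insert.mp hi with rfl | hi
        · rw [div_self ha0, map_one]; exact R.V.one_mem
        · have h1 := R.V.mul_mem (hjs i hi) hV'
          rw [← map_mul] at h1
          have h2 : c i / c j * (c j / c a) = c i / c a := by
            field_simp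
          rwa [h2] at h1
    · have ha0 : c a ≠ 0 := by
        obtain ⟨i, hi, hi0⟩ := h
        rcases Finset.mem_insert.mp hi with rfl | hi
        · exact hi0
        · exact absurd ⟨i, hi, hi0⟩ hs
      refine ⟨a, Finset.mem_insert_self a s, ha0, fun i hi => ?_⟩
      rcases Finset.mem_insert.mp hi with rfl | hi
      · rw [div_self ha0, map_one]; exact R.V.one_mem
      · have : c i = 0 := by
          by_contra h0
          exact hs ⟨i, hi, h0⟩
        rw [this, zero_div, map_zero]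
        exact R.V.zero_mem


/-! ### Orthogonality -/

/-- Core of all orthogonality arguments: a relation `∑ dᵢ wᵢ = t` with integral coefficients, one of
them equal to `1`, and `red t = 0` contradicts the independence of the `red wᵢ`. -/
theorem false_of_relation {ι : Type*} (w : ι → F) (hw : ∀ i, w i ∈ R.V)
    (hli : LinearIndependent k (fun i => R.red ⟨w i, hw i⟩))
    (s : Finset ι) (d : ι → K) (hd : ∀ i ∈ s, algebraMap K F (d i) ∈ R.V)
    {j : ι} (hj : j ∈ s) (hdj : d j = 1) {t : F} (ht : t ∈ R.V) (hred : R.red ⟨t, ht⟩ = 0)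
    (hsum : ∑ i ∈ s, d i • w i = t) : False := by
  classical
  -- the reductions of the coefficients
  have hb : ∀ i : s, ∃ b : k,
      R.red ⟨algebraMap K F (d i.1), hd i.1 i.2⟩ = algebraMap k Fk b :=
    fun i => R.red_const (d i.1) (hd i.1 i.2)
  choose b hb using hb
  let b' : ι → k := fun i => if h : i ∈ s then b ⟨i, h⟩ else 0
  have hb' : ∀ i : s, b' i.1 = b i := fun i => by simp [b', i.2]
  let x : R.V := ∑ i ∈ s.attach,
    (⟨algebraMap K F (d i.1), hd i.1 i.2⟩ : R.V) * ⟨w i.1, hw i.1⟩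
  have hx : (x : F) = t := by
    rw [← hsum, ← Finset.sum_attach s (fun i => d i • w i)]
    show (R.V.subtype x : F) = _
    rw [map_sum]
    exact Finset.sum_congr rfl fun i _ => (Algebra.smul_def _ _).symm
  have hx0 : R.red x = 0 := by
    have : x = ⟨t, ht⟩ := Subtype.ext hx
    rw [this, hred]
  have hsum' : ∑ i ∈ s, b' i • R.red ⟨w i, hw i⟩ = 0 := by
    rw [← Finset.sum_attach s (fun i => b' i • R.red ⟨w i, hw i⟩), ← hx0]
    simp only [x, map_sum, map_mul]
    refine Finset.sum_congr rfl fun i _ => ?_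
    rw [hb i, hb' i, Algebra.smul_def]
  have h0 := linearIndependent_iff'.mp hli s b' hsum' j hj
  have h1 : algebraMap k Fk (b' j) = 1 := by
    have := hb ⟨j, hj⟩
    rw [hb' ⟨j, hj⟩, ← this]
    have h1 : (⟨algebraMap K F (d j), hd j hj⟩ : R.V) = 1 := by
      apply Subtype.ext
      simp [hdj]
    rw [h1, map_one]
  rw [h0, map_zero] at h1
  exact zero_ne_one h1

/-- Elements of `V` with `k`-linearly independent reductions are `K`-linearly independent. -/
theorem linearIndependent_of_red {ι : Type*} (w : ι → F) (hw : ∀ i, w i ∈ R.V)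
    (hli : LinearIndependent k (fun i => R.red ⟨w i, hw i⟩)) : LinearIndependent K w := by
  classical
  rw [linearIndependent_iff']
  intro s g hg
  by_contra hne
  push Not at hne
  obtain ⟨j, hj, hj0, hjs⟩ := R.exists_max s g hne
  refine R.false_of_relation w hw hli s (fun i => g i / g j) hjs hj (div_self hj0)
    R.V.zero_mem (map_zero _) ?_
  have : ∑ i ∈ s, (g i / g j) • w i = (g j)⁻¹ • ∑ i ∈ s, g i • w i := by
    rw [Finset.smul_sum]
    refine Finset.sum_congr rfl fun i _ => ?_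
    rw [smul_smul, div_eq_inv_mul]
  rw [this, hg, smul_zero]

/-- **Lattice property**: if `∑ cᵢ wᵢ ∈ V` and the `red wᵢ` are `k`-independent, then all
coefficients are integral. -/
theorem coeff_mem_of_red {ι : Type*} (w : ι → F) (hw : ∀ i, w i ∈ R.V)
    (hli : LinearIndependent k (fun i => R.red ⟨w i, hw i⟩))
    (s : Finset ι) (c : ι → K) (hf : ∑ i ∈ s, c i • w i ∈ R.V) :
    ∀ i ∈ s, algebraMap K F (c i) ∈ R.V := by
  classical
  by_contra hne
  push Not at hne
  obtain ⟨i₀, hi₀, hi₀V⟩ := hne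
  have hi₀0 : c i₀ ≠ 0 := by
    rintro h0
    apply hi₀V
    rw [h0, map_zero]
    exact R.V.zero_mem
  obtain ⟨j, hj, hj0, hjs⟩ := R.exists_max s c ⟨i₀, hi₀, hi₀0⟩
  -- `c j` is not integral
  have hjV : algebraMap K F (c j) ∉ R.V := by
    intro h
    apply hi₀V
    have h1 := R.V.mul_mem (hjs i₀ hi₀) h
    rw [← map_mul, div_mul_cancel₀ _ hj0] at h1
    exact h1
  have hjinv : algebraMap K F (c j)⁻¹ ∈ R.V := (R.const_total (c j)).resolve_left hjV
  have hjred : R.red ⟨_, hjinv⟩ = 0 := by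
    by_contra h
    have := R.red_const_unit _ hjinv h
    rw [inv_inv] at this
    exact hjV this
  have ht : algebraMap K F (c j)⁻¹ * ∑ i ∈ s, c i • w i ∈ R.V := R.V.mul_mem hjinv hf
  refine R.false_of_relation w hw hli s (fun i => c i / c j) hjs hj (div_self hj0) ht ?_ ?_
  · have : (⟨_, ht⟩ : R.V) = ⟨_, hjinv⟩ * ⟨_, hf⟩ := Subtype.ext rfl
    rw [this, map_mul, hjred, zero_mul]
  · rw [← Algebra.smul_def, Finset.smul_sum]
    refine Finset.sum_congr rfl fun i _ => ?_
    rw [smul_smul, div_eq_inv_mul]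


/-! ### The reduction of `L(D) ∩ V` -/

/-- The reduction of the integral lattice `L(D) ∩ V`, a `k`-subspace of `Fk`. -/
def redL (D : Divisor K F) : Submodule k Fk where
  carrier := {g | ∃ (f : F) (hf : f ∈ R.V), f ∈ riemannRochSpace D ∧ R.red ⟨f, hf⟩ = g}
  zero_mem' := ⟨0, R.V.zero_mem, Submodule.zero_mem _, map_zero R.red⟩
  add_mem' := by
    rintro g g' ⟨f, hf, hfD, rfl⟩ ⟨f', hf', hfD', rfl⟩
    exact ⟨f + f', R.V.add_mem hf hf', Submodule.add_mem _ hfD hfD',
      map_add R.red ⟨f, hf⟩ ⟨f', hf'⟩⟩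
  smul_mem' := by
    rintro b g ⟨f, hf, hfD, rfl⟩
    obtain ⟨a, ha, hab⟩ := R.red_const_surj b
    refine ⟨algebraMap K F a * f, R.V.mul_mem ha hf, ?_, ?_⟩
    · rw [← Algebra.smul_def]; exact Submodule.smul_mem _ a hfD
    · have : (⟨algebraMap K F a * f, R.V.mul_mem ha hf⟩ : R.V) = ⟨_, ha⟩ * ⟨f, hf⟩ := rfl
      rw [this, map_mul, hab, Algebra.smul_def]

theorem mem_redL {D : Divisor K F} {g : Fk} :
    g ∈ R.redL D ↔ ∃ (f : F) (hf : f ∈ R.V), f ∈ riemannRochSpace D ∧ R.red ⟨f, hf⟩ = g :=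
  Iff.rfl

theorem red_mem_redL {D : Divisor K F} {f : F} (hf : f ∈ R.V) (hfD : f ∈ riemannRochSpace D) :
    R.red ⟨f, hf⟩ ∈ R.redL D :=
  ⟨f, hf, hfD, rfl⟩

theorem mapDomain_nonneg {α β : Type*} (f : α → β) {v : α →₀ ℤ} (hv : 0 ≤ v) :
    0 ≤ Finsupp.mapDomain f v := by
  classical
  rw [Finsupp.le_def]
  intro b
  rw [Finsupp.mapDomain, Finsupp.sum_apply]
  refine Finset.sum_nonneg fun a _ => ?_
  show 0 ≤ (Finsupp.single (f a) (v a)) b
  rw [Finsupp.single_apply]
  split_ifs
  · exact Finsupp.le_def.mp hv a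
  · exact le_rfl

/-- Reduction of divisors preserves the degree (all places have degree one). -/
theorem degree_mapDomain [FF1 K F] [FF1 k Fk] (D : Divisor K F) :
    Divisor.degree (Finsupp.mapDomain R.r D) = Divisor.degree D := by
  induction D using Finsupp.induction with
  | zero => simp
  | single_add P n D _ _ ih =>
    rw [Finsupp.mapDomain_add, map_add, map_add, ih, Finsupp.mapDomain_single,
      Divisor.degree_single, Divisor.degree_single, deg_eq_one, deg_eq_one]

/-- `red (L(D) ∩ V) ⊆ L(r_* D)`. -/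
theorem redL_le [FF1 K F] (D : Divisor K F) :
    R.redL D ≤ riemannRochSpace (Finsupp.mapDomain R.r D) := by
  rintro g ⟨f, hf, hfD, rfl⟩
  rw [mem_L_iff]
  intro Q
  by_cases hg : R.red ⟨f, hf⟩ = 0
  · exact Or.inl hg
  right
  have hf0 : f ≠ 0 := by
    rintro rfl
    exact hg (map_zero R.red)
  have hE := R.ord_red f hf hg (divOf f hf0) (fun P => divOf_apply f hf0 P) Q
  rw [← hE]
  have hnn : 0 ≤ D + divOf f hf0 := by
    rw [Finsupp.le_def]
    intro P
    have := (mem_L_iff.mp hfD P).resolve_left hf0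
    simp only [Finsupp.coe_zero, Pi.zero_apply, Finsupp.coe_add, Pi.add_apply, divOf_apply]
    omega
  have := Finsupp.le_def.mp (mapDomain_nonneg R.r hnn) Q
  rw [Finsupp.mapDomain_add] at this
  simp only [Finsupp.coe_zero, Pi.zero_apply, Finsupp.coe_add, Pi.add_apply] at this
  omega

/-- Consequences of an orthonormal basis of `L(D)`. -/
theorem exists_basis_of_orthOn [FF1 K F] (D : Divisor K F)
    (horth : R.OrthOn (riemannRochSpace D)) :
    ∃ (w : Fin (ell D) → F) (hw : ∀ i, w i ∈ R.V), (∀ i, w i ∈ riemannRochSpace D) ∧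
      LinearIndependent K w ∧ Submodule.span K (Set.range w) = riemannRochSpace D ∧
      LinearIndependent k (fun i => R.red ⟨w i, hw i⟩) ∧
      Submodule.span k (Set.range fun i => R.red ⟨w i, hw i⟩) = R.redL D ∧
      ∀ f ∈ riemannRochSpace D, f ∈ R.V →
        ∃ c : Fin (ell D) → K, (∀ i, algebraMap K F (c i) ∈ R.V) ∧ f = ∑ i, c i • w i := by
  classical
  obtain ⟨n, w, hw, hwD, hspan, hli⟩ := horth
  have hliK : LinearIndependent K w := R.linearIndependent_of_red w hw hli
  have hspan' : Submodule.span K (Set.range w) = riemannRochSpace D :=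
    le_antisymm (Submodule.span_le.mpr (by rintro _ ⟨i, rfl⟩; exact hwD i)) hspan
  have hn : n = ell D := by
    have := finrank_span_eq_card hliK
    rw [hspan', Fintype.card_fin] at this
    exact this.symm
  subst hn
  have hlat : ∀ f ∈ riemannRochSpace D, f ∈ R.V →
      ∃ c : Fin (ell D) → K, (∀ i, algebraMap K F (c i) ∈ R.V) ∧ f = ∑ i, c i • w i := by
    intro f hfD hfV
    rw [← hspan'] at hfD
    obtain ⟨c, hc⟩ := (Submodule.mem_span_range_iff_exists_fun K).mp hfD
    refine ⟨c, fun i => ?_, hc.symm⟩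
    exact R.coeff_mem_of_red w hw hli Finset.univ c (by rw [hc]; exact hfV) i (Finset.mem_univ i)
  refine ⟨w, hw, hwD, hliK, hspan', hli, ?_, hlat⟩
  apply le_antisymm
  · rw [Submodule.span_le]
    rintro _ ⟨i, rfl⟩
    exact R.red_mem_redL (hw i) (hwD i)
  · rintro g ⟨f, hf, hfD, rfl⟩
    obtain ⟨c, hcV, hfc⟩ := hlat f hfD hf
    have hx : (⟨f, hf⟩ : R.V) = ∑ i, (⟨_, hcV i⟩ : R.V) * ⟨w i, hw i⟩ := by
      apply Subtype.ext
      show f = (R.V.subtype _ : F)
      rw [map_sum, hfc]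
      exact Finset.sum_congr rfl fun i _ => Algebra.smul_def _ _
    rw [hx, map_sum]
    refine Submodule.sum_mem _ fun i _ => ?_
    rw [map_mul]
    obtain ⟨b, hb⟩ := R.red_const (c i) (hcV i)
    rw [hb, ← Algebra.smul_def]
    exact Submodule.smul_mem _ _ (Submodule.subset_span ⟨i, rfl⟩)

/-- `dim_k red (L(D) ∩ V) = ℓ(D)`. -/
theorem finrank_redL [FF1 K F] (D : Divisor K F) (horth : R.OrthOn (riemannRochSpace D)) :
    Module.finrank k (R.redL D) = ell D := by
  obtain ⟨w, hw, -, -, -, hli, hspan, -⟩ := R.exists_basis_of_orthOn D horth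
  rw [← hspan, finrank_span_eq_card hli, Fintype.card_fin]

/-- **Upper semicontinuity**: `ℓ(D) ≤ ℓ(r_* D)`. -/
theorem ell_le_ell_mapDomain [FF1 K F] [FF1 k Fk] (D : Divisor K F)
    (horth : R.OrthOn (riemannRochSpace D)) :
    ell D ≤ ell (Finsupp.mapDomain R.r D) := by
  rw [← R.finrank_redL D horth]
  exact Submodule.finrank_mono (R.redL_le D)

/-- The genus cannot go up under reduction. -/
theorem genusFF_le [FF1 K F] [FF1 k Fk]
    (horth : ∀ D : Divisor K F, R.OrthOn (riemannRochSpace D)) :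
    genusFF k Fk ≤ genusFF K F := by
  obtain ⟨v⟩ := FF1.nonempty_place (K := K) (F := F)
  -- a divisor of large degree
  set m : ℤ := 2 * (genusFF k Fk : ℤ) + 2 * (genusFF K F : ℤ) with hm
  let D : Divisor K F := Finsupp.single v m
  have hdeg : Divisor.degree D = m := by
    simp [D, deg_eq_one]
  have h1 : (ell D : ℤ) = Divisor.degree D + 1 - (genusFF K F : ℤ) :=
    ell_eq_of_degree_gt (by rw [hdeg]; omega)
  have h2 : (ell (Finsupp.mapDomain R.r D) : ℤ)
      = Divisor.degree (Finsupp.mapDomain R.r D) + 1 - (genusFF k Fk : ℤ) :=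
    ell_eq_of_degree_gt (by rw [R.degree_mapDomain, hdeg]; omega)
  have h3 := R.ell_le_ell_mapDomain D (horth D)
  rw [R.degree_mapDomain] at h2
  omega

/-- **W4**: if the genus does not drop and `deg D > 2 g - 2`, the integral lattice `L(D) ∩ V`
reduces ONTO `L(r_* D)`. -/
theorem redL_eq [FF1 K F] [FF1 k Fk] (hg : genusFF K F ≤ genusFF k Fk) (D : Divisor K F)
    (hD : 2 * (genusFF k Fk : ℤ) - 2 < Divisor.degree D)
    (horth : R.OrthOn (riemannRochSpace D)) :
    R.redL D = riemannRochSpace (Finsupp.mapDomain R.r D) := by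
  refine Submodule.eq_of_le_of_finrank_le (R.redL_le D) ?_
  rw [R.finrank_redL D horth]
  have h1 := riemann_inequality_genusFF D
  have h2 : (ell (Finsupp.mapDomain R.r D) : ℤ)
      = Divisor.degree (Finsupp.mapDomain R.r D) + 1 - (genusFF k Fk : ℤ) :=
    ell_eq_of_degree_gt (by rw [R.degree_mapDomain]; exact hD)
  rw [R.degree_mapDomain] at h2
  have : (ell (Finsupp.mapDomain R.r D) : ℤ) ≤ ell D := by
    have : (genusFF K F : ℤ) ≤ genusFF k Fk := by exact_mod_cast hg
    omega
  exact_mod_cast this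

/-- In the situation of W4, `ℓ(D) = ℓ(r_* D) = deg D + 1 - g`. -/
theorem ell_eq [FF1 K F] [FF1 k Fk] (hg : genusFF K F ≤ genusFF k Fk) (D : Divisor K F)
    (hD : 2 * (genusFF k Fk : ℤ) - 2 < Divisor.degree D)
    (horth : R.OrthOn (riemannRochSpace D)) :
    ell D = ell (Finsupp.mapDomain R.r D) ∧
      (ell D : ℤ) = Divisor.degree D + 1 - (genusFF k Fk : ℤ) := by
  have h0 := R.finrank_redL D horth
  rw [R.redL_eq hg D hD horth] at h0
  have h2 : (ell (Finsupp.mapDomain R.r D) : ℤ)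
      = Divisor.degree (Finsupp.mapDomain R.r D) + 1 - (genusFF k Fk : ℤ) :=
    ell_eq_of_degree_gt (by rw [R.degree_mapDomain]; exact hD)
  rw [R.degree_mapDomain] at h2
  have h3 : ell (Finsupp.mapDomain R.r D) = ell D := h0
  exact ⟨h3.symm, by rw [← h3]; exact h2⟩

/-- **W4, basis form**: for `deg D > 2 g - 2` (equal genus) there is a `K`-basis `w` of `L(D)`
inside `V` whose reductions form a `k`-basis of `L(r_* D)`, and `L(D) ∩ V = ⊕ O wᵢ`. -/
theorem exists_lattice_basis [FF1 K F] [FF1 k Fk] (hg : genusFF K F ≤ genusFF k Fk)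
    (D : Divisor K F) (hD : 2 * (genusFF k Fk : ℤ) - 2 < Divisor.degree D)
    (horth : R.OrthOn (riemannRochSpace D)) :
    ∃ (w : Fin (ell D) → F) (hw : ∀ i, w i ∈ R.V), (∀ i, w i ∈ riemannRochSpace D) ∧
      LinearIndependent K w ∧ Submodule.span K (Set.range w) = riemannRochSpace D ∧
      LinearIndependent k (fun i => R.red ⟨w i, hw i⟩) ∧
      Submodule.span k (Set.range fun i => R.red ⟨w i, hw i⟩)
        = riemannRochSpace (Finsupp.mapDomain R.r D) ∧
      ∀ f ∈ riemannRochSpace D, f ∈ R.V →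
        ∃ c : Fin (ell D) → K, (∀ i, algebraMap K F (c i) ∈ R.V) ∧ f = ∑ i, c i • w i := by
  obtain ⟨w, hw, h1, h2, h3, h4, h5, h6⟩ := R.exists_basis_of_orthOn D horth
  exact ⟨w, hw, h1, h2, h3, h4, by rw [h5, R.redL_eq hg D hD horth], h6⟩

end RedDatum

end Fermat.Agent.S19.H195

end
end
-- ===== PACK-END S19/H195/RedDatum.lean

-- ===== PACK-BEGIN A3/H799/LocalSpec.lean
section



/-!
# A3 / LOCAL — FROZEN leaf statements  (architect helper799)

`LocalStatement K F k Fk` (GoodRed.lean) is cut into five leaves, each a `Prop` below: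

    DISC   `DiscStatement`   residue-disc calculus: a `DiscData` at every point of the special fibre
    NSP    `NspStatement`    special fibre: `g` distinct points with `ℓ(ΣQ_i) = 1`
    COORD  `CoordStatement`  the kernel of reduction is the polydisc `(𝔪_V)^g`
    ZADD   `ZaddStatement`   addition is algebraic: divisor form, for families on a finite set
    LIFTI  `LiftiStatement`  inertia-invariant lifts of classes of the special fibre

Everything is about HONEST functions/divisors of `F/K`; the only "families" are functions on a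
finite set `T` with values in `V`, and `Λ` is any `V`-algebra of such functions
(`Fermat.Agent.A3.H799.local_mem` is the algebra behind ZADD).
-/

set_option autoImplicit false

noncomputable section

open AlgebraicCurve

namespace Fermat.Agent.A3.H799

variable {K F k Fk : Type*} [Field K] [Field F] [Algebra K F] [Field k] [Field Fk] [Algebra k Fk]

/-- The kernel of reduction `J¹ ⊆ Pic0`: classes of degree-zero divisors whose reduction is
principal. -/
def GoodRed.kerRed (𝓡 : GoodRed K F k Fk) : AddSubgroup (Pic0 K F) where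
  carrier := {x | ∃ D : Divisor.degZero (K := K) (F := F), Pic0.mk D = x ∧
    Finsupp.mapDomain 𝓡.r (D : Divisor K F) ∈ Divisor.principal (K := k) (F := Fk)}
  zero_mem' := ⟨0, rfl, by simp [Finsupp.mapDomain_zero]⟩
  add_mem' := by
    rintro _ _ ⟨D, rfl, hD⟩ ⟨D', rfl, hD'⟩
    refine ⟨D + D', rfl, ?_⟩
    rw [AddSubgroup.coe_add, Finsupp.mapDomain_add]
    exact AddSubgroup.add_mem _ hD hD'
  neg_mem' := by
    rintro _ ⟨D, rfl, hD⟩
    refine ⟨-D, rfl, ?_⟩
    have h : Finsupp.mapDomain 𝓡.r ((-D : Divisor.degZero (K := K) (F := F)) : Divisor K F) =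
        -Finsupp.mapDomain 𝓡.r (D : Divisor K F) := by
      rw [AddSubgroup.coe_neg, ← Finsupp.mapDomain.addMonoidHom_apply, map_neg,
        Finsupp.mapDomain.addMonoidHom_apply]
    rw [h]
    exact AddSubgroup.neg_mem _ hD

/-- **Residue-disc data** at a point `Q` of the special fibre: the ring of integral functions
without poles in the disc `r⁻¹ Q`, as a disc algebra (`Disc.lean`), with the dictionary
"evaluation `ev a` = value at the point `pt a` of the disc". -/
structure DiscData (𝓡 : GoodRed K F k Fk) (Q : Place k Fk) where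
  /-- integral functions without poles in the disc -/
  ring : Subalgebra 𝓡.V F
  ring_le : ∀ f ∈ ring, f ∈ 𝓡.O
  ring_reg : ∀ f ∈ ring, ∀ P : Place K F, 𝓡.r P = Q → f ∈ P.toValuationSubring
  mem_ring : ∀ f ∈ 𝓡.O, (∀ P : Place K F, 𝓡.r P = Q → f ∈ P.toValuationSubring) → f ∈ ring
  /-- the disc algebra structure: parameter `t`, evaluations, Taylor -/
  D : DiscAlg 𝓡.V ring
  /-- the point of the disc with parameter value `a` -/
  pt : IsLocalRing.maximalIdeal 𝓡.V → Place K F
  r_pt : ∀ a, 𝓡.r (pt a) = Q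
  pt_surj : ∀ P : Place K F, 𝓡.r P = Q → ∃ a, pt a = P
  /-- the reduction of the parameter is a uniformiser at `Q` -/
  ord_t : Q.ord (𝓡.red ⟨(D.t : F), ring_le _ D.t.2⟩) = 1
  /-- `ev a f` is the value of `f` at `pt a` -/
  ev_spec : ∀ (a : IsLocalRing.maximalIdeal 𝓡.V) (f : ring),
    (f : F) = algebraMap K F ((D.ev a f : 𝓡.V) : K) ∨
      1 ≤ (pt a).ord ((f : F) - algebraMap K F ((D.ev a f : 𝓡.V) : K))
  /-- the reduction of `ev a f` is the value of `red f` at `Q` -/
  red_ev : ∀ (a : IsLocalRing.maximalIdeal 𝓡.V) (f : ring),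
    𝓡.red ⟨(f : F), ring_le _ f.2⟩ = algebraMap k Fk (𝓡.res (D.ev a f)) ∨
      1 ≤ Q.ord (𝓡.red ⟨(f : F), ring_le _ f.2⟩ - algebraMap k Fk (𝓡.res (D.ev a f)))

/-- The effective divisor `Σ_i [pt_i (z i)]` of the polydisc point `z`. -/
def polyDiv {𝓡 : GoodRed K F k Fk} {ι : Type*} [Fintype ι] {Qs : ι → Place k Fk}
    (d : ∀ i, DiscData 𝓡 (Qs i)) (z : ι → IsLocalRing.maximalIdeal 𝓡.V) : Divisor K F :=
  ∑ i, Finsupp.single ((d i).pt (z i)) 1

section Statements

variable (K F k Fk)

/-- **DISC.**  Every point of the special fibre has residue-disc data, with an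
inertia-invariant parameter. -/
def DiscStatement : Prop :=
  ∀ (𝓡 : GoodRed K F k Fk) (Q : Place k Fk),
    ∃ d : DiscData 𝓡 Q, ∀ g ∈ 𝓡.I, g • ((d.D.t : d.ring) : F) = ((d.D.t : d.ring) : F)

/-- **DISC-I.**  For an inertia-invariant parameter the points of the disc are permuted by
inertia through their parameter values. -/
def DiscEquivStatement : Prop :=
  ∀ (𝓡 : GoodRed K F k Fk) (Q : Place k Fk) (d : DiscData 𝓡 Q),
    (∀ g ∈ 𝓡.I, g • ((d.D.t : d.ring) : F) = ((d.D.t : d.ring) : F)) →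
    ∀ g ∈ 𝓡.I, ∀ a : IsLocalRing.maximalIdeal 𝓡.V,
      ∃ h : SemilinearAut.baseAut g ((a : 𝓡.V) : K) ∈ 𝓡.V,
        ∃ h' : (⟨SemilinearAut.baseAut g ((a : 𝓡.V) : K), h⟩ : 𝓡.V) ∈
            IsLocalRing.maximalIdeal 𝓡.V,
          g • d.pt a = d.pt ⟨⟨SemilinearAut.baseAut g ((a : 𝓡.V) : K), h⟩, h'⟩

/-- **NSP.**  On the special fibre there are `g` distinct points `Q_i` with `ℓ(Σ Q_i) = 1`. -/
def NspStatement : Prop :=
  ∀ [IsAlgClosed k] [Lib.RR.FF1 k Fk], ∃ Qs : Fin (genusFF k Fk) → Place k Fk, Function.Injective Qs ∧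
    Lib.RR.ell (∑ i, Finsupp.single (Qs i) (1 : ℤ)) = 1

/-- **COORD.**  With `E = polyDiv d 0`: every class of the kernel of reduction is `[D_z - E]` for
a unique polydisc point `z`, and conversely. -/
def CoordStatement : Prop :=
  ∀ (𝓡 : GoodRed K F k Fk) (Qs : Fin (genusFF k Fk) → Place k Fk), Function.Injective Qs →
    @Lib.RR.ell k Fk _ _ _ (∑ i, Finsupp.single (Qs i) (1 : ℤ)) = 1 →
    ∀ d : ∀ i, DiscData 𝓡 (Qs i),
      (∀ x ∈ 𝓡.kerRed, ∃! z : Fin (genusFF k Fk) → IsLocalRing.maximalIdeal 𝓡.V,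
        ∃ D : Divisor.degZero (K := K) (F := F),
          (D : Divisor K F) = polyDiv d z - polyDiv d 0 ∧ Pic0.mk D = x) ∧
      ∀ z : Fin (genusFF k Fk) → IsLocalRing.maximalIdeal 𝓡.V,
        ∀ D : Divisor.degZero (K := K) (F := F),
          (D : Divisor K F) = polyDiv d z - polyDiv d 0 → Pic0.mk D ∈ 𝓡.kerRed

/-- **ZADD** (divisor form).  If `D_x + D_y ∼ D_s + E` for every parameter value `τ` of a finite
set `T`, and the coordinates of `x`, `y` lie in the `V`-algebra `Λ` of functions on `T`, then so do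
the coordinates of `s`. -/
def ZaddStatement.{w} : Prop :=
  ∀ (𝓡 : GoodRed K F k Fk) (Qs : Fin (genusFF k Fk) → Place k Fk), Function.Injective Qs →
    @Lib.RR.ell k Fk _ _ _ (∑ i, Finsupp.single (Qs i) (1 : ℤ)) = 1 →
    ∀ (d : ∀ i, DiscData 𝓡 (Qs i)) (T : Type w) [Finite T] (Λ : Subalgebra 𝓡.V (T → 𝓡.V))
      (zx zy zs : T → Fin (genusFF k Fk) → IsLocalRing.maximalIdeal 𝓡.V),
      (∀ j, (fun τ => ((zx τ j : IsLocalRing.maximalIdeal 𝓡.V) : 𝓡.V)) ∈ Λ) →
      (∀ j, (fun τ => ((zy τ j : IsLocalRing.maximalIdeal 𝓡.V) : 𝓡.V)) ∈ Λ) →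
      (∀ τ, polyDiv d (zx τ) + polyDiv d (zy τ) - polyDiv d (zs τ) - polyDiv d 0 ∈
        Divisor.principal (K := K) (F := F)) →
      ∀ i, (fun τ => ((zs τ i : IsLocalRing.maximalIdeal 𝓡.V) : 𝓡.V)) ∈ Λ

/-- **ZTRI** (sub-leaf of ZADD, one application of `local_mem` with `L(3E)`):
`D_x + D_y + D_w ∼ 3E`. -/
def ZtriStatement.{w} : Prop :=
  ∀ (𝓡 : GoodRed K F k Fk) (Qs : Fin (genusFF k Fk) → Place k Fk), Function.Injective Qs →
    @Lib.RR.ell k Fk _ _ _ (∑ i, Finsupp.single (Qs i) (1 : ℤ)) = 1 →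
    ∀ (d : ∀ i, DiscData 𝓡 (Qs i)) (T : Type w) [Finite T] (Λ : Subalgebra 𝓡.V (T → 𝓡.V))
      (zx zy zw : T → Fin (genusFF k Fk) → IsLocalRing.maximalIdeal 𝓡.V),
      (∀ j, (fun τ => ((zx τ j : IsLocalRing.maximalIdeal 𝓡.V) : 𝓡.V)) ∈ Λ) →
      (∀ j, (fun τ => ((zy τ j : IsLocalRing.maximalIdeal 𝓡.V) : 𝓡.V)) ∈ Λ) →
      (∀ τ, polyDiv d (zx τ) + polyDiv d (zy τ) + polyDiv d (zw τ) - (3 : ℤ) • polyDiv d 0 ∈
        Divisor.principal (K := K) (F := F)) →
      ∀ i, (fun τ => ((zw τ i : IsLocalRing.maximalIdeal 𝓡.V) : 𝓡.V)) ∈ Λ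

/-- **ZNEG** (sub-leaf of ZADD, one application of `local_mem` with `L(2E)`):
`D_x + D_n ∼ 2E`. -/
def ZnegStatement.{w} : Prop :=
  ∀ (𝓡 : GoodRed K F k Fk) (Qs : Fin (genusFF k Fk) → Place k Fk), Function.Injective Qs →
    @Lib.RR.ell k Fk _ _ _ (∑ i, Finsupp.single (Qs i) (1 : ℤ)) = 1 →
    ∀ (d : ∀ i, DiscData 𝓡 (Qs i)) (T : Type w) [Finite T] (Λ : Subalgebra 𝓡.V (T → 𝓡.V))
      (zx zn : T → Fin (genusFF k Fk) → IsLocalRing.maximalIdeal 𝓡.V),
      (∀ j, (fun τ => ((zx τ j : IsLocalRing.maximalIdeal 𝓡.V) : 𝓡.V)) ∈ Λ) →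
      (∀ τ, polyDiv d (zx τ) + polyDiv d (zn τ) - (2 : ℤ) • polyDiv d 0 ∈
        Divisor.principal (K := K) (F := F)) →
      ∀ i, (fun τ => ((zn τ i : IsLocalRing.maximalIdeal 𝓡.V) : 𝓡.V)) ∈ Λ

/-- **LIFTI.**  Every class is congruent modulo the kernel of reduction to an
inertia-invariant class. -/
def LiftiStatement : Prop :=
  ∀ (𝓡 : GoodRed K F k Fk) (x : Pic0 K F),
    ∃ y : Pic0 K F, (∀ g ∈ 𝓡.I, g • y = y) ∧ x - y ∈ 𝓡.kerRed

end Statements

end Fermat.Agent.A3.H799

end
end
-- ===== PACK-END A3/H799/LocalSpec.lean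

-- ===== PACK-BEGIN A3/H799/LocalSpec2.lean
section


/-!
# A3 / LOCAL — FROZEN statements, second layer  (architect helper799)

Sub-leaves of ZTRI / ZNEG (both are the case `s = 2`, `s = 1` of one statement) and the
intermediate statement CHART between the leaves of `LocalSpec.lean` and `LocalStatement`.

    GEO    `GeoStatement`    pointwise geometry: the section through the moving points has exactly
                             one further zero in each disc (hypothesis `hgeo` of `local_mem`)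
    DET    `DetStatement`    integral functions `φ_j ∈ L((s+1)E)` whose jets of order `< s` along
                             the discs form a matrix of unit determinant (hypothesis `hdet`)
    CHART  `ChartStatement`  coordinates `z` on the kernel of reduction: injective, inertia
                             equivariant, addition algebraic for families
-/

set_option autoImplicit false

noncomputable section

open AlgebraicCurve

namespace Fermat.Agent.A3.H799

variable (K F k Fk : Type*) [Field K] [Field F] [Algebra K F] [Field k] [Field Fk] [Algebra k Fk]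

/-- **GEO.**  Pointwise geometric input of `local_mem`.  `E = polyDiv d 0`, `s` moving points
`zs r` and one further point `zw` with `Σ_r D_{zs r} + D_{zw} ∼ (s+1) E`.  If `φ ∈ L((s+1)E)` is
integral with reduction `1` and `t_i^{s+1} φ` is divisible by `∏_r (t_i - zs r i)` on every disc,
then the quotient is `(t_i - zw i) · u` with `u` a unit at `zw i`. -/
def GeoStatement : Prop :=
  ∀ (𝓡 : GoodRed K F k Fk) (Qs : Fin (genusFF k Fk) → Place k Fk), Function.Injective Qs →
    @Lib.RR.ell k Fk _ _ _ (∑ i, Finsupp.single (Qs i) (1 : ℤ)) = 1 →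
    ∀ (d : ∀ i, DiscData 𝓡 (Qs i)) (s : ℕ)
      (zs : Fin s → Fin (genusFF k Fk) → IsLocalRing.maximalIdeal 𝓡.V)
      (zw : Fin (genusFF k Fk) → IsLocalRing.maximalIdeal 𝓡.V),
      (∑ r, polyDiv d (zs r)) + polyDiv d zw - ((s : ℤ) + 1) • polyDiv d 0 ∈
        Divisor.principal (K := K) (F := F) →
      ∀ φ : 𝓡.O, ((φ : 𝓡.O) : F) ∈ riemannRochSpace (((s : ℤ) + 1) • polyDiv d 0) →
        𝓡.red φ = 1 →
      ∀ G : ∀ i, (d i).ring,
        (∀ i, ((G i : (d i).ring) : F) =
          ((((d i).D.t : (d i).ring) : F)) ^ (s + 1) * ((φ : 𝓡.O) : F)) →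
        (∀ i, ∃ h : (d i).ring,
          G i = Polynomial.aeval (d i).D.t (DiscAlg.nodal (List.ofFn fun r => zs r i)) * h) →
        ∀ i, ∃ u : (d i).ring, IsUnit ((d i).D.ev (zw i) u) ∧
          G i = Polynomial.aeval (d i).D.t (DiscAlg.nodal (List.ofFn fun r => zs r i)) *
            ((d i).D.t - algebraMap 𝓡.V (d i).ring ((zw i : IsLocalRing.maximalIdeal 𝓡.V) : 𝓡.V)) * u

/-- **DET.**  For `s ≥ 1` there are integral `φ_j ∈ L((s+1)E)`, `j ∈ Fin g × Fin s`, such that the
Taylor coefficients of order `< s` of `t_i^{s+1} φ_j` in the disc algebras form a matrix with unit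
determinant (it can be chosen `≡ 1` modulo `𝔪`: jets on the special fibre are independent because
`ℓ(Ē) = 1`, i.e. `𝔸 = 𝔸(Ē) + Fk`). -/
def DetStatement : Prop :=
  ∀ (𝓡 : GoodRed K F k Fk) (Qs : Fin (genusFF k Fk) → Place k Fk), Function.Injective Qs →
    @Lib.RR.ell k Fk _ _ _ (∑ i, Finsupp.single (Qs i) (1 : ℤ)) = 1 →
    ∀ (d : ∀ i, DiscData 𝓡 (Qs i)) (s : ℕ), 0 < s →
      ∃ (φ : (Σ _ : Fin (genusFF k Fk), Fin s) → 𝓡.O)
        (f : (Σ _ : Fin (genusFF k Fk), Fin s) → ∀ i, (d i).ring)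
        (P : (Σ _ : Fin (genusFF k Fk), Fin s) → Fin (genusFF k Fk) → Polynomial 𝓡.V)
        (H : (Σ _ : Fin (genusFF k Fk), Fin s) → ∀ i, (d i).ring),
        (∀ j, ((φ j : 𝓡.O) : F) ∈ riemannRochSpace (((s : ℤ) + 1) • polyDiv d 0)) ∧
        (∀ j i, ((f j i : (d i).ring) : F) =
          ((((d i).D.t : (d i).ring) : F)) ^ (s + 1) * ((φ j : 𝓡.O) : F)) ∧
        (∀ j i, f j i = Polynomial.aeval (d i).D.t (P j i) + (d i).D.t ^ s * H j i) ∧
        ∀ [DecidableEq (Σ _ : Fin (genusFF k Fk), Fin s)],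
          IsUnit (Matrix.of fun (c j : Σ _ : Fin (genusFF k Fk), Fin s) =>
            (P j c.1).coeff (c.2 : ℕ)).det

/-- **ZGEN** (general number `s ≥ 1` of moving points; ZTRI is `s = 2`, ZNEG is `s = 1`). -/
def ZgenStatement.{w} : Prop :=
  ∀ (𝓡 : GoodRed K F k Fk) (Qs : Fin (genusFF k Fk) → Place k Fk), Function.Injective Qs →
    @Lib.RR.ell k Fk _ _ _ (∑ i, Finsupp.single (Qs i) (1 : ℤ)) = 1 →
    ∀ (d : ∀ i, DiscData 𝓡 (Qs i)) (T : Type w) [Finite T] (Λ : Subalgebra 𝓡.V (T → 𝓡.V))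
      (s : ℕ), 0 < s →
      ∀ (zs : Fin s → T → Fin (genusFF k Fk) → IsLocalRing.maximalIdeal 𝓡.V)
        (zw : T → Fin (genusFF k Fk) → IsLocalRing.maximalIdeal 𝓡.V),
      (∀ r j, (fun τ => ((zs r τ j : IsLocalRing.maximalIdeal 𝓡.V) : 𝓡.V)) ∈ Λ) →
      (∀ τ, (∑ r, polyDiv d (zs r τ)) + polyDiv d (zw τ) - ((s : ℤ) + 1) • polyDiv d 0 ∈
        Divisor.principal (K := K) (F := F)) →
      ∀ i, (fun τ => ((zw τ i : IsLocalRing.maximalIdeal 𝓡.V) : 𝓡.V)) ∈ Λ

/-- **CHART.**  Coordinates on the kernel of reduction: injective, inertia-equivariant, with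
algebraic addition for families over a finite set. -/
def ChartStatement.{w} : Prop :=
  ∀ (𝓡 : GoodRed K F k Fk),
    ∃ (n : ℕ) (z : 𝓡.kerRed → Fin n → IsLocalRing.maximalIdeal 𝓡.V),
      Function.Injective z ∧
      (∀ g ∈ 𝓡.I, ∀ (u : 𝓡.kerRed) (hgu : g • (u : Pic0 K F) ∈ 𝓡.kerRed) (i : Fin n),
        (((z ⟨g • (u : Pic0 K F), hgu⟩ i : IsLocalRing.maximalIdeal 𝓡.V) : 𝓡.V) : K) =
          SemilinearAut.baseAut g (((z u i : IsLocalRing.maximalIdeal 𝓡.V) : 𝓡.V) : K)) ∧
      ∀ (T : Type w) [Finite T] (Λ : Subalgebra 𝓡.V (T → 𝓡.V)) (a b : T → 𝓡.kerRed),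
        (∀ j, (fun τ => ((z (a τ) j : IsLocalRing.maximalIdeal 𝓡.V) : 𝓡.V)) ∈ Λ) →
        (∀ j, (fun τ => ((z (b τ) j : IsLocalRing.maximalIdeal 𝓡.V) : 𝓡.V)) ∈ Λ) →
        ∀ i, (fun τ => ((z (a τ + b τ) i : IsLocalRing.maximalIdeal 𝓡.V) : 𝓡.V)) ∈ Λ

/-- **KER-I.**  Inertia acts trivially modulo the kernel of reduction. -/
def KerInertiaStatement : Prop :=
  ∀ (𝓡 : GoodRed K F k Fk), ∀ g ∈ 𝓡.I, ∀ x : Pic0 K F, g • x - x ∈ 𝓡.kerRed

end Fermat.Agent.A3.H799

end
end
-- ===== PACK-END A3/H799/LocalSpec2.lean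

-- ===== PACK-BEGIN A3/H799/Red195.lean
section



/-!
# A3 / LOCAL — integral Riemann–Roch for `GoodRed`  (helper799)

Adapter `GoodRed → H195.RedDatum` and the three facts used by ZTRI/ZNEG/COORD:

* `GoodRed.ell_le`      : `ℓ(D) ≤ ℓ(r_* D)` (upper semicontinuity);
* `GoodRed.exists_lift` : for `deg D > 2g - 2` every element of `L(r_* D)` is the reduction of an
                          integral element of `L(D)`;
* `GoodRed.red_mem_L`   : the reduction of an integral element of `L(D)` lies in `L(r_* D)`.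
-/

set_option autoImplicit false

noncomputable section

open AlgebraicCurve Fermat.Agent.Lib.RR

namespace Fermat.Agent.A3.H799

variable {K F k Fk : Type*} [Field K] [Field F] [Algebra K F] [Field k] [Field Fk] [Algebra k Fk]

namespace GoodRed

variable (𝓡 : GoodRed K F k Fk)

theorem mem_V_of_algebraMap_mem {a : K} (h : algebraMap K F a ∈ 𝓡.O) : a ∈ 𝓡.V :=
  (𝓡.algebraMap_mem a).mp h

/-- The adapter to helper195's `RedDatum`. -/
def toRed195 : Fermat.Agent.S19.H195.RedDatum K F k Fk where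
  V := 𝓡.O.toSubring
  red := 𝓡.red
  r := 𝓡.r
  const_total a := by
    rcases 𝓡.O.mem_or_inv_mem (algebraMap K F a) with h | h
    · exact Or.inl h
    · right
      rw [map_inv₀]
      exact h
  red_const a h := ⟨𝓡.res ⟨a, (𝓡.algebraMap_mem a).mp h⟩,
    𝓡.red_algebraMap ⟨a, (𝓡.algebraMap_mem a).mp h⟩ h⟩
  red_const_surj b := by
    obtain ⟨a, ha⟩ := 𝓡.res_surjective b
    refine ⟨(a : K), (𝓡.algebraMap_mem _).mpr a.2, ?_⟩
    rw [← ha]
    exact 𝓡.red_algebraMap a _
  red_const_unit a h hne := by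
    have haV : a ∈ 𝓡.V := (𝓡.algebraMap_mem a).mp h
    have h1 : 𝓡.res ⟨a, haV⟩ ≠ 0 := by
      intro h0
      apply hne
      have := 𝓡.red_algebraMap ⟨a, haV⟩ h
      rw [h0, map_zero] at this
      exact this
    have h2 : a ∉ 𝓡.V.nonunits := fun hn => h1 ((𝓡.res_eq_zero ⟨a, haV⟩).mpr hn)
    have h3 : a⁻¹ ∈ 𝓡.V := by
      by_contra hinv
      apply h2
      rw [ValuationSubring.mem_nonunits_iff_exists_mem_maximalIdeal]
      refine ⟨haV, ?_⟩
      rw [IsLocalRing.mem_maximalIdeal, mem_nonunits_iff]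
      rintro ⟨u, hu⟩
      apply hinv
      have h4 : ((u⁻¹ : 𝓡.Vˣ) : K) = a⁻¹ := by
        have h5 : ((u : 𝓡.V) : K) = a := congrArg Subtype.val hu
        have h6 : ((u : 𝓡.V) : K) * ((u⁻¹ : 𝓡.Vˣ) : K) = 1 := by
          exact_mod_cast congrArg Subtype.val (u.mul_inv)
        rw [h5] at h6
        exact eq_inv_of_mul_eq_one_right h6
      rw [← h4]
      exact Subtype.mem _
    exact (𝓡.algebraMap_mem _).mpr h3
  ord_red u hu hne D hD Q := 𝓡.div_red ⟨u, hu⟩ hne D hD Q

/-- Every Riemann–Roch space has an orthonormal basis. -/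
theorem orthOn (D : Divisor K F) : 𝓡.toRed195.OrthOn (riemannRochSpace D) := by
  obtain ⟨n, b, hli, hmem, hspan, -⟩ := 𝓡.orthonormal D
  exact ⟨n, fun i => ((b i : 𝓡.O) : F), fun i => (b i).2, hmem, hspan.ge, hli⟩

/-- Upper semicontinuity `ℓ(D) ≤ ℓ(r_* D)`. -/
theorem ell_le (D : Divisor K F) :
    @ell K F _ _ _ D ≤ @ell k Fk _ _ _ (Finsupp.mapDomain 𝓡.r D) := by
  have := 𝓡.ff1
  have := 𝓡.ff1k
  exact 𝓡.toRed195.ell_le_ell_mapDomain D (𝓡.orthOn D)

/-- Reduction of divisors preserves the degree. -/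
theorem degree_mapDomain (D : Divisor K F) :
    Divisor.degree (Finsupp.mapDomain 𝓡.r D) = Divisor.degree D := by
  have := 𝓡.ff1
  have := 𝓡.ff1k
  exact 𝓡.toRed195.degree_mapDomain D

/-- The reduction of an integral element of `L(D)` lies in `L(r_* D)`. -/
theorem red_mem_L (D : Divisor K F) {f : F} (hf : f ∈ 𝓡.O) (hfD : f ∈ riemannRochSpace D) :
    𝓡.red ⟨f, hf⟩ ∈ riemannRochSpace (Finsupp.mapDomain 𝓡.r D) := by
  have := 𝓡.ff1
  exact 𝓡.toRed195.redL_le D (𝓡.toRed195.red_mem_redL hf hfD)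

/-- **Integral Riemann–Roch (LIFT).** -/
theorem exists_lift (D : Divisor K F) (hD : 2 * (genusFF k Fk : ℤ) - 2 < Divisor.degree D)
    {ψ : Fk} (hψ : ψ ∈ riemannRochSpace (Finsupp.mapDomain 𝓡.r D)) :
    ∃ (f : F) (hf : f ∈ 𝓡.O), f ∈ riemannRochSpace D ∧ 𝓡.red ⟨f, hf⟩ = ψ := by
  have := 𝓡.ff1
  have := 𝓡.ff1k
  have h := 𝓡.toRed195.redL_eq (le_of_eq 𝓡.genus_eq) D hD (𝓡.orthOn D)
  have hψ' : ψ ∈ 𝓡.toRed195.redL D := by
    rw [h]; exact hψ
  exact hψ'

end GoodRed

end Fermat.Agent.A3.H799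

end
end
-- ===== PACK-END A3/H799/Red195.lean

-- ===== PACK-BEGIN A3/H255/Coord.lean
section




/-!
# A3 / LOCAL, leaf COORD (helper255): the kernel of reduction is the polydisc `(𝔪_V)^g`

`coordStatement : CoordStatement K F k Fk` (frozen leaf of `A3/H799/LocalSpec.lean`).

Proof.  Let `E = polyDiv d 0`, `Ē = Σ Q_i = r_* E`, `ℓ_k(Ē) = 1`.
* existence: `x = [D₀]`, `r_* D₀ = div φ`.  Riemann on `F` gives `f ≠ 0` in `L(D₀ + E)`
  (`deg = g`, equal genus); normalise `f` by `gauss`; then `D' = D₀ + E + div f ≥ 0` and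
  `r_* D' = Ē + div (φ · red f)` is effective, so `φ · red f ∈ L_k(Ē) = k`, `r_* D' = Ē`.  Hence
  over every `Q_i` there is a point `P_i` of `D'`; `D' - Σ P_i ≥ 0` has degree `0`, so
  `D' = Σ P_i`, and `P_i = pt_i (z_i)` by `pt_surj`.
* uniqueness: semicontinuity `ℓ(D) ≤ ℓ_k(r_* D)` (from `orthonormal` + `div_red`) gives
  `ℓ(polyDiv d z) = 1`, so linearly equivalent polydisc divisors are equal; `pt_i` is injective
  by `ev_spec` for the parameter `t`.
* the converse is `r_* (polyDiv d z - polyDiv d 0) = 0`.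

All proofs complete.
-/

set_option autoImplicit false
set_option linter.style.haveILetI false

noncomputable section

open AlgebraicCurve

namespace Fermat.Agent.A3.H255

open Fermat.Agent.Lib.RR Fermat.Agent.A3.H799

/-! ### Generalities on `Finsupp.mapDomain` -/

section MapDomain

variable {α β : Type*}

open scoped Classical in
theorem mapDomain_apply_eq_sum (r : α → β) (D : α →₀ ℤ) (b : β) :
    Finsupp.mapDomain r D b = ∑ a ∈ D.support, if r a = b then D a else 0 := by
  rw [Finsupp.mapDomain, Finsupp.sum_apply, Finsupp.sum]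
  refine Finset.sum_congr rfl fun a _ => ?_
  rw [Finsupp.single_apply]

theorem mapDomain_nonneg (r : α → β) {D : α →₀ ℤ} (hD : 0 ≤ D) :
    0 ≤ Finsupp.mapDomain r D := by
  classical
  rw [Finsupp.le_def]
  intro b
  rw [mapDomain_apply_eq_sum]
  refine Finset.sum_nonneg fun a _ => ?_
  have := Finsupp.le_def.mp hD a
  split_ifs
  · simpa using this
  · exact le_rfl

theorem exists_of_mapDomain_ne_zero (r : α → β) {D : α →₀ ℤ} {b : β}
    (h : Finsupp.mapDomain r D b ≠ 0) : ∃ a, r a = b ∧ D a ≠ 0 := by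
  classical
  by_contra hcon
  push Not at hcon
  apply h
  rw [mapDomain_apply_eq_sum]
  refine Finset.sum_eq_zero fun a _ => ?_
  split_ifs with hab
  · exact hcon a hab
  · rfl

theorem mapDomain_sub' (r : α → β) (D D' : α →₀ ℤ) :
    Finsupp.mapDomain r (D - D') = Finsupp.mapDomain r D - Finsupp.mapDomain r D' := by
  rw [← Finsupp.mapDomain.addMonoidHom_apply, map_sub, Finsupp.mapDomain.addMonoidHom_apply,
    Finsupp.mapDomain.addMonoidHom_apply]

theorem mapDomain_sum_single {ι : Type*} [Fintype ι] (r : α → β) (P : ι → α) :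
    Finsupp.mapDomain r (∑ i, Finsupp.single (P i) (1 : ℤ)) =
      ∑ i, Finsupp.single (r (P i)) (1 : ℤ) := by
  rw [Finsupp.mapDomain_finsetSum]
  refine Finset.sum_congr rfl fun i _ => ?_
  rw [Finsupp.mapDomain_single]

theorem sum_single_apply_of_injective {ι : Type*} [Fintype ι] {P : ι → α}
    (hP : Function.Injective P) (i : ι) :
    (∑ j, Finsupp.single (P j) (1 : ℤ)) (P i) = 1 := by
  classical
  rw [Finsupp.finsetSum_apply]
  simp only [Finsupp.single_apply]
  rw [Finset.sum_eq_single i]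
  · simp
  · intro j _ hji
    rw [if_neg]
    exact fun h => hji (hP h)
  · intro h
    exact absurd (Finset.mem_univ i) h

theorem sum_single_apply_of_forall_ne {ι : Type*} [Fintype ι] {P : ι → α} {a : α}
    (h : ∀ i, P i ≠ a) : (∑ j, Finsupp.single (P j) (1 : ℤ)) a = 0 := by
  classical
  rw [Finsupp.finsetSum_apply]
  refine Finset.sum_eq_zero fun j _ => ?_
  rw [Finsupp.single_apply, if_neg (h j)]

theorem sum_single_nonneg {ι : Type*} [Fintype ι] (P : ι → α) :
    (0 : α →₀ ℤ) ≤ ∑ j, Finsupp.single (P j) (1 : ℤ) := by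
  classical
  rw [Finsupp.le_def]
  intro a
  rw [Finsupp.finsetSum_apply]
  refine Finset.sum_nonneg fun j _ => ?_
  rw [Finsupp.single_apply]
  split_ifs <;> simp

theorem one_le_sum_single_apply {ι : Type*} [Fintype ι] (P : ι → α) (i : ι) :
    1 ≤ (∑ j, Finsupp.single (P j) (1 : ℤ)) (P i) := by
  classical
  rw [Finsupp.finsetSum_apply]
  have h1 : (Finsupp.single (P i) (1 : ℤ)) (P i) ≤
      ∑ j, (Finsupp.single (P j) (1 : ℤ)) (P i) := by
    refine Finset.single_le_sum (f := fun j => (Finsupp.single (P j) (1 : ℤ)) (P i))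
      (fun j _ => ?_) (Finset.mem_univ i)
    show 0 ≤ (Finsupp.single (P j) (1 : ℤ)) (P i)
    rw [Finsupp.single_apply]
    split_ifs <;> simp
  simpa using h1

end MapDomain

variable {K F k Fk : Type*} [Field K] [Field F] [Algebra K F] [Field k] [Field Fk] [Algebra k Fk]

/-! ### Divisors of degree zero -/

/-- An effective divisor of degree `0` is `0`. -/
theorem eq_zero_of_nonneg_of_degree_eq_zero [FF1 K F] {D : Divisor K F} (hD : 0 ≤ D)
    (hdeg : Divisor.degree D = 0) : D = 0 := by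
  rw [degree_eq_sum] at hdeg
  have h0 : ∀ v ∈ D.support, D v * (v.deg : ℤ) = 0 := by
    refine (Finset.sum_eq_zero_iff_of_nonneg fun v _ => ?_).mp hdeg
    have := Finsupp.le_def.mp hD v
    rw [deg_eq_one v]
    simpa using this
  ext v
  by_cases hv : v ∈ D.support
  · have := h0 v hv
    rw [deg_eq_one v] at this
    simpa using this
  · simpa using Finsupp.notMem_support_iff.mp hv

theorem degree_sum_single [FF1 K F] {ι : Type*} [Fintype ι] (P : ι → Place K F) :
    Divisor.degree (∑ i, Finsupp.single (P i) (1 : ℤ)) = Fintype.card ι := by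
  rw [map_sum]
  simp only [Divisor.degree_single, deg_eq_one, Nat.cast_one, mul_one]
  simp

/-! ### Reduction of principal divisors and semicontinuity -/

/-- Push-forward of the divisor of a function of norm one. -/
theorem mapDomain_divOf (𝓡 : GoodRed K F k Fk) (f : 𝓡.O) (hred : 𝓡.red f ≠ 0)
    (D : Divisor K F) (hD : ∀ P : Place K F, D P = P.ord (f : F)) (Q : Place k Fk) :
    Finsupp.mapDomain 𝓡.r D Q = Q.ord (𝓡.red f) :=
  𝓡.div_red f hred D hD Q

/-- If `f ∈ L(D)` has norm one, then `red f ∈ L_k(r_* D)`. -/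
theorem red_mem_L (𝓡 : GoodRed K F k Fk) (D : Divisor K F) (f : 𝓡.O) (hred : 𝓡.red f ≠ 0)
    (hf : (f : F) ∈ riemannRochSpace D) :
    𝓡.red f ∈ riemannRochSpace (Finsupp.mapDomain 𝓡.r D) := by
  haveI := 𝓡.ff1
  have hf0 : (f : F) ≠ 0 := by
    intro h
    apply hred
    have : f = 0 := Subtype.ext h
    rw [this, map_zero]
  rw [mem_L_iff]
  intro Q
  right
  have h1 := mapDomain_divOf 𝓡 f hred (divOf (K := K) (f : F) hf0)
    (fun P => divOf_apply _ _ P) Q
  have h2 : (0 : Divisor K F) ≤ D + divOf (K := K) (f : F) hf0 := by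
    rw [Finsupp.le_def]
    intro P
    have := (mem_L_iff.mp hf P).resolve_left hf0
    simp only [Finsupp.coe_zero, Pi.zero_apply, Finsupp.coe_add, Pi.add_apply, divOf_apply]
    omega
  have h3 := Finsupp.le_def.mp (mapDomain_nonneg 𝓡.r h2) Q
  rw [Finsupp.mapDomain_add] at h3
  simp only [Finsupp.coe_zero, Pi.zero_apply, Finsupp.coe_add, Pi.add_apply] at h3
  omega

/-- **Semicontinuity**: `ℓ(D) ≤ ℓ_k(r_* D)`. -/
theorem ell_le_ell_mapDomain (𝓡 : GoodRed K F k Fk) (D : Divisor K F) :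
    ell D ≤ ell (Finsupp.mapDomain 𝓡.r D) := by
  haveI := 𝓡.ff1
  haveI := 𝓡.ff1k
  obtain ⟨n, b, hli, hmem, hspan, -⟩ := 𝓡.orthonormal D
  have h1 : ell D ≤ n := by
    unfold ell
    rw [← hspan]
    have := finrank_range_le_card (R := K) (fun i => ((b i : 𝓡.O) : F))
    simpa [Set.finrank] using this
  have h2 : n ≤ ell (Finsupp.mapDomain 𝓡.r D) := by
    have hmemk : ∀ i, 𝓡.red (b i) ∈ riemannRochSpace (Finsupp.mapDomain 𝓡.r D) :=
      fun i => red_mem_L 𝓡 D (b i) (hli.ne_zero i) (hmem i)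
    let c : Fin n → riemannRochSpace (Finsupp.mapDomain 𝓡.r D) :=
      fun i => ⟨𝓡.red (b i), hmemk i⟩
    have hc : LinearIndependent k c := by
      apply LinearIndependent.of_comp (riemannRochSpace (Finsupp.mapDomain 𝓡.r D)).subtype
      exact hli
    have := hc.fintype_card_le_finrank
    simpa [ell] using this
  exact h1.trans h2

/-! ### The polydisc divisors -/

section Poly

variable {𝓡 : GoodRed K F k Fk} {ι : Type*} [Fintype ι] {Qs : ι → Place k Fk}

theorem mapDomain_polyDiv (d : ∀ i, DiscData 𝓡 (Qs i))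
    (z : ι → IsLocalRing.maximalIdeal 𝓡.V) :
    Finsupp.mapDomain 𝓡.r (polyDiv d z) = ∑ i, Finsupp.single (Qs i) (1 : ℤ) := by
  unfold polyDiv
  rw [mapDomain_sum_single]
  refine Finset.sum_congr rfl fun i _ => ?_
  rw [(d i).r_pt]

theorem polyDiv_nonneg (d : ∀ i, DiscData 𝓡 (Qs i))
    (z : ι → IsLocalRing.maximalIdeal 𝓡.V) : 0 ≤ polyDiv d z :=
  sum_single_nonneg _

theorem degree_polyDiv (d : ∀ i, DiscData 𝓡 (Qs i))
    (z : ι → IsLocalRing.maximalIdeal 𝓡.V) :
    Divisor.degree (polyDiv d z) = Fintype.card ι := by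
  haveI := 𝓡.ff1
  exact degree_sum_single _

/-- The points of a disc are determined by their parameter values. -/
theorem pt_injective {Q : Place k Fk} (d : DiscData 𝓡 Q) : Function.Injective d.pt := by
  intro a a' h
  have h1 := d.ev_spec a d.D.t
  have h2 := d.ev_spec a' d.D.t
  rw [d.D.ev_t] at h1 h2
  rw [← h] at h2
  have b1 : H623.Big (d.pt a) 1 (((d.D.t : d.ring) : F) - algebraMap K F ((a : 𝓡.V) : K)) := by
    rcases h1 with h1 | h1
    · left; rw [h1, sub_self]
    · exact Or.inr h1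
  have b2 : H623.Big (d.pt a) 1 (((d.D.t : d.ring) : F) - algebraMap K F ((a' : 𝓡.V) : K)) := by
    rcases h2 with h2 | h2
    · left; rw [h2, sub_self]
    · exact Or.inr h2
  have b3 := b2.sub b1
  have e : ((d.D.t : d.ring) : F) - algebraMap K F ((a' : 𝓡.V) : K) -
      (((d.D.t : d.ring) : F) - algebraMap K F ((a : 𝓡.V) : K)) =
      algebraMap K F (((a : 𝓡.V) : K) - ((a' : 𝓡.V) : K)) := by
    rw [map_sub]; ring
  rw [e] at b3
  rcases b3 with h0 | h0
  · have : ((a : 𝓡.V) : K) - ((a' : 𝓡.V) : K) = 0 :=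
      (map_eq_zero (algebraMap K F)).mp h0
    exact Subtype.ext (Subtype.ext (sub_eq_zero.mp this))
  · rw [ord_algebraMap] at h0
    omega

/-- Equal polydisc divisors have equal parameters. -/
theorem polyDiv_injective (hQs : Function.Injective Qs) (d : ∀ i, DiscData 𝓡 (Qs i))
    {z z' : ι → IsLocalRing.maximalIdeal 𝓡.V} (h : polyDiv d z = polyDiv d z') : z = z' := by
  funext i
  apply pt_injective (d i)
  by_contra hne
  have h1 : 1 ≤ (polyDiv d z) ((d i).pt (z i)) :=
    one_le_sum_single_apply (fun j => (d j).pt (z j)) i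
  have h2 : (polyDiv d z') ((d i).pt (z i)) = 0 := by
    apply sum_single_apply_of_forall_ne
    intro j hj
    have hr : Qs j = Qs i := by rw [← (d j).r_pt (z' j), hj, (d i).r_pt]
    have hji : j = i := hQs hr
    subst hji
    exact hne hj.symm
  rw [h, h2] at h1
  omega

end Poly

/-! ### The leaf -/

section Leaf

variable (𝓡 : GoodRed K F k Fk) (Qs : Fin (genusFF k Fk) → Place k Fk)
  (hQs : Function.Injective Qs)
  (hell : @Lib.RR.ell k Fk _ _ _ (∑ i, Finsupp.single (Qs i) (1 : ℤ)) = 1)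
  (d : ∀ i, DiscData 𝓡 (Qs i))

include hell in
/-- `ℓ(polyDiv d z) = 1`. -/
theorem ell_polyDiv (z : Fin (genusFF k Fk) → IsLocalRing.maximalIdeal 𝓡.V) :
    ell (polyDiv d z) = 1 := by
  haveI := 𝓡.ff1
  have h1 := ell_le_ell_mapDomain 𝓡 (polyDiv d z)
  rw [_root_.Fermat.Agent.A3.H255.mapDomain_polyDiv, hell] at h1
  have h2 : ell (0 : Divisor K F) ≤ ell (polyDiv d z) := ell_mono (_root_.Fermat.Agent.A3.H255.polyDiv_nonneg d z)
  rw [ell_zero] at h2
  omega

/-- The converse direction: polydisc classes lie in the kernel of reduction. -/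
theorem mem_kerRed_of_polyDiv (z : Fin (genusFF k Fk) → IsLocalRing.maximalIdeal 𝓡.V)
    (D : Divisor.degZero (K := K) (F := F))
    (hD : (D : Divisor K F) = polyDiv d z - polyDiv d 0) : Pic0.mk D ∈ 𝓡.kerRed := by
  refine ⟨D, rfl, ?_⟩
  rw [hD, mapDomain_sub', _root_.Fermat.Agent.A3.H255.mapDomain_polyDiv, _root_.Fermat.Agent.A3.H255.mapDomain_polyDiv, sub_self]
  exact zero_mem _

include hQs hell in
/-- Uniqueness of the polydisc point. -/
theorem polyDiv_unique {z z' : Fin (genusFF k Fk) → IsLocalRing.maximalIdeal 𝓡.V}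
    (h : polyDiv d z' - polyDiv d z ∈ Divisor.principal (K := K) (F := F)) : z = z' := by
  haveI := 𝓡.ff1
  obtain ⟨u, hu0, hu⟩ := h
  have huL : u ∈ riemannRochSpace (polyDiv d z) := by
    rw [mem_L_iff]
    intro P
    right
    have h1 := hu P
    have h2 := Finsupp.le_def.mp (_root_.Fermat.Agent.A3.H255.polyDiv_nonneg d z') P
    simp only [Finsupp.coe_sub, Pi.sub_apply, Finsupp.coe_zero, Pi.zero_apply] at h1 h2
    omega
  have hL := H638.L_eq_range_of_ell_eq_one (_root_.Fermat.Agent.A3.H255.polyDiv_nonneg d z) (ell_polyDiv 𝓡 Qs hell d z)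
  rw [hL] at huL
  obtain ⟨c, hc⟩ := huL
  have hc' : u = algebraMap K F c := hc.symm
  apply polyDiv_injective hQs d
  ext P
  have h1 := hu P
  rw [hc', ord_algebraMap] at h1
  simp only [Finsupp.coe_sub, Pi.sub_apply] at h1
  omega

include hQs hell in
/-- Existence of the polydisc point. -/
theorem exists_polyDiv (x : Pic0 K F) (hx : x ∈ 𝓡.kerRed) :
    ∃ z : Fin (genusFF k Fk) → IsLocalRing.maximalIdeal 𝓡.V,
      ∃ D : Divisor.degZero (K := K) (F := F),
        (D : Divisor K F) = polyDiv d z - polyDiv d 0 ∧ Pic0.mk D = x := by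
  haveI := 𝓡.ff1
  haveI := 𝓡.ff1k
  obtain ⟨D₀, rfl, φ, hφ0, hφ⟩ := hx
  have hD₀ : Divisor.degree (D₀ : Divisor K F) = 0 := D₀.2
  -- a nonzero function in `L(D₀ + E)`
  have hdeg : (genusFF K F : ℤ) ≤ Divisor.degree ((D₀ : Divisor K F) + polyDiv d 0) := by
    rw [map_add, hD₀, degree_polyDiv, 𝓡.genus_eq]
    simp
  have h1 := riemann_inequality_genusFF (K := K) (F := F) ((D₀ : Divisor K F) + polyDiv d 0)
  have hpos : 0 < Module.finrank K (riemannRochSpace ((D₀ : Divisor K F) + polyDiv d 0)) := by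
    have h2 : Module.finrank K (riemannRochSpace ((D₀ : Divisor K F) + polyDiv d 0)) =
        ell ((D₀ : Divisor K F) + polyDiv d 0) := rfl
    have : (0 : ℤ) < (ell ((D₀ : Divisor K F) + polyDiv d 0) : ℤ) := by omega
    rw [h2]
    exact_mod_cast this
  obtain ⟨f₀, hf₀⟩ := Module.finrank_pos_iff_exists_ne_zero.mp hpos
  have hf₀F : (f₀ : F) ≠ 0 := fun h => hf₀ (Subtype.ext h)
  -- normalise
  obtain ⟨a, ha0, hmem, hred⟩ := 𝓡.gauss (f₀ : F) hf₀F
  have haF : algebraMap K F a ≠ 0 := (map_ne_zero (algebraMap K F)).mpr ha0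
  have hf0 : algebraMap K F a * (f₀ : F) ≠ 0 := mul_ne_zero haF hf₀F
  have hord : ∀ P : Place K F, P.ord (algebraMap K F a * (f₀ : F)) = P.ord (f₀ : F) := by
    intro P
    rw [P.ord_mul haF hf₀F, ord_algebraMap, zero_add]
  set Df : Divisor K F := divOf (K := K) (algebraMap K F a * (f₀ : F)) hf0 with hDf
  set D' : Divisor K F := (D₀ : Divisor K F) + polyDiv d 0 + Df with hD'
  have hD'0 : 0 ≤ D' := by
    rw [Finsupp.le_def]
    intro P
    have := (mem_L_iff.mp f₀.2 P).resolve_left hf₀F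
    simp only [hD', hDf, Finsupp.coe_zero, Pi.zero_apply, Finsupp.coe_add, Pi.add_apply,
      divOf_apply, hord] at this ⊢
    omega
  have hrDf : ∀ Q : Place k Fk, Finsupp.mapDomain 𝓡.r Df Q =
      Q.ord (𝓡.red ⟨algebraMap K F a * (f₀ : F), hmem⟩) :=
    fun Q => mapDomain_divOf 𝓡 ⟨_, hmem⟩ hred Df (fun P => divOf_apply _ _ P) Q
  have hrD' : ∀ Q : Place k Fk, Finsupp.mapDomain 𝓡.r D' Q =
      Q.ord φ + (∑ i, Finsupp.single (Qs i) (1 : ℤ)) Q +
        Q.ord (𝓡.red ⟨algebraMap K F a * (f₀ : F), hmem⟩) := by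
    intro Q
    rw [hD', Finsupp.mapDomain_add, Finsupp.mapDomain_add, _root_.Fermat.Agent.A3.H255.mapDomain_polyDiv]
    simp only [Finsupp.coe_add, Pi.add_apply]
    rw [hrDf Q, hφ Q]
  -- `φ · red f` is a constant
  have hcL : φ * 𝓡.red ⟨algebraMap K F a * (f₀ : F), hmem⟩ ∈
      riemannRochSpace (∑ i, Finsupp.single (Qs i) (1 : ℤ)) := by
    rw [mem_L_iff]
    intro Q
    right
    rw [Q.ord_mul hφ0 hred]
    have h3 := Finsupp.le_def.mp (mapDomain_nonneg 𝓡.r hD'0) Q
    rw [hrD' Q] at h3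
    simp only [Finsupp.coe_zero, Pi.zero_apply] at h3
    omega
  rw [H638.L_eq_range_of_ell_eq_one (sum_single_nonneg _) hell] at hcL
  obtain ⟨c, hc⟩ := hcL
  have hc0 : c ≠ 0 := by
    intro h0
    have hc' : algebraMap k Fk c = φ * 𝓡.red ⟨algebraMap K F a * (f₀ : F), hmem⟩ := hc
    rw [h0, map_zero] at hc'
    exact mul_ne_zero hφ0 hred hc'.symm
  have hsum0 : ∀ Q : Place k Fk,
      Q.ord φ + Q.ord (𝓡.red ⟨algebraMap K F a * (f₀ : F), hmem⟩) = 0 := by
    intro Q
    rw [← Q.ord_mul hφ0 hred]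
    have hc' : algebraMap k Fk c = φ * 𝓡.red ⟨algebraMap K F a * (f₀ : F), hmem⟩ := hc
    rw [← hc', ord_algebraMap]
  -- a point of `D'` over every `Q_i`
  have hP : ∀ i, ∃ P : Place K F, 𝓡.r P = Qs i ∧ 1 ≤ D' P := by
    intro i
    have h3 : Finsupp.mapDomain 𝓡.r D' (Qs i) ≠ 0 := by
      rw [hrD' (Qs i)]
      have := one_le_sum_single_apply Qs i
      have := hsum0 (Qs i)
      omega
    obtain ⟨P, hP1, hP2⟩ := exists_of_mapDomain_ne_zero 𝓡.r h3
    refine ⟨P, hP1, ?_⟩
    have := Finsupp.le_def.mp hD'0 P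
    simp only [Finsupp.coe_zero, Pi.zero_apply] at this
    omega
  choose P hPr hPD using hP
  have hPinj : Function.Injective P := fun i j h => hQs (by rw [← hPr i, ← hPr j, h])
  -- `D' = Σ P_i`
  have hD'eq : D' = ∑ i, Finsupp.single (P i) (1 : ℤ) := by
    have hnn : 0 ≤ D' - ∑ i, Finsupp.single (P i) (1 : ℤ) := by
      rw [Finsupp.le_def]
      intro P'
      simp only [Finsupp.coe_zero, Pi.zero_apply, Finsupp.coe_sub, Pi.sub_apply]
      by_cases hex : ∃ i, P i = P'
      · obtain ⟨i, rfl⟩ := hex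
        rw [sum_single_apply_of_injective hPinj i]
        have := hPD i
        omega
      · push Not at hex
        rw [sum_single_apply_of_forall_ne hex]
        have := Finsupp.le_def.mp hD'0 P'
        simpa using this
    have hdeg0 : Divisor.degree (D' - ∑ i, Finsupp.single (P i) (1 : ℤ)) = 0 := by
      rw [map_sub, degree_sum_single, hD', map_add, map_add, hD₀, degree_polyDiv, hDf,
        degree_divOf]
      simp
    have := eq_zero_of_nonneg_of_degree_eq_zero hnn hdeg0
    exact sub_eq_zero.mp this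
  -- the parameters
  have hz : ∀ i, ∃ b, (d i).pt b = P i := fun i => (d i).pt_surj (P i) (hPr i)
  choose z hz using hz
  have hpoly : polyDiv d z = D' := by
    rw [hD'eq]
    unfold polyDiv
    refine Finset.sum_congr rfl fun i _ => ?_
    rw [hz i]
  have hdegz : Divisor.degree (polyDiv d z - polyDiv d 0) = 0 := by
    rw [map_sub, degree_polyDiv, degree_polyDiv, sub_self]
  refine ⟨z, ⟨polyDiv d z - polyDiv d 0, hdegz⟩, rfl, ?_⟩
  -- the class
  show (QuotientAddGroup.mk _ : Pic0 K F) = QuotientAddGroup.mk _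
  rw [QuotientAddGroup.eq, AddSubgroup.mem_addSubgroupOf]
  refine ⟨(algebraMap K F a * (f₀ : F))⁻¹, inv_ne_zero hf0, fun v => ?_⟩
  rw [v.ord_inv]
  have e : (((-(⟨polyDiv d z - polyDiv d 0, hdegz⟩ : Divisor.degZero (K := K) (F := F)) + D₀ :
      Divisor.degZero (K := K) (F := F)) : Divisor K F)) =
      -(polyDiv d z - polyDiv d 0) + (D₀ : Divisor K F) := rfl
  rw [e, hpoly, hD']
  simp only [Finsupp.coe_add, Finsupp.coe_neg, Finsupp.coe_sub, Pi.add_apply, Pi.neg_apply,
    Pi.sub_apply, hDf, divOf_apply]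
  ring

end Leaf

/-- **COORD**: the frozen leaf `CoordStatement` of `A3/H799/LocalSpec.lean`. -/
theorem coordStatement : CoordStatement K F k Fk := by
  intro 𝓡 Qs hQs hell d
  refine ⟨fun x hx => ?_, fun z D hD => mem_kerRed_of_polyDiv 𝓡 Qs d z D hD⟩
  obtain ⟨z, D, hD, hDx⟩ := exists_polyDiv 𝓡 Qs hQs hell d x hx
  refine ⟨z, ⟨D, hD, hDx⟩, ?_⟩
  rintro z' ⟨D', hD', hD'x⟩
  symm
  apply polyDiv_unique 𝓡 Qs hQs hell d
  -- `D' - D` is principal
  have h1 : Pic0.mk D = Pic0.mk D' := by rw [hDx, hD'x]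
  have h2 : (QuotientAddGroup.mk D : Pic0 K F) = QuotientAddGroup.mk D' := h1
  rw [QuotientAddGroup.eq, AddSubgroup.mem_addSubgroupOf] at h2
  have e : ((-D + D' : Divisor.degZero (K := K) (F := F)) : Divisor K F) =
      polyDiv d z' - polyDiv d z := by
    show -(D : Divisor K F) + (D' : Divisor K F) = _
    rw [hD, hD']
    abel
  rwa [e] at h2

end Fermat.Agent.A3.H255

end
end
-- ===== PACK-END A3/H255/Coord.lean

-- ===== PACK-BEGIN S19/H255/NSP.lean
section



/-!
# Cell A3 / S19, piece D5 = NSP (helper255): the special fibre — corollaries of Riemann–Roch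

All statements are for a function field `F/K` with `[FF1 K F]` (shared library `Lib/RR`), genus
`g = genusFF K F`; `K` infinite where generic choices are made (e.g. `K` algebraically closed).
In cell A3 they are applied to the special fibre `Fk / kbar` (and to `F / Qbar`).

* `isRiemannGenus_genusFF`      : `genusFF` is the genus of Riemann's theorem.
* `exists_reduced_nonspecial`   : **D5(a)** for every finite set `S` of places there are `g` DISTINCT
                                  places `Q₁, …, Q_g ∉ S` with `ℓ(Q₁ + ⋯ + Q_g) = 1`.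
* `exists_ne_zero_mem_L`        : **D5(b)** `deg D ≥ g ⇒ L(D) ≠ 0` (every class of degree `≥ g` is
                                  effective); `exists_effective`: the effective divisor.
* `eq_smul_of_ell_eq_one`, `ord_eq_of_ell_eq_one` : if `ℓ(D) = 1` the effective divisor of the
                                  class of `D` is unique.
* `ell_sub_eq_degree`           : `E ≥ 0`, `deg (B - E) > 2g - 2 ⇒ ℓ(B) - ℓ(B - E) = deg E`
                                  (jets at `E` are independent conditions on `L(B)`).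
* `exists_bpfPencil_avoiding`   : **D5(c)** `deg D ≥ 2g ⇒` there are `s₁, s₂ ∈ L(D)` whose residual
                                  divisors `div sᵢ + D` are disjoint and avoid a given finite set.
* `exists_of_cross_eq`          : **D5(d)** for such a pencil, `b₁ s₂ = b₂ s₁` with `bᵢ ∈ L(E)`
                                  forces `(b₁, b₂) = h • (s₁, s₂)` with `h ∈ L(E - D)`.
* `cross_ker_line`              : hence, if `ℓ(E - D) = 1` (non-special), the solutions of the
                                  cross system form a line spanned by `(h₀ s₁, h₀ s₂)`.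

All proofs complete.
-/

set_option autoImplicit false
set_option linter.style.haveILetI false

noncomputable section

open AlgebraicCurve

namespace Fermat.Agent.S19.H255

open Fermat.Agent.Lib.RR

variable {K F : Type*} [Field K] [Field F] [Algebra K F]

/-- `genusFF` is the genus of Riemann's theorem. -/
theorem isRiemannGenus_genusFF [FF1 K F] : H638.IsRiemannGenus K F (genusFF K F) := by
  rw [genusFF_eq_genusR]
  exact exists_degree_bound (K := K) (F := F)

/-- **D5(a)**: reduced non-special effective divisors of degree `g` avoiding a finite set. -/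
theorem exists_reduced_nonspecial [FF1 K F] [Infinite K] (S : Finset (Place K F)) :
    ∃ T : Finset (Place K F), T.card = genusFF K F ∧ Disjoint T S ∧ ell (H638.divT T) = 1 := by
  haveI : Infinite (Place K F) := H638.infinite_place
  exact H638.exists_nonspecial isRiemannGenus_genusFF S (genusFF K F) le_rfl

/-- **D5(b)**: `L(D) ≠ 0` as soon as `deg D ≥ g`. -/
theorem exists_ne_zero_mem_L [FF1 K F] {D : Divisor K F}
    (hD : (genusFF K F : ℤ) ≤ Divisor.degree D) :
    ∃ f : F, f ≠ 0 ∧ f ∈ riemannRochSpace D := by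
  have h1 := riemann_inequality_genusFF (K := K) (F := F) D
  have hpos : 0 < Module.finrank K (riemannRochSpace D) := by
    have h2 : Module.finrank K (riemannRochSpace D) = ell D := rfl
    have : (0 : ℤ) < (ell D : ℤ) := by omega
    rw [h2]
    exact_mod_cast this
  obtain ⟨x, hx⟩ := Module.finrank_pos_iff_exists_ne_zero.mp hpos
  exact ⟨x, fun h => hx (Subtype.ext h), x.2⟩

/-- **D5(b)**, divisor form: every divisor of degree `≥ g` is linearly equivalent to an
effective one. -/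
theorem exists_effective [FF1 K F] {D : Divisor K F}
    (hD : (genusFF K F : ℤ) ≤ Divisor.degree D) :
    ∃ (f : F) (hf : f ≠ 0), 0 ≤ D + divOf (K := K) f hf := by
  obtain ⟨f, hf, hfD⟩ := exists_ne_zero_mem_L hD
  refine ⟨f, hf, ?_⟩
  rw [Finsupp.le_def]
  intro v
  have := (mem_L_iff.mp hfD v).resolve_left hf
  simp only [Finsupp.coe_zero, Pi.zero_apply, Finsupp.coe_add, Pi.add_apply, divOf_apply]
  omega

/-- If `ℓ(D) = 1`, any two nonzero elements of `L(D)` are proportional. -/
theorem eq_smul_of_ell_eq_one [FF1 K F] {D : Divisor K F} (hD : ell D = 1) {f g : F}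
    (hf : f ≠ 0) (hfD : f ∈ riemannRochSpace D) (hgD : g ∈ riemannRochSpace D) :
    ∃ c : K, g = algebraMap K F c * f := by
  have h1 : Module.finrank K (riemannRochSpace D) = 1 := hD
  have hf' : (⟨f, hfD⟩ : riemannRochSpace D) ≠ 0 := fun h => hf (congrArg Subtype.val h)
  obtain ⟨c, hc⟩ := (finrank_eq_one_iff_of_nonzero' (⟨f, hfD⟩ : riemannRochSpace D) hf').mp h1
    ⟨g, hgD⟩
  refine ⟨c, ?_⟩
  have := congrArg Subtype.val hc
  simp only [Submodule.coe_smul] at this
  rw [← this, Algebra.smul_def]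

/-- If `ℓ(D) = 1`, the effective divisor in the class of `D` is unique: any two nonzero elements
of `L(D)` have the same divisor. -/
theorem ord_eq_of_ell_eq_one [FF1 K F] {D : Divisor K F} (hD : ell D = 1) {f g : F}
    (hf : f ≠ 0) (hg : g ≠ 0) (hfD : f ∈ riemannRochSpace D) (hgD : g ∈ riemannRochSpace D)
    (v : Place K F) : v.ord g = v.ord f := by
  obtain ⟨c, rfl⟩ := eq_smul_of_ell_eq_one hD hf hfD hgD
  have hc : algebraMap K F c ≠ 0 := fun h => hg (by rw [h, zero_mul])
  rw [v.ord_mul hc hf, ord_algebraMap, zero_add]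

/-- Independence of conditions: for `E ≥ 0` and `deg (B - E) > 2g - 2`,
`ℓ(B) - ℓ(B - E) = deg E`. -/
theorem ell_sub_eq_degree [FF1 K F] {B E : Divisor K F} (hE : 0 ≤ E)
    (h : 2 * (genusFF K F : ℤ) - 2 < Divisor.degree (B - E)) :
    (ell B : ℤ) - ell (B - E) = Divisor.degree E := by
  have h1 := ell_eq_of_degree_gt h
  have hE' : 0 ≤ Divisor.degree E := degree_nonneg hE
  have h2 : 2 * (genusFF K F : ℤ) - 2 < Divisor.degree B := by
    rw [map_sub] at h
    omega
  have h3 := ell_eq_of_degree_gt h2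
  rw [map_sub] at h1
  omega

/-- **D5(c)**: for `deg D ≥ 2g` there is a base-point-free pencil `s₁, s₂ ∈ L(D)` (residual
divisors `div sᵢ + D` disjoint), both of whose members avoid a given finite set `S` of places
(their residual divisors do not meet `S`). -/
theorem exists_bpfPencil_avoiding [FF1 K F] [Infinite K] {D : Divisor K F}
    (hD : 2 * (genusFF K F : ℤ) ≤ Divisor.degree D) (S : Finset (Place K F)) :
    ∃ s₁ s₂ : F, H259.IsBpfPencil D s₁ s₂ ∧ s₂ ≠ 0 ∧
      (∀ v ∈ S, v.ord s₁ = - D v) ∧ (∀ v ∈ S, v.ord s₂ = - D v) := by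
  classical
  have hell : (ell D : ℤ) = Divisor.degree D + 1 - (genusFF K F : ℤ) :=
    ell_eq_of_degree_gt (by omega)
  have hpos : 0 < Module.finrank K (riemannRochSpace D) := by
    have : Module.finrank K (riemannRochSpace D) = ell D := rfl
    omega
  haveI : Nontrivial (riemannRochSpace D) := Module.finrank_pos_iff.mp hpos
  let p : Place K F → Subspace K (riemannRochSpace D) := fun v =>
    (riemannRochSpace (D - prim v)).comap (riemannRochSpace D).subtype
  have hp : ∀ v, p v ≠ ⊤ := by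
    intro v htop
    have hle : riemannRochSpace D ≤ riemannRochSpace (D - prim v) := by
      intro f hf
      have : (⟨f, hf⟩ : riemannRochSpace D) ∈ p v := by rw [htop]; trivial
      exact this
    have h1 : ell D ≤ ell (D - prim v) := Submodule.finrank_mono hle
    have h2 : (ell (D - prim v) : ℤ) = Divisor.degree D - 1 + 1 - (genusFF K F : ℤ) := by
      have := ell_eq_of_degree_gt (D := D - prim v)
        (by rw [map_sub, degree_prim v (deg_eq_one v)]; omega)
      rw [map_sub, degree_prim v (deg_eq_one v)] at this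
      exact this
    omega
  -- an element outside finitely many of the hyperplanes `p v` and nonzero
  have key : ∀ S' : Finset (Place K F), ∃ x : riemannRochSpace D, x ≠ 0 ∧ ∀ v ∈ S', x ∉ p v := by
    intro S'
    have hnot : (⊤ : Subspace K (riemannRochSpace D)) ∉ insert ⊥ (S'.image p) := by
      intro hmem
      rcases Finset.mem_insert.mp hmem with h | h
      · exact top_ne_bot h
      · obtain ⟨v, -, hv⟩ := Finset.mem_image.mp h
        exact hp v hv
    have hne := Subspace.biUnion_ne_univ_of_top_notMem hnot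
    obtain ⟨x, hx⟩ : ∃ x : riemannRochSpace D,
        x ∉ ⋃ q ∈ insert ⊥ (S'.image p), (q : Set (riemannRochSpace D)) := by
      by_contra hcon
      simp only [not_exists, not_not] at hcon
      exact hne (Set.eq_univ_of_forall hcon)
    refine ⟨x, ?_, fun v hv hm => ?_⟩
    · intro h0
      apply hx
      refine Set.mem_biUnion (Finset.mem_insert_self _ _) ?_
      rw [h0]
      exact Submodule.zero_mem _
    · exact hx (Set.mem_biUnion (Finset.mem_insert_of_mem (Finset.mem_image_of_mem p hv)) hm)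
  -- an element of `L(D)` outside `p v` has order exactly `-D v` at `v`
  have hord : ∀ (x : riemannRochSpace D) (v : Place K F), x ≠ 0 → x ∉ p v →
      v.ord (x : F) = - D v := by
    intro x v hx0 hnm
    have hx0' : (x : F) ≠ 0 := fun h => hx0 (Subtype.ext h)
    have hmem := x.2
    rw [mem_L_iff] at hmem
    have hnm' : ¬ ((x : F) ∈ riemannRochSpace (D - prim v)) := hnm
    rw [mem_L_iff] at hnm'
    simp only [not_forall, not_or, not_le] at hnm'
    obtain ⟨w, hw0, hw⟩ := hnm'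
    have hwv : w = v := by
      by_contra hne'
      have h3 := (hmem w).resolve_left hw0
      simp only [Finsupp.coe_sub, Pi.sub_apply, prim_apply_of_ne hne'] at hw
      omega
    subst hwv
    have h3 := (hmem w).resolve_left hw0
    simp only [Finsupp.coe_sub, Pi.sub_apply, prim_apply_self] at hw
    omega
  obtain ⟨s₁, hs₁0, hs₁⟩ := key S
  have hs₁F : (s₁ : F) ≠ 0 := fun h => hs₁0 (Subtype.ext h)
  let S₁ : Finset (Place K F) := (divOf (K := K) (s₁ : F) hs₁F + D).support
  have hS₁ : ∀ v ∉ S₁, v.ord (s₁ : F) = - D v := by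
    intro v hv
    rw [Finsupp.notMem_support_iff] at hv
    simp only [Finsupp.coe_add, Pi.add_apply, divOf_apply] at hv
    omega
  obtain ⟨s₂, hs₂0, hs₂⟩ := key (S ∪ S₁)
  have hs₂F : (s₂ : F) ≠ 0 := fun h => hs₂0 (Subtype.ext h)
  refine ⟨s₁, s₂, ⟨s₁.2, s₂.2, hs₁F, fun v => ?_⟩, hs₂F, ?_, ?_⟩
  · by_cases hv : v ∈ S₁
    · right
      exact ⟨hs₂F, hord s₂ v hs₂0 (hs₂ v (Finset.mem_union_right _ hv))⟩
    · left
      exact hS₁ v hv
  · intro v hv
    exact hord s₁ v hs₁0 (hs₁ v hv)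
  · intro v hv
    exact hord s₂ v hs₂0 (hs₂ v (Finset.mem_union_left _ hv))

/-- **D5(d)**: the cross system of a base-point-free pencil.  If `s₁, s₂` is a base-point-free
pencil of `L(D)` and `b₁, b₂ ∈ L(E)` satisfy `b₁ s₂ = b₂ s₁`, then `(b₁, b₂) = h • (s₁, s₂)` with
`h ∈ L(E - D)`. -/
theorem exists_of_cross_eq {D E : Divisor K F} {s₁ s₂ b₁ b₂ : F} (h : H259.IsBpfPencil D s₁ s₂)
    (hb₁ : b₁ ∈ riemannRochSpace E) (hb₂ : b₂ ∈ riemannRochSpace E)
    (hcross : b₁ * s₂ = b₂ * s₁) :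
    ∃ c ∈ riemannRochSpace (E - D), b₁ = c * s₁ ∧ b₂ = c * s₂ := by
  have hs₁ := h.ne_zero
  have e1 : b₁ = b₁ / s₁ * s₁ := by field_simp
  have e2 : b₂ = b₁ / s₁ * s₂ := by
    have : b₂ * s₁ = b₁ / s₁ * s₂ * s₁ := by
      rw [← hcross]
      field_simp
    exact mul_right_cancel₀ hs₁ this
  refine ⟨b₁ / s₁, ?_, e1, e2⟩
  rw [mem_L_iff]
  intro v
  rcases eq_or_ne (b₁ / s₁) 0 with h0 | h0
  · exact Or.inl h0
  right
  rw [mem_L_iff] at hb₁ hb₂
  simp only [Finsupp.coe_sub, Pi.sub_apply]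
  rcases h.bpf v with hv | ⟨hs₂, hv⟩
  · have hb₁0 : b₁ ≠ 0 := by
      intro hb
      apply h0
      rw [hb, zero_div]
    have h3 := (hb₁ v).resolve_left hb₁0
    rw [e1, v.ord_mul h0 hs₁, hv] at h3
    omega
  · have hb₂0 : b₂ ≠ 0 := by
      rw [e2]
      exact mul_ne_zero h0 hs₂
    have h3 := (hb₂ v).resolve_left hb₂0
    rw [e2, v.ord_mul h0 hs₂, hv] at h3
    omega

/-- Converse of `exists_of_cross_eq`: multiples of the pencil by `L(E - D)` solve the cross
system and lie in `L(E)`. -/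
theorem cross_of_mem {D E : Divisor K F} {s₁ s₂ c : F} (h : H259.IsBpfPencil D s₁ s₂)
    (hc : c ∈ riemannRochSpace (E - D)) :
    c * s₁ ∈ riemannRochSpace E ∧ c * s₂ ∈ riemannRochSpace E ∧
      (c * s₁) * s₂ = (c * s₂) * s₁ := by
  have hsub : E - D + D = E := sub_add_cancel E D
  refine ⟨?_, ?_, by ring⟩
  · have := H259.mul_le_L (E - D) D (Submodule.mul_mem_mul hc h.mem₁)
    rwa [hsub] at this
  · have := H259.mul_le_L (E - D) D (Submodule.mul_mem_mul hc h.mem₂)
    rwa [hsub] at this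

/-- **D5(d), line form**: if moreover `ℓ(E - D) = 1` and `h₀ ≠ 0` spans `L(E - D)`, every solution
of the cross system is a `K`-multiple of `(h₀ s₁, h₀ s₂)`. -/
theorem cross_ker_line [FF1 K F] {D E : Divisor K F} {s₁ s₂ b₁ b₂ h₀ : F}
    (h : H259.IsBpfPencil D s₁ s₂) (hell : ell (E - D) = 1)
    (hh₀ : h₀ ≠ 0) (hh₀E : h₀ ∈ riemannRochSpace (E - D))
    (hb₁ : b₁ ∈ riemannRochSpace E) (hb₂ : b₂ ∈ riemannRochSpace E)
    (hcross : b₁ * s₂ = b₂ * s₁) :
    ∃ a : K, b₁ = algebraMap K F a * (h₀ * s₁) ∧ b₂ = algebraMap K F a * (h₀ * s₂) := by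
  obtain ⟨c, hc, e1, e2⟩ := exists_of_cross_eq h hb₁ hb₂ hcross
  obtain ⟨a, ha⟩ := eq_smul_of_ell_eq_one hell hh₀ hh₀E hc
  refine ⟨a, ?_, ?_⟩
  · rw [e1, ha]; ring
  · rw [e2, ha]; ring

end Fermat.Agent.S19.H255

end
end
-- ===== PACK-END S19/H255/NSP.lean

-- ===== PACK-BEGIN A3/H255/Nsp.lean
section



/-!
# A3 / LOCAL, leaf NSP (helper255): non-special reduced divisors on the special fibre

`nspStatement : NspStatement k Fk` (frozen leaf of `A3/H799/LocalSpec.lean`), from
`exists_reduced_nonspecial` (`S19/H255/NSP.lean`, on `Lib/RR/H638`).  Also the version avoiding a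
finite set of places.

All proofs complete.
-/

set_option autoImplicit false
set_option linter.style.haveILetI false

noncomputable section

open AlgebraicCurve

namespace Fermat.Agent.A3.H255

open Fermat.Agent.Lib.RR Fermat.Agent.A3.H799

variable {k Fk : Type*} [Field k] [Field Fk] [Algebra k Fk]

/-- `g` distinct places outside a finite set `S` with `ℓ(Σ Q_i) = 1`, as a family. -/
theorem exists_nonspecial_family [FF1 k Fk] [Infinite k] (S : Finset (Place k Fk)) :
    ∃ Qs : Fin (genusFF k Fk) → Place k Fk, Function.Injective Qs ∧ (∀ i, Qs i ∉ S) ∧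
      ell (∑ i, Finsupp.single (Qs i) (1 : ℤ)) = 1 := by
  classical
  obtain ⟨T, hcard, hdisj, hell⟩ := Fermat.Agent.S19.H255.exists_reduced_nonspecial S
  let e : Fin (genusFF k Fk) ≃ T := (T.equivFinOfCardEq hcard).symm
  refine ⟨fun i => (e i : Place k Fk), ?_, ?_, ?_⟩
  · intro i j h
    exact e.injective (Subtype.ext h)
  · intro i hi
    exact (Finset.disjoint_left.mp hdisj) (e i).2 hi
  · have h1 : (∑ i, Finsupp.single ((e i : T) : Place k Fk) (1 : ℤ)) = H638.divT T := by
      unfold H638.divT prim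
      rw [Equiv.sum_comp e (fun v : T => Finsupp.single (v : Place k Fk) (1 : ℤ))]
      exact Finset.sum_coe_sort T (fun v => Finsupp.single v (1 : ℤ))
    rw [h1]
    exact hell

/-- **NSP**: the frozen leaf `NspStatement` of `A3/H799/LocalSpec.lean`. -/
theorem nspStatement : NspStatement k Fk := by
  intro _ _
  haveI : Infinite k := IsAlgClosed.instInfinite
  obtain ⟨Qs, hinj, -, hell⟩ := exists_nonspecial_family (k := k) (Fk := Fk) ∅
  exact ⟨Qs, hinj, hell⟩

end Fermat.Agent.A3.H255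

end
end
-- ===== PACK-END A3/H255/Nsp.lean

-- ===== PACK-BEGIN A3/H555/Lifti.lean
section
/-
helper555 — cell A3 (S19), block LOCAL, leaf LIFTI.

`LiftiStatement K F k Fk` (frozen in `Fermat/Agent/A3/H799/LocalSpec.lean`): every class of
`Pic0` is congruent modulo the kernel of reduction to an inertia-invariant class.

Proved here from the leaves DISC and DISC-I: the point with parameter value `0` of a residue disc
with inertia-invariant parameter is fixed by inertia; replacing every point of a divisor by the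
fixed point of its residue disc gives an inertia-invariant divisor with the same reduction.
-/


set_option autoImplicit false

noncomputable section

open AlgebraicCurve

namespace Fermat.Agent.A3.H555

open Fermat.Agent.A3.H799 Fermat.Agent.Lib.RR

variable {K F k Fk : Type*} [Field K] [Field F] [Algebra K F] [Field k] [Field Fk] [Algebra k Fk]

/-- A map of places which preserves degrees preserves degrees of divisors. -/
theorem degree_mapDomain_of_deg {K' F' : Type*} [Field K'] [Field F'] [Algebra K' F']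
    (φ : Place K F → Place K' F') (hφ : ∀ v, (φ v).deg = v.deg) (D : Divisor K F) :
    Divisor.degree (Finsupp.mapDomain φ D) = Divisor.degree D := by
  induction D using Finsupp.induction with
  | zero => simp
  | single_add P n D _ _ ih =>
    rw [Finsupp.mapDomain_add, map_add, map_add, ih, Finsupp.mapDomain_single,
      Divisor.degree_single, Divisor.degree_single, hφ]

/-- **Inertia-fixed points.**  Every point of the special fibre is the reduction of a place fixed
by inertia (the centre of its residue disc for an inertia-invariant parameter). -/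
theorem exists_fixed_place (hdisc : DiscStatement K F k Fk)
    (hequiv : DiscEquivStatement K F k Fk) (𝓡 : GoodRed K F k Fk) (Q : Place k Fk) :
    ∃ P : Place K F, 𝓡.r P = Q ∧ ∀ g ∈ 𝓡.I, g • P = P := by
  obtain ⟨d, hd⟩ := hdisc 𝓡 Q
  refine ⟨d.pt 0, d.r_pt 0, fun g hg => ?_⟩
  obtain ⟨h, h', e⟩ := hequiv 𝓡 Q d hd g hg 0
  rw [e]
  congr 1
  exact Subtype.ext (Subtype.ext (map_zero _))

/-- The reduction map of places is onto (consequence of DISC). -/
theorem r_surjective (hdisc : DiscStatement K F k Fk) (𝓡 : GoodRed K F k Fk) :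
    Function.Surjective 𝓡.r := fun Q => by
  obtain ⟨d, -⟩ := hdisc 𝓡 Q
  exact ⟨d.pt 0, d.r_pt 0⟩

/-- **Inertia-invariant lifts of divisors**: if every residue disc which contains a place
contains an inertia-fixed place, then for every divisor `D` there is an inertia-invariant divisor
`D'` of the same degree with the same reduction. -/
theorem exists_invariant_divisor (𝓡 : GoodRed K F k Fk)
    (hfixed : ∀ P₀ : Place K F, ∃ P : Place K F, 𝓡.r P = 𝓡.r P₀ ∧ ∀ g ∈ 𝓡.I, g • P = P)
    (D : Divisor K F) :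
    ∃ D' : Divisor K F, (∀ g ∈ 𝓡.I, g • D' = D') ∧
      Divisor.degree D' = Divisor.degree D ∧
      Finsupp.mapDomain 𝓡.r D' = Finsupp.mapDomain 𝓡.r D := by
  choose lift hr hfix using hfixed
  have := 𝓡.ff1
  refine ⟨Finsupp.mapDomain lift D, fun g hg => ?_, ?_, ?_⟩
  · rw [SemilinearAut.divisor_smul_def, ← Finsupp.mapDomain_comp]
    congr 1
    funext P
    exact hfix P g hg
  · exact degree_mapDomain_of_deg _ (fun v => by rw [FF1.deg_eq_one, FF1.deg_eq_one]) D
  · rw [← Finsupp.mapDomain_comp]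
    congr 1
    funext P
    exact hr P

/-- **LIFTI** for one good-reduction datum, from inertia-fixed places in every residue disc. -/
theorem lifti_of_fixed (𝓡 : GoodRed K F k Fk)
    (hfixed : ∀ P₀ : Place K F, ∃ P : Place K F, 𝓡.r P = 𝓡.r P₀ ∧ ∀ g ∈ 𝓡.I, g • P = P)
    (x : Pic0 K F) :
    ∃ y : Pic0 K F, (∀ g ∈ 𝓡.I, g • y = y) ∧ x - y ∈ 𝓡.kerRed := by
  obtain ⟨D, rfl⟩ := Pic0.mk_surjective x
  obtain ⟨D', hinv, hdeg, hred⟩ := exists_invariant_divisor 𝓡 hfixed (D : Divisor K F)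
  have hD' : D' ∈ Divisor.degZero (K := K) (F := F) := by
    rw [Divisor.mem_degZero, hdeg]
    exact D.2
  refine ⟨Pic0.mk ⟨D', hD'⟩, fun g hg => ?_, ⟨D - ⟨D', hD'⟩, rfl, ?_⟩⟩
  · rw [SemilinearAut.pic0_smul_mk]
    exact congrArg Pic0.mk (Subtype.ext (hinv g hg))
  · have : Finsupp.mapDomain 𝓡.r
        ((D - ⟨D', hD'⟩ : Divisor.degZero (K := K) (F := F)) : Divisor K F) = 0 := by
      rw [AddSubgroup.coe_sub, Finsupp.mapDomain_sub, hred, sub_self]
    rw [this]
    exact AddSubgroup.zero_mem _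

/-- **LIFTI** from DISC and DISC-I. -/
theorem liftiStatement_of_disc (hdisc : DiscStatement K F k Fk)
    (hequiv : DiscEquivStatement K F k Fk) : LiftiStatement K F k Fk :=
  fun 𝓡 x => lifti_of_fixed 𝓡
    (fun P₀ => exists_fixed_place hdisc hequiv 𝓡 (𝓡.r P₀)) x

end Fermat.Agent.A3.H555

end
end
-- ===== PACK-END A3/H555/Lifti.lean

-- ===== PACK-BEGIN A3/H75/DiscDataOfParam.lean
section



/-!
# A3 / LOCAL / DISC (helper75): `DiscData` of a `GoodRed` from a parameter

* `toConsInput` : a `GoodRed` is a `ConsInput` (conservation of zeros = `div_red`);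
* `discData_of_param` : for a place `Q` of the special fibre and a parameter `t` (a function of
  `𝓡.O`, regular on the disc of `Q`, with `ord_Q (red t) = 1`) the frozen `DiscData 𝓡 Q` of
  `Fermat/Agent/A3/H799/LocalSpec.lean`, with `D.t = t`.

So the leaf `DiscStatement` is reduced to the existence of an inertia-invariant parameter at every
place of the special fibre (`disc_of_param`).
-/

set_option autoImplicit false
set_option linter.unusedSectionVars false

noncomputable section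

namespace Fermat.Agent.A3.H75

open AlgebraicCurve Fermat.Agent.Lib.RR Fermat.Agent.A3.H799

variable {K F k Fk : Type*} [Field K] [Field F] [Algebra K F] [Field k] [Field Fk] [Algebra k Fk]

theorem red_eq_zero_iff (𝓡 : GoodRed K F k Fk) (x : 𝓡.O) :
    𝓡.red x = 0 ↔ (x : F) ∈ 𝓡.O.nonunits := by
  have hmax : (RingHom.ker 𝓡.red).IsMaximal := RingHom.ker_isMaximal_of_surjective _ 𝓡.red_surjective
  have heq : RingHom.ker 𝓡.red = IsLocalRing.maximalIdeal 𝓡.O := IsLocalRing.eq_maximalIdeal hmax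
  rw [← RingHom.mem_ker, heq, IsLocalRing.mem_maximalIdeal]
  exact (ValuationSubring.coe_mem_nonunits_iff (A := 𝓡.O)).symm

theorem algebraMap_mem_nonunits_of_mem (𝓡 : GoodRed K F k Fk) (a : K) (ha : a ∈ 𝓡.V.nonunits) :
    algebraMap K F a ∈ 𝓡.O.nonunits := by
  rw [ValuationSubring.mem_nonunits_iff_or] at ha ⊢
  rcases ha with rfl | ha
  · left
    exact map_zero _
  · right
    rw [← map_inv₀, 𝓡.algebraMap_mem]
    exact ha

/-- A `GoodRed` is a `ConsInput`. -/
def toConsInput (𝓡 : GoodRed K F k Fk) :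
    ConsInput 𝓡.V F k Fk where
  V := 𝓡.O
  algebraMap_mem a ha := (𝓡.algebraMap_mem a).mpr ha
  algebraMap_mem_nonunits := algebraMap_mem_nonunits_of_mem 𝓡
  π := 𝓡.res
  π_eq_zero a ha := (𝓡.res_eq_zero a).mp ha
  ρ := 𝓡.red
  ρ_eq_zero := red_eq_zero_iff 𝓡
  ρ_algebraMap a ha := 𝓡.red_algebraMap ⟨a, ha⟩ _
  r := 𝓡.r
  cons := 𝓡.div_red

/-- The frozen `DiscData` from a parameter. -/
def discData_of_param (𝓡 : GoodRed K F k Fk) (Q : Place k Fk) (T : DiscParam (toConsInput 𝓡) Q) :
    DiscData 𝓡 Q :=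
  haveI : FF1 K F := 𝓡.ff1
  { ring := (toConsInput 𝓡).discRing Q
    ring_le := fun f hf => hf.1
    ring_reg := fun f hf => hf.2
    mem_ring := fun f hf hreg => ⟨hf, hreg⟩
    D := T.discAlg
    pt := T.center
    r_pt := T.r_center
    pt_surj := T.exists_center_eq
    ord_t := T.ord_t
    ev_spec := by
      intro a f
      have h := T.hasVal_evVal a f
      rcases (mem_nonunits_iff_ord _ _).mp h with h0 | hpos
      · left
        exact sub_eq_zero.mp h0
      · right
        exact hpos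
    red_ev := by
      intro a f
      have h := (toConsInput 𝓡).hasVal_red Q ((toConsInput 𝓡).toV Q f) ((toConsInput 𝓡).regOn_coe Q f)
        (T.center a) (T.r_center a) (T.evVal a f) (T.hasVal_evVal a f)
      rcases (mem_nonunits_iff_ord _ _).mp h with h0 | hpos
      · left
        exact sub_eq_zero.mp h0
      · right
        exact hpos }

theorem discData_of_param_t (𝓡 : GoodRed K F k Fk) (Q : Place k Fk)
    (T : DiscParam (toConsInput 𝓡) Q) :
    (((discData_of_param 𝓡 Q T).D.t : (discData_of_param 𝓡 Q T).ring) : F) = (T.t : F) := rfl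

/-- **DISC from PAR.**  The leaf `DiscStatement` follows from the existence, at every place `Q` of
the special fibre, of an inertia-invariant function of `𝓡.O`, regular on the disc of `Q`, whose
reduction is a uniformiser at `Q`. -/
theorem disc_of_param
    (hpar : ∀ (𝓡 : GoodRed K F k Fk) (Q : Place k Fk), ∃ t : 𝓡.O,
      (∀ P : Place K F, 𝓡.r P = Q → (t : F) ∈ P.toValuationSubring) ∧
      Q.ord (𝓡.red t) = 1 ∧ ∀ g ∈ 𝓡.I, g • (t : F) = (t : F)) :
    DiscStatement K F k Fk := by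
  intro 𝓡 Q
  obtain ⟨t, hreg, hord, hinv⟩ := hpar 𝓡 Q
  exact ⟨discData_of_param 𝓡 Q ⟨t, hreg, hord⟩, hinv⟩

end Fermat.Agent.A3.H75

end
end
-- ===== PACK-END A3/H75/DiscDataOfParam.lean

-- ===== PACK-BEGIN S19/H195/MaxPrinciple.lean
section


/-!
# A3 / LOCAL D1–D2 (helper195): maximum principle, surjectivity of `r`, specialisation of classes

For an abstract reduction datum `R : RedDatum K F k Fk` (see `RedDatum.lean`):

* `RedDatum.le_mapDomain_apply`  `D P ≤ (r_* D)(r P)` when `D ≥ 0` on the residue disc of `P`;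
* `RedDatum.max_principle`  **D1**: if `f ∈ V` has no poles in the residue disc `r⁻¹(r P)` and
  `f(P) = c`, then `c ∈ O = V ∩ K` and `(red f)(r P) = red c`;
* `RedDatum.r_surjective`   **D2a**: `r` is onto (if `red` is onto);
* `RedDatum.mapDomain_mem_principal`, `RedDatum.sp`  **D2b**: `r_*` maps principal divisors to
  principal divisors, hence induces `sp : Pic0 K F →+ Pic0 k Fk` (needs the scaling axiom);
* `RedDatum.eq_of_sp_of_ell_eq_one`-type uniqueness is in `Lib/RR/H439`.

(D2c, integral Riemann–Roch, is `RedDatum.redL_eq` / `exists_lattice_basis` in `RedDatum.lean`.)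
-/

set_option autoImplicit false

noncomputable section

open AlgebraicCurve Fermat.Agent.Lib.RR

namespace Fermat.Agent.S19.H195

universe u₁ u₂ u₃ u₄

variable {K : Type u₁} {F : Type u₂} {k : Type u₃} {Fk : Type u₄}
  [Field K] [Field F] [Algebra K F] [Field k] [Field Fk] [Algebra k Fk]

namespace RedDatum

variable (R : RedDatum K F k Fk)

/-- If `D` is non-negative on the fibre of `r` through `a`, then `D a ≤ (r_* D)(r a)`. -/
theorem le_mapDomain_apply {α β : Type*} (r : α → β) (D : α →₀ ℤ) (a : α)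
    (h : ∀ a', r a' = r a → 0 ≤ D a') : D a ≤ Finsupp.mapDomain r D (r a) := by
  classical
  rw [Finsupp.mapDomain, Finsupp.sum_apply]
  show D a ≤ ∑ a' ∈ D.support, (Finsupp.single (r a') (D a')) (r a)
  have hnn : ∀ a' ∈ D.support, 0 ≤ (Finsupp.single (r a') (D a')) (r a) := by
    intro a' _
    rw [Finsupp.single_apply]
    split_ifs with h1
    · exact h a' h1
    · exact le_rfl
  by_cases ha : a ∈ D.support
  · have := Finset.single_le_sum hnn ha
    rwa [Finsupp.single_eq_same] at this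
  · rw [Finsupp.notMem_support_iff.mp ha]
    exact Finset.sum_nonneg hnn

/-- A constant outside `V` has its inverse in
`V` with zero reduction. -/
theorem red_inv_eq_zero {c : K} (hc : algebraMap K F c ∉ R.V) :
    ∃ h : algebraMap K F c⁻¹ ∈ R.V, R.red ⟨_, h⟩ = 0 := by
  have hinv := (R.const_total c).resolve_left hc
  refine ⟨hinv, ?_⟩
  by_contra hne
  have := R.red_const_unit _ hinv hne
  rw [inv_inv] at this
  exact hc this

/-- **D1, maximum principle.**  Let `f ∈ V` have no poles in the residue disc of `P` and value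
`c` at `P`.  Then `c` is integral and `red f` has the value `red c` at `r P`. -/
theorem max_principle [FF1 K F] (P : Place K F) {f : F} (hf : f ∈ R.V)
    (hreg : ∀ Q, R.r Q = R.r P → 0 ≤ Q.ord f) {c : K}
    (hc : f - algebraMap K F c = 0 ∨ 0 < P.ord (f - algebraMap K F c)) :
    ∃ hcV : algebraMap K F c ∈ R.V,
      R.red ⟨f, hf⟩ - R.red ⟨_, hcV⟩ = 0 ∨
        0 < (R.r P).ord (R.red ⟨f, hf⟩ - R.red ⟨_, hcV⟩) := by
  -- regularity of `f - c'` and `c' f` on the disc
  have hmemQ : ∀ Q, R.r Q = R.r P → f ∈ Q.toValuationSubring := fun Q hQ =>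
    mem_of_ord_nonneg Q (hreg Q hQ)
  -- Step 1: `c` is integral
  have hcV : algebraMap K F c ∈ R.V := by
    by_contra hcV
    obtain ⟨hinv, hred0⟩ := R.red_inv_eq_zero hcV
    have hc0 : c ≠ 0 := by
      rintro rfl
      apply hcV
      rw [map_zero]
      exact R.V.zero_mem
    set g : F := algebraMap K F c⁻¹ * f - 1 with hg
    have hgV : g ∈ R.V := R.V.sub_mem (R.V.mul_mem hinv hf) R.V.one_mem
    have hgred : R.red ⟨g, hgV⟩ = -1 := by
      have : (⟨g, hgV⟩ : R.V) = ⟨_, hinv⟩ * ⟨f, hf⟩ - 1 := Subtype.ext rfl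
      rw [this, map_sub, map_mul, hred0, zero_mul, map_one, zero_sub]
    have hgred0 : R.red ⟨g, hgV⟩ ≠ 0 := by
      rw [hgred]; exact neg_ne_zero.mpr one_ne_zero
    have hg0 : g ≠ 0 := by
      rintro h0
      apply hgred0
      have : (⟨g, hgV⟩ : R.V) = 0 := Subtype.ext h0
      rw [this, map_zero]
    have hgeq : g = algebraMap K F c⁻¹ * (f - algebraMap K F c) := by
      rw [hg, mul_sub, ← map_mul, inv_mul_cancel₀ hc0, map_one]
    have hcinv0 : algebraMap K F c⁻¹ ≠ 0 := by
      rw [Ne, map_eq_zero]; exact inv_ne_zero hc0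
    have hordP : 0 < P.ord g := by
      rcases hc with h0 | hpos
      · exact absurd (by rw [hgeq, h0, mul_zero]) hg0
      · have hfc0 : f - algebraMap K F c ≠ 0 := by
          rintro h0
          exact hg0 (by rw [hgeq, h0, mul_zero])
        rw [hgeq, P.ord_mul hcinv0 hfc0, ord_algebraMap, zero_add]
        exact hpos
    have hE := R.ord_red g hgV hgred0 (divOf g hg0) (fun Q => divOf_apply g hg0 Q) (R.r P)
    have hle := le_mapDomain_apply R.r (divOf g hg0) P (fun Q hQ => by
      rw [divOf_apply]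
      apply ord_nonneg_of_mem
      exact sub_mem (mul_mem (Q.algebraMap_mem' _) (hmemQ Q hQ)) (one_mem _))
    rw [hE, divOf_apply, hgred, ord_neg, Place.ord_one] at hle
    omega
  refine ⟨hcV, ?_⟩
  -- Step 2: the value of the reduction
  set h : F := f - algebraMap K F c with hh
  have hhV : h ∈ R.V := R.V.sub_mem hf hcV
  have hhred : R.red ⟨h, hhV⟩ = R.red ⟨f, hf⟩ - R.red ⟨_, hcV⟩ := by
    have : (⟨h, hhV⟩ : R.V) = ⟨f, hf⟩ - ⟨_, hcV⟩ := Subtype.ext rfl
    rw [this, map_sub]
  rw [← hhred]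
  by_cases hred0 : R.red ⟨h, hhV⟩ = 0
  · exact Or.inl hred0
  right
  have hh0 : h ≠ 0 := by
    rintro h0
    apply hred0
    have : (⟨h, hhV⟩ : R.V) = 0 := Subtype.ext h0
    rw [this, map_zero]
  have hordP : 0 < P.ord h := hc.resolve_left hh0
  have hE := R.ord_red h hhV hred0 (divOf h hh0) (fun Q => divOf_apply h hh0 Q) (R.r P)
  have hle := le_mapDomain_apply R.r (divOf h hh0) P (fun Q hQ => by
    rw [divOf_apply]
    apply ord_nonneg_of_mem
    exact sub_mem (hmemQ Q hQ) (Q.algebraMap_mem' _))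
  rw [hE, divOf_apply] at hle
  omega

/-- **D2a**: the reduction of places is onto. -/
theorem r_surjective [FF1 K F] (hsurj : Function.Surjective R.red) :
    Function.Surjective R.r := by
  classical
  intro Q
  obtain ⟨t, ht⟩ := exists_ord_eq_one Q
  obtain ⟨⟨f, hf⟩, hft⟩ := hsurj t
  have ht0 : t ≠ 0 := ne_zero_of_ord_ne_zero Q (by rw [ht]; exact one_ne_zero)
  have hred0 : R.red ⟨f, hf⟩ ≠ 0 := by rw [hft]; exact ht0
  have hf0 : f ≠ 0 := by
    rintro rfl
    exact hred0 (map_zero R.red)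
  have hE := R.ord_red f hf hred0 (divOf f hf0) (fun P => divOf_apply f hf0 P) Q
  rw [hft, ht] at hE
  by_contra hne
  have hQ : Q ∉ Set.range R.r := fun ⟨P, hP⟩ => hne ⟨P, hP⟩
  rw [Finsupp.mapDomain_of_notMem_range _ _ hQ] at hE
  exact zero_ne_one hE

/-- **D2b**: principal divisors specialise to principal divisors. -/
theorem mapDomain_mem_principal
    (hscale : ∀ f : F, f ≠ 0 → ∃ c : K, c ≠ 0 ∧ ∃ h : algebraMap K F c * f ∈ R.V,
      R.red ⟨_, h⟩ ≠ 0)
    {D : Divisor K F} (hD : D ∈ Divisor.principal (K := K) (F := F)) :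
    Finsupp.mapDomain R.r D ∈ Divisor.principal (K := k) (F := Fk) := by
  obtain ⟨f, hf0, hDf⟩ := hD
  obtain ⟨c, hc0, hV, hred⟩ := hscale f hf0
  refine ⟨R.red ⟨_, hV⟩, hred, fun Q => ?_⟩
  refine R.ord_red _ hV hred D (fun P => ?_) Q
  have hc0' : algebraMap K F c ≠ 0 := by rwa [Ne, map_eq_zero]
  rw [hDf P, P.ord_mul hc0' hf0, ord_algebraMap, zero_add]

/-- Specialisation of divisors of degree zero. -/
def spDegZero [FF1 K F] [FF1 k Fk] :
    Divisor.degZero (K := K) (F := F) →+ Divisor.degZero (K := k) (F := Fk) :=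
  ((Finsupp.mapDomain.addMonoidHom R.r).domRestrict _).codRestrict _ fun D => by
    rw [Divisor.mem_degZero]
    show Divisor.degree (Finsupp.mapDomain R.r (D : Divisor K F)) = 0
    rw [R.degree_mapDomain]
    exact D.2

@[simp]
theorem coe_spDegZero [FF1 K F] [FF1 k Fk] (D : Divisor.degZero (K := K) (F := F)) :
    (R.spDegZero D : Divisor k Fk) = Finsupp.mapDomain R.r (D : Divisor K F) := rfl

/-- **D2b**: the specialisation homomorphism `sp : Pic0 K F →+ Pic0 k Fk`. -/
def sp [FF1 K F] [FF1 k Fk]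
    (hscale : ∀ f : F, f ≠ 0 → ∃ c : K, c ≠ 0 ∧ ∃ h : algebraMap K F c * f ∈ R.V,
      R.red ⟨_, h⟩ ≠ 0) :
    Pic0 K F →+ Pic0 k Fk :=
  QuotientAddGroup.map _ _ R.spDegZero (by
    rintro ⟨D, hD0⟩ hD
    simp only [AddSubgroup.mem_addSubgroupOf] at hD ⊢
    exact R.mapDomain_mem_principal hscale hD)

theorem sp_mk [FF1 K F] [FF1 k Fk]
    (hscale : ∀ f : F, f ≠ 0 → ∃ c : K, c ≠ 0 ∧ ∃ h : algebraMap K F c * f ∈ R.V,
      R.red ⟨_, h⟩ ≠ 0)
    (D : Divisor.degZero (K := K) (F := F)) :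
    R.sp hscale (Pic0.mk D) = Pic0.mk (R.spDegZero D) := rfl

end RedDatum

end Fermat.Agent.S19.H195

end
end
-- ===== PACK-END S19/H195/MaxPrinciple.lean

-- ===== PACK-BEGIN S19/H195/GoodRedD12.lean
section



/-!
# A3 / LOCAL D1–D2 for the frozen interface `GoodRed` (helper195)

`GoodRed K F k Fk` (architect helper799, `Fermat/Agent/A3/H799/GoodRed.lean`) is converted into the
lighter `RedDatum` of `RedDatum.lean`, and the results D1–D2 of the LOCAL plan
(origin/helper979:coord/A3-helper979.md §3) are stated for `GoodRed`: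

* `GoodRed.max_principle`   **D1**: `f ∈ O` without poles in the residue disc of `P`, `f(P) = c`
  ⟹ `c ∈ V` and `(red f)(r P) = res c`;
* `GoodRed.r_surjective`    **D2**: `r` is onto;
* `GoodRed.sp`              **D2**: specialisation `Pic0 K F →+ Pic0 k Fk`, `sp [D] = [r_* D]`;
* `GoodRed.ell_le`          **D2**: `ℓ(D) ≤ ℓ(r_* D)`;
* `GoodRed.exists_lift`     **D2**: for `deg D > 2g - 2` every element of `L(r_* D)` is the
  reduction of an element of `L(D) ∩ O`;  `GoodRed.ell_eq`: then `ℓ(D) = ℓ(r_* D)`;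
* `GoodRed.exists_lattice_basis`  orthonormal basis of `L(D)` reducing to a basis of `L(r_* D)`,
  with the lattice property (`L(D) ∩ O = ⊕ V wᵢ`).
-/

set_option autoImplicit false

noncomputable section

open AlgebraicCurve Fermat.Agent.Lib.RR

namespace Fermat.Agent.S19.H195

open Fermat.Agent.A3.H799

universe u₁ u₂ u₃ u₄

variable {K : Type u₁} {F : Type u₂} {k : Type u₃} {Fk : Type u₄}
  [Field K] [Field F] [Algebra K F] [Field k] [Field Fk] [Algebra k Fk]

/-- The `RedDatum` underlying a `GoodRed`. -/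
def ofGoodRed (𝓡 : GoodRed K F k Fk) : RedDatum K F k Fk where
  V := 𝓡.O.toSubring
  red := 𝓡.red
  r := 𝓡.r
  const_total := fun a => by
    rcases 𝓡.O.mem_or_inv_mem (algebraMap K F a) with h | h
    · exact Or.inl h
    · right
      rw [map_inv₀]
      exact h
  red_const := fun a h =>
    ⟨𝓡.res ⟨a, (𝓡.algebraMap_mem a).mp h⟩, 𝓡.red_algebraMap ⟨a, (𝓡.algebraMap_mem a).mp h⟩ h⟩
  red_const_surj := fun b => by
    obtain ⟨a, ha⟩ := 𝓡.res_surjective b
    have h : algebraMap K F (a : K) ∈ 𝓡.O := (𝓡.algebraMap_mem a).mpr a.2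
    exact ⟨a, h, by rw [← ha]; exact 𝓡.red_algebraMap a h⟩
  red_const_unit := fun a h hne => by
    have haV : a ∈ 𝓡.V := (𝓡.algebraMap_mem a).mp h
    have hres : 𝓡.res ⟨a, haV⟩ ≠ 0 := by
      intro h0
      apply hne
      have := 𝓡.red_algebraMap ⟨a, haV⟩ h
      rw [h0, map_zero] at this
      exact this
    have hnu : a ∉ 𝓡.V.nonunits := fun hn => hres ((𝓡.res_eq_zero ⟨a, haV⟩).mpr hn)
    rw [ValuationSubring.mem_nonunits_iff_exists_mem_maximalIdeal] at hnu
    have hunit : IsUnit (⟨a, haV⟩ : 𝓡.V) := by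
      by_contra hnot
      exact hnu ⟨haV, (IsLocalRing.mem_maximalIdeal _).mpr hnot⟩
    obtain ⟨u, hu⟩ := hunit
    have hinv : a⁻¹ ∈ 𝓡.V := by
      have h1 : ((u⁻¹ : (𝓡.V)ˣ) : 𝓡.V) * ⟨a, haV⟩ = 1 := by
        rw [← hu]; exact Units.inv_mul u
      have h2 : (((u⁻¹ : (𝓡.V)ˣ) : 𝓡.V) : K) * a = 1 := congrArg Subtype.val h1
      have ha0 : a ≠ 0 := by
        rintro rfl
        rw [mul_zero] at h2
        exact zero_ne_one h2
      have h3 : a⁻¹ = (((u⁻¹ : (𝓡.V)ˣ) : 𝓡.V) : K) :=
        (eq_inv_of_mul_eq_one_left h2).symm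
      rw [h3]
      exact Subtype.mem _
    exact (𝓡.algebraMap_mem a⁻¹).mpr hinv
  ord_red := fun u hu hne D hD Q => 𝓡.div_red ⟨u, hu⟩ hne D hD Q


namespace GoodRedLemmas

variable (𝓡 : GoodRed K F k Fk)

/-- The scaling axiom of `RedDatum` lemmas, from `gauss`. -/
theorem hscale : ∀ f : F, f ≠ 0 → ∃ c : K, c ≠ 0 ∧
    ∃ h : algebraMap K F c * f ∈ (ofGoodRed 𝓡).V, (ofGoodRed 𝓡).red ⟨_, h⟩ ≠ 0 :=
  fun f hf => 𝓡.gauss f hf

/-- Every Riemann–Roch space has an orthonormal basis. -/
theorem orthOn (D : Divisor K F) : (ofGoodRed 𝓡).OrthOn (riemannRochSpace D) := by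
  obtain ⟨n, b, hli, hmem, hspan, -⟩ := 𝓡.orthonormal D
  exact ⟨n, fun i => ((b i : 𝓡.O) : F), fun i => (b i).2, hmem, hspan.ge, hli⟩

/-- **D1, maximum principle.** -/
theorem max_principle (P : Place K F) (f : 𝓡.O)
    (hreg : ∀ Q, 𝓡.r Q = 𝓡.r P → 0 ≤ Q.ord (f : F)) {c : K}
    (hc : (f : F) - algebraMap K F c = 0 ∨ 0 < P.ord ((f : F) - algebraMap K F c)) :
    ∃ hcV : c ∈ 𝓡.V,
      𝓡.red f - algebraMap k Fk (𝓡.res ⟨c, hcV⟩) = 0 ∨
        0 < (𝓡.r P).ord (𝓡.red f - algebraMap k Fk (𝓡.res ⟨c, hcV⟩)) := by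
  have := 𝓡.ff1
  obtain ⟨hcO, h⟩ := (ofGoodRed 𝓡).max_principle P f.2 hreg hc
  have hcV : c ∈ 𝓡.V := (𝓡.algebraMap_mem c).mp hcO
  refine ⟨hcV, ?_⟩
  have h1 : (ofGoodRed 𝓡).red ⟨_, hcO⟩ = algebraMap k Fk (𝓡.res ⟨c, hcV⟩) :=
    𝓡.red_algebraMap ⟨c, hcV⟩ hcO
  rw [h1] at h
  exact h

/-- **D2**: `r` is onto. -/
theorem r_surjective : Function.Surjective 𝓡.r := by
  have := 𝓡.ff1
  exact (ofGoodRed 𝓡).r_surjective 𝓡.red_surjective

/-- **D2**: principal divisors specialise to principal divisors. -/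
theorem mapDomain_mem_principal {D : Divisor K F}
    (hD : D ∈ Divisor.principal (K := K) (F := F)) :
    Finsupp.mapDomain 𝓡.r D ∈ Divisor.principal (K := k) (F := Fk) :=
  (ofGoodRed 𝓡).mapDomain_mem_principal (hscale 𝓡) hD

/-- **D2**: reduction preserves degrees. -/
theorem degree_mapDomain (D : Divisor K F) :
    Divisor.degree (Finsupp.mapDomain 𝓡.r D) = Divisor.degree D := by
  have := 𝓡.ff1
  have := 𝓡.ff1k
  exact (ofGoodRed 𝓡).degree_mapDomain D

/-- **D2**: the specialisation homomorphism `sp : Pic0 K F →+ Pic0 k Fk`. -/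
def sp : Pic0 K F →+ Pic0 k Fk :=
  haveI := 𝓡.ff1
  haveI := 𝓡.ff1k
  (ofGoodRed 𝓡).sp (hscale 𝓡)

theorem sp_mk (D : Divisor.degZero (K := K) (F := F)) :
    ((sp 𝓡 (Pic0.mk D) : Pic0 k Fk)) =
      Pic0.mk ⟨Finsupp.mapDomain 𝓡.r (D : Divisor K F), by
        rw [Divisor.mem_degZero, degree_mapDomain]; exact D.2⟩ := rfl

/-- **D2**: `red (L(D) ∩ O) ⊆ L(r_* D)`. -/
theorem red_mem (D : Divisor K F) (f : 𝓡.O) (hf : (f : F) ∈ riemannRochSpace D) :
    𝓡.red f ∈ riemannRochSpace (Finsupp.mapDomain 𝓡.r D) := by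
  have := 𝓡.ff1
  exact (ofGoodRed 𝓡).redL_le D ((ofGoodRed 𝓡).red_mem_redL f.2 hf)

/-- **D2, semicontinuity**: `ℓ(D) ≤ ℓ(r_* D)`. -/
theorem ell_le (D : Divisor K F) :
    haveI := 𝓡.ff1
    haveI := 𝓡.ff1k
    ell D ≤ ell (Finsupp.mapDomain 𝓡.r D) := by
  have := 𝓡.ff1
  have := 𝓡.ff1k
  exact (ofGoodRed 𝓡).ell_le_ell_mapDomain D (orthOn 𝓡 D)

/-- **D2, integral Riemann–Roch**: for `deg D > 2g - 2` every element of `L(r_* D)` is the
reduction of an integral function of `L(D)`. -/
theorem exists_lift (D : Divisor K F) (hD : 2 * (genusFF k Fk : ℤ) - 2 < Divisor.degree D)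
    (g : Fk) (hg : g ∈ riemannRochSpace (Finsupp.mapDomain 𝓡.r D)) :
    ∃ f : 𝓡.O, (f : F) ∈ riemannRochSpace D ∧ 𝓡.red f = g := by
  have := 𝓡.ff1
  have := 𝓡.ff1k
  have hg' : g ∈ (ofGoodRed 𝓡).redL D := by
    rw [(ofGoodRed 𝓡).redL_eq 𝓡.genus_eq.le D hD (orthOn 𝓡 D)]
    exact hg
  obtain ⟨f, hf, hfD, rfl⟩ := hg'
  exact ⟨⟨f, hf⟩, hfD, rfl⟩

/-- **D2**: for `deg D > 2g - 2`, `ℓ(D) = ℓ(r_* D) = deg D + 1 - g`. -/
theorem ell_eq (D : Divisor K F) (hD : 2 * (genusFF k Fk : ℤ) - 2 < Divisor.degree D) :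
    haveI := 𝓡.ff1
    haveI := 𝓡.ff1k
    ell D = ell (Finsupp.mapDomain 𝓡.r D) ∧
      (ell D : ℤ) = Divisor.degree D + 1 - (genusFF k Fk : ℤ) := by
  have := 𝓡.ff1
  have := 𝓡.ff1k
  exact (ofGoodRed 𝓡).ell_eq 𝓡.genus_eq.le D hD (orthOn 𝓡 D)

/-- **Lattice property** of an orthonormal family: if `∑ cᵢ bᵢ ∈ O` and the `red bᵢ` are
`k`-independent, then all `cᵢ ∈ V`. -/
theorem coeff_mem {ι : Type*} (b : ι → 𝓡.O) (hli : LinearIndependent k (fun i => 𝓡.red (b i)))
    (s : Finset ι) (c : ι → K) (hf : ∑ i ∈ s, c i • ((b i : 𝓡.O) : F) ∈ 𝓡.O) :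
    ∀ i ∈ s, c i ∈ 𝓡.V := fun i hi =>
  (𝓡.algebraMap_mem (c i)).mp
    ((ofGoodRed 𝓡).coeff_mem_of_red (fun i => ((b i : 𝓡.O) : F)) (fun i => (b i).2) hli s c hf i hi)

/-- **D2, basis form**: for `deg D > 2g - 2` there is a `K`-basis of `L(D)` in `O` whose
reductions form a `k`-basis of `L(r_* D)`, and `L(D) ∩ O = ⊕ V wᵢ`. -/
theorem exists_lattice_basis (D : Divisor K F)
    (hD : 2 * (genusFF k Fk : ℤ) - 2 < Divisor.degree D) :
    ∃ (n : ℕ) (w : Fin n → 𝓡.O), (∀ i, ((w i : 𝓡.O) : F) ∈ riemannRochSpace D) ∧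
      LinearIndependent K (fun i => ((w i : 𝓡.O) : F)) ∧
      Submodule.span K (Set.range fun i => ((w i : 𝓡.O) : F)) = riemannRochSpace D ∧
      LinearIndependent k (fun i => 𝓡.red (w i)) ∧
      Submodule.span k (Set.range fun i => 𝓡.red (w i))
        = riemannRochSpace (Finsupp.mapDomain 𝓡.r D) ∧
      ∀ f : 𝓡.O, (f : F) ∈ riemannRochSpace D →
        ∃ c : Fin n → 𝓡.V, (f : F) = ∑ i, ((c i : 𝓡.V) : K) • ((w i : 𝓡.O) : F) := by
  have := 𝓡.ff1
  have := 𝓡.ff1k
  obtain ⟨w, hw, h1, h2, h3, h4, h5, h6⟩ :=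
    (ofGoodRed 𝓡).exists_lattice_basis 𝓡.genus_eq.le D hD (orthOn 𝓡 D)
  refine ⟨_, fun i => ⟨w i, hw i⟩, h1, h2, h3, h4, h5, fun f hf => ?_⟩
  obtain ⟨c, hc, hfc⟩ := h6 f hf f.2
  exact ⟨fun i => ⟨c i, (𝓡.algebraMap_mem (c i)).mp (hc i)⟩, hfc⟩

end GoodRedLemmas

end Fermat.Agent.S19.H195

end
end
-- ===== PACK-END S19/H195/GoodRedD12.lean

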