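import Fermat.Agent.Pack.S3234.G4E3L2
import Fermat.Agent.Pack.S3234.G4E0L0
import Fermat.Agent.Pack.S3234.G4E3L3
import Fermat.Agent.Pack.S3234.G4E3L1
import Fermat.Agent.Pack.S3234.G0E7L2
import Fermat.Agent.Pack.S3234.G0E5L0
import Fermat.Agent.Pack.S3234.G4E2L3
import Fermat.Agent.Pack.S3234.G4E1L2
import Fermat.Agent.Pack.S3234.G4E0L3
import Fermat.Agent.Pack.S3234.G0E6L1
import Fermat.Agent.Pack.S3234.G4E1L0

-- ===== PACK-BEGIN S29/H509/KummerHom.lean
section


/-!
# The Kummer function of an additive character `Γ₀(N) → ℤ/p` (helper509, S29 piece K1-full)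

`chiOfHom c γ = exp (2πi c(γ) / p)` turns `c : Additive Γ →+ ZMod p` into a character
`Γ →* ℂˣ`; `exists_kummerFun_of_hom` is the packaged statement for consumers (DICT / DESC / NORM).
-/

set_option autoImplicit false

namespace Fermat.Agent.S29.H509

open ModularForm UpperHalfPlane Matrix CongruenceSubgroup EisensteinSeries Filter Topology
open scoped MatrixGroups Manifold Real

open Fermat.Agent.S24.H648 (goodRing ExpGrowth)

noncomputable section

variable {Γ : Subgroup SL(2, ℤ)} {p : ℕ} [NeZero p]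

/-- The character `γ ↦ exp (2πi c(γ) / p)` attached to `c : Γ → ℤ/p`. -/
def chiOfHom (c : Additive Γ →+ ZMod p) : Γ →* ℂˣ :=
  MonoidHom.toHomUnits
    { toFun := fun γ => ZMod.stdAddChar (N := p) (c (Additive.ofMul γ))
      map_one' := by simp
      map_mul' := fun a b => by
        rw [ofMul_mul, map_add, AddChar.map_add_eq_mul] }

@[simp] lemma chiOfHom_apply (c : Additive Γ →+ ZMod p) (γ : Γ) :
    ((chiOfHom c γ : ℂˣ) : ℂ) = ZMod.stdAddChar (N := p) (c (Additive.ofMul γ)) := rfl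

lemma chiOfHom_eq_one_iff (c : Additive Γ →+ ZMod p) (γ : Γ) :
    chiOfHom c γ = 1 ↔ c (Additive.ofMul γ) = 0 := by
  rw [← Units.val_inj, chiOfHom_apply, Units.val_one,
    ← (ZMod.stdAddChar (N := p)).map_zero_eq_one, ZMod.injective_stdAddChar.eq_iff]

lemma chiOfHom_pow (c : Additive Γ →+ ZMod p) (γ : Γ) : chiOfHom c γ ^ p = 1 := by
  rw [← Units.val_inj, Units.val_pow_eq_pow_val, chiOfHom_apply, Units.val_one,
    ← AddChar.map_nsmul_eq_pow]
  simp

lemma chiOfHom_add (c c' : Additive Γ →+ ZMod p) (γ : Γ) :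
    chiOfHom (c + c') γ = chiOfHom c γ * chiOfHom c' γ := by
  rw [← Units.val_inj, Units.val_mul, chiOfHom_apply, chiOfHom_apply, chiOfHom_apply,
    AddMonoidHom.add_apply, AddChar.map_add_eq_mul]

lemma chiOfHom_zero : chiOfHom (0 : Additive Γ →+ ZMod p) = 1 := by
  ext γ
  simp

lemma trivOnStabInfty_chiOfHom {c : Additive Γ →+ ZMod p}
    (hc : ∀ γ : Γ, (γ : SL(2, ℤ)) 1 0 = 0 → c (Additive.ofMul γ) = 0) :
    TrivOnStabInfty (chiOfHom c) :=
  fun γ hγ => (chiOfHom_eq_one_iff c γ).mpr (hc γ hγ)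

/-- An element of `SL(2, ℤ)` with lower left entry `0` has trace `±2`. -/
lemma trace_sq_of_lower_left_eq_zero (γ : SL(2, ℤ)) (h : γ 1 0 = 0) :
    (γ : Matrix (Fin 2) (Fin 2) ℤ).trace ^ 2 = 4 := by
  have hdet := γ.det_coe
  rw [Matrix.det_fin_two] at hdet
  have h' : (γ : Matrix (Fin 2) (Fin 2) ℤ) 1 0 = 0 := h
  rw [h', mul_zero, sub_zero] at hdet
  rw [Matrix.trace_fin_two]
  rcases Int.eq_one_or_neg_one_of_mul_eq_one' hdet with ⟨h1, h2⟩ | ⟨h1, h2⟩
  · rw [h1, h2]; norm_num
  · rw [h1, h2]; norm_num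

/-- **K1 (packaged).**  For an additive character `c : Γ₀(N) → ℤ/p` vanishing on the elements
fixing `∞` (e.g. on all elements with `trace ^ 2 = 4`), the Kummer function
`h = kumH (chiOfHom c)` is holomorphic, nonzero, transforms by
`h (γ • τ) = exp (2πi c(γ)/p) * h τ` under `Γ₀(N)`, all its `SL(2, ℤ)`-translates have at most
exponential growth, and `h ^ p` is a good function for `Γ₀(N)`. -/
theorem exists_kummerFun_of_hom (N : ℕ) (c : Additive (Gamma0 N) →+ ZMod p)
    (hc : ∀ γ : Gamma0 N, (γ : SL(2, ℤ)) 1 0 = 0 → c (Additive.ofMul γ) = 0) :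
    ∃ h : ℍ → ℂ, MDiff h ∧ h ≠ 0 ∧
      (∀ (γ : Gamma0 N) (τ : ℍ),
        h ((γ : SL(2, ℤ)) • τ) = ZMod.stdAddChar (N := p) (c (Additive.ofMul γ)) * h τ) ∧
      (∀ g : SL(2, ℤ), ExpGrowth (fun τ => h (g • τ))) ∧
      h ^ p ∈ goodRing N := by
  have hp : p ≠ 0 := NeZero.ne p
  have hstab := trivOnStabInfty_chiOfHom hc
  have hnorm : ∀ γ, ‖((chiOfHom c γ : ℂˣ) : ℂ)‖ = 1 :=
    fun γ => norm_eq_one_of_pow_eq_one' hp (chiOfHom_pow c γ)
  refine ⟨kumH (chiOfHom c), kumH_mdifferentiable hnorm, kumH_ne_zero hnorm hstab,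
    fun γ τ => ?_, kumH_expGrowth hnorm, kumH_pow_mem_goodRing hstab.trivOnUnip hp
      (chiOfHom_pow c)⟩
  rw [kumH_smul hstab.trivOnUnip, chiOfHom_apply]

end

end Fermat.Agent.S29.H509

end
-- ===== PACK-END S29/H509/KummerHom.lean

-- ===== PACK-BEGIN S37/Red/H940/Main.lean
section




/-!
# S37-RED (helper940): `MainStatement` from the fibre sums of the two coordinates `x`, `x⁻¹`

Interface: `Fermat/Agent/S37/Red/Spec.lean` (helper40).  For a reduction datum `G` with good
charts (`G.Good`) we prove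

* `main_of_fibreSum` : `FibreSumStatement G → ∃ r, IsRed G r ∧ EvalCompat G r`;
* `main_of_fibreSum'`: the same from the fibre sums for the TWO auxiliary coordinates
  `t = x` (all `c ∈ A`) and `t = x⁻¹` (`c = 0`) only  (`FibreSumAt G G.x`, `FibreSumAt G G.x⁻¹`);
* `mainStatement_of_fibreSum` : `(∀ G, FibreSumStatement G) → MainStatement`.

So the pieces RED-B (`DegEqStatement`), RED-D1 (`SepStatement`), RED-C and RED-D of
`coord/S37-red.md` are not needed: the construction of `r` and the count (ii) are done by the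
fibre-local core `Fermat/Agent/S37/H940/{Core,Assembly,Line,Chart}.lean`
(`exists_red_of_coord`), which needs conservation of number only for the coordinate itself.
Characteristic `0` of `K` and separability (`Good.sep_k`) are not used here.
-/

set_option autoImplicit false

noncomputable section

namespace Fermat.Agent.S37.Red.H940

open AlgebraicCurve IntermediateField Polynomial
open Fermat.Agent.S37.H940

universe u

variable {K k F Fk : Type u} [Field K] [Field k] [Field F] [Field Fk]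
  [Algebra K F] [Algebra k Fk] {A : ValuationSubring K} {π : A →+* k} (G : Datum A π F Fk)

/-- `ValAt` is `InMax` of the difference -/
theorem valAt_iff_inMax {K F : Type u} [Field K] [Field F] [Algebra K F] (P : Place K F) (f : F)
    (a : K) : ValAt P f a ↔ InMax P (f - algebraMap K F a) := by
  rw [inMax_iff_mem_nonunits, ValuationSubring.mem_nonunits_iff]
  rfl

/-- the fibre sums for ONE auxiliary coordinate `t` and one `c ∈ A` -/
def FibreSumAt (t : F) (c : A) : Prop :=
  ∀ (y : F) (hy : y ∈ G.O), G.ρ ⟨y, hy⟩ ≠ 0 →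
    ∀ (S : Finset (Place K F)) (T : Finset (Place k Fk)),
      (∀ P : Place K F, P.ord y ≠ 0 → (∃ a : A, π a = π c ∧ ValAt P t a) → P ∈ S) →
      (∀ P ∈ S, ∃ a : A, π a = π c ∧ ValAt P t a) →
      (∀ Q : Place k Fk, Q.ord (G.ρ ⟨y, hy⟩) ≠ 0 → ValAt Q (G.red t) (π c) → Q ∈ T) →
      (∀ Q ∈ T, ValAt Q (G.red t) (π c)) →
      ∑ Q ∈ T, Q.ord (G.ρ ⟨y, hy⟩) = ∑ P ∈ S, P.ord y

/-- **The reduction context of a datum.** -/
def ctx : Ctx K F k Fk where
  A := A
  π := π
  π_surj := G.π_surj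
  π_eq_zero := fun a => by
    rw [H399.pi_eq_zero_iff G a, ValuationSubring.coe_mem_nonunits_iff,
      IsLocalRing.mem_maximalIdeal, mem_nonunits_iff]
  V := G.O.toSubring
  ρ := G.ρ
  A_mem := G.const_mem
  ρ_A := G.ρ_const
  inv_mem := fun u hu => by
    have h1 : ¬ ((u : F) ∈ G.O.nonunits) := fun h =>
      hu ((H399.rho_eq_zero_iff G ⟨(u : F), u.2⟩).mpr h)
    rw [ValuationSubring.mem_nonunits_iff, not_lt] at h1
    show ((u : F))⁻¹ ∈ G.O
    rw [← ValuationSubring.valuation_le_one_iff, map_inv₀]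
    have h2 : G.O.valuation (u : F) ≤ 1 := (ValuationSubring.valuation_le_one_iff _ _).mpr u.2
    have h3 : G.O.valuation (u : F) = 1 := le_antisymm h2 h1
    rw [h3, inv_one]

@[simp] theorem ctx_ρ (y : F) (hy : y ∈ G.O) : (ctx G).ρ ⟨y, hy⟩ = G.ρ ⟨y, hy⟩ := rfl

/-- the coordinate as an element of the context -/
def cx : (ctx G).V := ⟨G.x, G.x_mem⟩

theorem ρ_cx : (ctx G).ρ (cx G) = G.xk := rfl

theorem transc_cx : Transcendental k ((ctx G).ρ (cx G)) := G.xk_transc

/-- elements of the chart of `t` are regular wherever `t` is regular -/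
theorem regular_of_mem_chart {t b : F} (hb : b ∈ G.chart t) (P : Place K F)
    (ht : 0 ≤ P.ord t) : 0 ≤ P.ord b := by
  have hle : ∀ r : G.polyRing t, algebraMap (G.polyRing t) F r ∈ P.toValuationSubring.toSubring := by
    rintro ⟨r, hr⟩
    show r ∈ P.toValuationSubring.toSubring
    have h1 : G.polyRing t ≤ P.toValuationSubring.toSubring := by
      unfold Datum.polyRing
      rw [sup_le_iff]
      constructor
      · rintro _ ⟨a, -, rfl⟩
        exact P.algebraMap_mem' a
      · rw [Subring.closure_le]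
        rintro _ rfl
        exact (Line.regular_iff_mem P _).mp ht
    exact h1 hr
  have hcl : IsIntegrallyClosedIn P.toValuationSubring.toSubring F :=
    inferInstanceAs (IsIntegrallyClosedIn P.toValuationSubring F)
  have h2 := (Subring.integralClosure_le_iff (R := G.polyRing t)
    (T := P.toValuationSubring.toSubring)).mpr hle
  exact (Line.regular_iff_mem P b).mpr (h2 hb)

section Main

variable [IsAlgClosed K] [IsAlgClosed k]

/-- the hypotheses of the fibre-local core for the coordinate `x` over `c̄ = π c` -/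
theorem localCoord_fin (hG : G.Good) (c : A) (hFS : FibreSumAt G G.x c) :
    LocalCoord (ctx G) (cx G) (π c) where
  FC := by
    intro u hu S T h1 h2 h3 h4
    have hred : G.red G.x = G.xk := H399.red_eq_of_mem G G.x_mem
    refine (hFS (u : F) u.2 hu S T ?_ ?_ ?_ ?_).symm
    · rintro P hP ⟨a, ha, hval⟩
      exact h1 P ⟨a, ha, (valAt_iff_inMax P _ _).mp hval⟩ hP
    · intro P hP
      obtain ⟨a, ha, hval⟩ := h2 P hP
      exact ⟨a, ha, (valAt_iff_inMax P _ _).mpr hval⟩
    · intro Q hQ hval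
      rw [hred] at hval
      exact h3 Q ((valAt_iff_inMax Q _ _).mp hval) hQ
    · intro Q hQ
      rw [hred]
      exact (valAt_iff_inMax Q _ _).mpr (h4 Q hQ)
  LIFT := by
    intro τ hτ
    obtain ⟨b, hb, hbO, hρ⟩ := hG.lift_fin τ hτ
    exact ⟨⟨b, hbO⟩, hρ, fun P hP => regular_of_mem_chart G hb P hP⟩

theorem xk_ne_zero : G.xk ≠ 0 := ρ_ne_zero_of_transcendental (ctx G) (cx G) (transc_cx G)

theorem xinv_mem : G.x⁻¹ ∈ G.O := (ctx G).inv_mem (cx G) (xk_ne_zero G)

theorem red_xinv : G.red G.x⁻¹ = G.xk⁻¹ := by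
  rw [H399.red_eq_of_mem G (xinv_mem G)]
  exact (ctx G).ρ_inv (cx G) (xk_ne_zero G)

/-- the hypotheses of the fibre-local core for the coordinate `x⁻¹` over `0` -/
theorem localCoord_inf (hG : G.Good) (hFS : FibreSumAt G G.x⁻¹ 0) :
    LocalCoord (ctx G) (xinv (ctx G) (cx G) (transc_cx G)) 0 where
  FC := by
    intro u hu S T h1 h2 h3 h4
    have hred : G.red G.x⁻¹ = G.xk⁻¹ := red_xinv G
    have hρ : (ctx G).ρ (xinv (ctx G) (cx G) (transc_cx G)) = G.xk⁻¹ :=
      ρ_xinv (ctx G) (cx G) (transc_cx G)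
    have hπ0 : π (0 : A) = 0 := map_zero π
    refine (hFS (u : F) u.2 hu S T ?_ ?_ ?_ ?_).symm
    · rintro P hP ⟨a, ha, hval⟩
      rw [hπ0] at ha
      exact h1 P ⟨a, ha, (valAt_iff_inMax P _ _).mp hval⟩ hP
    · intro P hP
      obtain ⟨a, ha, hval⟩ := h2 P hP
      exact ⟨a, by rw [hπ0]; exact ha, (valAt_iff_inMax P _ _).mpr hval⟩
    · intro Q hQ hval
      rw [hred, hπ0] at hval
      refine h3 Q ?_ hQ
      show InMax Q ((ctx G).ρ (xinv (ctx G) (cx G) (transc_cx G)) - algebraMap k Fk 0)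
      rw [hρ]
      exact (valAt_iff_inMax Q _ _).mp hval
    · intro Q hQ
      rw [hred, hπ0]
      have := h4 Q hQ
      have h5 : InMax Q ((ctx G).ρ (xinv (ctx G) (cx G) (transc_cx G)) - algebraMap k Fk 0) :=
        this
      rw [hρ] at h5
      exact (valAt_iff_inMax Q _ _).mpr h5
  LIFT := by
    intro τ hτ
    have hρ : (ctx G).ρ (xinv (ctx G) (cx G) (transc_cx G)) = G.xk⁻¹ :=
      ρ_xinv (ctx G) (cx G) (transc_cx G)
    rw [hρ] at hτ
    obtain ⟨b, hb, hbO, hρb⟩ := hG.lift_inf τ hτ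
    exact ⟨⟨b, hbO⟩, hρb, fun P hP => regular_of_mem_chart G hb P hP⟩

/-- **MAIN from the fibre sums of the two coordinates.** -/
theorem main_of_fibreSum' (hG : G.Good) (hfin : ∀ c : A, FibreSumAt G G.x c)
    (hinf : FibreSumAt G G.x⁻¹ 0) :
    ∃ r : Place K F → Place k Fk, IsRed G r ∧ EvalCompat G r := by
  have i1 : FiniteDimensional K⟮((cx G : (ctx G).V) : F)⟯ F := hG.finite
  have i2 : FiniteDimensional k⟮(ctx G).ρ (cx G)⟯ Fk := hG.finite_k
  have hfin' : ∀ c : k, LocalCoord (ctx G) (cx G) c := by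
    intro c
    obtain ⟨a, rfl⟩ := G.π_surj c
    exact localCoord_fin G hG a (hfin a)
  obtain ⟨r, hdeg, hii, hecf, heci⟩ := exists_red_of_coord (ctx G) (cx G) (transc_cx G) hfin'
    (localCoord_inf G hG hinf)
  refine ⟨r, ⟨hdeg, fun y hy hρ D hD Q => hii ⟨y, hy⟩ hρ D hD Q⟩, ?_, ?_⟩
  · intro P a₀ ha₀ b hb hbO a hba
    rw [valAt_iff_inMax]
    exact hecf ⟨b, hbO⟩ (fun P' hP' => regular_of_mem_chart G hb P' hP') P a₀ a
      ((valAt_iff_inMax P _ _).mp ha₀) ((valAt_iff_inMax P _ _).mp hba)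
  · intro P a₀ ha₀ b hb hbO a hba
    rw [valAt_iff_inMax]
    exact heci ⟨b, hbO⟩ (fun P' hP' => regular_of_mem_chart G hb P' hP') P a₀ a
      ((valAt_iff_inMax P _ _).mp ha₀) ((valAt_iff_inMax P _ _).mp hba)

/-- an auxiliary coordinate from its data, with the reduction given by name -/
theorem auxCoord_of_eq [CharZero K] {t : F} (ht : t ∈ G.O) {s : Fk} (hs : G.red t = s)
    (htr : Transcendental k s) (h1 : FiniteDimensional K⟮t⟯ F)
    (h2 : FiniteDimensional k⟮s⟯ Fk) (h3 : Algebra.IsSeparable k⟮s⟯ Fk)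
    (h4 : Module.finrank K⟮t⟯ F = Module.finrank k⟮s⟯ Fk) : G.AuxCoord t := by
  subst hs
  exact ⟨ht, htr, h1, h2, h3, h4⟩

/-- the coordinate `x` is an auxiliary coordinate -/
theorem auxCoord_x [CharZero K] (hG : G.Good) : G.AuxCoord G.x :=
  auxCoord_of_eq G G.x_mem (H399.red_eq_of_mem G G.x_mem) G.xk_transc hG.finite hG.finite_k
    hG.sep_k hG.finrank_eq

omit [IsAlgClosed K] [IsAlgClosed k] in
theorem transport_adjoin {K F : Type u} [Field K] [Field F] [Algebra K F]
    (p : IntermediateField K F → Prop) {L L' : IntermediateField K F} (h : L = L') (hp : p L) :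
    p L' := h ▸ hp

/-- the coordinate `x⁻¹` is an auxiliary coordinate -/
theorem auxCoord_xinv [CharZero K] (hG : G.Good) : G.AuxCoord G.x⁻¹ := by
  have e1 : K⟮G.x⟯ = K⟮G.x⁻¹⟯ := Fermat.Agent.Lib.RR.adjoin_inv_eq G.x
  have e2 : k⟮G.xk⟯ = k⟮G.xk⁻¹⟯ := Fermat.Agent.Lib.RR.adjoin_inv_eq G.xk
  have htr : Transcendental k G.xk⁻¹ := by
    have := transcendental_ρ_xinv (ctx G) (cx G) (transc_cx G)
    rwa [ρ_xinv] at this
  refine auxCoord_of_eq G (xinv_mem G) (red_xinv G) htr ?_ ?_ ?_ ?_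
  · exact transport_adjoin (fun L => FiniteDimensional L F) e1 hG.finite
  · exact transport_adjoin (fun L => FiniteDimensional L Fk) e2 hG.finite_k
  · exact transport_adjoin (fun L => Algebra.IsSeparable L Fk) e2 hG.sep_k
  · have h1 : Module.finrank K⟮G.x⁻¹⟯ F = Module.finrank K⟮G.x⟯ F :=
      transport_adjoin (fun L => Module.finrank L F = Module.finrank K⟮G.x⟯ F) e1 rfl
    have h2 : Module.finrank k⟮G.xk⁻¹⟯ Fk = Module.finrank k⟮G.xk⟯ Fk :=
      transport_adjoin (fun L => Module.finrank L Fk = Module.finrank k⟮G.xk⟯ Fk) e2 rfl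
    rw [h1, h2]
    exact hG.finrank_eq

/-- **RED-MAIN from RED-A**: a datum with good charts and fibre sums has a place reduction map
with (i), (ii) and (EC). -/
theorem main_of_fibreSum [CharZero K] (hG : G.Good) (hFS : FibreSumStatement G) :
    ∃ r : Place K F → Place k Fk, IsRed G r ∧ EvalCompat G r :=
  main_of_fibreSum' G hG (fun c y hy hρ => hFS G.x (auxCoord_x G hG) y hy hρ c)
    (fun y hy hρ => hFS G.x⁻¹ (auxCoord_xinv G hG) y hy hρ 0)

end Main

/-- **`MainStatement` from `FibreSumStatement`** (RED-A ⟹ RED-MAIN). -/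
theorem mainStatement_of_fibreSum
    (h : ∀ (K k F Fk : Type u) [Field K] [Field k] [Field F] [Field Fk] [Algebra K F]
      [Algebra k Fk] [IsAlgClosed K] [CharZero K] [IsAlgClosed k] (A : ValuationSubring K)
      (π : A →+* k) (G : Datum A π F Fk), G.Good → FibreSumStatement G) :
    MainStatement.{u} :=
  fun K k F Fk _ _ _ _ _ _ _ _ _ A π G hG => main_of_fibreSum G hG (h K k F Fk A π G hG)

end Fermat.Agent.S37.Red.H940

end
end
-- ===== PACK-END S37/Red/H940/Main.lean

-- ===== PACK-BEGIN S37/Red/H160/FibreSumMain.lean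
section



/-!
# S37-RED, piece A (helper160): `FibreSumStatement G`, unconditional

`fibreSumStatement G : FibreSumStatement G` = `fibreSum` (this directory) applied to RED-A1
`H399.normRed` (helper399, on main).
-/

set_option autoImplicit false

namespace Fermat.Agent.S37.Red.H160

open Fermat.Agent.S37.Red

universe u

/-- **RED-A** (`Red/Spec.lean`): fibre sums. -/
theorem fibreSumStatement {K k F Fk : Type u} [Field K] [Field k] [Field F] [Field Fk]
    [Algebra K F] [Algebra k Fk] [IsAlgClosed K] [CharZero K] [IsAlgClosed k]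
    {A : ValuationSubring K} {π : A →+* k} (G : Datum A π F Fk) : FibreSumStatement G :=
  fibreSum G (H399.normRed G)

end Fermat.Agent.S37.Red.H160

end
-- ===== PACK-END S37/Red/H160/FibreSumMain.lean

-- ===== PACK-BEGIN S37/Core/RawES.lean
section


/-!
# S37 row (helper37): RAW Eichler-Shimura on torsion points (export for rows S29 / S30 / S42)

`rawES_of_weakRedData` : from the same hypothesis `H` as `Core.result_of_weakRedData`
(a `WeakRedData` at some level `M` and a `PullData N M ℓ`, for every `ℓ ∤ N`, `A`, Frobenius `σ₀`)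
we get, for every prime `ℓ ∤ N * p` and every `A` over `ℓ`:
* inertia at `A` fixes every `x : JZero N` with `p • x = 0`,
* every Frobenius `σ` at `A` satisfies `σ²x - T_ℓ(σ x) + ℓ x = 0` on such `x`.
This is the body of `Fermat.Agent.S29.RawESStatement` (no Hecke module structure, no commutation
hypothesis).  Fully proved.
-/

set_option autoImplicit false
set_option synthInstance.maxHeartbeats 400000

noncomputable section

namespace Fermat.Agent.S37.Core

open ModularCurve ValuationSubring AlgebraicCurve HahnSeries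

section

variable {N M : ℕ} [NeZero N] [NeZero M] {A : ValuationSubring (AlgebraicClosure ℚ)} {ℓ : ℕ}
  [NeZero ℓ] {σ₀ : AlgebraicClosure ℚ ≃ₐ[ℚ] AlgebraicClosure ℚ}

/-- `red ∘ π^*` is injective on torsion of order prime to `ℓ` -/
theorem WeakRedData.eq_zero_of_red_pull (W : WeakRedData M A ℓ σ₀) (Pd : PullData N M ℓ)
    {m : ℕ} (hm : ¬ ℓ ∣ m) {x : JZero N} (hx : m • x = 0) (h : W.red (Pd.pull x) = 0) :
    x = 0 := by
  refine Pd.inj_torsion m hm x hx ?_
  refine W.inj_torsion m hm _ ?_ h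
  rw [← map_nsmul, hx, map_zero]

/-- inertia acts trivially on torsion of order prime to `ℓ` -/
theorem WeakRedData.inertia_smul_eq (W : WeakRedData M A ℓ σ₀) (Pd : PullData N M ℓ)
    {m : ℕ} (hm : ¬ ℓ ∣ m) {τ : AlgebraicClosure ℚ ≃ₐ[ℚ] AlgebraicClosure ℚ}
    (hτ : τ ∈ A.inertiaSubgroupIn ℚ) {x : JZero N} (hx : m • x = 0) : τ • x = x := by
  rw [← sub_eq_zero]
  refine W.eq_zero_of_red_pull Pd hm ?_ ?_
  · have h1 : m • (τ • x) = τ • (m • x) := smul_comm m τ x
    have z1 : τ • (0 : JZero N) = 0 := smul_zero (A := JZero N) τ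
    rw [nsmul_sub, h1, hx, z1, sub_zero]
  · rw [map_sub, Pd.galois, map_sub, W.inertia τ hτ, sub_self]

/-- the Eichler-Shimura relation at `σ₀` on torsion of order prime to `ℓ` -/
theorem WeakRedData.relation_eq_zero (W : WeakRedData M A ℓ σ₀) (Pd : PullData N M ℓ)
    {m : ℕ} (hm : ¬ ℓ ∣ m) {x : JZero N} (hx : m • x = 0) :
    σ₀ • σ₀ • x - heckeOperatorAlong (AlgebraicClosure ℚ) N ℓ (σ₀ • x) + ℓ • x = 0 := by
  refine W.eq_zero_of_red_pull Pd hm ?_ ?_
  · have h1 : m • (σ₀ • σ₀ • x) = σ₀ • σ₀ • (m • x) := by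
      rw [smul_comm m σ₀, smul_comm m σ₀]
    have h2 : m • heckeOperatorAlong (AlgebraicClosure ℚ) N ℓ (σ₀ • x) =
        heckeOperatorAlong (AlgebraicClosure ℚ) N ℓ (σ₀ • (m • x)) := by
      rw [← map_nsmul, smul_comm m σ₀]
    have h3 : m • (ℓ • x) = ℓ • (m • x) := smul_comm m ℓ x
    have z1 : σ₀ • (0 : JZero N) = 0 := smul_zero (A := JZero N) σ₀
    have z2 : ℓ • (0 : JZero N) = 0 := smul_zero ℓ
    rw [nsmul_add, nsmul_sub, h1, h2, h3, hx, z1, z1, map_zero, sub_zero, z2, add_zero]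
  · rw [map_add, map_sub, map_nsmul, Pd.galois, Pd.galois, Pd.hecke, Pd.galois]
    exact W.relation (Pd.pull x)

end

/-- **RAW Eichler-Shimura** (body of `Fermat.Agent.S29.RawESStatement` at level `N`). -/
theorem rawES_of_weakRedData (N : ℕ) [NeZero N]
    (H : ∀ (ℓ : ℕ) (hℓ : ℓ.Prime), ¬ ℓ ∣ N →
      ∀ A : ValuationSubring (AlgebraicClosure ℚ), A.LiesOverPrime ℓ →
        ∀ σ₀ : AlgebraicClosure ℚ ≃ₐ[ℚ] AlgebraicClosure ℚ, A.IsFrobeniusAt σ₀ ℓ →
          haveI : NeZero ℓ := ⟨hℓ.ne_zero⟩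
          ∃ (M : ℕ) (_ : NeZero M), Nonempty (WeakRedData M A ℓ σ₀) ∧ Nonempty (PullData N M ℓ))
    (p : ℕ) (ℓ : ℕ) (hℓ : ℓ.Prime) (hdvd : ¬ ℓ ∣ N * p)
    (A : ValuationSubring (AlgebraicClosure ℚ)) (hA : A.LiesOverPrime ℓ) :
    (∀ σ ∈ A.inertiaSubgroupIn ℚ, ∀ x : JZero N, (p : ℤ) • x = 0 → σ • x = x) ∧
      (∀ σ : AlgebraicClosure ℚ ≃ₐ[ℚ] AlgebraicClosure ℚ, A.IsFrobeniusAt σ ℓ →
        ∀ x : JZero N, (p : ℤ) • x = 0 →
          σ • σ • x - heckeOperatorBar N ⟨ℓ, hℓ⟩ (σ • x) + (ℓ : ℤ) • x = 0) := by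
  have hℓN : ¬ ℓ ∣ N := fun h => hdvd (Dvd.dvd.mul_right h p)
  have hℓp : ¬ ℓ ∣ p := fun h => hdvd (Dvd.dvd.mul_left h N)
  haveI : NeZero ℓ := ⟨hℓ.ne_zero⟩
  constructor
  · intro τ hτ x hx
    obtain ⟨σ₀, hσ₀⟩ := Fermat.Agent.S37.H99.exists_isFrobeniusAt ℓ hℓ A hA
    obtain ⟨M, hM, ⟨W⟩, ⟨Pd⟩⟩ := H ℓ hℓ hℓN A hA σ₀ hσ₀
    refine W.inertia_smul_eq Pd hℓp hτ ?_
    rwa [natCast_zsmul] at hx
  · intro σ hσ x hx
    obtain ⟨M, hM, ⟨W⟩, ⟨Pd⟩⟩ := H ℓ hℓ hℓN A hA σ hσ
    have h := W.relation_eq_zero Pd hℓp (x := x) (by rwa [natCast_zsmul] at hx)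
    rw [natCast_zsmul]
    exact h

end Fermat.Agent.S37.Core

end
end
-- ===== PACK-END S37/Core/RawES.lean

-- ===== PACK-BEGIN S37/H697/RedDataOf.lean
section





/-!
# S37 (helper697): reduction data `H99.RedData` / `Core.WeakRedData` from named inputs

`redData_of` constructs helper99's `RedData N A ℓ hℓ` (hence, via `H99.result_of_redData`, the
frozen statement S37), and `weakRedData_of` constructs the row's final interface
`Core.WeakRedData N A ℓ σ₀`, from

* `h    : ReductionInputsModL A N`              — existence of a place reduction (good reduction),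
* `hinj : …`                                   — the conclusion of S18 (injectivity on torsion),
* `hHIA : HeckeInputsAlong ℚ̄ N ℓ`              — the Hecke correspondence is defined,
* `hK   : KroneckerNorm …`                      — Kronecker congruence for the norm of `y(q^ℓ)`,
* `hR   : RiemannBound ℚ̄ F_N`, `hdeg`           — consequences of Riemann's inequality / `FF1`.

No pointwise description of the reduction of places or of `T_ℓ` is needed.
-/

set_option autoImplicit false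
set_option linter.style.haveILetI false

noncomputable section

open HahnSeries IntermediateField AlgebraicCurve ModularCurve ValuationSubring

namespace Fermat.Agent.S37.H697

section ResidueAction

variable {K L : Type*} [Field K] [Field L] [Algebra K L] (A : ValuationSubring L)

/-- Elements of the decomposition group preserve `A`. -/
theorem apply_mem_of_mem_decompositionSubgroup {σ : L ≃ₐ[K] L}
    (hσ : σ ∈ A.decompositionSubgroup K) : ∀ a ∈ A, σ a ∈ A :=
  fun a ha => ((⟨σ, hσ⟩ : A.decompositionSubgroup K) • (⟨a, ha⟩ : A)).2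

/-- The automorphism of the residue field induced by an element of the decomposition group. -/
def resAut (d : A.decompositionSubgroup K) :
    IsLocalRing.ResidueField A ≃+* IsLocalRing.ResidueField A :=
  MulSemiringAction.toRingEquiv (A.decompositionSubgroup K) (IsLocalRing.ResidueField A) d

theorem resAut_apply (d : A.decompositionSubgroup K) (x : IsLocalRing.ResidueField A) :
    resAut A d x = d • x := rfl

theorem residue_apply_eq_resAut {σ : L ≃ₐ[K] L} (hσ : σ ∈ A.decompositionSubgroup K) (a : A) :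
    IsLocalRing.residue A ⟨σ a, apply_mem_of_mem_decompositionSubgroup A hσ a a.2⟩
      = resAut A ⟨σ, hσ⟩ (IsLocalRing.residue A a) :=
  IsLocalRing.ResidueField.residue_smul (A.decompositionSubgroup K)
    (⟨σ, hσ⟩ : A.decompositionSubgroup K) a

theorem resAut_eq_refl_of_mem_inertiaSubgroup {d : A.decompositionSubgroup K}
    (hd : d ∈ A.inertiaSubgroup K) : resAut A d = RingEquiv.refl _ := by
  have h : MulSemiringAction.toRingAut (A.decompositionSubgroup K)
      (IsLocalRing.ResidueField A) d = 1 := MonoidHom.mem_ker.mp hd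
  exact h

end ResidueAction

section Main

set_option synthInstance.maxHeartbeats 400000
set_option maxHeartbeats 1600000

variable (N : ℕ) [NeZero N] (A : ValuationSubring (AlgebraicClosure ℚ)) (ℓ : ℕ) [NeZero ℓ]

omit [NeZero N] in
/-- Equivariance of `reductionModL` for the decomposition group. -/
theorem reductionModL_smul
    (h : ReductionInputsModL A N)
    (hR : RiemannBound (AlgebraicClosure ℚ) (modularFunctionFieldBar N))
    (σ : AlgebraicClosure ℚ ≃ₐ[ℚ] AlgebraicClosure ℚ)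
    (hσ : σ ∈ A.decompositionSubgroup ℚ) (x : JZero N) :
    reductionModL A N (σ • x) = coeffSL N (resAut A ⟨σ, hσ⟩) • reductionModL A N x := by
  have hred : reductionModL A N = reductionPic0Along h.choose h.choose_spec.1 h.choose_spec.2 :=
    reductionAlong_eq h
  rw [hred]
  exact reductionPic0Along_galois_smul h.choose_spec.1 h.choose_spec.2 hR σ
    (apply_mem_of_mem_decompositionSubgroup A hσ) (resAut A ⟨σ, hσ⟩)
    (residue_apply_eq_resAut A hσ) x

omit [NeZero N] in
/-- Inertia acts trivially after reduction. -/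
theorem reductionModL_inertia
    (h : ReductionInputsModL A N)
    (hR : RiemannBound (AlgebraicClosure ℚ) (modularFunctionFieldBar N))
    (τ : AlgebraicClosure ℚ ≃ₐ[ℚ] AlgebraicClosure ℚ) (hτ : τ ∈ A.inertiaSubgroupIn ℚ)
    (x : JZero N) :
    reductionModL A N (τ • x) = reductionModL A N x := by
  obtain ⟨d, hd, rfl⟩ := hτ
  have h1 := reductionModL_smul N A h hR d.1 d.2 x
  rw [show (⟨d.1, d.2⟩ : A.decompositionSubgroup ℚ) = d from rfl,
    resAut_eq_refl_of_mem_inertiaSubgroup A hd, coeffSL_refl, one_smul] at h1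
  exact h1

omit [NeZero N] in
/-- Elements of the decomposition group preserve the kernel of the reduction. -/
theorem reductionModL_decomp_ker
    (h : ReductionInputsModL A N)
    (hR : RiemannBound (AlgebraicClosure ℚ) (modularFunctionFieldBar N))
    (σ : AlgebraicClosure ℚ ≃ₐ[ℚ] AlgebraicClosure ℚ) (hσ : σ ∈ A.decompositionSubgroup ℚ)
    (x : JZero N) (hx : reductionModL A N x = 0) :
    reductionModL A N (σ • x) = 0 := by
  rw [reductionModL_smul N A h hR σ hσ x, hx]
  exact smul_zero (A := JZeroC (IsLocalRing.ResidueField A) N) (coeffSL N (resAut A ⟨σ, hσ⟩))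

/-- The reduction of the Hecke operator: `red ∘ T_ℓ = (Φ + ℓ Φ⁻¹) ∘ red`. -/
theorem reductionModL_hecke
    (h : ReductionInputsModL A N)
    (hR : RiemannBound (AlgebraicClosure ℚ) (modularFunctionFieldBar N))
    (hdeg : ∀ P : Place (AlgebraicClosure ℚ) (modularFunctionFieldBar N), P.deg = 1)
    (hHIA : HeckeInputsAlong (AlgebraicClosure ℚ) N ℓ)
    (φ : IsLocalRing.ResidueField A ≃+* IsLocalRing.ResidueField A)
    (hK : KroneckerNorm A (IsLocalRing.residue A) N ℓ φ)
    (y : JZero N) :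
    reductionModL A N (heckeOperatorAlong (AlgebraicClosure ℚ) N ℓ y)
      = coeffSL N φ • reductionModL A N y + ℓ • ((coeffSL N φ)⁻¹ • reductionModL A N y) := by
  obtain ⟨hα, hβ, hP, hfin, hFI, hN⟩ := hHIA
  haveI := hP
  have hred : reductionModL A N = reductionPic0Along h.choose h.choose_spec.1 h.choose_spec.2 :=
    reductionAlong_eq h
  have hT : heckeOperatorAlong (AlgebraicClosure ℚ) N ℓ y = heckePic0Bar hα hβ hFI hfin hN y :=
    congrFun (congrArg DFunLike.coe (heckeOperatorAlong_eq hα hβ hFI hfin hN)) y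
  have hC : ∀ P : Place (AlgebraicClosure ℚ) (modularFunctionFieldBar N),
      l1norm (heckeDivBar hα hβ (Finsupp.single P 1))
        ≤ finrankAlong (AlgebraicClosure ℚ) (heckeBetaBar (AlgebraicClosure ℚ) N ℓ) :=
    fun P => (l1norm_heckeDivBar_single hα hβ hdeg hFI P).le
  rw [hT, hred]
  exact reductionPic0Along_hecke hα hβ h.choose_spec.1 h.choose_spec.2 hR hFI hfin hN φ hK _ hC y

/-- The Eichler–Shimura relation after reduction. -/
theorem reductionModL_relation
    (h : ReductionInputsModL A N)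
    (hR : RiemannBound (AlgebraicClosure ℚ) (modularFunctionFieldBar N))
    (hdeg : ∀ P : Place (AlgebraicClosure ℚ) (modularFunctionFieldBar N), P.deg = 1)
    (hHIA : HeckeInputsAlong (AlgebraicClosure ℚ) N ℓ)
    (hK : ∀ φ : IsLocalRing.ResidueField A ≃+* IsLocalRing.ResidueField A, (∀ x, φ x = x ^ ℓ) →
        KroneckerNorm A (IsLocalRing.residue A) N ℓ φ)
    (σ : AlgebraicClosure ℚ ≃ₐ[ℚ] AlgebraicClosure ℚ) (hσ : A.IsFrobeniusAt σ ℓ)
    (x : JZero N) :
    reductionModL A N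
      (σ • σ • x - heckeOperatorAlong (AlgebraicClosure ℚ) N ℓ (σ • x) + ℓ • x) = 0 := by
  have hσmem := hσ.mem_decompositionSubgroup
  have hφpow : ∀ y, resAut A ⟨σ, hσmem⟩ y = y ^ ℓ := fun y => hσ.smul_residue_eq y
  have h1 := reductionModL_hecke N A ℓ h hR hdeg hHIA (resAut A ⟨σ, hσmem⟩)
    (hK _ hφpow) (σ • x)
  have h2 := reductionModL_smul N A h hR σ hσmem (σ • x)
  have h3 := reductionModL_smul N A h hR σ hσmem x
  rw [h3, inv_smul_smul] at h1
  rw [map_add, map_sub, map_nsmul, h1, h2, h3, sub_add_eq_sub_sub, sub_self, zero_sub,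
    neg_add_cancel]

/-- **The row's final interface `Core.WeakRedData` from named inputs** (no pointwise
description of the reduction of places is needed). -/
def weakRedData_of
    (h : ReductionInputsModL A N)
    (hinj : Core.InjTorsionModL N ℓ A)
    (hR : RiemannBound (AlgebraicClosure ℚ) (modularFunctionFieldBar N))
    (hdeg : ∀ P : Place (AlgebraicClosure ℚ) (modularFunctionFieldBar N), P.deg = 1)
    (hHIA : HeckeInputsAlong (AlgebraicClosure ℚ) N ℓ)
    (hK : ∀ φ : IsLocalRing.ResidueField A ≃+* IsLocalRing.ResidueField A, (∀ x, φ x = x ^ ℓ) →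
        KroneckerNorm A (IsLocalRing.residue A) N ℓ φ)
    (σ₀ : AlgebraicClosure ℚ ≃ₐ[ℚ] AlgebraicClosure ℚ) (hσ₀ : A.IsFrobeniusAt σ₀ ℓ) :
    Core.WeakRedData N A ℓ σ₀ where
  Y := JZeroC (IsLocalRing.ResidueField A) N
  instY := inferInstance
  red := reductionModL A N
  inertia := fun τ hτ x => reductionModL_inertia N A h hR τ hτ x
  inj_torsion := fun m hm x hmx hx => hinj h m hm x hmx hx
  relation := fun x => reductionModL_relation N A ℓ h hR hdeg hHIA hK σ₀ hσ₀ x

/-- **helper99's reduction data from named inputs.** -/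
theorem redData_of (hℓ : ℓ.Prime)
    (h : ReductionInputsModL A N)
    (hinj : Core.InjTorsionModL N ℓ A)
    (hR : RiemannBound (AlgebraicClosure ℚ) (modularFunctionFieldBar N))
    (hdeg : ∀ P : Place (AlgebraicClosure ℚ) (modularFunctionFieldBar N), P.deg = 1)
    (hHIA : HeckeInputsAlong (AlgebraicClosure ℚ) N ℓ)
    (hK : ∀ φ : IsLocalRing.ResidueField A ≃+* IsLocalRing.ResidueField A, (∀ x, φ x = x ^ ℓ) →
        KroneckerNorm A (IsLocalRing.residue A) N ℓ φ) :
    Nonempty (H99.RedData N A ℓ hℓ) :=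
  ⟨{ Y := JZeroC (IsLocalRing.ResidueField A) N
     instY := inferInstance
     red := reductionModL A N
     inertia := fun τ hτ x => reductionModL_inertia N A h hR τ hτ x
     frob_ker := fun σ hσ x hx =>
       reductionModL_decomp_ker N A h hR σ hσ.mem_decompositionSubgroup x hx
     inj_torsion := fun m x hm hmx hx =>
       hinj h m ((Nat.Prime.coprime_iff_not_dvd hℓ).mp (Nat.Coprime.symm hm)) x hmx hx
     relation := fun σ hσ x => reductionModL_relation N A ℓ h hR hdeg hHIA hK σ hσ x }⟩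

end Main

end Fermat.Agent.S37.H697

end
end
-- ===== PACK-END S37/H697/RedDataOf.lean

-- ===== PACK-BEGIN S19/H195/PencilLift.lean
section


/-!
# A3 / GR-GENUS (helper195), part 1: the pencil lifting lemma on the special fibre

Setting: a function field `Fk / k` with `[FF1 k Fk]`, a function `x ∈ Fk` and a divisor `D` of
positive degree such that `(1, x)` is a base-point-free pencil in `L(D)` (`D` = the polar divisor
of `x`), and an increasing family of `k`-subspaces `U 0 ≤ U 1 ≤ ⋯` of `Fk` with `x • U m ≤ U (m+1)`.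

`L_le_of_torsion`: if every `ψ ∈ L(m D)` lies in some `U j` ("`T₀`-torsion") and for every
`ψ ∈ L(m D)` some `x ^ (j - m) ψ` lies in `U j`, `j ≥ m` ("`T₁`-torsion"), then `L(M D) ≤ U M`
for all large `M`.

This is the graded Serre argument for `⊕ U m ⊆ ⊕ L(m D)` over `k[T₀, T₁]`, made elementary by the
base-point-free pencil trick `L((m+1) D) = L(m D) + x L(m D)` (`Lib.RR.H259.pencil_trick`).

Application (`GenusGood.lean`): `U m = ρ (B_fin ∩ x ^ m B_inf)` for a reduction datum with normal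
special fibre; the conclusion is integral Riemann–Roch surjectivity for the multiples of the polar
divisor of the coordinate, WITHOUT saturation or finiteness of the Čech `H¹` over the valuation
ring.
-/

set_option autoImplicit false

noncomputable section

open AlgebraicCurve

namespace Fermat.Agent.S19.H195

open Fermat.Agent.Lib.RR

variable {k Fk : Type*} [Field k] [Field Fk] [Algebra k Fk]

/-- an increasing family -/
theorem filt_mono (U : ℕ → Submodule k Fk) (hmono : ∀ m, U m ≤ U (m + 1)) {a b : ℕ}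
    (h : a ≤ b) : U a ≤ U b :=
  monotone_nat_of_le_succ hmono h

/-- `x ^ i • U a ≤ U (a + i)` -/
theorem filt_pow_mul_mem (x : Fk) (U : ℕ → Submodule k Fk)
    (hmul : ∀ m, ∀ f ∈ U m, x * f ∈ U (m + 1)) (i a : ℕ) {f : Fk} (hf : f ∈ U a) :
    x ^ i * f ∈ U (a + i) := by
  induction i with
  | zero => simpa using hf
  | succ i ih =>
    have h := hmul (a + i) _ ih
    rw [← mul_assoc, ← pow_succ'] at h
    exact h

/-- `(m + 1) D = m D + D` -/
theorem natCast_succ_smul (D : Divisor k Fk) (m : ℕ) :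
    ((m + 1 : ℕ) : ℤ) • D = (m : ℤ) • D + D := by
  rw [Nat.cast_succ, add_smul, one_smul]

/-- the span of `x ^ i L(m₀ D)`, `i ≤ j` -/
def pencilSpan (x : Fk) (D : Divisor k Fk) (m₀ j : ℕ) : Submodule k Fk :=
  Submodule.span k {f | ∃ i ≤ j, ∃ ψ ∈ riemannRochSpace ((m₀ : ℤ) • D), f = x ^ i * ψ}

theorem pencilSpan_mono (x : Fk) (D : Divisor k Fk) (m₀ : ℕ) {j j' : ℕ} (h : j ≤ j') :
    pencilSpan x D m₀ j ≤ pencilSpan x D m₀ j' := by
  refine Submodule.span_mono ?_
  rintro f ⟨i, hi, ψ, hψ, rfl⟩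
  exact ⟨i, hi.trans h, ψ, hψ, rfl⟩

theorem mul_mem_pencilSpan (x : Fk) (D : Divisor k Fk) (m₀ j : ℕ) {f : Fk}
    (hf : f ∈ pencilSpan x D m₀ j) : x * f ∈ pencilSpan x D m₀ (j + 1) := by
  unfold pencilSpan at hf
  induction hf using Submodule.span_induction with
  | mem f hf =>
    obtain ⟨i, hi, ψ, hψ, rfl⟩ := hf
    refine Submodule.subset_span ⟨i + 1, by omega, ψ, hψ, ?_⟩
    rw [pow_succ', mul_assoc]
  | zero => simp
  | add f g _ _ hf hg =>
    rw [mul_add]
    exact Submodule.add_mem _ hf hg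
  | smul c f _ hf =>
    rw [mul_smul_comm]
    exact Submodule.smul_mem _ c hf

/-- **Pencil decomposition**: `L((m₀ + j) D) ≤ ∑_{i ≤ j} x ^ i L(m₀ D)` as soon as the pencil trick
applies from `m₀` on. -/
theorem L_le_pencilSpan [FF1 k Fk] (x : Fk) (D : Divisor k Fk)
    (hpen : H259.IsBpfPencil D 1 x) (m₀ : ℕ)
    (hm₀ : Divisor.degree D + 2 * (genusFF k Fk : ℤ) - 1 ≤ (m₀ : ℤ) * Divisor.degree D)
    (j : ℕ) : riemannRochSpace (((m₀ + j : ℕ) : ℤ) • D) ≤ pencilSpan x D m₀ j := by
  have hD0 : 0 ≤ Divisor.degree D := hpen.degree_nonneg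
  induction j with
  | zero =>
    intro f hf
    refine Submodule.subset_span ⟨0, le_rfl, f, ?_, by simp⟩
    simpa using hf
  | succ j ih =>
    intro f hf
    have hf' : f ∈ riemannRochSpace (((m₀ + j : ℕ) : ℤ) • D + D) := by
      rw [← natCast_succ_smul]
      exact hf
    have hdeg : Divisor.degree D + 2 * (genusFF k Fk : ℤ) - 1 ≤
        Divisor.degree (((m₀ + j : ℕ) : ℤ) • D) := by
      rw [map_zsmul, smul_eq_mul]
      have h1 : (m₀ : ℤ) * Divisor.degree D ≤ ((m₀ + j : ℕ) : ℤ) * Divisor.degree D := by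
        apply mul_le_mul_of_nonneg_right _ hD0
        exact_mod_cast Nat.le_add_right m₀ j
      omega
    obtain ⟨a, ha, b, hb, hab⟩ := H259.pencil_trick hpen hdeg hf'
    rw [hab, one_mul]
    exact Submodule.add_mem _ (pencilSpan_mono x D m₀ (Nat.le_succ j) (ih ha))
      (mul_mem_pencilSpan x D m₀ j (ih hb))

/-- **The pencil lifting lemma.** -/
theorem L_le_of_torsion [FF1 k Fk] (x : Fk) (D : Divisor k Fk)
    (hpen : H259.IsBpfPencil D 1 x) (hdeg : 0 < Divisor.degree D)
    (U : ℕ → Submodule k Fk) (hmono : ∀ m, U m ≤ U (m + 1))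
    (hmul : ∀ m, ∀ f ∈ U m, x * f ∈ U (m + 1))
    (hT0 : ∀ m : ℕ, ∀ ψ ∈ riemannRochSpace ((m : ℤ) • D), ∃ j, ψ ∈ U j)
    (hT1 : ∀ m : ℕ, ∀ ψ ∈ riemannRochSpace ((m : ℤ) • D), ∃ j, m ≤ j ∧ x ^ (j - m) * ψ ∈ U j) :
    ∃ M₀ : ℕ, ∀ M : ℕ, M₀ ≤ M → riemannRochSpace ((M : ℤ) • D) ≤ U M := by
  classical
  -- the level from which the pencil trick applies
  set m₀ : ℕ := 2 * genusFF k Fk + 1 with hm₀def
  have hm₀ : Divisor.degree D + 2 * (genusFF k Fk : ℤ) - 1 ≤ (m₀ : ℤ) * Divisor.degree D := by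
    rw [hm₀def]
    push_cast
    nlinarith
  -- a basis of `L(m₀ D)`
  let bs := Module.finBasis k (riemannRochSpace ((m₀ : ℤ) • D))
  have h0 : ∀ l, ∃ j, ((bs l : riemannRochSpace ((m₀ : ℤ) • D)) : Fk) ∈ U j :=
    fun l => hT0 m₀ _ (bs l).2
  have h1 : ∀ l, ∃ j, m₀ ≤ j ∧
      x ^ (j - m₀) * ((bs l : riemannRochSpace ((m₀ : ℤ) • D)) : Fk) ∈ U j :=
    fun l => hT1 m₀ _ (bs l).2
  choose a ha using h0
  choose c hc hc' using h1
  -- a common bound
  obtain ⟨J, hJ⟩ : ∃ J : ℕ, ∀ l, a l ≤ J ∧ c l ≤ J := by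
    refine ⟨(Finset.univ.sup a) ⊔ (Finset.univ.sup c), fun l => ⟨?_, ?_⟩⟩
    · exact le_sup_of_le_left (Finset.le_sup (f := a) (Finset.mem_univ l))
    · exact le_sup_of_le_right (Finset.le_sup (f := c) (Finset.mem_univ l))
  -- every element of `L(m₀ D)` is a combination of the basis
  have hrepr : ∀ ψ ∈ riemannRochSpace ((m₀ : ℤ) • D),
      ψ ∈ Submodule.span k (Set.range fun l => ((bs l : riemannRochSpace ((m₀ : ℤ) • D)) : Fk)) := by
    intro ψ hψ
    have h2 : (⟨ψ, hψ⟩ : riemannRochSpace ((m₀ : ℤ) • D)) ∈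
        Submodule.span k (Set.range bs) := by
      rw [bs.span_eq]; exact Submodule.mem_top
    have h3 := Submodule.mem_map_of_mem (f := (riemannRochSpace ((m₀ : ℤ) • D)).subtype) h2
    rw [Submodule.map_span, ← Set.range_comp] at h3
    exact h3
  -- (α) `L(m₀ D) ≤ U J`
  have hα : ∀ ψ ∈ riemannRochSpace ((m₀ : ℤ) • D), ψ ∈ U J := by
    intro ψ hψ
    refine (Submodule.span_le (p := U J)).mpr ?_ (hrepr ψ hψ)
    rintro _ ⟨l, rfl⟩
    exact filt_mono U hmono (hJ l).1 (ha l)
  -- (β) `x ^ (j - m₀) L(m₀ D) ≤ U j` for `j ≥ J`, `j ≥ m₀`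
  have hβ : ∀ j, J ≤ j → ∀ ψ ∈ riemannRochSpace ((m₀ : ℤ) • D), x ^ (j - m₀) * ψ ∈ U j := by
    intro j hj ψ hψ
    have hsub : Submodule.span k
        (Set.range fun l => ((bs l : riemannRochSpace ((m₀ : ℤ) • D)) : Fk)) ≤
        (U j).comap (LinearMap.mulLeft k (x ^ (j - m₀))) := by
      rw [Submodule.span_le]
      rintro _ ⟨l, rfl⟩
      show x ^ (j - m₀) * ((bs l : riemannRochSpace ((m₀ : ℤ) • D)) : Fk) ∈ U j
      have hcl : c l ≤ j := (hJ l).2.trans hj
      have h4 := filt_pow_mul_mem x U hmul (j - c l) (c l) (hc' l)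
      rw [← mul_assoc, ← pow_add] at h4
      have e1 : j - c l + (c l - m₀) = j - m₀ := by have := hc l; omega
      have e2 : c l + (j - c l) = j := by omega
      rw [e1, e2] at h4
      exact h4
    exact hsub (hrepr ψ hψ)
  refine ⟨max (2 * J) m₀, fun M hM => ?_⟩
  have hM1 : 2 * J ≤ M := (le_max_left _ _).trans hM
  have hM2 : m₀ ≤ M := (le_max_right _ _).trans hM
  have hMeq : M = m₀ + (M - m₀) := by omega
  have hL := L_le_pencilSpan x D hpen m₀ hm₀ (M - m₀)
  rw [← hMeq] at hL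
  refine hL.trans ?_
  unfold pencilSpan
  rw [Submodule.span_le]
  rintro _ ⟨i, hi, ψ, hψ, rfl⟩
  by_cases hcase : i + J ≤ M
  · -- route `T₀`
    have h5 := filt_pow_mul_mem x U hmul i J (hα ψ hψ)
    exact filt_mono U hmono (by omega) h5
  · -- route `T₁`
    have hJi : J ≤ m₀ + i := by omega
    have h6 := hβ (m₀ + i) hJi ψ hψ
    rw [Nat.add_sub_cancel_left] at h6
    exact filt_mono U hmono (by omega) h6

end Fermat.Agent.S19.H195

end

end
-- ===== PACK-END S19/H195/PencilLift.lean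

-- ===== PACK-BEGIN S19/H195/GenusGood.lean
section








/-!
# A3 / GR-GENUS (helper195), part 2: `g(F) ≤ g(F_k)` from good charts

For a reduction datum `G : S37.Red.Datum A π F Fk` with good charts (`G.Good`: equal degrees over
the coordinate line and normality of the special fibre in the lifting form `lift_fin`, `lift_inf`)
over algebraically closed constants:

* `Datum.exists_lift_polar` : **integral Riemann–Roch surjectivity** — for all large `M` every
  `ψ ∈ L_k(M D̄_∞)` is the reduction of some `f ∈ O ∩ L(M D_∞)` (`D_∞`, `D̄_∞` the polar divisors of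
  the coordinate `x` and of its reduction `x̄`);
* `Datum.ell_polar_le`      : `ℓ_k(M D̄_∞) ≤ ℓ(M D_∞)` for all large `M`;
* `Datum.genusFF_le_of_good`: `genusFF K F ≤ genusFF k Fk`.

Only `lift_fin`, `lift_inf`, `finite`, `finite_k`, `finrank_eq` of `G.Good` are used: no
saturation, no finiteness of the Čech `H¹` over `A`, no place map `r`, no Gauss lemma.
Proof: `U m := ρ (B_fin ∩ x ^ m B_inf)` and the pencil lifting lemma `L_le_of_torsion`.
-/

set_option autoImplicit false
set_option linter.style.haveILetI false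
set_option linter.unusedSectionVars false

noncomputable section

open AlgebraicCurve Polynomial

namespace Fermat.Agent.S19.H195

open Fermat.Agent.Lib.RR Fermat.Agent.S37.Red

/-! ## 1. Scaling integral elements -/

section Scaling

variable {F : Type*} [Field F]

/-- every element of `C[t⁻¹]` becomes an element of `C[t]` after multiplication by a large power
of `t` -/
theorem exists_pow_mul_mem_closure (C : Subring F) {t : F} (ht : t ≠ 0) {c : F}
    (hc : c ∈ C ⊔ Subring.closure {t⁻¹}) :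
    ∃ i₀ : ℕ, ∀ i, i₀ ≤ i → t ^ i * c ∈ C ⊔ Subring.closure {t} := by
  have htmem : t ∈ C ⊔ Subring.closure {t} :=
    (le_sup_right : Subring.closure {t} ≤ _) (Subring.subset_closure rfl)
  have hpow : ∀ i : ℕ, t ^ i ∈ C ⊔ Subring.closure {t} := fun i => Subring.pow_mem _ htmem i
  have hsup : C ⊔ Subring.closure {t⁻¹} = Subring.closure ((C : Set F) ∪ {t⁻¹}) := by
    rw [Subring.closure_union, Subring.closure_eq]
  rw [hsup] at hc
  induction hc using Subring.closure_induction with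
  | mem c hc =>
    rcases hc with hc | hc
    · exact ⟨0, fun i _ => Subring.mul_mem _ (hpow i) ((le_sup_left : C ≤ _) hc)⟩
    · rw [Set.mem_singleton_iff] at hc
      subst hc
      refine ⟨1, fun i hi => ?_⟩
      obtain ⟨j, rfl⟩ : ∃ j, i = j + 1 := ⟨i - 1, by omega⟩
      rw [pow_succ, mul_assoc, mul_inv_cancel₀ ht, mul_one]
      exact hpow j
  | zero => exact ⟨0, fun i _ => by rw [mul_zero]; exact Subring.zero_mem _⟩
  | one => exact ⟨0, fun i _ => by rw [mul_one]; exact hpow i⟩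
  | add a b _ _ ha hb =>
    obtain ⟨ia, hia⟩ := ha
    obtain ⟨ib, hib⟩ := hb
    refine ⟨max ia ib, fun i hi => ?_⟩
    rw [mul_add]
    exact Subring.add_mem _ (hia i ((le_max_left _ _).trans hi))
      (hib i ((le_max_right _ _).trans hi))
  | neg a _ ha =>
    obtain ⟨ia, hia⟩ := ha
    refine ⟨ia, fun i hi => ?_⟩
    rw [mul_neg]
    exact Subring.neg_mem _ (hia i hi)
  | mul a b _ _ ha hb =>
    obtain ⟨ia, hia⟩ := ha
    obtain ⟨ib, hib⟩ := hb
    refine ⟨ia + ib, fun i hi => ?_⟩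
    have e : t ^ i * (a * b) = (t ^ ia * a) * (t ^ (i - ia) * b) := by
      have : i = ia + (i - ia) := by omega
      conv_lhs => rw [this, pow_add]
      ring
    rw [e]
    exact Subring.mul_mem _ (hia ia le_rfl) (hib (i - ia) (by omega))

/-- **Scaling**: an element integral over `C[t⁻¹]` becomes integral over `C[t]` after
multiplication by a large power of `t`. -/
theorem exists_pow_mul_isIntegral (C : Subring F) {t : F} (ht : t ≠ 0) {b : F}
    (hb : IsIntegral (C ⊔ Subring.closure {t⁻¹} : Subring F) b) :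
    ∃ i₀ : ℕ, ∀ i, i₀ ≤ i → IsIntegral (C ⊔ Subring.closure {t} : Subring F) (t ^ i * b) := by
  classical
  rw [H759.isIntegral_subring_iff] at hb
  obtain ⟨P, hP, hcoeff, hPb⟩ := hb
  have h1 : ∀ l : ℕ, ∃ i₀ : ℕ, ∀ i, i₀ ≤ i → t ^ i * P.coeff l ∈ C ⊔ Subring.closure {t} :=
    fun l => exists_pow_mul_mem_closure C ht (hcoeff l)
  choose thr hthr using h1
  refine ⟨(Finset.range (P.natDegree + 1)).sup thr + 1, fun i hi => ?_⟩
  rw [H759.isIntegral_subring_iff]
  refine ⟨P.scaleRoots (t ^ i), (monic_scaleRoots_iff _).mpr hP, fun l => ?_, ?_⟩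
  · rw [coeff_scaleRoots]
    rcases lt_trichotomy l P.natDegree with hl | hl | hl
    · -- `l < n`
      have hle : thr l ≤ i * (P.natDegree - l) := by
        have h2 : thr l ≤ (Finset.range (P.natDegree + 1)).sup thr :=
          Finset.le_sup (f := thr) (Finset.mem_range.mpr (by omega))
        have h3 : i ≤ i * (P.natDegree - l) := Nat.le_mul_of_pos_right i (by omega)
        omega
      rw [← pow_mul, mul_comm]
      exact hthr l _ hle
    · -- `l = n`
      subst hl
      rw [Nat.sub_self, pow_zero, mul_one]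
      have : P.coeff P.natDegree = 1 := hP
      rw [this]
      exact Subring.one_mem _
    · rw [coeff_eq_zero_of_natDegree_lt hl, zero_mul]
      exact Subring.zero_mem _
  · rw [scaleRoots_eval_mul, hPb, mul_zero]

end Scaling

/-! ## 2. Polar divisors -/

section Polar

variable {K F : Type*} [Field K] [Field F] [Algebra K F]

/-- the polar divisor of a nonzero function -/
theorem exists_polar [HasPrincipalDivisors K F] {f : F} (hf : f ≠ 0) :
    ∃ D : Divisor K F, ∀ P : Place K F, D P = max 0 (-(P.ord f)) := by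
  obtain ⟨D₀, hD₀, -⟩ := HasPrincipalDivisors.exists_divisor (K := K) f hf
  refine ⟨D₀.mapRange (fun n : ℤ => max 0 (-n)) (by simp), fun P => ?_⟩
  rw [Finsupp.mapRange_apply, hD₀]

/-- `(1, x)` is a base-point-free pencil in `L(D_∞)` -/
theorem isBpfPencil_polar {x : F} (hx : x ≠ 0) {D : Divisor K F}
    (hD : ∀ P : Place K F, D P = max 0 (-(P.ord x))) : H259.IsBpfPencil D 1 x where
  mem₁ := by
    rw [mem_L_iff]
    intro v
    right
    rw [Place.ord_one, hD]
    have := le_max_left (0 : ℤ) (-(v.ord x))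
    omega
  mem₂ := by
    rw [mem_L_iff]
    intro v
    right
    rw [hD]
    have := le_max_right (0 : ℤ) (-(v.ord x))
    omega
  ne_zero := one_ne_zero
  bpf := by
    intro v
    rw [hD, Place.ord_one]
    rcases le_or_gt 0 (v.ord x) with h | h
    · left
      rw [max_eq_left (by omega)]
      rfl
    · right
      refine ⟨hx, ?_⟩
      rw [max_eq_right (by omega)]
      omega

/-- the degree of the polar divisor is the degree of the function -/
theorem degree_polar [IsAlgClosed K] {x : F} (hx : Transcendental K x)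
    [FiniteDimensional (IntermediateField.adjoin K {x}) F] {D : Divisor K F}
    (hD : ∀ P : Place K F, D P = max 0 (-(P.ord x))) :
    Divisor.degree D = (Module.finrank (IntermediateField.adjoin K {x}) F : ℤ) := by
  have hS : ∀ v : Place K F, v ∈ D.support ↔ v.ord x < 0 := by
    intro v
    rw [Finsupp.mem_support_iff, hD]
    constructor
    · intro h
      by_contra h'
      exact h (max_eq_left (by omega))
    · intro h
      rw [max_eq_right (by omega)]
      omega
  rw [← H443.sum_ord_poles_eq_finrank' hx D.support hS, degree_eq_sum]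
  refine Finset.sum_congr rfl fun v hv => ?_
  rw [H443.deg_eq_one_of_isAlgClosed hx v, Nat.cast_one, mul_one, hD]
  have := (hS v).mp hv
  exact max_eq_right (by omega)

end Polar

/-! ## 3. The charts of a reduction datum -/

section Datum

universe u

variable {K k F Fk : Type u} [Field K] [Field k] [Field F] [Field Fk]
  [Algebra K F] [Algebra k Fk] {A : ValuationSubring K} {π : A →+* k} (G : Datum A π F Fk)

namespace GenusGood

/-- `x ^ i b ∈ B_fin` for `b ∈ B_inf` and `i` large -/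
theorem loc_inf {b : F} (hb : b ∈ G.chart G.x⁻¹) :
    ∃ i₀ : ℕ, ∀ i, i₀ ≤ i → G.x ^ i * b ∈ G.chart G.x :=
  exists_pow_mul_isIntegral G.constRing (H144.x_ne_zero G) hb

/-- `x ^ (-i) b ∈ B_inf` for `b ∈ B_fin` and `i` large -/
theorem loc_fin {b : F} (hb : b ∈ G.chart G.x) :
    ∃ i₀ : ℕ, ∀ i, i₀ ≤ i → G.x⁻¹ ^ i * b ∈ G.chart G.x⁻¹ := by
  have hb' : IsIntegral (G.constRing ⊔ Subring.closure {(G.x⁻¹)⁻¹} : Subring F) b := by
    rw [inv_inv]
    exact hb
  exact exists_pow_mul_isIntegral G.constRing (inv_ne_zero (H144.x_ne_zero G)) hb'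

/-- constants of `A` lie in every chart -/
theorem const_mem_chart (t : F) (a : A) : algebraMap K F (a : K) ∈ G.chart t :=
  H144.polyRing_le_chart G t (H144.const_mem_polyRing G t a)

/-- **The lattice `U m = ρ (B_fin ∩ x ^ m B_inf)`**, a `k`-subspace of `F_k`. -/
def U (m : ℕ) : Submodule k Fk where
  carrier := {ψ | ∃ b, b ∈ G.chart G.x ∧ G.x⁻¹ ^ m * b ∈ G.chart G.x⁻¹ ∧
    ∃ hb : b ∈ G.O, G.ρ ⟨b, hb⟩ = ψ}
  zero_mem' := ⟨0, Subring.zero_mem _, by rw [mul_zero]; exact Subring.zero_mem _,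
    G.O.zero_mem, map_zero _⟩
  add_mem' := by
    rintro _ _ ⟨b, hb1, hb2, hbO, rfl⟩ ⟨b', hb1', hb2', hbO', rfl⟩
    refine ⟨b + b', Subring.add_mem _ hb1 hb1', ?_, G.O.add_mem _ _ hbO hbO', ?_⟩
    · rw [mul_add]
      exact Subring.add_mem _ hb2 hb2'
    · rw [← map_add]
      rfl
  smul_mem' := by
    rintro c _ ⟨b, hb1, hb2, hbO, rfl⟩
    obtain ⟨a, rfl⟩ := G.π_surj c
    refine ⟨algebraMap K F (a : K) * b, Subring.mul_mem _ (const_mem_chart G _ a) hb1, ?_,
      G.O.mul_mem _ _ (G.const_mem a) hbO, ?_⟩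
    · rw [mul_left_comm]
      exact Subring.mul_mem _ (const_mem_chart G _ a) hb2
    · have h1 : (⟨algebraMap K F (a : K) * b, G.O.mul_mem _ _ (G.const_mem a) hbO⟩ : G.O) =
          ⟨algebraMap K F (a : K), G.const_mem a⟩ * ⟨b, hbO⟩ := rfl
      rw [h1, map_mul, G.ρ_const, Algebra.smul_def]

theorem mem_U {m : ℕ} {ψ : Fk} : ψ ∈ U G m ↔ ∃ b, b ∈ G.chart G.x ∧
    G.x⁻¹ ^ m * b ∈ G.chart G.x⁻¹ ∧ ∃ hb : b ∈ G.O, G.ρ ⟨b, hb⟩ = ψ := Iff.rfl

theorem U_mono (m : ℕ) : U G m ≤ U G (m + 1) := by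
  rintro _ ⟨b, hb1, hb2, hbO, rfl⟩
  refine ⟨b, hb1, ?_, hbO, rfl⟩
  rw [pow_succ', mul_assoc]
  exact Subring.mul_mem _ (H144.self_mem_chart G _) hb2

theorem U_mul (m : ℕ) : ∀ f ∈ U G m, G.xk * f ∈ U G (m + 1) := by
  rintro _ ⟨b, hb1, hb2, hbO, rfl⟩
  refine ⟨G.x * b, Subring.mul_mem _ (H144.self_mem_chart G _) hb1, ?_,
    G.O.mul_mem _ _ G.x_mem hbO, ?_⟩
  · have e : G.x⁻¹ ^ (m + 1) * (G.x * b) = G.x⁻¹ ^ m * b := by
      rw [pow_succ, mul_assoc, ← mul_assoc G.x⁻¹, inv_mul_cancel₀ (H144.x_ne_zero G), one_mul]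
    rw [e]
    exact hb2
  · have h1 : (⟨G.x * b, G.O.mul_mem _ _ G.x_mem hbO⟩ : G.O) = ⟨G.x, G.x_mem⟩ * ⟨b, hbO⟩ := rfl
    rw [h1, map_mul]
    rfl

/-- **Regular functions are integral**: a function of `F_k` which is regular at every place
where `s` is regular is integral over `k[s]`. -/
theorem mem_chartk_of_regular [IsAlgClosed k] [FiniteDimensional (IntermediateField.adjoin k {G.xk}) Fk]
    (s : Fk) {ψ : Fk}
    (h : ∀ Q : Place k Fk, s ∈ Q.toValuationSubring → ψ ∈ Q.toValuationSubring) :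
    ψ ∈ G.chartk s := by
  have key := iInf_valuationSubring_superset (K := Fk)
    (s := Set.range (algebraMap k Fk) ∪ {s})
  have hψ : ψ ∈ ⨅ V : {V : ValuationSubring Fk //
      Set.range (algebraMap k Fk) ∪ {s} ⊆ V.toSubring}, V.1.toSubring := by
    rw [Subring.mem_iInf]
    rintro ⟨V, hV⟩
    show ψ ∈ V
    by_cases htop : V = ⊤
    · rw [htop]; exact ValuationSubring.mem_top ψ
    · have hK : ∀ a : k, algebraMap k Fk a ∈ V := fun a => hV (Or.inl ⟨a, rfl⟩)
      have hxt : Transcendental k G.xk := G.xk_transc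
      obtain ⟨Q, hQ⟩ := H443.exists_place_eq V hK htop hxt
      have hs : s ∈ Q.toValuationSubring := by
        rw [hQ]
        exact hV (Or.inr rfl)
      have := h Q hs
      rwa [hQ] at this
  rw [key] at hψ
  have h1 : IsIntegral (Subring.closure (Set.range (algebraMap k Fk) ∪ {s})) ψ := hψ
  have h2 : IsIntegral (Algebra.adjoin k {s}).toSubring ψ := by
    refine H759.isIntegral_subring_mono ?_ h1
    rw [Algebra.adjoin_eq_ring_closure]
  exact (H759.isIntegral_subalgebra_iff (Algebra.adjoin k {s}) ψ).mpr h2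

variable [IsAlgClosed k] [FF1 k Fk]

/-- `T₀`-torsion: every `ψ ∈ L_k(m D̄_∞)` lies in some `U j`. -/
theorem U_T0 (hG : G.Good) {Dk : Divisor k Fk}
    (hDk : ∀ Q : Place k Fk, Dk Q = max 0 (-(Q.ord G.xk))) (m : ℕ) :
    ∀ ψ ∈ riemannRochSpace ((m : ℤ) • Dk), ∃ j, ψ ∈ U G j := by
  intro ψ hψ
  haveI := hG.finite_k
  have hreg : ∀ Q : Place k Fk, G.xk ∈ Q.toValuationSubring → ψ ∈ Q.toValuationSubring := by
    intro Q hQ
    rcases eq_or_ne ψ 0 with rfl | hψ0
    · exact Q.toValuationSubring.zero_mem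
    have h1 := (mem_L_iff.mp hψ Q).resolve_left hψ0
    rw [Finsupp.smul_apply, smul_eq_mul, hDk,
      max_eq_left (by have := (mem_iff_ord_nonneg Q G.xk).mp hQ; omega), mul_zero,
      neg_zero] at h1
    exact (mem_iff_ord_nonneg Q ψ).mpr h1
  obtain ⟨b, hb, hbO, hρ⟩ := hG.lift_fin ψ (mem_chartk_of_regular G G.xk hreg)
  obtain ⟨i₀, hi₀⟩ := loc_fin G hb
  exact ⟨i₀, b, hb, hi₀ i₀ le_rfl, hbO, hρ⟩

/-- `T₁`-torsion: for every `ψ ∈ L_k(m D̄_∞)` some `x̄ ^ (j - m) ψ` lies in `U j`. -/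
theorem U_T1 (hG : G.Good) {Dk : Divisor k Fk}
    (hDk : ∀ Q : Place k Fk, Dk Q = max 0 (-(Q.ord G.xk))) (m : ℕ) :
    ∀ ψ ∈ riemannRochSpace ((m : ℤ) • Dk), ∃ j, m ≤ j ∧ G.xk ^ (j - m) * ψ ∈ U G j := by
  intro ψ hψ
  haveI := hG.finite_k
  have hxk0 : G.xk ≠ 0 := H144.xk_ne_zero G
  have hx0 : G.x ≠ 0 := H144.x_ne_zero G
  have hreg : ∀ Q : Place k Fk, G.xk⁻¹ ∈ Q.toValuationSubring →
      G.xk⁻¹ ^ m * ψ ∈ Q.toValuationSubring := by
    intro Q hQ
    rcases eq_or_ne ψ 0 with rfl | hψ0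
    · rw [mul_zero]; exact Q.toValuationSubring.zero_mem
    have h1 := (mem_L_iff.mp hψ Q).resolve_left hψ0
    rw [Finsupp.smul_apply, smul_eq_mul, hDk] at h1
    have h2 : 0 ≤ Q.ord G.xk⁻¹ := (mem_iff_ord_nonneg Q _).mp hQ
    rw [Q.ord_inv] at h2
    rw [max_eq_right (by omega)] at h1
    apply (mem_iff_ord_nonneg Q _).mpr
    rw [Q.ord_mul (pow_ne_zero _ (inv_ne_zero hxk0)) hψ0, ord_pow, Q.ord_inv]
    nlinarith
  obtain ⟨b', hb', hbO', hρ'⟩ := hG.lift_inf _ (mem_chartk_of_regular G G.xk⁻¹ hreg)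
  obtain ⟨i₀, hi₀⟩ := loc_inf G hb'
  refine ⟨max i₀ m, le_max_right _ _, G.x ^ (max i₀ m) * b', hi₀ _ (le_max_left _ _), ?_,
    G.O.mul_mem _ _ (G.O.pow_mem G.x_mem _) hbO', ?_⟩
  · have e : G.x⁻¹ ^ (max i₀ m) * (G.x ^ (max i₀ m) * b') = b' := by
      rw [← mul_assoc, ← mul_pow, inv_mul_cancel₀ hx0, one_pow, one_mul]
    rw [e]
    exact hb'
  · have h1 : (⟨G.x ^ (max i₀ m) * b', G.O.mul_mem _ _ (G.O.pow_mem G.x_mem _) hbO'⟩ : G.O) =
        ⟨G.x, G.x_mem⟩ ^ (max i₀ m) * ⟨b', hbO'⟩ := rfl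
    rw [h1, map_mul, map_pow, hρ']
    show G.xk ^ (max i₀ m) * (G.xk⁻¹ ^ m * ψ) = G.xk ^ (max i₀ m - m) * ψ
    have hm : max i₀ m = (max i₀ m - m) + m := by
      have := le_max_right i₀ m
      omega
    conv_lhs => rw [hm, pow_add]
    rw [mul_assoc, ← mul_assoc (G.xk ^ m), ← mul_pow, mul_inv_cancel₀ hxk0, one_pow, one_mul]

/-- elements of `B_fin ∩ x ^ M B_inf` lie in `L(M D_∞)` -/
theorem mem_L_of_mem_charts {D : Divisor K F}
    (hD : ∀ P : Place K F, D P = max 0 (-(P.ord G.x))) {M : ℕ} {b : F}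
    (hb1 : b ∈ G.chart G.x) (hb2 : G.x⁻¹ ^ M * b ∈ G.chart G.x⁻¹) :
    b ∈ riemannRochSpace ((M : ℤ) • D) := by
  have hx0 : G.x ≠ 0 := H144.x_ne_zero G
  have hreg : ∀ {t c : F}, c ∈ G.chart t → ∀ P : Place K F, 0 ≤ P.ord t → 0 ≤ P.ord c := by
    intro t c hc P ht
    have hle : G.polyRing t ≤ P.toValuationSubring.toSubring := by
      unfold Datum.polyRing
      rw [sup_le_iff]
      constructor
      · rintro _ ⟨a, -, rfl⟩
        exact P.algebraMap_mem' a
      · rw [Subring.closure_le]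
        rintro _ rfl
        exact (mem_iff_ord_nonneg P _).mpr ht
    exact (mem_iff_ord_nonneg P c).mp
      (H144.mem_of_isIntegral_subring P.toValuationSubring (G.polyRing t) hle hc)
  rw [mem_L_iff]
  intro P
  rcases eq_or_ne b 0 with rfl | hb0
  · exact Or.inl rfl
  right
  rw [Finsupp.smul_apply, smul_eq_mul, hD]
  rcases le_or_gt 0 (P.ord G.x) with hP | hP
  · rw [max_eq_left (by omega), mul_zero, neg_zero]
    exact hreg hb1 P hP
  · rw [max_eq_right (by omega)]
    have h1 := hreg hb2 P (by rw [P.ord_inv]; omega)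
    rw [P.ord_mul (pow_ne_zero _ (inv_ne_zero hx0)) hb0, ord_pow, P.ord_inv] at h1
    nlinarith

/-- **Integral Riemann–Roch surjectivity** for the multiples of the polar divisor of the
coordinate. -/
theorem exists_lift_polar (hG : G.Good) {D : Divisor K F}
    (hD : ∀ P : Place K F, D P = max 0 (-(P.ord G.x))) {Dk : Divisor k Fk}
    (hDk : ∀ Q : Place k Fk, Dk Q = max 0 (-(Q.ord G.xk))) :
    ∃ M₀ : ℕ, ∀ M : ℕ, M₀ ≤ M → ∀ ψ ∈ riemannRochSpace ((M : ℤ) • Dk),
      ∃ (f : F) (hf : f ∈ G.O), f ∈ riemannRochSpace ((M : ℤ) • D) ∧ G.ρ ⟨f, hf⟩ = ψ := by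
  haveI := hG.finite_k
  have hxk0 : G.xk ≠ 0 := H144.xk_ne_zero G
  have hpen := isBpfPencil_polar hxk0 hDk
  have hdeg : 0 < Divisor.degree Dk := by
    have hxt : Transcendental k G.xk := G.xk_transc
    rw [degree_polar hxt hDk]
    exact_mod_cast Module.finrank_pos
  obtain ⟨M₀, hM₀⟩ := L_le_of_torsion G.xk Dk hpen hdeg (U G) (U_mono G) (U_mul G)
    (U_T0 G hG hDk) (U_T1 G hG hDk)
  refine ⟨M₀, fun M hM ψ hψ => ?_⟩
  obtain ⟨b, hb1, hb2, hbO, hρ⟩ := hM₀ M hM hψ
  exact ⟨b, hbO, mem_L_of_mem_charts G hD hb1 hb2, hρ⟩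

omit [IsAlgClosed k] [FF1 k Fk] in
/-- lifts of `k`-linearly independent functions are residually independent -/
theorem residIndep_of_linearIndependent {ι : Type*} [Fintype ι] (f : ι → F)
    (hf : ∀ i, f i ∈ G.O) (hli : LinearIndependent k (fun i => G.ρ ⟨f i, hf i⟩)) :
    S37.H217.ResidIndep A G.O f := by
  classical
  intro c hc hsum i
  -- the combination as an element of `O`
  set y : G.O := ∑ j, (⟨algebraMap K F (c j), G.const_mem ⟨c j, hc j⟩⟩ : G.O) * ⟨f j, hf j⟩
    with hy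
  have hycoe : (y : F) = ∑ j, c j • f j := by
    rw [hy]
    have : ((∑ j, (⟨algebraMap K F (c j), G.const_mem ⟨c j, hc j⟩⟩ : G.O) * ⟨f j, hf j⟩ : G.O) : F)
        = G.O.subtype (∑ j, (⟨algebraMap K F (c j), G.const_mem ⟨c j, hc j⟩⟩ : G.O) *
            ⟨f j, hf j⟩) := rfl
    rw [this, map_sum]
    refine Finset.sum_congr rfl fun j _ => ?_
    rw [Algebra.smul_def]
    rfl
  have hynon : (y : F) ∈ G.O.nonunits := by rw [hycoe]; exact hsum
  have hρy : G.ρ y = 0 := by
    rw [H160.ρ_eq_zero_iff]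
    exact ValuationSubring.coe_mem_nonunits_iff.mp hynon
  have hρy' : G.ρ y = ∑ j, π ⟨c j, hc j⟩ • G.ρ ⟨f j, hf j⟩ := by
    rw [hy, map_sum]
    refine Finset.sum_congr rfl fun j _ => ?_
    rw [map_mul, G.ρ_const ⟨c j, hc j⟩, Algebra.smul_def]
  rw [hρy'] at hρy
  have h0 := Fintype.linearIndependent_iff.mp hli (fun j => π ⟨c j, hc j⟩) hρy i
  have h1 : (⟨c i, hc i⟩ : A) ∈ IsLocalRing.maximalIdeal A := (H160.ker_π G _).mp h0
  exact ValuationSubring.coe_mem_nonunits_iff.mpr h1

/-- `ℓ_k(M D̄_∞) ≤ ℓ(M D_∞)` for all large `M`. -/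
theorem ell_polar_le [FF1 K F] (hG : G.Good) {D : Divisor K F}
    (hD : ∀ P : Place K F, D P = max 0 (-(P.ord G.x))) {Dk : Divisor k Fk}
    (hDk : ∀ Q : Place k Fk, Dk Q = max 0 (-(Q.ord G.xk))) :
    ∃ M₀ : ℕ, ∀ M : ℕ, M₀ ≤ M → ell ((M : ℤ) • Dk) ≤ ell ((M : ℤ) • D) := by
  classical
  obtain ⟨M₀, hM₀⟩ := exists_lift_polar G hG hD hDk
  refine ⟨M₀, fun M hM => ?_⟩
  let bs := Module.finBasis k (riemannRochSpace ((M : ℤ) • Dk))
  choose f hfO hfL hρ using fun i =>
    hM₀ M hM ((bs i : riemannRochSpace ((M : ℤ) • Dk)) : Fk) (bs i).2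
  have hind : LinearIndependent k (fun i => G.ρ ⟨f i, hfO i⟩) := by
    have h1 : LinearIndependent k ((riemannRochSpace ((M : ℤ) • Dk)).subtype ∘ bs) :=
      bs.linearIndependent.map' _ (Submodule.ker_subtype _)
    have h2 : (fun i => G.ρ ⟨f i, hfO i⟩) = (riemannRochSpace ((M : ℤ) • Dk)).subtype ∘ bs := by
      funext i
      rw [hρ i]
      rfl
    rw [h2]
    exact h1
  have hlift : LinearIndependent K f :=
    S37.H217.linearIndependent_of_residIndep (residIndep_of_linearIndependent G f hfO hind)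
  have hv : LinearIndependent K
      (fun i => (⟨f i, hfL i⟩ : riemannRochSpace ((M : ℤ) • D))) := by
    refine LinearIndependent.of_comp (riemannRochSpace ((M : ℤ) • D)).subtype ?_
    exact hlift
  have hcard := hv.fintype_card_le_finrank
  rw [Fintype.card_fin] at hcard
  exact hcard

/-- **GR-GENUS, the hard direction**: the genus does not drop under a reduction with good
charts. -/
theorem genusFF_le_of_good [IsAlgClosed K] [FF1 K F] (hG : G.Good) :
    genusFF K F ≤ genusFF k Fk := by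
  haveI := hG.finite
  haveI := hG.finite_k
  have hxk0 : G.xk ≠ 0 := H144.xk_ne_zero G
  have hx0 : G.x ≠ 0 := H144.x_ne_zero G
  obtain ⟨P₀⟩ := FF1.nonempty_place (K := K) (F := F)
  have hxt : Transcendental K G.x := H144.transcendental_x G hG P₀
  have hxkt : Transcendental k G.xk := G.xk_transc
  obtain ⟨D, hD⟩ := exists_polar (K := K) hx0
  obtain ⟨Dk, hDk⟩ := exists_polar (K := k) hxk0
  have hdegD := degree_polar hxt hD
  have hdegDk := degree_polar hxkt hDk
  have hn : (0 : ℤ) < (Module.finrank (IntermediateField.adjoin k {G.xk}) Fk : ℤ) := by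
    exact_mod_cast Module.finrank_pos
  rw [hG.finrank_eq] at hdegD
  obtain ⟨M₀, hM₀⟩ := ell_polar_le G hG hD hDk
  set n : ℤ := (Module.finrank (IntermediateField.adjoin k {G.xk}) Fk : ℤ) with hndef
  set M : ℕ := max M₀ (2 * genusFF K F) with hMdef
  have hM1 : M₀ ≤ M := le_max_left _ _
  have hM2 : 2 * genusFF K F ≤ M := le_max_right _ _
  have hM2' : 2 * (genusFF K F : ℤ) ≤ (M : ℤ) := by exact_mod_cast hM2
  have hdegK : Divisor.degree ((M : ℤ) • D) = (M : ℤ) * n := by
    rw [map_zsmul, smul_eq_mul, hdegD]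
  have hdegk : Divisor.degree ((M : ℤ) • Dk) = (M : ℤ) * n := by
    rw [map_zsmul, smul_eq_mul, hdegDk]
  have hMn : (M : ℤ) ≤ (M : ℤ) * n := by nlinarith
  have h1 : (ell ((M : ℤ) • D) : ℤ) = (M : ℤ) * n + 1 - (genusFF K F : ℤ) := by
    have := ell_eq_of_degree_gt (D := (M : ℤ) • D) (by rw [hdegK]; omega)
    rwa [hdegK] at this
  have h2 := riemann_inequality_genusFF (K := k) (F := Fk) ((M : ℤ) • Dk)
  rw [hdegk] at h2
  have h3 : (ell ((M : ℤ) • Dk) : ℤ) ≤ (ell ((M : ℤ) • D) : ℤ) := by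
    exact_mod_cast hM₀ M hM1
  have h4 : (genusFF K F : ℤ) ≤ (genusFF k Fk : ℤ) := by omega
  exact_mod_cast h4

end GenusGood

end Datum

end Fermat.Agent.S19.H195

end

end
-- ===== PACK-END S19/H195/GenusGood.lean

-- ===== PACK-BEGIN A3/H499/OrthDatum.lean
section




/-!
# A3 / GR-ORTH, route D (helper499): `GoodRed.orthonormal` from `S37.Red.Datum.Good`

* `exists_orthBasis_of_finrank_eq` : in an abstract Gauss reduction context (`S37.H217.RedCtx`)
  with a coordinate `x ∈ O`, `x̄` transcendental, `[F : K(x)] = [F_k : k(x̄)] < ∞`, and a group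
  `I` of semilinear automorphisms fixing `x` such that every element of `F_k` has an `I`-fixed
  lift in `O`: every finitely generated `K`-subspace `M ⊆ F` has an orthonormal basis, `I`-fixed
  if `M` is `I`-stable.
* `orthonormal_of_good` : the field `orthonormal` of `A3.H799.GoodRed`, verbatim, for a
  `S37.Red.Datum` with good charts (only the degree fields (H1) of `Good` are used).
-/

set_option autoImplicit false
set_option linter.unusedSectionVars false
set_option linter.style.longLine false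

noncomputable section

open AlgebraicCurve Polynomial IntermediateField

namespace Fermat.Agent.A3.H499

open Fermat.Agent.S37.H217

section Powers

/-- the powers of a transcendental element are linearly independent -/
theorem linearIndependent_pow_of_transcendental {R S : Type*} [CommRing R] [Ring S]
    [Algebra R S] {y : S} (hy : Transcendental R y) :
    LinearIndependent R (fun j : ℕ => y ^ j) := by
  have h1 : LinearIndependent R (Polynomial.basisMonomials R) :=
    (Polynomial.basisMonomials R).linearIndependent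
  have h2 := h1.map' (aeval y).toLinearMap
    (LinearMap.ker_eq_bot.mpr (transcendental_iff_injective.mp hy))
  have h3 : (fun j : ℕ => y ^ j) = (aeval y).toLinearMap ∘ (Polynomial.basisMonomials R) := by
    funext j
    simp
  rw [h3]
  exact h2

variable {k Fk : Type*} [Field k] [Field Fk] [Algebra k Fk]

/-- if `y` is transcendental over `k` and the `c i` are `k(y)`-independent, the `y ^ j * c i`
are `k`-independent -/
theorem linearIndependent_pow_mul {y : Fk} (hy : Transcendental k y) {n : ℕ} (c : Fin n → Fk)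
    (hc : LinearIndependent k⟮y⟯ c) :
    LinearIndependent k (fun p : ℕ × Fin n => y ^ p.1 * c p.2) := by
  have hb : LinearIndependent k (fun j : ℕ => (AdjoinSimple.gen k y) ^ j) := by
    apply LinearIndependent.of_comp (IntermediateField.val k⟮y⟯).toLinearMap
    convert linearIndependent_pow_of_transcendental hy using 1
    funext j
    simp
  have h1 := linearIndependent_smul hb hc
  have h2 : (fun p : ℕ × Fin n => y ^ p.1 * c p.2) =
      fun p : ℕ × Fin n => (AdjoinSimple.gen k y) ^ p.1 • c p.2 := by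
    funext p
    rw [Algebra.smul_def, IntermediateField.algebraMap_apply]
    simp
  rw [h2]
  exact h1

end Powers

variable {K F : Type*} [Field K] [Field F] [Algebra K F]
variable {k : Type*} {Fk : Type*} [Field k] [Field Fk] [Algebra k Fk]
variable {A : ValuationSubring K} {π : A →+* k}

section Resid

variable (G : RedCtx A π F Fk) {t : F} (ht : t ∈ G.O) (htr : Transcendental k (G.ρ ⟨t, ht⟩))

include htr in
/-- lifts of a `k(t̄)`-independent family are residually independent over `O ∩ K(t)` -/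
theorem residIndep_of_lifts {ι : Type*} [Fintype ι] (e : ι → G.O)
    (hind : LinearIndependent k⟮G.ρ ⟨t, ht⟩⟯ (fun i => G.ρ (e i))) :
    ResidIndep (G.V₀ t) G.O (fun i => ((e i : G.O) : F)) := by
  classical
  intro c hc hsum
  set s : G.O := ∑ i, G.incl t ⟨c i, hc i⟩ * e i with hs
  have hsF : (s : F) = ∑ i, c i • ((e i : G.O) : F) := by
    rw [hs, ← ValuationSubring.subtype_apply, map_sum]
    refine Finset.sum_congr rfl fun i _ => ?_
    rw [map_mul, Algebra.smul_def]
    rfl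
  have hρs : G.ρ s = 0 := by
    rw [G.ρ_eq_zero_iff, hsF]
    exact hsum
  have hρs' : ∑ i, G.ρ₀ ht htr ⟨c i, hc i⟩ • G.ρ (e i) = 0 := by
    rw [← hρs, hs, map_sum]
    refine Finset.sum_congr rfl fun i _ => ?_
    rw [map_mul, Algebra.smul_def]
    rfl
  have hzero := Fintype.linearIndependent_iff.mp hind _ hρs'
  intro i
  have h1 : G.ρ (G.incl t ⟨c i, hc i⟩) = 0 := by
    have := congrArg (fun z : k⟮G.ρ ⟨t, ht⟩⟯ => (z : Fk)) (hzero i)
    simpa [RedCtx.coe_ρ₀] using this
  rw [G.ρ_eq_zero_iff, RedCtx.coe_incl] at h1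
  exact ((G.valExtends t).mem_nonunits_iff (c i)).mp h1

end Resid

section Ctx

variable (G : RedCtx A π F Fk) {x : F} (hx : x ∈ G.O) (hxtr : Transcendental k (G.ρ ⟨x, hx⟩))

/-- elements of `K(x)` are quotients of polynomials (denominator form) -/
theorem exists_den_adjoin_simple (x : F) (c : K⟮x⟯) :
    ∃ r s : K[X], s ≠ 0 ∧ aeval x s * ((c : K⟮x⟯) : F) = aeval x r := by
  obtain ⟨r, s, hrs⟩ := (mem_adjoin_simple_iff K ((c : K⟮x⟯) : F)).mp c.2
  by_cases hs : aeval x s = 0
  · refine ⟨0, 1, one_ne_zero, ?_⟩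
    rw [hrs, hs, div_zero, mul_zero, map_zero]
  · refine ⟨r, s, fun h0 => hs (by rw [h0, map_zero]), ?_⟩
    rw [hrs, mul_div_cancel₀ _ hs]

include hxtr in
/-- **Route D.**  Orthonormal bases of all finitely generated subspaces from the degree
equality `[F : K(x)] = [F_k : k(x̄)]` and `I`-fixed lifts. -/
theorem exists_orthBasis_of_finrank_eq
    [FiniteDimensional K⟮x⟯ F] [FiniteDimensional k⟮G.ρ ⟨x, hx⟩⟯ Fk]
    (hfr : Module.finrank K⟮x⟯ F = Module.finrank k⟮G.ρ ⟨x, hx⟩⟯ Fk)
    (I : Subgroup (SemilinearAut K F)) (hIx : ∀ g ∈ I, g • x = x)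
    (hIlift : ∀ c : Fk, ∃ f : G.O, G.ρ f = c ∧ ∀ g ∈ I, g • ((f : G.O) : F) = f)
    (M : Submodule K F) (hMfg : M.FG) (hMI : ∀ g ∈ I, ∀ f ∈ M, g • f ∈ M) :
    ∃ (d : ℕ) (u : Fin d → G.O), IsOrthBasis k G.O G.ρ M u ∧
      ∀ g ∈ I, ∀ a, g • ((u a : G.O) : F) = u a := by
  classical
  set b₁ := Module.finBasis k⟮G.ρ ⟨x, hx⟩⟯ Fk with hb₁
  choose w hw hwI using fun i => hIlift (b₁ i)
  have hind : LinearIndependent k⟮G.ρ ⟨x, hx⟩⟯ (fun i => G.ρ (w i)) := by
    have h1 : (fun i => G.ρ (w i)) = b₁ := funext hw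
    rw [h1]
    exact b₁.linearIndependent
  have horth : LinearIndependent k
      (fun p : ℕ × Fin (Module.finrank k⟮G.ρ ⟨x, hx⟩⟯ Fk) =>
        G.ρ ((⟨x, hx⟩ : G.O) ^ p.1 * w p.2)) := by
    have h1 := linearIndependent_pow_mul hxtr _ hind
    have h2 : (fun p : ℕ × Fin (Module.finrank k⟮G.ρ ⟨x, hx⟩⟯ Fk) =>
        G.ρ ((⟨x, hx⟩ : G.O) ^ p.1 * w p.2)) =
        fun p => G.ρ ⟨x, hx⟩ ^ p.1 * G.ρ (w p.2) := by
      funext p
      rw [map_mul, map_pow]
    rw [h2]
    exact h1
  have hR : ResidIndep (G.V₀ x) G.O (fun i => ((w i : G.O) : F)) :=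
    residIndep_of_lifts G hx hxtr w hind
  have : Nonempty (Fin (Module.finrank k⟮G.ρ ⟨x, hx⟩⟯ Fk)) := ⟨⟨0, Module.finrank_pos⟩⟩
  obtain ⟨b, hb⟩ := exists_basis_of_residIndep hR (by rw [Fintype.card_fin, hfr])
  have hbi : ∀ i, b i = ((w i : G.O) : F) := fun i => congrFun hb i
  have hspan : ∀ f : F, ∃ h : K[X], h ≠ 0 ∧
      aeval (((⟨x, hx⟩ : G.O) : G.O) : F) h * f ∈ polySpan (K := K) (⟨x, hx⟩ : G.O) w := by
    intro f
    choose r s hs hrs using fun i => exists_den_adjoin_simple x (b.repr f i)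
    refine ⟨∏ i, s i, Finset.prod_ne_zero_iff.mpr (fun i _ => hs i), ?_⟩
    have hf : f = ∑ i, ((b.repr f i : K⟮x⟯) : F) * ((w i : G.O) : F) := by
      conv_lhs => rw [← b.sum_repr f]
      refine Finset.sum_congr rfl fun i _ => ?_
      rw [hbi, Algebra.smul_def]
      rfl
    show aeval x (∏ i, s i) * f ∈ _
    rw [hf, Finset.mul_sum]
    refine Submodule.sum_mem _ fun i _ => ?_
    have h1 : aeval x (∏ l, s l) * (((b.repr f i : K⟮x⟯) : F) * ((w i : G.O) : F)) =
        aeval x ((∏ l ∈ Finset.univ.erase i, s l) * r i) * ((w i : G.O) : F) := by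
      rw [← Finset.mul_prod_erase Finset.univ s (Finset.mem_univ i), map_mul, map_mul, ← hrs i]
      ring
    rw [h1]
    refine aeval_mul_mem_polySpan (⟨x, hx⟩ : G.O) w _ (Submodule.subset_span ⟨(0, i), ?_⟩)
    show x ^ 0 * ((w i : G.O) : F) = _
    rw [pow_zero, one_mul]
  exact exists_orthBasis_of_span A G.O π G.ρ (fun a ha => G.const_mem ⟨a, ha⟩)
    (fun a _ => G.ρ_const a) G.ρ_surj (⟨x, hx⟩ : G.O) hxtr w horth hspan I hIx
    (fun g hg i => hwI i g hg) M hMfg hMI

end Ctx

section Datum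

universe u

variable {K k F Fk : Type u} [Field K] [Field k] [Field F] [Field Fk]
  [Algebra K F] [Algebra k Fk] {A : ValuationSubring K} {π : A →+* k}

/-- the Gauss reduction context underlying a reduction datum of row S37 -/
def ctxOfDatum (G : Fermat.Agent.S37.Red.Datum A π F Fk) : RedCtx A π F Fk where
  π_surj := G.π_surj
  O := G.O
  ρ := G.ρ
  ρ_surj := G.ρ_surj
  const_mem := G.const_mem
  ρ_const := G.ρ_const

/-- **GR-ORTH, route D.**  The field `orthonormal` of `A3.H799.GoodRed` (with `O := G.O`,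
`red := G.ρ`), verbatim, for a reduction datum `G` of row S37 with the degree equality (H1) of
`G.Good`, a group `I` fixing the coordinate `G.x`, and `I`-fixed lifts of the elements of
`F_k`. -/
theorem orthonormal_of_good (G : Fermat.Agent.S37.Red.Datum A π F Fk)
    (hfin : FiniteDimensional K⟮G.x⟯ F) (hfink : FiniteDimensional k⟮G.xk⟯ Fk)
    (hfr : Module.finrank K⟮G.x⟯ F = Module.finrank k⟮G.xk⟯ Fk)
    (hff : Fermat.Agent.Lib.RR.FF1 K F)
    (I : Subgroup (SemilinearAut K F)) (hIx : ∀ g ∈ I, g • G.x = G.x)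
    (hIlift : ∀ c : Fk, ∃ f : G.O, G.ρ f = c ∧ ∀ g ∈ I, g • ((f : G.O) : F) = f) :
    ∀ D : Divisor K F, ∃ (n : ℕ) (b : Fin n → G.O),
      LinearIndependent k (fun i => G.ρ (b i)) ∧
      (∀ i, ((b i : G.O) : F) ∈ riemannRochSpace D) ∧
      Submodule.span K (Set.range fun i => ((b i : G.O) : F)) = riemannRochSpace D ∧
      ((∀ g ∈ I, g • D = D) → ∀ i, ∀ g ∈ I, g • ((b i : G.O) : F) = ((b i : G.O) : F)) := by
  intro D
  have := hff
  have := hfin
  have : FiniteDimensional k⟮(ctxOfDatum G).ρ ⟨G.x, G.x_mem⟩⟯ Fk := hfink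
  have hfg : (riemannRochSpace D : Submodule K F).FG := Module.Finite.iff_fg.mp inferInstance
  by_cases hD : ∀ g ∈ I, g • D = D
  · obtain ⟨n, b, ⟨h1, h2, h3⟩, h4⟩ :=
      exists_orthBasis_of_finrank_eq (ctxOfDatum G) G.x_mem G.xk_transc hfr I hIx hIlift
        (riemannRochSpace D) hfg (fun g hg f hf => by
          have := smul_mem_L g hf
          rwa [hD g hg] at this)
    exact ⟨n, b, h1, h2, h3, fun _ i g hg => h4 g hg i⟩
  · obtain ⟨n, b, ⟨h1, h2, h3⟩, -⟩ :=
      exists_orthBasis_of_finrank_eq (ctxOfDatum G) G.x_mem G.xk_transc hfr ⊥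
        (fun g hg => by rw [Subgroup.mem_bot.mp hg, one_smul])
        (fun c => by
          obtain ⟨f, hf, -⟩ := hIlift c
          exact ⟨f, hf, fun g hg => by rw [Subgroup.mem_bot.mp hg, one_smul]⟩)
        (riemannRochSpace D) hfg (fun g hg f hf => by rwa [Subgroup.mem_bot.mp hg, one_smul])
    exact ⟨n, b, h1, h2, h3, fun h => absurd h hD⟩

/-- `orthonormal_of_good` with the hypothesis `G.Good`. -/
theorem orthonormal_of_good' (G : Fermat.Agent.S37.Red.Datum A π F Fk) (hgood : G.Good)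
    (hff : Fermat.Agent.Lib.RR.FF1 K F)
    (I : Subgroup (SemilinearAut K F)) (hIx : ∀ g ∈ I, g • G.x = G.x)
    (hIlift : ∀ c : Fk, ∃ f : G.O, G.ρ f = c ∧ ∀ g ∈ I, g • ((f : G.O) : F) = f) :
    ∀ D : Divisor K F, ∃ (n : ℕ) (b : Fin n → G.O),
      LinearIndependent k (fun i => G.ρ (b i)) ∧
      (∀ i, ((b i : G.O) : F) ∈ riemannRochSpace D) ∧
      Submodule.span K (Set.range fun i => ((b i : G.O) : F)) = riemannRochSpace D ∧
      ((∀ g ∈ I, g • D = D) → ∀ i, ∀ g ∈ I, g • ((b i : G.O) : F) = ((b i : G.O) : F)) :=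
  orthonormal_of_good G hgood.finite hgood.finite_k hgood.finrank_eq hff I hIx hIlift

end Datum

end Fermat.Agent.A3.H499

end

end
-- ===== PACK-END A3/H499/OrthDatum.lean

-- ===== PACK-BEGIN S37/Red/H940/MainStatement.lean
section



/-!
# S37-RED (helper940): `MainStatement` is PROVED

`Fermat.Agent.S37.Red.H940.mainStatement : MainStatement` (interface `Red/Spec.lean`, helper40):
over algebraically closed constants (`K` of characteristic `0`), every reduction datum with good
charts has a place reduction map `r` with (i), (ii) (`IsRed`) and (EC) (`EvalCompat`).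

Proof: `mainStatement_of_fibreSum` (`Red/H940/Main.lean`, on the fibre-local core
`S37/H940/{Core,Assembly,Line,Chart}.lean`) applied to RED-A
`H160.fibreSumStatement` (helper160, on RED-A1 `H399.normRed` of helper399).
-/

set_option autoImplicit false

namespace Fermat.Agent.S37.Red.H940

open AlgebraicCurve

universe u

/-- **RED-MAIN.** -/
theorem mainStatement : MainStatement.{u} :=
  mainStatement_of_fibreSum fun _ _ _ _ _ _ _ _ _ _ _ _ _ _ _ G _ => H160.fibreSumStatement G

/-- **RED-MAIN**, unbundled: a reduction datum with good charts has a place reduction map with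
(i), (ii) and (EC). -/
theorem exists_isRed {K k F Fk : Type u} [Field K] [Field k] [Field F] [Field Fk]
    [Algebra K F] [Algebra k Fk] [IsAlgClosed K] [CharZero K] [IsAlgClosed k]
    {A : ValuationSubring K} {π : A →+* k} (G : Datum A π F Fk) (hG : G.Good) :
    ∃ r : Place K F → Place k Fk, IsRed G r ∧ EvalCompat G r :=
  mainStatement K k F Fk A π G hG

end Fermat.Agent.S37.Red.H940

end
-- ===== PACK-END S37/Red/H940/MainStatement.lean

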