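import Mathlib
import Fermat.Prelude.Def_ModularCurve_X0ModL
import Fermat.Prelude.Def_ModularCurve_ReductionModL
import Fermat.Prelude.Def_FLTPrelim_Ramification
import Fermat.Agent.Pack.S3234.G4E2L1
import Fermat.Agent.Pack.S3234.G0E7L0
import Fermat.Agent.Pack.S3234.G0E4L3
import Fermat.Agent.Pack.S3234.G0E5L0
import Fermat.Agent.Pack.S3234.G0E7L1
import Fermat.Agent.Pack.S3234.G4E2L0
import Fermat.Agent.Pack.S3234.G4E0L0
import Fermat.Agent.Pack.S3234.G4E0L3
import Fermat.Agent.Pack.S3234.G4E1L3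
import Fermat.Agent.Pack.S3234.G4E3L1
import Fermat.Agent.Pack.S3234.G4E2L2
import Fermat.Agent.Pack.S3234.G4E3L2
import Fermat.Agent.Pack.S3234.G0E5L2
import Fermat.Agent.Pack.S3234.G0E5L1
import Fermat.Agent.Pack.S3234.G4E3L0

-- ===== PACK-BEGIN S37/H98/RiemannBound.lean
section



/-!
# S37 (helper98): the Riemann bound from Riemann's inequality

Input (I5)/(c) of the bounded-homomorphism route (origin/helper697:coord/S37-e-route-helper697.md):
every divisor of degree `0` of a function field `F/K` (standing hypotheses `FF1 K F` of the shared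
library `Lib/RR`) is linearly equivalent to a divisor `E - g • P₀` with `E ≥ 0` of degree
`g = genusR K F`; in particular to a divisor of `ℓ¹`-norm `≤ 2 g`.

* `exists_effective_sub_mem_principal` : the representative `E - g • P₀`.
* `riemannBound` : `∃ B, ∀ D, deg D = 0 → ∃ E, ‖E‖₁ ≤ B ∧ D - E ∈ principal`, stated with the
  `ℓ¹`-norm unfolded (`E.sum fun _ n => n.natAbs`), so that it is definitionally
  `Fermat.Agent.S37.H697.RiemannBound K F` (`exact riemannBound` closes that goal).
* `riemannBound_modularFunctionFieldBar N` : the instance for `ℚ̄(X₀(N))`.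
-/

set_option autoImplicit false

noncomputable section

open AlgebraicCurve

namespace Fermat.Agent.S37.H98

open Fermat.Agent.Lib.RR

variable {K F : Type*} [Field K] [Field F] [Algebra K F]

/-- The `ℓ¹`-norm is subadditive (raw `Finsupp.sum` form). -/
theorem sum_natAbs_add_le {X : Type*} (D E : X →₀ ℤ) :
    ((D + E).sum fun _ n => n.natAbs) ≤ (D.sum fun _ n => n.natAbs) + E.sum fun _ n => n.natAbs := by
  classical
  have h1 : (D + E).sum (fun _ n => n.natAbs)
      = ∑ x ∈ D.support ∪ E.support, ((D + E) x).natAbs :=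
    Finsupp.sum_of_support_subset _ Finsupp.support_add _ (fun _ _ => rfl)
  have h2 : D.sum (fun _ n => n.natAbs) = ∑ x ∈ D.support ∪ E.support, (D x).natAbs :=
    Finsupp.sum_of_support_subset _ Finset.subset_union_left _ (fun _ _ => rfl)
  have h3 : E.sum (fun _ n => n.natAbs) = ∑ x ∈ D.support ∪ E.support, (E x).natAbs :=
    Finsupp.sum_of_support_subset _ Finset.subset_union_right _ (fun _ _ => rfl)
  rw [h1, h2, h3, ← Finset.sum_add_distrib]
  exact Finset.sum_le_sum fun x _ => by
    rw [Finsupp.add_apply]; exact Int.natAbs_add_le _ _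

/-- For an effective divisor on a curve all of whose places have degree one, the `ℓ¹`-norm is
the degree. -/
theorem sum_natAbs_eq_degree [FF1 K F] {E : Divisor K F} (hE : 0 ≤ E) :
    ((E.sum fun _ n => n.natAbs : ℕ) : ℤ) = Divisor.degree E := by
  rw [degree_eq_sum, Finsupp.sum, Nat.cast_sum]
  refine Finset.sum_congr rfl fun v _ => ?_
  have h0 : 0 ≤ E v := by simpa using Finsupp.le_def.mp hE v
  rw [deg_eq_one v, Nat.cast_one, mul_one]
  exact Int.natAbs_of_nonneg h0

/-- Every divisor `D` is linearly equivalent to `E - (g + deg D) • P₀`... in the form needed: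
if `deg D = 0` then `D ~ E - g • P₀` with `E ≥ 0` of degree `g`, for ANY `g` satisfying Riemann's
inequality. -/
theorem exists_effective_sub_mem_principal_of [FF1 K F] (g : ℕ)
    (hR : ∀ D : Divisor K F, Divisor.degree D + 1 - (g : ℤ) ≤ ell D)
    (P₀ : Place K F) (D : Divisor K F) (hD : Divisor.degree D = 0) :
    ∃ E : Divisor K F, 0 ≤ E ∧ Divisor.degree E = g ∧
      D - (E - (g : ℤ) • prim P₀) ∈ Divisor.principal (K := K) (F := F) := by
  have hdeg : Divisor.degree (D + (g : ℤ) • prim P₀) = g := by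
    rw [map_add, map_zsmul, hD, degree_prim', zero_add, smul_eq_mul, mul_one]
  have hpos : 0 < ell (D + (g : ℤ) • prim P₀) := by
    have h := hR (D + (g : ℤ) • prim P₀)
    rw [hdeg] at h
    have : (0 : ℤ) < ell (D + (g : ℤ) • prim P₀) := by omega
    exact_mod_cast this
  obtain ⟨z, hz, hmem⟩ := Fermat.Agent.Lib.RR.H98.exists_ne_zero_mem_L_of_ell_pos hpos
  refine ⟨D + (g : ℤ) • prim P₀ + divOf (K := K) z hz, ?_, ?_, ?_⟩
  · rw [Finsupp.le_def]
    intro v
    rw [mem_L_iff] at hmem
    rcases hmem v with h0 | h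
    · exact absurd h0 hz
    · rw [Finsupp.add_apply, divOf_apply, Finsupp.zero_apply]
      omega
  · rw [map_add, hdeg, degree_divOf, add_zero]
  · have : D - (D + (g : ℤ) • prim P₀ + divOf (K := K) z hz - (g : ℤ) • prim P₀)
        = -divOf (K := K) z hz := by abel
    rw [this]
    exact (Divisor.principal (K := K) (F := F)).neg_mem ⟨z, hz, fun v => divOf_apply z hz v⟩

/-- Every divisor of degree `0` is linearly equivalent to `E - g • P₀` with `E ≥ 0` of degree
`g = genusR K F`. -/
theorem exists_effective_sub_mem_principal [FF1 K F] (P₀ : Place K F) (D : Divisor K F)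
    (hD : Divisor.degree D = 0) :
    ∃ E : Divisor K F, 0 ≤ E ∧ Divisor.degree E = genusR K F ∧
      D - (E - (genusR K F : ℤ) • prim P₀) ∈ Divisor.principal (K := K) (F := F) :=
  exists_effective_sub_mem_principal_of (genusR K F) (fun D' => riemann_inequality D') P₀ D hD

/-- **Riemann bound**: every divisor of degree `0` is linearly equivalent to a divisor of
`ℓ¹`-norm at most `2 g`.  (Definitionally `Fermat.Agent.S37.H697.RiemannBound K F`.) -/
theorem riemannBound [FF1 K F] :
    ∃ B : ℕ, ∀ D : Divisor K F, Divisor.degree D = 0 →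
      ∃ E : Divisor K F, (E.sum fun _ n => n.natAbs) ≤ B ∧
        D - E ∈ Divisor.principal (K := K) (F := F) := by
  obtain ⟨P₀⟩ := (inferInstance : FF1 K F).nonempty_place
  refine ⟨2 * genusR K F, fun D hD => ?_⟩
  obtain ⟨E, hE, hEdeg, hmem⟩ := exists_effective_sub_mem_principal P₀ D hD
  refine ⟨E - (genusR K F : ℤ) • prim P₀, ?_, hmem⟩
  have h1 : ((E.sum fun _ n => n.natAbs : ℕ) : ℤ) = genusR K F := by
    rw [sum_natAbs_eq_degree hE, hEdeg]
  have h1' : (E.sum fun _ n => n.natAbs) = genusR K F := by exact_mod_cast h1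
  have h2 : ((-((genusR K F : ℤ) • prim P₀) : Divisor K F).sum fun _ n => n.natAbs)
      ≤ genusR K F := by
    have : (-((genusR K F : ℤ) • prim P₀) : Divisor K F)
        = Finsupp.single P₀ (-(genusR K F : ℤ)) := by
      rw [prim, Finsupp.smul_single, smul_eq_mul, mul_one, Finsupp.single_neg]
    rw [this, Finsupp.sum_single_index (by simp)]
    simp
  have h3 := sum_natAbs_add_le E (-((genusR K F : ℤ) • prim P₀))
  rw [← sub_eq_add_neg] at h3
  omega

/-- The Riemann bound for the function field of `X₀(N)` over `ℚ̄`. -/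
theorem riemannBound_modularFunctionFieldBar (N : ℕ) [NeZero N] :
    ∃ B : ℕ, ∀ D : Divisor (AlgebraicClosure ℚ) ↥(ModularCurve.modularFunctionFieldBar N),
      Divisor.degree D = 0 →
      ∃ E : Divisor (AlgebraicClosure ℚ) ↥(ModularCurve.modularFunctionFieldBar N),
        (E.sum fun _ n => n.natAbs) ≤ B ∧
        D - E ∈ Divisor.principal (K := AlgebraicClosure ℚ)
          (F := ↥(ModularCurve.modularFunctionFieldBar N)) := by
  have := Fermat.Agent.Lib.RR.H864.ff1_modularFunctionFieldBar N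
  exact riemannBound

end Fermat.Agent.S37.H98

end
end
-- ===== PACK-END S37/H98/RiemannBound.lean

-- ===== PACK-BEGIN S18/H739/ModFinite.lean
section
/-
S18 helper (helper739), piece MOD.1 of squad S18/S05 (statement frozen in
`origin/helper5:Fermat/Agent/S18/Sq05/Spec.lean` as `ModFiniteStatement`):
`j` is transcendental over `k` and `k(j(q^d) : d ∣ N)` is finite over `k(j)`, for every field
`k` in which the primes dividing `N` are invertible.  From landed S28: upper bound of helper626,
modular polynomials of helper807.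
-/







set_option autoImplicit false

noncomputable section

open ModularCurve IntermediateField

namespace Fermat.Agent.S18.H739

open Fermat.Agent.S28

variable (k : Type*) [Field k]

/-- `j` is transcendental over `k` in `k((q))`. -/
theorem transcendental_jqModC : Transcendental k (jqModC k) :=
  (transcendental_iff_injective).mpr (h88_aeval_jqModC_injective k)

/-- `j`, as an element of the function field, is transcendental over `k`. -/
theorem transcendental_jC (N : ℕ) :
    Transcendental k (⟨jqModC k, jqModC_mem_full k N⟩ : modularFunctionFieldFullC k N) := by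
  intro h
  have h2 : IsAlgebraic k (algebraMap (modularFunctionFieldFullC k N) (LaurentSeries k)
      ⟨jqModC k, jqModC_mem_full k N⟩) := h.algebraMap
  exact transcendental_jqModC k h2

/-- The modular polynomials exist at every prime, so `HasModPolys` only needs invertibility. -/
theorem hasModPolys_of_invertible (N : ℕ) (hchar : ∀ p : ℕ, p.Prime → p ∣ N → (p : k) ≠ 0) :
    H626.HasModPolys k N :=
  H867.hasModPolys k N (fun p hp _ _ => H807.nonempty_modPolyData p hp) hchar

/-- `k(j)`, inside the function field, is the preimage of `k(j) ⊂ k((q))`. -/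
theorem adjoin_jC_eq_comap (N : ℕ) :
    k⟮(⟨jqModC k, jqModC_mem_full k N⟩ : modularFunctionFieldFullC k N)⟯ =
      (IntermediateField.adjoin k {jqModC k}).comap (modularFunctionFieldFullC k N).val := by
  rw [← IntermediateField.comap_map (modularFunctionFieldFullC k N).val
    k⟮(⟨jqModC k, jqModC_mem_full k N⟩ : modularFunctionFieldFullC k N)⟯,
    IntermediateField.adjoin_map, Set.image_singleton]
  rfl

/-- **MOD.1**, finiteness part. -/
theorem finiteDimensional_adjoin_jC (N : ℕ) [NeZero N]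
    (hchar : ∀ p : ℕ, p.Prime → p ∣ N → (p : k) ≠ 0) :
    FiniteDimensional k⟮(⟨jqModC k, jqModC_mem_full k N⟩ : modularFunctionFieldFullC k N)⟯
      (modularFunctionFieldFullC k N) := by
  have H := hasModPolys_of_invertible k N hchar
  have h1 := H626.relrank_adjoin_j_full_le N H
  rw [adjoin_jC_eq_comap]
  have h2 : Module.rank
      ((IntermediateField.adjoin k {jqModC k}).comap (modularFunctionFieldFullC k N).val)
      (modularFunctionFieldFullC k N) < Cardinal.aleph0 := by
    rw [IntermediateField.rank_comap, IntermediateField.fieldRange_val]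
    exact lt_of_le_of_lt h1 (Cardinal.natCast_lt_aleph0)
  exact IsNoetherian.iff_fg.1 (IsNoetherian.iff_rank_lt_aleph0.2 h2)

/-- **MOD.1** (unfolded `Fermat.Agent.S18.Sq05.ModFiniteStatement`; `Sq05.jC k N` is by definition
`⟨jqModC k, jqModC_mem_full k N⟩`). -/
theorem modFinite :
    ∀ (k : Type) [Field k] (N : ℕ) [NeZero N], (∀ p : ℕ, p.Prime → p ∣ N → (p : k) ≠ 0) →
      Transcendental k (⟨jqModC k, jqModC_mem_full k N⟩ : modularFunctionFieldFullC k N) ∧
      FiniteDimensional k⟮(⟨jqModC k, jqModC_mem_full k N⟩ : modularFunctionFieldFullC k N)⟯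
        (modularFunctionFieldFullC k N) :=
  fun k _ N _ hchar => ⟨transcendental_jC k N, finiteDimensional_adjoin_jC k N hchar⟩

end Fermat.Agent.S18.H739

end

end
-- ===== PACK-END S18/H739/ModFinite.lean

-- ===== PACK-BEGIN S18/H383/FF1Modular.lean
section






/-!
# S18 / "FF1 instances" (helper383): the standing hypotheses `Lib.RR.FF1` of the shared
Riemann–Roch library for the modular function fields in characteristic `ℓ`

Exact statements (sorry-free; from the characteristic-free bridge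
`Fermat.Agent.Lib.RR.H383.ff1_of_finite` and MOD.1 of helper739):

* `ff1_fullC k N hchar : Lib.RR.FF1 k (modularFunctionFieldFullC k N)` for every algebraically
  closed field `k` in which the primes dividing `N` are invertible (any characteristic);
* `ff1_residue N ℓ hℓ hℓN A hA : Lib.RR.FF1 (A/𝔪) (modularFunctionFieldFullC (A/𝔪) N)` for a
  valuation subring `A` of `ℚ̄` over `ℓ ∤ N`;
* `hasPrincipalDivisors_fullC`, `deg_eq_one_fullC`, `constStatement_fullC`, `t3Statement`;
* `hpdStatement : Sq05.HpdStatement` (the product formula, characteristic-free, frozen shape).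
-/

set_option autoImplicit false

open AlgebraicCurve ModularCurve IntermediateField

namespace Fermat.Agent.S18.H383

open Fermat.Agent.Lib.RR

section Generic

/-- **HPD.k** in the frozen shape of `Sq05/Spec.lean`. -/
theorem hpdStatement : Fermat.Agent.S18.Sq05.HpdStatement := by
  intro K F _ _ _ _ x hx hfin
  exact Fermat.Agent.Lib.RR.H383.hasPrincipalDivisors_of_finite hx

end Generic

section Modular

variable (k : Type*) [Field k] [IsAlgClosed k] (N : ℕ) [NeZero N]

/-- `FF1` for `k(j(q^d) : d ∣ N)` over an algebraically closed field `k` in which the primes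
dividing `N` are invertible. -/
theorem ff1_fullC (hchar : ∀ p : ℕ, p.Prime → p ∣ N → (p : k) ≠ 0) :
    FF1 k (modularFunctionFieldFullC k N) := by
  have := Fermat.Agent.S18.H739.finiteDimensional_adjoin_jC k N hchar
  exact Fermat.Agent.Lib.RR.H383.ff1_of_finite (Fermat.Agent.S18.H739.transcendental_jC k N)

theorem hasPrincipalDivisors_fullC (hchar : ∀ p : ℕ, p.Prime → p ∣ N → (p : k) ≠ 0) :
    HasPrincipalDivisors k (modularFunctionFieldFullC k N) :=
  (ff1_fullC k N hchar).hpd

theorem deg_eq_one_fullC (hchar : ∀ p : ℕ, p.Prime → p ∣ N → (p : k) ≠ 0)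
    (v : Place k (modularFunctionFieldFullC k N)) : v.deg = 1 :=
  (ff1_fullC k N hchar).deg_eq_one v

/-- CONST_Fk: a modular function over `k` without zeros and poles is constant. -/
theorem constStatement_fullC (hchar : ∀ p : ℕ, p.Prime → p ∣ N → (p : k) ≠ 0) :
    Fermat.Agent.S18.Sq05.ConstStatement k (modularFunctionFieldFullC k N) := by
  intro u _ hu
  have := Fermat.Agent.S18.H739.finiteDimensional_adjoin_jC k N hchar
  obtain ⟨c, hc⟩ := Fermat.Agent.Lib.RR.H383.eq_algebraMap_of_forall_ord_eq_zero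
    (Fermat.Agent.S18.H739.transcendental_jC k N) hu
  exact ⟨c, hc.symm⟩

end Modular

section Residue

variable (N : ℕ) [NeZero N] (ℓ : ℕ)

set_option synthInstance.maxHeartbeats 400000 in
/-- `FF1` for the function field of `X₀(N)` over the residue field of a valuation subring of
`ℚ̄` above `ℓ ∤ N`. -/
theorem ff1_residue (hℓ : ℓ.Prime) (hℓN : ¬ ℓ ∣ N) (A : ValuationSubring (AlgebraicClosure ℚ))
    (hA : A.LiesOverPrime ℓ) :
    FF1 (IsLocalRing.ResidueField A)
      (modularFunctionFieldFullC (IsLocalRing.ResidueField A) N) := by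
  have := Fermat.Agent.S18.H9.resAlgClosed _ A
  refine ff1_fullC _ N fun p hp hpN =>
    Fermat.Agent.S18.H9.resChar _ A ℓ p hℓ hp hA ?_
  rintro rfl
  exact hℓN hpN

/-- **T3** in the frozen shape of `Sq05/Spec.lean`. -/
theorem t3Statement : Fermat.Agent.S18.Sq05.T3Statement := by
  intro N _ ℓ hℓ hℓN A hA
  have := Fermat.Agent.S18.H9.resAlgClosed _ A
  refine constStatement_fullC _ N fun p hp hpN =>
    Fermat.Agent.S18.H9.resChar _ A ℓ p hℓ hp hA ?_
  rintro rfl
  exact hℓN hpN

end Residue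

end Fermat.Agent.S18.H383

end
-- ===== PACK-END S18/H383/FF1Modular.lean

-- ===== PACK-BEGIN S19/H979/LocalGlue.lean
section



/-!
# Cell A3 (S19) — LOCAL = DISC + GR : the frozen split and its glue  (deputy helper979)

    S19.LocalStatement   <==   AbsLocalStatement  +  GrStatement  +  RankOneStatement

* `AbsLocalStatement` (block DISC, architect helper799): the abstract LOCAL theorem
  `Fermat.Agent.A3.H799.LocalStatement K F k Fk` (for the frozen interface
  `Fermat.Agent.A3.H799.GoodRed`), used at `K = Q̄` only.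
* `GrStatement` (block GR / GOODRED-INST): at a good level `N` there is a `GoodRed` datum for
  `F = Q̄(X₀(N))` (`modularFunctionFieldBar N`) over a valuation ring `V` of `Q̄` above `ℓ`, whose
  group `I` contains the image of the inertia group of `V` under `arithmeticGalois`.
  The residue field `k` and the special fibre `Fk` are chosen by the GR block (any `Type`).
* `RankOneStatement` (pure algebra): valuation rings of `Q̄` above `ℓ` have rank one.

The glue `localStatement_of_abs_gr` is proved here without holes.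
-/

set_option autoImplicit false

noncomputable section

open AlgebraicCurve ModularCurve

namespace Fermat.Agent.S19.H979

open Fermat.Agent.S19

/-- **DISC** (abstract LOCAL theorem, constants `Q̄`): `A3.H799.LocalStatement` for every function
field over `Q̄` and every special fibre. -/
def AbsLocalStatement : Prop :=
  ∀ (F : Type) [Field F] [Algebra Qb F] (k : Type) [Field k] [IsAlgClosed k]
    (Fk : Type) [Field Fk] [Algebra k Fk], A3.H799.LocalStatement Qb F k Fk

/-- **GR** (good reduction of `X₀(N)` at a good level, in the form of the frozen `GoodRed`). -/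
def GrStatement : Prop :=
  ∀ (N : ℕ) [NeZero N] (ℓ : ℕ) [Fact ℓ.Prime], ¬ ℓ ∣ N → GoodLevel N ℓ →
    ∃ (k : Type) (_ : Field k) (_ : IsAlgClosed k) (Fk : Type) (_ : Field Fk) (_ : Algebra k Fk)
      (𝓡 : A3.H799.GoodRed Qb (modularFunctionFieldBar N) k Fk),
      (ℓ : Qb) ∈ 𝓡.V.nonunits ∧
      ∀ σ : GalQ, IsInertiaAt 𝓡.V σ → arithmeticGalois (modularFunctionFieldFull N) σ ∈ 𝓡.I

/-- **RANK ONE** (pure algebra): a valuation ring of `Q̄` above `ℓ` has rank one. -/
def RankOneStatement : Prop :=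
  ∀ (ℓ : ℕ) [Fact ℓ.Prime] (V : ValuationSubring Qb), (ℓ : Qb) ∈ V.nonunits →
    ∀ a b : Qb, a ∈ V.nonunits → b ≠ 0 → ∃ n : ℕ, a ^ n / b ∈ V

/-- The torsion of `J₀(N)` as an additive subgroup of `Pic0`. -/
def torsSubgroup (N ℓ e : ℕ) : AddSubgroup (Pic0 Qb (modularFunctionFieldBar N)) :=
  (Submodule.torsionBy ℤ (ModularCurve.JZero N) ((ℓ : ℤ) ^ e)).toAddSubgroup

/-- The identification `Tors N ℓ e ≃+ torsSubgroup N ℓ e` (identity on the carrier). -/
def torsEquiv (N ℓ e : ℕ) : Tors N ℓ e ≃+ torsSubgroup N ℓ e where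
  toFun x := ⟨(x : ModularCurve.JZero N), x.2⟩
  invFun x := ⟨(x : Pic0 Qb (modularFunctionFieldBar N)), x.2⟩
  left_inv _ := rfl
  right_inv _ := rfl
  map_add' _ _ := rfl

theorem smul_mem_torsSubgroup (N ℓ e : ℕ)
    (g : SemilinearAut Qb (modularFunctionFieldBar N))
    (x : Pic0 Qb (modularFunctionFieldBar N)) (hx : x ∈ torsSubgroup N ℓ e) :
    g • x ∈ torsSubgroup N ℓ e := by
  have h : ((ℓ : ℤ) ^ e) • x = 0 := (Submodule.mem_torsionBy_iff _ _).1 hx
  refine (Submodule.mem_torsionBy_iff _ _).2 ?_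
  have h2 := (DistribSMul.toAddMonoidHom (Pic0 Qb (modularFunctionFieldBar N)) g).map_zsmul
    ((ℓ : ℤ) ^ e) x
  rw [h, map_zero] at h2
  exact h2.symm

/-- **Glue**: LOCAL from the abstract LOCAL theorem, the good-reduction instance, and rank one. -/
theorem localStatement_of_abs_gr (hD : AbsLocalStatement) (hG : GrStatement)
    (hR : RankOneStatement) : LocalStatement := by
  intro N _ ℓ _ hℓN hgood e hfin
  obtain ⟨k, _, _, Fk, _, _, 𝓡, hℓ, hI⟩ := hG N ℓ hℓN hgood
  have hrank := hR ℓ 𝓡.V hℓ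
  have : Finite (torsSubgroup N ℓ e) := Finite.of_equiv _ (torsEquiv N ℓ e).toEquiv
  have hT : ∀ g ∈ 𝓡.I, ∀ x ∈ torsSubgroup N ℓ e, g • x ∈ torsSubgroup N ℓ e :=
    fun g _ x hx => smul_mem_torsSubgroup N ℓ e g x hx
  obtain ⟨ι, hι, Ψ, hinj, hint, heq, hadd⟩ :=
    hD (modularFunctionFieldBar N) k Fk 𝓡 hrank (torsSubgroup N ℓ e) hT
  refine ⟨{ V := 𝓡.V
            ell_mem := hℓ
            ι := ι
            fin := hι
            Ψ := fun m => Ψ (torsEquiv N ℓ e m)
            inj := fun m m' h => (torsEquiv N ℓ e).injective (hinj h)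
            integral := fun m i => hint _ i
            equivariant := ?_
            add_mem := ?_ }⟩
  · intro σ hσ m i
    exact heq (arithmeticGalois (modularFunctionFieldFull N) σ) (hI σ hσ) (torsEquiv N ℓ e m) i
  · intro i
    -- pull back along `torsEquiv × torsEquiv`
    let φ : (torsSubgroup N ℓ e × torsSubgroup N ℓ e → Qb) →ₐ[𝓡.V]
        (Tors N ℓ e × Tors N ℓ e → Qb) :=
      { toFun := fun G p => G (torsEquiv N ℓ e p.1, torsEquiv N ℓ e p.2)
        map_one' := rfl
        map_mul' := fun _ _ => rfl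
        map_zero' := rfl
        map_add' := fun _ _ => rfl
        commutes' := fun _ => rfl }
    have h1 := Subalgebra.mem_map.2 ⟨_, hadd i, (rfl : φ _ = φ _)⟩
    rw [AlgHom.map_adjoin] at h1
    have h2 : (fun p : Tors N ℓ e × Tors N ℓ e => Ψ (torsEquiv N ℓ e (p.1 + p.2)) i) =
        φ (fun p : torsSubgroup N ℓ e × torsSubgroup N ℓ e => Ψ (p.1 + p.2) i) := by
      funext p
      show Ψ (torsEquiv N ℓ e (p.1 + p.2)) i = Ψ (torsEquiv N ℓ e p.1 + torsEquiv N ℓ e p.2) i
      rw [map_add]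
    rw [h2]
    refine Algebra.adjoin_mono ?_ h1
    rintro _ ⟨g, (⟨j, rfl⟩ | ⟨j, rfl⟩), rfl⟩
    · exact Or.inl ⟨j, rfl⟩
    · exact Or.inr ⟨j, rfl⟩

end Fermat.Agent.S19.H979

end

end
-- ===== PACK-END S19/H979/LocalGlue.lean

-- ===== PACK-BEGIN A3/GR/Leaves.lean
section







/-!
# A3 / GOODRED-INST — frozen LEAVES and the (proved) assembly   (lead: helper19)

Target: an instance of `Fermat.Agent.A3.H799.GoodRed` for
`K = ℚ̄`, `F = F_M = ℚ̄(X₀(M))`, `k = A/𝔪`, `Fk = F_{M,k} = k(X₀(M))`,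
built on the CANONICAL objects of helper940 (`S37/H940/QSeries.lean`, `S37/Rim/Spec.lean`):

* `V`   = `A`;   `O` = the ring of fractions `a/b` of integral `q`-series with `b̄ ≠ 0`
          (`(Rim.ctx A M).V`; a valuation ring by leaf GAUSS);
* `red` = coefficientwise reduction (`(Rim.ctx A M).ρ`);
* `r`   = the place map of the Prelude's `ReductionInputsModL A M` (node_rim of row S37);
* `I`   = image of the inertia group of `A` under `arithmeticGalois`.

`goodRed_of_leaves` is PROVED here from the leaves below; each leaf is a `def … : Prop`.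
A leaf `X` is DONE when `theorem … : XStatement A M` (with the hypotheses it needs: `ℓ ∤ M`,
`A.LiesOverPrime ℓ`, good level) is on main, sorry-free.
-/

set_option autoImplicit false
set_option synthInstance.maxHeartbeats 400000

noncomputable section

namespace Fermat.Agent.A3.GR

open AlgebraicCurve ModularCurve HahnSeries IsLocalRing
open Fermat.Agent.S37.Rim Fermat.Agent.S37.H940 Fermat.Agent.A3.H799

variable (A : ValuationSubring Qb) (M : ℕ)

/-- the inertia group of `A`, acting on `F_M` -/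
def inertia : Subgroup (SemilinearAut Qb (FM M)) :=
  (A.inertiaSubgroupIn ℚ).map (arithmeticGalois (modularFunctionFieldFull M))

/-- **LEAF GAUSS**: every nonzero function is a constant times a fraction of integral
`q`-series with nonzero reductions (= helper940's `ValueGroupHyp`). -/
def GaussStatement : Prop :=
  ValueGroupHyp A (residue A) (FM M) (FkM A M)

/-- **LEAF RSURJ**: reduction of functions is onto. -/
def RedSurjStatement : Prop :=
  Function.Surjective (ctx A M).ρ

/-- **LEAF RIM** (node_rim of row S37 in the fraction form of helper940's `Atlas.exists_red`,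
together with the pointwise inertia invariance): the place reduction map. -/
def RimStatement : Prop :=
  ∃ r : Place Qb (FM M) → Place (kA A) (FkM A M),
    (∀ P, (r P).deg = P.deg) ∧
    (∀ u : (ctx A M).V, (ctx A M).ρ u ≠ 0 → ∀ D : Divisor Qb (FM M),
      (∀ P, D P = P.ord (u : FM M)) → ∀ Q, Finsupp.mapDomain r D Q = Q.ord ((ctx A M).ρ u)) ∧
    ∀ σ ∈ A.inertiaSubgroupIn ℚ, ∀ P : Place Qb (FM M),
      r (arithmeticGalois (modularFunctionFieldFull M) σ • P) = r P

/-- **LEAF GENUS**: equal genus. -/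
def GenusStatement : Prop :=
  genusFF Qb (FM M) = genusFF (kA A) (FkM A M)

/-- **LEAF ORTHO**: orthonormal bases of Riemann–Roch spaces, inertia-invariant for
inertia-invariant divisors. -/
def OrthoStatement : Prop :=
  ∀ D : Divisor Qb (FM M), ∃ (n : ℕ) (b : Fin n → (ctx A M).V),
    LinearIndependent (kA A) (fun i => (ctx A M).ρ (b i)) ∧
    (∀ i, ((b i : (ctx A M).V) : FM M) ∈ riemannRochSpace D) ∧
    Submodule.span Qb (Set.range fun i => ((b i : (ctx A M).V) : FM M)) = riemannRochSpace D ∧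
    ((∀ g ∈ inertia A M, g • D = D) →
      ∀ i, ∀ g ∈ inertia A M, g • ((b i : (ctx A M).V) : FM M) = ((b i : (ctx A M).V) : FM M))

/-- **LEAF IBASE**: inertia preserves `A` and acts trivially on the residue field. -/
def IBaseStatement : Prop :=
  ∀ σ ∈ A.inertiaSubgroupIn ℚ, ∀ a : A, ∃ h : σ (a : Qb) ∈ A,
    residue A ⟨σ (a : Qb), h⟩ = residue A a

/-- **LEAF IRED**: inertia preserves `O` and acts trivially on reductions. -/
def IRedStatement : Prop :=
  ∀ σ ∈ A.inertiaSubgroupIn ℚ, ∀ f : (ctx A M).V,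
    ∃ h : arithmeticGalois (modularFunctionFieldFull M) σ • (f : FM M) ∈ (ctx A M).V,
      (ctx A M).ρ ⟨arithmeticGalois (modularFunctionFieldFull M) σ • (f : FM M), h⟩ =
        (ctx A M).ρ f

/-- **LEAF ILIFT**: every residue constant has an inertia-invariant lift. -/
def ILiftStatement : Prop :=
  ∀ c : kA A, ∃ a : A, residue A a = c ∧ ∀ σ ∈ A.inertiaSubgroupIn ℚ, σ (a : Qb) = (a : Qb)

/-- **LEAF IFIXED**: there is an inertia-invariant place (the cusp `∞`). -/
def IFixedStatement : Prop :=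
  ∃ P : Place Qb (FM M), ∀ σ ∈ A.inertiaSubgroupIn ℚ,
    arithmeticGalois (modularFunctionFieldFull M) σ • P = P

end Fermat.Agent.A3.GR

end

end
-- ===== PACK-END A3/GR/Leaves.lean

-- ===== PACK-BEGIN S37/Red/H159/LiftNC.lean
section




/-!
# S37-RED, (H3) normality of the special fibre from (H1) + (NC)   (helper159, THEOREM M)

For a reduction datum `G : Red.Datum A π F Fk` (helper40's `Red/Spec.lean`) over algebraically
closed constants (`K` of characteristic `0`):

* `NoRamOutside G t S` : (NC) for the coordinate `t`: for every `c ∈ A \ S` the ideal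
  `(t - c)` of the integral closure `K·B_t` of `K[t]` is radical (no ramification over `t = c`),
  in elementwise form;
* `lift_of_NC` : (H1) for `t` + (NC) with `S` finite and injective mod `𝔪_A`  ⟹  (H3) for `t`;
* `lift_fin_of_NC`, `lift_inf_of_NC` : the fields `lift_fin`, `lift_inf` of `Datum.Good`;
* `good_of_NC` : `G.Good` from (H1) + (NC) on both charts.

No noetherian hypothesis, no descent to a DVR, no model over `ℤ_(ℓ)`.
-/

set_option autoImplicit false

namespace Fermat.Agent.S37.Red.H159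

open AlgebraicCurve IntermediateField

universe u

variable {K k : Type u} [Field K] [Field k] {A : ValuationSubring K} {π : A →+* k}
  {F Fk : Type u} [Field F] [Field Fk] [Algebra K F] [Algebra k Fk]

/-- **(NC)** for the coordinate `t`, outside `S`: if `f` and `f² / (t - c)` are integral over
`K[t]` then so is `f / (t - c)`  (`c ∈ A \ S`). -/
def NoRamOutside (G : Datum A π F Fk) (t : F) (S : Finset A) : Prop :=
  ∀ c : A, c ∉ S → ∀ f ∈ G.chartK t, f ^ 2 / (t - algebraMap K F (c : K)) ∈ G.chartK t →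
    f / (t - algebraMap K F (c : K)) ∈ G.chartK t

variable [IsAlgClosed K] [CharZero K] [IsAlgClosed k]

/-- **(H3) from (H1) + (NC)**, arbitrary coordinate. -/
theorem lift_of_NC (G : Datum A π F Fk) {t : F} (ht : t ∈ G.O)
    (htr : Transcendental k (G.ρ ⟨t, ht⟩))
    [FiniteDimensional K⟮t⟯ F] [FiniteDimensional k⟮G.ρ ⟨t, ht⟩⟯ Fk]
    [Algebra.IsSeparable k⟮G.ρ ⟨t, ht⟩⟯ Fk]
    (hfr : Module.finrank K⟮t⟯ F = Module.finrank k⟮G.ρ ⟨t, ht⟩⟯ Fk)
    (S : Finset A) (hS : Set.InjOn π (S : Set A)) (hNC : NoRamOutside G t S) :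
    ∀ z ∈ G.chartk (G.ρ ⟨t, ht⟩), ∃ b ∈ G.chart t, ∃ hb : b ∈ G.O, G.ρ ⟨b, hb⟩ = z := by
  intro z hz
  obtain ⟨b, hb, hbint, hbz⟩ :=
    Fermat.Agent.S37.H159.lift_integral_adjoin A π G.π_surj G.O G.ρ G.ρ_surj G.const_mem
      G.ρ_const t ht htr hfr S hS (fun c hc f hf hf2 => hNC c hc f hf hf2) z hz
  exact ⟨b, hbint, hb, hbz⟩

/-- **(H3) at the finite chart.** -/
theorem lift_fin_of_NC (G : Datum A π F Fk)
    [FiniteDimensional K⟮G.x⟯ F] [hk : FiniteDimensional k⟮G.xk⟯ Fk]
    [hs : Algebra.IsSeparable k⟮G.xk⟯ Fk]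
    (hfr : Module.finrank K⟮G.x⟯ F = Module.finrank k⟮G.xk⟯ Fk)
    (S : Finset A) (hS : Set.InjOn π (S : Set A)) (hNC : NoRamOutside G G.x S) :
    ∀ c ∈ G.chartk G.xk, ∃ b ∈ G.chart G.x, ∃ hb : b ∈ G.O, G.ρ ⟨b, hb⟩ = c := by
  have hk' : FiniteDimensional k⟮G.ρ ⟨G.x, G.x_mem⟩⟯ Fk := hk
  have hs' : Algebra.IsSeparable k⟮G.ρ ⟨G.x, G.x_mem⟩⟯ Fk := hs
  exact lift_of_NC G G.x_mem G.xk_transc hfr S hS hNC

/-- **(H3) at the chart at infinity.** -/
theorem lift_inf_of_NC (G : Datum A π F Fk)
    [hfin : FiniteDimensional K⟮G.x⟯ F] [hfink : FiniteDimensional k⟮G.xk⟯ Fk]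
    [hsep : Algebra.IsSeparable k⟮G.xk⟯ Fk]
    (hfr : Module.finrank K⟮G.x⟯ F = Module.finrank k⟮G.xk⟯ Fk)
    (S : Finset A) (hS : Set.InjOn π (S : Set A)) (hNC : NoRamOutside G G.x⁻¹ S) :
    ∀ c ∈ G.chartk G.xk⁻¹, ∃ b ∈ G.chart G.x⁻¹, ∃ hb : b ∈ G.O, G.ρ ⟨b, hb⟩ = c := by
  have hρ := Red.H217.ρ_x_inv G
  have htr : Transcendental k (G.ρ ⟨G.x⁻¹, Red.H217.x_inv_mem G⟩) := by
    rw [hρ]
    intro h
    apply G.xk_transc
    have := h.inv
    rwa [inv_inv] at this
  have : FiniteDimensional K⟮G.x⁻¹⟯ F := by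
    rw [Red.H217.adjoin_inv_eq']; exact hfin
  have : FiniteDimensional k⟮G.ρ ⟨G.x⁻¹, Red.H217.x_inv_mem G⟩⟯ Fk := by
    rw [hρ, Red.H217.adjoin_inv_eq']; exact hfink
  have : Algebra.IsSeparable k⟮G.ρ ⟨G.x⁻¹, Red.H217.x_inv_mem G⟩⟯ Fk := by
    rw [hρ, Red.H217.adjoin_inv_eq']; exact hsep
  have hfr' : Module.finrank K⟮G.x⁻¹⟯ F =
      Module.finrank k⟮G.ρ ⟨G.x⁻¹, Red.H217.x_inv_mem G⟩⟯ Fk := by
    rw [hρ, Red.H217.adjoin_inv_eq', Red.H217.adjoin_inv_eq']
    exact hfr
  have key := lift_of_NC G (Red.H217.x_inv_mem G) htr hfr' S hS hNC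
  rw [hρ] at key
  exact key

/-- **`G.Good` from (H1) + (NC) on both charts.** -/
theorem good_of_NC (G : Datum A π F Fk)
    (finite : FiniteDimensional K⟮G.x⟯ F) (finite_k : FiniteDimensional k⟮G.xk⟯ Fk)
    (sep_k : Algebra.IsSeparable k⟮G.xk⟯ Fk)
    (finrank_eq : Module.finrank K⟮G.x⟯ F = Module.finrank k⟮G.xk⟯ Fk)
    (S S' : Finset A) (hS : Set.InjOn π (S : Set A)) (hS' : Set.InjOn π (S' : Set A))
    (hNC : NoRamOutside G G.x S) (hNC' : NoRamOutside G G.x⁻¹ S') : G.Good :=
  Red.H217.good_of G finite finite_k sep_k finrank_eq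
    (lift_fin_of_NC G finrank_eq S hS hNC) (lift_inf_of_NC G finrank_eq S' hS' hNC')

end Fermat.Agent.S37.Red.H159

end
-- ===== PACK-END S37/Red/H159/LiftNC.lean

-- ===== PACK-BEGIN S37/H448/Gen.lean
section







/-!
# S37 / piece R-f [GEN] (helper448): unconditional `PrincipalGeneratedByIntegral`

Glue of landed pieces:
* `S28.H867.coreData_of_inputs` + `S28.H807` + `S28.H25` : `CoreData N K` for every field `K`
  of characteristic `ℓ ∤ N`;
* `Lib.RR.H864.hasPrincipalDivisors_modularFunctionFieldBar`;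
* `S37.H700.pgi`, `S37.H700.reduction_mem`.

Exports (all hypothesis-free beyond `ℓ` prime, `ℓ ∤ N`, `A` over `ℓ`):
* `charP_residueField_of_liesOverPrime`
* `coreData_residueField`
* `principalGeneratedByIntegral` : the field `gen` of `Core.GeoRed` / `Core.PlaceRed`
* `reduction_mem_fullC` : the reduction of `u ∈ A((q)) ∩ F̄_N` lies in `F_k`
-/

set_option autoImplicit false

noncomputable section

namespace Fermat.Agent.S37.H448

open ModularCurve HahnSeries AlgebraicCurve

/-- the residue field of a valuation subring of `ℚ̄` over `ℓ` has characteristic `ℓ` -/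
theorem charP_residueField_of_liesOverPrime {ℓ : ℕ} (hℓ : ℓ.Prime)
    (A : ValuationSubring (AlgebraicClosure ℚ)) (hA : A.LiesOverPrime ℓ) :
    CharP (IsLocalRing.ResidueField A) ℓ := by
  refine (CharP.charP_iff_prime_eq_zero hℓ).mpr ?_
  have h1 : ((ℓ : A) : AlgebraicClosure ℚ) ∈ A.nonunits := by
    have : ((ℓ : A) : AlgebraicClosure ℚ) = (ℓ : AlgebraicClosure ℚ) := by push_cast; rfl
    rw [this]; exact hA
  have h2 : (ℓ : A) ∈ IsLocalRing.maximalIdeal A := ValuationSubring.coe_mem_nonunits_iff.mp h1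
  have h3 := (IsLocalRing.residue_eq_zero_iff (ℓ : A)).mpr h2
  rwa [map_natCast] at h3

/-- `CoreData N k` for the residue field `k` of a valuation subring of `ℚ̄` over `ℓ ∤ N` -/
theorem coreData_residueField (N : ℕ) [NeZero N] {ℓ : ℕ} (hℓ : ℓ.Prime) (hℓN : ¬ ℓ ∣ N)
    (A : ValuationSubring (AlgebraicClosure ℚ)) (hA : A.LiesOverPrime ℓ) :
    Fermat.Agent.S28.CoreData N (IsLocalRing.ResidueField A) := by
  have : Fact ℓ.Prime := ⟨hℓ⟩
  have : CharP (IsLocalRing.ResidueField A) ℓ := charP_residueField_of_liesOverPrime hℓ A hA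
  exact Fermat.Agent.S28.H867.coreData_of_inputs N ℓ hℓN (IsLocalRing.ResidueField A)
    (fun p hp _ _ => Fermat.Agent.S28.H807.nonempty_modPolyData p hp)
    (fun p hp _ _ => Fermat.Agent.S28.H807.nonempty_unitPolyData p hp)
    Fermat.Agent.S28.H25.theta_identity

/-- **R-f [GEN]**: every principal divisor of `ℚ̄(X₀(N))` is generated by divisors of
`A`-integral functions with nonzero reduction in `F_k`. -/
theorem principalGeneratedByIntegral (N : ℕ) [NeZero N] {ℓ : ℕ} (hℓ : ℓ.Prime) (hℓN : ¬ ℓ ∣ N)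
    (A : ValuationSubring (AlgebraicClosure ℚ)) (hA : A.LiesOverPrime ℓ) :
    PrincipalGeneratedByIntegral A (IsLocalRing.residue A) N := by
  have := Fermat.Agent.Lib.RR.H864.hasPrincipalDivisors_modularFunctionFieldBar N
  exact Fermat.Agent.S37.H700.pgi (coreData_residueField N hℓ hℓN A hA)

/-- the coefficientwise reduction of `u ∈ A((q)) ∩ F̄_N` lies in `F_k` (so the field `memk` of
`Core.IntElt` is automatic) -/
theorem reduction_mem_fullC (N : ℕ) [NeZero N] {ℓ : ℕ} (hℓ : ℓ.Prime) (hℓN : ¬ ℓ ∣ N)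
    (A : ValuationSubring (AlgebraicClosure ℚ)) (hA : A.LiesOverPrime ℓ)
    (u : LaurentSeries A) (hu : coeffMap A.subtype u ∈ modularFunctionFieldBar N) :
    coeffMap (IsLocalRing.residue A) u ∈
      modularFunctionFieldFullC (IsLocalRing.ResidueField A) N :=
  Fermat.Agent.S37.H700.reduction_mem (coreData_residueField N hℓ hℓN A hA) u hu

end Fermat.Agent.S37.H448

end
end
-- ===== PACK-END S37/H448/Gen.lean

-- ===== PACK-BEGIN S19/H979/RankOne.lean
section


/-!
# Cell A3 (S19) — RANK ONE  (helper979)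

`rankOneStatement : RankOneStatement`: a valuation ring `V` of `Q̄` in which the prime `ℓ` is not a
unit has rank one, in the form used by the abstract LOCAL theorem:
`a ∈ 𝔪_V`, `b ≠ 0`  ⟹  `a ^ n / b ∈ V` for some `n`.

Consequence: `localStatement_of_abs_gr' : AbsLocalStatement → GrStatement → S19.LocalStatement`.
-/

set_option autoImplicit false

noncomputable section

namespace Fermat.Agent.S19.H979

open Polynomial Fermat.Agent.S19

section LocalRing

variable {A : Type*} [CommRing A] [IsLocalRing A]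

/-- An integer prime to `ℓ` is a unit in a local ring in which `ℓ` is not a unit. -/
theorem isUnit_intCast_of_not_dvd {ℓ : ℕ} (hℓ : ℓ.Prime) (hℓA : ((ℓ : ℤ) : A) ∈ nonunits A)
    {u : ℤ} (hu : ¬ (ℓ : ℤ) ∣ u) : IsUnit ((u : ℤ) : A) := by
  have hcop : IsCoprime (ℓ : ℤ) u :=
    (Prime.coprime_iff_not_dvd (Nat.prime_iff_prime_int.1 hℓ)).2 hu
  obtain ⟨x, y, hxy⟩ := hcop
  have h1 : ((y : ℤ) : A) * ((u : ℤ) : A) = 1 - ((x : ℤ) : A) * ((ℓ : ℤ) : A) := by
    have := congrArg (Int.cast : ℤ → A) hxy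
    push_cast at this
    push_cast
    linear_combination this
  have h2 : ((x : ℤ) : A) * ((ℓ : ℤ) : A) ∈ nonunits A := by
    rw [← IsLocalRing.mem_maximalIdeal] at hℓA ⊢
    exact Ideal.mul_mem_left _ _ hℓA
  have h3 : IsUnit (((y : ℤ) : A) * ((u : ℤ) : A)) := by
    rw [h1]
    exact IsLocalRing.isUnit_one_sub_self_of_mem_nonunits _ h2
  exact isUnit_of_mul_isUnit_right h3

/-- Newton-polygon step: if `p ∈ ℤ[X]` has its first `ℓ`-unit coefficient in degree `n` and
`ℓ ∣ p(a) a^k` for a non-unit `a`, then `ℓ ∣ a ^ (n + k)`. -/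
theorem dvd_pow_of_aeval {ℓ : ℕ} (hℓ : ℓ.Prime) (hℓA : ((ℓ : ℤ) : A) ∈ nonunits A)
    (a : A) (ha : a ∈ nonunits A) :
    ∀ (n k : ℕ) (p : ℤ[X]), (∀ i < n, (ℓ : ℤ) ∣ p.coeff i) → ¬ (ℓ : ℤ) ∣ p.coeff n →
      ((ℓ : ℤ) : A) ∣ aeval a p * a ^ k → ((ℓ : ℤ) : A) ∣ a ^ (n + k) := by
  intro n
  induction n with
  | zero =>
    intro k p _ h0 hdiv
    have hp : aeval a p = aeval a p.divX * a + ((p.coeff 0 : ℤ) : A) := by
      conv_lhs => rw [← divX_mul_X_add p]
      simp
    have hu : IsUnit (aeval a p) := by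
      by_contra hnu
      have h1 : aeval a p.divX * a ∈ nonunits A := by
        rw [← IsLocalRing.mem_maximalIdeal] at ha ⊢
        exact Ideal.mul_mem_left _ _ ha
      have h2 : ((p.coeff 0 : ℤ) : A) ∈ nonunits A := by
        have h3 : ((p.coeff 0 : ℤ) : A) = aeval a p - aeval a p.divX * a := by
          rw [hp]; ring
        rw [h3]
        rw [← IsLocalRing.mem_maximalIdeal] at h1 ⊢
        exact Ideal.sub_mem _ ((IsLocalRing.mem_maximalIdeal _).2 hnu) h1
      exact h2 (isUnit_intCast_of_not_dvd hℓ hℓA h0)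
    rw [zero_add]
    exact (hu.dvd_mul_left).1 hdiv
  | succ n ih =>
    intro k p hlow hn hdiv
    have hp : aeval a p = aeval a p.divX * a + ((p.coeff 0 : ℤ) : A) := by
      conv_lhs => rw [← divX_mul_X_add p]
      simp
    have h0 : ((ℓ : ℤ) : A) ∣ ((p.coeff 0 : ℤ) : A) := by
      obtain ⟨c, hc⟩ := hlow 0 (Nat.succ_pos n)
      exact ⟨(c : A), by rw [hc]; push_cast; ring⟩
    have h1 : ((ℓ : ℤ) : A) ∣ aeval a p.divX * a ^ (k + 1) := by
      have h2 : aeval a p.divX * a ^ (k + 1) =
          aeval a p * a ^ k - ((p.coeff 0 : ℤ) : A) * a ^ k := by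
        rw [hp]; ring
      rw [h2]
      exact dvd_sub hdiv (Dvd.dvd.mul_right h0 _)
    have h3 := ih (k + 1) p.divX
      (fun i hi => by rw [coeff_divX]; exact hlow (i + 1) (Nat.succ_lt_succ hi))
      (by rw [coeff_divX]; exact hn) h1
    have h4 : n + 1 + k = n + (k + 1) := by ring
    rw [h4]
    exact h3

end LocalRing

/-- Every element of `Q̄` is algebraic over `ℤ`. -/
theorem isAlgebraic_int_qb (x : Qb) : IsAlgebraic ℤ x :=
  (IsFractionRing.isAlgebraic_iff ℤ ℚ Qb).2 ((AlgebraicClosure.isAlgebraic ℚ).isAlgebraic x)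

/-- Step B: a power of a non-unit is divisible by `ℓ`. -/
theorem exists_pow_eq_ell_mul {ℓ : ℕ} (hℓ : ℓ.Prime) (V : ValuationSubring Qb)
    (hℓV : (ℓ : Qb) ∈ V.nonunits) (a : Qb) (ha : a ∈ V.nonunits) :
    ∃ (j : ℕ) (s : Qb), s ∈ V ∧ a ^ j = (ℓ : Qb) * s := by
  by_cases ha0 : a = 0
  · exact ⟨1, 0, V.zero_mem, by rw [ha0]; simp⟩
  obtain ⟨haV, ham⟩ := (V.mem_nonunits_iff_exists_mem_maximalIdeal).1 ha
  obtain ⟨hℓmem, hℓm⟩ := (V.mem_nonunits_iff_exists_mem_maximalIdeal).1 hℓV
  obtain ⟨p, hp0, hpa⟩ := isAlgebraic_int_qb a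
  have hq : aeval a p.primPart = 0 := aeval_primPart_eq_zero hp0 hpa
  have hprim : p.primPart.IsPrimitive := isPrimitive_primPart p
  have hex : ∃ i, ¬ (ℓ : ℤ) ∣ p.primPart.coeff i := by
    by_contra hcon
    push Not at hcon
    have h1 : C (ℓ : ℤ) ∣ p.primPart := (C_dvd_iff_dvd_coeff _ _).2 hcon
    have h2 : IsUnit (ℓ : ℤ) := hprim _ h1
    exact (Nat.prime_iff_prime_int.1 hℓ).not_isUnit h2
  classical
  let n := Nat.find hex
  have hn : ¬ (ℓ : ℤ) ∣ p.primPart.coeff n := Nat.find_spec hex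
  have hlow : ∀ i < n, (ℓ : ℤ) ∣ p.primPart.coeff i := fun i hi => by
    have := Nat.find_min hex hi
    push Not at this
    exact this
  -- transfer to the local ring `V`
  let a' : V := ⟨a, haV⟩
  have ha' : a' ∈ nonunits V := (IsLocalRing.mem_maximalIdeal _).1 ham
  have hℓ' : (((ℓ : ℤ) : V)) ∈ nonunits V := by
    have h : (((ℓ : ℤ) : V)) = ⟨(ℓ : Qb), hℓmem⟩ := Subtype.ext (by simp)
    rw [h]
    exact (IsLocalRing.mem_maximalIdeal _).1 hℓm
  have haev : aeval a' p.primPart = 0 := by
    have h1 : algebraMap V Qb (aeval a' p.primPart) = aeval (algebraMap V Qb a') p.primPart :=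
      (aeval_algebraMap_apply Qb a' p.primPart).symm
    have h2 : aeval (algebraMap V Qb a') p.primPart = 0 := hq
    rw [h2] at h1
    exact (FaithfulSMul.algebraMap_injective V Qb) (by rw [h1, map_zero])
  have hdiv : (((ℓ : ℤ) : V)) ∣ aeval a' p.primPart * a' ^ 0 := by
    rw [haev, zero_mul]
    exact dvd_zero _
  obtain ⟨s, hs⟩ := dvd_pow_of_aeval hℓ hℓ' a' ha' n 0 p.primPart hlow hn hdiv
  refine ⟨n, (s : Qb), s.2, ?_⟩
  have := congrArg (fun x : V => (x : Qb)) hs
  simpa using this

/-- Step A: every nonzero element divides a power of `ℓ`. -/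
theorem exists_ell_pow_div_mem {ℓ : ℕ} (hℓ : ℓ.Prime) (V : ValuationSubring Qb)
    (hℓV : (ℓ : Qb) ∈ V.nonunits) (b : Qb) :
    ∃ m : ℕ, (ℓ : Qb) ^ m / b ∈ V := by
  obtain ⟨hℓmem, hℓm⟩ := (V.mem_nonunits_iff_exists_mem_maximalIdeal).1 hℓV
  have hℓ' : (((ℓ : ℤ) : V)) ∈ nonunits V := by
    have h : (((ℓ : ℤ) : V)) = ⟨(ℓ : Qb), hℓmem⟩ := Subtype.ext (by simp)
    rw [h]
    exact (IsLocalRing.mem_maximalIdeal _).1 hℓm
  obtain ⟨d, hd0, hd⟩ := (isAlgebraic_int_qb b⁻¹).exists_integral_multiple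
  -- `d • b⁻¹ ∈ V`
  have hdV : (d : Qb) * b⁻¹ ∈ V := by
    have h1 : IsIntegral V (d • b⁻¹ : Qb) := hd.tower_top
    obtain ⟨y, hy⟩ := (IsIntegrallyClosed.isIntegral_iff (R := V) (K := Qb)).1 h1
    have h2 : (d • b⁻¹ : Qb) = (d : Qb) * b⁻¹ := by simp [zsmul_eq_mul]
    rw [← h2, ← hy]
    exact y.2
  -- `d = ℓ ^ m * u` with `u` prime to `ℓ`
  have hfin : FiniteMultiplicity (ℓ : ℤ) d :=
    Int.finiteMultiplicity_iff.2 ⟨by simpa using hℓ.ne_one, hd0⟩
  obtain ⟨u, hdu, hu⟩ := hfin.exists_eq_pow_mul_and_not_dvd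
  have huV : IsUnit ((u : ℤ) : V) := isUnit_intCast_of_not_dvd hℓ hℓ' hu
  obtain ⟨w, hw⟩ := huV.exists_left_inv
  refine ⟨multiplicity (ℓ : ℤ) d, ?_⟩
  have hwu : (w : Qb) * (u : Qb) = 1 := by
    have := congrArg (fun x : V => (x : Qb)) hw
    simpa using this
  have key : (ℓ : Qb) ^ multiplicity (ℓ : ℤ) d / b = (w : Qb) * ((d : Qb) * b⁻¹) := by
    have hdq : (d : Qb) = (ℓ : Qb) ^ multiplicity (ℓ : ℤ) d * (u : Qb) := by
      conv_lhs => rw [hdu]
      push_cast
      ring
    rw [hdq, div_eq_mul_inv]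
    calc (ℓ : Qb) ^ multiplicity (ℓ : ℤ) d * b⁻¹
        = ((w : Qb) * (u : Qb)) * ((ℓ : Qb) ^ multiplicity (ℓ : ℤ) d * b⁻¹) := by
          rw [hwu, one_mul]
      _ = (w : Qb) * ((ℓ : Qb) ^ multiplicity (ℓ : ℤ) d * (u : Qb) * b⁻¹) := by ring
  rw [key]
  exact V.mul_mem _ _ w.2 hdV

/-- **RANK ONE.** -/
theorem rankOneStatement : RankOneStatement := by
  intro ℓ hfact V hℓV a b ha _
  obtain ⟨j, s, hs, hjs⟩ := exists_pow_eq_ell_mul hfact.out V hℓV a ha
  obtain ⟨m, hm⟩ := exists_ell_pow_div_mem hfact.out V hℓV b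
  refine ⟨j * m, ?_⟩
  have key : a ^ (j * m) / b = s ^ m * ((ℓ : Qb) ^ m / b) := by
    rw [pow_mul, hjs, mul_pow]
    ring
  rw [key]
  exact V.mul_mem _ _ (V.pow_mem hs m) hm

/-- **Glue, final form**: LOCAL from the abstract LOCAL theorem and the good-reduction
instance. -/
theorem localStatement_of_abs_gr' (hD : AbsLocalStatement) (hG : GrStatement) :
    LocalStatement :=
  localStatement_of_abs_gr hD hG rankOneStatement

end Fermat.Agent.S19.H979

end

end
-- ===== PACK-END S19/H979/RankOne.lean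

-- ===== PACK-BEGIN S19/H679/Descent.lean
section


/-!
# Cell A3 (S19), block UNR (helper679) — the key descent

`Hloc = V · (Hloc ∩ {Galois-invariant functions})`.

For a good function `f` (inertia-invariant, `E`-valued, in `Hloc`) the orbit traces
`∑_{p ∈ orbit of (c, f)} c_p • f_p` with coefficients `c_j = U · c⁰_j` (`U` the CRT element,
`c⁰_j` the Lagrange monomials) are Galois-invariant elements of `Hloc`, and
`∑_j a_j • trace_j ≡ f` modulo `𝔪_V • Hloc`.  Nakayama finishes.
-/

set_option autoImplicit false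

namespace Fermat.Agent.S19.H679

open Fermat.Agent.S54 Fermat.Agent.S55.Bridge Fermat.Agent.S55.Bridge.H594

attribute [local instance] isAlgebraic_Qbar isGalois_Qbar

variable {ℓ : ℕ} {M : Type} [AddCommGroup M] {act : GalQ → M → M}

/-- The Galois-invariant elements of `Hloc`. -/
def invSetH679 (L : LocalCoordDatum ℓ M act) : Set (M → Qb) :=
  {h | h ∈ Subalgebra.toSubmodule (HlocH679 L) ∧ ∀ σ : GalQ, starH679 act σ h = h}

section

variable [Finite M] (hℓ : ℓ.Prime) (hact : IsContAddAction act) (L : LocalCoordDatum ℓ M act)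

include hℓ in
/-- Uniform bound for the denominators of the conjugates of the values of a function. -/
theorem exists_denomH679 (f : M → Qb) :
    ∃ a : ℕ, ∀ (σ : GalQ) (m : M), (ℓ : Qb) ^ a * σ (f m) ∈ L.V := by
  classical
  haveI := Fintype.ofFinite M
  choose am ham using fun m => exists_pow_mul_conj_memH679 L.V hℓ L.ell_mem (f m)
  refine ⟨∑ m, am m, fun σ m => ?_⟩
  have hle : am m ≤ ∑ m, am m :=
    Finset.single_le_sum (fun _ _ => Nat.zero_le _) (Finset.mem_univ m)
  have : (ℓ : Qb) ^ (∑ m, am m) * σ (f m)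
      = (ℓ : Qb) ^ ((∑ m, am m) - am m) * ((ℓ : Qb) ^ am m * σ (f m)) := by
    rw [← mul_assoc, ← pow_add, Nat.sub_add_cancel hle]
  rw [this]
  exact L.V.mul_mem _ _ (pow_mem (mem_of_mem_nonunitsH679 L.V L.ell_mem) _) (ham m σ)

include hℓ hact in
/-- One good function is, modulo `𝔪 • Hloc`, a combination of invariants. -/
theorem good_mem_supH679 (Λ : LevelDataH679 L) (e : ℕ)
    (he : ∀ F : M → Qb, (∀ m, ∃ z ∈ L.V, F m = (ℓ : Qb) ^ (e + 1) * z) →
      F ∈ IsLocalRing.maximalIdeal L.V • Subalgebra.toSubmodule (HlocH679 L))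
    {f : M → Qb} (hf : IsGoodFunH679 L Λ f) :
    f ∈ Submodule.span L.V (invSetH679 L) ⊔
      IsLocalRing.maximalIdeal L.V • Subalgebra.toSubmodule (HlocH679 L) := by
  classical
  haveI := Λ.normal
  haveI := Λ.fin
  have hA := isActH679_of_cont hact
  obtain ⟨a, ha⟩ := exists_denomH679 hℓ L f
  obtain ⟨U, hUgood, hU1, hUbad⟩ := exists_crtH679 L.V Λ.E hℓ L.ell_mem (e + 1 + a)
  obtain ⟨J, hJ, c, w, hcgood, hw1, hw0⟩ := exists_weightsH679 L.V Λ.E hℓ L.ell_mem
  obtain ⟨reps, hreps⟩ := exists_repsH679 Λ.E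
  have hc'good : ∀ j, IsGoodEltH679 L.V Λ.E (U * c j) := fun j => hUgood.mul L.V Λ.E (hcgood j)
  -- agreement on `E` gives the same action on the base point
  have hagree : ∀ σ ρ : GalQ, (∀ x ∈ Λ.E, σ x = ρ x) →
      actPairH679 act σ ((fun j => U * c j), f) = actPairH679 act ρ ((fun j => U * c j), f) := by
    intro σ ρ h
    unfold actPairH679
    refine Prod.ext ?_ ?_
    · funext j
      exact h _ (hc'good j).1
    · exact star_eq_of_agreeH679 hact Λ.level h hf.1
  have hfix : ∀ ι ∈ L.V.inertiaSubgroupIn ℚ,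
      actPairH679 act ι ((fun j => U * c j), f) = ((fun j => U * c j), f) := by
    intro ι hι
    unfold actPairH679
    refine Prod.ext ?_ ?_
    · funext j
      exact (hc'good j).2.2 ι hι
    · exact hf.2.1 ι hι
  refine orbitTrace_mem hA (IsLocalRing.maximalIdeal L.V) (Subalgebra.toSubmodule (HlocH679 L))
    (fun j => U * c j) w f (L.V.decompositionSubgroup ℚ : Set GalQ)
    (L.V.decompositionSubgroup ℚ).one_mem ?_ ?_ ?_ ?_ ?_ ?_
  · -- finiteness of the orbit
    refine Set.Finite.subset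
      (reps.image fun ρ => actPairH679 act ρ ((fun j => U * c j), f)).finite_toSet ?_
    rintro p ⟨σ, rfl⟩
    obtain ⟨ρ, hρ, hσρ⟩ := hreps σ
    rw [Finset.mem_coe, Finset.mem_image]
    exact ⟨ρ, hρ, (hagree σ ρ hσρ).symm⟩
  · intro δ hδ
    exact Hloc_stableH679 hact L hδ hf.2.2
  · intro δ _ j
    exact ⟨⟨δ (U * c j), (hc'good j).apply_mem_V L.V Λ.E δ⟩, rfl⟩
  · -- the base term
    refine ⟨⟨U - 1, mem_of_mem_nonunitsH679 L.V hU1⟩,
      (ValuationSubring.coe_mem_nonunits_iff).1 hU1, ?_⟩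
    have h1 := hw1 1 (L.V.decompositionSubgroup ℚ).one_mem
      ⟨1, (L.V.inertiaSubgroupIn ℚ).one_mem, fun _ _ => rfl⟩
    have h2 : ∑ j, algebraMap L.V Qb (w j) * (U * c j)
        = U * ∑ j, (w j : Qb) * (1 : GalQ) (c j) := by
      rw [Finset.mul_sum]
      refine Finset.sum_congr rfl fun j _ => ?_
      show (w j : Qb) * (U * c j) = U * ((w j : Qb) * c j)
      ring
    rw [h2, h1, mul_one]
    show U = 1 + (U - 1)
    ring
  · -- decomposition elements moving the base point
    intro δ hδ hne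
    have hδI : ¬ ∃ ι ∈ L.V.inertiaSubgroupIn ℚ, ∀ x ∈ Λ.E, δ x = ι x := by
      rintro ⟨ι, hι, hδι⟩
      apply hne
      rw [hagree δ ι hδι]
      exact hfix ι hι
    refine ⟨0, zero_mem _, ?_⟩
    have h1 := hw0 δ hδ hδI
    have h2 : ∑ j, algebraMap L.V Qb (w j) * δ • (U * c j)
        = δ U * ∑ j, (w j : Qb) * δ (c j) := by
      rw [Finset.mul_sum]
      refine Finset.sum_congr rfl fun j _ => ?_
      show (w j : Qb) * δ (U * c j) = δ U * ((w j : Qb) * δ (c j))
      rw [map_mul]
      ring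
    rw [h2, h1, mul_zero, map_zero]
  · -- bad automorphisms
    intro σ hσ j
    have hσD : ¬ ∃ δ ∈ L.V.decompositionSubgroup ℚ, ∀ x ∈ Λ.E, δ x = σ x := by
      rintro ⟨δ, hδ, hδσ⟩
      exact hσ δ hδ (hagree δ σ hδσ).symm
    obtain ⟨z, hz, hσU⟩ := hUbad σ hσD
    apply he
    intro m
    refine ⟨z * σ (c j) * ((ℓ : Qb) ^ a * σ (f (act σ⁻¹ m))),
      L.V.mul_mem _ _ (L.V.mul_mem _ _ hz ((hcgood j).apply_mem_V L.V Λ.E σ)) (ha σ _), ?_⟩
    show σ (U * c j) * σ (f (act σ⁻¹ m)) = _
    rw [map_mul, hσU, pow_add, pow_add]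
    ring

include hℓ hact in
/-- **Key descent**: `Hloc` is spanned over `V` by its Galois-invariant elements. -/
theorem Hloc_le_span_invH679 :
    Subalgebra.toSubmodule (HlocH679 L) ≤ Submodule.span L.V (invSetH679 L) := by
  obtain ⟨Λ⟩ := exists_levelDataH679 hact L
  obtain ⟨e, he⟩ := exists_conductorH679 hℓ hact L
  refine Submodule.le_of_le_smul_of_le_jacobson_bot (Hloc_fgH679 hact L Λ)
    (le_of_eq (IsLocalRing.jacobson_eq_maximalIdeal ⊥ bot_ne_top).symm) ?_
  refine (Hloc_le_span_goodH679 hact L Λ).trans (Submodule.span_le.2 ?_)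
  intro f hf
  exact good_mem_supH679 hℓ hact L Λ e he hf

end

end Fermat.Agent.S19.H679

end
-- ===== PACK-END S19/H679/Descent.lean

-- ===== PACK-BEGIN S19/H679/Delta.lean
section


/-!
# Cell A3 (S19), block UNR (helper679) — `Hloc` is closed under the comultiplication

For `h ∈ Hloc` the function `(x, y) ↦ h (x + y)` lies in the image of `Hloc ⊗ Hloc`, i.e. in
`Submodule.map₂ T Hloc Hloc` with `T g g' = fun p => g p.1 * g' p.2`.
-/

set_option autoImplicit false

namespace Fermat.Agent.S19.H679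

open Fermat.Agent.S54 Fermat.Agent.S55.Bridge

variable {ℓ : ℕ} {M : Type} [AddCommGroup M] {act : GalQ → M → M}

/-- The diagonal action on pairs. -/
def act2H679 (act : GalQ → M → M) (σ : GalQ) (p : M × M) : M × M := (act σ p.1, act σ p.2)

/-- Pull-back of functions along the addition. -/
def addPullH679 (f : M → Qb) : M × M → Qb := fun p => f (p.1 + p.2)

/-- `T g g' = (x, y) ↦ g x * g' y`, as a bilinear map over `V`. -/
noncomputable def tensH679 (V : ValuationSubring Qb) (N : Type*) :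
    (N → Qb) →ₗ[V] (N → Qb) →ₗ[V] (N × N → Qb) :=
  LinearMap.mk₂ V (fun g g' p => g p.1 * g' p.2)
    (fun g₁ g₂ g' => by funext p; simp [add_mul])
    (fun c g g' => by funext p; simp)
    (fun g g₁ g₂ => by funext p; simp [mul_add])
    (fun c g g' => by funext p; simp)

@[simp] theorem tensH679_apply (V : ValuationSubring Qb) {N : Type*} (g g' : N → Qb)
    (p : N × N) : tensH679 V N g g' p = g p.1 * g' p.2 := rfl

theorem tensH679_mul (V : ValuationSubring Qb) {N : Type*} (g₁ g₁' g₂ g₂' : N → Qb) :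
    tensH679 V N g₁ g₁' * tensH679 V N g₂ g₂' = tensH679 V N (g₁ * g₂) (g₁' * g₂') := by
  funext p
  simp only [Pi.mul_apply, tensH679_apply]
  ring

section

variable (hact : IsContAddAction act) (L : LocalCoordDatum ℓ M act)

include hact in
/-- (Δ1) the generators. -/
theorem addPull_conjFamH679 {φ : M → Qb} (hφ : φ ∈ conjFamH679 L) :
    addPullH679 φ ∈ Algebra.adjoin L.V (coordFunctions (conjFamH679 L)) := by
  obtain ⟨δ, hδ, i, rfl⟩ := hφ
  have h1 := L.add_mem i
  have h2 := star_mem_adjoinH679 (act2H679 act) hδ _ (coordFunctions (conjFamH679 L)) ?_ h1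
  · have h3 : starH679 (act2H679 act) δ (fun p : M × M => L.Ψ (p.1 + p.2) i)
        = addPullH679 (starH679 act δ (psiH679 L i)) := by
      funext p
      show δ (L.Ψ (act δ⁻¹ p.1 + act δ⁻¹ p.2) i) = δ (L.Ψ (act δ⁻¹ (p.1 + p.2)) i)
      rw [hact.act_add]
    rw [h3] at h2
    exact h2
  · rintro g (⟨j, rfl⟩ | ⟨j, rfl⟩)
    · refine Algebra.subset_adjoin (Or.inl ⟨starH679 act δ (psiH679 L j), ⟨δ, hδ, j, rfl⟩, ?_⟩)
      funext p
      rfl
    · refine Algebra.subset_adjoin (Or.inr ⟨starH679 act δ (psiH679 L j), ⟨δ, hδ, j, rfl⟩, ?_⟩)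
      funext p
      rfl

include hact in
/-- (Δ2) all of `Hloc`. -/
theorem addPull_HlocH679 {h : M → Qb} (hh : h ∈ HlocH679 L) :
    addPullH679 h ∈ Algebra.adjoin L.V (coordFunctions (conjFamH679 L)) := by
  unfold HlocH679 at hh
  induction hh using Algebra.adjoin_induction with
  | mem x hx => exact addPull_conjFamH679 hact L hx
  | algebraMap r =>
    have : addPullH679 (algebraMap L.V (M → Qb) r) = algebraMap L.V (M × M → Qb) r := by
      funext p
      rfl
    rw [this]
    exact Subalgebra.algebraMap_mem _ _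
  | add x y _ _ hx hy =>
    have : addPullH679 (x + y) = addPullH679 x + addPullH679 y := by
      funext p
      rfl
    rw [this]
    exact add_mem hx hy
  | mul x y _ _ hx hy =>
    have : addPullH679 (x * y) = addPullH679 x * addPullH679 y := by
      funext p
      rfl
    rw [this]
    exact mul_mem hx hy

/-- The image of `Hloc ⊗ Hloc`. -/
noncomputable def tensImageH679 : Submodule L.V (M × M → Qb) :=
  Submodule.map₂ (tensH679 L.V M) (Subalgebra.toSubmodule (HlocH679 L))
    (Subalgebra.toSubmodule (HlocH679 L))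

theorem tens_mem_tensImageH679 {g g' : M → Qb} (hg : g ∈ HlocH679 L) (hg' : g' ∈ HlocH679 L) :
    tensH679 L.V M g g' ∈ tensImageH679 L :=
  Submodule.apply_mem_map₂ _ hg hg'

theorem tensImage_eq_spanH679 :
    tensImageH679 L = Submodule.span L.V
      (Set.image2 (fun g g' => tensH679 L.V M g g')
        (Subalgebra.toSubmodule (HlocH679 L) : Set (M → Qb))
        (Subalgebra.toSubmodule (HlocH679 L) : Set (M → Qb))) :=
  Submodule.map₂_eq_span_image2 _ _ _

theorem tensImage_mulH679 {x y : M × M → Qb} (hx : x ∈ tensImageH679 L)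
    (hy : y ∈ tensImageH679 L) : x * y ∈ tensImageH679 L := by
  rw [tensImage_eq_spanH679] at hx hy ⊢
  have h1 := Submodule.mul_mem_mul hx hy
  rw [Submodule.span_mul_span] at h1
  refine Submodule.span_mono ?_ h1
  rintro z ⟨a, ⟨g₁, hg₁, g₁', hg₁', rfl⟩, b, ⟨g₂, hg₂, g₂', hg₂', rfl⟩, rfl⟩
  refine ⟨g₁ * g₂, ?_, g₁' * g₂', ?_, (tensH679_mul L.V g₁ g₁' g₂ g₂').symm⟩
  · exact (HlocH679 L).mul_mem hg₁ hg₂
  · exact (HlocH679 L).mul_mem hg₁' hg₂'

/-- (Δ3) the adjoin of the coordinate functions lies in the image of `Hloc ⊗ Hloc`. -/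
theorem adjoin_le_tensImageH679 {G : M × M → Qb}
    (hG : G ∈ Algebra.adjoin L.V (coordFunctions (conjFamH679 L))) : G ∈ tensImageH679 L := by
  induction hG using Algebra.adjoin_induction with
  | mem x hx =>
    rcases hx with ⟨h, hh, rfl⟩ | ⟨h, hh, rfl⟩
    · have : (fun p : M × M => h p.1) = tensH679 L.V M h 1 := by
        funext p
        simp
      rw [this]
      exact tens_mem_tensImageH679 L (Algebra.subset_adjoin hh) (one_mem _)
    · have : (fun p : M × M => h p.2) = tensH679 L.V M 1 h := by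
        funext p
        simp
      rw [this]
      exact tens_mem_tensImageH679 L (one_mem _) (Algebra.subset_adjoin hh)
  | algebraMap r =>
    have : algebraMap L.V (M × M → Qb) r = r • tensH679 L.V M 1 1 := by
      funext p
      simp [Algebra.algebraMap_eq_smul_one]
    rw [this]
    exact Submodule.smul_mem _ _ (tens_mem_tensImageH679 L (one_mem _) (one_mem _))
  | add x y _ _ hx hy => exact add_mem hx hy
  | mul x y _ _ hx hy => exact tensImage_mulH679 L hx hy

include hact in
/-- (Δ) `Hloc` is closed under the comultiplication. -/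
theorem addPull_mem_tensImageH679 {h : M → Qb} (hh : h ∈ HlocH679 L) :
    addPullH679 h ∈ tensImageH679 L :=
  adjoin_le_tensImageH679 L (addPull_HlocH679 hact L hh)

/-- (Δ4) in terms of a spanning set of `Hloc`. -/
theorem tensImage_eq_span_of_spanH679 (F : Set (M → Qb))
    (hF : Submodule.span L.V F = Subalgebra.toSubmodule (HlocH679 L)) :
    tensImageH679 L = Submodule.span L.V
      (Set.image2 (fun g g' => tensH679 L.V M g g') F F) := by
  unfold tensImageH679
  rw [← hF, Submodule.map₂_span_span]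

end

end Fermat.Agent.S19.H679

end
-- ===== PACK-END S19/H679/Delta.lean

-- ===== PACK-BEGIN S19/H679/Main.lean
section




/-!
# Cell A3 (S19), block UNR (helper679) — `UnrStatement`

Local coordinates at one place, equivariant under inertia only, give global Galois-equivariant
integral coordinates with `Z̄_(ℓ)`-polynomial addition.

    theorem unrStatementH679 : Fermat.Agent.S19.UnrStatement
-/

set_option autoImplicit false

namespace Fermat.Agent.S19.H679

open Fermat.Agent.S54 Fermat.Agent.S55.Bridge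

attribute [local instance] isAlgebraic_Qbar isGalois_Qbar

/-- Independence over a finset, transported to the subtype. -/
theorem indep_subtypeH679 {N : Type*} (F : Finset (N → Qb))
    (hind : ∀ g : (N → Qb) → Qb, ∑ f ∈ F, g f • f = 0 → ∀ f ∈ F, g f = 0)
    (g : ↥F → Qb) (hg : ∑ k : ↥F, g k • (k : N → Qb) = 0) : ∀ k, g k = 0 := by
  classical
  intro k
  have h1 := hind (fun f => if h : f ∈ F then g ⟨f, h⟩ else 0) ?_ k.1 k.2
  · simpa using h1
  · rw [← Finset.sum_coe_sort F]
    rw [← hg]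
    refine Finset.sum_congr rfl fun k _ => ?_
    simp

/-- Independence of products, for a family indexed by a finite type. -/
theorem tensor_indep_subtypeH679 {N : Type*} (F : Finset (N → Qb))
    (hind : ∀ g : (N → Qb) → Qb, ∑ f ∈ F, g f • f = 0 → ∀ f ∈ F, g f = 0)
    (c : ↥F × ↥F → Qb)
    (hc : ∀ x y : N, ∑ p : ↥F × ↥F, c p * ((p.1 : N → Qb) x * (p.2 : N → Qb) y) = 0) :
    ∀ p, c p = 0 := by
  classical
  have hind' := indep_subtypeH679 F hind
  have h1 : ∀ (y : N) (k : ↥F), ∑ k' : ↥F, c (k, k') * (k' : N → Qb) y = 0 := by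
    intro y
    apply hind' (fun k => ∑ k' : ↥F, c (k, k') * (k' : N → Qb) y)
    funext x
    rw [Finset.sum_apply, Pi.zero_apply, ← hc x y, Fintype.sum_prod_type]
    refine Finset.sum_congr rfl fun k _ => ?_
    rw [Pi.smul_apply, smul_eq_mul, Finset.sum_mul]
    refine Finset.sum_congr rfl fun k' _ => ?_
    ring
  rintro ⟨k, k'⟩
  refine hind' (fun k' => c (k, k')) ?_ k'
  funext y
  rw [Finset.sum_apply, Pi.zero_apply, ← h1 y k]
  refine Finset.sum_congr rfl fun k' _ => ?_
  rw [Pi.smul_apply, smul_eq_mul]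

variable {ℓ : ℕ} {M : Type} [AddCommGroup M] {act : GalQ → M → M}

/-- The diagonal action is an action. -/
theorem isAct2H679 (hact : IsContAddAction act) : IsActH679 (act2H679 act) :=
  ⟨fun p => Prod.ext (hact.act_one _) (hact.act_one _),
    fun σ τ p => Prod.ext (hact.act_mul _ _ _) (hact.act_mul _ _ _)⟩

theorem star2_tensH679 (V : ValuationSubring Qb) (σ : GalQ) (g g' : M → Qb) :
    starH679 (act2H679 act) σ (tensH679 V M g g')
      = tensH679 V M (starH679 act σ g) (starH679 act σ g') := by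
  funext p
  show σ (g (act σ⁻¹ p.1) * g' (act σ⁻¹ p.2)) = _
  rw [map_mul]
  rfl

theorem star2_addPullH679 (hact : IsContAddAction act) (σ : GalQ) (f : M → Qb) :
    starH679 (act2H679 act) σ (addPullH679 f) = addPullH679 (starH679 act σ f) := by
  funext p
  show σ (f (act σ⁻¹ p.1 + act σ⁻¹ p.2)) = σ (f (act σ⁻¹ (p.1 + p.2)))
  rw [hact.act_add]

/-- **UNR**: unramified descent of local coordinates. -/
theorem unrStatementH679 : UnrStatement := by
  classical
  intro ℓ hℓfact M _ _ act hact L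
  have hℓ : ℓ.Prime := hℓfact.out
  have hA := isActH679_of_cont hact
  have hspan : Submodule.span L.V (invSetH679 L) = Subalgebra.toSubmodule (HlocH679 L) :=
    le_antisymm (Submodule.span_le.2 fun h hh => hh.1) (Hloc_le_span_invH679 hℓ hact L)
  obtain ⟨Λ⟩ := exists_levelDataH679 hact L
  obtain ⟨F, hF1, hF2, hF3⟩ :=
    exists_minimal_spanningH679 (invSetH679 L) _ (Hloc_fgH679 hact L Λ) hspan
  have hind := indep_of_minimalH679 L.V F hF3
  have hFinv : ∀ k : ↥F, ∀ σ : GalQ, starH679 act σ (k : M → Qb) = k := fun k σ =>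
    (hF1 k.2).2 σ
  have hFH : ∀ k : ↥F, (k : M → Qb) ∈ HlocH679 L := fun k => (hF1 k.2).1
  have hFV : ∀ (k : ↥F) (m : M), (k : M → Qb) m ∈ L.V := fun k m =>
    Hloc_le_valuedH679 L (hFH k) m
  have hFeq : ∀ (k : ↥F) (σ : GalQ) (m : M), (k : M → Qb) (act σ m) = σ ((k : M → Qb) m) :=
    fun k σ m => (starH679_eq_self_iff hA σ _).1 (hFinv k σ) m
  refine ⟨{ ι := ↥F
            fin := inferInstance
            Φ := fun m k => (k : M → Qb) m
            inj := ?_
            equivariant := fun σ m k => hFeq k σ m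
            integral := ?_
            add_mem := ?_ }⟩
  · -- injectivity
    intro m m' h
    apply L.inj
    funext i
    have hsub : Submodule.span L.V (F : Set (M → Qb)) ≤
        LinearMap.ker ((LinearMap.proj m : (M → Qb) →ₗ[L.V] Qb) - LinearMap.proj m') := by
      rw [Submodule.span_le]
      intro f hf
      rw [SetLike.mem_coe, LinearMap.mem_ker, LinearMap.sub_apply, sub_eq_zero]
      exact congrFun h ⟨f, hf⟩
    have h1 : psiH679 L i ∈ Submodule.span L.V (F : Set (M → Qb)) := by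
      rw [hF2]
      exact psi_mem_HlocH679 hact L i
    have h2 := hsub h1
    rw [LinearMap.mem_ker, LinearMap.sub_apply, sub_eq_zero] at h2
    exact h2
  · -- integrality
    intro m k
    apply isIntegral_of_conj_memH679 L.V hℓ L.ell_mem
    intro σ
    rw [← hFeq k σ m]
    exact hFV k _
  · -- addition
    intro k
    have h1 : addPullH679 (k : M → Qb) ∈ tensImageH679 L :=
      addPull_mem_tensImageH679 hact L (hFH k)
    rw [tensImage_eq_span_of_spanH679 L (F : Set (M → Qb)) hF2] at h1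
    have hrange : Set.image2 (fun g g' => tensH679 L.V M g g') (F : Set (M → Qb))
        (F : Set (M → Qb)) = Set.range fun p : ↥F × ↥F =>
          tensH679 L.V M (p.1 : M → Qb) (p.2 : M → Qb) := by
      ext G
      constructor
      · rintro ⟨g, hg, g', hg', rfl⟩
        exact ⟨(⟨g, hg⟩, ⟨g', hg'⟩), rfl⟩
      · rintro ⟨p, rfl⟩
        exact ⟨p.1, p.1.2, p.2, p.2.2, rfl⟩
    rw [hrange, Submodule.mem_span_range_iff_exists_fun] at h1
    obtain ⟨c, hc⟩ := h1
    -- pointwise form
    have hcpt : ∀ x y : M, ∑ p : ↥F × ↥F, (c p : Qb) * ((p.1 : M → Qb) x * (p.2 : M → Qb) y)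
        = (k : M → Qb) (x + y) := by
      intro x y
      have := congrFun hc (x, y)
      rw [Finset.sum_apply] at this
      exact this
    -- the coefficients are Galois-invariant
    have hcinv : ∀ (σ : GalQ) (p : ↥F × ↥F), σ (c p : Qb) = (c p : Qb) := by
      intro σ p
      have h2 : ∀ x y : M, ∑ p : ↥F × ↥F,
          (σ (c p : Qb) - (c p : Qb)) * ((p.1 : M → Qb) x * (p.2 : M → Qb) y) = 0 := by
        intro x y
        have h3 := congrArg σ (hcpt (act σ⁻¹ x) (act σ⁻¹ y))
        rw [map_sum, ← hact.act_add, ← hFeq k σ, hA.act_inv, ← hcpt x y] at h3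
        rw [← sub_eq_zero, ← Finset.sum_sub_distrib] at h3
        rw [← h3]
        refine Finset.sum_congr rfl fun p _ => ?_
        rw [map_mul, map_mul, ← hFeq p.1 σ, ← hFeq p.2 σ, hA.act_inv, hA.act_inv]
        ring
      have h4 := tensor_indep_subtypeH679 F hind (fun p => σ (c p : Qb) - (c p : Qb)) h2 p
      exact sub_eq_zero.1 h4
    -- hence they lie in `ℤ_(ℓ)`, in particular in `Zb`
    have hcint : ∀ p : ↥F × ↥F, IsIntegral (Rl ℓ) (c p : Qb) := by
      intro p
      obtain ⟨q, hq⟩ := mem_range_of_fixedH679 (c p : Qb) fun σ => hcinv σ p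
      have hqR : q ∈ Rl ℓ := mem_ratLocalizedAtH679 L.V hℓ L.ell_mem q (hq ▸ (c p).2)
      have : (c p : Qb) = algebraMap (Rl ℓ) Qb ⟨q, hqR⟩ := hq.symm
      rw [this]
      exact isIntegral_algebraMap
    have hfinal : (fun p : M × M => (k : M → Qb) (p.1 + p.2))
        = ∑ p : ↥F × ↥F, (⟨(c p : Qb), hcint p⟩ : Zb ℓ) •
            ((fun x : M × M => (p.1 : M → Qb) x.1) * fun x : M × M => (p.2 : M → Qb) x.2) := by
      funext x
      rw [Finset.sum_apply, ← hcpt x.1 x.2]
      rfl
    rw [hfinal]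
    refine Subalgebra.sum_mem _ fun p _ => Subalgebra.smul_mem _ (mul_mem ?_ ?_) _
    · exact Algebra.subset_adjoin (Or.inl ⟨p.1, rfl⟩)
    · exact Algebra.subset_adjoin (Or.inr ⟨p.2, rfl⟩)

end Fermat.Agent.S19.H679

end
-- ===== PACK-END S19/H679/Main.lean

-- ===== PACK-BEGIN Lib/RR/H439/Pencil.lean
section



/-!
# Riemann–Roch corollaries: base points, generic members, the base-point-free pencil trick

(helper439, cell A3 / piece D5 of `coord/A3-helper979.md`; route independent.)

Setting: `[FF1 K F]` (function field of one variable, all places of degree one), `g = genusFF K F`.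

* `ell_sub_prim_add_one`       : `deg E ≥ 2g` ⟹ `ℓ(E - P) + 1 = ℓ(E)`.
* `exists_mem_L_ord_eq`        : `deg E ≥ 2g` ⟹ `P` is not a base point of `|E|`.
* `exists_mem_L_forall_ord_eq` : (`K` infinite) a member of `|E|` avoiding a finite set of places.
* `exists_two_members`         : (`K` infinite) two members of `|E|` without common zero, both
                                 avoiding a given finite set.
* `pencil_trick`               : `β₁ α₂ = β₂ α₁`, `α₁, α₂` without common zero ⟹
                                 `(β₁, β₂) = γ (α₁, α₂)` with `γ ∈ L(B - E)`.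
* `exists_eq_mul_add_mul`      : `L(B) α₁ + L(B) α₂ = L(B + E)` if `deg (B - E) > 2g - 2`.
* `exists_effective`           : `deg D ≥ g` ⟹ the class of `D` is effective.
* `eq_of_effective_of_ell_eq_one` : uniqueness of the effective representative when `ℓ = 1`.
* `ell_eq_ell_sub_add_degree`  : `ℓ(B) = ℓ(B - D) + deg D` if `deg (B - D) > 2g - 2`.
-/

set_option autoImplicit false

noncomputable section

open AlgebraicCurve

namespace Fermat.Agent.Lib.RR.H439

open Fermat.Agent.Lib.RR

variable {K F : Type*} [Field K] [Field F] [Algebra K F]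

section Basic

/-- An element of `L(E) ∖ L(E - P)` has order exactly `-E(P)` at `P`. -/
theorem ord_eq_of_mem_of_not_mem_sub (E : Divisor K F) (v : Place K F) {f : F}
    (hf : f ∈ riemannRochSpace E) (hf' : f ∉ riemannRochSpace (E - prim v)) :
    v.ord f = -E v := by
  have h1 : f ∈ riemannRochSpace ((E - prim v) + prim v) := by rwa [sub_add_cancel]
  have := H638.ord_eq_of_mem_of_not_mem (E - prim v) v h1 hf'
  rw [this]
  simp only [Finsupp.coe_sub, Pi.sub_apply, prim_apply_self]
  ring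

/-- Conversely, an element of order `-E(P)` at `P` is not in `L(E - P)`. -/
theorem not_mem_sub_of_ord_eq (E : Divisor K F) (v : Place K F) {f : F} (hf0 : f ≠ 0)
    (h : v.ord f = -E v) : f ∉ riemannRochSpace (E - prim v) := by
  intro hmem
  have := (mem_L_iff.mp hmem v).resolve_left hf0
  simp only [Finsupp.coe_sub, Pi.sub_apply, prim_apply_self] at this
  omega

theorem sub_prim_le (E : Divisor K F) (v : Place K F) : E - prim v ≤ E := by
  rw [Finsupp.le_def]
  intro w
  simp only [Finsupp.coe_sub, Pi.sub_apply]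
  by_cases hw : w = v
  · subst hw; rw [prim_apply_self]; omega
  · rw [prim_apply_of_ne hw]; omega

end Basic

section RR

variable [FF1 K F]

/-- `deg E ≥ 2g` ⟹ `ℓ(E - P) + 1 = ℓ(E)`. -/
theorem ell_sub_prim_add_one {E : Divisor K F}
    (hE : 2 * (genusFF K F : ℤ) ≤ Divisor.degree E) (v : Place K F) :
    ell (E - prim v) + 1 = ell E := by
  have h1 : (ell E : ℤ) = Divisor.degree E + 1 - (genusFF K F : ℤ) :=
    ell_eq_of_degree_gt (by omega)
  have h2 : (ell (E - prim v) : ℤ) = Divisor.degree (E - prim v) + 1 - (genusFF K F : ℤ) :=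
    ell_eq_of_degree_gt (by rw [map_sub, degree_prim']; omega)
  rw [map_sub, degree_prim'] at h2
  omega

/-- `deg E ≥ 2g` ⟹ `L(E - P)` is a proper subspace of `L(E)`. -/
theorem exists_mem_not_mem_sub {E : Divisor K F}
    (hE : 2 * (genusFF K F : ℤ) ≤ Divisor.degree E) (v : Place K F) :
    ∃ f ∈ riemannRochSpace E, f ∉ riemannRochSpace (E - prim v) := by
  by_contra hcon
  push Not at hcon
  have hle : riemannRochSpace E ≤ riemannRochSpace (E - prim v) := fun f hf => hcon f hf
  have := Submodule.finrank_mono hle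
  have h2 := ell_sub_prim_add_one hE v
  unfold ell at h2
  omega

/-- **No base points**: if `deg E ≥ 2g` then for every place `P` some member of `L(E)` has order
exactly `-E(P)` at `P`. -/
theorem exists_mem_L_ord_eq {E : Divisor K F}
    (hE : 2 * (genusFF K F : ℤ) ≤ Divisor.degree E) (v : Place K F) :
    ∃ f ∈ riemannRochSpace E, f ≠ 0 ∧ v.ord f = -E v := by
  obtain ⟨f, hf, hf'⟩ := exists_mem_not_mem_sub hE v
  refine ⟨f, hf, ?_, ord_eq_of_mem_of_not_mem_sub E v hf hf'⟩
  rintro rfl
  exact hf' (Submodule.zero_mem _)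

/-- **Generic members**: over an infinite constant field, if `deg E ≥ 2g` then for every finite
set `S` of places some member of `L(E)` has order exactly `-E(P)` at all `P ∈ S`. -/
theorem exists_mem_L_forall_ord_eq [Infinite K] {E : Divisor K F}
    (hE : 2 * (genusFF K F : ℤ) ≤ Divisor.degree E) (S : Finset (Place K F)) :
    ∃ f ∈ riemannRochSpace E, f ≠ 0 ∧ ∀ v ∈ S, v.ord f = -E v := by
  classical
  -- the proper subspaces `L(E - P) ∩ L(E)` of `L(E)`, together with `⊥`
  let p : Place K F → Subspace K (riemannRochSpace E) := fun v =>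
    Submodule.comap (riemannRochSpace E).subtype (riemannRochSpace (E - prim v))
  let s : Finset (Subspace K (riemannRochSpace E)) := insert ⊥ (S.image p)
  have hne : ∀ v, p v ≠ ⊤ := by
    intro v htop
    obtain ⟨f, hf, hf'⟩ := exists_mem_not_mem_sub hE v
    have : (⟨f, hf⟩ : riemannRochSpace E) ∈ p v := by rw [htop]; trivial
    exact hf' this
  have hbot : (⊥ : Subspace K (riemannRochSpace E)) ≠ ⊤ := by
    intro h
    obtain ⟨v⟩ := (inferInstance : FF1 K F).nonempty_place
    obtain ⟨f, hf, hf0, -⟩ := exists_mem_L_ord_eq hE v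
    have : (⟨f, hf⟩ : riemannRochSpace E) ∈ (⊥ : Subspace K (riemannRochSpace E)) := by
      rw [h]; trivial
    rw [Submodule.mem_bot] at this
    exact hf0 (congrArg Subtype.val this)
  have hs : (⊤ : Subspace K (riemannRochSpace E)) ∉ s := by
    intro h
    rcases Finset.mem_insert.mp h with h | h
    · exact hbot h.symm
    · obtain ⟨v, -, hv⟩ := Finset.mem_image.mp h
      exact hne v hv
  have hcov := Subspace.biUnion_ne_univ_of_top_notMem hs
  obtain ⟨x, hx⟩ := (Set.ne_univ_iff_exists_notMem _).mp hcov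
  simp only [Set.mem_iUnion, not_exists] at hx
  have hx0 : x ≠ 0 := by
    intro h0
    refine hx ⊥ (Finset.mem_insert_self _ _) ?_
    rw [h0]; exact Submodule.zero_mem _
  refine ⟨x, x.2, fun h => hx0 (Subtype.ext h), fun v hv => ?_⟩
  apply ord_eq_of_mem_of_not_mem_sub E v x.2
  intro hmem
  exact hx (p v) (Finset.mem_insert_of_mem (Finset.mem_image_of_mem p hv)) hmem

/-- The zeros of a member `f` of `|E|` (the support of the residual divisor `E + div f`) form a
finite set. -/
theorem finite_setOf_ord_ne {E : Divisor K F} {f : F} (hf0 : f ≠ 0) :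
    {v : Place K F | v.ord f ≠ -E v}.Finite := by
  classical
  refine (Finset.finite_toSet (E + divOf f hf0).support).subset ?_
  intro v hv
  rw [Finset.mem_coe, Finsupp.mem_support_iff]
  simp only [Finsupp.coe_add, Pi.add_apply, divOf_apply]
  intro h
  exact hv (by omega)

/-- **Two members without common zero**: over an infinite constant field, if `deg E ≥ 2g` then
there are `f₁, f₂ ∈ L(E)` such that at every place one of them has order exactly `-E(P)`, and
both have order exactly `-E(P)` at every place of a given finite set `S`. -/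
theorem exists_two_members [Infinite K] {E : Divisor K F}
    (hE : 2 * (genusFF K F : ℤ) ≤ Divisor.degree E) (S : Finset (Place K F)) :
    ∃ f₁ ∈ riemannRochSpace E, ∃ f₂ ∈ riemannRochSpace E, f₁ ≠ 0 ∧ f₂ ≠ 0 ∧
      (∀ v ∈ S, v.ord f₁ = -E v ∧ v.ord f₂ = -E v) ∧
      ∀ v : Place K F, v.ord f₁ = -E v ∨ v.ord f₂ = -E v := by
  classical
  obtain ⟨f₁, hf₁, hf₁0, h₁⟩ := exists_mem_L_forall_ord_eq hE S
  have hfin := finite_setOf_ord_ne (E := E) hf₁0
  obtain ⟨f₂, hf₂, hf₂0, h₂⟩ := exists_mem_L_forall_ord_eq hE (S ∪ hfin.toFinset)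
  refine ⟨f₁, hf₁, f₂, hf₂, hf₁0, hf₂0, fun v hv => ⟨h₁ v hv, h₂ v (Finset.mem_union_left _ hv)⟩,
    fun v => ?_⟩
  by_cases hv : v.ord f₁ = -E v
  · exact Or.inl hv
  · right
    apply h₂ v
    apply Finset.mem_union_right
    rw [Set.Finite.mem_toFinset]
    exact hv

end RR

section Pencil

/-- **Base-point-free pencil trick** (pointwise form).  If `α₁, α₂` have no common zero as
sections of `O(E)` and `β₁ α₂ = β₂ α₁` with `β₁, β₂ ∈ L(B)`, then `(β₁, β₂) = γ (α₁, α₂)` with
`γ ∈ L(B - E)`. -/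
theorem pencil_trick {E B : Divisor K F} {α₁ α₂ β₁ β₂ : F} (hα₁ : α₁ ≠ 0) (hα₂ : α₂ ≠ 0)
    (hα : ∀ v : Place K F, v.ord α₁ = -E v ∨ v.ord α₂ = -E v)
    (hβ₁ : β₁ ∈ riemannRochSpace B) (hβ₂ : β₂ ∈ riemannRochSpace B)
    (h : β₁ * α₂ = β₂ * α₁) :
    ∃ γ ∈ riemannRochSpace (B - E), β₁ = γ * α₁ ∧ β₂ = γ * α₂ := by
  have e1 : β₁ = β₁ / α₁ * α₁ := by field_simp
  have e2 : β₂ = β₁ / α₁ * α₂ := by
    field_simp
    rw [h]
  refine ⟨β₁ / α₁, ?_, e1, e2⟩
  rw [mem_L_iff]
  intro v
  by_cases hγ : β₁ / α₁ = 0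
  · exact Or.inl hγ
  right
  have hβ₁0 : β₁ ≠ 0 := by
    rintro rfl
    exact hγ (by simp)
  have hβ₂0 : β₂ ≠ 0 := by
    rw [e2]
    exact mul_ne_zero hγ hα₂
  simp only [Finsupp.coe_sub, Pi.sub_apply]
  rcases hα v with hv | hv
  · have h1 := (mem_L_iff.mp hβ₁ v).resolve_left hβ₁0
    have h2 : v.ord β₁ = v.ord (β₁ / α₁) + v.ord α₁ := by
      conv_lhs => rw [e1]
      exact v.ord_mul hγ hα₁
    omega
  · have h1 := (mem_L_iff.mp hβ₂ v).resolve_left hβ₂0
    have h2 : v.ord β₂ = v.ord (β₁ / α₁) + v.ord α₂ := by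
      conv_lhs => rw [e2]
      exact v.ord_mul hγ hα₂
    omega

/-- Multiplication `L(B - E) × L(E) → L(B)`. -/
theorem mul_mem_L {B E : Divisor K F} {γ α : F} (hγ : γ ∈ riemannRochSpace (B - E))
    (hα : α ∈ riemannRochSpace E) : γ * α ∈ riemannRochSpace B := by
  rw [mem_L_iff]
  intro v
  by_cases h0 : γ * α = 0
  · exact Or.inl h0
  right
  have hγ0 : γ ≠ 0 := left_ne_zero_of_mul h0
  have hα0 : α ≠ 0 := right_ne_zero_of_mul h0
  have h1 := (mem_L_iff.mp hγ v).resolve_left hγ0
  have h2 := (mem_L_iff.mp hα v).resolve_left hα0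
  simp only [Finsupp.coe_sub, Pi.sub_apply] at h1
  rw [v.ord_mul hγ0 hα0]
  omega

end Pencil

end Fermat.Agent.Lib.RR.H439

end
end
-- ===== PACK-END Lib/RR/H439/Pencil.lean

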