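import Fermat.Prelude.Def_ModularCurve_ArithmeticGalois
import Mathlib
import Fermat.Prelude.Def_ModularCurve_HeckeModule
import Fermat.Agent.Pack.S3234.G4E3L0
import Fermat.Agent.Pack.S3234.G4E2L2
import Fermat.Agent.Pack.S3234.G4E0L1
import Fermat.Agent.Pack.S3234.G0E7L0
import Fermat.Agent.Pack.S3234.G0E2L3
import Fermat.Agent.Pack.S3234.G0E0L3
import Fermat.Agent.Pack.S3234.G4E3L3
import Fermat.Agent.Pack.S3234.G4E1L3
import Fermat.Agent.Pack.S3234.G4E2L0
import Fermat.Agent.Pack.S3234.G4E0L0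
import Fermat.Agent.Pack.S3234.G0E7L1
import Fermat.Agent.Pack.S3234.G4E2L1
import Fermat.Agent.Pack.S3234.G0E5L0
import Fermat.Agent.Pack.S3234.G4E0L3
import Fermat.Agent.Pack.S3234.G0E8L1
import Fermat.Agent.Pack.S3234.G0E4L2
import Fermat.Agent.Pack.S3234.G0E4L3
import Fermat.Agent.Pack.S3234.G0E6L1
import Fermat.Agent.Pack.S3234.G0E3L2
import Fermat.Agent.Pack.S3234.G4E3L1

-- ===== PACK-BEGIN A3/H619/OrdMain.lean
section
/-
A3 / piece ORD (helper619): MAIN THEOREM.

`OrderHyp p T act H`  ⟹  `HasFlatModel p T act`, the conclusion of the frozen statement S19 (and of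
`GaloisRepAdic.IsFlatAt`) for the finite Galois module `T`.
-/


set_option autoImplicit false
set_option linter.unusedSectionVars false

noncomputable section

namespace Fermat.Agent.A3.H619

open GaloisRep TensorProduct Module

/-- The conclusion of S19 / of `IsFlatAt` for a Galois module `T`: a finite flat cocommutative
Hopf algebra over `ℤ_(p)` whose `ℚ̄`-points are `T`, additively and Galois-equivariantly. -/
def HasFlatModel (p : ℕ) (T : Type) [AddCommGroup T] (act : GQ → T → T) : Prop :=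
  ∃ (H : Type) (_ : CommRing H) (_ : HopfAlgebra (ratLocalizedAt p) H),
    Module.Finite (ratLocalizedAt p) H ∧ Module.Flat (ratLocalizedAt p) H ∧
    Coalgebra.IsCocomm (ratLocalizedAt p) H ∧
    ∃ e : WithConv (H →ₐ[ratLocalizedAt p] Qb) ≃ T,
      (∀ f g, e (f * g) = e f + e g) ∧
      ∀ (σ : GQ) (f g : WithConv (H →ₐ[ratLocalizedAt p] Qb)),
        (∀ h : H, g h = σ (f h)) → e g = act σ (e f)

variable {p : ℕ} {T : Type} [AddCommGroup T] [Finite T]
variable {H : Subalgebra (ratLocalizedAt p) (T → Qb)} {act : GQ → T → T}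

namespace OrderHyp

variable (h : OrderHyp p T act H)
include h

theorem lift_evPt (s t : T) (x : ↥H ⊗[ratLocalizedAt p] ↥H) :
    Algebra.TensorProduct.lift (evPt H s) (evPt H t) (fun _ _ => Commute.all _ _) x
      = mu H x (s, t) := by
  induction x using TensorProduct.induction_on with
  | zero => simp
  | tmul a b => simp
  | add x y hx hy => rw [map_add, map_add, Pi.add_apply, hx, hy]

/-- The bijection between points of `T` and `ℚ̄`-points of `H`. -/
def ptEquiv : T ≃ WithConv (↥H →ₐ[ratLocalizedAt p] Qb) :=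
  (Equiv.ofBijective (evPt H) ⟨h.evPt_injective, h.evPt_surjective⟩).trans
    (WithConv.equiv _).symm

theorem ptEquiv_apply (t : T) : h.ptEquiv t = WithConv.toConv (evPt H t) := rfl

theorem convMul_evPt (s t : T) :
    letI := h.hopfAlgebra
    (WithConv.toConv (evPt H s) * WithConv.toConv (evPt H t) :
      WithConv (↥H →ₐ[ratLocalizedAt p] Qb)) = WithConv.toConv (evPt H (s + t)) := by
  letI := h.hopfAlgebra
  apply WithConv.ext
  apply AlgHom.ext
  intro c
  have := AlgHom.convMul_apply (WithConv.toConv (evPt H s)) (WithConv.toConv (evPt H t)) c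
  erw [this]
  erw [h.lift_evPt s t (h.comulAlg c)]
  rw [h.mu_comulAlg_apply]
  rfl

/-- **ORD.**  An order satisfying (O0)-(O3) gives the S19-shaped conclusion. -/
theorem hasFlatModel : HasFlatModel p T act := by
  letI := h.hopfAlgebra
  have hfree := h.free
  refine ⟨↥H, inferInstance, h.hopfAlgebra, h.finite, Module.Flat.of_free, h.isCocomm,
    h.ptEquiv.symm, ?_, ?_⟩
  · intro f g
    obtain ⟨s, rfl⟩ := h.ptEquiv.surjective f
    obtain ⟨t, rfl⟩ := h.ptEquiv.surjective g
    rw [Equiv.symm_apply_apply, Equiv.symm_apply_apply, h.ptEquiv_apply, h.ptEquiv_apply,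
      h.convMul_evPt, ← h.ptEquiv_apply, Equiv.symm_apply_apply]
  · intro σ f g hfg
    obtain ⟨s, rfl⟩ := h.ptEquiv.surjective f
    obtain ⟨t, rfl⟩ := h.ptEquiv.surjective g
    rw [Equiv.symm_apply_apply, Equiv.symm_apply_apply]
    by_contra hne
    obtain ⟨c, hc, hcne⟩ := h.sep t (act σ s) hne
    apply hcne
    have := hfg ⟨c, hc⟩
    rw [h.equiv c hc σ s]
    exact this

end OrderHyp

end Fermat.Agent.A3.H619

end
end
-- ===== PACK-END A3/H619/OrdMain.lean

-- ===== PACK-BEGIN A3/H619/OrdStatement.lean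
section
/-
A3 / piece ORD (helper619): **the ORD block** `Fermat.Agent.S19.OrdStatement`.

An `OrderDatum ℓ M act` (frozen interface `Fermat/Agent/S19/Defs.lean`) on a finite module `M`
gives a `HopfModel ℓ M act`.  The order is `H = ℤ_(ℓ)[gens] ⊆ (M → ℚ̄)`:

* (O0) equivariance and integrality of values pass from `gens` to `H`;
* (O1) `H` is finitely generated (`fg_of_equivariant_integral`);
* (O2) `H` separates points;
* (O3) descent from `Z̄_(ℓ)` to `ℤ_(ℓ)`: `f (s + t)` is a `Z̄_(ℓ)`-combination of a `ℤ_(ℓ)`-basis of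
  `H ⊗ H`, which is `ℚ̄`-independent, so the coefficients are Galois-fixed and integral.
-/




set_option autoImplicit false

noncomputable section

namespace Fermat.Agent.A3.H619

open GaloisRep TensorProduct Module

variable {p : ℕ} {T : Type}

/-- The diagonal action on pairs. -/
def act₂ (act : GQ → T → T) (σ : GQ) (st : T × T) : T × T := (act σ st.1, act σ st.2)

section Mu

variable (H : Subalgebra (ratLocalizedAt p) (T → Qb))

/-- Every element of the image of `H ⊗ H` is a finite sum of products. -/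
theorem exists_sum_of_tensor (x : ↥H ⊗[ratLocalizedAt p] ↥H) :
    ∃ (n : ℕ) (a b : Fin n → (T → Qb)), (∀ i, a i ∈ H) ∧ (∀ i, b i ∈ H) ∧
      ∀ s t, mu H x (s, t) = ∑ i, a i s * b i t := by
  induction x using TensorProduct.induction_on with
  | zero =>
    exact ⟨0, Fin.elim0, Fin.elim0, fun i => i.elim0, fun i => i.elim0, fun s t => by simp⟩
  | tmul a b =>
    exact ⟨1, fun _ => a, fun _ => b, fun _ => a.2, fun _ => b.2, fun s t => by simp⟩
  | add x y hx hy =>
    obtain ⟨n, a, b, ha, hb, hab⟩ := hx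
    obtain ⟨m, a', b', ha', hb', hab'⟩ := hy
    refine ⟨n + m, Fin.append a a', Fin.append b b', ?_, ?_, ?_⟩
    · intro i
      refine Fin.addCases (fun j => ?_) (fun j => ?_) i
      · rw [Fin.append_left]; exact ha j
      · rw [Fin.append_right]; exact ha' j
    · intro i
      refine Fin.addCases (fun j => ?_) (fun j => ?_) i
      · rw [Fin.append_left]; exact hb j
      · rw [Fin.append_right]; exact hb' j
    · intro s t
      rw [map_add, Pi.add_apply, hab, hab', Fin.sum_univ_add]
      simp only [Fin.append_left, Fin.append_right]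

/-- Functions in the image of `H ⊗ H` are equivariant for the diagonal action. -/
theorem isEquivFun_mu {act : GQ → T → T} (hequiv : ∀ f ∈ H, IsEquivFun act f)
    (x : ↥H ⊗[ratLocalizedAt p] ↥H) : IsEquivFun (act₂ act) (mu H x) := by
  induction x using TensorProduct.induction_on with
  | zero => intro σ st; simp
  | tmul a b =>
    intro σ st
    rw [mu_tmul, mu_tmul, map_mul]
    show (a : T → Qb) (act σ st.1) * (b : T → Qb) (act σ st.2) = _
    rw [hequiv a.1 a.2, hequiv b.1 b.2]
  | add x y hx hy =>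
    intro σ st
    rw [map_add, Pi.add_apply, Pi.add_apply, hx, hy, map_add]

end Mu

theorem algebraMap_ratLoc_fixed (r : ratLocalizedAt p) (σ : GQ) :
    σ (algebraMap (ratLocalizedAt p) Qb r) = algebraMap (ratLocalizedAt p) Qb r := by
  rw [IsScalarTower.algebraMap_apply (ratLocalizedAt p) ℚ Qb]
  exact σ.commutes _

section Datum

variable {ℓ : ℕ} {M : Type} [AddCommGroup M] {act : GQ → M → M}
  (D : Fermat.Agent.S19.OrderDatum ℓ M act)

/-- The order generated by the generators of an order datum. -/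
def orderOf : Subalgebra (ratLocalizedAt ℓ) (M → Qb) :=
  Algebra.adjoin (ratLocalizedAt ℓ) D.gens

include D

theorem datum_act_one (m : M) : act 1 m = m :=
  D.separates _ _ fun f hf => by rw [D.equivariant f hf]; rfl

theorem datum_act_mul (σ τ : GQ) (m : M) : act (σ * τ) m = act σ (act τ m) :=
  D.separates _ _ fun f hf => by
    rw [D.equivariant f hf, D.equivariant f hf, D.equivariant f hf]; rfl

theorem datum_act_zero (σ : GQ) : act σ 0 = 0 := by
  have := D.act_add σ 0 0
  rw [add_zero] at this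
  simpa using this

theorem datum_equiv : ∀ f ∈ orderOf D, IsEquivFun act f := by
  intro f hf
  induction hf using Algebra.adjoin_induction with
  | mem f hf => exact D.equivariant f hf
  | algebraMap r =>
    intro σ m
    rw [Pi.algebraMap_apply, Pi.algebraMap_apply, algebraMap_ratLoc_fixed]
  | add f g _ _ hf hg =>
    intro σ m
    rw [Pi.add_apply, Pi.add_apply, hf, hg, map_add]
  | mul f g _ _ hf hg =>
    intro σ m
    rw [Pi.mul_apply, Pi.mul_apply, hf, hg, map_mul]

theorem datum_integral : ∀ f ∈ orderOf D, ∀ m, IsIntegral (ratLocalizedAt ℓ) (f m) := by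
  intro f hf
  induction hf using Algebra.adjoin_induction with
  | mem f hf => exact D.integral f hf
  | algebraMap r =>
    intro m
    rw [Pi.algebraMap_apply]
    exact isIntegral_algebraMap
  | add f g _ _ hf hg =>
    intro m
    rw [Pi.add_apply]
    exact (hf m).add (hg m)
  | mul f g _ _ hf hg =>
    intro m
    rw [Pi.mul_apply]
    exact (hf m).mul (hg m)

theorem datum_sep (s t : M) (hst : s ≠ t) : ∃ f ∈ orderOf D, f s ≠ f t := by
  by_contra hne
  push Not at hne
  exact hst (D.separates s t fun f hf => hne f (Algebra.subset_adjoin hf))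

theorem datum_preOrderHyp [Finite M] : PreOrderHyp ℓ M act (orderOf D) where
  act_one := datum_act_one D
  act_mul := datum_act_mul D
  equiv := datum_equiv D
  fg := fg_of_equivariant_integral act (datum_act_one D) (datum_act_mul D) _ (datum_equiv D)
    (datum_integral D)
  sep := datum_sep D

/-- `f (s + t)` lies in the `Z̄_(ℓ)`-span of the image of `H ⊗ H`. -/
theorem datum_add_mem_span (f : M → Qb) (hf : f ∈ D.gens) :
    (fun st : M × M => f (st.1 + st.2)) ∈
      Submodule.span (Fermat.Agent.S19.Zb ℓ) (Set.range (mu (orderOf D))) := by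
  set Λ : Submodule (Fermat.Agent.S19.Zb ℓ) (M × M → Qb) :=
    Submodule.span (Fermat.Agent.S19.Zb ℓ) (Set.range (mu (orderOf D))) with hΛ
  have hone : (1 : M × M → Qb) ∈ Λ :=
    Submodule.subset_span ⟨1, map_one _⟩
  have hmul : ∀ x ∈ Λ, ∀ y ∈ Λ, x * y ∈ Λ := by
    intro x hx y hy
    have h1 : x * y ∈ Λ * Λ := Submodule.mul_mem_mul hx hy
    have h2 : Λ * Λ ≤ Λ := by
      rw [hΛ, Submodule.span_mul_span]
      apply Submodule.span_mono
      rintro _ ⟨_, ⟨a, rfl⟩, _, ⟨b, rfl⟩, rfl⟩
      exact ⟨a * b, map_mul _ _ _⟩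
    exact h2 h1
  have key : ∀ g ∈ Algebra.adjoin (Fermat.Agent.S19.Zb ℓ) (Fermat.Agent.S19.coordFunctions D.gens),
      g ∈ Λ := by
    intro g hg
    induction hg using Algebra.adjoin_induction with
    | mem g hg =>
      rcases hg with ⟨h, hh, rfl⟩ | ⟨h, hh, rfl⟩
      · refine Submodule.subset_span
          ⟨(⟨h, Algebra.subset_adjoin hh⟩ : ↥(orderOf D)) ⊗ₜ[ratLocalizedAt ℓ] 1, ?_⟩
        funext st
        rw [mu_tmul]
        simp
      · refine Submodule.subset_span
          ⟨(1 : ↥(orderOf D)) ⊗ₜ[ratLocalizedAt ℓ] ⟨h, Algebra.subset_adjoin hh⟩, ?_⟩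
        funext st
        rw [mu_tmul]
        simp
    | algebraMap r =>
      rw [Algebra.algebraMap_eq_smul_one]
      exact Λ.smul_mem r hone
    | add x y _ _ hx hy => exact Λ.add_mem hx hy
    | mul x y _ _ hx hy => exact hmul x hx y hy
  exact key _ (D.add_mem f hf)

variable [Finite M]

/-- (O3) for the generators: descent of the coefficients from `Z̄_(ℓ)` to `ℤ_(ℓ)`. -/
theorem datum_add_mem_range (f : M → Qb) (hf : f ∈ D.gens) :
    (fun st : M × M => f (st.1 + st.2)) ∈ (mu (orderOf D)).range := by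
  have hpre := datum_preOrderHyp D
  obtain ⟨κ, _, B, hB⟩ := hpre.isGood_val.box hpre.isGood_val
  rw [← mu_toLinearMap] at hB
  let e : κ → (M × M → Qb) := fun k => mu (orderOf D) (B k)
  have hBe : LinearIndependent Qb e := hB
  have he : ∀ k, IsEquivFun (act₂ act) (e k) := fun k => isEquivFun_mu _ (datum_equiv D) (B k)
  -- the diagonal action is an action
  have h1 : ∀ st : M × M, act₂ act 1 st = st := fun st =>
    Prod.ext (datum_act_one D st.1) (datum_act_one D st.2)
  have hm : ∀ (σ τ : GQ) (st : M × M), act₂ act (σ * τ) st = act₂ act σ (act₂ act τ st) :=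
    fun σ τ st => Prod.ext (datum_act_mul D σ τ st.1) (datum_act_mul D σ τ st.2)
  -- `F` is equivariant
  set F : M × M → Qb := fun st => f (st.1 + st.2) with hF
  have hFeq : IsEquivFun (act₂ act) F := by
    intro σ st
    show f (act σ st.1 + act σ st.2) = σ (f (st.1 + st.2))
    rw [← D.act_add, D.equivariant f hf]
  -- integral coefficients
  have hcoef : ∀ g ∈ Submodule.span (Fermat.Agent.S19.Zb ℓ) (Set.range (mu (orderOf D))),
      ∃ c : κ → Qb, (∀ k, IsIntegral (ratLocalizedAt ℓ) (c k)) ∧ g = ∑ k, c k • e k := by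
    intro g hg
    induction hg using Submodule.span_induction with
    | mem g hg =>
      obtain ⟨x, rfl⟩ := hg
      refine ⟨fun k => algebraMap (ratLocalizedAt ℓ) Qb (B.repr x k),
        fun k => isIntegral_algebraMap, ?_⟩
      conv_lhs => rw [← B.sum_repr x]
      rw [map_sum]
      refine Finset.sum_congr rfl fun k _ => ?_
      rw [map_smul, algebraMap_smul]
    | zero => exact ⟨fun _ => 0, fun _ => isIntegral_zero, by simp⟩
    | add x y _ _ hx hy =>
      obtain ⟨c, hc, rfl⟩ := hx
      obtain ⟨c', hc', rfl⟩ := hy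
      refine ⟨fun k => c k + c' k, fun k => (hc k).add (hc' k), ?_⟩
      simp only [add_smul, Finset.sum_add_distrib]
    | smul a x _ hx =>
      obtain ⟨c, hc, rfl⟩ := hx
      refine ⟨fun k => (a : Qb) * c k, fun k => a.2.mul (hc k), ?_⟩
      rw [Subalgebra.smul_def, Finset.smul_sum]
      refine Finset.sum_congr rfl fun k _ => ?_
      rw [smul_smul]
  obtain ⟨c, hc, hFc⟩ := hcoef F (datum_add_mem_span D f hf)
  obtain ⟨r, hr⟩ := coeff_int (act₂ act) h1 hm e he hBe F hFeq c hFc hc
  refine (AlgHom.mem_range _).mpr ⟨∑ k, r k • B k, ?_⟩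
  rw [hr, map_sum]
  refine Finset.sum_congr rfl fun k _ => ?_
  rw [map_smul]

/-- (O3) for all of `H`. -/
theorem datum_comul_mem_range : ∀ f ∈ orderOf D,
    (fun st : M × M => f (st.1 + st.2)) ∈ (mu (orderOf D)).range := by
  have hle : orderOf D ≤ Subalgebra.comap (pullAlg ℓ (fun st : M × M => st.1 + st.2))
      (mu (orderOf D)).range := by
    refine Algebra.adjoin_le ?_
    intro f hf
    exact datum_add_mem_range D f hf
  exact fun f hf => hle hf

/-- The order of an order datum satisfies the hypotheses of piece ORD. -/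
theorem datum_orderHyp : OrderHyp ℓ M act (orderOf D) where
  toPreOrderHyp := datum_preOrderHyp D
  act_zero := datum_act_zero D
  comul := by
    intro f hf
    obtain ⟨x, hx⟩ := (AlgHom.mem_range _).mp (datum_comul_mem_range D f hf)
    obtain ⟨n, a, b, ha, hb, hab⟩ := exists_sum_of_tensor (orderOf D) x
    refine ⟨n, a, b, ha, hb, fun s t => ?_⟩
    rw [← hab, hx]

end Datum

/-- **ORD block.**  An order datum on a finite module gives a Hopf model. -/
theorem ord : Fermat.Agent.S19.OrdStatement := by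
  intro ℓ _ M _ _ act hD
  obtain ⟨D⟩ := hD
  exact (datum_orderHyp D).hasFlatModel

end Fermat.Agent.A3.H619

end
end
-- ===== PACK-END A3/H619/OrdStatement.lean

-- ===== PACK-BEGIN S29/H389/Dict.lean
section





/-!
# S29 / layer M / BR — piece DICT (helper389)

Places dictionary for the function field `FF N = ℚ̄(j(q^d) : d ∣ N)` of `X₀(N)`, on top of the
landed S24 library (`H997.analyticCore`, `H117` local theorem).

Main result `dvd_ord_of_analytic_pow` : let `r, t ∈ R_N = ℚ̄[j(q^d)]`, and let `h₁, h₂` be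
functions in the S24 ring `Hol` with `e(r) · h₂ ^ p = c · h₁ ^ p · e(t)` (`e` the bridge
`R_N → Hol`), such that the quotient `h₁ / h₂` is invariant under every `δ ∈ Γ₀(N)` which has
finite order or trace `2`.  Then `p ∣ ord_v (r / t)` for EVERY place `v` of `FF N`.

(Intended use: `h₁/h₂ = h·u` with `h` a twisted Eisenstein quotient of character `χ`, `χ` trivial
on elliptic and parabolic elements, and `u` a modular function; `r / t` the Kummer generator.)
-/

set_option autoImplicit false
set_option linter.style.haveILetI false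

noncomputable section

open AlgebraicCurve HahnSeries ModularCurve
open scoped MatrixGroups

namespace Fermat.Agent.S29.H389

open Fermat.Agent.S24 Fermat.Agent.S24.H997

variable {N : ℕ} [NeZero N]

/-- Iterating the rotation data: precomposition with `ε ^ n`. -/
theorem rot_iter (B : HolBase N) (X : Expansion B) (ε : SL(2, ℤ)) (R : RotData B X ε)
    (n : ℕ) (h : B.Hol) :
    (X.E (B.compH (ε ^ n) h)).order = (X.E h).order ∧
      (X.E (B.compH (ε ^ n) h)).leadingCoeff
        = (R.ζ ^ (X.E h).order) ^ n * (X.E h).leadingCoeff := by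
  induction n with
  | zero => simp [B.compH_one]
  | succ n ih =>
    have hstep : B.compH (ε ^ (n + 1)) h = B.compH ε (B.compH (ε ^ n) h) := by
      rw [pow_succ, B.compH_mul]
    have hr := R.rot (B.compH (ε ^ n) h)
    rw [hstep]
    refine ⟨by rw [hr.1, ih.1], ?_⟩
    rw [hr.2, ih.1, ih.2, pow_succ]
    ring


/-! ### Small facts on Laurent series over `ℂ` -/

theorem ls_order_mul {a b : LaurentSeries ℂ} (ha : a ≠ 0) (hb : b ≠ 0) :
    (a * b).order = a.order + b.order :=
  order_mul_of_ne_zero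
    (mul_ne_zero (leadingCoeff_ne_zero.mpr ha) (leadingCoeff_ne_zero.mpr hb))

theorem ls_order_pow {a : LaurentSeries ℂ} (ha : a ≠ 0) (n : ℕ) :
    (a ^ n).order = n * a.order := by
  induction n with
  | zero => simp
  | succ n ih =>
    rw [pow_succ, ls_order_mul (pow_ne_zero n ha) ha, ih]
    push_cast
    ring

theorem ls_order_C {c : ℂ} : (HahnSeries.C c : LaurentSeries ℂ).order = 0 := order_C

/-! ### "Nice" elements: finite order or trace `2` -/

/-- An element of `SL(2,ℤ)` of finite order, or of trace `2`. -/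
def Nice (δ : SL(2, ℤ)) : Prop :=
  IsOfFinOrder δ ∨ (δ : Matrix (Fin 2) (Fin 2) ℤ).trace = 2

theorem Nice.conj {δ : SL(2, ℤ)} (h : Nice δ) (g : SL(2, ℤ)) : Nice (g⁻¹ * δ * g) := by
  rcases h with h | h
  · left
    rw [isOfFinOrder_iff_pow_eq_one] at h ⊢
    obtain ⟨n, hn, hδ⟩ := h
    refine ⟨n, hn, ?_⟩
    have : (g⁻¹ * δ * g) ^ n = g⁻¹ * δ ^ n * g := by
      have := conj_pow (a := g⁻¹) (b := δ) (i := n)
      simpa using this
    rw [this, hδ]
    simp
  · right
    have h1 : ((g⁻¹ * δ * g : SL(2, ℤ)) : Matrix (Fin 2) (Fin 2) ℤ)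
        = (g⁻¹ : SL(2, ℤ)).1 * δ.1 * g.1 := by
      simp
    rw [h1, Matrix.trace_mul_comm, ← mul_assoc]
    have h2 : g.1 * (g⁻¹ : SL(2, ℤ)).1 = 1 := by
      rw [← Matrix.SpecialLinearGroup.coe_mul, mul_inv_cancel,
        Matrix.SpecialLinearGroup.coe_one]
    rw [h2, one_mul]
    exact h

/-! ### The local statement -/

/-- **DICT, local form.**  For the local data built from an expansion with rotation data,
an analytic `p`-th power relation whose root is invariant under nice elements of `Γ₀(N)`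
forces `p ∣ ord_v` at every place over `t = 0`. -/
theorem dvd_ord_mkLocalData (B : HolBase N) (X : Expansion B) (ε : SL(2, ℤ))
    (R : RotData B X ε) (t : FF N) (u : LaurentSeries ℂ)
    (ht : ∀ g : SL(2, ℤ), B.sigmaG X g t = u) (hu : u.order = (R.m : ℤ))
    [FiniteDimensional ↥(IntermediateField.adjoin Kbar {t}) (FF N)]
    (hrank : Module.finrank ↥(IntermediateField.adjoin Kbar {t}) (FF N) = Nat.card (XX N))
    (hε : ∀ n : ℕ, Nice (ε ^ n))
    (p : ℕ) (r s : RN N) (hr : r ≠ 0) (hs : s ≠ 0) (h₁ h₂ : B.Hol) (hh₁ : h₁ ≠ 0)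
    (hh₂ : h₂ ≠ 0) (c : ℂ) (hc : c ≠ 0)
    (hrel : B.bridge r * h₂ ^ p = B.constH c * h₁ ^ p * B.bridge s)
    (hinv : ∀ δ : SL(2, ℤ), δ ∈ CongruenceSubgroup.Gamma0 N → Nice δ →
      B.compH δ h₁ * h₂ = h₁ * B.compH δ h₂)
    (v : Place Kbar (FF N)) (hv : 0 < v.ord t) :
    (p : ℤ) ∣ v.ord (inclRN N r / inclRN N s) := by
  classical
  set L := B.mkLocalData X ε R t u ht hu with hL
  obtain ⟨x, hx⟩ :=
    H117.exists_placeOf_eq L (IntermediateField.adjoin Kbar {t}) le_rfl hrank v hv
  obtain ⟨g, rfl⟩ := QuotientGroup.mk_surjective x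
  have hσ : L.σ (g : XX N) = B.sigmaG X g := B.sigmaX_mk X g
  -- translated functions
  set h₁' := B.compH g⁻¹ h₁ with hh₁'
  set h₂' := B.compH g⁻¹ h₂ with hh₂'
  have hE₁ : X.E h₁' ≠ 0 := by
    intro h0
    apply hh₁
    apply B.compH_injective g⁻¹
    apply X.inj
    rw [h0, map_zero, map_zero]
  have hE₂ : X.E h₂' ≠ 0 := by
    intro h0
    apply hh₂
    apply B.compH_injective g⁻¹
    apply X.inj
    rw [h0, map_zero, map_zero]
  set k₁ := (X.E h₁').order with hk₁
  set k₂ := (X.E h₂').order with hk₂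
  -- the relation, expanded
  have hrel' : B.sigmaG X g (inclRN N r) * (X.E h₂') ^ p
      = HahnSeries.C c * (X.E h₁') ^ p * B.sigmaG X g (inclRN N s) := by
    rw [B.sigmaG_inclRN, B.sigmaG_inclRN]
    have := congrArg (fun z => X.E (B.compH g⁻¹ z)) hrel
    simp only [map_mul, map_pow, B.compH_constH, X.const] at this
    exact this
  have hr' : inclRN N r ≠ 0 := fun h => hr (inclRN_injective N (by rw [h, map_zero]))
  have hs' : inclRN N s ≠ 0 := fun h => hs (inclRN_injective N (by rw [h, map_zero]))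
  have hσr : B.sigmaG X g (inclRN N r) ≠ 0 := (map_ne_zero _).mpr hr'
  have hσs : B.sigmaG X g (inclRN N s) ≠ 0 := (map_ne_zero _).mpr hs'
  have hC : (HahnSeries.C c : LaurentSeries ℂ) ≠ 0 := by
    intro h0
    apply hc
    have := congrArg (fun z : LaurentSeries ℂ => z.coeff 0) h0
    simpa using this
  have hord : (B.sigmaG X g (inclRN N r / inclRN N s)).order = (p : ℤ) * (k₁ - k₂) := by
    have h1 := congrArg HahnSeries.order hrel'
    rw [ls_order_mul hσr (pow_ne_zero p hE₂), ls_order_pow hE₂,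
      ls_order_mul (mul_ne_zero hC (pow_ne_zero p hE₁)) hσs,
      ls_order_mul hC (pow_ne_zero p hE₁), ls_order_pow hE₁, ls_order_C] at h1
    rw [map_div₀, div_eq_mul_inv, ls_order_mul hσr (inv_ne_zero hσs),
      RotRel.order_inv' hσs]
    linarith
  -- multiplicity
  have hmult := H117.order_eq L (g : XX N) (inclRN N r / inclRN N s)
  rw [hσ, hord, hx] at hmult
  -- orbit length
  have hfin := H117.finite_places_over L (IntermediateField.adjoin Kbar {t}) le_rfl hrank
  have hS : ∀ w : Place Kbar (FF N), w ∈ hfin.toFinset ↔ 0 < w.ord t := fun w => by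
    simp
  have hsum := H144.loc_fundamental_inequality L hfin.toFinset hS
  obtain ⟨-, horb, -⟩ :=
    H117.localThm L (IntermediateField.adjoin Kbar {t}) le_rfl hrank hfin.toFinset hS hsum
  have hn := horb (g : XX N)
  rw [hx] at hn
  set n := Nat.card (MulAction.orbit (Subgroup.zpowers L.perm) (g : XX N)) with hn_def
  have hnpos : 0 < n := by
    have : (0 : ℤ) < n := by rw [hn]; exact hv
    exact_mod_cast this
  -- `perm ^ n` fixes `x`
  have hper : (L.perm ^ n) (g : XX N) = (g : XX N) := by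
    letI : Fintype (MulAction.orbit (Subgroup.zpowers L.perm) (g : XX N)) :=
      Fintype.ofFinite _
    have h1 : Function.minimalPeriod (L.perm • ·) (g : XX N) = n := by
      rw [MulAction.minimalPeriod_eq_card, hn_def, Nat.card_eq_fintype_card]
    have h2 := Function.isPeriodicPt_minimalPeriod (L.perm • ·) (g : XX N)
    rw [h1] at h2
    have h3 : ((L.perm • ·) : XX N → XX N) = ⇑L.perm := rfl
    rw [h3] at h2
    have h4 : (⇑L.perm)^[n] (g : XX N) = (g : XX N) := h2
    rw [Equiv.Perm.iterate_eq_pow] at h4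
    exact h4
  -- the element `δ = g⁻¹ ε ^ n g` of `Γ₀(N)`
  have hperm_pow : (L.perm ^ n) (g : XX N) = (((ε⁻¹) ^ n * g : SL(2, ℤ)) : XX N) := by
    have h1 : L.perm = permOf N ε⁻¹ := rfl
    rw [h1]
    have h2 : (permOf N ε⁻¹) ^ n = permOf N ((ε⁻¹) ^ n) := by
      unfold permOf
      exact (map_pow (MulAction.toPermHom SL(2, ℤ) (XX N)) ε⁻¹ n).symm
    rw [h2]
    rfl
  have hδmem : g⁻¹ * ε ^ n * g ∈ CongruenceSubgroup.Gamma0 N := by
    have h1 := hper
    rw [hperm_pow] at h1
    have h2 := QuotientGroup.eq.mp h1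
    have h3 : ((ε⁻¹) ^ n * g)⁻¹ * g = g⁻¹ * ε ^ n * g := by
      rw [mul_inv_rev, inv_pow, inv_inv]
    rwa [h3] at h2
  have hδnice : Nice (g⁻¹ * ε ^ n * g) := (hε n).conj g
  have hinv' := hinv _ hδmem hδnice
  -- transport by `g⁻¹`
  have hcomp : ∀ h : B.Hol, B.compH g⁻¹ (B.compH (g⁻¹ * ε ^ n * g) h)
      = B.compH (ε ^ n) (B.compH g⁻¹ h) := by
    intro h
    rw [← B.compH_mul, ← B.compH_mul]
    congr 1
    group
  have hrot : B.compH (ε ^ n) h₁' * h₂' = h₁' * B.compH (ε ^ n) h₂' := by
    have := congrArg (B.compH g⁻¹) hinv'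
    rw [map_mul, map_mul, hcomp, hcomp] at this
    exact this
  have hlc := congrArg (fun z => (X.E z).leadingCoeff) hrot
  simp only [map_mul, leadingCoeff_mul] at hlc
  rw [(rot_iter B X ε R n h₁').2, (rot_iter B X ε R n h₂').2] at hlc
  have hl₁ : (X.E h₁').leadingCoeff ≠ 0 := leadingCoeff_ne_zero.mpr hE₁
  have hl₂ : (X.E h₂').leadingCoeff ≠ 0 := leadingCoeff_ne_zero.mpr hE₂
  have hζ0 : R.ζ ≠ 0 := R.hζ.ne_zero R.m_pos.ne'
  have hζeq : (R.ζ ^ k₁) ^ n = (R.ζ ^ k₂) ^ n := by
    have h1 : (R.ζ ^ k₁) ^ n * ((X.E h₁').leadingCoeff * (X.E h₂').leadingCoeff)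
        = (R.ζ ^ k₂) ^ n * ((X.E h₁').leadingCoeff * (X.E h₂').leadingCoeff) := by
      linear_combination hlc
    exact mul_right_cancel₀ (mul_ne_zero hl₁ hl₂) h1
  have hζ1 : R.ζ ^ ((n : ℤ) * (k₁ - k₂)) = 1 := by
    have h1 : R.ζ ^ ((n : ℤ) * k₁) = R.ζ ^ ((n : ℤ) * k₂) := by
      rw [mul_comm (n : ℤ) k₁, mul_comm (n : ℤ) k₂, zpow_mul, zpow_mul, zpow_natCast,
        zpow_natCast]
      exact hζeq
    rw [mul_sub, zpow_sub₀ hζ0, h1]
    exact div_self (zpow_ne_zero _ hζ0)
  have hdvd : ((R.m : ℕ) : ℤ) ∣ (n : ℤ) * (k₁ - k₂) := (R.hζ.zpow_eq_one_iff_dvd _).mp hζ1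
  have hmm := H117.mult_mul_ord_t L (g : XX N)
  rw [hx, ← hn] at hmm
  have hLm : L.m = R.m := rfl
  rw [hLm] at hmm
  rw [← hmm] at hdvd
  have hn0 : (n : ℤ) ≠ 0 := by exact_mod_cast hnpos.ne'
  have hdvd' : (H117.mult L (g : XX N) : ℤ) ∣ (k₁ - k₂) := by
    rw [mul_comm] at hdvd
    exact (mul_dvd_mul_iff_left hn0).mp hdvd
  obtain ⟨q, hq⟩ := hdvd'
  refine ⟨q, ?_⟩
  have hm0 : (H117.mult L (g : XX N) : ℤ) ≠ 0 := by
    exact_mod_cast (H117.mult_pos L (g : XX N)).ne'
  rw [hq] at hmult
  have : (H117.mult L (g : XX N) : ℤ) * ((p : ℤ) * q)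
      = (H117.mult L (g : XX N) : ℤ) * v.ord (inclRN N r / inclRN N s) := by
    rw [← hmult]; ring
  exact (mul_left_cancel₀ hm0 this).symm


/-! ### Nice powers of the four rotation elements -/

theorem nice_pow_one (n : ℕ) : Nice ((1 : SL(2, ℤ)) ^ n) := by
  left
  rw [one_pow]
  exact IsOfFinOrder.one

theorem S_pow_four : ModularGroup.S ^ 4 = 1 := by
  apply Subtype.ext
  simp only [Matrix.SpecialLinearGroup.coe_pow, Matrix.SpecialLinearGroup.coe_one,
    ModularGroup.coe_S]
  ext i j
  fin_cases i <;> fin_cases j <;> simp [pow_succ, Matrix.mul_apply, Fin.sum_univ_two]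

theorem ST_pow_six : (ModularGroup.S * ModularGroup.T) ^ 6 = 1 := by
  apply Subtype.ext
  simp only [Matrix.SpecialLinearGroup.coe_pow, Matrix.SpecialLinearGroup.coe_mul,
    Matrix.SpecialLinearGroup.coe_one, ModularGroup.coe_S, ModularGroup.coe_T]
  ext i j
  fin_cases i <;> fin_cases j <;> simp [pow_succ, Matrix.mul_apply, Fin.sum_univ_two]

theorem nice_pow_S (n : ℕ) : Nice (ModularGroup.S ^ n) := by
  left
  exact (isOfFinOrder_iff_pow_eq_one.mpr ⟨4, by norm_num, S_pow_four⟩).pow

theorem nice_pow_ST (n : ℕ) : Nice ((ModularGroup.S * ModularGroup.T) ^ n) := by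
  left
  exact (isOfFinOrder_iff_pow_eq_one.mpr ⟨6, by norm_num, ST_pow_six⟩).pow

theorem nice_pow_T (n : ℕ) : Nice (ModularGroup.T ^ n) := by
  right
  have h := ModularGroup.coe_T_zpow (n : ℤ)
  rw [zpow_natCast] at h
  show (ModularGroup.T ^ n).1.trace = 2
  rw [h]
  simp [Matrix.trace_fin_two]

/-! ### The global statement -/

/-- **DICT.**  Let `A` be an analytic core for level `N` (e.g. `S24.H997.analyticCore N`), let
`r, s ∈ R_N` be nonzero and `h₁, h₂ ∈ Hol` nonzero with `e(r) · h₂ ^ p = c · h₁ ^ p · e(s)`,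
`c ≠ 0`, and suppose `h₁ / h₂` is invariant under every element of `Γ₀(N)` of finite order or of
trace `2`.  Then `p` divides the order of `r / s` at EVERY place of the function field `FF N`. -/
theorem dvd_ord_of_analytic_pow (A : AnalyticCore N) (p : ℕ) (r s : RN N) (hr : r ≠ 0)
    (hs : s ≠ 0) (h₁ h₂ : A.toHolBase.Hol) (hh₁ : h₁ ≠ 0) (hh₂ : h₂ ≠ 0) (c : ℂ) (hc : c ≠ 0)
    (hrel : A.toHolBase.bridge r * h₂ ^ p
      = A.toHolBase.constH c * h₁ ^ p * A.toHolBase.bridge s)
    (hinv : ∀ δ : SL(2, ℤ), δ ∈ CongruenceSubgroup.Gamma0 N → Nice δ →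
      A.toHolBase.compH δ h₁ * h₂ = h₁ * A.toHolBase.compH δ h₂)
    (v : Place Kbar (FF N)) :
    (p : ℤ) ∣ v.ord (inclRN N r / inclRN N s) := by
  classical
  obtain ⟨hfd, hle⟩ := Deg457.degree_fields N
  haveI := hfd
  have hrank : Module.finrank ↥(IntermediateField.adjoin Kbar {jF N}) (FF N)
      = Nat.card (XX N) := le_antisymm hle A.card_le_finrank
  by_cases hj : 0 ≤ v.ord (jF N)
  · haveI : Algebra.IsAlgebraic ↥(IntermediateField.adjoin Kbar {jF N}) (FF N) :=
      Algebra.IsAlgebraic.of_finite _ _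
    obtain ⟨a, ha⟩ := FF.exists_ord_sub_pos v (jF N) hj
    obtain ⟨hfd', hfr⟩ :=
      finiteDimensional_and_finrank_of_eq (adjoin_sub_algebraMap Kbar (jF N) a)
    haveI := hfd'
    have hr' := hfr.trans hrank
    have key : ∀ (ε : SL(2, ℤ)) (P : PointData A.toHolBase (ιK a) ε),
        (∀ n : ℕ, Nice (ε ^ n)) → (p : ℤ) ∣ v.ord (inclRN N r / inclRN N s) := fun ε P hε =>
      dvd_ord_mkLocalData A.toHolBase P.X ε P.R _ _ (fun g => A.sigmaG_sub P g) P.order_J hr'
        hε p r s hr hs h₁ h₂ hh₁ hh₂ c hc hrel hinv v ha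
    by_cases h0 : a = 0
    · exact key (ModularGroup.S * ModularGroup.T) (by rw [h0, map_zero]; exact A.at0)
        nice_pow_ST
    · by_cases h1 : a = 1728
      · refine key ModularGroup.S ?_ nice_pow_S
        have : ιK a = 1728 := by rw [h1]; exact map_ofNat ιK 1728
        rw [this]; exact A.at1728
      · exact key 1 (A.generic (ιK a)
          (fun h => h0 (ιK_injective (by rw [h, map_zero])))
          (fun h => h1 (ιK_injective (by rw [h]; exact (map_ofNat ιK 1728).symm))))
          nice_pow_one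
  · have hjinv : 0 < v.ord (jF N)⁻¹ := by
      rw [Place.ord_inv]
      omega
    obtain ⟨hfd', hfr⟩ := finiteDimensional_and_finrank_of_eq (adjoin_inv Kbar (jF N))
    haveI := hfd'
    have hr' := hfr.trans hrank
    exact dvd_ord_mkLocalData A.toHolBase A.toHolBase.qexpExpansion ModularGroup.T A.infRot
      (jF N)⁻¹ (A.qexp (A.toHolBase.JH 1 (one_dvd N)))⁻¹
      (fun g => by rw [map_inv₀, HolBase.sigmaG_jF]; rfl)
      (by
        rw [RotRel.order_inv' A.toHolBase.qexp_J_one_ne_zero, A.toHolBase.order_qexp_J_one,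
          neg_neg]
        rfl)
      hr' nice_pow_T p r s hr hs h₁ h₂ hh₁ hh₂ c hc hrel hinv v hjinv

end Fermat.Agent.S29.H389

end
end
-- ===== PACK-END S29/H389/Dict.lean

-- ===== PACK-BEGIN S29/H389/DictKummer.lean
section




/-!
# S29 / layer M / BR — DICT, Kummer-class form (helper389)

`exists_isKummerClass_of_analytic_pow` : in the situation of `dvd_ord_of_analytic_pow`
(`e(r) · h₂ ^ p = c · h₁ ^ p · e(s)`, `h₁ / h₂` invariant under the elliptic and parabolic elements
of `Γ₀(N)`), the function `f = r / s ∈ FF N` has a `p`-Kummer class in `J₀(N)(ℚ̄) = Pic⁰(FF N)`: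
there is a degree-zero divisor `D` with `p • D = div f` (landed predicate `H455.IsKummerClass`).
-/

set_option autoImplicit false
set_option linter.style.haveILetI false

noncomputable section

open AlgebraicCurve HahnSeries ModularCurve
open scoped MatrixGroups

namespace Fermat.Agent.S29.H389

open Fermat.Agent.S24 Fermat.Agent.S24.H997

variable {N : ℕ} [NeZero N]

/-- A divisor all of whose coefficients are divisible by `p ≠ 0` is `p` times a divisor, of
degree zero if the original one is. -/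
theorem exists_divisor_div {K F : Type*} [Field K] [Field F] [Algebra K F]
    (p : ℕ) (hp : p ≠ 0) (D₀ : Divisor K F) (hdvd : ∀ v, (p : ℤ) ∣ D₀ v)
    (hdeg : Divisor.degree D₀ = 0) :
    ∃ D : Divisor K F, Divisor.degree D = 0 ∧ ∀ v, (p : ℤ) * D v = D₀ v := by
  classical
  have hp' : (p : ℤ) ≠ 0 := by exact_mod_cast hp
  let D : Divisor K F := D₀.mapRange (fun n : ℤ => n / (p : ℤ)) (by simp)
  have hD : ∀ v, (p : ℤ) * D v = D₀ v := by
    intro v
    show (p : ℤ) * (D₀.mapRange (fun n : ℤ => n / (p : ℤ)) (by simp)) v = D₀ v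
    rw [Finsupp.mapRange_apply]
    exact Int.mul_ediv_cancel' (hdvd v)
  have hsmul : (p : ℤ) • D = D₀ := by
    ext v
    rw [Finsupp.smul_apply, smul_eq_mul, hD]
  refine ⟨D, ?_, hD⟩
  have h1 : (p : ℤ) * Divisor.degree D = 0 := by
    rw [← smul_eq_mul, ← map_zsmul, hsmul, hdeg]
  rcases mul_eq_zero.1 h1 with h | h
  · exact absurd h hp'
  · exact h

/-- **DICT, Kummer form.** -/
theorem exists_isKummerClass_of_analytic_pow (A : AnalyticCore N) (p : ℕ) (hp : p ≠ 0)
    (r s : RN N) (hr : r ≠ 0) (hs : s ≠ 0) (h₁ h₂ : A.toHolBase.Hol) (hh₁ : h₁ ≠ 0)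
    (hh₂ : h₂ ≠ 0) (c : ℂ) (hc : c ≠ 0)
    (hrel : A.toHolBase.bridge r * h₂ ^ p
      = A.toHolBase.constH c * h₁ ^ p * A.toHolBase.bridge s)
    (hinv : ∀ δ : SL(2, ℤ), δ ∈ CongruenceSubgroup.Gamma0 N → Nice δ →
      A.toHolBase.compH δ h₁ * h₂ = h₁ * A.toHolBase.compH δ h₂) :
    ∃ x : JZero N, H455.IsKummerClass (p : ℤ) (inclRN N r / inclRN N s) x := by
  have hr' : inclRN N r ≠ 0 := fun h => hr (inclRN_injective N (by rw [h, map_zero]))
  have hs' : inclRN N s ≠ 0 := fun h => hs (inclRN_injective N (by rw [h, map_zero]))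
  have hf : inclRN N r / inclRN N s ≠ 0 := div_ne_zero hr' hs'
  haveI := Fermat.Agent.Lib.RR.H864.hasPrincipalDivisors_modularFunctionFieldBar N
  obtain ⟨D₀, hD₀, hdeg₀⟩ :=
    HasPrincipalDivisors.exists_divisor (K := AlgebraicClosure ℚ) (inclRN N r / inclRN N s) hf
  obtain ⟨D, hdeg, hD⟩ := exists_divisor_div p hp D₀
    (fun v => by
      rw [hD₀ v]
      exact dvd_ord_of_analytic_pow A p r s hr hs h₁ h₂ hh₁ hh₂ c hc hrel hinv v)
    hdeg₀
  refine ⟨Pic0.mk ⟨D, hdeg⟩, hf, ⟨D, hdeg⟩, rfl, fun v => ?_⟩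
  rw [hD v, hD₀ v]

end Fermat.Agent.S29.H389

end
end
-- ===== PACK-END S29/H389/DictKummer.lean

-- ===== PACK-BEGIN S17/H680/Cusp.lean
section





/-!
# S17 / P2 (helper680): the cusp `∞` is Galois-stable; descent for `J₀(N)`

* `cuspInf F₀ hneg` : the place `ord_q` of `laurentBaseChange L F₀ ⊆ L((q))`;
* `arithmeticGalois_smul_cuspInf` : it is fixed by the coefficientwise Galois action;
* `JZero.galois_smul_minRep` : for a Galois-fixed class `x ∈ J₀(N)`, the minimal representative
  `E_x` (effective, degree `≤ g`, prime to `∞`, `x = [E_x - m ∞]`) is a Galois-invariant divisor.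
-/

set_option autoImplicit false

noncomputable section

open AlgebraicCurve ModularCurve

namespace Fermat.Agent.S17.H680

open Fermat.Agent.Lib.RR

section General

variable {L : Type*} [Field L] [Algebra ℚ L]
variable (F₀ : IntermediateField ℚ (LaurentSeries ℚ))

/-- The inclusion of the function field into the Laurent series. -/
def inclLaurent : laurentBaseChange L F₀ →+* LaurentSeries L :=
  (laurentBaseChange L F₀).toSubfield.subtype

@[simp]
theorem inclLaurent_apply (x : laurentBaseChange L F₀) :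
    inclLaurent F₀ x = (x : LaurentSeries L) := rfl

omit [Algebra ℚ L] in
theorem order_algebraMap_laurent (c : L) :
    (algebraMap L (LaurentSeries L) c).order = 0 := by
  rw [algebraMap_laurentSeries_eq_single]
  rcases eq_or_ne c 0 with rfl | hc
  · simp
  · exact HahnSeries.order_single hc

/-- The place `ord_q` of the function field `laurentBaseChange L F₀`. -/
def cuspInf (hneg : ∃ f : laurentBaseChange L F₀, (f : LaurentSeries L).order < 0) :
    Place L (laurentBaseChange L F₀) :=
  Fermat.Agent.S24.H144.placeOfEmb (inclLaurent F₀)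
    (fun c => le_of_eq (order_algebraMap_laurent c).symm) hneg

theorem mem_cuspInf (hneg : ∃ f : laurentBaseChange L F₀, (f : LaurentSeries L).order < 0)
    (f : laurentBaseChange L F₀) :
    f ∈ (cuspInf F₀ hneg).toValuationSubring ↔ 0 ≤ (f : LaurentSeries L).order :=
  Iff.rfl

omit [Algebra ℚ L] in
theorem order_coeffMap_of_injective (φ : L →+* L) (hφ : Function.Injective φ)
    (x : LaurentSeries L) : (coeffMap φ x).order = x.order := by
  classical
  rcases eq_or_ne x 0 with rfl | hx
  · simp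
  have hx' : coeffMap φ x ≠ 0 := by
    intro h
    apply hx
    ext k
    have := congrArg (fun y => HahnSeries.coeff y k) h
    simp only [coeffMap_coeff, HahnSeries.coeff_zero] at this
    rw [HahnSeries.coeff_zero]
    exact hφ (by rw [this, map_zero])
  have hsupp : (coeffMap φ x).support = x.support := by
    ext k
    simp only [HahnSeries.mem_support, coeffMap_coeff, ne_eq]
    rw [map_eq_zero_iff φ hφ]
  rw [HahnSeries.order_of_ne hx', HahnSeries.order_of_ne hx]
  congr 1

/-- The cusp `∞` is fixed by the coefficientwise Galois action. -/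
theorem arithmeticGalois_smul_cuspInf
    (hneg : ∃ f : laurentBaseChange L F₀, (f : LaurentSeries L).order < 0) (σ : L ≃ₐ[ℚ] L) :
    arithmeticGalois F₀ σ • cuspInf F₀ hneg = cuspInf F₀ hneg := by
  apply Place.ext
  ext f
  rw [SemilinearAut.smul_toValuationSubring,
    ValuationSubring.mem_pointwise_smul_iff_inv_smul_mem, mem_cuspInf, mem_cuspInf]
  have h : (((arithmeticGalois F₀ σ)⁻¹ • f : laurentBaseChange L F₀) : LaurentSeries L)
      = coeffMap ((σ⁻¹ : L ≃ₐ[ℚ] L) : L →+* L) (f : LaurentSeries L) := by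
    rw [← map_inv]
    exact coe_arithmeticGalois_smul F₀ σ⁻¹ f
  rw [h, order_coeffMap_of_injective _ (σ⁻¹ : L ≃ₐ[ℚ] L).injective]

end General

/-! ### The modular function field -/

section Modular

variable (N : ℕ) [NeZero N]

theorem jq_order_neg : jq.order < 0 := by
  have h : jq.order ≤ -1 := HahnSeries.order_le_of_coeff_ne_zero (by
    rw [coeff_jq_neg_one]; exact one_ne_zero)
  omega

theorem exists_order_neg_modular :
    ∃ f : modularFunctionFieldBar N, (f : LaurentSeries (AlgebraicClosure ℚ)).order < 0 := by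
  refine ⟨⟨coeffEmb (AlgebraicClosure ℚ) jq,
    coeffEmb_mem_laurentBaseChange _ (modularFunctionField_le_full N (jq_mem N))⟩, ?_⟩
  show (coeffEmb (AlgebraicClosure ℚ) jq).order < 0
  have h : (coeffEmb (AlgebraicClosure ℚ) jq).order ≤ -1 :=
    HahnSeries.order_le_of_coeff_ne_zero (by
      rw [coeffEmb_coeff, coeff_jq_neg_one, map_one]; exact one_ne_zero)
  omega

/-- The cusp `∞` of `X₀(N)`, as a place of `ℚ̄(X₀(N))`. -/
def JZero.cusp : Place (AlgebraicClosure ℚ) (modularFunctionFieldBar N) :=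
  cuspInf (modularFunctionFieldFull N) (exists_order_neg_modular N)

theorem JZero.galois_smul_cusp (σ : AlgebraicClosure ℚ ≃ₐ[ℚ] AlgebraicClosure ℚ) :
    arithmeticGalois (modularFunctionFieldFull N) σ • JZero.cusp N = JZero.cusp N :=
  arithmeticGalois_smul_cuspInf _ _ σ

omit [NeZero N] in
/-- Membership in the Mordell–Weil group `J₀(N)(ℚ)`. -/
theorem JZero.mem_fixedPoints_iff (x : JZero N) :
    x ∈ FixedPoints.addSubgroup (AlgebraicClosure ℚ ≃ₐ[ℚ] AlgebraicClosure ℚ) (JZero N) ↔
      ∀ σ : AlgebraicClosure ℚ ≃ₐ[ℚ] AlgebraicClosure ℚ,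
        arithmeticGalois (modularFunctionFieldFull N) σ • x = x :=
  Iff.rfl

/-- **Galois descent for `J₀(N)`**: the minimal representative of a rational class is a
Galois-invariant effective divisor. -/
theorem JZero.galois_smul_minRep {x : JZero N}
    (hx : x ∈ FixedPoints.addSubgroup (AlgebraicClosure ℚ ≃ₐ[ℚ] AlgebraicClosure ℚ) (JZero N))
    (σ : AlgebraicClosure ℚ ≃ₐ[ℚ] AlgebraicClosure ℚ) :
    arithmeticGalois (modularFunctionFieldFull N) σ • minRep (JZero.cusp N) x
      = minRep (JZero.cusp N) x :=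
  smul_minRep_eq _ (JZero.galois_smul_cusp N σ) ((JZero.mem_fixedPoints_iff N x).mp hx σ)

/-- Summary of the descent statement for `J₀(N)(ℚ)`. -/
theorem JZero.exists_invariant_rep {x : JZero N}
    (hx : x ∈ FixedPoints.addSubgroup (AlgebraicClosure ℚ ≃ₐ[ℚ] AlgebraicClosure ℚ) (JZero N)) :
    ∃ (m : ℕ) (E : Divisor (AlgebraicClosure ℚ) (modularFunctionFieldBar N))
      (hdeg : Divisor.degree (E - m • prim (JZero.cusp N)) = 0),
      m ≤ genusR (AlgebraicClosure ℚ) (modularFunctionFieldBar N) ∧ 0 ≤ E ∧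
      Divisor.degree E = m ∧ E (JZero.cusp N) = 0 ∧ ell E = 1 ∧
      (∀ σ : AlgebraicClosure ℚ ≃ₐ[ℚ] AlgebraicClosure ℚ,
        arithmeticGalois (modularFunctionFieldFull N) σ • E = E) ∧
      Pic0.mk ⟨E - m • prim (JZero.cusp N), hdeg⟩ = x :=
  ⟨minDeg (JZero.cusp N) x, minRep (JZero.cusp N) x, degree_minRep_sub _ x,
    minDeg_le_genus _ x, minRep_nonneg _ x, degree_minRep _ x, minRep_apply_infty _ x,
    ell_minRep _ x, fun σ => JZero.galois_smul_minRep N hx σ, mk_minDiv _ x⟩

end Modular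

end Fermat.Agent.S17.H680

end
end
-- ===== PACK-END S17/H680/Cusp.lean

-- ===== PACK-BEGIN S37/H818/ModularNorm.lean
section
/-
S37 / LEVEL TRANSFER (helper818), part 10: degrees, generation and norm compatibility for the
modular function fields (char 0), from the S28 degree API (helper988).
-/







set_option autoImplicit false
set_option linter.style.haveILetI false

noncomputable section

namespace Fermat.Agent.S37.H818

open AlgebraicCurve ModularCurve IntermediateField Fermat.Agent.S28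

variable {L : Type*} [Field L] [Algebra ℚ L]

theorem natCast_ne_zero_of_prime {r : ℕ} (hr : r.Prime) : ((r : ℕ) : L) ≠ 0 := by
  haveI : CharZero L := algebraRat.charZero L
  exact Nat.cast_ne_zero.mpr hr.ne_zero

/-- `[F_{Nℓ} : F_N] = ℓ + 1` for a prime `ℓ ∤ N`, in `finrankAlong` form. -/
theorem finrankAlong_heckeAlphaBar (N ℓ : ℕ) [NeZero N] [NeZero ℓ] (hℓ : ℓ.Prime)
    (hℓN : ¬ ℓ ∣ N) : finrankAlong L (heckeAlphaBar L N ℓ) = ℓ + 1 := by
  have h := H988.relfinrank_full_mul_prime L N ℓ (NeZero.ne N) hℓ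
    (fun r hr _ => natCast_ne_zero_of_prime hr)
  rw [if_neg hℓN, ← H988.laurentBaseChange_full_eq_fullC, ← H988.laurentBaseChange_full_eq_fullC]
    at h
  rw [← h]
  exact finrankAlong_inclusion _

/-- `[F_{Np} : F_N] = p` or `p + 1` for a prime `p`. -/
theorem finrankAlong_heckeAlphaBar' (N p : ℕ) [NeZero N] [NeZero p] (hp : p.Prime) :
    finrankAlong L (heckeAlphaBar L N p) = if p ∣ N then p else p + 1 := by
  have h := H988.relfinrank_full_mul_prime L N p (NeZero.ne N) hp
    (fun r hr _ => natCast_ne_zero_of_prime hr)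
  rw [← H988.laurentBaseChange_full_eq_fullC, ← H988.laurentBaseChange_full_eq_fullC] at h
  rw [← h]
  exact finrankAlong_inclusion _

theorem finiteAlong_heckeAlphaBar (N p : ℕ) [NeZero N] [NeZero p] (hp : p.Prime) :
    FiniteAlong L (heckeAlphaBar L N p) := by
  have h := finrankAlong_heckeAlphaBar' (L := L) N p hp
  unfold FiniteAlong
  unfold finrankAlong at h
  letI := algebraAlong (heckeAlphaBar L N p)
  refine Module.finite_of_finrank_pos ?_
  rw [h]
  split_ifs
  · exact hp.pos
  · exact Nat.succ_pos _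

theorem isIntegral_heckeAlphaBar (N p : ℕ) [NeZero N] [NeZero p] (hp : p.Prime) :
    (heckeAlphaBar L N p).toRingHom.IsIntegral := by
  have hfin := finiteAlong_heckeAlphaBar (L := L) N p hp
  letI := algebraAlong (heckeAlphaBar L N p)
  haveI : Module.Finite (FB L N) (FB L (N * p)) := hfin
  intro x
  exact Algebra.IsIntegral.isIntegral (R := FB L N) x

/-- Generation: `F_{N k ℓ} ≤ F_{N k} ⊔ F_{N ℓ}` for a prime `ℓ ∤ k`. -/
theorem FB_le_sup (N k ℓ : ℕ) [NeZero N] [NeZero k] [NeZero ℓ] (hℓ : ℓ.Prime) (hℓk : ¬ ℓ ∣ k) :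
    FB L (N * k * ℓ) ≤ FB L (N * k) ⊔ FB L (N * ℓ) := by
  have hM : N * k ≠ 0 := Nat.mul_ne_zero (NeZero.ne N) (NeZero.ne k)
  have hMℓ : N * k * ℓ ≠ 0 := Nat.mul_ne_zero hM (NeZero.ne ℓ)
  have hNℓ : N * ℓ ≠ 0 := Nat.mul_ne_zero (NeZero.ne N) (NeZero.ne ℓ)
  show laurentBaseChange L (modularFunctionFieldFull (N * k * ℓ)) ≤ _
  rw [H988.laurentBaseChange_full_eq_fullC, H988.full_le_iff L hMℓ]
  have hA : modularFunctionFieldFullC L (N * k) ≤ FB L (N * k) ⊔ FB L (N * ℓ) := by
    refine le_trans (le_of_eq ?_) le_sup_left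
    exact (H988.laurentBaseChange_full_eq_fullC L (N * k)).symm
  have hB : modularFunctionFieldFullC L (N * ℓ) ≤ FB L (N * k) ⊔ FB L (N * ℓ) := by
    refine le_trans (le_of_eq ?_) le_sup_right
    exact (H988.laurentBaseChange_full_eq_fullC L (N * ℓ)).symm
  let Φ : ℕ → Polynomial (Polynomial ℤ) := fun r =>
    if hr : r.Prime then
      (haveI : NeZero r := ⟨hr.ne_zero⟩; (Classical.choice (H807.nonempty_modPolyData (p := r) hr)).Φ)
    else 0
  have hΦ : ∀ r, r.Prime → r ∣ N * k * ℓ → H988.PhiRel L r (Φ r) := by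
    intro r hr _
    haveI : NeZero r := ⟨hr.ne_zero⟩
    have := H988.phiRel_of_modPolyData L r (Classical.choice (H807.nonempty_modPolyData (p := r) hr))
    simpa [Φ, hr] using this
  refine H988.jd_mem_of_dvd_mul Φ hM hℓ hΦ _ (fun d hd => hA (H988.jd_mem_full L hM hd)) ?_
  intro b hb
  apply hB
  apply H988.jd_mem_full L hNℓ
  have hcop : Nat.Coprime (ℓ ^ b) k :=
    Nat.Coprime.pow_left b ((Nat.Prime.coprime_iff_not_dvd hℓ).mpr hℓk)
  have h1 : ℓ ^ b ∣ k * (N * ℓ) := by
    rw [show k * (N * ℓ) = N * k * ℓ by ring]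
    exact hb
  exact hcop.dvd_of_dvd_mul_left h1

/-- **Norm compatibility for the modular `α`-square** (`ℓ` prime, `ℓ ∤ N k`). -/
theorem normCompat_modular (N k ℓ : ℕ) [NeZero N] [NeZero k] [NeZero ℓ] (hℓ : ℓ.Prime)
    (hℓN : ¬ ℓ ∣ N) (hℓk : ¬ ℓ ∣ k) :
    NormCompat (heckeAlphaBar L N ℓ) (heckeAlphaBar L N k)
      (heckeAlphaBar L (N * k) ℓ) (degenTop L N k ℓ) := by
  have hℓM : ¬ ℓ ∣ N * k := fun h => (hℓ.dvd_mul.mp h).elim hℓN hℓk
  refine normCompat_of_finrank_eq _ _ _ _ (square_alpha L N k ℓ)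
    (finiteAlong_heckeAlphaBar N ℓ hℓ) (finiteAlong_heckeAlphaBar (N * k) ℓ hℓ) ?_ ?_
  · rw [finrankAlong_heckeAlphaBar N ℓ hℓ hℓN, finrankAlong_heckeAlphaBar (N * k) ℓ hℓ hℓM]
  · exact adjoin_range_inclusion_eq_top _ _ (FB_le_sup N k ℓ hℓ hℓk)
      (finiteAlong_heckeAlphaBar (N * k) ℓ hℓ)

end Fermat.Agent.S37.H818

end

end
-- ===== PACK-END S37/H818/ModularNorm.lean

-- ===== PACK-BEGIN S37/H818/Transfer.lean
section
/-
S37 / LEVEL TRANSFER (helper818), part 11: reduction data at level `N * k` give reduction data at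
level `N`, when `[F_{N k} : F_N]` is a power of `ℓ` (e.g. `(ℓ, k) = (3, 2)` or `(2, 3)`,
`gcd(N, 6) = 1`):   `red_N := red_{N k} ∘ π^*`.
-/





set_option autoImplicit false
set_option linter.style.haveILetI false

noncomputable section

namespace Fermat.Agent.S37.H818

open AlgebraicCurve ModularCurve IntermediateField Fermat.Agent.S37.H99

/-- `ℚ̄`. -/
abbrev Qb : Type := AlgebraicClosure ℚ

variable (N k ℓ : ℕ) [NeZero N] [NeZero k] [NeZero ℓ]

/-- The inputs of the level transfer `N * k → N` at the Hecke prime `ℓ`. -/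
structure TransferInputs : Prop where
  hℓ : ℓ.Prime
  hk : k.Prime
  hℓN : ¬ ℓ ∣ N
  hℓk : ¬ ℓ ∣ k
  /-- Hecke inputs at level `N` -/
  heckeN : HeckeInputsAlong Qb N ℓ
  /-- Hecke inputs at level `N * k` -/
  heckeM : HeckeInputsAlong Qb (N * k) ℓ
  /-- the norm formula for the degeneracy map `F_N ⊂ F_{N k}` -/
  normFormula : NormFormulaAlong Qb (heckeAlphaBar Qb N k) (finiteAlong_heckeAlphaBar N k hk)
  /-- the degree of the degeneracy map is a power of `ℓ` -/
  deg_pow : ∃ e : ℕ, finrankAlong Qb (heckeAlphaBar Qb N k) = ℓ ^ e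

variable {N k ℓ}

namespace TransferInputs

variable [HasPrincipalDivisors Qb (FB Qb N)] [HasPrincipalDivisors Qb (FB Qb (N * k))]

variable (T : TransferInputs N k ℓ)

include T

omit [HasPrincipalDivisors Qb (FB Qb N)] [HasPrincipalDivisors Qb (FB Qb (N * k))] in
theorem isIntegral : (heckeAlphaBar Qb N k).toRingHom.IsIntegral :=
  isIntegral_heckeAlphaBar N k T.hk

theorem fundamentalIdentity : FundamentalIdentityAlong Qb (heckeAlphaBar Qb N k) T.isIntegral :=
  fundamentalIdentityAlong_of_normFormula _ _ (finiteAlong_heckeAlphaBar N k T.hk) T.normFormula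

/-- The pullback `π^* : J₀(N) → J₀(N k)`. -/
def pullback : JZero N →+ JZero (N * k) :=
  pullbackPic0Along (heckeAlphaBar Qb N k) T.isIntegral T.fundamentalIdentity

theorem pullback_galois (σ : Qb ≃ₐ[ℚ] Qb) (x : JZero N) :
    T.pullback (σ • x) = σ • T.pullback x :=
  pullbackPic0Along_galois T.isIntegral T.fundamentalIdentity σ x

theorem pullback_hecke (x : JZero N) :
    T.pullback (heckeOperatorBar N ⟨ℓ, T.hℓ⟩ x) =
      heckeOperatorBar (N * k) ⟨ℓ, T.hℓ⟩ (T.pullback x) := by
  have hi₁ : (degenTop Qb N k ℓ).toRingHom.IsIntegral := by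
    -- `F_{N k ℓ}` is finite over `F_N`, hence integral over `F_{N ℓ}`
    have hα := isIntegral_heckeAlphaBar (L := Qb) (N * k) ℓ T.hℓ
    have hι := T.isIntegral
    have hcomp : ((heckeAlphaBar Qb (N * k) ℓ).comp (heckeAlphaBar Qb N k)).toRingHom.IsIntegral :=
      RingHom.IsIntegral.trans _ _ hι hα
    rw [← square_alpha] at hcomp
    exact RingHom.IsIntegral.tower_top _ _ hcomp
  exact pullback_heckeOperatorAlong T.heckeN T.heckeM T.isIntegral T.fundamentalIdentity hi₁
    (normCompat_modular N k ℓ T.hℓ T.hℓN T.hℓk) x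

theorem pullback_eq_zero (x : JZero N) (hx : T.pullback x = 0) :
    finrankAlong Qb (heckeAlphaBar Qb N k) • x = 0 :=
  nsmul_eq_zero_of_pullbackPic0Along_eq_zero _ _ (finiteAlong_heckeAlphaBar N k T.hk)
    T.normFormula T.fundamentalIdentity x hx

/-- `π^*` is injective on torsion of order prime to `ℓ`. -/
theorem pullback_injective_of_coprime (m : ℕ) (hm : m.Coprime ℓ) (x : JZero N)
    (hmx : m • x = 0) (hx : T.pullback x = 0) : x = 0 := by
  obtain ⟨e, he⟩ := T.deg_pow
  have hd := T.pullback_eq_zero x hx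
  rw [he] at hd
  have hcop : Nat.Coprime m (ℓ ^ e) := Nat.Coprime.pow_right e hm
  have hord : addOrderOf x ∣ m := addOrderOf_dvd_of_nsmul_eq_zero hmx
  have hord' : addOrderOf x ∣ ℓ ^ e := addOrderOf_dvd_of_nsmul_eq_zero hd
  have h1 : addOrderOf x ∣ Nat.gcd m (ℓ ^ e) := Nat.dvd_gcd hord hord'
  rw [hcop.gcd_eq_one, Nat.dvd_one] at h1
  exact AddMonoid.addOrderOf_eq_one_iff.mp h1

/-- **Level transfer of reduction data.** -/
def redData (A : ValuationSubring Qb) (D : RedData (N * k) A ℓ T.hℓ) : RedData N A ℓ T.hℓ where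
  Y := D.Y
  instY := D.instY
  red := D.red.comp T.pullback
  inertia τ hτ x := by
    rw [AddMonoidHom.comp_apply, AddMonoidHom.comp_apply, T.pullback_galois]
    exact D.inertia τ hτ _
  frob_ker σ hσ x hx := by
    rw [AddMonoidHom.comp_apply] at hx ⊢
    rw [T.pullback_galois]
    exact D.frob_ker σ hσ _ hx
  inj_torsion m x hm hmx hx := by
    rw [AddMonoidHom.comp_apply] at hx
    refine T.pullback_injective_of_coprime m hm x hmx ?_
    refine D.inj_torsion m _ hm ?_ hx
    rw [← map_nsmul, hmx, map_zero]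
  relation σ hσ x := by
    rw [AddMonoidHom.comp_apply, map_add, map_sub, map_nsmul, T.pullback_hecke,
      T.pullback_galois, T.pullback_galois]
    exact D.relation σ hσ _

end TransferInputs

end Fermat.Agent.S37.H818

end

end
-- ===== PACK-END S37/H818/Transfer.lean

-- ===== PACK-BEGIN S37/H28/NCMod.lean
section






/-!
# S37 / node_rim, NC producer (helper28), part 2: the modular function field

`F = Om M = F_M = ℚ̄(X₀(M))`, `K = ℚ̄`, `x` an admissible coordinate (`Mod.IsCoordinate M ℓ x S`: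
`x = j`, `S = {0, 1728}` for `ℓ ≥ 5`; `x = t₂`, `S = {0, -64}` for `ℓ = 3`; `x = t₃`,
`S = {0, -27}` for `ℓ = 2`), `A ⊆ ℚ̄` a valuation subring over `ℓ`.

For ANY `[Algebra ℚ̄[X] F_M]` with `X ↦ x` (resp. `X ↦ x⁻¹`) and `C a ↦ a`:

* `nc_fin` / `nc_inf` : hypothesis `hNC` of Theorem M (`S37.H159.RedCtx.lift_integral`), verbatim:
  `∀ c : A, c ∉ branchA A S → (Ideal.span {algebraMap K[X] (integralClosure K[X] F) (X - C c)}).IsRadical`
  with `S` resp. `H278.invBranch S`;
* `injOn_branchA` / `injOn_branchA_inv` : hypothesis `hS` of Theorem M (the branch values stay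
  distinct modulo the maximal ideal of `A`), for any ring hom `π` on `A` with kernel `𝔪_A`.
-/

set_option autoImplicit false
set_option linter.unusedSectionVars false
set_option linter.style.haveILetI false

noncomputable section

namespace Fermat.Agent.S37.H28

open Polynomial

section Branch

variable {K : Type*} [Field K] {F : Type*} [Field F] [Algebra K F]

/-- the elements of `A` whose image lies in the finite set `S ⊆ F` -/
def branchA (A : ValuationSubring K) (S : Finset F) : Finset A :=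
  S.preimage (fun c : A => algebraMap K F (c : K))
    (((algebraMap K F).injective.comp Subtype.coe_injective).injOn)

theorem mem_branchA {A : ValuationSubring K} {S : Finset F} {c : A} :
    c ∈ branchA (F := F) A S ↔ algebraMap K F (c : K) ∈ S := by
  rw [branchA, Finset.mem_preimage]

end Branch

section Generic

variable {K : Type*} [Field K] [CharZero K] {F : Type*} [Field F] [Algebra K F] [Algebra K[X] F]
variable (L₀ : Type*) [Field L₀] [Algebra K[X] L₀] [IsFractionRing K[X] L₀] [Algebra L₀ F]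
  [IsScalarTower K[X] L₀ F] [FiniteDimensional L₀ F]

include L₀ in
/-- **NC from `Unramified`**, in the shape `hNC` of Theorem M. -/
theorem nc_of_unramified (hC : ∀ a : K, algebraMap K[X] F (C a) = algebraMap K F a)
    (S : Finset F)
    (hunr : Fermat.Agent.S18.H278.Unramified (algebraMap K F).fieldRange
      (algebraMap K[X] F X) S)
    (A : ValuationSubring K) (c : A) (hc : c ∉ branchA (F := F) A S) :
    (Ideal.span {algebraMap K[X] (integralClosure K[X] F) (X - C (c : K))}).IsRadical := by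
  refine isRadical_span_X_sub_C L₀ (algebraMap K F).fieldRange ?_ S hunr (c : K) ?_ ?_
  · rintro a ⟨a₀, rfl⟩
    exact ⟨a₀, hC a₀⟩
  · rw [hC]
    exact ⟨_, rfl⟩
  · rw [hC]
    exact fun h => hc (mem_branchA.2 h)

end Generic

section Units

variable {K : Type*} [Field K] [CharZero K]

/-- an integer prime to `ℓ` is a unit of a valuation ring over `ℓ` -/
theorem int_inv_mem_of_coprime (A : ValuationSubring K) {ℓ : ℕ} (hA : (ℓ : K) ∈ A.nonunits)
    (n : ℤ) (hn : IsCoprime n (ℓ : ℤ)) : ((n : K))⁻¹ ∈ A := by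
  obtain ⟨a, b, hab⟩ := hn
  have hℓv : A.valuation (ℓ : K) < 1 := A.mem_nonunits_iff.1 hA
  have hint : ∀ m : ℤ, A.valuation (m : K) ≤ 1 := fun m =>
    (A.valuation_le_one_iff _).2 (intCast_mem A m)
  have h1 : (a : K) * (n : K) + (b : K) * (ℓ : K) = 1 := by
    have := congrArg (Int.cast : ℤ → K) hab
    push_cast at this
    exact this
  have hbℓ : A.valuation ((b : K) * (ℓ : K)) < 1 := by
    rw [map_mul]
    exact lt_of_le_of_lt (mul_le_of_le_one_left' (hint b)) hℓv
  have han : A.valuation ((a : K) * (n : K)) = 1 := by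
    have h2 : (a : K) * (n : K) = 1 + -((b : K) * (ℓ : K)) := by
      rw [← h1]; ring
    rw [h2]
    have h3 : A.valuation (-((b : K) * (ℓ : K))) < A.valuation (1 : K) := by
      rw [Valuation.map_neg, map_one]
      exact hbℓ
    rw [Valuation.map_add_eq_of_lt_left _ h3, map_one]
  rw [map_mul] at han
  have hn1 : A.valuation (n : K) = 1 := by
    refine le_antisymm (hint n) ?_
    by_contra hlt
    have hlt' : A.valuation (n : K) < 1 := lt_of_not_ge hlt
    have : A.valuation (a : K) * A.valuation (n : K) < 1 :=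
      lt_of_le_of_lt (mul_le_of_le_one_left' (hint a)) hlt'
    rw [han] at this
    exact lt_irrefl _ this
  rw [← A.valuation_le_one_iff, map_inv₀, hn1, inv_one]

/-- a finite set of elements of `A` with values in `{0, u}`, `u` a unit of `A`, stays injective
under every ring homomorphism to a nontrivial ring -/
theorem injOn_of_pair (A : ValuationSubring K) {k : Type*} [Semiring k] [Nontrivial k]
    (π : A →+* k) (T : Finset A) (u : K) (hu : u ∈ A) (hu' : u⁻¹ ∈ A) (hu0 : u ≠ 0)
    (hT : ∀ c ∈ T, (c : K) = 0 ∨ (c : K) = u) : Set.InjOn π (T : Set A) := by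
  have hπu : π ⟨u, hu⟩ ≠ 0 := by
    intro h0
    have h1 : (⟨u, hu⟩ : A) * ⟨u⁻¹, hu'⟩ = 1 := Subtype.ext (mul_inv_cancel₀ hu0)
    have h2 := congrArg π h1
    rw [map_mul, h0, zero_mul, map_one] at h2
    exact zero_ne_one h2
  intro c₁ h₁ c₂ h₂ h
  rcases hT c₁ h₁ with e₁ | e₁ <;> rcases hT c₂ h₂ with e₂ | e₂
  · exact Subtype.ext (e₁.trans e₂.symm)
  · exfalso
    have hc₁ : c₁ = 0 := Subtype.ext e₁
    have hc₂ : c₂ = ⟨u, hu⟩ := Subtype.ext e₂
    rw [hc₁, hc₂, map_zero] at h
    exact hπu h.symm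
  · exfalso
    have hc₁ : c₁ = ⟨u, hu⟩ := Subtype.ext e₁
    have hc₂ : c₂ = 0 := Subtype.ext e₂
    rw [hc₁, hc₂, map_zero] at h
    exact hπu h
  · exact Subtype.ext (e₁.trans e₂.symm)

end Units

section Modular

open Fermat.Agent.S18 Fermat.Agent.S18.Mod Fermat.Agent.S18.H278 Fermat.Agent.S18.H107

variable {M : ℕ} [NeZero M]

/-- an admissible coordinate is unramified outside its branch set -/
theorem unramified_of_isCoordinate {ℓ : ℕ} {x : Om M} {S : Finset (Om M)}
    (hx : IsCoordinate M ℓ x S) : Unramified (Lc M) x S := by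
  rcases hx with ⟨-, rfl, hS⟩ | ⟨⟨-, hrel, hS⟩ | ⟨-, hrel, hS⟩, -⟩
  · exact unramified_j_concrete107 M S hS
  · intro O hL c hc hcS hz hz'
    exact unramified_t2_107 (Lc M) (jOm M) x hrel (branchJ_concrete107 M) O hL c hc
      (fun h => hcS ((hS c).2 (Or.inr h))) (fun h => hcS ((hS c).2 (Or.inl h))) hz hz'
  · intro O hL c hc hcS hz hz'
    exact unramified_t3_107 (Lc M) (jOm M) x hrel (branchJ_concrete107 M) O hL c hc
      (fun h => hcS ((hS c).2 (Or.inr h))) (fun h => hcS ((hS c).2 (Or.inl h))) hz hz'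

omit [NeZero M] in
/-- the branch set of an admissible coordinate is `{0, n}` with `n` an integer prime to `ℓ` -/
theorem exists_int_of_isCoordinate {ℓ : ℕ} (hℓ : ℓ.Prime) {x : Om M} {S : Finset (Om M)}
    (hx : IsCoordinate M ℓ x S) :
    ∃ n : ℤ, IsCoprime n (ℓ : ℤ) ∧ ∀ s, s ∈ S ↔ s = 0 ∨ s = (n : Om M) := by
  rcases hx with ⟨h5, -, hS⟩ | ⟨⟨h3, -, hS⟩ | ⟨h2, -, hS⟩, -⟩
  · refine ⟨1728, ?_, fun s => by rw [hS]; norm_num⟩
    have hnd : ¬ ℓ ∣ 1728 := by
      intro h
      have h' : ℓ ∣ 2 ^ 6 * 3 ^ 3 := by norm_num; exact h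
      rcases (Nat.Prime.dvd_mul hℓ).1 h' with h2 | h3
      · have := Nat.le_of_dvd (by norm_num) (hℓ.dvd_of_dvd_pow h2)
        omega
      · have := Nat.le_of_dvd (by norm_num) (hℓ.dvd_of_dvd_pow h3)
        omega
    have hc : Nat.Coprime 1728 ℓ := (Nat.Prime.coprime_iff_not_dvd hℓ).2 hnd |>.symm
    exact_mod_cast Nat.isCoprime_iff_coprime.2 hc
  · subst h3
    refine ⟨-64, ?_, fun s => by rw [hS]; norm_num⟩
    exact ⟨-1, -21, by norm_num⟩
  · subst h2
    refine ⟨-27, ?_, fun s => by rw [hS]; norm_num⟩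
    exact ⟨-1, -13, by norm_num⟩

omit [NeZero M] in
theorem coe_eq_of_algebraMap_eq_intCast {c : Qb} {n : ℤ}
    (h : algebraMap Qb (Om M) c = (n : Om M)) : c = (n : Qb) := by
  apply (algebraMap Qb (Om M)).injective
  rw [h, map_intCast]

omit [NeZero M] in
theorem ne_zero_of_isCoprime_prime {ℓ : ℕ} (hℓ : ℓ.Prime) {n : ℤ} (hn : IsCoprime n (ℓ : ℤ)) :
    n ≠ 0 := by
  rintro rfl
  have h1 : IsUnit (ℓ : ℤ) := isCoprime_zero_left.1 hn
  have h2 := Int.isUnit_iff.1 h1
  have h3 := hℓ.two_le
  rcases h2 with h | h <;> omega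

section Inj

variable {ℓ : ℕ} {x : Om M} {S : Finset (Om M)} (A : ValuationSubring Qb)
  {k : Type*} [Semiring k] [Nontrivial k] (π : A →+* k)

omit [NeZero M] in
/-- **`hS` of Theorem M, finite chart**: the branch values stay distinct after reduction. -/
theorem injOn_branchA (hℓ : ℓ.Prime) (hx : IsCoordinate M ℓ x S)
    (hA : (ℓ : Qb) ∈ A.nonunits) : Set.InjOn π (branchA (F := Om M) A S : Set A) := by
  obtain ⟨n, hn, hS⟩ := exists_int_of_isCoordinate hℓ hx
  have hn0 : (n : Qb) ≠ 0 := by
    exact_mod_cast ne_zero_of_isCoprime_prime hℓ hn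
  refine injOn_of_pair A π _ (n : Qb) (intCast_mem A n) (int_inv_mem_of_coprime A hA n hn) hn0 ?_
  intro c hc
  rw [mem_branchA, hS] at hc
  rcases hc with h | h
  · left
    apply (algebraMap Qb (Om M)).injective
    rw [h, map_zero]
  · right
    exact coe_eq_of_algebraMap_eq_intCast h

open Classical in
omit [NeZero M] in
/-- **`hS` of Theorem M, chart at infinity.** -/
theorem injOn_branchA_inv (hℓ : ℓ.Prime) (hx : IsCoordinate M ℓ x S)
    (hA : (ℓ : Qb) ∈ A.nonunits) :
    Set.InjOn π (branchA (F := Om M) A (invBranch S) : Set A) := by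
  obtain ⟨n, hn, hS⟩ := exists_int_of_isCoordinate hℓ hx
  have hn0 : (n : Qb) ≠ 0 := by
    exact_mod_cast ne_zero_of_isCoprime_prime hℓ hn
  refine injOn_of_pair A π _ ((n : Qb))⁻¹ (int_inv_mem_of_coprime A hA n hn) ?_
    (inv_ne_zero hn0) ?_
  · rw [inv_inv]
    exact intCast_mem A n
  intro c hc
  rw [mem_branchA, invBranch, Finset.mem_insert, Finset.mem_image] at hc
  rcases hc with h | ⟨s, hs, h⟩
  · left
    apply (algebraMap Qb (Om M)).injective
    rw [h, map_zero]
  · rw [hS] at hs
    rcases hs with rfl | rfl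
    · left
      apply (algebraMap Qb (Om M)).injective
      rw [← h, inv_zero, map_zero]
    · right
      apply (algebraMap Qb (Om M)).injective
      rw [← h, map_inv₀, map_intCast]

end Inj

section NC

variable [Algebra Qb[X] (Om M)]
variable (L₀ : Type*) [Field L₀] [Algebra Qb[X] L₀] [IsFractionRing Qb[X] L₀] [Algebra L₀ (Om M)]
  [IsScalarTower Qb[X] L₀ (Om M)] [FiniteDimensional L₀ (Om M)]
variable {ℓ : ℕ} {x : Om M} {S : Finset (Om M)}

include L₀ in
/-- **`hNC` of Theorem M, finite chart** (`X ↦ x`), verbatim. -/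
theorem nc_fin (hx : IsCoordinate M ℓ x S) (hX : algebraMap Qb[X] (Om M) X = x)
    (hC : ∀ a : Qb, algebraMap Qb[X] (Om M) (C a) = algebraMap Qb (Om M) a)
    (A : ValuationSubring Qb) (c : A) (hc : c ∉ branchA (F := Om M) A S) :
    (Ideal.span {algebraMap Qb[X] (integralClosure Qb[X] (Om M)) (X - C (c : Qb))}).IsRadical := by
  refine nc_of_unramified L₀ hC S ?_ A c hc
  rw [hX]
  exact unramified_of_isCoordinate hx

open Classical in
include L₀ in
/-- **`hNC` of Theorem M, chart at infinity** (`X ↦ x⁻¹`), verbatim. -/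
theorem nc_inf (hx : IsCoordinate M ℓ x S) (hX : algebraMap Qb[X] (Om M) X = x⁻¹)
    (hC : ∀ a : Qb, algebraMap Qb[X] (Om M) (C a) = algebraMap Qb (Om M) a)
    (A : ValuationSubring Qb) (c : A) (hc : c ∉ branchA (F := Om M) A (invBranch S)) :
    (Ideal.span {algebraMap Qb[X] (integralClosure Qb[X] (Om M)) (X - C (c : Qb))}).IsRadical := by
  refine nc_of_unramified L₀ hC (invBranch S) ?_ A c hc
  rw [hX]
  exact (unramified_of_isCoordinate hx).inv

end NC

end Modular

end Fermat.Agent.S37.H28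

end
end
-- ===== PACK-END S37/H28/NCMod.lean

-- ===== PACK-BEGIN S18/H504/ConstF.lean
section





/-!
# S18 / T2 (CONST_F, characteristic 0): a function without zeros and poles is constant

* `const_of_ord_zero` : generic form, for a function field `F/K` finite over `K(j)`.
* `constOfOrdZero_modularFunctionFieldBar` : the instance `F = ℚ̄(X₀(N))`; its statement is the
  unfolded `H94.ConstOfOrdZero (AlgebraicClosure ℚ) (modularFunctionFieldBar N)`.
-/

set_option autoImplicit false

namespace Fermat.Agent.S18.H504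

open AlgebraicCurve IntermediateField Fermat.Agent.S24

variable {K F : Type*} [Field K] [Field F] [Algebra K F]

/-- A nonzero function with no zeros is constant (char 0, algebraically closed constants). -/
theorem const_of_forall_ord_le_zero [IsAlgClosed K] [CharZero K] {j : F}
    (hj : Transcendental K j) [FiniteDimensional K⟮j⟯ F] (u : F)
    (h : ∀ v : Place K F, v.ord u ≤ 0) : ∃ c : K, u = algebraMap K F c := by
  by_contra hc
  have hnr : u ∉ (algebraMap K F).range := fun ⟨c, hc'⟩ => hc ⟨c, hc'.symm⟩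
  have hut : Transcendental K u := FF.transcendental_of_not_mem_range hnr
  have : FiniteDimensional K⟮u⟯ F := FF.finiteDimensional_adjoin_of_transcendental hj hut
  have hsum := FF.sum_ord_pos_eq_finrank hut
  have hempty : (FF.finite_setOf_ord_pos hut).toFinset = ∅ := by
    ext v
    simp only [Set.Finite.mem_toFinset, Set.mem_ofPred_eq, Finset.notMem_empty, iff_false, not_lt]
    exact h v
  rw [hempty, Finset.sum_empty] at hsum
  have hpos : 0 < Module.finrank K⟮u⟯ F := Module.finrank_pos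
  omega

/-- **CONST_F.** A nonzero function without zeros and poles is constant. -/
theorem const_of_ord_zero [IsAlgClosed K] [CharZero K] {j : F}
    (hj : Transcendental K j) [FiniteDimensional K⟮j⟯ F] (u : F) (_hu : u ≠ 0)
    (h : ∀ v : Place K F, v.ord u = 0) : ∃ c : K, u = algebraMap K F c :=
  const_of_forall_ord_le_zero hj u fun v => (h v).le

/-- **T2.** `ConstOfOrdZero ℚ̄ (modularFunctionFieldBar N)` (unfolded). -/
theorem constOfOrdZero_modularFunctionFieldBar (N : ℕ) [NeZero N] :
    ∀ u : ModularCurve.modularFunctionFieldBar N, u ≠ 0 →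
      (∀ v : Place (AlgebraicClosure ℚ) (ModularCurve.modularFunctionFieldBar N), v.ord u = 0) →
      ∃ c : AlgebraicClosure ℚ,
        u = algebraMap (AlgebraicClosure ℚ) (ModularCurve.modularFunctionFieldBar N) c := by
  obtain ⟨P⟩ := nonempty_modularPackage N
  have := P.finiteDimensional
  have hj : Transcendental Kbar (jF N) := transcendental_of_localData_inv (jF N) P.dataInf
  exact fun u hu h => const_of_ord_zero hj u hu h

end Fermat.Agent.S18.H504

end
-- ===== PACK-END S18/H504/ConstF.lean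

-- ===== PACK-BEGIN Lib/RR/H439/StrongApprox.lean
section



/-!
# Strong approximation inside Riemann–Roch spaces (vanishing of `H¹` in large degree)

(helper439, cell A3 / pieces D5, D8(b): "the jet matrix has full rank".)

* `sup_eq_top_of_degree_gt` : `deg D > 2g - 2` ⟹ `𝔸 = 𝔸(D) + F`.
* `exists_approx`           : `deg D > 2g - 2`, `S` finite, targets `φ v` (`v ∈ S`) ⟹ there is
                              `f ∈ F` with `ord_v (f - φ v) ≥ -D(v)` on `S` and `ord_v f ≥ -D(v)`
                              off `S`.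
* `exists_mem_L_approx`     : interpolation of jets inside `L(B)`: if `D ≥ 0` on `S`,
                              `D = 0` off `S`, `deg (B - D) > 2g - 2` and the targets satisfy
                              `ord_v (φ v) ≥ -B(v)`, then some `f ∈ L(B)` has
                              `ord_v (f - φ v) ≥ D(v) - B(v)` for all `v ∈ S`.
-/

set_option autoImplicit false

noncomputable section

open AlgebraicCurve

namespace Fermat.Agent.Lib.RR.H439

open Fermat.Agent.Lib.RR

variable {K F : Type*} [Field K] [Field F] [Algebra K F] [FF1 K F]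

/-- **Vanishing of `H¹`**: if `deg D > 2g - 2` then `𝔸 = 𝔸(D) + F`. -/
theorem sup_eq_top_of_degree_gt {D : Divisor K F}
    (hD : 2 * (genusFF K F : ℤ) - 2 < Divisor.degree D) :
    repartitionsOf D ⊔ principalRepartitions K F = ⊤ :=
  sup_eq_top_of_attains (genusFF K F : ℤ) (fun D' => riemann_inequality_genusFF D') D
    (ell_eq_of_degree_gt hD)

open Classical in
/-- **Strong approximation**: if `deg D > 2g - 2`, then for every finite set `S` of places and
arbitrary targets `φ v ∈ F` there is `f ∈ F` with `ord_v (f - φ v) ≥ -D(v)` for `v ∈ S` and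
`ord_v f ≥ -D(v)` for `v ∉ S`. -/
theorem exists_approx {D : Divisor K F}
    (hD : 2 * (genusFF K F : ℤ) - 2 < Divisor.degree D) (S : Finset (Place K F))
    (φ : Place K F → F) :
    ∃ f : F, (∀ v ∈ S, f - φ v = 0 ∨ -D v ≤ v.ord (f - φ v)) ∧
      ∀ v ∉ S, f = 0 ∨ -D v ≤ v.ord f := by
  -- the repartition `α = φ` on `S`, `0` elsewhere
  let α₀ : Place K F → F := fun v => if v ∈ S then φ v else 0
  have hα₀ : α₀ ∈ repartitions K F := by
    apply mem_repartitions_of_finite_ord
    refine (Finset.finite_toSet S).subset fun v hv => ?_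
    by_contra hvS
    have hv' : v.ord (α₀ v) < 0 := hv
    have : α₀ v = 0 := if_neg hvS
    rw [this, v.ord_zero] at hv'
    exact lt_irrefl _ hv'
  let α : ↥(repartitions K F) := ⟨α₀, hα₀⟩
  have hmem : α ∈ repartitionsOf D ⊔ principalRepartitions K F := by
    rw [sup_eq_top_of_degree_gt hD]; trivial
  obtain ⟨β, hβ, γ, hγ, hsum⟩ := Submodule.mem_sup.mp hmem
  obtain ⟨f, hf⟩ := mem_principalRepartitions_iff.mp hγ
  rw [mem_repartitionsOf_iff] at hβ
  have hval : ∀ v, (β : Place K F → F) v = α₀ v - f := by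
    intro v
    have h1 := congrArg (fun x : ↥(repartitions K F) => (x : Place K F → F) v) hsum
    simp only [coe_add_apply] at h1
    have h2 : (γ : Place K F → F) v = f := by rw [hf]
    rw [h2] at h1
    have h3 : (α : Place K F → F) v = α₀ v := rfl
    rw [h3] at h1
    rw [← h1]; ring
  refine ⟨f, fun v hv => ?_, fun v hv => ?_⟩
  · have h := hβ v
    rw [hval v] at h
    have hα : α₀ v = φ v := if_pos hv
    rw [hα] at h
    rcases h with h | h
    · left
      rw [← neg_sub, h, neg_zero]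
    · right
      rw [← neg_sub, ord_neg]
      exact h
  · have h := hβ v
    rw [hval v] at h
    have hα : α₀ v = 0 := if_neg hv
    rw [hα, zero_sub] at h
    rcases h with h | h
    · left
      exact neg_eq_zero.mp h
    · right
      rwa [ord_neg] at h

/-- **Interpolation of jets in `L(B)`**.  Let `D` be a divisor with `D ≥ 0` on the finite set `S`
and `D = 0` off `S`, and assume `deg (B - D) > 2g - 2`.  For arbitrary targets `φ v ∈ F`
(`v ∈ S`) with `ord_v (φ v) ≥ -B(v)` there is `f ∈ L(B)` with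
`ord_v (f - φ v) ≥ D(v) - B(v)` for all `v ∈ S`. -/
theorem exists_mem_L_approx {B D : Divisor K F} (S : Finset (Place K F))
    (hDS : ∀ v ∈ S, 0 ≤ D v) (hD0 : ∀ v ∉ S, D v = 0)
    (hdeg : 2 * (genusFF K F : ℤ) - 2 < Divisor.degree (B - D))
    (φ : Place K F → F) (hφ : ∀ v ∈ S, φ v = 0 ∨ -B v ≤ v.ord (φ v)) :
    ∃ f ∈ riemannRochSpace B, ∀ v ∈ S, f - φ v = 0 ∨ D v - B v ≤ v.ord (f - φ v) := by
  obtain ⟨f, h1, h2⟩ := exists_approx hdeg S φ
  simp only [Finsupp.coe_sub, Pi.sub_apply, neg_sub] at h1 h2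
  refine ⟨f, ?_, h1⟩
  rw [mem_L_iff]
  intro v
  by_cases hv : v ∈ S
  · -- `f = (f - φ v) + φ v`
    have hdec : f = (f - φ v) + φ v := by ring
    have hD := hDS v hv
    have ha : f - φ v = 0 ∨ -B v ≤ v.ord (f - φ v) := by
      rcases h1 v hv with h | h
      · exact Or.inl h
      · right; omega
    have := ord_add_of_le v ha (hφ v hv)
    rwa [← hdec] at this
  · have := h2 v hv
    rw [hD0 v hv] at this
    rcases this with h | h
    · exact Or.inl h
    · right; omega

end Fermat.Agent.Lib.RR.H439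

end
end
-- ===== PACK-END Lib/RR/H439/StrongApprox.lean

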