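import Mathlib
import Fermat.Agent.Pack.S3234.G4E4L1
import Fermat.Agent.Pack.S3234.G4E2L0
import Fermat.Agent.Pack.S3234.G0E8L1
import Fermat.Agent.Pack.S3234.G4E1L2
import Fermat.Agent.Pack.S3234.G4E0L3
import Fermat.Agent.Pack.S3234.G4E1L1
import Fermat.Agent.Pack.S3234.G4E4L2
import Fermat.Agent.Pack.S3234.G0E7L2
import Fermat.Agent.Pack.S3234.G4E3L1
import Fermat.Agent.Pack.S3234.G4E2L2
import Fermat.Agent.Pack.S3234.G0E7L1
import Fermat.Agent.Pack.S3234.G0E7L0
import Fermat.Agent.Pack.S3234.G4E4L3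
import Fermat.Agent.Pack.S3234.G0E1L0
import Fermat.Agent.Pack.S3234.G4E1L0
import Fermat.Agent.Pack.S3234.G4E2L3
import Fermat.Agent.Pack.S3234.G0E8L2
import Fermat.Agent.Pack.S3234.G0E2L0
import Fermat.Agent.Pack.S3234.G0E7L3
import Fermat.Agent.Pack.S3234.G0E6L0
import Fermat.Agent.Pack.S3234.G0E3L3
import Fermat.Agent.Pack.S3234.G4E3L3

-- ===== PACK-BEGIN S37/Core/RimGlue.lean
section







/-!
# S37 row-lead (helper37): `node_rim` from ONE concrete reduction datum      (BOARD v3)

The abstract reduction theorem is complete on `main`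
(`Red.H940.main_of_fibreSum` + `Red.H160.fibreSumStatement` + `Red.H399.normRed`):
a reduction datum `G : Red.Datum A π F Fk` with good charts has a place map `r` with (i), (ii).

This file is the last formal step: for a datum on `(F_M, F_{M,k})` which is *linked* to the
`q`-expansion integrality of the Prelude (`Red.H759.Link`, helper759), the abstract (i), (ii) are the Prelude's
`IsPlaceReductionModL`, and with PGI (`H98.gen`, on main) we get

  `node_rim_of_datum : G.Good → Red.H759.Link G → ReductionInputsModL A M`.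

So `node_rim` of the S37 board == existence of `G` with `G.Good` and `H759.Link G`
(= `Red.ModDatum` without its two Galois fields, which are no longer needed).
The coordinate `G.x` is arbitrary (`j`, `t₂`, `t₃`, …).
-/

set_option autoImplicit false
set_option synthInstance.maxHeartbeats 400000

noncomputable section

namespace Fermat.Agent.S37.Core

open ModularCurve AlgebraicCurve HahnSeries IsLocalRing Fermat.Agent.S37.Red

/-- **RED-E1**: the abstract (i), (ii) of a linked datum are the Prelude's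
`IsPlaceReductionModL`. -/
theorem isPlaceReductionModL_of_isRed {M : ℕ} {A : ValuationSubring (AlgebraicClosure ℚ)}
    (G : Datum A (residue A) (modularFunctionFieldBar M)
      (modularFunctionFieldFullC (ResidueField A) M))
    (hlink : H759.Link G)
    (r : Place (AlgebraicClosure ℚ) (modularFunctionFieldBar M) →
      Place (ResidueField A) (modularFunctionFieldFullC (ResidueField A) M))
    (hr : IsRed G r) : IsPlaceReductionModL A M r := by
  refine ⟨hr.1, ?_⟩
  intro y hy hyk hne D hD Q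
  obtain ⟨h, hρ⟩ := hlink y hy hyk hne
  have hne' : G.ρ ⟨⟨coeffMap A.subtype y, hy⟩, h⟩ ≠ 0 := by
    rw [hρ]
    intro h0
    exact hne (congrArg Subtype.val h0)
  have := hr.2 ⟨coeffMap A.subtype y, hy⟩ h hne' D hD Q
  rw [this, hρ]

/-- **`node_rim` from a linked datum with good charts.** -/
theorem node_rim_of_datum (M : ℕ) [NeZero M] (ℓ : ℕ) (hℓ : ℓ.Prime) (hℓM : ¬ ℓ ∣ M)
    (A : ValuationSubring (AlgebraicClosure ℚ)) (hA : A.LiesOverPrime ℓ)
    (G : Datum A (residue A) (modularFunctionFieldBar M)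
      (modularFunctionFieldFullC (ResidueField A) M))
    (hgood : G.Good) (hlink : H759.Link G) : ReductionInputsModL A M := by
  haveI : IsAlgClosed (ResidueField A) := Fermat.Agent.S18.H9.resAlgClosed _ A
  obtain ⟨r, hr, -⟩ := H940.main_of_fibreSum G hgood (H160.fibreSumStatement G)
  exact ⟨r, isPlaceReductionModL_of_isRed G hlink r hr, H98.gen M ℓ hℓ hℓM A hA⟩

/-- The same with (H4') removed: (H1) + (H3) + link. -/
theorem node_rim_of_datum' (M : ℕ) [NeZero M] (ℓ : ℕ) (hℓ : ℓ.Prime) (hℓM : ¬ ℓ ∣ M)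
    (A : ValuationSubring (AlgebraicClosure ℚ)) (hA : A.LiesOverPrime ℓ)
    (G : Datum A (residue A) (modularFunctionFieldBar M)
      (modularFunctionFieldFullC (ResidueField A) M))
    (finite : FiniteDimensional (IntermediateField.adjoin (AlgebraicClosure ℚ) {G.x})
      (modularFunctionFieldBar M))
    (finite_k : FiniteDimensional (IntermediateField.adjoin (ResidueField A) {G.xk})
      (modularFunctionFieldFullC (ResidueField A) M))
    (sep_k : Algebra.IsSeparable (IntermediateField.adjoin (ResidueField A) {G.xk})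
      (modularFunctionFieldFullC (ResidueField A) M))
    (finrank_eq : Module.finrank (IntermediateField.adjoin (AlgebraicClosure ℚ) {G.x})
        (modularFunctionFieldBar M) =
      Module.finrank (IntermediateField.adjoin (ResidueField A) {G.xk})
        (modularFunctionFieldFullC (ResidueField A) M))
    (lift_fin : ∀ c ∈ G.chartk G.xk, ∃ b ∈ G.chart G.x, ∃ hb : b ∈ G.O, G.ρ ⟨b, hb⟩ = c)
    (lift_inf : ∀ c ∈ G.chartk G.xk⁻¹, ∃ b ∈ G.chart G.x⁻¹, ∃ hb : b ∈ G.O, G.ρ ⟨b, hb⟩ = c)
    (hlink : H759.Link G) : ReductionInputsModL A M :=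
  node_rim_of_datum M ℓ hℓ hℓM A hA G
    (H217.good_of G finite finite_k sep_k finrank_eq lift_fin lift_inf) hlink

end Fermat.Agent.S37.Core

end
end
-- ===== PACK-END S37/Core/RimGlue.lean

-- ===== PACK-BEGIN A3/H615/GrRed.lean
section






/-!
# Cell A3 / GR-INST, block RED (helper615): the place map of a linked datum with good charts

Input: the output of the S37 node `DatumStatement` (`S37/Core/Board.lean`), i.e. a reduction datum
`G : Red.Datum A (residue A) F_M F_{M,k}` with `G.Good` and `Red.H759.Link G`.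

Output (`exists_red`): a map `r : Place Q̄ F_M → Place k F_{M,k}` with

* `div_red`  : `r_* div f = div (G.ρ f)` for every `f ∈ G.O` with `G.ρ f ≠ 0`
               (= field `div_red` of `A3.H799.GoodRed` for `O := G.O`, `red := G.ρ`);
* `I_place`  : `r (σ • P) = r P` for every `σ ∈ Gal(Q̄/Q)` with `σ a - a ∈ 𝔪_A` for all `a ∈ A`
               (= `S19.IsInertiaAt A σ`; field `I_place` of `GoodRed` for the image of inertia);
* the Prelude's `IsPlaceReductionModL A M r`, and evaluation compatibility `Red.EvalCompat G r`.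

Proof: `Red.H940.main_of_fibreSum` (existence, S37-RED) and helper697's uniqueness by the Riemann
bound (`H697.placeReduction_equivariant`), which needs only that `r` is not constant; this follows
from `r_* div x = div x̄` and the transcendence of `x̄`.
-/

set_option autoImplicit false
set_option synthInstance.maxHeartbeats 400000

noncomputable section

namespace Fermat.Agent.A3.H615

open ModularCurve AlgebraicCurve HahnSeries IsLocalRing Fermat.Agent.S37.Red
open Fermat.Agent.Lib.RR

namespace GrRed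

/-- `Q̄` -/
abbrev Qb : Type := AlgebraicClosure ℚ

variable {M : ℕ} {A : ValuationSubring _root_.Fermat.Agent.A3.H615.GrRed.Qb}

/-- principal divisors have degree zero -/
theorem degree_eq_zero_of_mem_principal {K F : Type*} [Field K] [Field F] [Algebra K F]
    [HasPrincipalDivisors K F] {D : Divisor K F}
    (hD : D ∈ Divisor.principal (K := K) (F := F)) : Divisor.degree D = 0 := by
  obtain ⟨f, hf, hDf⟩ := hD
  obtain ⟨D', hD', hdeg⟩ := HasPrincipalDivisors.exists_divisor (K := K) f hf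
  have : D = D' := Finsupp.ext fun v => by rw [hDf v, hD' v]
  rw [this, hdeg]

/-- A map on places with `r_* div f = div (ρ f)` is not constant: the divisor of the coordinate
has nonzero reduction. -/
theorem exists_mapDomain_ne_zero [NeZero M] {ℓ : ℕ} (hℓ : ℓ.Prime) (hℓM : ¬ ℓ ∣ M)
    (hA : A.LiesOverPrime ℓ)
    (G : Datum A (residue A) (modularFunctionFieldBar M)
      (modularFunctionFieldFullC (ResidueField A) M))
    (r : Place _root_.Fermat.Agent.A3.H615.GrRed.Qb (modularFunctionFieldBar M) →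
      Place (ResidueField A) (modularFunctionFieldFullC (ResidueField A) M))
    (hr : IsRed G r) :
    ∃ D ∈ Divisor.principal (K := _root_.Fermat.Agent.A3.H615.GrRed.Qb) (F := modularFunctionFieldBar M),
      Finsupp.mapDomain r D ≠ 0 := by
  have hff : FF1 (ResidueField A) (modularFunctionFieldFullC (ResidueField A) M) :=
    Fermat.Agent.S18.H383.ff1_residue M ℓ hℓ hℓM A hA
  have hpd : HasPrincipalDivisors _root_.Fermat.Agent.A3.H615.GrRed.Qb (modularFunctionFieldBar M) :=
    Fermat.Agent.Lib.RR.H864.hasPrincipalDivisors_modularFunctionFieldBar M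
  have hxk : G.ρ ⟨G.x, G.x_mem⟩ ≠ 0 := fun h0 =>
    G.xk_transc (by rw [h0]; exact isAlgebraic_zero)
  have hx0 : G.x ≠ 0 := by
    rintro h0
    apply hxk
    have : (⟨G.x, G.x_mem⟩ : G.O) = 0 := Subtype.ext h0
    rw [this, map_zero]
  obtain ⟨D, hD, -⟩ := HasPrincipalDivisors.exists_divisor (K := _root_.Fermat.Agent.A3.H615.GrRed.Qb) G.x hx0
  refine ⟨D, ⟨G.x, hx0, hD⟩, fun h0 => ?_⟩
  -- then `x̄` has no zeros and no poles, hence is a constant
  have hord : ∀ Q : Place (ResidueField A) (modularFunctionFieldFullC (ResidueField A) M),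
      Q.ord (G.ρ ⟨G.x, G.x_mem⟩) = 0 := by
    intro Q
    rw [← hr.2 G.x G.x_mem hxk D hD Q, h0, Finsupp.zero_apply]
  have hmem : G.ρ ⟨G.x, G.x_mem⟩ ∈
      riemannRochSpace (0 : Divisor (ResidueField A)
        (modularFunctionFieldFullC (ResidueField A) M)) := by
    rw [mem_L_iff]
    intro v
    right
    rw [hord v]
    simp
  rw [L_zero] at hmem
  obtain ⟨c, hc⟩ := hmem
  apply G.xk_transc
  rw [← hc]
  exact isAlgebraic_algebraMap c

/-- **Inertia acts trivially on the special fibre, pointwise**: for a place reduction map `r`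
which is not constant, and `σ` acting trivially on the residue field of `A`. -/
theorem inertia_place [NeZero M] {ℓ : ℕ} (hℓ : ℓ.Prime) (hℓM : ¬ ℓ ∣ M)
    (hA : A.LiesOverPrime ℓ)
    {r : Place _root_.Fermat.Agent.A3.H615.GrRed.Qb (modularFunctionFieldBar M) →
      Place (ResidueField A) (modularFunctionFieldFullC (ResidueField A) M)}
    (hr : IsPlaceReductionModL A M r)
    (hnc : ∃ D ∈ Divisor.principal (K := _root_.Fermat.Agent.A3.H615.GrRed.Qb) (F := modularFunctionFieldBar M),
      Finsupp.mapDomain r D ≠ 0)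
    (σ : _root_.Fermat.Agent.A3.H615.GrRed.Qb ≃ₐ[ℚ] _root_.Fermat.Agent.A3.H615.GrRed.Qb) (hσ : ∀ a : _root_.Fermat.Agent.A3.H615.GrRed.Qb, a ∈ A → σ a - a ∈ A.nonunits)
    (P : Place _root_.Fermat.Agent.A3.H615.GrRed.Qb (modularFunctionFieldBar M)) :
    r (arithmeticGalois (modularFunctionFieldFull M) σ • P) = r P := by
  have hpd : HasPrincipalDivisors _root_.Fermat.Agent.A3.H615.GrRed.Qb (modularFunctionFieldBar M) :=
    Fermat.Agent.Lib.RR.H864.hasPrincipalDivisors_modularFunctionFieldBar M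
  have hσA : ∀ a ∈ A, σ a ∈ A := fun a ha => by
    have h1 := add_mem (A.nonunits_subset (hσ a ha)) ha
    rwa [sub_add_cancel] at h1
  have hφ : ∀ a : A, residue A ⟨σ a, hσA a a.2⟩ = (RingEquiv.refl (ResidueField A)) (residue A a) := by
    intro a
    rw [RingEquiv.refl_apply, ← sub_eq_zero, ← map_sub, residue_eq_zero_iff]
    exact ValuationSubring.coe_mem_nonunits_iff.mp (hσ a a.2)
  have h := Fermat.Agent.S37.H697.placeReduction_equivariant (N := M) (A := A) hr
    (Fermat.Agent.S37.H98.gen M ℓ hℓ hℓM A hA)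
    (fun P => Fermat.Agent.Lib.FF398.deg_eq_one_FF M P)
    (fun D hD => degree_eq_zero_of_mem_principal hD)
    (Fermat.Agent.S37.H98.riemannBound_modularFunctionFieldBar M)
    hnc σ hσA (RingEquiv.refl (ResidueField A)) hφ P
  rw [h, Fermat.Agent.S37.H697.coeffSL_refl, one_smul]

/-- **GR-INST, block RED.**  The place map of a linked reduction datum with good charts:
conservation (`div_red`), triviality of inertia (`I_place`), the Prelude's
`IsPlaceReductionModL`, and evaluation compatibility. -/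
theorem exists_red [NeZero M] {ℓ : ℕ} (hℓ : ℓ.Prime) (hℓM : ¬ ℓ ∣ M)
    (hA : A.LiesOverPrime ℓ)
    (G : Datum A (residue A) (modularFunctionFieldBar M)
      (modularFunctionFieldFullC (ResidueField A) M))
    (hgood : G.Good) (hlink : H759.Link G) :
    ∃ r : Place _root_.Fermat.Agent.A3.H615.GrRed.Qb (modularFunctionFieldBar M) →
        Place (ResidueField A) (modularFunctionFieldFullC (ResidueField A) M),
      (∀ f : G.O, G.ρ f ≠ 0 → ∀ D : Divisor _root_.Fermat.Agent.A3.H615.GrRed.Qb (modularFunctionFieldBar M),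
        (∀ P, D P = P.ord (f : modularFunctionFieldBar M)) →
          ∀ Q, Finsupp.mapDomain r D Q = Q.ord (G.ρ f)) ∧
      (∀ σ : _root_.Fermat.Agent.A3.H615.GrRed.Qb ≃ₐ[ℚ] _root_.Fermat.Agent.A3.H615.GrRed.Qb, (∀ a : _root_.Fermat.Agent.A3.H615.GrRed.Qb, a ∈ A → σ a - a ∈ A.nonunits) →
        ∀ P, r (arithmeticGalois (modularFunctionFieldFull M) σ • P) = r P) ∧
      IsPlaceReductionModL A M r ∧ EvalCompat G r := by
  have : IsAlgClosed (ResidueField A) := Fermat.Agent.S18.H9.resAlgClosed _ A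
  obtain ⟨r, hr, hec⟩ := H940.main_of_fibreSum G hgood (H160.fibreSumStatement G)
  have hmod : IsPlaceReductionModL A M r :=
    Fermat.Agent.S37.Core.isPlaceReductionModL_of_isRed G hlink r hr
  refine ⟨r, fun f hf D hD Q => hr.2 (f : modularFunctionFieldBar M) f.2 hf D hD Q,
    fun σ hσ P => inertia_place hℓ hℓM hA hmod
      (exists_mapDomain_ne_zero hℓ hℓM hA G r hr) σ hσ P, hmod, hec⟩

end GrRed

end Fermat.Agent.A3.H615

end
end
-- ===== PACK-END A3/H615/GrRed.lean

-- ===== PACK-BEGIN A3/H739/GrAsm.lean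
section










/-!
# A3 / GR (helper739): assembly of the `GoodRed` instance for `X₀(N)`

Target: `Fermat.Agent.S19.H979.GrStatement` (frozen by helper979).

For a valuation ring `V ⊆ Q̄` above `ℓ ∤ N` we take

* `O   := S37.Red.modO hVG`  (fractions of integral `q`-series, helper40/helper940),
* `red := S37.Red.modρ hVG`  (coefficientwise reduction of fractions),
* `I   := inertiaImage N V`  (image under `arithmeticGalois` of `{σ | IsInertiaAt V σ}`),
* `hVG` from `S37.H568.valueGroupHyp_modular` and `S18.H516.coreData_residue`.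

PROVED HERE (no holes): `res_*`, `algebraMap_mem`, `red_algebraMap`, `red_surjective`, `gauss`,
`ff1`, `ff1k`, `I_base`, `I_red`, `I_lift_const`, `I_fixed_place`, and the passage of `div_red`
from integral series (Prelude `IsPlaceReductionModL`) to all of `O`.

OPEN LEAVES (exact Props below):
* `RedLeaf N V`    : a place map `r` with the Prelude's `IsPlaceReductionModL V N r`, commuting
                     with inertia;
* `GenusLeaf N V`  : `genusFF` of the generic and the special fibre agree;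
* `OrthLeaf N V hVG` : the field `orthonormal` for `(modO, modρ, inertiaImage)`.

`grStatement_of_leaves` : the three leaves (for ONE `V` above each `ℓ`)  ⟹  `GrStatement`.
-/

set_option autoImplicit false
set_option synthInstance.maxHeartbeats 400000

noncomputable section

namespace Fermat.Agent.A3.H739

open AlgebraicCurve ModularCurve HahnSeries IsLocalRing
open Fermat.Agent.S19 (GalQ IsInertiaAt GoodLevel)
open Fermat.Agent.S37.Red (Qb FN kA FNk ModVG modO modρ modFrac)

/-! ## The inertia group -/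

section Inertia

variable (V : ValuationSubring _root_.Fermat.Agent.S37.Red.Qb)

theorem zero_mem_nonunits_gr : (0 : _root_.Fermat.Agent.S37.Red.Qb) ∈ V.nonunits := by
  rw [ValuationSubring.mem_nonunits_iff, map_zero]
  exact zero_lt_one

theorem nonunits_le_gr {a : _root_.Fermat.Agent.S37.Red.Qb} (ha : a ∈ V.nonunits) : a ∈ V := by
  rw [ValuationSubring.mem_nonunits_iff] at ha
  exact (V.valuation_le_one_iff a).mp ha.le

theorem add_mem_nonunits_gr {a b : _root_.Fermat.Agent.S37.Red.Qb} (ha : a ∈ V.nonunits) (hb : b ∈ V.nonunits) :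
    a + b ∈ V.nonunits := by
  rw [ValuationSubring.mem_nonunits_iff] at ha hb ⊢
  exact lt_of_le_of_lt (V.valuation.map_add a b) (max_lt ha hb)

theorem neg_mem_nonunits_gr {a : _root_.Fermat.Agent.S37.Red.Qb} (ha : a ∈ V.nonunits) : -a ∈ V.nonunits := by
  rw [ValuationSubring.mem_nonunits_iff] at ha ⊢
  rwa [Valuation.map_neg]

variable {V}

theorem inertia_map_mem {σ : GalQ} (hσ : IsInertiaAt V σ) {a : _root_.Fermat.Agent.S37.Red.Qb} (ha : a ∈ V) :
    σ a ∈ V := by
  have h := V.add_mem _ _ (nonunits_le_gr V (hσ a ha)) ha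
  simpa using h

theorem inertia_map_mem_nonunits {σ : GalQ} (hσ : IsInertiaAt V σ) {a : _root_.Fermat.Agent.S37.Red.Qb}
    (ha : a ∈ V.nonunits) : σ a ∈ V.nonunits := by
  have h := add_mem_nonunits_gr V (hσ a (nonunits_le_gr V ha)) ha
  simpa using h

theorem inertia_symm_mem {σ : GalQ} (hσ : IsInertiaAt V σ) {a : _root_.Fermat.Agent.S37.Red.Qb} (ha : a ∈ V) :
    σ.symm a ∈ V := by
  by_contra hb
  have hb' : (σ.symm a)⁻¹ ∈ V.nonunits := by
    rw [ValuationSubring.mem_nonunits_iff]
    have h1 : ¬ V.valuation (σ.symm a) ≤ 1 := fun h => hb ((V.valuation_le_one_iff _).mp h)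
    have h2 : 1 < V.valuation (σ.symm a) := not_le.mp h1
    rw [map_inv₀]
    exact inv_lt_one_of_one_lt₀ h2
  have h3 := inertia_map_mem_nonunits hσ hb'
  rw [map_inv₀, AlgEquiv.apply_symm_apply] at h3
  rw [ValuationSubring.mem_nonunits_iff, map_inv₀] at h3
  have h4 : V.valuation a ≤ 1 := (V.valuation_le_one_iff a).mpr ha
  have ha0 : V.valuation a ≠ 0 := by
    intro h0
    rw [h0, inv_zero] at h3
    have hz : a = 0 := (V.valuation.zero_iff).mp h0
    apply hb
    rw [hz, map_zero]
    exact V.zero_mem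
  have h5 : 1 ≤ (V.valuation a)⁻¹ := (one_le_inv₀ (zero_lt_iff.mpr ha0)).mpr h4
  exact absurd h3 (not_lt.mpr h5)

variable (V)

/-- the inertia group of `V` in `Gal(Q̄/Q)`, in the form used by `S19.IsInertiaAt` -/
def inertiaGroup : Subgroup GalQ where
  carrier := {σ | IsInertiaAt V σ}
  one_mem' := fun a _ => by
    show (1 : GalQ) a - a ∈ V.nonunits
    rw [AlgEquiv.one_apply, sub_self]
    exact zero_mem_nonunits_gr V
  mul_mem' := fun {σ τ} hσ hτ a ha => by
    show (σ * τ) a - a ∈ V.nonunits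
    have h1 : σ (τ a - a) ∈ V.nonunits := inertia_map_mem_nonunits hσ (hτ a ha)
    have h2 := add_mem_nonunits_gr V h1 (hσ a ha)
    rw [map_sub] at h2
    have e : σ (τ a) - σ a + (σ a - a) = (σ * τ) a - a := by
      rw [AlgEquiv.mul_apply]; ring
    rwa [e] at h2
  inv_mem' := fun {σ} hσ a ha => by
    show σ⁻¹ a - a ∈ V.nonunits
    have hb : σ.symm a ∈ V := inertia_symm_mem hσ ha
    have h1 := neg_mem_nonunits_gr V (hσ (σ.symm a) hb)
    rw [AlgEquiv.apply_symm_apply, neg_sub] at h1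
    exact h1

theorem mem_inertiaGroup {σ : GalQ} : σ ∈ inertiaGroup V ↔ IsInertiaAt V σ := Iff.rfl

/-- the image of the inertia group in the semilinear automorphisms of `Q̄(X₀(N))` -/
def inertiaImage (N : ℕ) : Subgroup (SemilinearAut _root_.Fermat.Agent.S37.Red.Qb (FN N)) :=
  (inertiaGroup V).map (arithmeticGalois (modularFunctionFieldFull N))

theorem mem_inertiaImage {N : ℕ} {g : SemilinearAut _root_.Fermat.Agent.S37.Red.Qb (FN N)} :
    g ∈ inertiaImage V N ↔
      ∃ σ : GalQ, IsInertiaAt V σ ∧ arithmeticGalois (modularFunctionFieldFull N) σ = g :=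
  Subgroup.mem_map

theorem arithmeticGalois_mem_inertiaImage (N : ℕ) {σ : GalQ} (hσ : IsInertiaAt V σ) :
    arithmeticGalois (modularFunctionFieldFull N) σ ∈ inertiaImage V N :=
  Subgroup.mem_map_of_mem _ hσ

end Inertia

/-! ## The datum `(modO, modρ)` -/

section Datum

open Fermat.Agent.S37.H940

variable {N : ℕ} {V : ValuationSubring _root_.Fermat.Agent.S37.Red.Qb}

theorem gr_res_eq_zero (a : V) : residue V a = 0 ↔ (a : _root_.Fermat.Agent.S37.Red.Qb) ∈ V.nonunits := by
  rw [residue_eq_zero_iff, ValuationSubring.coe_mem_nonunits_iff]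

theorem inv_mem_nonunits_of_notMem_gr {a : _root_.Fermat.Agent.S37.Red.Qb} (ha : a ∉ V) : a⁻¹ ∈ V.nonunits := by
  rw [ValuationSubring.mem_nonunits_iff, map_inv₀]
  have h1 : ¬ V.valuation a ≤ 1 := fun h => ha ((V.valuation_le_one_iff _).mp h)
  exact inv_lt_one_of_one_lt₀ (not_le.mp h1)

/-- constants of `O` are the constants of `V` -/
theorem gr_algebraMap_mem (hVG : ModVG N V) (a : _root_.Fermat.Agent.S37.Red.Qb) :
    algebraMap _root_.Fermat.Agent.S37.Red.Qb (FN N) a ∈ modO hVG ↔ a ∈ V := by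
  constructor
  · intro h
    by_contra ha
    have hnu : (a⁻¹ : _root_.Fermat.Agent.S37.Red.Qb) ∈ V.nonunits := inv_mem_nonunits_of_notMem_gr ha
    have hinv : a⁻¹ ∈ V := nonunits_le_gr V hnu
    have ha0 : a ≠ 0 := fun h0 => ha (h0 ▸ V.zero_mem)
    let u : modO hVG := ⟨algebraMap _root_.Fermat.Agent.S37.Red.Qb (FN N) a, h⟩
    let w : modO hVG := ⟨algebraMap _root_.Fermat.Agent.S37.Red.Qb (FN N) a⁻¹, (modFrac N V).ctx.A_mem ⟨a⁻¹, hinv⟩⟩
    have huw : u * w = 1 := by
      apply Subtype.ext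
      show algebraMap _root_.Fermat.Agent.S37.Red.Qb (FN N) a * algebraMap _root_.Fermat.Agent.S37.Red.Qb (FN N) a⁻¹ = 1
      rw [← map_mul, mul_inv_cancel₀ ha0, map_one]
    have hw : modρ hVG w = 0 := by
      have h1 : modρ hVG w = algebraMap (kA V) (FNk V N) (residue V ⟨a⁻¹, hinv⟩) :=
        (modFrac N V).ctx.ρ_A ⟨a⁻¹, hinv⟩
      rw [h1, (gr_res_eq_zero ⟨a⁻¹, hinv⟩).mpr hnu, map_zero]
    have h2 := congrArg (modρ hVG) huw
    rw [map_mul, hw, mul_zero, map_one] at h2
    exact zero_ne_one h2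
  · intro ha
    exact (modFrac N V).ctx.A_mem ⟨a, ha⟩

theorem gr_red_algebraMap (hVG : ModVG N V) (a : V)
    (h : algebraMap _root_.Fermat.Agent.S37.Red.Qb (FN N) (a : _root_.Fermat.Agent.S37.Red.Qb) ∈ modO hVG) :
    modρ hVG ⟨algebraMap _root_.Fermat.Agent.S37.Red.Qb (FN N) (a : _root_.Fermat.Agent.S37.Red.Qb), h⟩ = algebraMap (kA V) (FNk V N) (residue V a) :=
  (modFrac N V).ctx.ρ_A a

/-- Gauss: every nonzero function is a constant times a function of norm one -/
theorem gr_gauss (hVG : ModVG N V) (f : FN N) (hf : f ≠ 0) :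
    ∃ a : _root_.Fermat.Agent.S37.Red.Qb, a ≠ 0 ∧ ∃ h : algebraMap _root_.Fermat.Agent.S37.Red.Qb (FN N) a * f ∈ modO hVG,
      modρ hVG ⟨algebraMap _root_.Fermat.Agent.S37.Red.Qb (FN N) a * f, h⟩ ≠ 0 := by
  obtain ⟨c, hc, y₁, y₂, h₁, h₂, hfy⟩ := hVG f hf
  let z₁ : (modFrac N V).O := y₁
  let z₂ : (modFrac N V).O := y₂
  have hz₁ : (modFrac N V).ρ₀ z₁ ≠ 0 := h₁
  have hz₂ : (modFrac N V).ρ₀ z₂ ≠ 0 := h₂
  have hfrac : (algebraMap _root_.Fermat.Agent.S37.Red.Qb (FN N) c⁻¹ * f) * (z₂ : FN N) = (z₁ : FN N) := by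
    have hfy' : f * (z₂ : FN N) = algebraMap _root_.Fermat.Agent.S37.Red.Qb (FN N) c * (z₁ : FN N) := hfy
    rw [mul_assoc, hfy', ← mul_assoc, ← map_mul, inv_mul_cancel₀ hc, map_one, one_mul]
  have hmem : algebraMap _root_.Fermat.Agent.S37.Red.Qb (FN N) c⁻¹ * f ∈ modO hVG := ⟨z₁, z₂, hz₂, hfrac⟩
  refine ⟨c⁻¹, inv_ne_zero hc, hmem, ?_⟩
  have h3 : modρ hVG ⟨algebraMap _root_.Fermat.Agent.S37.Red.Qb (FN N) c⁻¹ * f, hmem⟩ =
      (modFrac N V).ρ₀ z₁ / (modFrac N V).ρ₀ z₂ :=
    (modFrac N V).ρ_apply ⟨algebraMap _root_.Fermat.Agent.S37.Red.Qb (FN N) c⁻¹ * f, hmem⟩ hz₂ hfrac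
  rw [h3]
  exact div_ne_zero hz₁ hz₂

end Datum

/-! ## Inertia acts trivially on reductions -/

section InertiaRed

open Fermat.Agent.S37.H940

variable {N : ℕ} {V : ValuationSubring _root_.Fermat.Agent.S37.Red.Qb}

/-- the restriction of an inertia element to `V` -/
def resV {σ : GalQ} (hσ : IsInertiaAt V σ) : V →+* V :=
  ((σ : _root_.Fermat.Agent.S37.Red.Qb →+* _root_.Fermat.Agent.S37.Red.Qb).comp V.subtype).codRestrict V fun a => inertia_map_mem hσ a.2

theorem subtype_comp_resV {σ : GalQ} (hσ : IsInertiaAt V σ) :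
    V.subtype.comp (resV hσ) = (σ : _root_.Fermat.Agent.S37.Red.Qb →+* _root_.Fermat.Agent.S37.Red.Qb).comp V.subtype :=
  RingHom.ext fun _ => rfl

theorem residue_comp_resV {σ : GalQ} (hσ : IsInertiaAt V σ) :
    (residue V).comp (resV hσ) = residue V := by
  refine RingHom.ext fun a => ?_
  show residue V (resV hσ a) = residue V a
  rw [← sub_eq_zero, ← map_sub, gr_res_eq_zero]
  exact hσ (a : _root_.Fermat.Agent.S37.Red.Qb) a.2

/-- an inertia element maps integral series to integral series with the same reduction -/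
theorem smul_intQ {σ : GalQ} (hσ : IsInertiaAt V σ) (y : (modFrac N V).O) :
    ∃ h : arithmeticGalois (modularFunctionFieldFull N) σ • (y : FN N) ∈ (modFrac N V).O,
      (modFrac N V).ρ₀ ⟨arithmeticGalois (modularFunctionFieldFull N) σ • (y : FN N), h⟩ =
        (modFrac N V).ρ₀ y := by
  obtain ⟨s, hs, hsk⟩ := (y.2 : IsIntQ V (residue V) (modularFunctionFieldBar N)
    (modularFunctionFieldFullC (kA V) N) (y : FN N))
  have h1 : coeffMap V.subtype (coeffMap (resV hσ) s) =
      ((arithmeticGalois (modularFunctionFieldFull N) σ • (y : FN N) : FN N) :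
        LaurentSeries _root_.Fermat.Agent.S37.Red.Qb) := by
    rw [coe_arithmeticGalois_smul, coeffMap_coeffMap, subtype_comp_resV, ← coeffMap_coeffMap, hs]
  have h2 : coeffMap (residue V) (coeffMap (resV hσ) s) = coeffMap (residue V) s := by
    rw [coeffMap_coeffMap, residue_comp_resV]
  have hmem : IsIntQ V (residue V) (modularFunctionFieldBar N)
      (modularFunctionFieldFullC (kA V) N)
      (arithmeticGalois (modularFunctionFieldFull N) σ • (y : FN N)) :=
    ⟨coeffMap (resV hσ) s, h1, by rw [h2]; exact hsk⟩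
  refine ⟨hmem, ?_⟩
  apply Subtype.ext
  have e1 := coe_redQ V (residue V) (modularFunctionFieldBar N)
    (modularFunctionFieldFullC (kA V) N)
    ⟨arithmeticGalois (modularFunctionFieldFull N) σ • (y : FN N), hmem⟩ h1
  have e2 := coe_redQ V (residue V) (modularFunctionFieldBar N)
    (modularFunctionFieldFullC (kA V) N) y hs
  exact e1.trans (h2.trans e2.symm)

/-- **`I_red`**: inertia preserves `O` and acts trivially on reductions -/
theorem gr_I_red (hVG : ModVG N V) (g : SemilinearAut _root_.Fermat.Agent.S37.Red.Qb (FN N)) (hg : g ∈ inertiaImage V N)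
    (f : modO hVG) :
    ∃ h : g • (f : FN N) ∈ modO hVG, modρ hVG ⟨g • (f : FN N), h⟩ = modρ hVG f := by
  obtain ⟨σ, hσ, rfl⟩ := (mem_inertiaImage V).mp hg
  obtain ⟨a, b, hb, hab⟩ := (f.2 : (modFrac N V).IsFrac (f : FN N))
  obtain ⟨ha', hρa⟩ := smul_intQ hσ a
  obtain ⟨hb', hρb⟩ := smul_intQ hσ b
  set γ : SemilinearAut _root_.Fermat.Agent.S37.Red.Qb (FN N) := arithmeticGalois (modularFunctionFieldFull N) σ with hγ
  let a' : (modFrac N V).O := ⟨γ • (a : FN N), ha'⟩
  let b' : (modFrac N V).O := ⟨γ • (b : FN N), hb'⟩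
  have hb'' : (modFrac N V).ρ₀ b' ≠ 0 := by
    show (modFrac N V).ρ₀ ⟨γ • (b : FN N), hb'⟩ ≠ 0
    rw [hρb]; exact hb
  have hfrac : (γ • (f : FN N)) * (b' : FN N) = (a' : FN N) := by
    show γ • (f : FN N) * γ • (b : FN N) = γ • (a : FN N)
    rw [← smul_mul', hab]
  have hmem : (modFrac N V).IsFrac (γ • (f : FN N)) := ⟨a', b', hb'', hfrac⟩
  refine ⟨hmem, ?_⟩
  have e1 : (modFrac N V).ρ ⟨γ • (f : FN N), hmem⟩ =
      (modFrac N V).ρ₀ a' / (modFrac N V).ρ₀ b' :=
    (modFrac N V).ρ_apply ⟨γ • (f : FN N), hmem⟩ hb'' hfrac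
  have e2 : (modFrac N V).ρ f = (modFrac N V).ρ₀ a / (modFrac N V).ρ₀ b :=
    (modFrac N V).ρ_apply f hb hab
  have e3 : (modFrac N V).ρ₀ a' = (modFrac N V).ρ₀ a := hρa
  have e4 : (modFrac N V).ρ₀ b' = (modFrac N V).ρ₀ b := hρb
  show (modFrac N V).ρ ⟨γ • (f : FN N), hmem⟩ = (modFrac N V).ρ f
  rw [e1, e2, e3, e4]

/-- **`I_base`** -/
theorem gr_I_base (g : SemilinearAut _root_.Fermat.Agent.S37.Red.Qb (FN N)) (hg : g ∈ inertiaImage V N) (a : V) :
    ∃ h : SemilinearAut.baseAut g (a : _root_.Fermat.Agent.S37.Red.Qb) ∈ V,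
      residue V ⟨SemilinearAut.baseAut g (a : _root_.Fermat.Agent.S37.Red.Qb), h⟩ = residue V a := by
  obtain ⟨σ, hσ, rfl⟩ := (mem_inertiaImage V).mp hg
  have h : σ (a : _root_.Fermat.Agent.S37.Red.Qb) ∈ V := inertia_map_mem hσ a.2
  refine ⟨h, ?_⟩
  show residue V ⟨σ (a : _root_.Fermat.Agent.S37.Red.Qb), h⟩ = residue V a
  rw [← sub_eq_zero, ← map_sub, gr_res_eq_zero]
  exact hσ (a : _root_.Fermat.Agent.S37.Red.Qb) a.2

/-- **`I_lift_const`** (helper439's Teichmüller lifts) -/
theorem gr_I_lift_const (N : ℕ) {ℓ : ℕ} [Fact ℓ.Prime] (hV : V.LiesOverPrime ℓ) (c : kA V) :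
    ∃ a : V, residue V a = c ∧
      ∀ g ∈ inertiaImage V N, SemilinearAut.baseAut g (a : _root_.Fermat.Agent.S37.Red.Qb) = (a : _root_.Fermat.Agent.S37.Red.Qb) := by
  have : Algebra.IsAlgebraic ℚ _root_.Fermat.Agent.S37.Red.Qb := AlgebraicClosure.isAlgebraic ℚ
  obtain ⟨a, ha, hac, hfix⟩ :=
    Fermat.Agent.S19.H439.exists_inertia_fixed_lift (K := _root_.Fermat.Agent.S37.Red.Qb) V (ℓ := ℓ) hV c
  refine ⟨⟨a, ha⟩, hac, ?_⟩
  intro g hg
  obtain ⟨σ, hσ, rfl⟩ := (mem_inertiaImage V).mp hg
  exact hfix (σ : _root_.Fermat.Agent.S37.Red.Qb →+* _root_.Fermat.Agent.S37.Red.Qb) hσ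

/-- **`I_fixed_place`**: the cusp `∞` -/
theorem gr_I_fixed_place (N : ℕ) [NeZero N] (V : ValuationSubring _root_.Fermat.Agent.S37.Red.Qb) :
    ∃ P : Place _root_.Fermat.Agent.S37.Red.Qb (FN N), ∀ g ∈ inertiaImage V N, g • P = P := by
  refine ⟨Fermat.Agent.S17.H680.JZero.cusp N, fun g hg => ?_⟩
  obtain ⟨σ, -, rfl⟩ := (mem_inertiaImage V).mp hg
  exact Fermat.Agent.S17.H680.JZero.galois_smul_cusp N σ

end InertiaRed

/-! ## `div_red` on all of `O` from the Prelude's `IsPlaceReductionModL` -/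

section DivRed

open Fermat.Agent.S37.H940

variable {N : ℕ} [NeZero N] {V : ValuationSubring _root_.Fermat.Agent.S37.Red.Qb}

/-- the reduction of divisors of integral series extends to fractions -/
theorem gr_div_red (hVG : ModVG N V)
    (r : Place _root_.Fermat.Agent.S37.Red.Qb (FN N) → Place (kA V) (FNk V N)) (hr : IsPlaceReductionModL V N r)
    (f : modO hVG) (hf : modρ hVG f ≠ 0) (D : Divisor _root_.Fermat.Agent.S37.Red.Qb (FN N))
    (hD : ∀ P, D P = P.ord (f : FN N)) (Q : Place (kA V) (FNk V N)) :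
    Finsupp.mapDomain r D Q = Q.ord (modρ hVG f) := by
  obtain ⟨a, b, hb, hab⟩ := (f.2 : (modFrac N V).IsFrac (f : FN N))
  have e : modρ hVG f = (modFrac N V).ρ₀ a / (modFrac N V).ρ₀ b :=
    (modFrac N V).ρ_apply f hb hab
  have ha : (modFrac N V).ρ₀ a ≠ 0 := by
    intro h0
    apply hf
    rw [e, h0, zero_div]
  have hb0 : (b : FN N) ≠ 0 := (modFrac N V).coe_ne_zero hb
  have ha0 : (a : FN N) ≠ 0 := (modFrac N V).coe_ne_zero ha
  have hf0 : (f : FN N) ≠ 0 := by
    intro h0
    rw [h0, zero_mul] at hab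
    exact ha0 hab.symm
  -- the series
  obtain ⟨sa, hsa, hsak⟩ := (a.2 : IsIntQ V (residue V) (modularFunctionFieldBar N)
    (modularFunctionFieldFullC (kA V) N) (a : FN N))
  obtain ⟨sb, hsb, hsbk⟩ := (b.2 : IsIntQ V (residue V) (modularFunctionFieldBar N)
    (modularFunctionFieldFullC (kA V) N) (b : FN N))
  have hya : coeffMap V.subtype sa ∈ modularFunctionFieldBar N := by
    rw [hsa]; exact (a : FN N).2
  have hyb : coeffMap V.subtype sb ∈ modularFunctionFieldBar N := by
    rw [hsb]; exact (b : FN N).2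
  have ea : (⟨coeffMap V.subtype sa, hya⟩ : FN N) = (a : FN N) := Subtype.ext hsa
  have eb : (⟨coeffMap V.subtype sb, hyb⟩ : FN N) = (b : FN N) := Subtype.ext hsb
  have eρa : (modFrac N V).ρ₀ a = ⟨coeffMap (residue V) sa, hsak⟩ :=
    Subtype.ext (coe_redQ V (residue V) (modularFunctionFieldBar N)
      (modularFunctionFieldFullC (kA V) N) a hsa)
  have eρb : (modFrac N V).ρ₀ b = ⟨coeffMap (residue V) sb, hsbk⟩ :=
    Subtype.ext (coe_redQ V (residue V) (modularFunctionFieldBar N)
      (modularFunctionFieldFullC (kA V) N) b hsb)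
  have hnea : coeffMap (residue V) sa ≠ 0 := by
    intro h0
    apply ha
    rw [eρa]
    exact Subtype.ext h0
  have hneb : coeffMap (residue V) sb ≠ 0 := by
    intro h0
    apply hb
    rw [eρb]
    exact Subtype.ext h0
  -- the divisors of `a` and `b`
  have hpd : HasPrincipalDivisors _root_.Fermat.Agent.S37.Red.Qb (FN N) :=
    (Fermat.Agent.Lib.RR.H864.ff1_modularFunctionFieldBar N).hpd
  obtain ⟨Da, hDa, -⟩ := hpd.exists_divisor (a : FN N) ha0
  obtain ⟨Db, hDb, -⟩ := hpd.exists_divisor (b : FN N) hb0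
  have hsum : D + Db = Da := by
    ext P
    rw [Finsupp.add_apply, hD, hDa, hDb, ← Place.ord_mul P hf0 hb0, hab]
  have ka := hr.2 sa hya hsak hnea Da (fun P => by rw [hDa, ea]) Q
  have kb := hr.2 sb hyb hsbk hneb Db (fun P => by rw [hDb, eb]) Q
  have hmap : Finsupp.mapDomain r D Q + Finsupp.mapDomain r Db Q = Finsupp.mapDomain r Da Q := by
    rw [← Finsupp.add_apply, ← Finsupp.mapDomain_add, hsum]
  have hmul : modρ hVG f * (modFrac N V).ρ₀ b = (modFrac N V).ρ₀ a := by
    rw [e, div_mul_cancel₀ _ hb]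
  have hord : Q.ord (modρ hVG f) + Q.ord ((modFrac N V).ρ₀ b) = Q.ord ((modFrac N V).ρ₀ a) := by
    rw [← Place.ord_mul Q hf hb, hmul]
  rw [← eρa] at ka
  rw [← eρb] at kb
  rw [ka, kb] at hmap
  linarith

end DivRed

/-! ## The leaves and the assembly -/

section Assembly

/-- the value-group hypothesis, from S28 (core data) and S37/H568 -/
theorem gr_vg (N : ℕ) [NeZero N] {ℓ : ℕ} [Fact ℓ.Prime] (hℓN : ¬ ℓ ∣ N)
    (V : ValuationSubring _root_.Fermat.Agent.S37.Red.Qb) (hV : V.LiesOverPrime ℓ) : ModVG N V :=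
  Fermat.Agent.S37.H568.valueGroupHyp_modular
    (Fermat.Agent.S18.H516.coreData_residue N hℓN V hV)

/-- **Leaf GR-RED**: a place reduction map in the sense of the Prelude, commuting with inertia.
(S37 `node_rim` gives the first half; the second is S37's `PlaceRed.inertia`.) -/
def RedLeaf (N : ℕ) (V : ValuationSubring _root_.Fermat.Agent.S37.Red.Qb) : Prop :=
  ∃ r : Place _root_.Fermat.Agent.S37.Red.Qb (FN N) → Place (kA V) (FNk V N),
    IsPlaceReductionModL V N r ∧
      ∀ σ : GalQ, IsInertiaAt V σ → ∀ P : Place _root_.Fermat.Agent.S37.Red.Qb (FN N),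
        r (arithmeticGalois (modularFunctionFieldFull N) σ • P) = r P

/-- **Leaf GR-GENUS**: the generic and the special fibre have the same genus. -/
def GenusLeaf (N : ℕ) (V : ValuationSubring _root_.Fermat.Agent.S37.Red.Qb) : Prop :=
  genusFF _root_.Fermat.Agent.S37.Red.Qb (FN N) = genusFF (kA V) (FNk V N)

/-- **Leaf GR-ORTH**: the field `orthonormal` of `GoodRed` for `(modO, modρ, inertiaImage)`. -/
def OrthLeaf (N : ℕ) (V : ValuationSubring _root_.Fermat.Agent.S37.Red.Qb) (hVG : ModVG N V) : Prop :=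
  ∀ D : Divisor _root_.Fermat.Agent.S37.Red.Qb (FN N), ∃ (n : ℕ) (b : Fin n → modO hVG),
    LinearIndependent (kA V) (fun i => modρ hVG (b i)) ∧
    (∀ i, ((b i : modO hVG) : FN N) ∈ riemannRochSpace D) ∧
    Submodule.span _root_.Fermat.Agent.S37.Red.Qb (Set.range fun i => ((b i : modO hVG) : FN N)) = riemannRochSpace D ∧
    ((∀ g ∈ inertiaImage V N, g • D = D) →
      ∀ i, ∀ g ∈ inertiaImage V N, g • ((b i : modO hVG) : FN N) = ((b i : modO hVG) : FN N))

/-- **The `GoodRed` datum of `X₀(N)` at `V`**, from the three leaves. -/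
def goodRedOfLeaves (N : ℕ) [NeZero N] {ℓ : ℕ} [Fact ℓ.Prime] (hℓN : ¬ ℓ ∣ N)
    (V : ValuationSubring _root_.Fermat.Agent.S37.Red.Qb) (hV : V.LiesOverPrime ℓ)
    (r : Place _root_.Fermat.Agent.S37.Red.Qb (FN N) → Place (kA V) (FNk V N)) (hr : IsPlaceReductionModL V N r)
    (hrI : ∀ σ : GalQ, IsInertiaAt V σ → ∀ P : Place _root_.Fermat.Agent.S37.Red.Qb (FN N),
        r (arithmeticGalois (modularFunctionFieldFull N) σ • P) = r P)
    (hgen : GenusLeaf N V) (horth : OrthLeaf N V (gr_vg N hℓN V hV)) :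
    Fermat.Agent.A3.H799.GoodRed _root_.Fermat.Agent.S37.Red.Qb (FN N) (kA V) (FNk V N) where
  V := V
  O := modO (gr_vg N hℓN V hV)
  res := residue V
  red := modρ (gr_vg N hℓN V hV)
  r := r
  I := inertiaImage V N
  res_surjective := residue_surjective
  res_eq_zero := gr_res_eq_zero
  algebraMap_mem := gr_algebraMap_mem (gr_vg N hℓN V hV)
  red_algebraMap := gr_red_algebraMap (gr_vg N hℓN V hV)
  red_surjective := Fermat.Agent.S37.Red.modρ_surjective (gr_vg N hℓN V hV)
  gauss := gr_gauss (gr_vg N hℓN V hV)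
  div_red := fun f hf D hD Q => gr_div_red (gr_vg N hℓN V hV) r hr f hf D hD Q
  ff1 := Fermat.Agent.Lib.RR.H864.ff1_modularFunctionFieldBar N
  ff1k := Fermat.Agent.S18.H383.ff1_residue N ℓ Fact.out hℓN V hV
  genus_eq := hgen
  orthonormal := horth
  I_base := gr_I_base
  I_red := gr_I_red (gr_vg N hℓN V hV)
  I_place := fun g hg P => by
    obtain ⟨σ, hσ, rfl⟩ := (mem_inertiaImage V).mp hg
    exact hrI σ hσ P
  I_lift_const := gr_I_lift_const N hV
  I_fixed_place := gr_I_fixed_place N V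

/-- **GR assembly**: `GrStatement` from the three leaves, for ONE valuation ring above each
prime `ℓ ∤ N` at good levels. -/
theorem grStatement_of_leaves
    (h : ∀ (N : ℕ) [NeZero N] (ℓ : ℕ) [Fact ℓ.Prime] (hℓN : ¬ ℓ ∣ N), GoodLevel N ℓ →
      ∃ (V : ValuationSubring _root_.Fermat.Agent.S37.Red.Qb) (hV : V.LiesOverPrime ℓ),
        RedLeaf N V ∧ GenusLeaf N V ∧ OrthLeaf N V (gr_vg N hℓN V hV)) :
    Fermat.Agent.S19.H979.GrStatement := by
  intro N _ ℓ _ hℓN hgood
  obtain ⟨V, hV, ⟨r, hr, hrI⟩, hgen, horth⟩ := h N ℓ hℓN hgood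
  refine ⟨kA V, inferInstance, Fermat.Agent.S18.H9.resAlgClosed _root_.Fermat.Agent.S37.Red.Qb V, FNk V N, inferInstance,
    inferInstance, goodRedOfLeaves N hℓN V hV r hr hrI hgen horth, hV, ?_⟩
  intro σ hσ
  exact arithmeticGalois_mem_inertiaImage V N hσ

/-- the same, with the leaves for EVERY valuation ring above `ℓ` -/
theorem grStatement_of_leaves_forall
    (hred : ∀ (N : ℕ) [NeZero N] (ℓ : ℕ) [Fact ℓ.Prime], ¬ ℓ ∣ N → GoodLevel N ℓ →
      ∀ V : ValuationSubring _root_.Fermat.Agent.S37.Red.Qb, V.LiesOverPrime ℓ → RedLeaf N V)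
    (hgen : ∀ (N : ℕ) [NeZero N] (ℓ : ℕ) [Fact ℓ.Prime], ¬ ℓ ∣ N → GoodLevel N ℓ →
      ∀ V : ValuationSubring _root_.Fermat.Agent.S37.Red.Qb, V.LiesOverPrime ℓ → GenusLeaf N V)
    (horth : ∀ (N : ℕ) [NeZero N] (ℓ : ℕ) [Fact ℓ.Prime] (hℓN : ¬ ℓ ∣ N), GoodLevel N ℓ →
      ∀ (V : ValuationSubring _root_.Fermat.Agent.S37.Red.Qb) (hV : V.LiesOverPrime ℓ), OrthLeaf N V (gr_vg N hℓN V hV)) :
    Fermat.Agent.S19.H979.GrStatement := by
  refine grStatement_of_leaves fun N _ ℓ _ hℓN hgood => ?_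
  obtain ⟨V, hV⟩ := Fermat.Agent.S54.exists_valuationSubring_liesOver ℓ Fact.out
  exact ⟨V, hV, hred N ℓ hℓN hgood V hV, hgen N ℓ hℓN hgood V hV, horth N ℓ hℓN hgood V hV⟩

end Assembly

end Fermat.Agent.A3.H739

end
end
-- ===== PACK-END A3/H739/GrAsm.lean

-- ===== PACK-BEGIN S37/H697/Final.lean
section




/-!
# S37 (helper697): the frozen statement S37 from THREE named inputs (route B)

With `HeckeInputsAlong` (helper398, `Lib/FF398`), the Riemann bound (helper98) and `deg = 1`
on `main`, the bounded-homomorphism route reduces S37 to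

* `hRed : ReductionInputsModL A N`   — existence of a place reduction with conservation
  `r_* div y = div ȳ` (Prelude `IsPlaceReductionAlong`) and `PrincipalGeneratedByIntegral`;
* `hS18 : Core.InjTorsionModL N ℓ A` — the conclusion of the frozen statement S18;
* `hK   : KroneckerNorm A (residue A) N ℓ φ` for the Frobenius `φ` of the residue field —
  the norm of `y(q^ℓ)` along `α` is integral with reduction `(Φ⁻¹ ȳ)^ℓ · Φ ȳ`.

No pointwise statement about the reduction of places (`inertia`, `es` of `Core.PlaceRed`,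
value compatibility, separation) is needed.
-/

set_option autoImplicit false
set_option synthInstance.maxHeartbeats 400000
set_option maxHeartbeats 1600000

noncomputable section

open HahnSeries IntermediateField AlgebraicCurve ModularCurve ValuationSubring

namespace Fermat.Agent.S37.H697

/-- The Riemann bound for `ℚ̄(X₀(N))` (helper98). -/
theorem riemannBound_modular (N : ℕ) [NeZero N] :
    RiemannBound (AlgebraicClosure ℚ) (modularFunctionFieldBar N) :=
  H98.riemannBound_modularFunctionFieldBar N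

/-- **`Core.WeakRedData` from a place reduction, S18 and the Kronecker congruence.** -/
def weakRedData_of_kronecker (N : ℕ) [NeZero N] (A : ValuationSubring (AlgebraicClosure ℚ))
    (ℓ : ℕ) [NeZero ℓ]
    (h : ReductionInputsModL A N)
    (hinj : Core.InjTorsionModL N ℓ A)
    (hK : ∀ φ : IsLocalRing.ResidueField A ≃+* IsLocalRing.ResidueField A, (∀ x, φ x = x ^ ℓ) →
        KroneckerNorm A (IsLocalRing.residue A) N ℓ φ)
    (σ₀ : AlgebraicClosure ℚ ≃ₐ[ℚ] AlgebraicClosure ℚ) (hσ₀ : A.IsFrobeniusAt σ₀ ℓ) :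
    Core.WeakRedData N A ℓ σ₀ :=
  weakRedData_of N A ℓ h hinj (riemannBound_modular N)
    (fun P => Fermat.Agent.Lib.FF398.deg_eq_one_FF N P)
    (Fermat.Agent.Lib.FF398.heckeInputsAlong N ℓ) hK σ₀ hσ₀

/-- **The frozen statement S37 from a place reduction, S18 and the Kronecker congruence.** -/
theorem result_of_kronecker (N p : ℕ) [NeZero N]
    (hRed : ∀ ℓ : ℕ, ℓ.Prime → ¬ ℓ ∣ N →
      ∀ A : ValuationSubring (AlgebraicClosure ℚ), A.LiesOverPrime ℓ → ReductionInputsModL A N)
    (hS18 : ∀ ℓ : ℕ, ℓ.Prime → ¬ ℓ ∣ N →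
      ∀ A : ValuationSubring (AlgebraicClosure ℚ), A.LiesOverPrime ℓ → Core.InjTorsionModL N ℓ A)
    (hK : ∀ (ℓ : ℕ) (hℓ : ℓ.Prime), ¬ ℓ ∣ N →
      ∀ A : ValuationSubring (AlgebraicClosure ℚ), A.LiesOverPrime ℓ →
        haveI : NeZero ℓ := ⟨hℓ.ne_zero⟩
        ∀ φ : IsLocalRing.ResidueField A ≃+* IsLocalRing.ResidueField A, (∀ x, φ x = x ^ ℓ) →
          KroneckerNorm A (IsLocalRing.residue A) N ℓ φ)
    (hcomm : ModularCurve.HeckeOperatorsCommuteBar N) :
    letI := ModularCurve.heckeModuleBar N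
    ∀ (_ : SMulCommClass (AlgebraicClosure ℚ ≃ₐ[ℚ] AlgebraicClosure ℚ) ModularCurve.HeckeAlg
      (ModularCurve.JZero N)),
      ModularCurve.SpecializationExists (K := ℚ) (L := AlgebraicClosure ℚ) N p
        (ModularCurve.JZero N) :=
  H99.result_of_redData N p
    (fun ℓ hℓ hℓN A hA =>
      haveI : NeZero ℓ := ⟨hℓ.ne_zero⟩
      redData_of N A ℓ hℓ (hRed ℓ hℓ hℓN A hA) (hS18 ℓ hℓ hℓN A hA) (riemannBound_modular N)
        (fun P => Fermat.Agent.Lib.FF398.deg_eq_one_FF N P)
        (Fermat.Agent.Lib.FF398.heckeInputsAlong N ℓ) (hK ℓ hℓ hℓN A hA))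
    hcomm

end Fermat.Agent.S37.H697

end
end
-- ===== PACK-END S37/H697/Final.lean

-- ===== PACK-BEGIN S37/H697/Kronecker.lean
section




/-!
# S37 (helper697): the Kronecker congruence for norms, `KroneckerNorm`

Assembly of
* NORM (helper819, `H819.norm_heckeBeta`): `Nm_α (β y)(u^ℓ) = y(u^{ℓ²}) ∏_{b<ℓ} y(ζ^b u)`,
* the formal product formula and Kronecker congruence (helper340, `H340.kron_*`),

into the hypothesis `KroneckerNorm A π N ℓ φ` of `Relation.lean`: for `ℓ` prime, `ℓ ∤ N`, `A` a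
valuation subring of `ℚ̄`, `π : A → k` a homomorphism to a field of characteristic `ℓ` and `φ` an
automorphism of `k` with `φ x = x ^ ℓ`, the norm of `β y` (`y ∈ A((q)) ∩ F̄_N`) is the series
`knorm ℓ y ∈ A((q))`, with reduction `(Φ⁻¹ ȳ) ^ ℓ · Φ ȳ`.
-/

set_option autoImplicit false
set_option linter.style.haveILetI false

noncomputable section

namespace Fermat.Agent.S37.H697

open ModularCurve HahnSeries AlgebraicCurve Fermat.Agent.S24

section TwistCompare

variable {R : Type*} [CommRing R] (ℓ : ℕ) [NeZero ℓ]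

theorem zpw_eq_zpow (u : Rˣ) (hu : (u : R) ^ ℓ = 1) (n : ℤ) :
    H340.zpw ℓ (u : R) n = ((u ^ n : Rˣ) : R) := by
  have hℓ : (ℓ : ℤ) ≠ 0 := by exact_mod_cast NeZero.ne ℓ
  have hu' : u ^ ℓ = 1 := Units.ext (by rw [Units.val_pow_eq_pow_val, hu, Units.val_one])
  have h1 : 0 ≤ n % (ℓ : ℤ) := Int.emod_nonneg n hℓ
  have h2 : n = (ℓ : ℤ) * (n / (ℓ : ℤ)) + ((n % (ℓ : ℤ)).toNat : ℤ) := by
    rw [Int.toNat_of_nonneg h1]
    exact (Int.mul_ediv_add_emod n ℓ).symm
  unfold H340.zpw
  conv_rhs => rw [h2, zpow_add, zpow_mul, zpow_natCast, hu', one_zpow, one_mul, zpow_natCast]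
  rw [Units.val_pow_eq_pow_val]

theorem tw_eq_infTwist (u : Rˣ) (hu : (u : R) ^ ℓ = 1) (f : LaurentSeries R) :
    H340.tw ℓ (u : R) f = infTwist u f := by
  ext n
  rw [H340.tw_coeff, infTwist_coeff, zpw_eq_zpow ℓ u hu, mul_comm]

end TwistCompare

section NormId

variable (N ℓ : ℕ) [NeZero N] [NeZero ℓ]

/-- **NORM-ID**: the `q`-expansion of `Nm_α (β Y)` is the formal Kronecker norm of `Y`. -/
theorem coe_normAlong_heckeBeta (hℓ : ℓ.Prime) (hℓN : ¬ ℓ ∣ N) (Y : FF N) :
    ((normAlong (heckeAlphaBar Kbar N ℓ) (heckeBetaBar Kbar N ℓ Y) : FF N) : LaurentSeries Kbar)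
      = knorm ℓ (Y : LaurentSeries Kbar) := by
  haveI : NeZero ((ℓ : ℕ) : ℚ) := ⟨by exact_mod_cast hℓ.ne_zero⟩
  obtain ⟨ζ0, hζ0⟩ := HasEnoughRootsOfUnity.exists_primitiveRoot Kbar ℓ
  obtain ⟨ζ, rfl⟩ := hζ0.isUnit hℓ.ne_zero
  apply qExpand_injective (R := Kbar) ℓ
  have h := H819.norm_heckeBeta N ℓ hℓ hℓN ζ hζ0 Y
  have e : (qExpand Kbar ℓ) ((normAlong (heckeAlphaBar Kbar N ℓ) (heckeBetaBar Kbar N ℓ Y) : FF N)
      : LaurentSeries Kbar)
      = qExpand Kbar (ℓ * ℓ) (Y : LaurentSeries Kbar)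
        * ∏ b ∈ Finset.range ℓ, infTwist (ζ ^ b) (Y : LaurentSeries Kbar) := h
  rw [e, knorm, map_mul, qExpand_qExpand, qExpand_kdet_eq_prod ℓ hζ0,
    Fin.prod_univ_eq_prod_range (fun b : ℕ => H340.tw ℓ ((ζ : Kbar) ^ b) (Y : LaurentSeries Kbar)) ℓ]
  congr 1
  refine Finset.prod_congr rfl fun b _ => ?_
  have hb : (((ζ ^ b : Kbarˣ) : Kbar)) ^ ℓ = 1 := by
    rw [Units.val_pow_eq_pow_val, ← pow_mul, mul_comm, pow_mul, hζ0.pow_eq_one, one_pow]
  rw [← tw_eq_infTwist ℓ (ζ ^ b) hb, Units.val_pow_eq_pow_val]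

end NormId

section Main

variable (N ℓ : ℕ) [NeZero N] [NeZero ℓ]

/-- **The Kronecker congruence for norms.** -/
theorem kroneckerNorm (hℓ : ℓ.Prime) (hℓN : ¬ ℓ ∣ N) (A : ValuationSubring Kbar)
    {k : Type*} [Field k] [CharP k ℓ] (π : A →+* k) (φ : k ≃+* k) (hφ : ∀ x, φ x = x ^ ℓ) :
    KroneckerNorm A π N ℓ φ := by
  intro y hy _ _
  haveI : Fact ℓ.Prime := ⟨hℓ⟩
  have hnorm := coe_normAlong_heckeBeta N ℓ hℓ hℓN ⟨coeffMap A.subtype y, hy⟩
  have hz : coeffMap A.subtype (knorm ℓ y) = knorm ℓ (coeffMap A.subtype y) :=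
    (knorm_coeffMap ℓ A.subtype y).symm
  have e : ((normAlong (heckeAlphaBar Kbar N ℓ)
      (heckeBetaBar Kbar N ℓ ⟨coeffMap A.subtype y, hy⟩) : FF N) : LaurentSeries Kbar)
      = coeffMap A.subtype (knorm ℓ y) := hnorm.trans hz.symm
  have hmem : coeffMap A.subtype (knorm ℓ y)
      ∈ laurentBaseChange Kbar (modularFunctionFieldFull N) :=
    e ▸ (normAlong (heckeAlphaBar Kbar N ℓ)
      (heckeBetaBar Kbar N ℓ ⟨coeffMap A.subtype y, hy⟩)).2
  refine ⟨knorm ℓ y, hmem, Subtype.ext e, ?_⟩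
  rw [← knorm_coeffMap, knorm_char_equiv ℓ φ hφ]

end Main

end Fermat.Agent.S37.H697

end
end
-- ===== PACK-END S37/H697/Kronecker.lean

-- ===== PACK-BEGIN S37/H697/Final2.lean
section



/-!
# S37 (helper697): the frozen statement S37 from TWO inputs (route B, final form)

`KroneckerNorm` is now proved (`Kronecker.lean`: NORM of helper819 + formal Kronecker congruence
of helper340), so the bounded-homomorphism route reduces S37 to

* `hRed : ReductionInputsModL A N`   — existence of a place reduction `r` with Prelude (i), (ii)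
  (`IsPlaceReductionAlong`) and `PrincipalGeneratedByIntegral` (the latter is on `main`:
  `S37.H448.principalGeneratedByIntegral`);
* `hS18 : Core.InjTorsionModL N ℓ A` — the conclusion of the frozen statement S18.

`weakRedData_of_red` produces the row's final interface `Core.WeakRedData N A ℓ σ₀`
(so that `Core.result_of_weakRedData` / `H99.rawES_of_weakRedData` apply with `M = N`).
-/

set_option autoImplicit false
set_option synthInstance.maxHeartbeats 400000
set_option maxHeartbeats 1600000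

noncomputable section

open HahnSeries IntermediateField AlgebraicCurve ModularCurve ValuationSubring

namespace Fermat.Agent.S37.H697

/-- The residue field of a valuation subring of `ℚ̄` over `ℓ` has characteristic `ℓ`. -/
theorem charP_residueField {ℓ : ℕ} (hℓ : ℓ.Prime)
    (A : ValuationSubring (AlgebraicClosure ℚ)) (hA : A.LiesOverPrime ℓ) :
    CharP (IsLocalRing.ResidueField A) ℓ := by
  refine (CharP.charP_iff_prime_eq_zero hℓ).mpr ?_
  have h1 : ((ℓ : A) : AlgebraicClosure ℚ) ∈ A.nonunits := by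
    have : ((ℓ : A) : AlgebraicClosure ℚ) = (ℓ : AlgebraicClosure ℚ) := by push_cast; rfl
    rw [this]; exact hA
  have h2 : (ℓ : A) ∈ IsLocalRing.maximalIdeal A := ValuationSubring.coe_mem_nonunits_iff.mp h1
  have h3 := (IsLocalRing.residue_eq_zero_iff (ℓ : A)).mpr h2
  rwa [map_natCast] at h3

/-- The Kronecker congruence for norms at a valuation subring of `ℚ̄` over `ℓ ∤ N`. -/
theorem kroneckerNorm_residue (N : ℕ) [NeZero N] {ℓ : ℕ} [NeZero ℓ] (hℓ : ℓ.Prime)
    (hℓN : ¬ ℓ ∣ N) (A : ValuationSubring (AlgebraicClosure ℚ)) (hA : A.LiesOverPrime ℓ)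
    (φ : IsLocalRing.ResidueField A ≃+* IsLocalRing.ResidueField A) (hφ : ∀ x, φ x = x ^ ℓ) :
    KroneckerNorm A (IsLocalRing.residue A) N ℓ φ := by
  have := charP_residueField hℓ A hA
  exact kroneckerNorm N ℓ hℓ hℓN A (IsLocalRing.residue A) φ hφ

/-- **`Core.WeakRedData` from a place reduction and S18.** -/
def weakRedData_of_red (N : ℕ) [NeZero N] (A : ValuationSubring (AlgebraicClosure ℚ))
    (ℓ : ℕ) [NeZero ℓ] (hℓ : ℓ.Prime) (hℓN : ¬ ℓ ∣ N) (hA : A.LiesOverPrime ℓ)
    (h : ReductionInputsModL A N)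
    (hinj : Core.InjTorsionModL N ℓ A)
    (σ₀ : AlgebraicClosure ℚ ≃ₐ[ℚ] AlgebraicClosure ℚ) (hσ₀ : A.IsFrobeniusAt σ₀ ℓ) :
    Core.WeakRedData N A ℓ σ₀ :=
  weakRedData_of_kronecker N A ℓ h hinj (kroneckerNorm_residue N hℓ hℓN A hA) σ₀ hσ₀

/-- **The frozen statement S37 from place reductions and S18.** -/
theorem result_of_red (N p : ℕ) [NeZero N]
    (hRed : ∀ ℓ : ℕ, ℓ.Prime → ¬ ℓ ∣ N →
      ∀ A : ValuationSubring (AlgebraicClosure ℚ), A.LiesOverPrime ℓ → ReductionInputsModL A N)
    (hS18 : ∀ ℓ : ℕ, ℓ.Prime → ¬ ℓ ∣ N →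
      ∀ A : ValuationSubring (AlgebraicClosure ℚ), A.LiesOverPrime ℓ → Core.InjTorsionModL N ℓ A)
    (hcomm : ModularCurve.HeckeOperatorsCommuteBar N) :
    letI := ModularCurve.heckeModuleBar N
    ∀ (_ : SMulCommClass (AlgebraicClosure ℚ ≃ₐ[ℚ] AlgebraicClosure ℚ) ModularCurve.HeckeAlg
      (ModularCurve.JZero N)),
      ModularCurve.SpecializationExists (K := ℚ) (L := AlgebraicClosure ℚ) N p
        (ModularCurve.JZero N) :=
  result_of_kronecker N p hRed hS18
    (fun ℓ hℓ hℓN A hA =>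
      haveI : NeZero ℓ := ⟨hℓ.ne_zero⟩
      kroneckerNorm_residue N hℓ hℓN A hA)
    hcomm

end Fermat.Agent.S37.H697

end
end
-- ===== PACK-END S37/H697/Final2.lean

-- ===== PACK-BEGIN S37/H818/NodePull.lean
section
/-
S37 / node_pull (helper818): the interface `Core.PullData N (N * a) ℓ` of the row plan, for
`(ℓ, a) = (3, 2)` and `(2, 3)`, `a ∤ N`, `ℓ ∤ N`  — UNCONDITIONAL.

`pull := π^* : J₀(N) → J₀(N a)` (conorm along the inclusion `F_N ⊂ F_{N a}` of function fields),
Galois equivariant, commuting with `T_ℓ`, injective on prime-to-`ℓ` torsion because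
`π_* π^* = [F_{N a} : F_N] = a + 1` is a power of `ℓ`.
-/





set_option autoImplicit false
set_option linter.style.haveILetI false

noncomputable section

namespace Fermat.Agent.S37.H818

open AlgebraicCurve ModularCurve IntermediateField Fermat.Agent.S37.H99 Fermat.Agent.S37.Core

/-- **The inputs of the level transfer hold unconditionally** (as soon as the degree of the
degeneracy map is a power of `ℓ`). -/
theorem transferInputs (N k ℓ : ℕ) [NeZero N] [NeZero k] [NeZero ℓ] (hℓ : ℓ.Prime)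
    (hk : k.Prime) (hℓN : ¬ ℓ ∣ N) (hℓk : ¬ ℓ ∣ k)
    (hdeg : ∃ e : ℕ, finrankAlong Qb (heckeAlphaBar Qb N k) = ℓ ^ e) :
    TransferInputs N k ℓ where
  hℓ := hℓ
  hk := hk
  hℓN := hℓN
  hℓk := hℓk
  heckeN := Fermat.Agent.Lib.FF398.heckeInputsAlong N ℓ
  heckeM := Fermat.Agent.Lib.FF398.heckeInputsAlong (N * k) ℓ
  normFormula := Fermat.Agent.Lib.FF398.normFormulaAlong_alpha N k
  deg_pow := hdeg

/-- The degree of `X₀(N a) → X₀(N)` is a power of `ℓ` in the two cases of the row plan. -/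
theorem finrankAlong_pow (N a ℓ : ℕ) [NeZero N] [NeZero a]
    (ha : (ℓ = 3 ∧ a = 2) ∨ (ℓ = 2 ∧ a = 3)) (haN : ¬ a ∣ N) :
    ∃ e : ℕ, finrankAlong Qb (heckeAlphaBar Qb N a) = ℓ ^ e := by
  rcases ha with ⟨rfl, rfl⟩ | ⟨rfl, rfl⟩
  · refine ⟨1, ?_⟩
    rw [finrankAlong_heckeAlphaBar' (L := Qb) N 2 Nat.prime_two, if_neg haN]
    norm_num
  · refine ⟨2, ?_⟩
    rw [finrankAlong_heckeAlphaBar' (L := Qb) N 3 Nat.prime_three, if_neg haN]
    norm_num

/-- The pull datum attached to transfer inputs. -/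
def TransferInputs.pullData {N k ℓ : ℕ} [NeZero N] [NeZero k] [NeZero ℓ]
    (T : TransferInputs N k ℓ) : PullData N (N * k) ℓ where
  pull := T.pullback
  galois σ x := T.pullback_galois σ x
  inj_torsion m hm x hmx hx :=
    T.pullback_injective_of_coprime m
      ((Nat.Coprime.symm ((Nat.Prime.coprime_iff_not_dvd T.hℓ).mpr hm))) x hmx hx
  hecke x := T.pullback_hecke x

/-- **NODE [PULL]** (exact statement of `Board.node_pull`). -/
theorem node_pull (N a ℓ : ℕ) [NeZero N] [NeZero a] [NeZero ℓ] (hℓ : ℓ.Prime)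
    (ha : (ℓ = 3 ∧ a = 2) ∨ (ℓ = 2 ∧ a = 3)) (haN : ¬ a ∣ N) (hℓN : ¬ ℓ ∣ N) :
    Nonempty (PullData N (N * a) ℓ) := by
  have hk : a.Prime := by
    rcases ha with ⟨-, rfl⟩ | ⟨-, rfl⟩
    · exact Nat.prime_two
    · exact Nat.prime_three
  have hℓa : ¬ ℓ ∣ a := by
    rcases ha with ⟨rfl, rfl⟩ | ⟨rfl, rfl⟩ <;> decide
  exact ⟨(transferInputs N a ℓ hℓ hk hℓN hℓa (finrankAlong_pow N a ℓ ha haN)).pullData⟩

/-- General form: `PullData N (N * k) ℓ` for primes `k`, `ℓ ∤ N k`, with `[F_{N k} : F_N]` a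
power of `ℓ`. -/
theorem nonempty_pullData (N k ℓ : ℕ) [NeZero N] [NeZero k] [NeZero ℓ] (hℓ : ℓ.Prime)
    (hk : k.Prime) (hℓN : ¬ ℓ ∣ N) (hℓk : ¬ ℓ ∣ k)
    (hdeg : ∃ e : ℕ, finrankAlong Qb (heckeAlphaBar Qb N k) = ℓ ^ e) :
    Nonempty (PullData N (N * k) ℓ) :=
  ⟨(transferInputs N k ℓ hℓ hk hℓN hℓk hdeg).pullData⟩

end Fermat.Agent.S37.H818

end

end
-- ===== PACK-END S37/H818/NodePull.lean

-- ===== PACK-BEGIN S37/Core/Board.lean
section





/-!
# S37 row-lead (helper37): BOARD v3 — the frozen S37 from TWO inputs, all levels handled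

Landed nodes used here: `H697.weakRedData_of_red` (node_wrd; contains NORMID and the Kronecker
congruence), `H818.node_pull` (level raising `N → 2N, 3N` for `ℓ = 3, 2`), `Core.result_of_weakRedData`.

* `GoodLevel M ℓ` : `5 ≤ ℓ`, or `ℓ = 3 ∧ 2 ∣ M`, or `ℓ = 2 ∧ 3 ∣ M` (a good coordinate exists).
* `RimStatement`  : `ReductionInputsModL A M` for all good levels (node_rim).
* `S18Statement`  : the conclusion of the frozen S18 at all levels (row S18).
* `result_of_rim_s18 : RimStatement → S18Statement → (frozen S37)`.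
* `rawES_of_rim_s18` : the same for the raw Eichler-Shimura export (rows S29 / S30 / S42).
* `DatumStatement`   : existence of a linked reduction datum with good charts at good levels;
  `rimStatement_of_datum : DatumStatement → RimStatement` (by `Core.node_rim_of_datum`).
-/

set_option autoImplicit false
set_option synthInstance.maxHeartbeats 400000

noncomputable section

namespace Fermat.Agent.S37.Core

open ModularCurve ValuationSubring AlgebraicCurve HahnSeries

/-- the levels at which the smooth model is constructed directly -/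
def GoodLevel (M ℓ : ℕ) : Prop := 5 ≤ ℓ ∨ (ℓ = 3 ∧ 2 ∣ M) ∨ (ℓ = 2 ∧ 3 ∣ M)

/-- **node_rim**: the place reduction map exists at all good levels. -/
def RimStatement : Prop :=
  ∀ (M ℓ : ℕ) [NeZero M], ℓ.Prime → ¬ ℓ ∣ M → GoodLevel M ℓ →
    ∀ A : ValuationSubring (AlgebraicClosure ℚ), A.LiesOverPrime ℓ → ReductionInputsModL A M

/-- **node_s18**: the conclusion of the frozen S18, at all levels. -/
def S18Statement : Prop :=
  ∀ (M ℓ : ℕ) [NeZero M], ℓ.Prime → ¬ ℓ ∣ M →
    ∀ A : ValuationSubring (AlgebraicClosure ℚ), A.LiesOverPrime ℓ → InjTorsionModL M ℓ A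

/-- **node_datum**: a linked reduction datum with good charts exists at all good levels. -/
def DatumStatement : Prop :=
  ∀ (M ℓ : ℕ) [NeZero M], ℓ.Prime → ¬ ℓ ∣ M → GoodLevel M ℓ →
    ∀ A : ValuationSubring (AlgebraicClosure ℚ), A.LiesOverPrime ℓ →
      ∃ G : Red.Datum A (IsLocalRing.residue A) (modularFunctionFieldBar M)
          (modularFunctionFieldFullC (IsLocalRing.ResidueField A) M),
        G.Good ∧ Red.H759.Link G

theorem rimStatement_of_datum (h : DatumStatement) : RimStatement := by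
  intro M ℓ _ hℓ hℓM hg A hA
  obtain ⟨G, hgood, hlink⟩ := h M ℓ hℓ hℓM hg A hA
  exact node_rim_of_datum M ℓ hℓ hℓM A hA G hgood hlink

theorem prime_cases {ℓ : ℕ} (hℓ : ℓ.Prime) : ℓ = 2 ∨ ℓ = 3 ∨ 5 ≤ ℓ := by
  rcases Nat.lt_or_ge ℓ 5 with h | h
  · have h2 := hℓ.two_le
    interval_cases ℓ
    · exact Or.inl rfl
    · exact Or.inr (Or.inl rfl)
    · exact absurd hℓ (by decide)
  · exact Or.inr (Or.inr h)

/-- The hypothesis `H` of `Core.result_of_weakRedData` / `Core.rawES_of_weakRedData` from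
node_rim and node_s18. -/
theorem weakRedData_of_rim_s18 (hRim : RimStatement) (hS18 : S18Statement) (N : ℕ) [NeZero N]
    (ℓ : ℕ) (hℓ : ℓ.Prime) (hℓN : ¬ ℓ ∣ N)
    (A : ValuationSubring (AlgebraicClosure ℚ)) (hA : A.LiesOverPrime ℓ)
    (σ₀ : AlgebraicClosure ℚ ≃ₐ[ℚ] AlgebraicClosure ℚ) (hσ₀ : A.IsFrobeniusAt σ₀ ℓ) :
    haveI : NeZero ℓ := ⟨hℓ.ne_zero⟩
    ∃ (M : ℕ) (_ : NeZero M), Nonempty (WeakRedData M A ℓ σ₀) ∧ Nonempty (PullData N M ℓ) := by
  haveI : NeZero ℓ := ⟨hℓ.ne_zero⟩
  have key : ∀ (M : ℕ) [NeZero M], ¬ ℓ ∣ M → GoodLevel M ℓ → Nonempty (PullData N M ℓ) →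
      ∃ (M : ℕ) (_ : NeZero M), Nonempty (WeakRedData M A ℓ σ₀) ∧ Nonempty (PullData N M ℓ) :=
    fun M _ hℓM hg hP =>
      ⟨M, inferInstance,
        ⟨H697.weakRedData_of_red M A ℓ hℓ hℓM hA (hRim M ℓ hℓ hℓM hg A hA)
          (hS18 M ℓ hℓ hℓM A hA) σ₀ hσ₀⟩, hP⟩
  rcases prime_cases hℓ with h2 | h3 | h5
  · subst h2
    by_cases h3N : 3 ∣ N
    · exact key N hℓN (Or.inr (Or.inr ⟨rfl, h3N⟩)) ⟨PullData.refl N 2⟩
    · haveI : NeZero (N * 3) := ⟨Nat.mul_ne_zero (NeZero.ne N) (by norm_num)⟩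
      have hℓM : ¬ 2 ∣ N * 3 := fun h =>
        hℓN ((Nat.Coprime.dvd_mul_right (by norm_num : Nat.Coprime 2 3)).mp h)
      exact key (N * 3) hℓM (Or.inr (Or.inr ⟨rfl, Dvd.intro_left N rfl⟩))
        (H818.node_pull N 3 2 hℓ (Or.inr ⟨rfl, rfl⟩) h3N hℓN)
  · subst h3
    by_cases h2N : 2 ∣ N
    · exact key N hℓN (Or.inr (Or.inl ⟨rfl, h2N⟩)) ⟨PullData.refl N 3⟩
    · haveI : NeZero (N * 2) := ⟨Nat.mul_ne_zero (NeZero.ne N) (by norm_num)⟩
      have hℓM : ¬ 3 ∣ N * 2 := fun h =>
        hℓN ((Nat.Coprime.dvd_mul_right (by norm_num : Nat.Coprime 3 2)).mp h)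
      exact key (N * 2) hℓM (Or.inr (Or.inl ⟨rfl, Dvd.intro_left N rfl⟩))
        (H818.node_pull N 2 3 hℓ (Or.inl ⟨rfl, rfl⟩) h2N hℓN)
  · exact key N hℓN (Or.inl h5) ⟨PullData.refl N ℓ⟩

/-- **The frozen statement S37 from node_rim and node_s18.** -/
theorem result_of_rim_s18 (hRim : RimStatement) (hS18 : S18Statement) (N p : ℕ) [NeZero N]
    (hcomm : ModularCurve.HeckeOperatorsCommuteBar N) :
    letI := ModularCurve.heckeModuleBar N
    ∀ (_ : SMulCommClass (AlgebraicClosure ℚ ≃ₐ[ℚ] AlgebraicClosure ℚ) ModularCurve.HeckeAlg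
      (ModularCurve.JZero N)),
      ModularCurve.SpecializationExists (K := ℚ) (L := AlgebraicClosure ℚ) N p
        (ModularCurve.JZero N) :=
  result_of_weakRedData N p (fun ℓ hℓ hℓN A hA σ₀ hσ₀ =>
    weakRedData_of_rim_s18 hRim hS18 N ℓ hℓ hℓN A hA σ₀ hσ₀) hcomm

/-- **Raw Eichler-Shimura on `p`-torsion of `J₀(N)` from node_rim and node_s18**
(body of `Fermat.Agent.S29.RawESStatement`). -/
theorem rawES_of_rim_s18 (hRim : RimStatement) (hS18 : S18Statement) (N : ℕ) [NeZero N]
    (p : ℕ) (ℓ : ℕ) (hℓ : ℓ.Prime) (hdvd : ¬ ℓ ∣ N * p)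
    (A : ValuationSubring (AlgebraicClosure ℚ)) (hA : A.LiesOverPrime ℓ) :
    (∀ σ ∈ A.inertiaSubgroupIn ℚ, ∀ x : JZero N, (p : ℤ) • x = 0 → σ • x = x) ∧
      (∀ σ : AlgebraicClosure ℚ ≃ₐ[ℚ] AlgebraicClosure ℚ, A.IsFrobeniusAt σ ℓ →
        ∀ x : JZero N, (p : ℤ) • x = 0 →
          σ • σ • x - heckeOperatorBar N ⟨ℓ, hℓ⟩ (σ • x) + (ℓ : ℤ) • x = 0) :=
  rawES_of_weakRedData N (fun ℓ hℓ hℓN A hA σ₀ hσ₀ =>
    weakRedData_of_rim_s18 hRim hS18 N ℓ hℓ hℓN A hA σ₀ hσ₀) p ℓ hℓ hdvd A hA

end Fermat.Agent.S37.Core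

end
end
-- ===== PACK-END S37/Core/Board.lean

-- ===== PACK-BEGIN A3/H615/GrRedLeaf.lean
section




/-!
# Cell A3 / GR-INST, leaf GR-RED of helper739's assembly (helper615)

`redLeaf_of_datum` : a linked reduction datum with good charts gives `A3.H739.RedLeaf N V`.
`redLeaf_of_datumStatement` : the S37 node `Core.DatumStatement` gives the hypothesis `hred` of
`A3.H739.grStatement_of_leaves_forall`, verbatim.
-/

set_option autoImplicit false
set_option synthInstance.maxHeartbeats 400000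

noncomputable section

namespace Fermat.Agent.A3.H615

open ModularCurve AlgebraicCurve HahnSeries IsLocalRing Fermat.Agent.S37.Red

namespace GrRed

/-- **Leaf GR-RED** from a linked reduction datum with good charts. -/
theorem redLeaf_of_datum (N : ℕ) [NeZero N] {ℓ : ℕ} (hℓ : ℓ.Prime) (hℓN : ¬ ℓ ∣ N)
    (V : ValuationSubring _root_.Fermat.Agent.A3.H615.GrRed.Qb) (hV : V.LiesOverPrime ℓ)
    (G : Datum V (residue V) (modularFunctionFieldBar N)
      (modularFunctionFieldFullC (ResidueField V) N))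
    (hgood : G.Good) (hlink : H759.Link G) :
    Fermat.Agent.A3.H739.RedLeaf N V := by
  obtain ⟨r, -, hI, hmod, -⟩ := exists_red hℓ hℓN hV G hgood hlink
  exact ⟨r, hmod, fun σ hσ P => hI σ hσ P⟩

/-- **Leaf GR-RED at all good levels** from the S37 node `DatumStatement`
(the hypothesis `hred` of `A3.H739.grStatement_of_leaves_forall`). -/
theorem redLeaf_of_datumStatement (h : Fermat.Agent.S37.Core.DatumStatement) :
    ∀ (N : ℕ) [NeZero N] (ℓ : ℕ) [Fact ℓ.Prime], ¬ ℓ ∣ N → Fermat.Agent.S19.GoodLevel N ℓ →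
      ∀ V : ValuationSubring _root_.Fermat.Agent.A3.H615.GrRed.Qb, V.LiesOverPrime ℓ → Fermat.Agent.A3.H739.RedLeaf N V := by
  intro N _ ℓ _ hℓN hg V hV
  obtain ⟨G, hgood, hlink⟩ := h N ℓ Fact.out hℓN hg V hV
  exact redLeaf_of_datum N Fact.out hℓN V hV G hgood hlink

end GrRed

end Fermat.Agent.A3.H615

end
end
-- ===== PACK-END A3/H615/GrRedLeaf.lean

-- ===== PACK-BEGIN S37/Core/Leaves.lean
section





/-!
# S37 row-lead (helper37): BOARD v3 — the OPEN LEAVES of `node_rim`, frozen statements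

`Core.result_of_rim_s18 : RimStatement → S18Statement → frozen S37` and
`Core.rimStatement_of_datum : DatumStatement → RimStatement` are on main (`Core/Board.lean`).
This file freezes the leaves of `DatumStatement` as `def … : Prop` and PROVES

  `datumStatement_of_leaves :
     DatumLeaf → NormalAbsStatement → LiftLeaf → H1Leaf → ModStatement → DatumStatement`
  `result_of_leaves : … → S18Statement → frozen S37`.

HAND-IN of a leaf = a theorem of type `Fermat.Agent.S37.Core.<Leaf>` (sorry-free, on main).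

* `DatumLeaf` (D1): the Gauss datum `(O, ρ)` on `(F_M, F_{M,k})` whose coordinate is a given
  `x ∈ F_M` with integral model `X ∈ ℤ((q))`, linked to the Prelude (`Red.H759.Link`).
* `NormalAbsStatement` (D2; Mathlib + `S18/Alg/Spec.lean` only): for an `Alg.GoodModel`, an
  element of `V` which is a root mod `w` of a monic polynomial over `R[x]` is congruent mod `w`
  to an element of the chart (normality of the special fibre; from `b2Normal` of row S18).
* `LiftLeaf` (D3): `Red.H759.LiftAtLevel` on both charts at every number field, from the good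
  models of row S18 (`Mod.GoodModelStatement`) and (D2).
* `H1Leaf` (D4): degrees and separability, fields (H1) of `Red.Datum.Good`, for an admissible
  coordinate (`x = j`: `S37.H208.good_H1`, `S37.H628.good_H1`; `t₂`, `t₃`: tower law).
* `ModStatement`: node_mod of row S18 for all `(M, ℓ, A)`.
-/

set_option autoImplicit false
set_option synthInstance.maxHeartbeats 400000

noncomputable section

namespace Fermat.Agent.S37.Core

open ModularCurve ValuationSubring AlgebraicCurve HahnSeries IsLocalRing Polynomial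
open Fermat.Agent.S37.Red Fermat.Agent.S18

/-- `X ∈ ℤ((q))`, `X = q⁻¹ + …`, is an integral model of the coordinate `x ∈ F_M`. -/
structure IsModelOf (M : ℕ) (x : Mod.Om M) (X : LaurentSeries ℤ) : Prop where
  coeff_neg_one : X.coeff (-1) = 1
  coeff_lt : ∀ k : ℤ, k < -1 → X.coeff k = 0
  coe_eq : (x : LaurentSeries (AlgebraicClosure ℚ)) =
    coeffMap (Int.castRingHom (AlgebraicClosure ℚ)) X
  mem_full : coeffMap (Int.castRingHom ℚ) X ∈ modularFunctionFieldFull M

/-- the reduction `x̄ ∈ k((q))` of the coordinate with integral model `X` -/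
abbrev redX (A : ValuationSubring (AlgebraicClosure ℚ)) (X : LaurentSeries ℤ) :
    LaurentSeries (ResidueField A) :=
  coeffMap (Int.castRingHom (ResidueField A)) X

/-- (D0) an admissible coordinate has an integral model. -/
theorem exists_isModelOf (M ℓ : ℕ) [NeZero M] (x : Mod.Om M) (S : Finset (Mod.Om M))
    (hx : Mod.IsCoordinate M ℓ x S) : ∃ X : LaurentSeries ℤ, IsModelOf M x X := by
  obtain ⟨X, h1, h2, h3, h4⟩ := H456.hasIntExp_of_isCoordinate M hx
  exact ⟨X, h1, h2, h3, h4⟩

/-- **LEAF D1**: the Gauss datum with coordinate `x`, linked to the Prelude. -/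
def DatumLeaf : Prop :=
  ∀ (M ℓ : ℕ) [NeZero M], ℓ.Prime → ¬ ℓ ∣ M →
    ∀ A : ValuationSubring (AlgebraicClosure ℚ), A.LiesOverPrime ℓ →
    ∀ (x : Mod.Om M) (X : LaurentSeries ℤ), IsModelOf M x X →
      ∃ G : Datum A (residue A) (modularFunctionFieldBar M)
          (modularFunctionFieldFullC (ResidueField A) M),
        G.x = x ∧ ((G.xk : modularFunctionFieldFullC (ResidueField A) M) :
          LaurentSeries (ResidueField A)) = redX A X ∧ H759.Link G

/-- **LEAF D2** (Mathlib + `S18/Alg/Spec.lean` only).  For a good model: if `f ∈ V` is a root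
mod `w` of a monic polynomial over `R[x]`, then `f` is congruent mod `w` to an element of the
chart `B = {b ∈ Fc integral over R[x]}`.
(Proof: `f = b/g`, `b ∈ B`, `g ∈ R[x]` primitive [`finite`, `gauss`, `qep_fin`]; the equation
gives `b^d + Σ aᵢ bⁱ g^(d-i) ∈ wV ∩ B = wB`; `b2Normal` [`S18.B12.H204/H273/H858/H633`] with the
adapters of row S18 [hNC: `S18.H213.HNC`; hsep: `S18.H425.Hsep`] gives `b₀ ∈ B` with
`b - g b₀ ∈ wB`.) -/
def NormalAbsStatement : Prop :=
  ∀ (Ω : Type) [Field Ω] (Lc Ec Fc : Subfield Ω) (R V : Subring Ω) (w x : Ω) (S : Finset Ω),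
    Alg.GoodModel Lc Ec Fc R V w x S →
    ∀ f ∈ V, ∀ P : Polynomial Ω, P.Monic → (∀ i, P.coeff i ∈ Alg.polyRing R x) →
      P.eval f * w⁻¹ ∈ V →
      ∃ b ∈ Alg.chart Fc R x, (f - b) * w⁻¹ ∈ V

/-- **LEAF D3**: (H3) at every number-field level, on both charts, from the good models of row
S18 and (D2).  (Chart at infinity: `S18.H425.goodModel_inv`.) -/
def LiftLeaf : Prop :=
  ∀ (M ℓ : ℕ) [NeZero M], ℓ.Prime → ¬ ℓ ∣ M →
    ∀ A : ValuationSubring (AlgebraicClosure ℚ), A.LiesOverPrime ℓ →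
    ∀ (x : Mod.Om M) (S : Finset (Mod.Om M)), Mod.IsCoordinate M ℓ x S →
    ∀ X : LaurentSeries ℤ, IsModelOf M x X →
    Mod.GoodModelStatement M ℓ A → NormalAbsStatement →
    ∀ E : H759.NumberFieldIn,
      H759.LiftAtLevel A M E.1 (x : LaurentSeries (AlgebraicClosure ℚ)) (redX A X) ∧
        H759.LiftAtLevel A M E.1 ((x : LaurentSeries (AlgebraicClosure ℚ)))⁻¹ (redX A X)⁻¹

/-- **LEAF D4**: (H1) for an admissible coordinate. -/
def H1Leaf : Prop :=
  ∀ (M ℓ : ℕ) [NeZero M], ℓ.Prime → ¬ ℓ ∣ M →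
    ∀ A : ValuationSubring (AlgebraicClosure ℚ), A.LiesOverPrime ℓ →
    ∀ (x : Mod.Om M) (S : Finset (Mod.Om M)), Mod.IsCoordinate M ℓ x S →
    ∀ X : LaurentSeries ℤ, IsModelOf M x X →
    ∀ G : Datum A (residue A) (modularFunctionFieldBar M)
      (modularFunctionFieldFullC (ResidueField A) M),
    G.x = x →
    ((G.xk : modularFunctionFieldFullC (ResidueField A) M) :
      LaurentSeries (ResidueField A)) = redX A X →
    FiniteDimensional (IntermediateField.adjoin (AlgebraicClosure ℚ) {G.x})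
        (modularFunctionFieldBar M) ∧
      FiniteDimensional (IntermediateField.adjoin (ResidueField A) {G.xk})
        (modularFunctionFieldFullC (ResidueField A) M) ∧
      Algebra.IsSeparable (IntermediateField.adjoin (ResidueField A) {G.xk})
        (modularFunctionFieldFullC (ResidueField A) M) ∧
      Module.finrank (IntermediateField.adjoin (AlgebraicClosure ℚ) {G.x})
          (modularFunctionFieldBar M) =
        Module.finrank (IntermediateField.adjoin (ResidueField A) {G.xk})
          (modularFunctionFieldFullC (ResidueField A) M)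

/-- **node_mod of row S18**, for all `(M, ℓ, A)`. -/
def ModStatement : Prop :=
  ∀ (M ℓ : ℕ) [NeZero M], ℓ.Prime → ¬ ℓ ∣ M →
    ∀ A : ValuationSubring (AlgebraicClosure ℚ), A.LiesOverPrime ℓ →
      Mod.GoodModelStatement M ℓ A

/-- **node_datum from the leaves.** -/
theorem datumStatement_of_leaves (hD1 : DatumLeaf) (hD2 : NormalAbsStatement) (hD3 : LiftLeaf)
    (hD4 : H1Leaf) (hMod : ModStatement) : DatumStatement := by
  intro M ℓ _ hℓ hℓM hg A hA
  haveI : Fact ℓ.Prime := ⟨hℓ⟩
  have h3 : ℓ = 3 → 2 ∣ M := fun h => by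
    rcases hg with h5 | ⟨-, h⟩ | ⟨h2, -⟩
    · omega
    · exact h
    · omega
  have h2 : ℓ = 2 → 3 ∣ M := fun h => by
    rcases hg with h5 | ⟨h3, -⟩ | ⟨-, h⟩
    · omega
    · omega
    · exact h
  obtain ⟨x, S, hx⟩ := H333.node_coord M hℓM h3 h2
  obtain ⟨X, hX⟩ := exists_isModelOf M ℓ x S hx
  obtain ⟨G, hGx, hGxk, hlink⟩ := hD1 M ℓ hℓ hℓM A hA x X hX
  obtain ⟨hf, hfk, hsep, hrk⟩ := hD4 M ℓ hℓ hℓM A hA x S hx X hX G hGx hGxk
  have hlev := fun E : H759.NumberFieldIn =>
    hD3 M ℓ hℓ hℓM A hA x S hx X hX (hMod M ℓ hℓ hℓM A hA) hD2 E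
  obtain ⟨E₀⟩ : Nonempty H759.NumberFieldIn := inferInstance
  refine ⟨G, H217.good_of G hf hfk hsep hrk ?_ ?_, hlink⟩
  · refine H759.lift_fin_of_levels G hlink E₀ (fun E _ => ?_)
    rw [hGx, hGxk]
    exact (hlev E).1
  · refine H759.lift_inf_of_levels G hlink E₀ (fun E _ => ?_)
    rw [hGx, hGxk]
    exact (hlev E).2

/-- **The frozen statement S37 from the leaves and S18.** -/
theorem result_of_leaves (hD1 : DatumLeaf) (hD2 : NormalAbsStatement) (hD3 : LiftLeaf)
    (hD4 : H1Leaf) (hMod : ModStatement) (hS18 : S18Statement) (N p : ℕ) [NeZero N]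
    (hcomm : ModularCurve.HeckeOperatorsCommuteBar N) :
    letI := ModularCurve.heckeModuleBar N
    ∀ (_ : SMulCommClass (AlgebraicClosure ℚ ≃ₐ[ℚ] AlgebraicClosure ℚ) ModularCurve.HeckeAlg
      (ModularCurve.JZero N)),
      ModularCurve.SpecializationExists (K := ℚ) (L := AlgebraicClosure ℚ) N p
        (ModularCurve.JZero N) :=
  result_of_rim_s18 (rimStatement_of_datum (datumStatement_of_leaves hD1 hD2 hD3 hD4 hMod))
    hS18 N p hcomm

end Fermat.Agent.S37.Core

end
end
-- ===== PACK-END S37/Core/Leaves.lean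

-- ===== PACK-BEGIN S37/H628/E2Degree.lean
section






/-!
# S37 / RED-E2 (helper628): the four (H1) fields of `Red.Datum.Good` for the modular datum

`Red.Datum.Good` (helper40, `Fermat/Agent/S37/Red/Spec.lean`) asks for
* `finite     : FiniteDimensional K⟮G.x⟯ F`
* `finite_k   : FiniteDimensional k⟮G.xk⟯ Fk`
* `sep_k      : Algebra.IsSeparable k⟮G.xk⟯ Fk`
* `finrank_eq : Module.finrank K⟮G.x⟯ F = Module.finrank k⟮G.xk⟯ Fk`

Here they are proved for `F = ℚ̄(X₀(N))`, `F_k = k(j(q^d) : d ∣ N)`, `k = A/𝔪`, `A` over `ℓ ∤ N`,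
for ANY coordinate whose `q`-expansion is `j` (`jqModC`), so that they plug into any construction
of the datum with `x = j`:

* general field `k` with the primes of `N` invertible:
  `finrank_adjoin_fullC`, `finiteDimensional_adjoin_fullC`, `isSeparable_adjoin_fullC`;
* `ℚ̄`: `finrank_adjoin_bar`, `finiteDimensional_adjoin_bar`;
* `good_H1` : the four fields at once for a `Red.Datum` with `G.x = j`, `G.xk = j̄`
  (hypotheses on the `q`-expansions of `G.x` and `G.xk` only).
Both degrees are `ψ(N)` (S28 degree theory, helper988/helper867); separability is helper264's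
`algebra_isSeparable_full`.
-/

set_option autoImplicit false
set_option synthInstance.maxHeartbeats 400000
set_option linter.style.haveILetI false
set_option linter.unusedSectionVars false

noncomputable section

namespace Fermat.Agent.S37.H628

open ModularCurve IntermediateField AlgebraicCurve

section General

variable {K L : Type*} [Field K] [Field L] [Algebra K L]

/-- the subfield `K(x)` of the field `↥E` corresponds to the subfield `K(x)` of the ambient
field -/
theorem comap_val_adjoin_singleton (E : IntermediateField K L) (x : E) :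
    (K⟮(x : L)⟯).comap E.val = K⟮x⟯ := by
  have h1 : (K⟮x⟯).map E.val = K⟮(x : L)⟯ := by
    rw [adjoin_map, Set.image_singleton]
    rfl
  rw [← h1]
  exact comap_map _ _

/-- degree of `↥E` over `K(x)` as a relative degree in the ambient field -/
theorem finrank_adjoin_subtype_eq_relfinrank (E : IntermediateField K L) (x : E) :
    Module.finrank K⟮x⟯ E = (K⟮(x : L)⟯).relfinrank E := by
  have h1 := relfinrank_comap (K⟮(x : L)⟯) E.val ⊤
  rw [relfinrank_top_right, ← AlgHom.fieldRange_eq_map, fieldRange_val,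
    comap_val_adjoin_singleton] at h1
  exact h1

/-- the same for an element given by its value in the ambient field -/
theorem finrank_adjoin_subtype_eq_relfinrank' (E : IntermediateField K L) (x : E) {y : L}
    (hxy : (x : L) = y) : Module.finrank K⟮x⟯ E = (K⟮y⟯).relfinrank E := by
  rw [finrank_adjoin_subtype_eq_relfinrank, hxy]

end General

section AnyField

variable (k : Type*) [Field k] (N : ℕ) [NeZero N]

/-- **degree**: `[F_{N,k} : k(x)] = ψ(N)` for every `x ∈ F_{N,k}` with `q`-expansion `j`. -/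
theorem finrank_adjoin_fullC (hchar : ∀ p : ℕ, p.Prime → p ∣ N → (p : k) ≠ 0)
    (x : modularFunctionFieldFullC k N) (hx : (x : LaurentSeries k) = jqModC k) :
    Module.finrank k⟮x⟯ (modularFunctionFieldFullC k N) = dedekindPsi N := by
  rw [finrank_adjoin_subtype_eq_relfinrank' _ x hx]
  exact Fermat.Agent.S28.H988.relfinrank_jField_full_eq k N (NeZero.ne N) hchar

/-- **finiteness** of `F_{N,k}` over `k(x)`. -/
theorem finiteDimensional_adjoin_fullC (hchar : ∀ p : ℕ, p.Prime → p ∣ N → (p : k) ≠ 0)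
    (x : modularFunctionFieldFullC k N) (hx : (x : LaurentSeries k) = jqModC k) :
    FiniteDimensional k⟮x⟯ (modularFunctionFieldFullC k N) := by
  apply Module.finite_of_finrank_pos
  rw [finrank_adjoin_fullC k N hchar x hx]
  exact Fermat.Agent.S28.H988.dedekindPsi_pos N (NeZero.ne N)

/-- **separability** of `F_{N,k}` over `k(x)`, `k` perfect of characteristic `p`. -/
theorem isSeparable_adjoin_fullC [PerfectField k] (p : ℕ) [Fact p.Prime] [CharP k p]
    (hchar : ∀ r : ℕ, r.Prime → r ∣ N → (r : k) ≠ 0)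
    (x : modularFunctionFieldFullC k N) (hx : (x : LaurentSeries k) = jqModC k) :
    Algebra.IsSeparable k⟮x⟯ (modularFunctionFieldFullC k N) := by
  have hx' : x = (⟨jqModC k, jqModC_mem_full k N⟩ : modularFunctionFieldFullC k N) :=
    Subtype.ext hx
  subst hx'
  haveI := finiteDimensional_adjoin_fullC k N hchar
    (⟨jqModC k, jqModC_mem_full k N⟩ : modularFunctionFieldFullC k N) rfl
  exact Fermat.Agent.S18.H264.algebra_isSeparable_full k p N

end AnyField

section Bar

variable (N : ℕ) [NeZero N]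

/-- **degree**: `[ℚ̄(X₀(N)) : ℚ̄(x)] = ψ(N)` for every `x` with `q`-expansion `j`. -/
theorem finrank_adjoin_bar (x : modularFunctionFieldBar N)
    (hx : (x : LaurentSeries (AlgebraicClosure ℚ)) = jqModC (AlgebraicClosure ℚ)) :
    Module.finrank (AlgebraicClosure ℚ)⟮x⟯ (modularFunctionFieldBar N) = dedekindPsi N := by
  rw [finrank_adjoin_subtype_eq_relfinrank' _ x hx]
  exact Fermat.Agent.S28.H988.relfinrank_jField_bar_eq N (NeZero.ne N)

/-- **finiteness** of `ℚ̄(X₀(N))` over `ℚ̄(x)`. -/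
theorem finiteDimensional_adjoin_bar (x : modularFunctionFieldBar N)
    (hx : (x : LaurentSeries (AlgebraicClosure ℚ)) = jqModC (AlgebraicClosure ℚ)) :
    FiniteDimensional (AlgebraicClosure ℚ)⟮x⟯ (modularFunctionFieldBar N) := by
  apply Module.finite_of_finrank_pos
  rw [finrank_adjoin_bar N x hx]
  exact Fermat.Agent.S28.H988.dedekindPsi_pos N (NeZero.ne N)

end Bar

section Residue

variable (N : ℕ) [NeZero N] {ℓ : ℕ} (hℓ : ℓ.Prime) (hℓN : ¬ ℓ ∣ N)
  (A : ValuationSubring (AlgebraicClosure ℚ)) (hA : A.LiesOverPrime ℓ)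

include hℓ hℓN hA in
/-- the primes dividing `N` are invertible in the residue field of `A` -/
theorem natCast_ne_zero_residueField (p : ℕ) (hp : p.Prime) (hpN : p ∣ N) :
    ((p : ℕ) : IsLocalRing.ResidueField A) ≠ 0 := by
  haveI : CharP (IsLocalRing.ResidueField A) ℓ :=
    Fermat.Agent.S37.H448.charP_residueField_of_liesOverPrime hℓ A hA
  intro h
  rw [CharP.cast_eq_zero_iff (IsLocalRing.ResidueField A) ℓ] at h
  have : ℓ = p := (Nat.prime_dvd_prime_iff_eq hℓ hp).mp h
  exact hℓN (this ▸ hpN)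

include hℓ hℓN hA in
/-- **RED-E2**: the four (H1) fields of `Red.Datum.Good` for every reduction datum on
`(ℚ̄(X₀(N)), F_{N,k})` whose coordinate is `j`. -/
theorem good_H1 (G : Red.Datum A (IsLocalRing.residue A) (Red.FN N) (Red.FNk A N))
    (hx : ((G.x : Red.FN N) : LaurentSeries (AlgebraicClosure ℚ)) =
      jqModC (AlgebraicClosure ℚ))
    (hxk : ((G.xk : Red.FNk A N) : LaurentSeries (IsLocalRing.ResidueField A)) =
      jqModC (IsLocalRing.ResidueField A)) :
    FiniteDimensional (AlgebraicClosure ℚ)⟮G.x⟯ (Red.FN N) ∧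
      FiniteDimensional (IsLocalRing.ResidueField A)⟮G.xk⟯ (Red.FNk A N) ∧
      Algebra.IsSeparable (IsLocalRing.ResidueField A)⟮G.xk⟯ (Red.FNk A N) ∧
      Module.finrank (AlgebraicClosure ℚ)⟮G.x⟯ (Red.FN N) =
        Module.finrank (IsLocalRing.ResidueField A)⟮G.xk⟯ (Red.FNk A N) := by
  have hchar := natCast_ne_zero_residueField N hℓ hℓN A hA
  haveI : Fact ℓ.Prime := ⟨hℓ⟩
  haveI : CharP (IsLocalRing.ResidueField A) ℓ :=
    Fermat.Agent.S37.H448.charP_residueField_of_liesOverPrime hℓ A hA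
  haveI : IsAlgClosed (IsLocalRing.ResidueField A) :=
    Fermat.Agent.S18.H9.resAlgClosed (AlgebraicClosure ℚ) A
  refine ⟨finiteDimensional_adjoin_bar N G.x hx,
    finiteDimensional_adjoin_fullC _ N hchar G.xk hxk,
    isSeparable_adjoin_fullC _ N ℓ hchar G.xk hxk, ?_⟩
  rw [finrank_adjoin_bar N G.x hx]
  exact (finrank_adjoin_fullC _ N hchar G.xk hxk).symm

end Residue

end Fermat.Agent.S37.H628

end
end
-- ===== PACK-END S37/H628/E2Degree.lean

-- ===== PACK-BEGIN S37/H339/LeafH1.lean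
section





/-!
# S37 BOARD v3, leaf D4 = `Board3.leaf_H1` (helper339)

The four (H1) fields of `Red.Datum.Good` (finite, finite_k, sep_k, finrank_eq) for ANY reduction
datum on `(F_M, F_{M,k})` whose coordinate is an admissible coordinate `x` (`Mod.IsCoordinate`):
`x = j` (`ℓ ≥ 5`), `x = t₂` (`ℓ = 3`, `j x² = (x + 256)³`), `x = t₃` (`ℓ = 2`,
`j x³ = (x + 27)(x + 243)³`), with integral model `X ∈ ℤ((q))`.

`leaf_H1` is the statement of `Board3.leaf_H1` (origin/helper37 `Core/Skeleton4.lean`) with the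
structure `IsModelOf M x X` replaced by its two fields `coeff_neg_one`, `coe_eq` that are used:
apply it as `H339.leaf_H1 M ℓ hℓ hℓM A hA x S hx X hX.coeff_neg_one hX.coe_eq G hGx hGxk`.

Proof: tower law over `K(j)`; `[K(t₂) : K(j)] = 3`, `[K(t₃) : K(j)] = 4` in characteristic `0`
AND in characteristic `ℓ` (`RatTower.lean`), `[F : K(j)] = ψ(M)` on both sides (`S37.H628`).
-/

set_option autoImplicit false
set_option synthInstance.maxHeartbeats 400000

noncomputable section

namespace Fermat.Agent.S37.H339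

/-! ### the two rational functions -/

section Polys

open Polynomial

variable (K : Type*) [Field K]

/-- numerator of `j` as a function of `t₂` -/
def numTwo : K[X] := (X + C 256) ^ 3
/-- denominator of `j` as a function of `t₂` -/
def denTwo : K[X] := X ^ 2
/-- numerator of `j` as a function of `t₃` -/
def numThree : K[X] := (X + C 27) * (X + C 243) ^ 3
/-- denominator of `j` as a function of `t₃` -/
def denThree : K[X] := X ^ 3

theorem natDegree_numTwo : (numTwo K).natDegree = 3 := by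
  rw [numTwo, natDegree_pow, natDegree_X_add_C]

theorem natDegree_denTwo : (denTwo K).natDegree = 2 := by
  rw [denTwo, natDegree_X_pow]

theorem natDegree_numThree : (numThree K).natDegree = 4 := by
  rw [numThree, natDegree_mul (X_add_C_ne_zero _) (pow_ne_zero _ (X_add_C_ne_zero _)),
    natDegree_pow, natDegree_X_add_C, natDegree_X_add_C]

theorem natDegree_denThree : (denThree K).natDegree = 3 := by
  rw [denThree, natDegree_X_pow]

theorem denTwo_ne_zero : denTwo K ≠ 0 := pow_ne_zero _ X_ne_zero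

theorem denThree_ne_zero : denThree K ≠ 0 := pow_ne_zero _ X_ne_zero

variable {K}

theorem isCoprime_X_add_C_X {a : K} (ha : a ≠ 0) : IsCoprime (X + C a : K[X]) X := by
  refine ⟨C a⁻¹, - C a⁻¹, ?_⟩
  have : C a⁻¹ * C a = (1 : K[X]) := by rw [← C_mul, inv_mul_cancel₀ ha, C_1]
  linear_combination this

theorem isCoprime_two (h : (2 : K) ≠ 0) : IsCoprime (numTwo K) (denTwo K) := by
  have h256 : (256 : K) ≠ 0 := by
    have : (256 : K) = 2 ^ 8 := by norm_num
    rw [this]
    exact pow_ne_zero _ h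
  exact ((isCoprime_X_add_C_X h256).pow_left).pow_right

theorem isCoprime_three (h : (3 : K) ≠ 0) : IsCoprime (numThree K) (denThree K) := by
  have h27 : (27 : K) ≠ 0 := by
    have : (27 : K) = 3 ^ 3 := by norm_num
    rw [this]
    exact pow_ne_zero _ h
  have h243 : (243 : K) ≠ 0 := by
    have : (243 : K) = 3 ^ 5 := by norm_num
    rw [this]
    exact pow_ne_zero _ h
  exact (IsCoprime.mul_left (isCoprime_X_add_C_X h27)
    (isCoprime_X_add_C_X h243).pow_left).pow_right

variable {F : Type*} [Field F] [Algebra K F]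

theorem aeval_numTwo (t : F) : aeval t (numTwo K) = (t + 256) ^ 3 := by
  simp [numTwo, map_ofNat]

theorem aeval_denTwo (t : F) : aeval t (denTwo K) = t ^ 2 := by
  simp [denTwo]

theorem aeval_numThree (t : F) : aeval t (numThree K) = (t + 27) * (t + 243) ^ 3 := by
  simp [numThree, map_ofNat]

theorem aeval_denThree (t : F) : aeval t (denThree K) = t ^ 3 := by
  simp [denThree]

end Polys

open ModularCurve AlgebraicCurve HahnSeries IsLocalRing IntermediateField
open Fermat.Agent.S18 (Mod.Om Mod.jOm Mod.IsCoordinate)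

/-- `ℚ̄` -/
local notation "Qb" => AlgebraicClosure ℚ

/-! ### `q`-expansions -/

theorem coeffMap_intCast_jqModC (R : Type*) [CommRing R] :
    coeffMap (Int.castRingHom R) (jqModC ℤ) = jqModC R :=
  (jqModC_eq_map_intCast R).symm

theorem coeffMap_intCast_injective' (R : Type*) [CommRing R] [CharZero R] :
    Function.Injective (coeffMap (Int.castRingHom R)) := by
  intro x y h
  ext n
  have := congrArg (fun z => z.coeff n) h
  simp only [coeffMap_coeff, eq_intCast] at this
  exact Int.cast_injective this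

/-- an element of `F_M` with `q`-expansion `q⁻¹ + …` is transcendental over `ℚ̄` -/
theorem transcendental_of_coeff_neg_one (M : ℕ) (x : Mod.Om M) (X : LaurentSeries ℤ)
    (hX1 : X.coeff (-1) = 1)
    (hXc : (x : LaurentSeries Qb) = coeffMap (Int.castRingHom Qb) X) :
    Transcendental Qb x := by
  intro halg
  have hint : IsIntegral Qb x := halg.isIntegral
  have hdeg : (minpoly Qb x).degree = 1 :=
    IsAlgClosed.degree_eq_one_of_irreducible Qb (minpoly.irreducible hint)
  obtain ⟨c, hc⟩ := minpoly.mem_range_of_degree_eq_one Qb x hdeg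
  have h1 : (x : LaurentSeries Qb).coeff (-1) = 1 := by
    rw [hXc, coeffMap_coeff, hX1, map_one]
  have h2 : (x : LaurentSeries Qb).coeff (-1) = 0 := by
    rw [← hc]
    show (algebraMap Qb (LaurentSeries Qb) c).coeff (-1) = 0
    rw [algebraMap_laurentSeries_eq_single, HahnSeries.coeff_single_of_ne (by norm_num)]
  exact one_ne_zero (h1.symm.trans h2)

/-! ### the generic combination -/

section Combine

variable (M : ℕ) [NeZero M] {ℓ : ℕ} (hℓ : ℓ.Prime) (hℓM : ¬ ℓ ∣ M)
  (A : ValuationSubring Qb) (hA : A.LiesOverPrime ℓ)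

/-- `j̄ ∈ F_{M,k}` -/
def jkElt : modularFunctionFieldFullC (ResidueField A) M :=
  ⟨jqModC (ResidueField A), jqModC_mem_full (ResidueField A) M⟩

set_option maxHeartbeats 2000000 in
include hℓ hℓM hA in
/-- (H1) for a coordinate `t` with `j · Q(t) = P(t)` in characteristic `0` and `ℓ`, the two
rational functions having the same degree `d`. -/
theorem good_H1_of_rel
    (G : Fermat.Agent.S37.Red.Datum A (residue A) (modularFunctionFieldBar M)
      (modularFunctionFieldFullC (ResidueField A) M))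
    (ht : Transcendental Qb G.x)
    (P Q : Polynomial Qb) (Pk Qk : Polynomial (ResidueField A)) (d : ℕ) (hd : 0 < d)
    (hdeg : max P.natDegree Q.natDegree = d) (hdegk : max Pk.natDegree Qk.natDegree = d)
    (hcop : IsCoprime P Q) (hcopk : IsCoprime Pk Qk) (hQ : Q ≠ 0) (hQk : Qk ≠ 0)
    (hrel : Mod.jOm M * Polynomial.aeval G.x Q = Polynomial.aeval G.x P)
    (hrelk : jkElt M A * Polynomial.aeval G.xk Qk = Polynomial.aeval G.xk Pk) :
    FiniteDimensional (IntermediateField.adjoin Qb {G.x}) (modularFunctionFieldBar M) ∧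
      FiniteDimensional (IntermediateField.adjoin (ResidueField A) {G.xk})
        (modularFunctionFieldFullC (ResidueField A) M) ∧
      Algebra.IsSeparable (IntermediateField.adjoin (ResidueField A) {G.xk})
        (modularFunctionFieldFullC (ResidueField A) M) ∧
      Module.finrank (IntermediateField.adjoin Qb {G.x}) (modularFunctionFieldBar M) =
        Module.finrank (IntermediateField.adjoin (ResidueField A) {G.xk})
          (modularFunctionFieldFullC (ResidueField A) M) := by
  haveI : Fact ℓ.Prime := ⟨hℓ⟩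
  haveI : CharP (ResidueField A) ℓ :=
    Fermat.Agent.S37.H448.charP_residueField_of_liesOverPrime hℓ A hA
  haveI : IsAlgClosed (ResidueField A) := Fermat.Agent.S18.H9.resAlgClosed Qb A
  have hchar := Fermat.Agent.S37.H628.natCast_ne_zero_residueField M hℓ hℓM A hA
  have hjfin := Fermat.Agent.S37.H628.finiteDimensional_adjoin_bar M (Mod.jOm M)
    (Fermat.Agent.S18.H333.jOm_coe M)
  have hjrank := Fermat.Agent.S37.H628.finrank_adjoin_bar M (Mod.jOm M)
    (Fermat.Agent.S18.H333.jOm_coe M)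
  have hkfin := Fermat.Agent.S37.H628.finiteDimensional_adjoin_fullC (ResidueField A) M hchar
    (jkElt M A) rfl
  have hkrank := Fermat.Agent.S37.H628.finrank_adjoin_fullC (ResidueField A) M hchar
    (jkElt M A) rfl
  have hksep := Fermat.Agent.S37.H628.isSeparable_adjoin_fullC (ResidueField A) M ℓ hchar
    (jkElt M A) rfl
  have htk : Transcendental (ResidueField A) G.xk := G.xk_transc
  obtain ⟨h1, h2, -⟩ := h1_of_tower G.x (Mod.jOm M) ht P Q hcop hQ hrel hjfin
  obtain ⟨h3, h4, h5⟩ := h1_of_tower G.xk (jkElt M A) htk Pk Qk hcopk hQk hrelk hkfin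
  refine ⟨h1, h3, h5 hksep, ?_⟩
  rw [hdeg, hjrank] at h2
  rw [hdegk, hkrank] at h4
  exact Nat.eq_of_mul_eq_mul_left hd (h2.trans h4.symm)

end Combine

/-! ### the relations in `ℤ((q))` and in characteristic `ℓ` -/

section Relations

variable (M : ℕ) (A : ValuationSubring Qb)

theorem coe_ofNat_bar (n : ℕ) [n.AtLeastTwo] :
    (((ofNat(n) : Mod.Om M)) : LaurentSeries Qb) = ofNat(n) :=
  map_ofNat (modularFunctionFieldBar M).val n

theorem coe_ofNat_fullC (k : Type*) [Field k] (n : ℕ) [n.AtLeastTwo] :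
    (((ofNat(n) : modularFunctionFieldFullC k M)) : LaurentSeries k) = ofNat(n) :=
  map_ofNat (modularFunctionFieldFullC k M).val n

/-- the `t₂`-identity over `ℤ` -/
theorem int_rel_two (x : Mod.Om M) (X : LaurentSeries ℤ)
    (hXc : (x : LaurentSeries Qb) = coeffMap (Int.castRingHom Qb) X)
    (hid : Mod.jOm M * x ^ 2 = (x + 256) ^ 3) :
    jqModC ℤ * X ^ 2 = (X + 256) ^ 3 := by
  apply coeffMap_intCast_injective' Qb
  rw [map_mul, map_pow, map_pow, map_add, map_ofNat, coeffMap_intCast_jqModC, ← hXc,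
    ← Fermat.Agent.S18.H333.jOm_coe M]
  have := congrArg (fun z : Mod.Om M => (z : LaurentSeries Qb)) hid
  simpa only [IntermediateField.coe_mul, IntermediateField.coe_pow, IntermediateField.coe_add,
    coe_ofNat_bar] using this

/-- the `t₃`-identity over `ℤ` -/
theorem int_rel_three (x : Mod.Om M) (X : LaurentSeries ℤ)
    (hXc : (x : LaurentSeries Qb) = coeffMap (Int.castRingHom Qb) X)
    (hid : Mod.jOm M * x ^ 3 = (x + 27) * (x + 243) ^ 3) :
    jqModC ℤ * X ^ 3 = (X + 27) * (X + 243) ^ 3 := by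
  apply coeffMap_intCast_injective' Qb
  rw [map_mul, map_mul, map_pow, map_pow, map_add, map_add, map_ofNat, map_ofNat,
    coeffMap_intCast_jqModC, ← hXc, ← Fermat.Agent.S18.H333.jOm_coe M]
  have := congrArg (fun z : Mod.Om M => (z : LaurentSeries Qb)) hid
  simpa only [IntermediateField.coe_mul, IntermediateField.coe_pow, IntermediateField.coe_add,
    coe_ofNat_bar] using this

/-- the `t₂`-identity in `F_{M,k}` -/
theorem rel_two_fullC (k : Type*) [Field k] (X : LaurentSeries ℤ)
    (hZ : jqModC ℤ * X ^ 2 = (X + 256) ^ 3) (j t : modularFunctionFieldFullC k M)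
    (hj : (j : LaurentSeries k) = jqModC k)
    (ht : (t : LaurentSeries k) = coeffMap (Int.castRingHom k) X) :
    j * t ^ 2 = (t + 256) ^ 3 := by
  apply Subtype.ext
  have := congrArg (coeffMap (Int.castRingHom k)) hZ
  rw [map_mul, map_pow, map_pow, map_add, map_ofNat, coeffMap_intCast_jqModC, ← hj, ← ht] at this
  simpa only [IntermediateField.coe_mul, IntermediateField.coe_pow, IntermediateField.coe_add,
    coe_ofNat_fullC] using this

/-- the `t₃`-identity in `F_{M,k}` -/
theorem rel_three_fullC (k : Type*) [Field k] (X : LaurentSeries ℤ)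
    (hZ : jqModC ℤ * X ^ 3 = (X + 27) * (X + 243) ^ 3) (j t : modularFunctionFieldFullC k M)
    (hj : (j : LaurentSeries k) = jqModC k)
    (ht : (t : LaurentSeries k) = coeffMap (Int.castRingHom k) X) :
    j * t ^ 3 = (t + 27) * (t + 243) ^ 3 := by
  apply Subtype.ext
  have := congrArg (coeffMap (Int.castRingHom k)) hZ
  rw [map_mul, map_mul, map_pow, map_pow, map_add, map_add, map_ofNat, map_ofNat,
    coeffMap_intCast_jqModC, ← hj, ← ht] at this
  simpa only [IntermediateField.coe_mul, IntermediateField.coe_pow, IntermediateField.coe_add,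
    coe_ofNat_fullC] using this

end Relations

/-! ### the leaf -/

set_option maxHeartbeats 4000000 in
/-- **LEAF D4** (`Board3.leaf_H1`): the four (H1) fields of `Red.Datum.Good` for a reduction datum
whose coordinate is an admissible coordinate `x` with integral model `X`
(`hX1`, `hXc` = fields `coeff_neg_one`, `coe_eq` of `Board3.IsModelOf M x X`). -/
theorem leaf_H1 (M ℓ : ℕ) [NeZero M] (hℓ : ℓ.Prime) (hℓM : ¬ ℓ ∣ M)
    (A : ValuationSubring (AlgebraicClosure ℚ)) (hA : A.LiesOverPrime ℓ)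
    (x : Mod.Om M) (S : Finset (Mod.Om M)) (hx : Mod.IsCoordinate M ℓ x S)
    (X : LaurentSeries ℤ) (hX1 : X.coeff (-1) = 1)
    (hXc : (x : LaurentSeries (AlgebraicClosure ℚ)) =
      coeffMap (Int.castRingHom (AlgebraicClosure ℚ)) X)
    (G : Fermat.Agent.S37.Red.Datum A (residue A) (modularFunctionFieldBar M)
      (modularFunctionFieldFullC (ResidueField A) M))
    (hGx : G.x = x)
    (hGxk : ((G.xk : modularFunctionFieldFullC (ResidueField A) M) :
      LaurentSeries (ResidueField A)) = coeffMap (Int.castRingHom (ResidueField A)) X) :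
    FiniteDimensional (IntermediateField.adjoin (AlgebraicClosure ℚ) {G.x})
        (modularFunctionFieldBar M) ∧
      FiniteDimensional (IntermediateField.adjoin (ResidueField A) {G.xk})
        (modularFunctionFieldFullC (ResidueField A) M) ∧
      Algebra.IsSeparable (IntermediateField.adjoin (ResidueField A) {G.xk})
        (modularFunctionFieldFullC (ResidueField A) M) ∧
      Module.finrank (IntermediateField.adjoin (AlgebraicClosure ℚ) {G.x})
          (modularFunctionFieldBar M) =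
        Module.finrank (IntermediateField.adjoin (ResidueField A) {G.xk})
          (modularFunctionFieldFullC (ResidueField A) M) := by
  subst hGx
  haveI : CharP (ResidueField A) ℓ :=
    Fermat.Agent.S37.H448.charP_residueField_of_liesOverPrime hℓ A hA
  rcases hx with ⟨-, hxj, -⟩ | ⟨hrel, -⟩
  · -- `x = j`
    have hx' : ((G.x : Mod.Om M) : LaurentSeries Qb) = jqModC Qb := by
      rw [hxj]
      exact Fermat.Agent.S18.H333.jOm_coe M
    have hXj : X = jqModC ℤ :=
      coeffMap_intCast_injective' Qb (by rw [← hXc, hx', coeffMap_intCast_jqModC])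
    have hxk' : ((G.xk : modularFunctionFieldFullC (ResidueField A) M) :
        LaurentSeries (ResidueField A)) = jqModC (ResidueField A) := by
      rw [hGxk, hXj, coeffMap_intCast_jqModC]
    exact Fermat.Agent.S37.H628.good_H1 M hℓ hℓM A hA G hx' hxk'
  · have ht := transcendental_of_coeff_neg_one M G.x X hX1 hXc
    rcases hrel with ⟨h3, hid, -⟩ | ⟨h2, hid, -⟩
    · -- `x = t₂`, `ℓ = 3`
      subst h3
      have h2k : (2 : ResidueField A) ≠ 0 := by
        intro h
        have h' : ((2 : ℕ) : ResidueField A) = 0 := by exact_mod_cast h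
        rw [CharP.cast_eq_zero_iff (ResidueField A) 3] at h'
        omega
      have hZ := int_rel_two M G.x X hXc hid
      have hrelk := rel_two_fullC M (ResidueField A) X hZ (jkElt M A) G.xk rfl hGxk
      refine good_H1_of_rel M hℓ hℓM A hA G ht (numTwo Qb) (denTwo Qb)
        (numTwo (ResidueField A)) (denTwo (ResidueField A)) 3 (by norm_num) ?_ ?_
        (isCoprime_two two_ne_zero) (isCoprime_two h2k) (denTwo_ne_zero _) (denTwo_ne_zero _)
        ?_ ?_
      · rw [natDegree_numTwo, natDegree_denTwo]; rfl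
      · rw [natDegree_numTwo, natDegree_denTwo]; rfl
      · rw [aeval_denTwo, aeval_numTwo]; exact hid
      · rw [aeval_denTwo, aeval_numTwo]; exact hrelk
    · -- `x = t₃`, `ℓ = 2`
      subst h2
      have h3k : (3 : ResidueField A) ≠ 0 := by
        intro h
        have h' : ((3 : ℕ) : ResidueField A) = 0 := by exact_mod_cast h
        rw [CharP.cast_eq_zero_iff (ResidueField A) 2] at h'
        omega
      have hZ := int_rel_three M G.x X hXc hid
      have hrelk := rel_three_fullC M (ResidueField A) X hZ (jkElt M A) G.xk rfl hGxk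
      refine good_H1_of_rel M hℓ hℓM A hA G ht (numThree Qb) (denThree Qb)
        (numThree (ResidueField A)) (denThree (ResidueField A)) 4 (by norm_num) ?_ ?_
        (isCoprime_three three_ne_zero) (isCoprime_three h3k) (denThree_ne_zero _)
        (denThree_ne_zero _) ?_ ?_
      · rw [natDegree_numThree, natDegree_denThree]; rfl
      · rw [natDegree_numThree, natDegree_denThree]; rfl
      · rw [aeval_denThree, aeval_numThree]; exact hid
      · rw [aeval_denThree, aeval_numThree]; exact hrelk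

end Fermat.Agent.S37.H339

end
end
-- ===== PACK-END S37/H339/LeafH1.lean

-- ===== PACK-BEGIN S37/H579/RimOfBase.lean
section










/-!
# S37 / node_rim — assembly through the `Red` route, from (H3) alone (helper579)

NODE [RIM] (`ReductionInputsModL A N`, the place reduction map with the Prelude's (i), (ii) and
PGI) for every prime `ℓ ∤ N` and every valuation subring `A ⊆ ℚ̄` over `ℓ`, from the ONE remaining
input: normality (H3) of the special fibre of the `j`-line model.

* `node_rim_of_lift` : from `LiftFin A N`, `LiftInf A N` ((H3) over `A`, `Core.IntElt` language =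
  the conclusions of `H448.lift_fin_of_base_liesOver` / `lift_inf_of_base_liesOver`);
* `node_rim_of_base` : from (H3) for the functions defined over `𝔽_ℓ` (hypotheses `hbase` of H448);
* `node_rim_of_ring` : from (H3) for a model over a base ring `R₀` (e.g. `ℤ_(ℓ)`), in the shape
  `h0` of `H448.base_fin_of_ring` (+ the analogous shape at infinity).

Chain (all landed, no further hypothesis): `Red.H940.mainStatement` (RED-MAIN, helper940/160/399),
`Red.modG` + `node_rim_of_modG` (helper40), `H568.valueGroupHyp_modular`, `H628.good_H1` (H1),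
`Red.H217.good_of` (H4' from H1), `H448` (ascent `𝔽_ℓ → k`, CoreData, PGI), `H700.pgi`.
New here: the bridge between the `q`-expansion language of (H3) and `Red.Datum.chart/chartk`
(`isIntegralElem_of_mem_chartk`, `mem_chart_of_isIntegralElem`, `lift_fin_modGj`,
`lift_inf_modGj`, `good_modGj`).
-/

set_option autoImplicit false
set_option synthInstance.maxHeartbeats 400000
set_option linter.unusedSectionVars false

noncomputable section

namespace Fermat.Agent.S37.H579.RimBase

open ModularCurve AlgebraicCurve HahnSeries IsLocalRing Polynomial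
open Fermat.Agent.S37.Red Fermat.Agent.S37.Core Fermat.Agent.S37.H448

/-! ### generic: integrality along ring homomorphisms -/

section Generic

variable {R R' S : Type*} [CommRing R] [CommRing R'] [CommRing S]

/-- integrality with respect to `h` lifts along a surjection `f` onto the source of `h` -/
theorem isIntegralElem_comp_of_surjective (f : R →+* R') (hf : Function.Surjective f)
    (h : R' →+* S) {x : S} (hx : h.IsIntegralElem x) : (h.comp f).IsIntegralElem x := by
  obtain ⟨p, hp, hpx⟩ := hx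
  have hl : p ∈ Polynomial.lifts f :=
    (Polynomial.lifts_iff_coeff_lifts p).mpr fun i => by
      obtain ⟨r, hr⟩ := hf (p.coeff i)
      exact ⟨r, hr⟩
  obtain ⟨q, hq, -, hqm⟩ := Polynomial.lifts_and_natDegree_eq_and_monic hl hp
  refine ⟨q, hqm, ?_⟩
  rw [← Polynomial.eval₂_map, hq, hpx]

/-- integrality over `k[s] ⊆ F`, transported along `ι : F → L`, in `IsIntegralElem` form -/
theorem isIntegralElem_of_isIntegral_adjoin {k F L : Type*} [Field k] [Field F] [CommRing L]
    [Algebra k F] (ι : F →+* L) (e : k[X] →+* L) {s c : F}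
    (he_C : ∀ a, e (Polynomial.C a) = ι (algebraMap k F a)) (he_X : e Polynomial.X = ι s)
    (hc : IsIntegral (Algebra.adjoin k ({s} : Set F)) c) : e.IsIntegralElem (ι c) := by
  let sB : Algebra.adjoin k ({s} : Set F) := ⟨s, Algebra.subset_adjoin rfl⟩
  let f : k[X] →+* Algebra.adjoin k ({s} : Set F) := (Polynomial.aeval sB).toRingHom
  have hf : Function.Surjective f := by
    intro b
    have hb : (b : F) ∈ (Polynomial.aeval (R := k) s).range := by
      rw [← Algebra.adjoin_singleton_eq_range_aeval]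
      exact b.2
    obtain ⟨p, hp⟩ := hb
    refine ⟨p, Subtype.ext ?_⟩
    show ((Polynomial.aeval sB p : Algebra.adjoin k ({s} : Set F)) : F) = b
    rw [Polynomial.aeval_subalgebra_coe]
    exact hp
  have h1 : (ι.comp (algebraMap (Algebra.adjoin k ({s} : Set F)) F)).IsIntegralElem (ι c) :=
    RingHom.IsIntegralElem.map hc ι
  have h2 := isIntegralElem_comp_of_surjective f hf _ h1
  have heq : (ι.comp (algebraMap (Algebra.adjoin k ({s} : Set F)) F)).comp f = e := by
    apply Polynomial.ringHom_ext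
    · intro a
      rw [he_C]
      show ι ((Polynomial.aeval sB (Polynomial.C a) : Algebra.adjoin k ({s} : Set F)) : F) = _
      rw [Polynomial.aeval_C]
      rfl
    · rw [he_X]
      show ι ((Polynomial.aeval sB Polynomial.X : Algebra.adjoin k ({s} : Set F)) : F) = _
      rw [Polynomial.aeval_X]
  rw [heq] at h2
  exact h2

/-- integrality w.r.t. a ring hom with range in a subring `T` gives integrality over `T` -/
theorem isIntegral_of_isIntegralElem_range_le {R L : Type*} [CommRing R] [CommRing L]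
    (e : R →+* L) (T : Subring L) (h : ∀ r, e r ∈ T) {x : L} (hx : e.IsIntegralElem x) :
    IsIntegral T x := by
  have h1 : (T.subtype.comp (e.codRestrict T h)).IsIntegralElem x := by
    have : T.subtype.comp (e.codRestrict T h) = e := RingHom.ext fun r => rfl
    rw [this]
    exact hx
  exact RingHom.IsIntegralElem.of_comp h1

/-- range of an evaluation `R[X] → L` lies in every subring containing the constants and the
point -/
theorem eval₂RingHom_mem {R L : Type*} [CommRing R] [CommRing L] (φ : R →+* L) (u : L)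
    (T : Subring L) (hC : ∀ a, φ a ∈ T) (hu : u ∈ T) (p : R[X]) :
    Polynomial.eval₂RingHom φ u p ∈ T := by
  show Polynomial.eval₂ φ u p ∈ T
  rw [Polynomial.eval₂_eq_sum_range]
  exact sum_mem fun i _ => mul_mem (hC _) (pow_mem hu i)

end Generic

/-! ### bridge `q`-expansion language ↔ `Red.Datum` language -/

section Bridge

variable {N : ℕ} {A : ValuationSubring Qb} (G : Datum A (residue A) (FN N) (FNk A N))

/-- `c ∈ G.chartk s` in `q`-expansion language -/
theorem isIntegralElem_of_mem_chartk {s c : FNk A N} (hc : c ∈ G.chartk s) :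
    (evalSer (kA A) (s : LaurentSeries (kA A))).IsIntegralElem (c : LaurentSeries (kA A)) := by
  have hc' : IsIntegral (Algebra.adjoin (kA A) {s}) c := hc
  refine isIntegralElem_of_isIntegral_adjoin (algebraMap (FNk A N) (LaurentSeries (kA A)))
    (evalSer (kA A) (s : LaurentSeries (kA A))) ?_ ?_ hc'
  · intro a
    rw [evalSer_C]
    show HahnSeries.C a = algebraMap (kA A) (LaurentSeries (kA A)) a
    rw [algebraMap_laurentSeries_eq_single]
    rfl
  · rw [evalSer_X]
    rfl

/-- `b ∈ G.chart t` from `q`-expansion language: `y ∈ A((q))` integral over `A[u]`, where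
`u ∈ A((q))` is the `q`-expansion of `t`. -/
theorem mem_chart_of_isIntegralElem {t b : FN N} (u y : LaurentSeries A)
    (hu : coeffMap A.subtype u = (t : LaurentSeries Qb))
    (hy : coeffMap A.subtype y = (b : LaurentSeries Qb))
    (hint : (evalSeries A u).IsIntegralElem y) : b ∈ G.chart t := by
  show IsIntegral (G.polyRing t) b
  refine Fermat.Agent.S37.Red.H759.isIntegral_of_map_subring
    (algebraMap (FN N) (LaurentSeries Qb)) (algebraMap (FN N) (LaurentSeries Qb)).injective _ ?_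
  have h1 : ((coeffMap A.subtype).comp (evalSeries A u)).IsIntegralElem
      (coeffMap A.subtype y) := RingHom.IsIntegralElem.map hint _
  have heq : (coeffMap A.subtype).comp (evalSeries A u) =
      Polynomial.eval₂RingHom ((coeffMap A.subtype).comp (HahnSeries.C : A →+* LaurentSeries A))
        (coeffMap A.subtype u) := by
    apply Polynomial.ringHom_ext
    · intro a
      simp [evalSeries]
    · simp [evalSeries]
  rw [heq, hy] at h1
  refine isIntegral_of_isIntegralElem_range_le _ _ (fun p => ?_) h1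
  refine eval₂RingHom_mem _ _ _ (fun a => ?_) ?_ p
  · refine Subring.mem_map.mpr ⟨algebraMap Qb (FN N) (a : Qb), ?_, ?_⟩
    · exact (le_sup_left : G.constRing ≤ G.polyRing t)
        (Subring.mem_map.mpr ⟨(a : Qb), a.2, rfl⟩)
    · show ((algebraMap Qb (FN N) (a : Qb) : FN N) : LaurentSeries Qb) = _
      rw [RingHom.comp_apply, coeffMap_C']
      show algebraMap Qb (LaurentSeries Qb) (a : Qb) = _
      rw [algebraMap_laurentSeries_eq_single]
      rfl
  · rw [hu]
    exact Subring.mem_map.mpr ⟨t, (le_sup_right : Subring.closure {t} ≤ G.polyRing t)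
      (Subring.subset_closure rfl), rfl⟩

end Bridge

/-! ### (H3) in `IntElt` language ⟹ `Good` ⟹ NODE [RIM] -/

section Lift

variable (A : ValuationSubring Qb) (N : ℕ)

/-- **(H3), finite chart, `IntElt` form** (conclusion of `H448.lift_fin_of_base_liesOver`):
every element of `F_k` integral over `k[j̄]` is the reduction of an `A`-integral `q`-series of
`F̄_N` integral over `A[j]`. -/
def LiftFin : Prop :=
  ∀ z : FNk A N, (evalSer (kA A) (jqModC (kA A))).IsIntegralElem (z : LaurentSeries (kA A)) →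
    ∃ c : IntElt A N, c.IsFin ∧ c.sp = z

/-- **(H3), chart at infinity, `IntElt` form** (conclusion of
`H448.lift_inf_of_base_liesOver`). -/
def LiftInf : Prop :=
  ∀ z : FNk A N, (evalSer (kA A) (jqModC (kA A))⁻¹).IsIntegralElem (z : LaurentSeries (kA A)) →
    ∃ c : IntElt A N, c.IsInf ∧ c.sp = z

variable {A N}

theorem coe_x_modGj (hVG : ModVG N A) (htr : Transcendental (kA A) (jk N A)) :
    (((modGj hVG htr).x : FN N) : LaurentSeries Qb) = jqModC Qb :=
  coeffMap_jqModC A.subtype

theorem xk_modGj (hVG : ModVG N A) (htr : Transcendental (kA A) (jk N A)) :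
    (modGj hVG htr).xk = jk N A :=
  modρ_ofSeries hVG (jqModC A) (coeffMap_jqModC_mem_bar N A) (coeffMap_jqModC_mem_fullC N A)

theorem coe_xk_modGj (hVG : ModVG N A) (htr : Transcendental (kA A) (jk N A)) :
    (((modGj hVG htr).xk : FNk A N) : LaurentSeries (kA A)) = jqModC (kA A) := by
  rw [xk_modGj]
  exact coeffMap_jqModC (residue A)

/-- field `lift_fin` of `Good` for the modular datum with coordinate `j` -/
theorem lift_fin_modGj (hVG : ModVG N A) (htr : Transcendental (kA A) (jk N A))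
    (h : LiftFin A N) :
    ∀ c ∈ (modGj hVG htr).chartk (modGj hVG htr).xk,
      ∃ b ∈ (modGj hVG htr).chart (modGj hVG htr).x,
        ∃ hb : b ∈ (modGj hVG htr).O, (modGj hVG htr).ρ ⟨b, hb⟩ = c := by
  intro c hc
  have h1 := isIntegralElem_of_mem_chartk (modGj hVG htr) hc
  rw [coe_xk_modGj] at h1
  obtain ⟨c', hfin, hsp⟩ := h c h1
  obtain ⟨hO, hρ⟩ := modG_link hVG c'.y c'.mem c'.memk
  refine ⟨c'.gen, ?_, hO, ?_⟩
  · exact mem_chart_of_isIntegralElem (modGj hVG htr) (jqModC A) c'.y rfl rfl hfin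
  · exact hρ.trans hsp

/-- field `lift_inf` of `Good` for the modular datum with coordinate `j` -/
theorem lift_inf_modGj (hVG : ModVG N A) (htr : Transcendental (kA A) (jk N A))
    (h : LiftInf A N) :
    ∀ c ∈ (modGj hVG htr).chartk (modGj hVG htr).xk⁻¹,
      ∃ b ∈ (modGj hVG htr).chart (modGj hVG htr).x⁻¹,
        ∃ hb : b ∈ (modGj hVG htr).O, (modGj hVG htr).ρ ⟨b, hb⟩ = c := by
  intro c hc
  have h1 := isIntegralElem_of_mem_chartk (modGj hVG htr) hc
  have h2 : ((((modGj hVG htr).xk)⁻¹ : FNk A N) : LaurentSeries (kA A)) =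
      (jqModC (kA A))⁻¹ := by
    rw [IntermediateField.coe_inv, coe_xk_modGj]
  rw [h2] at h1
  obtain ⟨c', ⟨u, hu, hint⟩, hsp⟩ := h c h1
  obtain ⟨hO, hρ⟩ := modG_link hVG c'.y c'.mem c'.memk
  refine ⟨c'.gen, ?_, hO, ?_⟩
  · refine mem_chart_of_isIntegralElem (modGj hVG htr) u c'.y ?_ rfl hint
    rw [IntermediateField.coe_inv, coe_x_modGj]
    have h3 := congrArg (coeffMap A.subtype) hu
    rw [map_mul, map_one, coeffMap_jqModC] at h3
    exact eq_inv_of_mul_eq_one_left h3
  · exact hρ.trans hsp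

end Lift

section Node

variable (N : ℕ) [NeZero N] {ℓ : ℕ} (hℓ : ℓ.Prime) (hℓN : ¬ ℓ ∣ N)
  (A : ValuationSubring Qb) (hA : A.LiesOverPrime ℓ)

include hℓ hℓN hA

/-- the value-group hypothesis for the modular function fields -/
theorem modVG : ModVG N A :=
  Fermat.Agent.S37.H568.valueGroupHyp_modular (coreData_residueField N hℓ hℓN A hA)

omit [NeZero N] hℓ hℓN hA in
/-- `j̄` is transcendental over `k` -/
theorem transcendental_jk : Transcendental (kA A) (jk N A) := by
  have h := Fermat.Agent.S18.H739.transcendental_jC (kA A) N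
  have heq : jk N A = ⟨jqModC (kA A), jqModC_mem_full (kA A) N⟩ := by
    apply Subtype.ext
    exact coeffMap_jqModC (residue A)
  rw [heq]
  exact h

/-- **`Good` for the modular datum with coordinate `j`, from (H3).** -/
theorem good_modGj (hfin : LiftFin A N) (hinf : LiftInf A N) :
    (modGj (modVG N hℓ hℓN A hA) (transcendental_jk N A)).Good := by
  obtain ⟨h1, h2, h3, h4⟩ := Fermat.Agent.S37.H628.good_H1 N hℓ hℓN A hA
    (modGj (modVG N hℓ hℓN A hA) (transcendental_jk N A))
    (coe_x_modGj _ _) (coe_xk_modGj _ _)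
  exact Fermat.Agent.S37.Red.H217.good_of _ h1 h2 h3 h4
    (lift_fin_modGj _ _ hfin) (lift_inf_modGj _ _ hinf)

/-- **NODE [RIM] from (H3) in `IntElt` form** (`ℓ ∤ N`, any `ℓ`). -/
theorem node_rim_of_lift (hfin : LiftFin A N) (hinf : LiftInf A N) :
    ReductionInputsModL A N :=
  node_rim_of_modG Fermat.Agent.S37.Red.H940.mainStatement (modVG N hℓ hℓN A hA) (jqModC A)
    (coeffMap_jqModC_mem_bar N A) (coeffMap_jqModC_mem_fullC N A) (transcendental_jk N A)
    (good_modGj N hℓ hℓN A hA hfin hinf)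
    (principalGeneratedByIntegral N hℓ hℓN A hA)

end Node

section NodeBase

variable (N : ℕ) [NeZero N] {ℓ : ℕ} [hF : Fact ℓ.Prime] (hℓN : ¬ ℓ ∣ N)
  (A : ValuationSubring Qb) (hA : A.LiesOverPrime ℓ)

include hF hℓN hA

/-- **NODE [RIM] from (H3) over `𝔽_ℓ`** (the hypotheses `hbase` of
`H448.lift_fin_of_base_liesOver` / `lift_inf_of_base_liesOver`): normality of the special fibre
is needed only for the functions defined over `𝔽_ℓ`. -/
theorem node_rim_of_base
    (hbfin : ∀ (φ : ZMod ℓ →+* kA A) (w : LaurentSeries (ZMod ℓ)),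
      w ∈ modularFunctionFieldFullC (ZMod ℓ) N →
      (evalSer (ZMod ℓ) (jqModC (ZMod ℓ))).IsIntegralElem w →
      ∃ c : IntElt A N, c.IsFin ∧ coeffMap (residue A) c.y = coeffMap φ w)
    (hbinf : ∀ (φ : ZMod ℓ →+* kA A) (w : LaurentSeries (ZMod ℓ)),
      w ∈ modularFunctionFieldFullC (ZMod ℓ) N →
      (evalSer (ZMod ℓ) (jqModC (ZMod ℓ))⁻¹).IsIntegralElem w →
      ∃ c : IntElt A N, c.IsInf ∧ coeffMap (residue A) c.y = coeffMap φ w) :
    ReductionInputsModL A N :=
  node_rim_of_lift N hF.out hℓN A hA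
    (fun z hz => lift_fin_of_base_liesOver A hA hbfin z hz)
    (fun z hz => lift_inf_of_base_liesOver A hA hbinf z hz)

/-- **NODE [RIM] from (H3) for a model over a base ring `R₀`** (e.g. `R₀ = ℤ_(ℓ)`):
* `h0fin` : every `w ∈ F_{N,𝔽_ℓ}` integral over `𝔽_ℓ[j̄]` is the reduction of a series
  `y₀ ∈ R₀((q))`, integral over `R₀[j]`, whose image in `ℚ̄((q))` lies in `F̄_N`;
* `h0inf` : the same with `j⁻¹` (`u₀ ∈ R₀((q))` the inverse of `j`). -/
theorem node_rim_of_ring {R₀ : Type*} [CommRing R₀] (ψ : R₀ →+* A) (ρ₀ : R₀ →+* ZMod ℓ)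
    (φ₀ : ZMod ℓ →+* kA A) (hcomp : (residue A).comp ψ = φ₀.comp ρ₀)
    (h0fin : ∀ w : LaurentSeries (ZMod ℓ), w ∈ modularFunctionFieldFullC (ZMod ℓ) N →
      (evalSer (ZMod ℓ) (jqModC (ZMod ℓ))).IsIntegralElem w →
      ∃ y₀ : LaurentSeries R₀,
        coeffMap (A.subtype.comp ψ) y₀ ∈ modularFunctionFieldBar N ∧
        (evalSer R₀ (jqModC R₀)).IsIntegralElem y₀ ∧ coeffMap ρ₀ y₀ = w)
    (h0inf : ∀ w : LaurentSeries (ZMod ℓ), w ∈ modularFunctionFieldFullC (ZMod ℓ) N →
      (evalSer (ZMod ℓ) (jqModC (ZMod ℓ))⁻¹).IsIntegralElem w →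
      ∃ u₀ y₀ : LaurentSeries R₀, u₀ * jqModC R₀ = 1 ∧
        coeffMap (A.subtype.comp ψ) y₀ ∈ modularFunctionFieldBar N ∧
        (evalSer R₀ u₀).IsIntegralElem y₀ ∧ coeffMap ρ₀ y₀ = w) :
    ReductionInputsModL A N := by
  have hφ : ∀ φ : ZMod ℓ →+* kA A, φ = φ₀ := fun φ => Subsingleton.elim _ _
  have hmemk := reduction_mem_fullC N hF.out hℓN A hA
  refine node_rim_of_base N hℓN A hA ?_ ?_
  · intro φ w hw hwi
    rw [hφ φ]
    exact base_fin_of_ring A ψ ρ₀ φ₀ hcomp hmemk h0fin w hw hwi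
  · intro φ w hw hwi
    rw [hφ φ]
    obtain ⟨u₀, y₀, hu, hy1, hy2, hy3⟩ := h0inf w hw hwi
    have hmem : coeffMap A.subtype (coeffMap ψ y₀) ∈ modularFunctionFieldBar N := by
      rw [coeffMap_coeffMap]
      exact hy1
    refine ⟨⟨coeffMap ψ y₀, hmem, hmemk _ hmem⟩, ⟨coeffMap ψ u₀, ?_, ?_⟩, ?_⟩
    · have h1 := congrArg (coeffMap ψ) hu
      rw [map_mul, map_one, coeffMap_jqModC] at h1
      exact h1
    · exact isIntegralElem_coeffMap ψ hy2
    · show coeffMap (residue A) (coeffMap ψ y₀) = coeffMap φ₀ w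
      rw [coeffMap_coeffMap, hcomp, ← coeffMap_coeffMap, hy3]

end NodeBase

end Fermat.Agent.S37.H579.RimBase

end
end
-- ===== PACK-END S37/H579/RimOfBase.lean

-- ===== PACK-BEGIN A3/H499/OrthInst.lean
section




/-!
# A3 / GR-ORTH (helper499): the leaf `A3.H739.OrthLeaf`, UNCONDITIONALLY

`orthLeaf : OrthLeaf N V hVG` for every level `N`, every prime `ℓ ∤ N` and every valuation ring
`V ⊆ Q̄` above `ℓ` — the field `orthonormal` of the `GoodRed` instance of `X₀(N)`
(`O = modO`, `red = modρ`, `I = inertiaImage V N`).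

Route D (`OrthDatum.lean`): only the degree equality `[F_N : Q̄(j)] = ψ(N) = [F_{N,k} : k(j̄)]`
(`S37.H628.good_H1`, unconditional) and inertia-fixed lifts (`exists_fixed_lift`: the generators
`j(q^d)` have rational `q`-expansions, constants have Teichmüller lifts) are used.
No place map, no `div_red`, no normality (H3).
-/

set_option autoImplicit false
set_option synthInstance.maxHeartbeats 400000
set_option linter.unusedSectionVars false
set_option linter.style.longLine false

noncomputable section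

namespace Fermat.Agent.A3.H499

open AlgebraicCurve ModularCurve HahnSeries IsLocalRing
open Fermat.Agent.S19 (GalQ IsInertiaAt)
open Fermat.Agent.S37.Red (Qb FN kA FNk ModVG modO modρ modFrac modGj jk ofSeries
  modρ_ofSeries coe_ofSeries inv_mem_modO jqNModC_mem_bar)
open Fermat.Agent.A3.H739

variable {N : ℕ} {V : ValuationSubring _root_.Fermat.Agent.S37.Red.Qb}

/-- the reductions which have an inertia-fixed lift, as a set of series -/
def fixImage (hVG : ModVG N V) : Set (LaurentSeries (kA V)) :=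
  {g | ∃ u : modO hVG, (∀ γ ∈ inertiaImage V N, γ • ((u : modO hVG) : FN N) = u) ∧
    ((modρ hVG u : FNk V N) : LaurentSeries (kA V)) = g}

theorem fixImage_mul (hVG : ModVG N V) {a b : LaurentSeries (kA V)}
    (ha : a ∈ fixImage hVG) (hb : b ∈ fixImage hVG) : a * b ∈ fixImage hVG := by
  obtain ⟨u, hu, rfl⟩ := ha
  obtain ⟨v, hv, rfl⟩ := hb
  refine ⟨u * v, fun γ hγ => ?_, ?_⟩
  · show γ • (((u : modO hVG) : FN N) * ((v : modO hVG) : FN N)) = _
    rw [smul_mul', hu γ hγ, hv γ hγ]
    rfl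
  · rw [(modρ hVG).map_mul u v]
    rfl

theorem fixImage_add (hVG : ModVG N V) {a b : LaurentSeries (kA V)}
    (ha : a ∈ fixImage hVG) (hb : b ∈ fixImage hVG) : a + b ∈ fixImage hVG := by
  obtain ⟨u, hu, rfl⟩ := ha
  obtain ⟨v, hv, rfl⟩ := hb
  refine ⟨u + v, fun γ hγ => ?_, ?_⟩
  · show γ • (((u : modO hVG) : FN N) + ((v : modO hVG) : FN N)) = _
    rw [smul_add, hu γ hγ, hv γ hγ]
    rfl
  · rw [(modρ hVG).map_add u v]
    rfl

theorem fixImage_one (hVG : ModVG N V) : (1 : LaurentSeries (kA V)) ∈ fixImage hVG :=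
  ⟨1, fun γ _ => smul_one γ, by rw [(modρ hVG).map_one]; rfl⟩

theorem fixImage_zero (hVG : ModVG N V) : (0 : LaurentSeries (kA V)) ∈ fixImage hVG :=
  ⟨0, fun γ _ => smul_zero γ, by rw [(modρ hVG).map_zero]; rfl⟩

theorem fixImage_algebraMap {ℓ : ℕ} [Fact ℓ.Prime] (hV : V.LiesOverPrime ℓ) (hVG : ModVG N V)
    (c : kA V) : algebraMap (kA V) (LaurentSeries (kA V)) c ∈ fixImage hVG := by
  obtain ⟨a, hac, hfix⟩ := gr_I_lift_const N hV c
  refine ⟨⟨algebraMap _root_.Fermat.Agent.S37.Red.Qb (FN N) (a : _root_.Fermat.Agent.S37.Red.Qb), (modFrac N V).ctx.A_mem a⟩, fun γ hγ => ?_, ?_⟩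
  · show γ • (algebraMap _root_.Fermat.Agent.S37.Red.Qb (FN N) (a : _root_.Fermat.Agent.S37.Red.Qb)) = algebraMap _root_.Fermat.Agent.S37.Red.Qb (FN N) (a : _root_.Fermat.Agent.S37.Red.Qb)
    rw [SemilinearAut.smul_algebraMap, hfix γ hγ]
  · have h := (modFrac N V).ctx.ρ_A a
    have h' : modρ hVG ⟨algebraMap _root_.Fermat.Agent.S37.Red.Qb (FN N) (a : _root_.Fermat.Agent.S37.Red.Qb), (modFrac N V).ctx.A_mem a⟩ =
        algebraMap (kA V) (FNk V N) (residue V a) := h
    rw [h', hac]
    rfl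

theorem fixImage_inv (hVG : ModVG N V) {a : LaurentSeries (kA V)}
    (ha : a ∈ fixImage hVG) : a⁻¹ ∈ fixImage hVG := by
  obtain ⟨u, hufix, rfl⟩ := ha
  by_cases hu : modρ hVG u = 0
  · refine ⟨0, fun γ _ => smul_zero γ, ?_⟩
    rw [hu, (modρ hVG).map_zero]
    show (0 : LaurentSeries (kA V)) = (0 : LaurentSeries (kA V))⁻¹
    rw [inv_zero]
  · refine ⟨⟨((u : FN N))⁻¹, inv_mem_modO hVG u hu⟩, fun γ hγ => ?_, ?_⟩
    · show γ • ((u : FN N))⁻¹ = ((u : FN N))⁻¹
      rw [smul_inv'', hufix γ hγ]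
    · have hu0 : (u : FN N) ≠ 0 := by
        intro h0
        apply hu
        have : u = 0 := Subtype.ext h0
        rw [this, (modρ hVG).map_zero]
      have hmul : (⟨((u : FN N))⁻¹, inv_mem_modO hVG u hu⟩ : modO hVG) * u = 1 :=
        Subtype.ext (inv_mul_cancel₀ hu0)
      have h1 : modρ hVG ⟨((u : FN N))⁻¹, inv_mem_modO hVG u hu⟩ * modρ hVG u = 1 := by
        rw [← (modρ hVG).map_mul, hmul, (modρ hVG).map_one]
      have h2 : modρ hVG ⟨((u : FN N))⁻¹, inv_mem_modO hVG u hu⟩ = (modρ hVG u)⁻¹ :=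
        eq_inv_of_mul_eq_one_left h1
      rw [h2]
      rfl

/-- the reductions with an inertia-fixed lift form an intermediate field -/
def fixField {ℓ : ℕ} [Fact ℓ.Prime] (hV : V.LiesOverPrime ℓ) (hVG : ModVG N V) :
    IntermediateField (kA V) (LaurentSeries (kA V)) where
  carrier := fixImage hVG
  mul_mem' := fun ha hb => fixImage_mul hVG ha hb
  one_mem' := fixImage_one hVG
  add_mem' := fun ha hb => fixImage_add hVG ha hb
  zero_mem' := fixImage_zero hVG
  algebraMap_mem' := fun c => fixImage_algebraMap hV hVG c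
  inv_mem' := fun _ ha => fixImage_inv hVG ha

/-- the generators `j(q^d)`, `d ∣ N`, of `F_{N,k}` have inertia-fixed lifts -/
theorem generators_mem_fixField {ℓ : ℕ} [Fact ℓ.Prime] (hV : V.LiesOverPrime ℓ)
    (hVG : ModVG N V) :
    divisorExpansionsC (kA V) N ⊆ (fixField hV hVG : Set (LaurentSeries (kA V))) := by
  rintro g ⟨d, hne, hd, rfl⟩
  have := hne
  have hy : coeffMap V.subtype (jqNModC V d) ∈ modularFunctionFieldBar N := by
    rw [coeffMap_jqNModC]
    exact jqNModC_mem_bar hd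
  have hyk : coeffMap (residue V) (jqNModC V d) ∈ modularFunctionFieldFullC (kA V) N := by
    rw [coeffMap_jqNModC]
    exact jqModCd_mem_full (kA V) N hd
  refine ⟨ofSeries hVG (jqNModC V d) hy hyk, fun γ hγ => ?_, ?_⟩
  · obtain ⟨σ, -, rfl⟩ := (mem_inertiaImage V).mp hγ
    apply Subtype.ext
    rw [coe_arithmeticGalois_smul, coe_ofSeries]
    show coeffMap (σ : _root_.Fermat.Agent.S37.Red.Qb →+* _root_.Fermat.Agent.S37.Red.Qb) (coeffMap V.subtype (jqNModC V d)) =
      coeffMap V.subtype (jqNModC V d)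
    rw [coeffMap_jqNModC, coeffMap_jqNModC]
  · rw [modρ_ofSeries]
    show coeffMap (residue V) (jqNModC V d) = _
    rw [coeffMap_jqNModC]
    rfl

/-- **Inertia-fixed lifts**: every element of `F_{N,k}` is the reduction of an inertia-fixed
element of `O`. -/
theorem exists_fixed_lift {ℓ : ℕ} [Fact ℓ.Prime] (hV : V.LiesOverPrime ℓ) (hVG : ModVG N V)
    (c : FNk V N) :
    ∃ f : modO hVG, modρ hVG f = c ∧
      ∀ γ ∈ inertiaImage V N, γ • ((f : modO hVG) : FN N) = f := by
  have hle : modularFunctionFieldFullC (kA V) N ≤ fixField hV hVG :=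
    IntermediateField.adjoin_le_iff.mpr (generators_mem_fixField hV hVG)
  obtain ⟨u, hufix, hu⟩ := hle c.2
  exact ⟨u, Subtype.ext hu, hufix⟩

/-- inertia fixes the coordinate `j` -/
theorem inertia_smul_x (hVG : ModVG N V) (htr : Transcendental (kA V) (jk N V))
    (γ : SemilinearAut _root_.Fermat.Agent.S37.Red.Qb (FN N)) (hγ : γ ∈ inertiaImage V N) :
    γ • (modGj hVG htr).x = (modGj hVG htr).x := by
  obtain ⟨σ, -, rfl⟩ := (mem_inertiaImage V).mp hγ
  apply Subtype.ext
  rw [coe_arithmeticGalois_smul]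
  show coeffMap (σ : _root_.Fermat.Agent.S37.Red.Qb →+* _root_.Fermat.Agent.S37.Red.Qb) (coeffMap V.subtype (jqModC V)) = coeffMap V.subtype (jqModC V)
  rw [coeffMap_jqModC, coeffMap_jqModC]

/-- **Leaf GR-ORTH** of the `GoodRed` instance of `X₀(N)`: unconditional. -/
theorem orthLeaf (N : ℕ) [NeZero N] {ℓ : ℕ} [Fact ℓ.Prime] (hℓN : ¬ ℓ ∣ N)
    (V : ValuationSubring _root_.Fermat.Agent.S37.Red.Qb) (hV : V.LiesOverPrime ℓ) (hVG : ModVG N V) :
    OrthLeaf N V hVG := by
  have htr : Transcendental (kA V) (jk N V) := Fermat.Agent.S37.H579.RimBase.transcendental_jk N V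
  obtain ⟨h1, h2, -, h4⟩ := Fermat.Agent.S37.H628.good_H1 N Fact.out hℓN V hV
    (modGj hVG htr) (Fermat.Agent.S37.H579.RimBase.coe_x_modGj _ _)
    (Fermat.Agent.S37.H579.RimBase.coe_xk_modGj _ _)
  exact orthonormal_of_good (modGj hVG htr) h1 h2 h4
    (Fermat.Agent.Lib.RR.H864.ff1_modularFunctionFieldBar N) (inertiaImage V N)
    (inertia_smul_x hVG htr) (exists_fixed_lift hV hVG)

end Fermat.Agent.A3.H499

end

end
-- ===== PACK-END A3/H499/OrthInst.lean

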