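import Fermat.Agent.Pack.S3234.G4E4L0
import Fermat.Agent.Pack.S3234.G4E4L2
import Fermat.Agent.Pack.S3234.G4E4L3

-- ===== PACK-BEGIN A3/H799/Asm.lean
section


/-!
# A3 / LOCAL — assembly: CHART + KER-I + LIFTI ⟹ `LocalStatement`  (helper799)

Coordinates on a finite inertia-stable subgroup `T ⊆ Pic0`:

* the indicator functions of the classes of `T` modulo the kernel of reduction `J`;
* on every class `c` the chart coordinates `z_i (x - yt_c)`, where `yt_c` is an inertia-invariant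
  class congruent to `c` modulo `J` (LIFTI), extended by `0`.

Addition is algebraic: on the box `c₁ × c₂` one has
`x + y - yt_{c₁+c₂} = (x - yt_{c₁}) + (y - yt_{c₂}) + const`, two applications of the chart addition
property for the algebra `Λ = {f | 1_box · f ∈ 𝒜}`.
-/

set_option autoImplicit false

noncomputable section

open AlgebraicCurve

namespace Fermat.Agent.A3.H799

universe u₁ u₂ u₃ u₄

variable {K : Type u₁} {F : Type u₂} {k : Type u₃} {Fk : Type u₄}
  [Field K] [Field F] [Algebra K F] [Field k] [Field Fk] [Algebra k Fk]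

section BoxAlg

variable {V : Type*} [CommRing V] {X : Type*} {K' : Type*} [CommRing K'] [Algebra V K']

/-- For an idempotent `e` of a subalgebra `𝒜` of `K'`-valued functions: the algebra of `V`-valued
functions `f` with `e · f ∈ 𝒜`. -/
def boxAlg (𝒜 : Subalgebra V (X → K')) (e : X → K') (he : e * e = e) (heA : e ∈ 𝒜) :
    Subalgebra V (X → V) where
  carrier := {f | (fun p => e p * algebraMap V K' (f p)) ∈ 𝒜}
  mul_mem' := by
    intro f g hf hg
    have h : (fun p => e p * algebraMap V K' ((f * g) p)) =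
        (fun p => e p * algebraMap V K' (f p)) * (fun p => e p * algebraMap V K' (g p)) := by
      funext p
      have := congrFun he p
      simp only [Pi.mul_apply] at this ⊢
      rw [map_mul]
      calc e p * (algebraMap V K' (f p) * algebraMap V K' (g p))
          = (e p * e p) * (algebraMap V K' (f p) * algebraMap V K' (g p)) := by rw [this]
        _ = _ := by ring
    show (fun p => e p * algebraMap V K' ((f * g) p)) ∈ 𝒜
    rw [h]
    exact 𝒜.mul_mem hf hg
  add_mem' := by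
    intro f g hf hg
    have h : (fun p => e p * algebraMap V K' ((f + g) p)) =
        (fun p => e p * algebraMap V K' (f p)) + (fun p => e p * algebraMap V K' (g p)) := by
      funext p
      simp only [Pi.add_apply, map_add]
      ring
    show (fun p => e p * algebraMap V K' ((f + g) p)) ∈ 𝒜
    rw [h]
    exact 𝒜.add_mem hf hg
  algebraMap_mem' := by
    intro v
    have h : (fun p => e p * algebraMap V K' ((algebraMap V (X → V) v) p)) = v • e := by
      funext p
      simp only [Pi.smul_apply, Algebra.smul_def]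
      rw [mul_comm]
      rfl
    show (fun p => e p * algebraMap V K' ((algebraMap V (X → V) v) p)) ∈ 𝒜
    rw [h]
    exact 𝒜.smul_mem heA v

theorem mem_boxAlg {𝒜 : Subalgebra V (X → K')} {e : X → K'} {he : e * e = e} {heA : e ∈ 𝒜}
    {f : X → V} : f ∈ boxAlg 𝒜 e he heA ↔ (fun p => e p * algebraMap V K' (f p)) ∈ 𝒜 := Iff.rfl

end BoxAlg

section Classes

variable (𝓡 : GoodRed K F k Fk) (T : AddSubgroup (Pic0 K F))

/-- The kernel of reduction inside `T`. -/
def tKer : AddSubgroup T := 𝓡.kerRed.comap T.subtype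

variable {𝓡 T}

theorem mk_eq_mk_iff (x y : T) :
    (QuotientAddGroup.mk x : T ⧸ tKer 𝓡 T) = QuotientAddGroup.mk y ↔
      (x : Pic0 K F) - (y : Pic0 K F) ∈ 𝓡.kerRed := by
  rw [QuotientAddGroup.eq]
  show -(x : Pic0 K F) + (y : Pic0 K F) ∈ 𝓡.kerRed ↔ _
  rw [← neg_mem_iff (H := 𝓡.kerRed)]
  have h : -(-(x : Pic0 K F) + (y : Pic0 K F)) = (x : Pic0 K F) - (y : Pic0 K F) := by abel
  rw [h]

theorem sub_out_mem (x : T) (c : T ⧸ tKer 𝓡 T) (h : (QuotientAddGroup.mk x : T ⧸ tKer 𝓡 T) = c) :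
    (x : Pic0 K F) - ((Quotient.out c : T) : Pic0 K F) ∈ 𝓡.kerRed := by
  rw [← mk_eq_mk_iff, h]
  exact (QuotientAddGroup.out_eq' c).symm

end Classes

section Coordinates

variable {𝓡 : GoodRed K F k Fk} {T : AddSubgroup (Pic0 K F)} {n : ℕ}
  (z : 𝓡.kerRed → Fin n → IsLocalRing.maximalIdeal 𝓡.V) (yt : T ⧸ tKer 𝓡 T → Pic0 K F)
  (hmem : ∀ (x : T) (c : T ⧸ tKer 𝓡 T), (QuotientAddGroup.mk x : T ⧸ tKer 𝓡 T) = c →
    (x : Pic0 K F) - yt c ∈ 𝓡.kerRed)

open Classical in
/-- The coordinates: class indicators and chart coordinates on each class. -/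
def psi₀ (x : T) : (T ⧸ tKer 𝓡 T) ⊕ (T ⧸ tKer 𝓡 T) × Fin n → K
  | Sum.inl c => if (QuotientAddGroup.mk x : T ⧸ tKer 𝓡 T) = c then 1 else 0
  | Sum.inr (c, i) =>
      if h : (QuotientAddGroup.mk x : T ⧸ tKer 𝓡 T) = c then
        (((z ⟨(x : Pic0 K F) - yt c, hmem x c h⟩ i : IsLocalRing.maximalIdeal 𝓡.V) : 𝓡.V) : K)
      else 0

open Classical in
theorem psi₀_inl (x : T) (c : T ⧸ tKer 𝓡 T) :
    psi₀ z yt hmem x (Sum.inl c) =
      if (QuotientAddGroup.mk x : T ⧸ tKer 𝓡 T) = c then 1 else 0 := by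
  simp only [psi₀]

open Classical in
theorem psi₀_inr (x : T) (c : T ⧸ tKer 𝓡 T) (i : Fin n) :
    psi₀ z yt hmem x (Sum.inr (c, i)) =
      if h : (QuotientAddGroup.mk x : T ⧸ tKer 𝓡 T) = c then
        (((z ⟨(x : Pic0 K F) - yt c, hmem x c h⟩ i : IsLocalRing.maximalIdeal 𝓡.V) : 𝓡.V) : K)
      else 0 := by
  simp only [psi₀]

open Classical in
theorem psi₀_inr_pos (x : T) (c : T ⧸ tKer 𝓡 T) (i : Fin n)
    (h : (QuotientAddGroup.mk x : T ⧸ tKer 𝓡 T) = c) :
    psi₀ z yt hmem x (Sum.inr (c, i)) =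
      (((z ⟨(x : Pic0 K F) - yt c, hmem x c h⟩ i : IsLocalRing.maximalIdeal 𝓡.V) : 𝓡.V) : K) := by
  rw [psi₀_inr, dif_pos h]

open Classical in
theorem psi₀_inr_neg (x : T) (c : T ⧸ tKer 𝓡 T) (i : Fin n)
    (h : ¬ (QuotientAddGroup.mk x : T ⧸ tKer 𝓡 T) = c) :
    psi₀ z yt hmem x (Sum.inr (c, i)) = 0 := by
  rw [psi₀_inr, dif_neg h]

open Classical in
theorem psi₀_mem (x : T) (j : (T ⧸ tKer 𝓡 T) ⊕ (T ⧸ tKer 𝓡 T) × Fin n) :
    psi₀ z yt hmem x j ∈ 𝓡.V := by
  rcases j with c | ⟨c, i⟩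
  · rw [psi₀_inl]
    split_ifs
    · exact 𝓡.V.one_mem
    · exact 𝓡.V.zero_mem
  · rw [psi₀_inr]
    split_ifs
    · exact Subtype.coe_prop _
    · exact 𝓡.V.zero_mem

open Classical in
theorem psi₀_injective (hz : Function.Injective z) : Function.Injective (psi₀ z yt hmem) := by
  intro x x' h
  have h1 := congrFun h (Sum.inl (QuotientAddGroup.mk x))
  rw [psi₀_inl, psi₀_inl, if_pos rfl] at h1
  have hc : (QuotientAddGroup.mk x' : T ⧸ tKer 𝓡 T) = QuotientAddGroup.mk x := by
    by_contra hne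
    rw [if_neg hne] at h1
    exact one_ne_zero h1
  have h2 : z ⟨(x : Pic0 K F) - yt (QuotientAddGroup.mk x), hmem x _ rfl⟩ =
      z ⟨(x' : Pic0 K F) - yt (QuotientAddGroup.mk x), hmem x' _ hc⟩ := by
    funext i
    have h3 := congrFun h (Sum.inr (QuotientAddGroup.mk x, i))
    rw [psi₀_inr_pos z yt hmem x _ i rfl, psi₀_inr_pos z yt hmem x' _ i hc] at h3
    exact Subtype.ext (Subtype.ext h3)
  have h4 := congrArg Subtype.val (hz h2)
  simp only [sub_left_inj] at h4
  exact Subtype.ext h4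

open Classical in
theorem psi₀_smul (hker : ∀ g ∈ 𝓡.I, ∀ x : Pic0 K F, g • x - x ∈ 𝓡.kerRed)
    (hyI : ∀ c, ∀ g ∈ 𝓡.I, g • yt c = yt c)
    (hzeq : ∀ g ∈ 𝓡.I, ∀ (u : 𝓡.kerRed) (hgu : g • (u : Pic0 K F) ∈ 𝓡.kerRed) (i : Fin n),
      (((z ⟨g • (u : Pic0 K F), hgu⟩ i : IsLocalRing.maximalIdeal 𝓡.V) : 𝓡.V) : K) =
        SemilinearAut.baseAut g (((z u i : IsLocalRing.maximalIdeal 𝓡.V) : 𝓡.V) : K))
    (g : SemilinearAut K F) (hg : g ∈ 𝓡.I) (x : T) (hgx : g • (x : Pic0 K F) ∈ T)
    (j : (T ⧸ tKer 𝓡 T) ⊕ (T ⧸ tKer 𝓡 T) × Fin n) :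
    psi₀ z yt hmem ⟨g • (x : Pic0 K F), hgx⟩ j =
      SemilinearAut.baseAut g (psi₀ z yt hmem x j) := by
  have hmk : (QuotientAddGroup.mk (⟨g • (x : Pic0 K F), hgx⟩ : T) : T ⧸ tKer 𝓡 T) =
      QuotientAddGroup.mk x := by
    rw [mk_eq_mk_iff]
    exact hker g hg _
  rcases j with c | ⟨c, i⟩
  · rw [psi₀_inl, psi₀_inl, hmk]
    split_ifs
    · rw [map_one]
    · rw [map_zero]
  · by_cases h : (QuotientAddGroup.mk x : T ⧸ tKer 𝓡 T) = c
    · have h' : (QuotientAddGroup.mk (⟨g • (x : Pic0 K F), hgx⟩ : T) : T ⧸ tKer 𝓡 T) = c := by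
        rw [hmk, h]
      rw [psi₀_inr_pos z yt hmem _ c i h', psi₀_inr_pos z yt hmem x c i h]
      have heq : g • ((x : Pic0 K F) - yt c) = g • (x : Pic0 K F) - yt c := by
        rw [smul_sub, hyI c g hg]
      have hgu : g • ((x : Pic0 K F) - yt c) ∈ 𝓡.kerRed := by
        rw [heq]
        exact hmem _ c h'
      rw [← hzeq g hg ⟨(x : Pic0 K F) - yt c, hmem x c h⟩ hgu i]
      congr 4
      exact heq.symm
    · have h' : ¬ (QuotientAddGroup.mk (⟨g • (x : Pic0 K F), hgx⟩ : T) : T ⧸ tKer 𝓡 T) = c := by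
        rw [hmk]; exact h
      rw [psi₀_inr_neg z yt hmem _ c i h', psi₀_inr_neg z yt hmem x c i h, map_zero]

open Classical in
/-- Partition of unity by the boxes. -/
theorem mem_of_forall_box [Finite T] (𝒜 : Subalgebra 𝓡.V (T × T → K)) (G : T × T → K)
    (h : ∀ c₁ c₂ : T ⧸ tKer 𝓡 T, (fun p : T × T =>
      ((if (QuotientAddGroup.mk p.1 : T ⧸ tKer 𝓡 T) = c₁ then (1 : K) else 0) *
        (if (QuotientAddGroup.mk p.2 : T ⧸ tKer 𝓡 T) = c₂ then (1 : K) else 0)) * G p) ∈ 𝒜) :
    G ∈ 𝒜 := by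
  haveI : Fintype (T ⧸ tKer 𝓡 T) := Fintype.ofFinite _
  have hG : G = ∑ c₁ : T ⧸ tKer 𝓡 T, ∑ c₂ : T ⧸ tKer 𝓡 T, (fun p : T × T =>
      ((if (QuotientAddGroup.mk p.1 : T ⧸ tKer 𝓡 T) = c₁ then (1 : K) else 0) *
        (if (QuotientAddGroup.mk p.2 : T ⧸ tKer 𝓡 T) = c₂ then (1 : K) else 0)) * G p) := by
    funext p
    simp only [Finset.sum_apply]
    simp only [← Finset.sum_mul, ← Finset.mul_sum]
    simp
  rw [hG]
  exact Subalgebra.sum_mem _ fun c₁ _ => Subalgebra.sum_mem _ fun c₂ _ => h c₁ c₂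

open Classical in
theorem psi₀_add_mem [Finite T]
    (hzadd : ∀ (Λ : Subalgebra 𝓡.V (T × T → 𝓡.V)) (a b : T × T → 𝓡.kerRed),
      (∀ j, (fun τ => ((z (a τ) j : IsLocalRing.maximalIdeal 𝓡.V) : 𝓡.V)) ∈ Λ) →
      (∀ j, (fun τ => ((z (b τ) j : IsLocalRing.maximalIdeal 𝓡.V) : 𝓡.V)) ∈ Λ) →
      ∀ i, (fun τ => ((z (a τ + b τ) i : IsLocalRing.maximalIdeal 𝓡.V) : 𝓡.V)) ∈ Λ)
    (j : (T ⧸ tKer 𝓡 T) ⊕ (T ⧸ tKer 𝓡 T) × Fin n) :
    (fun p : T × T => psi₀ z yt hmem (p.1 + p.2) j) ∈
      Algebra.adjoin 𝓡.V ({f | ∃ j, f = fun p : T × T => psi₀ z yt hmem p.1 j} ∪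
        {f | ∃ j, f = fun p : T × T => psi₀ z yt hmem p.2 j}) := by
  set 𝒜 := Algebra.adjoin 𝓡.V ({f | ∃ j, f = fun p : T × T => psi₀ z yt hmem p.1 j} ∪
        {f | ∃ j, f = fun p : T × T => psi₀ z yt hmem p.2 j}) with h𝒜
  have g1 : ∀ j, (fun p : T × T => psi₀ z yt hmem p.1 j) ∈ 𝒜 :=
    fun j => Algebra.subset_adjoin (Or.inl ⟨j, rfl⟩)
  have g2 : ∀ j, (fun p : T × T => psi₀ z yt hmem p.2 j) ∈ 𝒜 :=
    fun j => Algebra.subset_adjoin (Or.inr ⟨j, rfl⟩)
  -- the box idempotents
  have hbox : ∀ c₁ c₂ : T ⧸ tKer 𝓡 T, (fun p : T × T =>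
      (if (QuotientAddGroup.mk p.1 : T ⧸ tKer 𝓡 T) = c₁ then (1 : K) else 0) *
        (if (QuotientAddGroup.mk p.2 : T ⧸ tKer 𝓡 T) = c₂ then (1 : K) else 0)) ∈ 𝒜 := by
    intro c₁ c₂
    have := 𝒜.mul_mem (g1 (Sum.inl c₁)) (g2 (Sum.inl c₂))
    simp only [psi₀_inl] at this
    exact this
  have hidem : ∀ c₁ c₂ : T ⧸ tKer 𝓡 T, (fun p : T × T =>
      (if (QuotientAddGroup.mk p.1 : T ⧸ tKer 𝓡 T) = c₁ then (1 : K) else 0) *
        (if (QuotientAddGroup.mk p.2 : T ⧸ tKer 𝓡 T) = c₂ then (1 : K) else 0)) *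
      (fun p : T × T =>
      (if (QuotientAddGroup.mk p.1 : T ⧸ tKer 𝓡 T) = c₁ then (1 : K) else 0) *
        (if (QuotientAddGroup.mk p.2 : T ⧸ tKer 𝓡 T) = c₂ then (1 : K) else 0)) =
      (fun p : T × T =>
      (if (QuotientAddGroup.mk p.1 : T ⧸ tKer 𝓡 T) = c₁ then (1 : K) else 0) *
        (if (QuotientAddGroup.mk p.2 : T ⧸ tKer 𝓡 T) = c₂ then (1 : K) else 0)) := by
    intro c₁ c₂
    funext p
    simp only [Pi.mul_apply]
    split_ifs <;> simp
  -- the key lemma on a box
  have hkey : ∀ (c₁ c₂ : T ⧸ tKer 𝓡 T) (i : Fin n), (fun p : T × T =>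
      ((if (QuotientAddGroup.mk p.1 : T ⧸ tKer 𝓡 T) = c₁ then (1 : K) else 0) *
        (if (QuotientAddGroup.mk p.2 : T ⧸ tKer 𝓡 T) = c₂ then (1 : K) else 0)) *
        psi₀ z yt hmem (p.1 + p.2) (Sum.inr (c₁ + c₂, i))) ∈ 𝒜 := by
    intro c₁ c₂ i
    set Λ := boxAlg 𝒜 _ (hidem c₁ c₂) (hbox c₁ c₂) with hΛ
    -- the families
    let a : T × T → 𝓡.kerRed := fun p =>
      if h : (QuotientAddGroup.mk p.1 : T ⧸ tKer 𝓡 T) = c₁ then
        ⟨(p.1 : Pic0 K F) - yt c₁, hmem p.1 c₁ h⟩ else 0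
    let b : T × T → 𝓡.kerRed := fun p =>
      if h : (QuotientAddGroup.mk p.2 : T ⧸ tKer 𝓡 T) = c₂ then
        ⟨(p.2 : Pic0 K F) - yt c₂, hmem p.2 c₂ h⟩ else 0
    have hc₀ : yt c₁ + yt c₂ - yt (c₁ + c₂) ∈ 𝓡.kerRed := by
      have h1 := hmem (Quotient.out c₁) c₁ (QuotientAddGroup.out_eq' c₁)
      have h2 := hmem (Quotient.out c₂) c₂ (QuotientAddGroup.out_eq' c₂)
      have h3 := hmem (Quotient.out c₁ + Quotient.out c₂) (c₁ + c₂) (by
        rw [QuotientAddGroup.mk_add, QuotientAddGroup.out_eq', QuotientAddGroup.out_eq'])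
      have h4 : yt c₁ + yt c₂ - yt (c₁ + c₂) =
          (((Quotient.out c₁ + Quotient.out c₂ : T) : Pic0 K F) - yt (c₁ + c₂)) -
            (((Quotient.out c₁ : T) : Pic0 K F) - yt c₁) -
            (((Quotient.out c₂ : T) : Pic0 K F) - yt c₂) := by
        rw [AddSubgroup.coe_add]
        abel
      rw [h4]
      exact sub_mem (sub_mem h3 h1) h2
    let c₀ : T × T → 𝓡.kerRed := fun _ => ⟨yt c₁ + yt c₂ - yt (c₁ + c₂), hc₀⟩
    have ha : ∀ j, (fun τ => ((z (a τ) j : IsLocalRing.maximalIdeal 𝓡.V) : 𝓡.V)) ∈ Λ := by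
      intro j
      rw [hΛ, mem_boxAlg]
      have := 𝒜.mul_mem (g2 (Sum.inl c₂)) (g1 (Sum.inr (c₁, j)))
      convert this using 1
      funext p
      simp only [Pi.mul_apply, psi₀_inl]
      by_cases h : (QuotientAddGroup.mk p.1 : T ⧸ tKer 𝓡 T) = c₁
      · rw [psi₀_inr_pos z yt hmem p.1 c₁ j h, if_pos h, one_mul]
        simp only [a, dif_pos h]
        rfl
      · rw [psi₀_inr_neg z yt hmem p.1 c₁ j h, if_neg h]
        simp
    have hb : ∀ j, (fun τ => ((z (b τ) j : IsLocalRing.maximalIdeal 𝓡.V) : 𝓡.V)) ∈ Λ := by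
      intro j
      rw [hΛ, mem_boxAlg]
      have := 𝒜.mul_mem (g1 (Sum.inl c₁)) (g2 (Sum.inr (c₂, j)))
      convert this using 1
      funext p
      simp only [Pi.mul_apply, psi₀_inl]
      by_cases h : (QuotientAddGroup.mk p.2 : T ⧸ tKer 𝓡 T) = c₂
      · rw [psi₀_inr_pos z yt hmem p.2 c₂ j h, if_pos h, mul_one]
        simp only [b, dif_pos h]
        rfl
      · rw [psi₀_inr_neg z yt hmem p.2 c₂ j h, if_neg h]
        simp
    have hc : ∀ j, (fun τ => ((z (c₀ τ) j : IsLocalRing.maximalIdeal 𝓡.V) : 𝓡.V)) ∈ Λ := by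
      intro j
      exact Λ.algebraMap_mem ((z ⟨yt c₁ + yt c₂ - yt (c₁ + c₂), hc₀⟩ j :
        IsLocalRing.maximalIdeal 𝓡.V) : 𝓡.V)
    have hab := hzadd Λ a b ha hb
    have habc := hzadd Λ (fun τ => a τ + b τ) c₀ hab hc i
    rw [hΛ, mem_boxAlg] at habc
    convert habc using 1
    funext p
    by_cases h1 : (QuotientAddGroup.mk p.1 : T ⧸ tKer 𝓡 T) = c₁
    · by_cases h2 : (QuotientAddGroup.mk p.2 : T ⧸ tKer 𝓡 T) = c₂
      · have h12 : (QuotientAddGroup.mk (p.1 + p.2) : T ⧸ tKer 𝓡 T) = c₁ + c₂ := by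
          rw [QuotientAddGroup.mk_add, h1, h2]
        rw [psi₀_inr_pos z yt hmem _ _ i h12]
        congr 5
        simp only [a, b, c₀, dif_pos h1, dif_pos h2, AddSubgroup.coe_add]
        abel
      · simp [h2]
    · simp [h1]
  -- conclusion
  apply mem_of_forall_box
  intro c₁ c₂
  rcases j with c | ⟨c, i⟩
  · have hfun : (fun p : T × T =>
        ((if (QuotientAddGroup.mk p.1 : T ⧸ tKer 𝓡 T) = c₁ then (1 : K) else 0) *
          (if (QuotientAddGroup.mk p.2 : T ⧸ tKer 𝓡 T) = c₂ then (1 : K) else 0)) *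
          psi₀ z yt hmem (p.1 + p.2) (Sum.inl c)) =
        if c₁ + c₂ = c then (fun p : T × T =>
          (if (QuotientAddGroup.mk p.1 : T ⧸ tKer 𝓡 T) = c₁ then (1 : K) else 0) *
            (if (QuotientAddGroup.mk p.2 : T ⧸ tKer 𝓡 T) = c₂ then (1 : K) else 0)) else 0 := by
      funext p
      rw [psi₀_inl, QuotientAddGroup.mk_add]
      by_cases hcc : c₁ + c₂ = c
      · rw [if_pos hcc]
        by_cases h1 : (QuotientAddGroup.mk p.1 : T ⧸ tKer 𝓡 T) = c₁
        · by_cases h2 : (QuotientAddGroup.mk p.2 : T ⧸ tKer 𝓡 T) = c₂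
          · simp [h1, h2, hcc]
          · simp [h2]
        · simp [h1]
      · rw [if_neg hcc]
        by_cases h1 : (QuotientAddGroup.mk p.1 : T ⧸ tKer 𝓡 T) = c₁
        · by_cases h2 : (QuotientAddGroup.mk p.2 : T ⧸ tKer 𝓡 T) = c₂
          · simp [h1, h2, hcc]
          · simp [h2]
        · simp [h1]
    rw [hfun]
    split_ifs
    · exact hbox c₁ c₂
    · exact 𝒜.zero_mem
  · by_cases hcc : c₁ + c₂ = c
    · subst hcc
      exact hkey c₁ c₂ i
    · have hfun : (fun p : T × T =>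
        ((if (QuotientAddGroup.mk p.1 : T ⧸ tKer 𝓡 T) = c₁ then (1 : K) else 0) *
          (if (QuotientAddGroup.mk p.2 : T ⧸ tKer 𝓡 T) = c₂ then (1 : K) else 0)) *
          psi₀ z yt hmem (p.1 + p.2) (Sum.inr (c, i))) = 0 := by
        funext p
        by_cases h1 : (QuotientAddGroup.mk p.1 : T ⧸ tKer 𝓡 T) = c₁
        · by_cases h2 : (QuotientAddGroup.mk p.2 : T ⧸ tKer 𝓡 T) = c₂
          · have h12 : ¬ (QuotientAddGroup.mk (p.1 + p.2) : T ⧸ tKer 𝓡 T) = c := by
              rw [QuotientAddGroup.mk_add, h1, h2]; exact hcc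
            rw [psi₀_inr_neg z yt hmem _ _ i h12]
            simp
          · simp [h2]
        · simp [h1]
      rw [hfun]
      exact 𝒜.zero_mem

end Coordinates

section Main

variable [IsAlgClosed K] [IsAlgClosed k] [CharZero K]

/-- **Assembly.**  CHART + KER-I + LIFTI ⟹ `LocalStatement`. -/
theorem local_of_chart (hchart : ChartStatement.{u₁, u₂, u₃, u₄, u₂} K F k Fk)
    (hker : KerInertiaStatement K F k Fk) (hlift : LiftiStatement K F k Fk) :
    LocalStatement K F k Fk := by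
  classical
  intro 𝓡 _ T _ hT
  obtain ⟨n, z, hzinj, hzeq, hzadd⟩ := hchart 𝓡
  have hl : ∀ c : T ⧸ tKer 𝓡 T, ∃ y : Pic0 K F, (∀ g ∈ 𝓡.I, g • y = y) ∧
      ((Quotient.out c : T) : Pic0 K F) - y ∈ 𝓡.kerRed := fun c => hlift 𝓡 _
  choose yt hyI hyJ using hl
  have hmem : ∀ (x : T) (c : T ⧸ tKer 𝓡 T), (QuotientAddGroup.mk x : T ⧸ tKer 𝓡 T) = c →
      (x : Pic0 K F) - yt c ∈ 𝓡.kerRed := by
    intro x c h
    have h1 := sub_out_mem x c h
    have h2 : (x : Pic0 K F) - yt c = ((x : Pic0 K F) - ((Quotient.out c : T) : Pic0 K F)) +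
        (((Quotient.out c : T) : Pic0 K F) - yt c) := by abel
    rw [h2]
    exact add_mem h1 (hyJ c)
  -- the index type
  haveI : Finite (T ⧸ tKer 𝓡 T) := inferInstance
  haveI : Finite ((T ⧸ tKer 𝓡 T) ⊕ (T ⧸ tKer 𝓡 T) × Fin n) := inferInstance
  obtain ⟨m, ⟨e⟩⟩ := Finite.exists_equiv_fin ((T ⧸ tKer 𝓡 T) ⊕ (T ⧸ tKer 𝓡 T) × Fin n)
  refine ⟨Fin m, inferInstance, fun x i => psi₀ z yt hmem x (e.symm i), ?_, ?_, ?_, ?_⟩
  · intro x x' h
    apply psi₀_injective z yt hmem hzinj
    funext j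
    have := congrFun h (e j)
    simpa using this
  · intro x i
    exact psi₀_mem z yt hmem x _
  · intro g hg x i
    exact psi₀_smul z yt hmem (hker 𝓡) hyI hzeq g hg x _ _
  · intro i
    have := psi₀_add_mem z yt hmem (fun Λ a b => hzadd (T × T) Λ a b) (e.symm i)
    refine Algebra.adjoin_mono ?_ this
    rintro f (⟨j, rfl⟩ | ⟨j, rfl⟩)
    · left
      exact ⟨e j, by simp⟩
    · right
      exact ⟨e j, by simp⟩

end Main

end Fermat.Agent.A3.H799

end
end
-- ===== PACK-END A3/H799/Asm.lean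

-- ===== PACK-BEGIN A3/H799/DiscLemmas.lean
section


/-!
# A3 / LOCAL — consequences of `DiscData`  (helper799)

Dictionary between the disc algebra of a `DiscData` and orders of functions at the points of the
residue disc: `t - a` has a simple zero at `pt a` and no other zero in the disc; `pt` is
injective; `ev a f = 0 ↔ ord_{pt a} f ≥ 1`; division by `t - a`; values of `polyDiv`.
-/

set_option autoImplicit false

noncomputable section

open AlgebraicCurve Fermat.Agent.Lib.RR

namespace Fermat.Agent.A3.H799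

variable {K F k Fk : Type*} [Field K] [Field F] [Algebra K F] [Field k] [Field Fk] [Algebra k Fk]

section Finsupp

/-- A point of the fibre contributes at most the total, if all contributions are `≥ 0`. -/
theorem le_mapDomain_apply {α β : Type*} (r : α → β) (D : α →₀ ℤ) (b : β)
    (hnn : ∀ a, r a = b → 0 ≤ D a) (a₀ : α) (h₀ : r a₀ = b) :
    D a₀ ≤ Finsupp.mapDomain r D b := by
  classical
  rw [Finsupp.mapDomain, Finsupp.sum_apply]
  simp only [Finsupp.sum, Finsupp.single_apply]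
  by_cases hmem : a₀ ∈ D.support
  · have h1 : (if r a₀ = b then D a₀ else 0) ≤
        ∑ a ∈ D.support, if r a = b then D a else 0 := by
      refine Finset.single_le_sum (f := fun a => if r a = b then D a else 0) ?_ hmem
      intro a _
      show 0 ≤ if r a = b then D a else 0
      split_ifs with h
      · exact hnn a h
      · exact le_rfl
    rwa [if_pos h₀] at h1
  · have h0 : D a₀ = 0 := Finsupp.notMem_support_iff.mp hmem
    rw [h0]
    refine Finset.sum_nonneg fun a _ => ?_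
    split_ifs with h
    · exact hnn a h
    · exact le_rfl

/-- Two distinct points of the fibre contribute at most the total. -/
theorem add_le_mapDomain_apply {α β : Type*} (r : α → β) (D : α →₀ ℤ) (b : β)
    (hnn : ∀ a, r a = b → 0 ≤ D a) (a₀ a₁ : α) (h₀ : r a₀ = b) (h₁ : r a₁ = b)
    (hne : a₀ ≠ a₁) : D a₀ + D a₁ ≤ Finsupp.mapDomain r D b := by
  classical
  -- remove the point `a₀`
  set D' : α →₀ ℤ := D - Finsupp.single a₀ (D a₀) with hD'
  have hD : D = D' + Finsupp.single a₀ (D a₀) := by rw [hD']; abel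
  have hnn' : ∀ a, r a = b → 0 ≤ D' a := by
    intro a ha
    rw [hD', Finsupp.sub_apply, Finsupp.single_apply]
    split_ifs with h
    · subst h; simp
    · simpa using hnn a ha
  have h1 := le_mapDomain_apply r D' b hnn' a₁ h₁
  have h2 : D' a₁ = D a₁ := by
    rw [hD', Finsupp.sub_apply, Finsupp.single_apply, if_neg hne, sub_zero]
  have h3 : Finsupp.mapDomain r D b = Finsupp.mapDomain r D' b + D a₀ := by
    conv_lhs => rw [hD]
    rw [Finsupp.mapDomain_add, Finsupp.add_apply, Finsupp.mapDomain_single,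
      Finsupp.single_apply, if_pos h₀]
  rw [h3, ← h2]
  linarith

end Finsupp

namespace DiscData

variable {𝓡 : GoodRed K F k Fk} {Q : Place k Fk} (d : DiscData 𝓡 Q)

/-- The parameter as an element of `F`. -/
def tF : F := ((d.D.t : d.ring) : F)

/-- Reduction on the disc ring. -/
def redHom : d.ring →+* Fk :=
  𝓡.red.comp
    { toFun := fun f => (⟨(f : F), d.ring_le _ f.2⟩ : 𝓡.O)
      map_one' := rfl
      map_mul' := fun _ _ => rfl
      map_zero' := rfl
      map_add' := fun _ _ => rfl }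

theorem redHom_apply (f : d.ring) : d.redHom f = 𝓡.red ⟨(f : F), d.ring_le _ f.2⟩ := rfl

theorem coe_algebraMap (a : 𝓡.V) : ((algebraMap 𝓡.V d.ring a : d.ring) : F) =
    algebraMap K F (a : K) := rfl

theorem redHom_algebraMap (a : 𝓡.V) :
    d.redHom (algebraMap 𝓡.V d.ring a) = algebraMap k Fk (𝓡.res a) := by
  rw [redHom_apply]
  exact 𝓡.red_algebraMap a _

theorem redHom_algebraMap_of_mem (a : IsLocalRing.maximalIdeal 𝓡.V) :
    d.redHom (algebraMap 𝓡.V d.ring (a : 𝓡.V)) = 0 := by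
  rw [redHom_algebraMap]
  have h : 𝓡.res (a : 𝓡.V) = 0 := by
    rw [𝓡.res_eq_zero, ValuationSubring.mem_nonunits_iff_exists_mem_maximalIdeal]
    exact ⟨(a : 𝓡.V).2, a.2⟩
  rw [h, map_zero]

theorem ord_redHom_t : Q.ord (d.redHom d.D.t) = 1 := d.ord_t

theorem redHom_t_ne_zero : d.redHom d.D.t ≠ 0 := by
  intro h
  have := d.ord_redHom_t
  rw [h, Place.ord_zero] at this
  exact zero_ne_one this

/-- `t - a` as an element of the disc ring. -/
def tSub (a : IsLocalRing.maximalIdeal 𝓡.V) : d.ring :=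
  d.D.t - algebraMap 𝓡.V d.ring (a : 𝓡.V)

theorem coe_tSub (a : IsLocalRing.maximalIdeal 𝓡.V) :
    ((d.tSub a : d.ring) : F) = d.tF - algebraMap K F (((a : 𝓡.V) : K)) := rfl

theorem redHom_tSub (a : IsLocalRing.maximalIdeal 𝓡.V) : d.redHom (d.tSub a) = d.redHom d.D.t := by
  rw [tSub, map_sub, redHom_algebraMap_of_mem, sub_zero]

theorem tSub_ne_zero (a : IsLocalRing.maximalIdeal 𝓡.V) : ((d.tSub a : d.ring) : F) ≠ 0 := by
  intro h
  have h1 : d.tSub a = 0 := Subtype.ext h
  have := d.redHom_tSub a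
  rw [h1, map_zero] at this
  exact d.redHom_t_ne_zero this.symm

theorem ev_tSub (a : IsLocalRing.maximalIdeal 𝓡.V) : d.D.ev a (d.tSub a) = 0 := by
  rw [tSub, map_sub, d.D.ev_t, AlgHom.commutes]
  simp

theorem ord_nonneg (f : d.ring) (P : Place K F) (hP : 𝓡.r P = Q) : 0 ≤ P.ord (f : F) :=
  ord_nonneg_of_mem P (d.ring_reg _ f.2 P hP)

/-- `t - a` has a simple zero at `pt a`. -/
theorem ord_pt_tSub (a : IsLocalRing.maximalIdeal 𝓡.V) :
    (d.pt a).ord ((d.tSub a : d.ring) : F) = 1 := by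
  haveI := 𝓡.ff1
  have hne := d.tSub_ne_zero a
  -- lower bound from `ev_spec`
  have h1 : 1 ≤ (d.pt a).ord ((d.tSub a : d.ring) : F) := by
    have := d.ev_spec a (d.tSub a)
    rw [d.ev_tSub a] at this
    simp only [ZeroMemClass.coe_zero, map_zero, sub_zero] at this
    rcases this with h | h
    · exact absurd h hne
    · exact h
  -- upper bound from conservation
  have h2 := 𝓡.div_red ⟨((d.tSub a : d.ring) : F), d.ring_le _ (d.tSub a).2⟩
    (by
      have := d.redHom_tSub a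
      rw [redHom_apply] at this
      rw [this]
      exact d.redHom_t_ne_zero)
    (divOf _ hne) (fun P => divOf_apply _ hne P) Q
  have h3 : 𝓡.red ⟨((d.tSub a : d.ring) : F), d.ring_le _ (d.tSub a).2⟩ = d.redHom d.D.t :=
    d.redHom_tSub a
  rw [h3, d.ord_redHom_t] at h2
  have h4 := le_mapDomain_apply 𝓡.r (divOf ((d.tSub a : d.ring) : F) hne) Q
    (fun P hP => by rw [divOf_apply]; exact d.ord_nonneg _ P hP) (d.pt a) (d.r_pt a)
  rw [h2, divOf_apply] at h4
  exact le_antisymm h4 h1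

/-- `t - a` does not vanish at `pt b` for `b ≠ a`. -/
theorem ord_pt_tSub_of_ne {a b : IsLocalRing.maximalIdeal 𝓡.V} (hab : b ≠ a) :
    (d.pt b).ord ((d.tSub a : d.ring) : F) = 0 := by
  have h1 : ((d.tSub a : d.ring) : F) =
      algebraMap K F ((((b : 𝓡.V) : K)) - (((a : 𝓡.V) : K))) + ((d.tSub b : d.ring) : F) := by
    rw [coe_tSub, coe_tSub, map_sub]; ring
  have hc : algebraMap K F ((((b : 𝓡.V) : K)) - (((a : 𝓡.V) : K))) ≠ 0 := by
    rw [Ne, map_eq_zero_iff _ (algebraMap K F).injective, sub_eq_zero]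
    intro h
    exact hab (Subtype.ext (Subtype.ext h))
  rw [h1, ord_add_eq_of_lt _ hc (d.tSub_ne_zero b), ord_algebraMap]
  rw [ord_algebraMap, d.ord_pt_tSub b]
  exact zero_lt_one

theorem pt_injective : Function.Injective d.pt := by
  intro a b hab
  by_contra hne
  have h1 := d.ord_pt_tSub a
  rw [hab, d.ord_pt_tSub_of_ne (a := a) (b := b) (Ne.symm hne)] at h1
  exact zero_ne_one h1

open Classical in
/-- The order of `t - a` at the points of the disc. -/
theorem ord_pt_tSub_eq (a b : IsLocalRing.maximalIdeal 𝓡.V) :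
    (d.pt b).ord ((d.tSub a : d.ring) : F) = if b = a then 1 else 0 := by
  split_ifs with h
  · subst h; exact d.ord_pt_tSub b
  · exact d.ord_pt_tSub_of_ne h

/-- `ev a f = 0` iff `f` vanishes at `pt a`. -/
theorem ev_eq_zero_iff (a : IsLocalRing.maximalIdeal 𝓡.V) (f : d.ring) (hf : f ≠ 0) :
    d.D.ev a f = 0 ↔ 1 ≤ (d.pt a).ord (f : F) := by
  have hfF : (f : F) ≠ 0 := fun h => hf (Subtype.ext h)
  constructor
  · intro h
    have := d.ev_spec a f
    rw [h] at this
    simp only [ZeroMemClass.coe_zero, map_zero, sub_zero] at this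
    exact this.resolve_left hfF
  · intro h
    by_contra hc
    have hcK : algebraMap K F (((d.D.ev a f : 𝓡.V) : K)) ≠ 0 := by
      rw [Ne, map_eq_zero_iff _ (algebraMap K F).injective]
      intro h0
      exact hc (Subtype.ext h0)
    rcases d.ev_spec a f with h1 | h1
    · rw [h1, ord_algebraMap] at h
      exact absurd h (by norm_num)
    · -- the constant is `f - (f - c)`
      have h2 : algebraMap K F (((d.D.ev a f : 𝓡.V) : K)) =
          (f : F) + -((f : F) - algebraMap K F (((d.D.ev a f : 𝓡.V) : K))) := by ring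
      have h3 := ord_add_of_le (d.pt a) (n := 1) (Or.inr h)
        (Or.inr (by rw [ord_neg]; exact h1) :
          -((f : F) - algebraMap K F (((d.D.ev a f : 𝓡.V) : K))) = 0 ∨
          1 ≤ (d.pt a).ord (-((f : F) - algebraMap K F (((d.D.ev a f : 𝓡.V) : K)))))
      rw [← h2] at h3
      rcases h3 with h3 | h3
      · exact hcK h3
      · rw [ord_algebraMap] at h3
        exact absurd h3 (by norm_num)

/-- Division by `t - a` in the disc ring. -/
theorem exists_eq_mul_of_ev_eq_zero (a : IsLocalRing.maximalIdeal 𝓡.V) (f : d.ring)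
    (h : d.D.ev a f = 0) : ∃ f' : d.ring, f = d.tSub a * f' := by
  obtain ⟨f', hf'⟩ := d.D.taylor a f
  refine ⟨f', ?_⟩
  rw [hf', h, map_zero, zero_add]
  rfl

end DiscData

section PolyDiv

variable {𝓡 : GoodRed K F k Fk} {ι : Type*} [Fintype ι] {Qs : ι → Place k Fk}
  (d : ∀ i, DiscData 𝓡 (Qs i))

open Classical in
/-- Value of `polyDiv` at a point of the `i`-th disc. -/
theorem polyDiv_apply_pt (hQ : Function.Injective Qs)
    (z : ι → IsLocalRing.maximalIdeal 𝓡.V) (i : ι) (a : IsLocalRing.maximalIdeal 𝓡.V) :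
    polyDiv d z ((d i).pt a) = if z i = a then 1 else 0 := by
  classical
  rw [polyDiv, Finsupp.finset_sum_apply]
  simp only [Finsupp.single_apply]
  have h : ∀ l : ι, ((d l).pt (z l) = (d i).pt a) ↔ (l = i ∧ z i = a) := by
    intro l
    constructor
    · intro hl
      have h1 : Qs l = Qs i := by
        rw [← (d l).r_pt (z l), ← (d i).r_pt a, hl]
      have h2 : l = i := hQ h1
      subst h2
      exact ⟨rfl, (d l).pt_injective hl⟩
    · rintro ⟨rfl, h2⟩
      rw [h2]
  simp only [h]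
  split_ifs with hz
  · rw [Finset.sum_eq_single i]
    · simp [hz]
    · intro l _ hl; simp [hl]
    · intro hi; exact absurd (Finset.mem_univ i) hi
  · apply Finset.sum_eq_zero
    intro l _
    simp [hz]

/-- `polyDiv` vanishes outside the discs. -/
theorem polyDiv_apply_of_not_mem (z : ι → IsLocalRing.maximalIdeal 𝓡.V) (P : Place K F)
    (hP : ∀ i, 𝓡.r P ≠ Qs i) : polyDiv d z P = 0 := by
  classical
  rw [polyDiv, Finsupp.finset_sum_apply]
  apply Finset.sum_eq_zero
  intro l _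
  rw [Finsupp.single_apply, if_neg]
  intro h
  exact hP l (by rw [← h, (d l).r_pt])

theorem polyDiv_nonneg (z : ι → IsLocalRing.maximalIdeal 𝓡.V) : 0 ≤ polyDiv d z := by
  classical
  rw [Finsupp.le_def]
  intro P
  rw [polyDiv, Finsupp.finset_sum_apply]
  refine Finset.sum_nonneg fun l _ => ?_
  rw [Finsupp.single_apply]
  split_ifs <;> simp

theorem mapDomain_polyDiv (z : ι → IsLocalRing.maximalIdeal 𝓡.V) :
    Finsupp.mapDomain 𝓡.r (polyDiv d z) = ∑ i, Finsupp.single (Qs i) (1 : ℤ) := by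
  rw [polyDiv, Finsupp.mapDomain_finset_sum]
  refine Finset.sum_congr rfl fun i _ => ?_
  rw [Finsupp.mapDomain_single, (d i).r_pt]

end PolyDiv

end Fermat.Agent.A3.H799

end
end
-- ===== PACK-END A3/H799/DiscLemmas.lean

-- ===== PACK-BEGIN A3/H799/Zgen.lean
section



/-!
# A3 / LOCAL — ZGEN from GEO and DET  (helper799)

`zgen_of : GeoStatement → DetStatement → ZgenStatement` is one application of the abstract LOCAL
theorem `local_mem`; `ZtriStatement` (`s = 2`) and `ZnegStatement` (`s = 1`) are special cases.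
-/

set_option autoImplicit false

noncomputable section

open AlgebraicCurve Fermat.Agent.Lib.RR Polynomial

namespace Fermat.Agent.A3.H799

universe u₁ u₂ u₃ u₄ w

variable {K : Type u₁} {F : Type u₂} {k : Type u₃} {Fk : Type u₄}
  [Field K] [Field F] [Algebra K F] [Field k] [Field Fk] [Algebra k Fk]

/-- Constants of `V` as integral functions. -/
def GoodRed.constO (𝓡 : GoodRed K F k Fk) (a : 𝓡.V) : 𝓡.O :=
  ⟨algebraMap K F (a : K), (𝓡.algebraMap_mem _).2 a.2⟩

theorem GoodRed.red_constO (𝓡 : GoodRed K F k Fk) (a : 𝓡.V) :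
    𝓡.red (𝓡.constO a) = algebraMap k Fk (𝓡.res a) :=
  𝓡.red_algebraMap a _

theorem GoodRed.res_eq_zero_of_mem (𝓡 : GoodRed K F k Fk) (a : IsLocalRing.maximalIdeal 𝓡.V) :
    𝓡.res (a : 𝓡.V) = 0 := by
  rw [𝓡.res_eq_zero, ValuationSubring.mem_nonunits_iff_exists_mem_maximalIdeal]
  exact ⟨(a : 𝓡.V).2, a.2⟩

theorem one_mem_L_of_nonneg [FF1 K F] {D : Divisor K F} (hD : 0 ≤ D) :
    (1 : F) ∈ riemannRochSpace D := by
  apply L_mono hD
  rw [L_zero]
  exact ⟨1, by simp⟩

theorem zsmul_polyDiv_nonneg {𝓡 : GoodRed K F k Fk} {ι : Type*} [Fintype ι]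
    {Qs : ι → Place k Fk} (d : ∀ i, DiscData 𝓡 (Qs i)) (z : ι → IsLocalRing.maximalIdeal 𝓡.V)
    (s : ℕ) : 0 ≤ ((s : ℤ) + 1) • polyDiv d z :=
  smul_nonneg (by positivity) (polyDiv_nonneg d z)

/-- **ZGEN** from GEO and DET. -/
theorem zgen_of (hgeo : GeoStatement K F k Fk) (hdet : DetStatement K F k Fk) :
    ZgenStatement.{u₁, u₂, u₃, u₄, w} K F k Fk := by
  intro 𝓡 Qs hinj hnsp d T _ Λ s hs zs zw hzs hprin
  classical
  haveI := 𝓡.ff1
  obtain ⟨φ, f, P, H, hφL, hfφ, hfP, hdetP⟩ := hdet 𝓡 Qs hinj hnsp d s hs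
  refine local_mem (A := 𝓡.V) (T := T) (ι := Fin (genusFF k Fk)) (𝒪 := fun i => (d i).ring)
    Λ (fun i => (d i).D) (fun _ => s)
    (fun i r => ⟨⟨fun τ => ((zs r τ i : IsLocalRing.maximalIdeal 𝓡.V) : 𝓡.V), hzs r i⟩,
      fun τ => (zs r τ i).2⟩)
    (fun i => (d i).D.t ^ (s + 1)) f (fun _ => X ^ (s + 1)) (fun _ => 0) ?_ P H hfP hdetP ?_
    (fun i τ => zw τ i) ?_
  · intro i
    simp
  · intro i r
    rw [coeff_X_pow, if_neg (by have := r.2; omega)]
    exact zero_mem _
  · intro τ a hdiv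
    -- the section `φ_a = 1 + Σ a_j φ_j`
    set φa : 𝓡.O := 1 + ∑ j, 𝓡.constO (a j : 𝓡.V) * φ j with hφa
    have hφaF : ((φa : 𝓡.O) : F) =
        1 + ∑ j, algebraMap K F (((a j : IsLocalRing.maximalIdeal 𝓡.V) : 𝓡.V) : K) *
          ((φ j : 𝓡.O) : F) := by
      rw [hφa]
      push_cast
      rfl
    have hφaL : ((φa : 𝓡.O) : F) ∈ riemannRochSpace (((s : ℤ) + 1) • polyDiv d 0) := by
      rw [hφaF]
      refine Submodule.add_mem _ (one_mem_L_of_nonneg (zsmul_polyDiv_nonneg d 0 s)) ?_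
      refine Submodule.sum_mem _ fun j _ => ?_
      have := Submodule.smul_mem _ ((((a j : IsLocalRing.maximalIdeal 𝓡.V) : 𝓡.V) : K)) (hφL j)
      rwa [Algebra.smul_def] at this
    have hred : 𝓡.red φa = 1 := by
      rw [hφa, map_add, map_one, map_sum]
      rw [Finset.sum_eq_zero, add_zero]
      intro j _
      rw [map_mul, 𝓡.red_constO, 𝓡.res_eq_zero_of_mem, map_zero, zero_mul]
    have hG : ∀ i, (((d i).D.t ^ (s + 1) +
        ∑ j, ((a j : IsLocalRing.maximalIdeal 𝓡.V) : 𝓡.V) • f j i : (d i).ring) : F) =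
          ((((d i).D.t : (d i).ring) : F)) ^ (s + 1) * ((φa : 𝓡.O) : F) := by
      intro i
      rw [hφaF, mul_add, mul_one, Finset.mul_sum]
      push_cast
      congr 1
      refine Finset.sum_congr rfl fun j _ => ?_
      rw [hfφ, Algebra.smul_def]
      show algebraMap K F (((a j : IsLocalRing.maximalIdeal 𝓡.V) : 𝓡.V) : K) * _ = _
      ring
    have hlist : ∀ i, (List.ofFn fun r : Fin s =>
        (⟨⟨fun τ => ((zs r τ i : IsLocalRing.maximalIdeal 𝓡.V) : 𝓡.V), hzs r i⟩,
          fun τ => (zs r τ i).2⟩ : radIdeal Λ)).map (ptAt Λ τ) =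
        List.ofFn fun r => zs r τ i := by
      intro i
      rw [List.map_ofFn]
      rfl
    simp only [hlist] at hdiv ⊢
    exact hgeo 𝓡 Qs hinj hnsp d s (fun r => zs r τ) (zw τ) (hprin τ) φa hφaL hred
      (fun i => (d i).D.t ^ (s + 1) + ∑ j, ((a j : IsLocalRing.maximalIdeal 𝓡.V) : 𝓡.V) • f j i)
      hG hdiv

/-- ZTRI is ZGEN with two moving points. -/
theorem ztri_of_zgen (h : ZgenStatement.{u₁, u₂, u₃, u₄, w} K F k Fk) : ZtriStatement.{u₁, u₂, u₃, u₄, w} K F k Fk := by
  intro 𝓡 Qs hinj hnsp d T _ Λ zx zy zw hzx hzy hprin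
  refine h 𝓡 Qs hinj hnsp d T Λ 2 (by norm_num) ![zx, zy] zw ?_ ?_
  · intro r j
    fin_cases r
    · exact hzx j
    · exact hzy j
  · intro τ
    have := hprin τ
    rw [Fin.sum_univ_two]
    have h3 : ((2 : ℕ) : ℤ) + 1 = 3 := by norm_num
    rw [h3]
    exact this

/-- ZNEG is ZGEN with one moving point. -/
theorem zneg_of_zgen (h : ZgenStatement.{u₁, u₂, u₃, u₄, w} K F k Fk) : ZnegStatement.{u₁, u₂, u₃, u₄, w} K F k Fk := by
  intro 𝓡 Qs hinj hnsp d T _ Λ zx zn hzx hprin
  refine h 𝓡 Qs hinj hnsp d T Λ 1 (by norm_num) ![zx] zn ?_ ?_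
  · intro r j
    fin_cases r
    exact hzx j
  · intro τ
    have := hprin τ
    rw [Fin.sum_univ_one]
    have h2 : ((1 : ℕ) : ℤ) + 1 = 2 := by norm_num
    rw [h2]
    exact this

end Fermat.Agent.A3.H799

end
end
-- ===== PACK-END A3/H799/Zgen.lean

-- ===== PACK-BEGIN A3/H799/Chart.lean
section



/-!
# A3 / LOCAL — ZADD and CHART from the leaves  (helper799)

* `zadd_of  : CoordStatement → ZtriStatement → ZnegStatement → ZaddStatement`
* `chart_of : NspStatement → DiscStatement → DiscEquivStatement → CoordStatement →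
              ZaddStatement → ChartStatement`
-/

set_option autoImplicit false

noncomputable section

open AlgebraicCurve Fermat.Agent.Lib.RR

namespace Fermat.Agent.A3.H799

universe u₁ u₂ u₃ u₄ w

variable {K : Type u₁} {F : Type u₂} {k : Type u₃} {Fk : Type u₄}
  [Field K] [Field F] [Algebra K F] [Field k] [Field Fk] [Algebra k Fk]

theorem pic0_mk_eq_zero_iff (D : Divisor.degZero (K := K) (F := F)) :
    Pic0.mk D = 0 ↔ (D : Divisor K F) ∈ Divisor.principal (K := K) (F := F) := by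
  unfold Pic0.mk
  rw [QuotientAddGroup.eq_zero_iff, AddSubgroup.mem_addSubgroupOf]

section Cls

variable {𝓡 : GoodRed K F k Fk} {ι : Type*} [Fintype ι] {Qs : ι → Place k Fk}
  (d : ∀ i, DiscData 𝓡 (Qs i))

/-- The degree-zero divisor `D_z - E`. -/
def polyDivZ (z : ι → IsLocalRing.maximalIdeal 𝓡.V) : Divisor.degZero (K := K) (F := F) :=
  ⟨polyDiv d z - polyDiv d 0, by
    rw [Divisor.mem_degZero, map_sub, H255.degree_polyDiv, H255.degree_polyDiv, sub_self]⟩

@[simp] theorem coe_polyDivZ (z : ι → IsLocalRing.maximalIdeal 𝓡.V) :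
    ((polyDivZ d z : Divisor.degZero (K := K) (F := F)) : Divisor K F) =
      polyDiv d z - polyDiv d 0 := rfl

/-- The class `[D_z - E]`. -/
def cls (z : ι → IsLocalRing.maximalIdeal 𝓡.V) : Pic0 K F := Pic0.mk (polyDivZ d z)

theorem exists_iff_cls (z : ι → IsLocalRing.maximalIdeal 𝓡.V) (x : Pic0 K F) :
    (∃ D : Divisor.degZero (K := K) (F := F),
      (D : Divisor K F) = polyDiv d z - polyDiv d 0 ∧ Pic0.mk D = x) ↔ cls d z = x := by
  constructor
  · rintro ⟨D, hD, hx⟩
    have : D = polyDivZ d z := Subtype.ext hD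
    rw [← hx, this]
    rfl
  · intro h
    exact ⟨polyDivZ d z, rfl, h⟩

theorem cls_add_sub_eq_zero_iff (zx zy zs : ι → IsLocalRing.maximalIdeal 𝓡.V) :
    cls d zx + cls d zy - cls d zs = 0 ↔
      polyDiv d zx + polyDiv d zy - polyDiv d zs - polyDiv d 0 ∈
        Divisor.principal (K := K) (F := F) := by
  have h : cls d zx + cls d zy - cls d zs =
      Pic0.mk (polyDivZ d zx + polyDivZ d zy - polyDivZ d zs) := rfl
  rw [h, pic0_mk_eq_zero_iff]
  have h2 : ((polyDivZ d zx + polyDivZ d zy - polyDivZ d zs :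
      Divisor.degZero (K := K) (F := F)) : Divisor K F) =
      polyDiv d zx + polyDiv d zy - polyDiv d zs - polyDiv d 0 := by
    push_cast
    simp only [coe_polyDivZ]
    abel
  rw [h2]

theorem cls_add_add_eq_zero_iff (zx zy zw : ι → IsLocalRing.maximalIdeal 𝓡.V) :
    cls d zx + cls d zy + cls d zw = 0 ↔
      polyDiv d zx + polyDiv d zy + polyDiv d zw - (3 : ℤ) • polyDiv d 0 ∈
        Divisor.principal (K := K) (F := F) := by
  have h : cls d zx + cls d zy + cls d zw =
      Pic0.mk (polyDivZ d zx + polyDivZ d zy + polyDivZ d zw) := rfl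
  rw [h, pic0_mk_eq_zero_iff]
  have h2 : ((polyDivZ d zx + polyDivZ d zy + polyDivZ d zw :
      Divisor.degZero (K := K) (F := F)) : Divisor K F) =
      polyDiv d zx + polyDiv d zy + polyDiv d zw - (3 : ℤ) • polyDiv d 0 := by
    push_cast
    simp only [coe_polyDivZ]
    have : (3 : ℤ) • polyDiv d 0 = polyDiv d 0 + polyDiv d 0 + polyDiv d 0 := by
      rw [show (3 : ℤ) = 1 + 1 + 1 by norm_num, add_smul, add_smul, one_smul]
    rw [this]
    abel
  rw [h2]

theorem cls_add_eq_zero_iff (zx zn : ι → IsLocalRing.maximalIdeal 𝓡.V) :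
    cls d zx + cls d zn = 0 ↔
      polyDiv d zx + polyDiv d zn - (2 : ℤ) • polyDiv d 0 ∈
        Divisor.principal (K := K) (F := F) := by
  have h : cls d zx + cls d zn = Pic0.mk (polyDivZ d zx + polyDivZ d zn) := rfl
  rw [h, pic0_mk_eq_zero_iff]
  have h2 : ((polyDivZ d zx + polyDivZ d zn :
      Divisor.degZero (K := K) (F := F)) : Divisor K F) =
      polyDiv d zx + polyDiv d zn - (2 : ℤ) • polyDiv d 0 := by
    push_cast
    simp only [coe_polyDivZ]
    have : (2 : ℤ) • polyDiv d 0 = polyDiv d 0 + polyDiv d 0 := by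
      rw [show (2 : ℤ) = 1 + 1 by norm_num, add_smul, one_smul]
    rw [this]
    abel
  rw [h2]

end Cls

/-- **ZADD** from COORD, ZTRI and ZNEG. -/
theorem zadd_of (hcoord : CoordStatement K F k Fk)
    (htri : ZtriStatement.{u₁, u₂, u₃, u₄, w} K F k Fk)
    (hneg : ZnegStatement.{u₁, u₂, u₃, u₄, w} K F k Fk) :
    ZaddStatement.{u₁, u₂, u₃, u₄, w} K F k Fk := by
  intro 𝓡 Qs hinj hnsp d T _ Λ zx zy zs hzx hzy hprin
  obtain ⟨hC1, hC2⟩ := hcoord 𝓡 Qs hinj hnsp d
  have hmemc : ∀ z, cls d z ∈ 𝓡.kerRed := fun z => hC2 z (polyDivZ d z) rfl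
  -- the third point `w = -(x + y)`
  have hw : ∀ τ, ∃ zw : Fin (genusFF k Fk) → IsLocalRing.maximalIdeal 𝓡.V,
      cls d zw = -(cls d (zx τ) + cls d (zy τ)) := by
    intro τ
    obtain ⟨zw, hzw, -⟩ := hC1 _ (neg_mem (add_mem (hmemc (zx τ)) (hmemc (zy τ))))
    exact ⟨zw, (exists_iff_cls d zw _).mp hzw⟩
  choose zw hzw using hw
  have h1 : ∀ i, (fun τ => ((zw τ i : IsLocalRing.maximalIdeal 𝓡.V) : 𝓡.V)) ∈ Λ := by
    refine htri 𝓡 Qs hinj hnsp d T Λ zx zy zw hzx hzy fun τ => ?_
    rw [← cls_add_add_eq_zero_iff, hzw τ]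
    abel
  refine hneg 𝓡 Qs hinj hnsp d T Λ zw zs h1 fun τ => ?_
  rw [← cls_add_eq_zero_iff, hzw τ]
  have h2 := (cls_add_sub_eq_zero_iff d (zx τ) (zy τ) (zs τ)).mpr (hprin τ)
  have h3 : cls d (zs τ) = cls d (zx τ) + cls d (zy τ) := (sub_eq_zero.mp h2).symm
  rw [h3]
  abel

section Chart

variable [IsAlgClosed k]

/-- **CHART** from the leaves. -/
theorem chart_of (hnsp : NspStatement k Fk) (hdisc : DiscStatement K F k Fk)
    (hequiv : DiscEquivStatement K F k Fk) (hcoord : CoordStatement K F k Fk)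
    (hzadd : ZaddStatement.{u₁, u₂, u₃, u₄, w} K F k Fk) :
    ChartStatement.{u₁, u₂, u₃, u₄, w} K F k Fk := by
  intro 𝓡
  haveI := 𝓡.ff1k
  haveI := 𝓡.ff1
  obtain ⟨Qs, hinj, hell⟩ := hnsp
  have hd : ∀ i, ∃ d : DiscData 𝓡 (Qs i),
      ∀ g ∈ 𝓡.I, g • ((d.D.t : d.ring) : F) = ((d.D.t : d.ring) : F) := fun i => hdisc 𝓡 (Qs i)
  choose d hdI using hd
  obtain ⟨hC1, hC2⟩ := hcoord 𝓡 Qs hinj hell d
  have hex : ∀ u : 𝓡.kerRed, ∃ z : Fin (genusFF k Fk) → IsLocalRing.maximalIdeal 𝓡.V,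
      cls d z = (u : Pic0 K F) ∧ ∀ z', cls d z' = (u : Pic0 K F) → z' = z := by
    intro u
    obtain ⟨z, hz, huniq⟩ := hC1 (u : Pic0 K F) u.2
    exact ⟨z, (exists_iff_cls d z _).mp hz, fun z' hz' => huniq z' ((exists_iff_cls d z' _).mpr hz')⟩
  choose z hz hzuniq using hex
  refine ⟨genusFF k Fk, z, ?_, ?_, ?_⟩
  · -- injective
    intro u u' h
    apply Subtype.ext
    rw [← hz u, ← hz u', h]
  · -- inertia equivariance
    intro g hg u hgu i
    -- the transformed polydisc point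
    have hpt : ∀ (j : Fin (genusFF k Fk)) (a : IsLocalRing.maximalIdeal 𝓡.V),
        ∃ a' : IsLocalRing.maximalIdeal 𝓡.V,
          (((a' : IsLocalRing.maximalIdeal 𝓡.V) : 𝓡.V) : K) =
            SemilinearAut.baseAut g (((a : IsLocalRing.maximalIdeal 𝓡.V) : 𝓡.V) : K) ∧
          g • (d j).pt a = (d j).pt a' := by
      intro j a
      obtain ⟨h, h', hpt⟩ := hequiv 𝓡 (Qs j) (d j) (hdI j) g hg a
      exact ⟨⟨⟨_, h⟩, h'⟩, rfl, hpt⟩
    choose σ hσ hσpt using hpt
    have hσ0 : ∀ j, σ j 0 = 0 := by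
      intro j
      apply Subtype.ext
      apply Subtype.ext
      rw [hσ j 0]
      simp
    have hsmul : ∀ z₀ : Fin (genusFF k Fk) → IsLocalRing.maximalIdeal 𝓡.V,
        g • polyDiv d z₀ = polyDiv d (fun j => σ j (z₀ j)) := by
      intro z₀
      unfold polyDiv
      rw [Finset.smul_sum]
      refine Finset.sum_congr rfl fun j _ => ?_
      rw [SemilinearAut.smul_single, hσpt]
    have hcls : cls d (fun j => σ j (z u j)) = g • (u : Pic0 K F) := by
      rw [← hz u]
      show _ = g • Pic0.mk (polyDivZ d (z u))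
      rw [SemilinearAut.pic0_smul_mk]
      unfold cls
      congr 1
      apply Subtype.ext
      rw [SemilinearAut.coe_degZeroSMulHom, coe_polyDivZ, coe_polyDivZ, smul_sub, hsmul, hsmul]
      congr 2
      funext j
      exact (hσ0 j).symm
    have := hzuniq ⟨g • (u : Pic0 K F), hgu⟩ _ hcls
    rw [← this]
    exact hσ i (z u i)
  · -- addition
    intro T _ Λ a b ha hb
    refine hzadd 𝓡 Qs hinj hell d T Λ (fun τ => z (a τ)) (fun τ => z (b τ))
      (fun τ => z (a τ + b τ)) ha hb fun τ => ?_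
    rw [← cls_add_sub_eq_zero_iff, hz, hz, hz]
    simp

end Chart

end Fermat.Agent.A3.H799

end
end
-- ===== PACK-END A3/H799/Chart.lean

-- ===== PACK-BEGIN A3/H255/Geo.lean
section




/-!
# A3 / LOCAL, leaf GEO (helper255): the section through the moving points has exactly one
further zero in each disc

`geoStatement : GeoStatement K F k Fk` (frozen leaf of `A3/H799/LocalSpec2.lean`).

Proof.  `E = polyDiv d 0`, `D_r = polyDiv d (zs r)`, `D_w = polyDiv d zw`,
`div ψ = Σ D_r + D_w - (s+1) E`.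
* `G_i = t_i^{s+1} φ = ∏_r (t_i - zs r i) · h_i` with `h_i` regular on the disc gives
  `φ ∈ L((s+1) E - Σ D_r)`, so `φ / ψ ∈ L(D_w) = K` (`ℓ(D_w) = 1`, leaf COORD), i.e.
  `div φ = div ψ`.
* Hence `ord h_i = 1` at `pt_i (zw i)`, so `h_i = (t_i - zw i) · u` in the disc ring.
* Reduction: `t̄^{s+1} = t̄^s · t̄ · red u`, so `red u = 1` and `ev u` is a unit (`red_ev`).

All proofs complete.
-/

set_option autoImplicit false
set_option linter.style.haveILetI false

noncomputable section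

open AlgebraicCurve

namespace Fermat.Agent.A3.H255.Geo

open Fermat.Agent.Lib.RR Fermat.Agent.A3.H799

variable {K F k Fk : Type*} [Field K] [Field F] [Algebra K F] [Field k] [Field Fk] [Algebra k Fk]

section Disc

variable {𝓡 : GoodRed K F k Fk} {Q : Place k Fk} (d : DiscData 𝓡 Q)

theorem aeval_nodal_cons' (a : IsLocalRing.maximalIdeal 𝓡.V)
    (l : List (IsLocalRing.maximalIdeal 𝓡.V)) :
    Polynomial.aeval d.D.t (DiscAlg.nodal (a :: l)) =
      d.tSub a * Polynomial.aeval d.D.t (DiscAlg.nodal l) :=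
  d.D.aeval_nodal_cons a l

theorem coe_aeval_nodal_ne_zero (l : List (IsLocalRing.maximalIdeal 𝓡.V)) :
    ((Polynomial.aeval d.D.t (DiscAlg.nodal l) : d.ring) : F) ≠ 0 := by
  induction l with
  | nil => simp
  | cons a l ih =>
    rw [aeval_nodal_cons']
    exact mul_ne_zero (d.tSub_ne_zero a) ih

open scoped Classical in
theorem ord_pt_aeval_nodal (l : List (IsLocalRing.maximalIdeal 𝓡.V))
    (b : IsLocalRing.maximalIdeal 𝓡.V) :
    (d.pt b).ord ((Polynomial.aeval d.D.t (DiscAlg.nodal l) : d.ring) : F) =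
      (l.map fun a => if a = b then (1 : ℤ) else 0).sum := by
  induction l with
  | nil => simp
  | cons a l ih =>
    rw [aeval_nodal_cons']
    have h1 : (((d.tSub a * Polynomial.aeval d.D.t (DiscAlg.nodal l) : d.ring)) : F) =
        ((d.tSub a : d.ring) : F) * ((Polynomial.aeval d.D.t (DiscAlg.nodal l) : d.ring) : F) :=
      rfl
    rw [h1, (d.pt b).ord_mul (d.tSub_ne_zero a) (coe_aeval_nodal_ne_zero d l), ih,
      d.ord_pt_tSub_eq a b, List.map_cons, List.sum_cons]
    congr 1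
    by_cases h : a = b
    · rw [if_pos h, if_pos h.symm]
    · rw [if_neg h, if_neg (Ne.symm h)]

theorem redHom_aeval_nodal (l : List (IsLocalRing.maximalIdeal 𝓡.V)) :
    d.redHom (Polynomial.aeval d.D.t (DiscAlg.nodal l)) = d.redHom d.D.t ^ l.length := by
  induction l with
  | nil => simp
  | cons a l ih =>
    rw [aeval_nodal_cons', map_mul, ih, d.redHom_tSub, List.length_cons, pow_succ, mul_comm]

open scoped Classical in
theorem ord_pt_t (b : IsLocalRing.maximalIdeal 𝓡.V) :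
    (d.pt b).ord ((d.D.t : d.ring) : F) = if (0 : IsLocalRing.maximalIdeal 𝓡.V) = b then 1 else 0 := by
  have h : d.D.t = d.tSub 0 := by
    unfold DiscData.tSub
    simp
  have h2 := d.ord_pt_tSub_eq 0 b
  rw [← h] at h2
  rw [h2]
  by_cases hb : b = 0
  · rw [if_pos hb, if_pos hb.symm]
  · rw [if_neg hb, if_neg (Ne.symm hb)]

/-- If the reduction of `u` is `1`, every value of `u` is a unit. -/
theorem isUnit_ev_of_redHom_eq_one (u : d.ring) (hu : d.redHom u = 1)
    (a : IsLocalRing.maximalIdeal 𝓡.V) : IsUnit (d.D.ev a u) := by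
  haveI := 𝓡.ff1k
  have h := d.red_ev a u
  have hu' : 𝓡.red ⟨(u : F), d.ring_le _ u.2⟩ = 1 := hu
  rw [hu'] at h
  have hres : 𝓡.res (d.D.ev a u) = 1 := by
    have e : (1 : Fk) - algebraMap k Fk (𝓡.res (d.D.ev a u)) =
        algebraMap k Fk (1 - 𝓡.res (d.D.ev a u)) := by
      rw [map_sub, map_one]
    rcases h with h | h
    · have : algebraMap k Fk 1 = algebraMap k Fk (𝓡.res (d.D.ev a u)) := by
        rw [map_one]; exact h
      exact ((algebraMap k Fk).injective this).symm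
    · rw [e] at h
      by_contra hne
      have hc : (1 : k) - 𝓡.res (d.D.ev a u) ≠ 0 := fun h0 => hne (sub_eq_zero.mp h0).symm
      rw [ord_algebraMap] at h
      omega
  rw [← IsLocalRing.notMem_maximalIdeal]
  intro hmem
  have h1 : ((d.D.ev a u : 𝓡.V) : K) ∈ 𝓡.V.nonunits :=
    ValuationSubring.coe_mem_nonunits_iff.mpr hmem
  rw [← 𝓡.res_eq_zero, hres] at h1
  exact one_ne_zero h1

end Disc

section Sum

variable {𝓡 : GoodRed K F k Fk} {ι : Type*} [Fintype ι] {Qs : ι → Place k Fk}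
  (d : ∀ i, DiscData 𝓡 (Qs i))

open scoped Classical in
theorem sum_polyDiv_apply_pt (hQ : Function.Injective Qs) {s : ℕ}
    (zs : Fin s → ι → IsLocalRing.maximalIdeal 𝓡.V) (i : ι)
    (a : IsLocalRing.maximalIdeal 𝓡.V) :
    (∑ r, polyDiv d (zs r)) ((d i).pt a) = ∑ r, if zs r i = a then (1 : ℤ) else 0 := by
  rw [Finsupp.finsetSum_apply]
  refine Finset.sum_congr rfl fun r _ => ?_
  exact polyDiv_apply_pt d hQ (zs r) i a

theorem sum_polyDiv_apply_of_not_mem {s : ℕ}
    (zs : Fin s → ι → IsLocalRing.maximalIdeal 𝓡.V) (P : Place K F)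
    (hP : ∀ i, 𝓡.r P ≠ Qs i) : (∑ r, polyDiv d (zs r)) P = 0 := by
  rw [Finsupp.finsetSum_apply]
  refine Finset.sum_eq_zero fun r _ => ?_
  exact polyDiv_apply_of_not_mem d (zs r) P hP

open scoped Classical in
theorem sum_map_ofFn {s : ℕ} (f : Fin s → IsLocalRing.maximalIdeal 𝓡.V)
    (a : IsLocalRing.maximalIdeal 𝓡.V) :
    ((List.ofFn f).map fun b => if b = a then (1 : ℤ) else 0).sum =
      ∑ r, if f r = a then (1 : ℤ) else 0 := by
  rw [List.map_ofFn, List.sum_ofFn]
  rfl

end Sum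

/-- **GEO**: the frozen leaf `GeoStatement` of `A3/H799/LocalSpec2.lean`. -/
theorem geoStatement : GeoStatement K F k Fk := by
  classical
  intro 𝓡 Qs hQs hell d s zs zw hprin φ hφL hφred G hG hdiv i
  haveI := 𝓡.ff1
  haveI := 𝓡.ff1k
  -- `φ ≠ 0`
  have hφ0 : ((φ : 𝓡.O) : F) ≠ 0 := by
    intro h
    have : φ = 0 := Subtype.ext h
    rw [this, map_zero] at hφred
    exact zero_ne_one hφred
  -- the quotients `h_i`
  choose h hh using hdiv
  have hGF : ∀ j, ((G j : (d j).ring) : F) ≠ 0 := by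
    intro j
    rw [hG j]
    refine mul_ne_zero (pow_ne_zero _ ?_) hφ0
    have := (d j).tSub_ne_zero 0
    rw [DiscData.coe_tSub] at this
    simpa [DiscData.tF] using this
  have hGF' : ∀ j, ((G j : (d j).ring) : F) =
      ((Polynomial.aeval (d j).D.t (DiscAlg.nodal (List.ofFn fun r => zs r j)) : (d j).ring) : F) *
        ((h j : (d j).ring) : F) := by
    intro j
    rw [hh j]
    rfl
  have hh0 : ∀ j, ((h j : (d j).ring) : F) ≠ 0 := by
    intro j h0
    apply hGF j
    rw [hGF' j, h0, mul_zero]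
  -- orders of `φ` on the discs
  have hordφ : ∀ (j : Fin (genusFF k Fk)) (a : IsLocalRing.maximalIdeal 𝓡.V),
      ((s : ℤ) + 1) * (if (0 : IsLocalRing.maximalIdeal 𝓡.V) = a then 1 else 0) +
        ((d j).pt a).ord ((φ : 𝓡.O) : F) =
      (∑ r, if zs r j = a then (1 : ℤ) else 0) + ((d j).pt a).ord ((h j : (d j).ring) : F) := by
    intro j a
    have e1 := congrArg ((d j).pt a).ord (hGF' j)
    rw [hG j, ((d j).pt a).ord_mul (pow_ne_zero _ (by
        have := (d j).tSub_ne_zero 0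
        rw [DiscData.coe_tSub] at this
        simpa [DiscData.tF] using this)) hφ0,
      ord_pow, ord_pt_t (d j) a,
      ((d j).pt a).ord_mul (coe_aeval_nodal_ne_zero (d j) _) (hh0 j),
      ord_pt_aeval_nodal (d j), sum_map_ofFn] at e1
    push_cast at e1
    exact e1
  -- `φ ∈ L((s+1) E - Σ D_r)`
  have hφB : ∀ P : Place K F,
      (∑ r, polyDiv d (zs r)) P - ((s : ℤ) + 1) * polyDiv d 0 P ≤ P.ord ((φ : 𝓡.O) : F) := by
    intro P
    by_cases hP : ∃ j, 𝓡.r P = Qs j
    · obtain ⟨j, hj⟩ := hP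
      obtain ⟨a, rfl⟩ := (d j).pt_surj P hj
      rw [sum_polyDiv_apply_pt d hQs zs j a, polyDiv_apply_pt d hQs 0 j a]
      have e := hordφ j a
      have hnn := (d j).ord_nonneg (h j) ((d j).pt a) ((d j).r_pt a)
      have hz : ((0 : Fin (genusFF k Fk) → IsLocalRing.maximalIdeal 𝓡.V) j = a) ↔
          ((0 : IsLocalRing.maximalIdeal 𝓡.V) = a) := Iff.rfl
      simp only [hz]
      linarith
    · push Not at hP
      rw [sum_polyDiv_apply_of_not_mem d zs P hP, polyDiv_apply_of_not_mem d 0 P hP]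
      have := (mem_L_iff.mp hφL P).resolve_left hφ0
      have h0 : (((s : ℤ) + 1) • polyDiv d (0 : Fin (genusFF k Fk) →
          IsLocalRing.maximalIdeal 𝓡.V)) P = 0 := by
        rw [Finsupp.smul_apply, polyDiv_apply_of_not_mem d 0 P hP, smul_zero]
      rw [h0] at this
      simpa using this
  -- `div φ = div ψ`
  obtain ⟨ψ, hψ0, hψ⟩ := hprin
  have hψ' : ∀ P : Place K F, P.ord ψ =
      (∑ r, polyDiv d (zs r)) P + polyDiv d zw P - ((s : ℤ) + 1) * polyDiv d 0 P := by
    intro P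
    rw [← hψ P]
    simp only [Finsupp.coe_sub, Finsupp.coe_add, Pi.sub_apply, Pi.add_apply, Finsupp.smul_apply,
      smul_eq_mul]
  have hquot : ((φ : 𝓡.O) : F) * ψ⁻¹ ∈ riemannRochSpace (polyDiv d zw) := by
    rw [mem_L_iff]
    intro P
    right
    rw [P.ord_mul hφ0 (inv_ne_zero hψ0), P.ord_inv, hψ' P]
    have := hφB P
    linarith
  rw [H638.L_eq_range_of_ell_eq_one (Fermat.Agent.A3.H255.polyDiv_nonneg d zw)
    (Fermat.Agent.A3.H255.ell_polyDiv 𝓡 Qs hell d zw)] at hquot
  obtain ⟨c, hc⟩ := hquot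
  have hc' : algebraMap K F c = ((φ : 𝓡.O) : F) * ψ⁻¹ := hc
  have hc0 : algebraMap K F c ≠ 0 := by
    rw [hc']
    exact mul_ne_zero hφ0 (inv_ne_zero hψ0)
  have hφψ : ∀ P : Place K F, P.ord ((φ : 𝓡.O) : F) = P.ord ψ := by
    intro P
    have e : ((φ : 𝓡.O) : F) = algebraMap K F c * ψ := by
      rw [hc']
      field_simp
    rw [e, P.ord_mul hc0 hψ0, ord_algebraMap, zero_add]
  -- `h_i` vanishes at `pt_i (zw i)`
  have hordh : ((d i).pt (zw i)).ord ((h i : (d i).ring) : F) = 1 := by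
    have e := hordφ i (zw i)
    rw [hφψ, hψ', sum_polyDiv_apply_pt d hQs zs i (zw i), polyDiv_apply_pt d hQs zw i (zw i),
      polyDiv_apply_pt d hQs 0 i (zw i), if_pos rfl] at e
    have hz : ((0 : Fin (genusFF k Fk) → IsLocalRing.maximalIdeal 𝓡.V) i = zw i) ↔
        ((0 : IsLocalRing.maximalIdeal 𝓡.V) = zw i) := Iff.rfl
    simp only [hz] at e
    linarith
  have hhi0 : h i ≠ 0 := fun h0 => hh0 i (by rw [h0]; rfl)
  have hev : (d i).D.ev (zw i) (h i) = 0 :=
    ((d i).ev_eq_zero_iff (zw i) (h i) hhi0).mpr (by rw [hordh])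
  obtain ⟨u, hu⟩ := (d i).exists_eq_mul_of_ev_eq_zero (zw i) (h i) hev
  -- the reduction of `u` is `1`
  have hred1 : (d i).redHom (G i) = (d i).redHom (d i).D.t ^ (s + 1) := by
    have e : (⟨((G i : (d i).ring) : F), (d i).ring_le _ (G i).2⟩ : 𝓡.O) =
        (⟨(((d i).D.t : (d i).ring) : F), (d i).ring_le _ (d i).D.t.2⟩ : 𝓡.O) ^ (s + 1) * φ := by
      apply Subtype.ext
      rw [hG i]
      rfl
    rw [DiscData.redHom_apply, e, map_mul, map_pow, hφred, mul_one, DiscData.redHom_apply]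
  have hred2 : (d i).redHom (G i) = (d i).redHom (d i).D.t ^ (s + 1) * (d i).redHom u := by
    rw [hh i, hu, map_mul, map_mul, redHom_aeval_nodal, (d i).redHom_tSub, List.length_ofFn,
      pow_succ]
    ring
  have hu1 : (d i).redHom u = 1 := by
    have h0 : (d i).redHom (d i).D.t ^ (s + 1) ≠ 0 := pow_ne_zero _ (d i).redHom_t_ne_zero
    have e : (d i).redHom (d i).D.t ^ (s + 1) * (d i).redHom u =
        (d i).redHom (d i).D.t ^ (s + 1) * 1 := by
      rw [← hred2, hred1, mul_one]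
    exact mul_left_cancel₀ h0 e
  refine ⟨u, isUnit_ev_of_redHom_eq_one (d i) u hu1 (zw i), ?_⟩
  rw [hh i, hu, mul_assoc]
  rfl

end Fermat.Agent.A3.H255.Geo

end
end
-- ===== PACK-END A3/H255/Geo.lean

-- ===== PACK-BEGIN A3/H555/DiscEquiv.lean
section
/-
helper555 — cell A3 (S19), block LOCAL, leaf DISC-I.

`DiscEquivStatement K F k Fk` (frozen in `Fermat/Agent/A3/H799/LocalSpec.lean`): for residue-disc
data with an inertia-invariant parameter `t`, inertia permutes the points of the disc through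
their parameter values, `g • pt a = pt (g a)`.

Proof: `pt a` is the unique place of the disc at which `t - a` vanishes; `g` maps it to a place
of the same disc at which `g • (t - a) = t - g a` vanishes.
-/


set_option autoImplicit false

noncomputable section

open AlgebraicCurve

namespace Fermat.Agent.A3.H555

open Fermat.Agent.A3.H799 Fermat.Agent.Lib.RR

variable {K F k Fk : Type*} [Field K] [Field F] [Algebra K F] [Field k] [Field Fk] [Algebra k Fk]

/-- Elements of the maximal ideal of `V` reduce to zero. -/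
theorem res_eq_zero_of_mem (𝓡 : GoodRed K F k Fk) (a : IsLocalRing.maximalIdeal 𝓡.V) :
    𝓡.res (a : 𝓡.V) = 0 :=
  (𝓡.res_eq_zero _).mpr (ValuationSubring.coe_mem_nonunits_iff.mpr a.2)

/-- The parameter of a residue disc minus the value `a` vanishes at the point `pt a`. -/
theorem one_le_ord_pt_sub (𝓡 : GoodRed K F k Fk) {Q : Place k Fk} (d : DiscData 𝓡 Q)
    (a : IsLocalRing.maximalIdeal 𝓡.V) :
    1 ≤ (d.pt a).ord (((d.D.t : d.ring) : F) - algebraMap K F (((a : 𝓡.V) : K))) := by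
  have h := d.ev_spec a d.D.t
  rw [d.D.ev_t] at h
  rcases h with h | h
  · exfalso
    have hmem : algebraMap K F (((a : 𝓡.V) : K)) ∈ 𝓡.O := (𝓡.algebraMap_mem _).mpr (a : 𝓡.V).2
    have e : (⟨((d.D.t : d.ring) : F), d.ring_le _ d.D.t.2⟩ : 𝓡.O) =
        ⟨algebraMap K F (((a : 𝓡.V) : K)), hmem⟩ := Subtype.ext h
    have h1 := d.ord_t
    rw [e, 𝓡.red_algebraMap (a : 𝓡.V) hmem, res_eq_zero_of_mem, map_zero, Place.ord_zero] at h1
    exact zero_ne_one h1
  · exact h

/-- A place at which both `t - a` and `t - b` vanish forces `a = b`. -/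
theorem eq_of_one_le_ord_sub (P : Place K F) (t : F) {a b : K}
    (ha : 1 ≤ P.ord (t - algebraMap K F a)) (hb : 1 ≤ P.ord (t - algebraMap K F b)) : a = b := by
  have hb' : 1 ≤ P.ord (-(t - algebraMap K F b)) := by rwa [ord_neg]
  have h := ord_add_of_le P (Or.inr ha) (Or.inr hb')
  have e : t - algebraMap K F a + -(t - algebraMap K F b) = algebraMap K F (b - a) := by
    rw [map_sub]; ring
  rw [e, ord_algebraMap] at h
  rcases h with h | h
  · have := (algebraMap K F).injective (h.trans (map_zero _).symm)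
    exact (sub_eq_zero.mp this).symm
  · omega

/-- The points of a residue disc are parametrised injectively. -/
theorem pt_injective (𝓡 : GoodRed K F k Fk) {Q : Place k Fk} (d : DiscData 𝓡 Q) :
    Function.Injective d.pt := by
  intro a b hab
  have ha := one_le_ord_pt_sub 𝓡 d a
  have hb := one_le_ord_pt_sub 𝓡 d b
  rw [← hab] at hb
  exact Subtype.ext (Subtype.ext (eq_of_one_le_ord_sub _ _ ha hb))

/-- `pt a` is the unique place of the disc at which `t - a` vanishes. -/
theorem pt_eq_of_one_le_ord_sub (𝓡 : GoodRed K F k Fk) {Q : Place k Fk} (d : DiscData 𝓡 Q)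
    (a : IsLocalRing.maximalIdeal 𝓡.V) {P : Place K F} (hP : 𝓡.r P = Q)
    (h : 1 ≤ P.ord (((d.D.t : d.ring) : F) - algebraMap K F (((a : 𝓡.V) : K)))) :
    d.pt a = P := by
  obtain ⟨b, rfl⟩ := d.pt_surj P hP
  have hb := one_le_ord_pt_sub 𝓡 d b
  exact congrArg d.pt (Subtype.ext (Subtype.ext (eq_of_one_le_ord_sub _ _ h hb)))

/-- **DISC-I.** -/
theorem discEquivStatement : DiscEquivStatement K F k Fk := by
  intro 𝓡 Q d ht g hg a
  obtain ⟨h, hres⟩ := 𝓡.I_base g hg (a : 𝓡.V)
  have h' : (⟨SemilinearAut.baseAut g (((a : 𝓡.V) : K)), h⟩ : 𝓡.V) ∈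
      IsLocalRing.maximalIdeal 𝓡.V := by
    rw [← ValuationSubring.coe_mem_nonunits_iff, ← 𝓡.res_eq_zero, hres]
    exact res_eq_zero_of_mem 𝓡 a
  refine ⟨h, h', ?_⟩
  symm
  apply pt_eq_of_one_le_ord_sub 𝓡 d
  · rw [𝓡.I_place g hg, d.r_pt]
  · have h1 := one_le_ord_pt_sub 𝓡 d a
    rw [← SemilinearAut.ord_smul g, smul_sub, ht g hg, SemilinearAut.smul_algebraMap] at h1
    exact h1

/-- **LIFTI** from DISC alone. -/
theorem liftiStatement_of_discStatement (hdisc : DiscStatement K F k Fk) :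
    LiftiStatement K F k Fk :=
  liftiStatement_of_disc hdisc discEquivStatement

end Fermat.Agent.A3.H555

end
end
-- ===== PACK-END A3/H555/DiscEquiv.lean

-- ===== PACK-BEGIN A3/H555/KerInertia.lean
section
/-
helper555 — cell A3 (S19), block LOCAL, leaf KER-I.

`KerInertiaStatement K F k Fk` (frozen in `Fermat/Agent/A3/H799/LocalSpec2.lean`): inertia acts
trivially on `Pic0` modulo the kernel of reduction, because it preserves every residue disc.
-/


set_option autoImplicit false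

noncomputable section

open AlgebraicCurve

namespace Fermat.Agent.A3.H555

open Fermat.Agent.A3.H799

variable {K F k Fk : Type*} [Field K] [Field F] [Algebra K F] [Field k] [Field Fk] [Algebra k Fk]

/-- The reduction of a divisor is invariant under inertia. -/
theorem mapDomain_r_smul (𝓡 : GoodRed K F k Fk) {g : SemilinearAut K F} (hg : g ∈ 𝓡.I)
    (D : Divisor K F) : Finsupp.mapDomain 𝓡.r (g • D) = Finsupp.mapDomain 𝓡.r D := by
  rw [SemilinearAut.divisor_smul_def, ← Finsupp.mapDomain_comp]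
  congr 1
  funext P
  exact 𝓡.I_place g hg P

/-- **KER-I.** -/
theorem kerInertiaStatement : KerInertiaStatement K F k Fk := by
  intro 𝓡 g hg x
  obtain ⟨D, rfl⟩ := Pic0.mk_surjective x
  refine ⟨SemilinearAut.degZeroSMulHom g D - D, rfl, ?_⟩
  have : Finsupp.mapDomain 𝓡.r
      ((SemilinearAut.degZeroSMulHom g D - D : Divisor.degZero (K := K) (F := F)) :
        Divisor K F) = 0 := by
    rw [AddSubgroup.coe_sub, Finsupp.mapDomain_sub, SemilinearAut.coe_degZeroSMulHom,
      mapDomain_r_smul 𝓡 hg, sub_self]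
  rw [this]
  exact AddSubgroup.zero_mem _

end Fermat.Agent.A3.H555

end
end
-- ===== PACK-END A3/H555/KerInertia.lean

-- ===== PACK-BEGIN A3/H75/Par.lean
section




/-!
# A3 / LOCAL / DISC (helper75): inertia-invariant parameters; the leaf `DiscStatement`

For a `GoodRed 𝓡` (frozen interface, `Fermat/Agent/A3/H799/GoodRed.lean`):

* `exists_lift_inv` : for an inertia-invariant divisor `D` of degree `> 2g - 2`, every element of
  `L(r_* D)` is the reduction of an inertia-invariant function of `L(D) ∩ O`;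
* `exists_param_of_place` : if `P₁` is an inertia-invariant place with `r P₁ ≠ Q` there is an
  inertia-invariant parameter at `Q` (a function of `O`, regular on the disc of `Q`, whose
  reduction is a uniformiser at `Q`), with poles only at `P₁`;
* `exists_place_ne` : a function field with `FF1` has at least two places;
* `exists_inv_place` : over every place `Q' ≠ r P∞` there is an inertia-invariant place;
* `exists_param` (PAR) : every place of the special fibre has an inertia-invariant parameter;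
* `discStatement : DiscStatement K F k Fk` : the frozen leaf DISC of
  `Fermat/Agent/A3/H799/LocalSpec.lean`.
-/

set_option autoImplicit false
set_option linter.unusedSectionVars false

noncomputable section

namespace Fermat.Agent.A3.H75

open AlgebraicCurve Fermat.Agent.Lib.RR Fermat.Agent.A3.H799 Fermat.Agent.S19.H195

variable {K F k Fk : Type*} [Field K] [Field F] [Algebra K F] [Field k] [Field Fk] [Algebra k Fk]

/-- the constants of `V`, as elements of `O` -/
def constO (𝓡 : GoodRed K F k Fk) (a : 𝓡.V) : 𝓡.O :=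
  ⟨algebraMap K F (a : K), (𝓡.algebraMap_mem _).mpr a.2⟩

@[simp] theorem coe_constO (𝓡 : GoodRed K F k Fk) (a : 𝓡.V) :
    ((constO 𝓡 a : 𝓡.O) : F) = algebraMap K F (a : K) := rfl

theorem red_constO (𝓡 : GoodRed K F k Fk) (a : 𝓡.V) :
    𝓡.red (constO 𝓡 a) = algebraMap k Fk (𝓡.res a) :=
  𝓡.red_algebraMap a _

/-- **Inertia-invariant integral Riemann–Roch.** -/
theorem exists_lift_inv (𝓡 : GoodRed K F k Fk) (D : Divisor K F)
    (hD : 2 * (genusFF k Fk : ℤ) - 2 < Divisor.degree D) (hinv : ∀ g ∈ 𝓡.I, g • D = D)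
    (gb : Fk) (hgb : gb ∈ riemannRochSpace (Finsupp.mapDomain 𝓡.r D)) :
    ∃ f : 𝓡.O, (f : F) ∈ riemannRochSpace D ∧ 𝓡.red f = gb ∧
      ∀ g ∈ 𝓡.I, g • (f : F) = (f : F) := by
  have := 𝓡.ff1
  have := 𝓡.ff1k
  obtain ⟨n, b, hli, hmem, hspan, hbinv⟩ := 𝓡.orthonormal D
  have hbI := hbinv hinv
  -- `b` is a `K`-basis of `L(D)`, hence `n = ℓ(D)`
  have hliK : LinearIndependent K (fun i => ((b i : 𝓡.O) : F)) :=
    (ofGoodRed 𝓡).linearIndependent_of_red (fun i => ((b i : 𝓡.O) : F)) (fun i => (b i).2) hli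
  have hn : ell D = n := by
    unfold ell
    rw [← hspan, finrank_span_eq_card hliK, Fintype.card_fin]
  have hell := (GoodRedLemmas.ell_eq 𝓡 D hD).1
  -- the reductions form a basis of `L(r_* D)`
  set W := riemannRochSpace (Finsupp.mapDomain 𝓡.r D) with hW
  let b' : Fin n → W := fun i => ⟨𝓡.red (b i), GoodRedLemmas.red_mem 𝓡 D (b i) (hmem i)⟩
  have hli' : LinearIndependent k b' := by
    apply LinearIndependent.of_comp W.subtype
    exact hli
  have hcard : Fintype.card (Fin n) = Module.finrank k W := by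
    rw [Fintype.card_fin, ← hn, hell]
    rfl
  have htop : Submodule.span k (Set.range b') = ⊤ :=
    hli'.span_eq_top_of_card_eq_finrank' hcard
  have hmemtop : (⟨gb, hgb⟩ : W) ∈ Submodule.span k (Set.range b') := by
    rw [htop]
    exact Submodule.mem_top
  obtain ⟨c, hc⟩ := (Submodule.mem_span_range_iff_exists_fun k).mp hmemtop
  have hc' : ∑ i, c i • 𝓡.red (b i) = gb := by
    have := congrArg (W.subtype) hc
    simpa [b'] using this
  -- inertia-invariant lifts of the coefficients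
  choose a ha hainv using fun i => 𝓡.I_lift_const (c i)
  refine ⟨∑ i, constO 𝓡 (a i) * b i, ?_, ?_, ?_⟩
  · have h1 : ((∑ i, constO 𝓡 (a i) * b i : 𝓡.O) : F) =
        ∑ i, ((a i : 𝓡.V) : K) • ((b i : 𝓡.O) : F) := by
      rw [← 𝓡.O.subtype_apply, map_sum]
      refine Finset.sum_congr rfl fun i _ => ?_
      rw [Algebra.smul_def]
      rfl
    rw [h1]
    exact Submodule.sum_mem _ fun i _ => Submodule.smul_mem _ _ (hmem i)
  · rw [map_sum, ← hc']
    refine Finset.sum_congr rfl fun i _ => ?_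
    rw [map_mul, red_constO, ha i, Algebra.smul_def]
  · intro g hg
    have h1 : ((∑ i, constO 𝓡 (a i) * b i : 𝓡.O) : F) =
        ∑ i, algebraMap K F ((a i : 𝓡.V) : K) * ((b i : 𝓡.O) : F) := by
      rw [← 𝓡.O.subtype_apply, map_sum]
      rfl
    rw [h1, Finset.smul_sum]
    refine Finset.sum_congr rfl fun i _ => ?_
    rw [smul_mul', SemilinearAut.smul_algebraMap, hainv i g hg, hbI i g hg]

/-- **A parameter at `Q` with poles only at an inertia-invariant place `P₁` off the disc.** -/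
theorem exists_param_of_place (𝓡 : GoodRed K F k Fk) (Q : Place k Fk) (P₁ : Place K F)
    (hP₁ : ∀ g ∈ 𝓡.I, g • P₁ = P₁) (hne : 𝓡.r P₁ ≠ Q) :
    ∃ t : 𝓡.O, (∀ P : Place K F, 𝓡.r P = Q → (t : F) ∈ P.toValuationSubring) ∧
      Q.ord (𝓡.red t) = 1 ∧ ∀ g ∈ 𝓡.I, g • (t : F) = (t : F) := by
  classical
  have := 𝓡.ff1
  have := 𝓡.ff1k
  set m : ℤ := 2 * (genusFF k Fk : ℤ) + 2 with hm
  set D : Divisor K F := Finsupp.single P₁ m with hD
  have hdegD : Divisor.degree D = m := by
    rw [hD, Divisor.degree_single, deg_eq_one P₁]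
    simp
  have hrD : Finsupp.mapDomain 𝓡.r D = Finsupp.single (𝓡.r P₁) m := by
    rw [hD, Finsupp.mapDomain_single]
  set E : Divisor k Fk := Finsupp.single (𝓡.r P₁) m - prim Q with hE
  have hdegE : Divisor.degree E = m - 1 := by
    rw [hE, map_sub, Divisor.degree_single, deg_eq_one (𝓡.r P₁), degree_prim']
    simp
  obtain ⟨tb, htb, htb0, hord⟩ := H439.exists_mem_L_ord_eq (E := E)
    (by rw [hdegE, hm]; omega) Q
  have hEQ : E Q = -1 := by
    rw [hE, Finsupp.sub_apply, Finsupp.single_apply, if_neg hne, prim_apply_self]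
    ring
  rw [hEQ, neg_neg] at hord
  have htb' : tb ∈ riemannRochSpace (Finsupp.mapDomain 𝓡.r D) := by
    rw [hrD]
    exact L_mono (H439.sub_prim_le _ Q) htb
  have hDinv : ∀ g ∈ 𝓡.I, g • D = D := by
    intro g hg
    rw [hD, SemilinearAut.smul_single, hP₁ g hg]
  obtain ⟨t, htD, hred, htinv⟩ := exists_lift_inv 𝓡 D (by rw [hdegD, hm]; omega) hDinv tb htb'
  refine ⟨t, fun P hP => ?_, by rw [hred]; exact hord, htinv⟩
  have hPne : P ≠ P₁ := by
    rintro rfl
    exact hne hP
  rcases (mem_L_iff.mp htD) P with h0 | h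
  · rw [h0]
    exact P.toValuationSubring.zero_mem
  · apply mem_of_ord_nonneg
    rw [hD, Finsupp.single_apply, if_neg (Ne.symm hPne), neg_zero] at h
    exact h

/-- A function field of one variable (`FF1`) has at least two places. -/
theorem exists_place_ne {K' F' : Type*} [Field K'] [Field F'] [Algebra K' F'] [FF1 K' F']
    (Q₀ : Place K' F') : ∃ Q : Place K' F', Q ≠ Q₀ := by
  classical
  by_contra hcon
  push Not at hcon
  set n : ℤ := 2 * (genusFF K' F' : ℤ) + 1 with hn
  set D : Divisor K' F' := Finsupp.single Q₀ n with hD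
  have hdegD : Divisor.degree D = n := by
    rw [hD, Divisor.degree_single, deg_eq_one Q₀]
    simp
  have hell : (ell D : ℤ) = Divisor.degree D + 1 - (genusFF K' F' : ℤ) :=
    ell_eq_of_degree_gt (by rw [hdegD, hn]; omega)
  have hle : riemannRochSpace D ≤ riemannRochSpace (0 : Divisor K' F') := by
    intro f hf
    rw [mem_L_iff]
    intro v
    by_cases hf0 : f = 0
    · exact Or.inl hf0
    right
    have hv : v = Q₀ := hcon v
    have hdeg := degree_divOf (K := K') f hf0
    have hdiv : divOf (K := K') f hf0 = Finsupp.single Q₀ (Q₀.ord f) := by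
      ext w
      rw [divOf_apply, hcon w, Finsupp.single_apply, if_pos rfl]
    rw [hdiv, Divisor.degree_single, deg_eq_one Q₀] at hdeg
    have h0 : Q₀.ord f = 0 := by simpa using hdeg
    rw [hv, h0]
    simp
  have h1 := Submodule.finrank_mono hle
  have h2 : ell (0 : Divisor K' F') = 1 := ell_zero
  unfold ell at h2 hell
  rw [hdegD, hn] at hell
  omega

/-- the zero of the maximal ideal -/
def zeroMax (𝓡 : GoodRed K F k Fk) : IsLocalRing.maximalIdeal 𝓡.V := 0

/-- **An inertia-invariant place in the disc of `Q'`**, from an inertia-invariant parameter. -/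
theorem exists_inv_place_of_param (𝓡 : GoodRed K F k Fk) (Q' : Place k Fk) (t : 𝓡.O)
    (hreg : ∀ P : Place K F, 𝓡.r P = Q' → (t : F) ∈ P.toValuationSubring)
    (hord : Q'.ord (𝓡.red t) = 1) (hinv : ∀ g ∈ 𝓡.I, g • (t : F) = (t : F)) :
    ∃ P' : Place K F, 𝓡.r P' = Q' ∧ ∀ g ∈ 𝓡.I, g • P' = P' := by
  have := 𝓡.ff1
  let T : DiscParam (toConsInput 𝓡) Q' := ⟨t, hreg, hord⟩
  refine ⟨T.center 0, T.r_center 0, fun g hg => ?_⟩
  symm
  apply T.center_eq 0 (g • T.center 0)
  · show 𝓡.r (g • T.center 0) = Q'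
    rw [𝓡.I_place g hg]
    exact T.r_center 0
  · have h0 := T.hasVal_center 0
    have hval : HasVal (T.center 0) (t : F) 0 := by simpa using h0
    have hval' : HasVal (g • T.center 0) (t : F) 0 := by
      rw [hasVal_zero_iff] at hval ⊢
      rcases hval with h | h
      · exact Or.inl h
      · right
        have := SemilinearAut.ord_smul g (T.center 0) (t : F)
        rw [hinv g hg] at this
        rw [this]
        exact h
    simpa using hval'

/-- **PAR.**  Every place of the special fibre has an inertia-invariant parameter. -/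
theorem exists_param (𝓡 : GoodRed K F k Fk) (Q : Place k Fk) :
    ∃ t : 𝓡.O, (∀ P : Place K F, 𝓡.r P = Q → (t : F) ∈ P.toValuationSubring) ∧
      Q.ord (𝓡.red t) = 1 ∧ ∀ g ∈ 𝓡.I, g • (t : F) = (t : F) := by
  have := 𝓡.ff1
  have := 𝓡.ff1k
  obtain ⟨Pinf, hPinf⟩ := 𝓡.I_fixed_place
  by_cases hQ : 𝓡.r Pinf = Q
  · obtain ⟨Q', hQ'⟩ := exists_place_ne Q
    obtain ⟨t', hreg', hord', hinv'⟩ := exists_param_of_place 𝓡 Q' Pinf hPinf (by
      rw [hQ]
      exact Ne.symm hQ')
    obtain ⟨P', hP', hP'inv⟩ := exists_inv_place_of_param 𝓡 Q' t' hreg' hord' hinv'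
    exact exists_param_of_place 𝓡 Q P' hP'inv (by rw [hP']; exact hQ')
  · exact exists_param_of_place 𝓡 Q Pinf hPinf hQ

variable (K F k Fk)

/-- **The frozen leaf DISC** of `Fermat/Agent/A3/H799/LocalSpec.lean`. -/
theorem discStatement : DiscStatement K F k Fk :=
  disc_of_param fun 𝓡 Q => exists_param 𝓡 Q

end Fermat.Agent.A3.H75

end
end
-- ===== PACK-END A3/H75/Par.lean

-- ===== PACK-BEGIN A3/H799/LocalFinal.lean
section









/-!
# A3 / LOCAL — `LocalStatement` from the single remaining leaf DET  (helper799)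

All other leaves are on main: DISC (`H75.discStatement`), DISC-I (`H555.discEquivStatement`),
NSP (`H255.nspStatement`), COORD (`H255.coordStatement`), GEO (`H255.Geo.geoStatement`),
KER-I (`H555.kerInertiaStatement`), LIFTI (`H555.liftiStatement_of_disc`).
-/

set_option autoImplicit false

open AlgebraicCurve

namespace Fermat.Agent.A3.H799

universe u₁ u₂ u₃ u₄

variable {K : Type u₁} {F : Type u₂} {k : Type u₃} {Fk : Type u₄}
  [Field K] [Field F] [Algebra K F] [Field k] [Field Fk] [Algebra k Fk]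

/-- ZADD from DET. -/
theorem zaddStatement_of_det.{w} (hdet : DetStatement K F k Fk) :
    ZaddStatement.{u₁, u₂, u₃, u₄, w} K F k Fk :=
  zadd_of H255.coordStatement
    (ztri_of_zgen (zgen_of H255.Geo.geoStatement hdet))
    (zneg_of_zgen (zgen_of H255.Geo.geoStatement hdet))

/-- CHART from DET. -/
theorem chartStatement_of_det.{w} [IsAlgClosed k] (hdet : DetStatement K F k Fk) :
    ChartStatement.{u₁, u₂, u₃, u₄, w} K F k Fk :=
  chart_of H255.nspStatement (H75.discStatement K F k Fk) H555.discEquivStatement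
    H255.coordStatement (zaddStatement_of_det hdet)

/-- **`LocalStatement` from DET.** -/
theorem localStatement_of_det [IsAlgClosed K] [IsAlgClosed k] [CharZero K]
    (hdet : DetStatement K F k Fk) : LocalStatement K F k Fk :=
  local_of_chart (chartStatement_of_det hdet) H555.kerInertiaStatement
    (H555.liftiStatement_of_disc (H75.discStatement K F k Fk) H555.discEquivStatement)

end Fermat.Agent.A3.H799

end
-- ===== PACK-END A3/H799/LocalFinal.lean

-- ===== PACK-BEGIN A3/H255/Det.lean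
section





/-!
# A3 / LOCAL, leaf DET (helper255): integral functions in `L((s+1)E)` with unit jet determinant

`detStatement : DetStatement K F k Fk` (frozen leaf of `A3/H799/LocalSpec2.lean`).

Proof.  `Ē = Σ Q_i` attains Riemann's bound (`ℓ(Ē) = 1 = deg Ē + 1 - g`), hence
`𝔸 = 𝔸(Ē) + Fk` and principal parts modulo `𝔸(Ē)` can be prescribed: for every
`c = (i₀, m)` there is `ψ_c ∈ L_k((s+1)Ē)` with `ψ_c ≡ t̄_{i₀}^{m-s-1}` at `Q_{i₀}` and
`ψ_c ≡ 0` at the other `Q_i` (modulo functions of order `≥ -1`).  Lift `ψ_c` to an integral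
`φ_c ∈ L((s+1)E)` (integral Riemann–Roch, `GoodRed.exists_lift`), interpolate
`t_i^{s+1} φ_c = P(t_i) + t_i^s H` in the disc algebra; the reduction of `P` is
`δ · X^m` modulo `X^s`, so the jet matrix reduces to the identity and has unit determinant.

All proofs complete.
-/

set_option autoImplicit false
set_option linter.style.haveILetI false
set_option linter.unusedSectionVars false

noncomputable section

open AlgebraicCurve

namespace Fermat.Agent.A3.H255.Det

open Fermat.Agent.Lib.RR Fermat.Agent.A3.H799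

/-! ### Prescribing principal parts -/

section Approx

variable {K F : Type*} [Field K] [Field F] [Algebra K F] [FF1 K F]

open Classical in
/-- Strong approximation from `𝔸 = 𝔸(D) + F`. -/
theorem exists_approx_of_sup {D : Divisor K F}
    (hsup : repartitionsOf D ⊔ principalRepartitions K F = ⊤) (S : Finset (Place K F))
    (φ : Place K F → F) :
    ∃ f : F, (∀ v ∈ S, H623.Big v (-D v) (f - φ v)) ∧ ∀ v ∉ S, H623.Big v (-D v) f := by
  let α₀ : Place K F → F := fun v => if v ∈ S then φ v else 0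
  have hα₀ : α₀ ∈ repartitions K F := by
    apply mem_repartitions_of_finite_ord
    refine (Finset.finite_toSet S).subset fun v hv => ?_
    by_contra hvS
    have hv' : v.ord (α₀ v) < 0 := hv
    have : α₀ v = 0 := if_neg hvS
    rw [this, v.ord_zero] at hv'
    exact lt_irrefl _ hv'
  let α : ↥(repartitions K F) := ⟨α₀, hα₀⟩
  have hmem : α ∈ repartitionsOf D ⊔ principalRepartitions K F := by
    rw [hsup]; trivial
  obtain ⟨β, hβ, γ, hγ, hsum⟩ := Submodule.mem_sup.mp hmem
  obtain ⟨f, hf⟩ := mem_principalRepartitions_iff.mp hγ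
  rw [mem_repartitionsOf_iff] at hβ
  have hval : ∀ v, (β : Place K F → F) v = α₀ v - f := by
    intro v
    have h1 := congrArg (fun x : ↥(repartitions K F) => (x : Place K F → F) v) hsum
    simp only [H439.coe_add_apply] at h1
    have h2 : (γ : Place K F → F) v = f := by rw [hf]
    rw [h2] at h1
    have h3 : (α : Place K F → F) v = α₀ v := rfl
    rw [h3] at h1
    rw [← h1]; ring
  refine ⟨f, fun v hv => ?_, fun v hv => ?_⟩
  · have h := hβ v
    rw [hval v] at h
    have hα : α₀ v = φ v := if_pos hv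
    rw [hα] at h
    have h' : H623.Big v (-D v) (φ v - f) := h
    have := h'.neg
    rwa [neg_sub] at this
  · have h := hβ v
    rw [hval v] at h
    have hα : α₀ v = 0 := if_neg hv
    rw [hα, zero_sub] at h
    have h' : H623.Big v (-D v) (-f) := h
    have := h'.neg
    rwa [neg_neg] at this

/-- Principal parts modulo `𝔸(Ē)` at `g` distinct points with `ℓ(Σ Q_i) = 1`. -/
theorem exists_jet {ι : Type*} [Fintype ι] (Qs : ι → Place K F) (hQs : Function.Injective Qs)
    (hcard : Fintype.card ι = genusFF K F)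
    (hell : ell (∑ i, Finsupp.single (Qs i) (1 : ℤ)) = 1) (τ : ι → F) :
    ∃ f : F, (∀ i, H623.Big (Qs i) (-1) (f - τ i)) ∧
      ∀ v : Place K F, (∀ i, Qs i ≠ v) → H623.Big v 0 f := by
  classical
  have hatt : (ell (∑ i, Finsupp.single (Qs i) (1 : ℤ)) : ℤ) =
      Divisor.degree (∑ i, Finsupp.single (Qs i) (1 : ℤ)) + 1 - (genusFF K F : ℤ) := by
    rw [hell, Fermat.Agent.A3.H255.degree_sum_single, hcard]
    simp
  have hsup := H439.sup_eq_top_of_attains (genusFF K F : ℤ)
    (fun D' => riemann_inequality_genusFF D') _ hatt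
  let φ : Place K F → F := fun v => if h : ∃ i, Qs i = v then τ h.choose else 0
  have hφ : ∀ i, φ (Qs i) = τ i := by
    intro i
    have hex : ∃ j, Qs j = Qs i := ⟨i, rfl⟩
    have : φ (Qs i) = τ hex.choose := dif_pos hex
    rw [this, hQs hex.choose_spec]
  obtain ⟨f, h1, h2⟩ := exists_approx_of_sup hsup (Finset.univ.image Qs) φ
  refine ⟨f, fun i => ?_, fun v hv => ?_⟩
  · have := h1 (Qs i) (Finset.mem_image_of_mem Qs (Finset.mem_univ i))
    rwa [hφ i, Fermat.Agent.A3.H255.sum_single_apply_of_injective hQs i] at this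
  · have hvS : v ∉ Finset.univ.image Qs := by
      intro hmem
      obtain ⟨i, -, hi⟩ := Finset.mem_image.mp hmem
      exact hv i hi
    have := h2 v hvS
    rwa [Fermat.Agent.A3.H255.sum_single_apply_of_forall_ne hv, neg_zero] at this

end Approx

variable {K F k Fk : Type*} [Field K] [Field F] [Algebra K F] [Field k] [Field Fk] [Algebra k Fk]

/-! ### Disc algebra lemmas -/

section Disc

variable {𝓡 : GoodRed K F k Fk} {Q : Place k Fk} (d : DiscData 𝓡 Q)

theorem nodal_replicate_zero (s : ℕ) :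
    DiscAlg.nodal (List.replicate s (0 : IsLocalRing.maximalIdeal 𝓡.V)) =
      (Polynomial.X : Polynomial 𝓡.V) ^ s := by
  induction s with
  | zero => simp
  | succ n ih =>
    rw [List.replicate_succ, DiscAlg.nodal_cons, ih, pow_succ]
    simp
    ring

/-- Interpolation at the centre: `f = P(t) + t^s H`. -/
theorem exists_interp_center (s : ℕ) (f : d.ring) :
    ∃ (P : Polynomial 𝓡.V) (H : d.ring), f = Polynomial.aeval d.D.t P + d.D.t ^ s * H := by
  obtain ⟨P, H, h⟩ := d.D.exists_interp (List.replicate s 0) f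
  refine ⟨P, H, ?_⟩
  rw [h, _root_.Fermat.Agent.A3.H255.Det.nodal_replicate_zero]
  simp

theorem redHom_comp_algebraMap :
    d.redHom.comp (algebraMap 𝓡.V d.ring) = (algebraMap k Fk).comp 𝓡.res := by
  ext a
  exact d.redHom_algebraMap a

theorem redHom_aeval (P : Polynomial 𝓡.V) :
    d.redHom (Polynomial.aeval d.D.t P) =
      Polynomial.aeval (d.redHom d.D.t) (P.map 𝓡.res) := by
  rw [Polynomial.aeval_def, Polynomial.hom_eval₂, redHom_comp_algebraMap, Polynomial.aeval_def,
    Polynomial.eval₂_map]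

/-- The reduction of a function of the disc ring is regular at `Q`. -/
theorem big_redHom (h : d.ring) : H623.Big Q 0 (d.redHom h) := by
  haveI := 𝓡.ff1k
  have h1 := d.red_ev 0 h
  have hc : H623.Big Q 0 (algebraMap k Fk (𝓡.res (d.D.ev 0 h))) := by
    rcases eq_or_ne (algebraMap k Fk (𝓡.res (d.D.ev 0 h))) 0 with h0 | h0
    · exact Or.inl h0
    · right
      have hne : 𝓡.res (d.D.ev 0 h) ≠ 0 := fun hz => h0 (by rw [hz, map_zero])
      rw [ord_algebraMap]
  have hd : H623.Big Q 0 (d.redHom h - algebraMap k Fk (𝓡.res (d.D.ev 0 h))) := by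
    rcases h1 with h1 | h1
    · left
      rw [DiscData.redHom_apply, h1, sub_self]
    · right
      rw [DiscData.redHom_apply]
      omega
  have := hd.add hc
  rwa [sub_add_cancel] at this

/-- A polynomial in a uniformiser vanishing to order `≥ s` has no coefficients below `s`. -/
theorem coeff_eq_zero_of_big {K' F' : Type*} [Field K'] [Field F'] [Algebra K' F'] [FF1 K' F']
    (v : Place K' F') {x : F'} (hx : v.ord x = 1) (q : Polynomial K') (s : ℕ)
    (h : H623.Big v s (Polynomial.aeval x q)) (n : ℕ) (hn : n < s) : q.coeff n = 0 := by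
  rcases eq_or_ne q 0 with rfl | hq
  · simp
  obtain ⟨h1, h2⟩ := aeval_ord v (by rw [hx]; exact zero_lt_one) hq
  have h3 := h.le_ord h1
  rw [h2, hx, mul_one] at h3
  have h4 : s ≤ q.rootMultiplicity 0 := by exact_mod_cast h3
  have h5 : (Polynomial.X - Polynomial.C (0 : K')) ^ s ∣ q :=
    (Polynomial.le_rootMultiplicity_iff hq).mp h4
  rw [Polynomial.C_0, sub_zero] at h5
  exact Polynomial.X_pow_dvd_iff.mp h5 n hn

/-- `res x = 1` implies `x` is a unit of `V`. -/
theorem isUnit_of_res_eq_one (x : 𝓡.V) (hx : 𝓡.res x = 1) : IsUnit x := by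
  rw [← IsLocalRing.notMem_maximalIdeal]
  intro hmem
  have h1 : ((x : 𝓡.V) : K) ∈ 𝓡.V.nonunits :=
    ValuationSubring.coe_mem_nonunits_iff.mpr hmem
  rw [← 𝓡.res_eq_zero, hx] at h1
  exact one_ne_zero h1

end Disc

/-- **DET**: the frozen leaf `DetStatement` of `A3/H799/LocalSpec2.lean`. -/
theorem detStatement : DetStatement K F k Fk := by
  classical
  intro 𝓡 Qs hQs hell d s hs
  haveI := 𝓡.ff1
  haveI := 𝓡.ff1k
  -- uniformisers on the special fibre
  have htb : ∀ i, (Qs i).ord ((d i).redHom (d i).D.t) = 1 := fun i => (d i).ord_redHom_t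
  have htb0 : ∀ i, (d i).redHom (d i).D.t ≠ 0 := fun i => (d i).redHom_t_ne_zero
  -- targets
  let τ : (Σ _ : Fin (genusFF k Fk), Fin s) → Fin (genusFF k Fk) → Fk := fun c i =>
    if i = c.1 then (d i).redHom (d i).D.t ^ (((c.2 : ℕ) : ℤ) - ((s : ℤ) + 1)) else 0
  have hτbig : ∀ c i, H623.Big (Qs i) (-((s : ℤ) + 1)) (τ c i) := by
    intro c i
    by_cases hi : i = c.1
    · right
      simp only [τ, if_pos hi]
      rw [Place.ord_zpow, htb i, mul_one]
      have : (0 : ℤ) ≤ ((c.2 : ℕ) : ℤ) := Int.natCast_nonneg _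
      omega
    · left
      simp only [τ, if_neg hi]
  -- step 1: functions on the special fibre
  have h1 : ∀ c, ∃ ψ : Fk, (∀ i, H623.Big (Qs i) (-1) (ψ - τ c i)) ∧
      ∀ v : Place k Fk, (∀ i, Qs i ≠ v) → H623.Big v 0 ψ :=
    fun c => exists_jet Qs hQs (by simp) hell (τ c)
  choose ψ hψ1 hψ2 using h1
  have hrE : Finsupp.mapDomain 𝓡.r (((s : ℤ) + 1) • polyDiv d 0) =
      ((s : ℤ) + 1) • ∑ i, Finsupp.single (Qs i) (1 : ℤ) := by
    rw [Finsupp.mapDomain_smul, Fermat.Agent.A3.H255.mapDomain_polyDiv]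
  have hψL : ∀ c, ψ c ∈ riemannRochSpace (Finsupp.mapDomain 𝓡.r (((s : ℤ) + 1) • polyDiv d 0)) := by
    intro c
    rw [hrE, mem_L_iff]
    intro v
    by_cases hv : ∃ i, Qs i = v
    · obtain ⟨i, rfl⟩ := hv
      have hb : H623.Big (Qs i) (-((s : ℤ) + 1)) (ψ c) := by
        have h := ((hψ1 c i).mono (s := -((s : ℤ) + 1)) (by omega)).add (hτbig c i)
        rwa [sub_add_cancel] at h
      rw [Finsupp.smul_apply, Fermat.Agent.A3.H255.sum_single_apply_of_injective hQs i,
        smul_eq_mul, mul_one]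
      exact hb
    · push Not at hv
      have hb := hψ2 c v hv
      rw [Finsupp.smul_apply, Fermat.Agent.A3.H255.sum_single_apply_of_forall_ne hv, smul_zero,
        neg_zero]
      exact hb
  -- step 2: integral lifts
  have hdeg : 2 * (genusFF k Fk : ℤ) - 2 < Divisor.degree (((s : ℤ) + 1) • polyDiv d 0) := by
    rw [map_zsmul, Fermat.Agent.A3.H255.degree_polyDiv, smul_eq_mul, Fintype.card_fin]
    have h1 : (1 : ℤ) ≤ (s : ℤ) := by exact_mod_cast hs
    have h2 : (0 : ℤ) ≤ (genusFF k Fk : ℤ) := Int.natCast_nonneg _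
    nlinarith
  have h2 : ∀ c, ∃ (f : F) (hf : f ∈ 𝓡.O),
      f ∈ riemannRochSpace (((s : ℤ) + 1) • polyDiv d 0) ∧ 𝓡.red ⟨f, hf⟩ = ψ c :=
    fun c => 𝓡.exists_lift _ hdeg (hψL c)
  choose φF hφO hφL hφred using h2
  -- step 3: `t_i^{s+1} φ_c` lies in the disc ring
  have hmem : ∀ c i, (((d i).D.t : (d i).ring) : F) ^ (s + 1) * φF c ∈ (d i).ring := by
    intro c i
    refine (d i).mem_ring _ (mul_mem (pow_mem ((d i).ring_le _ (d i).D.t.2) _) (hφO c)) ?_
    intro P hP
    obtain ⟨a, rfl⟩ := (d i).pt_surj P hP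
    rcases eq_or_ne (φF c) 0 with h0 | h0
    · rw [h0, mul_zero]
      exact zero_mem _
    · apply mem_of_ord_nonneg
      have ht0 : (((d i).D.t : (d i).ring) : F) ≠ 0 := by
        have := (d i).tSub_ne_zero 0
        rw [DiscData.coe_tSub] at this
        simpa [DiscData.tF] using this
      rw [((d i).pt a).ord_mul (pow_ne_zero _ ht0) h0, ord_pow, Geo.ord_pt_t (d i) a]
      have h3 := (mem_L_iff.mp (hφL c) ((d i).pt a)).resolve_left h0
      rw [Finsupp.smul_apply, polyDiv_apply_pt d hQs 0 i a, smul_eq_mul] at h3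
      have hz : ((0 : Fin (genusFF k Fk) → IsLocalRing.maximalIdeal 𝓡.V) i = a) ↔
          ((0 : IsLocalRing.maximalIdeal 𝓡.V) = a) := Iff.rfl
      simp only [hz] at h3
      push_cast
      linarith
  -- step 4: interpolation
  have h4 : ∀ c i, ∃ (P : Polynomial 𝓡.V) (H : (d i).ring),
      (⟨_, hmem c i⟩ : (d i).ring) = Polynomial.aeval (d i).D.t P + (d i).D.t ^ s * H :=
    fun c i => exists_interp_center (d i) s _
  choose P H hPH using h4
  refine ⟨fun c => ⟨φF c, hφO c⟩, fun c i => ⟨_, hmem c i⟩, P, H, hφL, fun c i => rfl, hPH, ?_⟩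
  intro inst
  -- step 5: the reduction of the coefficients
  have hcoeff : ∀ (c : Σ _ : Fin (genusFF k Fk), Fin s) (i : Fin (genusFF k Fk)) (n : ℕ),
      n < s → 𝓡.res ((P c i).coeff n) = if i = c.1 ∧ n = (c.2 : ℕ) then 1 else 0 := by
    intro c i n hn
    set tb := (d i).redHom (d i).D.t with htbdef
    -- reduction of the interpolation identity
    have e1 : (d i).redHom (⟨_, hmem c i⟩ : (d i).ring) = tb ^ (s + 1) * ψ c := by
      have e : (⟨(((d i).D.t : (d i).ring) : F) ^ (s + 1) * φF c,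
          (d i).ring_le _ (hmem c i)⟩ : 𝓡.O) =
          (⟨(((d i).D.t : (d i).ring) : F), (d i).ring_le _ (d i).D.t.2⟩ : 𝓡.O) ^ (s + 1) *
            ⟨φF c, hφO c⟩ := by
        apply Subtype.ext
        rfl
      rw [DiscData.redHom_apply]
      show 𝓡.red ⟨(((d i).D.t : (d i).ring) : F) ^ (s + 1) * φF c, _⟩ = _
      rw [e, map_mul, map_pow, hφred c]
      rfl
    have e2 : (d i).redHom (⟨_, hmem c i⟩ : (d i).ring) =
        Polynomial.aeval tb ((P c i).map 𝓡.res) + tb ^ s * (d i).redHom (H c i) := by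
      rw [hPH c i, map_add, map_mul, map_pow, redHom_aeval]
    let mono : Polynomial k := if i = c.1 then Polynomial.X ^ (c.2 : ℕ) else 0
    have e3 : tb ^ (s + 1) * τ c i = Polynomial.aeval tb mono := by
      by_cases hi : i = c.1
      · simp only [τ, mono, if_pos hi, map_pow, Polynomial.aeval_X]
        rw [← zpow_natCast tb (s + 1), ← zpow_add₀ (htb0 i), ← zpow_natCast tb (c.2 : ℕ)]
        congr 1
        push_cast
        ring
      · simp only [τ, mono, if_neg hi, mul_zero, map_zero]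
    have hbig : H623.Big (Qs i) (s : ℤ)
        (Polynomial.aeval tb ((P c i).map 𝓡.res - mono)) := by
      have e4 : Polynomial.aeval tb ((P c i).map 𝓡.res - mono) =
          tb ^ (s + 1) * (ψ c - τ c i) - tb ^ s * (d i).redHom (H c i) := by
        rw [map_sub, ← e3]
        have := e1.symm.trans e2
        linear_combination -this
      rw [e4]
      have b1 : H623.Big (Qs i) ((s : ℤ) + 1) (tb ^ (s + 1)) := by
        right
        rw [ord_pow, htb i]
        push_cast
        omega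
      have b2 : H623.Big (Qs i) (s : ℤ) (tb ^ s) := by
        right
        rw [ord_pow, htb i]
        omega
      have b3 := b1.mul (hψ1 c i)
      have b4 := b2.mul (big_redHom (d i) (H c i))
      have b3' : H623.Big (Qs i) (s : ℤ) (tb ^ (s + 1) * (ψ c - τ c i)) := b3.mono (by omega)
      have b4' : H623.Big (Qs i) (s : ℤ) (tb ^ s * (d i).redHom (H c i)) := b4.mono (by omega)
      exact b3'.sub b4'
    have h0 := coeff_eq_zero_of_big (Qs i) (htb i) _ s hbig n hn
    rw [Polynomial.coeff_sub, Polynomial.coeff_map, sub_eq_zero] at h0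
    rw [h0]
    by_cases hi : i = c.1
    · simp only [mono, if_pos hi, Polynomial.coeff_X_pow, hi, true_and]
    · simp only [mono, if_neg hi, Polynomial.coeff_zero, hi, false_and, if_false]
  -- step 6: the determinant
  apply isUnit_of_res_eq_one
  rw [RingHom.map_det]
  have hone : 𝓡.res.mapMatrix (Matrix.of fun (c j : Σ _ : Fin (genusFF k Fk), Fin s) =>
      (P j c.1).coeff (c.2 : ℕ)) = 1 := by
    ext c j
    rw [RingHom.mapMatrix_apply, Matrix.map_apply, Matrix.of_apply, hcoeff j c.1 c.2 c.2.2,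
      Matrix.one_apply]
    rcases c with ⟨c1, c2⟩
    rcases j with ⟨j1, j2⟩
    by_cases h : (⟨c1, c2⟩ : Σ _ : Fin (genusFF k Fk), Fin s) = ⟨j1, j2⟩
    · rw [if_pos h]
      have h' := Sigma.mk.inj_iff.mp h
      rw [if_pos ⟨h'.1, by rw [eq_of_heq h'.2]⟩]
    · rw [if_neg h, if_neg]
      rintro ⟨h1, h2⟩
      apply h
      have h1' : c1 = j1 := h1
      have h2' : c2 = j2 := Fin.ext h2
      rw [h1', h2']
  rw [hone, Matrix.det_one]

end Fermat.Agent.A3.H255.Det

end
end
-- ===== PACK-END A3/H255/Det.lean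

-- ===== PACK-BEGIN A3/H255/LocalClosed.lean
section




/-!
# A3 / LOCAL (helper255): the abstract LOCAL theorem, unconditionally

`localStatement : A3.H799.LocalStatement K F k Fk` for every `GoodRed` interface
(`localStatement_of_det` of helper799 + the leaf DET of `A3/H255/Det.lean`), and the block
`AbsLocalStatement` of `S19/H979/LocalGlue.lean`.

So `S19.LocalStatement` is reduced to `GrStatement` (good reduction of `X₀(N)`) alone:
`localStatement_of_gr`.
-/

set_option autoImplicit false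

namespace Fermat.Agent.A3.H255

universe u₁ u₂ u₃ u₄

variable {K : Type u₁} {F : Type u₂} {k : Type u₃} {Fk : Type u₄}
  [Field K] [Field F] [Algebra K F] [Field k] [Field Fk] [Algebra k Fk]

/-- **The abstract LOCAL theorem** (frozen `A3.H799.LocalStatement`), unconditionally. -/
theorem localStatement [IsAlgClosed K] [IsAlgClosed k] [CharZero K] :
    Fermat.Agent.A3.H799.LocalStatement K F k Fk :=
  Fermat.Agent.A3.H799.localStatement_of_det Det.detStatement

/-- The block `AbsLocalStatement` of `S19/H979/LocalGlue.lean`. -/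
theorem absLocalStatement : Fermat.Agent.S19.H979.AbsLocalStatement :=
  fun _ _ _ _ _ _ _ _ _ => localStatement

/-- `S19.LocalStatement` (node LOCAL of `S19/Spec.lean`) from good reduction of `X₀(N)` alone. -/
theorem localStatement_of_gr (hG : Fermat.Agent.S19.H979.GrStatement) :
    Fermat.Agent.S19.LocalStatement :=
  Fermat.Agent.S19.H979.localStatement_of_abs_gr' absLocalStatement hG

end Fermat.Agent.A3.H255

end
-- ===== PACK-END A3/H255/LocalClosed.lean

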