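import Fermat.Agent.Pack.S3234.G0E9L0
import Fermat.Agent.Pack.S3234.G0E3L1
import Fermat.Agent.Pack.S3234.G0E4L0
import Fermat.Agent.Pack.S3234.G0E8L0
import Fermat.Agent.Pack.S3234.G4E0L0
import Fermat.Agent.Pack.S3234.G0E6L3
import Fermat.Agent.Pack.S3234.G4E0L1
import Fermat.Agent.Pack.S3234.G4E2L0
import Fermat.Agent.Pack.S3234.G4E3L3
import Fermat.Agent.Pack.S3234.G4E4L3
import Fermat.Agent.Pack.S3234.G4E1L3
import Fermat.Agent.Pack.S3234.G4E0L2
import Fermat.Agent.Pack.S3234.G0E8L2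
import Fermat.Agent.Pack.S3234.G0E2L2

-- ===== PACK-BEGIN S30/H810/Onto.lean
section
/-
S30 / piece FIN-ONTO (helper810), part 3: REVERSE KUMMER (ONTO, weak form).

Every `p`-torsion class `x ∈ J₀(N)(ℚ̄)` is the Kummer class (M4b `IsKum`) of some character
`c : Γ₀(N) → ℤ/p`:  `x = [D]`, `p D = div f`, `f t^p` is realised by a good function `G`, all
analytic orders of `G` are divisible by `p` (reverse dictionary), so `G = U^p` with `U` holomorphic
on `ℍ` (ROOT, landed `H751`), and `U ∘ γ = ζ_p^{c(γ)} U` by the identity theorem.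
-/




set_option autoImplicit false
set_option linter.unusedSectionVars false

noncomputable section

open ModularCurve AlgebraicCurve CongruenceSubgroup UpperHalfPlane HahnSeries
open scoped MatrixGroups Manifold

namespace Fermat.Agent.S30.H810

open Fermat.Agent.S24 Fermat.Agent.S24.H648 Fermat.Agent.S24.H708 Fermat.Agent.S24.Deg457
open Fermat.Agent.S24.H624 Fermat.Agent.S24.H997 Fermat.Agent.S29 Fermat.Agent.S29.M4b
open Fermat.Agent.S29.H882

theorem isPrimitiveRoot_zetaP (p : ℕ) (hp : p ≠ 0) : IsPrimitiveRoot (zetaP p) p :=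
  Complex.isPrimitiveRoot_exp p hp

theorem mdiff_comp_smul {U : ℍ → ℂ} (hU : MDiff U) (γ : SL(2, ℤ)) :
    MDiff (fun τ => U (γ • τ)) := by
  have h := (γ⁻¹ • (⟨U, hU⟩ : holoRing)).2
  have h2 : ((γ⁻¹ • (⟨U, hU⟩ : holoRing) : holoRing) : ℍ → ℂ) = fun τ => U (γ • τ) := by
    funext τ
    rw [smul_holoRing_apply, inv_inv]
  rw [← h2]
  exact h

/-- Two holomorphic functions on `ℍ` with the same `p`-th power differ by a power of `ζ_p`. -/
theorem exists_zetaP_pow_of_pow_eq {A B : ℍ → ℂ} (hA : MDiff A) (hB : MDiff B) (p : ℕ)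
    (hp : p ≠ 0) (hB0 : ∃ τ, B τ ≠ 0) (h : ∀ τ, A τ ^ p = B τ ^ p) :
    ∃ k : ZMod p, ∀ τ, A τ = zetaP p ^ k.val * B τ := by
  obtain ⟨τ₀, hτ₀⟩ := hB0
  have hA0 : A τ₀ ≠ 0 := by
    intro h0
    have := h τ₀
    rw [h0, zero_pow hp] at this
    exact hτ₀ (pow_eq_zero_iff hp |>.mp this.symm)
  have hζ : (A τ₀ / B τ₀) ^ p = 1 := by
    rw [div_pow, h τ₀, div_self (pow_ne_zero _ hτ₀)]
  have : NeZero p := ⟨hp⟩
  obtain ⟨i, hi, hiζ⟩ := (isPrimitiveRoot_zetaP p hp).eq_pow_of_pow_eq_one hζ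
  refine ⟨(i : ZMod p), ?_⟩
  rw [ZMod.val_natCast_of_lt hi, hiζ]
  have hB' : MDiff (fun τ => A τ₀ / B τ₀ * B τ) := by
    have : (fun τ => A τ₀ / B τ₀ * B τ) = (fun _ : ℍ => A τ₀ / B τ₀) * B := rfl
    rw [this]
    exact mdifferentiable_const.mul hB
  have key := H751.eq_of_pow_eq_UHP hA hB' hp (fun τ => by rw [mul_pow, hζ, one_mul, h τ])
    (τ₀ := τ₀) (by rw [div_mul_cancel₀ _ hτ₀]) hA0
  intro τ
  exact congrFun key τ

variable (N : ℕ) [NeZero N]

/-- **REVERSE KUMMER (ONTO)**, weak form: every `p`-torsion class is the Kummer class of a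
character. -/
theorem exists_isKum_of_torsion (p : ℕ) [NeZero p] {x : JZero N} (hx : (p : ℤ) • x = 0) :
    ∃ c : G0 N → ZMod p, IsKum N p c x := by
  classical
  have hp : p ≠ 0 := NeZero.ne p
  obtain ⟨f, hf⟩ := H455.exists_isKummerClass_of_zsmul_eq_zero hx
  have hf0 : f ≠ 0 := hf.ne_zero
  obtain ⟨r, t, ht, hft⟩ := exists_div_inclRN N f
  have ht' : inclRN N t ≠ 0 := fun h => ht (inclRN_injective N (by rw [h, map_zero]))
  -- the pole-free representative
  obtain ⟨q, hq⟩ : ∃ q : ℕ, p = q + 1 := ⟨p - 1, by have := Nat.pos_of_ne_zero hp; omega⟩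
  set u : FF N := f * inclRN N t ^ p with hu
  have hu0 : u ≠ 0 := mul_ne_zero hf0 (pow_ne_zero _ ht')
  have hur : u = inclRN N (r * t ^ q) := by
    rw [hu, hft, hq, map_mul, map_pow, pow_succ]
    field_simp
  set G : ℍ → ℂ := realFun N (r * t ^ q) with hG
  have hGr : Realises N u G := by
    refine ⟨realFun_mem N _, ?_⟩
    rw [(realFun_hasQExp N (r * t ^ q)).qexpFun_eq, hur]
    rfl
  have hmd : MDiff G := hGr.1.1
  -- divisibility of the algebraic orders
  have hdiv : ∀ v : Place Kbar (FF N), (p : ℤ) ∣ v.ord u := by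
    intro v
    obtain ⟨-, D, -, hD⟩ := hf
    rw [hu, Place.ord_mul v hf0 (pow_ne_zero _ ht'), H117.ord_pow, ← hD v]
    exact dvd_add (dvd_mul_right _ _) (dvd_mul_right _ _)
  -- the p-th root
  obtain ⟨U, hU, hUp⟩ := H751.exists_pow_eq_UHP hmd p hp
    (fun τ => exists_analyticOrderAt_eq_mul hGr hu0 p hp hdiv τ)
  have hG0 : G ≠ 0 := realises_ne_zero hGr hu0
  have hU0 : ∃ τ, U τ ≠ 0 := by
    by_contra hcon
    push Not at hcon
    apply hG0
    funext τ
    rw [← hUp τ, hcon τ, zero_pow hp]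
    rfl
  -- the character
  have hchar : ∀ γ : G0 N, ∃ k : ZMod p, ∀ τ : ℍ,
      U ((γ : SL(2, ℤ)) • τ) = zetaP p ^ k.val * U τ := by
    intro γ
    refine exists_zetaP_pow_of_pow_eq (_root_.Fermat.Agent.S30.H810.mdiff_comp_smul hU (γ : SL(2, ℤ))) hU p hp hU0 ?_
    intro τ
    rw [hUp, hUp]
    exact hGr.1.2.1 _ γ.2 τ
  choose c hc using hchar
  refine ⟨c, f, inclRN N t, U, ht', hf, ⟨hU, hU0, hc, ?_⟩, ?_⟩
  · have : (fun τ => U τ ^ p) = G := funext hUp
    rw [this]
    exact hGr.1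
  · have : (fun τ => U τ ^ p) = G := funext hUp
    rw [this]
    exact hGr

end Fermat.Agent.S30.H810

end
end
-- ===== PACK-END S30/H810/Onto.lean

-- ===== PACK-BEGIN S29/M4b/H89/K4Uniq.lean
section
/-
S29 row, layer M, sub-layer M4b — PIECE `K4-UNIQ` (helper89): the Kummer class of a character is
unique.  Exact statement of `M4b/Skeleton.lean` (helper822); `pieceUniq : PieceUniq N p` is the
shape of `M4b/Top.lean` (helper269).

Proof: for two data `(f, t, U)`, `(f', t', U')` of the same character `c`, the function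
`V := U * U' ^ (p-1)` is `Γ₀(N)`-invariant, holomorphic, and good (its `p`-th power is), so its
`q`-expansion `b` lies in `F_ℂ` (MERO, `H882`).  `b ^ p` is the image of
`w = (f t^p) (f' t'^p)^(p-1) ∈ FF N`, so `b = ι v` with `v ∈ ℚ̄((q))` (PROOT), and `v ∈ FF N`
(`H882` (C)).  Hence `f * f' ^ (p-1)` is a `p`-th power in `FF N`, so `x + (p-1) x' = 0`, and
`p x' = 0` gives `x = x'`.
-/




set_option autoImplicit false

noncomputable section

open ModularCurve AlgebraicCurve CongruenceSubgroup UpperHalfPlane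
open scoped MatrixGroups Manifold

namespace Fermat.Agent.S29.M4b.H89

open Fermat.Agent.S24 Fermat.Agent.S29 Fermat.Agent.S29.M4b

section K4Uniq

variable (N : ℕ) [NeZero N] (p : ℕ) [NeZero p]

theorem K4Uniq_zetaP_pow : zetaP p ^ p = 1 := by
  have hp : (p : ℂ) ≠ 0 := Nat.cast_ne_zero.2 (NeZero.ne p)
  rw [zetaP, ← Complex.exp_nat_mul]
  have : (p : ℂ) * (2 * Real.pi * Complex.I / p) = 2 * Real.pi * Complex.I := by
    field_simp
  rw [this, Complex.exp_two_pi_mul_I]

/-- `p`-th root of a growth bound. -/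
theorem K4Uniq_expGrowth_of_pow {f : ℍ → ℂ}
    (hf : H648.ExpGrowth (fun τ => f τ ^ p)) : H648.ExpGrowth f := by
  obtain ⟨C, m, h⟩ := hf
  refine ⟨1 + |C|, m, fun τ hτ => ?_⟩
  have h1 := h τ hτ
  rw [norm_pow] at h1
  have hexp : 1 ≤ Real.exp (2 * Real.pi * m * τ.im) := by
    apply Real.one_le_exp
    have := Real.pi_pos
    have := τ.im_pos
    positivity
  have hpos : 0 < p := Nat.pos_of_ne_zero (NeZero.ne p)
  by_cases hle : ‖f τ‖ ≤ 1
  · calc ‖f τ‖ ≤ 1 := hle
      _ ≤ 1 * Real.exp (2 * Real.pi * m * τ.im) := by rw [one_mul]; exact hexp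
      _ ≤ (1 + |C|) * Real.exp (2 * Real.pi * m * τ.im) := by
          apply mul_le_mul_of_nonneg_right _ (Real.exp_pos _).le
          linarith [abs_nonneg C]
  · rw [not_le] at hle
    calc ‖f τ‖ ≤ ‖f τ‖ ^ p := le_self_pow₀ hle.le (NeZero.ne p)
      _ ≤ C * Real.exp (2 * Real.pi * m * τ.im) := h1
      _ ≤ (1 + |C|) * Real.exp (2 * Real.pi * m * τ.im) := by
          apply mul_le_mul_of_nonneg_right _ (Real.exp_pos _).le
          linarith [le_abs_self C]


omit [NeZero N] in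
/-- `V = U * U' ^ (p-1)` is invariant under `Γ₀(N)` when `U`, `U'` have the same character. -/
theorem K4Uniq_invariant {c : G0 N → ZMod p} {U U' : ℍ → ℂ} (hU : HasChar N p c U)
    (hU' : HasChar N p c U') (γ : SL(2, ℤ)) (hγ : γ ∈ Gamma0 N) (τ : ℍ) :
    U (γ • τ) * U' (γ • τ) ^ (p - 1) = U τ * U' τ ^ (p - 1) := by
  have h1 := hU ⟨γ, hγ⟩ τ
  have h2 := hU' ⟨γ, hγ⟩ τ
  simp only at h1 h2
  rw [h1, h2, mul_pow, ← pow_mul]
  have hp : 1 ≤ p := Nat.one_le_iff_ne_zero.2 (NeZero.ne p)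
  have e : zetaP p ^ (c ⟨γ, hγ⟩).val * U τ * (zetaP p ^ ((c ⟨γ, hγ⟩).val * (p - 1)) * U' τ ^ (p - 1))
      = zetaP p ^ ((c ⟨γ, hγ⟩).val * p) * (U τ * U' τ ^ (p - 1)) := by
    have : (c ⟨γ, hγ⟩).val * p = (c ⟨γ, hγ⟩).val + (c ⟨γ, hγ⟩).val * (p - 1) := by
      rw [Nat.mul_sub_one, Nat.add_sub_cancel' (Nat.le_mul_of_pos_right _ hp)]
    rw [this, pow_add]
    ring
  rw [e, mul_comm (c ⟨γ, hγ⟩).val p, pow_mul, K4Uniq_zetaP_pow, one_pow, one_mul]

omit [NeZero N] in
/-- `V = U * U' ^ (p-1)` is a good function. -/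
theorem K4Uniq_mem_goodRing {c : G0 N → ZMod p} {U U' : ℍ → ℂ} (hU : IsTwisted N p c U)
    (hU' : IsTwisted N p c U') : (fun τ => U τ * U' τ ^ (p - 1)) ∈ H648.goodRing N := by
  have hp : 1 ≤ p := Nat.one_le_iff_ne_zero.2 (NeZero.ne p)
  refine ⟨hU.mdiff.mul (hU'.mdiff.pow (p - 1)), fun γ hγ τ => ?_, fun g => ?_⟩
  · exact K4Uniq_invariant N p hU.hasChar hU'.hasChar γ hγ τ
  · apply K4Uniq_expGrowth_of_pow p
    have h1 : (fun τ => U τ ^ p) * (fun τ => U' τ ^ p) ^ (p - 1) ∈ H648.goodRing N :=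
      (H648.goodRing N).mul_mem hU.pow_mem ((H648.goodRing N).pow_mem hU'.pow_mem _)
    have h2 := h1.2.2 g
    have e : (fun τ : ℍ => (U (g • τ) * U' (g • τ) ^ (p - 1)) ^ p)
        = fun τ => ((fun τ => U τ ^ p) * (fun τ => U' τ ^ p) ^ (p - 1)) (g • τ) := by
      funext τ
      simp only [Pi.mul_apply, Pi.pow_apply]
      ring
    rw [e]
    exact h2


/-- Kummer classes of powers. -/
theorem K4Uniq_kummer_pow {K F : Type*} [Field K] [Field F] [Algebra K F] {n : ℤ} {f : F}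
    {x : Pic0 K F} (hx : H455.IsKummerClass n f x) (k : ℕ) :
    H455.IsKummerClass n (f ^ k) (k • x) := by
  induction k with
  | zero =>
    rw [pow_zero, zero_nsmul]
    exact H455.IsKummerClass.zero
  | succ k ih =>
    rw [pow_succ, succ_nsmul]
    exact ih.add hx

theorem K4Uniq_coeffMap_injective {K L : Type*} [Field K] [Field L] (ι : K →+* L) :
    Function.Injective (coeffMap ι) := by
  intro a b hab
  ext n
  have := congrArg (fun z : LaurentSeries L => z.coeff n) hab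
  simp only [coeffMap_coeff] at this
  exact ι.injective this

/-- PIECE `K4-UNIQ`: the Kummer class of a character is unique. -/
theorem isKum_unique {c : G0 N → ZMod p} {x x' : JZero N}
    (h : IsKum N p c x) (h' : IsKum N p c x') : x = x' := by
  obtain ⟨f, t, U, ht, hx, hU, hR⟩ := h
  obtain ⟨f', t', U', ht', hx', hU', hR'⟩ := h'
  have hp1 : 1 ≤ p := Nat.one_le_iff_ne_zero.2 (NeZero.ne p)
  have hpK : ((p : ℕ) : Kbar) ≠ 0 := Nat.cast_ne_zero.2 (NeZero.ne p)
  -- the invariant function `V`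
  have hV := K4Uniq_mem_goodRing N p hU hU'
  have hVq := H882.hasQExp_of_mem_goodRing hV
  have hUq : H708.HasQExp 1 (fun τ => U τ ^ p)
      (coeffMap Deg457.iotaC ((f * t ^ p : FF N) : LaurentSeries Kbar)) :=
    ⟨H882.isMerInf_of_mem_goodRing hR.1, hR.2⟩
  have hU'q : H708.HasQExp 1 (fun τ => U' τ ^ p)
      (coeffMap Deg457.iotaC ((f' * t' ^ p : FF N) : LaurentSeries Kbar)) :=
    ⟨H882.isMerInf_of_mem_goodRing hR'.1, hR'.2⟩
  have hprod := hUq.mul (hU'q.pow (p - 1))
  have hfun : (fun τ => U τ * U' τ ^ (p - 1)) ^ p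
      = (fun τ => U τ ^ p) * (fun τ => U' τ ^ p) ^ (p - 1) := by
    funext τ
    simp only [Pi.pow_apply, Pi.mul_apply]
    ring
  have hVp := hVq.pow p
  rw [hfun] at hVp
  have hbw := hVp.unique hprod
  have hbw' : H708.qexpFun 1 (fun τ => U τ * U' τ ^ (p - 1)) ^ p
      = coeffMap Deg457.iotaC
        ((((f * t ^ p) * (f' * t' ^ p) ^ (p - 1) : FF N)) : LaurentSeries Kbar) := by
    rw [hbw]
    push_cast
    simp only [map_mul, map_pow]
  obtain ⟨v, hv⟩ := PRoot.exists_coeffMap_eq_of_pow Deg457.iotaC hpK _ _ hbw'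
  have hbFC := H882.qexpFun_mem_FC hV
  have hvFF : v ∈ modularFunctionFieldBar N :=
    H882.mem_laurentBaseChange_of_coeffMap_mem Deg457.iotaC _ (by rw [hv]; exact hbFC)
  have hvp : v ^ p = ((((f * t ^ p) * (f' * t' ^ p) ^ (p - 1) : FF N)) : LaurentSeries Kbar) := by
    apply K4Uniq_coeffMap_injective Deg457.iotaC
    rw [map_pow, hv, hbw']
  have hvFp : (⟨v, hvFF⟩ : FF N) ^ p = (f * t ^ p) * (f' * t' ^ p) ^ (p - 1) := by
    apply Subtype.ext
    rw [← hvp]
    rfl
  -- the `p`-th root of `f * f' ^ (p-1)`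
  have htt : t * t' ^ (p - 1) ≠ 0 := mul_ne_zero ht (pow_ne_zero _ ht')
  have hg : f * f' ^ (p - 1) = ((⟨v, hvFF⟩ : FF N) / (t * t' ^ (p - 1))) ^ p := by
    rw [div_pow, hvFp, eq_div_iff (pow_ne_zero _ htt)]
    ring
  have hf := hx.ne_zero
  have hf' := hx'.ne_zero
  have hg0 : (⟨v, hvFF⟩ : FF N) / (t * t' ^ (p - 1)) ≠ 0 := by
    intro h0
    rw [h0, zero_pow (NeZero.ne p)] at hg
    exact mul_ne_zero hf (pow_ne_zero _ hf') hg
  have hk : H455.IsKummerClass (p : ℤ) (f * f' ^ (p - 1)) (x + (p - 1) • x') :=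
    hx.add (K4Uniq_kummer_pow hx' (p - 1))
  have hpz : ((p : ℕ) : ℤ) ≠ 0 := Int.natCast_ne_zero.2 (NeZero.ne p)
  have hzero : x + (p - 1) • x' = 0 :=
    (hk.eq_zero_iff hpz).2 ⟨_, hg0, fun w => by
      rw [hg, ← zpow_natCast, Place.ord_zpow]⟩
  have hpx' : (p : ℤ) • x' = 0 := hx'.zsmul_eq_zero
  have hpx'' : p • x' = 0 := by
    rw [← natCast_zsmul]; exact hpx'
  have e : p • x' = (p - 1) • x' + x' := by
    conv_lhs => rw [← Nat.sub_add_cancel hp1]
    rw [succ_nsmul]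
  rw [e] at hpx''
  -- `x + a = 0` and `a + x' = 0`
  calc x = x + ((p - 1) • x' + x') := by rw [hpx'', add_zero]
    _ = (x + (p - 1) • x') + x' := by rw [add_assoc]
    _ = x' := by rw [hzero, zero_add]

/-- PIECE `K4-UNIQ` in the shape of `M4b/Top.lean`. -/
theorem pieceUniq : PieceUniq N p := fun h h' => isKum_unique N p h h'

end K4Uniq

end Fermat.Agent.S29.M4b.H89

end
end
-- ===== PACK-END S29/M4b/H89/K4Uniq.lean

-- ===== PACK-BEGIN A3/H319/Fin.lean
section





/-!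
# A3 / FIN (helper319): the torsion of `J₀(N)(ℚ̄)` is finite — `S19.FinStatement`

Glue of three results on main:

* ONTO   `S30.H810.exists_isKum_of_torsion` (helper810): every `m`-torsion class is the Kummer
  class of some character `c : Γ₀(N) → ℤ/m`;
* UNIQ   `S29.M4b.H89.isKum_unique` (helper89): the Kummer class of a character is unique;
* COUNT  `S30.Fin.finite_torsion_of` (helper49): ONTO + UNIQ + `Γ₀(N)` finitely generated ⟹ finite.

Output: `finite_torsionBy` (any `m ≠ 0`), `finite_tors`, and `finStatement : S19.FinStatement`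
(the FIN block of the frozen A3 interface `Fermat/Agent/S19/Defs.lean`).
-/

set_option autoImplicit false

noncomputable section

namespace Fermat.Agent.A3.H319

open ModularCurve

/-- The `m`-torsion of `J₀(N)(ℚ̄)` is a finite set, `m ≠ 0`. -/
theorem finite_setOf_zsmul_eq_zero (N : ℕ) [NeZero N] (m : ℕ) [NeZero m] :
    {x : JZero N | (m : ℤ) • x = 0}.Finite :=
  Fermat.Agent.S30.Fin.finite_torsion_of N m
    (fun _ hx => Fermat.Agent.S30.H810.exists_isKum_of_torsion N m hx)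
    (fun _ _ _ h h' => Fermat.Agent.S29.M4b.H89.isKum_unique N m h h')

/-- `J₀(N)(ℚ̄)[m]` is finite for every integer `m ≠ 0`. -/
theorem finite_torsionBy (N : ℕ) [NeZero N] (m : ℤ) (hm : m ≠ 0) :
    Finite (Submodule.torsionBy ℤ (JZero N) m) := by
  have : NeZero m.natAbs := ⟨Int.natAbs_ne_zero.mpr hm⟩
  have h := finite_setOf_zsmul_eq_zero N m.natAbs
  have hsub : ((Submodule.torsionBy ℤ (JZero N) m : Submodule ℤ (JZero N)) : Set (JZero N)) ⊆
      {x : JZero N | ((m.natAbs : ℕ) : ℤ) • x = 0} := by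
    intro x hx
    have hx' : m • x = 0 := (Submodule.mem_torsionBy_iff _ _).mp hx
    show ((m.natAbs : ℕ) : ℤ) • x = 0
    rcases Int.natAbs_eq m with h1 | h1
    · rw [← h1]; exact hx'
    · have h2 : ((m.natAbs : ℕ) : ℤ) = -m := by omega
      rw [h2, neg_smul, hx', neg_zero]
  exact (h.subset hsub).to_subtype

/-- `J₀(N)(ℚ̄)[ℓ^k]` is finite (no hypothesis on `ℓ` beyond `ℓ ≠ 0`). -/
theorem finite_tors (N : ℕ) [NeZero N] (ℓ : ℕ) (hℓ : ℓ ≠ 0) (k : ℕ) :
    Finite (Fermat.Agent.S19.Tors N ℓ k) :=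
  finite_torsionBy N ((ℓ : ℤ) ^ k) (pow_ne_zero k (Int.natCast_ne_zero.mpr hℓ))

/-- **FIN block of A3** (frozen interface `Fermat.Agent.S19.FinStatement`). -/
theorem finStatement : Fermat.Agent.S19.FinStatement := by
  intro N _ ℓ hℓ k
  exact finite_tors N ℓ hℓ.out.ne_zero k

end Fermat.Agent.A3.H319

end
end
-- ===== PACK-END A3/H319/Fin.lean

-- ===== PACK-BEGIN S19/Top2.lean
section




/-!
# Cell A3 (S19) — top assembly, v2: frozen S19 from the THREE open nodes

ORD (`H15.ordStatement`; independent second/third proofs: `H19.ordStatement`, `A3.H619.ord`),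
FIN (`A3.H319.finStatement`, helper319) and CONT (`contStatement`) are proved on main.  Open:

    UNR   : UnrStatement      (pure algebra; split UA/UB/UC in `S19/Unr/Spec.lean`)
    LOCAL : LocalStatement    (abstract `A3.H799.LocalStatement` + GoodRed instance for `X₀(M)`)
    LEVEL : LevelStatement    (ℓ = 2, 3: equivariant embedding into a good level)
-/

set_option autoImplicit false

namespace Fermat.Agent.S19

/-- ORDER from the three open nodes. -/
theorem orderStatement_of_three (hunr : UnrStatement) (hlocal : LocalStatement)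
    (hlevel : LevelStatement) : OrderStatement :=
  orderStatement_of_blocks Fermat.Agent.A3.H319.finStatement hunr hlocal hlevel

/-- **Top assembly v2**: frozen S19 from UNR, LOCAL, LEVEL. -/
theorem S19_of_three (hunr : UnrStatement) (hlocal : LocalStatement) (hlevel : LevelStatement)
    (p : ℕ) [NeZero p] (ℓ : ℕ) [Fact ℓ.Prime] (hℓp : ¬ ℓ ∣ p) (k : ℕ) :
    FrozenConclusion p ℓ k :=
  S19_of_five H15.ordStatement Fermat.Agent.A3.H319.finStatement hunr hlocal hlevel p ℓ hℓp k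

end Fermat.Agent.S19

end
-- ===== PACK-END S19/Top2.lean

-- ===== PACK-BEGIN S29/H718/KAdd.lean
section
/-
S29 / layer M / sub-layer M4b, piece `K4-ADD` (helper718): additivity of the Kummer relation.
-/



set_option autoImplicit false

noncomputable section

open ModularCurve AlgebraicCurve CongruenceSubgroup UpperHalfPlane
open scoped MatrixGroups Manifold

namespace Fermat.Agent.S29.H718

open Fermat.Agent.S24 Fermat.Agent.S29 Fermat.Agent.S29.M4b

/-- `ζ_p ^ p = 1`. -/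
theorem zetaP_pow_self (p : ℕ) [NeZero p] : zetaP p ^ p = 1 := by
  unfold zetaP
  rw [← Complex.exp_nat_mul]
  have hp : (p : ℂ) ≠ 0 := Nat.cast_ne_zero.mpr (NeZero.ne p)
  rw [mul_div_cancel₀ _ hp]
  exact Complex.exp_two_pi_mul_I

/-- `ζ_p ^ (a + b).val = ζ_p ^ a.val * ζ_p ^ b.val` for `a b : ZMod p`. -/
theorem zetaP_pow_val_add (p : ℕ) [NeZero p] (a b : ZMod p) :
    zetaP p ^ (a + b).val = zetaP p ^ a.val * zetaP p ^ b.val := by
  rw [← pow_add, ZMod.val_add]
  conv_rhs => rw [← Nat.mod_add_div (a.val + b.val) p]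
  rw [pow_add, pow_mul, zetaP_pow_self, one_pow, mul_one]

end Fermat.Agent.S29.H718

namespace Fermat.Agent.S29.H718

open Fermat.Agent.S24 Fermat.Agent.S29 Fermat.Agent.S29.M4b

/-- A realised nonzero element is realised by a function which is not identically zero. -/
theorem exists_ne_zero_of_realises (N : ℕ) [NeZero N] {u : FF N} (hu : u ≠ 0) {G : ℍ → ℂ}
    (hG : Realises N u G) : ∃ τ : ℍ, G τ ≠ 0 := by
  by_contra hcon
  push Not at hcon
  have hG0 : G = 0 := funext hcon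
  have hmer : H708.IsMerInf 1 G := H882.isMerInf_of_mem_goodRing hG.1
  have h0 : H708.qexpFun 1 G = 0 := (H708.qexpFun_eq_zero_iff hmer).mpr hG0
  have h1 := hG.2
  rw [h0] at h1
  have h2 : ((u : FF N) : LaurentSeries Kbar) = 0 :=
    (coeffMap Deg457.iotaC).injective (by rw [← h1, map_zero])
  exact hu (Subtype.ext h2)

/-- Realisation is multiplicative. -/
theorem realises_mul (N : ℕ) [NeZero N] {u v : FF N} {G G' : ℍ → ℂ}
    (hG : Realises N u G) (hG' : Realises N v G') : Realises N (u * v) (G * G') := by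
  refine ⟨(H648.goodRing N).mul_mem hG.1 hG'.1, ?_⟩
  rw [H708.qexpFun_mul (H882.isMerInf_of_mem_goodRing hG.1)
    (H882.isMerInf_of_mem_goodRing hG'.1), hG.2, hG'.2, ← map_mul]
  rfl

/-- PIECE `K4-ADD`: additivity of the Kummer relation (product of the data). -/
theorem isKum_add (N : ℕ) [NeZero N] (p : ℕ) [NeZero p] {c c' : G0 N → ZMod p} {x x' : JZero N}
    (h : IsKum N p c x) (h' : IsKum N p c' x') : IsKum N p (c + c') (x + x') := by
  obtain ⟨f, t, U, ht, hx, hU, hR⟩ := h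
  obtain ⟨f', t', U', ht', hx', hU', hR'⟩ := h'
  have hpow : (fun τ => (U τ * U' τ) ^ p) = (fun τ => U τ ^ p) * (fun τ => U' τ ^ p) := by
    funext τ
    simp [mul_pow]
  have hprod : f * f' * (t * t') ^ p = (f * t ^ p) * (f' * t' ^ p) := by ring
  have hRR : Realises N (f * f' * (t * t') ^ p) (fun τ => (U τ * U' τ) ^ p) := by
    rw [hpow, hprod]
    exact realises_mul N hR hR'
  have hne : f * f' * (t * t') ^ p ≠ 0 :=
    mul_ne_zero (mul_ne_zero hx.ne_zero hx'.ne_zero) (pow_ne_zero _ (mul_ne_zero ht ht'))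
  refine ⟨f * f', t * t', fun τ => U τ * U' τ, mul_ne_zero ht ht', hx.add hx', ?_, hRR⟩
  refine ⟨hU.mdiff.mul hU'.mdiff, ?_, ?_, hRR.1⟩
  · obtain ⟨τ, hτ⟩ := exists_ne_zero_of_realises N hne hRR
    exact ⟨τ, fun h0 => hτ (by simp only [h0]; exact zero_pow (NeZero.ne p))⟩
  · intro γ τ
    show U ((γ : SL(2, ℤ)) • τ) * U' ((γ : SL(2, ℤ)) • τ) = _
    rw [hU.hasChar γ τ, hU'.hasChar γ τ, Pi.add_apply, zetaP_pow_val_add]
    ring

end Fermat.Agent.S29.H718

end
end
-- ===== PACK-END S29/H718/KAdd.lean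

-- ===== PACK-BEGIN S29/H718/KInj.lean
section
/-
S29 / layer M / sub-layer M4b, piece `K4-INJ` (helper718): only the trivial character has Kummer
class `0`.
-/




set_option autoImplicit false

noncomputable section

open ModularCurve AlgebraicCurve CongruenceSubgroup UpperHalfPlane
open scoped MatrixGroups Manifold

namespace Fermat.Agent.S29.H718

open Fermat.Agent.S24 Fermat.Agent.S29 Fermat.Agent.S29.M4b

/-- `ζ_p` is a primitive `p`-th root of unity. -/
theorem zetaP_isPrimitiveRoot (p : ℕ) [NeZero p] : IsPrimitiveRoot (zetaP p) p :=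
  Complex.isPrimitiveRoot_exp p (NeZero.ne p)

/-- `ζ_p ^ a.val = 1` only for `a = 0`. -/
theorem eq_zero_of_zetaP_pow_val (p : ℕ) [NeZero p] (a : ZMod p)
    (h : zetaP p ^ a.val = 1) : a = 0 := by
  have h1 : p ∣ a.val := (zetaP_isPrimitiveRoot p).dvd_of_pow_eq_one _ h
  have h2 : a.val = 0 := Nat.eq_zero_of_dvd_of_lt h1 (ZMod.val_lt a)
  exact (ZMod.val_eq_zero a).mp h2

/-- Every element of `FF N` is a quotient of two elements of `A_{ℚ̄}` (polynomials in the
`j(q^d)`, `d ∣ N`). -/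
theorem exists_div_AK (N : ℕ) [NeZero N] (v : FF N) :
    ∃ r ∈ Deg457.AK Kbar N, ∃ s ∈ Deg457.AK Kbar N,
      ((v : FF N) : LaurentSeries Kbar) = r / s := by
  have hv := Deg457.laurentBaseChange_full_le (K := Kbar) N v.2
  rw [IntermediateField.mem_adjoin_iff_div] at hv
  exact hv

/-- Every element of `A_{ℚ̄}` is realised by a good function. -/
theorem exists_good_of_mem_AK (N : ℕ) [NeZero N] {r : LaurentSeries Kbar}
    (hr : r ∈ Deg457.AK Kbar N) :
    ∃ R : ℍ → ℂ, R ∈ H648.goodRing N ∧ H708.HasQExp 1 R (coeffMap Deg457.iotaC r) :=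
  H882.AK_le_goodQ N (Deg457.coeffMap_mem_AK Deg457.iotaC hr)

/-- If `U ^ p` realises a `p`-th power `v ^ p`, `v ≠ 0`, and `U` is holomorphic, then `U` is
`Γ₀(N)`-invariant at some point where it does not vanish. -/
theorem exists_invariant_point (N : ℕ) [NeZero N] (p : ℕ) [NeZero p] {v : FF N} (hv : v ≠ 0)
    {U : ℍ → ℂ} (hU : MDifferentiable 𝓘(ℂ) 𝓘(ℂ) U)
    (hR : Realises N (v ^ p) (fun τ => U τ ^ p)) :
    ∃ τ₀ : ℍ, U τ₀ ≠ 0 ∧ ∀ γ ∈ Gamma0 N, U (γ • τ₀) = U τ₀ := by
  obtain ⟨r, hr, s, hs, hvrs⟩ := exists_div_AK N v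
  have hv0 : ((v : FF N) : LaurentSeries Kbar) ≠ 0 := fun h => hv (Subtype.ext h)
  have hs0 : s ≠ 0 := by
    rintro rfl
    rw [div_zero] at hvrs
    exact hv0 hvrs
  have hr0 : r ≠ 0 := by
    rintro rfl
    rw [zero_div] at hvrs
    exact hv0 hvrs
  obtain ⟨R, hRg, hRq⟩ := exists_good_of_mem_AK N hr
  obtain ⟨S, hSg, hSq⟩ := exists_good_of_mem_AK N hs
  -- `(U * S) ^ p` and `R ^ p` have the same `q`-expansion
  have hUq : H708.HasQExp 1 (fun τ => U τ ^ p)
      (coeffMap Deg457.iotaC (((v ^ p : FF N) : FF N) : LaurentSeries Kbar)) :=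
    ⟨H882.isMerInf_of_mem_goodRing hR.1, hR.2⟩
  have h1 : H708.HasQExp 1 ((fun τ => U τ ^ p) * S ^ p)
      (coeffMap Deg457.iotaC (((v ^ p : FF N) : FF N) : LaurentSeries Kbar)
        * coeffMap Deg457.iotaC s ^ p) := hUq.mul (hSq.pow p)
  have h2 : H708.HasQExp 1 (R ^ p) (coeffMap Deg457.iotaC r ^ p) := hRq.pow p
  have hser : coeffMap Deg457.iotaC (((v ^ p : FF N) : FF N) : LaurentSeries Kbar)
        * coeffMap Deg457.iotaC s ^ p = coeffMap Deg457.iotaC r ^ p := by
    rw [← map_pow, ← map_pow, ← map_mul]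
    congr 1
    have : (((v ^ p : FF N) : FF N) : LaurentSeries Kbar)
        = ((v : FF N) : LaurentSeries Kbar) ^ p := rfl
    rw [this, hvrs, div_pow, div_mul_cancel₀ _ (pow_ne_zero p hs0)]
  rw [hser] at h1
  have hfun : (fun τ => U τ ^ p) * S ^ p = R ^ p := h1.eq_of_eq h2
  -- a point where `R` does not vanish
  have hR0 : R ≠ 0 := by
    intro h0
    have := (hRq.eq_zero_iff).mpr h0
    exact hr0 ((coeffMap Deg457.iotaC).injective (by rw [this, map_zero]))
  obtain ⟨τ₀, hτ₀⟩ : ∃ τ₀ : ℍ, R τ₀ ≠ 0 := by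
    by_contra hcon
    push Not at hcon
    exact hR0 (funext hcon)
  have hpt : ∀ τ : ℍ, (U τ * S τ) ^ p = R τ ^ p := by
    intro τ
    have := congrFun hfun τ
    simpa [mul_pow] using this
  have hUS0 : U τ₀ * S τ₀ ≠ 0 := by
    intro h0
    have := hpt τ₀
    rw [h0, zero_pow (NeZero.ne p)] at this
    exact pow_ne_zero p hτ₀ this.symm
  set ξ : ℂ := U τ₀ * S τ₀ / R τ₀ with hξ
  have hξp : ξ ^ p = 1 := by
    rw [hξ, div_pow, hpt τ₀, div_self (pow_ne_zero p hτ₀)]
  have hAB : (fun τ => U τ * S τ) = (fun τ => ξ * R τ) := by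
    refine H751.eq_of_pow_eq_UHP (hU.mul hSg.1) ((mdifferentiable_const (c := ξ)).mul hRg.1)
      (NeZero.ne p) (fun τ => ?_) (τ₀ := τ₀) ?_ hUS0
    · rw [hpt τ, mul_pow, hξp, one_mul]
    · show U τ₀ * S τ₀ = ξ * R τ₀
      rw [hξ, div_mul_cancel₀ _ hτ₀]
  refine ⟨τ₀, left_ne_zero_of_mul hUS0, fun γ hγ => ?_⟩
  have e1 : U (γ • τ₀) * S (γ • τ₀) = ξ * R (γ • τ₀) := congrFun hAB (γ • τ₀)
  have e2 : U τ₀ * S τ₀ = ξ * R τ₀ := congrFun hAB τ₀
  rw [hSg.2.1 γ hγ τ₀, hRg.2.1 γ hγ τ₀, ← e2] at e1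
  exact mul_right_cancel₀ (right_ne_zero_of_mul hUS0) e1

/-- PIECE `K4-INJ`: only the trivial character has Kummer class `0`. -/
theorem isKum_zero_right (N : ℕ) [NeZero N] (p : ℕ) [NeZero p] {c : G0 N → ZMod p}
    (h : IsKum N p c (0 : JZero N)) : c = 0 := by
  obtain ⟨f, t, U, ht, hx, hU, hR⟩ := h
  have hp0 : (p : ℤ) ≠ 0 := Int.natCast_ne_zero.mpr (NeZero.ne p)
  obtain ⟨g, hg, hfg⟩ := (hx.eq_zero_iff hp0).mp rfl
  have hf : f ≠ 0 := hx.ne_zero
  -- `f / g ^ p` is a constant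
  have hgp : g ^ p ≠ 0 := pow_ne_zero p hg
  have hu0 : f * (g ^ p)⁻¹ ≠ 0 := mul_ne_zero hf (inv_ne_zero hgp)
  have hord : ∀ w : Place Kbar (FF N), w.ord (f * (g ^ p)⁻¹) = 0 := by
    intro w
    rw [Place.ord_mul w hf (inv_ne_zero hgp), Place.ord_inv, hfg w, ← zpow_natCast g p,
      Place.ord_zpow]
    ring
  obtain ⟨a, ha⟩ := Fermat.Agent.S18.H504.constOfOrdZero_modularFunctionFieldBar N _ hu0 hord
  obtain ⟨b, hb⟩ := IsAlgClosed.exists_pow_nat_eq a (Nat.pos_of_ne_zero (NeZero.ne p))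
  have hb0 : b ≠ 0 := by
    rintro rfl
    rw [zero_pow (NeZero.ne p)] at hb
    rw [← hb, map_zero] at ha
    exact hu0 ha
  set v : FF N := algebraMap Kbar (FF N) b * g * t with hv
  have hv0 : v ≠ 0 :=
    mul_ne_zero (mul_ne_zero ((map_ne_zero _).mpr hb0) hg) ht
  have hvp : v ^ p = f * t ^ p := by
    have h1 : f = algebraMap Kbar (FF N) a * g ^ p := by
      rw [← ha, mul_assoc, inv_mul_cancel₀ hgp, mul_one]
    rw [hv, mul_pow, mul_pow, ← map_pow, hb, ← h1]
  rw [← hvp] at hR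
  obtain ⟨τ₀, hτ₀, hinv⟩ := exists_invariant_point N p hv0 hU.mdiff hR
  funext γ
  apply eq_zero_of_zetaP_pow_val
  have h1 := hU.hasChar γ τ₀
  have h2 := hinv (γ : SL(2, ℤ)) γ.2
  rw [h2] at h1
  have h3 : (zetaP p ^ (c γ).val - 1) * U τ₀ = 0 := by
    rw [sub_mul, one_mul, ← h1, sub_self]
  rcases mul_eq_zero.mp h3 with h4 | h4
  · exact sub_eq_zero.mp h4
  · exact absurd h4 hτ₀

end Fermat.Agent.S29.H718

end
end
-- ===== PACK-END S29/H718/KInj.lean

-- ===== PACK-BEGIN A3/H319/Level.lean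
section











/-!
# A3 / LEVEL (helper319): `levelStatement : S19.LevelStatement`

The torsion `J₀(N)[ℓ^k]` embeds Galois-equivariantly into `J₀(N p)[ℓ^k]` for every prime `p ≠ ℓ`
(we need `p = 2` for `ℓ = 3` and `p = 3` for `ℓ = 2`): the map is the pull-back (conorm) along
the Prelude degeneracy map `heckeAlphaBar N p` (inclusion of function fields).

Injectivity uses the Kummer dictionary on main instead of ramification theory:
`x` is the Kummer class of an additive character `c` of `Γ₀(N)` (ONTO, `S30.H810`), its pull-back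
is the Kummer class of `c|Γ₀(N p)` (`isKum_levelPull`), which vanishes if the pull-back is `0`
(`S29.H718.isKum_zero_right`); a character of `Γ₀(N)` with values in `ℤ/ℓ^k` vanishing on
`Γ₀(N p)` is `0` (`eq_zero_of_forall_mem_Gamma0_mul`), hence `x = 0` (`S29.M4b.H89.isKum_unique`).
-/

set_option autoImplicit false
set_option linter.style.haveILetI false

noncomputable section

namespace Fermat.Agent.A3.H319

open ModularCurve AlgebraicCurve CongruenceSubgroup UpperHalfPlane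
open Fermat.Agent.S24 Fermat.Agent.S29 Fermat.Agent.S29.M4b
open scoped MatrixGroups Manifold

variable (N p : ℕ) [NeZero N] [NeZero p]

/-- The degeneracy map `α : FF N → FF (N p)` (inclusion) is integral. -/
theorem levelAlpha_integral : (heckeAlphaBar Kbar N p).toRingHom.IsIntegral :=
  H812.isIntegral_of_finiteAlong (H812.finiteAlong_heckeAlphaBar N p)

theorem levelAlpha_fundId :
    haveI : HasPrincipalDivisors Kbar (FF (N * p)) :=
      Fermat.Agent.Lib.RR.H864.hasPrincipalDivisors_modularFunctionFieldBar (N * p)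
    FundamentalIdentityAlong Kbar (heckeAlphaBar Kbar N p) (levelAlpha_integral N p) := by
  haveI : HasPrincipalDivisors Kbar (FF (N * p)) :=
    Fermat.Agent.Lib.RR.H864.hasPrincipalDivisors_modularFunctionFieldBar (N * p)
  exact H812.fundamentalIdentityAlong (H812.exists_coord_modular N) (heckeAlphaBar Kbar N p)
    (H812.finiteAlong_heckeAlphaBar N p) (levelAlpha_integral N p)

/-- The pull-back (conorm) `J₀(N)(ℚ̄) → J₀(N p)(ℚ̄)`. -/
def levelPull : JZero N →+ JZero (N * p) :=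
  haveI : HasPrincipalDivisors Kbar (FF (N * p)) :=
    Fermat.Agent.Lib.RR.H864.hasPrincipalDivisors_modularFunctionFieldBar (N * p)
  pic0Pull (heckeAlphaBar Kbar N p) (levelAlpha_integral N p) (levelAlpha_fundId N p)

/-- The pull-back is Galois-equivariant. -/
theorem levelPull_smul (σ : Kbar ≃ₐ[ℚ] Kbar) (x : JZero N) :
    levelPull N p (σ • x) = σ • levelPull N p x := by
  haveI : HasPrincipalDivisors Kbar (FF (N * p)) :=
    Fermat.Agent.Lib.RR.H864.hasPrincipalDivisors_modularFunctionFieldBar (N * p)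
  rw [galois_smul_pic0_def, galois_smul_pic0_def]
  exact pic0Pull_smul (heckeAlphaBar Kbar N p) (levelAlpha_integral N p) (levelAlpha_fundId N p)
    (H571.intertwines_heckeAlphaBar N p σ) x

/-- Restriction of a function on `Γ₀(N)` to `Γ₀(N p)`. -/
def resG0 {A : Type*} (c : G0 N → A) : G0 (N * p) → A :=
  fun γ => c ⟨(γ : SL(2, ℤ)), Gamma0_mul_le N p γ.2⟩

omit [NeZero N] [NeZero p] in
theorem goodRing_mul_le : H648.goodRing N ≤ H648.goodRing (N * p) := by
  rintro f ⟨h1, h2, h3⟩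
  exact ⟨h1, fun γ hγ τ => h2 γ (Gamma0_mul_le N p hγ) τ, h3⟩

/-- **Kummer classes pull back**: if `x` is the Kummer class of `c` at level `N`, then the
pull-back of `x` is the Kummer class of `c|Γ₀(N p)` at level `N p`. -/
theorem isKum_levelPull {n : ℕ} {c : G0 N → ZMod n} {x : JZero N} (h : IsKum N n c x) :
    IsKum (N * p) n (resG0 N p c) (levelPull N p x) := by
  haveI : HasPrincipalDivisors Kbar (FF (N * p)) :=
    Fermat.Agent.Lib.RR.H864.hasPrincipalDivisors_modularFunctionFieldBar (N * p)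
  obtain ⟨f, t, U, ht, hx, hU, hR⟩ := h
  refine ⟨heckeAlphaBar Kbar N p f, heckeAlphaBar Kbar N p t, U,
    (map_ne_zero (heckeAlphaBar Kbar N p)).mpr ht,
    isKummerClass_pic0Pull (heckeAlphaBar Kbar N p) (levelAlpha_integral N p)
      (levelAlpha_fundId N p) hx,
    ⟨hU.mdiff, hU.ne_zero, fun γ τ => hU.hasChar ⟨(γ : SL(2, ℤ)), Gamma0_mul_le N p γ.2⟩ τ,
      goodRing_mul_le N p hU.pow_mem⟩,
    goodRing_mul_le N p hR.1, ?_⟩
  rw [hR.2, ← map_pow, ← map_mul, coe_heckeAlphaBar]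

/-- `ℤ/n` has no `p`-torsion when `p` is prime to `n`. -/
theorem zmod_eq_zero_of_nsmul {n p : ℕ} (h : Nat.Coprime p n) (a : ZMod n) (ha : p • a = 0) :
    a = 0 := by
  rw [nsmul_eq_mul] at ha
  have hu : IsUnit ((p : ℕ) : ZMod n) := (ZMod.unitOfCoprime p h).isUnit
  exact (hu.mul_right_eq_zero).mp ha

/-- **Injectivity of the pull-back on torsion prime to `p`.** -/
theorem eq_zero_of_levelPull_eq_zero (hp : p.Prime) (n : ℕ) [NeZero n] (hnp : Nat.Coprime p n)
    {x : JZero N} (hx : (n : ℤ) • x = 0) (h0 : levelPull N p x = 0) : x = 0 := by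
  obtain ⟨c, hc⟩ := Fermat.Agent.S30.H810.exists_isKum_of_torsion N n hx
  have hadd := fun γ γ' => Fermat.Agent.S30.Fin.fin_isKum_map_mul hc γ γ'
  have h1 := isKum_levelPull N p hc
  rw [h0] at h1
  have hres : resG0 N p c = 0 := Fermat.Agent.S29.H718.isKum_zero_right (N * p) n h1
  have hc0 : c = 0 := by
    funext γ
    exact eq_zero_of_forall_mem_Gamma0_mul hp (zmod_eq_zero_of_nsmul hnp) c hadd
      (fun γ hγ => congrFun hres ⟨(γ : SL(2, ℤ)), hγ⟩) γ
  obtain ⟨c₀, hc₀⟩ := Fermat.Agent.S30.H810.exists_isKum_of_torsion N n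
    (x := (0 : JZero N)) (smul_zero _)
  have hc₀0 : c₀ = 0 := Fermat.Agent.S29.H718.isKum_zero_right N n hc₀
  rw [hc0] at hc
  rw [hc₀0] at hc₀
  exact Fermat.Agent.S29.M4b.H89.isKum_unique N n hc hc₀

open Fermat.Agent.S19 in
/-- The pull-back on `ℓ^k`-torsion. -/
def torsPull (ℓ k : ℕ) : Tors N ℓ k →+ Tors (N * p) ℓ k :=
  (((levelPull N p).toIntLinearMap).restrict
    (p := Submodule.torsionBy ℤ (JZero N) ((ℓ : ℤ) ^ k))
    (q := Submodule.torsionBy ℤ (JZero (N * p)) ((ℓ : ℤ) ^ k)) (fun x hx => by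
      rw [Submodule.mem_torsionBy_iff] at hx ⊢
      rw [← map_smul, hx, map_zero])).toAddMonoidHom

open Fermat.Agent.S19 in
theorem coe_torsPull (ℓ k : ℕ) (x : Tors N ℓ k) :
    ((torsPull N p ℓ k x : Tors (N * p) ℓ k) : JZero (N * p)) = levelPull N p (x : JZero N) :=
  rfl

open Fermat.Agent.S19 in
theorem torsPull_injective (hp : p.Prime) (ℓ k : ℕ) (hℓ : ℓ.Prime) (hℓp : ℓ ≠ p) :
    Function.Injective (torsPull N p ℓ k) := by
  rw [injective_iff_map_eq_zero]
  intro x hx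
  have h0 : levelPull N p (x : JZero N) = 0 := by
    rw [← coe_torsPull, hx]; rfl
  haveI : NeZero (ℓ ^ k) := ⟨pow_ne_zero k hℓ.ne_zero⟩
  have hcop : Nat.Coprime p (ℓ ^ k) :=
    Nat.Coprime.pow_right k ((Nat.coprime_primes hp hℓ).mpr (Ne.symm hℓp))
  have hx' : ((ℓ ^ k : ℕ) : ℤ) • (x : JZero N) = 0 := by
    have := (Submodule.mem_torsionBy_iff _ _).mp x.2
    push_cast
    exact this
  exact Subtype.ext (eq_zero_of_levelPull_eq_zero N p hp (ℓ ^ k) hcop hx' h0)

open Fermat.Agent.S19 in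
theorem torsPull_torsAct (ℓ k : ℕ) (σ : GalQ) (x : Tors N ℓ k) :
    torsPull N p ℓ k (torsAct N ℓ k σ x) = torsAct (N * p) ℓ k σ (torsPull N p ℓ k x) := by
  apply Subtype.ext
  rw [coe_torsPull, coe_torsAct, coe_torsAct, coe_torsPull]
  exact levelPull_smul N p σ (x : JZero N)

open Fermat.Agent.S19 in
/-- **LEVEL node of A3** (frozen interface `Fermat.Agent.S19.LevelStatement`). -/
theorem levelStatement : Fermat.Agent.S19.LevelStatement := by
  intro N _ ℓ hℓ hℓN k
  have hprime : ℓ.Prime := hℓ.out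
  by_cases h5 : 5 ≤ ℓ
  · exact ⟨N, inferInstance, k, hℓN, Or.inl h5, AddMonoidHom.id _, Function.injective_id,
      fun _ _ => rfl⟩
  · -- `ℓ = 2` or `ℓ = 3`
    have hℓ23 : ℓ = 2 ∨ ℓ = 3 := by
      have h2 := hprime.two_le
      have hlt : ℓ < 5 := not_le.mp h5
      interval_cases ℓ
      · exact Or.inl rfl
      · exact Or.inr rfl
      · exact absurd hprime (by decide)
    rcases hℓ23 with rfl | rfl
    · -- `ℓ = 2`, auxiliary prime `3`
      by_cases h3 : 3 ∣ N
      · exact ⟨N, inferInstance, k, hℓN, Or.inr (Or.inr ⟨rfl, h3⟩), AddMonoidHom.id _,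
          Function.injective_id, fun _ _ => rfl⟩
      · refine ⟨N * 3, inferInstance, k, ?_, Or.inr (Or.inr ⟨rfl, dvd_mul_left 3 N⟩),
          torsPull N 3 2 k, torsPull_injective N 3 Nat.prime_three 2 k Nat.prime_two (by decide),
          fun σ x => torsPull_torsAct N 3 2 k σ x⟩
        intro h
        rcases (Nat.Prime.dvd_mul Nat.prime_two).mp h with h | h
        · exact hℓN h
        · exact absurd h (by decide)
    · -- `ℓ = 3`, auxiliary prime `2`
      by_cases h2 : 2 ∣ N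
      · exact ⟨N, inferInstance, k, hℓN, Or.inr (Or.inl ⟨rfl, h2⟩), AddMonoidHom.id _,
          Function.injective_id, fun _ _ => rfl⟩
      · refine ⟨N * 2, inferInstance, k, ?_, Or.inr (Or.inl ⟨rfl, dvd_mul_left 2 N⟩),
          torsPull N 2 3 k, torsPull_injective N 2 Nat.prime_two 3 k Nat.prime_three (by decide),
          fun σ x => torsPull_torsAct N 2 3 k σ x⟩
        intro h
        rcases (Nat.Prime.dvd_mul Nat.prime_three).mp h with h | h
        · exact hℓN h
        · exact absurd h (by decide)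

end Fermat.Agent.A3.H319

end
end
-- ===== PACK-END A3/H319/Level.lean

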