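import Fermat.Agent.Pack.S3234.G4E4L1
import Fermat.Agent.Pack.S3234.G0E8L0
import Fermat.Agent.Pack.S3234.G4E4L3
import Fermat.Agent.Pack.S3234.G0E6L3
import Fermat.Agent.Pack.S3234.G0E7L0
import Fermat.Agent.Pack.S3234.G0E9L1
import Fermat.Agent.Pack.S3234.G0E3L2
import Fermat.Agent.Pack.S3234.G0E9L0
import Fermat.Agent.Pack.S3234.G0E8L3
import Fermat.Agent.Pack.S3234.G4E4L2

-- ===== PACK-BEGIN S29/H509/K1.lean
section



/-!
# S29 / M4b piece K1 (`exists_isTwisted`) in helper822's EXACT shape (helper509)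

`U := kumH (chiOfHom c)`, i.e. `E^χ₁₂ / Δ` with `χ = ζ_p ^ c`.
-/

set_option autoImplicit false

namespace Fermat.Agent.S29.H509

open ModularCurve AlgebraicCurve CongruenceSubgroup UpperHalfPlane
open scoped MatrixGroups Manifold

open Fermat.Agent.S24 Fermat.Agent.S29 Fermat.Agent.S29.M4b

noncomputable section

/-- The additive character `Additive Γ₀(N) →+ ZMod p` underlying a parabolic hom `c`. -/
def homOfParHom {N p : ℕ} {c : G0 N → ZMod p} (hc : IsParHom c) :
    Additive (Gamma0 N) →+ ZMod p where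
  toFun γ := c (Additive.toMul γ)
  map_zero' := by
    have h := hc.map_mul 1 1
    rw [mul_one] at h
    have : c 1 + 0 = c 1 + c 1 := by rw [add_zero]; exact h
    exact (add_left_cancel this).symm
  map_add' a b := hc.map_mul _ _

@[simp] lemma homOfParHom_apply {N p : ℕ} {c : G0 N → ZMod p} (hc : IsParHom c)
    (γ : Gamma0 N) : homOfParHom hc (Additive.ofMul γ) = c γ := rfl

lemma stdAddChar_eq_zetaP_pow (p : ℕ) [NeZero p] (a : ZMod p) :
    ZMod.stdAddChar (N := p) a = zetaP p ^ a.val := by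
  have h1 : ((a.val : ℤ) : ZMod p) = a := by
    rw [Int.cast_natCast, ZMod.natCast_zmod_val]
  conv_lhs => rw [← h1]
  rw [ZMod.stdAddChar_coe, zetaP, ← Complex.exp_nat_mul]
  congr 1
  push_cast
  ring

/-- **PIECE K1** of `M4b/Skeleton.lean`, exact type. -/
theorem exists_isTwisted (N : ℕ) [NeZero N] (p : ℕ) [NeZero p] {c : G0 N → ZMod p}
    (hc : IsParHom c) : ∃ U : ℍ → ℂ, IsTwisted N p c U := by
  have hstab : ∀ γ : Gamma0 N, (γ : SL(2, ℤ)) 1 0 = 0 →
      homOfParHom hc (Additive.ofMul γ) = 0 := by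
    intro γ hγ
    rw [homOfParHom_apply]
    apply hc.parabolic
    have hdet := (γ : SL(2, ℤ)).det_coe
    rw [Matrix.det_fin_two] at hdet
    have h' : ((γ : SL(2, ℤ)) : Matrix (Fin 2) (Fin 2) ℤ) 1 0 = 0 := hγ
    rw [h', mul_zero, sub_zero] at hdet
    have htr : (G0.mat γ).trace = ((γ : SL(2, ℤ)) : Matrix (Fin 2) (Fin 2) ℤ) 0 0
        + ((γ : SL(2, ℤ)) : Matrix (Fin 2) (Fin 2) ℤ) 1 1 := by
      rw [G0.mat, Matrix.trace_fin_two]
    rw [htr]
    rcases Int.eq_one_or_neg_one_of_mul_eq_one' hdet with ⟨h1, h2⟩ | ⟨h1, h2⟩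
    · left; rw [h1, h2]; norm_num
    · right; rw [h1, h2]; norm_num
  obtain ⟨h, hmd, hne, hchar, -, hgood⟩ := exists_kummerFun_of_hom N (homOfParHom hc) hstab
  refine ⟨h, hmd, ?_, ?_, hgood⟩
  · by_contra hall
    push_neg at hall
    exact hne (funext hall)
  · intro γ τ
    rw [hchar γ τ, homOfParHom_apply, stdAddChar_eq_zetaP_pow]

end

end Fermat.Agent.S29.H509

end
-- ===== PACK-END S29/H509/K1.lean

-- ===== PACK-BEGIN S29/H389/K2.lean
section





/-!
# S29 / M4b / PIECE K2 (DICT) — `exists_isKummerClass_of_realised` (helper389)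

The piece `K2` of helper822's M4b sub-skeleton, in the EXACT type of `M4b/Skeleton.lean`
(general modulus `p`, `[NeZero p]`):

if `u ∈ FF N` is realised by `U ^ p`, `U` a twisted function whose character kills the parabolic
and the elliptic elements of `Γ₀(N)`, then `u` has a `p`-Kummer class in `J₀(N)(ℚ̄)`.

Proof: direct route over `ℚ̄` on the landed S24 package.
* `U ∈ holN N` (S24 ring of the concrete analytic core): every `SL₂(ℤ)`-translate of `U` is
  holomorphic, `N`-periodic (`g T^N g⁻¹ ∈ Γ₀(N)` has trace `2`) and of exponential growth (because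
  its `p`-th power is), so it has a convergent expansion in `exp(2πiτ/N)`;
* `e(r) = U ^ p · e(s)` for `u = r / s` (equality of expansions at `i∞`);
* `U` is invariant under the elliptic and parabolic elements of `Γ₀(N)`;
* conclude by the landed `H389.exists_isKummerClass_of_analytic_pow` (BR-DICT).
-/

set_option autoImplicit false

noncomputable section

open ModularCurve AlgebraicCurve CongruenceSubgroup UpperHalfPlane HahnSeries
open scoped MatrixGroups Manifold Real

namespace Fermat.Agent.S29.H389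

open Fermat.Agent.S24 Fermat.Agent.S24.H997 Fermat.Agent.S24.H648 Fermat.Agent.S24.H708
  Fermat.Agent.S24.H624 Fermat.Agent.S29 Fermat.Agent.S29.M4b

/-- A function whose `p`-th power (`p ≠ 0`) has exponential growth has exponential growth. -/
theorem K2_expGrowth_of_pow {f : ℍ → ℂ} {p : ℕ} (hp : p ≠ 0)
    (h : ExpGrowth (fun τ => f τ ^ p)) : ExpGrowth f := by
  obtain ⟨C, m, hC⟩ := h
  refine ⟨max C 1, m, fun τ hτ => ?_⟩
  have h1 := hC τ hτ
  rw [norm_pow] at h1
  have him : 0 < τ.im := τ.im_pos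
  have hpi := Real.pi_pos
  have hE : 1 ≤ Real.exp (2 * π * m * τ.im) := Real.one_le_exp (by positivity)
  have hmax : (1 : ℝ) ≤ max C 1 := le_max_right _ _
  have hB : 1 ≤ max C 1 * Real.exp (2 * π * m * τ.im) := by
    calc (1 : ℝ) = 1 * 1 := (one_mul 1).symm
      _ ≤ max C 1 * Real.exp (2 * π * m * τ.im) :=
        mul_le_mul hmax hE zero_le_one (zero_le_one.trans hmax)
  have hle : ‖f τ‖ ^ p ≤ max C 1 * Real.exp (2 * π * m * τ.im) :=
    h1.trans (mul_le_mul_of_nonneg_right (le_max_left _ _) (Real.exp_pos _).le)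
  by_cases h0 : ‖f τ‖ ≤ 1
  · exact h0.trans hB
  · have : ‖f τ‖ ≤ ‖f τ‖ ^ p := le_self_pow₀ (le_of_lt (not_le.mp h0)) hp
    exact this.trans hle

/-- `qh N ^ N = qh 1`. -/
theorem K2_qh_pow (N : ℕ) [NeZero N] (M : ℕ) : qh N ^ (N * M) = qh 1 ^ M := by
  funext τ
  have hN : (N : ℂ) ≠ 0 := by exact_mod_cast NeZero.ne N
  simp only [Pi.pow_apply, qh_apply, pow_mul]
  congr 1
  simp only [Function.Periodic.qParam]
  rw [← Complex.exp_nat_mul]
  congr 1
  push_cast
  field_simp

section Twisted

variable (N : ℕ) [NeZero N] (p : ℕ) [NeZero p]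

omit [NeZero N] [NeZero p] in
/-- All translates of a function with a parabolic character are `N`-periodic. -/
theorem K2_compSL_vadd {c : G0 N → ZMod p} (hc : IsParHom c) {U : ℍ → ℂ}
    (hU : HasChar N p c U) (g : SL(2, ℤ)) (τ : ℍ) :
    compSL g U (((N : ℤ) : ℝ) +ᵥ τ) = compSL g U τ := by
  have hmem := H332.conj_T_zpow_mem_Gamma0 N g 1
  rw [mul_one] at hmem
  have htr := H332.trace_conj_T_zpow g (N : ℤ)
  have hc0 : c ⟨_, hmem⟩ = 0 := hc.parabolic ⟨_, hmem⟩ (Or.inl htr)
  have h2 := hU ⟨_, hmem⟩ (g • τ)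
  rw [hc0] at h2
  simp only [ZMod.val_zero, pow_zero, one_mul] at h2
  rw [← UpperHalfPlane.modular_T_zpow_smul]
  simp only [compSL_apply]
  rw [← h2]
  congr 1
  rw [← mul_smul, ← mul_smul, mul_assoc, mul_assoc, inv_mul_cancel, mul_one]

/-- Every translate of a twisted function is meromorphic at `i∞` of width `N`. -/
theorem K2_isMerInf {c : G0 N → ZMod p} (hc : IsParHom c) {U : ℍ → ℂ}
    (hU : IsTwisted N p c U) (g : SL(2, ℤ)) : IsMerInf N (compSL g U) := by
  refine ⟨H648.mdifferentiable_comp_smul hU.mdiff g,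
    H332.periodic_comp_ofComplex_of_vadd (K2_compSL_vadd N p hc hU.hasChar g), ?_⟩
  have hg : ExpGrowth (compSL g U) :=
    K2_expGrowth_of_pow (NeZero.ne p) (hU.pow_mem.2.2 g)
  obtain ⟨M, hM⟩ := H882.isBounded_mul_qh_pow_of_expGrowth hg
  exact ⟨N * M, by rw [K2_qh_pow]; exact hM⟩

/-- A twisted function lies in the S24 ring `holN N`. -/
theorem K2_mem_holN {c : G0 N → ZMod p} (hc : IsParHom c) {U : ℍ → ℂ}
    (hU : IsTwisted N p c U) : U ∈ holN N :=
  ⟨hU.mdiff, fun g => ⟨qexpFun N (compSL g U), fun τ => hasSum_qexpFun (K2_isMerInf N p hc hU g) τ⟩⟩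

end Twisted

/-- The two fixed embeddings `ℚ̄ → ℂ` of S24 agree. -/
theorem K2_iotaC_eq : Deg457.iotaC = ιK := rfl

/-- An expansion in `q` is an expansion in `q^{1/N}`. -/
theorem K2_infExp_of_one (N : ℕ) [NeZero N] {f : ℍ → ℂ} {φ : LaurentSeries ℂ}
    (h : InfExp 1 f φ) : InfExp N f (qExpand ℂ N φ) := by
  have hN : 0 < N := Nat.pos_of_ne_zero (NeZero.ne N)
  have h1 := h.comp_infAff (N := N) (e := N) 0 one_pos one_pos one_pos hN (by ring)
  rw [mul_one, infRoot_zero, infTwist_one] at h1
  refine h1.congr fun τ => ?_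
  rw [infAff_one_zero_one]

section Main

variable (N : ℕ) [NeZero N] (p : ℕ) [NeZero p]

/-- **PIECE `K2`** of the M4b sub-skeleton (EXACT type of `M4b/Skeleton.lean`). -/
theorem exists_isKummerClass_of_realised {c : G0 N → ZMod p} (hc : IsParHom c) {U : ℍ → ℂ}
    {u : FF N} (hU : IsTwisted N p c U) (hu : Realises N u (fun τ => U τ ^ p)) :
    ∃ x : JZero N, H455.IsKummerClass (p : ℤ) u x := by
  classical
  set A : AnalyticCore N := analyticCore N with hA
  -- `U` as an element of `Hol`
  have hmem : U ∈ holN N := K2_mem_holN N p hc hU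
  let Uh : A.toHolBase.Hol := ⟨U, hmem⟩
  have hUh : Uh ≠ 0 := by
    intro h0
    obtain ⟨τ, hτ⟩ := hU.ne_zero
    apply hτ
    have := congrArg (fun f : A.toHolBase.Hol => (f : ℍ → ℂ) τ) h0
    simpa [Uh] using this
  -- the expansion of `U ^ p`
  have hmer : IsMerInf 1 (fun τ => U τ ^ p) := H882.isMerInf_of_mem_goodRing hu.1
  have hexp1 : InfExp 1 (fun τ => U τ ^ p)
      (coeffMap ιK ((u : FF N) : LaurentSeries Kbar)) := by
    intro τ
    have := hasSum_qexpFun hmer τ
    rw [hu.2, K2_iotaC_eq] at this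
    exact this
  have hexpN := K2_infExp_of_one N hexp1
  have hqU : A.toHolBase.qexp (Uh ^ p) = HolBase.Φ N ((u : FF N) : LaurentSeries Kbar) := by
    have hs : InfExp N (((Uh ^ p : A.toHolBase.Hol) : ℍ → ℂ)) (A.toHolBase.qexp (Uh ^ p)) :=
      expInf_spec (holToExp N (Uh ^ p))
    exact hs.unique' hexpN (fun τ => rfl)
  -- `u = r / s`
  obtain ⟨r, s, hs, hrs⟩ := exists_div_inclRN N u
  have hs' : inclRN N s ≠ 0 := fun h => hs (inclRN_injective N (by rw [h, map_zero]))
  have hus : ((u : FF N) : LaurentSeries Kbar) * (s : LaurentSeries Kbar)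
      = (r : LaurentSeries Kbar) := by
    have h1 : u * inclRN N s = inclRN N r := by rw [hrs, div_mul_cancel₀ _ hs']
    have := congrArg (fun f : FF N => (f : LaurentSeries Kbar)) h1
    simpa using this
  have hrel : A.toHolBase.bridge r * (1 : A.toHolBase.Hol) ^ p
      = A.toHolBase.constH 1 * Uh ^ p * A.toHolBase.bridge s := by
    apply A.toHolBase.qexp_injective
    have h1 : A.toHolBase.qexp (A.toHolBase.constH 1) = 1 := by
      have := A.toHolBase.qexp_const 1
      rw [HahnSeries.C_one] at this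
      exact this
    rw [one_pow, mul_one, map_mul, map_mul, HolBase.qexp_bridge, HolBase.qexp_bridge, hqU,
      h1, one_mul, ← map_mul, hus]
  have hr : r ≠ 0 := by
    intro hr0
    rw [hr0, map_zero, zero_mul] at hrel
    have h1 : A.toHolBase.constH 1 * Uh ^ p * A.toHolBase.bridge s = 0 := hrel.symm
    have hb : A.toHolBase.bridge s ≠ 0 := fun h =>
      hs (HolBase.bridge_injective A.toHolBase (by rw [h, map_zero]))
    have hc1 : A.toHolBase.constH 1 ≠ 0 := by
      intro h
      have := congrArg A.toHolBase.qexp h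
      rw [map_zero] at this
      have h2 := A.toHolBase.qexp_const 1
      rw [HahnSeries.C_one] at h2
      rw [HolBase.constH, h2] at this
      exact one_ne_zero this
    have : IsDomain A.toHolBase.Hol :=
      Function.Injective.isDomain A.toHolBase.qexp A.toHolBase.qexp_injective
    exact mul_ne_zero (mul_ne_zero hc1 (pow_ne_zero p hUh)) hb h1
  have hinv : ∀ δ : SL(2, ℤ), δ ∈ CongruenceSubgroup.Gamma0 N → Nice δ →
      A.toHolBase.compH δ Uh * 1 = Uh * A.toHolBase.compH δ 1 := by
    intro δ hδ hnice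
    rw [map_one, mul_one, mul_one]
    have hc0 : c ⟨δ, hδ⟩ = 0 := by
      rcases hnice with hfin | htr
      · obtain ⟨n, hn, hpow⟩ := isOfFinOrder_iff_pow_eq_one.mp hfin
        exact hc.elliptic ⟨δ, hδ⟩ n hn (Subtype.ext (by simpa using hpow))
      · exact hc.parabolic ⟨δ, hδ⟩ (Or.inl htr)
    apply Subtype.ext
    funext τ
    have h2 := hU.hasChar ⟨δ, hδ⟩ τ
    rw [hc0] at h2
    simp only [ZMod.val_zero, pow_zero, one_mul] at h2
    exact h2
  obtain ⟨x, hx⟩ := exists_isKummerClass_of_analytic_pow A p (NeZero.ne p) r s hr hs Uh 1 hUh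
    one_ne_zero 1 one_ne_zero hrel hinv
  exact ⟨x, by rw [hrs]; exact hx⟩

end Main

end Fermat.Agent.S29.H389

end
end
-- ===== PACK-END S29/H389/K2.lean

-- ===== PACK-BEGIN S29/H282/K2.lean
section




/-!
# S29 / M4b — PIECE `K2` (DICT), exact skeleton type (helper282)

`exists_isKummerClass_of_realised` : if `u ∈ FF N` is realised by `U ^ p`, `U` twisted of a
character `c` killing parabolic and elliptic elements, then `u` has a `p`-Kummer class in
`J₀(N)(ℚ̄)`: `p ∣ ord_v u` at every place (`dvd_ord_of_isAvatar_pow`) and `(1/p) div u` has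
degree `0`.

Also `dvd_ord_of_realised` (the divisibility alone) and the same over `ℂ`.
-/

set_option autoImplicit false

noncomputable section

open ModularCurve AlgebraicCurve CongruenceSubgroup UpperHalfPlane
open scoped MatrixGroups Manifold Real

namespace Fermat.Agent.S29.H282

open Fermat.Agent.S24 Fermat.Agent.S24.H997 Fermat.Agent.S24.H648 Fermat.Agent.S24.H708
open Fermat.Agent.S24.H624
open Fermat.Agent.S29 Fermat.Agent.S29.M4b Fermat.Agent.S29.H332

variable {N : ℕ} [NeZero N] {p : ℕ} [NeZero p]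

/-- a twisted function as an element of `Hol` of the concrete analytic core -/
def twistedHol {c : G0 N → ZMod p} (hc : IsParHom c) {U : ℍ → ℂ} (hU : IsTwisted N p c U) :
    (analyticCore N).Hol := ⟨U, mem_holN_of_isTwisted hc hU⟩

theorem coe_twistedHol {c : G0 N → ZMod p} (hc : IsParHom c) {U : ℍ → ℂ}
    (hU : IsTwisted N p c U) : ((twistedHol hc hU : (analyticCore N).Hol) : ℍ → ℂ) = U := rfl

/-- a character killing parabolic and elliptic elements is trivial on special elements -/
theorem isParHom_apply_of_isSpecialElt {c : G0 N → ZMod p} (hc : IsParHom c) (γ : G0 N)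
    (hγ : IsSpecialElt (γ : SL(2, ℤ))) : c γ = 0 := by
  rcases hγ with ⟨n, hn, h⟩ | h
  · exact hc.elliptic γ n hn (Subtype.ext (by simpa using h))
  · exact hc.parabolic γ (Or.inl h)

theorem isUnramified_twistedHol {c : G0 N → ZMod p} (hc : IsParHom c) {U : ℍ → ℂ}
    (hU : IsTwisted N p c U) :
    IsUnramified (analyticCore N).toHolBase (twistedHol hc hU) := by
  intro γ hγ hsp
  apply Subtype.ext
  funext τ
  show U (γ • τ) = U τ
  have h := hU.hasChar ⟨γ, hγ⟩ τ
  rw [isParHom_apply_of_isSpecialElt hc ⟨γ, hγ⟩ hsp] at h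
  simpa using h

/-- the avatar relation over `ℚ̄` -/
theorem isAvatar_of_realises {c : G0 N → ZMod p} (hc : IsParHom c) {U : ℍ → ℂ}
    {u : FF N} (hU : IsTwisted N p c U) (hu : Realises N u (fun τ => U τ ^ p)) :
    IsAvatar (K := Kbar) Deg457.iotaC (analyticCore N).toHolBase u (twistedHol hc hU ^ p) := by
  have hq : HasQExp 1 (fun τ => U τ ^ p) (qexpFun 1 (fun τ => U τ ^ p)) :=
    Fermat.Agent.S29.H882.hasQExp_of_mem_goodRing hu.1
  have hinf : InfExp N (fun τ => U τ ^ p)
      (qExpand ℂ N (coeffMap Deg457.iotaC ((u : FF N) : LaurentSeries Kbar))) := by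
    rw [← hu.2]
    exact infExp_level_of_hasQExp hq
  exact (expInf_spec (holToExp N (twistedHol hc hU ^ p))).unique hinf

/-- **DICT-hard over `ℚ̄`, M4b language**: `p ∣ ord_v u` at every place of `FF N`. -/
theorem dvd_ord_of_realised {c : G0 N → ZMod p} (hc : IsParHom c) {U : ℍ → ℂ}
    {u : FF N} (hU : IsTwisted N p c U) (hu : Realises N u (fun τ => U τ ^ p))
    (v : Place Kbar (FF N)) : (p : ℤ) ∣ v.ord u :=
  dvd_ord_of_isAvatar_pow (K := Kbar) (ι := Deg457.iotaC) (A := analyticCore N)
    (isUnramified_twistedHol hc hU) (isAvatar_of_realises hc hU hu) v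

theorem ne_zero_of_realised {c : G0 N → ZMod p} (hc : IsParHom c) {U : ℍ → ℂ}
    {u : FF N} (hU : IsTwisted N p c U) (hu : Realises N u (fun τ => U τ ^ p)) : u ≠ 0 := by
  intro h0
  have hav := isAvatar_of_realises hc hU hu
  have h1 : twistedHol hc hU ^ p = 0 := hav.eq_zero_iff.mpr h0
  have h2 : twistedHol hc hU = 0 := by
    apply (analyticCore N).toHolBase.qexp_injective
    have h3 := congrArg (analyticCore N).toHolBase.qexp h1
    rw [map_pow, map_zero] at h3
    rw [map_zero]
    exact pow_eq_zero_iff (NeZero.ne p) |>.mp h3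
  obtain ⟨τ, hτ⟩ := hU.ne_zero
  apply hτ
  have := congrArg (fun f : (analyticCore N).Hol => (f : ℍ → ℂ) τ) h2
  simpa [coe_twistedHol] using this

variable (N p)

/-- **PIECE `K2`** of the M4b skeleton (exact type). -/
theorem exists_isKummerClass_of_realised {c : G0 N → ZMod p} (hc : IsParHom c) {U : ℍ → ℂ}
    {u : FF N} (hU : IsTwisted N p c U) (hu : Realises N u (fun τ => U τ ^ p)) :
    ∃ x : JZero N, H455.IsKummerClass (p : ℤ) u x := by
  have hf : u ≠ 0 := ne_zero_of_realised hc hU hu
  haveI := Fermat.Agent.Lib.RR.H864.hasPrincipalDivisors_modularFunctionFieldBar N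
  obtain ⟨D₀, hD₀, hdeg₀⟩ :=
    HasPrincipalDivisors.exists_divisor (K := AlgebraicClosure ℚ) u hf
  obtain ⟨D, hdeg, hD⟩ := Fermat.Agent.S29.H389.exists_divisor_div p (NeZero.ne p) D₀
    (fun v => by
      rw [hD₀ v]
      exact dvd_ord_of_realised hc hU hu v)
    hdeg₀
  refine ⟨Pic0.mk ⟨D, hdeg⟩, hf, ⟨D, hdeg⟩, rfl, fun v => ?_⟩
  rw [hD v, hD₀ v]

end Fermat.Agent.S29.H282

end
end
-- ===== PACK-END S29/H282/K2.lean

-- ===== PACK-BEGIN S29/M4b/K3/DTo.lean
section
/-
S29 row, LAYER M, SUB-LAYER M4b, PIECE K3, sub-piece `K3-DTO` (helper42).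
Namespace `Fermat.Agent.S29.M4b.K3`.

`dto` : for a twisted function `U` of a parabolic character, the `q`-expansion `f = qexp (U ^ p)`
(an element of `F_ℂ = laurentBaseChange ℂ (modularFunctionFieldFull N)`) satisfies
`p ∣ ord_w f` at EVERY place `w` of `F_ℂ / ℂ`.

This is the landed generic-`K` dictionary `H282.dvd_ord_of_isAvatar_pow` at `K = ℂ`, `ι = id`.
-/



set_option autoImplicit false

noncomputable section

open ModularCurve AlgebraicCurve CongruenceSubgroup UpperHalfPlane
open scoped MatrixGroups Manifold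

namespace Fermat.Agent.S29.M4b.K3

open Fermat.Agent.S24 Fermat.Agent.S24.H997 Fermat.Agent.S24.H648 Fermat.Agent.S24.H708
open Fermat.Agent.S24.H624
open Fermat.Agent.S29 Fermat.Agent.S29.M4b Fermat.Agent.S29.H282

variable {N : ℕ} [NeZero N] {p : ℕ} [NeZero p]

/-- the avatar relation over `ℂ` -/
theorem isAvatar_of_qexp {c : G0 N → ZMod p} (hc : IsParHom c) {U : ℍ → ℂ}
    (hU : IsTwisted N p c U) {f : FFK ℂ N}
    (hf : (f : LaurentSeries ℂ) = qexpFun 1 (fun τ => U τ ^ p)) :
    IsAvatar (K := ℂ) (RingHom.id ℂ) (analyticCore N).toHolBase f (twistedHol hc hU ^ p) := by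
  have hq : HasQExp 1 (fun τ => U τ ^ p) (qexpFun 1 (fun τ => U τ ^ p)) :=
    Fermat.Agent.S29.H882.hasQExp_of_mem_goodRing hU.pow_mem
  have hinf : InfExp N (fun τ => U τ ^ p)
      (qExpand ℂ N (coeffMap (RingHom.id ℂ) ((f : FFK ℂ N) : LaurentSeries ℂ))) := by
    rw [coeffMap_id, hf]
    exact infExp_level_of_hasQExp hq
  exact (expInf_spec (holToExp N (twistedHol hc hU ^ p))).unique hinf

/-- **K3-DTO.**  `p ∣ ord_w (qexp (U ^ p))` at every place `w` of `F_ℂ`. -/
theorem dto {c : G0 N → ZMod p} (hc : IsParHom c) {U : ℍ → ℂ}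
    (hU : IsTwisted N p c U) {f : FC N}
    (hf : (f : LaurentSeries ℂ) = qexpFun 1 (fun τ => U τ ^ p))
    (w : Place ℂ (FC N)) : (p : ℤ) ∣ w.ord f :=
  dvd_ord_of_isAvatar_pow (K := ℂ) (ι := RingHom.id ℂ) (A := analyticCore N)
    (isUnramified_twistedHol hc hU) (isAvatar_of_qexp hc hU hf) w

end Fermat.Agent.S29.M4b.K3

end
end
-- ===== PACK-END S29/M4b/K3/DTo.lean

-- ===== PACK-BEGIN S30/H694/TorsionRelOfNodes.lean
section




/-!
# S30 / helper694 — input (T) of the adic module layer from the S18 hub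

`Fermat.Agent.S30.H330.TorsionRelations N p` (inertia at `ℓ ∤ N p` acts trivially on
`J₀(N)(ℚ̄)[p^∞]`; every Frobenius at `ℓ` satisfies `σ² - T_ℓ σ + ℓ = 0` there) is the input (T) of
`Fermat.Agent.S30.H990.result_of_inputs`.  On main it was available only from the interfaces of
row S37 (`H330/AdicTorsionRel.lean`, `H450/RawESPow.lean`: `RedData`, `PlaceRed`, `WeakRedData`).

Here: (T) from the S18 hub alone, through helper222's Kummer route ESK
(`S29.H222.esStatement_of_core`; PGI, HI, NORM-ID are discharged on main) and the bridge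
prime `m` ⟹ all `m` (`S18.H694.coreFamily_of_prime`; the moduli needed here are `p ^ n`):

* `torsionRelations_of_coreFamily` : from `S29.H222.CoreFamily` (hub for all `m` prime to `ℓ`);
* `torsionRelations_of_corePrime`  : from the hub at PRIME moduli (what row S18 proves);
* `torsionRelations_of_nodes`      : from the two open nodes `node_mod`, `node_alg` of the S18
  skeleton, in the exact shape of the hypothesis `hT` of `S30.H990.result_of_inputs`.
-/

set_option autoImplicit false

noncomputable section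

namespace Fermat.Agent.S30.H694

open ModularCurve AlgebraicCurve
open Fermat.Agent.S18 (Qb CoreStatement)

/-- (T) from the S18 hub family. -/
theorem torsionRelations_of_coreFamily (hcore : Fermat.Agent.S29.H222.CoreFamily)
    (N : ℕ) [NeZero N] (p : ℕ) : Fermat.Agent.S30.H330.TorsionRelations N p :=
  fun ℓ hℓ h A hA => Fermat.Agent.S29.H222.esStatement_of_core hcore N p ℓ hℓ h A hA

/-- (T) from the S18 hub at PRIME moduli. -/
theorem torsionRelations_of_corePrime
    (hcore : ∀ (N : ℕ) [NeZero N] (ℓ : ℕ), ℓ.Prime → ¬ ℓ ∣ N → ∀ q : ℕ, q.Prime → ¬ ℓ ∣ q →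
      ∀ A : ValuationSubring Qb, A.LiesOverPrime ℓ → CoreStatement N A q)
    (N : ℕ) [NeZero N] (p : ℕ) : Fermat.Agent.S30.H330.TorsionRelations N p :=
  torsionRelations_of_coreFamily (Fermat.Agent.S18.H694.coreFamily_of_prime hcore) N p

/-- **(T) from the two open nodes of the S18 skeleton**, in the exact shape of the hypothesis
`hT` of `Fermat.Agent.S30.H990.result_of_inputs`. -/
theorem torsionRelations_of_nodes
    (node_mod : ∀ (M : ℕ) [NeZero M] {ℓ : ℕ} [Fact ℓ.Prime], ¬ ℓ ∣ M →
      ∀ A : ValuationSubring Qb, A.LiesOverPrime ℓ →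
        Fermat.Agent.S18.Mod.GoodModelStatement M ℓ A)
    (node_alg : ∀ M : ℕ, Fermat.Agent.S18.Mod.AlgStatement M) :
    ∀ (N : ℕ) [NeZero N] (p : ℕ) [Fact p.Prime], Fermat.Agent.S30.H330.TorsionRelations N p :=
  fun N _ p _ =>
    torsionRelations_of_coreFamily
      (Fermat.Agent.S18.H694.coreFamily_of_nodes node_mod node_alg) N p

end Fermat.Agent.S30.H694

end
end
-- ===== PACK-END S30/H694/TorsionRelOfNodes.lean

-- ===== PACK-BEGIN S37/H28/NoRam.lean
section



/-!
# S37 / node_rim (helper28): `NoRamOutside` from `Unramified`  (input (NC) of Theorem M)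

For a reduction datum `G : Red.Datum A π F Fk` and a coordinate `t : F`:
`H278.Unramified (constants) t S`  ⟹  `Red.H159.NoRamOutside G t (branchA A S)`.

Proof: `β = f / (t - c)` lies in every valuation subring `V ⊇ K ∪ {t}` of `F`
(if `t - c` is a nonunit of `V` it is a uniformiser; `f` is a nonunit of `V` because
`f² / (t - c) ∈ V`), and the integral closure of `K[t]` is the intersection of these `V`
(Mathlib `iInf_valuationSubring_superset`).
-/

set_option autoImplicit false
set_option linter.unusedSectionVars false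
set_option linter.style.haveILetI false

noncomputable section

namespace Fermat.Agent.S37.H28

open Polynomial Fermat.Agent.S37.Red

section Mono

variable {F : Type*} [Field F]

/-- integrality over a subring passes to a larger subalgebra -/
theorem isIntegral_adjoin_of_isIntegral_closure {K : Type*} [Field K] [Algebra K F] (t : F)
    {z : F}
    (hz : IsIntegral (Subring.closure (Set.range (algebraMap K F) ∪ {t})) z) :
    IsIntegral (Algebra.adjoin K {t}) z := by
  have hle : Subring.closure (Set.range (algebraMap K F) ∪ {t}) ≤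
      (Algebra.adjoin K ({t} : Set F)).toSubring := by
    rw [Subring.closure_le]
    rintro y (⟨a, rfl⟩ | hy)
    · exact (Algebra.adjoin K ({t} : Set F)).algebraMap_mem a
    · rw [Set.mem_singleton_iff] at hy
      subst hy
      exact Algebra.self_mem_adjoin_singleton K y
  obtain ⟨P, hP, hPz⟩ := hz
  let ι : Subring.closure (Set.range (algebraMap K F) ∪ {t}) →+* Algebra.adjoin K ({t} : Set F) :=
    Subring.inclusion hle
  refine ⟨P.map ι, hP.map ι, ?_⟩
  rw [Polynomial.eval₂_map]
  exact hPz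

/-- elements integral over `K[t]` lie in every valuation subring containing `K` and `t` -/
theorem mem_valuationSubring_of_isIntegral_adjoin {K : Type*} [Field K] [Algebra K F] (t : F)
    (V : ValuationSubring F) (hK : ∀ a : K, algebraMap K F a ∈ V) (ht : t ∈ V) {z : F}
    (hz : IsIntegral (Algebra.adjoin K {t}) z) : z ∈ V := by
  have hle : (Algebra.adjoin K ({t} : Set F)).toSubring ≤ V.toSubring := by
    rw [Algebra.adjoin_eq_ring_closure, Subring.closure_le]
    rintro y (⟨a, rfl⟩ | hy)
    · exact hK a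
    · rw [Set.mem_singleton_iff] at hy
      subst hy
      exact ht
  obtain ⟨P, hP, hPz⟩ := hz
  let g : Algebra.adjoin K ({t} : Set F) →+* V :=
    (Algebra.adjoin K ({t} : Set F)).val.toRingHom.codRestrict V.toSubring (fun b => hle b.2)
  have hint : IsIntegral V z := by
    refine ⟨P.map g, hP.map g, ?_⟩
    rw [Polynomial.eval₂_map]
    exact hPz
  obtain ⟨y, hy⟩ := IsIntegrallyClosed.isIntegral_iff.1 hint
  rw [← hy]
  exact y.2

/-- the integral closure of `K[t]` is the intersection of the valuation subrings containing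
`K` and `t` -/
theorem isIntegral_adjoin_of_forall_mem {K : Type*} [Field K] [Algebra K F] (t : F) {z : F}
    (h : ∀ V : ValuationSubring F, (∀ a : K, algebraMap K F a ∈ V) → t ∈ V → z ∈ V) :
    IsIntegral (Algebra.adjoin K {t}) z := by
  apply isIntegral_adjoin_of_isIntegral_closure
  have hmem : z ∈ (⨅ V : {V : ValuationSubring F //
      (Set.range (algebraMap K F) ∪ {t}) ⊆ V.toSubring}, V.1.toSubring) := by
    rw [Subring.mem_iInf]
    rintro ⟨V, hV⟩
    exact h V (fun a => hV (Or.inl ⟨a, rfl⟩)) (hV (Or.inr rfl))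
  rw [iInf_valuationSubring_superset] at hmem
  exact hmem

end Mono

section NoRam

universe u

variable {K k F Fk : Type u} [Field K] [Field k] [Field F] [Field Fk] [Algebra K F]
  [Algebra k Fk] {A : ValuationSubring K} {π : A →+* k}

/-- **(NC) of Theorem M from `Unramified`.** -/
theorem noRamOutside_of_unramified (G : Datum A π F Fk) (t : F) (S : Finset F)
    (hunr : Fermat.Agent.S18.H278.Unramified (algebraMap K F).fieldRange t S) :
    H159.NoRamOutside G t (branchA (F := F) A S) := by
  intro c hc f hf hf2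
  have hcS : algebraMap K F (c : K) ∉ S := fun h => hc (mem_branchA.2 h)
  have hf' : IsIntegral (Algebra.adjoin K {t}) f := hf
  have hf2' : IsIntegral (Algebra.adjoin K {t}) (f ^ 2 / (t - algebraMap K F (c : K))) := hf2
  show IsIntegral (Algebra.adjoin K {t}) (f / (t - algebraMap K F (c : K)))
  apply isIntegral_adjoin_of_forall_mem
  intro V hK ht
  set z := t - algebraMap K F (c : K) with hz
  have hfV : f ∈ V := mem_valuationSubring_of_isIntegral_adjoin t V hK ht hf'
  have hf2V : f ^ 2 / z ∈ V := mem_valuationSubring_of_isIntegral_adjoin t V hK ht hf2'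
  have hzV : z ∈ V := sub_mem ht (hK _)
  rcases eq_or_ne f 0 with hf0 | hf0
  · rw [hf0, zero_div]
    exact V.zero_mem
  by_cases hzu : z⁻¹ ∈ V
  · rw [div_eq_mul_inv]
    exact mul_mem hfV hzu
  by_cases hfu : f⁻¹ ∈ V
  · exfalso
    apply hzu
    have hz0 : z ≠ 0 := by
      intro h0
      apply hzu
      rw [h0, inv_zero]
      exact V.zero_mem
    have h1 : z⁻¹ = f⁻¹ * f⁻¹ * (f ^ 2 / z) := by
      field_simp
    rw [h1]
    exact mul_mem (mul_mem hfu hfu) hf2V
  · have hL : ∀ a ∈ (algebraMap K F).fieldRange, a ∈ V := by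
      rintro a ⟨a₀, rfl⟩
      exact hK a₀
    have := hunr V hL (algebraMap K F (c : K)) ⟨_, rfl⟩ hcS hzV hzu f hfV hfu
    rw [div_eq_mul_inv]
    exact this

end NoRam

end Fermat.Agent.S37.H28

end
end
-- ===== PACK-END S37/H28/NoRam.lean

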