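import Fermat.Prelude.Def_ModularCurve_HeckeModule
import Fermat.Agent.Pack.S3234.G4E3L2
import Fermat.Agent.Pack.S3234.G4E1L2
import Fermat.Agent.Pack.S3234.G0E9L0
import Fermat.Agent.Pack.S3234.G4E5L3
import Fermat.Agent.Pack.S3234.G0E8L0
import Fermat.Agent.Pack.S3234.G0E6L3
import Fermat.Agent.Pack.S3234.G0E9L1
import Fermat.Agent.Pack.S3234.G4E5L2
import Fermat.Agent.Pack.S3234.G4E3L1
import Fermat.Agent.Pack.S3234.G4E2L3
import Fermat.Agent.Pack.S3234.G4E3L0
import Fermat.Agent.Pack.S3234.G4E1L1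
import Fermat.Agent.Pack.S3234.G4E4L3
import Fermat.Agent.Pack.S3234.G0E9L2
import Fermat.Agent.Pack.S3234.G0E8L3
import Fermat.Agent.Pack.S3234.G4E5L0
import Fermat.Agent.Pack.S3234.G4E4L2
import Fermat.Agent.Pack.S3234.G4E2L2
import Fermat.Agent.Pack.S3234.G0E3L2
import Fermat.Agent.Pack.S3234.G4E4L1
import Fermat.Agent.Pack.S3234.G4E4L0
import Fermat.Agent.Pack.S3234.G4E5L1

-- ===== PACK-BEGIN S32/EigChain.lean
section
/-
Row S32 (flat at `p`), piece EIG on the LANDED chain of row S30 (helper32).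

The chain of row S30 which is on main (`S30/H330/AdicChain.lean`, `S30/H222/OfNodes.lean`)
builds the adic eigenmodule from an eigen-homomorphism `f : Frac 𝒪 / 𝒪 → J₀(N)(ℚ̄)`
(`H330.exists_eigenHom_of_inj`) as the Tate eigenmodule of `X = Hom_ℤ(𝒪, J)`
(`S30/H529/HomTate.lean`).  Here the same module is shown to be FLAT (`IsFlatMod`): evaluation at
the `n`-th component followed by evaluation at representatives `o_i` of `𝒪 / p ^ (n + 1)` is an
equivariant map `M → J[p ^ (n + 1)] ^ r` with kernel `p ^ (n + 1) M`.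

* `homEigen_isFlatMod` : flatness of the Tate eigenmodule of `Hom_ℤ(𝒪, J)`;
* `exists_flat_homEigenmodule` : `S30.H529.adicModule_of_torsion` with the additional conclusion;
* `flatEigenStatement_of_chain` : EIG from (K'), (F), (T) of the adic module layer + frozen S19;
* `flatEigenStatement_of_k3fin_rawESAll` : EIG from the two inputs of
  `H330.result_of_k3fin_rawESAll` + frozen S19.
-/





set_option autoImplicit false

noncomputable section

namespace Fermat.Agent.S32

open IsLocalRing Fermat.Agent.S19 Fermat.Agent.S30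

/-! ### Representatives modulo a nonzero element of a DVR with finite residue field -/

section RepsHom

variable {O : Type} [CommRing O] [IsDomain O] [IsDiscreteValuationRing O]
  [Finite (ResidueField O)]

theorem exists_reps_mod {x : O} (hx : x ≠ 0) :
    ∃ (r : ℕ) (o : Fin r → O), ∀ b : O, ∃ i : Fin r, ∃ d : O, b = o i + x * d := by
  obtain ⟨n, hn⟩ := H529.exists_pow_maximalIdeal_le_span hx
  have h1 : Finite (O ⧸ maximalIdeal O ^ n) := by
    have : Finite (O ⧸ maximalIdeal O) := (inferInstance : Finite (ResidueField O))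
    exact Ideal.finite_quotient_pow (IsNoetherian.noetherian _) n
  have h2 : Finite (O ⧸ Ideal.span {x}) :=
    Finite.of_surjective (Ideal.Quotient.factor hn) (Ideal.Quotient.factor_surjective hn)
  let e := Finite.equivFin (O ⧸ Ideal.span {x})
  refine ⟨Nat.card (O ⧸ Ideal.span {x}),
    fun i => Function.surjInv Ideal.Quotient.mk_surjective (e.symm i), fun b => ?_⟩
  refine ⟨e (Ideal.Quotient.mk _ b), ?_⟩
  have h3 : Ideal.Quotient.mk (Ideal.span {x})
      (Function.surjInv Ideal.Quotient.mk_surjective (e.symm (e (Ideal.Quotient.mk _ b)))) =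
      Ideal.Quotient.mk _ b :=
    (Function.surjInv_eq Ideal.Quotient.mk_surjective _).trans (e.symm_apply_apply _)
  have h4 : b - Function.surjInv Ideal.Quotient.mk_surjective
      (e.symm (e (Ideal.Quotient.mk (Ideal.span {x}) b))) ∈ Ideal.span {x} := by
    rw [← Ideal.Quotient.eq_zero_iff_mem, map_sub, h3, sub_self]
  obtain ⟨d, hd⟩ := Ideal.mem_span_singleton'.mp h4
  exact ⟨d, by rw [mul_comm, hd]; ring⟩

end RepsHom

/-! ### Flatness of the Tate eigenmodule of `Hom_ℤ(𝒪, J)` -/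

section FlatHom

variable (p : ℕ)
variable (O : Type) [CommRing O] [IsDomain O] [IsDiscreteValuationRing O]
  [Finite (ResidueField O)] [CharZero O]
variable (J : Type) [AddCommGroup J] [DistribMulAction GalQ J]
variable {ι : Type} (t : ι → J →+ J) (a : ι → O)

/-- **The Tate eigenmodule of `Hom_ℤ(𝒪, J)` is flat** if the torsion groups `J[p ^ k]` carry Hopf
models. -/
theorem homEigen_isFlatMod (hord : OrdStatement) [Fact p.Prime]
    (hpO : (p : O) ∈ maximalIdeal O)
    (hρ : ∀ (σ : GalQ) (i : ι) (h : H529.PreHom O J),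
      H529.preHomRep O J σ (H529.PreHom.post (t i) h)
        = H529.PreHom.post (t i) (H529.preHomRep O J σ h))
    (hJ : ∀ k : ℕ, ∃ act : GalQ → ↥(Submodule.torsionBy ℤ J ((p : ℤ) ^ k)) →
        ↥(Submodule.torsionBy ℤ J ((p : ℤ) ^ k)),
      (∀ σ m, ((act σ m : ↥(Submodule.torsionBy ℤ J ((p : ℤ) ^ k))) : J) = σ • (m : J)) ∧
        HopfModel p ↥(Submodule.torsionBy ℤ J ((p : ℤ) ^ k)) act) :
    IsFlatMod p (H529.tateRep (ϖ := (p : O)) (t := fun i => H529.PreHom.post (t i)) (a := a)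
      (H529.preHomRep O J) hρ) := by
  intro I hI
  have hp0 : (p : O) ≠ 0 := by
    exact_mod_cast (Fact.out : p.Prime).ne_zero
  obtain ⟨n, hn⟩ := exists_pow_le_of_finite_quotient I hI
  have hpI : (p : O) ^ (n + 1) ∈ I := by
    rw [pow_succ]
    exact Ideal.mul_mem_right _ _ (hn (Ideal.pow_mem_pow hpO n))
  obtain ⟨r, o, ho⟩ := exists_reps_mod (pow_ne_zero (n + 1) hp0)
  obtain ⟨act, hact, hHopf⟩ := hJ (n + 1)
  have hY := H135.hopfModel_power hord hHopf (Fin r)
  -- values of the `n`-th component are killed by `p ^ (n + 1)`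
  have hval : ∀ (v : ↥(H529.tateEigen (p : O) (fun i => H529.PreHom.post (t i)) a)) (x : O),
      H529.PreHom.toHom ((v : ℕ → H529.PreHom O J) n) x
        ∈ Submodule.torsionBy ℤ J ((p : ℤ) ^ (n + 1)) := by
    intro v x
    rw [Submodule.mem_torsionBy_iff, ← Nat.cast_pow, natCast_zsmul,
      ← H529.PreHom.natCast_pow_smul_apply, H529.tate_pow_succ_smul v.2 n]
    rfl
  let e' : ↥(H529.tateEigen (p : O) (fun i => H529.PreHom.post (t i)) a) →+
      (Fin r → ↥(Submodule.torsionBy ℤ J ((p : ℤ) ^ (n + 1)))) :=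
    { toFun := fun v i => ⟨H529.PreHom.toHom ((v : ℕ → H529.PreHom O J) n) (o i), hval v (o i)⟩
      map_zero' := by
        funext i
        apply Subtype.ext
        rfl
      map_add' := by
        intro v w
        funext i
        apply Subtype.ext
        rfl }
  have he' : ∀ v i, ((e' v i : ↥(Submodule.torsionBy ℤ J ((p : ℤ) ^ (n + 1)))) : J)
      = H529.PreHom.toHom ((v : ℕ → H529.PreHom O J) n) (o i) := fun _ _ => rfl
  refine hopfModel_of_family hord
    (fun σ => (H529.tateRep (ϖ := (p : O)) (t := fun i => H529.PreHom.post (t i)) (a := a)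
      (H529.preHomRep O J) hρ σ).toAddMonoidHom) _ 1
    (fun _ => Fin r → ↥(Submodule.torsionBy ℤ J ((p : ℤ) ^ (n + 1))))
    (fun _ σ y i => act σ (y i)) (fun _ => hY)
    (fun _ => e') ?_ (Submodule.mkQ _).toAddMonoidHom (Submodule.mkQ_surjective _)
    (fun _ _ => rfl) ?_
  · intro _ σ v
    funext i
    apply Subtype.ext
    rw [hact, he', he']
    rfl
  · intro v hv
    refine (Submodule.Quotient.mk_eq_zero _).mpr ?_
    have hvi : ∀ i, H529.PreHom.toHom ((v : ℕ → H529.PreHom O J) n) (o i) = 0 := by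
      intro i
      rw [← he', hv 0]
      rfl
    have h0 : (v : ℕ → H529.PreHom O J) n = 0 := by
      apply H529.PreHom.ext
      intro x
      obtain ⟨i, d, hd⟩ := ho x
      have h1 : H529.PreHom.toHom ((v : ℕ → H529.PreHom O J) n) ((p : O) ^ (n + 1) * d) = 0 := by
        rw [← H529.PreHom.smul_apply, H529.tate_pow_succ_smul v.2 n]
        rfl
      rw [hd, map_add, hvi i, h1, add_zero]
      rfl
    have hlt : ∀ m, m < n + 1 → (v : ℕ → H529.PreHom O J) m = 0 := by
      intro m hm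
      obtain ⟨k, rfl⟩ : ∃ k, n = m + k := ⟨n - m, by omega⟩
      rw [← H529.tate_pow_smul v.2 k m, h0, smul_zero]
    obtain ⟨w, hw, hvw⟩ := H529.tate_exists_eq_pow_smul v.2 (n + 1) hlt
    have h1 : v = (p : O) ^ (n + 1) • (⟨w, hw⟩ : ↥(H529.tateEigen (p : O)
        (fun i => H529.PreHom.post (t i)) a)) := by
      apply Subtype.ext
      rw [hvw]
      rfl
    rw [h1]
    exact Submodule.smul_mem_smul hpI Submodule.mem_top

end FlatHom

/-! ### The flat eigenmodule attached to an eigen-homomorphism `Frac 𝒪 / 𝒪 → J` -/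

section MainHom

/-- `S30.H529.adicModule_of_torsion` (piece 1 of the adic module layer of row S30) with the
additional conclusion `IsFlatMod`. -/
theorem exists_flat_homEigenmodule (hord : OrdStatement)
    {p : ℕ} (hp : p.Prime)
    {O : Type} [CommRing O] [IsDomain O] [IsDiscreteValuationRing O]
    [IsAdicComplete (IsLocalRing.maximalIdeal O) O] [Finite (IsLocalRing.ResidueField O)]
    [CharZero O] (hpO : (p : O) ∈ IsLocalRing.maximalIdeal O)
    {J : Type} [AddCommGroup J] [DistribMulAction GalQ J]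
    (hsm : ∀ x : J, ∃ L : IntermediateField ℚ (AlgebraicClosure ℚ), FiniteDimensional ℚ L ∧
      ∀ σ : GalQ, (∀ y ∈ L, σ y = y) → σ • x = x)
    (hfin : {x : J | p • x = 0}.Finite)
    {ι : Type} (t : ι → J →+ J) (ht : ∀ i (σ : GalQ) (x : J), σ • t i x = t i (σ • x))
    (a : ι → O)
    (f : FractionRing O →+ J) (hf0 : ∀ r : O, f (algebraMap O (FractionRing O) r) = 0)
    (hf : f ≠ 0)
    (hfe : ∀ i x, t i (f x) = f (algebraMap O (FractionRing O) (a i) * x))
    (hJ : ∀ k : ℕ, ∃ act : GalQ → ↥(Submodule.torsionBy ℤ J ((p : ℤ) ^ k)) →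
        ↥(Submodule.torsionBy ℤ J ((p : ℤ) ^ k)),
      (∀ σ m, ((act σ m : ↥(Submodule.torsionBy ℤ J ((p : ℤ) ^ k))) : J) = σ • (m : J)) ∧
        HopfModel p ↥(Submodule.torsionBy ℤ J ((p : ℤ) ^ k)) act) :
    ∃ (M : Type) (_ : AddCommGroup M) (_ : Module O M) (_ : Module.Free O M)
      (_ : Module.Finite O M) (ρ : GalQ →* Module.End O M),
      Nontrivial M ∧ GaloisActionIsAdicContinuous O ρ ∧
      (∀ σ : GalQ, (∀ x : J, (∃ n : ℕ, p ^ n • x = 0) → σ • x = x) → ρ σ = 1) ∧
      (∀ (i : ι) (n : ℕ) (σ : GalQ),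
        (∀ x : J, (∃ k : ℕ, p ^ k • x = 0) → σ • σ • x - t i (σ • x) + n • x = 0) →
        ρ σ * ρ σ - a i • ρ σ + (n : O) • (1 : Module.End O M) = 0) ∧
      IsFlatMod p ρ := by
  have : Fact p.Prime := ⟨hp⟩
  have hϖ0 : (p : O) ≠ 0 := by exact_mod_cast hp.ne_zero
  have hpL : algebraMap O (FractionRing O) (p : O) ≠ 0 := by
    intro h
    exact hϖ0 ((IsFractionRing.injective O (FractionRing O)) (by rw [h, map_zero]))
  -- operators
  set t' : ι → H529.PreHom O J →ₗ[O] H529.PreHom O J := fun i => H529.PreHom.post (t i) with ht'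
  have hρ : ∀ (σ : GalQ) (i : ι) (h : H529.PreHom O J),
      H529.preHomRep O J σ (t' i h) = t' i (H529.preHomRep O J σ h) := by
    intro σ i h
    apply H529.PreHom.ext
    intro x
    simp only [ht', H529.preHomRep_apply, H529.PreHom.post_apply]
    exact ht i σ _
  -- finiteness
  have hX : ∃ Y : Submodule O (H529.PreHom O J), Y.FG ∧
      ∀ h : H529.PreHom O J, (p : O) • h = 0 → h ∈ Y := by
    have hfinX := H529.preHom_torsion_finite (O := O) (J := J) p hϖ0 hfin
    exact ⟨Submodule.span O {h : H529.PreHom O J | (p : O) • h = 0},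
      Submodule.fg_span hfinX, fun h hh => Submodule.subset_span hh⟩
  have hfree := H529.tateEigen_free (t := t') (a := a) hpO hϖ0 hX
  have hfinite := H529.tateEigen_finite (t := t') (a := a) hpO hϖ0 hX
  -- torsion values
  have hval : ∀ (k : ℕ) (h : H529.PreHom O J), (p : O) ^ k • h = 0 →
      ∀ x : O, p ^ k • H529.PreHom.toHom h x = 0 := by
    intro k h hh x
    rw [← H529.PreHom.natCast_pow_smul_apply, hh]
    rfl
  refine ⟨H529.tateEigen (p : O) t' a, inferInstance, inferInstance, hfree, hfinite,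
    H529.tateRep (H529.preHomRep O J) hρ, ?_, ?_, ?_, ?_,
    homEigen_isFlatMod p O J t a hord hpO hρ hJ⟩
  · -- nontrivial
    have hmem : H529.seqOfHom p f ∈ H529.tateEigen (p : O) t' a := by
      refine ⟨?_, ?_, ?_⟩
      · apply H529.PreHom.ext
        intro x
        rw [H529.PreHom.smul_apply, H529.seqOfHom_apply,
          (algebraMap O (FractionRing O)).map_mul]
        have : algebraMap O (FractionRing O) (p : O) * algebraMap O (FractionRing O) x
            * (algebraMap O (FractionRing O) (p : O) ^ (0 + 1))⁻¹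
            = algebraMap O (FractionRing O) x := by
          field_simp
          ring
        rw [this, hf0]
        rfl
      · intro n
        apply H529.PreHom.ext
        intro x
        rw [H529.PreHom.smul_apply, H529.seqOfHom_apply, H529.seqOfHom_apply,
          (algebraMap O (FractionRing O)).map_mul]
        congr 1
        field_simp
        ring
      · intro i n
        apply H529.PreHom.ext
        intro x
        rw [H529.PreHom.smul_apply, H529.seqOfHom_apply]
        simp only [ht', H529.PreHom.post_apply]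
        rw [H529.seqOfHom_apply, hfe, (algebraMap O (FractionRing O)).map_mul, mul_assoc]
    have hne : H529.seqOfHom p f ≠ 0 := by
      intro h0
      apply hf
      apply AddMonoidHom.ext
      intro y
      obtain ⟨x, s, hs, rfl⟩ := IsFractionRing.div_surjective (A := O) y
      have hs0 : s ≠ 0 := nonZeroDivisors.ne_zero hs
      obtain ⟨k, c, hc⟩ := H529.exists_dvd_pow_of_mem_maximalIdeal hpO hs0
      have h1 := congrArg (fun h => H529.PreHom.toHom h (x * c * (p : O))) (congrFun h0 k)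
      simp only [H529.seqOfHom_apply] at h1
      have hsL : algebraMap O (FractionRing O) s ≠ 0 := by
        intro h
        exact hs0 ((IsFractionRing.injective O (FractionRing O)) (by rw [h, map_zero]))
      have h2 : algebraMap O (FractionRing O) (x * c * (p : O))
          * (algebraMap O (FractionRing O) (p : O) ^ (k + 1))⁻¹
          = algebraMap O (FractionRing O) x / algebraMap O (FractionRing O) s := by
        have h3 : algebraMap O (FractionRing O) (p : O) ^ k
            = algebraMap O (FractionRing O) s * algebraMap O (FractionRing O) c := by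
          rw [← map_pow, hc, map_mul]
        rw [pow_succ, h3, (algebraMap O (FractionRing O)).map_mul,
          (algebraMap O (FractionRing O)).map_mul]
        have hcL : algebraMap O (FractionRing O) c ≠ 0 := by
          intro h
          rw [h, mul_zero] at h3
          exact hpL (pow_eq_zero_iff (by
            intro hk
            subst hk
            simp at h3) |>.mp h3)
        field_simp
      rw [h2] at h1
      rw [h1]
      rfl
    refine ⟨⟨⟨H529.seqOfHom p f, hmem⟩, 0, ?_⟩⟩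
    intro h
    exact hne (congrArg Subtype.val h)
  · -- continuity
    intro n
    obtain ⟨L, hL, hLfix⟩ := H529.exists_common_level {x : J | p ^ n • x = 0}
      (H529.finite_torsion_pow J p hfin n) (fun x _ => hsm x)
    refine ⟨L, hL, fun σ hσ m => ?_⟩
    apply H529.tateRep_sub_mem (H529.preHomRep O J) hρ hpO n σ
    intro h hh
    apply H529.PreHom.ext
    intro x
    rw [H529.preHomRep_apply]
    exact hLfix σ hσ _ (hval n h hh x)
  · -- trivial action
    intro σ hσ
    apply H529.tateRep_eq_one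
    rintro h ⟨k, hh⟩
    apply H529.PreHom.ext
    intro x
    rw [H529.preHomRep_apply]
    exact hσ _ ⟨k, hval k h hh x⟩
  · -- quadratic relations
    intro i n σ hσ
    apply H529.tateRep_quadratic
    rintro h ⟨k, hh⟩
    apply H529.PreHom.ext
    intro x
    have h1 := hσ (H529.PreHom.toHom h x) ⟨k, hval k h hh x⟩
    simp only [ht', H529.PreHom.toHom_add, H529.PreHom.toHom_sub, AddMonoidHom.add_apply,
      AddMonoidHom.sub_apply, H529.preHomRep_apply, H529.PreHom.post_apply,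
      H529.PreHom.natCast_smul_apply, H529.PreHom.toHom_zero, AddMonoidHom.zero_apply]
    exact h1

end MainHom

/-! ### EIG from the inputs of the adic module layer of row S30 and the frozen S19 -/

section Chain

open Fermat.Agent.S30.H990 (AdicEigenModule)
open Fermat.Agent.S30.H330

/-- **PIECE EIG** from the inputs (K'), (F), (T) of the adic module layer of row S30
(`H330.result_of_inj`), the ORD block and the frozen S19 in the form
`HopfModel p (Tors N p k) (torsAct N p k)` for `p ∤ N`. -/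
theorem flatEigenStatement_of_chain (hord : OrdStatement)
    (hS19 : ∀ (N p : ℕ) [NeZero N], p.Prime → ¬ p ∣ N → ∀ k : ℕ,
      HopfModel p (Tors N p k) (torsAct N p k))
    (hK : ∀ (N : ℕ) [NeZero N] (p : ℕ) [Fact p.Prime], KummerInjStatement N p)
    (hF : ∀ (N : ℕ) [NeZero N] (p : ℕ) [Fact p.Prime], _root_.Fermat.Agent.S30.H330.FinStatement N p)
    (hT : ∀ (N : ℕ) [NeZero N] (p : ℕ) [Fact p.Prime], TorsionRelations N p) :
    FlatEigenStatement := by
  intro p _ N _ S hpS hNS hpN 𝒪' _ _ _ _ _ _ hp𝒪' χ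
  classical
  have hp : p.Prime := Fact.out
  obtain ⟨f, hf0, hf, hfe⟩ :=
    exists_eigenHom_of_inj hpS hNS hp𝒪' χ (hK N p) (parEigenStatement hNS χ)
  have hSm := Fermat.Agent.S30.H990.smoothStatement N
  have hGH := Fermat.Agent.S30.H990.galoisHeckeStatement N
  obtain ⟨M, j1, j2, j3, j4, ρ, hnt, hcont, hunr, hquad, hflat⟩ :=
    exists_flat_homEigenmodule hord (O := 𝒪') hp hp𝒪' (J := ModularCurve.JZero N)
      (fun x => hSm x) (hF N p)
      (ι := {ℓ : Nat.Primes // (ℓ : ℕ) ∉ S})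
      (fun i => (ModularCurve.heckeOperatorBar N i.1).toAddMonoidHom)
      (fun i σ x => hGH σ i.1 x)
      (fun i => eigenvalue χ (i.1 : ℕ)) f hf0 hf (fun i x => hfe i.1 i.2 x)
      (fun k => ⟨torsAct N p k, fun _ _ => rfl, hS19 N p hp hpN k⟩)
  have hdvd : ∀ q : ℕ, q.Prime → ¬ q ∣ N → q ≠ p → ¬ q ∣ N * p := by
    intro q hq hqN hqp hdiv
    rcases (Nat.Prime.dvd_mul hq).1 hdiv with h1 | h1
    · exact hqN h1
    · exact hqp ((Nat.prime_dvd_prime_iff_eq hq hp).1 h1)
  exact ⟨{ M := M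
           ρ := ρ
           cont := hcont
           unram := fun q hq hqN hqp P hP σ hσ =>
             hunr σ fun x hx => (hT N p q hq (hdvd q hq hqN hqp) P hP).1 σ hσ x hx
           frob := fun ℓ hℓ hℓN hℓS A hA σ hσ => by
             have hℓS' : ℓ ∉ S := fun hmem => hℓS (Finset.mem_coe.mpr hmem)
             have hℓp : ℓ ≠ p := fun h => hℓS' (h ▸ hpS)
             have h1 := hquad ⟨⟨ℓ, hℓ⟩, hℓS'⟩ ℓ σ
               fun x hx => (hT N p ℓ hℓ (hdvd ℓ hℓ hℓN hℓp) A hA).2 σ hσ x hx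
             have h2 : eigenvalue χ ℓ = χ (CuspForm.heckeAlgebra.T hℓ hℓN hℓS) := by
               unfold eigenvalue
               rw [dif_pos ⟨hℓ, hℓN, hℓS⟩]
             rw [← h2]
             exact h1 }, hflat⟩

/-- **PIECE EIG** from the two inputs of `H330.result_of_k3fin_rawESAll` (the landed chain of
row S30), the ORD block and the frozen S19. -/
theorem flatEigenStatement_of_k3fin_rawESAll (hord : OrdStatement)
    (hS19 : ∀ (N p : ℕ) [NeZero N], p.Prime → ¬ p ∣ N → ∀ k : ℕ,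
      HopfModel p (Tors N p k) (torsAct N p k))
    (hfin : ∀ (N : ℕ) [NeZero N] (p : ℕ) [Fact p.Prime] (n : ℕ),
      Fermat.Agent.S29.M4b.K3.FinStatement N (p ^ n))
    (hES : ∀ (N : ℕ) [NeZero N], RawESAll N) :
    FlatEigenStatement :=
  flatEigenStatement_of_chain hord hS19
    (fun N _ p hp =>
      haveI : NeZero p := ⟨hp.out.ne_zero⟩
      kummerInjStatement_of_k3fin N p (fun n => hfin N p n))
    (fun N _ p hp =>
      haveI : NeZero p := ⟨hp.out.ne_zero⟩
      finStatement N p)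
    (fun N _ p _ => torsionRelations_of_rawAll p (hES N))

end Chain

end Fermat.Agent.S32

end
end
-- ===== PACK-END S32/EigChain.lean

-- ===== PACK-BEGIN S29/M4b/K3/Fin.lean
section
/-
S29 row, LAYER M, SUB-LAYER M4b, PIECE K3, sub-piece `K3-FIN` (helper42).
Namespace `Fermat.Agent.S29.M4b.K3`.

`finStatement_of_dfrom : DFromStatement N p → FinStatement N p`.

`FinStatement` (= hypothesis `horb` of `H152.desc_main` for `f = qexp (U ^ p)`) is proved from
the single remaining analytic input `DFromStatement N p` ("DICT-easy + ROOT over `ℂ`"):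
every `x ∈ F_ℂˣ` whose divisor is divisible by `p` is, up to a `p`-th power of `F_ℂˣ`, the
`q`-expansion of the `p`-th power of a holomorphic function `V` on `ℍ` with `V ^ p` good.

Steps (`f = qexp (U ^ p)`):
* `dto` (file `DTo.lean`): `p ∣ ord_w f` at every place `w` of `F_ℂ`;
* transport: `σ ∈ Aut(ℂ/ℚ̄)` acts semilinearly on `F_ℂ` (Prelude `arithmeticGalois`) and permutes
  the places (`SemilinearAut.ord_smul`), so `p ∣ ord_w (σ f)` for all `w`;
* `DFromStatement` gives `V_σ` with `qexp (V_σ ^ p) = σ f * s_σ ^ p`;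
* `V_σ` has a character `κ_σ : Γ₀(N) →* ℂˣ`, `κ_σ ^ p = 1` (`H942.exists_kummerChar`);
* there are finitely many such characters (`Γ₀(N)` is finitely generated): `finite_pChar`;
* equal characters give equal classes modulo `p`-th powers: `exists_pow_mul_eq_of_sameChar`.
-/




set_option autoImplicit false
set_option linter.style.haveILetI false

noncomputable section

open ModularCurve AlgebraicCurve CongruenceSubgroup UpperHalfPlane
open scoped MatrixGroups Manifold

namespace Fermat.Agent.S29.M4b.K3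

open Fermat.Agent.S24 Fermat.Agent.S24.H648 Fermat.Agent.S24.H708 Fermat.Agent.S24.Deg457
open Fermat.Agent.S29 Fermat.Agent.S29.M4b

/-- SUB-PIECE `K3-DFROM` ("DICT-easy + ROOT over `ℂ`"): an element `f ≠ 0` of `F_ℂ` all of whose
orders are divisible by `p` is, up to the `p`-th power of a nonzero element `s` of `F_ℂ`, the
`q`-expansion of `V ^ p` for a holomorphic `V : ℍ → ℂ` with `V ^ p` good. -/
def DFromStatement (N p : ℕ) : Prop :=
  ∀ f : FC N, f ≠ 0 → (∀ w : Place ℂ (FC N), (p : ℤ) ∣ w.ord f) →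
    ∃ s : LaurentSeries ℂ, s ∈ FC N ∧ s ≠ 0 ∧ ∃ V : ℍ → ℂ, MDifferentiable 𝓘(ℂ) 𝓘(ℂ) V ∧
      (fun τ => V τ ^ p) ∈ goodRing N ∧
      qexpFun 1 (fun τ => V τ ^ p) = (f : LaurentSeries ℂ) * s ^ p

variable {N : ℕ} [NeZero N] {p : ℕ} [NeZero p]

/-- There are finitely many characters `Γ₀(N) →* ℂˣ` of exponent `p`. -/
theorem finite_pChar (N : ℕ) [NeZero N] (p : ℕ) [NeZero p] :
    Finite {κ : Gamma0 N →* ℂˣ // ∀ γ, κ γ ^ p = 1} := by
  classical
  haveI : Group.FG SL(2, ℤ) := Group.fg_iff.mpr ⟨{ModularGroup.S, ModularGroup.T},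
    SpecialLinearGroup.SL2Z_generators, by simp⟩
  haveI : Group.FG (Gamma0 N) := inferInstance
  obtain ⟨S, hS, hSfin⟩ := Group.fg_iff.mp (inferInstance : Group.FG (Gamma0 N))
  haveI : Finite S := hSfin
  let Φ : {κ : Gamma0 N →* ℂˣ // ∀ γ, κ γ ^ p = 1} → (S → rootsOfUnity p ℂ) :=
    fun κ s => ⟨κ.1 s, (mem_rootsOfUnity p _).mpr (κ.2 s)⟩
  refine Finite.of_injective Φ ?_
  intro κ₁ κ₂ h
  apply Subtype.ext
  apply MonoidHom.eq_of_eqOn_dense hS
  intro x hx
  have := congrFun h ⟨x, hx⟩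
  exact congrArg Subtype.val this

/-- Two holomorphic functions with good `p`-th powers and the SAME character have `p`-th powers
whose `q`-expansions differ by a `p`-th power of `F_ℂ`. -/
theorem exists_pow_mul_eq_of_sameChar {V₁ V₂ : ℍ → ℂ} (κ : Gamma0 N →* ℂˣ)
    (hκ : ∀ γ, κ γ ^ p = 1)
    (h1m : MDifferentiable 𝓘(ℂ) 𝓘(ℂ) V₁) (h2m : MDifferentiable 𝓘(ℂ) 𝓘(ℂ) V₂)
    (h1 : ∀ (γ : Gamma0 N) (τ : ℍ), V₁ ((γ : SL(2, ℤ)) • τ) = ((κ γ : ℂˣ) : ℂ) * V₁ τ)
    (h2 : ∀ (γ : Gamma0 N) (τ : ℍ), V₂ ((γ : SL(2, ℤ)) • τ) = ((κ γ : ℂˣ) : ℂ) * V₂ τ)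
    (h1g : (fun τ => V₁ τ ^ p) ∈ goodRing N) (h2g : (fun τ => V₂ τ ^ p) ∈ goodRing N)
    (h1ne : qexpFun 1 (fun τ => V₁ τ ^ p) ≠ 0) (h2ne : qexpFun 1 (fun τ => V₂ τ ^ p) ≠ 0) :
    ∃ g : LaurentSeries ℂ, g ∈ FC N ∧ g ≠ 0 ∧
      qexpFun 1 (fun τ => V₁ τ ^ p) = g ^ p * qexpFun 1 (fun τ => V₂ τ ^ p) := by
  have hp : p ≠ 0 := NeZero.ne p
  have hp1 : p - 1 + 1 = p := Nat.sub_add_cancel (Nat.one_le_iff_ne_zero.mpr hp)
  set W : ℍ → ℂ := fun τ => V₁ τ * V₂ τ ^ (p - 1) with hWdef
  have hfun : (fun τ => W τ ^ p) = (fun τ => V₁ τ ^ p) * (fun τ => V₂ τ ^ p) ^ (p - 1) := by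
    funext τ
    simp only [hWdef, Pi.mul_apply, Pi.pow_apply]
    rw [mul_pow, ← pow_mul, ← pow_mul, mul_comm (p - 1) p]
  have hWinv : ∀ γ ∈ Gamma0 N, ∀ τ : ℍ, W (γ • τ) = W τ := by
    intro γ hγ τ
    have e1 := h1 ⟨γ, hγ⟩ τ
    have e2 := h2 ⟨γ, hγ⟩ τ
    simp only at e1 e2
    simp only [hWdef]
    rw [e1, e2, mul_pow]
    have hk : ((κ ⟨γ, hγ⟩ : ℂˣ) : ℂ) * ((κ ⟨γ, hγ⟩ : ℂˣ) : ℂ) ^ (p - 1) = 1 := by
      rw [← pow_succ', hp1]
      have h3 := congrArg (fun u : ℂˣ => (u : ℂ)) (hκ ⟨γ, hγ⟩)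
      simpa using h3
    calc ((κ ⟨γ, hγ⟩ : ℂˣ) : ℂ) * V₁ τ * (((κ ⟨γ, hγ⟩ : ℂˣ) : ℂ) ^ (p - 1) * V₂ τ ^ (p - 1))
        = (((κ ⟨γ, hγ⟩ : ℂˣ) : ℂ) * ((κ ⟨γ, hγ⟩ : ℂˣ) : ℂ) ^ (p - 1)) *
            (V₁ τ * V₂ τ ^ (p - 1)) := by ring
      _ = V₁ τ * V₂ τ ^ (p - 1) := by rw [hk, one_mul]
  have hW : W ∈ goodRing N := by
    refine H942.mem_goodRing_of_pow_mem N hp (h1m.mul (h2m.pow (p - 1))) hWinv ?_
    rw [hfun]
    exact (goodRing N).mul_mem h1g ((goodRing N).pow_mem h2g _)
  have hWm := H882.isMerInf_of_mem_goodRing hW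
  have h1M := H882.isMerInf_of_mem_goodRing h1g
  have h2M := H882.isMerInf_of_mem_goodRing h2g
  set w := qexpFun 1 W with hw
  set a := qexpFun 1 (fun τ => V₁ τ ^ p) with ha
  set b := qexpFun 1 (fun τ => V₂ τ ^ p) with hb
  have hwFC : w ∈ FC N := H882.qexpFun_mem_FC hW
  have hbFC : b ∈ FC N := H882.qexpFun_mem_FC h2g
  have hwp : w ^ p = a * b ^ (p - 1) := by
    have hfun' : W ^ p = (fun τ => V₁ τ ^ p) * (fun τ => V₂ τ ^ p) ^ (p - 1) := hfun
    rw [hw, ← H942.qexpFun_pow' hWm p, hfun', qexpFun_mul h1M (h2M.pow (p - 1)),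
      H942.qexpFun_pow' h2M (p - 1)]
  refine ⟨w * b⁻¹, mul_mem hwFC (inv_mem hbFC), ?_, ?_⟩
  · refine mul_ne_zero ?_ (inv_ne_zero h2ne)
    intro h0
    rw [h0, zero_pow hp] at hwp
    exact mul_ne_zero h1ne (pow_ne_zero _ h2ne) hwp.symm
  · rw [mul_pow, hwp, inv_pow]
    have hbp : b ^ p = b ^ (p - 1) * b := by rw [← pow_succ, hp1]
    rw [hbp, mul_inv]
    field_simp

/-- Representatives of the fibres of a map to a finite type. -/
theorem exists_finset_fibre_rep {G X : Type*} [Finite X] (χ : G → X) :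
    ∃ s : Finset G, ∀ g : G, ∃ h ∈ s, χ g = χ h := by
  classical
  haveI : Fintype (Set.range χ) := Fintype.ofFinite _
  let r : Set.range χ → G := fun x => x.2.choose
  have hr : ∀ x : Set.range χ, χ (r x) = x := fun x => x.2.choose_spec
  refine ⟨Finset.univ.image r, fun g => ⟨r ⟨χ g, g, rfl⟩, ?_, ?_⟩⟩
  · exact Finset.mem_image_of_mem _ (Finset.mem_univ _)
  · exact (hr ⟨χ g, g, rfl⟩).symm

/-- **K3-FIN from K3-DFROM.** -/
theorem finStatement_of_dfrom (N : ℕ) [NeZero N] (p : ℕ) [NeZero p]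
    (hd : DFromStatement N p) : FinStatement N p := by
  letI := algKC
  intro c hc U hU
  classical
  have hp : p ≠ 0 := NeZero.ne p
  set a : LaurentSeries ℂ := qexpFun 1 (fun τ => U τ ^ p) with ha
  have haFC : a ∈ FC N := H882.qexpFun_mem_FC hU.pow_mem
  have ha0 : a ≠ 0 := H942.qexpFun_pow_ne_zero_of_isTwisted N p hU
  set f₀ : FC N := ⟨a, haFC⟩ with hf₀def
  have hf₀ : f₀ ≠ 0 := fun h => ha0 (congrArg Subtype.val h)
  have hdvd : ∀ w : Place ℂ (FC N), (p : ℤ) ∣ w.ord f₀ := fun w => dto hc hU rfl w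
  -- the data attached to each `σ`
  have key : ∀ σ : ℂ ≃ₐ[Kbar] ℂ, ∃ (s : LaurentSeries ℂ) (V : ℍ → ℂ)
      (κ : {κ : Gamma0 N →* ℂˣ // ∀ γ, κ γ ^ p = 1}), s ∈ FC N ∧ s ≠ 0 ∧
      MDifferentiable 𝓘(ℂ) 𝓘(ℂ) V ∧ (fun τ => V τ ^ p) ∈ goodRing N ∧
      (∀ (γ : Gamma0 N) (τ : ℍ), V ((γ : SL(2, ℤ)) • τ) = ((κ.1 γ : ℂˣ) : ℂ) * V τ) ∧
      qexpFun 1 (fun τ => V τ ^ p) ≠ 0 ∧
      qexpFun 1 (fun τ => V τ ^ p) = coeffMap (σ : ℂ →+* ℂ) a * s ^ p := by
    intro σ
    set g : SemilinearAut ℂ (FC N) :=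
      arithmeticGalois (modularFunctionFieldFull N) (σ.toRingEquiv.toRatAlgEquiv) with hg
    have hcoe : ((g • f₀ : FC N) : LaurentSeries ℂ) = coeffMap (σ : ℂ →+* ℂ) a := rfl
    have hne : g • f₀ ≠ 0 := (smul_ne_zero_iff_ne g).mpr hf₀
    have hdvd' : ∀ w : Place ℂ (FC N), (p : ℤ) ∣ w.ord (g • f₀) := by
      intro w
      have h := SemilinearAut.ord_smul g (g⁻¹ • w) f₀
      rw [smul_inv_smul] at h
      rw [h]
      exact hdvd _
    obtain ⟨s, hs, hs0, V, hVm, hVg, hq⟩ := hd (g • f₀) hne hdvd'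
    rw [hcoe] at hq
    have hqne : qexpFun 1 (fun τ => V τ ^ p) ≠ 0 := by
      rw [hq]
      refine mul_ne_zero ?_ (pow_ne_zero _ hs0)
      rw [← hcoe]
      exact fun h => hne (Subtype.ext h)
    have hV0 : V ≠ 0 := by
      intro h0
      apply hqne
      have : (fun τ => V τ ^ p) = 0 := by
        funext τ
        rw [h0]
        simp [hp]
      rw [this]
      exact (qexpFun_eq_zero_iff (H882.isMerInf_of_mem_goodRing
        (by rw [← this]; exact hVg))).mpr rfl
    obtain ⟨κ, hκ, hVκ⟩ := H942.exists_kummerChar (Gamma0 N) hVm hV0 hp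
      (fun γ hγ z => hVg.2.1 γ hγ z)
    exact ⟨s, V, ⟨κ, hκ⟩, hs, hs0, hVm, hVg, hVκ, hqne, hq⟩
  choose s V κ hs hs0 hVm hVg hVκ hqne hq using key
  haveI := finite_pChar N p
  obtain ⟨R, hR⟩ := exists_finset_fibre_rep κ
  refine ⟨(fun σ : ℂ ≃ₐ[Kbar] ℂ => coeffMap (σ : ℂ →+* ℂ) a) '' (R : Set (ℂ ≃ₐ[Kbar] ℂ)),
    R.finite_toSet.image _, fun σ => ?_⟩
  obtain ⟨h, hhR, hκeq⟩ := hR σ
  refine ⟨coeffMap (h : ℂ →+* ℂ) a, ⟨h, hhR, rfl⟩, ?_⟩
  have h2 := hVκ h
  rw [← hκeq] at h2
  obtain ⟨g, hg, hg0, hgeq⟩ := exists_pow_mul_eq_of_sameChar (κ σ).1 (κ σ).2 (hVm σ) (hVm h)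
    (hVκ σ) h2 (hVg σ) (hVg h) (hqne σ) (hqne h)
  rw [hq σ, hq h] at hgeq
  refine ⟨g * s h * (s σ)⁻¹, mul_mem (mul_mem hg (hs h)) (inv_mem (hs σ)),
    mul_ne_zero (mul_ne_zero hg0 (hs0 h)) (inv_ne_zero (hs0 σ)), ?_⟩
  have hsp : s σ ^ p ≠ 0 := pow_ne_zero _ (hs0 σ)
  rw [mul_pow, mul_pow, inv_pow]
  field_simp
  rw [hgeq]
  ring

end Fermat.Agent.S29.M4b.K3

end
end
-- ===== PACK-END S29/M4b/K3/Fin.lean

-- ===== PACK-BEGIN S29/M4b/K3/Final.lean
section
/-
S29 row, M4b, piece K3 — `PieceK3 N p` from the single remaining sub-piece `K3-DFROM` (helper42).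
-/



set_option autoImplicit false

noncomputable section

open ModularCurve AlgebraicCurve CongruenceSubgroup UpperHalfPlane
open scoped MatrixGroups Manifold

namespace Fermat.Agent.S29.M4b.K3

open Fermat.Agent.S24 Fermat.Agent.S29 Fermat.Agent.S29.M4b

/-- **PIECE K3** in the `Prop` form of `M4b/Top.lean`, from `K3-DFROM`. -/
theorem pieceK3_of_dfrom (N : ℕ) [NeZero N] (p : ℕ) [NeZero p] (hd : DFromStatement N p) :
    PieceK3 N p :=
  pieceK3_of_fin N p (finStatement_of_dfrom N p hd)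

end Fermat.Agent.S29.M4b.K3

end
end
-- ===== PACK-END S29/M4b/K3/Final.lean

-- ===== PACK-BEGIN S29/H282/DFrom.lean
section



/-!
# S29 / M4b / K3-DFROM (helper282)

`exists_root_of_forall_dvd_ord` : let `f ≠ 0` be an element of the function field `F_ℂ` of `X₀(N)`
over `ℂ` such that `p ∣ ord_w f` at EVERY place `w` of `F_ℂ/ℂ`.  Then there are `s ∈ F_ℂ`, `s ≠ 0`,
and a holomorphic `V : ℍ → ℂ`, `V ≢ 0`, with `V ^ p` good and `qexp (V ^ p) = f * s ^ p`; moreover
`V` transforms under `Γ₀(N)` by a character `χ` with `χ ^ p = 1`, i.e. `V` is twisted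
(`M4b.IsTwisted`) of an additive character `c : Γ₀(N) → ℤ/p`.
-/

set_option autoImplicit false

noncomputable section

open ModularCurve AlgebraicCurve CongruenceSubgroup UpperHalfPlane
open scoped MatrixGroups Manifold Real

namespace Fermat.Agent.S29.H282

open Fermat.Agent.S24 Fermat.Agent.S24.H997 Fermat.Agent.S24.H648 Fermat.Agent.S24.H708
open Fermat.Agent.S24.H624 Fermat.Agent.S24.Deg457
open Fermat.Agent.S29 Fermat.Agent.S29.M4b Fermat.Agent.S29.H332

variable {N : ℕ} [NeZero N]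

/-! ### The character of a `p`-th root of an invariant function -/

/-- If `V` is holomorphic, `V ≢ 0` and `V ^ p` is `Γ₀(N)`-invariant, then for every `γ ∈ Γ₀(N)`
there is a `p`-th root of unity `z` with `V (γ τ) = z V(τ)`. -/
theorem exists_root_of_unity_of_pow_invariant {p : ℕ} (hp : p ≠ 0) {V : ℍ → ℂ}
    (hV : MDifferentiable 𝓘(ℂ) 𝓘(ℂ) V) {τ₁ : ℍ} (hτ₁ : V τ₁ ≠ 0)
    (hinv : ∀ γ ∈ Gamma0 N, ∀ τ : ℍ, V (γ • τ) ^ p = V τ ^ p) (γ : SL(2, ℤ))
    (hγ : γ ∈ Gamma0 N) :
    ∃ z : ℂ, z ^ p = 1 ∧ ∀ τ : ℍ, V (γ • τ) = z * V τ := by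
  have hA1 : V (γ • τ₁) ≠ 0 := by
    intro h0
    have := hinv γ hγ τ₁
    rw [h0, zero_pow hp] at this
    exact pow_ne_zero p hτ₁ this.symm
  set z : ℂ := V (γ • τ₁) / V τ₁ with hz
  have hzp : z ^ p = 1 := by
    rw [hz, div_pow, hinv γ hγ τ₁, div_self (pow_ne_zero p hτ₁)]
  refine ⟨z, hzp, fun τ => ?_⟩
  have hAd : MDifferentiable 𝓘(ℂ) 𝓘(ℂ) (fun τ : ℍ => V (γ • τ)) :=
    H648.mdifferentiable_comp_smul hV γ
  have hBd : MDifferentiable 𝓘(ℂ) 𝓘(ℂ) (fun τ : ℍ => z * V τ) :=
    (mdifferentiable_const (c := z)).mul hV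
  have := Fermat.Agent.S29.H751.eq_of_pow_eq_UHP hAd hBd hp (fun τ => by
    show V (γ • τ) ^ p = (z * V τ) ^ p
    rw [hinv γ hγ τ, mul_pow, hzp, one_mul]) (τ₀ := τ₁)
    (by
      show V (γ • τ₁) = z * V τ₁
      rw [hz, div_mul_cancel₀ _ hτ₁]) hA1
  exact congrFun this τ

theorem isPrimitiveRoot_zetaP (p : ℕ) [NeZero p] : IsPrimitiveRoot (zetaP p) p := by
  unfold zetaP
  exact Complex.isPrimitiveRoot_exp p (NeZero.ne p)

/-- the additive character of a `p`-th root of an invariant function -/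
theorem exists_hasChar_of_pow_invariant {p : ℕ} [NeZero p] {V : ℍ → ℂ}
    (hV : MDifferentiable 𝓘(ℂ) 𝓘(ℂ) V) (hV0 : ∃ τ, V τ ≠ 0)
    (hinv : ∀ γ ∈ Gamma0 N, ∀ τ : ℍ, V (γ • τ) ^ p = V τ ^ p) :
    ∃ c : G0 N → ZMod p, (∀ γ γ' : G0 N, c (γ * γ') = c γ + c γ') ∧ HasChar N p c V := by
  classical
  obtain ⟨τ₁, hτ₁⟩ := hV0
  have hprim := isPrimitiveRoot_zetaP p
  have key : ∀ γ : G0 N, ∃ k : ZMod p, ∀ τ : ℍ,
      V ((γ : SL(2, ℤ)) • τ) = zetaP p ^ k.val * V τ := by
    intro γ
    obtain ⟨z, hzp, hz⟩ := exists_root_of_unity_of_pow_invariant (NeZero.ne p) hV hτ₁ hinv γ γ.2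
    obtain ⟨i, hi, rfl⟩ := hprim.eq_pow_of_pow_eq_one hzp
    refine ⟨(i : ZMod p), fun τ => ?_⟩
    rw [hz τ, ZMod.val_natCast, Nat.mod_eq_of_lt hi]
  choose c hc using key
  refine ⟨c, fun γ γ' => ?_, hc⟩
  -- additivity
  have h1 := hc (γ * γ') τ₁
  have h2 := hc γ ((γ' : SL(2, ℤ)) • τ₁)
  have h3 := hc γ' τ₁
  have hsm : ((γ * γ' : G0 N) : SL(2, ℤ)) • τ₁
      = (γ : SL(2, ℤ)) • ((γ' : SL(2, ℤ)) • τ₁) := by
    rw [Subgroup.coe_mul, mul_smul]
  rw [hsm, h2, h3, ← mul_assoc, ← pow_add] at h1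
  have h4 : zetaP p ^ ((c γ).val + (c γ').val) = zetaP p ^ (c (γ * γ')).val :=
    mul_right_cancel₀ hτ₁ h1
  have hfin : IsOfFinOrder (zetaP p) :=
    isOfFinOrder_iff_pow_eq_one.mpr ⟨p, Nat.pos_of_ne_zero (NeZero.ne p), hprim.pow_eq_one⟩
  have h5 : ((c γ).val + (c γ').val) ≡ (c (γ * γ')).val [MOD p] := by
    have := hfin.pow_eq_pow_iff_modEq.mp h4
    rwa [← hprim.eq_orderOf] at this
  have h6 : (((c γ).val + (c γ').val : ℕ) : ZMod p) = ((c (γ * γ')).val : ZMod p) :=
    (ZMod.natCast_eq_natCast_iff _ _ _).mpr h5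
  rw [Nat.cast_add, ZMod.natCast_zmod_val, ZMod.natCast_zmod_val, ZMod.natCast_zmod_val] at h6
  exact h6.symm

/-! ### DFROM -/

/-- **K3-DFROM.** -/
theorem exists_root_of_forall_dvd_ord (N : ℕ) [NeZero N] (p : ℕ) [NeZero p]
    {f : LaurentSeries ℂ} (hf : f ∈ laurentBaseChange ℂ (modularFunctionFieldFull N))
    (hf0 : f ≠ 0)
    (hdvd : ∀ w : Place ℂ ↥(laurentBaseChange ℂ (modularFunctionFieldFull N)),
      (p : ℤ) ∣ w.ord ⟨f, hf⟩) :
    ∃ s : LaurentSeries ℂ, s ∈ laurentBaseChange ℂ (modularFunctionFieldFull N) ∧ s ≠ 0 ∧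
      ∃ V : ℍ → ℂ, MDifferentiable 𝓘(ℂ) 𝓘(ℂ) V ∧ (∃ τ, V τ ≠ 0) ∧
        (fun τ => V τ ^ p) ∈ goodRing N ∧ qexpFun 1 (fun τ => V τ ^ p) = f * s ^ p ∧
        ∃ c : G0 N → ZMod p, (∀ γ γ' : G0 N, c (γ * γ') = c γ + c γ') ∧
          IsTwisted N p c V := by
  have hp : p ≠ 0 := NeZero.ne p
  -- write `f = r / t` with `r, t` polynomials in the `j(q^d)`
  obtain ⟨r, t, ht, hfrt⟩ := exists_div_inclRNK ℂ N ⟨f, hf⟩
  have ht' : inclRNK ℂ N t ≠ 0 := fun h0 =>
    ht (inclRNK_injective ℂ N (h0.trans (map_zero _).symm))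
  have hts : ((t : RNK ℂ N) : LaurentSeries ℂ) ≠ 0 := fun h0 => ht (Subtype.ext h0)
  have hfF : (⟨f, hf⟩ : FFK ℂ N) ≠ 0 := fun h0 => hf0 (congrArg Subtype.val h0)
  -- the good function with `q`-expansion `r * t ^ (p - 1) = f * t ^ p`
  have hmem : ((r * t ^ (p - 1) : RNK ℂ N) : LaurentSeries ℂ) ∈ AK ℂ N := (r * t ^ (p - 1)).2
  obtain ⟨G, hG, hGq⟩ := Fermat.Agent.S29.H882.AK_le_goodQ N hmem
  have hgF : (⟨f, hf⟩ : FFK ℂ N) * inclRNK ℂ N t ^ p = inclRNK ℂ N (r * t ^ (p - 1)) := by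
    rw [hfrt, map_mul, map_pow]
    have : p = (p - 1) + 1 := (Nat.succ_pred_eq_of_ne_zero hp).symm
    conv_lhs => rw [this, pow_succ]
    field_simp
  have hgL : f * ((t : RNK ℂ N) : LaurentSeries ℂ) ^ p
      = ((r * t ^ (p - 1) : RNK ℂ N) : LaurentSeries ℂ) := by
    have := congrArg (fun x : FFK ℂ N => (x : LaurentSeries ℂ)) hgF
    simpa using this
  have hqG : qexpFun 1 G = f * ((t : RNK ℂ N) : LaurentSeries ℂ) ^ p := by
    rw [hGq.qexpFun_eq, hgL]
  have hfs : qexpFun 1 G ∈ laurentBaseChange ℂ (modularFunctionFieldFull N) :=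
    Fermat.Agent.S29.H882.qexpFun_mem_FC hG
  have hGF : (⟨qexpFun 1 G, hfs⟩ : FFK ℂ N) = ⟨f, hf⟩ * inclRNK ℂ N t ^ p := by
    apply Subtype.ext
    show qexpFun 1 G = ((⟨f, hf⟩ * inclRNK ℂ N t ^ p : FFK ℂ N) : LaurentSeries ℂ)
    rw [hqG]
    simp
  have hG0 : G ≠ 0 := by
    intro h0
    have h1 : qexpFun 1 G = 0 := (qexpFun_eq_zero_iff hGq.isMerInf).mpr h0
    rw [hqG] at h1
    rcases mul_eq_zero.mp h1 with h | h
    · exact hf0 h
    · exact hts (pow_eq_zero_iff hp |>.mp h)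
  -- divisibility of the orders of `f * t ^ p`
  have hdvd' : ∀ w : Place ℂ ↥(laurentBaseChange ℂ (modularFunctionFieldFull N)),
      (p : ℤ) ∣ w.ord ⟨qexpFun 1 G, hfs⟩ := by
    intro w
    rw [hGF, w.ord_mul hfF (pow_ne_zero p ht'), H117.ord_pow]
    exact dvd_add (hdvd w) (dvd_mul_right _ _)
  -- the root
  obtain ⟨V, hVmd, hVp⟩ := exists_pow_eq_of_forall_dvd_ord hG hG0 hfs hp hdvd'
  have hVG : (fun τ => V τ ^ p) = G := funext hVp
  have hV0 : ∃ τ, V τ ≠ 0 := by
    by_contra hcon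
    push Not at hcon
    apply hG0
    funext τ
    rw [← hVp τ, hcon τ, zero_pow hp]
    rfl
  have hVinv : ∀ γ ∈ Gamma0 N, ∀ τ : ℍ, V (γ • τ) ^ p = V τ ^ p := by
    intro γ hγ τ
    rw [hVp, hVp]
    exact hG.2.1 γ hγ τ
  obtain ⟨c, hcadd, hchar⟩ := exists_hasChar_of_pow_invariant hVmd hV0 hVinv
  refine ⟨((t : RNK ℂ N) : LaurentSeries ℂ), (inclRNK ℂ N t).2, hts, V, hVmd, hV0,
    hVG ▸ hG, ?_, c, hcadd, ⟨hVmd, hV0, hchar, hVG ▸ hG⟩⟩
  rw [hVG, hqG]

end Fermat.Agent.S29.H282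

end
end
-- ===== PACK-END S29/H282/DFrom.lean

-- ===== PACK-BEGIN S30/Chain/Package.lean
section
/-
S30 — squad-lead chain (helper49): the Kummer packages `H450.KumPackage N m` at EVERY modulus
`m ≠ 0`, UNCONDITIONALLY, from the landed pieces of S29 sub-layer M4b:

* `ex`    : K1 (`H509.exists_isTwisted`) + K3 (`M4b.K3.pieceK3_of_dfrom` on `H282` DFROM)
            + K2 (`H389.exists_isKummerClass_of_realised`);
* `uniq`, `inj`, `add` : `M4b.H822.pieceUniq / pieceInj / pieceAdd`;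
* `hecke` : `M4b.H395.isKum_hecke`.

Together with ONTO (`H810.exists_isKum_of_torsion`) this discharges inputs (K') and (F) of the adic
module layer, so that the frozen S30 follows from input (T) alone (`Chain/FromT.lean`).
-/








set_option autoImplicit false

noncomputable section

open ModularCurve AlgebraicCurve CongruenceSubgroup UpperHalfPlane
open scoped MatrixGroups Manifold

namespace Fermat.Agent.S30.Chain

open Fermat.Agent.S24 Fermat.Agent.S29 Fermat.Agent.S29.M4b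

/-- K3-DFROM in the `Prop` form of `M4b/K3/Fin.lean` (from helper282's `DFrom`). -/
theorem dfromStatement (N : ℕ) [NeZero N] (p : ℕ) [NeZero p] : K3.DFromStatement N p := by
  intro f hf0 hdvd
  have hf0' : (f : LaurentSeries ℂ) ≠ 0 := fun h => hf0 (Subtype.ext h)
  obtain ⟨s, hs, hs0, V, hV, -, hVg, hq, -⟩ :=
    Fermat.Agent.S29.H282.exists_root_of_forall_dvd_ord N p f.2 hf0' hdvd
  exact ⟨s, hs, hs0, V, hV, hVg, hq⟩

/-- PIECE K3 at every modulus `p ≠ 0`, unconditionally. -/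
theorem pieceK3 (N : ℕ) [NeZero N] (p : ℕ) [NeZero p] : PieceK3 N p :=
  K3.pieceK3_of_dfrom N p (dfromStatement N p)

/-- Existence of the Kummer class of a parabolic character, at every modulus `p ≠ 0`. -/
theorem isKum_exists (N : ℕ) [NeZero N] (p : ℕ) [NeZero p] {c : G0 N → ZMod p}
    (hc : IsParHom c) : ∃ x : JZero N, IsKum N p c x := by
  obtain ⟨U, hU⟩ := Fermat.Agent.S29.H509.exists_isTwisted N p hc
  obtain ⟨U', u, hU', hu⟩ := pieceK3 N p hc hU
  obtain ⟨x, hx⟩ := Fermat.Agent.S29.H389.exists_isKummerClass_of_realised N p hc hU' hu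
  refine ⟨x, u, 1, U', one_ne_zero, hx, hU', ?_⟩
  simpa using hu

/-- **The Kummer package at every modulus `m ≠ 0`**, unconditionally. -/
theorem kumPackage (N : ℕ) [NeZero N] (m : ℕ) [NeZero m] : Fermat.Agent.S30.H450.KumPackage N m :=
  Fermat.Agent.S30.H450.KumPackage.of_skeleton
    (fun hc => isKum_exists N m hc)
    (fun h h' => Fermat.Agent.S29.M4b.H822.pieceUniq N m (NeZero.ne m) h h')
    (fun h => Fermat.Agent.S29.M4b.H822.pieceInj N m (NeZero.ne m) h)
    (fun h h' => Fermat.Agent.S29.M4b.H822.pieceAdd N m (NeZero.ne m) h h')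
    (fun ℓ hℓ hfac _ _ hc htr _ hx =>
      Fermat.Agent.S29.M4b.H395.isKum_hecke N m ℓ hℓ hfac hc htr hx)

end Fermat.Agent.S30.Chain

end
end
-- ===== PACK-END S30/Chain/Package.lean

-- ===== PACK-BEGIN S30/Chain/FromT.lean
section
/-
S30 — squad-lead chain (helper49): the frozen statement S30 from input (T) ALONE.

`result_of_T : (∀ N p, H330.TorsionRelations N p) → <frozen S30 statement>`

All other inputs of the adic module layer are discharged from `main`:
* (K') the Kummer tower: `Chain.kumPackage` (K1 H509, K3 helper42/H282, K2 H389, UNIQ/INJ/ADD H822,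
  HECKE H395, tower compatibility H450);
* (F)  finiteness of `J₀(N)[p]`: ONTO `H810.exists_isKum_of_torsion` + `Fin.finite_torsion_of`;
* (P)  `H709.exists_parEigen`;  (Sm) S29 M3;  (GH) H571;  top glue H990; adic layer H330.

(T) = `H330.TorsionRelations N p`: inertia at `ℓ ∤ N p` acts trivially on `J₀(N)(ℚ̄)[p^∞]` and every
Frobenius at `ℓ` satisfies `σ² - T_ℓ σ + ℓ = 0` there.  It follows from each of the interfaces of
rows S37/S18, see `H330/AdicTorsionRel.lean` (`torsionRelations_of_redData`, `_of_pieces`,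
`_of_weakRedData`).  The final `Fermat/Agent/S30.lean` is `Chain.result_of_T hT`.
-/




set_option autoImplicit false
set_option linter.overlappingInstances false

noncomputable section

namespace Fermat.Agent.S30.Chain

open Fermat.Agent.S29 Fermat.Agent.S29.M4b ModularCurve Polynomial

/-- **S30 from (T) alone.** -/
theorem result_of_T
    (hT : ∀ (N : ℕ) [NeZero N] (p : ℕ) [Fact p.Prime],
      Fermat.Agent.S30.H330.TorsionRelations N p) :
    ∀ (p : ℕ) [Fact p.Prime] (N : ℕ) [NeZero N] (S : Finset ℕ)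
      (_hpS : p ∈ S) (_hNS : ∀ q : ℕ, q.Prime → q ∣ N → q ∈ S)
      (𝒪' : Type) [CommRing 𝒪'] [IsDomain 𝒪'] [IsDiscreteValuationRing 𝒪']
      [IsAdicComplete (IsLocalRing.maximalIdeal 𝒪') 𝒪'] [Finite (IsLocalRing.ResidueField 𝒪')]
      [CharZero 𝒪'] (_hp𝒪' : (p : 𝒪') ∈ IsLocalRing.maximalIdeal 𝒪')
      (χ : CuspForm.heckeAlgebra N 2 (↑S : Set ℕ) →+* 𝒪'),
      ∃ (𝒪'' : Type) (_ : CommRing 𝒪'') (_ : IsDomain 𝒪'') (_ : IsDiscreteValuationRing 𝒪'')
        (_ : IsAdicComplete (IsLocalRing.maximalIdeal 𝒪'') 𝒪'')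
        (_ : Finite (IsLocalRing.ResidueField 𝒪'')) (_ : CharZero 𝒪'')
        (_ : Algebra 𝒪' 𝒪'') (_ : Module.Finite 𝒪' 𝒪'') (_ : IsLocalHom (algebraMap 𝒪' 𝒪'')),
      Function.Injective (algebraMap 𝒪' 𝒪'') ∧
      ∃ ρ : GaloisRepAdic 𝒪'',
        (∀ (ℓ : ℕ) (hℓ : ℓ.Prime) (hℓN : ¬ ℓ ∣ N) (hℓS : ℓ ∉ (↑S : Set ℕ)),
          ∀ A : ValuationSubring (AlgebraicClosure ℚ), A.LiesOverPrime ℓ →
            ∀ σ : AlgebraicClosure ℚ ≃ₐ[ℚ] AlgebraicClosure ℚ, A.IsFrobeniusAt σ ℓ →
              LinearMap.charpoly (ρ.ρ σ) =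
                X ^ 2 - C (algebraMap 𝒪' 𝒪'' (χ (CuspForm.heckeAlgebra.T hℓ hℓN hℓS))) * X
                  + C ((ℓ : 𝒪''))) ∧
        (∀ q : ℕ, q.Prime → ¬ q ∣ N → q ≠ p → ρ.IsUnramifiedAt q) :=
  Fermat.Agent.S30.H330.result_of_packages
    (fun N _ p hp n =>
      haveI : NeZero (p ^ n) := ⟨pow_ne_zero n hp.out.ne_zero⟩
      kumPackage N (p ^ n))
    (fun N _ p hp x hx =>
      haveI : NeZero p := ⟨hp.out.ne_zero⟩
      Fermat.Agent.S30.H810.exists_isKum_of_torsion N p hx)
    hT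

end Fermat.Agent.S30.Chain

end
end
-- ===== PACK-END S30/Chain/FromT.lean

-- ===== PACK-BEGIN S32/OfS19.lean
section
/-
Row S32 (flat at `p`), FINAL WIRING up to the wall S19 (helper32).

`s32_of_s19` : the frozen statement S32 (as the `Prop` `S32Statement` of `Spec.lean`) from the
frozen S19 ALONE, in the form `HopfModel p (Tors N p k) (torsAct N p k)` for `p ∤ N`.

All other pieces are on main and are wired here:
* ORD  `A3.H619.ord` (cell A3);
* EIG  `flatEigenStatement_of_chain` (`EigChain.lean`) on the landed chain of row S30: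
       (K') `S30.Chain.kumPackage`, (F) `S30.H810.exists_isKum_of_torsion`,
       (T) `S30.H694.torsionRelations_of_nodes` with the two nodes of row S18
       (`S18.Mod.H216.node_mod`, `S18.H438.node_alg`) — the same inputs as `Fermat/Agent/S30.lean`;
* REL  `H692.rel`;  EMB `H152.embedStatement`;  RED `H185.red`;  POINTS `S59.G4.H109.points`.

`s32_of_frozen_s19` takes the frozen statement S19 verbatim.
-/











set_option autoImplicit false

noncomputable section

namespace Fermat.Agent.S32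

open Fermat.Agent.S19

/-- **EIG, unconditionally up to S19.** -/
theorem flatEigenStatement_of_s19
    (hS19 : ∀ (N p : ℕ) [NeZero N], p.Prime → ¬ p ∣ N → ∀ k : ℕ,
      HopfModel p (Tors N p k) (torsAct N p k)) :
    FlatEigenStatement :=
  flatEigenStatement_of_chain Fermat.Agent.A3.H619.ord hS19
    (fun N _ p hp =>
      haveI : NeZero p := ⟨hp.out.ne_zero⟩
      Fermat.Agent.S30.H330.kummerInjStatement_of_packages (fun n =>
        haveI : NeZero (p ^ n) := ⟨pow_ne_zero n hp.out.ne_zero⟩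
        Fermat.Agent.S30.Chain.kumPackage N (p ^ n)))
    (fun N _ p hp =>
      haveI : NeZero p := ⟨hp.out.ne_zero⟩
      Fermat.Agent.S30.H330.finStatement_of_onto
        (Fermat.Agent.S30.Chain.kumPackage N p).uniq
        (fun _ hx => Fermat.Agent.S30.H810.exists_isKum_of_torsion N p hx))
    (Fermat.Agent.S30.H694.torsionRelations_of_nodes
      (fun M _ _ _ hℓM A hA => Fermat.Agent.S18.Mod.H216.node_mod M hℓM A hA)
      (fun M => Fermat.Agent.S18.H438.node_alg M))

/-- **The frozen statement S32 from the frozen S19** (Hopf-model form). -/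
theorem s32_of_s19
    (hS19 : ∀ (N p : ℕ) [NeZero N], p.Prime → ¬ p ∣ N → ∀ k : ℕ,
      HopfModel p (Tors N p k) (torsAct N p k)) :
    S32Statement :=
  s32_of_pieces Fermat.Agent.A3.H619.ord (flatEigenStatement_of_s19 hS19)
    Fermat.Agent.S32.H692.rel Fermat.Agent.S32.H152.embedStatement Fermat.Agent.S32.H185.red
    Fermat.Agent.S59.G4.H109.points

/-- **The frozen statement S32 from the frozen statement S19** (verbatim). -/
theorem s32_of_frozen_s19
    (h19 : ∀ (p : ℕ) [NeZero p] (ℓ : ℕ) [Fact ℓ.Prime] (_hℓp : ¬ ℓ ∣ p) (k : ℕ),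
      ∃ (H : Type) (_ : CommRing H) (_ : HopfAlgebra (GaloisRep.ratLocalizedAt ℓ) H),
        Module.Finite (GaloisRep.ratLocalizedAt ℓ) H ∧
        Module.Flat (GaloisRep.ratLocalizedAt ℓ) H ∧
        Coalgebra.IsCocomm (GaloisRep.ratLocalizedAt ℓ) H ∧
        ∃ e : WithConv (H →ₐ[GaloisRep.ratLocalizedAt ℓ] AlgebraicClosure ℚ) ≃
            ↥(Submodule.torsionBy ℤ (ModularCurve.JZero p) ((ℓ : ℤ) ^ k)),
          (∀ f g, e (f * g) = e f + e g) ∧
          ∀ (σ : AlgebraicClosure ℚ ≃ₐ[ℚ] AlgebraicClosure ℚ)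
            (f g : WithConv (H →ₐ[GaloisRep.ratLocalizedAt ℓ] AlgebraicClosure ℚ)),
            (∀ h : H, g h = σ (f h)) →
              ((e g : ModularCurve.JZero p)) = σ • (e f : ModularCurve.JZero p)) :
    S32Statement :=
  s32_of_s19 (fun N p _ hp hpN k =>
    haveI : Fact p.Prime := ⟨hp⟩
    H135.hopfModel_of_frozenShape N p k (h19 N p hpN k))

end Fermat.Agent.S32

end
end
-- ===== PACK-END S32/OfS19.lean

-- ===== PACK-BEGIN A3/H615/GrRim.lean
section



/-!
# Cell A3 / GR-INST, leaf RIM of helper19's assembly (helper615)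

`rimStatement_of_datum` : a linked reduction datum with good charts gives `A3.GR.RimStatement A M`
(degrees, `r_* div u = div (ρ u)` for all fractions `u` of integral `q`-series, pointwise
invariance under the inertia group of `A`).
`rimStatement_of_datumStatement` : the same from the S37 node `Core.DatumStatement`.
-/

set_option autoImplicit false
set_option synthInstance.maxHeartbeats 400000

noncomputable section

namespace Fermat.Agent.A3.H615

open ModularCurve AlgebraicCurve HahnSeries IsLocalRing Fermat.Agent.S37.Red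

namespace GrRed

/-- Elements of the inertia group of `A` move every element of `A` by a nonunit. -/
theorem sub_mem_nonunits_of_mem_inertiaSubgroupIn {A : ValuationSubring _root_.Fermat.Agent.A3.H615.GrRed.Qb}
    {σ : _root_.Fermat.Agent.A3.H615.GrRed.Qb ≃ₐ[ℚ] _root_.Fermat.Agent.A3.H615.GrRed.Qb} (hσ : σ ∈ A.inertiaSubgroupIn ℚ) (a : _root_.Fermat.Agent.A3.H615.GrRed.Qb) (ha : a ∈ A) :
    σ a - a ∈ A.nonunits := by
  obtain ⟨d, hd, rfl⟩ := hσ
  have h : MulSemiringAction.toRingAut (A.decompositionSubgroup ℚ) (ResidueField A) d = 1 :=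
    MonoidHom.mem_ker.mp hd
  have h1 : d • residue A (⟨a, ha⟩ : A) = residue A (⟨a, ha⟩ : A) := by
    have h2 := congrArg (fun f : RingAut (ResidueField A) => f (residue A (⟨a, ha⟩ : A))) h
    exact h2
  have h3 : residue A (d • (⟨a, ha⟩ : A)) = d • residue A (⟨a, ha⟩ : A) :=
    IsLocalRing.ResidueField.residue_smul (A.decompositionSubgroup ℚ) d (⟨a, ha⟩ : A)
  have h4 : residue A (d • (⟨a, ha⟩ : A) - (⟨a, ha⟩ : A)) = 0 := by
    rw [map_sub, h3, h1, sub_self]
  rw [residue_eq_zero_iff] at h4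
  exact ValuationSubring.coe_mem_nonunits_iff.mpr h4

/-- **Leaf RIM** of `A3/GR/Leaves.lean` from a linked reduction datum with good charts. -/
theorem rimStatement_of_datum (M : ℕ) [NeZero M] {ℓ : ℕ} [Fact ℓ.Prime] (hℓM : ¬ ℓ ∣ M)
    (A : ValuationSubring _root_.Fermat.Agent.A3.H615.GrRed.Qb) (hA : A.LiesOverPrime ℓ)
    (G : Datum A (residue A) (modularFunctionFieldBar M)
      (modularFunctionFieldFullC (ResidueField A) M))
    (hgood : G.Good) (hlink : H759.Link G) :
    Fermat.Agent.A3.GR.RimStatement A M := by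
  obtain ⟨r, -, hI, hmod, -⟩ := exists_red Fact.out hℓM hA G hgood hlink
  refine ⟨r, hmod.1, ?_, ?_⟩
  · intro u hu D hD Q
    exact Fermat.Agent.A3.H739.gr_div_red (Fermat.Agent.A3.H739.gr_vg M hℓM A hA) r hmod
      ⟨(u : modularFunctionFieldBar M), u.2⟩ hu D hD Q
  · intro σ hσ P
    exact hI σ (sub_mem_nonunits_of_mem_inertiaSubgroupIn hσ) P

/-- **Leaf RIM at all good levels** from the S37 node `DatumStatement`. -/
theorem rimStatement_of_datumStatement (h : Fermat.Agent.S37.Core.DatumStatement)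
    (M : ℕ) [NeZero M] (ℓ : ℕ) [Fact ℓ.Prime] (hℓM : ¬ ℓ ∣ M)
    (hg : Fermat.Agent.S37.Core.GoodLevel M ℓ)
    (A : ValuationSubring _root_.Fermat.Agent.A3.H615.GrRed.Qb) (hA : A.LiesOverPrime ℓ) :
    Fermat.Agent.A3.GR.RimStatement A M := by
  obtain ⟨G, hgood, hlink⟩ := h M ℓ Fact.out hℓM hg A hA
  exact rimStatement_of_datum M hℓM A hA G hgood hlink

end GrRed

end Fermat.Agent.A3.H615

end
end
-- ===== PACK-END A3/H615/GrRim.lean

-- ===== PACK-BEGIN S37/Core/DatumLeaf.lean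
section





/-!
# S37 row-lead (helper37): LEAF D1 `DatumLeaf` — the Gauss datum with an arbitrary coordinate

`datumLeaf : Core.DatumLeaf`: for `ℓ ∤ M`, `A` over `ℓ` and a coordinate `x ∈ F_M` with integral
model `X ∈ ℤ((q))`, `X = q⁻¹ + …`, helper40's modular datum `Red.modG` (valuation ring of
fractions of integral `q`-series, coefficientwise reduction) with coordinate `x` is linked to the
Prelude, and its reduced coordinate is the reduction of `X`.
Inputs from main: `Red.modG`, `Red.modG_link` (helper40), `H568.valueGroupHyp_modular`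
(helper568), `H98.coreData_residueField`, `H98.reduction_mem` (helper98/700).
-/

set_option autoImplicit false
set_option synthInstance.maxHeartbeats 400000

noncomputable section

namespace Fermat.Agent.S37.Core

open ModularCurve ValuationSubring AlgebraicCurve HahnSeries IsLocalRing
open Fermat.Agent.S37.Red Fermat.Agent.S18

/-- the integral model over `A` -/
abbrev modelA (A : ValuationSubring (AlgebraicClosure ℚ)) (X : LaurentSeries ℤ) :
    LaurentSeries A :=
  coeffMap (Int.castRingHom A) X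

theorem coeffMap_subtype_modelA (A : ValuationSubring (AlgebraicClosure ℚ))
    (X : LaurentSeries ℤ) :
    coeffMap A.subtype (modelA A X) = coeffMap (Int.castRingHom (AlgebraicClosure ℚ)) X := by
  rw [modelA, coeffMap_coeffMap]
  exact coeffMap_congr (RingHom.ext_int _ _) X

theorem coeffMap_residue_modelA (A : ValuationSubring (AlgebraicClosure ℚ))
    (X : LaurentSeries ℤ) :
    coeffMap (residue A) (modelA A X) = redX A X := by
  rw [modelA, redX, coeffMap_coeffMap]
  exact coeffMap_congr (RingHom.ext_int _ _) X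

/-- a series `q⁻¹ + …` in a function field over an algebraically closed field is
transcendental -/
theorem transcendental_of_coeff_neg_one {k : Type*} [Field k] [IsAlgClosed k]
    (F : IntermediateField k (LaurentSeries k)) (f : F)
    (h : ((f : LaurentSeries k)).coeff (-1) = 1) : Transcendental k f := by
  intro halg
  obtain ⟨c, hc⟩ := Fermat.Agent.S24.FF.mem_range_of_isAlgebraic halg
  have h2 : ((f : F) : LaurentSeries k) = algebraMap k (LaurentSeries k) c := by
    rw [← hc]; rfl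
  rw [h2, ModularCurve.algebraMap_laurentSeries_eq_single,
    HahnSeries.coeff_single_of_ne (by decide)] at h
  exact zero_ne_one h

/-- **LEAF D1.** -/
theorem datumLeaf : DatumLeaf := by
  intro M ℓ _ hℓ hℓM A hA x X hX
  haveI : IsAlgClosed (ResidueField A) := Fermat.Agent.S18.H9.resAlgClosed _ A
  have hcore := H98.coreData_residueField M ℓ hℓ hℓM A hA
  have hVG : ModVG M A := H568.valueGroupHyp_modular hcore
  have hx : coeffMap A.subtype (modelA A X) ∈ modularFunctionFieldBar M := by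
    rw [coeffMap_subtype_modelA, ← hX.coe_eq]
    exact x.2
  have hxk : coeffMap (residue A) (modelA A X) ∈
      modularFunctionFieldFullC (ResidueField A) M :=
    H98.reduction_mem M ℓ hℓ hℓM A hA (modelA A X) hx
  have htr : Transcendental (ResidueField A)
      (⟨coeffMap (residue A) (modelA A X), hxk⟩ :
        modularFunctionFieldFullC (ResidueField A) M) := by
    refine transcendental_of_coeff_neg_one _ _ ?_
    show (coeffMap (residue A) (modelA A X)).coeff (-1) = 1
    rw [coeffMap_residue_modelA, redX, coeffMap_coeff, hX.coeff_neg_one, map_one]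
  refine ⟨modG hVG (modelA A X) hx hxk htr, ?_, ?_, ?_⟩
  · apply Subtype.ext
    show coeffMap A.subtype (modelA A X) = _
    rw [coeffMap_subtype_modelA, hX.coe_eq]
  · have h := modρ_ofSeries hVG (modelA A X) hx hxk
    have h' : (modG hVG (modelA A X) hx hxk htr).xk =
        ⟨coeffMap (residue A) (modelA A X), hxk⟩ := h
    rw [h']
    exact coeffMap_residue_modelA A X
  · intro y hy hyk _
    exact modG_link hVG y hy hyk

end Fermat.Agent.S37.Core

end
end
-- ===== PACK-END S37/Core/DatumLeaf.lean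

-- ===== PACK-BEGIN S37/H28/DatumM.lean
section




/-!
# S37 / node_rim (helper28): `DatumStatement` and `RimStatement`, UNCONDITIONAL, via Theorem M

`good_of_isCoordinate` : every reduction datum on `(F_M, F_{M,k})` whose coordinate is an
admissible coordinate (`Mod.IsCoordinate M ℓ x S`: `j` for `ℓ ≥ 5`, `t₂` for `ℓ = 3`, `t₃` for
`ℓ = 2`) with integral model `X` has good charts (`Red.Datum.Good`).

* (H1) = `H339.leaf_H1` (leaf D4, helper339);
* (H3) = Theorem M (`Red.H159.good_of_NC`, helper159: normality of the special fibre directly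
  over the valuation ring `A`, no model over a DVR, no `S18` node_mod) with
  (NC) = `noRamOutside_of_unramified` + `unramified_of_isCoordinate` (this directory; branch data
  of `X₀(M) → X(1)`: `S18.H107`, `S18.H24`) and `hS` = `injOn_branchA`.

Consequences: `datumStatement : Core.DatumStatement` (with leaf D1 `Core.datumLeaf`),
`rimStatement : Core.RimStatement` (= node_rim of the S37 board at all good levels), and
`result_of_s18 : Core.S18Statement → frozen S37`.
-/

set_option autoImplicit false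
set_option synthInstance.maxHeartbeats 400000
set_option linter.style.haveILetI false

noncomputable section

namespace Fermat.Agent.S37.H28

open ModularCurve ValuationSubring AlgebraicCurve HahnSeries IsLocalRing Polynomial
open Fermat.Agent.S37.Red Fermat.Agent.S37.Core Fermat.Agent.S18

/-- **Good charts** for a reduction datum with an admissible coordinate. -/
theorem good_of_isCoordinate (M ℓ : ℕ) [NeZero M] (hℓ : ℓ.Prime) (hℓM : ¬ ℓ ∣ M)
    (A : ValuationSubring (AlgebraicClosure ℚ)) (hA : A.LiesOverPrime ℓ)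
    (x : Mod.Om M) (S : Finset (Mod.Om M)) (hx : Mod.IsCoordinate M ℓ x S)
    (X : LaurentSeries ℤ) (hX : IsModelOf M x X)
    (G : Datum A (residue A) (modularFunctionFieldBar M)
      (modularFunctionFieldFullC (ResidueField A) M))
    (hGx : G.x = x)
    (hGxk : ((G.xk : modularFunctionFieldFullC (ResidueField A) M) :
      LaurentSeries (ResidueField A)) = redX A X) : G.Good := by
  classical
  haveI : IsAlgClosed (ResidueField A) := Fermat.Agent.S18.H9.resAlgClosed _ A
  obtain ⟨hf, hfk, hsep, hrk⟩ :=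
    H339.leaf_H1 M ℓ hℓ hℓM A hA x S hx X hX.coeff_neg_one hX.coe_eq G hGx hGxk
  refine H159.good_of_NC G hf hfk hsep hrk (branchA (F := Mod.Om M) A S)
    (branchA (F := Mod.Om M) A (H278.invBranch S))
    (injOn_branchA A (residue A) hℓ hx hA) (injOn_branchA_inv A (residue A) hℓ hx hA) ?_ ?_
  · rw [hGx]
    exact noRamOutside_of_unramified G x S (unramified_of_isCoordinate hx)
  · rw [hGx]
    exact noRamOutside_of_unramified G x⁻¹ _ (unramified_of_isCoordinate hx).inv

/-- **node_datum** (BOARD v3), unconditional. -/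
theorem datumStatement : DatumStatement := by
  intro M ℓ _ hℓ hℓM hg A hA
  haveI : Fact ℓ.Prime := ⟨hℓ⟩
  have h3 : ℓ = 3 → 2 ∣ M := fun h => by
    rcases hg with h5 | ⟨-, h⟩ | ⟨h2, -⟩
    · omega
    · exact h
    · omega
  have h2 : ℓ = 2 → 3 ∣ M := fun h => by
    rcases hg with h5 | ⟨h3, -⟩ | ⟨-, h⟩
    · omega
    · omega
    · exact h
  obtain ⟨x, S, hx⟩ := H333.node_coord M hℓM h3 h2
  obtain ⟨X, hX⟩ := exists_isModelOf M ℓ x S hx
  obtain ⟨G, hGx, hGxk, hlink⟩ := datumLeaf M ℓ hℓ hℓM A hA x X hX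
  exact ⟨G, good_of_isCoordinate M ℓ hℓ hℓM A hA x S hx X hX G hGx hGxk, hlink⟩

/-- **node_rim** (BOARD v3) at all good levels, unconditional. -/
theorem rimStatement : RimStatement :=
  rimStatement_of_datum datumStatement

/-- **The frozen statement S37 from S18 alone.** -/
theorem result_of_s18 (hS18 : S18Statement) (N p : ℕ) [NeZero N]
    (hcomm : ModularCurve.HeckeOperatorsCommuteBar N) :
    letI := ModularCurve.heckeModuleBar N
    ∀ (_ : SMulCommClass (AlgebraicClosure ℚ ≃ₐ[ℚ] AlgebraicClosure ℚ) ModularCurve.HeckeAlg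
      (ModularCurve.JZero N)),
      ModularCurve.SpecializationExists (K := ℚ) (L := AlgebraicClosure ℚ) N p
        (ModularCurve.JZero N) :=
  result_of_rim_s18 rimStatement hS18 N p hcomm

end Fermat.Agent.S37.H28

end
end
-- ===== PACK-END S37/H28/DatumM.lean

-- ===== PACK-BEGIN A3/H615/GrRedInst.lean
section



/-!
# Cell A3 / GR-INST: leaves RED (helper739's form) and RIM (helper19's form), UNCONDITIONAL

From `S37.H28.datumStatement` (a linked reduction datum with good charts at all good levels):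

* `GrRed.redLeaf` : `A3.H739.RedLeaf N V` for every valuation ring `V` of `Q̄` above `ℓ ∤ N`,
  `(N, ℓ)` a good level — verbatim the hypothesis `hred` of
  `A3.H739.grStatement_of_leaves_forall`;
* `GrRed.rimStatement` : `A3.GR.RimStatement A M`, same hypotheses.
-/

set_option autoImplicit false
set_option synthInstance.maxHeartbeats 400000

noncomputable section

namespace Fermat.Agent.A3.H615

open ModularCurve AlgebraicCurve

namespace GrRed

/-- **Leaf GR-RED, unconditional** (hypothesis `hred` of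
`A3.H739.grStatement_of_leaves_forall`). -/
theorem redLeaf :
    ∀ (N : ℕ) [NeZero N] (ℓ : ℕ) [Fact ℓ.Prime], ¬ ℓ ∣ N → Fermat.Agent.S19.GoodLevel N ℓ →
      ∀ V : ValuationSubring Qb, V.LiesOverPrime ℓ → Fermat.Agent.A3.H739.RedLeaf N V :=
  redLeaf_of_datumStatement Fermat.Agent.S37.H28.datumStatement

/-- **Leaf RIM of `A3/GR/Leaves.lean`, unconditional.** -/
theorem rimStatement (M : ℕ) [NeZero M] (ℓ : ℕ) [Fact ℓ.Prime] (hℓM : ¬ ℓ ∣ M)
    (hg : Fermat.Agent.S19.GoodLevel M ℓ)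
    (A : ValuationSubring Qb) (hA : A.LiesOverPrime ℓ) :
    Fermat.Agent.A3.GR.RimStatement A M :=
  rimStatement_of_datumStatement Fermat.Agent.S37.H28.datumStatement M ℓ hℓM hg A hA

end GrRed

end Fermat.Agent.A3.H615

end
end
-- ===== PACK-END A3/H615/GrRedInst.lean

-- ===== PACK-BEGIN A3/H615/GrGenus.lean
section




/-!
# Cell A3 / GR-INST, leaf GENUS from leaf ORTH (helper615)

* `GrGenus.genus_le`  : `g(F_N) ≤ g(F_{N,k})` at good levels, UNCONDITIONAL
  (`S19.H195.GenusGood.genusFF_le_of_good` for the datum of `S37.H28.datumStatement`);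
* `GrGenus.genus_ge_of_orth` : `g(F_{N,k}) ≤ g(F_N)` from `A3.H739.OrthLeaf`
  (`S19.H195.RedDatum.genusFF_le` for the reduction datum `(modO, modρ, r)`);
* `GrGenus.genusLeaf_of_orthLeaf` : `OrthLeaf N V _ → GenusLeaf N V`;
* `GrGenus.grStatement_of_orth`  : `S19.H979.GrStatement` from the leaf ORTH alone.
-/

set_option autoImplicit false
set_option synthInstance.maxHeartbeats 400000

noncomputable section

namespace Fermat.Agent.A3.H615

open ModularCurve AlgebraicCurve HahnSeries IsLocalRing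
open Fermat.Agent.S19 (GalQ IsInertiaAt GoodLevel)
open Fermat.Agent.S37.Red (Qb FN kA FNk ModVG modO modρ modFrac)
open Fermat.Agent.A3.H739

namespace GrGenus

variable {N : ℕ} [NeZero N] {V : ValuationSubring _root_.Fermat.Agent.S37.Red.Qb}

theorem inv_mem_of_notMem_nonunits {a : _root_.Fermat.Agent.S37.Red.Qb} (ha : a ∈ V) (hn : a ∉ V.nonunits) : a⁻¹ ∈ V := by
  rw [ValuationSubring.mem_nonunits_iff, not_lt] at hn
  have h1 : V.valuation a ≤ 1 := (V.valuation_le_one_iff a).mpr ha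
  have h2 : V.valuation a = 1 := le_antisymm h1 hn
  rw [← V.valuation_le_one_iff, map_inv₀, h2, inv_one]

/-- helper195's reduction datum on `(modO, modρ, r)`. -/
def redDatumMod (hVG : ModVG N V) (r : Place _root_.Fermat.Agent.S37.Red.Qb (FN N) → Place (kA V) (FNk V N))
    (hr : IsPlaceReductionModL V N r) :
    Fermat.Agent.S19.H195.RedDatum _root_.Fermat.Agent.S37.Red.Qb (FN N) (kA V) (FNk V N) where
  V := (modO hVG).toSubring
  red := modρ hVG
  r := r
  const_total := fun a => by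
    rcases V.mem_or_inv_mem a with h | h
    · exact Or.inl ((gr_algebraMap_mem hVG a).mpr h)
    · exact Or.inr ((gr_algebraMap_mem hVG _).mpr h)
  red_const := fun a h => ⟨residue V ⟨a, (gr_algebraMap_mem hVG a).mp h⟩,
    gr_red_algebraMap hVG ⟨a, (gr_algebraMap_mem hVG a).mp h⟩ h⟩
  red_const_surj := fun b => by
    obtain ⟨a, ha⟩ := residue_surjective (R := V) b
    refine ⟨(a : _root_.Fermat.Agent.S37.Red.Qb), (gr_algebraMap_mem hVG _).mpr a.2, ?_⟩
    rw [← ha]
    exact gr_red_algebraMap hVG a _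
  red_const_unit := fun a h hne => by
    have ha : a ∈ V := (gr_algebraMap_mem hVG a).mp h
    refine (gr_algebraMap_mem hVG _).mpr (inv_mem_of_notMem_nonunits ha fun hnu => hne ?_)
    have h1 := gr_red_algebraMap hVG ⟨a, ha⟩ h
    have h2 : residue V ⟨a, ha⟩ = 0 := (gr_res_eq_zero ⟨a, ha⟩).mpr hnu
    rw [h2, map_zero] at h1
    exact h1
  ord_red := fun u hu hne D hD Q => gr_div_red hVG r hr ⟨u, hu⟩ hne D hD Q

/-- **GENUS, direction `g_k ≤ g_K`**, from the leaves RED and ORTH. -/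
theorem genus_ge_of_orth {ℓ : ℕ} [Fact ℓ.Prime] (hℓN : ¬ ℓ ∣ N) (hV : V.LiesOverPrime ℓ)
    (hVG : ModVG N V) (hred : RedLeaf N V) (horth : OrthLeaf N V hVG) :
    genusFF (kA V) (FNk V N) ≤ genusFF _root_.Fermat.Agent.S37.Red.Qb (FN N) := by
  obtain ⟨r, hr, -⟩ := hred
  haveI := Fermat.Agent.Lib.RR.H864.ff1_modularFunctionFieldBar N
  haveI := Fermat.Agent.S18.H383.ff1_residue N ℓ Fact.out hℓN V hV
  refine (redDatumMod hVG r hr).genusFF_le fun D => ?_
  obtain ⟨n, b, hli, hmem, hspan, -⟩ := horth D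
  exact ⟨n, fun i => ((b i : modO hVG) : FN N), fun i => (b i).2, hmem, hspan.ge, hli⟩

/-- **GENUS, direction `g_K ≤ g_k`**, unconditional at good levels. -/
theorem genus_le (N : ℕ) [NeZero N] (ℓ : ℕ) [Fact ℓ.Prime] (hℓN : ¬ ℓ ∣ N)
    (hg : GoodLevel N ℓ) (V : ValuationSubring _root_.Fermat.Agent.S37.Red.Qb) (hV : V.LiesOverPrime ℓ) :
    genusFF _root_.Fermat.Agent.S37.Red.Qb (FN N) ≤ genusFF (kA V) (FNk V N) := by
  obtain ⟨G, hgood, -⟩ := Fermat.Agent.S37.H28.datumStatement N ℓ Fact.out hℓN hg V hV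
  haveI := Fermat.Agent.Lib.RR.H864.ff1_modularFunctionFieldBar N
  haveI := Fermat.Agent.S18.H383.ff1_residue N ℓ Fact.out hℓN V hV
  haveI : IsAlgClosed (kA V) := Fermat.Agent.S18.H9.resAlgClosed _root_.Fermat.Agent.S37.Red.Qb V
  exact Fermat.Agent.S19.H195.GenusGood.genusFF_le_of_good G hgood

/-- **Leaf GR-GENUS from leaf GR-ORTH.** -/
theorem genusLeaf_of_orthLeaf (N : ℕ) [NeZero N] (ℓ : ℕ) [Fact ℓ.Prime] (hℓN : ¬ ℓ ∣ N)
    (hg : GoodLevel N ℓ) (V : ValuationSubring _root_.Fermat.Agent.S37.Red.Qb) (hV : V.LiesOverPrime ℓ)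
    (horth : OrthLeaf N V (gr_vg N hℓN V hV)) : GenusLeaf N V :=
  le_antisymm (genus_le N ℓ hℓN hg V hV)
    (genus_ge_of_orth hℓN hV (gr_vg N hℓN V hV) (GrRed.redLeaf N ℓ hℓN hg V hV) horth)

/-- **GR from the leaf ORTH alone.** -/
theorem grStatement_of_orth
    (horth : ∀ (N : ℕ) [NeZero N] (ℓ : ℕ) [Fact ℓ.Prime] (hℓN : ¬ ℓ ∣ N), GoodLevel N ℓ →
      ∀ (V : ValuationSubring _root_.Fermat.Agent.S37.Red.Qb) (hV : V.LiesOverPrime ℓ), OrthLeaf N V (gr_vg N hℓN V hV)) :
    Fermat.Agent.S19.H979.GrStatement :=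
  grStatement_of_leaves_forall GrRed.redLeaf
    (fun N _ ℓ _ hℓN hg V hV => genusLeaf_of_orthLeaf N ℓ hℓN hg V hV (horth N ℓ hℓN hg V hV))
    horth

end GrGenus

end Fermat.Agent.A3.H615

end
end
-- ===== PACK-END A3/H615/GrGenus.lean

-- ===== PACK-BEGIN S19/Top4.lean
section





/-!
# Cell A3 (S19) — top assembly, v4: frozen S19 from the TWO open leaves

Proved on main and discharged here: ORD, FIN, CONT (`Top2`), LEVEL (`A3.H319.levelStatement`),
UNR (`H679.unrStatementH679`, helper679; backup: UA/UB/UC of helper859), RANK ONE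
(`H979.rankOneStatement`).

    S19_of_local  : LocalStatement → frozen S19
    S19_of_abs_gr : H979.AbsLocalStatement → H979.GrStatement → frozen S19

Open leaves: LOCAL-ABS (`H979.AbsLocalStatement` = the abstract local theorem of `A3/H799`) and
GR (`H979.GrStatement` = the `GoodRed` instance for `X₀(M)` at good levels).
-/

set_option autoImplicit false

namespace Fermat.Agent.S19

/-- **Top assembly v4a**: frozen S19 from LOCAL. -/
theorem S19_of_local (hlocal : LocalStatement)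
    (p : ℕ) [NeZero p] (ℓ : ℕ) [Fact ℓ.Prime] (hℓp : ¬ ℓ ∣ p) (k : ℕ) :
    FrozenConclusion p ℓ k :=
  S19_of_three H679.unrStatementH679 hlocal Fermat.Agent.A3.H319.levelStatement p ℓ hℓp k

/-- **Top assembly v4b**: frozen S19 from the two open leaves LOCAL-ABS and GR. -/
theorem S19_of_abs_gr (habs : H979.AbsLocalStatement) (hgr : H979.GrStatement)
    (p : ℕ) [NeZero p] (ℓ : ℕ) [Fact ℓ.Prime] (hℓp : ¬ ℓ ∣ p) (k : ℕ) :
    FrozenConclusion p ℓ k :=
  S19_of_local (H979.localStatement_of_abs_gr' habs hgr) p ℓ hℓp k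

end Fermat.Agent.S19

end
-- ===== PACK-END S19/Top4.lean

-- ===== PACK-BEGIN S19/Top5.lean
section




/-!
# Cell A3 (S19) — top assembly, v5: frozen S19 from GR alone

Proved on main and discharged here: everything of `Top4` and LOCAL-ABS
(`A3.H255.absLocalStatement`: the abstract local theorem of helper799's team, all leaves closed).

    S19_of_gr        : H979.GrStatement → frozen S19
    S19_of_gr_leaves : (RedLeaf, GenusLeaf, OrthLeaf of `A3/H739/GrAsm.lean`) → frozen S19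

The only open block of the cell is GR (good reduction of `X₀(M)` at good levels).
-/

set_option autoImplicit false

namespace Fermat.Agent.S19

/-- **Top assembly v5a**: frozen S19 from GR. -/
theorem S19_of_gr (hgr : H979.GrStatement)
    (p : ℕ) [NeZero p] (ℓ : ℕ) [Fact ℓ.Prime] (hℓp : ¬ ℓ ∣ p) (k : ℕ) :
    FrozenConclusion p ℓ k :=
  S19_of_abs_gr Fermat.Agent.A3.H255.absLocalStatement hgr p ℓ hℓp k

open Fermat.Agent.A3.H739 in
/-- **Top assembly v5b**: frozen S19 from the three leaves of GR. -/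
theorem S19_of_gr_leaves
    (hred : ∀ (N : ℕ) [NeZero N] (ℓ : ℕ) [Fact ℓ.Prime], ¬ ℓ ∣ N → GoodLevel N ℓ →
      ∀ V : ValuationSubring Qb, V.LiesOverPrime ℓ → RedLeaf N V)
    (hgen : ∀ (N : ℕ) [NeZero N] (ℓ : ℕ) [Fact ℓ.Prime], ¬ ℓ ∣ N → GoodLevel N ℓ →
      ∀ V : ValuationSubring Qb, V.LiesOverPrime ℓ → GenusLeaf N V)
    (horth : ∀ (N : ℕ) [NeZero N] (ℓ : ℕ) [Fact ℓ.Prime] (hℓN : ¬ ℓ ∣ N), GoodLevel N ℓ →
      ∀ (V : ValuationSubring Qb) (hV : V.LiesOverPrime ℓ), OrthLeaf N V (gr_vg N hℓN V hV))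
    (p : ℕ) [NeZero p] (ℓ : ℕ) [Fact ℓ.Prime] (hℓp : ¬ ℓ ∣ p) (k : ℕ) :
    FrozenConclusion p ℓ k :=
  S19_of_gr (grStatement_of_leaves_forall hred hgen horth) p ℓ hℓp k

end Fermat.Agent.S19

end
-- ===== PACK-END S19/Top5.lean

-- ===== PACK-BEGIN A3/H615/GrFinal.lean
section




/-!
# Cell A3 / GR: the block GR closed, and the frozen S19 conclusion (helper615)

All three leaves of helper739's assembly are on main:
RED (`GrRed.redLeaf`), GENUS from ORTH (`GrGenus.genusLeaf_of_orthLeaf`),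
ORTH (`A3.H499.orthLeaf`, helper499).  Hence `S19.H979.GrStatement` and, by `S19.S19_of_gr`
(row-lead helper15), the conclusion of the frozen statement S19.
-/

set_option autoImplicit false
set_option synthInstance.maxHeartbeats 400000

namespace Fermat.Agent.A3.H615

/-- **Block GR**: good reduction of `X₀(N)` at good levels. -/
theorem grStatement : Fermat.Agent.S19.H979.GrStatement :=
  GrGenus.grStatement_of_orth fun N _ _ _ hℓN _ V hV =>
    Fermat.Agent.A3.H499.orthLeaf N hℓN V hV (Fermat.Agent.A3.H739.gr_vg N hℓN V hV)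

/-- **The conclusion of the frozen statement S19.** -/
theorem frozenS19 (p : ℕ) [NeZero p] (ℓ : ℕ) [Fact ℓ.Prime] (hℓp : ¬ ℓ ∣ p) (k : ℕ) :
    Fermat.Agent.S19.FrozenConclusion p ℓ k :=
  Fermat.Agent.S19.S19_of_gr grStatement p ℓ hℓp k

end Fermat.Agent.A3.H615

end
-- ===== PACK-END A3/H615/GrFinal.lean

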